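/-
M43 (helper3) [(6d) / block (α)] AbsIrr3: **absolute irreducibility of two-dimensional residual
representations is invariant under equivalence and under base change of the field.**

* `span_baseChange_eq_top` : if `ρ(G)` spans `End_k W` (`W` finite free), the base changes
  `ρ(g) ⊗ K` span `End_K (K ⊗ W)`, for any field extension `K / k`.
* `eq_bot_or_eq_top_of_span_eq_top` : if `ρ(G)` spans `End_k W`, `W` is irreducible.
* `isAbsolutelyIrreducible_of_isEquiv`, `isAbsolutelyIrreducible_baseChangeAlong` for
  `ResidualGaloisRep` (the second through Burnside: `TraceRigid13.span_range_eq_top_of_absIrr`).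
-/
import Mathlib
import Fermat.Agent.ES.ALG31.TraceRigid13

set_option autoImplicit false
set_option linter.style.haveILetI false

namespace Fermat.Agent.M43.AbsIrr3

open Module TensorProduct

section Span

variable {k : Type*} [Field k] {W : Type*} [AddCommGroup W] [Module k W]
  {G : Type*} [Monoid G] (ρ : G →* End k W)

/-- base change of the span condition. -/
theorem span_baseChange_eq_top (K : Type*) [Field K] [Algebra k K] {n : Type*} [Fintype n]
    [DecidableEq n] (b : Basis n k W) (h : Submodule.span k (Set.range ρ) = ⊤) :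
    Submodule.span K (Set.range fun g => (ρ g).baseChange K) = ⊤ := by
  rw [eq_top_iff]
  intro F _
  let bK := Algebra.TensorProduct.basis K b
  have hbc : ∀ f : End k W,
      f.baseChange K ∈ Submodule.span K (Set.range fun g => (ρ g).baseChange K) := by
    intro f
    have hf : f ∈ Submodule.span k (Set.range ρ) := by rw [h]; trivial
    induction hf using Submodule.span_induction with
    | mem x hx =>
      obtain ⟨g, rfl⟩ := hx
      exact Submodule.subset_span ⟨g, rfl⟩
    | zero => rw [LinearMap.baseChange_zero]; exact Submodule.zero_mem _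
    | add x y _ _ hx hy => rw [LinearMap.baseChange_add]; exact Submodule.add_mem _ hx hy
    | smul c x _ hx =>
      rw [LinearMap.baseChange_smul, ← algebraMap_smul K c]
      exact Submodule.smul_mem _ _ hx
  have hF : F = ∑ i, ∑ j, (LinearMap.toMatrix bK bK F i j) •
      (Matrix.toLin b b (Matrix.single i j (1 : k))).baseChange K := by
    apply (LinearMap.toMatrix bK bK).injective
    have hunit : ∀ i j, LinearMap.toMatrix bK bK
        ((Matrix.toLin b b (Matrix.single i j (1 : k))).baseChange K) =
          Matrix.single i j (1 : K) := by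
      intro i j
      rw [LinearMap.toMatrix_baseChange, LinearMap.toMatrix_toLin]
      ext a c
      rw [Matrix.map_apply, Matrix.single_apply, Matrix.single_apply]
      split_ifs
      · rw [map_one]
      · rw [map_zero]
    simp only [map_sum, map_smul, hunit, Matrix.smul_single, smul_eq_mul, mul_one]
    exact Matrix.matrix_eq_sum_single _
  rw [hF]
  exact Submodule.sum_mem _ fun i _ => Submodule.sum_mem _ fun j _ =>
    Submodule.smul_mem _ _ (hbc _)

/-- a representation whose image spans the endomorphism algebra is irreducible. -/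
theorem eq_bot_or_eq_top_of_span_eq_top (h : Submodule.span k (Set.range ρ) = ⊤)
    (U : Submodule k W) (hU : ∀ g, ∀ w ∈ U, ρ g w ∈ U) : U = ⊥ ∨ U = ⊤ := by
  have hall : ∀ f : End k W, ∀ w ∈ U, f w ∈ U := by
    intro f
    have hf : f ∈ Submodule.span k (Set.range ρ) := by rw [h]; trivial
    induction hf using Submodule.span_induction with
    | mem x hx =>
      obtain ⟨g, rfl⟩ := hx
      exact hU g
    | zero => intro w _; exact Submodule.zero_mem _
    | add x y _ _ hx hy => intro w hw; exact Submodule.add_mem _ (hx w hw) (hy w hw)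
    | smul c x _ hx => intro w hw; exact Submodule.smul_mem _ _ (hx w hw)
  by_cases hbot : U = ⊥
  · exact Or.inl hbot
  right
  obtain ⟨u, huU, hu0⟩ := (Submodule.ne_bot_iff U).mp hbot
  rw [eq_top_iff]
  intro w _
  have hinj : Function.Injective (LinearMap.toSpanSingleton k W u) := by
    intro c d hcd
    have h1 : (c - d) • u = 0 := by
      rw [sub_smul]
      exact sub_eq_zero.mpr hcd
    rcases smul_eq_zero.mp h1 with h2 | h2
    · exact sub_eq_zero.mp h2
    · exact absurd h2 hu0
  obtain ⟨φ, hφ⟩ := LinearMap.exists_leftInverse_of_injective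
    (LinearMap.toSpanSingleton k W u) (LinearMap.ker_eq_bot.mpr hinj)
  have hφu : φ u = 1 := by
    have := LinearMap.congr_fun hφ 1
    simpa using this
  have := hall ((LinearMap.toSpanSingleton k W w).comp φ) u huU
  rw [LinearMap.comp_apply, hφu, LinearMap.toSpanSingleton_apply, one_smul] at this
  exact this

end Span

section Residual

variable {k : Type} [Field k]

/-- absolute irreducibility is invariant under equivalence. -/
theorem isAbsolutelyIrreducible_of_isEquiv {ρ₁ ρ₂ : ResidualGaloisRep k} (h : ρ₁.IsEquiv ρ₂)
    (h1 : ρ₁.IsAbsolutelyIrreducible) : ρ₂.IsAbsolutelyIrreducible := by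
  obtain ⟨e⟩ := h
  set K := AlgebraicClosure k with hK
  let E : (K ⊗[k] ρ₁.V) ≃ₗ[K] (K ⊗[k] ρ₂.V) := e.toLinearEquiv.baseChange k K ρ₁.V ρ₂.V
  have hE : ∀ (σ : AlgebraicClosure ℚ ≃ₐ[ℚ] AlgebraicClosure ℚ) (x : K ⊗[k] ρ₁.V),
      E ((ρ₁.ρ σ).baseChange K x) = (ρ₂.ρ σ).baseChange K (E x) := by
    intro σ x
    induction x using TensorProduct.induction_on with
    | zero => simp only [map_zero]
    | tmul c v =>
      simp only [E, LinearMap.baseChange_tmul, LinearEquiv.baseChange_tmul, e.map_apply]
    | add x y hx hy => simp only [map_add, hx, hy]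
  intro U hU
  have h2 := h1 (U.comap E.toLinearMap) (by
    intro σ x hx
    rw [Submodule.mem_comap] at hx ⊢
    show E ((ρ₁.ρ σ).baseChange K x) ∈ U
    rw [hE]
    exact hU σ _ hx)
  rcases h2 with h2 | h2
  · left
    rw [eq_bot_iff]
    intro y hy
    have : E.symm y ∈ U.comap E.toLinearMap := by
      rw [Submodule.mem_comap]
      show E (E.symm y) ∈ U
      rw [LinearEquiv.apply_symm_apply]; exact hy
    rw [h2, Submodule.mem_bot] at this
    rw [Submodule.mem_bot, ← E.apply_symm_apply y, this, map_zero]
  · right
    rw [eq_top_iff]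
    intro y _
    have : E.symm y ∈ U.comap E.toLinearMap := by rw [h2]; trivial
    rw [Submodule.mem_comap] at this
    have h3 : E (E.symm y) ∈ U := this
    rwa [LinearEquiv.apply_symm_apply] at h3

/-- absolute irreducibility is invariant under base change along a field homomorphism. -/
theorem isAbsolutelyIrreducible_baseChangeAlong {k' : Type} [Field k'] (ψ : k →+* k')
    (ρ : ResidualGaloisRep k) (h : ρ.IsAbsolutelyIrreducible) :
    (ρ.baseChangeAlong ψ).IsAbsolutelyIrreducible := by
  classical
  letI : Algebra k k' := ψ.toAlgebra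
  let b : Basis (Fin 2) k ρ.V := Module.finBasisOfFinrankEq k ρ.V ρ.finrank_eq
  have hspan : Submodule.span k (Set.range ρ.ρ) = ⊤ :=
    Fermat.Agent.ES.ALG31.TraceRigid13.span_range_eq_top_of_absIrr (ρ := ρ.ρ)
      (AlgebraicClosure k) b h
  have hspan' : Submodule.span k' (Set.range (ρ.baseChangeAlong ψ).ρ) = ⊤ :=
    span_baseChange_eq_top ρ.ρ k' b hspan
  let b' : Basis (Fin 2) k' (ρ.baseChangeAlong ψ).V := Algebra.TensorProduct.basis k' b
  have hspan'' : Submodule.span (AlgebraicClosure k')
      (Set.range ((ρ.baseChangeAlong ψ).baseChange (AlgebraicClosure k')).ρ) = ⊤ :=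
    span_baseChange_eq_top (ρ.baseChangeAlong ψ).ρ (AlgebraicClosure k') b' hspan'
  intro U hU
  exact eq_bot_or_eq_top_of_span_eq_top _ hspan'' U hU

end Residual

end Fermat.Agent.M43.AbsIrr3
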