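import Mathlib

/-!
# M43 / chapter ALG (A2): the cyclic freeness criterion

`O` a noetherian local ring, `p` a prime in its maximal ideal, `m = p ^ k`, `M` a finite `O`-module
with an `O`-linear endomorphism `δ`, `δ ^ m = 1`, `N = ∑_{j<m} δ ^ j`.

* `sub_one_pow_eq` : `(δ - 1) ^ m = p • r`;
* `cyc_nakayama` : a `δ`-stable submodule `W` with `W + (δ - 1) M = M` is `M`;
* `CR O m = O[C_m]`, `gx`, `aug`, `exists_eq_mul_of_aug_eq_zero` (`ker aug = (x - 1)`), `finrank_CR`;
* `cycHom`, `cycAlg : O[C_m] →ₐ[O] End_O M` (`x ↦ δ`), `cycMap e : O[C_m]^ι → M`;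
* `bijective_of_compare` : the comparison lemma (`Φ : F → M` equivariant, an isomorphism on the
  coinvariants, `ker (δ - 1) ≤ range N` on `M`  ⟹  `Φ` bijective);
* `cyc_criterion` : `π : M → M₀` with `ker π = range (δ - 1)`, `ker (δ - 1) ≤ range N`, `b` a basis of
  `M₀`, `π (e i) = b i`  ⟹  `cycMap e : O[C_m]^ι → M` is bijective (`M` is free over `O[C_m]` on `e`);
* `cyc_free_finrank` : then `M` is free over `O` and `finrank_O M = m * finrank_O M₀`.
-/

set_option autoImplicit false
set_option linter.unusedSectionVars false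

namespace Fermat.Agent.M43.AlgCyc5

open IsLocalRing Module

/-- the group ring `O[C_m]`. -/
abbrev CR (O : Type*) [CommRing O] (m : ℕ) : Type _ := MonoidAlgebra O (Multiplicative (ZMod m))

section Nak

variable {O : Type*} [CommRing O] {M : Type*} [AddCommGroup M] [Module O M]

/-- `(δ - 1) ^ (p ^ k) ∈ p • End` when `δ ^ (p ^ k) = 1`. -/
theorem sub_one_pow_eq {p : ℕ} (hp : p.Prime) (k : ℕ) (δ : Module.End O M) (hδ : δ ^ p ^ k = 1) :
    ∃ r : Module.End O M, (δ - 1) ^ p ^ k = (p : O) • r := by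
  obtain ⟨r, hr⟩ := (Commute.one_right (δ - 1)).exists_add_pow_prime_pow_eq hp k
  rw [sub_add_cancel, hδ, one_pow, mul_one] at hr
  refine ⟨-((δ - 1) * r), ?_⟩
  have h2 : (δ - 1) ^ p ^ k + ((p : Module.End O M) * (δ - 1) * r) = 0 := by
    have h3 : 1 + ((δ - 1) ^ p ^ k + ((p : Module.End O M) * (δ - 1) * r)) = 1 := by
      rw [← add_assoc, add_comm 1]
      exact hr.symm
    exact add_eq_left.mp h3
  rw [eq_neg_of_add_eq_zero_left h2, smul_neg, Nat.cast_smul_eq_nsmul, nsmul_eq_mul, mul_assoc]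

/-- **the cyclic Nakayama lemma.** -/
theorem cyc_nakayama [IsLocalRing O] [Module.Finite O M] {p : ℕ} (hp : p.Prime) (k : ℕ)
    (hpO : (p : O) ∈ maximalIdeal O) (δ : Module.End O M) (hδ : δ ^ p ^ k = 1)
    (W : Submodule O M) (hW : ∀ w ∈ W, δ w ∈ W) (h : W ⊔ LinearMap.range (δ - 1) = ⊤) : W = ⊤ := by
  have hn : ∀ n : ℕ, W ⊔ LinearMap.range ((δ - 1) ^ n) = ⊤ := by
    intro n
    induction n with
    | zero =>
      rw [pow_zero, Module.End.one_eq_id, LinearMap.range_id, sup_top_eq]
    | succ n ih =>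
      rw [eq_top_iff]
      intro x _
      have hx : x ∈ W ⊔ LinearMap.range (δ - 1) := by rw [h]; trivial
      obtain ⟨w, hw, y, ⟨z, rfl⟩, rfl⟩ := Submodule.mem_sup.mp hx
      have hz : z ∈ W ⊔ LinearMap.range ((δ - 1) ^ n) := by rw [ih]; trivial
      obtain ⟨w', hw', y', ⟨z', rfl⟩, rfl⟩ := Submodule.mem_sup.mp hz
      rw [map_add, ← add_assoc]
      refine Submodule.add_mem_sup (W.add_mem hw ?_) ⟨z', ?_⟩
      · rw [LinearMap.sub_apply, Module.End.one_apply]
        exact W.sub_mem (hW _ hw') hw'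
      · rw [pow_succ', Module.End.mul_apply]
  obtain ⟨r, hr⟩ := sub_one_pow_eq hp k δ hδ
  have h1 := hn (p ^ k)
  rw [eq_top_iff]
  refine Submodule.le_of_le_smul_of_le_jacobson_bot (I := maximalIdeal O) Module.Finite.fg_top
    (by rw [IsLocalRing.jacobson_eq_maximalIdeal ⊥ bot_ne_top]) ?_
  rw [← h1]
  refine sup_le le_sup_left (le_trans ?_ le_sup_right)
  rintro _ ⟨z, rfl⟩
  rw [h1, hr, LinearMap.smul_apply]
  exact Submodule.smul_mem_smul hpO trivial

end Nak

section Grp

variable {O : Type*} [CommRing O] (m : ℕ) [NeZero m]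

/-- the generator of `C_m` in `O[C_m]`. -/
noncomputable def gx : CR O m := MonoidAlgebra.of O _ (Multiplicative.ofAdd (1 : ZMod m))

/-- the augmentation of `O[C_m]`. -/
noncomputable def aug : CR O m →ₐ[O] O :=
  MonoidAlgebra.lift O O _ (1 : Multiplicative (ZMod m) →* O)

theorem of_eq_pow (g : Multiplicative (ZMod m)) :
    MonoidAlgebra.of O _ g = (gx (O := O) m) ^ (Multiplicative.toAdd g).val := by
  rw [gx, ← map_pow, ← ofAdd_nsmul, nsmul_one, ZMod.natCast_zmod_val]
  rfl

theorem gx_pow : (gx (O := O) m) ^ m = 1 := by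
  rw [gx, ← map_pow, ← ofAdd_nsmul, nsmul_one, ZMod.natCast_self, ofAdd_zero, map_one]

theorem aug_gx : aug m (gx (O := O) m) = 1 := by
  rw [aug, gx, MonoidAlgebra.lift_of]; rfl

/-- the augmentation ideal of `O[C_m]` is generated by `x - 1`. -/
theorem exists_eq_mul_of_aug_eq_zero (r : CR O m) (hr : aug m r = 0) :
    ∃ s : CR O m, r = (gx m - 1) * s := by
  have key : ∀ r : CR O m, ∃ s : CR O m, r - algebraMap O _ (aug m r) = (gx m - 1) * s := by
    intro r
    induction r using MonoidAlgebra.induction_on with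
    | of g =>
      refine ⟨∑ i ∈ Finset.range (Multiplicative.toAdd g).val, gx m ^ i, ?_⟩
      rw [mul_geom_sum, of_eq_pow, map_pow, aug_gx, one_pow, map_one]
    | add f g hf hg =>
      obtain ⟨s, hs⟩ := hf
      obtain ⟨t, ht⟩ := hg
      exact ⟨s + t, by rw [mul_add, ← hs, ← ht, map_add, map_add]; ring⟩
    | smul c f hf =>
      obtain ⟨s, hs⟩ := hf
      exact ⟨c • s, by
        rw [mul_smul_comm, ← hs, map_smul, smul_sub, smul_eq_mul, map_mul,
          Algebra.smul_def c (algebraMap O _ _)]⟩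
  obtain ⟨s, hs⟩ := key r
  rw [hr, map_zero, sub_zero] at hs
  exact ⟨s, hs⟩

theorem finrank_CR [Nontrivial O] : Module.finrank O (CR O m) = m := by
  rw [Module.finrank_eq_card_basis (MonoidAlgebra.basis (Multiplicative (ZMod m)) O)]
  simp

end Grp

section Act

variable {O : Type*} [CommRing O] {M : Type*} [AddCommGroup M] [Module O M] (m : ℕ) [NeZero m]
  (δ : Module.End O M) (hδ : δ ^ m = 1)

include hδ in
theorem pow_mod_eq (n : ℕ) : δ ^ (n % m) = δ ^ n := by
  conv_rhs => rw [← Nat.div_add_mod n m, pow_add, pow_mul, hδ, one_pow, one_mul]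

/-- the action of the cyclic group of order `m` through `δ`. -/
def cycHom : Multiplicative (ZMod m) →* Module.End O M where
  toFun g := δ ^ (Multiplicative.toAdd g).val
  map_one' := by simp
  map_mul' a b := by
    rw [toAdd_mul, ZMod.val_add, pow_mod_eq m δ hδ, pow_add]

/-- the action of the group ring `O[C_m]`. -/
noncomputable def cycAlg : CR O m →ₐ[O] Module.End O M :=
  MonoidAlgebra.lift O _ _ (cycHom m δ hδ)

theorem cycAlg_of (g : Multiplicative (ZMod m)) :
    cycAlg m δ hδ (MonoidAlgebra.of O _ g) = δ ^ (Multiplicative.toAdd g).val := by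
  rw [cycAlg, MonoidAlgebra.lift_of]
  rfl

theorem cycAlg_gx : cycAlg m δ hδ (gx m) = δ := by
  rw [gx, cycAlg_of]
  show δ ^ (1 : ZMod m).val = δ
  rw [ZMod.val_one_eq_one_mod, pow_mod_eq m δ hδ, pow_one]

end Act

section Cmp

variable {O : Type*} [CommRing O] [IsLocalRing O] [IsNoetherianRing O]
  {F M M₀ : Type*} [AddCommGroup F] [Module O F] [Module.Finite O F]
  [AddCommGroup M] [Module O M] [Module.Finite O M] [AddCommGroup M₀] [Module O M₀]

/-- **the comparison lemma.** -/
theorem bijective_of_compare {p : ℕ} (hp : p.Prime) (k : ℕ) (hpO : (p : O) ∈ maximalIdeal O)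
    (x : Module.End O F) (hx : x ^ p ^ k = 1) (δ : Module.End O M) (hδ : δ ^ p ^ k = 1)
    (Φ : F →ₗ[O] M) (hΦ : ∀ a, Φ (x a) = δ (Φ a))
    (π : M →ₗ[O] M₀) (hker : LinearMap.ker π = LinearMap.range (δ - 1))
    (h1 : ∀ a : F, π (Φ a) = 0 → a ∈ LinearMap.range (x - 1))
    (h2 : ∀ y : M, ∃ a : F, π (Φ a) = π y)
    (hN : LinearMap.ker (δ - 1) ≤ LinearMap.range (∑ j ∈ Finset.range (p ^ k), δ ^ j)) :
    Function.Bijective Φ := by
  -- surjectivity
  have hsurj : Function.Surjective Φ := by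
    rw [← LinearMap.range_eq_top]
    refine cyc_nakayama hp k hpO δ hδ _ ?_ ?_
    · rintro _ ⟨a, rfl⟩
      exact ⟨x a, hΦ a⟩
    · rw [eq_top_iff]
      intro y _
      obtain ⟨a, ha⟩ := h2 y
      have : y - Φ a ∈ LinearMap.ker π := by
        rw [LinearMap.mem_ker, map_sub, ha, sub_self]
      rw [hker] at this
      have h3 : y = Φ a + (y - Φ a) := by abel
      rw [h3]
      exact Submodule.add_mem_sup ⟨a, rfl⟩ this
  refine ⟨?_, hsurj⟩
  -- the kernel
  have hpowΦ : ∀ (j : ℕ) (a : F), Φ ((x ^ j) a) = (δ ^ j) (Φ a) := by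
    intro j
    induction j with
    | zero => intro a; simp
    | succ j ih =>
      intro a
      rw [pow_succ', Module.End.mul_apply, hΦ, ih, pow_succ', Module.End.mul_apply]
  have hNx : (x - 1) * ∑ j ∈ Finset.range (p ^ k), x ^ j = 0 := by
    rw [mul_geom_sum, hx, sub_self]
  -- `K = (x - 1) K`
  let K : Submodule O F := LinearMap.ker Φ
  have hxK : ∀ a ∈ K, x a ∈ K := by
    intro a ha
    rw [LinearMap.mem_ker] at ha ⊢
    rw [hΦ, ha, map_zero]
  let xK : Module.End O K := x.restrict hxK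
  have hxKpow : ∀ j : ℕ, ∀ a : K, (((xK ^ j) a : K) : F) = (x ^ j) (a : F) := by
    intro j
    induction j with
    | zero => intro a; simp
    | succ j ih =>
      intro a
      rw [pow_succ', Module.End.mul_apply, pow_succ', Module.End.mul_apply, ← ih]
      rfl
  have hxK1 : xK ^ p ^ k = 1 := by
    ext a
    rw [hxKpow, hx]
    rfl
  have hKtop : (⊥ : Submodule O K) = ⊤ := by
    refine cyc_nakayama hp k hpO xK hxK1 ⊥ ?_ ?_
    · intro w hw
      rw [Submodule.mem_bot] at hw ⊢
      rw [hw, map_zero]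
    · rw [bot_sup_eq, eq_top_iff]
      rintro ⟨r, hr⟩ _
      have hr' : Φ r = 0 := hr
      obtain ⟨s, hs⟩ := h1 r (by rw [hr', map_zero])
      -- `(δ - 1) (Φ s) = 0`
      have h4 : Φ s ∈ LinearMap.ker (δ - 1) := by
        rw [LinearMap.mem_ker, LinearMap.sub_apply, Module.End.one_apply, ← hΦ, ← map_sub]
        have : x s - s = (x - 1) s := by rw [LinearMap.sub_apply, Module.End.one_apply]
        rw [this, hs, hr']
      obtain ⟨u, hu⟩ := hN h4
      obtain ⟨t, rfl⟩ := hsurj u
      -- `s' = s - N t`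
      have h5 : s - (∑ j ∈ Finset.range (p ^ k), x ^ j) t ∈ K := by
        rw [LinearMap.mem_ker, map_sub, LinearMap.sum_apply, map_sum, ← hu, LinearMap.sum_apply]
        rw [sub_eq_zero]
        exact Finset.sum_congr rfl fun j _ => (hpowΦ j t).symm
      refine ⟨⟨_, h5⟩, ?_⟩
      apply Subtype.ext
      rw [LinearMap.sub_apply, Module.End.one_apply]
      show x (s - (∑ j ∈ Finset.range (p ^ k), x ^ j) t) -
        (s - (∑ j ∈ Finset.range (p ^ k), x ^ j) t) = r
      have h6 : (x - 1) ((∑ j ∈ Finset.range (p ^ k), x ^ j) t) = 0 := by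
        rw [← Module.End.mul_apply, hNx, LinearMap.zero_apply]
      rw [LinearMap.sub_apply, Module.End.one_apply] at h6 hs
      rw [map_sub, ← hs]
      have : x ((∑ j ∈ Finset.range (p ^ k), x ^ j) t) =
          (∑ j ∈ Finset.range (p ^ k), x ^ j) t := sub_eq_zero.mp h6
      rw [this]
      abel
  rw [← LinearMap.ker_eq_bot, eq_bot_iff]
  intro a ha
  have : (⟨a, ha⟩ : K) ∈ (⊥ : Submodule O K) := by rw [hKtop]; trivial
  rw [Submodule.mem_bot] at this
  rw [Submodule.mem_bot]
  exact congrArg Subtype.val this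

end Cmp

section Crit

variable {O : Type*} [CommRing O] [IsLocalRing O] [IsNoetherianRing O]
  {M M₀ : Type*} [AddCommGroup M] [Module O M] [Module.Finite O M] [AddCommGroup M₀] [Module O M₀]
  {ι : Type*} [Fintype ι] (m : ℕ) [NeZero m] (δ : Module.End O M) (hδ : δ ^ m = 1)

/-- the map `O[C_m]^ι → M`, `a ↦ ∑ i, a i • e i`. -/
noncomputable def cycMap (e : ι → M) : (ι → CR O m) →ₗ[O] M :=
  ∑ i, (LinearMap.applyₗ (e i)) ∘ₗ (cycAlg m δ hδ).toLinearMap ∘ₗ (LinearMap.proj i)

theorem cycMap_apply (e : ι → M) (a : ι → CR O m) :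
    cycMap m δ hδ e a = ∑ i, cycAlg m δ hδ (a i) (e i) := by
  rw [cycMap, LinearMap.sum_apply]
  rfl

/-- multiplication by the generator on `O[C_m]^ι`. -/
noncomputable def shiftF (ι : Type*) (O : Type*) [CommRing O] (m : ℕ) [NeZero m] :
    Module.End O (ι → CR O m) where
  toFun a i := gx m * a i
  map_add' a b := by funext i; simp [mul_add]
  map_smul' c a := by funext i; simp

theorem shiftF_apply (a : ι → CR O m) (i : ι) : shiftF ι O m a i = gx m * a i := rfl

theorem shiftF_pow (j : ℕ) (a : ι → CR O m) (i : ι) :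
    ((shiftF ι O m) ^ j) a i = gx m ^ j * a i := by
  induction j generalizing a with
  | zero => simp
  | succ j ih =>
    rw [pow_succ, Module.End.mul_apply, ih, pow_succ, mul_assoc]
    rfl

theorem proj_cycAlg (π : M →ₗ[O] M₀) (hπ : ∀ y, π (δ y) = π y) (r : CR O m) (y : M) :
    π (cycAlg m δ hδ r y) = aug m r • π y := by
  induction r using MonoidAlgebra.induction_on with
  | of g =>
    have h1 : ∀ j : ℕ, π ((δ ^ j) y) = π y := by
      intro j
      induction j with
      | zero => simp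
      | succ j ih => rw [pow_succ', Module.End.mul_apply, hπ, ih]
    rw [cycAlg_of, aug, MonoidAlgebra.lift_of, h1]
    show π y = (1 : O) • π y
    rw [one_smul]
  | add f g hf hg => rw [map_add, LinearMap.add_apply, map_add, hf, hg, map_add, add_smul]
  | smul c f hf =>
    rw [map_smul, LinearMap.smul_apply, map_smul, hf, map_smul, smul_eq_mul, mul_smul]

/-- **the cyclic freeness criterion.** -/
theorem cyc_criterion {p : ℕ} (hp : p.Prime) (k : ℕ) (hpO : (p : O) ∈ maximalIdeal O)
    (hm : m = p ^ k) (π : M →ₗ[O] M₀) (hker : LinearMap.ker π = LinearMap.range (δ - 1))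
    (hN : LinearMap.ker (δ - 1) ≤ LinearMap.range (∑ j ∈ Finset.range m, δ ^ j))
    (b : Module.Basis ι O M₀) (e : ι → M) (he : ∀ i, π (e i) = b i) :
    Function.Bijective (cycMap m δ hδ e) := by
  subst hm
  have hπ : ∀ y, π (δ y) = π y := by
    intro y
    have : (δ - 1) y ∈ LinearMap.ker π := by rw [hker]; exact ⟨y, rfl⟩
    rw [LinearMap.mem_ker, LinearMap.sub_apply, Module.End.one_apply, map_sub, sub_eq_zero] at this
    exact this
  have hπΦ : ∀ a : ι → CR O (p ^ k),
      π (cycMap (p ^ k) δ hδ e a) = ∑ i, aug (p ^ k) (a i) • b i := by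
    intro a
    rw [cycMap_apply, map_sum]
    exact Finset.sum_congr rfl fun i _ => by rw [proj_cycAlg (p ^ k) δ hδ π hπ, he]
  refine bijective_of_compare hp k hpO (shiftF ι O (p ^ k)) ?_ δ hδ _ ?_ π hker ?_ ?_ hN
  · ext a i
    rw [shiftF_pow, gx_pow, one_mul]
    rfl
  · intro a
    rw [cycMap_apply, cycMap_apply, map_sum]
    refine Finset.sum_congr rfl fun i _ => ?_
    rw [shiftF_apply, map_mul, cycAlg_gx, Module.End.mul_apply]
  · intro a ha
    rw [hπΦ] at ha
    have h0 := Fintype.linearIndependent_iff.mp b.linearIndependent _ ha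
    choose s hs using fun i => exists_eq_mul_of_aug_eq_zero (p ^ k) (a i) (h0 i)
    refine ⟨s, ?_⟩
    funext i
    rw [LinearMap.sub_apply, Module.End.one_apply, Pi.sub_apply, hs i, sub_mul, one_mul]
    rfl
  · intro y
    refine ⟨fun i => algebraMap O _ (b.repr (π y) i), ?_⟩
    rw [hπΦ]
    conv_rhs => rw [← b.sum_repr (π y)]
    exact Finset.sum_congr rfl fun i _ => by rw [AlgHom.commutes]; rfl

include hδ in
/-- **freeness over `O` and the rank formula.** -/
theorem cyc_free_finrank [Module.Free O M₀] [Module.Finite O M₀] {p : ℕ} (hp : p.Prime) (k : ℕ)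
    (hpO : (p : O) ∈ maximalIdeal O) (hm : m = p ^ k) (π : M →ₗ[O] M₀)
    (hπs : Function.Surjective π) (hker : LinearMap.ker π = LinearMap.range (δ - 1))
    (hN : LinearMap.ker (δ - 1) ≤ LinearMap.range (∑ j ∈ Finset.range m, δ ^ j)) :
    Module.Free O M ∧ Module.finrank O M = m * Module.finrank O M₀ := by
  let b := Module.Free.chooseBasis O M₀
  choose e he using fun i => hπs (b i)
  have hbij := cyc_criterion m δ hδ hp k hpO hm π hker hN b e he
  let E : (Module.Free.ChooseBasisIndex O M₀ → CR O m) ≃ₗ[O] M := LinearEquiv.ofBijective _ hbij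
  refine ⟨Module.Free.of_equiv E, ?_⟩
  rw [← E.finrank_eq, Module.finrank_pi_fintype, Finset.sum_const, finrank_CR, smul_eq_mul,
    Finset.card_univ, Module.finrank_eq_card_chooseBasisIndex, mul_comm]

end Crit

end Fermat.Agent.M43.AlgCyc5
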