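import Mathlib
import Fermat.Agent.M43.AlgCyc5

/-!
# M43 / chapter ALG (A4): towers of cyclic steps, the rank count and the final freeness criterion

`O` a noetherian local ring, `p` a prime in its maximal ideal; `𝔓` a commutative `O`-algebra (the
Hecke polynomial ring); all modules are `𝔓`-modules, finite over `O`.

* `Coinv O π D n` (`π : M →ₗ[𝔓] M₀`, `D` a set of `𝔓`-linear endomorphisms of `M`): `π` is onto,
  `ker π = ∑_{c ∈ D} range (c - 1)`, `M` is free over `O` of rank `n * rank M₀`, and the NAKAYAMA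
  property: an `O`-submodule `W` stable under `D` with `W + ker π = M` is `M`;
* `Coinv.refl` : the base case (`π` bijective, `D = ∅`, `n = 1`);
* `Coinv.step` : composition with a CYCLIC STEP `cores : M₂ → M₁` (`ker cores = range (δ - 1)`,
  `ker (δ - 1) ≤ range N_δ`, `δ ^ m = 1`, `m = p ^ k`): `Coinv O π₁ D₁ n₁ → Coinv O (π₁ ∘ cores) D₂
  (m * n₁)` when `δ ∈ D₂`, every `c₂ ∈ D₂` descends to an element of `D₁ ∪ {1}` and every `c₁ ∈ D₁`
  lifts to `D₂`;
* `Coinv.bijective` : **the final criterion**: a finite group `G` with `|G| = n` acting on `M`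
  through `ρ : Representation O G M` whose image contains `D`; `b` a basis of `M₀`, `π (e i) = b i`:
  then `O[G]^ι → M`, `f ↦ ∑ i, f i • e i` is bijective.
-/

set_option autoImplicit false
set_option linter.unusedSectionVars false

namespace Fermat.Agent.M43.AlgTower5

open IsLocalRing Module Fermat.Agent.M43.AlgCyc5

variable {O : Type*} [CommRing O] {𝔓 : Type*} [CommRing 𝔓] [Algebra O 𝔓]

section Defs

variable {M M₀ : Type*} [AddCommGroup M] [Module O M] [Module 𝔓 M] [IsScalarTower O 𝔓 M]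
  [AddCommGroup M₀] [Module O M₀] [Module 𝔓 M₀] [IsScalarTower O 𝔓 M₀]

variable (O) in
/-- **the invariant of a tower.** -/
structure Coinv (π : M →ₗ[𝔓] M₀) (D : Set (Module.End 𝔓 M)) (n : ℕ) : Prop where
  surj : Function.Surjective π
  ker_eq : LinearMap.ker π = ⨆ c ∈ D, LinearMap.range (c - 1)
  free : Module.Free O M
  finrank_eq : Module.finrank O M = n * Module.finrank O M₀
  nak : ∀ W : Submodule O M, (∀ c ∈ D, ∀ w ∈ W, c w ∈ W) →
    W ⊔ (LinearMap.ker π).restrictScalars O = ⊤ → W = ⊤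

/-- the base case. -/
theorem Coinv.refl [Module.Free O M] (π : M →ₗ[𝔓] M₀) (hπ : Function.Bijective π) :
    Coinv O π (∅ : Set (Module.End 𝔓 M)) 1 where
  surj := hπ.2
  ker_eq := by
    rw [LinearMap.ker_eq_bot.mpr hπ.1]
    simp
  free := inferInstance
  finrank_eq := by
    rw [one_mul]
    exact LinearEquiv.finrank_eq ((LinearEquiv.ofBijective π hπ).restrictScalars O)
  nak W _ h := by
    rw [LinearMap.ker_eq_bot.mpr hπ.1] at h
    simpa using h

end Defs

section Step

variable [IsLocalRing O] [IsNoetherianRing O]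
  {M₂ M₁ M₀ : Type*} [AddCommGroup M₂] [Module O M₂] [Module 𝔓 M₂] [IsScalarTower O 𝔓 M₂]
  [Module.Finite O M₂]
  [AddCommGroup M₁] [Module O M₁] [Module 𝔓 M₁] [IsScalarTower O 𝔓 M₁]
  [AddCommGroup M₀] [Module O M₀] [Module 𝔓 M₀] [IsScalarTower O 𝔓 M₀]
  [Module.Free O M₀] [Module.Finite O M₀]

/-- **composition with a cyclic step.** -/
theorem Coinv.step {p : ℕ} (hp : p.Prime) (k : ℕ) (hpO : (p : O) ∈ maximalIdeal O)
    {π₁ : M₁ →ₗ[𝔓] M₀} {D₁ : Set (Module.End 𝔓 M₁)} {n₁ : ℕ} (h₁ : Coinv O π₁ D₁ n₁)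
    (cores : M₂ →ₗ[𝔓] M₁) (hc : Function.Surjective cores)
    (m : ℕ) [NeZero m] (hm : m = p ^ k) (δ : Module.End 𝔓 M₂) (hδ : δ ^ m = 1)
    (hker : LinearMap.ker cores = LinearMap.range (δ - 1))
    (hN : LinearMap.ker (δ - 1) ≤ LinearMap.range (∑ j ∈ Finset.range m, δ ^ j))
    (D₂ : Set (Module.End 𝔓 M₂)) (hδD : δ ∈ D₂)
    (hdown : ∀ c₂ ∈ D₂, ∃ c₁ : Module.End 𝔓 M₁, (c₁ ∈ D₁ ∨ c₁ = 1) ∧
      cores ∘ₗ c₂ = c₁ ∘ₗ cores)
    (hup : ∀ c₁ ∈ D₁, ∃ c₂ ∈ D₂, cores ∘ₗ c₂ = c₁ ∘ₗ cores) :
    Coinv O (π₁ ∘ₗ cores) D₂ (m * n₁) := by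
  haveI : Module.Finite O M₁ := Module.Finite.of_surjective (cores.restrictScalars O) hc
  haveI : Module.Free O M₁ := h₁.free
  -- the `O`-linear data of the cyclic step
  let δO : Module.End O M₂ := δ.restrictScalars O
  have hδO : δO ^ m = 1 := by
    have : ∀ j : ℕ, δO ^ j = (δ ^ j).restrictScalars O := by
      intro j
      induction j with
      | zero => rfl
      | succ j ih => rw [pow_succ, ih, pow_succ]; rfl
    rw [this, hδ]
    rfl
  have hpowO : ∀ j : ℕ, ∀ y, (δO ^ j) y = (δ ^ j) y := by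
    intro j
    induction j with
    | zero => intro y; rfl
    | succ j ih => intro y; rw [pow_succ', pow_succ', Module.End.mul_apply, Module.End.mul_apply, ih]; rfl
  have hkerO : LinearMap.ker (cores.restrictScalars O) = LinearMap.range (δO - 1) := by
    ext y
    have h1 : y ∈ LinearMap.ker cores ↔ y ∈ LinearMap.range (δ - 1) := by rw [hker]
    rw [LinearMap.mem_ker, LinearMap.mem_range] at h1
    rw [LinearMap.mem_ker, LinearMap.mem_range]
    exact h1
  have hNO : LinearMap.ker (δO - 1) ≤ LinearMap.range (∑ j ∈ Finset.range m, δO ^ j) := by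
    intro y hy
    have h1 : y ∈ LinearMap.ker (δ - 1) := hy
    obtain ⟨z, hz⟩ := hN h1
    refine ⟨z, ?_⟩
    rw [← hz, LinearMap.sum_apply, LinearMap.sum_apply]
    exact Finset.sum_congr rfl fun j _ => hpowO j z
  obtain ⟨hfree, hrank⟩ := cyc_free_finrank m δO hδO hp k hpO hm (cores.restrictScalars O) hc hkerO hNO
  -- the kernel
  have hkerle : LinearMap.ker cores ≤ ⨆ c ∈ D₂, LinearMap.range (c - 1) := by
    rw [hker]
    exact le_iSup₂_of_le δ hδD le_rfl
  refine ⟨h₁.surj.comp hc, ?_, hfree, ?_, ?_⟩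
  · rw [LinearMap.ker_comp, h₁.ker_eq]
    apply le_antisymm
    · have h2 : (⨆ c ∈ D₁, LinearMap.range (c - 1)) ≤
          Submodule.map cores (⨆ c ∈ D₂, LinearMap.range (c - 1)) := by
        refine iSup₂_le fun c₁ hc₁ => ?_
        obtain ⟨c₂, hc₂, hcc⟩ := hup c₁ hc₁
        rintro _ ⟨y, rfl⟩
        obtain ⟨z, rfl⟩ := hc y
        refine ⟨(c₂ - 1) z, ?_, ?_⟩
        · exact (le_iSup₂_of_le c₂ hc₂ le_rfl : LinearMap.range (c₂ - 1) ≤ _) ⟨z, rfl⟩
        · have := LinearMap.congr_fun hcc z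
          simp only [LinearMap.comp_apply] at this
          rw [LinearMap.sub_apply, LinearMap.sub_apply, Module.End.one_apply, Module.End.one_apply,
            map_sub, this]
      refine (Submodule.comap_mono h2).trans ?_
      rw [Submodule.comap_map_eq]
      exact sup_le le_rfl hkerle
    · refine iSup₂_le fun c₂ hc₂ => ?_
      rintro _ ⟨y, rfl⟩
      obtain ⟨c₁, hc₁, hcc⟩ := hdown c₂ hc₂
      have := LinearMap.congr_fun hcc y
      simp only [LinearMap.comp_apply] at this
      rw [Submodule.mem_comap, LinearMap.sub_apply, Module.End.one_apply, map_sub, this]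
      rcases hc₁ with hc₁ | rfl
      · have h3 : (c₁ - 1) (cores y) ∈ ⨆ c ∈ D₁, LinearMap.range (c - 1) :=
          (le_iSup₂_of_le c₁ hc₁ le_rfl : LinearMap.range (c₁ - 1) ≤ _) ⟨cores y, rfl⟩
        rwa [LinearMap.sub_apply, Module.End.one_apply] at h3
      · rw [Module.End.one_apply, sub_self]
        exact Submodule.zero_mem _
  · rw [hrank, h₁.finrank_eq, mul_assoc]
  · intro W hW hsup
    -- the image of `W` in `M₁`
    have h4 : Submodule.map (cores.restrictScalars O) W = ⊤ := by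
      refine h₁.nak _ ?_ ?_
      · rintro c₁ hc₁ _ ⟨w, hw, rfl⟩
        obtain ⟨c₂, hc₂, hcc⟩ := hup c₁ hc₁
        refine ⟨c₂ w, hW c₂ hc₂ w hw, ?_⟩
        have := LinearMap.congr_fun hcc w
        simp only [LinearMap.comp_apply] at this
        exact this
      · rw [eq_top_iff]
        intro y _
        obtain ⟨z, rfl⟩ := hc y
        have hz : z ∈ W ⊔ (LinearMap.ker (π₁ ∘ₗ cores)).restrictScalars O := by rw [hsup]; trivial
        obtain ⟨w, hw, u, hu, rfl⟩ := Submodule.mem_sup.mp hz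
        rw [map_add]
        refine Submodule.add_mem_sup ⟨w, hw, rfl⟩ ?_
        have hu' : π₁ (cores u) = 0 := hu
        exact hu'
    refine cyc_nakayama hp k hpO δO (hm ▸ hδO) W (fun w hw => hW δ hδD w hw) ?_
    rw [← hkerO, eq_top_iff]
    intro y _
    have hy : (cores.restrictScalars O) y ∈ Submodule.map (cores.restrictScalars O) W := by
      rw [h4]; trivial
    obtain ⟨w, hw, hwy⟩ := hy
    have h5 : y = w + (y - w) := by abel
    rw [h5]
    refine Submodule.add_mem_sup hw ?_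
    rw [LinearMap.mem_ker, map_sub, hwy, sub_self]

end Step

section GrpMap

variable {M : Type*} [AddCommGroup M] [Module O M] {G : Type*} [Group G] {ι : Type*} [Fintype ι]

/-- the map `O[G]^ι → M`, `f ↦ ∑ i, f i • e i`. -/
noncomputable def grpMap (ρ : Representation O G M) (e : ι → M) :
    (ι → MonoidAlgebra O G) →ₗ[O] M :=
  ∑ i, (LinearMap.applyₗ (e i)) ∘ₗ ρ.asAlgebraHom.toLinearMap ∘ₗ (LinearMap.proj i)

theorem grpMap_apply (ρ : Representation O G M) (e : ι → M) (f : ι → MonoidAlgebra O G) :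
    grpMap ρ e f = ∑ i, ρ.asAlgebraHom (f i) (e i) := by
  rw [grpMap, LinearMap.sum_apply]
  rfl

theorem finrank_monoidAlgebra [Nontrivial O] [Fintype G] :
    Module.finrank O (MonoidAlgebra O G) = Fintype.card G := by
  rw [Module.finrank_eq_card_basis (MonoidAlgebra.basis G O)]

instance finite_monoidAlgebra [Fintype G] : Module.Finite O (MonoidAlgebra O G) :=
  Module.Finite.of_basis (MonoidAlgebra.basis G O)

end GrpMap

section Final

variable [Nontrivial O]
  {M M₀ : Type*} [AddCommGroup M] [Module O M] [Module 𝔓 M] [IsScalarTower O 𝔓 M]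
  [Module.Finite O M]
  [AddCommGroup M₀] [Module O M₀] [Module 𝔓 M₀] [IsScalarTower O 𝔓 M₀]
  {G : Type*} [Group G] [Fintype G] {ι : Type*} [Fintype ι]

/-- **the final freeness criterion.** -/
theorem Coinv.bijective {π : M →ₗ[𝔓] M₀} {D : Set (Module.End 𝔓 M)} {n : ℕ} (h : Coinv O π D n)
    (ρ : Representation O G M) (hD : ∀ c ∈ D, ∃ g : G, ∀ y, ρ g y = c y)
    (hn : Fintype.card G = n) (b : Module.Basis ι O M₀) (e : ι → M) (he : ∀ i, π (e i) = b i) :
    Function.Bijective (grpMap ρ e) := by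
  have hsurj : Function.Surjective (grpMap ρ e) := by
    rw [← LinearMap.range_eq_top]
    refine h.nak _ ?_ ?_
    · rintro c hc _ ⟨f, rfl⟩
      obtain ⟨g, hg⟩ := hD c hc
      refine ⟨fun i => MonoidAlgebra.of O G g * f i, ?_⟩
      rw [← hg, grpMap_apply, grpMap_apply, map_sum]
      refine Finset.sum_congr rfl fun i _ => ?_
      rw [map_mul, Representation.asAlgebraHom_of, Module.End.mul_apply]
    · rw [eq_top_iff]
      intro y _
      have h1 : π (grpMap ρ e (fun i => algebraMap O _ (b.repr (π y) i))) = π y := by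
        rw [grpMap_apply, map_sum]
        conv_rhs => rw [← b.sum_repr (π y)]
        refine Finset.sum_congr rfl fun i _ => ?_
        rw [AlgHom.commutes, Module.algebraMap_end_apply, LinearMap.map_smul_of_tower, he]
      have h2 : y = grpMap ρ e (fun i => algebraMap O _ (b.repr (π y) i)) +
          (y - grpMap ρ e (fun i => algebraMap O _ (b.repr (π y) i))) := by abel
      rw [h2]
      refine Submodule.add_mem_sup ⟨_, rfl⟩ ?_
      show _ ∈ LinearMap.ker π
      rw [LinearMap.mem_ker, map_sub, h1, sub_self]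
  haveI : Module.Free O M := h.free
  refine OrzechProperty.bijective_of_surjective_of_finrank_le _ hsurj (le_of_eq ?_)
  rw [h.finrank_eq, Module.finrank_pi_fintype, Finset.sum_const, finrank_monoidAlgebra,
    smul_eq_mul, Finset.card_univ, Module.finrank_eq_card_basis b, hn, mul_comm]

end Final

end Fermat.Agent.M43.AlgTower5
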