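import Mathlib
import Fermat.Agent.M43.AlgTower5

/-!
# M43 / chapter ALG (A6): the unit part of a free `O[G]`-module

`x` an operator on the Hecke lattices, `𝔓⁺ = 𝔓[X]` acting with `X ↦ x`, `𝔪⁺₀ = (𝔪, X)`;
`L = L_𝔪(P)`, `L' = L_{𝔪⁺₀}(P)` (the part where `x` is topologically nilpotent), `loc : L → L'`.
The UNIT PART of `L` is `ker loc`.

* `asAlgebraHom_comm` : an equivariant map commutes with the action of the group ring;
* `bijective_of_ker` : **(A6)** if `(e, e'')` is an `O[G]`-basis of `L`, `loc (e i) = 0`, `loc` is onto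
  and equivariant and `L'` is free over `O` of rank `|G| * #e''`, then `e` is an `O[G]`-basis of
  `ker loc` (`grpMap ρ e` is injective with range `ker loc`);
* `exists_lift_ker` : `c : L → L₀` onto, `loc₀ : L₀ → L₀'` a localisation at `S`, the elements of `S`
  acting surjectively on the finite module `L'`: every element of `ker loc₀` has a lift in `ker loc`;
* `surjective_smul_ker`, `bijective_smul_ker` : **(F1)** `X` is bijective on `ker loc`;
* `le_ker_of_bijective` : **(F2)** an `O`-finite-free `X`-stable `W ≤ L` on which `X` is bijective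
  lies in `ker loc`; `ker_eq_of_bijective` : if moreover `X L ⊆ W` then `ker loc = W`.
-/

set_option autoImplicit false
set_option linter.unusedSectionVars false
set_option linter.style.haveILetI false

namespace Fermat.Agent.M43.AlgFit5

open Fermat.Agent.M43.AlgTower5

section Basis

variable {O : Type*} [CommRing O] [Nontrivial O] {G : Type*} [Group G] [Fintype G]
  {L L' : Type*} [AddCommGroup L] [Module O L] [AddCommGroup L'] [Module O L']

/-- an equivariant map commutes with the action of the group ring. -/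
theorem asAlgebraHom_comm (ρ : Representation O G L) (ρ' : Representation O G L')
    (loc : L →ₗ[O] L') (heq : ∀ g y, loc (ρ g y) = ρ' g (loc y)) (r : MonoidAlgebra O G) (y : L) :
    loc (ρ.asAlgebraHom r y) = ρ'.asAlgebraHom r (loc y) := by
  induction r using MonoidAlgebra.induction_on with
  | of g => rw [Representation.asAlgebraHom_of, Representation.asAlgebraHom_of, heq]
  | add f g hf hg => rw [map_add, map_add, LinearMap.add_apply, LinearMap.add_apply, map_add, hf, hg]
  | smul c f hf => rw [map_smul, map_smul, LinearMap.smul_apply, LinearMap.smul_apply, map_smul, hf]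

variable [Module.Finite O L'] [Module.Free O L']

/-- **(A6)** the unit part of a free `O[G]`-module is free on the basis elements lying in it. -/
theorem bijective_of_ker (ρ : Representation O G L) (ρ' : Representation O G L')
    (loc : L →ₗ[O] L') (hloc : Function.Surjective loc)
    (heq : ∀ g y, loc (ρ g y) = ρ' g (loc y))
    {n n'' : ℕ} (e : Fin n → L) (e'' : Fin n'' → L)
    (hbij : Function.Bijective (grpMap ρ (Sum.elim e e'')))
    (he : ∀ i, loc (e i) = 0)
    (hrank : Module.finrank O L' = Fintype.card G * n'') :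
    Function.Injective (grpMap ρ e) ∧
      LinearMap.range (grpMap ρ e) = LinearMap.ker loc := by
  -- the key identity
  have hkey : ∀ f : Fin n ⊕ Fin n'' → MonoidAlgebra O G,
      loc (grpMap ρ (Sum.elim e e'') f) = grpMap ρ' (fun j => loc (e'' j)) (fun j => f (Sum.inr j)) := by
    intro f
    rw [grpMap_apply, grpMap_apply, map_sum, Fintype.sum_sum_type]
    have h1 : ∀ i : Fin n, loc (ρ.asAlgebraHom (f (Sum.inl i)) (Sum.elim e e'' (Sum.inl i))) = 0 := by
      intro i
      rw [asAlgebraHom_comm ρ ρ' loc heq, Sum.elim_inl, he, map_zero]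
    rw [Finset.sum_eq_zero fun i _ => h1 i, zero_add]
    exact Finset.sum_congr rfl fun j _ => by rw [asAlgebraHom_comm ρ ρ' loc heq, Sum.elim_inr]
  have hsurj'' : Function.Surjective (grpMap ρ' (fun j => loc (e'' j))) := by
    intro y'
    obtain ⟨y, rfl⟩ := hloc y'
    obtain ⟨f, rfl⟩ := hbij.2 y
    exact ⟨_, (hkey f).symm⟩
  have hbij'' : Function.Bijective (grpMap ρ' (fun j => loc (e'' j))) := by
    refine OrzechProperty.bijective_of_surjective_of_finrank_le _ hsurj'' (le_of_eq ?_)
    rw [hrank, Module.finrank_pi_fintype, Finset.sum_const, finrank_monoidAlgebra, smul_eq_mul,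
      Finset.card_univ, Fintype.card_fin, mul_comm]
  have hsplit : ∀ a : Fin n → MonoidAlgebra O G,
      grpMap ρ e a = grpMap ρ (Sum.elim e e'') (Sum.elim a 0) := by
    intro a
    rw [grpMap_apply, grpMap_apply, Fintype.sum_sum_type]
    simp
  refine ⟨?_, ?_⟩
  · intro a a' haa'
    rw [hsplit, hsplit] at haa'
    have := hbij.1 haa'
    funext i
    have h2 := congrFun this (Sum.inl i)
    simpa using h2
  · ext y
    constructor
    · rintro ⟨a, rfl⟩
      rw [LinearMap.mem_ker, hsplit, hkey]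
      have : (fun j : Fin n'' => (Sum.elim a (0 : Fin n'' → MonoidAlgebra O G)) (Sum.inr j)) = 0 := by
        funext j
        simp
      rw [this, map_zero]
    · intro hy
      obtain ⟨f, rfl⟩ := hbij.2 y
      rw [LinearMap.mem_ker, hkey] at hy
      have h0 : (fun j => f (Sum.inr j)) = 0 := hbij''.1 (by rw [hy, map_zero])
      refine ⟨fun i => f (Sum.inl i), ?_⟩
      rw [hsplit]
      congr 1
      funext i
      rcases i with i | j
      · simp
      · have := congrFun h0 j
        simp only [Sum.elim_inr, Pi.zero_apply] at this ⊢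
        exact this.symm

end Basis

section Lift

variable {𝔓 : Type*} [CommRing 𝔓] (S : Submonoid 𝔓)
  {L L' L₀ L₀' : Type*} [AddCommGroup L] [Module 𝔓 L] [AddCommGroup L'] [Module 𝔓 L']
  [AddCommGroup L₀] [Module 𝔓 L₀] [AddCommGroup L₀'] [Module 𝔓 L₀'] [Module.Finite 𝔓 L']

/-- **lifting the unit part**: every element of `ker loc₀` has a lift along `c` in `ker loc`. -/
theorem exists_lift_ker (c : L →ₗ[𝔓] L₀) (hc : Function.Surjective c)
    (loc : L →ₗ[𝔓] L') (loc₀ : L₀ →ₗ[𝔓] L₀') [IsLocalizedModule S loc₀]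
    (hS : ∀ s ∈ S, Function.Surjective fun y : L' => s • y)
    (y₀ : L₀) (hy₀ : loc₀ y₀ = 0) : ∃ y : L, loc y = 0 ∧ c y = y₀ := by
  obtain ⟨y, rfl⟩ := hc y₀
  obtain ⟨s, hs⟩ := (IsLocalizedModule.eq_zero_iff S loc₀).mp hy₀
  -- `A₂ = loc (ker c)`
  let A₂ : Submodule 𝔓 L' := Submodule.map loc (LinearMap.ker c)
  have h1 : (s : 𝔓) • loc y ∈ A₂ := by
    refine ⟨(s : 𝔓) • y, ?_, map_smul _ _ _⟩
    show (s : 𝔓) • y ∈ LinearMap.ker c
    rw [LinearMap.mem_ker, map_smul]
    exact hs
  -- multiplication by `s` on `L' ⧸ A₂` is onto, hence injective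
  let μ : Module.End 𝔓 (L' ⧸ A₂) := (s : 𝔓) • LinearMap.id
  have hμs : Function.Surjective μ := by
    intro w
    obtain ⟨w', rfl⟩ := A₂.mkQ_surjective w
    obtain ⟨w'', hw''⟩ := hS s s.2 w'
    refine ⟨A₂.mkQ w'', ?_⟩
    show (s : 𝔓) • A₂.mkQ w'' = A₂.mkQ w'
    rw [← map_smul]
    exact congrArg _ hw''
  have hμi : Function.Injective μ := OrzechProperty.injective_of_surjective_endomorphism μ hμs
  have h2 : A₂.mkQ (loc y) = 0 := by
    apply hμi
    rw [map_zero]
    show (s : 𝔓) • A₂.mkQ (loc y) = 0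
    rw [← map_smul]
    exact (Submodule.Quotient.mk_eq_zero A₂).mpr h1
  obtain ⟨a, ha, hay⟩ := (Submodule.Quotient.mk_eq_zero A₂).mp h2
  refine ⟨y - a, ?_, ?_⟩
  · rw [map_sub, hay, sub_self]
  · rw [map_sub, LinearMap.mem_ker.mp ha, sub_zero]

end Lift

section Unit

variable {𝔓 : Type*} [CommRing 𝔓] (𝔪 : Ideal 𝔓) [h𝔪 : 𝔪.IsPrime] (X : 𝔓)
  {L L' : Type*} [AddCommGroup L] [Module 𝔓 L] [AddCommGroup L'] [Module 𝔓 L']
  (loc : L →ₗ[𝔓] L') [IsLocalizedModule 𝔪.primeCompl loc]

/-- **(F1)** `X` is onto on the unit part `ker loc`, if every `s ∉ 𝔪` is of the form `s₁ + X r` with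
`s₁` acting bijectively on `L`. -/
theorem surjective_smul_ker
    (hdec : ∀ s : 𝔓, s ∉ 𝔪 → ∃ s₁ r : 𝔓, s = s₁ + X * r ∧ Function.Bijective fun y : L => s₁ • y)
    (y : L) (hy : loc y = 0) : ∃ z : L, loc z = 0 ∧ X • z = y := by
  obtain ⟨s, hs⟩ := (IsLocalizedModule.eq_zero_iff 𝔪.primeCompl loc).mp hy
  obtain ⟨s₁, r, hsr, hbij⟩ := hdec s s.2
  obtain ⟨z, hz⟩ := hbij.2 (-(r • y))
  have hz' : s₁ • z = -(r • y) := hz
  have hs' : (s : 𝔓) • y = 0 := hs
  refine ⟨z, ?_, ?_⟩
  · rw [IsLocalizedModule.eq_zero_iff 𝔪.primeCompl loc]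
    refine ⟨s, hbij.1 ?_⟩
    show s₁ • ((s : 𝔓) • z) = s₁ • (0 : L)
    rw [smul_zero, smul_comm, hz', smul_neg, smul_comm, hs', smul_zero, neg_zero]
  · apply hbij.1
    show s₁ • (X • z) = s₁ • y
    rw [smul_comm, hz', smul_neg, ← mul_smul]
    have h1 : (s₁ + X * r) • y = 0 := by rw [← hsr]; exact hs'
    rw [add_smul] at h1
    exact (eq_neg_of_add_eq_zero_left h1).symm

/-- **(F1)** `X` is bijective on the unit part. -/
theorem bijective_smul_ker [IsNoetherian 𝔓 L]
    (hdec : ∀ s : 𝔓, s ∉ 𝔪 → ∃ s₁ r : 𝔓, s = s₁ + X * r ∧ Function.Bijective fun y : L => s₁ • y) :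
    Function.Bijective (((X • LinearMap.id : Module.End 𝔓 L).restrict
      (p := LinearMap.ker loc) (q := LinearMap.ker loc) (fun y hy => by
        rw [LinearMap.mem_ker] at hy ⊢
        rw [LinearMap.smul_apply, LinearMap.id_apply, map_smul, hy, smul_zero]))) := by
  have hsurj : Function.Surjective (((X • LinearMap.id : Module.End 𝔓 L).restrict
      (p := LinearMap.ker loc) (q := LinearMap.ker loc) (fun y hy => by
        rw [LinearMap.mem_ker] at hy ⊢
        rw [LinearMap.smul_apply, LinearMap.id_apply, map_smul, hy, smul_zero]))) := by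
    rintro ⟨y, hy⟩
    obtain ⟨z, hz, hzy⟩ := surjective_smul_ker 𝔪 X loc hdec y hy
    exact ⟨⟨z, hz⟩, Subtype.ext hzy⟩
  exact ⟨OrzechProperty.injective_of_surjective_endomorphism _ hsurj, hsurj⟩

variable {O : Type*} [CommRing O] [Algebra O 𝔓] [Module O L] [IsScalarTower O 𝔓 L]

/-- **(F2)** an `O`-finite-free `X`-stable submodule on which `X` is bijective lies in the unit
part. -/
theorem le_ker_of_bijective (hX : X ∈ 𝔪) (W : Submodule O L) [Module.Free O W] [Module.Finite O W]
    (xW : Module.End O W) (hxW : ∀ w : W, ((xW w : W) : L) = X • (w : L))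
    (hbij : Function.Bijective xW) (w : L) (hw : w ∈ W) : loc w = 0 := by
  -- the characteristic polynomial
  have hCH : Polynomial.aeval xW xW.charpoly = 0 := LinearMap.aeval_self_charpoly xW
  have hact : ∀ (q : Polynomial O) (v : W), ((Polynomial.aeval xW q v : W) : L) =
      (Polynomial.aeval X q : 𝔓) • (v : L) := by
    intro q v
    induction q using Polynomial.induction_on' with
    | add f g hf hg =>
      rw [map_add, map_add, LinearMap.add_apply, Submodule.coe_add, hf, hg, add_smul]
    | monomial n a =>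
      have hpow : ∀ (n : ℕ) (v : W), (((xW ^ n) v : W) : L) = (X ^ n) • (v : L) := by
        intro n
        induction n with
        | zero => intro v; simp
        | succ n ih => intro v; rw [pow_succ', Module.End.mul_apply, hxW, ih, pow_succ', mul_smul]
      rw [Polynomial.aeval_monomial, Polynomial.aeval_monomial, Module.End.mul_apply,
        Module.algebraMap_end_apply, Submodule.coe_smul, hpow, mul_smul, algebraMap_smul]
  have hdet : IsUnit (LinearMap.det xW) :=
    LinearEquiv.isUnit_det' (LinearEquiv.ofBijective xW hbij)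
  have hcoeff : IsUnit (xW.charpoly.coeff 0) := by
    rw [LinearMap.det_eq_sign_charpoly_coeff] at hdet
    exact isUnit_of_mul_isUnit_right hdet
  -- `s = χ(X) ∉ 𝔪`
  have hs : (Polynomial.aeval X xW.charpoly : 𝔓) ∉ 𝔪 := by
    intro hmem
    have h1 : (Polynomial.aeval X xW.charpoly : 𝔓) - algebraMap O 𝔓 (xW.charpoly.coeff 0) ∈ 𝔪 := by
      have h2 := congrArg (Polynomial.aeval X (R := O))
        (Polynomial.divX_mul_X_add xW.charpoly)
      rw [map_add, map_mul, Polynomial.aeval_X, Polynomial.aeval_C] at h2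
      have h4 : (Polynomial.aeval X xW.charpoly : 𝔓) - algebraMap O 𝔓 (xW.charpoly.coeff 0) =
          (Polynomial.aeval X (Polynomial.divX xW.charpoly) : 𝔓) * X := by
        rw [← h2, add_sub_cancel_right]
      rw [h4]
      exact 𝔪.mul_mem_left _ hX
    have h3 : algebraMap O 𝔓 (xW.charpoly.coeff 0) ∈ 𝔪 := by
      have := 𝔪.sub_mem hmem h1
      rwa [sub_sub_cancel] at this
    exact h𝔪.ne_top (Ideal.eq_top_of_isUnit_mem _ h3 (hcoeff.map _))
  rw [IsLocalizedModule.eq_zero_iff 𝔪.primeCompl loc]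
  refine ⟨⟨_, hs⟩, ?_⟩
  show (Polynomial.aeval X xW.charpoly : 𝔓) • w = 0
  have := hact xW.charpoly ⟨w, hw⟩
  rw [hCH, LinearMap.zero_apply, Submodule.coe_zero] at this
  exact this.symm

/-- **(F2')** if moreover `X L ⊆ W`, the unit part is `W`. -/
theorem ker_eq_of_bijective (hX : X ∈ 𝔪)
    (hdec : ∀ s : 𝔓, s ∉ 𝔪 → ∃ s₁ r : 𝔓, s = s₁ + X * r ∧ Function.Bijective fun y : L => s₁ • y)
    (W : Submodule O L) [Module.Free O W] [Module.Finite O W]
    (xW : Module.End O W) (hxW : ∀ w : W, ((xW w : W) : L) = X • (w : L))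
    (hbij : Function.Bijective xW) (hXW : ∀ y : L, X • y ∈ W) (y : L) :
    loc y = 0 ↔ y ∈ W := by
  constructor
  · intro hy
    obtain ⟨z, -, rfl⟩ := surjective_smul_ker 𝔪 X loc hdec y hy
    exact hXW z
  · exact le_ker_of_bijective 𝔪 X loc hX W xW hxW hbij y

end Unit

end Fermat.Agent.M43.AlgFit5
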