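/-
M43 (helper3) [ALG / (A4)] AlgFree3: **the final criterion for freeness over the group ring.**

`𝒪` a local ring with `p ∈ 𝔪_𝒪` (`p` odd), `Δ` a finite commutative group of order `p ^ a`,
`ρ : Representation 𝒪 Δ M` on a finite free `𝒪`-module `M`.

* `augSub ρ` : the `𝒪`-span of the `ρ g y - y` (`= I_Δ M`).
* `Phi ρ e` : `(Fin d → 𝒪[Δ]) → M`, `a ↦ ∑ i, a i • e i`.
* `bijective_Phi` : if `e₁, …, e_d` span `M` modulo `augSub ρ` (over `𝒪`) and
  `finrank 𝒪 M = |Δ| * d`, then `Phi ρ e` is BIJECTIVE: `e` is an `𝒪[Δ]`-basis of `M`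
  (Nakayama: the augmentation ideal is nilpotent modulo `p`; then a surjection between free
  modules of the same rank).
-/
import Mathlib

set_option autoImplicit false
set_option linter.unusedSectionVars false
set_option linter.style.haveILetI false

open IsLocalRing

noncomputable section

namespace Fermat.Agent.M43.AlgFree3

variable {𝒪 : Type*} [CommRing 𝒪] {Δ : Type*} [CommGroup Δ]
  {M : Type*} [AddCommGroup M] [Module 𝒪 M]

/-- `I_Δ M`. -/
def augSub (ρ : Representation 𝒪 Δ M) : Submodule 𝒪 M :=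
  Submodule.span 𝒪 {z | ∃ (g : Δ) (y : M), z = ρ g y - y}

/-- the map `𝒪[Δ]^d → M` attached to `e₁, …, e_d`. -/
def Phi (ρ : Representation 𝒪 Δ M) {d : ℕ} (e : Fin d → M) :
    (Fin d → MonoidAlgebra 𝒪 Δ) →ₗ[𝒪] M :=
  ∑ i : Fin d, ((LinearMap.applyₗ (e i) : Module.End 𝒪 M →ₗ[𝒪] M) ∘ₗ
    ρ.asAlgebraHom.toLinearMap) ∘ₗ (LinearMap.proj i : (Fin d → MonoidAlgebra 𝒪 Δ) →ₗ[𝒪] _)

theorem Phi_apply (ρ : Representation 𝒪 Δ M) {d : ℕ} (e : Fin d → M)
    (a : Fin d → MonoidAlgebra 𝒪 Δ) : Phi ρ e a = ∑ i, ρ.asAlgebraHom (a i) (e i) := by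
  simp [Phi]

section Main

variable {𝒪 : Type*} [CommRing 𝒪] [IsLocalRing 𝒪] {p : ℕ} [hp : Fact p.Prime]
  {Δ : Type*} [CommGroup Δ] [Fintype Δ]
  {M : Type*} [AddCommGroup M] [Module 𝒪 M] [Module.Free 𝒪 M] [Module.Finite 𝒪 M]

/-- the augmentation ideal is nilpotent modulo `p`. -/
theorem exists_pow_le (hp2 : p ≠ 2) (a : ℕ) (hcard : Fintype.card Δ = p ^ a) :
    ∃ n : ℕ, (Ideal.span (Set.range fun g : Δ => (MonoidAlgebra.of 𝒪 Δ g - 1 :
      MonoidAlgebra 𝒪 Δ))) ^ n ≤ Ideal.span {((p : ℕ) : MonoidAlgebra 𝒪 Δ)} := by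
  apply Ideal.exists_pow_le_of_le_radical_of_fg
  · rw [Ideal.span_le]
    rintro _ ⟨g, rfl⟩
    refine ⟨p ^ a, ?_⟩
    obtain ⟨r, hr⟩ := exists_add_pow_prime_pow_eq hp.out (MonoidAlgebra.of 𝒪 Δ g) (-1) a
    have h1 : (MonoidAlgebra.of 𝒪 Δ g) ^ p ^ a = 1 := by
      rw [← map_pow, ← hcard, pow_card_eq_one, map_one]
    have h2 : (-1 : MonoidAlgebra 𝒪 Δ) ^ p ^ a = -1 :=
      Odd.neg_one_pow (Odd.pow (hp.out.odd_of_ne_two hp2))
    rw [← sub_eq_add_neg, h1, h2] at hr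
    change (MonoidAlgebra.of 𝒪 Δ g - 1) ^ p ^ a ∈ _
    rw [hr, Ideal.mem_span_singleton]
    exact ⟨MonoidAlgebra.of 𝒪 Δ g * -1 * r, by ring⟩
  · exact Submodule.fg_span (Set.finite_range _)

/-- **Nakayama over the group ring**: generation modulo `I_Δ M` is generation. -/
theorem surjective_Phi (hp2 : p ≠ 2) (hp𝒪 : (p : 𝒪) ∈ maximalIdeal 𝒪) (a : ℕ)
    (hcard : Fintype.card Δ = p ^ a) (ρ : Representation 𝒪 Δ M) {d : ℕ} (e : Fin d → M)
    (hgen : ∀ x : M, ∃ c : Fin d → 𝒪, x - ∑ i, c i • e i ∈ augSub ρ) :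
    Function.Surjective (Phi ρ e) := by
  classical
  letI : Module (MonoidAlgebra 𝒪 Δ) M :=
    Module.compHom M (ρ.asAlgebraHom : MonoidAlgebra 𝒪 Δ →+* Module.End 𝒪 M)
  have smul_def : ∀ (r : MonoidAlgebra 𝒪 Δ) (x : M), r • x = ρ.asAlgebraHom r x := fun _ _ => rfl
  haveI : IsScalarTower 𝒪 (MonoidAlgebra 𝒪 Δ) M := ⟨fun c r x => by
    rw [smul_def, smul_def, map_smul, LinearMap.smul_apply]⟩
  set I : Ideal (MonoidAlgebra 𝒪 Δ) :=
    Ideal.span (Set.range fun g : Δ => (MonoidAlgebra.of 𝒪 Δ g - 1 : MonoidAlgebra 𝒪 Δ)) with hI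
  set W : Submodule (MonoidAlgebra 𝒪 Δ) M := Submodule.span (MonoidAlgebra 𝒪 Δ) (Set.range e)
    with hW
  -- Step 1
  have haug : ∀ z ∈ augSub ρ, z ∈ I • (⊤ : Submodule (MonoidAlgebra 𝒪 Δ) M) := by
    intro z hz
    have : augSub ρ ≤ (I • (⊤ : Submodule (MonoidAlgebra 𝒪 Δ) M)).restrictScalars 𝒪 := by
      rw [augSub, Submodule.span_le]
      rintro _ ⟨g, y, rfl⟩
      have h1 : ρ g y - y = (MonoidAlgebra.of 𝒪 Δ g - 1 : MonoidAlgebra 𝒪 Δ) • y := by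
        rw [sub_smul, one_smul, smul_def, Representation.asAlgebraHom_of]
      rw [h1]
      have h2 : (MonoidAlgebra.of 𝒪 Δ g - 1 : MonoidAlgebra 𝒪 Δ) ∈ I :=
        Ideal.subset_span ⟨g, rfl⟩
      have h3 : (MonoidAlgebra.of 𝒪 Δ g - 1 : MonoidAlgebra 𝒪 Δ) • y ∈
          I • (⊤ : Submodule (MonoidAlgebra 𝒪 Δ) M) :=
        Submodule.smul_mem_smul h2 Submodule.mem_top
      exact h3
    exact this hz
  have h1 : (⊤ : Submodule (MonoidAlgebra 𝒪 Δ) M) ≤ W ⊔ I • ⊤ := by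
    intro x _
    obtain ⟨c, hc⟩ := hgen x
    have h2 : x = ∑ i, c i • e i + (x - ∑ i, c i • e i) := by abel
    rw [h2]
    refine Submodule.add_mem_sup (Submodule.sum_mem _ fun i _ => ?_) (haug _ hc)
    exact Submodule.smul_of_tower_mem W (c i) (Submodule.subset_span ⟨i, rfl⟩)
  -- Step 3
  have h3 : ∀ n : ℕ, (⊤ : Submodule (MonoidAlgebra 𝒪 Δ) M) ≤ W ⊔ I ^ n • ⊤ := by
    intro n
    induction n with
    | zero =>
      rw [pow_zero, Ideal.one_eq_top, Submodule.top_smul]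
      exact le_sup_right
    | succ n ih =>
      calc (⊤ : Submodule (MonoidAlgebra 𝒪 Δ) M) ≤ W ⊔ I • ⊤ := h1
        _ ≤ W ⊔ I • (W ⊔ I ^ n • ⊤) := sup_le_sup_left (Submodule.smul_mono le_rfl ih) W
        _ = W ⊔ (I • W ⊔ I • I ^ n • ⊤) := by rw [Submodule.smul_sup]
        _ ≤ W ⊔ I ^ (n + 1) • ⊤ := by
          refine sup_le le_sup_left (sup_le ?_ ?_)
          · exact le_trans Submodule.smul_le_right le_sup_left
          · rw [← Submodule.mul_smul, ← pow_succ']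
            exact le_sup_right
  obtain ⟨n, hn⟩ := exists_pow_le (𝒪 := 𝒪) (Δ := Δ) hp2 a hcard
  -- Step 5
  have h5 : (⊤ : Submodule 𝒪 M) ≤ LinearMap.range (Phi ρ e) ⊔ maximalIdeal 𝒪 • ⊤ := by
    intro x _
    have hx := h3 n (Submodule.mem_top : x ∈ ⊤)
    obtain ⟨w, hw, z, hz, rfl⟩ := Submodule.mem_sup.mp hx
    refine Submodule.add_mem_sup ?_ ?_
    · rw [hW, ← Fintype.range_linearCombination] at hw
      obtain ⟨f, rfl⟩ := hw
      refine ⟨f, ?_⟩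
      rw [Phi_apply, Fintype.linearCombination_apply]
      exact Finset.sum_congr rfl fun i _ => (smul_def _ _).symm
    · have hz' := Submodule.smul_mono_left (N := (⊤ : Submodule (MonoidAlgebra 𝒪 Δ) M)) hn hz
      rw [Submodule.ideal_span_singleton_smul, Submodule.mem_smul_pointwise_iff_exists] at hz'
      obtain ⟨y, -, rfl⟩ := hz'
      have : ((p : ℕ) : MonoidAlgebra 𝒪 Δ) • y = (p : 𝒪) • y := by
        rw [Nat.cast_smul_eq_nsmul, Nat.cast_smul_eq_nsmul]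
      rw [this]
      exact Submodule.smul_mem_smul hp𝒪 Submodule.mem_top
  have h6 := Submodule.le_of_le_smul_of_le_jacobson_bot (Module.Finite.fg_top)
    (le_of_eq (jacobson_eq_maximalIdeal (⊥ : Ideal 𝒪) bot_ne_top).symm) h5
  exact LinearMap.range_eq_top.mp (top_le_iff.mp h6)

/-- **(A4) the final criterion.** -/
theorem bijective_Phi (hp2 : p ≠ 2) (hp𝒪 : (p : 𝒪) ∈ maximalIdeal 𝒪) (a : ℕ)
    (hcard : Fintype.card Δ = p ^ a) (ρ : Representation 𝒪 Δ M) {d : ℕ} (e : Fin d → M)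
    (hgen : ∀ x : M, ∃ c : Fin d → 𝒪, x - ∑ i, c i • e i ∈ augSub ρ)
    (hrank : Module.finrank 𝒪 M = Fintype.card Δ * d) : Function.Bijective (Phi ρ e) := by
  have hs := surjective_Phi hp2 hp𝒪 a hcard ρ e hgen
  refine ⟨?_, hs⟩
  have h1 : Module.finrank 𝒪 (Fin d → MonoidAlgebra 𝒪 Δ) = Module.finrank 𝒪 M := by
    rw [Module.finrank_pi_fintype, hrank]
    simp only [Module.finrank_eq_card_basis (MonoidAlgebra.basis Δ 𝒪), Finset.sum_const,
      Finset.card_univ, Fintype.card_fin, smul_eq_mul]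
    ring
  let i := LinearEquiv.ofFinrankEq (Fin d → MonoidAlgebra 𝒪 Δ) M h1
  exact OrzechProperty.injective_of_surjective_of_injective i.toLinearMap (Phi ρ e)
    i.injective hs

end Main

end Fermat.Agent.M43.AlgFree3
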