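/-
M43 (helper3) [(6d) / block (α)] LocalHecke3: **the local components of a finite algebra over a
complete discrete valuation ring and their characteristic-zero points.**

* `exists_completeDVR_of_domain` : `𝒪` a discrete valuation ring of characteristic `0` with finite
  residue field, `D` a LOCAL DOMAIN finite over `𝒪` with `𝒪 → D` injective.  Then there is a
  complete discrete valuation ring `𝒪'` (char. `0`, finite residue field) and an injective LOCAL
  ring homomorphism `D →+* 𝒪'` (the completion of the integral closure of `𝒪` in `Frac D` at a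
  maximal ideal).
* `exists_points` : `T` a reduced local ring, finite and torsion-free over `𝒪`: a FINITE family of
  such `𝒪'_i` with local homomorphisms `ψ_i : T →+* 𝒪'_i` which are JOINTLY INJECTIVE (one for each
  minimal prime of `T`).
* section `Loc` : for a finite algebra `B` over a complete noetherian local ring `𝒪` and a maximal
  ideal `𝔪` of `B`: `B → B_𝔪` is SURJECTIVE, `B_𝔪` is finite over `𝒪`, noetherian, complete,
  `𝒪 → B_𝔪` is local; torsion-freeness passes to `B_𝔪`.
-/
import Mathlib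
import Fermat.Agent.ES.J7.CompleteDVR1
import Fermat.Prelude.Thm_Algebra_finite_maximalSpectrum_and_bijective_localization_of_module_finite

set_option autoImplicit false
set_option linter.style.haveILetI false

namespace Fermat.Agent.M43.LocalHecke3

open IsLocalRing IsDedekindDomain HeightOneSpectrum nonZeroDivisors
open Fermat.Agent.ES.J7.CompleteDVR1

section Points

attribute [local instance] FractionRing.liftAlgebra FractionRing.isScalarTower_liftAlgebra

variable (𝒪 : Type) [CommRing 𝒪] [IsDomain 𝒪] [IsDiscreteValuationRing 𝒪] [CharZero 𝒪]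
  [Finite (ResidueField 𝒪)]

/-- **A complete DVR point of a local domain finite over a DVR.** -/
theorem exists_completeDVR_of_domain
    (D : Type) [CommRing D] [IsDomain D] [IsLocalRing D] [Algebra 𝒪 D] [Module.Finite 𝒪 D]
    (hinj : Function.Injective (algebraMap 𝒪 D)) :
    ∃ (𝒪' : Type) (_ : CommRing 𝒪') (_ : IsDomain 𝒪') (_ : IsDiscreteValuationRing 𝒪')
      (_ : IsAdicComplete (maximalIdeal 𝒪') 𝒪') (_ : Finite (ResidueField 𝒪')) (_ : CharZero 𝒪')
      (ψ : D →+* 𝒪'), IsLocalHom ψ ∧ Function.Injective ψ := by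
  haveI : FaithfulSMul 𝒪 D := (faithfulSMul_iff_algebraMap_injective 𝒪 D).mpr hinj
  haveI : Algebra.IsIntegral 𝒪 D := inferInstance
  haveI : FaithfulSMul 𝒪 (FractionRing D) := inferInstance
  haveI : IsScalarTower 𝒪 (FractionRing 𝒪) (FractionRing D) := inferInstance
  haveI : IsLocalization (Algebra.algebraMapSubmonoid D 𝒪⁰) (FractionRing D) := inferInstance
  haveI : FiniteDimensional (FractionRing 𝒪) (FractionRing D) := .of_isLocalization 𝒪 D 𝒪⁰
  haveI : CharZero (FractionRing 𝒪) := inferInstance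
  haveI : Algebra.IsSeparable (FractionRing 𝒪) (FractionRing D) := inferInstance
  haveI : IsDedekindDomain (integralClosure 𝒪 (FractionRing D)) :=
    integralClosure.isDedekindDomain 𝒪 (FractionRing 𝒪) (FractionRing D)
  haveI : IsFractionRing (integralClosure 𝒪 (FractionRing D)) (FractionRing D) :=
    integralClosure.isFractionRing_of_finite_extension (FractionRing 𝒪) (FractionRing D)
  haveI : Module.Finite 𝒪 (integralClosure 𝒪 (FractionRing D)) :=
    IsIntegralClosure.finite 𝒪 (FractionRing 𝒪) (FractionRing D) _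
  haveI : CharZero D := charZero_of_injective_algebraMap hinj
  haveI : CharZero (FractionRing D) :=
    charZero_of_injective_algebraMap (IsFractionRing.injective D (FractionRing D))
  -- the map `D → R`
  let j : D →ₐ[𝒪] integralClosure 𝒪 (FractionRing D) :=
    (IsScalarTower.toAlgHom 𝒪 D (FractionRing D)).codRestrict _
      (fun x => (Algebra.IsIntegral.isIntegral x).map (IsScalarTower.toAlgHom 𝒪 D (FractionRing D)))
  have hj : Function.Injective j := by
    intro x y hxy
    have := congrArg (Subtype.val) hxy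
    exact IsFractionRing.injective D (FractionRing D) this
  have hinjR : Function.Injective (algebraMap 𝒪 (integralClosure 𝒪 (FractionRing D))) := by
    have : (algebraMap 𝒪 (integralClosure 𝒪 (FractionRing D)) : 𝒪 → _) = j ∘ algebraMap 𝒪 D := by
      funext x
      exact (j.commutes x).symm
    rw [this]
    exact hj.comp hinj
  -- a maximal ideal over the maximal ideal of `𝒪`
  have hker : RingHom.ker (algebraMap 𝒪 (integralClosure 𝒪 (FractionRing D))) ≤ maximalIdeal 𝒪 := by
    rw [(RingHom.injective_iff_ker_eq_bot _).mp hinjR]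
    exact bot_le
  obtain ⟨𝔓, h𝔓max, h𝔓⟩ := Ideal.exists_ideal_over_maximal_of_isIntegral
    (S := integralClosure 𝒪 (FractionRing D)) (maximalIdeal 𝒪) hker
  have h𝔓bot : 𝔓 ≠ ⊥ := by
    rintro rfl
    have : maximalIdeal 𝒪 = ⊥ := by
      rw [← h𝔓]
      exact (RingHom.injective_iff_ker_eq_bot _).mp hinjR
    exact IsDiscreteValuationRing.not_a_field 𝒪 this
  let v : HeightOneSpectrum (integralClosure 𝒪 (FractionRing D)) := ⟨𝔓, h𝔓max.isPrime, h𝔓bot⟩
  haveI : 𝔓.LiesOver (maximalIdeal 𝒪) := ⟨h𝔓.symm⟩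
  haveI : Finite (integralClosure 𝒪 (FractionRing D) ⧸ v.asIdeal) := by
    show Finite (integralClosure 𝒪 (FractionRing D) ⧸ 𝔓)
    haveI : Finite (𝒪 ⧸ maximalIdeal 𝒪) := ‹Finite (ResidueField 𝒪)›
    exact Module.finite_of_finite (𝒪 ⧸ maximalIdeal 𝒪)
  -- the comap of `𝔓` to `D` is the maximal ideal
  have hcomap : 𝔓.comap (j : D →+* _) = maximalIdeal D := by
    haveI : (𝔓.comap (j : D →+* _)).IsPrime := Ideal.comap_isPrime _ _
    have h1 : ((𝔓.comap (j : D →+* _)).comap (algebraMap 𝒪 D)) = maximalIdeal 𝒪 := by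
      rw [← h𝔓, Ideal.comap_comap]
      congr 1
    have hmax : (𝔓.comap (j : D →+* _)).IsMaximal :=
      Ideal.isMaximal_of_isIntegral_of_isMaximal_comap _ (h1 ▸ maximalIdeal.isMaximal 𝒪)
    exact IsLocalRing.eq_maximalIdeal hmax
  refine ⟨v.adicCompletionIntegers (FractionRing D), inferInstance, inferInstance, inferInstance,
    isAdicComplete (FractionRing D) v, finite_residueField (FractionRing D) v,
    charZero (FractionRing D) v,
    (algebraMap (integralClosure 𝒪 (FractionRing D))
      (v.adicCompletionIntegers (FractionRing D))).comp (j : D →+* _), ?_, ?_⟩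
  · refine ⟨fun x hx => ?_⟩
    by_contra hnu
    have hxm : x ∈ maximalIdeal D := (mem_maximalIdeal x).mpr hnu
    rw [← hcomap, Ideal.mem_comap] at hxm
    have h2 := (algebraMap_mem_maximalIdeal_iff (FractionRing D) v (j x)).mpr hxm
    exact (mem_maximalIdeal _).mp h2 hx
  · intro x y hxy
    apply hj
    have h3 := congrArg Subtype.val hxy
    simp only [RingHom.comp_apply] at h3
    rw [algebraMap_adicCompletionIntegers_apply, algebraMap_adicCompletionIntegers_apply,
      coe_eq_algebraMap, coe_eq_algebraMap] at h3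
    have h4 := (algebraMap (FractionRing D) (v.adicCompletion (FractionRing D))).injective h3
    exact Subtype.ext h4

/-- **The characteristic-zero points of a reduced local ring finite and torsion-free over a
DVR**: finitely many complete discrete valuation rings receiving `T` by local homomorphisms which
are jointly injective. -/
theorem exists_points (T : Type) [CommRing T] [IsLocalRing T] [Algebra 𝒪 T] [Module.Finite 𝒪 T]
    [IsReduced T] (htf : ∀ (a : 𝒪) (x : T), a • x = 0 → a = 0 ∨ x = 0) :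
    ∃ (ι : Type) (_ : Finite ι) (O : ι → Type) (_ : ∀ i, CommRing (O i)) (_ : ∀ i, IsDomain (O i))
      (_ : ∀ i, IsDiscreteValuationRing (O i))
      (_ : ∀ i, IsAdicComplete (maximalIdeal (O i)) (O i))
      (_ : ∀ i, Finite (ResidueField (O i))) (_ : ∀ i, CharZero (O i)) (ψ : ∀ i, T →+* O i),
      (∀ i, IsLocalHom (ψ i)) ∧ ∀ x, (∀ i, ψ i x = 0) → x = 0 := by
  classical
  haveI : IsNoetherianRing T := IsNoetherianRing.of_finite 𝒪 T
  have hfin : (minimalPrimes T).Finite := minimalPrimes.finite_of_isNoetherianRing T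
  haveI : Finite {𝔭 : Ideal T // 𝔭 ∈ minimalPrimes T} := hfin.to_subtype
  have hprime : ∀ 𝔭 : {𝔭 : Ideal T // 𝔭 ∈ minimalPrimes T}, 𝔭.1.IsPrime := fun 𝔭 => 𝔭.2.1.1
  have hD : ∀ 𝔭 : {𝔭 : Ideal T // 𝔭 ∈ minimalPrimes T},
      Function.Injective (algebraMap 𝒪 (T ⧸ 𝔭.1)) := by
    intro 𝔭
    rw [injective_iff_map_eq_zero]
    intro a ha
    rw [IsScalarTower.algebraMap_apply 𝒪 T (T ⧸ 𝔭.1), Ideal.Quotient.algebraMap_eq,
      Ideal.Quotient.eq_zero_iff_mem] at ha
    have hdis := Ideal.disjoint_nonZeroDivisors_of_mem_minimalPrimes 𝔭.2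
    have hnz : algebraMap 𝒪 T a ∉ nonZeroDivisors T := fun h =>
      Set.disjoint_left.mp hdis ha h
    by_contra ha0
    apply hnz
    rw [mem_nonZeroDivisors_iff_right]
    intro y hy
    have := htf a y (by rw [Algebra.smul_def, mul_comm]; exact hy)
    exact this.resolve_left ha0
  have hloc' : ∀ 𝔭 : {𝔭 : Ideal T // 𝔭 ∈ minimalPrimes T}, IsLocalRing (T ⧸ 𝔭.1) := fun 𝔭 =>
    haveI : Nontrivial (T ⧸ 𝔭.1) := Ideal.Quotient.nontrivial_iff.mpr (hprime 𝔭).ne_top
    IsLocalRing.of_surjective' (Ideal.Quotient.mk 𝔭.1) Ideal.Quotient.mk_surjective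
  have key := fun 𝔭 : {𝔭 : Ideal T // 𝔭 ∈ minimalPrimes T} =>
    haveI := hprime 𝔭
    haveI := hloc' 𝔭
    exists_completeDVR_of_domain 𝒪 (T ⧸ 𝔭.1) (hD 𝔭)
  choose O i1 i2 i3 i4 i5 i6 ψ hloc hinj using key
  refine ⟨{𝔭 : Ideal T // 𝔭 ∈ minimalPrimes T}, inferInstance, O, i1, i2, i3, i4, i5, i6,
    fun 𝔭 => (ψ 𝔭).comp (Ideal.Quotient.mk 𝔭.1), ?_, ?_⟩
  · intro 𝔭
    haveI := hprime 𝔭
    haveI := hloc 𝔭
    haveI := hloc' 𝔭
    haveI : IsLocalHom (Ideal.Quotient.mk 𝔭.1) :=
      IsLocalHom.of_surjective _ Ideal.Quotient.mk_surjective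
    exact RingHom.isLocalHom_comp _ _
  · intro x hx
    have hmem : x ∈ sInf (minimalPrimes T) := by
      rw [Ideal.mem_sInf]
      intro 𝔭 h𝔭
      have h1 := hx ⟨𝔭, h𝔭⟩
      rw [RingHom.comp_apply] at h1
      have h2 := (hinj ⟨𝔭, h𝔭⟩) (h1.trans (map_zero _).symm)
      exact Ideal.Quotient.eq_zero_iff_mem.mp h2
    have : sInf (minimalPrimes T) = nilradical T := by
      rw [minimalPrimes, Ideal.sInf_minimalPrimes, nilradical, Ideal.zero_eq_bot]
    rw [this, nilradical_eq_zero, Ideal.zero_eq_bot, Ideal.mem_bot] at hmem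
    exact hmem

end Points

section Loc

variable (𝒪 : Type) [CommRing 𝒪] [IsLocalRing 𝒪] [IsNoetherianRing 𝒪]
  [IsAdicComplete (maximalIdeal 𝒪) 𝒪]
  (B : Type) [CommRing B] [Algebra 𝒪 B] [Module.Finite 𝒪 B] (𝔪 : Ideal B) [h𝔪 : 𝔪.IsMaximal]

include 𝒪 in
/-- `B → B_𝔪` is surjective. -/
theorem surjective_algebraMap_localization :
    Function.Surjective (algebraMap B (Localization.AtPrime 𝔪)) := by
  classical
  obtain ⟨-, hbij, -, -⟩ :=
    Algebra.finite_maximalSpectrum_and_bijective_localization_of_module_finite (𝒪 := 𝒪) B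
  intro t
  let I0 : MaximalSpectrum B := ⟨𝔪, h𝔪⟩
  let f : ∀ I : MaximalSpectrum B, Localization.AtPrime I.asIdeal :=
    fun I => if h : I = I0 then h ▸ t else 0
  obtain ⟨b, hb⟩ := hbij.2 f
  refine ⟨b, ?_⟩
  have h1 := congrFun hb I0
  simp only [RingHom.pi_apply] at h1
  rw [h1]
  simp [f]

theorem finite_localization : Module.Finite 𝒪 (Localization.AtPrime 𝔪) := by
  obtain ⟨-, -, hfin, -⟩ :=
    Algebra.finite_maximalSpectrum_and_bijective_localization_of_module_finite (𝒪 := 𝒪) B
  exact hfin ⟨𝔪, h𝔪⟩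

include 𝒪 in
theorem isAdicComplete_localization :
    IsAdicComplete (maximalIdeal (Localization.AtPrime 𝔪)) (Localization.AtPrime 𝔪) := by
  obtain ⟨-, -, -, hc⟩ :=
    Algebra.finite_maximalSpectrum_and_bijective_localization_of_module_finite (𝒪 := 𝒪) B
  exact hc ⟨𝔪, h𝔪⟩

include 𝒪 in
theorem isNoetherianRing_localization : IsNoetherianRing (Localization.AtPrime 𝔪) := by
  haveI := finite_localization 𝒪 B 𝔪
  exact IsNoetherianRing.of_finite 𝒪 _

end Loc

section LocalHom

variable {𝒪 : Type*} [CommRing 𝒪] [IsLocalRing 𝒪]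
  (T : Type*) [CommRing T] [IsLocalRing T] [Algebra 𝒪 T] [Module.Finite 𝒪 T]

/-- the structure map of a local ring finite over a local ring is local. -/
theorem isLocalHom_algebraMap_of_finite : IsLocalHom (algebraMap 𝒪 T) := by
  haveI : Algebra.IsIntegral 𝒪 T := inferInstance
  have hmax : ((maximalIdeal T).comap (algebraMap 𝒪 T)).IsMaximal :=
    Ideal.isMaximal_comap_of_isIntegral_of_isMaximal (R := 𝒪) (maximalIdeal T)
  have heq : (maximalIdeal T).comap (algebraMap 𝒪 T) = maximalIdeal 𝒪 :=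
    IsLocalRing.eq_maximalIdeal hmax
  refine ⟨fun a ha => ?_⟩
  by_contra hnu
  have ham : a ∈ maximalIdeal 𝒪 := (mem_maximalIdeal a).mpr hnu
  rw [← heq, Ideal.mem_comap] at ham
  exact (mem_maximalIdeal _).mp ham ha

end LocalHom

section TorsionFree

variable {𝒪 : Type*} [CommRing 𝒪] (B : Type*) [CommRing B] [Algebra 𝒪 B] (𝔪 : Ideal B)
  [𝔪.IsPrime]

/-- torsion-freeness passes to the localization. -/
theorem smul_eq_zero_localization (htf : ∀ (a : 𝒪) (x : B), a • x = 0 → a = 0 ∨ x = 0)
    (a : 𝒪) (x : Localization.AtPrime 𝔪) (h : a • x = 0) : a = 0 ∨ x = 0 := by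
  induction x using Localization.induction_on with
  | H y =>
    obtain ⟨b, s⟩ := y
    by_cases ha : a = 0
    · exact Or.inl ha
    right
    rw [Localization.smul_mk, Localization.mk_eq_mk', IsLocalization.mk'_eq_zero_iff] at h
    rw [Localization.mk_eq_mk', IsLocalization.mk'_eq_zero_iff]
    obtain ⟨u, hu⟩ := h
    refine ⟨u, ?_⟩
    have h2 : a • ((u : B) * b) = 0 := by rw [← hu, mul_smul_comm]
    exact (htf a _ h2).resolve_left ha

end TorsionFree

end Fermat.Agent.M43.LocalHecke3
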