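import Mathlib
import Fermat.Agent.M43.LocalHecke3

/-!
# M43 / chapter ALG (A5): the Hecke algebra of a localised Hecke lattice

`O` a noetherian local ring, `𝔓` a commutative `O`-algebra (the Hecke polynomial ring), `𝔪` a maximal
ideal of `𝔓`, `L ≠ 0` a `𝔓`-module, finite over `O`, on which every element outside `𝔪` acts
surjectively (e.g. `L` the localisation at `𝔪` of a Hecke lattice: `AlgLoc5`).

* `annL`, `HeckeIm O 𝔓 L := 𝔓 ⧸ annL O 𝔓 L` : the image of `𝔓` in `End_O L`; `actL` (the faithful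
  action, an injective `O`-algebra homomorphism into `End_O L`), `actL_mk`;
* `finite_heckeIm`, `isNoetherianRing_heckeIm`;
* `exists_inverse` : `a ∉ 𝔪 ⟹ ∃ b, (a * b) • y = y` on `L` (Nakayama);
* `isLocalRing_heckeIm`, `mk_mem_maximalIdeal_iff` (the maximal ideal is the image of `𝔪`),
  `isLocalHom_algebraMap_heckeIm`, `residue_mk` (`a ≡ c mod 𝔪`, `c ∈ O` ⟹ `residue (mk a)` is the image
  of `residue c`), `adjoin_image_eq_top`.
-/

set_option autoImplicit false
set_option linter.unusedSectionVars false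
set_option linter.style.haveILetI false

namespace Fermat.Agent.M43.AlgHecke5

open IsLocalRing

section Defs

variable (O : Type*) [CommRing O] (𝔓 : Type*) [CommRing 𝔓] [Algebra O 𝔓]
  (L : Type*) [AddCommGroup L] [Module O L] [Module 𝔓 L] [IsScalarTower O 𝔓 L]

/-- the annihilator of `L` in `𝔓`, as the kernel of `𝔓 → End_O L`. -/
noncomputable def annL : Ideal 𝔓 := RingHom.ker (Algebra.lsmul O O L : 𝔓 →ₐ[O] Module.End O L)

theorem mem_annL (a : 𝔓) : a ∈ annL O 𝔓 L ↔ ∀ y : L, a • y = 0 := by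
  rw [annL, RingHom.mem_ker]
  constructor
  · intro h y
    have := LinearMap.congr_fun h y
    exact this
  · intro h
    ext y
    exact h y

/-- **the image of `𝔓` in `End_O L`.** -/
abbrev HeckeIm : Type _ := 𝔓 ⧸ annL O 𝔓 L

/-- the action of `HeckeIm` on `L`. -/
noncomputable def actL : HeckeIm O 𝔓 L →ₐ[O] Module.End O L :=
  Ideal.kerLiftAlg (Algebra.lsmul O O L : 𝔓 →ₐ[O] Module.End O L)

theorem actL_mk (a : 𝔓) (y : L) : actL O 𝔓 L (Ideal.Quotient.mk _ a) y = a • y := rfl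

theorem actL_injective : Function.Injective (actL O 𝔓 L) :=
  Ideal.kerLiftAlg_injective _

theorem mk_eq_one_iff (a : 𝔓) :
    (Ideal.Quotient.mk (annL O 𝔓 L) a = 1) ↔ ∀ y : L, a • y = y := by
  rw [← map_one (Ideal.Quotient.mk (annL O 𝔓 L)), Ideal.Quotient.eq, mem_annL]
  constructor
  · intro h y
    have := h y
    rwa [sub_smul, one_smul, sub_eq_zero] at this
  · intro h y
    rw [sub_smul, one_smul, h, sub_self]

theorem adjoin_image_eq_top (s : Set 𝔓) (hs : Algebra.adjoin O s = ⊤) :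
    Algebra.adjoin O ((Ideal.Quotient.mk (annL O 𝔓 L)) '' s) = ⊤ := by
  have h1 : Algebra.adjoin O ((Ideal.Quotient.mkₐ O (annL O 𝔓 L)) '' s) =
      (Algebra.adjoin O s).map (Ideal.Quotient.mkₐ O (annL O 𝔓 L)) :=
    (AlgHom.map_adjoin _ s).symm
  have h2 : ((Ideal.Quotient.mkₐ O (annL O 𝔓 L)) '' s) =
      ((Ideal.Quotient.mk (annL O 𝔓 L)) '' s) := rfl
  rw [← h2, h1, hs, Algebra.map_top, AlgHom.range_eq_top]
  exact Ideal.Quotient.mkₐ_surjective O _

end Defs

section Local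

variable (O : Type*) [CommRing O] [IsLocalRing O] [IsNoetherianRing O]
  (𝔓 : Type*) [CommRing 𝔓] [Algebra O 𝔓] (𝔪 : Ideal 𝔓) [h𝔪 : 𝔪.IsMaximal]
  (L : Type*) [AddCommGroup L] [Module O L] [Module 𝔓 L] [IsScalarTower O 𝔓 L]
  [Module.Finite O L]

instance finite_heckeIm : Module.Finite O (HeckeIm O 𝔓 L) :=
  Module.Finite.of_injective (actL O 𝔓 L).toLinearMap (actL_injective O 𝔓 L)

instance isNoetherianRing_heckeIm : IsNoetherianRing (HeckeIm O 𝔓 L) :=
  IsNoetherianRing.of_finite O _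

variable {𝔓 L}

include O in
/-- **Nakayama**: an element acting surjectively on `L` has an inverse in the Hecke algebra. -/
theorem exists_inverse {a : 𝔓} (ha : Function.Surjective fun y : L => a • y) :
    ∃ b : 𝔓, ∀ y : L, (a * b) • y = y := by
  haveI : Module.Finite 𝔓 L := Module.Finite.of_restrictScalars_finite O 𝔓 L
  have hin : (⊤ : Submodule 𝔓 L) ≤ Ideal.span {a} • (⊤ : Submodule 𝔓 L) := by
    intro y _
    obtain ⟨y', rfl⟩ := ha y
    exact Submodule.smul_mem_smul (Ideal.mem_span_singleton_self a) trivial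
  obtain ⟨r, hr, hr0⟩ := Submodule.exists_sub_one_mem_and_smul_eq_zero_of_fg_of_le_smul
    (Ideal.span {a}) (⊤ : Submodule 𝔓 L) Module.Finite.fg_top hin
  obtain ⟨c, hc⟩ := Ideal.mem_span_singleton'.mp hr
  refine ⟨-c, fun y => ?_⟩
  have h1 := hr0 y trivial
  have h2 : r = 1 + c * a := by rw [hc]; ring
  rw [h2, add_smul, one_smul] at h1
  rw [mul_neg, neg_smul, mul_comm]
  exact (eq_neg_of_add_eq_zero_left h1).symm

variable (hunit : ∀ a : 𝔓, a ∉ 𝔪 → Function.Surjective fun y : L => a • y) [Nontrivial L]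

include O hunit in
theorem not_mem_of_forall_smul_eq {a : 𝔓} (h : ∀ y : L, a • y = y) : a ∉ 𝔪 := by
  intro ha
  have h1 : (1 - a) ∉ 𝔪 := fun h1 => h𝔪.ne_top ((Ideal.eq_top_iff_one _).mpr (by
    have := 𝔪.add_mem h1 ha
    rwa [sub_add_cancel] at this))
  obtain ⟨y, hy⟩ := exists_ne (0 : L)
  obtain ⟨y', hy'⟩ := hunit _ h1 y
  apply hy
  rw [← hy']
  show (1 - a) • y' = 0
  rw [sub_smul, one_smul, h, sub_self]

include hunit in
theorem isUnit_mk {a : 𝔓} (ha : a ∉ 𝔪) : IsUnit (Ideal.Quotient.mk (annL O 𝔓 L) a) := by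
  obtain ⟨b, hb⟩ := exists_inverse O (hunit a ha)
  refine IsUnit.of_mul_eq_one (Ideal.Quotient.mk _ b) ?_
  rw [← map_mul, mk_eq_one_iff]
  exact hb

include hunit in
/-- **the Hecke algebra of `L` is local.** -/
theorem isLocalRing_heckeIm : IsLocalRing (HeckeIm O 𝔓 L) := by
  haveI : Nontrivial (HeckeIm O 𝔓 L) := by
    refine ⟨⟨1, 0, fun h => ?_⟩⟩
    have h1 : (1 : 𝔓) ∈ annL O 𝔓 L := by
      rw [← Ideal.Quotient.eq_zero_iff_mem, map_one]
      exact h
    rw [mem_annL] at h1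
    obtain ⟨y, hy⟩ := exists_ne (0 : L)
    exact hy (by rw [← one_smul 𝔓 y]; exact h1 y)
  refine IsLocalRing.of_isUnit_or_isUnit_one_sub_self fun x => ?_
  obtain ⟨a, rfl⟩ := Ideal.Quotient.mk_surjective x
  by_cases ha : a ∈ 𝔪
  · right
    have h1 : (1 - a) ∉ 𝔪 := fun h1 => h𝔪.ne_top ((Ideal.eq_top_iff_one _).mpr (by
      have := 𝔪.add_mem h1 ha
      rwa [sub_add_cancel] at this))
    have := isUnit_mk O 𝔪 hunit h1
    rwa [map_sub, map_one] at this
  · exact Or.inl (isUnit_mk O 𝔪 hunit ha)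

include hunit in
/-- the maximal ideal of the Hecke algebra is the image of `𝔪`. -/
theorem mk_mem_maximalIdeal_iff (a : 𝔓) :
    haveI := isLocalRing_heckeIm O 𝔪 hunit
    Ideal.Quotient.mk (annL O 𝔓 L) a ∈ maximalIdeal (HeckeIm O 𝔓 L) ↔ a ∈ 𝔪 := by
  haveI := isLocalRing_heckeIm O 𝔪 hunit
  rw [mem_maximalIdeal, mem_nonunits_iff]
  constructor
  · intro h
    by_contra ha
    exact h (isUnit_mk O 𝔪 hunit ha)
  · intro ha hu
    obtain ⟨x, hx⟩ := hu.exists_right_inv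
    obtain ⟨b, rfl⟩ := Ideal.Quotient.mk_surjective x
    rw [← map_mul, mk_eq_one_iff] at hx
    exact not_mem_of_forall_smul_eq O 𝔪 hunit hx (𝔪.mul_mem_right b ha)

include hunit in
theorem isLocalHom_algebraMap_heckeIm :
    haveI := isLocalRing_heckeIm O 𝔪 hunit
    IsLocalHom (algebraMap O (HeckeIm O 𝔓 L)) := by
  haveI := isLocalRing_heckeIm O 𝔪 hunit
  exact LocalHecke3.isLocalHom_algebraMap_of_finite (HeckeIm O 𝔓 L)

include hunit in
/-- the residue field: `a ≡ c mod 𝔪` with `c ∈ O`. -/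
theorem residue_mk (a : 𝔓) (c : O) (hac : a - algebraMap O 𝔓 c ∈ 𝔪) :
    haveI := isLocalRing_heckeIm O 𝔪 hunit
    haveI := isLocalHom_algebraMap_heckeIm O 𝔪 hunit
    residue (HeckeIm O 𝔓 L) (Ideal.Quotient.mk (annL O 𝔓 L) a) =
      ResidueField.map (algebraMap O (HeckeIm O 𝔓 L)) (residue O c) := by
  haveI := isLocalRing_heckeIm O 𝔪 hunit
  haveI := isLocalHom_algebraMap_heckeIm O 𝔪 hunit
  rw [ResidueField.map_residue, ← sub_eq_zero, ← map_sub, residue_eq_zero_iff]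
  have h1 : Ideal.Quotient.mk (annL O 𝔓 L) a - algebraMap O (HeckeIm O 𝔓 L) c =
      Ideal.Quotient.mk (annL O 𝔓 L) (a - algebraMap O 𝔓 c) := by
    rw [map_sub]
    rfl
  rw [h1, mk_mem_maximalIdeal_iff O 𝔪 hunit]
  exact hac

end Local

end Fermat.Agent.M43.AlgHecke5
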