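/-
M43 (helper3) [ALG / (A2)] AlgJordan3: **the cyclic criterion, rank form.**

* `finrank_eq_mul_finrank_ker` (linear algebra over a field): a nilpotent endomorphism `x`,
  `x ^ m = 0`, with `ker (x ^ (m-1)) ≤ range x` has all its Jordan blocks of length `m`:
  `finrank V = m * finrank (ker x)`.
* `finrank_eq_mul` : `𝒪` a discrete valuation ring of residue characteristic `p`, `M` finite free
  over `𝒪` with an endomorphism `δ`, `δ ^ (p ^ e) = 1`, `N = ∑_{i < p^e} δ^i`;
  `ker N ≤ range (δ - 1)`, `ker (δ - 1) ≤ range N`, `c : M → M'` onto with kernel `range (δ - 1)`,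
  `M'` finite free. Then `finrank M = p ^ e * finrank M'`
  (`M / λ` is free over `k[x]/(x^m)`; Serre, Corps locaux IX §5).
-/
import Mathlib

set_option autoImplicit false
set_option linter.unusedSectionVars false
set_option linter.style.haveILetI false

open IsLocalRing Polynomial TensorProduct

noncomputable section

namespace Fermat.Agent.M43.AlgJordan3

/-! ### Jordan blocks of maximal length -/

section Field

variable {k : Type*} [Field k] {V : Type*} [AddCommGroup V] [Module k V] [FiniteDimensional k V]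

theorem ker_pow_le_range_pow (x : Module.End k V) (m : ℕ)
    (h : LinearMap.ker (x ^ (m - 1)) ≤ LinearMap.range x) :
    ∀ i : ℕ, i ≤ m - 1 → LinearMap.ker (x ^ (m - i)) ≤ LinearMap.range (x ^ i) := by
  intro i
  induction i with
  | zero =>
    intro _ v _
    exact ⟨v, by simp⟩
  | succ i ih =>
    intro hi v hv
    rw [LinearMap.mem_ker] at hv
    have h1 : v ∈ LinearMap.ker (x ^ (m - i)) := by
      rw [LinearMap.mem_ker]
      have e : m - i = 1 + (m - (i + 1)) := by omega
      rw [e, pow_add, Module.End.mul_apply, hv, map_zero]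
    obtain ⟨w, hw⟩ := ih (by omega) h1
    have h2 : w ∈ LinearMap.ker (x ^ (m - 1)) := by
      rw [LinearMap.mem_ker]
      have e : m - 1 = (m - (i + 1)) + i := by omega
      rw [e, pow_add, Module.End.mul_apply, hw, hv]
    obtain ⟨w', hw'⟩ := h h2
    refine ⟨w', ?_⟩
    rw [pow_succ, Module.End.mul_apply, hw', hw]

/-- **all Jordan blocks have length `m`.** -/
theorem finrank_eq_mul_finrank_ker (x : Module.End k V) (m : ℕ) (hm : 0 < m) (hx : x ^ m = 0)
    (h : LinearMap.ker (x ^ (m - 1)) ≤ LinearMap.range x) :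
    Module.finrank k V = m * Module.finrank k (LinearMap.ker x) := by
  have hC := ker_pow_le_range_pow x m h
  -- `ker x ≤ range (x ^ i)` for `i ≤ m - 1`
  have hker : ∀ i : ℕ, i ≤ m - 1 → LinearMap.ker x ≤ LinearMap.range (x ^ i) := by
    intro i hi v hv
    have h1 : v ∈ LinearMap.ker (x ^ (m - (m - 1))) := by
      have e : m - (m - 1) = 1 := by omega
      rw [e, pow_one]
      exact hv
    obtain ⟨w, hw⟩ := hC (m - 1) le_rfl h1
    refine ⟨(x ^ (m - 1 - i)) w, ?_⟩
    rw [← Module.End.mul_apply, ← pow_add]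
    have e : i + (m - 1 - i) = m - 1 := by omega
    rw [e, hw]
  -- the step
  have hstep : ∀ i : ℕ, i ≤ m - 1 →
      Module.finrank k (LinearMap.range (x ^ i)) =
        Module.finrank k (LinearMap.range (x ^ (i + 1))) + Module.finrank k (LinearMap.ker x) := by
    intro i hi
    set q := LinearMap.range (x ^ i) with hq
    have h1 := LinearMap.finrank_range_add_finrank_ker (x.domRestrict q)
    have h2 : LinearMap.range (x.domRestrict q) = LinearMap.range (x ^ (i + 1)) := by
      rw [LinearMap.range_domRestrict, hq, ← LinearMap.range_comp]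
      rw [pow_succ']
      rfl
    have h3 : Module.finrank k (LinearMap.ker (x.domRestrict q)) =
        Module.finrank k (LinearMap.ker x) := by
      rw [LinearMap.ker_domRestrict]
      exact LinearEquiv.finrank_eq (Submodule.comapSubtypeEquivOfLe (hker i hi))
    rw [h2, h3] at h1
    exact h1.symm
  have hind : ∀ i : ℕ, i ≤ m →
      Module.finrank k V =
        Module.finrank k (LinearMap.range (x ^ i)) + i * Module.finrank k (LinearMap.ker x) := by
    intro i
    induction i with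
    | zero =>
      intro _
      rw [pow_zero, Module.End.one_eq_id, LinearMap.range_id, finrank_top]
      simp
    | succ i ih =>
      intro hi
      rw [ih (by omega), hstep i (by omega)]
      ring
  have := hind m le_rfl
  rw [hx, LinearMap.range_zero, finrank_bot, zero_add] at this
  exact this

end Field

/-! ### The cyclic criterion over a discrete valuation ring -/

section DVR

variable {𝒪 : Type*} [CommRing 𝒪] [IsDomain 𝒪] [IsDiscreteValuationRing 𝒪]
  {M : Type*} [AddCommGroup M] [Module 𝒪 M]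

/-- the kernel of `M → (𝒪/λ) ⊗ M`. -/
theorem exists_smul_of_tmul_eq_zero {ϖ : 𝒪} (hϖ : Irreducible ϖ) (w : M)
    (h : (1 : 𝒪 ⧸ maximalIdeal 𝒪) ⊗ₜ[𝒪] w = 0) : ∃ u : M, w = ϖ • u := by
  have h1 := congrArg (TensorProduct.quotTensorEquivQuotSMul M (maximalIdeal 𝒪)) h
  rw [map_zero, ← map_one (Ideal.Quotient.mk (maximalIdeal 𝒪)),
    TensorProduct.quotTensorEquivQuotSMul_mk_tmul, one_smul, Submodule.Quotient.mk_eq_zero,
    hϖ.maximalIdeal_eq, Submodule.ideal_span_singleton_smul,
    Submodule.mem_smul_pointwise_iff_exists] at h1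
  obtain ⟨u, -, hu⟩ := h1
  exact ⟨u, hu.symm⟩

variable {p : ℕ} [hp : Fact p.Prime]
  [Module.Free 𝒪 M] [Module.Finite 𝒪 M]
  {M' : Type*} [AddCommGroup M'] [Module 𝒪 M'] [Module.Free 𝒪 M'] [Module.Finite 𝒪 M']

/-- **(A2), rank form.** -/
theorem finrank_eq_mul (hp𝒪 : (p : 𝒪) ∈ maximalIdeal 𝒪) (δ : Module.End 𝒪 M) (e : ℕ)
    (hδ : δ ^ (p ^ e) = 1)
    (ha : ∀ x, (∑ i ∈ Finset.range (p ^ e), δ ^ i) x = 0 → ∃ y, x = δ y - y)
    (hb : ∀ x, δ x = x → ∃ y, x = (∑ i ∈ Finset.range (p ^ e), δ ^ i) y)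
    (c : M →ₗ[𝒪] M') (hc : Function.Surjective c)
    (hker : ∀ x, c x = 0 ↔ ∃ y, x = δ y - y) :
    Module.finrank 𝒪 M = p ^ e * Module.finrank 𝒪 M' := by
  classical
  obtain ⟨ϖ, hϖ⟩ := IsDiscreteValuationRing.exists_irreducible 𝒪
  set m := p ^ e with hm
  have hm0 : 0 < m := pow_pos hp.out.pos e
  set N : Module.End 𝒪 M := ∑ i ∈ Finset.range m, δ ^ i with hN
  letI : Field (𝒪 ⧸ maximalIdeal 𝒪) := Ideal.Quotient.field (maximalIdeal 𝒪)
  let κ := 𝒪 ⧸ maximalIdeal 𝒪
  haveI : CharP κ p := (CharP.charP_iff_prime_eq_zero hp.out).mpr (by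
    rw [← map_natCast (Ideal.Quotient.mk (maximalIdeal 𝒪))]
    exact Ideal.Quotient.eq_zero_iff_mem.mpr hp𝒪)
  let B : Module.End 𝒪 M →ₐ[𝒪] Module.End κ (κ ⊗[𝒪] M) := Module.End.baseChangeHom 𝒪 κ M
  have hB : ∀ (g : Module.End 𝒪 M) (v : M), B g ((1 : κ) ⊗ₜ[𝒪] v) = (1 : κ) ⊗ₜ[𝒪] g v :=
    fun g v => rfl
  set δb : Module.End κ (κ ⊗[𝒪] M) := B δ with hδb
  set x : Module.End κ (κ ⊗[𝒪] M) := δb - 1 with hx
  -- polynomial identities in characteristic `p`
  have hpoly1 : (X - 1 : κ[X]) ^ m = X ^ m - 1 := by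
    rw [hm, sub_pow_char_pow, one_pow]
  have hpoly2 : (∑ i ∈ Finset.range m, (X : κ[X]) ^ i) = (X - 1) ^ (m - 1) := by
    have h1 := geom_sum_mul (X : κ[X]) m
    have h2 : (X - 1 : κ[X]) ^ (m - 1) * (X - 1) = X ^ m - 1 := by
      rw [← pow_succ, Nat.sub_add_cancel hm0, hpoly1]
    have h3 : (X - 1 : κ[X]) ≠ 0 := by
      have := X_sub_C_ne_zero (1 : κ)
      rwa [map_one] at this
    exact mul_right_cancel₀ h3 (h1.trans h2.symm)
  have hδbm : δb ^ m = 1 := by rw [hδb, ← map_pow, hδ, map_one]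
  have hxm : x ^ m = 0 := by
    have := congrArg (aeval δb) hpoly1
    simp only [map_pow, map_sub, aeval_X, map_one] at this
    rw [hx, this, hδbm, sub_self]
  have hNb : B N = x ^ (m - 1) := by
    have := congrArg (aeval δb) hpoly2
    simp only [map_sum, map_pow, map_sub, aeval_X, map_one] at this
    rw [hN, map_sum, hx, ← this]
    simp only [map_pow, hδb]
  -- surjectivity of `M → κ ⊗ M`
  have hsurj : Function.Surjective (TensorProduct.mk 𝒪 κ M 1) :=
    TensorProduct.mk_surjective 𝒪 M κ Ideal.Quotient.mk_surjective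
  have hϖ0 : ∀ u : M, (1 : κ) ⊗ₜ[𝒪] (ϖ • u) = 0 := by
    intro u
    rw [TensorProduct.tmul_smul, TensorProduct.smul_tmul']
    have : ϖ • (1 : κ) = 0 := by
      rw [Algebra.smul_def, mul_one]
      apply Ideal.Quotient.eq_zero_iff_mem.mpr
      rw [hϖ.maximalIdeal_eq]
      exact Ideal.mem_span_singleton_self ϖ
    rw [this, TensorProduct.zero_tmul]
  have hϖne : ϖ ≠ 0 := hϖ.ne_zero
  -- the condition on the Jordan blocks
  have hJ : LinearMap.ker (x ^ (m - 1)) ≤ LinearMap.range x := by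
    intro vb hvb
    obtain ⟨v, rfl⟩ := hsurj vb
    rw [LinearMap.mem_ker, ← hNb] at hvb
    change B N ((1 : κ) ⊗ₜ[𝒪] v) = 0 at hvb
    rw [hB] at hvb
    obtain ⟨w, hw⟩ := exists_smul_of_tmul_eq_zero hϖ (N v) hvb
    -- `w` is `δ`-fixed
    have hδN : ∀ y, δ (N y) = N y := by
      intro y
      have h1 : δ * N = N := by
        rw [hN, Finset.mul_sum]
        have e1 : ∀ i ∈ Finset.range m, δ * δ ^ i = δ ^ (i + 1) := fun i _ => by
          rw [pow_succ']
        rw [Finset.sum_congr rfl e1]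
        have h2 := Finset.sum_range_succ' (fun i => δ ^ i) m
        have h3 := Finset.sum_range_succ (fun i => δ ^ i) m
        rw [h3, hδ, pow_zero] at h2
        exact (add_right_cancel h2).symm
      exact LinearMap.congr_fun h1 y
    have hw1 : δ w = w := by
      have h1 : ϖ • (δ w - w) = 0 := by
        rw [smul_sub, ← map_smul, ← hw, hδN, sub_self]
      have := (smul_eq_zero.mp h1).resolve_left hϖne
      exact sub_eq_zero.mp this
    obtain ⟨u, hu⟩ := hb w hw1
    have h2 : N (v - ϖ • u) = 0 := by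
      rw [map_sub, map_smul, ← hu, hw, sub_self]
    obtain ⟨y, hy⟩ := ha _ h2
    refine ⟨(1 : κ) ⊗ₜ[𝒪] y, ?_⟩
    change (δb - 1) ((1 : κ) ⊗ₜ[𝒪] y) = (1 : κ) ⊗ₜ[𝒪] v
    rw [LinearMap.sub_apply, Module.End.one_apply, hδb, hB, ← TensorProduct.tmul_sub, ← hy,
      TensorProduct.tmul_sub, hϖ0, sub_zero]
  have hfin := finrank_eq_mul_finrank_ker x m hm0 hxm hJ
  -- the coinvariants
  let cb : κ ⊗[𝒪] M →ₗ[κ] κ ⊗[𝒪] M' := c.baseChange κ
  have hex : Function.Exact (δ - 1 : Module.End 𝒪 M) c := by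
    intro y
    rw [hker]
    constructor
    · rintro ⟨z, hz⟩
      exact ⟨z, by rw [hz]; rfl⟩
    · rintro ⟨z, hz⟩
      exact ⟨z, by rw [← hz]; rfl⟩
  have hex' := lTensor_exact κ hex hc
  have hcb : Function.Surjective cb := by
    have := LinearMap.lTensor_surjective κ hc
    rwa [← LinearMap.baseChange_eq_ltensor] at this
  have hxeq : ∀ v, x v = (LinearMap.lTensor κ (δ - 1 : Module.End 𝒪 M)) v := by
    intro v
    induction v using TensorProduct.induction_on with
    | zero => simp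
    | tmul a v =>
      change (δb - 1) (a ⊗ₜ[𝒪] v) = _
      rw [LinearMap.lTensor_tmul, LinearMap.sub_apply, Module.End.one_apply,
        LinearMap.sub_apply, Module.End.one_apply, TensorProduct.tmul_sub]
      rfl
    | add a b ha hb => rw [map_add, map_add, ha, hb]
  have hkercb : LinearMap.ker cb = LinearMap.range x := by
    ext v
    rw [LinearMap.mem_ker, LinearMap.mem_range]
    have h1 := hex' v
    rw [← LinearMap.baseChange_eq_ltensor] at h1
    change cb v = 0 ↔ _ at h1
    rw [h1]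
    constructor
    · rintro ⟨z, hz⟩
      exact ⟨z, by rw [hxeq, hz]⟩
    · rintro ⟨z, hz⟩
      exact ⟨z, by rw [← hxeq, hz]⟩
  have h1 := LinearMap.finrank_range_add_finrank_ker cb
  have h2 := LinearMap.finrank_range_add_finrank_ker x
  rw [LinearMap.range_eq_top.mpr hcb, finrank_top, hkercb] at h1
  have h3 : Module.finrank κ (LinearMap.ker x) = Module.finrank κ (κ ⊗[𝒪] M') := by omega
  have h4 : Module.finrank κ (κ ⊗[𝒪] M) = Module.finrank 𝒪 M := Module.finrank_baseChange
  have h5 : Module.finrank κ (κ ⊗[𝒪] M') = Module.finrank 𝒪 M' := Module.finrank_baseChange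
  rw [h3, h4, h5] at hfin
  exact hfin

end DVR

end Fermat.Agent.M43.AlgJordan3
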