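/-
M43 (helper3) [ALG / (A1)] AlgLoc3: **the localisation functor `L(H) = H_𝔪` on Hecke modules.**

Frame: `𝒪` a complete noetherian local ring, `𝔓` a commutative `𝒪`-algebra (the polynomial ring on
the Hecke indices), `𝔪` a maximal ideal of `𝔓`, `H` a `𝔓`-module which is finite free over `𝒪`.
`L(H) := LocalizedModule 𝔪.primeCompl H` (exact by Mathlib).

* `exists_inverse` : for `s ∉ 𝔪` there are `b, u : 𝔓`, `u ∉ 𝔪`, with `u • (b • s • x) = u • x` for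
  all `x : H` (the local component `𝔓/Ann(H) → (𝔓/Ann(H))_𝔪` is onto).
* `surjective_mk` : `H → L(H)` is SURJECTIVE; `finite_loc`, `free_loc` : `L(H)` is finite (free, for
  `𝒪` a discrete valuation ring) over `𝒪`.
* `Lmap 𝔪 g` : the localisation of a `𝔓`-linear map; `Lmap_mk`, `Lmap_comp`, `Lmap_id`, `Lmap_sub`,
  `Lmap_sum`, `Lmap_pow`, `Lmap_injective`, `Lmap_surjective`.
* `bijective_smul` : `f ∉ 𝔪` acts bijectively on `L(H)`.
* `Lmap_bijective_of_almost` : a `𝔓`-linear injection `ι : H₁ → H₂` with `t • H₂ ⊆ range ι` for one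
  `t ∉ 𝔪` becomes bijective after localisation (Eisenstein kill: `L(Hom_par) = L(Hom)`).
-/
import Mathlib
import Fermat.Agent.M43.LocalHecke3

set_option autoImplicit false
set_option linter.unusedSectionVars false
set_option linter.style.haveILetI false

open IsLocalRing

noncomputable section

namespace Fermat.Agent.M43.AlgLoc3

/-! ### `H → L(H)` is onto -/

section Surj

variable {𝒪 : Type} [CommRing 𝒪] [IsLocalRing 𝒪] [IsNoetherianRing 𝒪]
  [IsAdicComplete (maximalIdeal 𝒪) 𝒪]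
  {𝔓 : Type} [CommRing 𝔓] [Algebra 𝒪 𝔓] (𝔪 : Ideal 𝔓) [h𝔪 : 𝔪.IsMaximal]
  (H : Type) [AddCommGroup H] [Module 𝒪 H] [Module 𝔓 H] [IsScalarTower 𝒪 𝔓 H]
  [Module.Finite 𝒪 H] [Module.Free 𝒪 H]

include 𝒪 in
/-- **the local component is a quotient**: every `s ∉ 𝔪` is invertible on `H` up to an element
`u ∉ 𝔪`. -/
theorem exists_inverse (s : 𝔓) (hs : s ∉ 𝔪) :
    ∃ b u : 𝔓, u ∉ 𝔪 ∧ ∀ x : H, u • (b • s • x) = u • x := by
  classical
  set ann : Ideal 𝔓 := Module.annihilator 𝔓 H with hann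
  let B := 𝔓 ⧸ ann
  let f : 𝔓 →+* B := Ideal.Quotient.mk ann
  have hf : Function.Surjective f := Ideal.Quotient.mk_surjective
  -- `B` is finite over `𝒪`
  let φ : 𝔓 →ₐ[𝒪] Module.End 𝒪 H := Algebra.lsmul 𝒪 𝒪 H
  have hφ : ∀ a ∈ ann, φ a = 0 := by
    intro a ha
    ext x
    exact Module.mem_annihilator.mp ha x
  let ψ : B →ₐ[𝒪] Module.End 𝒪 H := Ideal.Quotient.liftₐ ann φ hφ
  have hψ : Function.Injective ψ := by
    rw [injective_iff_map_eq_zero]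
    intro b hb
    obtain ⟨a, rfl⟩ := hf b
    have h1 : φ a = 0 := hb
    have h2 : a ∈ ann := by
      rw [hann, Module.mem_annihilator]
      intro x
      exact LinearMap.congr_fun h1 x
    exact Ideal.Quotient.eq_zero_iff_mem.mpr h2
  haveI : Module.Finite 𝒪 B := Module.Finite.of_injective ψ.toLinearMap hψ
  rcases Ideal.map_eq_top_or_isMaximal_of_surjective f hf h𝔪 with htop | hmax
  · -- `𝔪 + Ann = ⊤`: an element outside `𝔪` kills `H`
    have h1 : (1 : B) ∈ Ideal.map f 𝔪 := by rw [htop]; trivial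
    obtain ⟨a, ha, ha1⟩ := (Ideal.mem_map_iff_of_surjective f hf).mp h1
    have h2 : 1 - a ∈ ann := by
      apply Ideal.Quotient.eq_zero_iff_mem.mp
      change f (1 - a) = 0
      rw [map_sub, ha1, map_one, sub_self]
    have h3 : 1 - a ∉ 𝔪 := fun h => h𝔪.ne_top ((Ideal.eq_top_iff_one _).mpr (by
      have := 𝔪.add_mem h ha
      rwa [sub_add_cancel] at this))
    refine ⟨0, 1 - a, h3, fun x => ?_⟩
    rw [Module.mem_annihilator.mp h2, Module.mem_annihilator.mp h2]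
  · -- the maximal ideal `𝔫` of `B`
    set 𝔫 : Ideal B := Ideal.map f 𝔪 with h𝔫
    haveI := hmax
    have hcomap : Ideal.comap f 𝔫 = 𝔪 := by
      have h1 : 𝔪 ≤ Ideal.comap f 𝔫 := Ideal.le_comap_map
      have h2 : Ideal.comap f 𝔫 ≠ ⊤ := by
        intro h
        exact hmax.ne_top ((Ideal.eq_top_iff_one _).mpr (by
          have : (1 : 𝔓) ∈ Ideal.comap f 𝔫 := by rw [h]; trivial
          simpa using this))
      exact (h𝔪.eq_of_le h2 h1).symm
    have hmem : ∀ a : 𝔓, f a ∈ 𝔫 ↔ a ∈ 𝔪 := fun a => by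
      rw [← Ideal.mem_comap, hcomap]
    have hs' : f s ∉ 𝔫 := fun h => hs ((hmem s).mp h)
    obtain ⟨b', hb'⟩ := LocalHecke3.surjective_algebraMap_localization 𝒪 B 𝔫
      (IsLocalization.mk' (Localization.AtPrime 𝔫) (1 : B) (⟨f s, hs'⟩ : 𝔫.primeCompl))
    have h1 : algebraMap B (Localization.AtPrime 𝔫) (b' * f s) =
        algebraMap B (Localization.AtPrime 𝔫) 1 := by
      rw [map_mul, hb', map_one]
      have := IsLocalization.mk'_spec (Localization.AtPrime 𝔫) (1 : B)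
        (⟨f s, hs'⟩ : 𝔫.primeCompl)
      rw [map_one] at this
      exact this
    obtain ⟨c, hc⟩ := (IsLocalization.eq_iff_exists 𝔫.primeCompl (Localization.AtPrime 𝔫)).mp h1
    obtain ⟨b, rfl⟩ := hf b'
    obtain ⟨u, hu⟩ := hf (c : B)
    have hu𝔪 : u ∉ 𝔪 := fun h => c.2 (by rw [← hu]; exact (hmem u).mpr h)
    have h2 : u * (b * s) - u * 1 ∈ ann := by
      apply Ideal.Quotient.eq_zero_iff_mem.mp
      change f (u * (b * s) - u * 1) = 0
      rw [map_sub, map_mul, map_mul, map_mul, map_one, hu, hc, sub_self]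
    refine ⟨b, u, hu𝔪, fun x => ?_⟩
    have h3 := Module.mem_annihilator.mp h2 x
    rw [sub_smul, sub_eq_zero, mul_smul, mul_smul, mul_one] at h3
    exact h3

include 𝒪 in
/-- **`H → L(H)` is onto.** -/
theorem surjective_mk :
    Function.Surjective (LocalizedModule.mkLinearMap 𝔪.primeCompl H) := by
  intro y
  induction y using LocalizedModule.induction_on with
  | h x s =>
    obtain ⟨b, u, hu, h⟩ := exists_inverse (𝒪 := 𝒪) 𝔪 H (s : 𝔓) s.2
    refine ⟨b • x, ?_⟩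
    rw [LocalizedModule.mkLinearMap_apply, LocalizedModule.mk_eq]
    refine ⟨⟨u, hu⟩, ?_⟩
    change u • (s : 𝔓) • b • x = u • (1 : 𝔓) • x
    rw [one_smul, smul_comm (s : 𝔓) b x]
    exact h x

/-- `L(H)` is finite over `𝒪`. -/
theorem finite_loc : Module.Finite 𝒪 (LocalizedModule 𝔪.primeCompl H) := by
  have hs := surjective_mk (𝒪 := 𝒪) 𝔪 H
  exact Module.Finite.of_surjective
    ((LocalizedModule.mkLinearMap 𝔪.primeCompl H).restrictScalars 𝒪) hs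

end Surj

/-! ### Torsion-freeness and freeness -/

section Free

variable {𝒪 : Type} [CommRing 𝒪] [IsDomain 𝒪]
  {𝔓 : Type} [CommRing 𝔓] [Algebra 𝒪 𝔓] (𝔪 : Ideal 𝔓) [h𝔪 : 𝔪.IsPrime]
  (H : Type) [AddCommGroup H] [Module 𝒪 H] [Module 𝔓 H] [IsScalarTower 𝒪 𝔓 H]

theorem mk_eq_zero_iff (x : H) (s : 𝔪.primeCompl) :
    LocalizedModule.mk x s = 0 ↔ ∃ u : 𝔓, u ∉ 𝔪 ∧ u • x = 0 := by
  rw [← LocalizedModule.zero_mk (1 : 𝔪.primeCompl), LocalizedModule.mk_eq]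
  constructor
  · rintro ⟨u, hu⟩
    refine ⟨u, u.2, ?_⟩
    have : (u : 𝔓) • (1 : 𝔓) • x = (u : 𝔓) • (s : 𝔓) • (0 : H) := hu
    rwa [one_smul, smul_zero, smul_zero] at this
  · rintro ⟨u, hu, h⟩
    refine ⟨⟨u, hu⟩, ?_⟩
    change u • (1 : 𝔓) • x = u • (s : 𝔓) • (0 : H)
    rw [one_smul, smul_zero, smul_zero, h]

/-- torsion-freeness passes to `L(H)`. -/
theorem smul_eq_zero_loc (htf : ∀ (a : 𝒪) (x : H), a • x = 0 → a = 0 ∨ x = 0)
    (a : 𝒪) (y : LocalizedModule 𝔪.primeCompl H) (h : a • y = 0) : a = 0 ∨ y = 0 := by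
  induction y using LocalizedModule.induction_on with
  | h x s =>
    by_cases ha : a = 0
    · exact Or.inl ha
    right
    rw [LocalizedModule.smul'_mk, mk_eq_zero_iff] at h
    obtain ⟨u, hu, h⟩ := h
    rw [mk_eq_zero_iff]
    refine ⟨u, hu, ?_⟩
    rw [smul_comm] at h
    exact (htf a _ h).resolve_left ha

variable [IsDiscreteValuationRing 𝒪] [IsAdicComplete (maximalIdeal 𝒪) 𝒪]
  [h𝔪' : 𝔪.IsMaximal] [Module.Finite 𝒪 H] [Module.Free 𝒪 H]

/-- `L(H)` is free over the discrete valuation ring `𝒪`. -/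
theorem free_loc : Module.Free 𝒪 (LocalizedModule 𝔪.primeCompl H) := by
  haveI := finite_loc (𝒪 := 𝒪) 𝔪 H
  haveI : Module.IsTorsionFree 𝒪 H := inferInstance
  haveI : NoZeroSMulDivisors 𝒪 (LocalizedModule 𝔪.primeCompl H) :=
    ⟨fun {a y} h => smul_eq_zero_loc 𝔪 H (fun a x h => smul_eq_zero.mp h) a y h⟩
  haveI : Module.IsTorsionFree 𝒪 (LocalizedModule 𝔪.primeCompl H) := inferInstance
  infer_instance

end Free

/-! ### Localisation of maps -/

section Maps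

variable {𝔓 : Type} [CommRing 𝔓] (𝔪 : Ideal 𝔓) [h𝔪 : 𝔪.IsPrime]
  {H₁ H₂ H₃ : Type} [AddCommGroup H₁] [Module 𝔓 H₁] [AddCommGroup H₂] [Module 𝔓 H₂]
  [AddCommGroup H₃] [Module 𝔓 H₃]

theorem mk_sub_mk_same (a b : H₁) (s : 𝔪.primeCompl) :
    LocalizedModule.mk a s - LocalizedModule.mk b s = LocalizedModule.mk (a - b) s := by
  rw [sub_eq_add_neg, ← LocalizedModule.mk_neg, LocalizedModule.mk_add_mk, ← smul_add,
    ← sub_eq_add_neg]
  exact LocalizedModule.mk_cancel_common_left s s (a - b)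

theorem mk_smul_cancel (t : 𝔓) (ht : t ∉ 𝔪) (a : H₁) (s : 𝔪.primeCompl) :
    LocalizedModule.mk (t • a) (⟨t, ht⟩ * s) = LocalizedModule.mk a s :=
  LocalizedModule.mk_cancel_common_left (⟨t, ht⟩ : 𝔪.primeCompl) s a

/-- the localisation of a `𝔓`-linear map. -/
def Lmap (g : H₁ →ₗ[𝔓] H₂) :
    LocalizedModule 𝔪.primeCompl H₁ →ₗ[𝔓] LocalizedModule 𝔪.primeCompl H₂ :=
  IsLocalizedModule.map 𝔪.primeCompl (LocalizedModule.mkLinearMap 𝔪.primeCompl H₁)
    (LocalizedModule.mkLinearMap 𝔪.primeCompl H₂) g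

@[simp] theorem Lmap_mk (g : H₁ →ₗ[𝔓] H₂) (x : H₁) (s : 𝔪.primeCompl) :
    Lmap 𝔪 g (LocalizedModule.mk x s) = LocalizedModule.mk (g x) s :=
  IsLocalizedModule.map_LocalizedModules 𝔪.primeCompl g x s

theorem Lmap_comp (g : H₂ →ₗ[𝔓] H₃) (h : H₁ →ₗ[𝔓] H₂) :
    Lmap 𝔪 (g ∘ₗ h) = Lmap 𝔪 g ∘ₗ Lmap 𝔪 h := by
  ext y
  induction y using LocalizedModule.induction_on with
  | h x s => simp

theorem Lmap_comp_apply (g : H₂ →ₗ[𝔓] H₃) (h : H₁ →ₗ[𝔓] H₂)
    (y : LocalizedModule 𝔪.primeCompl H₁) :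
    Lmap 𝔪 (g ∘ₗ h) y = Lmap 𝔪 g (Lmap 𝔪 h y) := by
  rw [Lmap_comp]; rfl

@[simp] theorem Lmap_id : Lmap 𝔪 (LinearMap.id : H₁ →ₗ[𝔓] H₁) = LinearMap.id := by
  ext y
  induction y using LocalizedModule.induction_on with
  | h x s => simp

@[simp] theorem Lmap_one : Lmap 𝔪 (1 : Module.End 𝔓 H₁) = 1 := Lmap_id 𝔪

@[simp] theorem Lmap_zero : Lmap 𝔪 (0 : H₁ →ₗ[𝔓] H₂) = 0 := by
  ext y
  induction y using LocalizedModule.induction_on with
  | h x s => simp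

theorem Lmap_add (g h : H₁ →ₗ[𝔓] H₂) : Lmap 𝔪 (g + h) = Lmap 𝔪 g + Lmap 𝔪 h :=
  map_add (IsLocalizedModule.map 𝔪.primeCompl (LocalizedModule.mkLinearMap 𝔪.primeCompl H₁)
    (LocalizedModule.mkLinearMap 𝔪.primeCompl H₂)) g h

theorem Lmap_sub (g h : H₁ →ₗ[𝔓] H₂) : Lmap 𝔪 (g - h) = Lmap 𝔪 g - Lmap 𝔪 h :=
  map_sub (IsLocalizedModule.map 𝔪.primeCompl (LocalizedModule.mkLinearMap 𝔪.primeCompl H₁)
    (LocalizedModule.mkLinearMap 𝔪.primeCompl H₂)) g h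

theorem Lmap_smul (a : 𝔓) (g : H₁ →ₗ[𝔓] H₂) : Lmap 𝔪 (a • g) = a • Lmap 𝔪 g :=
  map_smul (IsLocalizedModule.map 𝔪.primeCompl (LocalizedModule.mkLinearMap 𝔪.primeCompl H₁)
    (LocalizedModule.mkLinearMap 𝔪.primeCompl H₂)) a g

theorem Lmap_sum {ι : Type*} (s : Finset ι) (g : ι → (H₁ →ₗ[𝔓] H₂)) :
    Lmap 𝔪 (∑ i ∈ s, g i) = ∑ i ∈ s, Lmap 𝔪 (g i) :=
  map_sum (IsLocalizedModule.map 𝔪.primeCompl (LocalizedModule.mkLinearMap 𝔪.primeCompl H₁)
    (LocalizedModule.mkLinearMap 𝔪.primeCompl H₂)) g s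

theorem Lmap_mul (g h : Module.End 𝔓 H₁) : Lmap 𝔪 (g * h) = Lmap 𝔪 g * Lmap 𝔪 h :=
  Lmap_comp 𝔪 g h

theorem Lmap_pow (g : Module.End 𝔓 H₁) (n : ℕ) : Lmap 𝔪 (g ^ n) = (Lmap 𝔪 g) ^ n := by
  induction n with
  | zero => simp
  | succ n ih => rw [pow_succ, pow_succ, Lmap_mul, ih]

/-- localisation as a monoid homomorphism on endomorphisms. -/
def LmapHom : Module.End 𝔓 H₁ →* Module.End 𝔓 (LocalizedModule 𝔪.primeCompl H₁) where
  toFun := Lmap 𝔪
  map_one' := Lmap_one 𝔪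
  map_mul' := Lmap_mul 𝔪

@[simp] theorem LmapHom_apply (g : Module.End 𝔓 H₁) : LmapHom 𝔪 g = Lmap 𝔪 g := rfl

theorem Lmap_injective (g : H₁ →ₗ[𝔓] H₂) (hg : Function.Injective g) :
    Function.Injective (Lmap 𝔪 g) :=
  IsLocalizedModule.map_injective 𝔪.primeCompl _ _ g hg

theorem Lmap_surjective (g : H₁ →ₗ[𝔓] H₂) (hg : Function.Surjective g) :
    Function.Surjective (Lmap 𝔪 g) :=
  IsLocalizedModule.map_surjective 𝔪.primeCompl _ _ g hg

/-- `f ∉ 𝔪` acts bijectively on `L(H)`. -/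
theorem bijective_smul (f : 𝔓) (hf : f ∉ 𝔪) :
    Function.Bijective fun y : LocalizedModule 𝔪.primeCompl H₁ => f • y := by
  have h := IsLocalizedModule.map_units (LocalizedModule.mkLinearMap 𝔪.primeCompl H₁)
    (⟨f, hf⟩ : 𝔪.primeCompl)
  exact (Module.End.isUnit_iff _).mp h

/-- **Eisenstein kill**: an injection whose cokernel is killed by one `t ∉ 𝔪` becomes bijective
after localisation. -/
theorem Lmap_bijective_of_almost (g : H₁ →ₗ[𝔓] H₂) (hg : Function.Injective g) (t : 𝔓)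
    (ht : t ∉ 𝔪) (h : ∀ y : H₂, ∃ x : H₁, g x = t • y) : Function.Bijective (Lmap 𝔪 g) := by
  refine ⟨Lmap_injective 𝔪 g hg, fun y => ?_⟩
  induction y using LocalizedModule.induction_on with
  | h y s =>
    obtain ⟨x, hx⟩ := h y
    refine ⟨LocalizedModule.mk x (⟨t, ht⟩ * s), ?_⟩
    rw [Lmap_mk, hx]
    exact LocalizedModule.mk_cancel_common_left (⟨t, ht⟩ : 𝔪.primeCompl) s y

end Maps

end Fermat.Agent.M43.AlgLoc3
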