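import Mathlib
import Fermat.Agent.M43.LocalHecke3

/-!
# M43 / chapter ALG (A1): the localisation of a Hecke lattice at a maximal ideal

`O` a complete noetherian local ring, `𝔓` a commutative `O`-algebra (the Hecke polynomial ring), `𝔪`
a maximal ideal of `𝔓`, `P` a `𝔓`-module which is finite over `O`, `f : P →ₗ[𝔓] L` a localisation of
`P` at `𝔪.primeCompl`.

* `surjective_of_finite` : `f` is ONTO (the image of `𝔓` in `End_O P` is a finite `O`-algebra, hence
  a product of its localisations: Prelude, through `LocalHecke3.surjective_algebraMap_localization`);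
* `finite_of_finite` : `L` is finite over `O`;
* `smul_eq_zero_of_torsionFree`, `free_of_free` : if `O` is a discrete valuation ring and `P` is
  torsion-free, `L` is free over `O`;
* `bijective_smul` : the elements outside `𝔪` act bijectively on `L`.
-/

set_option autoImplicit false
set_option linter.unusedSectionVars false
set_option linter.style.haveILetI false

namespace Fermat.Agent.M43.AlgLoc5

open IsLocalRing IsLocalizedModule

section Surj

variable (O : Type) [CommRing O] [IsLocalRing O] [IsNoetherianRing O]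
  [IsAdicComplete (maximalIdeal O) O]
  {𝔓 : Type} [CommRing 𝔓] [Algebra O 𝔓] (𝔪 : Ideal 𝔓) [h𝔪 : 𝔪.IsMaximal]
  {P : Type*} [AddCommGroup P] [Module O P] [Module 𝔓 P] [IsScalarTower O 𝔓 P] [Module.Finite O P]
  {L : Type*} [AddCommGroup L] [Module 𝔓 L] (f : P →ₗ[𝔓] L) [IsLocalizedModule 𝔪.primeCompl f]

include O 𝔪 in
/-- **the localisation map of a Hecke lattice is onto.** -/
theorem surjective_of_finite : Function.Surjective f := by
  classical
  let φ : 𝔓 →ₐ[O] Module.End O P := Algebra.lsmul O O P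
  have hφ : ∀ (a : 𝔓) (x : P), φ a x = a • x := fun a x => rfl
  let I : Ideal 𝔓 := RingHom.ker φ
  have hI : ∀ a ∈ I, ∀ x : P, a • x = 0 := by
    intro a ha x
    have h0 : φ a = 0 := ha
    rw [← hφ, h0, LinearMap.zero_apply]
  by_cases hIm : I ≤ 𝔪
  · -- the finite `O`-algebra `B = 𝔓 / I`
    haveI : Module.Finite O (𝔓 ⧸ I) :=
      Module.Finite.of_injective (Ideal.kerLiftAlg φ).toLinearMap (Ideal.kerLiftAlg_injective φ)
    let q : 𝔓 →+* 𝔓 ⧸ I := Ideal.Quotient.mk I
    have hq : Function.Surjective q := Ideal.Quotient.mk_surjective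
    have hcomap : Ideal.comap q (Ideal.map q 𝔪) = 𝔪 := by
      rw [Ideal.comap_map_of_surjective q hq, ← RingHom.ker_eq_comap_bot, Ideal.mk_ker]
      exact sup_eq_left.mpr hIm
    have hne : Ideal.map q 𝔪 ≠ ⊤ := by
      intro htop
      have : Ideal.comap q (Ideal.map q 𝔪) = ⊤ := by rw [htop, Ideal.comap_top]
      rw [hcomap] at this
      exact h𝔪.ne_top this
    haveI h𝔫 : (Ideal.map q 𝔪).IsMaximal :=
      (Ideal.map_eq_top_or_isMaximal_of_surjective q hq h𝔪).resolve_left hne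
    have hmem : ∀ a : 𝔓, q a ∈ Ideal.map q 𝔪 ↔ a ∈ 𝔪 := by
      intro a
      rw [← Ideal.mem_comap, hcomap]
    have hsurjB := LocalHecke3.surjective_algebraMap_localization O (𝔓 ⧸ I) (Ideal.map q 𝔪)
    intro y
    obtain ⟨⟨x, s⟩, rfl⟩ := mk'_surjective 𝔪.primeCompl f y
    have hs : q (s : 𝔓) ∈ (Ideal.map q 𝔪).primeCompl := fun hc => s.2 ((hmem _).mp hc)
    obtain ⟨b', hb'⟩ := hsurjB (IsLocalization.mk' _ (1 : 𝔓 ⧸ I) ⟨q (s : 𝔓), hs⟩)
    obtain ⟨b, rfl⟩ := hq b'
    have h1 : algebraMap (𝔓 ⧸ I) (Localization.AtPrime (Ideal.map q 𝔪)) (q b * q (s : 𝔓)) =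
        algebraMap (𝔓 ⧸ I) (Localization.AtPrime (Ideal.map q 𝔪)) 1 := by
      rw [map_mul, hb', map_one]
      exact (IsLocalization.mk'_spec _ (1 : 𝔓 ⧸ I) ⟨q (s : 𝔓), hs⟩).trans (map_one _)
    obtain ⟨⟨u', hu'⟩, hu⟩ := (IsLocalization.eq_iff_exists (Ideal.map q 𝔪).primeCompl _).mp h1
    obtain ⟨u, rfl⟩ := hq u'
    have hu𝔪 : u ∈ 𝔪.primeCompl := fun hc => hu' ((hmem _).mpr hc)
    have hann : u * (b * (s : 𝔓)) - u * 1 ∈ I := by
      rw [← Ideal.Quotient.eq_zero_iff_mem, map_sub, map_mul, map_mul, map_mul, map_one, sub_eq_zero]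
      exact hu
    refine ⟨b • x, ?_⟩
    rw [Function.uncurry_apply_pair]
    symm
    rw [mk'_eq_iff, Submonoid.smul_def, ← map_smul, eq_iff_exists 𝔪.primeCompl]
    refine ⟨⟨u, hu𝔪⟩, ?_⟩
    have h2 := hI _ hann x
    rw [sub_smul, sub_eq_zero, mul_one] at h2
    show u • x = u • ((s : 𝔓) • b • x)
    rw [← h2, mul_smul, mul_smul, smul_comm b]
  · -- `I ⊄ 𝔪`: the localisation is zero
    obtain ⟨s, hsI, hs𝔪⟩ := Set.not_subset.mp hIm
    have hf0 : ∀ x : P, f x = 0 := by
      intro x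
      rw [eq_zero_iff 𝔪.primeCompl]
      exact ⟨⟨s, hs𝔪⟩, hI s hsI x⟩
    intro y
    obtain ⟨⟨x, t⟩, rfl⟩ := mk'_surjective 𝔪.primeCompl f y
    refine ⟨0, ?_⟩
    rw [map_zero, Function.uncurry_apply_pair]
    symm
    rw [mk'_eq_zero]
    exact hf0 x

variable [Module O L] [IsScalarTower O 𝔓 L]

include 𝔪 f in
/-- the localisation is finite over `O`. -/
theorem finite_of_finite : Module.Finite O L :=
  Module.Finite.of_surjective (f.restrictScalars O) (surjective_of_finite O 𝔪 f)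

end Surj

section Free

variable (O : Type) [CommRing O] [IsDomain O] [IsDiscreteValuationRing O]
  [IsAdicComplete (maximalIdeal O) O]
  {𝔓 : Type} [CommRing 𝔓] [Algebra O 𝔓] (𝔪 : Ideal 𝔓) [h𝔪 : 𝔪.IsMaximal]
  {P : Type*} [AddCommGroup P] [Module O P] [Module 𝔓 P] [IsScalarTower O 𝔓 P] [Module.Finite O P]
  {L : Type*} [AddCommGroup L] [Module 𝔓 L] (f : P →ₗ[𝔓] L) [IsLocalizedModule 𝔪.primeCompl f]
  [Module O L] [IsScalarTower O 𝔓 L]

include 𝔪 f in
/-- torsion-freeness passes to the localisation. -/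
theorem smul_eq_zero_of_torsionFree (htf : ∀ (a : O) (x : P), a • x = 0 → a = 0 ∨ x = 0)
    (a : O) (y : L) (h : a • y = 0) : a = 0 ∨ y = 0 := by
  by_cases ha : a = 0
  · exact Or.inl ha
  right
  obtain ⟨⟨x, t⟩, rfl⟩ := mk'_surjective 𝔪.primeCompl f y
  rw [Function.uncurry_apply_pair] at h ⊢
  rw [← mk'_smul, mk'_eq_zero, eq_zero_iff 𝔪.primeCompl] at h
  obtain ⟨s, hs⟩ := h
  rw [mk'_eq_zero, eq_zero_iff 𝔪.primeCompl]
  refine ⟨s, ?_⟩
  have h1 : a • (s • x) = 0 := by rw [smul_comm]; exact hs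
  exact (htf a _ h1).resolve_left ha

include 𝔪 f in
/-- **the localisation of a finite free Hecke lattice is finite free over `O`.** -/
theorem free_of_free [Module.Free O P] : Module.Free O L := by
  haveI : Module.Finite O L := finite_of_finite O 𝔪 f
  haveI : Module.IsTorsionFree O P := inferInstance
  have htf : ∀ (a : O) (x : P), a • x = 0 → a = 0 ∨ x = 0 := fun a x h => smul_eq_zero.mp h
  haveI : Module.IsTorsionFree O L := by
    rw [Module.isTorsionFree_iff_smul_eq_zero]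
    intro a y h
    exact smul_eq_zero_of_torsionFree O 𝔪 f htf a y h
  exact Module.free_of_finite_type_torsion_free'

end Free

section Units

variable {𝔓 : Type*} [CommRing 𝔓] (𝔪 : Ideal 𝔓) [𝔪.IsPrime]
  {P L : Type*} [AddCommGroup P] [Module 𝔓 P] [AddCommGroup L] [Module 𝔓 L]
  (f : P →ₗ[𝔓] L) [IsLocalizedModule 𝔪.primeCompl f]

include f in
/-- the elements outside `𝔪` act bijectively on the localisation. -/
theorem bijective_smul (s : 𝔓) (hs : s ∉ 𝔪) : Function.Bijective fun y : L => s • y :=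
  (Module.End.isUnit_iff _).mp
    (IsLocalizedModule.map_units (S := 𝔪.primeCompl) f (⟨s, hs⟩ : 𝔪.primeCompl))

end Units

end Fermat.Agent.M43.AlgLoc5
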