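import Mathlib

/-!
# M43 / chapter ALG (A3): the cyclic step after localisation

`𝔓` a commutative ring, `S ⊆ 𝔓` a submonoid (`S = 𝔪.primeCompl`), `P₂`, `P₁` `𝔓`-modules (the
parabolic lattices of the levels `Γ'' ⊲ Γ'`) with localisations `f₂ : P₂ → L₂`, `f₁ : P₁ → L₁`;
`δ : P₂ → P₂` (`δ ^ m = 1`), `N = ∑_{j<m} δ ^ j`, `res : P₁ → P₂`.

* `ker_map_le_range_map` : the exactness transfer: `(∀ x, a x = 0 → ∃ z, τ • x = b z)`, `τ ∈ S`
  ⟹ `ker (L a) ≤ range (L b)`;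
* `mapEnd`, `mapEnd_pow`, `mapEnd_sub_one`, `mapEnd_norm`, `mapEnd_pow_eq_one`;
* `CycLoc` : the hypotheses of the localised cyclic step, in the `τ`-twisted form
  (`N x = 0 → ∃ z, τ₁ • x = δ z - z`; `δ x = x → ∃ z, τ₂ • x = N z`; `δ x = x → ∃ Ψ, res Ψ = τ₃ • x`;
  `res` injective with `δ ∘ res = res`);
* `CycLoc.ker_norm`, `ker_sub_one`, `range_res` : `ker N_L = range (δ_L - 1)`,
  `ker (δ_L - 1) = range N_L = range res_L`;
* `CycLoc.cores`, `res_cores`, `cores_surjective`, `ker_cores`, `cores_comm` : the corestriction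
  `L₂ → L₁` with `res_L ∘ cores = N_L`, onto, kernel `range (δ_L - 1)`, compatible with all pairs of
  operators commuting with `res` and `δ`;
* `CycLoc.of_full` : the hypotheses from the form delivered by the topology (`H` the full `Hom`,
  `j : P₂ → H`, `t : H → P₂` with `t ∘ j = τ`, (E2), (E34), (E4par)).
-/

set_option autoImplicit false
set_option linter.unusedSectionVars false

namespace Fermat.Agent.M43.AlgStep5

open IsLocalizedModule

variable {𝔓 : Type*} [CommRing 𝔓] (S : Submonoid 𝔓)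

section Transfer

variable {P Q R LP LQ LR : Type*} [AddCommGroup P] [Module 𝔓 P] [AddCommGroup Q] [Module 𝔓 Q]
  [AddCommGroup R] [Module 𝔓 R] [AddCommGroup LP] [Module 𝔓 LP] [AddCommGroup LQ] [Module 𝔓 LQ]
  [AddCommGroup LR] [Module 𝔓 LR]
  (fP : P →ₗ[𝔓] LP) [IsLocalizedModule S fP] (fQ : Q →ₗ[𝔓] LQ) [IsLocalizedModule S fQ]
  (fR : R →ₗ[𝔓] LR) [IsLocalizedModule S fR]

/-- **the exactness transfer.** -/
theorem ker_map_le_range_map (a : P →ₗ[𝔓] Q) (b : R →ₗ[𝔓] P) (τ : 𝔓) (hτ : τ ∈ S)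
    (h : ∀ x, a x = 0 → ∃ z, τ • x = b z) :
    LinearMap.ker (map S fP fQ a) ≤ LinearMap.range (map S fR fP b) := by
  intro x' hx'
  obtain ⟨⟨x, s⟩, rfl⟩ := mk'_surjective S fP x'
  rw [LinearMap.mem_ker, Function.uncurry_apply_pair, map_mk', mk'_eq_zero'] at hx'
  obtain ⟨s', hs'⟩ := hx'
  have h1 : a ((s' : 𝔓) • x) = 0 := by rw [map_smul, ← Submonoid.smul_def, hs']
  obtain ⟨z, hz⟩ := h _ h1
  refine ⟨mk' fR z (⟨τ, hτ⟩ * s' * s), ?_⟩
  rw [map_mk', ← hz, Function.uncurry_apply_pair]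
  have h2 : τ • (s' : 𝔓) • x = (⟨τ, hτ⟩ * s' : S) • x := by
    rw [mul_smul]
    rfl
  rw [h2, mk'_cancel_left]

end Transfer

section End

variable {P L : Type*} [AddCommGroup P] [Module 𝔓 P] [AddCommGroup L] [Module 𝔓 L]
  (f : P →ₗ[𝔓] L) [IsLocalizedModule S f]

/-- the localisation of an endomorphism. -/
noncomputable def mapEnd (c : Module.End 𝔓 P) : Module.End 𝔓 L := map S f f c

theorem mapEnd_apply (c : Module.End 𝔓 P) (x : P) : mapEnd S f c (f x) = f (c x) :=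
  map_apply S f f c x

theorem mapEnd_one : mapEnd S f (1 : Module.End 𝔓 P) = 1 := map_id S f

theorem mapEnd_mul (c c' : Module.End 𝔓 P) : mapEnd S f (c * c') = mapEnd S f c * mapEnd S f c' :=
  map_comp' S f f f c' c

theorem mapEnd_pow (c : Module.End 𝔓 P) (j : ℕ) : mapEnd S f (c ^ j) = mapEnd S f c ^ j := by
  induction j with
  | zero => rw [pow_zero, pow_zero, mapEnd_one]
  | succ j ih => rw [pow_succ, pow_succ, mapEnd_mul, ih]

theorem mapEnd_sub (c c' : Module.End 𝔓 P) : mapEnd S f (c - c') = mapEnd S f c - mapEnd S f c' :=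
  map_sub (map S f f) c c'

theorem mapEnd_sub_one (c : Module.End 𝔓 P) : mapEnd S f (c - 1) = mapEnd S f c - 1 := by
  rw [mapEnd_sub, mapEnd_one]

theorem mapEnd_sum {ι : Type*} (s : Finset ι) (c : ι → Module.End 𝔓 P) :
    mapEnd S f (∑ i ∈ s, c i) = ∑ i ∈ s, mapEnd S f (c i) :=
  map_sum (map S f f) c s

theorem mapEnd_norm (c : Module.End 𝔓 P) (m : ℕ) :
    mapEnd S f (∑ j ∈ Finset.range m, c ^ j) = ∑ j ∈ Finset.range m, mapEnd S f c ^ j := by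
  rw [mapEnd_sum]
  exact Finset.sum_congr rfl fun j _ => mapEnd_pow S f c j

theorem mapEnd_pow_eq_one (c : Module.End 𝔓 P) (m : ℕ) (hc : c ^ m = 1) : mapEnd S f c ^ m = 1 := by
  rw [← mapEnd_pow, hc, mapEnd_one]

end End

section Step

variable {P₂ P₁ L₂ L₁ : Type*} [AddCommGroup P₂] [Module 𝔓 P₂] [AddCommGroup P₁] [Module 𝔓 P₁]
  [AddCommGroup L₂] [Module 𝔓 L₂] [AddCommGroup L₁] [Module 𝔓 L₁]
  (f₂ : P₂ →ₗ[𝔓] L₂) [IsLocalizedModule S f₂] (f₁ : P₁ →ₗ[𝔓] L₁) [IsLocalizedModule S f₁]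

/-- **the hypotheses of the localised cyclic step** (`τ`-twisted form). -/
structure CycLoc (res : P₁ →ₗ[𝔓] P₂) (δ : Module.End 𝔓 P₂) (m : ℕ) : Prop where
  pow_eq : δ ^ m = 1
  res_inj : Function.Injective res
  res_inv : ∀ Ψ, δ (res Ψ) = res Ψ
  e2 : ∃ τ ∈ S, ∀ x, (∑ j ∈ Finset.range m, δ ^ j) x = 0 → ∃ z, τ • x = (δ - 1) z
  e34 : ∃ τ ∈ S, ∀ x, (δ - 1) x = 0 → ∃ z, τ • x = (∑ j ∈ Finset.range m, δ ^ j) z
  e4 : ∃ τ ∈ S, ∀ x, (δ - 1) x = 0 → ∃ Ψ, τ • x = res Ψ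

variable {S} {res : P₁ →ₗ[𝔓] P₂} {δ : Module.End 𝔓 P₂} {m : ℕ}

namespace CycLoc

variable (h : CycLoc S res δ m)

include h

theorem mapEnd_pow_eq : mapEnd S f₂ δ ^ m = 1 := mapEnd_pow_eq_one S f₂ δ m h.pow_eq

theorem sub_one_mul_norm :
    (mapEnd S f₂ δ - 1) * ∑ j ∈ Finset.range m, mapEnd S f₂ δ ^ j = 0 := by
  rw [mul_geom_sum, h.mapEnd_pow_eq f₂, sub_self]

theorem norm_mul_sub_one :
    (∑ j ∈ Finset.range m, mapEnd S f₂ δ ^ j) * (mapEnd S f₂ δ - 1) = 0 := by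
  rw [geom_sum_mul, h.mapEnd_pow_eq f₂, sub_self]

/-- `ker N_L = range (δ_L - 1)`. -/
theorem ker_norm : LinearMap.ker (∑ j ∈ Finset.range m, mapEnd S f₂ δ ^ j) =
    LinearMap.range (mapEnd S f₂ δ - 1) := by
  apply le_antisymm
  · obtain ⟨τ, hτ, h2⟩ := h.e2
    have := ker_map_le_range_map S f₂ f₂ f₂ (∑ j ∈ Finset.range m, δ ^ j) (δ - 1) τ hτ h2
    rwa [← mapEnd_norm, ← mapEnd_sub_one]
  · rintro _ ⟨y, rfl⟩
    rw [LinearMap.mem_ker, ← Module.End.mul_apply, h.norm_mul_sub_one f₂, LinearMap.zero_apply]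

/-- `ker (δ_L - 1) = range N_L`. -/
theorem ker_sub_one : LinearMap.ker (mapEnd S f₂ δ - 1) =
    LinearMap.range (∑ j ∈ Finset.range m, mapEnd S f₂ δ ^ j) := by
  apply le_antisymm
  · obtain ⟨τ, hτ, h34⟩ := h.e34
    have := ker_map_le_range_map S f₂ f₂ f₂ (δ - 1) (∑ j ∈ Finset.range m, δ ^ j) τ hτ h34
    rwa [← mapEnd_norm, ← mapEnd_sub_one]
  · rintro _ ⟨y, rfl⟩
    rw [LinearMap.mem_ker, ← Module.End.mul_apply, h.sub_one_mul_norm f₂, LinearMap.zero_apply]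

/-- `range res_L = ker (δ_L - 1)`. -/
theorem range_res : LinearMap.range (map S f₁ f₂ res) = LinearMap.ker (mapEnd S f₂ δ - 1) := by
  apply le_antisymm
  · rintro _ ⟨y, rfl⟩
    obtain ⟨⟨Ψ, s⟩, rfl⟩ := mk'_surjective S f₁ y
    rw [LinearMap.mem_ker, Function.uncurry_apply_pair, map_mk', ← mapEnd_sub_one, mapEnd, map_mk',
      LinearMap.sub_apply, Module.End.one_apply, h.res_inv, sub_self, mk'_zero]
  · obtain ⟨τ, hτ, h4⟩ := h.e4
    have := ker_map_le_range_map S f₂ f₂ f₁ (δ - 1) res τ hτ h4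
    rwa [← mapEnd_sub_one]

theorem res_injective : Function.Injective (map S f₁ f₂ res) :=
  map_injective S f₁ f₂ res h.res_inj

theorem norm_mem_range_res (y : L₂) :
    (∑ j ∈ Finset.range m, mapEnd S f₂ δ ^ j) y ∈ LinearMap.range (map S f₁ f₂ res) := by
  rw [h.range_res f₂ f₁, h.ker_sub_one f₂]
  exact ⟨y, rfl⟩

/-- **the corestriction** `L₂ → L₁`. -/
noncomputable def cores : L₂ →ₗ[𝔓] L₁ :=
  (LinearEquiv.ofInjective (map S f₁ f₂ res) (h.res_injective f₂ f₁)).symm.toLinearMap ∘ₗ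
    (∑ j ∈ Finset.range m, mapEnd S f₂ δ ^ j).codRestrict _ (h.norm_mem_range_res f₂ f₁)

theorem res_cores (y : L₂) :
    map S f₁ f₂ res (h.cores f₂ f₁ y) = (∑ j ∈ Finset.range m, mapEnd S f₂ δ ^ j) y := by
  rw [cores, LinearMap.comp_apply]
  exact congrArg Subtype.val (LinearEquiv.apply_symm_apply
    (LinearEquiv.ofInjective (map S f₁ f₂ res) (h.res_injective f₂ f₁)) _)

theorem cores_surjective : Function.Surjective (h.cores f₂ f₁) := by
  intro x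
  have h1 : map S f₁ f₂ res x ∈ LinearMap.range (∑ j ∈ Finset.range m, mapEnd S f₂ δ ^ j) := by
    rw [← h.ker_sub_one f₂, ← h.range_res f₂ f₁]
    exact ⟨x, rfl⟩
  obtain ⟨y, hy⟩ := h1
  refine ⟨y, h.res_injective f₂ f₁ ?_⟩
  rw [h.res_cores f₂ f₁, hy]

theorem ker_cores : LinearMap.ker (h.cores f₂ f₁) = LinearMap.range (mapEnd S f₂ δ - 1) := by
  rw [← h.ker_norm f₂]
  ext y
  rw [LinearMap.mem_ker, LinearMap.mem_ker, ← h.res_cores f₂ f₁]
  constructor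
  · intro h0
    rw [h0, map_zero]
  · intro h0
    exact h.res_injective f₂ f₁ (by rw [h0, map_zero])

/-- `cores` is compatible with every pair of operators commuting with `res` and `δ`. -/
theorem cores_comm (c₂ : Module.End 𝔓 P₂) (c₁ : Module.End 𝔓 P₁) (hres : res ∘ₗ c₁ = c₂ ∘ₗ res)
    (hδ : c₂ * δ = δ * c₂) :
    h.cores f₂ f₁ ∘ₗ mapEnd S f₂ c₂ = mapEnd S f₁ c₁ ∘ₗ h.cores f₂ f₁ := by
  ext y
  apply h.res_injective f₂ f₁
  have hL : mapEnd S f₂ c₂ * mapEnd S f₂ δ = mapEnd S f₂ δ * mapEnd S f₂ c₂ := by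
    rw [← mapEnd_mul, ← mapEnd_mul, hδ]
  have hcomm : Commute (mapEnd S f₂ c₂) (∑ j ∈ Finset.range m, mapEnd S f₂ δ ^ j) :=
    Commute.sum_right _ _ _ fun j _ => Commute.pow_right hL j
  have hresL : map S f₁ f₂ res ∘ₗ mapEnd S f₁ c₁ = mapEnd S f₂ c₂ ∘ₗ map S f₁ f₂ res := by
    rw [mapEnd, mapEnd, ← map_comp', ← map_comp', hres]
  rw [LinearMap.comp_apply, LinearMap.comp_apply, h.res_cores f₂ f₁]
  have h1 := LinearMap.congr_fun hresL (h.cores f₂ f₁ y)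
  rw [LinearMap.comp_apply, LinearMap.comp_apply] at h1
  rw [h1, h.res_cores f₂ f₁, ← Module.End.mul_apply, ← Module.End.mul_apply, hcomm.eq]

end CycLoc

end Step

section Full

variable {O : Type*} [CommRing O] [Algebra O 𝔓]
  {H P₂ P₁ : Type*} [AddCommGroup H] [Module O H]
  [AddCommGroup P₂] [Module O P₂] [Module 𝔓 P₂] [IsScalarTower O 𝔓 P₂]
  [AddCommGroup P₁] [Module 𝔓 P₁]

/-- **the hypotheses from the form delivered by the topology**: `H` the full `Hom(Γ'', O)` with the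
conjugation `δH`, `j : P₂ → H` the inclusion of the parabolic part, `t : H → P₂` (the operator
`T_{l₀} - (l₀ + 1)`, which maps `H` into `P₂`) with `t ∘ j = τ`, `τ ∈ S`. -/
theorem CycLoc.of_full {res : P₁ →ₗ[𝔓] P₂} {δ : Module.End 𝔓 P₂} {m : ℕ} (hδ : δ ^ m = 1)
    (hinj : Function.Injective res) (hinv : ∀ Ψ, δ (res Ψ) = res Ψ)
    (δH : Module.End O H) (j : P₂ →ₗ[O] H) (hj : ∀ x, j (δ x) = δH (j x))
    (t : H →ₗ[O] P₂) (ht : ∀ y, t (δH y) = δ (t y)) (τ : 𝔓) (hτ : τ ∈ S)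
    (htj : ∀ x, t (j x) = τ • x)
    (hE2 : ∀ y : H, (∑ i ∈ Finset.range m, δH ^ i) y = 0 → ∃ y', y = δH y' - y')
    (hE34 : ∀ y : H, δH y = y → ∃ y', j (t y) = (∑ i ∈ Finset.range m, δH ^ i) y')
    (hE4 : ∀ x : P₂, δ x = x → ∃ Ψ, res Ψ = τ • x) :
    CycLoc S res δ m := by
  have hjpow : ∀ (i : ℕ) (x : P₂), j ((δ ^ i) x) = (δH ^ i) (j x) := by
    intro i
    induction i with
    | zero => intro x; rfl
    | succ i ih =>
      intro x
      rw [pow_succ', pow_succ', Module.End.mul_apply, Module.End.mul_apply, hj, ih]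
  have htpow : ∀ (i : ℕ) (y : H), t ((δH ^ i) y) = (δ ^ i) (t y) := by
    intro i
    induction i with
    | zero => intro y; rfl
    | succ i ih =>
      intro y
      rw [pow_succ', pow_succ', Module.End.mul_apply, Module.End.mul_apply, ht, ih]
  have hjN : ∀ x : P₂, j ((∑ i ∈ Finset.range m, δ ^ i) x) =
      (∑ i ∈ Finset.range m, δH ^ i) (j x) := by
    intro x
    rw [LinearMap.sum_apply, LinearMap.sum_apply, map_sum]
    exact Finset.sum_congr rfl fun i _ => hjpow i x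
  have htN : ∀ y : H, t ((∑ i ∈ Finset.range m, δH ^ i) y) =
      (∑ i ∈ Finset.range m, δ ^ i) (t y) := by
    intro y
    rw [LinearMap.sum_apply, LinearMap.sum_apply, map_sum]
    exact Finset.sum_congr rfl fun i _ => htpow i y
  refine ⟨hδ, hinj, hinv, ⟨τ, hτ, ?_⟩, ⟨τ * τ, S.mul_mem hτ hτ, ?_⟩, ⟨τ, hτ, ?_⟩⟩
  · intro x hx
    obtain ⟨y', hy'⟩ := hE2 (j x) (by rw [← hjN, hx, map_zero])
    refine ⟨t y', ?_⟩
    rw [← htj, hy', map_sub, ht, LinearMap.sub_apply, Module.End.one_apply]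
  · intro x hx
    rw [LinearMap.sub_apply, Module.End.one_apply, sub_eq_zero] at hx
    obtain ⟨y', hy'⟩ := hE34 (j x) (by rw [← hj, hx])
    refine ⟨t y', ?_⟩
    rw [← htN, ← hy', htj, htj, mul_smul]
  · intro x hx
    rw [LinearMap.sub_apply, Module.End.one_apply, sub_eq_zero] at hx
    obtain ⟨Ψ, hΨ⟩ := hE4 x hx
    exact ⟨Ψ, hΨ.symm⟩

end Full

end Fermat.Agent.M43.AlgStep5
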