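import Mathlib
import Fermat.Agent.M43.AlgTower5
import Fermat.Agent.M43.AlgStep5
import Fermat.Agent.M43.AlgLoc5

/-!
# M43 / chapter ALG: one cyclic step of the tower, localised (glue of (A1)-(A4))

`O` a complete discrete valuation ring, `p` a prime in its maximal ideal, `𝔓` a commutative
`O`-algebra, `𝔪` a maximal ideal of `𝔓`; `P₂`, `P₁` `𝔓`-modules finite over `O` with localisations
`f₂ : P₂ → L₂`, `f₁ : P₁ → L₁` at `𝔪`.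

* `Coinv.step_cycLoc` : if `h : CycLoc 𝔪.primeCompl res δ m` (`m = p ^ k`) and
  `Coinv O π₁ (mapEnd f₁ '' C₁) n₁` holds for the lower level, then
  `Coinv O (π₁ ∘ₗ h.cores f₂ f₁) (mapEnd f₂ '' C₂) (m * n₁)` for every set `C₂ ∋ δ` of operators of
  `P₂` commuting with `δ`, each of which restricts along `res` to an element of `C₁ ∪ {1}`, and such
  that every element of `C₁` is such a restriction.
* `coinv_base` : the base case at the bottom level.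
-/

set_option autoImplicit false
set_option linter.unusedSectionVars false
set_option linter.style.haveILetI false

namespace Fermat.Agent.M43.AlgMain5

open IsLocalRing Fermat.Agent.M43.AlgTower5 Fermat.Agent.M43.AlgStep5 Fermat.Agent.M43.AlgLoc5

variable {O : Type} [CommRing O] [IsDomain O] [IsDiscreteValuationRing O]
  [IsAdicComplete (maximalIdeal O) O]
  {𝔓 : Type} [CommRing 𝔓] [Algebra O 𝔓] (𝔪 : Ideal 𝔓) [h𝔪 : 𝔪.IsMaximal]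

section Base

variable {P L : Type*} [AddCommGroup P] [Module O P] [Module 𝔓 P] [IsScalarTower O 𝔓 P]
  [Module.Finite O P] [Module.Free O P]
  [AddCommGroup L] [Module O L] [Module 𝔓 L] [IsScalarTower O 𝔓 L]
  (f : P →ₗ[𝔓] L) [IsLocalizedModule 𝔪.primeCompl f]

include 𝔪 f in
/-- **the base case.** -/
theorem coinv_base : Coinv O (LinearMap.id : L →ₗ[𝔓] L) (∅ : Set (Module.End 𝔓 L)) 1 := by
  haveI : Module.Free O L := free_of_free O 𝔪 f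
  exact Coinv.refl LinearMap.id Function.bijective_id

end Base

section Step

variable {P₂ P₁ L₂ L₁ M₀ : Type*}
  [AddCommGroup P₂] [Module O P₂] [Module 𝔓 P₂] [IsScalarTower O 𝔓 P₂] [Module.Finite O P₂]
  [AddCommGroup P₁] [Module 𝔓 P₁]
  [AddCommGroup L₂] [Module O L₂] [Module 𝔓 L₂] [IsScalarTower O 𝔓 L₂]
  [AddCommGroup L₁] [Module O L₁] [Module 𝔓 L₁] [IsScalarTower O 𝔓 L₁]
  [AddCommGroup M₀] [Module O M₀] [Module 𝔓 M₀] [IsScalarTower O 𝔓 M₀]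
  [Module.Free O M₀] [Module.Finite O M₀]
  (f₂ : P₂ →ₗ[𝔓] L₂) [IsLocalizedModule 𝔪.primeCompl f₂]
  (f₁ : P₁ →ₗ[𝔓] L₁) [IsLocalizedModule 𝔪.primeCompl f₁]

/-- **one cyclic step of the tower, after localisation at `𝔪`.** -/
theorem Coinv.step_cycLoc {p : ℕ} (hp : p.Prime) (k : ℕ) (hpO : (p : O) ∈ maximalIdeal O)
    {res : P₁ →ₗ[𝔓] P₂} {δ : Module.End 𝔓 P₂} {m : ℕ} [NeZero m] (hm : m = p ^ k)
    (h : CycLoc 𝔪.primeCompl res δ m)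
    {π₁ : L₁ →ₗ[𝔓] M₀} {C₁ : Set (Module.End 𝔓 P₁)} {n₁ : ℕ}
    (h₁ : Coinv O π₁ (mapEnd 𝔪.primeCompl f₁ '' C₁) n₁)
    (C₂ : Set (Module.End 𝔓 P₂)) (hδC : δ ∈ C₂) (hcomm : ∀ c₂ ∈ C₂, c₂ * δ = δ * c₂)
    (hdown : ∀ c₂ ∈ C₂, ∃ c₁ : Module.End 𝔓 P₁, (c₁ ∈ C₁ ∨ c₁ = 1) ∧ res ∘ₗ c₁ = c₂ ∘ₗ res)
    (hup : ∀ c₁ ∈ C₁, ∃ c₂ ∈ C₂, res ∘ₗ c₁ = c₂ ∘ₗ res) :
    Coinv O (π₁ ∘ₗ h.cores f₂ f₁) (mapEnd 𝔪.primeCompl f₂ '' C₂) (m * n₁) := by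
  haveI : Module.Finite O L₂ := finite_of_finite O 𝔪 f₂
  refine Coinv.step hp k hpO h₁ (h.cores f₂ f₁) (h.cores_surjective f₂ f₁) m hm
    (mapEnd 𝔪.primeCompl f₂ δ) (h.mapEnd_pow_eq f₂) (h.ker_cores f₂ f₁) (h.ker_sub_one f₂).le
    _ ⟨δ, hδC, rfl⟩ ?_ ?_
  · rintro _ ⟨c₂, hc₂, rfl⟩
    obtain ⟨c₁, hc₁, hres⟩ := hdown c₂ hc₂
    refine ⟨mapEnd 𝔪.primeCompl f₁ c₁, ?_, h.cores_comm f₂ f₁ c₂ c₁ hres (hcomm c₂ hc₂)⟩
    rcases hc₁ with hc₁ | rfl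
    · exact Or.inl ⟨c₁, hc₁, rfl⟩
    · exact Or.inr (mapEnd_one _ f₁)
  · rintro _ ⟨c₁, hc₁, rfl⟩
    obtain ⟨c₂, hc₂, hres⟩ := hup c₁ hc₁
    exact ⟨_, ⟨c₂, hc₂, rfl⟩, h.cores_comm f₂ f₁ c₂ c₁ hres (hcomm c₂ hc₂)⟩

end Step

end Fermat.Agent.M43.AlgMain5
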