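/-
M43 (helper3) [ALG / (A3)] AlgStep3: **the cyclic step after localisation.**

Frame: `𝒪` a complete discrete valuation ring of residue characteristic `p`, `𝔓` a commutative
`𝒪`-algebra, `𝔪` a maximal ideal, `P'`, `P''` two `𝔓`-modules finite free over `𝒪`
(`Hom_par(Γ', 𝒪)`, `Hom_par(Γ'', 𝒪)` for a cyclic step `Γ'' ⊲ Γ'` of order `p^e`),
`res : P' → P''` injective `𝔓`-linear, `δ ∈ End_𝔓 P''` with `δ ^ (p^e) = 1`,
`N = ∑_{i < p^e} δ^i`, and the ALMOST-exactness hypotheses (each up to ONE element outside `𝔪`):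
  (H2) `N x = 0 → t₂ • x ∈ range (δ - 1)`,   (H3) `δ x = x → t₃ • x ∈ range N`,
  (H4a) `t₄ • range N ≤ range res`,           (H4b) `t₅ • range res ≤ range N`.

* `cores` : for an injective `res` and `N` with `range N ≤ range res`, the unique linear map with
  `res ∘ cores = N`.
* `cyclic_step` : the corestriction `c : L(P'') → L(P')` (`L(res) ∘ c = L(N)`) is ONTO with kernel
  `range (Lδ - 1)`; `L(P'')` satisfies both conditions of the cyclic criterion, and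
  **`finrank L(P'') = p^e * finrank L(P')`**.
* `almost_of_full` : (H2)–(H4b) from the topological facts on the FULL `Hom` (`H''`, not a
  `𝔓`-module) and ONE operator `t` with `t H'' ⊆ P''`, `t|P'' = τ ∉ 𝔪` (lead's 1706(B) shape).
* `cores_comm` : `c` intertwines every pair of operators compatible with `res` and commuting
  with `δ`.
-/
import Mathlib
import Fermat.Agent.M43.AlgLoc3
import Fermat.Agent.M43.AlgJordan3

set_option autoImplicit false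
set_option linter.unusedSectionVars false
set_option linter.style.haveILetI false

open IsLocalRing

noncomputable section

namespace Fermat.Agent.M43.AlgStep3

open Fermat.Agent.M43.AlgLoc3

/-- restriction of scalars on endomorphisms, as a ring homomorphism. -/
def resEnd (𝒪 : Type*) {𝔓 M : Type*} [CommRing 𝒪] [CommRing 𝔓] [Algebra 𝒪 𝔓] [AddCommGroup M]
    [Module 𝒪 M] [Module 𝔓 M] [IsScalarTower 𝒪 𝔓 M] : Module.End 𝔓 M →+* Module.End 𝒪 M where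
  toFun g := g.restrictScalars 𝒪
  map_one' := rfl
  map_mul' _ _ := rfl
  map_zero' := rfl
  map_add' _ _ := rfl

@[simp] theorem resEnd_apply {𝒪 𝔓 M : Type*} [CommRing 𝒪] [CommRing 𝔓] [Algebra 𝒪 𝔓]
    [AddCommGroup M] [Module 𝒪 M] [Module 𝔓 M] [IsScalarTower 𝒪 𝔓 M] (g : Module.End 𝔓 M)
    (x : M) : resEnd 𝒪 g x = g x := rfl

section Cores

variable {𝔓 : Type*} [CommRing 𝔓] {P' P'' : Type*} [AddCommGroup P'] [Module 𝔓 P']
  [AddCommGroup P''] [Module 𝔓 P'']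

/-- the corestriction: the unique map with `res ∘ cores = N`. -/
def cores (res : P' →ₗ[𝔓] P'') (hres : Function.Injective res) (N : Module.End 𝔓 P'')
    (h : ∀ x, ∃ y, N x = res y) : P'' →ₗ[𝔓] P' :=
  (LinearEquiv.ofInjective res hres).symm.toLinearMap ∘ₗ
    N.codRestrict (LinearMap.range res) (fun x => by
      obtain ⟨y, hy⟩ := h x
      exact ⟨y, hy.symm⟩)

theorem res_cores (res : P' →ₗ[𝔓] P'') (hres : Function.Injective res) (N : Module.End 𝔓 P'')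
    (h : ∀ x, ∃ y, N x = res y) (x : P'') : res (cores res hres N h x) = N x := by
  unfold cores
  rw [LinearMap.comp_apply]
  exact congrArg Subtype.val (LinearEquiv.apply_symm_apply (LinearEquiv.ofInjective res hres) _)

end Cores

section Step

variable {𝒪 : Type} [CommRing 𝒪] [IsDomain 𝒪] [IsDiscreteValuationRing 𝒪]
  [IsAdicComplete (maximalIdeal 𝒪) 𝒪] {p : ℕ} [hp : Fact p.Prime]
  {𝔓 : Type} [CommRing 𝔓] [Algebra 𝒪 𝔓] (𝔪 : Ideal 𝔓) [h𝔪 : 𝔪.IsMaximal]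
  {P' P'' : Type} [AddCommGroup P'] [Module 𝒪 P'] [Module 𝔓 P'] [IsScalarTower 𝒪 𝔓 P']
  [Module.Finite 𝒪 P'] [Module.Free 𝒪 P']
  [AddCommGroup P''] [Module 𝒪 P''] [Module 𝔓 P''] [IsScalarTower 𝒪 𝔓 P'']
  [Module.Finite 𝒪 P''] [Module.Free 𝒪 P'']

/-- **(A3) the cyclic step.** -/
theorem cyclic_step (hp𝒪 : (p : 𝒪) ∈ maximalIdeal 𝒪)
    (res : P' →ₗ[𝔓] P'') (hres : Function.Injective res) (δ : Module.End 𝔓 P'') (e : ℕ)
    (hδ : δ ^ (p ^ e) = 1)
    (H2 : ∃ t : 𝔓, t ∉ 𝔪 ∧ ∀ x, (∑ i ∈ Finset.range (p ^ e), δ ^ i) x = 0 →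
      ∃ y, t • x = δ y - y)
    (H3 : ∃ t : 𝔓, t ∉ 𝔪 ∧ ∀ x, δ x = x → ∃ y, t • x = (∑ i ∈ Finset.range (p ^ e), δ ^ i) y)
    (H4a : ∃ t : 𝔓, t ∉ 𝔪 ∧ ∀ x, ∃ y, t • (∑ i ∈ Finset.range (p ^ e), δ ^ i) x = res y)
    (H4b : ∃ t : 𝔓, t ∉ 𝔪 ∧ ∀ y, ∃ x, t • res y = (∑ i ∈ Finset.range (p ^ e), δ ^ i) x) :
    ∃ c : LocalizedModule 𝔪.primeCompl P'' →ₗ[𝔓] LocalizedModule 𝔪.primeCompl P',
      Function.Surjective c ∧
      (∀ z, c z = 0 ↔ ∃ w, z = Lmap 𝔪 δ w - w) ∧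
      (∀ z, Lmap 𝔪 res (c z) = (∑ i ∈ Finset.range (p ^ e), Lmap 𝔪 δ ^ i) z) ∧
      (∀ z, (∑ i ∈ Finset.range (p ^ e), Lmap 𝔪 δ ^ i) z = 0 → ∃ w, z = Lmap 𝔪 δ w - w) ∧
      (∀ z, Lmap 𝔪 δ z = z → ∃ w, z = (∑ i ∈ Finset.range (p ^ e), Lmap 𝔪 δ ^ i) w) ∧
      Module.finrank 𝒪 (LocalizedModule 𝔪.primeCompl P'') =
        p ^ e * Module.finrank 𝒪 (LocalizedModule 𝔪.primeCompl P') := by
  classical
  set m := p ^ e with hm
  set N : Module.End 𝔓 P'' := ∑ i ∈ Finset.range m, δ ^ i with hN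
  have hLN : (∑ i ∈ Finset.range m, Lmap 𝔪 δ ^ i) = Lmap 𝔪 N := by
    rw [hN, Lmap_sum]
    exact Finset.sum_congr rfl fun i _ => (Lmap_pow 𝔪 δ i).symm
  rw [hLN]
  -- `N δ = N`
  have hNδ : ∀ y, N (δ y - y) = 0 := by
    intro y
    have h1 : N * δ = N := by
      rw [hN, Finset.sum_mul]
      have e1 : ∀ i ∈ Finset.range m, δ ^ i * δ = δ ^ (i + 1) := fun i _ => by rw [pow_succ]
      rw [Finset.sum_congr rfl e1]
      have h2 := Finset.sum_range_succ' (fun i => δ ^ i) m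
      have h3 := Finset.sum_range_succ (fun i => δ ^ i) m
      rw [h3, hδ, pow_zero] at h2
      exact (add_right_cancel h2).symm
    rw [map_sub, ← Module.End.mul_apply, h1, sub_self]
  obtain ⟨t₂, ht₂, H2⟩ := H2
  obtain ⟨t₃, ht₃, H3⟩ := H3
  obtain ⟨t₅, ht₅, H4a⟩ := H4a
  obtain ⟨t₄, ht₄, H4b⟩ := H4b
  have hresL : Function.Injective (Lmap 𝔪 res) := Lmap_injective 𝔪 res hres
  have hLrange : ∀ z, ∃ y, Lmap 𝔪 N z = Lmap 𝔪 res y := by
    intro z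
    induction z using LocalizedModule.induction_on with
    | h x s =>
      obtain ⟨y, hy⟩ := H4a x
      refine ⟨LocalizedModule.mk y (⟨t₅, ht₅⟩ * s), ?_⟩
      rw [Lmap_mk, Lmap_mk, ← hy, mk_smul_cancel]
  set co := cores (Lmap 𝔪 res) hresL (Lmap 𝔪 N) hLrange with hco
  have hrcL : ∀ z, Lmap 𝔪 res (co z) = Lmap 𝔪 N z :=
    res_cores (Lmap 𝔪 res) hresL (Lmap 𝔪 N) hLrange
  -- (a)
  have hA : ∀ z, Lmap 𝔪 N z = 0 → ∃ w, z = Lmap 𝔪 δ w - w := by
    intro z hz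
    induction z using LocalizedModule.induction_on with
    | h x s =>
      rw [Lmap_mk, mk_eq_zero_iff] at hz
      obtain ⟨u, hu, hz⟩ := hz
      rw [← map_smul] at hz
      obtain ⟨y, hy⟩ := H2 _ hz
      refine ⟨LocalizedModule.mk y (⟨t₂, ht₂⟩ * (⟨u, hu⟩ * s)), ?_⟩
      rw [Lmap_mk, mk_sub_mk_same, ← hy, mk_smul_cancel, mk_smul_cancel]
  -- (b)
  have hB : ∀ z, Lmap 𝔪 δ z = z → ∃ w, z = Lmap 𝔪 N w := by
    intro z hz
    induction z using LocalizedModule.induction_on with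
    | h x s =>
      rw [Lmap_mk, LocalizedModule.mk_eq] at hz
      obtain ⟨u, hz⟩ := hz
      have hz' : δ ((u : 𝔓) • (s : 𝔓) • x) = (u : 𝔓) • (s : 𝔓) • x := by
        rw [map_smul, map_smul]
        exact hz
      obtain ⟨y, hy⟩ := H3 _ hz'
      refine ⟨LocalizedModule.mk y (⟨t₃, ht₃⟩ * (u * (s * s))), ?_⟩
      rw [Lmap_mk, ← hy, mk_smul_cancel]
      have h1 := mk_smul_cancel 𝔪 (u : 𝔓) u.2 ((s : 𝔓) • x) (s * s)
      have h2 := mk_smul_cancel 𝔪 (s : 𝔓) s.2 x s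
      rw [show (⟨(u : 𝔓), u.2⟩ : 𝔪.primeCompl) = u from rfl] at h1
      rw [show (⟨(s : 𝔓), s.2⟩ : 𝔪.primeCompl) = s from rfl] at h2
      rw [h1, h2]
  -- the corestriction
  have hNδL : ∀ w, Lmap 𝔪 N (Lmap 𝔪 δ w - w) = 0 := by
    intro w
    induction w using LocalizedModule.induction_on with
    | h y s => rw [Lmap_mk, mk_sub_mk_same, Lmap_mk, hNδ, LocalizedModule.zero_mk]
  have hsurj : Function.Surjective co := by
    intro z
    induction z using LocalizedModule.induction_on with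
    | h y s =>
      obtain ⟨x, hx⟩ := H4b y
      refine ⟨LocalizedModule.mk x (⟨t₄, ht₄⟩ * s), ?_⟩
      apply hresL
      rw [hrcL, Lmap_mk, Lmap_mk, ← hx, mk_smul_cancel]
  have hker : ∀ z, co z = 0 ↔ ∃ w, z = Lmap 𝔪 δ w - w := by
    intro z
    constructor
    · intro hz
      apply hA
      rw [← hrcL, hz, map_zero]
    · rintro ⟨w, rfl⟩
      apply hresL
      rw [hrcL, hNδL, map_zero]
  refine ⟨co, hsurj, hker, hrcL, hA, hB, ?_⟩
  -- the rank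
  haveI := finite_loc (𝒪 := 𝒪) 𝔪 P'
  haveI := finite_loc (𝒪 := 𝒪) 𝔪 P''
  haveI := free_loc (𝒪 := 𝒪) 𝔪 P'
  haveI := free_loc (𝒪 := 𝒪) 𝔪 P''
  have hsum : (∑ i ∈ Finset.range (p ^ e), resEnd 𝒪 (Lmap 𝔪 δ) ^ i) = resEnd 𝒪 (Lmap 𝔪 N) := by
    rw [← hLN, map_sum]
    exact Finset.sum_congr rfl fun i _ => (map_pow (resEnd 𝒪) (Lmap 𝔪 δ) i).symm
  refine AlgJordan3.finrank_eq_mul hp𝒪 (resEnd 𝒪 (Lmap 𝔪 δ)) e ?_ ?_ ?_
    (co.restrictScalars 𝒪) hsurj ?_
  · rw [← map_pow, ← Lmap_pow, hδ, Lmap_one, map_one]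
  · intro x hx
    rw [hsum] at hx
    exact hA x hx
  · intro x hx
    rw [hsum]
    exact hB x hx
  · intro x
    exact hker x

/-- **equivariance of the corestriction**: `c` intertwines every pair of operators compatible with
`res` and commuting with `δ`. -/
theorem cores_comm (res : P' →ₗ[𝔓] P'') (hres : Function.Injective res) (δ : Module.End 𝔓 P'')
    (m : ℕ) (c : LocalizedModule 𝔪.primeCompl P'' →ₗ[𝔓] LocalizedModule 𝔪.primeCompl P')
    (hc : ∀ z, Lmap 𝔪 res (c z) = (∑ i ∈ Finset.range m, Lmap 𝔪 δ ^ i) z)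
    (u'' : Module.End 𝔓 P'') (u' : Module.End 𝔓 P') (h1 : ∀ y, u'' (res y) = res (u' y))
    (h2 : ∀ x, u'' (δ x) = δ (u'' x)) (z : LocalizedModule 𝔪.primeCompl P'') :
    c (Lmap 𝔪 u'' z) = Lmap 𝔪 u' (c z) := by
  have hresL : Function.Injective (Lmap 𝔪 res) := Lmap_injective 𝔪 res hres
  apply hresL
  have hcomm : Commute (Lmap 𝔪 u'') (Lmap 𝔪 δ) := by
    change Lmap 𝔪 u'' * Lmap 𝔪 δ = Lmap 𝔪 δ * Lmap 𝔪 u''
    rw [← Lmap_mul, ← Lmap_mul]
    congr 1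
    ext x
    exact h2 x
  have hcomm' : Commute (Lmap 𝔪 u'') (∑ i ∈ Finset.range m, Lmap 𝔪 δ ^ i) :=
    Commute.sum_right _ _ _ fun i _ => hcomm.pow_right i
  have h3 : ∀ w, Lmap 𝔪 res (Lmap 𝔪 u' w) = Lmap 𝔪 u'' (Lmap 𝔪 res w) := by
    intro w
    induction w using LocalizedModule.induction_on with
    | h y s => rw [Lmap_mk, Lmap_mk, Lmap_mk, Lmap_mk, h1]
  rw [hc, h3, hc]
  have := LinearMap.congr_fun hcomm'.eq z
  exact this.symm

end Step

/-! ### From the full `Hom` to the parabolic part -/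

section Full

variable {𝒪 : Type*} [CommRing 𝒪] {𝔓 : Type*} [CommRing 𝔓] [Algebra 𝒪 𝔓]
  {P' P'' H'' : Type*} [AddCommGroup P'] [Module 𝔓 P']
  [AddCommGroup P''] [Module 𝒪 P''] [Module 𝔓 P''] [IsScalarTower 𝒪 𝔓 P'']
  [AddCommGroup H''] [Module 𝒪 H'']

/-- **the hypotheses (H2)–(H4b) of `cyclic_step` from the topology of the FULL `Hom`**:
`H''` is only an `𝒪`-module (the full `Hom(Γ'', 𝒪)`), `ι : P'' → H''` the inclusion of the
parabolic part, `δF` the conjugation, `tF = T_{l₀} - (l₀ + 1)` with `tF H'' ⊆ P''` (E6),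
`tF δF = δF tF` (E5), `tF|P'' = τ`; (E2) `ker N = range (δ - 1)` and (E34)
`tF (ker (δ - 1)) ⊆ range N` on `H''`; (E4par) on the parabolic parts. -/
theorem almost_of_full (ι : P'' →ₗ[𝒪] H'') (hι : Function.Injective ι)
    (δF tF : Module.End 𝒪 H'') (δ : Module.End 𝔓 P'') (τ : 𝔓) (m : ℕ) (hδm : δ ^ m = 1)
    (hδι : ∀ x, ι (δ x) = δF (ι x)) (htι : ∀ x, ι (τ • x) = tF (ι x))
    (htP : ∀ y : H'', ∃ x : P'', ι x = tF y)
    (htδ : ∀ y, tF (δF y) = δF (tF y))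
    (E2 : ∀ x : H'', (∑ j ∈ Finset.range m, δF ^ j) x = 0 → ∃ y, x = δF y - y)
    (E34 : ∀ x : H'', δF x = x → ∃ y, tF x = (∑ j ∈ Finset.range m, δF ^ j) y)
    (res : P' →ₗ[𝔓] P'') (hfix : ∀ y, δ (res y) = res y)
    (E4par : ∀ x : P'', δ x = x → ∃ Ψ : P', res Ψ = τ • x) :
    (∀ x, (∑ i ∈ Finset.range m, δ ^ i) x = 0 → ∃ y, τ • x = δ y - y) ∧
    (∀ x, δ x = x → ∃ y, (τ * τ) • x = (∑ i ∈ Finset.range m, δ ^ i) y) ∧
    (∀ x, ∃ y, τ • (∑ i ∈ Finset.range m, δ ^ i) x = res y) ∧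
    (∀ y, ∃ x, (τ * τ) • res y = (∑ i ∈ Finset.range m, δ ^ i) x) := by
  have hpowι : ∀ (j : ℕ) (x : P''), ι ((δ ^ j) x) = (δF ^ j) (ι x) := by
    intro j
    induction j with
    | zero => intro x; simp
    | succ j ih =>
      intro x
      rw [pow_succ', pow_succ', Module.End.mul_apply, Module.End.mul_apply, hδι, ih]
  have hNι : ∀ x : P'', ι ((∑ i ∈ Finset.range m, δ ^ i) x) =
      (∑ j ∈ Finset.range m, δF ^ j) (ι x) := by
    intro x
    rw [LinearMap.sum_apply, LinearMap.sum_apply, map_sum]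
    exact Finset.sum_congr rfl fun j _ => hpowι j x
  have htpow : ∀ (j : ℕ) (y : H''), tF ((δF ^ j) y) = (δF ^ j) (tF y) := by
    intro j
    induction j with
    | zero => intro y; simp
    | succ j ih =>
      intro y
      rw [pow_succ', Module.End.mul_apply, Module.End.mul_apply, htδ, ih]
  have htN : ∀ y : H'', tF ((∑ j ∈ Finset.range m, δF ^ j) y) =
      (∑ j ∈ Finset.range m, δF ^ j) (tF y) := by
    intro y
    rw [LinearMap.sum_apply, LinearMap.sum_apply, map_sum]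
    exact Finset.sum_congr rfl fun j _ => htpow j y
  have hδN : ∀ x : P'', δ ((∑ i ∈ Finset.range m, δ ^ i) x) = (∑ i ∈ Finset.range m, δ ^ i) x := by
    intro x
    have h1 : δ * (∑ i ∈ Finset.range m, δ ^ i) = ∑ i ∈ Finset.range m, δ ^ i := by
      rw [Finset.mul_sum]
      have e1 : ∀ i ∈ Finset.range m, δ * δ ^ i = δ ^ (i + 1) := fun i _ => by rw [pow_succ']
      rw [Finset.sum_congr rfl e1]
      have h2 := Finset.sum_range_succ' (fun i => δ ^ i) m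
      have h3 := Finset.sum_range_succ (fun i => δ ^ i) m
      rw [h3, hδm, pow_zero] at h2
      exact (add_right_cancel h2).symm
    rw [← Module.End.mul_apply, h1]
  have H3 : ∀ x, δ x = x → ∃ y, (τ * τ) • x = (∑ i ∈ Finset.range m, δ ^ i) y := by
    intro x hx
    have h1 : δF (ι x) = ι x := by rw [← hδι, hx]
    obtain ⟨y, hy⟩ := E34 _ h1
    obtain ⟨y', hy'⟩ := htP y
    refine ⟨y', hι ?_⟩
    rw [hNι, hy', ← htN, ← hy, mul_smul, htι, htι]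
  refine ⟨?_, H3, ?_, ?_⟩
  · intro x hx
    have h1 : (∑ j ∈ Finset.range m, δF ^ j) (ι x) = 0 := by rw [← hNι, hx, map_zero]
    obtain ⟨y, hy⟩ := E2 _ h1
    obtain ⟨y', hy'⟩ := htP y
    refine ⟨y', hι ?_⟩
    rw [map_sub, hδι, hy', htι, hy, map_sub, htδ]
  · intro x
    obtain ⟨Ψ, hΨ⟩ := E4par _ (hδN x)
    exact ⟨Ψ, hΨ.symm⟩
  · intro y
    exact H3 _ (hfix y)

end Full

end Fermat.Agent.M43.AlgStep3
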