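/-
M43 (helper3) [ALG / (A4)] AlgTower3: **the tower of cyclic steps: `L(P_s)` is free over `𝒪[Δ]`.**

Frame: `𝒪` a complete discrete valuation ring, residue characteristic `p` odd; `𝔓` a commutative
`𝒪`-algebra, `𝔪` a maximal ideal; a tower `P 0 → P 1 → ⋯ → P s` of `𝔓`-modules, finite free over
`𝒪` (`P j = Hom_par(Γ_j, 𝒪)`, `Γ_0 ⊇ Γ_1 ⊇ ⋯ ⊇ Γ_s`), a finite commutative group `Δ` acting
`𝔓`-linearly on every `P j` (`ρ j`), trivially on `P 0`, the `res j` equivariant; the `j`-th step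
is cyclic of order `p ^ k j` with generator `g j ∈ Δ`, i.e. `δ_j := ρ (j+1) (g j)` satisfies the
hypotheses of `AlgStep3.cyclic_step`; `|Δ| = ∏_{j<s} p ^ k j`.

* `TowerHyp` : the hypotheses, as a structure.
* `Lrep` : the localised representation of `Δ` on `L(P j)` (over `𝒪`).
* `tower` : there is a SURJECTIVE `𝔓`-linear `c : L(P s) → L(P 0)`, invariant under `Δ`, with
  `ker c ≤ I_Δ L(P s)`, `finrank L(P s) = |Δ| * finrank L(P 0)`, and **every family `e` lifting an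
  `𝒪`-basis `f` of `L(P 0)` along `c` is an `𝒪[Δ]`-basis of `L(P s)`** (`AlgFree3.Phi` bijective).
-/
import Mathlib
import Fermat.Agent.M43.AlgStep3
import Fermat.Agent.M43.AlgFree3

set_option autoImplicit false
set_option linter.unusedSectionVars false
set_option linter.style.haveILetI false

open IsLocalRing

noncomputable section

namespace Fermat.Agent.M43.AlgTower3

open Fermat.Agent.M43.AlgLoc3 Fermat.Agent.M43.AlgStep3 Fermat.Agent.M43.AlgFree3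

section Rep

variable (𝒪 : Type) [CommRing 𝒪] {𝔓 : Type} [CommRing 𝔓] [Algebra 𝒪 𝔓] (𝔪 : Ideal 𝔓)
  [h𝔪 : 𝔪.IsPrime] {H : Type} [AddCommGroup H] [Module 𝒪 H] [Module 𝔓 H] [IsScalarTower 𝒪 𝔓 H]
  {Δ : Type} [Monoid Δ]

/-- the localised representation. -/
def Lrep (ρ : Δ →* Module.End 𝔓 H) : Representation 𝒪 Δ (LocalizedModule 𝔪.primeCompl H) :=
  (((resEnd 𝒪 : Module.End 𝔓 (LocalizedModule 𝔪.primeCompl H) →+* _) : _ →* _).comp
    (LmapHom 𝔪)).comp ρ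

@[simp] theorem Lrep_apply (ρ : Δ →* Module.End 𝔓 H) (d : Δ)
    (z : LocalizedModule 𝔪.primeCompl H) : Lrep 𝒪 𝔪 ρ d z = Lmap 𝔪 (ρ d) z := rfl

end Rep

variable {𝒪 : Type} [CommRing 𝒪] [IsDomain 𝒪] [IsDiscreteValuationRing 𝒪]
  [IsAdicComplete (maximalIdeal 𝒪) 𝒪] {p : ℕ} [hp : Fact p.Prime]
  {𝔓 : Type} [CommRing 𝔓] [Algebra 𝒪 𝔓] (𝔪 : Ideal 𝔓) [h𝔪 : 𝔪.IsMaximal]
  (P : ℕ → Type) [∀ j, AddCommGroup (P j)] [∀ j, Module 𝒪 (P j)] [∀ j, Module 𝔓 (P j)]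
  [∀ j, IsScalarTower 𝒪 𝔓 (P j)] [∀ j, Module.Finite 𝒪 (P j)] [∀ j, Module.Free 𝒪 (P j)]
  {Δ : Type} [CommGroup Δ] [Fintype Δ]

/-- **the hypotheses on the tower.** -/
structure TowerHyp (p : ℕ) (ρ : ∀ j, Δ →* Module.End 𝔓 (P j)) (res : ∀ j, P j →ₗ[𝔓] P (j + 1))
    (g : ℕ → Δ) (k : ℕ → ℕ) (s : ℕ) : Prop where
  card : Fintype.card Δ = ∏ j ∈ Finset.range s, p ^ k j
  triv0 : ∀ d, ρ 0 d = 1
  res_inj : ∀ j < s, Function.Injective (res j)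
  res_ρ : ∀ j < s, ∀ d y, res j (ρ j d y) = ρ (j + 1) d (res j y)
  pow : ∀ j < s, ρ (j + 1) (g j) ^ (p ^ k j) = 1
  H2 : ∀ j < s, ∃ t : 𝔓, t ∉ 𝔪 ∧ ∀ x,
    (∑ i ∈ Finset.range (p ^ k j), ρ (j + 1) (g j) ^ i) x = 0 →
      ∃ y, t • x = ρ (j + 1) (g j) y - y
  H3 : ∀ j < s, ∃ t : 𝔓, t ∉ 𝔪 ∧ ∀ x, ρ (j + 1) (g j) x = x →
    ∃ y, t • x = (∑ i ∈ Finset.range (p ^ k j), ρ (j + 1) (g j) ^ i) y
  H4a : ∀ j < s, ∃ t : 𝔓, t ∉ 𝔪 ∧ ∀ x, ∃ y,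
    t • (∑ i ∈ Finset.range (p ^ k j), ρ (j + 1) (g j) ^ i) x = res j y
  H4b : ∀ j < s, ∃ t : 𝔓, t ∉ 𝔪 ∧ ∀ y, ∃ x,
    t • res j y = (∑ i ∈ Finset.range (p ^ k j), ρ (j + 1) (g j) ^ i) x

variable {P}

/-- the inductive statement. -/
theorem tower_aux (hp𝒪 : (p : 𝒪) ∈ maximalIdeal 𝒪)
    (ρ : ∀ j, Δ →* Module.End 𝔓 (P j)) (res : ∀ j, P j →ₗ[𝔓] P (j + 1))
    (g : ℕ → Δ) (k : ℕ → ℕ) (s : ℕ) (h : TowerHyp 𝔪 P p ρ res g k s) :
    ∀ j ≤ s, ∃ c : LocalizedModule 𝔪.primeCompl (P j) →ₗ[𝔓] LocalizedModule 𝔪.primeCompl (P 0),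
      Function.Surjective c ∧ (∀ d z, c (Lmap 𝔪 (ρ j d) z) = c z) ∧
      (∀ z, c z = 0 → z ∈ augSub (Lrep 𝒪 𝔪 (ρ j))) ∧
      Module.finrank 𝒪 (LocalizedModule 𝔪.primeCompl (P j)) =
        (∏ i ∈ Finset.range j, p ^ k i) *
          Module.finrank 𝒪 (LocalizedModule 𝔪.primeCompl (P 0)) := by
  intro j
  induction j with
  | zero =>
    intro _
    refine ⟨LinearMap.id, Function.surjective_id, ?_, ?_, ?_⟩
    · intro d z
      rw [h.triv0 d, Lmap_one]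
      rfl
    · intro z hz
      have : z = 0 := hz
      rw [this]
      exact Submodule.zero_mem _
    · simp
  | succ j ih =>
    intro hj
    have hjs : j < s := hj
    obtain ⟨cj, hcj_surj, hcj_inv, hcj_ker, hcj_rank⟩ := ih (le_of_lt hjs)
    obtain ⟨c, hc_surj, hc_ker, hc_res, -, -, hc_rank⟩ :=
      cyclic_step (𝒪 := 𝒪) 𝔪 hp𝒪 (res j) (h.res_inj j hjs) (ρ (j + 1) (g j)) (k j)
        (h.pow j hjs) (h.H2 j hjs) (h.H3 j hjs) (h.H4a j hjs) (h.H4b j hjs)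
    -- equivariance of `c`
    have hc_eq : ∀ d z, c (Lmap 𝔪 (ρ (j + 1) d) z) = Lmap 𝔪 (ρ j d) (c z) := by
      intro d z
      refine cores_comm 𝔪 (res j) (h.res_inj j hjs) (ρ (j + 1) (g j)) (p ^ k j) c hc_res
        (ρ (j + 1) d) (ρ j d) (fun y => (h.res_ρ j hjs d y).symm) (fun x => ?_) z
      rw [← Module.End.mul_apply, ← Module.End.mul_apply, ← map_mul, ← map_mul, mul_comm]
    refine ⟨cj ∘ₗ c, hcj_surj.comp hc_surj, ?_, ?_, ?_⟩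
    · intro d z
      rw [LinearMap.comp_apply, LinearMap.comp_apply, hc_eq, hcj_inv]
    · intro z hz
      rw [LinearMap.comp_apply] at hz
      have h1 := hcj_ker _ hz
      -- `augSub_j ≤ c (augSub_{j+1})`
      have h2 : augSub (Lrep 𝒪 𝔪 (ρ j)) ≤
          Submodule.map (c.restrictScalars 𝒪) (augSub (Lrep 𝒪 𝔪 (ρ (j + 1)))) := by
        rw [augSub, Submodule.span_le]
        rintro _ ⟨d, y, rfl⟩
        obtain ⟨y', rfl⟩ := hc_surj y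
        refine ⟨Lrep 𝒪 𝔪 (ρ (j + 1)) d y' - y', Submodule.subset_span ⟨d, y', rfl⟩, ?_⟩
        rw [LinearMap.restrictScalars_apply, map_sub, Lrep_apply, Lrep_apply, hc_eq]
      obtain ⟨z', hz', hzz'⟩ := h2 h1
      rw [LinearMap.restrictScalars_apply] at hzz'
      have h3 : c (z - z') = 0 := by rw [map_sub, hzz', sub_self]
      obtain ⟨w, hw⟩ := (hc_ker _).mp h3
      have h4 : z = z' + (Lrep 𝒪 𝔪 (ρ (j + 1)) (g j) w - w) := by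
        rw [Lrep_apply, ← hw]; abel
      rw [h4]
      exact Submodule.add_mem _ hz' (Submodule.subset_span ⟨g j, w, rfl⟩)
    · rw [hc_rank, hcj_rank, Finset.prod_range_succ]
      ring

/-- **(A4) the tower theorem.** -/
theorem tower (hp2 : p ≠ 2) (hp𝒪 : (p : 𝒪) ∈ maximalIdeal 𝒪)
    (ρ : ∀ j, Δ →* Module.End 𝔓 (P j)) (res : ∀ j, P j →ₗ[𝔓] P (j + 1))
    (g : ℕ → Δ) (k : ℕ → ℕ) (s : ℕ) (h : TowerHyp 𝔪 P p ρ res g k s) :
    ∃ c : LocalizedModule 𝔪.primeCompl (P s) →ₗ[𝔓] LocalizedModule 𝔪.primeCompl (P 0),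
      Function.Surjective c ∧ (∀ d z, c (Lmap 𝔪 (ρ s d) z) = c z) ∧
      (∀ z, c z = 0 → z ∈ augSub (Lrep 𝒪 𝔪 (ρ s))) ∧
      Module.finrank 𝒪 (LocalizedModule 𝔪.primeCompl (P s)) =
        Fintype.card Δ * Module.finrank 𝒪 (LocalizedModule 𝔪.primeCompl (P 0)) ∧
      ∀ {n : ℕ} (f : Module.Basis (Fin n) 𝒪 (LocalizedModule 𝔪.primeCompl (P 0)))
        (e : Fin n → LocalizedModule 𝔪.primeCompl (P s)), (∀ i, c (e i) = f i) →
          Function.Bijective (Phi (Lrep 𝒪 𝔪 (ρ s)) e) := by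
  obtain ⟨c, hc_surj, hc_inv, hc_ker, hc_rank⟩ := tower_aux 𝔪 hp𝒪 ρ res g k s h s le_rfl
  rw [← h.card] at hc_rank
  refine ⟨c, hc_surj, hc_inv, hc_ker, hc_rank, ?_⟩
  intro n f e he
  haveI := finite_loc (𝒪 := 𝒪) 𝔪 (P s)
  haveI := free_loc (𝒪 := 𝒪) 𝔪 (P s)
  have hcard : Fintype.card Δ = p ^ (∑ j ∈ Finset.range s, k j) := by
    rw [h.card, Finset.prod_pow_eq_pow_sum]
  refine bijective_Phi hp2 hp𝒪 _ hcard (Lrep 𝒪 𝔪 (ρ s)) e ?_ ?_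
  · intro x
    refine ⟨fun i => f.repr (c x) i, hc_ker _ ?_⟩
    rw [map_sub, map_sum]
    have h1 : ∀ i, c (f.repr (c x) i • e i) = f.repr (c x) i • f i := by
      intro i
      rw [← he i]
      exact (c.restrictScalars 𝒪).map_smul _ _
    rw [Finset.sum_congr rfl fun i _ => h1 i, f.sum_repr, sub_self]
  · rw [hc_rank, Module.finrank_eq_card_basis f, Fintype.card_fin]

end Fermat.Agent.M43.AlgTower3
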