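/-
Programme M43, pillar (P-MP), lemma (HR) "Hecke relations on ALL points" (lead), file 1:
LOCAL LEMMAS on meromorphic functions on the upper half plane.

* `ordMer_glMer` : `ord_z (F ∘ g) = ord_{g z} F` for `g ∈ GL(2, ℝ)`, `det g > 0`;
* `tendsto_glBeta_smul` : `τ ↦ β_i τ` tends to `i∞` at `i∞`;
* `cuspOrdIs_betaMer_zero` : if `F` has order `0` at the cusp `coc γ⁻¹ i ∞` then `F ∘ β_i` has
  order `0` at the cusp `γ⁻¹ ∞`.
-/
import Mathlib
import Fermat.Agent.ES.HEQ.BetaMer19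
import Fermat.Agent.M17.AutDiv4

set_option autoImplicit false
set_option linter.unusedSectionVars false

open UpperHalfPlane hiding I
open Filter Topology
open scoped Manifold MatrixGroups

noncomputable section

namespace Fermat.Agent.M43.HRLocal0

open Fermat.Agent.X0 Fermat.Agent.X0.SurjPoint Fermat.Agent.ES.KUM
open Fermat.Agent.ES.HEQ.DoubleCoset27 Fermat.Agent.ES.HEQ.BetaMer19
open Fermat.Agent.M17.Interfaces7 Fermat.Agent.M17.AutDiv4

/-! ### the order under `GL(2, ℝ)⁺` -/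

/-- the Moebius map of `g` as a function `ℂ → ℂ`. -/
def moebG (g : GL (Fin 2) ℝ) (w : ℂ) : ℂ := num g w / denom g w

theorem coe_smul_eq_moebG {g : GL (Fin 2) ℝ} (hg : 0 < g.det.val) (z : ℍ) :
    ((g • z : ℍ) : ℂ) = moebG g z := coe_smul_of_det_pos hg z

theorem hasDerivAt_moebG (g : GL (Fin 2) ℝ) (z : ℍ) :
    HasDerivAt (moebG g) ((g.det.val : ℂ) / (denom g z) ^ 2) (z : ℂ) := by
  have hden : denom g z ≠ 0 := denom_ne_zero g z
  have h1 : HasDerivAt (fun w : ℂ => num g w) ((g 0 0 : ℝ) : ℂ) z := by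
    unfold num
    simpa using ((hasDerivAt_id (z : ℂ)).const_mul ((g 0 0 : ℝ) : ℂ)).add_const ((g 0 1 : ℝ) : ℂ)
  have h2 : HasDerivAt (fun w : ℂ => denom g w) ((g 1 0 : ℝ) : ℂ) z := by
    unfold denom
    simpa using ((hasDerivAt_id (z : ℂ)).const_mul ((g 1 0 : ℝ) : ℂ)).add_const ((g 1 1 : ℝ) : ℂ)
  have h := h1.div h2 hden
  have h' : HasDerivAt (moebG g) _ (z : ℂ) := h
  refine h'.congr_deriv ?_
  have hdet : (g.det.val : ℂ) = ((g 0 0 : ℝ) : ℂ) * ((g 1 1 : ℝ) : ℂ)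
      - ((g 0 1 : ℝ) : ℂ) * ((g 1 0 : ℝ) : ℂ) := by
    rw [Matrix.GeneralLinearGroup.val_det_apply, Matrix.det_fin_two]
    push_cast
    ring
  rw [hdet]
  unfold num denom
  ring

theorem analyticAt_moebG (g : GL (Fin 2) ℝ) (z : ℍ) : AnalyticAt ℂ (moebG g) (z : ℂ) := by
  have h : DifferentiableOn ℂ (moebG g) upperHalfPlaneSet := fun w hw =>
    (hasDerivAt_moebG g ⟨w, hw⟩).differentiableAt.differentiableWithinAt
  exact h.analyticAt (isOpen_upperHalfPlaneSet.mem_nhds z.im_pos)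

theorem deriv_moebG_ne_zero (g : GL (Fin 2) ℝ) (z : ℍ) : deriv (moebG g) (z : ℂ) ≠ 0 := by
  rw [(hasDerivAt_moebG g z).deriv]
  refine div_ne_zero ?_ (pow_ne_zero 2 (denom_ne_zero g z))
  exact_mod_cast g.det.ne_zero

theorem comp_ofComplex_eventuallyEq (f : ℍ → ℂ) {g : GL (Fin 2) ℝ} (hg : 0 < g.det.val)
    (z₀ : ℍ) :
    (fun z : ℍ => f (g • z)) ∘ ofComplex =ᶠ[𝓝 (z₀ : ℂ)] (f ∘ ofComplex) ∘ moebG g := by
  filter_upwards [isOpen_upperHalfPlaneSet.mem_nhds z₀.im_pos] with w hw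
  simp only [Function.comp_apply]
  congr 1
  rw [ofComplex_apply_of_im_pos hw, ← coe_smul_eq_moebG hg ⟨w, hw⟩, ofComplex_apply]

/-- invariance of the order under `GL(2, ℝ)⁺`, holomorphic functions. -/
theorem ordH_comp_smul (f : ℍ → ℂ) {g : GL (Fin 2) ℝ} (hg : 0 < g.det.val) (z₀ : ℍ) :
    ordH (fun z : ℍ => f (g • z)) z₀ = ordH f (g • z₀) := by
  unfold ordH
  rw [analyticOrderAt_congr (comp_ofComplex_eventuallyEq f hg z₀),
    analyticOrderAt_comp_of_deriv_ne_zero (analyticAt_moebG g z₀) (deriv_moebG_ne_zero g z₀),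
    ← coe_smul_eq_moebG hg]

theorem glHom_ne_zero {g : GL (Fin 2) ℝ} (hg : 0 < g.det.val) {a : HolH} (ha : a ≠ 0) :
    glHom g hg a ≠ 0 :=
  fun h => ha (glHom_injective g hg (by rw [h, map_zero]))

/-- **invariance of the order under `GL(2, ℝ)⁺`**, meromorphic functions. -/
theorem ordMer_glMer {g : GL (Fin 2) ℝ} (hg : 0 < g.det.val) (z₀ : ℍ) (x : MerH) :
    ordMer z₀ (glMer g hg x) = ordMer (g • z₀) x := by
  rcases eq_or_ne x 0 with rfl | hx
  · simp
  obtain ⟨a, b, ha, hb, rfl⟩ := exists_div_ne_zero_frac (S := HolH) x hx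
  rw [glMer_div, ordMer_div_algebraMap z₀ (glHom_ne_zero hg ha) (glHom_ne_zero hg hb),
    ordMer_div_algebraMap _ ha hb]
  have e1 : ((glHom g hg a : HolH) : ℍ → ℂ) = fun z : ℍ => (a : ℍ → ℂ) (g • z) := rfl
  have e2 : ((glHom g hg b : HolH) : ℍ → ℂ) = fun z : ℍ => (b : ℍ → ℂ) (g • z) := rfl
  rw [e1, e2, ordH_comp_smul _ hg, ordH_comp_smul _ hg]

variable {p : ℕ} [hp : Fact p.Prime]

theorem ordMer_betaMer (i : Option (ZMod p)) (z₀ : ℍ) (x : MerH) :
    ordMer z₀ (betaMer p i x) = ordMer (glBeta p i • z₀) x :=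
  ordMer_glMer (det_glBeta_pos i) z₀ x

/-! ### the cusps -/

theorem im_glBeta_smul (i : Option (ZMod p)) (τ : ℍ) :
    (glBeta p i • τ).im = τ.im / p ∨ (glBeta p i • τ).im = p * τ.im := by
  have hp0 : p ≠ 0 := hp.out.ne_zero
  have hp' : (0 : ℝ) < p := by exact_mod_cast hp.out.pos
  have hdet := det_glBeta_pos (p := p) i
  have him : (glBeta p i • τ).im = ((glBeta p i • τ : ℍ) : ℂ).im := rfl
  rw [him, coe_smul_of_det_pos hdet]
  cases i with
  | none =>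
    right
    have h00 : (glBeta p none : GL (Fin 2) ℝ) 0 0 = p := by
      show ((glBeta p none : GL (Fin 2) ℝ) : Matrix (Fin 2) (Fin 2) ℝ) 0 0 = p
      rw [glBeta_none, ModularForm.val_heckeDiagMatrix hp0]; simp
    have h01 : (glBeta p none : GL (Fin 2) ℝ) 0 1 = 0 := by
      show ((glBeta p none : GL (Fin 2) ℝ) : Matrix (Fin 2) (Fin 2) ℝ) 0 1 = 0
      rw [glBeta_none, ModularForm.val_heckeDiagMatrix hp0]; simp
    have h10 : (glBeta p none : GL (Fin 2) ℝ) 1 0 = 0 := by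
      show ((glBeta p none : GL (Fin 2) ℝ) : Matrix (Fin 2) (Fin 2) ℝ) 1 0 = 0
      rw [glBeta_none, ModularForm.val_heckeDiagMatrix hp0]; simp
    have h11 : (glBeta p none : GL (Fin 2) ℝ) 1 1 = 1 := by
      show ((glBeta p none : GL (Fin 2) ℝ) : Matrix (Fin 2) (Fin 2) ℝ) 1 1 = 1
      rw [glBeta_none, ModularForm.val_heckeDiagMatrix hp0]; simp
    unfold num denom
    rw [h00, h01, h10, h11]
    simp
  | some j =>
    left
    have h00 : (glBeta p (some j) : GL (Fin 2) ℝ) 0 0 = 1 := by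
      show ((glBeta p (some j) : GL (Fin 2) ℝ) : Matrix (Fin 2) (Fin 2) ℝ) 0 0 = 1
      rw [glBeta_some, ModularForm.val_heckeMatrix hp0]; simp
    have h01 : (glBeta p (some j) : GL (Fin 2) ℝ) 0 1 = (j.val : ℝ) := by
      show ((glBeta p (some j) : GL (Fin 2) ℝ) : Matrix (Fin 2) (Fin 2) ℝ) 0 1 = _
      rw [glBeta_some, ModularForm.val_heckeMatrix hp0]; simp
    have h10 : (glBeta p (some j) : GL (Fin 2) ℝ) 1 0 = 0 := by
      show ((glBeta p (some j) : GL (Fin 2) ℝ) : Matrix (Fin 2) (Fin 2) ℝ) 1 0 = 0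
      rw [glBeta_some, ModularForm.val_heckeMatrix hp0]; simp
    have h11 : (glBeta p (some j) : GL (Fin 2) ℝ) 1 1 = p := by
      show ((glBeta p (some j) : GL (Fin 2) ℝ) : Matrix (Fin 2) (Fin 2) ℝ) 1 1 = p
      rw [glBeta_some, ModularForm.val_heckeMatrix hp0]; simp
    unfold num denom
    rw [h00, h01, h10, h11]
    have : (((1 : ℝ) : ℂ) * (τ : ℂ) + ((j.val : ℝ) : ℂ)) / (((0 : ℝ) : ℂ) * (τ : ℂ) + ((p : ℝ) : ℂ))
        = ((τ : ℂ) + (j.val : ℝ)) / ((p : ℝ) : ℂ) := by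
      push_cast; ring_nf
    rw [this, Complex.div_ofReal_im]
    simp

/-- `τ ↦ β_i τ` tends to `i∞`. -/
theorem tendsto_glBeta_smul (i : Option (ZMod p)) :
    Tendsto (fun τ : ℍ => glBeta p i • τ) atImInfty atImInfty := by
  have hp' : (0 : ℝ) < p := by exact_mod_cast hp.out.pos
  rw [atImInfty, tendsto_comap_iff]
  have h1 : Tendsto (fun τ : ℍ => τ.im / p) atImInfty atTop :=
    (tendsto_comap (f := UpperHalfPlane.im) (x := atTop)).atTop_div_const hp'
  refine tendsto_atTop_mono' _ ?_ h1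
  refine Eventually.of_forall fun τ => ?_
  show τ.im / p ≤ (glBeta p i • τ).im
  rcases im_glBeta_smul i τ with h | h
  · rw [h]
  · rw [h]
    have h2 : (1 : ℝ) ≤ p := by exact_mod_cast hp.out.one_le
    have h3 : τ.im / p ≤ τ.im := div_le_self τ.im_pos.le h2
    have h4 : τ.im ≤ p * τ.im := le_mul_of_one_le_left τ.im_pos.le h2
    exact h3.trans h4

variable (N : ℕ) [NeZero N]

/-- **order `0` at the cusps is preserved**: if `F` has order `0` at the cusp of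
`(coc γ⁻¹ i)⁻¹`, then `F ∘ β_i` has order `0` at the cusp of `γ`. -/
theorem cuspOrdIs_betaMer_zero {F : MerH} (γ : SL(2, ℤ)) (i : Option (ZMod p))
    (h : CuspOrdIs N F (coc γ⁻¹ i)⁻¹ 0) : CuspOrdIs N (betaMer p i F) γ 0 := by
  obtain ⟨a, b, ℓ, hb, hℓ, hab, hlim⟩ := (cuspOrdIs_iff N F _ 0).1 h
  have hdet := det_glBeta_pos (p := p) i
  refine (cuspOrdIs_iff N _ γ 0).2
    ⟨glHom (glBeta p i) hdet a, glHom (glBeta p i) hdet b, ℓ, glHom_ne_zero hdet hb, hℓ, ?_, ?_⟩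
  · unfold betaMer
    rw [← glMer_algebraMap, ← glMer_algebraMap, ← map_mul, hab]
  · have h2 := hlim.comp (tendsto_glBeta_smul (p := p) (perm γ⁻¹ i))
    refine h2.congr fun τ => ?_
    simp only [Function.comp_apply, Efac_zero, mul_one, inv_inv, coe_glHom]
    rw [glBeta_smul_smul γ⁻¹ i τ]

end Fermat.Agent.M43.HRLocal0
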