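/-
Programme M43, pillar (P-MP), lemma (HR) (lead), file 2: the analytic `Setup` of
`ES/HEQ/KummerHeckeAbs19` OVER `ℂ` (the banked one is over `ℚbar`): the complete family of
embeddings `σ_i : F_ℂ(Nℓ) → MerH` over `realMer N`, and the consequence

  `realMer N (N_α (β f)) = ∏_i (realMer N f) ∘ β_i`.
-/
import Mathlib
import Fermat.Agent.ES.HEQ.KummerHeckeMain19
import Fermat.Agent.J.DESC.HeckeInputsC22

set_option autoImplicit false
set_option linter.unusedSectionVars false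
set_option linter.style.haveILetI false

open UpperHalfPlane hiding I
open scoped Manifold MatrixGroups
open CongruenceSubgroup AlgebraicCurve

noncomputable section

namespace Fermat.Agent.M43.HRSetupC0

open Fermat.Agent.X0 Fermat.Agent.X0.SurjPoint Fermat.Agent.ES.KUM
open Fermat.Agent.ES.HEQ.DoubleCoset27 Fermat.Agent.ES.HEQ.BetaMer19
open Fermat.Agent.ES.HEQ.QExpMer19 Fermat.Agent.ES.HEQ.RepGamma19
open Fermat.Agent.ES.HEQ.RealBar19 Fermat.Agent.ES.HEQ.KummerHeckeAbs19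
open Fermat.Agent.ES.HEQ.KummerHeckeMain19 ModularCurve

section Hecke

variable (N ℓ : ℕ) [NeZero N] [hℓ : Fact ℓ.Prime]

/-- `real' ∘ α = real`. -/
theorem realMer_alpha (f : FC N) : realMer (N * ℓ) (heckeAlphaBar ℂ N ℓ f) = realMer N f :=
  realMer_eq_of_coe_eq (N * ℓ) (coe_heckeAlphaBar N ℓ f)

/-- `real' ∘ β = (· ∘ (z ↦ ℓ z)) ∘ real`. -/
theorem realMer_beta (f : FC N) :
    realMer (N * ℓ) (heckeBetaBar ℂ N ℓ f) = betaMer ℓ none (realMer N f) := by
  have h1 := hasQExpMer_realMer (N * ℓ) (heckeBetaBar ℂ N ℓ f)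
  rw [coe_heckeBetaBar] at h1
  exact h1.unique (hasQExpMer_realMer N f).betaMer_none

variable {N ℓ} (hℓN : ¬ ℓ ∣ N)

/-- the complete family of embeddings `F_ℂ(Nℓ) → MerH` over `realMer N`. -/
def sigmaC (i : Option (ZMod ℓ)) : FC (N * ℓ) →+* MerH :=
  (slMer (rep hℓN i)).comp (realMer (N * ℓ))

theorem sigmaC_apply (i : Option (ZMod ℓ)) (y : FC (N * ℓ)) :
    sigmaC hℓN i y = slMer (rep hℓN i) (realMer (N * ℓ) y) := rfl

theorem sigmaC_alpha (i : Option (ZMod ℓ)) (f : FC N) :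
    sigmaC hℓN i (heckeAlphaBar ℂ N ℓ f) = realMer N f := by
  rw [sigmaC_apply, realMer_alpha, slMer_realMer_of_mem N _ (rep_mem hℓN i)]

theorem sigmaC_beta (i : Option (ZMod ℓ)) (f : FC N) :
    sigmaC hℓN i (heckeBetaBar ℂ N ℓ f) = betaMer ℓ i (realMer N f) := by
  rw [sigmaC_apply, realMer_beta, slMer_betaMer, perm_rep,
    slMer_realMer_of_mem N _ (coc_mem_Gamma0 hℓN (rep_mem hℓN i) none)]

theorem sigmaC_bcBar (i : Option (ZMod ℓ)) (y : FF (N * ℓ)) :
    sigmaC hℓN i (bcBar (N * ℓ) y) = sigma hℓN i y := rfl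

theorem sigmaC_injective : Function.Injective (sigmaC (N := N) hℓN) := by
  intro i k h
  apply sigma_injective hℓN
  ext y
  rw [← sigmaC_bcBar, ← sigmaC_bcBar, h]

/-- the analytic interface over `ℂ`. -/
def setupC : Setup (K := ℂ) (heckeAlphaBar ℂ N ℓ) (heckeBetaBar ℂ N ℓ)
    (fun γ : Gamma0 N => (permG γ : Equiv.Perm (Option (ZMod ℓ))))
    (fun (γ : Gamma0 N) (i : Option (ZMod ℓ)) => cocG hℓN γ i) MerH ℂˣ where
  an := realMer N
  σ := sigmaC hℓN
  R := fun γ => slMer (γ : SL(2, ℤ))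
  B := betaMer ℓ
  c := constHom
  σ_alpha := sigmaC_alpha hℓN
  σ_beta := sigmaC_beta hℓN
  σ_inj := sigmaC_injective hℓN
  card_eq := by
    rw [Fermat.Agent.ES.HECKE.AlongDegree25.finrankAlong_alpha ℂ N ℓ hℓ.out hℓN,
      Fintype.card_option, ZMod.card]
  R_B := fun γ i h => slMer_betaMer (γ : SL(2, ℤ)) i h
  R_c := fun γ a => slMer_const (γ : SL(2, ℤ)) (a : ℂ)
  B_c := fun i a => betaMer_const i (a : ℂ)

/-- the Hecke transform of a meromorphic function: `∏_i F ∘ β_i`. -/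
def heckeMer (ℓ : ℕ) [Fact ℓ.Prime] (F : MerH) : MerH := ∏ i : Option (ZMod ℓ), betaMer ℓ i F

theorem heckeMer_eq_heckeRoot (F : MerH) : heckeMer ℓ F = heckeRoot (setupC (N := N) hℓN) F := rfl

theorem heckeMer_mul (F G : MerH) : heckeMer ℓ (F * G) = heckeMer ℓ F * heckeMer ℓ G := by
  simp only [heckeMer, map_mul, Finset.prod_mul_distrib]

theorem heckeMer_one : heckeMer ℓ (1 : MerH) = 1 := by
  simp [heckeMer]

theorem heckeMer_inv (F : MerH) : heckeMer ℓ F⁻¹ = (heckeMer ℓ F)⁻¹ := by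
  simp only [heckeMer, map_inv₀, Finset.prod_inv_distrib]

theorem heckeMer_ne_zero {F : MerH} (hF : F ≠ 0) : heckeMer ℓ F ≠ 0 :=
  Finset.prod_ne_zero_iff.mpr fun i _ => (map_ne_zero (betaMer ℓ i)).mpr hF

include hℓN in
/-- **the norm is the Hecke transform**: `realMer (N_α (β f)) = ∏_i (realMer f) ∘ β_i`. -/
theorem heckeMer_realMer (f : FC N) :
    heckeMer ℓ (realMer N f) = realMer N (normAlong (heckeAlphaBar ℂ N ℓ) (heckeBetaBar ℂ N ℓ f)) := by
  have hfin := Fermat.Agent.ES.HECKE.AlongDegree25.finiteAlong_alpha ℂ N ℓ hℓ.out hℓN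
  have h := heckeRoot_pow (setupC (N := N) hℓN) hfin (n := 1) (f := f) (g := realMer N f)
    (by rw [pow_one]; rfl)
  rw [pow_one] at h
  exact h

/-- the character of the Hecke transform. -/
theorem slMer_heckeMer {F : MerH} {χ : Gamma0 N → ℂˣ}
    (h : ∀ γ : Gamma0 N, slMer (γ : SL(2, ℤ)) F = constHom (χ γ) * F) (γ : Gamma0 N) :
    slMer (γ : SL(2, ℤ)) (heckeMer ℓ F) =
      constHom (∏ i : Option (ZMod ℓ), χ (cocG hℓN γ i)) * heckeMer ℓ F :=
  R_heckeRoot (setupC (N := N) hℓN) h γ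

end Hecke

end Fermat.Agent.M43.HRSetupC0
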