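/-
Programme M43, pillar (P-MP), lemma (HR) (lead), file 3: **the divisor of the Hecke transform**.

If the meromorphic function `F` on `ℍ` has the (automorphic) divisor `Δ` on `X₀(N)(ℂ)`
(`IsAutDiv N F Δ`, cusps included), then `∏_i F ∘ β_i` has the divisor `T_ℓ Δ = α_* β^* Δ`
(the Prelude's correspondence over `ℂ`).

Proof: by weak approximation subtract a principal divisor so that `Δ` vanishes at the finitely many
places involved at a given point/cusp; for principal divisors this is the norm formula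
(`HRSetupC0.heckeMer_realMer` + `correspondence_apply_eq_ord`); for the remainder, order `0` is
preserved (`HRLocal0`).
-/
import Mathlib
import Fermat.Agent.M43.HRLocal0
import Fermat.Agent.M43.HRSetupC0
import Fermat.Agent.ES.HECKE.WeakApprox25

set_option autoImplicit false
set_option linter.unusedSectionVars false
set_option linter.style.haveILetI false

open UpperHalfPlane hiding I
open scoped Manifold MatrixGroups
open CongruenceSubgroup AlgebraicCurve

noncomputable section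

namespace Fermat.Agent.M43.HRAutDiv0

open Fermat.Agent.X0 Fermat.Agent.X0.SurjPoint Fermat.Agent.ES.KUM Fermat.Agent.ES.KUM.CCusp16
open Fermat.Agent.ES.HEQ.DoubleCoset27 Fermat.Agent.ES.HEQ.BetaMer19
open Fermat.Agent.ES.HEQ.KummerHeckeAbs19 ModularCurve
open Fermat.Agent.M17.Interfaces7 Fermat.Agent.M17.AutDiv4
open Fermat.Agent.M43.HRLocal0 Fermat.Agent.M43.HRSetupC0
open Fermat.Agent.ES.HECKE Fermat.Agent.J.DESC.HeckeInputsC22

/-! ### generic: vanishing of a correspondence at a place -/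

section Generic

variable {K F F' : Type*} [Field K] [Field F] [Field F'] [Algebra K F] [Algebra K F']
  [HasPrincipalDivisors K F']

theorem correspondence_apply_eq_zero (φ ψ : F →ₐ[K] F') (hφ : φ.toRingHom.IsIntegral)
    (hψ : ψ.toRingHom.IsIntegral) (Δ : Divisor K F) (v₀ : Place K F)
    (h : ∀ W : Place K F', W.restrictAlong ψ hψ = v₀ → Δ (W.restrictAlong φ hφ) = 0) :
    Divisor.correspondence φ ψ hφ hψ Δ v₀ = 0 := by
  classical
  rw [Divisor.correspondence_apply]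
  have key : ∀ D' : Divisor K F', (∀ W : Place K F', W.restrictAlong ψ hψ = v₀ → D' W = 0) →
      Divisor.pushforwardAlong ψ hψ D' v₀ = 0 := by
    intro D' hD'
    letI := algebraAlong ψ
    haveI := isScalarTower_along ψ
    haveI := isIntegral_along ψ hψ
    show Divisor.pushforward F D' v₀ = 0
    rw [Divisor.pushforward_apply]
    refine Finset.sum_eq_zero fun w _ => ?_
    split_ifs with hw
    · have : D' w = 0 := hD' w hw
      rw [this, zero_mul]
    · rfl
  refine key _ fun W hW => ?_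
  rw [Divisor.pullbackAlong_apply, h W hW, mul_zero]

end Generic

/-! ### products -/

theorem ordMer_finset_prod {ι : Type*} (s : Finset ι) (f : ι → MerH) (hf : ∀ i ∈ s, f i ≠ 0)
    (z : ℍ) : ordMer z (∏ i ∈ s, f i) = ∑ i ∈ s, ordMer z (f i) := by
  classical
  induction s using Finset.induction_on with
  | empty => simp [ordMer_one]
  | insert a s ha ih =>
    rw [Finset.prod_insert ha, Finset.sum_insert ha,
      ordMer_mul z (hf a (Finset.mem_insert_self a s))
        (Finset.prod_ne_zero_iff.mpr fun i hi => hf i (Finset.mem_insert_of_mem hi)),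
      ih fun i hi => hf i (Finset.mem_insert_of_mem hi)]

theorem cuspOrdIs_finset_prod_zero (N : ℕ) [NeZero N] {ι : Type*} (s : Finset ι) (f : ι → MerH)
    (γ : SL(2, ℤ)) (hf : ∀ i ∈ s, CuspOrdIs N (f i) γ 0) : CuspOrdIs N (∏ i ∈ s, f i) γ 0 := by
  classical
  induction s using Finset.induction_on with
  | empty =>
    rw [Finset.prod_empty]
    exact cuspOrdIs_one N γ
  | insert a s ha ih =>
    rw [Finset.prod_insert ha]
    have h1 := cuspOrdIs_mul N (hf a (Finset.mem_insert_self a s))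
      (ih fun i hi => hf i (Finset.mem_insert_of_mem hi))
    rwa [add_zero] at h1

/-! ### the Hecke correspondence over `ℂ` -/

variable {N ℓ : ℕ} [NeZero N] [hℓ : Fact ℓ.Prime] (hℓN : ¬ ℓ ∣ N)

/-- `T_ℓ = α_* β^*` on the divisors of `F_ℂ(N)`. -/
def corrC : Divisor ℂ (FC N) →+ Divisor ℂ (FC N) :=
  haveI := hasPrincipalDivisors_level ℂ N ℓ
  Divisor.correspondence (heckeBetaBar ℂ N ℓ) (heckeAlphaBar ℂ N ℓ)
    (AlongDegree25.heckeBetaBarIntegral ℂ N ℓ hℓ.out hℓN)
    (AlongDegree25.heckeAlphaBarIntegral ℂ N ℓ hℓ.out hℓN)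

/-- the finitely many places of `F_ℂ(N)` that contribute to `T_ℓ Δ` at `v₀`. -/
def contrib (v₀ : Place ℂ (FC N)) : Finset (Place ℂ (FC N)) :=
  haveI := hasPrincipalDivisors_level ℂ N ℓ
  haveI := Classical.decEq (Place ℂ (FC N))
  (Place.fiberAlong (heckeAlphaBar ℂ N ℓ)
    (AlongDegree25.heckeAlphaBarIntegral ℂ N ℓ hℓ.out hℓN) v₀).image
    fun W => W.restrictAlong (heckeBetaBar ℂ N ℓ)
      (AlongDegree25.heckeBetaBarIntegral ℂ N ℓ hℓ.out hℓN)

theorem corrC_apply_eq_zero (Δ : Divisor ℂ (FC N)) (v₀ : Place ℂ (FC N))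
    (h : ∀ v ∈ contrib hℓN v₀, Δ v = 0) : corrC hℓN Δ v₀ = 0 := by
  haveI := hasPrincipalDivisors_level ℂ N ℓ
  refine correspondence_apply_eq_zero _ _ _ _ Δ v₀ fun W hW => ?_
  apply h
  classical
  unfold contrib
  rw [Finset.mem_image]
  refine ⟨W, ?_, ?_⟩
  · rw [Place.mem_fiberAlong]
    exact hW
  · rfl

/-- the principal case: `T_ℓ (div f) = div (N_α (β f))`. -/
theorem corrC_principal {f : FC N} (hf : f ≠ 0) {Δf : Divisor ℂ (FC N)}
    (hΔf : ∀ v : Place ℂ (FC N), Δf v = v.ord f) (v : Place ℂ (FC N)) :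
    corrC hℓN Δf v = v.ord (normAlong (heckeAlphaBar ℂ N ℓ) (heckeBetaBar ℂ N ℓ f)) := by
  haveI := hasPrincipalDivisors_level ℂ N ℓ
  exact correspondence_apply_eq_ord _ _ _ _
    (AlongDegree25.finiteAlong_alpha ℂ N ℓ hℓ.out hℓN)
    (normFormulaAlong_alpha ℂ N ℓ hℓ.out hℓN) hf hΔf v

theorem isAutDiv_heckeMer_realMer {f : FC N} (hf : f ≠ 0) {Δf : Divisor ℂ (FC N)}
    (hΔf : ∀ v : Place ℂ (FC N), Δf v = v.ord f) :
    IsAutDiv N (heckeMer ℓ (realMer N f)) (corrC hℓN Δf) := by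
  rw [heckeMer_realMer hℓN]
  refine isAutDiv_realMer N ?_ (corrC_principal hℓN hf hΔf)
  exact normAlong_ne_zero _ (AlongDegree25.finiteAlong_alpha ℂ N ℓ hℓ.out hℓN)
    ((map_ne_zero _).mpr hf)

/-- weak approximation: a principal divisor agreeing with `Δ` on a finite set. -/
theorem exists_principal_eq_on (Δ : Divisor ℂ (FC N)) (S : Finset (Place ℂ (FC N))) :
    ∃ (f : FC N) (Δf : Divisor ℂ (FC N)), f ≠ 0 ∧ (∀ v : Place ℂ (FC N), Δf v = v.ord f) ∧
      ∀ v ∈ S, (Δ - Δf) v = 0 := by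
  obtain ⟨f, hf, hfS⟩ := WeakApprox25.exists_ord_eq S (fun v => Δ v)
  haveI : HasPrincipalDivisors ℂ (FC N) := FieldL25.hasPrincipalDivisors_L ℂ N
  obtain ⟨Δf, hΔf, -⟩ := HasPrincipalDivisors.exists_divisor (K := ℂ) f hf
  refine ⟨f, Δf, hf, hΔf, fun v hv => ?_⟩
  rw [Finsupp.sub_apply, hΔf, hfS v hv, sub_self]

/-! ### the local statements for a divisor vanishing at the relevant places -/

theorem ordMer_heckeMer_eq_zero {F : MerH} {Δ : Divisor ℂ (FC N)} (h : IsAutDiv N F Δ) (z : ℍ)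
    (hz : ∀ i : Option (ZMod ℓ), Δ (ptPlaceC N 1 (glBeta ℓ i • z)) = 0) :
    ordMer z (heckeMer ℓ F) = 0 := by
  obtain ⟨hF, hpt, -⟩ := (isAutDiv_iff N F Δ).1 h
  unfold heckeMer
  rw [ordMer_finset_prod _ _ (fun i _ => (map_ne_zero (betaMer ℓ i)).mpr hF)]
  refine Finset.sum_eq_zero fun i _ => ?_
  rw [ordMer_betaMer, hpt, hz i, zero_mul]

theorem cuspOrdIs_heckeMer_zero {F : MerH} {Δ : Divisor ℂ (FC N)} (h : IsAutDiv N F Δ)
    (γ : SL(2, ℤ))
    (hγ : ∀ i : Option (ZMod ℓ), Δ (cuspPlaceC N (coc γ⁻¹ i)⁻¹) = 0) :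
    CuspOrdIs N (heckeMer ℓ F) γ 0 := by
  obtain ⟨-, -, hc⟩ := (isAutDiv_iff N F Δ).1 h
  unfold heckeMer
  refine cuspOrdIs_finset_prod_zero N _ _ γ fun i _ => ?_
  refine cuspOrdIs_betaMer_zero N γ i ?_
  have := hc (coc γ⁻¹ i)⁻¹
  rwa [hγ i, zero_mul] at this

/-! ### the theorem -/

/-- **the divisor of the Hecke transform** `∏_i F ∘ β_i` is `T_ℓ Δ`. -/
theorem isAutDiv_heckeMer {F : MerH} {Δ : Divisor ℂ (FC N)} (h : IsAutDiv N F Δ) :
    IsAutDiv N (heckeMer ℓ F) (corrC hℓN Δ) := by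
  classical
  have hF : F ≠ 0 := ((isAutDiv_iff N F Δ).1 h).1
  refine (isAutDiv_iff N _ _).2 ⟨heckeMer_ne_zero hF, fun z => ?_, fun γ => ?_⟩
  · -- a point
    set v₀ := ptPlaceC N 1 z with hv₀
    obtain ⟨f, Δf, hf, hΔf, hS⟩ := exists_principal_eq_on Δ
      (contrib hℓN v₀ ∪ Finset.univ.image fun i : Option (ZMod ℓ) =>
        ptPlaceC N 1 (glBeta ℓ i • z))
    have hF' : IsAutDiv N (F / realMer N f) (Δ - Δf) :=
      isAutDiv_div N h (isAutDiv_realMer N hf hΔf)
    have h1 : ordMer z (heckeMer ℓ (F / realMer N f)) = 0 :=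
      ordMer_heckeMer_eq_zero hF' z fun i =>
        hS _ (Finset.mem_union_right _ (Finset.mem_image_of_mem _ (Finset.mem_univ i)))
    have h2 : corrC hℓN (Δ - Δf) v₀ = 0 :=
      corrC_apply_eq_zero hℓN _ v₀ fun v hv => hS v (Finset.mem_union_left _ hv)
    have h3 := ((isAutDiv_iff N _ _).1 (isAutDiv_heckeMer_realMer hℓN hf hΔf)).2.1 z
    have hrf : realMer N f ≠ 0 := (map_ne_zero _).mpr hf
    have e : heckeMer ℓ F = heckeMer ℓ (F / realMer N f) * heckeMer ℓ (realMer N f) := by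
      rw [← heckeMer_mul, div_mul_cancel₀ _ hrf]
    have eΔ : corrC hℓN Δ = corrC hℓN (Δ - Δf) + corrC hℓN Δf := by
      rw [← map_add, sub_add_cancel]
    rw [e, ordMer_mul z (heckeMer_ne_zero (div_ne_zero hF hrf)) (heckeMer_ne_zero hrf), h1, h3,
      eΔ, Finsupp.add_apply, h2, zero_add, zero_add]
  · -- a cusp
    set v₀ := cuspPlaceC N γ with hv₀
    obtain ⟨f, Δf, hf, hΔf, hS⟩ := exists_principal_eq_on Δ
      (contrib hℓN v₀ ∪ Finset.univ.image fun i : Option (ZMod ℓ) =>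
        cuspPlaceC N (coc γ⁻¹ i)⁻¹)
    have hF' : IsAutDiv N (F / realMer N f) (Δ - Δf) :=
      isAutDiv_div N h (isAutDiv_realMer N hf hΔf)
    have h1 : CuspOrdIs N (heckeMer ℓ (F / realMer N f)) γ 0 :=
      cuspOrdIs_heckeMer_zero hF' γ fun i =>
        hS _ (Finset.mem_union_right _ (Finset.mem_image_of_mem _ (Finset.mem_univ i)))
    have h2 : corrC hℓN (Δ - Δf) v₀ = 0 :=
      corrC_apply_eq_zero hℓN _ v₀ fun v hv => hS v (Finset.mem_union_left _ hv)
    have h3 := ((isAutDiv_iff N _ _).1 (isAutDiv_heckeMer_realMer hℓN hf hΔf)).2.2 γ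
    have hrf : realMer N f ≠ 0 := (map_ne_zero _).mpr hf
    have e : heckeMer ℓ F = heckeMer ℓ (F / realMer N f) * heckeMer ℓ (realMer N f) := by
      rw [← heckeMer_mul, div_mul_cancel₀ _ hrf]
    have eΔ : corrC hℓN Δ = corrC hℓN (Δ - Δf) + corrC hℓN Δf := by
      rw [← map_add, sub_add_cancel]
    have h4 := cuspOrdIs_mul N h1 h3
    rw [e, eΔ, Finsupp.add_apply, h2, zero_add]
    rwa [zero_add] at h4

end Fermat.Agent.M43.HRAutDiv0
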