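/-
Programme M43, pillar (P-MP), lemma (HR) (lead), file 4: **characters of divisor classes and the
Hecke operators**.

`HasChar x φ` : the class `x ∈ Pic⁰(F_ℂ(N))` is represented by a divisor `D` that is the divisor of
an automorphic function with the unitary character `γ ↦ exp(2πi φ(γ))`, `φ` a REAL parabolic
homomorphism of `Γ₀(N)`.

* `exists_hasChar` : every class has a character (M17: multiplicative Abel-Jacobi + reciprocity law);
* `HasChar.add`, `HasChar.neg`, `hasChar_zero` : additivity;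
* `eq_zero_of_hasChar_zero` : Abel's theorem (trivial character ⇒ principal);
* `HasChar.hecke` : `HasChar x φ → HasChar (T_ℓ x) (T_ℓ^{dc} φ)` (file 3).
-/
import Mathlib
import Fermat.Agent.M43.HRAutDiv0
import Fermat.Agent.M17.RLClose0
import Fermat.Agent.M17.RecipPoint8
import Fermat.Agent.M17.RecipCuspFinal7
import Fermat.Agent.M17.RecipCuspHyp9
import Fermat.Agent.M17.LatFinal6
import Fermat.Agent.ES.HEQ.DoubleCosetPar27

set_option autoImplicit false
set_option linter.unusedSectionVars false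
set_option linter.style.haveILetI false

open UpperHalfPlane hiding I
open scoped Manifold MatrixGroups Real
open CongruenceSubgroup AlgebraicCurve

noncomputable section

namespace Fermat.Agent.M43.HRChar0

open Fermat.Agent.X0 Fermat.Agent.X0.SurjPoint Fermat.Agent.ES.KUM Fermat.Agent.ES.KUM.CCusp16
open Fermat.Agent.ES.HEQ.DoubleCoset27 Fermat.Agent.ES.HEQ.DoubleCosetPar27
open Fermat.Agent.ES.HEQ.BetaMer19 Fermat.Agent.ES.HEQ.ParLattice11
open Fermat.Agent.ES.HEQ.KummerHeckeMain19 ModularCurve ModularCurve.Period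
open Fermat.Agent.M17.Interfaces7 Fermat.Agent.M17.AutDiv4 Fermat.Agent.M17.MultAJ4
open Fermat.Agent.M17.AJAssembly7 Fermat.Agent.M15.DivLogPrim1
open Fermat.Agent.M43.HRLocal0 Fermat.Agent.M43.HRSetupC0 Fermat.Agent.M43.HRAutDiv0
open Fermat.Agent.ES.HECKE Fermat.Agent.J.DESC.HeckeInputsC22

variable (N : ℕ) [NeZero N]

/-- the real parabolic homomorphisms of `Γ₀(N)`. -/
abbrev ParR : Submodule ℝ (Additive (Gamma0 N) →+ ℝ) := parabolicHoms ℝ (Gamma0 N) ℝ

/-- the unitary character `γ ↦ exp(2πi φ(γ))`. -/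
def expChar (φ : Additive (Gamma0 N) →+ ℝ) (γ : Gamma0 N) : ℂ :=
  Complex.exp (2 * π * Complex.I * ((φ (Additive.ofMul γ) : ℝ) : ℂ))

variable {N}

theorem expChar_ne_zero (φ : Additive (Gamma0 N) →+ ℝ) (γ : Gamma0 N) : expChar N φ γ ≠ 0 :=
  Complex.exp_ne_zero _

theorem expChar_add (φ ψ : Additive (Gamma0 N) →+ ℝ) (γ : Gamma0 N) :
    expChar N (φ + ψ) γ = expChar N φ γ * expChar N ψ γ := by
  unfold expChar
  rw [← Complex.exp_add, AddMonoidHom.add_apply]
  push_cast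
  ring_nf

theorem expChar_zero (γ : Gamma0 N) : expChar N 0 γ = 1 := by
  unfold expChar
  simp

theorem expChar_neg (φ : Additive (Gamma0 N) →+ ℝ) (γ : Gamma0 N) :
    expChar N (-φ) γ = (expChar N φ γ)⁻¹ := by
  unfold expChar
  rw [← Complex.exp_neg, AddMonoidHom.neg_apply]
  push_cast
  ring_nf

theorem norm_expChar (φ : Additive (Gamma0 N) →+ ℝ) (γ : Gamma0 N) : ‖expChar N φ γ‖ = 1 := by
  unfold expChar
  rw [Complex.norm_exp]
  have : (2 * (π : ℂ) * Complex.I * ((φ (Additive.ofMul γ) : ℝ) : ℂ)).re = 0 := by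
    simp
  rw [this, Real.exp_zero]

theorem expChar_tdcAdd {ℓ : ℕ} [Fact ℓ.Prime] (hℓN : ¬ ℓ ∣ N) (φ : Additive (Gamma0 N) →+ ℝ)
    (γ : Gamma0 N) :
    expChar N (tdcAdd hℓN φ) γ = ∏ i : Option (ZMod ℓ), expChar N φ (cocG hℓN γ i) := by
  unfold expChar
  rw [tdcAdd_apply, ← Complex.exp_sum]
  congr 1
  push_cast
  rw [Finset.mul_sum]

/-! ### `chiOf` is an `expChar` -/

section Lat

variable {g : ℕ} (L : LatData N g)

/-- the real parabolic homomorphism of the real coordinates `(α, β)`. -/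
def phiOf (α β : Fin g → ℝ) : ↥(ParR N) :=
  ∑ j, (α j • castPar (Gamma0 N) ℝ (L.m j) - β j • castPar (Gamma0 N) ℝ (L.n j))

theorem phiOf_apply (α β : Fin g → ℝ) (γ : Gamma0 N) :
    ((phiOf L α β : ↥(ParR N)) : Additive (Gamma0 N) →+ ℝ) (Additive.ofMul γ) =
      ∑ j, (α j * (((L.m j : Additive (Gamma0 N) →+ ℤ) (Additive.ofMul γ) : ℤ) : ℝ)
        - β j * (((L.n j : Additive (Gamma0 N) →+ ℤ) (Additive.ofMul γ) : ℤ) : ℝ)) := by
  unfold phiOf
  rw [Submodule.coe_sum, AddMonoidHom.finsetSum_apply]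
  refine Finset.sum_congr rfl fun j _ => ?_
  rw [Submodule.coe_sub, Submodule.coe_smul, Submodule.coe_smul, AddMonoidHom.sub_apply]
  rfl

theorem chiOf_eq_expChar (α β : Fin g → ℝ) :
    chiOf N L α β = expChar N ((phiOf L α β : ↥(ParR N)) : Additive (Gamma0 N) →+ ℝ) := by
  funext γ
  unfold chiOf expChar
  rw [phiOf_apply]
  congr 1
  push_cast
  congr 1
  refine Finset.sum_congr rfl fun j _ => ?_
  ring

/-- the reciprocity law (M17, all levels). -/
theorem rlPair : RLPair L (AcOf L) :=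
  Fermat.Agent.M17.RLClose0.rlPair_of_addRL L
    (fun _ _ h25 hne => Fermat.Agent.M17.RecipPoint8.addRL_pp L h25 hne)
    (fun δ => Fermat.Agent.M17.RecipCuspFinal7.addRL_pc_of_L2 L δ
      (fun _ hS _ g' hg hord =>
        Fermat.Agent.M17.RecipCuspHyp9.tendsto_GH_of_not_equiv hS g' hg hord))

end Lat

/-! ### `HasChar` -/

variable (N) in
/-- the class `x` has the (real, parabolic) character `φ`. -/
def HasChar (x : Pic0 ℂ (FC N)) (φ : ↥(ParR N)) : Prop :=
  ∃ (D : Divisor.degZero (K := ℂ) (F := FC N)) (F : MerH), Pic0.mk D = x ∧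
    IsAutPair N F (expChar N (φ : Additive (Gamma0 N) →+ ℝ)) (D : Divisor ℂ (FC N))

/-- every class has a character. -/
theorem exists_hasChar (x : Pic0 ℂ (FC N)) : ∃ φ : ↥(ParR N), HasChar N x φ := by
  obtain ⟨g, ⟨L⟩⟩ := Fermat.Agent.M17.LatFinal6.exists_latData N
  obtain ⟨D, rfl⟩ := Pic0.mk_surjective x
  obtain ⟨P, hP⟩ := repDiv_surjective N D.1
  have hdeg : repDiv N P ∈ Divisor.degZero (K := ℂ) (F := FC N) := by rw [hP]; exact D.2
  obtain ⟨F, α, β, hF, -⟩ :=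
    mem_good_of_total L (AcOf L) (rlPair L) P (total_eq_zero_of_mem_degZero hdeg)
  refine ⟨phiOf L α β, D, F, rfl, ?_⟩
  rw [← chiOf_eq_expChar, ← hP]
  exact hF

theorem hasChar_zero : HasChar N 0 0 := by
  refine ⟨0, 1, rfl, ?_⟩
  have h := isAutPair_one N
  have e : expChar N ((0 : ↥(ParR N)) : Additive (Gamma0 N) →+ ℝ) = fun _ => (1 : ℂ) :=
    funext fun γ => expChar_zero γ
  rw [e]
  exact h

theorem HasChar.add {x y : Pic0 ℂ (FC N)} {φ ψ : ↥(ParR N)} (hx : HasChar N x φ)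
    (hy : HasChar N y ψ) : HasChar N (x + y) (φ + ψ) := by
  obtain ⟨D, F, rfl, hF⟩ := hx
  obtain ⟨E, G, rfl, hG⟩ := hy
  refine ⟨D + E, F * G, rfl, ?_⟩
  have h := isAutPair_mul N hF hG
  have e : expChar N ((φ + ψ : ↥(ParR N)) : Additive (Gamma0 N) →+ ℝ) =
      fun γ => expChar N (φ : Additive (Gamma0 N) →+ ℝ) γ *
        expChar N (ψ : Additive (Gamma0 N) →+ ℝ) γ :=
    funext fun γ => expChar_add _ _ γ
  rw [e]
  exact h

theorem HasChar.neg {x : Pic0 ℂ (FC N)} {φ : ↥(ParR N)} (hx : HasChar N x φ) :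
    HasChar N (-x) (-φ) := by
  obtain ⟨D, F, rfl, hF⟩ := hx
  refine ⟨-D, F⁻¹, rfl, ?_⟩
  have h := isAutPair_inv N hF
  have e : expChar N ((-φ : ↥(ParR N)) : Additive (Gamma0 N) →+ ℝ) =
      fun γ => (expChar N (φ : Additive (Gamma0 N) →+ ℝ) γ)⁻¹ :=
    funext fun γ => expChar_neg _ γ
  rw [e]
  exact h

/-- the graph of `HasChar` is a subgroup. -/
def charGraph : AddSubgroup (Pic0 ℂ (FC N) × ↥(ParR N)) where
  carrier := {p | HasChar N p.1 p.2}
  zero_mem' := hasChar_zero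
  add_mem' := fun h h' => HasChar.add h h'
  neg_mem' := fun h => HasChar.neg h

theorem HasChar.zsmul {x : Pic0 ℂ (FC N)} {φ : ↥(ParR N)} (hx : HasChar N x φ) (n : ℤ) :
    HasChar N (n • x) (n • φ) := by
  have h : ((x, φ) : Pic0 ℂ (FC N) × ↥(ParR N)) ∈ charGraph (N := N) := hx
  exact (charGraph (N := N)).zsmul_mem h n

/-- **Abel's theorem**: a class with trivial character is zero. -/
theorem eq_zero_of_hasChar_zero {x : Pic0 ℂ (FC N)} (hx : HasChar N x 0) : x = 0 := by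
  obtain ⟨D, F, rfl, hF⟩ := hx
  have hpr : Divisor.IsPrincipal (D : Divisor ℂ (FC N)) :=
    isPrincipal_of_isAutPair N hF fun γ => expChar_zero γ
  refine (QuotientAddGroup.eq_zero_iff _).mpr ?_
  rw [AddSubgroup.mem_addSubgroupOf]
  exact hpr

/-! ### the Hecke step -/

variable {ℓ : ℕ} [hℓ : Fact ℓ.Prime] (hℓN : ¬ ℓ ∣ N)

/-- the automorphic pair of the Hecke transform. -/
theorem isAutPair_heckeMer {F : MerH} {φ : Additive (Gamma0 N) →+ ℝ} {Δ : Divisor ℂ (FC N)}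
    (h : IsAutPair N F (expChar N φ) Δ) :
    IsAutPair N (heckeMer ℓ F) (expChar N (tdcAdd hℓN φ)) (corrC hℓN Δ) := by
  refine ⟨isAutDiv_heckeMer hℓN h.1, fun γ => norm_expChar _ γ, fun γ => ?_⟩
  have h1 := slMer_heckeMer hℓN (F := F)
    (χ := fun γ => Units.mk0 (expChar N φ γ) (expChar_ne_zero φ γ)) (fun γ => h.2.2 γ) γ
  rw [h1, expChar_tdcAdd]
  congr 1
  rw [constHom_apply, Units.coe_prod]
  rfl

theorem heckeOperatorAlong_mk (D : Divisor.degZero (K := ℂ) (F := FC N)) :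
    ∃ D' : Divisor.degZero (K := ℂ) (F := FC N),
      heckeOperatorAlong ℂ N ℓ (Pic0.mk D) = Pic0.mk D' ∧
        (D' : Divisor ℂ (FC N)) = corrC hℓN (D : Divisor ℂ (FC N)) := by
  haveI := hasPrincipalDivisors_level ℂ N ℓ
  rw [heckeOperatorAlong_eq_L ℂ N ℓ hℓ.out hℓN]
  exact ⟨_, rfl, rfl⟩

/-- **the Hecke step**. -/
theorem HasChar.hecke {x : Pic0 ℂ (FC N)} {φ : ↥(ParR N)} (hx : HasChar N x φ) :
    HasChar N (heckeOperatorAlong ℂ N ℓ x) (tdcPar hℓN ℝ ℝ φ) := by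
  obtain ⟨D, F, rfl, hF⟩ := hx
  obtain ⟨D', h1, h2⟩ := heckeOperatorAlong_mk hℓN D
  refine ⟨D', heckeMer ℓ F, h1.symm, ?_⟩
  rw [h2, coe_tdcPar]
  exact isAutPair_heckeMer hℓN hF

end Fermat.Agent.M43.HRChar0
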