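/-
Programme M43, pillar (P-MP), lemma **(HR) "Hecke relations on ALL points"** (lead), final file.

For a level `N`, `HIdx N` = the primes not dividing `N`, `HAlg N` = the free (non-commutative)
`ℤ`-algebra on `HIdx N`, with its three representations

* `rhoLam : HAlg N →ₐ[ℤ] End_ℤ (Lam N)`  (`T_ℓ ↦` the double coset operator `dcZ` on
  `Lam N = parabolicHoms ℤ Γ₀(N) ℤ`, i.e. on `H¹_par(Γ₀(N), ℤ)`),
* `rhoJ   : HAlg N →ₐ[ℤ] End_ℤ (JZero N)` (`T_ℓ ↦ heckeOperatorBar N ℓ`, ALL points of `J₀(N)(ℚ̄)`),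
* `rhoJC  : HAlg N →ₐ[ℤ] End_ℤ (Pic0 ℂ (FC N))`,

**`hr : rhoLam N a = 0 → rhoJ N a = 0`** (and `hrC` over `ℂ`).  Consequences:
`heckeOperatorBar_commute` (the Hecke operators prime to the level commute on all points).
-/
import Mathlib
import Fermat.Agent.M43.HRChar0
import Fermat.Agent.ES.HEQ.FaithFinal26
import Fermat.Agent.J.DESC.HeckeDescent22

set_option autoImplicit false
set_option linter.unusedSectionVars false
set_option linter.style.haveILetI false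

open scoped MatrixGroups
open CongruenceSubgroup AlgebraicCurve

noncomputable section

namespace Fermat.Agent.M43.HRMain0

open Fermat.Agent.ES.KUM
open Fermat.Agent.ES.HEQ.DoubleCoset27 Fermat.Agent.ES.HEQ.DoubleCosetPar27
open Fermat.Agent.ES.HEQ.ParLattice11 Fermat.Agent.ES.HEQ.FaithInst26
open Fermat.Agent.ES.HEQ.FaithFinal26
open ModularCurve ModularCurve.Period
open Fermat.Agent.M43.HRChar0
open Fermat.Agent.J.DESC.DescentFinal24 Fermat.Agent.J.DESC.HeckeDescent22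

variable (N : ℕ) [NeZero N]

/-- the primes not dividing the level. -/
abbrev HIdx : Type := {ℓ : Nat.Primes // ¬ (ℓ : ℕ) ∣ N}

/-- the free algebra on the Hecke operators prime to the level. -/
abbrev HAlg : Type := FreeAlgebra ℤ (HIdx N)

/-- the action on the lattice `H¹_par(Γ₀(N), ℤ)` by double coset operators. -/
def rhoLam : HAlg N →ₐ[ℤ] Module.End ℤ ↥(Lam N) :=
  FreeAlgebra.lift ℤ fun ℓ : HIdx N => dcZ N ℓ.1 ℓ.1.2 ℓ.2

/-- the action on the real parabolic homomorphisms. -/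
def rhoR : HAlg N →ₐ[ℤ] Module.End ℝ ↥(ParR N) :=
  FreeAlgebra.lift ℤ fun ℓ : HIdx N =>
    haveI : Fact (ℓ.1 : ℕ).Prime := ⟨ℓ.1.2⟩
    tdcPar ℓ.2 ℝ ℝ

/-- the action on `Pic⁰` over `ℂ`. -/
def rhoJC : HAlg N →ₐ[ℤ] Module.End ℤ (Pic0 ℂ (FC N)) :=
  FreeAlgebra.lift ℤ fun ℓ : HIdx N =>
    haveI : NeZero (ℓ.1 : ℕ) := ⟨ℓ.1.2.ne_zero⟩
    (heckeOperatorAlong ℂ N ℓ.1).toIntLinearMap

/-- the action on `J₀(N)(ℚ̄)`. -/
def rhoJ : HAlg N →ₐ[ℤ] Module.End ℤ (JZero N) :=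
  FreeAlgebra.lift ℤ fun ℓ : HIdx N => heckeOperatorBar N ℓ.1

theorem rhoLam_ι (ℓ : HIdx N) : rhoLam N (FreeAlgebra.ι ℤ ℓ) = dcZ N ℓ.1 ℓ.1.2 ℓ.2 :=
  FreeAlgebra.lift_ι_apply _ _

theorem rhoR_ι (ℓ : HIdx N) :
    rhoR N (FreeAlgebra.ι ℤ ℓ) = (haveI : Fact (ℓ.1 : ℕ).Prime := ⟨ℓ.1.2⟩; tdcPar ℓ.2 ℝ ℝ) :=
  FreeAlgebra.lift_ι_apply _ _

theorem rhoJC_ι (ℓ : HIdx N) :
    rhoJC N (FreeAlgebra.ι ℤ ℓ) =
      (haveI : NeZero (ℓ.1 : ℕ) := ⟨ℓ.1.2.ne_zero⟩
       (heckeOperatorAlong ℂ N ℓ.1).toIntLinearMap) :=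
  FreeAlgebra.lift_ι_apply _ _

theorem rhoJ_ι (ℓ : HIdx N) : rhoJ N (FreeAlgebra.ι ℤ ℓ) = heckeOperatorBar N ℓ.1 :=
  FreeAlgebra.lift_ι_apply _ _

/-! ### (1) characters follow the operators -/

theorem hasChar_rho (a : HAlg N) :
    ∀ (x : Pic0 ℂ (FC N)) (φ : ↥(ParR N)), HasChar N x φ →
      HasChar N (rhoJC N a x) (rhoR N a φ) := by
  induction a using FreeAlgebra.induction with
  | grade0 r =>
    intro x φ h
    have e1 : (rhoJC N) (algebraMap ℤ (HAlg N) r) x = r • x := by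
      rw [AlgHom.commutes, Module.algebraMap_end_apply]
    have e2 : (rhoR N) (algebraMap ℤ (HAlg N) r) φ = r • φ := by
      rw [AlgHom.commutes, Module.algebraMap_end_apply]
    rw [e1, e2]
    exact h.zsmul r
  | grade1 ℓ =>
    intro x φ h
    haveI : Fact (ℓ.1 : ℕ).Prime := ⟨ℓ.1.2⟩
    rw [rhoJC_ι, rhoR_ι]
    exact HasChar.hecke ℓ.2 h
  | mul a b ha hb =>
    intro x φ h
    rw [map_mul, map_mul, Module.End.mul_apply, Module.End.mul_apply]
    exact ha _ _ (hb _ _ h)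
  | add a b ha hb =>
    intro x φ h
    rw [map_add, map_add, LinearMap.add_apply, LinearMap.add_apply]
    exact (ha _ _ h).add (hb _ _ h)

/-! ### (2) `ℤ → ℝ` -/

theorem rhoR_castPar (a : HAlg N) :
    ∀ φ : ↥(Lam N), rhoR N a (castPar (Gamma0 N) ℝ φ) = castPar (Gamma0 N) ℝ (rhoLam N a φ) := by
  induction a using FreeAlgebra.induction with
  | grade0 r =>
    intro φ
    rw [AlgHom.commutes, AlgHom.commutes, Module.algebraMap_end_apply,
      Module.algebraMap_end_apply, map_zsmul]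
  | grade1 ℓ =>
    intro φ
    haveI : Fact (ℓ.1 : ℕ).Prime := ⟨ℓ.1.2⟩
    rw [rhoR_ι, rhoLam_ι, dcZ_eq N ℓ.1 ℓ.1.2 ℓ.2]
    apply Subtype.ext
    rw [coe_tdcPar]
    exact tdcAdd_comp ℓ.2 (Int.castAddHom ℝ) (φ : Additive (Gamma0 N) →+ ℤ)
  | mul a b ha hb =>
    intro φ
    rw [map_mul, map_mul, Module.End.mul_apply, Module.End.mul_apply, hb, ha]
  | add a b ha hb =>
    intro φ
    rw [map_add, map_add, LinearMap.add_apply, LinearMap.add_apply, ha, hb, map_add]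

theorem rhoR_eq_zero {a : HAlg N} (h : rhoLam N a = 0) : rhoR N a = 0 :=
  (transfer ℝ (fg_Gamma0 N) (rhoLam N a) (rhoR N a) (rhoR_castPar N a)).mp h

/-! ### (3) (HR) over `ℂ` -/

/-- **(HR) over `ℂ`**. -/
theorem hrC {a : HAlg N} (h : rhoLam N a = 0) : rhoJC N a = 0 := by
  refine LinearMap.ext fun x => ?_
  obtain ⟨φ, hφ⟩ := exists_hasChar x
  have h1 := hasChar_rho N a x φ hφ
  rw [rhoR_eq_zero N h, LinearMap.zero_apply] at h1
  rw [LinearMap.zero_apply]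
  exact eq_zero_of_hasChar_zero h1

/-! ### (4) descent to `ℚ̄` -/

theorem extPic0C_rhoJ (a : HAlg N) :
    ∀ x : JZero N, extPic0C N (rhoJ N a x) = rhoJC N a (extPic0C N x) := by
  induction a using FreeAlgebra.induction with
  | grade0 r =>
    intro x
    rw [AlgHom.commutes, AlgHom.commutes, Module.algebraMap_end_apply,
      Module.algebraMap_end_apply, map_zsmul]
  | grade1 ℓ =>
    intro x
    haveI : NeZero (ℓ.1 : ℕ) := ⟨ℓ.1.2.ne_zero⟩
    rw [rhoJ_ι, rhoJC_ι]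
    exact (heckeOperatorAlong_extPic0C N ℓ.1 ℓ.1.2 ℓ.2 x).symm
  | mul a b ha hb =>
    intro x
    rw [map_mul, map_mul, Module.End.mul_apply, Module.End.mul_apply, ha, hb]
  | add a b ha hb =>
    intro x
    rw [map_add, map_add, LinearMap.add_apply, LinearMap.add_apply, map_add, ha, hb]

/-- **(HR)**: a (non-commutative) polynomial in the Hecke operators prime to the level that
vanishes on the lattice `H¹_par(Γ₀(N), ℤ)` vanishes on ALL points of `J₀(N)(ℚ̄)`. -/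
theorem hr {a : HAlg N} (h : rhoLam N a = 0) : rhoJ N a = 0 := by
  refine LinearMap.ext fun x => ?_
  apply extPic0C_injective N
  rw [extPic0C_rhoJ, hrC N h, LinearMap.zero_apply, LinearMap.zero_apply, map_zero]

/-- pointwise form. -/
theorem hr_apply {a : HAlg N} (h : ∀ y : ↥(Lam N), rhoLam N a y = 0) (x : JZero N) :
    rhoJ N a x = 0 := by
  have h0 : rhoLam N a = 0 := LinearMap.ext fun y => by rw [h y, LinearMap.zero_apply]
  rw [hr N h0, LinearMap.zero_apply]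

/-- the kernel of the lattice representation kills `J₀(N)(ℚ̄)`. -/
theorem ker_rhoLam_le : RingHom.ker (rhoLam N) ≤ RingHom.ker (rhoJ N) := fun _ ha =>
  hr N ha

end Fermat.Agent.M43.HRMain0
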