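/-
Programme M43 (target S43), pillar (P-MP) Mazur's principle, chapter (LIFT_q), file 4 (helper4):
**(S1) the bridge from the Hecke algebra of `S₂(Γ₀(N))` to ALL points of `J₀(N)(ℚ̄)`**, in the shape
needed for the annihilator condition of `U44/LiftCore5.lift_of_ann`, and the abstract algebra of
non-commutative polynomials in operators (intertwiners, eigenvectors).

`Lset` a set of primes not dividing `N`, `FA = FreeAlgebra ℤ ↥Lset`,
`theta : FA →ₐ MvPolynomial ↥Lset ℤ` (abelianisation, surjective),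
`opJ : FA →ₐ End_ℤ (JZero N)`, `ι ℓ ↦ heckeOperatorBar N ℓ`.

* `lift_intertwine`, `lift_eigen` : abstract;
* **`opJ_eq_zero`** : `aeval (tL Lset hL) (theta t) = 0` in the full Hecke algebra of `S₂(Γ₀(N))`
  ⟹ `opJ t = 0` (lead's `HRMain0.hr` + `FaithFinal26.heckeLam`).
-/
import Mathlib
import Fermat.Agent.M43.HRMain0
import Fermat.Agent.U44.LiftCore5

set_option autoImplicit false
set_option linter.unusedSectionVars false
set_option linter.style.haveILetI false
set_option linter.unusedVariables false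

noncomputable section

namespace Fermat.Agent.M43.AnnHR4

open ModularCurve CuspForm CongruenceSubgroup

/-! ### abstract: non-commutative polynomials in operators -/

section Abs

variable {ι : Type*} {X Y : Type*} [AddCommGroup X] [AddCommGroup Y]

/-- the abelianisation of the free algebra. -/
def theta (ι : Type*) : FreeAlgebra ℤ ι →ₐ[ℤ] MvPolynomial ι ℤ :=
  FreeAlgebra.lift ℤ (MvPolynomial.X : ι → MvPolynomial ι ℤ)

@[simp] theorem theta_ι (i : ι) : theta ι (FreeAlgebra.ι ℤ i) = MvPolynomial.X i :=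
  FreeAlgebra.lift_ι_apply _ _

theorem theta_surjective : Function.Surjective (theta ι) := by
  intro s
  induction s using MvPolynomial.induction_on with
  | C a => exact ⟨algebraMap ℤ _ a, by rw [AlgHom.commutes]; rfl⟩
  | add p q hp hq =>
    obtain ⟨t₁, rfl⟩ := hp
    obtain ⟨t₂, rfl⟩ := hq
    exact ⟨t₁ + t₂, map_add _ _ _⟩
  | mul_X p i hp =>
    obtain ⟨t, rfl⟩ := hp
    exact ⟨t * FreeAlgebra.ι ℤ i, by rw [map_mul, theta_ι]⟩

/-- **intertwiners**: a map commuting with the generators commutes with all polynomials. -/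
theorem lift_intertwine (T : ι → Module.End ℤ X) (Tb : ι → Module.End ℤ Y) (R : X →+ Y)
    (hR : ∀ i x, R (T i x) = Tb i (R x)) (t : FreeAlgebra ℤ ι) :
    ∀ x : X, R (FreeAlgebra.lift ℤ T t x) = FreeAlgebra.lift ℤ Tb t (R x) := by
  induction t using FreeAlgebra.induction with
  | grade0 r =>
    intro x
    rw [AlgHom.commutes, AlgHom.commutes, Module.algebraMap_end_apply,
      Module.algebraMap_end_apply, map_zsmul]
  | grade1 i =>
    intro x
    rw [FreeAlgebra.lift_ι_apply, FreeAlgebra.lift_ι_apply, hR]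
  | mul a b ha hb =>
    intro x
    rw [map_mul, map_mul, Module.End.mul_apply, Module.End.mul_apply, ha, hb]
  | add a b ha hb =>
    intro x
    rw [map_add, map_add, LinearMap.add_apply, LinearMap.add_apply, map_add, ha, hb]

/-- **eigenvectors**: a common eigenvector of the generators is an eigenvector of every polynomial,
with eigenvalue the value of the abelianised polynomial. -/
theorem lift_eigen (Tb : ι → Module.End ℤ Y) (a : ι → ℤ) (y : Y) (hy : ∀ i, Tb i y = a i • y)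
    (t : FreeAlgebra ℤ ι) :
    FreeAlgebra.lift ℤ Tb t y = MvPolynomial.eval a (theta ι t) • y := by
  induction t using FreeAlgebra.induction with
  | grade0 r =>
    rw [AlgHom.commutes, AlgHom.commutes, Module.algebraMap_end_apply]
    congr 1
    rw [MvPolynomial.algebraMap_eq, MvPolynomial.eval_C]
  | grade1 i =>
    rw [FreeAlgebra.lift_ι_apply, theta_ι, MvPolynomial.eval_X, hy]
  | mul a' b ha hb =>
    rw [map_mul, map_mul, Module.End.mul_apply, hb, map_zsmul, ha, map_mul, smul_smul, mul_comm]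
  | add a' b ha hb =>
    rw [map_add, map_add, LinearMap.add_apply, ha, hb, map_add, add_smul]

end Abs

/-! ### the instance: Hecke operators on `J₀(N)(ℚ̄)` -/

section Inst

open Fermat.Agent.M43.HRMain0 Fermat.Agent.ES.HEQ.FaithFinal26 Fermat.Agent.U44.LiftCore5

variable (N : ℕ) [NeZero N] (Lset : Set ℕ) (hL : ∀ ℓ ∈ Lset, ℓ.Prime ∧ ¬ ℓ ∣ N)

/-- the Hecke operators `T_ℓ`, `ℓ ∈ Lset`, on all points of `J₀(N)(ℚ̄)`. -/
def TJ (ℓ : ↥Lset) : Module.End ℤ (JZero N) :=
  heckeOperatorBar N ⟨ℓ.1, (hL ℓ.1 ℓ.2).1⟩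

/-- non-commutative polynomials in the `T_ℓ`, `ℓ ∈ Lset`, acting on `J₀(N)(ℚ̄)`. -/
def opJ : FreeAlgebra ℤ ↥Lset →ₐ[ℤ] Module.End ℤ (JZero N) :=
  FreeAlgebra.lift ℤ (TJ N Lset hL)

/-- the index map. -/
def idx (ℓ : ↥Lset) : HIdx N := ⟨⟨ℓ.1, (hL ℓ.1 ℓ.2).1⟩, (hL ℓ.1 ℓ.2).2⟩

/-- the inclusion of the free algebras. -/
def jHom : FreeAlgebra ℤ ↥Lset →ₐ[ℤ] HAlg N :=
  FreeAlgebra.lift ℤ fun ℓ => FreeAlgebra.ι ℤ (idx N Lset hL ℓ)

theorem rhoJ_jHom (t : FreeAlgebra ℤ ↥Lset) : rhoJ N (jHom N Lset hL t) = opJ N Lset hL t := by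
  have : (rhoJ N).comp (jHom N Lset hL) = opJ N Lset hL := by
    apply FreeAlgebra.hom_ext
    funext ℓ
    show rhoJ N (jHom N Lset hL (FreeAlgebra.ι ℤ ℓ)) = opJ N Lset hL (FreeAlgebra.ι ℤ ℓ)
    rw [jHom, opJ, FreeAlgebra.lift_ι_apply, FreeAlgebra.lift_ι_apply, rhoJ_ι]
    rfl
  exact congrArg (fun f : FreeAlgebra ℤ ↥Lset →ₐ[ℤ] Module.End ℤ (JZero N) => f t) this

/-- the bad primes. -/
def Sbad : Set ℕ := {q | q.Prime ∧ q ∣ N}

theorem hSbad : ∀ q : ℕ, q.Prime → q ∣ N → q ∈ Sbad N := fun q hq hqN => ⟨hq, hqN⟩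

/-- the `T_ℓ`, `ℓ ∈ Lset`, in the anemic Hecke algebra. -/
def tL' (ℓ : ↥Lset) : heckeAlgebra N 2 (Sbad N) :=
  heckeAlgebra.T (hL ℓ.1 ℓ.2).1 (hL ℓ.1 ℓ.2).2 (fun hmem => (hL ℓ.1 ℓ.2).2 hmem.2)

/-- the inclusion of the anemic Hecke algebra into the full one. -/
def inclS : heckeAlgebra N 2 (Sbad N) →ₐ[ℤ] heckeAlgebra N 2 (∅ : Set ℕ) :=
  Subalgebra.inclusion (heckeAlgebra_mono (Set.empty_subset _))

theorem inclS_injective : Function.Injective (inclS N) := Subalgebra.inclusion_injective _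

theorem inclS_tL' (ℓ : ↥Lset) : inclS N (tL' N Lset hL ℓ) = tL Lset hL ℓ := rfl

theorem rhoLam_jHom (t : FreeAlgebra ℤ ↥Lset) :
    rhoLam N (jHom N Lset hL t) =
      heckeLam (Sbad N) (hSbad N) (MvPolynomial.aeval (tL' N Lset hL) (theta ↥Lset t)) := by
  have : (rhoLam N).comp (jHom N Lset hL) =
      (heckeLam (Sbad N) (hSbad N)).comp
        ((MvPolynomial.aeval (tL' N Lset hL)).comp (theta ↥Lset)) := by
    apply FreeAlgebra.hom_ext
    funext ℓ
    show rhoLam N (jHom N Lset hL (FreeAlgebra.ι ℤ ℓ)) =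
      heckeLam (Sbad N) (hSbad N)
        (MvPolynomial.aeval (tL' N Lset hL) (theta ↥Lset (FreeAlgebra.ι ℤ ℓ)))
    rw [jHom, FreeAlgebra.lift_ι_apply, rhoLam_ι, theta_ι, MvPolynomial.aeval_X]
    exact (heckeLam_T' (Sbad N) (hSbad N) ℓ.1 (hL ℓ.1 ℓ.2).1 (hL ℓ.1 ℓ.2).2 _).symm
  exact congrArg (fun f : FreeAlgebra ℤ ↥Lset →ₐ[ℤ] Module.End ℤ ↥(Fermat.Agent.ES.HEQ.FaithInst26.Lam N) => f t) this

/-- **(S1)**: a polynomial in the `T_ℓ` that vanishes in the Hecke algebra of `S₂(Γ₀(N))` kills ALL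
points of `J₀(N)(ℚ̄)`. -/
theorem opJ_eq_zero (t : FreeAlgebra ℤ ↥Lset)
    (ht : MvPolynomial.aeval (tL Lset hL) (theta ↥Lset t) = 0) : opJ N Lset hL t = 0 := by
  rw [← rhoJ_jHom]
  apply hr
  rw [rhoLam_jHom]
  have h0 : MvPolynomial.aeval (tL' N Lset hL) (theta ↥Lset t) = 0 := by
    apply inclS_injective N
    rw [map_zero, ← AlgHom.comp_apply, MvPolynomial.comp_aeval]
    exact ht
  rw [h0, map_zero]

end Inst

end Fermat.Agent.M43.AnnHR4
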