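import Mathlib
import Fermat.Agent.ES.N34.FrickeFK8

/-!
# M43 / P-MP (TORIC-strong): the partial Atkin-Lehner involution, cusp expansion of the generators

`N = M' * p`, `gcd(M', p) = 1`, `b d : ℤ` with `p * d - M' * b = 1`, and
`γ₀ = !![1, b; M', p * d] ∈ SL(2, ℤ)`, so that `W_p = γ₀ * diag(p, 1)` normalises `Γ₀(N)`.
The cusp expansion `T_{γ₀}` (in `q_N`) of the generators `x_D = j(q^D)`, `D ∣ N`, of `Fbar N`:

* `T_gam0_jdF_of_dvd`   : `T_{γ₀} (x_{d'}) = j(q^{d' N}) = (x_{d' p})(q^{M'})`  for `d' ∣ M'`;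
* `T_gam0_jdF_mul`      : `T_{γ₀} (x_{d' p}) = j(q^{d' M'}) = (x_{d'})(q^{M'})` for `d' ∣ M'`.

So `T_{γ₀}` maps `Fbar N` into `(Fbar N)(q^{M'})`, and dividing the exponents by `M'` gives the
Atkin-Lehner involution `w_p : x_{d'} ↔ x_{d' p}` (file `AtkinDef5`).
-/

set_option autoImplicit false
set_option linter.unusedSectionVars false

noncomputable section

namespace Fermat.Agent.M43.AtkinAn5

open Fermat.Agent.X0 Fermat.Agent.X0.Analytic
open UpperHalfPlane ModularCurve IntermediateField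
open scoped MatrixGroups
open Fermat.Agent.RED.Interface4 Fermat.Agent.RED.LVL.FrickeExp17

/-! ### the matrices -/

/-- the matrix `!![a, b; c, d]` of determinant one as an element of `SL(2, ℤ)`. -/
def mkSL (a b c d : ℤ) (h : a * d - b * c = 1) : SL(2, ℤ) :=
  ⟨!![a, b; c, d], by rw [Matrix.det_fin_two_of]; exact h⟩

theorem coe_mkSL_smul (a b c d : ℤ) (h : a * d - b * c = 1) (z : ℍ) :
    ((mkSL a b c d h • z : ℍ) : ℂ) = ((a : ℂ) * z + b) / ((c : ℂ) * z + d) := by
  rw [coe_specialLinearGroup_apply]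
  simp [mkSL]

variable (M' p : ℕ) [NeZero M'] [NeZero p] (b d : ℤ)

/-- `γ₀ = !![1, b; M', p * d]`. -/
def gam0 (h : (p : ℤ) * d - (M' : ℤ) * b = 1) : SL(2, ℤ) :=
  mkSL 1 b M' (p * d) (by rw [one_mul, mul_comm b]; exact h)

variable {M' p b d}
variable (h : (p : ℤ) * d - (M' : ℤ) * b = 1)

/-- `d' γ₀ w = γ' (d' w)` for `d' e' = M'`, `γ' = !![1, d' b; e', p d]`. -/
theorem scaleH_gam0_smul (d' e' : ℕ) [NeZero d'] (hde : d' * e' = M') (w : ℍ) :
    scaleH d' (gam0 M' p b d h • w) =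
      mkSL 1 (d' * b) e' (p * d) (by
        have : (M' : ℤ) = d' * e' := by exact_mod_cast hde.symm
        rw [this] at h
        linear_combination h) • scaleH d' w := by
  apply UpperHalfPlane.ext
  rw [coe_scaleH, gam0, coe_mkSL_smul, coe_mkSL_smul, coe_scaleH]
  have hM : (M' : ℂ) = d' * e' := by exact_mod_cast hde.symm
  push_cast
  rw [hM, mul_div_assoc']
  congr 1 <;> ring

/-- `d' p γ₀ (p v) = γ'' (d' v)` for `d' e' = M'`, `γ'' = !![p, d' b; e', d]`. -/
theorem scaleH_mul_gam0_smul (d' e' : ℕ) [NeZero d'] (hde : d' * e' = M') (v : ℍ) :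
    scaleH (d' * p) (gam0 M' p b d h • scaleH p v) =
      mkSL p (d' * b) e' d (by
        have : (M' : ℤ) = d' * e' := by exact_mod_cast hde.symm
        rw [this] at h
        linear_combination h) • scaleH d' v := by
  apply UpperHalfPlane.ext
  rw [coe_scaleH, gam0, coe_mkSL_smul, coe_mkSL_smul, coe_scaleH, coe_scaleH]
  have hM : (M' : ℂ) = d' * e' := by exact_mod_cast hde.symm
  have hp : (p : ℂ) ≠ 0 := by exact_mod_cast NeZero.ne p
  push_cast
  rw [hM]
  have h1 : (d' : ℂ) * e' * (p * v) + p * d = p * (e' * (d' * v) + d) := by ring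
  have h2 : (d' : ℂ) * p * ((1 * (p * v) + b) / (p * (e' * (d' * v) + d))) =
      (p * (d' * v) + d' * b) / (e' * (d' * v) + d) := by
    rw [mul_div_assoc']
    have : (d' : ℂ) * p * (1 * (p * v) + b) = p * (p * (d' * v) + d' * b) := by ring
    rw [this, mul_div_mul_left _ _ hp]
  rw [h1, h2]

theorem scaleH_scaleH (a c : ℕ) [NeZero a] [NeZero c] (z : ℍ) :
    scaleH a (scaleH c z) = scaleH (a * c) z := by
  apply UpperHalfPlane.ext
  simp only [coe_scaleH]
  push_cast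
  ring

theorem scaleH_congr {a c : ℕ} [NeZero a] [NeZero c] (hac : a = c) (z : ℍ) :
    scaleH a z = scaleH c z := by
  subst hac; rfl

/-- `x_{d'} (γ₀ (N z)) = j (d' N z)`. -/
theorem jdFun_gam0_of_dvd (d' e' : ℕ) [NeZero d'] (hde : d' * e' = M') (z : ℍ) :
    jdFun d' (gam0 M' p b d h • scaleH (M' * p) z) = jFun (scaleH (d' * (M' * p)) z) := by
  rw [jdFun, scaleH_gam0_smul h d' e' hde, jFun_smul, scaleH_scaleH]

/-- `x_{d' p} (γ₀ (N z)) = j (d' M' z)`. -/
theorem jdFun_gam0_mul (d' e' : ℕ) [NeZero d'] (hde : d' * e' = M') (z : ℍ) :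
    jdFun (d' * p) (gam0 M' p b d h • scaleH (M' * p) z) = jFun (scaleH (d' * M') z) := by
  have h1 : scaleH (M' * p) z = scaleH p (scaleH M' z) := by
    rw [scaleH_scaleH]
    exact scaleH_congr (mul_comm _ _) z
  rw [jdFun, h1, scaleH_mul_gam0_smul h d' e' hde, jFun_smul, scaleH_scaleH]

/-! ### cusp expansions of the generators -/

section Expansion

variable (D : RealizeData (M' * p)) (C : CuspData (M' * p) D)

/-- **`T_{γ₀} (x_{d'}) = j(q^{d' N})`** for `d' ∣ M'`. -/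
theorem T_gam0_jdF_of_dvd (d' e' : ℕ) [NeZero d'] (hde : d' * e' = M')
    (hd : d' ∣ M' * p) :
    C.T (gam0 M' p b d h) (jdF (M' * p) d' hd) = qExpand Kbar (d' * (M' * p)) jqK := by
  have h1 : ((jdR (M' * p) d' hd : Rsub (M' * p)) : FF (M' * p)) = jdF (M' * p) d' hd := rfl
  rw [← h1]
  apply intg_T_eq_of_qn
  rw [D.jd_eq d' hd, intg_toC_jN]
  have h2 : (fun z => compSL (jdFun d') (gam0 M' p b d h) (scaleH (M' * p) z)) =
      fun z => jFun (scaleH (d' * (M' * p)) z) :=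
    funext fun z => jdFun_gam0_of_dvd h d' e' hde z
  show HasQExp _ _
  rw [h2]
  exact hasQExp_jqModC.qExpand (d' * (M' * p))

/-- **`T_{γ₀} (x_{d' p}) = j(q^{d' M'})`** for `d' ∣ M'`. -/
theorem T_gam0_jdF_mul (d' e' : ℕ) [NeZero d'] (hde : d' * e' = M')
    (hd : d' * p ∣ M' * p) :
    C.T (gam0 M' p b d h) (jdF (M' * p) (d' * p) hd) = qExpand Kbar (d' * M') jqK := by
  have h1 : ((jdR (M' * p) (d' * p) hd : Rsub (M' * p)) : FF (M' * p)) =
      jdF (M' * p) (d' * p) hd := rfl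
  rw [← h1]
  apply intg_T_eq_of_qn
  rw [D.jd_eq (d' * p) hd, intg_toC_jN]
  have h2 : (fun z => compSL (jdFun (d' * p)) (gam0 M' p b d h) (scaleH (M' * p) z)) =
      fun z => jFun (scaleH (d' * M') z) :=
    funext fun z => jdFun_gam0_mul h d' e' hde z
  show HasQExp _ _
  rw [h2]
  exact hasQExp_jqModC.qExpand (d' * M')

end Expansion

end Fermat.Agent.M43.AtkinAn5
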