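import Mathlib
import Fermat.Agent.M43.AtkinAn5
import Fermat.Agent.T33.FrickeRed3B

/-!
# M43 / P-MP (TORIC-strong): the partial Atkin-Lehner involution `w_p` of `Fbar (M' * p)`

`p` a prime not dividing `M'`, `N = M' * p`.

* `wHom M' p hp hpM : FF (M' * p) →ₐ[ℚ̄] FF (M' * p)`, `atkin M' p hp hpM` the same as an `AlgEquiv`;
* `wHom_jdF_of_dvd : w_p (x_{d'}) = x_{d' p}`, `wHom_jdF_mul : w_p (x_{d' p}) = x_{d'}` (`d' ∣ M'`);
* `wHom_wHom : w_p ∘ w_p = id`;
* `wHom_alphaA : w_p ∘ α = β`, `wHom_betaA : w_p ∘ β = α`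
  (`α, β : Fbar M' → Fbar (M' p)` the two degeneracy maps);
* `wHom_frickeBar : w_p ∘ W_N = W_N ∘ w_p`.
-/

set_option autoImplicit false
set_option linter.unusedSectionVars false
set_option linter.style.haveILetI false

noncomputable section

namespace Fermat.Agent.M43.AtkinDef5

open Fermat.Agent.X0 Fermat.Agent.X0.Analytic
open UpperHalfPlane ModularCurve IntermediateField
open scoped MatrixGroups
open Fermat.Agent.RED.Interface4 Fermat.Agent.RED.LVL.FrickeExp17
open Fermat.Agent.ES.N34.FrickeFK8 Fermat.Agent.M43.AtkinAn5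
open Fermat.Agent.T33.NodalBase4A

variable (M' p : ℕ) [NeZero M'] [NeZero p]

/-! ### arithmetic -/

theorem exists_bezout (hcop : Nat.Coprime M' p) :
    ∃ b d : ℤ, (p : ℤ) * d - (M' : ℤ) * b = 1 := by
  obtain ⟨u, v, huv⟩ := (Nat.isCoprime_iff_coprime.2 hcop.symm : IsCoprime (p : ℤ) (M' : ℤ))
  exact ⟨-v, u, by linear_combination huv⟩

variable {M' p}

/-- a divisor of `M' p` is a divisor `d'` of `M'` or `d' p` with `d' ∣ M'`. -/
theorem dvd_cases (hp : p.Prime) {D : ℕ} (hD : D ∣ M' * p) :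
    D ∣ M' ∨ ∃ d', D = d' * p ∧ d' ∣ M' := by
  by_cases hpD : p ∣ D
  · obtain ⟨d', rfl⟩ := hpD
    refine Or.inr ⟨d', mul_comm _ _, ?_⟩
    rw [mul_comm M' p] at hD
    exact (Nat.mul_dvd_mul_iff_left hp.pos).1 hD
  · exact Or.inl ((Nat.Coprime.dvd_mul_right ((Nat.Prime.coprime_iff_not_dvd hp).2 hpD).symm).1 hD)

theorem neZero_of_dvd {a c : ℕ} [NeZero c] (h : a ∣ c) : NeZero a :=
  ⟨fun h0 => NeZero.ne c (by rw [h0, zero_dvd_iff] at h; exact h)⟩

/-! ### the expansion `T_{γ₀}` as an algebra homomorphism -/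

section Choice

variable {b d : ℤ} (h : (p : ℤ) * d - (M' : ℤ) * b = 1)

/-- `T_{γ₀}` as a `ℚ̄`-algebra homomorphism. -/
def TAlg : FF (M' * p) →ₐ[Kbar] LaurentSeries Kbar :=
  { (cuspData (M' * p)).T (gam0 M' p b d h) with
    commutes' := fun c => by
      show (cuspData (M' * p)).T (gam0 M' p b d h) (algebraMap Kbar (FF (M' * p)) c) =
        algebraMap Kbar (LaurentSeries Kbar) c
      exact intg_T_algebraMap (M' * p) (realizeData (M' * p)) (cuspData (M' * p)) _ c }

@[simp] theorem TAlg_apply (f : FF (M' * p)) :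
    TAlg h f = (cuspData (M' * p)).T (gam0 M' p b d h) f := rfl

/-- the field `(Fbar N)(q^{M'})`. -/
abbrev expField (M' p : ℕ) [NeZero M'] [NeZero p] : IntermediateField Kbar (LaurentSeries Kbar) :=
  (modularFunctionFieldBar (M' * p)).map (qExpandAlgHomC Kbar M')

theorem mem_expField_of_eq {x : LaurentSeries Kbar} (y : FF (M' * p))
    (hxy : x = qExpand Kbar M' (y : LaurentSeries Kbar)) : x ∈ expField M' p :=
  ⟨(y : LaurentSeries Kbar), y.2, hxy.symm⟩

theorem TAlg_jdF_of_dvd (d' : ℕ) [NeZero d'] (hd' : d' ∣ M') :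
    TAlg h (jdF (M' * p) d' (hd'.mul_right p)) =
      qExpand Kbar M' ((jdF (M' * p) (d' * p) (Nat.mul_dvd_mul_right hd' p) : FF (M' * p)) :
        LaurentSeries Kbar) := by
  obtain ⟨e', he'⟩ := hd'
  rw [TAlg_apply, T_gam0_jdF_of_dvd h (realizeData (M' * p)) (cuspData (M' * p)) d' e' he'.symm,
    coe_jdF_eq_qExpand, qExpand_qExpand]
  exact qExpand_congr (by ring) _

theorem TAlg_jdF_mul (d' : ℕ) [NeZero d'] (hd' : d' ∣ M') :
    TAlg h (jdF (M' * p) (d' * p) (Nat.mul_dvd_mul_right hd' p)) =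
      qExpand Kbar M' ((jdF (M' * p) d' (hd'.mul_right p) : FF (M' * p)) :
        LaurentSeries Kbar) := by
  obtain ⟨e', he'⟩ := hd'
  rw [TAlg_apply, T_gam0_jdF_mul h (realizeData (M' * p)) (cuspData (M' * p)) d' e' he'.symm,
    coe_jdF_eq_qExpand, qExpand_qExpand]
  exact qExpand_congr (mul_comm _ _) _

/-- `T_{γ₀}` maps `Fbar N` into `(Fbar N)(q^{M'})`. -/
theorem TAlg_mem (hp : p.Prime) (f : FF (M' * p)) : TAlg h f ∈ expField M' p := by
  have htop : IntermediateField.adjoin Kbar (genSet (M' * p)) ≤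
      (expField M' p).comap (TAlg h) := by
    rw [IntermediateField.adjoin_le_iff]
    rintro _ ⟨D, hne, hD, rfl⟩
    rw [SetLike.mem_coe, mem_comap_iff]
    rcases dvd_cases hp hD with hD' | ⟨d', rfl, hd'⟩
    · exact mem_expField_of_eq _ (TAlg_jdF_of_dvd h D hD')
    · have : NeZero d' := neZero_of_dvd hd'
      exact mem_expField_of_eq _ (TAlg_jdF_mul h d' hd')
  have hf := htop (FracR.mem_adjoin_genSet (M' * p) f)
  rwa [mem_comap_iff] at hf

/-- **the Atkin-Lehner involution `w_p`**, as an algebra endomorphism (depending on the auxiliary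
choice of `b, d`; see `wHom` below). -/
def wAux (hp : p.Prime) : FF (M' * p) →ₐ[Kbar] FF (M' * p) :=
  (IntermediateField.equivMap (modularFunctionFieldBar (M' * p))
      (qExpandAlgHomC Kbar M')).symm.toAlgHom.comp
    ((TAlg h).codRestrict (expField M' p).toSubalgebra (TAlg_mem h hp))

theorem qExpand_coe_wAux (hp : p.Prime) (f : FF (M' * p)) :
    qExpand Kbar M' ((wAux h hp f : FF (M' * p)) : LaurentSeries Kbar) = TAlg h f := by
  have h1 := IntermediateField.coe_equivMap_apply (modularFunctionFieldBar (M' * p))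
    (qExpandAlgHomC Kbar M') (wAux h hp f)
  rw [qExpandAlgHomC_apply] at h1
  rw [← h1]
  show ((IntermediateField.equivMap (modularFunctionFieldBar (M' * p)) (qExpandAlgHomC Kbar M')
    ((IntermediateField.equivMap (modularFunctionFieldBar (M' * p))
      (qExpandAlgHomC Kbar M')).symm _) : expField M' p) : LaurentSeries Kbar) = _
  rw [AlgEquiv.apply_symm_apply]
  rfl

theorem wAux_eq_of_qExpand (hp : p.Prime) (f g : FF (M' * p))
    (hfg : TAlg h f = qExpand Kbar M' (g : LaurentSeries Kbar)) : wAux h hp f = g := by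
  apply Subtype.ext
  apply qExpand_injective (R := Kbar) M'
  rw [qExpand_coe_wAux, hfg]

theorem wAux_jdF_of_dvd (hp : p.Prime) (d' : ℕ) [NeZero d'] (hd' : d' ∣ M') :
    wAux h hp (jdF (M' * p) d' (hd'.mul_right p)) =
      jdF (M' * p) (d' * p) (Nat.mul_dvd_mul_right hd' p) :=
  wAux_eq_of_qExpand h hp _ _ (TAlg_jdF_of_dvd h d' hd')

theorem wAux_jdF_mul (hp : p.Prime) (d' : ℕ) [NeZero d'] (hd' : d' ∣ M') :
    wAux h hp (jdF (M' * p) (d' * p) (Nat.mul_dvd_mul_right hd' p)) =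
      jdF (M' * p) d' (hd'.mul_right p) :=
  wAux_eq_of_qExpand h hp _ _ (TAlg_jdF_mul h d' hd')

end Choice

/-! ### the involution -/

variable (M' p)

/-- **the partial Atkin-Lehner involution `w_p` of `Fbar (M' p)`** (algebra endomorphism). -/
def wHom (hp : p.Prime) (hpM : ¬ p ∣ M') : FF (M' * p) →ₐ[Kbar] FF (M' * p) :=
  wAux (exists_bezout M' p
    ((Nat.Prime.coprime_iff_not_dvd hp).2 hpM).symm).choose_spec.choose_spec hp

variable {M' p}
variable (hp : p.Prime) (hpM : ¬ p ∣ M')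

/-- `w_p (x_{d'}) = x_{d' p}`. -/
theorem wHom_jdF_of_dvd (d' : ℕ) [NeZero d'] (hd' : d' ∣ M') :
    wHom M' p hp hpM (jdF (M' * p) d' (hd'.mul_right p)) =
      jdF (M' * p) (d' * p) (Nat.mul_dvd_mul_right hd' p) :=
  wAux_jdF_of_dvd _ hp d' hd'

/-- `w_p (x_{d' p}) = x_{d'}`. -/
theorem wHom_jdF_mul (d' : ℕ) [NeZero d'] (hd' : d' ∣ M') :
    wHom M' p hp hpM (jdF (M' * p) (d' * p) (Nat.mul_dvd_mul_right hd' p)) =
      jdF (M' * p) d' (hd'.mul_right p) :=
  wAux_jdF_mul _ hp d' hd'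

include hp in
/-- two algebra endomorphisms of `Fbar (M' p)` agreeing on the `x_{d'}`, `x_{d' p}` agree. -/
theorem algHom_ext_cases {φ ψ : FF (M' * p) →ₐ[Kbar] FF (M' * p)}
    (h1 : ∀ (d' : ℕ) [NeZero d'] (hd' : d' ∣ M'),
      φ (jdF (M' * p) d' (hd'.mul_right p)) = ψ (jdF (M' * p) d' (hd'.mul_right p)))
    (h2 : ∀ (d' : ℕ) [NeZero d'] (hd' : d' ∣ M'),
      φ (jdF (M' * p) (d' * p) (Nat.mul_dvd_mul_right hd' p)) =
        ψ (jdF (M' * p) (d' * p) (Nat.mul_dvd_mul_right hd' p))) : φ = ψ := by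
  apply algHom_ext_jdF
  intro D _ hD
  rcases dvd_cases hp hD with hD' | ⟨d', rfl, hd'⟩
  · exact h1 D hD'
  · have : NeZero d' := neZero_of_dvd hd'
    exact h2 d' hd'

/-- **`w_p` is an involution.** -/
theorem wHom_comp_wHom :
    (wHom M' p hp hpM).comp (wHom M' p hp hpM) = AlgHom.id Kbar (FF (M' * p)) := by
  apply algHom_ext_cases hp
  · intro d' _ hd'
    rw [AlgHom.comp_apply, wHom_jdF_of_dvd hp hpM d' hd', wHom_jdF_mul hp hpM d' hd']
    rfl
  · intro d' _ hd'
    rw [AlgHom.comp_apply, wHom_jdF_mul hp hpM d' hd', wHom_jdF_of_dvd hp hpM d' hd']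
    rfl

theorem wHom_wHom (f : FF (M' * p)) : wHom M' p hp hpM (wHom M' p hp hpM f) = f :=
  DFunLike.congr_fun (wHom_comp_wHom hp hpM) f

variable (M' p) in
/-- **`w_p` as an algebra automorphism.** -/
def atkin : FF (M' * p) ≃ₐ[Kbar] FF (M' * p) :=
  AlgEquiv.ofAlgHom (wHom M' p hp hpM) (wHom M' p hp hpM) (wHom_comp_wHom hp hpM)
    (wHom_comp_wHom hp hpM)

@[simp] theorem atkin_apply (f : FF (M' * p)) : atkin M' p hp hpM f = wHom M' p hp hpM f := rfl

@[simp] theorem atkin_symm_apply (f : FF (M' * p)) :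
    (atkin M' p hp hpM).symm f = wHom M' p hp hpM f := rfl

/-! ### the degeneracy maps and the Fricke involution -/

/-- two `ℚ̄`-algebra homomorphisms from `Fbar N` to a field agreeing on the generators agree. -/
theorem algHom_ext_gen {N : ℕ} [NeZero N] {L : Type*} [Field L] [Algebra Kbar L]
    {φ ψ : FF N →ₐ[Kbar] L}
    (h : ∀ (d : ℕ) [NeZero d] (hd : d ∣ N), φ (jdF N d hd) = ψ (jdF N d hd)) : φ = ψ := by
  have hR : ∀ u : Rsub N, φ (u : FF N) = ψ (u : FF N) := by
    intro u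
    induction u using FracR.Rsub_induction with
    | hgen d hd => exact h d hd
    | hconst c =>
        show φ (algebraMap Kbar (FF N) c) = ψ (algebraMap Kbar (FF N) c)
        rw [φ.commutes, ψ.commutes]
    | hadd u v hu hv =>
        show φ ((u : FF N) + (v : FF N)) = ψ ((u : FF N) + (v : FF N))
        rw [map_add, map_add, hu, hv]
    | hmul u v hu hv =>
        show φ ((u : FF N) * (v : FF N)) = ψ ((u : FF N) * (v : FF N))
        rw [map_mul, map_mul, hu, hv]
  apply AlgHom.ext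
  intro y
  obtain ⟨r, s, rfl⟩ := FracR.exists_div N y
  rw [map_div₀, map_div₀, hR r, hR s]

theorem alphaA_jdF (d' : ℕ) [NeZero d'] (hd' : d' ∣ M') :
    alphaA M' p (jdF M' d' hd') = jdF (M' * p) d' (hd'.mul_right p) := by
  apply Subtype.ext
  rw [coe_alphaA, coe_jdF_eq_qExpand, coe_jdF_eq_qExpand]

theorem betaA_jdF (d' : ℕ) [NeZero d'] (hd' : d' ∣ M') :
    betaA M' p (jdF M' d' hd') = jdF (M' * p) (d' * p) (Nat.mul_dvd_mul_right hd' p) := by
  apply Subtype.ext
  rw [coe_betaA, coe_jdF_eq_qExpand, coe_jdF_eq_qExpand, qExpand_qExpand]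
  exact qExpand_congr (mul_comm _ _) _

/-- **`w_p ∘ α = β`.** -/
theorem wHom_alphaA (x : FF M') : wHom M' p hp hpM (alphaA M' p x) = betaA M' p x := by
  have : (wHom M' p hp hpM).comp (alphaA M' p) = betaA M' p := by
    apply algHom_ext_gen
    intro d' _ hd'
    rw [AlgHom.comp_apply, alphaA_jdF, betaA_jdF, wHom_jdF_of_dvd hp hpM d' hd']
  exact DFunLike.congr_fun this x

/-- **`w_p ∘ β = α`.** -/
theorem wHom_betaA (x : FF M') : wHom M' p hp hpM (betaA M' p x) = alphaA M' p x := by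
  rw [← wHom_alphaA hp hpM, wHom_wHom]

/-- **`w_p` commutes with the Fricke involution `W_N`.** -/
theorem wHom_frickeBar (f : FF (M' * p)) :
    wHom M' p hp hpM (frickeBar (M' * p) f) = frickeBar (M' * p) (wHom M' p hp hpM f) := by
  have : (wHom M' p hp hpM).comp (frickeBar (M' * p)) =
      (frickeBar (M' * p)).comp (wHom M' p hp hpM) := by
    apply algHom_ext_cases hp
    · intro d' _ hd'
      obtain ⟨e', he'⟩ := hd'
      have : NeZero e' := ⟨fun h0 => NeZero.ne M' (by rw [he', h0, mul_zero])⟩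
      have hd'M : d' ∣ M' := ⟨e', he'⟩
      have he'M : e' ∣ M' := ⟨d', by rw [he', mul_comm]⟩
      rw [AlgHom.comp_apply, AlgHom.comp_apply, wHom_jdF_of_dvd hp hpM d' hd'M]
      have h1 := frickeBar_jdF (M' * p) d' (e' * p) (by rw [he']; ring)
      have h2 := frickeBar_jdF (M' * p) (d' * p) e' (by rw [he']; ring)
      rw [h1, h2]
      exact wHom_jdF_mul hp hpM e' he'M
    · intro d' _ hd'
      obtain ⟨e', he'⟩ := hd'
      have : NeZero e' := ⟨fun h0 => NeZero.ne M' (by rw [he', h0, mul_zero])⟩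
      have hd'M : d' ∣ M' := ⟨e', he'⟩
      have he'M : e' ∣ M' := ⟨d', by rw [he', mul_comm]⟩
      rw [AlgHom.comp_apply, AlgHom.comp_apply, wHom_jdF_mul hp hpM d' hd'M]
      have h1 := frickeBar_jdF (M' * p) d' (e' * p) (by rw [he']; ring)
      have h2 := frickeBar_jdF (M' * p) (d' * p) e' (by rw [he']; ring)
      rw [h1, h2]
      exact wHom_jdF_of_dvd hp hpM e' he'M
  exact DFunLike.congr_fun this f

end Fermat.Agent.M43.AtkinDef5
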