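import Mathlib
import Fermat.Agent.M43.AtkinDef5
import Fermat.Agent.U44.GammaTwo2
import Fermat.Agent.U44.GammaTwo0

/-!
# M43 / P-MP (TORIC-strong): the Atkin-Lehner involution `w_p` swaps the two Gauss rings

`h : LevelHyp p M' A`, `N = M' * p`, `w = AtkinDef5.wHom M' p` the partial Atkin-Lehner involution of
`Fbar N`, `O₁, O₂ = W_N⁻¹ O₁` the two Gauss valuation rings of `Fbar N` at `A` (`T33/NodalHalf4`) with
their reductions `ρ₁, ρ₂ : O_i → Fb A M'`, `W̄ = Wb h` the reduction of the Fricke involution of the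
good level `M'`.

* `comap_eq_or` : **(TWO)** for an arbitrary ring endomorphism `σ` of `Fbar N` with
  `σ (β x) ∈ O₁ ↔ x ∈ Ov₀`: `σ⁻¹ O₁ ∈ {O₁, O₂}` (the proof of `GammaTwo2.comap_tau'_eq_or`);
* `wHom_mem_O1_iff : w y ∈ O₁ ↔ y ∈ O₂`, `wHom_mem_O2_iff : w y ∈ O₂ ↔ y ∈ O₁`
  (`w⁻¹ O₁ = O₁` is excluded since `ρ₁ (β x) = (ρ₀ x)(q^p)` has order divisible by `p` and
  `ρ₁ t = x₁` has order `-1`);
* `rho2_wHom : ρ₂ (w y) = W̄ (ρ₁ y)` (`y ∈ O₁`), `rho1_wHom : ρ₁ (w y) = W̄ (ρ₂ y)` (`y ∈ O₂`).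
-/

set_option autoImplicit false
set_option linter.unusedSectionVars false
set_option linter.style.haveILetI false
set_option synthInstance.maxHeartbeats 400000

noncomputable section

namespace Fermat.Agent.M43.AtkinVal5

open HahnSeries ModularCurve IntermediateField IsLocalRing AlgebraicCurve
open Fermat.Agent.X0 Fermat.Agent.ES.KRON.KronCong24 Fermat.Agent.ES.N34.FrickeFK8
  Fermat.Agent.ES.RED Fermat.Agent.RED.Interface4
  Fermat.Agent.U44.GammaTwist2 Fermat.Agent.U44.GammaLevel2 Fermat.Agent.U44.GammaGauss2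
  Fermat.Agent.U44.GammaVal2 Fermat.Agent.U44.GammaTwo2
  Fermat.Agent.T33.NodalHalf4 Fermat.Agent.T33.NodalBase4A Fermat.Agent.T33.FrickeRed3
  Fermat.Agent.T33.NodalCtx1
  Fermat.Agent.M43.AtkinDef5

variable {A : ValuationSubring Qbar}
variable {p M' : ℕ} [NeZero M'] [NeZero p] (h : LevelHyp p M' A)

/-- **(TWO) for `β`, general form**: if `σ (β x) ∈ O₁ ↔ x ∈ Ov₀` then the valuation ring
`σ⁻¹ O₁` is `O₁` or `O₂`. -/
theorem comap_eq_or (σ : ↥(Fbar (M' * p)) →+* ↥(Fbar (M' * p)))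
    (hσ : ∀ x : ↥(Fbar M'), σ (betaA M' p x) ∈ O1 h ↔ x ∈ Ov0 h) :
    (valSub (c1 h)).comap σ = valSub (c1 h) ∨ (valSub (c1 h)).comap σ = valSub (c2 h) := by
  classical
  letI : Algebra ↥(Fbar M') ↥(Fbar (M' * p)) := algebraAlong (betaA M' p)
  haveI : FiniteDimensional ↥(Fbar M') ↥(Fbar (M' * p)) :=
    Fermat.Agent.ES.HECKE.AlongDegree25.finiteAlong_beta Qbar M' p h.prime h.not_dvd
  have hn : Module.finrank ↥(Fbar M') ↥(Fbar (M' * p)) ≤ p + 1 :=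
    (Fermat.Agent.ES.HECKE.AlongDegree25.finrankAlong_beta Qbar M' p h.prime h.not_dvd).le
  have halg : ∀ x : ↥(Fbar M'),
      algebraMap ↥(Fbar M') ↥(Fbar (M' * p)) x = betaA M' p x := fun _ => rfl
  have hcomap₂ : (valSub (c1 h)).comap (algebraMap ↥(Fbar M') ↥(Fbar (M' * p))) =
      (valSub (c2 h)).comap (algebraMap ↥(Fbar M') ↥(Fbar (M' * p))) := by
    ext x
    rw [ValuationSubring.mem_comap, ValuationSubring.mem_comap, halg]
    exact (Fermat.Agent.U44.GammaVal2.betaA_mem_O1_iff h x).trans (betaA_mem_O2_iff h x).symm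
  have hcomap₃ : (valSub (c1 h)).comap (algebraMap ↥(Fbar M') ↥(Fbar (M' * p))) =
      ((valSub (c1 h)).comap σ).comap (algebraMap ↥(Fbar M') ↥(Fbar (M' * p))) := by
    ext x
    rw [ValuationSubring.mem_comap, ValuationSubring.mem_comap, ValuationSubring.mem_comap, halg]
    exact (Fermat.Agent.U44.GammaVal2.betaA_mem_O1_iff h x).trans (hσ x).symm
  have hmemOv : ∀ x : ↥(Fbar M'),
      ((valSub (c1 h)).comap (algebraMap ↥(Fbar M') ↥(Fbar (M' * p)))).valuation x ≤ 1 →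
        x ∈ Ov0 h := by
    intro x hx
    have := (Fermat.Agent.RED.PUR.UniqueExt20.comap_val_le_one_iff (valSub (c1 h)) x).1 hx
    rw [ValuationSubring.valuation_le_one_iff] at this
    exact (Fermat.Agent.U44.GammaVal2.betaA_mem_O1_iff h x).1 this
  have hlt_of : ∀ (x : ↥(Fbar M')) (hx : x ∈ Ov0 h), rho0 h ⟨x, hx⟩ = 0 →
      ((valSub (c1 h)).comap (algebraMap ↥(Fbar M') ↥(Fbar (M' * p)))).valuation x < 1 := by
    intro x hx hρ
    rw [Fermat.Agent.RED.PUR.UniqueExt20.comap_val_lt_one_iff, valSub_val_lt_one_iff]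
    refine ⟨betaA_mem_O1 h hx, ?_⟩
    apply Subtype.ext
    refine (coe_rho1_betaA h ⟨x, hx⟩).trans ?_
    rw [hρ]
    simp
  refine (Fermat.Agent.ES.N34.TwoExt22.eq_or_eq_of_residually_independent (n₁ := p) (n₂ := 1) hn
    (valSub (c1 h)) (valSub (c2 h)) ((valSub (c1 h)).comap σ) (valSub_c1_ne_c2 h)
    hcomap₂ hcomap₃ (fun i => tA h ^ (i : ℕ)) (fun i => (O1 h).pow_mem (tA_mem_O1 h) _) ?_
    (fun _ => 1) (fun _ => (O2 h).one_mem) ?_)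
  · intro a ha hlt i
    have ha' : ∀ i, a i ∈ Ov0 h := fun i => hmemOv _ (ha i)
    obtain ⟨hS, hρ⟩ := (valSub_val_lt_one_iff (c1 h) _).1 hlt
    refine hlt_of _ (ha' i) (rho0_eq_zero_of_sum h (fun i => ⟨a i, ha' i⟩) ?_ i)
    have hS' : (⟨_, hS⟩ : ↥(O1 h)) = ∑ i : Fin p,
        (⟨betaA M' p (a i), betaA_mem_O1 h (ha' i)⟩ : ↥(O1 h)) *
          (⟨tA h, tA_mem_O1 h⟩ : ↥(O1 h)) ^ (i : ℕ) := by
      apply Subtype.ext
      push_cast
      rfl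
    have hρ' : rho1 h ⟨_, hS⟩ = 0 := hρ
    rw [hS', map_sum] at hρ'
    rw [← hρ']
    refine Finset.sum_congr rfl fun i _ => ?_
    rw [map_mul, map_pow, rho1_tA]
  · intro a ha hlt i
    have ha' : ∀ i, a i ∈ Ov0 h := fun i => hmemOv _ (ha i)
    obtain ⟨hS, hρ⟩ := (valSub_val_lt_one_iff (c2 h) _).1 hlt
    have hi : i = 0 := Subsingleton.elim _ _
    subst hi
    refine hlt_of _ (ha' 0) ?_
    have hS' : (⟨_, hS⟩ : ↥(O2 h)) = ⟨betaA M' p (a 0), betaA_mem_O2 h (ha' 0)⟩ := by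
      apply Subtype.ext
      simp [halg]
    have hρ' : rho2 h ⟨_, hS⟩ = 0 := hρ
    rw [hS', rho2_betaA h ⟨a 0, ha' 0⟩] at hρ'
    exact (map_eq_zero_iff _ (Wb h).injective).1 hρ'

/-- `w_p` of the level `M' p`, for the level data `h`. -/
def wA : ↥(Fbar (M' * p)) ≃ₐ[Qbar] ↥(Fbar (M' * p)) := atkin M' p h.prime h.not_dvd

theorem wA_wA (y : ↥(Fbar (M' * p))) : wA h (wA h y) = y := wHom_wHom h.prime h.not_dvd y

theorem wA_alphaA (x : ↥(Fbar M')) : wA h (alphaA M' p x) = betaA M' p x :=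
  wHom_alphaA h.prime h.not_dvd x

theorem wA_betaA (x : ↥(Fbar M')) : wA h (betaA M' p x) = alphaA M' p x :=
  wHom_betaA h.prime h.not_dvd x

theorem wA_frickeBar (y : ↥(Fbar (M' * p))) :
    wA h (frickeBar (M' * p) y) = frickeBar (M' * p) (wA h y) :=
  wHom_frickeBar h.prime h.not_dvd y

/-- `w_p` as a ring endomorphism. -/
def wRing : ↥(Fbar (M' * p)) →+* ↥(Fbar (M' * p)) :=
  ((wA h : ↥(Fbar (M' * p)) ≃ₐ[Qbar] ↥(Fbar (M' * p))) : ↥(Fbar (M' * p)) →+* ↥(Fbar (M' * p)))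

@[simp] theorem wRing_apply (y : ↥(Fbar (M' * p))) : wRing h y = wA h y := rfl

theorem mem_comap_wRing (V : ValuationSubring ↥(Fbar (M' * p))) (z : ↥(Fbar (M' * p))) :
    z ∈ V.comap (wRing h) ↔ wA h z ∈ V := Iff.rfl

theorem comap_wRing_eq_or :
    (valSub (c1 h)).comap (wRing h) = valSub (c1 h) ∨
      (valSub (c1 h)).comap (wRing h) = valSub (c2 h) :=
  comap_eq_or h (wRing h) fun x => by
    rw [wRing_apply, wA_betaA]
    exact Fermat.Agent.U44.GammaTwo0.alphaA_mem_O1_iff h x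

/-- `w⁻¹ O₁ ≠ O₁`. -/
theorem comap_wRing_ne : (valSub (c1 h)).comap (wRing h) ≠ valSub (c1 h) := by
  intro heq
  have hiff : ∀ z : ↥(Fbar (M' * p)), wA h z ∈ O1 h ↔ z ∈ O1 h := fun z => by
    rw [← Fermat.Agent.U44.GammaTwo2.mem_valSub_c1 h, ← mem_comap_wRing h, heq, Fermat.Agent.U44.GammaTwo2.mem_valSub_c1 h]
  -- `y := w t ∈ O₁`, `w y = t`
  have hy : wA h (tA h) ∈ O1 h := (hiff _).2 (tA_mem_O1 h)
  obtain ⟨x, hx⟩ := rho0_surjective h (rho1 h ⟨_, hy⟩)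
  have hd : rho1 h (⟨_, hy⟩ - ⟨alphaA M' p (x : ↥(Fbar M')), alphaA_mem_O1 h x.2⟩) = 0 := by
    rw [map_sub, rho1_alphaA h x, hx, sub_self]
  obtain ⟨c, hc, y', hy'⟩ := rho1_ker h _ hd
  -- apply `w`
  have h1 : tA h = betaA M' p (x : ↥(Fbar M')) +
      algebraMap Qbar ↥(Fbar (M' * p)) (c : Qbar) * wA h (y' : ↥(Fbar (M' * p))) := by
    have h2 : wA h (tA h) = alphaA M' p (x : ↥(Fbar M')) +
        algebraMap Qbar ↥(Fbar (M' * p)) (c : Qbar) * (y' : ↥(Fbar (M' * p))) := by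
      rw [← hy']
      push_cast
      ring
    have h3 := congrArg (wA h) h2
    rw [wA_wA, map_add, map_mul, AlgEquiv.commutes, wA_alphaA] at h3
    exact h3
  have hwy' : wA h (y' : ↥(Fbar (M' * p))) ∈ O1 h := (hiff _).2 y'.2
  have h4 : (⟨tA h, tA_mem_O1 h⟩ : ↥(O1 h)) =
      ⟨betaA M' p (x : ↥(Fbar M')), betaA_mem_O1 h x.2⟩ +
      ⟨algebraMap Qbar ↥(Fbar (M' * p)) (c : Qbar) * wA h (y' : ↥(Fbar (M' * p))),
        smul_mem_O1 h c hwy'⟩ := Subtype.ext h1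
  have h5 := congrArg (rho1 h) h4
  rw [map_add, rho1_tA, rho1_smul h c ⟨_, hwy'⟩, (residue_eq_zero_iff _).2 hc, map_zero,
    zero_mul, add_zero] at h5
  -- orders
  have h6 := congrArg (fun z : Fb A M' => (z : LaurentSeries (Setup8.kA A))) h5
  simp only [coe_xOne] at h6
  rw [coe_rho1_betaA h x] at h6
  have h7 : (p : ℤ) ∣ (Fermat.Agent.RED.BASE.EtaQuot12.tq (Setup8.kA A) 4 8).order := by
    rw [h6]
    exact Fermat.Agent.IG.PR.RamDeg25.dvd_order_qExpand p _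
  rw [order_tq] at h7
  have h8 : (p : ℤ) ∣ 1 := by
    have := (Int.dvd_neg).1 h7
    simpa using this
  have h9 : p ∣ 1 := by exact_mod_cast h8
  exact h.prime.one_lt.ne' (Nat.dvd_one.1 h9)

/-- **`w_p y ∈ O₁ ↔ y ∈ O₂`.** -/
theorem wA_mem_O1_iff (y : ↥(Fbar (M' * p))) : wA h y ∈ O1 h ↔ y ∈ O2 h := by
  rcases comap_wRing_eq_or h with h1 | h2
  · exact absurd h1 (comap_wRing_ne h)
  · rw [← Fermat.Agent.U44.GammaTwo2.mem_valSub_c1 h, ← mem_comap_wRing h, h2, Fermat.Agent.U44.GammaTwo2.mem_valSub_c2 h]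

/-- **`w_p y ∈ O₂ ↔ y ∈ O₁`.** -/
theorem wA_mem_O2_iff (y : ↥(Fbar (M' * p))) : wA h y ∈ O2 h ↔ y ∈ O1 h := by
  rw [← wA_mem_O1_iff h (wA h y), wA_wA]

theorem wA_mem_O2 {y : ↥(Fbar (M' * p))} (hy : y ∈ O1 h) : wA h y ∈ O2 h :=
  (wA_mem_O2_iff h y).2 hy

theorem wA_mem_O1 {y : ↥(Fbar (M' * p))} (hy : y ∈ O2 h) : wA h y ∈ O1 h :=
  (wA_mem_O1_iff h y).2 hy

theorem smul_mem_O2 (a : ↥A) {f : ↥(Fbar (M' * p))} (hf : f ∈ O2 h) :
    algebraMap Qbar ↥(Fbar (M' * p)) (a : Qbar) * f ∈ O2 h :=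
  (O2 h).mul_mem ((c2 h).algebraMap_mem a) hf

theorem rho2_smul (a : ↥A) (y : ↥(O2 h)) :
    rho2 h ⟨algebraMap Qbar ↥(Fbar (M' * p)) (a : Qbar) * (y : ↥(Fbar (M' * p))),
        smul_mem_O2 h a y.2⟩ =
      algebraMap (Setup8.kA A) (Fb A M') (residue ↥A a) * rho2 h y := by
  have h1 : (⟨algebraMap Qbar ↥(Fbar (M' * p)) (a : Qbar) * (y : ↥(Fbar (M' * p))),
      smul_mem_O2 h a y.2⟩ : ↥(O2 h)) =
      ⟨algebraMap Qbar ↥(Fbar (M' * p)) (a : Qbar), (c2 h).algebraMap_mem a⟩ * y := rfl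
  rw [h1, map_mul]
  congr 1
  exact (c2 h).ρ_algebraMap a

/-- **`ρ₂ (w_p y) = W̄ (ρ₁ y)`** for `y ∈ O₁`. -/
theorem rho2_wA (y : ↥(O1 h)) :
    rho2 h ⟨wA h (y : ↥(Fbar (M' * p))), wA_mem_O2 h y.2⟩ = Wb h (rho1 h y) := by
  obtain ⟨x, hx⟩ := rho0_surjective h (rho1 h y)
  have hd : rho1 h (y - ⟨alphaA M' p (x : ↥(Fbar M')), alphaA_mem_O1 h x.2⟩) = 0 := by
    rw [map_sub, rho1_alphaA h x, hx, sub_self]
  obtain ⟨c, hc, y', hy'⟩ := rho1_ker h _ hd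
  have h1 : wA h (y : ↥(Fbar (M' * p))) = betaA M' p (x : ↥(Fbar M')) +
      algebraMap Qbar ↥(Fbar (M' * p)) (c : Qbar) * wA h (y' : ↥(Fbar (M' * p))) := by
    have h2 : (y : ↥(Fbar (M' * p))) = alphaA M' p (x : ↥(Fbar M')) +
        algebraMap Qbar ↥(Fbar (M' * p)) (c : Qbar) * (y' : ↥(Fbar (M' * p))) := by
      rw [← hy']
      push_cast
      ring
    conv_lhs => rw [h2]
    rw [map_add, map_mul, AlgEquiv.commutes, wA_alphaA]
  have h3 : (⟨wA h (y : ↥(Fbar (M' * p))), wA_mem_O2 h y.2⟩ : ↥(O2 h)) =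
      ⟨betaA M' p (x : ↥(Fbar M')), betaA_mem_O2 h x.2⟩ +
      ⟨algebraMap Qbar ↥(Fbar (M' * p)) (c : Qbar) * wA h (y' : ↥(Fbar (M' * p))),
        smul_mem_O2 h c (wA_mem_O2 h y'.2)⟩ := Subtype.ext h1
  rw [h3, map_add, rho2_betaA h x, rho2_smul h c ⟨_, wA_mem_O2 h y'.2⟩,
    (residue_eq_zero_iff _).2 hc, map_zero, zero_mul, add_zero, hx]

theorem Wb_Wb' (x : Fb A M') : Wb h (Wb h x) = x :=
  haveI : Fact p.Prime := ⟨h.prime⟩
  Wbar_Wbar A M' p h.liesOver h.not_dvd (rho0_surjective h) x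

/-- **`ρ₁ (w_p y) = W̄ (ρ₂ y)`** for `y ∈ O₂`. -/
theorem rho1_wA (y : ↥(O2 h)) :
    rho1 h ⟨wA h (y : ↥(Fbar (M' * p))), wA_mem_O1 h y.2⟩ = Wb h (rho2 h y) := by
  have h1 := rho2_wA h ⟨wA h (y : ↥(Fbar (M' * p))), wA_mem_O1 h y.2⟩
  have h2 : rho2 h ⟨wA h (wA h (y : ↥(Fbar (M' * p)))),
      wA_mem_O2 h (wA_mem_O1 h y.2)⟩ = rho2 h y := rho2_congr h (wA_wA h _) _ _
  rw [h2] at h1
  rw [h1, Wb_Wb']

end Fermat.Agent.M43.AtkinVal5
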