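import Mathlib
import Fermat.Agent.M43.AtkinVal5
import Fermat.Agent.T33.Psi3C

/-!
# M43 / P-MP (TORIC-strong): the Atkin-Lehner involution `w_p` on `J₀(M'p)(ℚ̄)`

`w = AtkinDef5.wHom M' p` (the partial Atkin-Lehner involution of `Fbar (M' * p)`).

* `wHom_gal_smul` : **`w_p` is rational**: it commutes with the coefficientwise Galois action
  `Psi3C.gal (M' * p) τ` on `Fbar (M' * p)`;
* `wS : SemilinearAut ℚ̄ (Fbar (M' p))` (`= SemilinearAut.ofAlgAut (atkin …)`), `wS_mul_wS`,
  `wS_mul_gal` (`wS * gal τ = gal τ * wS`);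
* `wJ : JZero (M' * p) →+ JZero (M' * p)` the induced endomorphism of `Pic⁰`, `wJ_wJ`,
  `wJ_smul : wJ (σ • x) = σ • wJ x` for ALL `σ ∈ G_ℚ`, `wJ_mk`.
-/

set_option autoImplicit false
set_option linter.unusedSectionVars false
set_option linter.style.haveILetI false
set_option synthInstance.maxHeartbeats 400000

noncomputable section

namespace Fermat.Agent.M43.AtkinJac5

open HahnSeries ModularCurve IntermediateField AlgebraicCurve
open Fermat.Agent.X0 Fermat.Agent.RED.Interface4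
  Fermat.Agent.T33.Psi3C Fermat.Agent.M43.AtkinDef5

variable {p M' : ℕ} [NeZero M'] [NeZero p] (hp : p.Prime) (hpM : ¬ p ∣ M')

/-- **`w_p` is rational**: it commutes with the coefficientwise Galois action. -/
theorem wHom_gal_smul (τ : Qbar ≃ₐ[ℚ] Qbar) (f : ↥(Fbar (M' * p))) :
    wHom M' p hp hpM (gal (M' * p) τ • f) = gal (M' * p) τ • wHom M' p hp hpM f := by
  have hR : ∀ u : Rsub (M' * p),
      wHom M' p hp hpM (gal (M' * p) τ • (u : ↥(Fbar (M' * p)))) =
        gal (M' * p) τ • wHom M' p hp hpM (u : ↥(Fbar (M' * p))) := by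
    intro u
    induction u using FracR.Rsub_induction with
    | hgen d hd =>
        show wHom M' p hp hpM (gal (M' * p) τ • jdF (M' * p) d hd) =
          gal (M' * p) τ • wHom M' p hp hpM (jdF (M' * p) d hd)
        rw [gal_smul_jdF]
        rcases dvd_cases hp hd with hD' | ⟨d', hdd', hd'⟩
        · rw [wHom_jdF_of_dvd hp hpM d hD']
          haveI : NeZero (d * p) := ⟨mul_ne_zero (NeZero.ne d) (NeZero.ne p)⟩
          rw [gal_smul_jdF]
        · subst hdd'
          haveI : NeZero d' := neZero_of_dvd hd'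
          rw [wHom_jdF_mul hp hpM d' hd', gal_smul_jdF]
    | hconst c =>
        show wHom M' p hp hpM (gal (M' * p) τ • algebraMap Qbar ↥(Fbar (M' * p)) c) =
          gal (M' * p) τ • wHom M' p hp hpM (algebraMap Qbar ↥(Fbar (M' * p)) c)
        rw [(wHom M' p hp hpM).commutes, SemilinearAut.smul_algebraMap,
          (wHom M' p hp hpM).commutes]
    | hadd u v hu hv =>
        show wHom M' p hp hpM (gal (M' * p) τ •
            ((u : ↥(Fbar (M' * p))) + (v : ↥(Fbar (M' * p))))) =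
          gal (M' * p) τ • wHom M' p hp hpM ((u : ↥(Fbar (M' * p))) + (v : ↥(Fbar (M' * p))))
        rw [smul_add, map_add, map_add, smul_add, hu, hv]
    | hmul u v hu hv =>
        show wHom M' p hp hpM (gal (M' * p) τ •
            ((u : ↥(Fbar (M' * p))) * (v : ↥(Fbar (M' * p))))) =
          gal (M' * p) τ • wHom M' p hp hpM ((u : ↥(Fbar (M' * p))) * (v : ↥(Fbar (M' * p))))
        rw [smul_mul', map_mul, map_mul, smul_mul', hu, hv]
  obtain ⟨r, s, rfl⟩ := FracR.exists_div (M' * p) f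
  have hdiv : ∀ x y : ↥(Fbar (M' * p)),
      gal (M' * p) τ • (x / y) = (gal (M' * p) τ • x) / (gal (M' * p) τ • y) := by
    intro x y
    rw [SemilinearAut.smul_def, SemilinearAut.smul_def, SemilinearAut.smul_def, map_div₀]
  rw [hdiv, map_div₀, map_div₀, hdiv, hR r, hR s]

/-- `w_p` as a semilinear automorphism of `Fbar (M' p)` (trivial on the constants). -/
def wS : SemilinearAut Qbar ↥(Fbar (M' * p)) :=
  SemilinearAut.ofAlgAut (atkin M' p hp hpM)

theorem wS_smul (f : ↥(Fbar (M' * p))) : wS hp hpM • f = wHom M' p hp hpM f := rfl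

theorem wS_inv_smul (f : ↥(Fbar (M' * p))) : (wS hp hpM)⁻¹ • f = wHom M' p hp hpM f := rfl

@[simp] theorem baseAut_wS : SemilinearAut.baseAut (wS hp hpM) = 1 := rfl

theorem wS_mul_wS : wS hp hpM * wS hp hpM = 1 := by
  refine Subtype.ext (Prod.ext (RingEquiv.ext fun x => ?_) rfl)
  exact wHom_wHom hp hpM x

theorem wS_inv : (wS hp hpM)⁻¹ = wS hp hpM :=
  inv_eq_of_mul_eq_one_left (wS_mul_wS hp hpM)

/-- **`w_p` commutes with `G_ℚ`** in the group of semilinear automorphisms. -/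
theorem wS_mul_gal (τ : Qbar ≃ₐ[ℚ] Qbar) :
    wS hp hpM * gal (M' * p) τ = gal (M' * p) τ * wS hp hpM := by
  refine Subtype.ext (Prod.ext (RingEquiv.ext fun x => ?_) ?_)
  · exact wHom_gal_smul hp hpM τ x
  · show (1 : Qbar ≃+* Qbar) * _ = _ * (1 : Qbar ≃+* Qbar)
    rw [one_mul, mul_one]

/-- **the Atkin-Lehner involution on `J₀(M'p)(ℚ̄)`.** -/
def wJ : JZero (M' * p) →+ JZero (M' * p) :=
  DistribSMul.toAddMonoidHom (JZero (M' * p)) (wS hp hpM)

theorem wJ_apply (x : JZero (M' * p)) : wJ hp hpM x = wS hp hpM • x := rfl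

theorem wJ_wJ (x : JZero (M' * p)) : wJ hp hpM (wJ hp hpM x) = x := by
  rw [wJ_apply, wJ_apply, ← mul_smul, wS_mul_wS, one_smul]

/-- **`w_p` commutes with the action of `G_ℚ` on `J₀(M'p)(ℚ̄)`.** -/
theorem wJ_smul (σ : Qbar ≃ₐ[ℚ] Qbar) (x : JZero (M' * p)) : wJ hp hpM (σ • x) = σ • wJ hp hpM x := by
  rw [wJ_apply, wJ_apply, galois_smul_pic0_def, galois_smul_pic0_def, ← mul_smul, ← mul_smul]
  exact congrArg (· • x) (wS_mul_gal hp hpM σ)

theorem wJ_mk (D : Divisor.degZero (K := Qbar) (F := ↥(Fbar (M' * p)))) :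
    wJ hp hpM (Pic0.mk D) = Pic0.mk (SemilinearAut.degZeroSMulHom (wS hp hpM) D) :=
  SemilinearAut.pic0_smul_mk (wS hp hpM) D

end Fermat.Agent.M43.AtkinJac5
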