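/-
M43, chapter (LG-q), brick (GST) part 1 — helper4: **totally ramified pairs of valuation rings**
(abstract, Mathlib + `NormRam20.term_le_val_sum`).

`K / K₀` a field extension, `R₀ ⊂ K₀`, `R ⊂ K` valuation subrings with `R₀ → R`, `ϖ₀` a uniformiser of
`R₀` (fraction-field form: every `c ≠ 0` of `K₀` is `ϖ₀ ^ m * unit`), `π ∈ 𝔪_R` and
`ϖ₀ = π ^ e * unit` (`RamPair`).

* `RamPair.coeff_mem`, `RamPair.coeff_eq_zero` : if `∑_{i<e} c_i π^i ∈ R` (`= 0`) with `c_i ∈ K₀` then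
  all `c_i ∈ R₀` (`= 0`) — distinct valuations modulo `e`;
* `exists_unit_rep_of_unif` : the fraction-field form of "discrete valuation ring with uniformiser `ϖ`"
  from the `unif / arch / pi_nonunit` fields of `NodalTwoChartModel`;
* `exists_digits` : Nakayama: `S` finite over the local ring `S₀`, residue classes lift, `π^e ∈ ϖ₀ S`
  ⇒ `S = ∑_{i<e} S₀ π^i`;
* `exists_residue_lift` : a finite group acting on `K`, preserving `R`, trivially on its residue
  field, with fixed field `K₀`, perfect residue field of `R₀` ⇒ every `x ∈ R` is congruent mod `𝔪_R`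
  to an element of `R₀`, and is a root of a monic polynomial over `R₀`.
-/
import Mathlib
import Fermat.Agent.ES.P36.NormRam20

set_option autoImplicit false
set_option linter.unusedSectionVars false

namespace Fermat.Agent.M43.BaseChRing4

open Polynomial

/-! ### Distinct valuations modulo `e` -/

section Val

variable {K₀ K : Type*} [Field K₀] [Field K] [Algebra K₀ K]

/-- `R / R₀` is "totally ramified of index `e`" in the weak sense needed here. -/
structure RamPair (R₀ : ValuationSubring K₀) (R : ValuationSubring K) (ϖ₀ : K₀) (π : K) (e : ℕ) :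
    Prop where
  e_pos : 0 < e
  incl : ∀ x ∈ R₀, algebraMap K₀ K x ∈ R
  varpi_mem : ϖ₀ ∈ R₀
  varpi_ne : ϖ₀ ≠ 0
  pi_ne : π ≠ 0
  pi_lt : R.valuation π < 1
  unif₀ : ∀ c : K₀, c ≠ 0 → ∃ (m : ℤ) (u : K₀), u ∈ R₀ ∧ u⁻¹ ∈ R₀ ∧ c = ϖ₀ ^ m * u
  ram : ∃ w : K, w ∈ R ∧ w⁻¹ ∈ R ∧ algebraMap K₀ K ϖ₀ = π ^ e * w

variable {R₀ : ValuationSubring K₀} {R : ValuationSubring K} {ϖ₀ : K₀} {π : K} {e : ℕ}

theorem val_eq_one_of_mem_of_inv_mem (R : ValuationSubring K) {w : K} (h0 : w ≠ 0) (h1 : w ∈ R)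
    (h2 : w⁻¹ ∈ R) : R.valuation w = 1 := by
  have a1 : R.valuation w ≤ 1 := (R.valuation_le_one_iff w).mpr h1
  have a2 : R.valuation w⁻¹ ≤ 1 := (R.valuation_le_one_iff _).mpr h2
  rw [map_inv₀] at a2
  have hpos : 0 < R.valuation w := by
    rw [Valuation.pos_iff]; exact h0
  have : 1 ≤ R.valuation w := by
    rwa [inv_le_one₀ hpos] at a2
  exact le_antisymm a1 this

namespace RamPair

variable (D : RamPair R₀ R ϖ₀ π e)
include D

theorem pi_pos : 0 < R.valuation π := by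
  rw [Valuation.pos_iff]; exact D.pi_ne

theorem val_varpi : R.valuation (algebraMap K₀ K ϖ₀) = R.valuation π ^ e := by
  obtain ⟨w, h1, h2, h3⟩ := D.ram
  have hw : w ≠ 0 := by
    rintro rfl
    rw [mul_zero] at h3
    exact D.varpi_ne ((map_eq_zero _).mp h3)
  rw [h3, map_mul, map_pow, val_eq_one_of_mem_of_inv_mem R hw h1 h2, mul_one]

/-- the valuation of a nonzero element of `K₀`. -/
theorem exists_val_eq {c : K₀} (hc : c ≠ 0) :
    ∃ m : ℤ, R.valuation (algebraMap K₀ K c) = R.valuation π ^ ((e : ℤ) * m) ∧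
      (0 ≤ m → c ∈ R₀) := by
  obtain ⟨m, u, hu, hu', rfl⟩ := D.unif₀ c hc
  refine ⟨m, ?_, fun hm => ?_⟩
  · have hu0 : u ≠ 0 := by
      rintro rfl
      exact hc (mul_zero _)
    have hu1 : R.valuation (algebraMap K₀ K u) = 1 := by
      refine val_eq_one_of_mem_of_inv_mem R ((_root_.map_ne_zero _).mpr hu0) (D.incl u hu) ?_
      rw [← map_inv₀]
      exact D.incl _ hu'
    rw [map_mul, map_zpow₀, map_mul, map_zpow₀, hu1, mul_one, D.val_varpi, zpow_mul, zpow_natCast]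
  · obtain ⟨k, rfl⟩ := Int.eq_ofNat_of_zero_le hm
    rw [zpow_natCast]
    exact mul_mem (pow_mem D.varpi_mem k) hu

theorem algebraMap_injective : Function.Injective (algebraMap K₀ K) :=
  (algebraMap K₀ K).injective

/-- **Distinct valuations**: every term of `∑_{i<e} c_i π^i` is bounded by the sum. -/
theorem term_le (c : ℕ → K₀) :
    ∀ i ∈ Finset.range e, R.valuation (algebraMap K₀ K (c i) * π ^ i) ≤
      R.valuation (∑ j ∈ Finset.range e, algebraMap K₀ K (c j) * π ^ j) := by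
  refine Fermat.Agent.ES.P36.NormRam20.term_le_val_sum R (Finset.range e)
    (fun j => algebraMap K₀ K (c j) * π ^ j) ?_
  intro i hi j hj hij hfi
  rw [Finset.mem_range] at hi hj
  have hci : c i ≠ 0 := by
    rintro h
    apply hfi
    show algebraMap K₀ K (c i) * π ^ i = 0
    rw [h, map_zero, zero_mul]
  obtain ⟨m, hm, -⟩ := D.exists_val_eq hci
  show R.valuation (algebraMap K₀ K (c i) * π ^ i) ≠ R.valuation (algebraMap K₀ K (c j) * π ^ j)
  by_cases hcj : c j = 0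
  · rw [hcj, map_zero, zero_mul, map_zero]
    rw [Valuation.ne_zero_iff]
    exact hfi
  obtain ⟨m', hm', -⟩ := D.exists_val_eq hcj
  rw [map_mul, map_mul, hm, hm', map_pow, map_pow, ← zpow_natCast, ← zpow_natCast,
    ← zpow_add₀ D.pi_pos.ne', ← zpow_add₀ D.pi_pos.ne']
  intro heq
  have hinj := zpow_right_injective₀ D.pi_pos D.pi_lt.ne heq
  have h1 : ((e : ℤ) * m + (i : ℤ)) % (e : ℤ) = ((e : ℤ) * m' + (j : ℤ)) % (e : ℤ) := by
    rw [hinj]
  rw [Int.add_comm, Int.add_mul_emod_self_left, Int.add_comm ((e : ℤ) * m'),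
    Int.add_mul_emod_self_left, Int.emod_eq_of_lt (by positivity) (by exact_mod_cast hi),
    Int.emod_eq_of_lt (by positivity) (by exact_mod_cast hj)] at h1
  exact hij (by exact_mod_cast h1)

/-- if `∑_{i<e} c_i π^i ∈ R` then all `c_i ∈ R₀`. -/
theorem coeff_mem (c : ℕ → K₀)
    (h : ∑ j ∈ Finset.range e, algebraMap K₀ K (c j) * π ^ j ∈ R) :
    ∀ i ∈ Finset.range e, c i ∈ R₀ := by
  intro i hi
  have h1 := D.term_le c i hi
  have h2 : R.valuation (∑ j ∈ Finset.range e, algebraMap K₀ K (c j) * π ^ j) ≤ 1 :=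
    (R.valuation_le_one_iff _).mpr h
  have h3 := h1.trans h2
  by_cases hci : c i = 0
  · rw [hci]; exact zero_mem _
  obtain ⟨m, hm, hmem⟩ := D.exists_val_eq hci
  apply hmem
  rw [map_mul, hm, map_pow, ← zpow_natCast, ← zpow_add₀ D.pi_pos.ne',
    zpow_le_one_iff_right_of_lt_one₀ D.pi_pos D.pi_lt] at h3
  rw [Finset.mem_range] at hi
  by_contra hneg
  rw [not_le] at hneg
  have h4 : (e : ℤ) * m ≤ -(e : ℤ) := by
    have : m ≤ -1 := by omega
    calc (e : ℤ) * m ≤ (e : ℤ) * (-1) := by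
          apply mul_le_mul_of_nonneg_left this (by positivity)
      _ = -(e : ℤ) := by ring
  have h5 : (i : ℤ) < (e : ℤ) := by exact_mod_cast hi
  omega

/-- if `∑_{i<e} c_i π^i = 0` then all `c_i = 0`. -/
theorem coeff_eq_zero (c : ℕ → K₀)
    (h : ∑ j ∈ Finset.range e, algebraMap K₀ K (c j) * π ^ j = 0) :
    ∀ i ∈ Finset.range e, c i = 0 := by
  intro i hi
  have h1 := D.term_le c i hi
  rw [h, map_zero] at h1
  have h2 : R.valuation (algebraMap K₀ K (c i) * π ^ i) = 0 := le_antisymm h1 zero_le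
  rw [Valuation.zero_iff] at h2
  rcases mul_eq_zero.mp h2 with h3 | h3
  · exact (map_eq_zero _).mp h3
  · exact absurd h3 (pow_ne_zero _ D.pi_ne)

end RamPair

end Val

/-! ### The fraction-field form of a discrete valuation ring -/

section UnitRep

variable {F : Type*} [Field F]

theorem exists_unit_rep_aux (O : ValuationSubring F) (ϖ : F) (hϖ0 : ϖ ≠ 0)
    (unif : ∀ x ∈ O, x⁻¹ ∉ O → ∃ c ∈ O, x = ϖ * c) :
    ∀ (k : ℕ) (y : F), y ∈ O → y ≠ 0 → ϖ ^ k * y⁻¹ ∈ O →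
      ∃ (j : ℕ) (u : F), u ∈ O ∧ u⁻¹ ∈ O ∧ y = ϖ ^ j * u := by
  intro k
  induction k with
  | zero =>
    intro y hy _ h
    rw [pow_zero, one_mul] at h
    exact ⟨0, y, hy, h, by rw [pow_zero, one_mul]⟩
  | succ k ih =>
    intro y hy hy0 h
    by_cases hinv : y⁻¹ ∈ O
    · exact ⟨0, y, hy, hinv, by rw [pow_zero, one_mul]⟩
    obtain ⟨c, hc, rfl⟩ := unif y hy hinv
    have hc0 : c ≠ 0 := fun h0 => hy0 (by rw [h0, mul_zero])
    have h' : ϖ ^ k * c⁻¹ ∈ O := by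
      have e1 : ϖ ^ k * c⁻¹ = ϖ ^ (k + 1) * (ϖ * c)⁻¹ := by
        rw [mul_inv, pow_succ]
        field_simp
      rw [e1]; exact h
    obtain ⟨j, u, hu, hu', rfl⟩ := ih c hc hc0 h'
    exact ⟨j + 1, u, hu, hu', by rw [pow_succ]; ring⟩

/-- from the `unif / arch` fields of a two-chart model: every nonzero element is `ϖ ^ m * unit`. -/
theorem exists_unit_rep_of_unif (O : ValuationSubring F) (ϖ : F) (hϖ0 : ϖ ≠ 0)
    (unif : ∀ x ∈ O, x⁻¹ ∉ O → ∃ c ∈ O, x = ϖ * c)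
    (arch : ∀ x : F, ∃ k : ℕ, ϖ ^ k * x ∈ O) (c : F) (hc : c ≠ 0) :
    ∃ (m : ℤ) (u : F), u ∈ O ∧ u⁻¹ ∈ O ∧ c = ϖ ^ m * u := by
  obtain ⟨k, hk⟩ := arch c
  have hy0 : ϖ ^ k * c ≠ 0 := mul_ne_zero (pow_ne_zero _ hϖ0) hc
  obtain ⟨k', hk'⟩ := arch (ϖ ^ k * c)⁻¹
  obtain ⟨j, u, hu, hu', h⟩ := exists_unit_rep_aux O ϖ hϖ0 unif k' _ hk hy0 hk'
  refine ⟨(j : ℤ) - (k : ℤ), u, hu, hu', ?_⟩
  rw [zpow_sub₀ hϖ0, zpow_natCast, zpow_natCast, div_mul_eq_mul_div, ← h,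
    mul_div_assoc, mul_comm, div_mul_cancel₀ _ (pow_ne_zero _ hϖ0)]

end UnitRep

/-! ### Nakayama: digits -/

section Digits

variable {S₀ S : Type*} [CommRing S₀] [CommRing S] [Algebra S₀ S] [IsLocalRing S₀]
  [Module.Finite S₀ S]

/-- `S` finite over the local ring `S₀`, `ϖ₀ ∈ 𝔪₀`, residue classes of `S` mod `π` lift to `S₀`,
`π ^ e ∈ ϖ₀ S`: then `S = ∑_{i<e} S₀ π^i`. -/
theorem exists_digits (π : S) (ϖ₀ : S₀) (e : ℕ)
    (hϖ : ϖ₀ ∈ IsLocalRing.maximalIdeal S₀)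
    (hres : ∀ x : S, ∃ (a : S₀) (y : S), x = algebraMap S₀ S a + π * y)
    (hram : ∃ w : S, π ^ e = algebraMap S₀ S ϖ₀ * w) (x : S) :
    ∃ c : ℕ → S₀, x = ∑ i ∈ Finset.range e, algebraMap S₀ S (c i) * π ^ i := by
  classical
  set N : Submodule S₀ S := Submodule.span S₀ (Set.range fun i : Fin e => π ^ (i : ℕ)) with hN
  have hstep : ∀ k, k ≤ e → ∀ x : S, ∃ s ∈ N, ∃ y : S, x = s + π ^ k * y := by
    intro k
    induction k with
    | zero => exact fun _ x => ⟨0, zero_mem _, x, by rw [pow_zero, one_mul, zero_add]⟩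
    | succ k ih =>
      intro hk x
      obtain ⟨s, hs, y, rfl⟩ := ih (Nat.le_of_succ_le hk) x
      obtain ⟨a, y', rfl⟩ := hres y
      refine ⟨s + a • π ^ k, add_mem hs (Submodule.smul_mem _ _ ?_), y', ?_⟩
      · exact Submodule.subset_span ⟨⟨k, hk⟩, rfl⟩
      · rw [Algebra.smul_def, pow_succ]; ring
  have htop : (⊤ : Submodule S₀ S) ≤ N := by
    refine Submodule.le_of_le_smul_of_le_jacobson_bot Module.Finite.fg_top
      (IsLocalRing.maximalIdeal_le_jacobson ⊥) ?_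
    intro x _
    obtain ⟨s, hs, y, rfl⟩ := hstep e le_rfl x
    obtain ⟨w, hw⟩ := hram
    refine Submodule.add_mem_sup hs ?_
    rw [hw, mul_assoc, ← Algebra.smul_def]
    exact Submodule.smul_mem_smul hϖ Submodule.mem_top
  have hx : x ∈ N := htop Submodule.mem_top
  rw [hN, Submodule.mem_span_range_iff_exists_fun] at hx
  obtain ⟨c, hc⟩ := hx
  refine ⟨fun i => if h : i < e then c ⟨i, h⟩ else 0, ?_⟩
  rw [Finset.sum_range, ← hc]
  refine Finset.sum_congr rfl fun i _ => ?_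
  show c i • π ^ (i : ℕ) = algebraMap S₀ S (if h : (i : ℕ) < e then c ⟨i, h⟩ else 0) * π ^ (i : ℕ)
  rw [dif_pos i.2, Algebra.smul_def]

end Digits

/-! ### The characteristic polynomial of a finite group action -/

section Charpoly

variable {K₀ K : Type*} [Field K₀] [Field K] [Algebra K₀ K]
variable {G : Type*} [Group G] [Fintype G] [MulSemiringAction G K]
variable (R₀ : ValuationSubring K₀) (R : ValuationSubring K)

/-- the characteristic polynomial `∏_g (X - g x)`. -/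
noncomputable def cpoly (G : Type*) [Group G] [Fintype G] [MulSemiringAction G K] (x : K) : K[X] :=
  ∏ g : G, (X - C (g • x))

theorem cpoly_monic (x : K) : (cpoly G x).Monic :=
  monic_prod_of_monic _ _ fun g _ => monic_X_sub_C (g • x)

theorem cpoly_eval (x : K) : (cpoly G x).eval x = 0 := by
  unfold cpoly
  rw [eval_prod]
  refine Finset.prod_eq_zero (Finset.mem_univ (1 : G)) ?_
  rw [one_smul, eval_sub, eval_X, eval_C, sub_self]

theorem cpoly_map_smul (x : K) (g : G) :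
    (cpoly G x).map (MulSemiringAction.toRingHom G K g) = cpoly G x := by
  unfold cpoly
  rw [Polynomial.map_prod]
  have h1 : ∀ h : G, ((X : K[X]) - C (h • x)).map (MulSemiringAction.toRingHom G K g) =
      X - C ((g * h) • x) := by
    intro h
    rw [Polynomial.map_sub, map_X, map_C, MulSemiringAction.toRingHom_apply, mul_smul]
  rw [Finset.prod_congr rfl fun h _ => h1 h]
  exact Function.Bijective.prod_comp (Group.mulLeft_bijective g) fun h => (X : K[X]) - C (h • x)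

theorem cpoly_coeff_smul (x : K) (g : G) (i : ℕ) : g • (cpoly G x).coeff i = (cpoly G x).coeff i := by
  have h := congrArg (fun p => p.coeff i) (cpoly_map_smul (G := G) x g)
  simpa only [coeff_map, MulSemiringAction.toRingHom_apply] using h

/-- `cpoly` over the valuation ring. -/
noncomputable def cpolyR (hR : ∀ g : G, ∀ x ∈ R, g • x ∈ R) (x : R) : (↥R)[X] :=
  ∏ g : G, (X - C (⟨g • (x : K), hR g x x.2⟩ : R))

theorem cpolyR_map (hR : ∀ g : G, ∀ x ∈ R, g • x ∈ R) (x : R) :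
    (cpolyR R hR x).map R.subtype = cpoly G (x : K) := by
  unfold cpolyR cpoly
  rw [Polynomial.map_prod]
  refine Finset.prod_congr rfl fun g _ => ?_
  rw [Polynomial.map_sub, map_X, map_C]
  rfl

theorem cpoly_coeff_mem (hR : ∀ g : G, ∀ x ∈ R, g • x ∈ R) (x : K) (hx : x ∈ R) (i : ℕ) :
    (cpoly G x).coeff i ∈ R := by
  have h := cpolyR_map R hR ⟨x, hx⟩
  rw [← h, coeff_map]
  exact ((cpolyR R hR ⟨x, hx⟩).coeff i).2

/-- **(F3)** the characteristic polynomial descends to `R₀`. -/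
theorem exists_monic_of_action
    (h0 : ∀ x : K₀, x ∈ R₀ ↔ algebraMap K₀ K x ∈ R)
    (hfix : ∀ x : K, (∀ g : G, g • x = x) → ∃ x₀ : K₀, algebraMap K₀ K x₀ = x)
    (hR : ∀ g : G, ∀ x ∈ R, g • x ∈ R) (x : K) (hx : x ∈ R) :
    ∃ P : K₀[X], P.Monic ∧ (∀ i, P.coeff i ∈ R₀) ∧ P.map (algebraMap K₀ K) = cpoly G x := by
  have hl : cpoly G x ∈ lifts (algebraMap K₀ K) := by
    rw [lifts_iff_coeff_lifts]
    intro i
    obtain ⟨a, ha⟩ := hfix _ fun g => cpoly_coeff_smul x g i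
    exact ⟨a, ha⟩
  obtain ⟨P, hP, -, hPm⟩ := lifts_and_natDegree_eq_and_monic hl (cpoly_monic x)
  refine ⟨P, hPm, fun i => ?_, hP⟩
  rw [h0, ← coeff_map, hP]
  exact cpoly_coeff_mem R hR x hx i

end Charpoly

/-! ### Equal residue fields -/

section Residue

variable {K₀ K : Type*} [Field K₀] [Field K] [Algebra K₀ K]
variable {G : Type*} [Group G] [Fintype G] [MulSemiringAction G K]
variable (R₀ : ValuationSubring K₀) (R : ValuationSubring K)

/-- the inclusion `R₀ → R`. -/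
def inclR (h0 : ∀ x : K₀, x ∈ R₀ ↔ algebraMap K₀ K x ∈ R) : ↥R₀ →+* ↥R where
  toFun x := ⟨algebraMap K₀ K x, (h0 x).mp x.2⟩
  map_one' := Subtype.ext (map_one _)
  map_mul' _ _ := Subtype.ext (map_mul _ _ _)
  map_zero' := Subtype.ext (map_zero _)
  map_add' _ _ := Subtype.ext (map_add _ _ _)

@[simp] theorem coe_inclR (h0 : ∀ x : K₀, x ∈ R₀ ↔ algebraMap K₀ K x ∈ R) (x : R₀) :
    ((inclR R₀ R h0 x : R) : K) = algebraMap K₀ K (x : K₀) := rfl

theorem inclR_injective (h0 : ∀ x : K₀, x ∈ R₀ ↔ algebraMap K₀ K x ∈ R) :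
    Function.Injective (inclR R₀ R h0) := by
  intro x y h
  apply Subtype.ext
  apply (algebraMap K₀ K).injective
  exact congrArg Subtype.val h

instance isLocalHom_inclR (h0 : ∀ x : K₀, x ∈ R₀ ↔ algebraMap K₀ K x ∈ R) :
    IsLocalHom (inclR R₀ R h0) := by
  constructor
  intro a ha
  obtain ⟨u, hu⟩ := ha
  have ha0 : (a : K₀) ≠ 0 := by
    intro h
    have : (u : R) = 0 := by
      rw [hu]; apply Subtype.ext; rw [coe_inclR, h, map_zero]; rfl
    exact u.ne_zero this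
  have hinv : (a : K₀)⁻¹ ∈ R₀ := by
    rw [h0, map_inv₀]
    have h1 : ((↑(u⁻¹) : R) : K) = (algebraMap K₀ K (a : K₀))⁻¹ := by
      have h2 : ((u : R) : K) * ((↑(u⁻¹) : R) : K) = 1 := by
        have h3 : (((u : R) * (↑(u⁻¹) : R) : R) : K) = ((1 : R) : K) :=
          congrArg Subtype.val (Units.mul_inv u)
        rwa [R.coe_mul, R.coe_one] at h3
      rw [hu, coe_inclR] at h2
      exact eq_inv_of_mul_eq_one_right h2
    rw [← h1]
    exact (↑(u⁻¹) : R).2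
  exact IsUnit.of_mul_eq_one ⟨(a : K₀)⁻¹, hinv⟩ (Subtype.ext (mul_inv_cancel₀ ha0))

/-- **(F4)** equal residue fields: every `x ∈ R` is congruent modulo `𝔪_R` to an element of `R₀`. -/
theorem exists_residue_lift [PerfectField (IsLocalRing.ResidueField ↥R₀)]
    (h0 : ∀ x : K₀, x ∈ R₀ ↔ algebraMap K₀ K x ∈ R)
    (hfix : ∀ x : K, (∀ g : G, g • x = x) → ∃ x₀ : K₀, algebraMap K₀ K x₀ = x)
    (hR : ∀ g : G, ∀ x ∈ R, g • x ∈ R)
    (hin : ∀ g : G, ∀ x ∈ R, R.valuation (g • x - x) < 1) (x : K) (hx : x ∈ R) :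
    ∃ a ∈ R₀, R.valuation (x - algebraMap K₀ K a) < 1 := by
  classical
  obtain ⟨P, hPm, hPc, hP⟩ := exists_monic_of_action R₀ R h0 hfix hR x hx
  -- lift to `R₀[X]`
  have hl : P ∈ lifts R₀.subtype := by
    rw [lifts_iff_coeff_lifts]
    intro i
    exact ⟨⟨P.coeff i, hPc i⟩, rfl⟩
  obtain ⟨P₀, hP₀, -, hP₀m⟩ := lifts_and_natDegree_eq_and_monic hl hPm
  set ι := inclR R₀ R h0 with hι
  let _ : Algebra (IsLocalRing.ResidueField ↥R₀) (IsLocalRing.ResidueField ↥R) :=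
    (IsLocalRing.ResidueField.map ι).toAlgebra
  set xR : R := ⟨x, hx⟩ with hxR
  set xb : IsLocalRing.ResidueField ↥R := IsLocalRing.residue ↥R xR with hxb
  set n := Fintype.card G with hn
  have hn0 : n ≠ 0 := Fintype.card_ne_zero
  -- `P₀.map ι = cpolyR`
  have e1 : P₀.map ι = cpolyR R hR xR := by
    apply Polynomial.map_injective R.subtype Subtype.val_injective
    rw [cpolyR_map, Polynomial.map_map]
    have : R.subtype.comp ι = (algebraMap K₀ K).comp R₀.subtype := rfl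
    rw [this, ← Polynomial.map_map, hP₀, hP]
  -- reduce
  set Q : (IsLocalRing.ResidueField ↥R₀)[X] := P₀.map (IsLocalRing.residue ↥R₀) with hQ
  have e2 : Q.map (algebraMap (IsLocalRing.ResidueField ↥R₀) (IsLocalRing.ResidueField ↥R)) =
      (X - C xb) ^ n := by
    have h1 : (algebraMap (IsLocalRing.ResidueField ↥R₀) (IsLocalRing.ResidueField ↥R)).comp
        (IsLocalRing.residue ↥R₀) = (IsLocalRing.residue ↥R).comp ι := by
      ext r
      exact IsLocalRing.ResidueField.map_residue ι r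
    rw [hQ, Polynomial.map_map, h1, ← Polynomial.map_map, e1]
    unfold cpolyR
    rw [Polynomial.map_prod]
    have h2 : ∀ g : G, ((X : (↥R)[X]) - C (⟨g • (xR : K), hR g xR xR.2⟩ : R)).map
        (IsLocalRing.residue ↥R) = X - C xb := by
      intro g
      rw [Polynomial.map_sub, map_X, map_C]
      congr 2
      rw [hxb, ← sub_eq_zero, ← map_sub, IsLocalRing.residue_eq_zero_iff,
        ValuationSubring.valuation_lt_one_iff]
      exact hin g x hx
    rw [Finset.prod_congr rfl fun g _ => h2 g, Finset.prod_const, Finset.card_univ]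
  have hroot : aeval xb Q = 0 := by
    rw [aeval_def, ← eval_map, e2, eval_pow, eval_sub, eval_X, eval_C, sub_self, zero_pow hn0]
  have hint : IsIntegral (IsLocalRing.ResidueField ↥R₀) xb := ⟨Q, hP₀m.map _, hroot⟩
  have hdvd := minpoly.dvd (IsLocalRing.ResidueField ↥R₀) xb hroot
  have hdvd' : (minpoly (IsLocalRing.ResidueField ↥R₀) xb).map
      (algebraMap (IsLocalRing.ResidueField ↥R₀) (IsLocalRing.ResidueField ↥R)) ∣
        (X - C xb) ^ n := by
    rw [← e2]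
    exact Polynomial.map_dvd _ hdvd
  have hsep : ((minpoly (IsLocalRing.ResidueField ↥R₀) xb).map
      (algebraMap (IsLocalRing.ResidueField ↥R₀) (IsLocalRing.ResidueField ↥R))).Separable :=
    (PerfectField.separable_of_irreducible (minpoly.irreducible hint)).map
  have hdvd1 := (hsep.squarefree.dvd_pow_iff_dvd hn0).mp hdvd'
  have hdeg : (minpoly (IsLocalRing.ResidueField ↥R₀) xb).natDegree = 1 := by
    have h1 := natDegree_le_of_dvd hdvd1 (X_sub_C_ne_zero xb)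
    rw [natDegree_map, natDegree_X_sub_C] at h1
    have h2 := minpoly.natDegree_pos hint
    omega
  obtain ⟨ab, hab⟩ := minpoly.natDegree_eq_one_iff.mp hdeg
  obtain ⟨a, rfl⟩ := IsLocalRing.residue_surjective ab
  refine ⟨(a : K₀), a.2, ?_⟩
  have h3 : IsLocalRing.residue ↥R (xR - ι a) = 0 := by
    rw [map_sub, sub_eq_zero, ← hxb, ← hab]
    exact (IsLocalRing.ResidueField.map_residue ι a).symm
  rw [IsLocalRing.residue_eq_zero_iff, ValuationSubring.valuation_lt_one_iff] at h3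
  exact h3

end Residue

/-! ### Assembly: `R = ⊕_{i<e} R₀ π^i`, `K = ⊕_{i<e} K₀ π^i` -/

section Main

variable {K₀ K : Type*} [Field K₀] [Field K] [Algebra K₀ K]
variable {R₀ : ValuationSubring K₀} {R : ValuationSubring K} {ϖ₀ : K₀} {π : K} {e : ℕ}

/-- **(F5)** `R` is a finite `R₀`-module. -/
theorem finite_of_integral [FiniteDimensional K₀ K] [Algebra.IsSeparable K₀ K]
    [IsNoetherianRing ↥R₀]
    (h0 : ∀ x : K₀, x ∈ R₀ ↔ algebraMap K₀ K x ∈ R)
    (hint : ∀ x ∈ R, ∃ P : K₀[X], P.Monic ∧ (∀ i, P.coeff i ∈ R₀) ∧ aeval x P = 0) :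
    @Module.Finite ↥R₀ ↥R _ _ (inclR R₀ R h0).toAlgebra.toModule := by
  let a1 : Algebra ↥R₀ ↥R := (inclR R₀ R h0).toAlgebra
  let a2 : Algebra ↥R₀ K := ((algebraMap K₀ K).comp R₀.subtype).toAlgebra
  have t1 : IsScalarTower ↥R₀ K₀ K := IsScalarTower.of_algebraMap_eq fun _ => rfl
  have t2 : IsScalarTower ↥R₀ ↥R K := IsScalarTower.of_algebraMap_eq fun _ => rfl
  have hic : IsIntegralClosure ↥R ↥R₀ K := by
    refine IsIntegralClosure.mk Subtype.val_injective ?_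
    intro x
    constructor
    · intro hx
      have hx' : IsIntegral ↥R x := hx.tower_top
      exact IsIntegrallyClosed.algebraMap_eq_of_integral hx'
    · rintro ⟨y, rfl⟩
      obtain ⟨P, hPm, hPc, hP⟩ := hint (y : K) y.2
      have hl : P ∈ lifts R₀.subtype := by
        rw [lifts_iff_coeff_lifts]
        intro i
        exact ⟨⟨P.coeff i, hPc i⟩, rfl⟩
      obtain ⟨P₀, hP₀, -, hP₀m⟩ := lifts_and_natDegree_eq_and_monic hl hPm
      refine ⟨P₀, hP₀m, ?_⟩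
      have : eval₂ (algebraMap ↥R₀ K) (y : K) P₀ = aeval (y : K) P := by
        rw [aeval_def, ← hP₀, eval₂_map]
        rfl
      show eval₂ (algebraMap ↥R₀ K) (y : K) P₀ = 0
      rw [this, hP]
  exact IsIntegralClosure.finite ↥R₀ K₀ K ↥R

/-- **(R1), ring form**: `R = ∑_{i<e} R₀ π^i`. -/
theorem digits_ring [FiniteDimensional K₀ K] [Algebra.IsSeparable K₀ K] [IsNoetherianRing ↥R₀]
    (D : RamPair R₀ R ϖ₀ π e)
    (h0 : ∀ x : K₀, x ∈ R₀ ↔ algebraMap K₀ K x ∈ R)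
    (hint : ∀ x ∈ R, ∃ P : K₀[X], P.Monic ∧ (∀ i, P.coeff i ∈ R₀) ∧ aeval x P = 0)
    (hres : ∀ x ∈ R, ∃ a ∈ R₀, R.valuation (x - algebraMap K₀ K a) < 1)
    (hϖ₀ : R₀.valuation ϖ₀ < 1)
    (hπmax : ∀ x ∈ R, R.valuation x < 1 → ∃ y ∈ R, x = π * y) (x : K) (hx : x ∈ R) :
    ∃ c : ℕ → K₀, (∀ i, c i ∈ R₀) ∧
      x = ∑ i ∈ Finset.range e, algebraMap K₀ K (c i) * π ^ i := by
  let a1 : Algebra ↥R₀ ↥R := (inclR R₀ R h0).toAlgebra
  have hfin : Module.Finite ↥R₀ ↥R := finite_of_integral h0 hint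
  have hπR : π ∈ R := (R.valuation_le_one_iff π).mp D.pi_lt.le
  have h1 : (⟨ϖ₀, D.varpi_mem⟩ : R₀) ∈ IsLocalRing.maximalIdeal ↥R₀ := by
    rw [ValuationSubring.valuation_lt_one_iff]; exact hϖ₀
  have h2 : ∀ x : R, ∃ (a : R₀) (y : R), x = algebraMap ↥R₀ ↥R a + (⟨π, hπR⟩ : R) * y := by
    intro x
    obtain ⟨a, ha, hlt⟩ := hres (x : K) x.2
    have hmem : (x : K) - algebraMap K₀ K a ∈ R := sub_mem x.2 ((h0 a).mp ha)
    obtain ⟨y, hy, hxy⟩ := hπmax _ hmem hlt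
    refine ⟨⟨a, ha⟩, ⟨y, hy⟩, Subtype.ext ?_⟩
    show (x : K) = algebraMap K₀ K a + π * y
    rw [← hxy]; ring
  have h3 : ∃ w : R, (⟨π, hπR⟩ : R) ^ e = algebraMap ↥R₀ ↥R ⟨ϖ₀, D.varpi_mem⟩ * w := by
    obtain ⟨w, hw, hw', hww⟩ := D.ram
    have hw0 : w ≠ 0 := by
      rintro rfl
      rw [mul_zero] at hww
      exact D.varpi_ne ((map_eq_zero _).mp hww)
    refine ⟨⟨w⁻¹, hw'⟩, Subtype.ext ?_⟩
    show π ^ e = algebraMap K₀ K ϖ₀ * w⁻¹
    rw [hww, mul_assoc, mul_inv_cancel₀ hw0, mul_one]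
  obtain ⟨c, hc⟩ := exists_digits (⟨π, hπR⟩ : R) (⟨ϖ₀, D.varpi_mem⟩ : R₀) e h1 h2 h3 ⟨x, hx⟩
  refine ⟨fun i => (c i : K₀), fun i => (c i).2, ?_⟩
  have h4 : x = ((∑ i ∈ Finset.range e, algebraMap ↥R₀ ↥R (c i) * (⟨π, hπR⟩ : R) ^ i : R) : K) :=
    congrArg Subtype.val hc
  rw [h4, ← R.subtype_apply, map_sum]
  refine Finset.sum_congr rfl fun i _ => ?_
  rw [map_mul, map_pow]
  rfl

/-- **(R1), field form**: `K = ∑_{i<e} K₀ π^i`. -/
theorem digits_field [FiniteDimensional K₀ K] [Algebra.IsSeparable K₀ K] [IsNoetherianRing ↥R₀]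
    (D : RamPair R₀ R ϖ₀ π e)
    (h0 : ∀ x : K₀, x ∈ R₀ ↔ algebraMap K₀ K x ∈ R)
    (hint : ∀ x ∈ R, ∃ P : K₀[X], P.Monic ∧ (∀ i, P.coeff i ∈ R₀) ∧ aeval x P = 0)
    (hres : ∀ x ∈ R, ∃ a ∈ R₀, R.valuation (x - algebraMap K₀ K a) < 1)
    (hϖ₀ : R₀.valuation ϖ₀ < 1)
    (hπmax : ∀ x ∈ R, R.valuation x < 1 → ∃ y ∈ R, x = π * y)
    (arch : ∀ x : K, ∃ m : ℕ, π ^ m * x ∈ R) (x : K) :
    ∃ c : ℕ → K₀, x = ∑ i ∈ Finset.range e, algebraMap K₀ K (c i) * π ^ i := by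
  obtain ⟨m, hm⟩ := arch x
  have hπR : π ∈ R := (R.valuation_le_one_iff π).mp D.pi_lt.le
  have hmem : algebraMap K₀ K (ϖ₀ ^ m) * x ∈ R := by
    obtain ⟨w, hw, -, hww⟩ := D.ram
    have h1 : π ^ (e * m) * x ∈ R := by
      have he : e * m = (e - 1) * m + m := by
        conv_lhs => rw [(Nat.sub_add_cancel D.e_pos).symm]
        ring
      rw [he, pow_add, mul_assoc]
      exact mul_mem (pow_mem hπR _) hm
    have h2 : algebraMap K₀ K (ϖ₀ ^ m) * x = w ^ m * (π ^ (e * m) * x) := by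
      rw [map_pow, hww, mul_pow, ← pow_mul]; ring
    rw [h2]
    exact mul_mem (pow_mem hw _) h1
  obtain ⟨c, -, hc⟩ := digits_ring D h0 hint hres hϖ₀ hπmax _ hmem
  refine ⟨fun i => (ϖ₀ ^ m)⁻¹ * c i, ?_⟩
  have hne : algebraMap K₀ K (ϖ₀ ^ m) ≠ 0 :=
    (_root_.map_ne_zero _).mpr (pow_ne_zero _ D.varpi_ne)
  apply mul_left_cancel₀ hne
  rw [hc, Finset.mul_sum]
  refine Finset.sum_congr rfl fun i _ => ?_
  rw [map_mul, map_inv₀, ← mul_assoc, ← mul_assoc, mul_inv_cancel₀ hne, one_mul]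

end Main

/-! ### `RamPair` from the fields of two two-chart models -/

section OfModels

variable {F₀ F : Type*} [Field F₀] [Field F] [Algebra F₀ F]

theorem val_lt_one_of_inv_not_mem (O : ValuationSubring F) {x : F} (hx0 : x ≠ 0)
    (hx : x⁻¹ ∉ O) : O.valuation x < 1 := by
  have h1 : ¬ O.valuation x⁻¹ ≤ 1 := fun h => hx ((O.valuation_le_one_iff _).mp h)
  rw [not_le, map_inv₀] at h1
  have hpos : 0 < O.valuation x := by
    rw [Valuation.pos_iff]; exact hx0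
  exact (one_lt_inv₀ hpos).mp h1

theorem ramPair_of_models (O₀ : ValuationSubring F₀) (O : ValuationSubring F) (ϖ₀ : F₀) (πF : F)
    (e : ℕ) (he : 0 < e)
    (hincl : ∀ x ∈ O₀, algebraMap F₀ F x ∈ O)
    (hϖ0 : ϖ₀ ≠ 0) (hϖmem : ϖ₀ ∈ O₀)
    (unif : ∀ x ∈ O₀, x⁻¹ ∉ O₀ → ∃ c ∈ O₀, x = ϖ₀ * c)
    (arch : ∀ x : F₀, ∃ k : ℕ, ϖ₀ ^ k * x ∈ O₀)
    (hπ0 : πF ≠ 0) (hπnon : πF⁻¹ ∉ O)
    (hram : ∃ w : F, w ∈ O ∧ w⁻¹ ∈ O ∧ algebraMap F₀ F ϖ₀ = πF ^ e * w) :
    RamPair O₀ O ϖ₀ πF e where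
  e_pos := he
  incl := hincl
  varpi_mem := hϖmem
  varpi_ne := hϖ0
  pi_ne := hπ0
  pi_lt := val_lt_one_of_inv_not_mem O hπ0 hπnon
  unif₀ := exists_unit_rep_of_unif O₀ ϖ₀ hϖ0 unif arch
  ram := hram

end OfModels

end Fermat.Agent.M43.BaseChRing4
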