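/-
M43, chapter (LG-q), brick (GST) part 2 — helper4: **the inertia field of a normal number field**.

`A` a valuation subring of `ℚ̄` over the prime `q`, `K ⊂ ℚ̄` normal and finite over `ℚ`,
`K₀ := InertField27.inertiaPart A K = K ∩ ℚ̄^{I_A}`, `R := AK A K`, `R₀ := AK A K₀`, `π` a uniformiser of
`R`.  Then `K / K₀` is totally ramified at `A`:

* `ramPair_inertiaPart` : `∃ e, RamPair R₀ R q π e` (`q = π^e · unit`, `q` a uniformiser of `R₀`);
* `digits_inertiaPart` : `K = ⊕_{i<e} K₀ π^i`, `R = ⊕_{i<e} R₀ π^i` (`InertData`);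
* `zetaK_mem_inertiaPart` : roots of unity of order prime to `q` in `K` lie in `K₀`.
-/
import Mathlib
import Fermat.Agent.ES.P36.InertField27
import Fermat.Agent.ES.P36.UnrFixed1
import Fermat.Agent.ES.P36.ZetaUnr26
import Fermat.Agent.ES.N34.GalBase21
import Fermat.Agent.M43.BaseChRing4

set_option autoImplicit false
set_option linter.unusedSectionVars false
set_option synthInstance.maxHeartbeats 400000

noncomputable section

namespace Fermat.Agent.M43.BaseChInert4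

open Fermat.Agent.RED.Interface4 Fermat.Agent.RED.PUR.GaussGen8
  Fermat.Agent.RED.DESC Fermat.Agent.ES.P36.InertField27 Fermat.Agent.ES.N34.GalBase21
  Fermat.Agent.M43.BaseChRing4

/-! ### Uniformisers: the fraction-field form -/

section Unif

variable {F : Type*} [Field F] {O : ValuationSubring F} {ϖ : ↥O}

theorem unif_of_isUnif (hϖ : IsUnif O ϖ) :
    ∀ x ∈ O, x⁻¹ ∉ O → ∃ c ∈ O, x = (ϖ : F) * c := by
  intro x hx hinv
  have hmem : (⟨x, hx⟩ : O) ∈ IsLocalRing.maximalIdeal ↥O := by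
    rw [IsLocalRing.mem_maximalIdeal, mem_nonunits_iff]
    intro hu
    obtain ⟨u, hu⟩ := hu
    apply hinv
    have h1 : ((u : O) : F) * ((↑(u⁻¹) : O) : F) = 1 := by
      have h3 : (((u : O) * (↑(u⁻¹) : O) : O) : F) = ((1 : O) : F) :=
        congrArg Subtype.val (Units.mul_inv u)
      rwa [O.coe_mul, O.coe_one] at h3
    rw [hu] at h1
    have h2 : x⁻¹ = ((↑(u⁻¹) : O) : F) := (eq_inv_of_mul_eq_one_right h1).symm ▸ rfl
    rw [h2]
    exact (↑(u⁻¹) : O).2
  rw [hϖ.max_eq, Ideal.mem_span_singleton] at hmem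
  obtain ⟨c, hc⟩ := hmem
  exact ⟨c, c.2, congrArg Subtype.val hc⟩

theorem arch_of_isUnif (hϖ : IsUnif O ϖ) : ∀ x : F, ∃ k : ℕ, (ϖ : F) ^ k * x ∈ O := by
  intro x
  by_cases hx : x ∈ O
  · exact ⟨0, by rwa [pow_zero, one_mul]⟩
  have hx0 : x ≠ 0 := fun h => hx (h ▸ zero_mem _)
  have hinv : x⁻¹ ∈ O := (O.mem_or_inv_mem x).resolve_left hx
  have hne : (⟨x⁻¹, hinv⟩ : O) ≠ 0 := fun h => inv_ne_zero hx0 (congrArg Subtype.val h)
  obtain ⟨n, hn⟩ := hϖ.sep ⟨x⁻¹, hinv⟩ hne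
  refine ⟨n + 1, ?_⟩
  have hϖ0 : (ϖ : F) ≠ 0 := fun h => hϖ.ne_zero (Subtype.ext h)
  rcases O.mem_or_inv_mem ((ϖ : F) ^ (n + 1) * x) with h | h
  · exact h
  · exfalso
    apply hn
    refine ⟨⟨_, h⟩, Subtype.ext ?_⟩
    show x⁻¹ = ((ϖ : F)) ^ (n + 1) * ((ϖ : F) ^ (n + 1) * x)⁻¹
    rw [mul_inv, ← mul_assoc, mul_inv_cancel₀ (pow_ne_zero _ hϖ0), one_mul]

/-- every nonzero element of the fraction field is `ϖ ^ m * unit`. -/
theorem unitRep_of_isUnif (hϖ : IsUnif O ϖ) (c : F) (hc : c ≠ 0) :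
    ∃ (m : ℤ) (u : F), u ∈ O ∧ u⁻¹ ∈ O ∧ c = (ϖ : F) ^ m * u :=
  exists_unit_rep_of_unif O (ϖ : F) (fun h => hϖ.ne_zero (Subtype.ext h)) (unif_of_isUnif hϖ)
    (arch_of_isUnif hϖ) c hc

theorem val_lt_one_of_isUnif (hϖ : IsUnif O ϖ) : O.valuation (ϖ : F) < 1 := by
  rw [← ValuationSubring.valuation_lt_one_iff, hϖ.max_eq]
  exact Ideal.mem_span_singleton_self ϖ

theorem exists_mul_of_val_lt_one (hϖ : IsUnif O ϖ) :
    ∀ x ∈ O, O.valuation x < 1 → ∃ y ∈ O, x = (ϖ : F) * y := by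
  intro x hx hlt
  have hmem : (⟨x, hx⟩ : O) ∈ IsLocalRing.maximalIdeal ↥O := by
    rw [ValuationSubring.valuation_lt_one_iff]; exact hlt
  rw [hϖ.max_eq, Ideal.mem_span_singleton] at hmem
  obtain ⟨c, hc⟩ := hmem
  exact ⟨c, c.2, congrArg Subtype.val hc⟩

end Unif

/-! ### The algebra structure of an inclusion of intermediate fields -/

/-- `K₀ → K` for `K₀ ≤ K`. -/
@[reducible] def inclAlg {K₀ K : IntermediateField ℚ Qbar} (h : K₀ ≤ K) : Algebra ↥K₀ ↥K :=
  (IntermediateField.inclusion h).toRingHom.toAlgebra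

theorem inclAlg_apply {K₀ K : IntermediateField ℚ Qbar} (h : K₀ ≤ K) (x : K₀) :
    (((inclAlg h).algebraMap x : K) : Qbar) = (x : Qbar) := rfl

/-! ### The image of inertia in `Gal(K/ℚ)` -/

section Inertia

variable (A : ValuationSubring Qbar) (K : IntermediateField ℚ Qbar) [Normal ℚ K]

/-- the image of the inertia group of `A` in `Gal(K/ℚ)`. -/
def G0 : Subgroup (K ≃ₐ[ℚ] K) := (A.inertiaSubgroupIn ℚ).map (resKHom K)

theorem mem_G0_of_mem {τ : Qbar ≃ₐ[ℚ] Qbar} (hτ : τ ∈ A.inertiaSubgroupIn ℚ) :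
    resK K τ ∈ G0 A K := ⟨τ, hτ, rfl⟩

variable [FiniteDimensional ℚ K]

instance : Fintype (G0 A K) := Fintype.ofFinite _

theorem G0_smul (g : G0 A K) (x : K) : g • x = (g : K ≃ₐ[ℚ] K) x := rfl

/-- `K₀ = K^{G₀}`. -/
theorem exists_of_fixed (x : K) (hx : ∀ g : G0 A K, g • x = x) :
    ∃ x₀ : inertiaPart A K, (x₀ : Qbar) = (x : Qbar) := by
  refine ⟨⟨(x : Qbar), mem_inertiaPart.mpr ⟨x.2, fun τ hτ => ?_⟩⟩, rfl⟩
  have h := hx ⟨resK K τ, mem_G0_of_mem A K hτ⟩
  rw [G0_smul] at h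
  have h2 := congrArg (fun y : K => (y : Qbar)) h
  simpa only [coe_resK] using h2

theorem G0_mem_AK (g : G0 A K) (x : K) (hx : x ∈ AK A K) : g • x ∈ AK A K := by
  obtain ⟨g, τ, hτ, rfl⟩ := g
  exact resK_mem_AK A K (mem_decomposition_of_mem_inertia A hτ) hx

theorem G0_val_lt (g : G0 A K) (x : K) (hx : x ∈ AK A K) :
    (AK A K).valuation (g • x - x) < 1 := by
  obtain ⟨g, τ, hτ, rfl⟩ := g
  have h := resK_sub_mem_maximalIdeal A K hτ ⟨x, hx⟩
  rw [ValuationSubring.valuation_lt_one_iff] at h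
  exact h

end Inertia

/-! ### The inertia field: total ramification -/

section Main

variable (A : ValuationSubring Qbar)

/-- **Total ramification data** for `K₀ ≤ K` at `A`: `q = π^e · unit`, `q` a uniformiser below,
and `K = ⊕_{i<e} K₀ π^i`. -/
structure InertData (K₀ K : IntermediateField ℚ Qbar) (h : K₀ ≤ K) (q : ℕ) (π : K) (e : ℕ) :
    Prop where
  pair : @RamPair ↥K₀ ↥K _ _ (inclAlg h) (AK A K₀) (AK A K) (q : K₀) π e
  digits : ∀ x : K, ∃ c : ℕ → K₀,
    x = ∑ i ∈ Finset.range e, IntermediateField.inclusion h (c i) * π ^ i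

variable (K : IntermediateField ℚ Qbar) [Normal ℚ K] [FiniteDimensional ℚ K] {q : ℕ}

theorem natCast_val_lt_one (hA : A.LiesOverPrime q) (L : IntermediateField ℚ Qbar) :
    (AK A L).valuation ((q : ℕ) : L) < 1 := by
  have h := NumberFieldDVR27.natCast_mem_maximalIdeal A L hA
  rw [ValuationSubring.valuation_lt_one_iff] at h
  exact h

/-- **(R1) for the inertia field of a normal number field.** -/
theorem inertData (hq : q.Prime) (hA : A.LiesOverPrime q) (π : AK A K)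
    (hπ : IsUnif (AK A K) π) :
    ∃ e, InertData A (inertiaPart A K) K (inertiaPart_le K) q (π : K) e := by
  classical
  have fd₀ : FiniteDimensional ℚ (inertiaPart A K) := finiteDimensional_of_le (inertiaPart_le K)
  let _ : Algebra ↥(inertiaPart A K) ↥K := inclAlg (inertiaPart_le K)
  have t : IsScalarTower ℚ ↥(inertiaPart A K) ↥K := IsScalarTower.of_algebraMap_eq fun x => by
    apply Subtype.ext
    rfl
  have fd : FiniteDimensional ↥(inertiaPart A K) ↥K := FiniteDimensional.right ℚ _ _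
  have dvr₀ := NumberFieldDVR27.isDiscreteValuationRing_AK A (inertiaPart A K) hq.ne_zero hA
  have fin₀ := NumberFieldDVR27.finite_residueField_AK A (inertiaPart A K) hq.ne_zero hA
  have hq0 : IsUnif (AK A (inertiaPart A K)) (q : AK A (inertiaPart A K)) :=
    Fermat.Agent.ES.P36.UnrFixed1.isUnif_natCast A hq hA (inertiaPart A K)
      (fun τ hτ x hx => (mem_inertiaPart.mp hx).2 τ hτ)
  have hqK0 : ((q : ℕ) : K) ≠ 0 := Nat.cast_ne_zero.mpr hq.ne_zero
  have hqK00 : ((q : ℕ) : inertiaPart A K) ≠ 0 := Nat.cast_ne_zero.mpr hq.ne_zero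
  have hπ0 : (π : K) ≠ 0 := fun h => hπ.ne_zero (Subtype.ext h)
  have hπlt := val_lt_one_of_isUnif hπ
  have hπpos : 0 < (AK A K).valuation (π : K) := by
    rw [Valuation.pos_iff]; exact hπ0
  -- `q = π^e · unit`
  obtain ⟨m, u, hu, hu', hqu⟩ := unitRep_of_isUnif hπ ((q : ℕ) : K) hqK0
  have hu0 : u ≠ 0 := by
    rintro rfl
    exact hqK0 (by rw [hqu, mul_zero])
  have hmpos : 0 < m := by
    have h1 := natCast_val_lt_one A hA K
    rw [hqu, map_mul, map_zpow₀, val_eq_one_of_mem_of_inv_mem _ hu0 hu hu', mul_one] at h1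
    by_contra hm
    rw [not_lt] at hm
    have := one_le_zpow_of_nonpos₀ hπpos hπlt.le hm
    exact absurd h1 (not_lt.mpr this)
  obtain ⟨e, rfl⟩ := Int.eq_ofNat_of_zero_le hmpos.le
  have he : 0 < e := by exact_mod_cast hmpos
  rw [zpow_natCast] at hqu
  have h0 : ∀ x : inertiaPart A K, x ∈ AK A (inertiaPart A K) ↔
      algebraMap ↥(inertiaPart A K) ↥K x ∈ AK A K := fun x => Iff.rfl
  have D : RamPair (AK A (inertiaPart A K)) (AK A K) ((q : ℕ) : inertiaPart A K) (π : K) e :=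
    { e_pos := he
      incl := fun x hx => (h0 x).mp hx
      varpi_mem := (q : AK A (inertiaPart A K)).2
      varpi_ne := hqK00
      pi_ne := hπ0
      pi_lt := hπlt
      unif₀ := fun c hc => unitRep_of_isUnif hq0 c hc
      ram := ⟨u, hu, hu', by rw [map_natCast]; exact hqu⟩ }
  refine ⟨e, D, ?_⟩
  have hfix : ∀ x : K, (∀ g : G0 A K, g • x = x) →
      ∃ x₀ : inertiaPart A K, algebraMap ↥(inertiaPart A K) ↥K x₀ = x := by
    intro x hx
    obtain ⟨x₀, hx₀⟩ := exists_of_fixed A K x hx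
    exact ⟨x₀, Subtype.ext hx₀⟩
  have hint : ∀ x ∈ AK A K, ∃ P : Polynomial ↥(inertiaPart A K), P.Monic ∧
      (∀ i, P.coeff i ∈ AK A (inertiaPart A K)) ∧ Polynomial.aeval x P = 0 := by
    intro x hx
    obtain ⟨P, hPm, hPc, hP⟩ := exists_monic_of_action (G := G0 A K) (AK A (inertiaPart A K))
      (AK A K) h0 hfix (G0_mem_AK A K) x hx
    refine ⟨P, hPm, hPc, ?_⟩
    rw [Polynomial.aeval_def, ← Polynomial.eval_map, hP, cpoly_eval]
  have hres := exists_residue_lift (G := G0 A K) (AK A (inertiaPart A K)) (AK A K) h0 hfix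
    (G0_mem_AK A K) (G0_val_lt A K)
  intro x
  exact digits_field D h0 hint hres (natCast_val_lt_one A hA _) (exists_mul_of_val_lt_one hπ)
    (arch_of_isUnif hπ) x

end Main

/-! ### Consequences of `InertData` -/

section Conseq

variable {A : ValuationSubring Qbar} {K₀ K : IntermediateField ℚ Qbar} {h : K₀ ≤ K} {q : ℕ}
  {π : K} {e : ℕ}

theorem InertData.e_pos (D : InertData A K₀ K h q π e) : 0 < e := by
  let _ : Algebra ↥K₀ ↥K := inclAlg h
  exact D.pair.e_pos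

theorem InertData.pi_mem (D : InertData A K₀ K h q π e) : π ∈ AK A K := by
  let _ : Algebra ↥K₀ ↥K := inclAlg h
  exact ((AK A K).valuation_le_one_iff π).mp D.pair.pi_lt.le

theorem InertData.pi_ne (D : InertData A K₀ K h q π e) : π ≠ 0 := by
  let _ : Algebra ↥K₀ ↥K := inclAlg h
  exact D.pair.pi_ne

/-- `q = π^e · unit` in `A ∩ K`. -/
theorem InertData.ram (D : InertData A K₀ K h q π e) :
    ∃ w : K, w ∈ AK A K ∧ w⁻¹ ∈ AK A K ∧ ((q : ℕ) : K) = π ^ e * w := by
  let _ : Algebra ↥K₀ ↥K := inclAlg h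
  obtain ⟨w, h1, h2, h3⟩ := D.pair.ram
  refine ⟨w, h1, h2, ?_⟩
  rw [← h3, map_natCast]

/-- **(R1), ring form**: the digits of an element of `A ∩ K` lie in `A ∩ K₀`. -/
theorem InertData.digits_mem (D : InertData A K₀ K h q π e) {x : K} (hx : x ∈ AK A K) :
    ∃ c : ℕ → K₀, (∀ i, c i ∈ AK A K₀) ∧
      x = ∑ i ∈ Finset.range e, IntermediateField.inclusion h (c i) * π ^ i := by
  classical
  let _ : Algebra ↥K₀ ↥K := inclAlg h
  obtain ⟨c, hc⟩ := D.digits x
  have hmem := D.pair.coeff_mem c (by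
    show ∑ j ∈ Finset.range e, IntermediateField.inclusion h (c j) * π ^ j ∈ AK A K
    rw [← hc]; exact hx)
  refine ⟨fun i => if i < e then c i else 0, fun i => ?_, ?_⟩
  · by_cases hi : i < e
    · simp only [hi, if_true]
      exact hmem i (Finset.mem_range.mpr hi)
    · simp only [hi, if_false]
      exact zero_mem _
  · rw [hc]
    refine Finset.sum_congr rfl fun i hi => ?_
    rw [Finset.mem_range] at hi
    simp only [hi, if_true]

open Polynomial in
/-- the monic polynomial of degree `e` over `A ∩ K₀` killing `π` (Eisenstein polynomial). -/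
theorem InertData.exists_monic_int (D : InertData A K₀ K h q π e) :
    ∃ P : Polynomial ↥(AK A K₀), P.Monic ∧ P.natDegree = e ∧
      P.eval₂ ((IntermediateField.inclusion h).toRingHom.comp (AK A K₀).subtype) π = 0 := by
  obtain ⟨c, hcm, hc⟩ := D.digits_mem (pow_mem D.pi_mem e)
  set S : Polynomial ↥(AK A K₀) := ∑ i : Fin e, C (⟨c i, hcm i⟩ : AK A K₀) * X ^ (i : ℕ) with hS
  have hdeg : S.degree < (e : WithBot ℕ) :=
    degree_sum_fin_lt fun i : Fin e => (⟨c i, hcm i⟩ : AK A K₀)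
  refine ⟨X ^ e - S, monic_X_pow_sub hdeg, ?_, ?_⟩
  · apply natDegree_eq_of_degree_eq_some
    rw [degree_sub_eq_left_of_degree_lt (by rwa [degree_X_pow]), degree_X_pow]
  · rw [eval₂_sub, eval₂_pow, eval₂_X, hc, hS, eval₂_finsetSum, Finset.sum_range, sub_eq_zero]
    refine Finset.sum_congr rfl fun i _ => ?_
    rw [eval₂_mul, eval₂_C, eval₂_pow, eval₂_X]
    rfl

end Conseq

/-! ### Roots of unity of order prime to `q` -/

theorem zetaK_mem_inertiaPart {A : ValuationSubring Qbar} {q : ℕ} (hq : q.Prime)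
    (hA : A.LiesOverPrime q) (M : ℕ) [NeZero M] (hqM : ¬ q ∣ M) {K : IntermediateField ℚ Qbar}
    (hζ : Fermat.Agent.X0.zetaK M ∈ K) : Fermat.Agent.X0.zetaK M ∈ inertiaPart A K := by
  refine mem_inertiaPart.mpr ⟨hζ, fun τ hτ => ?_⟩
  exact Fermat.Agent.ES.P36.ZetaUnr26.inertia_fixes_rootOfUnity hq hA hqM
    (Fermat.Agent.X0.isPrimitiveRoot_zetaK M).pow_eq_one hτ

end Fermat.Agent.M43.BaseChInert4
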