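/-
M43, chapter (LG-q), brick (GST) part 3 — helper4: **coefficient extension of the modular function
fields** `ι : FK N K₀ → FK N K` (`K₀ ≤ K ⊂ ℚ̄`) and **(G1)** `F_K = ⊕_{i<e} ι(F₀) π^i` when
`K = ⊕_{i<e} K₀ π^i`.

* `iotaK h N` : coefficientwise inclusion; `coe_iotaK`, `baseChangeHom_iotaK`, `iotaK_algebraMap`,
  `iotaK_xdL`, `frickeFK_iotaK` (ι commutes with the Fricke involution), `iotaK_alpha`;
* `exists_fdigits` / `fdigits_unique` : **(G1)**.
-/
import Mathlib
import Fermat.Agent.ES.N34.ModelDefs9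
import Fermat.Agent.M43.BaseChInert4

set_option autoImplicit false
set_option linter.unusedSectionVars false
set_option synthInstance.maxHeartbeats 400000

noncomputable section

open HahnSeries ModularCurve Module

namespace Fermat.Agent.M43.BaseChField4

open Fermat.Agent.RED.Interface4 Fermat.Agent.RED.PUR.GaussGen8
  Fermat.Agent.RED.DESC Fermat.Agent.RED.DESC.PlaceExtend27 Fermat.Agent.RED.DESC.CoeffDescent1
  Fermat.Agent.ES.N34.FrickeFK8 Fermat.Agent.ES.N34.ModelDefs9
  Fermat.Agent.M43.BaseChRing4 Fermat.Agent.M43.BaseChInert4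

variable {K₀ K : IntermediateField ℚ Qbar} (h : K₀ ≤ K) (N : ℕ)

/-- the inclusion `K₀ → K` as a ring homomorphism. -/
abbrev inclK : ↥K₀ →+* ↥K := (IntermediateField.inclusion h).toRingHom

theorem coe_inclK (x : K₀) : ((inclK h x : K) : Qbar) = (x : Qbar) := rfl

theorem algebraMap_comp_inclK : (algebraMap ↥K Qbar).comp (inclK h) = algebraMap ↥K₀ Qbar := rfl

/-- **Coefficient extension** `K₀ · F_N → K · F_N`. -/
def iotaK : FK N K₀ →+* FK N K :=
  RingHom.codRestrict ((coeffMap (inclK h)).comp (FK N K₀).val.toRingHom) (FK N K)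
    (fun f => coeffMap_mem_laurentBaseChange_of_algHom (inclK h) (modularFunctionFieldFull N) f.2)

@[simp] theorem coe_iotaK (f : FK N K₀) :
    ((iotaK h N f : FK N K) : LaurentSeries K) = coeffMap (inclK h) (f : LaurentSeries K₀) := rfl

theorem coeff_iotaK (f : FK N K₀) (n : ℤ) :
    ((iotaK h N f : FK N K) : LaurentSeries K).coeff n =
      inclK h ((f : LaurentSeries K₀).coeff n) := rfl

theorem iotaK_injective : Function.Injective (iotaK h N) := (iotaK h N).injective

theorem baseChangeHom_iotaK (f : FK N K₀) :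
    baseChangeHom N K (iotaK h N f) = baseChangeHom N K₀ f := by
  apply Subtype.ext
  rw [coe_baseChangeHom, coe_baseChangeHom, coe_iotaK, coeffMap_coeffMap]
  rfl

theorem iotaK_algebraMap (c : K₀) :
    iotaK h N (algebraMap ↥K₀ (FK N K₀) c) = algebraMap ↥K (FK N K) (inclK h c) := by
  apply Subtype.ext
  rw [coe_iotaK]
  exact coeffMap_algebraMap_of_ringHom (inclK h) c

/-- `ι` of a series with rational coefficients (given as `coeffMap` from any ring). -/
theorem iotaK_eq_of_coe {x : FK N K₀} {y : FK N K}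
    (hxy : coeffMap (inclK h) (x : LaurentSeries K₀) = (y : LaurentSeries K)) :
    iotaK h N x = y := Subtype.ext hxy

variable [NeZero N]

theorem iotaK_xdL (d : ℕ) [NeZero d] (hd : d ∣ N) :
    iotaK h N (xdL N K₀ d hd) = xdL N K d hd := by
  apply iotaK_eq_of_coe
  rw [coe_xdL, coe_xdL, Fermat.Agent.X0.CuspGood.coeffMap_qExpand, coeffMap_jqModC]

/-- `ι` commutes with the Fricke involution. -/
theorem frickeFK_iotaK (f : FK N K₀) :
    frickeFK N K (iotaK h N f) = iotaK h N (frickeFK N K₀ f) := by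
  apply baseChangeHom_injective N K
  rw [baseChangeHom_frickeFK, baseChangeHom_iotaK, baseChangeHom_iotaK, baseChangeHom_frickeFK]

/-! ### (G1): `F_K = ⊕_{i<e} ι(F₀) π^i` -/

section Digits

omit [NeZero N] in
/-- `K = ⊕_{i<e} K₀ π^i`. -/
structure Digits (h : K₀ ≤ K) (π : K) (e : ℕ) : Prop where
  e_pos : 0 < e
  dig : ∀ x : K, ∃ c : ℕ → K₀, x = ∑ i ∈ Finset.range e, inclK h (c i) * π ^ i
  indep : ∀ c : ℕ → K₀, ∑ i ∈ Finset.range e, inclK h (c i) * π ^ i = 0 →
    ∀ i ∈ Finset.range e, c i = 0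

variable {h} in
theorem _root_.Fermat.Agent.M43.BaseChInert4.InertData.toDigits {A : ValuationSubring Qbar}
    {q : ℕ} {π : K} {e : ℕ} (D : InertData A K₀ K h q π e) : Digits h π e := by
  let _ : Algebra ↥K₀ ↥K := inclAlg h
  exact ⟨D.pair.e_pos, D.digits, fun c hc => D.pair.coeff_eq_zero c hc⟩

variable {h} {π : K} {e : ℕ}

open Polynomial in
/-- the monic polynomial of degree `e` over `K₀` killing `π`. -/
theorem Digits.exists_monic (D : Digits h π e) :
    ∃ P : Polynomial ↥K₀, P.Monic ∧ P.natDegree = e ∧ P.eval₂ (inclK h) π = 0 := by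
  obtain ⟨c, hc⟩ := D.dig (π ^ e)
  set S : Polynomial ↥K₀ := ∑ i : Fin e, C (c i) * X ^ (i : ℕ) with hS
  have hdeg : S.degree < (e : WithBot ℕ) := degree_sum_fin_lt fun i : Fin e => c i
  refine ⟨X ^ e - S, monic_X_pow_sub hdeg, ?_, ?_⟩
  · apply natDegree_eq_of_degree_eq_some
    rw [degree_sub_eq_left_of_degree_lt (by rwa [degree_X_pow]), degree_X_pow]
  · rw [eval₂_sub, eval₂_pow, eval₂_X, hc, hS, eval₂_finsetSum, Finset.sum_range, sub_eq_zero]
    refine Finset.sum_congr rfl fun i _ => ?_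
    rw [eval₂_mul, eval₂_C, eval₂_pow, eval₂_X]

omit [NeZero N] in
theorem coeff_iotaK_mul_const (f : FK N K₀) (c : K) (n : ℤ) :
    (((iotaK h N f * algebraMap ↥K (FK N K) c : FK N K)) : LaurentSeries K).coeff n =
      inclK h ((f : LaurentSeries K₀).coeff n) * c := by
  show (coeffMap (inclK h) (f : LaurentSeries K₀) * algebraMap ↥K (LaurentSeries K) c).coeff n = _
  rw [algebraMap_eq_C, mul_comm, C_mul_coeff, coeffMap_coeff, mul_comm]

omit [NeZero N] in
/-- **(G1), uniqueness** (coefficientwise). -/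
theorem Digits.fdigits_unique (D : Digits h π e) (φ : ℕ → FK N K₀)
    (hφ : ∑ i ∈ Finset.range e, iotaK h N (φ i) * algebraMap ↥K (FK N K) (π ^ i) = 0) :
    ∀ i ∈ Finset.range e, φ i = 0 := by
  have key : ∀ n : ℤ, ∀ i ∈ Finset.range e, ((φ i : FK N K₀) : LaurentSeries K₀).coeff n = 0 := by
    intro n
    apply D.indep fun i => ((φ i : FK N K₀) : LaurentSeries K₀).coeff n
    have h1 : ((FK N K).val (∑ i ∈ Finset.range e,
        iotaK h N (φ i) * algebraMap ↥K (FK N K) (π ^ i))).coeff n = 0 := by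
      rw [hφ, map_zero]; rfl
    rw [map_sum, HahnSeries.coeff_sum] at h1
    rw [← h1]
    refine Finset.sum_congr rfl fun i _ => ?_
    exact (coeff_iotaK_mul_const (h := h) N (φ i) (π ^ i) n).symm
  intro i hi
  apply Subtype.ext
  show ((φ i : FK N K₀) : LaurentSeries K₀) = 0
  apply HahnSeries.ext
  funext n
  exact key n i hi

open Polynomial in
/-- **(G1), existence**: `F_K = ∑_{i<e} ι(F₀) π^i`. -/
theorem Digits.exists_fdigits (D : Digits h π e) (z : FK N K) :
    ∃ φ : ℕ → FK N K₀,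
      z = ∑ i ∈ Finset.range e, iotaK h N (φ i) * algebraMap ↥K (FK N K) (π ^ i) := by
  classical
  let _ : Algebra (FK N K₀) (FK N K) := (iotaK h N).toAlgebra
  set πF : FK N K := algebraMap ↥K (FK N K) π with hπF
  obtain ⟨P, hPm, hPdeg, hPπ⟩ := D.exists_monic
  set PF : Polynomial (FK N K₀) := P.map (algebraMap ↥K₀ (FK N K₀)) with hPFdef
  have hPFm : PF.Monic := hPm.map _
  have hPF : aeval πF PF = 0 := by
    rw [aeval_def, hPFdef, eval₂_map]
    have h1 : (algebraMap (FK N K₀) (FK N K)).comp (algebraMap ↥K₀ (FK N K₀)) =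
        (algebraMap ↥K (FK N K)).comp (inclK h) := by
      refine RingHom.ext fun c => ?_
      exact iotaK_algebraMap h N c
    rw [h1, ← hom_eval₂, hPπ, map_zero]
  have hint : IsIntegral (FK N K₀) πF := ⟨PF, hPFm, hPF⟩
  have hE : ∀ z : FK N K, z ∈ IntermediateField.adjoin (FK N K₀) {πF} := by
    intro z
    refine mem_subfield_of_gen N K (IntermediateField.adjoin (FK N K₀) {πF}).toSubfield ?_ ?_ z
    · intro d _ hd
      rw [← iotaK_xdL h N d hd]
      exact IntermediateField.algebraMap_mem _ (xdL N K₀ d hd)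
    · intro c
      obtain ⟨cc, hcc⟩ := D.dig c
      rw [hcc, map_sum]
      refine sum_mem fun i _ => ?_
      rw [map_mul, map_pow, ← iotaK_algebraMap]
      exact mul_mem (IntermediateField.algebraMap_mem _ (algebraMap ↥K₀ (FK N K₀) (cc i)))
        (pow_mem (IntermediateField.mem_adjoin_simple_self _ _) i)
  have hz : z ∈ Algebra.adjoin (FK N K₀) {πF} := by
    rw [← IntermediateField.adjoin_simple_toSubalgebra_of_isAlgebraic hint.isAlgebraic]
    exact hE z
  rw [Algebra.adjoin_singleton_eq_range_aeval] at hz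
  obtain ⟨p, rfl⟩ := hz
  have hdegPF : PF.natDegree = e := by rw [hPFdef, hPm.natDegree_map, hPdeg]
  have hne : PF ≠ 1 := by
    intro h1
    rw [h1, natDegree_one] at hdegPF
    exact D.e_pos.ne hdegPF
  have hlt : (p %ₘ PF).natDegree < e := by
    have := natDegree_modByMonic_lt p hPFm hne
    rwa [hdegPF] at this
  refine ⟨fun i => (p %ₘ PF).coeff i, ?_⟩
  have h2 : (aeval πF) p = (aeval πF) (p %ₘ PF) := (aeval_modByMonic_eq_self_of_root hPF).symm
  show (aeval πF) p = _
  rw [h2, aeval_eq_sum_range' hlt]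
  refine Finset.sum_congr rfl fun i _ => ?_
  rw [Algebra.smul_def, map_pow]
  rfl

end Digits

/-! ### The basis `1, π, …, π^(e-1)` of `F_K / ι(F₀)` -/

section Basis

variable {h} {N} {π : K} {e : ℕ}

/-- the `F₀`-algebra structure on `F_K` given by `ι`. -/
@[reducible] def iotaAlg (h : K₀ ≤ K) (N : ℕ) : Algebra (FK N K₀) (FK N K) := (iotaK h N).toAlgebra

theorem iotaAlg_smul (a : FK N K₀) (y : FK N K) :
    (iotaAlg h N).toSMul.smul a y = iotaK h N a * y := rfl

/-- the family `π^i`, `i < e`. -/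
def powFam (N : ℕ) (π : K) (e : ℕ) : Fin e → FK N K := fun i => algebraMap ↥K (FK N K) π ^ (i : ℕ)

theorem sum_fin_eq (φ : ℕ → FK N K₀) :
    ∑ i ∈ Finset.range e, iotaK h N (φ i) * algebraMap ↥K (FK N K) (π ^ i) =
      ∑ i : Fin e, iotaK h N (φ i) * powFam N π e i := by
  rw [Finset.sum_range]
  refine Finset.sum_congr rfl fun i _ => ?_
  rw [powFam, map_pow]

theorem Digits.linearIndependent (D : Digits h π e) :
    @LinearIndependent (Fin e) (FK N K₀) (FK N K) (powFam N π e) _ _ (iotaAlg h N).toModule := by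
  classical
  let _ : Algebra (FK N K₀) (FK N K) := iotaAlg h N
  rw [Fintype.linearIndependent_iff]
  intro g hg i
  have h1 := D.fdigits_unique (N := N) (fun j => if hj : j < e then g ⟨j, hj⟩ else 0) (by
    rw [sum_fin_eq, ← hg]
    refine Finset.sum_congr rfl fun j _ => ?_
    rw [dif_pos j.2]
    rfl) i (Finset.mem_range.mpr i.2)
  simpa [dif_pos i.2] using h1

theorem Digits.span_eq_top (D : Digits h π e) :
    ⊤ ≤ @Submodule.span (FK N K₀) (FK N K) _ _ (iotaAlg h N).toModule (Set.range (powFam N π e)) := by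
  let _ : Algebra (FK N K₀) (FK N K) := iotaAlg h N
  intro z _
  obtain ⟨φ, rfl⟩ := D.exists_fdigits (N := N) z
  rw [sum_fin_eq]
  refine Submodule.sum_mem _ fun i _ => ?_
  exact Submodule.smul_mem _ (φ i) (Submodule.subset_span ⟨i, rfl⟩)

/-- the basis `π^i`, `i < e`, of `F_K` over `ι(F₀)`. -/
def Digits.basis (D : Digits h π e) :
    @Basis (Fin e) (FK N K₀) (FK N K) _ _ (iotaAlg h N).toModule :=
  @Basis.mk (Fin e) (FK N K₀) (FK N K) _ _ (iotaAlg h N).toModule (powFam N π e)
    D.linearIndependent D.span_eq_top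

theorem Digits.basis_apply (D : Digits h π e) (i : Fin e) :
    letI := iotaAlg h N
    (D.basis (N := N)) i = powFam N π e i := by
  let _ : Algebra (FK N K₀) (FK N K) := iotaAlg h N
  unfold Digits.basis
  rw [Basis.mk_apply]

theorem Digits.repr_sum (D : Digits h π e) (φ : ℕ → FK N K₀) (i : Fin e) :
    letI := iotaAlg h N
    (D.basis (N := N)).repr
      (∑ j ∈ Finset.range e, iotaK h N (φ j) * algebraMap ↥K (FK N K) (π ^ j)) i = φ i := by
  let _ : Algebra (FK N K₀) (FK N K) := iotaAlg h N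
  have h1 : ∑ j ∈ Finset.range e, iotaK h N (φ j) * algebraMap ↥K (FK N K) (π ^ j) =
      ∑ j : Fin e, (φ j) • (D.basis (N := N)) j := by
    rw [sum_fin_eq]
    refine Finset.sum_congr rfl fun j _ => ?_
    rw [D.basis_apply]
    rfl
  rw [h1, Basis.repr_sum_self]

end Basis

end Fermat.Agent.M43.BaseChField4
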