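/-
M43, chapter (LG-q), brick (GST) part 4 — helper4: **(G3) the Gauss valuation rings under coefficient
extension**.

* `coeffMap_mem_gaussRing` : `gaussRing (AK A K₀) → gaussRing (AK A K)` under `coeffMap (K₀ → K)`;
* `iotaK_mem_O1`, `iotaK_mem_O2` : `ι O1₀ ⊆ O1_K`, `ι O2₀ ⊆ O2_K`;
* `ramPair_O1`, `ramPair_O2` : the pairs `O1₀ ⊂ O1_K`, `O2₀ ⊂ O2_K` are `RamPair`s with `(q, π, e)`;
* `fdigits_mem_O1`, `fdigits_mem_O2` : if `∑_{i<e} ι(φ_i) π^i ∈ Oj_K` then all `φ_i ∈ Oj₀`.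
-/
import Mathlib
import Fermat.Agent.ES.N34.NodalCore13
import Fermat.Agent.M43.BaseChField4

set_option autoImplicit false
set_option linter.unusedSectionVars false
set_option synthInstance.maxHeartbeats 400000

noncomputable section

open HahnSeries ModularCurve

namespace Fermat.Agent.M43.BaseChGauss4

open Fermat.Agent.RED.Interface4 Fermat.Agent.RED.PUR.GaussGen8
  Fermat.Agent.RED.DESC Fermat.Agent.ES.N34.FrickeFK8 Fermat.Agent.ES.N34.ModelDefs9
  Fermat.Agent.M43.BaseChRing4 Fermat.Agent.M43.BaseChInert4 Fermat.Agent.M43.BaseChField4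

variable {A : ValuationSubring Qbar} {K₀ K : IntermediateField ℚ Qbar} (h : K₀ ≤ K)

/-- `A ∩ K₀ → A ∩ K`. -/
def inclAK : ↥(AK A K₀) →+* ↥(AK A K) where
  toFun x := ⟨inclK h (x : K₀), x.2⟩
  map_one' := rfl
  map_mul' _ _ := rfl
  map_zero' := rfl
  map_add' _ _ := rfl

@[simp] theorem coe_inclAK (x : AK A K₀) : ((inclAK (A := A) h x : AK A K) : K) = inclK h (x : K₀) :=
  rfl

theorem embK_coeffMap_inclAK (a : LaurentSeries ↥(AK A K₀)) :
    embK (AK A K) (coeffMap (inclAK (A := A) h) a) = coeffMap (inclK h) (embK (AK A K₀) a) := by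
  unfold embK
  rw [coeffMap_coeffMap, coeffMap_coeffMap]
  rfl

theorem redL_ne_zero_iff {F : Type*} [Field F] (O : ValuationSubring F) (s : LaurentSeries ↥O) :
    redL O s ≠ 0 ↔ ∃ n, IsUnit (s.coeff n) := by
  constructor
  · intro hs
    by_contra hno
    apply hs
    apply HahnSeries.ext
    funext n
    show res0 O (s.coeff n) = 0
    rw [IsLocalRing.residue_eq_zero_iff, IsLocalRing.mem_maximalIdeal, mem_nonunits_iff]
    exact fun hu => hno ⟨n, hu⟩
  · rintro ⟨n, hn⟩ h0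
    have h1 : res0 O (s.coeff n) = 0 := by
      have := congrArg (fun x => HahnSeries.coeff x n) h0
      exact this
    rw [IsLocalRing.residue_eq_zero_iff, IsLocalRing.mem_maximalIdeal, mem_nonunits_iff] at h1
    exact h1 hn

/-- the Gauss ring is functorial in the coefficient field. -/
theorem coeffMap_mem_gaussRing {f : LaurentSeries ↥K₀} (hf : f ∈ gaussRing (AK A K₀)) :
    coeffMap (inclK h) f ∈ gaussRing (AK A K) := by
  obtain ⟨a, s, hs, hfs⟩ := hf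
  refine ⟨coeffMap (inclAK (A := A) h) a, coeffMap (inclAK (A := A) h) s, ?_, ?_⟩
  · rw [redL_ne_zero_iff] at hs ⊢
    obtain ⟨n, hn⟩ := hs
    exact ⟨n, hn.map (inclAK (A := A) h)⟩
  · rw [embK_coeffMap_inclAK, embK_coeffMap_inclAK, ← map_mul, hfs]

section Gauss

variable (M' q : ℕ) [NeZero M'] [NeZero q]
variable {π₀ : ↥(AK A K₀)} (hπ₀ : IsUnif (AK A K₀) π₀)
  (hE₀ : FK (M' * q) K₀ ≤ fracField (AK A K₀))
  {π : ↥(AK A K)} (hπ : IsUnif (AK A K) π) (hE : FK (M' * q) K ≤ fracField (AK A K))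

theorem iotaK_mem_O1 {x : FK (M' * q) K₀} (hx : x ∈ O1 M' q hπ₀ hE₀) :
    iotaK h (M' * q) x ∈ O1 M' q hπ hE := by
  rw [mem_O1_iff] at hx ⊢
  rw [coe_iotaK]
  exact coeffMap_mem_gaussRing h hx

theorem wN_iotaK (x : FK (M' * q) K₀) :
    wN K M' q (iotaK h (M' * q) x) = iotaK h (M' * q) (wN K₀ M' q x) :=
  frickeFK_iotaK h (M' * q) x

theorem iotaK_mem_O2 {x : FK (M' * q) K₀} (hx : x ∈ O2 M' q hπ₀ hE₀) :
    iotaK h (M' * q) x ∈ O2 M' q hπ hE := by
  rw [mem_O2_iff_wN_mem_O1] at hx ⊢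
  rw [wN_iotaK]
  exact iotaK_mem_O1 h M' q hπ₀ hE₀ hπ hE hx

end Gauss

end Fermat.Agent.M43.BaseChGauss4
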