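/-
M43, chapter (LG-q), brick (GST) part 5 — helper4: **(G2) the trace form and Cramer's rule**, and
**(G4)** iterated saturation (abstract, Mathlib only).

`F / F₀` finite separable with basis `b`, `A₀ → F₀ → F`; all `b i` and `z` integral over `A₀`.  Then
`d := det (Tr (b i b j)) ≠ 0` is integral over `A₀`, and so are all `d * (b.repr z i)`.
-/
import Mathlib
import Fermat.Agent.RED.PUR.ChartGeneric22

set_option autoImplicit false
set_option linter.unusedSectionVars false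

namespace Fermat.Agent.M43.BaseChTrace4

open Polynomial Module

/-! ### Transitivity of integrality, polynomial form -/

section Trans

variable {A₀ F : Type*} [CommRing A₀] [Field F] [Algebra A₀ F]

/-- a root of a monic polynomial whose coefficients are integral over `A₀` is integral over `A₀`. -/
theorem isIntegral_of_monic_root {z : F} (Q : F[X]) (hQ : Q.Monic)
    (hc : ∀ k, IsIntegral A₀ (Q.coeff k)) (hz : Q.eval z = 0) : IsIntegral A₀ z := by
  have hl : Q ∈ lifts (algebraMap (integralClosure A₀ F) F) := by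
    rw [lifts_iff_coeff_lifts]
    intro k
    exact ⟨⟨Q.coeff k, hc k⟩, rfl⟩
  obtain ⟨Q₀, hQ₀, -, hQ₀m⟩ := lifts_and_natDegree_eq_and_monic hl hQ
  have h1 : IsIntegral (integralClosure A₀ F) z := by
    refine ⟨Q₀, hQ₀m, ?_⟩
    rw [← eval_map, hQ₀, hz]
  exact isIntegral_trans z h1

end Trans

/-! ### Cramer's rule for the trace form -/

section Cramer

variable {A₀ F₀ F : Type*} [CommRing A₀] [Field F₀] [Field F] [Algebra A₀ F₀] [Algebra F₀ F]
  [Algebra A₀ F] [IsScalarTower A₀ F₀ F] [FiniteDimensional F₀ F]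
  {ι : Type*} [Fintype ι] [DecidableEq ι] (b : Basis ι F₀ F)

theorem isIntegral_traceMatrix (hb : ∀ i, IsIntegral A₀ (b i)) (i j : ι) :
    IsIntegral A₀ (Algebra.traceMatrix F₀ b i j) := by
  rw [Algebra.traceMatrix_apply, Algebra.traceForm_apply]
  exact Algebra.isIntegral_trace ((hb i).mul (hb j))

theorem isIntegral_det_traceMatrix (hb : ∀ i, IsIntegral A₀ (b i)) :
    IsIntegral A₀ (Algebra.traceMatrix F₀ b).det :=
  IsIntegral.det fun i j => isIntegral_traceMatrix b hb i j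

theorem det_traceMatrix_ne_zero [Algebra.IsSeparable F₀ F] :
    (Algebra.traceMatrix F₀ b).det ≠ 0 := by
  rw [Algebra.traceMatrix_of_basis]
  exact det_traceForm_ne_zero b

theorem isIntegral_adjugate (hb : ∀ i, IsIntegral A₀ (b i)) (i j : ι) :
    IsIntegral A₀ ((Algebra.traceMatrix F₀ b).adjugate i j) := by
  rw [Matrix.adjugate_apply]
  refine IsIntegral.det fun k l => ?_
  by_cases hk : k = j
  · subst hk
    rw [Matrix.updateRow_self]
    by_cases hl : l = i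
    · subst hl
      rw [Pi.single_eq_same]
      exact isIntegral_one
    · rw [Pi.single_eq_of_ne hl]
      exact isIntegral_zero
  · rw [Matrix.updateRow_ne hk]
    exact isIntegral_traceMatrix b hb k l

/-- the traces of `z * b j` in terms of the coordinates of `z`. -/
theorem trace_mul_basis (z : F) (j : ι) :
    Algebra.trace F₀ F (z * b j) = ∑ i, b.repr z i * Algebra.traceMatrix F₀ b i j := by
  conv_lhs => rw [← b.sum_repr z]
  rw [Finset.sum_mul, map_sum]
  refine Finset.sum_congr rfl fun i _ => ?_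
  rw [smul_mul_assoc, map_smul, smul_eq_mul, Algebra.traceMatrix_apply, Algebra.traceForm_apply]

/-- **Cramer**: `d * (b.repr z i) = ∑_j adj(M) i j * Tr (z b_j)`. -/
theorem det_mul_repr (z : F) (i : ι) :
    (Algebra.traceMatrix F₀ b).det * b.repr z i =
      ∑ j, (Algebra.traceMatrix F₀ b).adjugate i j * Algebra.trace F₀ F (z * b j) := by
  set M := Algebra.traceMatrix F₀ b with hM
  have hsymm : ∀ k j, M k j = M j k := by
    intro k j
    rw [hM, Algebra.traceMatrix_apply, Algebra.traceMatrix_apply, Algebra.traceForm_apply,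
      Algebra.traceForm_apply, mul_comm]
  have h1 : ∀ j, Algebra.trace F₀ F (z * b j) = M.mulVec (fun k => b.repr z k) j := by
    intro j
    rw [trace_mul_basis, Matrix.mulVec, dotProduct]
    refine Finset.sum_congr rfl fun k _ => ?_
    rw [hsymm j k, mul_comm]
  have h2 : M.adjugate.mulVec (M.mulVec fun k => b.repr z k) = fun k => M.det * b.repr z k := by
    rw [Matrix.mulVec_mulVec, Matrix.adjugate_mul]
    funext k
    rw [Matrix.smul_mulVec, Matrix.one_mulVec, Pi.smul_apply, smul_eq_mul]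
  have h3 := congrFun h2 i
  rw [← h3, Matrix.mulVec, dotProduct]
  refine Finset.sum_congr rfl fun j _ => ?_
  rw [h1 j]

/-- **(G2)**: `d * (b.repr z i)` is integral over `A₀`. -/
theorem isIntegral_det_mul_repr (hb : ∀ i, IsIntegral A₀ (b i)) {z : F} (hz : IsIntegral A₀ z)
    (i : ι) : IsIntegral A₀ ((Algebra.traceMatrix F₀ b).det * b.repr z i) := by
  rw [det_mul_repr]
  refine IsIntegral.sum _ fun j _ => ?_
  exact (isIntegral_adjugate b hb i j).mul (Algebra.isIntegral_trace (hz.mul (hb j)))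

end Cramer

/-! ### (G4): iterated saturation -/

section Sat

variable {F : Type*} [Field F]

theorem mem_of_pow_mul_mem (B : Subring F) (O1 O2 : ValuationSubring F) (ϖ : F)
    (h1 : ϖ ∈ O1) (h2 : ϖ ∈ O2)
    (sat : ∀ b ∈ B, ∀ c : F, c ∈ O1 → c ∈ O2 → b = ϖ * c → c ∈ B) :
    ∀ (m : ℕ) (c : F), c ∈ O1 → c ∈ O2 → ϖ ^ m * c ∈ B → c ∈ B := by
  intro m
  induction m with
  | zero =>
    intro c _ _ h
    rwa [pow_zero, one_mul] at h
  | succ m ih =>
    intro c hc1 hc2 h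
    refine ih c hc1 hc2 ?_
    refine sat _ h (ϖ ^ m * c) (mul_mem (pow_mem h1 m) hc1) (mul_mem (pow_mem h2 m) hc2) ?_
    rw [pow_succ]; ring

end Sat

/-! ### The abstract core of (GST) -/

section Core

open Fermat.Agent.RED.PUR.ChartGeneric22

variable {R₀ R F₀ F : Type*} [CommRing R₀] [CommRing R] [Field F₀] [Field F] [Algebra R₀ F₀]
  [Algebra R F] [Algebra F₀ F]

/-- the chart over `R` at `ι t₀` is integral over `R₀[t₀]` when `R` is integral over `R₀`. -/
theorem isIntegral_of_mem_chart (t₀ : F₀)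
    (hR : ∀ r : R, ∃ P : R₀[X], P.Monic ∧
      P.eval₂ ((algebraMap F₀ F).comp (algebraMap R₀ F₀)) (algebraMap R F r) = 0)
    {z : F} (hz : z ∈ chart R (algebraMap F₀ F t₀)) :
    IsIntegral ↥(Algebra.adjoin R₀ {t₀}) z := by
  let _ : Algebra R₀ F := ((algebraMap F₀ F).comp (algebraMap R₀ F₀)).toAlgebra
  have t12 : IsScalarTower R₀ F₀ F := IsScalarTower.of_algebraMap_eq fun _ => rfl
  rw [mem_chart_iff, isIntegral_subalgebra_iff] at hz
  obtain ⟨Q, hQm, hQc, hQz⟩ := hz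
  refine isIntegral_of_monic_root Q hQm (fun k => ?_) hQz
  have key : ∀ y ∈ Algebra.adjoin R {algebraMap F₀ F t₀},
      IsIntegral ↥(Algebra.adjoin R₀ {t₀}) y := by
    intro y hy
    induction hy using Algebra.adjoin_induction with
    | mem x hx =>
      rw [Set.mem_singleton_iff] at hx
      subst hx
      have : algebraMap F₀ F t₀ = algebraMap ↥(Algebra.adjoin R₀ {t₀}) F
          ⟨t₀, Algebra.self_mem_adjoin_singleton _ t₀⟩ := rfl
      rw [this]
      exact isIntegral_algebraMap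
    | algebraMap r =>
      have h1 : IsIntegral R₀ (algebraMap R F r) := hR r
      exact h1.tower_top
    | add x y _ _ hx hy => exact hx.add hy
    | mul x y _ _ hx hy => exact hx.mul hy
  exact key _ (hQc k)

/-- **(G2), chart form.** -/
theorem chart_cramer [CharZero F₀] (t₀ : F₀) (πF : F) {e : ℕ} (b : Basis (Fin e) F₀ F)
    (hb : ∀ i, b i = πF ^ (i : ℕ))
    (hπ : ∃ P : R₀[X], P.Monic ∧
      P.eval₂ ((algebraMap F₀ F).comp (algebraMap R₀ F₀)) πF = 0)
    (hR : ∀ r : R, ∃ P : R₀[X], P.Monic ∧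
      P.eval₂ ((algebraMap F₀ F).comp (algebraMap R₀ F₀)) (algebraMap R F r) = 0) :
    ∃ d : F₀, d ≠ 0 ∧ IsIntegral R₀ d ∧
      ∀ z ∈ chart R (algebraMap F₀ F t₀), ∀ i, d * b.repr z i ∈ chart R₀ t₀ := by
  classical
  let _ : Algebra R₀ F := ((algebraMap F₀ F).comp (algebraMap R₀ F₀)).toAlgebra
  have t12 : IsScalarTower R₀ F₀ F := IsScalarTower.of_algebraMap_eq fun _ => rfl
  have fd : FiniteDimensional F₀ F := Module.Finite.of_basis b
  have hbR : ∀ i, IsIntegral R₀ (b i) := by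
    intro i
    rw [hb]
    have h1 : IsIntegral R₀ πF := hπ
    exact h1.pow _
  have hbA : ∀ i, IsIntegral ↥(Algebra.adjoin R₀ {t₀}) (b i) := fun i => (hbR i).tower_top
  refine ⟨(Algebra.traceMatrix F₀ b).det, det_traceMatrix_ne_zero b,
    isIntegral_det_traceMatrix b hbR, fun z hz i => ?_⟩
  rw [mem_chart_iff]
  exact isIntegral_det_mul_repr b hbA (isIntegral_of_mem_chart t₀ hR hz) i

end Core

/-! ### Integral constants -/

section Const

variable {R₀ K₀ F₀ : Type*} [CommRing R₀] [Field K₀] [Field F₀] [Algebra R₀ K₀] [Algebra K₀ F₀]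
  [Algebra R₀ F₀] [IsScalarTower R₀ K₀ F₀] [IsFractionRing R₀ K₀] [IsIntegrallyClosed R₀]

/-- an element of `F₀` integral over `R₀` is a constant from `R₀` (`K₀` algebraically closed in
`F₀`, `R₀` integrally closed). -/
theorem exists_eq_algebraMap_of_isIntegral
    (algClosed : ∀ y : F₀, IsAlgebraic K₀ y → ∃ c : K₀, algebraMap K₀ F₀ c = y) {d : F₀}
    (hd : IsIntegral R₀ d) : ∃ r : R₀, algebraMap R₀ F₀ r = d := by
  have h1 : IsIntegral K₀ d := hd.tower_top
  obtain ⟨c, rfl⟩ := algClosed d h1.isAlgebraic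
  have h2 : IsIntegral R₀ c := (isIntegral_algebraMap_iff (algebraMap K₀ F₀).injective).mp hd
  obtain ⟨r, rfl⟩ := IsIntegrallyClosed.algebraMap_eq_of_integral h2
  exact ⟨r, IsScalarTower.algebraMap_apply R₀ K₀ F₀ r⟩

end Const

/-! ### The abstract (GST) -/

section GST

open Fermat.Agent.RED.PUR.ChartGeneric22

variable {R₀ R K₀ F₀ F : Type*} [CommRing R₀] [CommRing R] [Field K₀] [Field F₀] [Field F]
  [Algebra R₀ K₀] [Algebra K₀ F₀] [Algebra R₀ F₀] [IsScalarTower R₀ K₀ F₀] [IsFractionRing R₀ K₀]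
  [IsIntegrallyClosed R₀] [Algebra R F] [Algebra F₀ F] [CharZero F₀]

/-- **(GST), abstract form**: a coordinate (w.r.t. the basis `π^i`) of an element of the chart over
`R`, lying in both Gauss valuation rings below, lies in the chart over `R₀`. -/
theorem mem_chart_of_repr (t₀ : F₀) (πF : F) {e : ℕ} (b : Basis (Fin e) F₀ F)
    (hb : ∀ i, b i = πF ^ (i : ℕ))
    (hπ : ∃ P : R₀[X], P.Monic ∧
      P.eval₂ ((algebraMap F₀ F).comp (algebraMap R₀ F₀)) πF = 0)
    (hR : ∀ r : R, ∃ P : R₀[X], P.Monic ∧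
      P.eval₂ ((algebraMap F₀ F).comp (algebraMap R₀ F₀)) (algebraMap R F r) = 0)
    (algClosed : ∀ y : F₀, IsAlgebraic K₀ y → ∃ c : K₀, algebraMap K₀ F₀ c = y)
    (ϖ : R₀) (dvr : ∀ r : R₀, r ≠ 0 → ∃ (k : ℕ) (v : R₀ˣ), r = ϖ ^ k * v)
    (O1 O2 : ValuationSubring F₀)
    (hO1 : ∀ x ∈ chart R₀ t₀, x ∈ O1) (hO2 : ∀ x ∈ chart R₀ t₀, x ∈ O2)
    (sat : ∀ b ∈ chart R₀ t₀, ∀ c : F₀, c ∈ O1 → c ∈ O2 → b = algebraMap R₀ F₀ ϖ * c →
      c ∈ chart R₀ t₀)
    {z : F} (hz : z ∈ chart R (algebraMap F₀ F t₀)) (i : Fin e)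
    (h1 : b.repr z i ∈ O1) (h2 : b.repr z i ∈ O2) : b.repr z i ∈ chart R₀ t₀ := by
  obtain ⟨d, hd0, hdint, hd⟩ := chart_cramer (R := R) t₀ πF b hb hπ hR
  obtain ⟨r, rfl⟩ := exists_eq_algebraMap_of_isIntegral algClosed hdint
  have hr0 : r ≠ 0 := by
    rintro rfl
    exact hd0 (map_zero _)
  obtain ⟨k, v, rfl⟩ := dvr r hr0
  have hmem := hd z hz i
  have hϖ1 : algebraMap R₀ F₀ ϖ ∈ O1 := hO1 _ (Subalgebra.algebraMap_mem _ ϖ)
  have hϖ2 : algebraMap R₀ F₀ ϖ ∈ O2 := hO2 _ (Subalgebra.algebraMap_mem _ ϖ)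
  refine mem_of_pow_mul_mem (chart R₀ t₀).toSubring O1 O2 (algebraMap R₀ F₀ ϖ) hϖ1 hϖ2 sat k _
    h1 h2 ?_
  have h3 : algebraMap R₀ F₀ ϖ ^ k * b.repr z i =
      algebraMap R₀ F₀ (↑(v⁻¹) : R₀) * (algebraMap R₀ F₀ (ϖ ^ k * v) * b.repr z i) := by
    rw [← mul_assoc, ← map_mul, ← map_pow]
    congr 2
    rw [mul_comm, mul_assoc, Units.mul_inv, mul_one]
  rw [h3]
  exact mul_mem (Subalgebra.algebraMap_mem (chart R₀ t₀) _) hmem

end GST

/-- `mem_chart_of_repr` with the algebra structure `F₀ → F` given by an explicit ring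
homomorphism. -/
theorem mem_chart_of_repr' {R₀ R K₀ F₀ F : Type*} [CommRing R₀] [CommRing R] [Field K₀] [Field F₀]
    [Field F] [Algebra R₀ K₀] [Algebra K₀ F₀] [Algebra R₀ F₀] [IsScalarTower R₀ K₀ F₀]
    [IsFractionRing R₀ K₀] [IsIntegrallyClosed R₀] [Algebra R F] [CharZero F₀]
    (ι : F₀ →+* F) (t₀ : F₀) (πF : F) {e : ℕ}
    (b : @Basis (Fin e) F₀ F _ _ ι.toAlgebra.toModule)
    (hb : letI := ι.toAlgebra; ∀ i, b i = πF ^ (i : ℕ))
    (hπ : ∃ P : R₀[X], P.Monic ∧ P.eval₂ (ι.comp (algebraMap R₀ F₀)) πF = 0)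
    (hR : ∀ r : R, ∃ P : R₀[X], P.Monic ∧
      P.eval₂ (ι.comp (algebraMap R₀ F₀)) (algebraMap R F r) = 0)
    (algClosed : ∀ y : F₀, IsAlgebraic K₀ y → ∃ c : K₀, algebraMap K₀ F₀ c = y)
    (ϖ : R₀) (dvr : ∀ r : R₀, r ≠ 0 → ∃ (k : ℕ) (v : R₀ˣ), r = ϖ ^ k * v)
    (O1 O2 : ValuationSubring F₀)
    (hO1 : ∀ x ∈ Fermat.Agent.RED.PUR.ChartGeneric22.chart R₀ t₀, x ∈ O1)
    (hO2 : ∀ x ∈ Fermat.Agent.RED.PUR.ChartGeneric22.chart R₀ t₀, x ∈ O2)
    (sat : ∀ b ∈ Fermat.Agent.RED.PUR.ChartGeneric22.chart R₀ t₀, ∀ c : F₀, c ∈ O1 → c ∈ O2 →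
      b = algebraMap R₀ F₀ ϖ * c → c ∈ Fermat.Agent.RED.PUR.ChartGeneric22.chart R₀ t₀)
    {z : F} (hz : z ∈ Fermat.Agent.RED.PUR.ChartGeneric22.chart R (ι t₀)) (i : Fin e)
    (h1 : letI := ι.toAlgebra; b.repr z i ∈ O1) (h2 : letI := ι.toAlgebra; b.repr z i ∈ O2) :
    letI := ι.toAlgebra
    b.repr z i ∈ Fermat.Agent.RED.PUR.ChartGeneric22.chart R₀ t₀ := by
  let _ : Algebra F₀ F := ι.toAlgebra
  exact mem_chart_of_repr t₀ πF b hb hπ hR algClosed ϖ dvr O1 O2 hO1 hO2 sat hz i h1 h2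

end Fermat.Agent.M43.BaseChTrace4
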