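/-
M43, chapter (LG-q), brick (GST) part 6 — helper4: **the charts commute with totally ramified base
change** (assembly).

`K₀ ≤ K ⊂ ℚ̄`, `A` over `q`, `R₀ = A ∩ K₀`, `R = A ∩ K`, `ι = iotaK h N : FK N K₀ → FK N K`
(coefficientwise), `InertData A K₀ K h q π e` (`q` uniformiser of `R₀`, `q = π^e · unit`,
`K = ⊕_{i<e} K₀ π^i`; for `K` normal and `K₀ = inertiaPart A K` this is `BaseChInert4.inertData`).

* `gst_chart` : generic chart `chart R (ι t₀) = ⊕_{i<e} ι (chart R₀ t₀) π^i`, given the saturation of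
  the chart below in two valuation rings which are `RamPair`s with valuation rings above;
* `ramPair_O` : the Gauss valuation rings `O1₀ ⊂ O1_K`, `O2₀ ⊂ O2_K` are such pairs (from the
  `unif / arch / pi_nonunit` fields of the two models);
* `gst_B0`, `gst_B1` : **(GST)** for the charts `B0 A q ht`, `B1 A q ht` of `ModelDefs9`;
* `iotaK_mem_chart`, `iotaK_tN` : the easy direction `ι (chart below) ⊆ chart above`;
* `exists_mod_pi` : `z = ι φ₀ + π · w` (`φ₀` in the chart below, `w` in the chart above);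
* `gst_four` : the wrapper for `K` normal, `K₀ = inertiaPart A K`, `q` odd, `4 ∣ M'`, `ζ_{M'} ∈ K`:
  `K₀` is inertial, finite, contains `ζ_{M'}`, carries the `NodalNumData` with uniformiser `q`, and
  (GST) holds for every model over `K`.
-/
import Mathlib
import Fermat.Agent.ES.N34.ModelInput13
import Fermat.Agent.ES.P36.ModelInert4
import Fermat.Agent.M43.BaseChGauss4
import Fermat.Agent.M43.BaseChTrace4

set_option autoImplicit false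
set_option linter.unusedSectionVars false
set_option synthInstance.maxHeartbeats 400000
set_option maxHeartbeats 800000

noncomputable section

open HahnSeries ModularCurve Module

namespace Fermat.Agent.M43.BaseChMain4

open Fermat.Agent.RED.Interface4 Fermat.Agent.RED.PUR.GaussGen8 Fermat.Agent.RED.PUR.ChartGeneric22
  Fermat.Agent.RED.DESC Fermat.Agent.ES.N34.FrickeFK8 Fermat.Agent.ES.N34.ModelDefs9
  Fermat.Agent.ES.N34.NodalCore13 Fermat.Agent.ES.N34.NumData13 Fermat.Agent.RED.BASE.EtaQuot12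
  Fermat.Agent.M43.BaseChRing4 Fermat.Agent.M43.BaseChInert4 Fermat.Agent.M43.BaseChField4
  Fermat.Agent.M43.BaseChGauss4 Fermat.Agent.M43.BaseChTrace4


/-- fast path for instance search (the same instance that search finds, after ~7 s). -/
local instance (priority := 5000) instAlgAKFK (A : ValuationSubring Qbar)
    (L : IntermediateField ℚ Qbar) (N : ℕ) : Algebra ↥(AK A L) ↥(FK N L) :=
  Algebra.ofSubsemiring (AK A L)

local instance (priority := 5000) instTowerAKFK (A : ValuationSubring Qbar)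
    (L : IntermediateField ℚ Qbar) (N : ℕ) : IsScalarTower ↥(AK A L) ↥L ↥(FK N L) :=
  Fermat.Agent.RED.NumInst4.isScalarTower_OE (AK A L) (FK N L)

/-! ### Integrality over `R₀[t₀]` -/

section Integral

variable {A : ValuationSubring Qbar} {K₀ K : IntermediateField ℚ Qbar} {h : K₀ ≤ K} {N : ℕ}
  [NeZero N] {q : ℕ} {π : K} {e : ℕ}

/-- `R₀ → F_K`. -/
@[reducible] def algR₀ (A : ValuationSubring Qbar) (h : K₀ ≤ K) (N : ℕ) :
    Algebra ↥(AK A K₀) (FK N K) :=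
  ((iotaK h N).comp (algebraMap ↥(AK A K₀) (FK N K₀))).toAlgebra

/-- `R₀[t₀] → F_K`. -/
@[reducible] def algA₀ (A : ValuationSubring Qbar) (h : K₀ ≤ K) (N : ℕ) (t₀ : FK N K₀) :
    Algebra ↥(Algebra.adjoin ↥(AK A K₀) {t₀}) (FK N K) :=
  ((iotaK h N).comp (algebraMap ↥(Algebra.adjoin ↥(AK A K₀) {t₀}) (FK N K₀))).toAlgebra

theorem algR₀_apply (x : AK A K₀) :
    (algR₀ A h N).algebraMap x = algebraMap ↥K (FK N K) (inclK h (x : K₀)) :=
  iotaK_algebraMap h N (x : K₀)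

/-- `π` is integral over `R₀` in `F_K`. -/
theorem isIntegral_pi (D : InertData A K₀ K h q π e) :
    @IsIntegral ↥(AK A K₀) (FK N K) _ _ (algR₀ A h N) (algebraMap ↥K (FK N K) π) := by
  let _ : Algebra ↥(AK A K₀) (FK N K) := algR₀ A h N
  obtain ⟨P, hPm, -, hP⟩ := D.exists_monic_int
  refine ⟨P, hPm, ?_⟩
  have h1 : algebraMap ↥(AK A K₀) (FK N K) =
      (algebraMap ↥K (FK N K)).comp
        ((IntermediateField.inclusion h).toRingHom.comp (AK A K₀).subtype) :=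
    RingHom.ext fun x => algR₀_apply x
  rw [h1, ← Polynomial.hom_eval₂, hP, map_zero]

/-- elements of `A ∩ K` are integral over `R₀` in `F_K`. -/
theorem isIntegral_const (D : InertData A K₀ K h q π e) {r : K} (hr : r ∈ AK A K) :
    @IsIntegral ↥(AK A K₀) (FK N K) _ _ (algR₀ A h N) (algebraMap ↥K (FK N K) r) := by
  let _ : Algebra ↥(AK A K₀) (FK N K) := algR₀ A h N
  obtain ⟨c, hcm, hc⟩ := D.digits_mem hr
  rw [hc, map_sum]
  refine IsIntegral.sum _ fun i _ => ?_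
  rw [map_mul, map_pow]
  refine IsIntegral.mul ?_ ((isIntegral_pi D).pow i)
  have : algebraMap ↥K (FK N K) (IntermediateField.inclusion h (c i)) =
      algebraMap ↥(AK A K₀) (FK N K) ⟨c i, hcm i⟩ := (algR₀_apply ⟨c i, hcm i⟩).symm
  rw [this]
  exact isIntegral_algebraMap

end Integral



/-! ### (GST) for a chart -/

section Chart

variable {A : ValuationSubring Qbar} {K₀ K : IntermediateField ℚ Qbar} {h : K₀ ≤ K} {N : ℕ}
  [NeZero N] {q : ℕ} {π : K} {e : ℕ}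

/-- **(GST), generic chart**: the chart of `t = ι t₀` over `A ∩ K` is `⊕_{i<e} (chart of t₀ over
A ∩ K₀) π^i`, given the saturation of the chart below in two valuation rings `O1₀, O2₀` which are
totally ramified (`RamPair`) in valuation rings `O1, O2 ∋ z` above. -/
theorem gst_chart (D : InertData A K₀ K h q π e) (t₀ : FK N K₀)
    (O1₀ O2₀ : ValuationSubring (FK N K₀))
    (hO1 : ∀ x ∈ chart ↥(AK A K₀) t₀, x ∈ O1₀) (hO2 : ∀ x ∈ chart ↥(AK A K₀) t₀, x ∈ O2₀)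
    (ϖ : AK A K₀)
    (sat : ∀ b ∈ chart ↥(AK A K₀) t₀, ∀ c : FK N K₀, c ∈ O1₀ → c ∈ O2₀ →
      b = algebraMap ↥(AK A K₀) (FK N K₀) ϖ * c → c ∈ chart ↥(AK A K₀) t₀)
    (algClosed : ∀ y : FK N K₀, IsAlgebraic ↥K₀ y → ∃ c : K₀, algebraMap ↥K₀ (FK N K₀) c = y)
    (dvr : ∀ r : AK A K₀, r ≠ 0 → ∃ (k : ℕ) (v : (↥(AK A K₀))ˣ), r = ϖ ^ k * v)
    (O1 O2 : ValuationSubring (FK N K))
    (P1 : @RamPair (FK N K₀) (FK N K) _ _ (iotaAlg h N) O1₀ O1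
      (algebraMap ↥(AK A K₀) (FK N K₀) ϖ) (algebraMap ↥K (FK N K) π) e)
    (P2 : @RamPair (FK N K₀) (FK N K) _ _ (iotaAlg h N) O2₀ O2
      (algebraMap ↥(AK A K₀) (FK N K₀) ϖ) (algebraMap ↥K (FK N K) π) e)
    {z : FK N K} (hz : z ∈ chart ↥(AK A K) (iotaK h N t₀)) (hz1 : z ∈ O1) (hz2 : z ∈ O2) :
    ∃ φ : ℕ → FK N K₀, (∀ i ∈ Finset.range e, φ i ∈ chart ↥(AK A K₀) t₀) ∧
      z = ∑ i ∈ Finset.range e, iotaK h N (φ i) * algebraMap ↥K (FK N K) (π ^ i) := by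
  have hD : Digits h π e := D.toDigits
  obtain ⟨φ, hφ⟩ := hD.exists_fdigits (N := N) z
  refine ⟨φ, fun i hi => ?_, hφ⟩
  have hsum : ∑ j ∈ Finset.range e, iotaK h N (φ j) * algebraMap ↥K (FK N K) π ^ j = z := by
    rw [hφ]
    refine Finset.sum_congr rfl fun j _ => ?_
    rw [map_pow]
  have h1 : φ i ∈ O1₀ :=
    @RamPair.coeff_mem (FK N K₀) (FK N K) _ _ (iotaAlg h N) O1₀ O1 _ _ e P1 φ
      (by rw [← hsum] at hz1; exact hz1) i hi
  have h2 : φ i ∈ O2₀ :=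
    @RamPair.coeff_mem (FK N K₀) (FK N K) _ _ (iotaAlg h N) O2₀ O2 _ _ e P2 φ
      (by rw [← hsum] at hz2; exact hz2) i hi
  rw [Finset.mem_range] at hi
  have hrepr : (letI := iotaAlg h N; (hD.basis (N := N)).repr z ⟨i, hi⟩) = φ i := by
    rw [hφ]
    exact hD.repr_sum φ ⟨i, hi⟩
  have key := mem_chart_of_repr' (R := ↥(AK A K)) (K₀ := ↥K₀) (iotaK h N) t₀
    (algebraMap ↥K (FK N K) π) (hD.basis (N := N)) (fun j => hD.basis_apply j)
    (isIntegral_pi D) (fun r => isIntegral_const D r.2)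
    algClosed ϖ dvr O1₀ O2₀ hO1 hO2 sat hz ⟨i, hi⟩ (by rw [hrepr]; exact h1)
    (by rw [hrepr]; exact h2)
  rw [hrepr] at key
  exact key

end Chart

/-! ### (GST) for the two charts of the level-`M' q` model -/

section Final

variable {A : ValuationSubring Qbar} {K₀ K : IntermediateField ℚ Qbar} {h : K₀ ≤ K}
  {M' q : ℕ} [NeZero M'] [NeZero q] {n e' : ℕ} [NeZero n] {π : ↥(AK A K)} {e : ℕ}

theorem iotaK_tN (ht₀ : tq ↥K₀ n e' ∈ FK M' K₀) (ht : tq ↥K n e' ∈ FK M' K) :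
    iotaK h (M' * q) (tN q ht₀) = tN q ht := by
  apply iotaK_eq_of_coe
  rw [coe_tN, coe_tN]
  exact coeffMap_tq _ (inclK h) n e'

theorem iotaK_natCast_AK (N : ℕ) (D : InertData A K₀ K h q (π : K) e) :
    ∃ w : FK N K, (∃ u : AK A K, w = algebraMap ↥(AK A K) (FK N K) u) ∧
      (∃ u : AK A K, w⁻¹ = algebraMap ↥(AK A K) (FK N K) u) ∧
      iotaK h N (algebraMap ↥(AK A K₀) (FK N K₀) (q : AK A K₀)) =
        algebraMap ↥K (FK N K) (π : K) ^ e * w := by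
  obtain ⟨u, hu, hu', hqu⟩ := D.ram
  refine ⟨algebraMap ↥K (FK N K) u, ⟨⟨u, hu⟩, rfl⟩, ⟨⟨u⁻¹, hu'⟩, ?_⟩, ?_⟩
  · rw [← map_inv₀]; rfl
  · have h1 : algebraMap ↥(AK A K₀) (FK N K₀) (q : AK A K₀) =
        algebraMap ↥K₀ (FK N K₀) ((q : ℕ) : K₀) := by
      rw [map_natCast, map_natCast]
    rw [h1, iotaK_algebraMap, map_natCast, ← map_pow, ← map_mul, ← hqu]

/-- the two `RamPair`s of Gauss valuation rings. -/
theorem ramPair_O (D : InertData A K₀ K h q (π : K) e)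
    (hπ₀ : IsUnif (AK A K₀) (q : AK A K₀)) (hE₀ : FK (M' * q) K₀ ≤ fracField (AK A K₀))
    (hπ : IsUnif (AK A K) π) (hE : FK (M' * q) K ≤ fracField (AK A K))
    {t₀ : FK (M' * q) K₀} {B0₀ B1₀ : Subalgebra ↥(AK A K₀) ↥(FK (M' * q) K₀)}
    (M₀ : NodalTwoChartModel ↥(AK A K₀) ↥(FK (M' * q) K₀) (q : AK A K₀) t₀ B0₀ B1₀
      (O1 M' q hπ₀ hE₀) (O2 M' q hπ₀ hE₀))
    {t : FK (M' * q) K} {B0K B1K : Subalgebra ↥(AK A K) ↥(FK (M' * q) K)}
    (MK : NodalTwoChartModel ↥(AK A K) ↥(FK (M' * q) K) π t B0K B1K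
      (O1 M' q hπ hE) (O2 M' q hπ hE)) :
    @RamPair (FK (M' * q) K₀) (FK (M' * q) K) _ _ (iotaAlg h (M' * q)) (O1 M' q hπ₀ hE₀)
        (O1 M' q hπ hE) (algebraMap ↥(AK A K₀) (FK (M' * q) K₀) (q : AK A K₀))
        (algebraMap ↥K (FK (M' * q) K) (π : K)) e ∧
      @RamPair (FK (M' * q) K₀) (FK (M' * q) K) _ _ (iotaAlg h (M' * q)) (O2 M' q hπ₀ hE₀)
        (O2 M' q hπ hE) (algebraMap ↥(AK A K₀) (FK (M' * q) K₀) (q : AK A K₀))
        (algebraMap ↥K (FK (M' * q) K) (π : K)) e := by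
  obtain ⟨w, ⟨u, hu⟩, ⟨u', hu'⟩, hw⟩ := iotaK_natCast_AK (M' * q) D
  constructor
  · refine @ramPair_of_models (FK (M' * q) K₀) (FK (M' * q) K) _ _ (iotaAlg h (M' * q))
      (O1 M' q hπ₀ hE₀) (O1 M' q hπ hE) _ _ e D.e_pos
      (fun x hx => iotaK_mem_O1 h M' q hπ₀ hE₀ hπ hE hx) M₀.pi_ne
      (M₀.le_O1_0 _ (Subalgebra.algebraMap_mem B0₀ _)) M₀.unif1 M₀.arch1 MK.pi_ne MK.pi_nonunit1
      ⟨w, ?_, ?_, hw⟩
    · rw [hu]; exact MK.le_O1_0 _ (Subalgebra.algebraMap_mem B0K u)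
    · rw [hu']; exact MK.le_O1_0 _ (Subalgebra.algebraMap_mem B0K u')
  · refine @ramPair_of_models (FK (M' * q) K₀) (FK (M' * q) K) _ _ (iotaAlg h (M' * q))
      (O2 M' q hπ₀ hE₀) (O2 M' q hπ hE) _ _ e D.e_pos
      (fun x hx => iotaK_mem_O2 h M' q hπ₀ hE₀ hπ hE hx) M₀.pi_ne
      (M₀.le_O2_0 _ (Subalgebra.algebraMap_mem B0₀ _)) M₀.unif2 M₀.arch2 MK.pi_ne MK.pi_nonunit2
      ⟨w, ?_, ?_, hw⟩
    · rw [hu]; exact MK.le_O2_0 _ (Subalgebra.algebraMap_mem B0K u)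
    · rw [hu']; exact MK.le_O2_0 _ (Subalgebra.algebraMap_mem B0K u')

/-- **(GST), chart `B0`**: `B0_K = ⊕_{i<e} ι(B0_{K₀}) π^i`. -/
theorem gst_B0 (D : InertData A K₀ K h q (π : K) e)
    (hπ₀ : IsUnif (AK A K₀) (q : AK A K₀)) (hE₀ : FK (M' * q) K₀ ≤ fracField (AK A K₀))
    (hπ : IsUnif (AK A K) π) (hE : FK (M' * q) K ≤ fracField (AK A K))
    (ht₀ : tq ↥K₀ n e' ∈ FK M' K₀) (ht : tq ↥K n e' ∈ FK M' K)
    (M₀ : NodalNumData ↥(AK A K₀) ↥K₀ ↥(FK (M' * q) K₀) (q : AK A K₀) (tN q ht₀) (B0 A q ht₀)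
      (B1 A q ht₀) (O1 M' q hπ₀ hE₀) (O2 M' q hπ₀ hE₀))
    (MK : NodalTwoChartModel ↥(AK A K) ↥(FK (M' * q) K) π (tN q ht) (B0 A q ht) (B1 A q ht)
      (O1 M' q hπ hE) (O2 M' q hπ hE))
    {z : FK (M' * q) K} (hz : z ∈ B0 A q ht) :
    ∃ φ : ℕ → FK (M' * q) K₀, (∀ i ∈ Finset.range e, φ i ∈ B0 A q ht₀) ∧
      z = ∑ i ∈ Finset.range e,
        iotaK h (M' * q) (φ i) * algebraMap ↥K (FK (M' * q) K) ((π : K) ^ i) := by
  obtain ⟨P1, P2⟩ := ramPair_O D hπ₀ hE₀ hπ hE M₀.model MK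
  have hz' : z ∈ chart ↥(AK A K) (iotaK h (M' * q) (tN q ht₀)) := by
    rw [iotaK_tN ht₀ ht]; exact hz
  exact gst_chart D (tN q ht₀) (O1 M' q hπ₀ hE₀) (O2 M' q hπ₀ hE₀) M₀.model.le_O1_0
    M₀.model.le_O2_0 (q : AK A K₀) M₀.model.sat0 M₀.algClosed M₀.dvrR (O1 M' q hπ hE)
    (O2 M' q hπ hE) P1 P2 hz' (MK.le_O1_0 z hz) (MK.le_O2_0 z hz)

/-- **(GST), chart `B1`**: `B1_K = ⊕_{i<e} ι(B1_{K₀}) π^i`. -/
theorem gst_B1 (D : InertData A K₀ K h q (π : K) e)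
    (hπ₀ : IsUnif (AK A K₀) (q : AK A K₀)) (hE₀ : FK (M' * q) K₀ ≤ fracField (AK A K₀))
    (hπ : IsUnif (AK A K) π) (hE : FK (M' * q) K ≤ fracField (AK A K))
    (ht₀ : tq ↥K₀ n e' ∈ FK M' K₀) (ht : tq ↥K n e' ∈ FK M' K)
    (M₀ : NodalNumData ↥(AK A K₀) ↥K₀ ↥(FK (M' * q) K₀) (q : AK A K₀) (tN q ht₀) (B0 A q ht₀)
      (B1 A q ht₀) (O1 M' q hπ₀ hE₀) (O2 M' q hπ₀ hE₀))
    (MK : NodalTwoChartModel ↥(AK A K) ↥(FK (M' * q) K) π (tN q ht) (B0 A q ht) (B1 A q ht)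
      (O1 M' q hπ hE) (O2 M' q hπ hE))
    {z : FK (M' * q) K} (hz : z ∈ B1 A q ht) :
    ∃ φ : ℕ → FK (M' * q) K₀, (∀ i ∈ Finset.range e, φ i ∈ B1 A q ht₀) ∧
      z = ∑ i ∈ Finset.range e,
        iotaK h (M' * q) (φ i) * algebraMap ↥K (FK (M' * q) K) ((π : K) ^ i) := by
  obtain ⟨P1, P2⟩ := ramPair_O D hπ₀ hE₀ hπ hE M₀.model MK
  have hz' : z ∈ chart ↥(AK A K) (iotaK h (M' * q) (tN q ht₀)⁻¹) := by
    rw [map_inv₀, iotaK_tN ht₀ ht]; exact hz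
  exact gst_chart D (tN q ht₀)⁻¹ (O1 M' q hπ₀ hE₀) (O2 M' q hπ₀ hE₀) M₀.model.le_O1_1
    M₀.model.le_O2_1 (q : AK A K₀) M₀.model.sat1 M₀.algClosed M₀.dvrR (O1 M' q hπ hE)
    (O2 M' q hπ hE) P1 P2 hz' (MK.le_O1_1 z hz) (MK.le_O2_1 z hz)

/-- the easy direction: `ι` maps a chart below into the chart above. -/
theorem iotaK_mem_chart (N : ℕ) [NeZero N] (t₀ : FK N K₀) {x : FK N K₀}
    (hx : x ∈ chart ↥(AK A K₀) t₀) : iotaK h N x ∈ chart ↥(AK A K) (iotaK h N t₀) := by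
  rw [mem_chart_iff, isIntegral_subalgebra_iff] at hx ⊢
  obtain ⟨P, hPm, hPc, hPx⟩ := hx
  refine ⟨P.map (iotaK h N), hPm.map _, fun i => ?_, ?_⟩
  · rw [Polynomial.coeff_map]
    have key : ∀ y ∈ Algebra.adjoin ↥(AK A K₀) {t₀},
        iotaK h N y ∈ Algebra.adjoin ↥(AK A K) {iotaK h N t₀} := by
      intro y hy
      induction hy using Algebra.adjoin_induction with
      | mem x hx =>
        rw [Set.mem_singleton_iff] at hx
        subst hx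
        exact Algebra.self_mem_adjoin_singleton _ _
      | algebraMap r =>
        have : iotaK h N (algebraMap ↥(AK A K₀) (FK N K₀) r) =
            algebraMap ↥(AK A K) (FK N K) (inclAK (A := A) h r) :=
          iotaK_algebraMap h N (r : K₀)
        rw [this]
        exact Subalgebra.algebraMap_mem _ _
      | add x y _ _ hx hy => rw [map_add]; exact add_mem hx hy
      | mul x y _ _ hx hy => rw [map_mul]; exact mul_mem hx hy
    exact key _ (hPc i)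
  · rw [Polynomial.eval_map, Polynomial.eval₂_hom, hPx, map_zero]

/-- **(GST) modulo `π`** for a generic chart: what the node bridges consume. -/
theorem exists_mod_pi {N : ℕ} [NeZero N] (t₀ : FK N K₀) (he : 0 < e) (hπ : (π : K) ∈ AK A K)
    {z : FK N K} (φ : ℕ → FK N K₀) (hφ : ∀ i ∈ Finset.range e, φ i ∈ chart ↥(AK A K₀) t₀)
    (hz : z = ∑ i ∈ Finset.range e,
      iotaK h N (φ i) * algebraMap ↥K (FK N K) ((π : K) ^ i)) :
    ∃ φ₀ ∈ chart ↥(AK A K₀) t₀, ∃ w ∈ chart ↥(AK A K) (iotaK h N t₀),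
      z = iotaK h N φ₀ + algebraMap ↥K (FK N K) (π : K) * w := by
  obtain ⟨e, rfl⟩ : ∃ e', e = e' + 1 := ⟨e - 1, (Nat.sub_add_cancel he).symm⟩
  refine ⟨φ 0, hφ 0 (Finset.mem_range.mpr he),
    ∑ i ∈ Finset.range e, iotaK h N (φ (i + 1)) * algebraMap ↥K (FK N K) ((π : K) ^ i), ?_, ?_⟩
  · refine Subalgebra.sum_mem _ fun i hi => ?_
    refine mul_mem (iotaK_mem_chart N t₀ (hφ (i + 1) ?_)) ?_
    · rw [Finset.mem_range] at hi ⊢; omega
    · have : algebraMap ↥K (FK N K) ((π : K) ^ i) =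
          algebraMap ↥(AK A K) (FK N K) (⟨(π : K), hπ⟩ ^ i) := by
        rw [map_pow, map_pow]; rfl
      rw [this]
      exact Subalgebra.algebraMap_mem _ _
  · rw [hz, Finset.sum_range_succ', pow_zero, map_one, mul_one, add_comm, Finset.mul_sum]
    congr 1
    refine Finset.sum_congr rfl fun i _ => ?_
    rw [pow_succ, map_mul]; ring

/-- `ι (B0 below) ⊆ B0 above`. -/
theorem iotaK_mem_B0 (ht₀ : tq ↥K₀ n e' ∈ FK M' K₀) (ht : tq ↥K n e' ∈ FK M' K)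
    {x : FK (M' * q) K₀} (hx : x ∈ B0 A q ht₀) : iotaK h (M' * q) x ∈ B0 A q ht := by
  have := iotaK_mem_chart (A := A) (h := h) (M' * q) (tN q ht₀) hx
  rwa [iotaK_tN ht₀ ht] at this

/-- `ι (B1 below) ⊆ B1 above`. -/
theorem iotaK_mem_B1 (ht₀ : tq ↥K₀ n e' ∈ FK M' K₀) (ht : tq ↥K n e' ∈ FK M' K)
    {x : FK (M' * q) K₀} (hx : x ∈ B1 A q ht₀) : iotaK h (M' * q) x ∈ B1 A q ht := by
  have := iotaK_mem_chart (A := A) (h := h) (M' * q) (tN q ht₀)⁻¹ hx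
  rwa [map_inv₀, iotaK_tN ht₀ ht] at this

/-- **(GST) modulo `π`, chart `B0`**: `z = ι φ₀ + π · w` with `φ₀ ∈ B0` below, `w ∈ B0` above. -/
theorem gst_B0_mod_pi (D : InertData A K₀ K h q (π : K) e)
    (hπ₀ : IsUnif (AK A K₀) (q : AK A K₀)) (hE₀ : FK (M' * q) K₀ ≤ fracField (AK A K₀))
    (hπ : IsUnif (AK A K) π) (hE : FK (M' * q) K ≤ fracField (AK A K))
    (ht₀ : tq ↥K₀ n e' ∈ FK M' K₀) (ht : tq ↥K n e' ∈ FK M' K)
    (M₀ : NodalNumData ↥(AK A K₀) ↥K₀ ↥(FK (M' * q) K₀) (q : AK A K₀) (tN q ht₀) (B0 A q ht₀)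
      (B1 A q ht₀) (O1 M' q hπ₀ hE₀) (O2 M' q hπ₀ hE₀))
    (MK : NodalTwoChartModel ↥(AK A K) ↥(FK (M' * q) K) π (tN q ht) (B0 A q ht) (B1 A q ht)
      (O1 M' q hπ hE) (O2 M' q hπ hE))
    {z : FK (M' * q) K} (hz : z ∈ B0 A q ht) :
    ∃ φ₀ ∈ B0 A q ht₀, ∃ w ∈ B0 A q ht,
      z = iotaK h (M' * q) φ₀ + algebraMap ↥(AK A K) (FK (M' * q) K) π * w := by
  obtain ⟨φ, hφ, hzφ⟩ := gst_B0 D hπ₀ hE₀ hπ hE ht₀ ht M₀ MK hz
  obtain ⟨φ₀, h0, w, hw, hzw⟩ := exists_mod_pi (A := A) (tN q ht₀) D.e_pos π.2 φ hφ hzφ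
  refine ⟨φ₀, h0, w, ?_, hzw⟩
  rw [iotaK_tN ht₀ ht] at hw
  exact hw

/-- **(GST) modulo `π`, chart `B1`**. -/
theorem gst_B1_mod_pi (D : InertData A K₀ K h q (π : K) e)
    (hπ₀ : IsUnif (AK A K₀) (q : AK A K₀)) (hE₀ : FK (M' * q) K₀ ≤ fracField (AK A K₀))
    (hπ : IsUnif (AK A K) π) (hE : FK (M' * q) K ≤ fracField (AK A K))
    (ht₀ : tq ↥K₀ n e' ∈ FK M' K₀) (ht : tq ↥K n e' ∈ FK M' K)
    (M₀ : NodalNumData ↥(AK A K₀) ↥K₀ ↥(FK (M' * q) K₀) (q : AK A K₀) (tN q ht₀) (B0 A q ht₀)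
      (B1 A q ht₀) (O1 M' q hπ₀ hE₀) (O2 M' q hπ₀ hE₀))
    (MK : NodalTwoChartModel ↥(AK A K) ↥(FK (M' * q) K) π (tN q ht) (B0 A q ht) (B1 A q ht)
      (O1 M' q hπ hE) (O2 M' q hπ hE))
    {z : FK (M' * q) K} (hz : z ∈ B1 A q ht) :
    ∃ φ₀ ∈ B1 A q ht₀, ∃ w ∈ B1 A q ht,
      z = iotaK h (M' * q) φ₀ + algebraMap ↥(AK A K) (FK (M' * q) K) π * w := by
  obtain ⟨φ, hφ, hzφ⟩ := gst_B1 D hπ₀ hE₀ hπ hE ht₀ ht M₀ MK hz
  obtain ⟨φ₀, h0, w, hw, hzw⟩ := exists_mod_pi (A := A) (tN q ht₀)⁻¹ D.e_pos π.2 φ hφ hzφ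
  refine ⟨φ₀, h0, w, ?_, hzw⟩
  rw [map_inv₀, iotaK_tN ht₀ ht] at hw
  exact hw

end Final

/-! ### The wrapper: `K` normal, `K₀` its inertia field, `q` odd, `4 ∣ M'` -/

section Wrapper

open Fermat.Agent.ES.P36.InertField27 Fermat.Agent.ES.P36.ModelInert4

variable {A : ValuationSubring Qbar} {M' q : ℕ} [NeZero M'] [NeZero q]

/-- **(GST) for the level-`M' q` model, `q` odd, `4 ∣ M'`**: `K` normal and finite over `ℚ`
containing `ζ_{M'}`, `K₀ := inertiaPart A K`.  The model over `K₀` exists (`q` is a uniformiser), and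
for every model over `K` (any uniformiser `π`), with `q = π^e · unit`:
`B0_K = ⊕_{i<e} ι(B0_{K₀}) π^i` and `B1_K = ⊕_{i<e} ι(B1_{K₀}) π^i`. -/
theorem gst_four (hq : q.Prime) (hq2 : q ≠ 2) (hqM : ¬ q ∣ M') (hM : 4 ∣ M')
    (hA : A.LiesOverPrime q) (K : IntermediateField ℚ Qbar) [Normal ℚ K] [FiniteDimensional ℚ K]
    (hζ : Fermat.Agent.X0.zetaK M' ∈ K) :
    IsInertial A (inertiaPart A K) ∧ FiniteDimensional ℚ (inertiaPart A K) ∧
    Fermat.Agent.X0.zetaK M' ∈ inertiaPart A K ∧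
    ∃ (ht₀ : tq ↥(inertiaPart A K) 4 8 ∈ FK M' (inertiaPart A K))
      (hE₀ : FK (M' * q) (inertiaPart A K) ≤ fracField (AK A (inertiaPart A K)))
      (hπ₀ : IsUnif (AK A (inertiaPart A K)) (q : AK A (inertiaPart A K))),
      NodalNumData ↥(AK A (inertiaPart A K)) ↥(inertiaPart A K) ↥(FK (M' * q) (inertiaPart A K))
        (q : AK A (inertiaPart A K)) (tN q ht₀) (B0 A q ht₀) (B1 A q ht₀)
        (O1 M' q hπ₀ hE₀) (O2 M' q hπ₀ hE₀) ∧
      ∀ (π : AK A K) (hπ : IsUnif (AK A K) π) (hE : FK (M' * q) K ≤ fracField (AK A K))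
        (ht : tq ↥K 4 8 ∈ FK M' K),
        NodalTwoChartModel ↥(AK A K) ↥(FK (M' * q) K) π (tN q ht) (B0 A q ht) (B1 A q ht)
          (O1 M' q hπ hE) (O2 M' q hπ hE) →
        ∃ e, InertData A (inertiaPart A K) K (inertiaPart_le K) q (π : K) e ∧
          (∀ z ∈ B0 A q ht, ∃ φ : ℕ → FK (M' * q) (inertiaPart A K),
            (∀ i ∈ Finset.range e, φ i ∈ B0 A q ht₀) ∧
            z = ∑ i ∈ Finset.range e, iotaK (inertiaPart_le K) (M' * q) (φ i) *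
              algebraMap ↥K (FK (M' * q) K) ((π : K) ^ i)) ∧
          (∀ z ∈ B1 A q ht, ∃ φ : ℕ → FK (M' * q) (inertiaPart A K),
            (∀ i ∈ Finset.range e, φ i ∈ B1 A q ht₀) ∧
            z = ∑ i ∈ Finset.range e, iotaK (inertiaPart_le K) (M' * q) (φ i) *
              algebraMap ↥K (FK (M' * q) K) ((π : K) ^ i)) := by
  have hin : IsInertial A (inertiaPart A K) := isInertial_inertiaPart K
  have fd₀ : FiniteDimensional ℚ (inertiaPart A K) := finiteDimensional_of_le (inertiaPart_le K)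
  have hζ₀ := zetaK_mem_inertiaPart hq hA M' hqM hζ
  refine ⟨hin, fd₀, hζ₀, ?_⟩
  obtain ⟨ht₀, hE₀, hM₀⟩ := nodalNumData_four_inertial hq hq2 hqM hM hA hin hζ₀
  have hπ₀ : IsUnif (AK A (inertiaPart A K)) (q : AK A (inertiaPart A K)) :=
    Fermat.Agent.ES.P36.UnrFixed1.isUnif_natCast A hq hA (inertiaPart A K)
      (fun τ hτ x hx => (mem_inertiaPart.mp hx).2 τ hτ)
  refine ⟨ht₀, hE₀, hπ₀, hM₀ _ hπ₀, fun π hπ hE ht MK => ?_⟩
  obtain ⟨e, D⟩ := inertData A K hq hA π hπ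
  exact ⟨e, D, fun z hz => gst_B0 D hπ₀ hE₀ hπ hE ht₀ ht (hM₀ _ hπ₀) MK hz,
    fun z hz => gst_B1 D hπ₀ hE₀ hπ hE ht₀ ht (hM₀ _ hπ₀) MK hz⟩

end Wrapper

end Fermat.Agent.M43.BaseChMain4
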