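/-
Programme M43 (target S43), Hecke side, chapter (6b) FREENESS (lead): **norms and cocycles on a
`G`-set with a free cyclic action commuting with `G`** — abstract, in the vocabulary of
`ES/I2/Model13` (`act`, `IsCocycle`, `cob`).

`E : Equiv.Perm X` commutes with the `G`-action, `E ^ m = 1`, and `E ^ j` has no fixed point for
`0 < j < m`.  `pb E f = f ∘ E`, `nrm E m f = ∑ j < m, f ∘ E ^ j`.

* `exists_nrm_eq` : an `E`-invariant function is a norm;
* `exists_pb_sub_eq` : a function of norm zero is `w ∘ E - w`;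
* **`cocycle_eq_nrm`** (Theorem B): `G = ⟨σ, τ⟩`, `σ² = 1`, `τ³ = 1`, cocycle extension `hext`, `2` and
  `3` invertible: a cocycle with `E`-invariant values is the norm of a cocycle;
* **`cocycle_eq_pb_sub`** (Theorem A): if moreover `G` is transitive on `X` and `m` is regular in `R`:
  a cocycle whose norm is a coboundary is `(pb E - 1)` of a cocycle plus a coboundary.
-/
import Mathlib
import Fermat.Agent.ES.I2.Model13

set_option autoImplicit false

open scoped Classical

noncomputable section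

namespace Fermat.Agent.M43.ShapNorm0

open Fermat.Agent.ES.I2.Model13

variable {G : Type*} [Group G] {X : Type*} [MulAction G X] {R : Type*} [CommRing R]

/-! ### pull-back along a permutation and the norm -/

/-- `pb E f = f ∘ E`. -/
def pb (E : Equiv.Perm X) : (X → R) →ₗ[R] (X → R) := LinearMap.funLeft R R (fun x => E x)

@[simp] theorem pb_apply (E : Equiv.Perm X) (f : X → R) (x : X) : pb E f x = f (E x) := rfl

theorem pb_one (f : X → R) : pb (1 : Equiv.Perm X) f = f := by
  funext x; simp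

theorem pb_pow_succ (E : Equiv.Perm X) (j : ℕ) (f : X → R) :
    pb (E ^ (j + 1)) f = pb E (pb (E ^ j) f) := by
  funext x
  simp only [pb_apply, pow_succ, Equiv.Perm.mul_apply]

theorem pb_pow_succ' (E : Equiv.Perm X) (j : ℕ) (f : X → R) :
    pb (E ^ (j + 1)) f = pb (E ^ j) (pb E f) := by
  funext x
  simp only [pb_apply, pow_succ', Equiv.Perm.mul_apply]

/-- `pb E` commutes with `act g` when `E` commutes with the action. -/
theorem act_pb {E : Equiv.Perm X} (hE : ∀ (g : G) (x : X), E (g • x) = g • E x) (g : G)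
    (f : X → R) : act g (pb E f) = pb E (act g f) := by
  funext x
  simp only [act_apply, pb_apply, hE]

theorem comm_pow {E : Equiv.Perm X} (hE : ∀ (g : G) (x : X), E (g • x) = g • E x) (j : ℕ) :
    ∀ (g : G) (x : X), (E ^ j) (g • x) = g • (E ^ j) x := by
  induction j with
  | zero => intro g x; simp
  | succ j ih =>
    intro g x
    rw [pow_succ, Equiv.Perm.mul_apply, Equiv.Perm.mul_apply, hE, ih]

/-- the norm `∑ j < m, f ∘ E ^ j`. -/
def nrm (E : Equiv.Perm X) (m : ℕ) : (X → R) →ₗ[R] (X → R) :=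
  ∑ j ∈ Finset.range m, pb (E ^ j)

theorem nrm_apply (E : Equiv.Perm X) (m : ℕ) (f : X → R) (x : X) :
    nrm E m f x = ∑ j ∈ Finset.range m, f ((E ^ j) x) := by
  simp [nrm, LinearMap.sum_apply, Finset.sum_apply]

theorem nrm_eq_sum (E : Equiv.Perm X) (m : ℕ) (f : X → R) :
    nrm E m f = ∑ j ∈ Finset.range m, pb (E ^ j) f := by
  simp [nrm, LinearMap.sum_apply]

theorem act_nrm {E : Equiv.Perm X} (hE : ∀ (g : G) (x : X), E (g • x) = g • E x) (m : ℕ) (g : G)
    (f : X → R) : act g (nrm E m f) = nrm E m (act g f) := by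
  rw [nrm_eq_sum, nrm_eq_sum, map_sum]
  exact Finset.sum_congr rfl fun j _ => act_pb (comm_pow hE j) g f

/-- the norm of `f ∘ E - f` is `f ∘ E ^ m - f`. -/
theorem nrm_pb_sub (E : Equiv.Perm X) (m : ℕ) (f : X → R) :
    nrm E m (pb E f - f) = pb (E ^ m) f - f := by
  rw [nrm_eq_sum]
  have h : ∀ j, pb (E ^ j) (pb E f - f) = pb (E ^ (j + 1)) f - pb (E ^ j) f := by
    intro j
    rw [map_sub, pb_pow_succ']
  simp only [h]
  rw [Finset.sum_range_sub (fun j => pb (E ^ j) f), pow_zero, pb_one]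

theorem nrm_pb_sub_eq_zero {E : Equiv.Perm X} {m : ℕ} (hEm : E ^ m = 1) (f : X → R) :
    nrm E m (pb E f - f) = 0 := by
  rw [nrm_pb_sub, hEm, pb_one, sub_self]

/-- `pb E` commutes with the norm. -/
theorem pb_nrm (E : Equiv.Perm X) (m : ℕ) (f : X → R) :
    pb E (nrm E m f) = nrm E m (pb E f) := by
  rw [nrm_eq_sum, nrm_eq_sum, map_sum]
  refine Finset.sum_congr rfl fun j _ => ?_
  rw [← pb_pow_succ, pb_pow_succ']

/-- norms are invariant. -/
theorem pb_nrm_eq {E : Equiv.Perm X} {m : ℕ} (hEm : E ^ m = 1) (f : X → R) :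
    pb E (nrm E m f) = nrm E m f := by
  have h := nrm_pb_sub_eq_zero hEm f
  rw [map_sub, sub_eq_zero] at h
  rw [pb_nrm, h]

/-! ### the fundamental domain of a free cyclic action -/

section Free

variable {E : Equiv.Perm X} {m : ℕ}

/-- the orbit relation of `E` (with `E ^ m = 1`, `0 < m`). -/
def orb (E : Equiv.Perm X) (m : ℕ) (hm : 0 < m) (hEm : E ^ m = 1) : Setoid X where
  r x y := ∃ j : ℕ, (E ^ j) x = y
  iseqv := by
    refine ⟨fun x => ⟨0, by simp⟩, ?_, ?_⟩
    · rintro x y ⟨j, rfl⟩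
      refine ⟨(m - 1) * j, ?_⟩
      rw [← Equiv.Perm.mul_apply, ← pow_add]
      have : (m - 1) * j + j = m * j := by
        obtain ⟨k, rfl⟩ : ∃ k, m = k + 1 := ⟨m - 1, by omega⟩
        simp only [Nat.add_sub_cancel]
        ring
      rw [this, pow_mul, hEm, one_pow, Equiv.Perm.one_apply]
    · rintro x y z ⟨j, rfl⟩ ⟨k, rfl⟩
      exact ⟨k + j, by rw [pow_add, Equiv.Perm.mul_apply]⟩

variable (hm : 0 < m) (hEm : E ^ m = 1)

/-- the chosen representative of the orbit of `x`. -/
def rep (x : X) : X := @Quotient.out X (orb E m hm hEm) (@Quotient.mk X (orb E m hm hEm) x)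

theorem exists_idx (x : X) : ∃ j, j < m ∧ (E ^ j) (rep hm hEm x) = x := by
  have h : (orb E m hm hEm).r (rep hm hEm x) x :=
    @Quotient.exact X (orb E m hm hEm) _ _ (@Quotient.out_eq X (orb E m hm hEm) _)
  obtain ⟨j, hj⟩ := h
  refine ⟨j % m, Nat.mod_lt _ hm, ?_⟩
  rw [← pow_eq_pow_mod j hEm]
  exact hj

/-- the index of `x` in its orbit. -/
def idx (x : X) : ℕ := Nat.find (exists_idx hm hEm x)

theorem idx_lt (x : X) : idx hm hEm x < m := (Nat.find_spec (exists_idx hm hEm x)).1

theorem pow_idx_rep (x : X) : (E ^ idx hm hEm x) (rep hm hEm x) = x :=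
  (Nat.find_spec (exists_idx hm hEm x)).2

theorem rep_eq_of_pow {x y : X} (j : ℕ) (h : (E ^ j) x = y) : rep hm hEm x = rep hm hEm y := by
  unfold rep
  congr 1
  exact @Quotient.sound X (orb E m hm hEm) _ _ ⟨j, h⟩

theorem rep_apply (x : X) : rep hm hEm (E x) = rep hm hEm x :=
  (rep_eq_of_pow hm hEm 1 (by simp)).symm

variable (hfree : ∀ (x : X) (j : ℕ), 0 < j → j < m → (E ^ j) x ≠ x)

include hfree in
/-- uniqueness of the exponent. -/
theorem pow_inj {x : X} {j j' : ℕ} (hj : j < m) (hj' : j' < m) (h : (E ^ j) x = (E ^ j') x) :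
    j = j' := by
  wlog hle : j ≤ j' generalizing j j'
  · exact (this hj' hj h.symm (by omega)).symm
  by_contra hne
  have hlt : j < j' := lt_of_le_of_ne hle hne
  have h2 : (E ^ (j' - j)) x = x := by
    have : (E ^ j') x = (E ^ j) ((E ^ (j' - j)) x) := by
      rw [← Equiv.Perm.mul_apply, ← pow_add]
      congr 2
      omega
    rw [this] at h
    exact ((E ^ j).injective h).symm
  exact hfree x (j' - j) (by omega) (by omega) h2

include hfree in
theorem idx_eq {x : X} {j : ℕ} (hj : j < m) (h : (E ^ j) (rep hm hEm x) = x) :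
    idx hm hEm x = j :=
  pow_inj hfree (idx_lt hm hEm x) hj ((pow_idx_rep hm hEm x).trans h.symm)

include hfree in
theorem idx_rep (x : X) : idx hm hEm (rep hm hEm x) = 0 := by
  have h : rep hm hEm (rep hm hEm x) = rep hm hEm x :=
    (rep_eq_of_pow hm hEm _ (pow_idx_rep hm hEm x)).trans rfl |>.symm ▸ rfl
  exact idx_eq hm hEm hfree hm (by rw [pow_zero, Equiv.Perm.one_apply, h])

include hfree in
theorem idx_apply_of_lt {x : X} (h : idx hm hEm x + 1 < m) :
    idx hm hEm (E x) = idx hm hEm x + 1 := by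
  apply idx_eq hm hEm hfree h
  rw [rep_apply, pow_succ', Equiv.Perm.mul_apply, pow_idx_rep]

include hfree in
theorem idx_apply_of_eq {x : X} (h : idx hm hEm x + 1 = m) : idx hm hEm (E x) = 0 := by
  apply idx_eq hm hEm hfree hm
  rw [rep_apply, pow_zero, Equiv.Perm.one_apply]
  have : E x = (E ^ (idx hm hEm x + 1)) (rep hm hEm x) := by
    rw [pow_succ', Equiv.Perm.mul_apply, pow_idx_rep]
  rw [this, h, hEm, Equiv.Perm.one_apply]

/-- an invariant function is constant along orbits. -/
theorem apply_pow_of_pb_eq {f : X → R} (hf : pb E f = f) (j : ℕ) (x : X) :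
    f ((E ^ j) x) = f x := by
  induction j with
  | zero => simp
  | succ j ih =>
    rw [pow_succ', Equiv.Perm.mul_apply]
    have := congrFun hf ((E ^ j) x)
    rw [pb_apply] at this
    rw [this, ih]

include hm hEm hfree in
/-- **an invariant function is a norm.** -/
theorem exists_nrm_eq {f : X → R} (hf : pb E f = f) : ∃ w : X → R, nrm E m w = f := by
  refine ⟨fun x => if idx hm hEm x = 0 then f x else 0, ?_⟩
  funext x
  rw [nrm_apply]
  set i := idx hm hEm x with hi
  have hilt : i < m := idx_lt hm hEm x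
  set j₀ := (m - i) % m with hj₀
  have hj₀lt : j₀ < m := Nat.mod_lt _ hm
  have hj₀x : (E ^ j₀) x = rep hm hEm x := by
    conv_lhs => rw [← pow_idx_rep hm hEm x]
    rw [← Equiv.Perm.mul_apply, ← pow_add, ← hi, pow_eq_pow_mod _ hEm]
    have : (j₀ + i) % m = 0 := by
      rw [hj₀, Nat.mod_add_mod]
      have : m - i + i = m := by omega
      rw [this, Nat.mod_self]
    rw [this, pow_zero, Equiv.Perm.one_apply]
  rw [Finset.sum_eq_single j₀]
  · have h0 : idx hm hEm ((E ^ j₀) x) = 0 := by rw [hj₀x]; exact idx_rep hm hEm hfree x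
    rw [if_pos h0]
    exact apply_pow_of_pb_eq hf j₀ x
  · intro j hj hne
    rw [Finset.mem_range] at hj
    rw [if_neg]
    intro h0
    apply hne
    apply pow_inj hfree hj hj₀lt (x := x)
    rw [hj₀x]
    have h1 := pow_idx_rep hm hEm ((E ^ j) x)
    rw [h0, pow_zero, Equiv.Perm.one_apply] at h1
    rw [← h1]
    exact (rep_eq_of_pow hm hEm j rfl).symm
  · intro h
    exact absurd (Finset.mem_range.mpr hj₀lt) h

include hm hEm hfree in
/-- **a function of norm zero is `w ∘ E - w`.** -/
theorem exists_pb_sub_eq {f : X → R} (hf : nrm E m f = 0) : ∃ w : X → R, pb E w - w = f := by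
  refine ⟨fun x => ∑ j ∈ Finset.range (idx hm hEm x), f ((E ^ j) (rep hm hEm x)), ?_⟩
  funext x
  simp only [Pi.sub_apply, pb_apply]
  rw [rep_apply]
  set i := idx hm hEm x with hi
  have hilt : i < m := idx_lt hm hEm x
  have hfx : f ((E ^ i) (rep hm hEm x)) = f x := by rw [hi, pow_idx_rep]
  by_cases h : i + 1 < m
  · rw [idx_apply_of_lt hm hEm hfree h, ← hi, Finset.sum_range_succ, hfx]
    ring
  · have h' : i + 1 = m := by omega
    rw [idx_apply_of_eq hm hEm hfree h', Finset.sum_range_zero]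
    have hn := congrFun hf (rep hm hEm x)
    rw [nrm_apply] at hn
    have hr : Finset.range m = Finset.range (i + 1) := by rw [h']
    rw [hr, Finset.sum_range_succ, hfx] at hn
    simp only [Pi.zero_apply] at hn
    linear_combination (-1 : R) * hn

end Free

/-! ### cocycles -/

section Cocycle

variable {E : Equiv.Perm X} {m : ℕ} {σ τ : G}

/-- the cocycle-extension property of `(G, σ, τ)` on `X → R` (true for `PSL(2, ℤ)`:
`ShapiroIso1.hext_PSL2`). -/
def HExt (σ τ : G) (X : Type*) [MulAction G X] (R : Type*) [CommRing R] : Prop :=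
  ∀ a b : X → R, a + act σ a = 0 → b + act τ b + act (τ ^ 2) b = 0 →
    ∃ z : G → X → R, IsCocycle z ∧ z σ = a ∧ z τ = b

theorem cocycle_σ_rel {z : G → X → R} (hz : IsCocycle z) (hσ : σ ^ 2 = 1) :
    z σ + act σ (z σ) = 0 := by
  have h := hz σ σ
  rw [← pow_two, hσ, hz.map_one] at h
  exact h.symm

theorem cocycle_τ_rel {z : G → X → R} (hz : IsCocycle z) (hτ : τ ^ 3 = 1) :
    z τ + act τ (z τ) + act (τ ^ 2) (z τ) = 0 := by
  have h2 := hz τ τ
  have h3 := hz (τ * τ) τ
  rw [← pow_two] at h2 h3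
  rw [← pow_succ, hτ, hz.map_one, h2] at h3
  rw [h3]

/-- composing a cocycle with a linear map commuting with the action gives a cocycle. -/
theorem cocycle_comp_linear {z : G → X → R} (hz : IsCocycle z) (L : (X → R) →ₗ[R] (X → R))
    (hL : ∀ (g : G) (f : X → R), act g (L f) = L (act g f)) : IsCocycle (fun g => L (z g)) := by
  intro a b
  show L (z (a * b)) = L (z a) + act a (L (z b))
  rw [hz a b, map_add, hL]

section Inv

variable [Invertible (2 : R)] [Invertible (3 : R)]

/-- the projector onto `ker (1 + σ)`. -/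
def projS (σ : G) (f : X → R) : X → R := (⅟ (2 : R)) • (f - act σ f)

/-- the projector onto `ker (1 + τ + τ²)`. -/
def projT (τ : G) (f : X → R) : X → R := (⅟ (3 : R)) • ((2 : R) • f - act τ f - act (τ ^ 2) f)

theorem projS_rel (hσ : σ ^ 2 = 1) (f : X → R) : projS σ f + act σ (projS σ f) = 0 := by
  unfold projS
  rw [map_smul, map_sub, ← act_mul, ← pow_two, hσ, act_one, ← smul_add]
  have : f - act σ f + (act σ f - f) = 0 := by abel
  rw [this, smul_zero]

theorem projS_of_rel {f : X → R} (hf : f + act σ f = 0) : projS σ f = f := by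
  unfold projS
  have h : act σ f = -f := by
    rw [add_comm] at hf
    exact eq_neg_of_add_eq_zero_left hf
  rw [h, sub_neg_eq_add, ← two_smul R f, smul_smul, invOf_mul_self, one_smul]

theorem projT_rel (hτ : τ ^ 3 = 1) (f : X → R) :
    projT τ f + act τ (projT τ f) + act (τ ^ 2) (projT τ f) = 0 := by
  unfold projT
  have h3 : act τ (act (τ ^ 2) f) = f := by
    rw [← act_mul, ← pow_succ', hτ, act_one]
  have h4 : act (τ ^ 2) (act τ f) = f := by
    rw [← act_mul, ← pow_succ, hτ, act_one]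
  have h5 : act (τ ^ 2) (act (τ ^ 2) f) = act τ f := by
    rw [← act_mul, ← pow_add]
    have : τ ^ (2 + 2) = τ := by
      rw [show 2 + 2 = 3 + 1 from rfl, pow_succ, hτ, one_mul]
    rw [this]
  have h6 : act τ (act τ f) = act (τ ^ 2) f := by
    rw [← act_mul, ← pow_two]
  simp only [map_smul, map_sub, ← smul_add, h3, h4, h5, h6]
  have : (2 : R) • f - act τ f - act (τ ^ 2) f + ((2 : R) • act τ f - act (τ ^ 2) f - f)
      + ((2 : R) • act (τ ^ 2) f - f - act τ f) = 0 := by
    simp only [two_smul]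
    abel
  rw [this, smul_zero]

theorem projT_of_rel {f : X → R} (hf : f + act τ f + act (τ ^ 2) f = 0) : projT τ f = f := by
  unfold projT
  have h : (2 : R) • f - act τ f - act (τ ^ 2) f = (3 : R) • f := by
    have e : (2 : R) • f - act τ f - act (τ ^ 2) f
        = (3 : R) • f - (f + act τ f + act (τ ^ 2) f) := by
      rw [show (3 : R) = 2 + 1 by norm_num, add_smul, one_smul]
      abel
    rw [e, hf, sub_zero]
  rw [h, smul_smul, invOf_mul_self, one_smul]

theorem projS_comm {L : (X → R) →ₗ[R] (X → R)}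
    (hL : ∀ (g : G) (f : X → R), act g (L f) = L (act g f)) (f : X → R) :
    L (projS σ f) = projS σ (L f) := by
  unfold projS
  rw [map_smul, map_sub, hL]

theorem projT_comm {L : (X → R) →ₗ[R] (X → R)}
    (hL : ∀ (g : G) (f : X → R), act g (L f) = L (act g f)) (f : X → R) :
    L (projT τ f) = projT τ (L f) := by
  unfold projT
  rw [map_smul, map_sub, map_sub, map_smul, hL, hL]

variable (hm : 0 < m) (hEm : E ^ m = 1)
  (hfree : ∀ (x : X) (j : ℕ), 0 < j → j < m → (E ^ j) x ≠ x)
  (hE : ∀ (g : G) (x : X), E (g • x) = g • E x)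
  (hσ : σ ^ 2 = 1) (hτ : τ ^ 3 = 1) (hgen : Subgroup.closure {σ, τ} = ⊤)
  (hext : HExt σ τ X R)

include hm hEm hfree hE hσ hτ hgen hext in
/-- **Theorem B**: a cocycle with `E`-invariant values is the norm of a cocycle. -/
theorem cocycle_eq_nrm {z : G → X → R} (hz : IsCocycle z) (hinv : ∀ g, pb E (z g) = z g) :
    ∃ z' : G → X → R, IsCocycle z' ∧ ∀ g, z g = nrm E m (z' g) := by
  obtain ⟨a0, ha0⟩ := exists_nrm_eq hm hEm hfree (hinv σ)
  obtain ⟨b0, hb0⟩ := exists_nrm_eq hm hEm hfree (hinv τ)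
  have hN : ∀ (g : G) (f : X → R), act g (nrm E m f) = nrm E m (act g f) := act_nrm hE m
  obtain ⟨z', hz', h1, h2⟩ := hext (projS σ a0) (projT τ b0) (projS_rel hσ a0) (projT_rel hτ b0)
  refine ⟨z', hz', ?_⟩
  have hc : IsCocycle (fun g => nrm E m (z' g)) := cocycle_comp_linear hz' (nrm E m) hN
  have := IsCocycle.eq_of_eqOn hz hc hgen (by
    rintro s (rfl | rfl)
    · show z s = nrm E m (z' s)
      rw [h1, projS_comm hN, ha0, projS_of_rel (cocycle_σ_rel hz hσ)]
    · show z s = nrm E m (z' s)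
      rw [h2, projT_comm hN, hb0, projT_of_rel (cocycle_τ_rel hz hτ)])
  intro g
  exact congrFun this g

include hm hEm hfree hE hσ hτ hgen hext in
/-- **Theorem A**: a cocycle whose norm is a coboundary is `(pb E - 1)` of a cocycle plus a
coboundary (`G` transitive on `X`, `m` regular in `R`). -/
theorem cocycle_eq_pb_sub [MulAction.IsPretransitive G X] [Nonempty X]
    (hreg : ∀ r : R, (m : R) * r = 0 → r = 0)
    {z : G → X → R} (hz : IsCocycle z) {ρ : X → R} (hρ : ∀ g, nrm E m (z g) = cob ρ g) :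
    ∃ (z' : G → X → R) (ρ' : X → R), IsCocycle z' ∧ ∀ g, z g = pb E (z' g) - z' g + cob ρ' g := by
  have hN : ∀ (g : G) (f : X → R), act g (nrm E m f) = nrm E m (act g f) := act_nrm hE m
  have hP : ∀ (g : G) (f : X → R), act g (pb E f) = pb E (act g f) := act_pb hE
  -- `ρ ∘ E - ρ` is `G`-invariant, hence constant, hence zero
  have h1 : ∀ g : G, act g (pb E ρ - ρ) = pb E ρ - ρ := by
    intro g
    have e1 : pb E (cob ρ g) = cob ρ g := by rw [← hρ g, pb_nrm_eq hEm]
    unfold cob at e1
    rw [map_sub, ← hP] at e1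
    rw [map_sub, sub_eq_sub_iff_add_eq_add]
    rw [sub_eq_sub_iff_add_eq_add] at e1
    rw [e1, add_comm]
  have h2 : pb E ρ = ρ := by
    obtain ⟨x₀⟩ := ‹Nonempty X›
    have hconst : ∀ x, (pb E ρ - ρ) x = (pb E ρ - ρ) x₀ := by
      intro x
      obtain ⟨g, rfl⟩ := MulAction.exists_smul_eq G x₀ x
      have := congrFun (h1 g⁻¹) x₀
      rw [act_apply, inv_inv] at this
      exact this
    set c := (pb E ρ - ρ) x₀ with hc
    have hsum : (m : R) * c = 0 := by
      have h3 := congrFun (nrm_pb_sub_eq_zero hEm ρ) x₀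
      rw [nrm_apply] at h3
      simp only [hconst, Pi.zero_apply, Finset.sum_const, Finset.card_range, nsmul_eq_mul] at h3
      exact h3
    have hc0 := hreg c hsum
    funext x
    have := hconst x
    rw [hc0, Pi.sub_apply, sub_eq_zero] at this
    exact this
  -- `ρ` is a norm
  obtain ⟨w, hw⟩ := exists_nrm_eq hm hEm hfree h2
  -- replace `z` by `z₁ = z - cob w`, of norm zero
  set z₁ : G → X → R := z - cob w with hz₁
  have hz₁c : IsCocycle z₁ := hz.sub (isCocycle_cob w)
  have hz₁n : ∀ g, nrm E m (z₁ g) = 0 := by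
    intro g
    show nrm E m (z g - cob w g) = 0
    rw [map_sub, hρ g]
    unfold cob
    rw [map_sub, ← hN, hw, sub_self]
  obtain ⟨a0, ha0⟩ := exists_pb_sub_eq hm hEm hfree (hz₁n σ)
  obtain ⟨b0, hb0⟩ := exists_pb_sub_eq hm hEm hfree (hz₁n τ)
  obtain ⟨z', hz', e1, e2⟩ := hext (projS σ a0) (projT τ b0) (projS_rel hσ a0) (projT_rel hτ b0)
  refine ⟨z', w, hz', ?_⟩
  let L : (X → R) →ₗ[R] (X → R) := pb E - LinearMap.id
  have hL : ∀ (g : G) (f : X → R), act g (L f) = L (act g f) := by
    intro g f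
    show act g (pb E f - f) = pb E (act g f) - act g f
    rw [map_sub, hP]
  have hc : IsCocycle (fun g => L (z' g)) := cocycle_comp_linear hz' L hL
  have := IsCocycle.eq_of_eqOn hz₁c hc hgen (by
    rintro s (rfl | rfl)
    · show z₁ s = L (z' s)
      rw [e1, projS_comm hL]
      show z₁ s = projS s (pb E a0 - a0)
      rw [ha0, projS_of_rel (cocycle_σ_rel hz₁c hσ)]
    · show z₁ s = L (z' s)
      rw [e2, projT_comm hL]
      show z₁ s = projT s (pb E b0 - b0)
      rw [hb0, projT_of_rel (cocycle_τ_rel hz₁c hτ)])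
  intro g
  have hg := congrFun this g
  have : z g = z₁ g + cob w g := by
    rw [hz₁]
    simp
  rw [this, hg]
  rfl

end Inv

end Cocycle

end Fermat.Agent.M43.ShapNorm0
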