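/-
Programme M43 (target S43), Hecke side, chapter (6b) FREENESS (lead): **the two integral facts
(E2), (E3) for a cyclic step `Γ'' ⊲ ⟨Γ'', g⟩ ≤ Γ' ≤ SL(2, ℤ)`**, from the abstract theorems of
`ShapNorm0` through the Shapiro dictionary of `ES/I2` (`Gamma0Model11`, `Model13`,
`ShapiroIso1.hext_PSL2`).

`g ∈ SL(2, ℤ)` normalises `Γ''` (finite index, `-1 ∈ Γ''`), `g ^ m ∈ Γ''`, `g ^ j ∉ Γ''` for
`0 < j < m`; `R` a commutative ring with `2`, `3` invertible and `m` regular.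
`cj φ = φ ∘ (γ ↦ g⁻¹ γ g)` on `Hom(Γ'', R)`.

* **`ker_norm`** (E2) : `∑ j < m, cj ^ j φ = 0 → ∃ φ', φ = cj φ' - φ'`;
* **`res_mem_norm`** (E3) : for `Γ'' ≤ Γ'`, `g ∈ Γ'`: every restriction `Φ|Γ''`, `Φ ∈ Hom(Γ', R)`, is a norm
  `∑ j < m, cj ^ j φ''`.
-/
import Mathlib
import Fermat.Agent.ES.I2.Gamma0Model11
import Fermat.Agent.ES.I2.ShapiroIso1
import Fermat.Agent.M43.ShapNorm0

set_option autoImplicit false

open scoped Classical MatrixGroups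

noncomputable section

namespace Fermat.Agent.M43.ShapHom0

open Fermat.Agent.ES.I2.PSL2Free11 Fermat.Agent.ES.I2.Gamma0Model11 Fermat.Agent.ES.I2.Model13
  Fermat.Agent.ES.I2.ShapiroBridge1 Fermat.Agent.ES.I2.ShapiroIso1 Fermat.Agent.M43.ShapNorm0
open MulAction

/-! ### every cocycle is a Shapiro cocycle up to a coboundary -/

section Abstract

variable {G : Type*} [Group G] {X : Type*} [MulAction G X] {R : Type*} [CommRing R] {x0 : X}

theorem ev_cob (ρ : X → R) :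
    ev (x0 := x0) (cob (G := G) ρ) (isCocycle_cob ρ) = 0 := by
  refine AddMonoidHom.ext fun γ' => ?_
  obtain ⟨γ, rfl⟩ := Additive.ofMul.surjective γ'
  rw [ev_apply]
  have h : ((γ : G))⁻¹ • x0 = x0 := by
    rw [inv_smul_eq_iff]; exact (mem_stabilizer_iff.mp γ.2).symm
  simp [cob, h]

/-- a cocycle is the Shapiro cocycle of its evaluation, up to a coboundary. -/
theorem cocycle_eq_sh_sub_cob (s : Sec G x0) {z : G → X → R} (hz : IsCocycle z) :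
    ∃ ρ : X → R, ∀ g, z g = sh s (ev z hz) g - cob ρ g := by
  refine ⟨fun x => z (s.r x) x, fun g => ?_⟩
  funext x
  have hg : g = s.r x * ((s.tr g x : stabilizer G x0) : G) * (s.r (g⁻¹ • x))⁻¹ := by
    simp only [Sec.tr]
    group
  have hx0 : (s.r x)⁻¹ • x = x0 := by rw [inv_smul_eq_iff, s.hr]
  have hγ0 : ((s.tr g x : stabilizer G x0) : G)⁻¹ • x0 = x0 := by
    rw [inv_smul_eq_iff]; exact (mem_stabilizer_iff.mp (s.tr g x).2).symm
  have e1 : z g x = z (s.r x) x + z ((s.tr g x : stabilizer G x0) : G) x0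
      + z (s.r (g⁻¹ • x))⁻¹ x0 := by
    conv_lhs => rw [hg]
    rw [mul_assoc, hz, hz]
    simp only [Pi.add_apply, act_apply, hx0, hγ0]
    ring
  have e2 : z (s.r (g⁻¹ • x))⁻¹ x0 = - z (s.r (g⁻¹ • x)) (g⁻¹ • x) := by
    rw [hz.map_inv]
    simp only [Pi.neg_apply, act_apply, inv_inv, s.hr]
  rw [e1, e2]
  simp only [Pi.sub_apply, cob, sh, act_apply, ev_apply]
  ring

theorem ev_add {z z' : G → X → R} (hz : IsCocycle z) (hz' : IsCocycle z') :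
    ev (x0 := x0) (z + z') (hz.add hz') = ev z hz + ev z' hz' := by
  refine AddMonoidHom.ext fun γ => ?_; rfl

theorem ev_sub {z z' : G → X → R} (hz : IsCocycle z) (hz' : IsCocycle z') :
    ev (x0 := x0) (z - z') (hz.sub hz') = ev z hz - ev z' hz' := by
  refine AddMonoidHom.ext fun γ => ?_; rfl

theorem ev_congr {z z' : G → X → R} (hz : IsCocycle z) (hz' : IsCocycle z') (h : z = z') :
    ev (x0 := x0) z hz = ev z' hz' := by
  subst h; rfl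

end Abstract

/-! ### the right multiplication by `ḡ` on `Q ⧸ Γ̄''` -/

section RMul

variable (Γ'' : Subgroup SL(2, ℤ)) (g : SL(2, ℤ))
  (hn1 : ∀ γ ∈ Γ'', g * γ * g⁻¹ ∈ Γ'') (hn2 : ∀ γ ∈ Γ'', g⁻¹ * γ * g ∈ Γ'')

include hn1 in
theorem Gb_conj1 {x : Q} (hx : x ∈ Gb Γ'') : mkQ g * x * (mkQ g)⁻¹ ∈ Gb Γ'' := by
  obtain ⟨γ, hγ, rfl⟩ := (mem_Gb Γ'').mp hx
  rw [← map_inv, ← map_mul, ← map_mul]
  exact mkQ_mem_Gb Γ'' (hn1 γ hγ)

include hn2 in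
theorem Gb_conj2 {x : Q} (hx : x ∈ Gb Γ'') : (mkQ g)⁻¹ * x * mkQ g ∈ Gb Γ'' := by
  obtain ⟨γ, hγ, rfl⟩ := (mem_Gb Γ'').mp hx
  rw [← map_inv, ← map_mul, ← map_mul]
  exact mkQ_mem_Gb Γ'' (hn2 γ hγ)

/-- right multiplication by `ḡ` on `Q ⧸ Γ̄''`. -/
def rmul : Equiv.Perm (XQ Γ'') where
  toFun := Quotient.map' (fun h => h * mkQ g) (by
    intro a b hab
    rw [QuotientGroup.leftRel_apply] at hab ⊢
    have : (a * mkQ g)⁻¹ * (b * mkQ g) = (mkQ g)⁻¹ * (a⁻¹ * b) * mkQ g := by group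
    rw [this]
    exact Gb_conj2 Γ'' g hn2 hab)
  invFun := Quotient.map' (fun h => h * (mkQ g)⁻¹) (by
    intro a b hab
    rw [QuotientGroup.leftRel_apply] at hab ⊢
    have : (a * (mkQ g)⁻¹)⁻¹ * (b * (mkQ g)⁻¹) = mkQ g * (a⁻¹ * b) * (mkQ g)⁻¹ := by group
    rw [this]
    exact Gb_conj1 Γ'' g hn1 hab)
  left_inv x := by
    induction x using Quotient.inductionOn' with
    | h a =>
      simp only [Quotient.map'_mk'']
      congr 1
      group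
  right_inv x := by
    induction x using Quotient.inductionOn' with
    | h a =>
      simp only [Quotient.map'_mk'']
      congr 1
      group

theorem rmul_mk (a : Q) :
    rmul Γ'' g hn1 hn2 ((a : Q) : Q ⧸ Gb Γ'') = ((a * mkQ g : Q) : Q ⧸ Gb Γ'') := rfl

theorem rmul_pow_mk (j : ℕ) (a : Q) :
    (rmul Γ'' g hn1 hn2 ^ j) ((a : Q) : Q ⧸ Gb Γ'') = ((a * mkQ g ^ j : Q) : Q ⧸ Gb Γ'') := by
  induction j with
  | zero => simp
  | succ j ih =>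
    rw [pow_succ', Equiv.Perm.mul_apply, ih, rmul_mk, pow_succ, mul_assoc]

theorem rmul_smul (q : Q) (x : XQ Γ'') :
    rmul Γ'' g hn1 hn2 (q • x) = q • rmul Γ'' g hn1 hn2 x := by
  induction x using QuotientGroup.induction_on with
  | H a =>
    rw [MulAction.Quotient.smul_mk, rmul_mk, rmul_mk, MulAction.Quotient.smul_mk, smul_eq_mul,
      smul_eq_mul, mul_assoc]

theorem rmul_pow_eq_one {m : ℕ} (hgm : g ^ m ∈ Γ'') : rmul Γ'' g hn1 hn2 ^ m = 1 := by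
  ext x
  induction x using QuotientGroup.induction_on with
  | H a =>
    rw [rmul_pow_mk, Equiv.Perm.one_apply, QuotientGroup.eq]
    have : (a * mkQ g ^ m)⁻¹ * a = (mkQ (g ^ m))⁻¹ := by rw [map_pow]; group
    rw [this]
    exact (Gb Γ'').inv_mem (mkQ_mem_Gb Γ'' hgm)

theorem rmul_free (hneg : (-1 : SL(2, ℤ)) ∈ Γ'') {m : ℕ}
    (hfree : ∀ j : ℕ, 0 < j → j < m → g ^ j ∉ Γ'') (x : XQ Γ'') (j : ℕ) (hj : 0 < j) (hjm : j < m) :
    (rmul Γ'' g hn1 hn2 ^ j) x ≠ x := by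
  induction x using QuotientGroup.induction_on with
  | H a =>
    rw [rmul_pow_mk]
    intro h
    rw [QuotientGroup.eq] at h
    have e : (a * mkQ g ^ j)⁻¹ * a = (mkQ (g ^ j))⁻¹ := by rw [map_pow]; group
    rw [e] at h
    have h' := (Gb Γ'').inv_mem h
    rw [inv_inv, mkQ_mem_Gb_iff hneg] at h'
    exact hfree j hj hjm h'

/-- conjugation by `ḡ⁻¹` on the stabiliser of the base point. -/
def conjStab : stabilizer Q (x0 Γ'') →* stabilizer Q (x0 Γ'') where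
  toFun γ := ⟨(mkQ g)⁻¹ * (γ : Q) * mkQ g,
    (mem_stabilizer_x0 Γ'').mpr (Gb_conj2 Γ'' g hn2 ((mem_stabilizer_x0 Γ'').mp γ.2))⟩
  map_one' := by
    apply Subtype.ext
    simp
  map_mul' a b := by
    apply Subtype.ext
    simp only [Subgroup.coe_mul]
    group

variable (R : Type*) [CommRing R]

/-- `φ ↦ φ ∘ (γ ↦ ḡ⁻¹ γ ḡ)` on `Hom(stabiliser, R)`. -/
def cjb : Module.End R (Additive (stabilizer Q (x0 Γ'')) →+ R) where
  toFun φ := φ.comp (MonoidHom.toAdditive (conjStab Γ'' g hn2))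
  map_add' φ ψ := by refine AddMonoidHom.ext fun γ => ?_; rfl
  map_smul' c φ := by refine AddMonoidHom.ext fun γ => ?_; rfl

variable {R}

theorem cjb_apply (φ : Additive (stabilizer Q (x0 Γ'')) →+ R) (γ : stabilizer Q (x0 Γ'')) :
    cjb Γ'' g hn2 R φ (Additive.ofMul γ) = φ (Additive.ofMul (conjStab Γ'' g hn2 γ)) := rfl

/-- **the evaluation of `z ∘ E` is the conjugate of the evaluation of `z`.** -/
theorem ev_pb {z : Q → XQ Γ'' → R} (hz : IsCocycle z)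
    (hz' : IsCocycle (fun q => pb (rmul Γ'' g hn1 hn2) (z q))) :
    ev (x0 := x0 Γ'') (fun q => pb (rmul Γ'' g hn1 hn2) (z q)) hz'
      = cjb Γ'' g hn2 R (ev (x0 := x0 Γ'') z hz) := by
  refine AddMonoidHom.ext fun γ' => ?_
  obtain ⟨γ, rfl⟩ := Additive.ofMul.surjective γ'
  rw [ev_apply, cjb_apply, ev_apply]
  set h : Q := mkQ g with hh
  have hE : rmul Γ'' g hn1 hn2 (x0 Γ'') = h • x0 Γ'' := by
    rw [smul_x0]
    show rmul Γ'' g hn1 hn2 (((1 : Q) : Q ⧸ Gb Γ'')) = _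
    rw [rmul_mk, one_mul]
  show z (γ : Q) (rmul Γ'' g hn1 hn2 (x0 Γ'')) = z (h⁻¹ * (γ : Q) * h) (x0 Γ'')
  rw [hE]
  have hstab : (h⁻¹ * (γ : Q) * h) ∈ stabilizer Q (x0 Γ'') := (conjStab Γ'' g hn2 γ).2
  have h1 : (γ : Q)⁻¹ • (h • x0 Γ'') = h • x0 Γ'' := by
    have : (h⁻¹ * (γ : Q) * h)⁻¹ • x0 Γ'' = x0 Γ'' := by
      rw [inv_smul_eq_iff]; exact (mem_stabilizer_iff.mp hstab).symm
    have e : (γ : Q)⁻¹ • (h • x0 Γ'') = h • ((h⁻¹ * (γ : Q) * h)⁻¹ • x0 Γ'') := by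
      rw [← mul_smul, ← mul_smul]
      congr 1
      group
    rw [e, this]
  have e1 : z (h⁻¹ * (γ : Q) * h) (x0 Γ'')
      = z h⁻¹ (x0 Γ'') + z (γ : Q) (h • x0 Γ'') + z h (h • x0 Γ'') := by
    rw [mul_assoc, hz, hz]
    simp only [Pi.add_apply, act_apply, inv_inv, map_add, h1]
    ring
  have e2 : z h⁻¹ (x0 Γ'') = - z h (h • x0 Γ'') := by
    rw [hz.map_inv]
    simp only [Pi.neg_apply, act_apply, inv_inv]
  rw [e1, e2]
  ring

theorem isCocycle_pb_pow {z : Q → XQ Γ'' → R} (hz : IsCocycle z) (j : ℕ) :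
    IsCocycle (fun q => pb (rmul Γ'' g hn1 hn2 ^ j) (z q)) :=
  cocycle_comp_linear hz _ (act_pb (comm_pow (rmul_smul Γ'' g hn1 hn2) j))

theorem ev_pb_pow {z : Q → XQ Γ'' → R} (hz : IsCocycle z) (j : ℕ) :
    ev (x0 := x0 Γ'') (fun q => pb (rmul Γ'' g hn1 hn2 ^ j) (z q)) (isCocycle_pb_pow Γ'' g hn1 hn2 hz j)
      = (cjb Γ'' g hn2 R ^ j) (ev (x0 := x0 Γ'') z hz) := by
  induction j with
  | zero =>
    refine AddMonoidHom.ext fun γ => ?_
    obtain ⟨γ, rfl⟩ := Additive.ofMul.surjective γ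
    simp [ev_apply, pb_one]
  | succ j ih =>
    have hc : IsCocycle (fun q => pb (rmul Γ'' g hn1 hn2)
        ((fun q => pb (rmul Γ'' g hn1 hn2 ^ j) (z q)) q)) := by
      have := isCocycle_pb_pow Γ'' g hn1 hn2 hz (j + 1)
      simpa only [pb_pow_succ] using this
    have e := ev_pb Γ'' g hn1 hn2 (isCocycle_pb_pow Γ'' g hn1 hn2 hz j) hc
    rw [ih] at e
    have e' : (cjb Γ'' g hn2 R ^ (j + 1)) (ev (x0 := x0 Γ'') z hz)
        = cjb Γ'' g hn2 R ((cjb Γ'' g hn2 R ^ j) (ev (x0 := x0 Γ'') z hz)) := by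
      rw [pow_succ', Module.End.mul_apply]
    rw [e', ← e]
    apply ev_congr
    funext q
    exact pb_pow_succ _ j (z q)

theorem isCocycle_nrm {z : Q → XQ Γ'' → R} (hz : IsCocycle z) (m : ℕ) :
    IsCocycle (fun q => nrm (rmul Γ'' g hn1 hn2) m (z q)) :=
  cocycle_comp_linear hz _ (act_nrm (rmul_smul Γ'' g hn1 hn2) m)

theorem ev_nrm {z : Q → XQ Γ'' → R} (hz : IsCocycle z) (m : ℕ) :
    ev (x0 := x0 Γ'') (fun q => nrm (rmul Γ'' g hn1 hn2) m (z q)) (isCocycle_nrm Γ'' g hn1 hn2 hz m)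
      = ∑ j ∈ Finset.range m, (cjb Γ'' g hn2 R ^ j) (ev (x0 := x0 Γ'') z hz) := by
  refine AddMonoidHom.ext fun γ' => ?_
  obtain ⟨γ, rfl⟩ := Additive.ofMul.surjective γ'
  rw [ev_apply, nrm_eq_sum, Finset.sum_apply, AddMonoidHom.finset_sum_apply]
  refine Finset.sum_congr rfl fun j _ => ?_
  rw [← ev_pb_pow Γ'' g hn1 hn2 hz j, ev_apply]

end RMul

/-! ### (E2) and (E3) on the stabilisers -/

section Stab

variable (Γ'' : Subgroup SL(2, ℤ)) [Γ''.FiniteIndex] (g : SL(2, ℤ))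
  (hn1 : ∀ γ ∈ Γ'', g * γ * g⁻¹ ∈ Γ'') (hn2 : ∀ γ ∈ Γ'', g⁻¹ * γ * g ∈ Γ'')
  (hneg : (-1 : SL(2, ℤ)) ∈ Γ'') {m : ℕ} (hm : 0 < m) (hgm : g ^ m ∈ Γ'')
  (hfree : ∀ j : ℕ, 0 < j → j < m → g ^ j ∉ Γ'')
  {R : Type*} [CommRing R] [Invertible (2 : R)] [Invertible (3 : R)]

theorem hExt_PSL2 (X : Type*) [MulAction Q X] (R : Type*) [CommRing R] : HExt Sb Ub X R :=
  fun a b ha hb => hext_PSL2 a b ha hb

theorem exists_sec : Nonempty (Sec Q (x0 Γ'')) := by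
  obtain ⟨s, -⟩ := exists_adapted (x0 := x0 Γ'') (Sb * Ub)
  exact ⟨s⟩

include hn1 hneg hm hgm hfree in
/-- **(E2) on the stabiliser.** -/
theorem ker_norm_stab (hreg : ∀ r : R, (m : R) * r = 0 → r = 0)
    (φ : Additive (stabilizer Q (x0 Γ'')) →+ R)
    (hφ : ∑ j ∈ Finset.range m, (cjb Γ'' g hn2 R ^ j) φ = 0) :
    ∃ φ' : Additive (stabilizer Q (x0 Γ'')) →+ R, φ = cjb Γ'' g hn2 R φ' - φ' := by
  obtain ⟨s⟩ := exists_sec Γ''
  set E := rmul Γ'' g hn1 hn2 with hE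
  set z := sh s φ with hz
  have hzc : IsCocycle z := isCocycle_sh s φ
  have hev : ev (x0 := x0 Γ'') z hzc = φ := ev_sh s φ
  -- the norm of `z` is a coboundary
  have hNc := isCocycle_nrm Γ'' g hn1 hn2 hzc m
  have hNev : ev (x0 := x0 Γ'') (fun q => nrm E m (z q)) hNc = 0 := by
    rw [ev_nrm Γ'' g hn1 hn2 hzc m, hev, hφ]
  obtain ⟨ρ, hρ⟩ := cocycle_eq_sh_sub_cob s hNc
  have hρ' : ∀ q, nrm E m (z q) = cob (-ρ) q := by
    intro q
    rw [hρ q, hNev]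
    funext x
    simp only [sh, cob, Pi.sub_apply, AddMonoidHom.zero_apply, act_apply, Pi.neg_apply]
    ring
  haveI : Nonempty (XQ Γ'') := ⟨x0 Γ''⟩
  obtain ⟨z', ρ', hz', hzz'⟩ := cocycle_eq_pb_sub (E := E) hm (rmul_pow_eq_one Γ'' g hn1 hn2 hgm)
    (rmul_free Γ'' g hn1 hn2 hneg hfree) (rmul_smul Γ'' g hn1 hn2) Sb_sq Ub_cube closure_Sb_Ub
    (hExt_PSL2 _ R) hreg hzc hρ'
  refine ⟨ev (x0 := x0 Γ'') z' hz', ?_⟩
  have hc1 : IsCocycle (fun q => pb E (z' q)) := by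
    have := isCocycle_pb_pow Γ'' g hn1 hn2 hz' 1
    simpa only [pow_one] using this
  have e : z = (fun q => pb E (z' q)) - z' + cob ρ' := by
    funext q
    exact hzz' q
  have h1 : ev (x0 := x0 Γ'') z hzc
      = ev (x0 := x0 Γ'') ((fun q => pb E (z' q)) - z' + cob ρ')
          ((hc1.sub hz').add (isCocycle_cob ρ')) := ev_congr _ _ e
  rw [ev_add (hc1.sub hz') (isCocycle_cob ρ'), ev_sub hc1 hz', ev_cob, add_zero,
    ev_pb Γ'' g hn1 hn2 hz' hc1, hev] at h1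
  exact h1

variable (Γ' : Subgroup SL(2, ℤ)) [Γ'.FiniteIndex] (hle : Γ'' ≤ Γ') (hg : g ∈ Γ')

include hle in
theorem Gb_le : Gb Γ'' ≤ Gb Γ' := Subgroup.map_mono hle

/-- the projection `Q ⧸ Γ̄'' → Q ⧸ Γ̄'`. -/
def proj : XQ Γ'' → XQ Γ' := Subgroup.quotientMapOfLE (Gb_le Γ'' Γ' hle)

theorem proj_mk (a : Q) : proj Γ'' Γ' hle ((a : Q) : Q ⧸ Gb Γ'') = ((a : Q) : Q ⧸ Gb Γ') := rfl

theorem proj_smul (q : Q) (x : XQ Γ'') : proj Γ'' Γ' hle (q • x) = q • proj Γ'' Γ' hle x := by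
  induction x using QuotientGroup.induction_on with
  | H a => rfl

theorem proj_x0 : proj Γ'' Γ' hle (x0 Γ'') = x0 Γ' := rfl

include hg in
theorem proj_rmul (x : XQ Γ'') : proj Γ'' Γ' hle (rmul Γ'' g hn1 hn2 x) = proj Γ'' Γ' hle x := by
  induction x using QuotientGroup.induction_on with
  | H a =>
    rw [rmul_mk, proj_mk, proj_mk, QuotientGroup.eq]
    have : (a * mkQ g)⁻¹ * a = (mkQ g)⁻¹ := by group
    rw [this]
    exact (Gb Γ').inv_mem (mkQ_mem_Gb Γ' hg)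

/-- the inclusion of the stabilisers. -/
def stabIncl : stabilizer Q (x0 Γ'') →* stabilizer Q (x0 Γ') where
  toFun γ := ⟨(γ : Q), (mem_stabilizer_x0 Γ').mpr (Gb_le Γ'' Γ' hle ((mem_stabilizer_x0 Γ'').mp γ.2))⟩
  map_one' := rfl
  map_mul' _ _ := rfl

include hn1 hneg hm hgm hfree hg in
/-- **(E3) on the stabilisers.** -/
theorem res_mem_norm_stab (Φ : Additive (stabilizer Q (x0 Γ')) →+ R) :
    ∃ φ'' : Additive (stabilizer Q (x0 Γ'')) →+ R,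
      Φ.comp (MonoidHom.toAdditive (stabIncl Γ'' Γ' hle))
        = ∑ j ∈ Finset.range m, (cjb Γ'' g hn2 R ^ j) φ'' := by
  obtain ⟨s⟩ := exists_sec Γ'
  set E := rmul Γ'' g hn1 hn2 with hE
  set y := sh s Φ with hy
  have hyc : IsCocycle y := isCocycle_sh s Φ
  -- the pull-back of `y`
  let z₀ : Q → XQ Γ'' → R := fun q x => y q (proj Γ'' Γ' hle x)
  have hz₀ : IsCocycle z₀ := by
    intro a b
    funext x
    show y (a * b) (proj Γ'' Γ' hle x) = y a (proj Γ'' Γ' hle x) + y b (proj Γ'' Γ' hle (a⁻¹ • x))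
    rw [hyc a b, proj_smul]
    rfl
  have hinv : ∀ q, pb E (z₀ q) = z₀ q := by
    intro q
    funext x
    show y q (proj Γ'' Γ' hle (E x)) = y q (proj Γ'' Γ' hle x)
    rw [proj_rmul Γ'' g hn1 hn2 Γ' hle hg]
  obtain ⟨z', hz', hzz'⟩ := cocycle_eq_nrm (E := E) hm (rmul_pow_eq_one Γ'' g hn1 hn2 hgm)
    (rmul_free Γ'' g hn1 hn2 hneg hfree) (rmul_smul Γ'' g hn1 hn2) Sb_sq Ub_cube closure_Sb_Ub
    (hExt_PSL2 _ R) hz₀ hinv
  refine ⟨ev (x0 := x0 Γ'') z' hz', ?_⟩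
  rw [← ev_nrm Γ'' g hn1 hn2 hz' m]
  have e : z₀ = fun q => nrm E m (z' q) := funext hzz'
  rw [← ev_congr hz₀ (isCocycle_nrm Γ'' g hn1 hn2 hz' m) e]
  refine AddMonoidHom.ext fun γ' => ?_
  obtain ⟨γ, rfl⟩ := Additive.ofMul.surjective γ'
  rw [ev_apply]
  show Φ (Additive.ofMul (stabIncl Γ'' Γ' hle γ)) = y (γ : Q) (x0 Γ')
  rw [hy]
  exact (sh_base s Φ (stabIncl Γ'' Γ' hle γ)).symm

end Stab

/-! ### (E2) and (E3) on the groups -/

section Groups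

variable (Γ'' : Subgroup SL(2, ℤ)) [Γ''.FiniteIndex] (g : SL(2, ℤ))
  (hn1 : ∀ γ ∈ Γ'', g * γ * g⁻¹ ∈ Γ'') (hn2 : ∀ γ ∈ Γ'', g⁻¹ * γ * g ∈ Γ'')
  (hneg : (-1 : SL(2, ℤ)) ∈ Γ'') {m : ℕ} (hm : 0 < m) (hgm : g ^ m ∈ Γ'')
  (hfree : ∀ j : ℕ, 0 < j → j < m → g ^ j ∉ Γ'')
  {R : Type*} [CommRing R] [Invertible (2 : R)] [Invertible (3 : R)]

/-- conjugation `γ ↦ g⁻¹ γ g` on `Γ''`. -/
def conjHom : Γ'' →* Γ'' where
  toFun γ := ⟨g⁻¹ * (γ : SL(2, ℤ)) * g, hn2 γ γ.2⟩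
  map_one' := by
    apply Subtype.ext
    simp
  map_mul' a b := by
    apply Subtype.ext
    simp only [Subgroup.coe_mul]
    group

variable (R) in
/-- `φ ↦ φ ∘ (γ ↦ g⁻¹ γ g)` on `Hom(Γ'', R)`. -/
def cj : Module.End R (Additive Γ'' →+ R) where
  toFun φ := φ.comp (MonoidHom.toAdditive (conjHom Γ'' g hn2))
  map_add' φ ψ := by refine AddMonoidHom.ext fun γ => ?_; rfl
  map_smul' c φ := by refine AddMonoidHom.ext fun γ => ?_; rfl

theorem cj_apply (φ : Additive Γ'' →+ R) (γ : Γ'') :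
    cj Γ'' g hn2 R φ (Additive.ofMul γ)
      = φ (Additive.ofMul (⟨g⁻¹ * (γ : SL(2, ℤ)) * g, hn2 γ γ.2⟩ : Γ'')) := rfl

theorem toStab_conjHom (γ : Γ'') :
    toStab Γ'' (conjHom Γ'' g hn2 γ) = conjStab Γ'' g hn2 (toStab Γ'' γ) := by
  apply Subtype.ext
  show mkQ (g⁻¹ * (γ : SL(2, ℤ)) * g) = (mkQ g)⁻¹ * mkQ γ * mkQ g
  rw [map_mul, map_mul, map_inv]

theorem pull_cjb (φ : Additive (stabilizer Q (x0 Γ'')) →+ R) :
    pull Γ'' R (cjb Γ'' g hn2 R φ) = cj Γ'' g hn2 R (pull Γ'' R φ) := by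
  refine AddMonoidHom.ext fun γ' => ?_
  obtain ⟨γ, rfl⟩ := Additive.ofMul.surjective γ'
  show φ (Additive.ofMul (conjStab Γ'' g hn2 (toStab Γ'' γ)))
    = φ (Additive.ofMul (toStab Γ'' (conjHom Γ'' g hn2 γ)))
  rw [toStab_conjHom]

theorem pull_cjb_pow (j : ℕ) (φ : Additive (stabilizer Q (x0 Γ'')) →+ R) :
    pull Γ'' R ((cjb Γ'' g hn2 R ^ j) φ) = (cj Γ'' g hn2 R ^ j) (pull Γ'' R φ) := by
  induction j generalizing φ with
  | zero => simp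
  | succ j ih =>
    rw [pow_succ, Module.End.mul_apply, ih, pull_cjb, pow_succ, Module.End.mul_apply]

theorem two_torsion_free (r : R) (h : 2 • r = 0) : r = 0 := by
  have h' : (2 : R) * r = 0 := by rwa [two_smul, ← two_mul] at h
  have := congrArg (fun x => ⅟ (2 : R) * x) h'
  simpa [← mul_assoc] using this

include hn1 hneg hm hgm hfree in
/-- **(E2)**: a homomorphism of norm zero is `cj φ' - φ'`. -/
theorem ker_norm (hreg : ∀ r : R, (m : R) * r = 0 → r = 0) (φ : Additive Γ'' →+ R)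
    (hφ : ∑ j ∈ Finset.range m, (cj Γ'' g hn2 R ^ j) φ = 0) :
    ∃ φ' : Additive Γ'' →+ R, φ = cj Γ'' g hn2 R φ' - φ' := by
  set φb := push Γ'' two_torsion_free φ with hφb
  have hpull : pull Γ'' R φb = φ := pull_push Γ'' two_torsion_free φ
  have hφb0 : ∑ j ∈ Finset.range m, (cjb Γ'' g hn2 R ^ j) φb = 0 := by
    apply pull_injective Γ''
    rw [map_sum, map_zero]
    simp only [pull_cjb_pow, hpull]
    exact hφ
  obtain ⟨φb', h⟩ := ker_norm_stab Γ'' g hn1 hn2 hneg hm hgm hfree hreg φb hφb0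
  refine ⟨pull Γ'' R φb', ?_⟩
  rw [← hpull, h, map_sub, pull_cjb]

variable (Γ' : Subgroup SL(2, ℤ)) [Γ'.FiniteIndex] (hle : Γ'' ≤ Γ') (hg : g ∈ Γ')

include hn1 hneg hm hgm hfree hg in
/-- **(E3)**: the restriction of a homomorphism on `Γ'` is a norm. -/
theorem res_mem_norm (Φ : Additive Γ' →+ R) :
    ∃ φ'' : Additive Γ'' →+ R,
      Φ.comp (MonoidHom.toAdditive (Subgroup.inclusion hle))
        = ∑ j ∈ Finset.range m, (cj Γ'' g hn2 R ^ j) φ'' := by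
  set Φb := push Γ' two_torsion_free Φ with hΦb
  have hpull : pull Γ' R Φb = Φ := pull_push Γ' two_torsion_free Φ
  obtain ⟨φb'', h⟩ := res_mem_norm_stab Γ'' g hn1 hn2 hneg hm hgm hfree Γ' hle hg Φb
  refine ⟨pull Γ'' R φb'', ?_⟩
  have h' := congrArg (pull Γ'' R) h
  rw [map_sum] at h'
  simp only [pull_cjb_pow] at h'
  rw [← h', ← hpull]
  refine AddMonoidHom.ext fun γ => ?_
  rfl

end Groups

end Fermat.Agent.M43.ShapHom0
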