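/-
Programme M43 (target S43), Hecke side, chapter (6b) FREENESS (lead): **the facts (E1), (E4), (E5)
for a cyclic step `Γ'' ⊲ Γ' = ⋃ g^k Γ''`** and a class-preserving coset operator.

`Γ'' ≤ Γ' ≤ SL(2, ℤ)`, `g ∈ Γ'` normalises `Γ''`, every element of `Γ'` is `g ^ k γ''`, and
`g ^ k ∈ Γ'' → m ∣ k`.  `cj = ShapHom0.cj : φ ↦ φ ∘ (γ ↦ g⁻¹ γ g)` on `Hom(Γ'', R)`.

* `ap φ x` : evaluation of `φ : Hom(Γ'', R)` at `x : SL(2, ℤ)` (`0` outside `Γ''`), `ap_mul`, …;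
* (E1) `res_injective`, `cj_res`;
* **`exists_extension`** : a `cj`-invariant `ψ` with `ψ (g ^ m) = m • t` extends to `Γ'`;
* `IsClassPres T Γ''` : `coc γ i γ⁻¹ ∈ Γ''` for all `γ ∈ Γ'`; `restrictCP` := the restriction to `Γ''`;
* (E5) **`restrictCP_cj`** : the restricted operator commutes with `cj`;
* (E4) **`exists_res_eq_hecke_sub`** : for `cj φ = φ`, `T'' φ - |I| • φ` extends to `Γ'`.
-/
import Mathlib
import Fermat.Agent.M43.HeckeH0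
import Fermat.Agent.M43.ShapHom0

set_option autoImplicit false

open scoped Classical MatrixGroups

noncomputable section

namespace Fermat.Agent.M43.ExtCyc0

open Fermat.Agent.M48.ESInv3 Fermat.Agent.M48.CosetOp3 Fermat.Agent.M43.HeckeH0
  Fermat.Agent.M43.ShapHom0

variable {Γ'' : Subgroup SL(2, ℤ)} {R : Type*} [CommRing R]

/-! ### evaluation at elements of `SL(2, ℤ)` -/

/-- evaluation of `φ` at `x : SL(2, ℤ)` (`0` outside `Γ''`). -/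
def ap (φ : Additive Γ'' →+ R) (x : SL(2, ℤ)) : R :=
  if hx : x ∈ Γ'' then φ (Additive.ofMul (⟨x, hx⟩ : Γ'')) else 0

theorem ap_of_mem (φ : Additive Γ'' →+ R) {x : SL(2, ℤ)} (hx : x ∈ Γ'') :
    ap φ x = φ (Additive.ofMul (⟨x, hx⟩ : Γ'')) := dif_pos hx

theorem ap_coe (φ : Additive Γ'' →+ R) (γ : Γ'') : ap φ (γ : SL(2, ℤ)) = φ (Additive.ofMul γ) := by
  rw [ap_of_mem φ γ.2]

theorem ap_mul (φ : Additive Γ'' →+ R) {x y : SL(2, ℤ)} (hx : x ∈ Γ'') (hy : y ∈ Γ'') :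
    ap φ (x * y) = ap φ x + ap φ y := by
  rw [ap_of_mem φ hx, ap_of_mem φ hy, ap_of_mem φ (Γ''.mul_mem hx hy), ← map_add]
  rfl

theorem ap_one (φ : Additive Γ'' →+ R) : ap φ (1 : SL(2, ℤ)) = 0 := by
  rw [ap_of_mem φ Γ''.one_mem]
  exact map_zero φ

theorem ap_inv (φ : Additive Γ'' →+ R) {x : SL(2, ℤ)} (hx : x ∈ Γ'') : ap φ x⁻¹ = - ap φ x := by
  have h := ap_mul φ hx (Γ''.inv_mem hx)
  rw [mul_inv_cancel, ap_one] at h
  exact eq_neg_of_add_eq_zero_right h.symm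

theorem ap_mul_inv (φ : Additive Γ'' →+ R) {x y : SL(2, ℤ)} (hx : x ∈ Γ'') (hy : y ∈ Γ'') :
    ap φ (x * y⁻¹) = ap φ x - ap φ y := by
  rw [ap_mul φ hx (Γ''.inv_mem hy), ap_inv φ hy, sub_eq_add_neg]

theorem ap_pow (φ : Additive Γ'' →+ R) {x : SL(2, ℤ)} (hx : x ∈ Γ'') (n : ℕ) :
    ap φ (x ^ n) = n • ap φ x := by
  induction n with
  | zero => simp [ap_one]
  | succ n ih => rw [pow_succ, ap_mul φ (Γ''.pow_mem hx n) hx, ih, succ_nsmul]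

theorem ap_zpow (φ : Additive Γ'' →+ R) {x : SL(2, ℤ)} (hx : x ∈ Γ'') (n : ℤ) :
    ap φ (x ^ n) = n • ap φ x := by
  cases n with
  | ofNat n => simp [ap_pow φ hx]
  | negSucc n =>
    rw [zpow_negSucc, ap_inv φ (Γ''.pow_mem hx _), ap_pow φ hx, negSucc_zsmul]

theorem ap_add (φ ψ : Additive Γ'' →+ R) (x : SL(2, ℤ)) : ap (φ + ψ) x = ap φ x + ap ψ x := by
  unfold ap
  split_ifs <;> simp

theorem ap_sub (φ ψ : Additive Γ'' →+ R) (x : SL(2, ℤ)) : ap (φ - ψ) x = ap φ x - ap ψ x := by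
  unfold ap
  split_ifs <;> simp

theorem ap_nsmul (n : ℕ) (φ : Additive Γ'' →+ R) (x : SL(2, ℤ)) : ap (n • φ) x = n • ap φ x := by
  unfold ap
  split_ifs <;> simp

theorem ext_ap {φ ψ : Additive Γ'' →+ R} (h : ∀ x ∈ Γ'', ap φ x = ap ψ x) : φ = ψ := by
  refine AddMonoidHom.ext fun γ' => ?_
  obtain ⟨γ, rfl⟩ := Additive.ofMul.surjective γ'
  rw [← ap_coe, ← ap_coe]
  exact h _ γ.2

/-! ### the cyclic step -/

section Step

variable {Γ' : Subgroup SL(2, ℤ)} (hle : Γ'' ≤ Γ') (g : SL(2, ℤ)) (hg : g ∈ Γ')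
  (hn1 : ∀ γ ∈ Γ'', g * γ * g⁻¹ ∈ Γ'') (hn2 : ∀ γ ∈ Γ'', g⁻¹ * γ * g ∈ Γ'')

theorem ap_cj (φ : Additive Γ'' →+ R) {x : SL(2, ℤ)} (hx : x ∈ Γ'') :
    ap (cj Γ'' g hn2 R φ) x = ap φ (g⁻¹ * x * g) := by
  rw [ap_of_mem _ hx, ap_of_mem _ (hn2 x hx)]
  rfl

include hn1 hn2 in
theorem zpow_conj_mem (k : ℤ) {x : SL(2, ℤ)} (hx : x ∈ Γ'') : g ^ k * x * g ^ (-k) ∈ Γ'' := by
  have hpos : ∀ n : ℕ, ∀ y ∈ Γ'', g ^ n * y * (g ^ n)⁻¹ ∈ Γ'' := by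
    intro n
    induction n with
    | zero => intro y hy; simpa using hy
    | succ n ih =>
      intro y hy
      have := hn1 _ (ih y hy)
      have e : g ^ (n + 1) * y * (g ^ (n + 1))⁻¹ = g * (g ^ n * y * (g ^ n)⁻¹) * g⁻¹ := by
        rw [pow_succ']; group
      rw [e]; exact this
  have hneg : ∀ n : ℕ, ∀ y ∈ Γ'', (g ^ n)⁻¹ * y * g ^ n ∈ Γ'' := by
    intro n
    induction n with
    | zero => intro y hy; simpa using hy
    | succ n ih =>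
      intro y hy
      have := hn2 _ (ih y hy)
      have e : (g ^ (n + 1))⁻¹ * y * g ^ (n + 1) = g⁻¹ * ((g ^ n)⁻¹ * y * g ^ n) * g := by
        rw [pow_succ]; group
      rw [e]; exact this
  cases k with
  | ofNat n =>
    have := hpos n x hx
    simpa [zpow_neg] using this
  | negSucc n =>
    have := hneg (n + 1) x hx
    have e : -(Int.negSucc n) = ((n + 1 : ℕ) : ℤ) := rfl
    rw [zpow_negSucc, e, zpow_natCast]
    exact this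

include hn1 in
/-- a `cj`-invariant homomorphism is invariant under conjugation by all powers of `g`. -/
theorem ap_zpow_conj {φ : Additive Γ'' →+ R} (hφ : cj Γ'' g hn2 R φ = φ) (k : ℤ) {x : SL(2, ℤ)}
    (hx : x ∈ Γ'') : ap φ (g ^ k * x * g ^ (-k)) = ap φ x := by
  have h1 : ∀ y ∈ Γ'', ap φ (g⁻¹ * y * g) = ap φ y := by
    intro y hy
    rw [← ap_cj g hn2 φ hy, hφ]
  have h2 : ∀ y ∈ Γ'', ap φ (g * y * g⁻¹) = ap φ y := by
    intro y hy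
    have := h1 _ (hn1 y hy)
    rw [← this]
    congr 1
    group
  have hpos : ∀ n : ℕ, ∀ y ∈ Γ'', ap φ (g ^ n * y * (g ^ n)⁻¹) = ap φ y := by
    intro n
    induction n with
    | zero => intro y hy; simp
    | succ n ih =>
      intro y hy
      have hmem : g ^ n * y * (g ^ n)⁻¹ ∈ Γ'' := by
        have := zpow_conj_mem g hn1 hn2 (n : ℤ) hy
        simpa [zpow_neg] using this
      have e : g ^ (n + 1) * y * (g ^ (n + 1))⁻¹ = g * (g ^ n * y * (g ^ n)⁻¹) * g⁻¹ := by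
        rw [pow_succ']; group
      rw [e, h2 _ hmem, ih y hy]
  have hneg : ∀ n : ℕ, ∀ y ∈ Γ'', ap φ ((g ^ n)⁻¹ * y * g ^ n) = ap φ y := by
    intro n
    induction n with
    | zero => intro y hy; simp
    | succ n ih =>
      intro y hy
      have hmem : (g ^ n)⁻¹ * y * g ^ n ∈ Γ'' := by
        have := zpow_conj_mem g hn1 hn2 (-(n : ℤ)) hy
        simpa [zpow_neg] using this
      have e : (g ^ (n + 1))⁻¹ * y * g ^ (n + 1) = g⁻¹ * ((g ^ n)⁻¹ * y * g ^ n) * g := by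
        rw [pow_succ]; group
      rw [e, h1 _ hmem, ih y hy]
  cases k with
  | ofNat n =>
    have := hpos n x hx
    simpa [zpow_neg] using this
  | negSucc n =>
    have := hneg (n + 1) x hx
    have e : -(Int.negSucc n) = ((n + 1 : ℕ) : ℤ) := rfl
    rw [zpow_negSucc, e, zpow_natCast]
    exact this

/-- restriction `Hom(Γ', R) → Hom(Γ'', R)`. -/
abbrev res (Φ : Additive Γ' →+ R) : Additive Γ'' →+ R := resHom hle Φ

theorem ap_res (Φ : Additive Γ' →+ R) {x : SL(2, ℤ)} (hx : x ∈ Γ'') :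
    ap (res hle Φ) x = Φ (Additive.ofMul (⟨x, hle hx⟩ : Γ')) := by
  rw [ap_of_mem _ hx]
  rfl

include hg in
/-- (E1) restrictions are `cj`-invariant. -/
theorem cj_res (Φ : Additive Γ' →+ R) : cj Γ'' g hn2 R (res hle Φ) = res hle Φ := by
  apply ext_ap
  intro x hx
  rw [ap_cj g hn2 _ hx, ap_res hle Φ (hn2 x hx), ap_res hle Φ hx]
  have e : (⟨g⁻¹ * x * g, hle (hn2 x hx)⟩ : Γ')
      = (⟨g, hg⟩ : Γ')⁻¹ * ⟨x, hle hx⟩ * ⟨g, hg⟩ := rfl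
  rw [e, ofMul_mul, ofMul_mul, ofMul_inv, map_add, map_add, map_neg]
  abel

variable {m : ℕ} (hm : 0 < m)
  (hcos : ∀ γ ∈ Γ', ∃ k : ℤ, g ^ (-k) * γ ∈ Γ'')
  (hdvd : ∀ k : ℤ, g ^ k ∈ Γ'' → (m : ℤ) ∣ k)
  (hgm : g ^ m ∈ Γ'')

include hg hm hcos hgm in
/-- (E1) the restriction is injective (`m` regular on `R`). -/
theorem res_injective (hreg : ∀ r : R, m • r = 0 → r = 0) (Φ : Additive Γ' →+ R)
    (h : res hle Φ = 0) : Φ = 0 := by
  have h0 : ∀ x (hx : x ∈ Γ''), Φ (Additive.ofMul (⟨x, hle hx⟩ : Γ')) = 0 := by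
    intro x hx
    rw [← ap_res hle Φ hx, h]
    unfold ap
    split_ifs <;> simp
  have hΦg : Φ (Additive.ofMul (⟨g, hg⟩ : Γ')) = 0 := by
    apply hreg
    have := h0 _ hgm
    have e : (⟨g ^ m, hle hgm⟩ : Γ') = (⟨g, hg⟩ : Γ') ^ m := rfl
    rw [e, ofMul_pow, map_nsmul] at this
    exact this
  refine AddMonoidHom.ext fun γ' => ?_
  obtain ⟨γ, rfl⟩ := Additive.ofMul.surjective γ'
  obtain ⟨k, hk⟩ := hcos γ γ.2
  have e : γ = (⟨g, hg⟩ : Γ') ^ k * ⟨g ^ (-k) * γ, hle hk⟩ := by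
    apply Subtype.ext
    simp only [Subgroup.coe_mul, Subgroup.coe_zpow]
    group
  rw [e, ofMul_mul, map_add, h0 _ hk, ofMul_zpow, map_zsmul, hΦg]
  simp

include hdvd hgm in
/-- the value `k • t + ψ (g ^ (-k) γ)` does not depend on `k`. -/
theorem ext_indep {ψ : Additive Γ'' →+ R} {t : R} (hψm : ap ψ (g ^ m) = m • t)
    {γ : SL(2, ℤ)} {k k' : ℤ} (hk : g ^ (-k) * γ ∈ Γ'') (hk' : g ^ (-k') * γ ∈ Γ'') :
    k • t + ap ψ (g ^ (-k) * γ) = k' • t + ap ψ (g ^ (-k') * γ) := by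
  have hmem : g ^ (k' - k) ∈ Γ'' := by
    have := Γ''.mul_mem hk (Γ''.inv_mem hk')
    have e : g ^ (-k) * γ * (g ^ (-k') * γ)⁻¹ = g ^ (k' - k) := by
      rw [sub_eq_add_neg, zpow_add, zpow_neg, zpow_neg]
      group
    rwa [e] at this
  obtain ⟨a, ha⟩ := hdvd _ hmem
  have e1 : g ^ (-k) * γ = g ^ (k' - k) * (g ^ (-k') * γ) := by
    rw [sub_eq_add_neg, zpow_add, zpow_neg, zpow_neg]
    group
  have e2 : g ^ (k' - k) = (g ^ m) ^ a := by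
    rw [ha, zpow_mul, zpow_natCast]
  rw [e1, ap_mul ψ hmem hk', e2, ap_zpow ψ hgm, hψm]
  have hk'' : k' = k + (m : ℤ) * a := by omega
  rw [hk'', add_smul, mul_smul, natCast_zsmul, smul_comm a m t]
  abel

include hn1 hcos hdvd hgm in
/-- **the extension criterion**: a `cj`-invariant `ψ` with `ψ (g ^ m) = m • t` extends to `Γ'`. -/
theorem exists_extension {ψ : Additive Γ'' →+ R} (hψ : cj Γ'' g hn2 R ψ = ψ) {t : R}
    (hψm : ap ψ (g ^ m) = m • t) : ∃ Ψ : Additive Γ' →+ R, res hle Ψ = ψ := by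
  -- the chosen exponents
  let κ : Γ' → ℤ := fun γ => (hcos γ γ.2).choose
  have hκ : ∀ γ : Γ', g ^ (-κ γ) * (γ : SL(2, ℤ)) ∈ Γ'' := fun γ => (hcos γ γ.2).choose_spec
  let F : Γ' → R := fun γ => κ γ • t + ap ψ (g ^ (-κ γ) * (γ : SL(2, ℤ)))
  have hF : ∀ (γ : Γ') (k : ℤ), g ^ (-k) * (γ : SL(2, ℤ)) ∈ Γ'' →
      F γ = k • t + ap ψ (g ^ (-k) * (γ : SL(2, ℤ))) := fun γ k hk =>
    ext_indep g hdvd hgm hψm (hκ γ) hk
  have hadd : ∀ γ δ : Γ', F (γ * δ) = F γ + F δ := by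
    intro γ δ
    set k₁ := κ γ with hk₁
    set k₂ := κ δ with hk₂
    have h1 := hκ γ
    have h2 := hκ δ
    rw [← hk₁] at h1
    rw [← hk₂] at h2
    have hc : g ^ (-k₂) * (g ^ (-k₁) * (γ : SL(2, ℤ))) * g ^ (- -k₂) ∈ Γ'' :=
      zpow_conj_mem g hn1 hn2 (-k₂) h1
    have e : g ^ (-(k₁ + k₂)) * ((γ * δ : Γ') : SL(2, ℤ))
        = (g ^ (-k₂) * (g ^ (-k₁) * (γ : SL(2, ℤ))) * g ^ (- -k₂)) * (g ^ (-k₂) * (δ : SL(2, ℤ))) := by
      rw [Subgroup.coe_mul, neg_add, zpow_add, neg_neg, zpow_neg, zpow_neg]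
      group
    have hmem : g ^ (-(k₁ + k₂)) * ((γ * δ : Γ') : SL(2, ℤ)) ∈ Γ'' := by
      rw [e]; exact Γ''.mul_mem hc h2
    rw [hF (γ * δ) (k₁ + k₂) hmem, e, ap_mul ψ hc h2, ap_zpow_conj g hn1 hn2 hψ (-k₂) h1]
    show _ = (k₁ • t + ap ψ (g ^ (-k₁) * (γ : SL(2, ℤ)))) + (k₂ • t + ap ψ (g ^ (-k₂) * (δ : SL(2, ℤ))))
    rw [add_smul]
    abel
  have hone : F 1 = 0 := by
    have := hadd 1 1
    rw [mul_one] at this
    exact left_eq_add.mp this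
  refine ⟨{ toFun := fun γ => F (Additive.toMul γ), map_zero' := hone,
            map_add' := fun γ δ => hadd _ _ }, ?_⟩
  apply ext_ap
  intro x hx
  rw [ap_res hle _ hx]
  show F ⟨x, hle hx⟩ = ap ψ x
  have h0 : g ^ (-(0 : ℤ)) * ((⟨x, hle hx⟩ : Γ') : SL(2, ℤ)) ∈ Γ'' := by simpa using hx
  rw [hF _ 0 h0]
  simp

end Step

/-! ### class-preserving coset operators -/

section CP

variable {Γ' : Subgroup SL(2, ℤ)} (hle : Γ'' ≤ Γ')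

/-- the cocycle of `T` preserves the classes modulo `Γ''`. -/
def IsClassPres (T : CosetOp Γ') (Γ'' : Subgroup SL(2, ℤ)) : Prop :=
  ∀ (γ : Γ') (i : T.I), ((T.coc γ i : Γ') : SL(2, ℤ)) * ((γ : Γ') : SL(2, ℤ))⁻¹ ∈ Γ''

theorem IsClassPres.coc_mem {T : CosetOp Γ'} (hT : IsClassPres T Γ'') (γ : Γ') (i : T.I)
    (hγ : (γ : SL(2, ℤ)) ∈ Γ'') : ((T.coc γ i : Γ') : SL(2, ℤ)) ∈ Γ'' := by
  have := Γ''.mul_mem (hT γ i) hγ
  simpa using this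

/-- the restriction of a class-preserving operator to `Γ''`. -/
def restrictCP (T : CosetOp Γ') (hT : IsClassPres T Γ'') : CosetOp Γ'' :=
  restrict T Γ'' hle (fun γ i hγ => hT.coc_mem γ i hγ)

theorem restrictCP_addHom_apply (T : CosetOp Γ') (hT : IsClassPres T Γ'')
    (φ : Additive Γ'' →+ R) {x : SL(2, ℤ)} (hx : x ∈ Γ'') :
    ap ((restrictCP hle T hT).addHom φ) x
      = ∑ i : T.I, ap φ ((T.coc (⟨x, hle hx⟩ : Γ') i : Γ') : SL(2, ℤ)) := by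
  rw [ap_of_mem _ hx, CosetOp.addHom_apply]
  refine Finset.sum_congr rfl fun i _ => ?_
  rw [← ap_coe]
  rfl

theorem restrictCP_res (T : CosetOp Γ') (hT : IsClassPres T Γ'') (Φ : Additive Γ' →+ R) :
    (restrictCP hle T hT).addHom (resHom hle Φ) = resHom hle (T.addHom Φ) :=
  restrict_addHom T Γ'' hle _ Φ

variable (g : SL(2, ℤ)) (hg : g ∈ Γ')
  (hn1 : ∀ γ ∈ Γ'', g * γ * g⁻¹ ∈ Γ'') (hn2 : ∀ γ ∈ Γ'', g⁻¹ * γ * g ∈ Γ'')

theorem coc_inv (T : CosetOp Γ') (a : Γ') (i : T.I) :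
    T.coc a⁻¹ i = (T.coc a (T.perm a⁻¹ i))⁻¹ := by
  have h := T.coc_mul a⁻¹ a i
  rw [inv_mul_cancel, coc_one] at h
  exact eq_inv_of_mul_eq_one_left h.symm

include hg hn1 in
/-- **(E5)** the restriction of a class-preserving operator commutes with `cj`. -/
theorem restrictCP_cj (T : CosetOp Γ') (hT : IsClassPres T Γ'') (φ : Additive Γ'' →+ R) :
    (restrictCP hle T hT).addHom (cj Γ'' g hn2 R φ)
      = cj Γ'' g hn2 R ((restrictCP hle T hT).addHom φ) := by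
  apply ext_ap
  intro x hx
  have hx' : g⁻¹ * x * g ∈ Γ'' := hn2 x hx
  rw [ap_cj g hn2 _ hx, restrictCP_addHom_apply hle T hT _ hx,
    restrictCP_addHom_apply hle T hT _ hx']
  -- notation
  set G : Γ' := (⟨g, hg⟩ : Γ')⁻¹ with hG
  set γ : Γ' := ⟨x, hle hx⟩ with hγ
  have hGc : ((G : Γ') : SL(2, ℤ)) = g⁻¹ := rfl
  have eγ : (⟨g⁻¹ * x * g, hle hx'⟩ : Γ') = G * γ * G⁻¹ := by
    apply Subtype.ext
    simp [hG, hγ]
  rw [eγ]
  -- the elements `x_i = coc(G, i) g`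
  let xx : T.I → SL(2, ℤ) := fun i => ((T.coc G i : Γ') : SL(2, ℤ)) * g
  have hxx : ∀ i, xx i ∈ Γ'' := by
    intro i
    have := hT G i
    rw [hGc, inv_inv] at this
    exact this
  have hmid : ∀ i, g⁻¹ * ((T.coc γ i : Γ') : SL(2, ℤ)) * g ∈ Γ'' :=
    fun i => hn2 _ (hT.coc_mem γ i hx)
  set π := T.perm (G * γ * G⁻¹) with hπ
  have key : ∀ i, ((T.coc (G * γ * G⁻¹) i : Γ') : SL(2, ℤ))
      = xx i * (g⁻¹ * ((T.coc γ (T.perm G i) : Γ') : SL(2, ℤ)) * g) * (xx (π i))⁻¹ := by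
    intro i
    rw [T.coc_mul, T.coc_mul, coc_inv T G]
    have hp : T.perm G⁻¹ (T.perm (G * γ) i) = π i := by
      rw [hπ, T.perm_mul (G * γ) G⁻¹]
    rw [hp]
    simp only [Subgroup.coe_mul, Subgroup.coe_inv, xx]
    group
  have hsum : ∀ i, ap φ ((T.coc (G * γ * G⁻¹) i : Γ') : SL(2, ℤ))
      = ap φ (xx i) + ap φ (g⁻¹ * ((T.coc γ (T.perm G i) : Γ') : SL(2, ℤ)) * g)
        - ap φ (xx (π i)) := by
    intro i
    rw [key i, ap_mul_inv φ (Γ''.mul_mem (hxx i) (hmid _)) (hxx _), ap_mul φ (hxx i) (hmid _)]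
  simp only [hsum, Finset.sum_sub_distrib, Finset.sum_add_distrib]
  have h1 : ∑ i, ap φ (xx (π i)) = ∑ i, ap φ (xx i) := Equiv.sum_comp π (fun i => ap φ (xx i))
  have h2 : ∑ i, ap φ (g⁻¹ * ((T.coc γ (T.perm G i) : Γ') : SL(2, ℤ)) * g)
      = ∑ i, ap φ (g⁻¹ * ((T.coc γ i : Γ') : SL(2, ℤ)) * g) :=
    Equiv.sum_comp (T.perm G) (fun i => ap φ (g⁻¹ * ((T.coc γ i : Γ') : SL(2, ℤ)) * g))
  rw [h1, h2]
  have h3 : ∀ i, ap (cj Γ'' g hn2 R φ) ((T.coc γ i : Γ') : SL(2, ℤ))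
      = ap φ (g⁻¹ * ((T.coc γ i : Γ') : SL(2, ℤ)) * g) :=
    fun i => ap_cj g hn2 φ (hT.coc_mem γ i hx)
  simp only [h3]
  abel

variable {m : ℕ}
  (hcos : ∀ γ ∈ Γ', ∃ k : ℤ, g ^ (-k) * γ ∈ Γ'')
  (hdvd : ∀ k : ℤ, g ^ k ∈ Γ'' → (m : ℤ) ∣ k)
  (hgm : g ^ m ∈ Γ'')

include hg hn1 in
/-- the value of `T'' φ` at `g ^ s`-twisted cocycles: for `cj φ = φ`,
`φ (coc (g ^ s) i g ^ (-s)) = ∑ r < s, φ (coc g (perm g ^ r i) g⁻¹)`. -/
theorem ap_coc_pow (T : CosetOp Γ') (hT : IsClassPres T Γ'') {φ : Additive Γ'' →+ R}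
    (hφ : cj Γ'' g hn2 R φ = φ) (i : T.I) (s : ℕ) :
    ap φ (((T.coc ((⟨g, hg⟩ : Γ') ^ s) i : Γ') : SL(2, ℤ)) * (g ^ s)⁻¹)
      = ∑ r ∈ Finset.range s,
          ap φ (((T.coc (⟨g, hg⟩ : Γ') ((T.perm (⟨g, hg⟩ : Γ') ^ r) i) : Γ') : SL(2, ℤ)) * g⁻¹) := by
  set gg : Γ' := ⟨g, hg⟩ with hgg
  induction s with
  | zero => simp [coc_one, ap_one]
  | succ s ih =>
    rw [Finset.sum_range_succ, ← ih]
    have hu : ((T.coc (gg ^ s) i : Γ') : SL(2, ℤ)) * (g ^ s)⁻¹ ∈ Γ'' := by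
      have := hT (gg ^ s) i
      simpa [hgg] using this
    have hy : ((T.coc gg ((T.perm gg ^ s) i) : Γ') : SL(2, ℤ)) * g⁻¹ ∈ Γ'' := hT gg _
    have hc : g ^ (s : ℤ) * (((T.coc gg ((T.perm gg ^ s) i) : Γ') : SL(2, ℤ)) * g⁻¹) * g ^ (-(s : ℤ)) ∈ Γ'' :=
      zpow_conj_mem g hn1 hn2 s hy
    have e : ((T.coc (gg ^ (s + 1)) i : Γ') : SL(2, ℤ)) * (g ^ (s + 1))⁻¹
        = (((T.coc (gg ^ s) i : Γ') : SL(2, ℤ)) * (g ^ s)⁻¹)
          * (g ^ (s : ℤ) * (((T.coc gg ((T.perm gg ^ s) i) : Γ') : SL(2, ℤ)) * g⁻¹) * g ^ (-(s : ℤ))) := by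
      rw [pow_succ gg, T.coc_mul, perm_pow, Subgroup.coe_mul, zpow_neg, zpow_natCast, pow_succ]
      group
    rw [e, ap_mul φ hu hc, ap_zpow_conj g hn1 hn2 hφ s hy]

include hg hn1 hcos hdvd hgm in
/-- **(E4)** for a `cj`-invariant `φ`, `T'' φ - |I| • φ` extends to `Γ'`. -/
theorem exists_res_eq_hecke_sub (T : CosetOp Γ') (hT : IsClassPres T Γ'') {φ : Additive Γ'' →+ R}
    (hφ : cj Γ'' g hn2 R φ = φ) :
    ∃ Ψ : Additive Γ' →+ R,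
      res hle Ψ = (restrictCP hle T hT).addHom φ - Fintype.card T.I • φ := by
  set gg : Γ' := ⟨g, hg⟩ with hgg
  set ψ := (restrictCP hle T hT).addHom φ - Fintype.card T.I • φ with hψ
  have hψinv : cj Γ'' g hn2 R ψ = ψ := by
    rw [hψ, map_sub, map_nsmul, ← restrictCP_cj hle g hg hn1 hn2 T hT φ, hφ]
  refine exists_extension hle g hn1 hn2 hcos hdvd hgm hψinv
    (t := ∑ i : T.I, ap φ (((T.coc gg i : Γ') : SL(2, ℤ)) * g⁻¹)) ?_
  rw [hψ, ap_sub, ap_nsmul, restrictCP_addHom_apply hle T hT φ hgm]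
  have e0 : (⟨g ^ m, hle hgm⟩ : Γ') = gg ^ m := rfl
  rw [e0]
  have h1 : ∀ i : T.I, ap φ ((T.coc (gg ^ m) i : Γ') : SL(2, ℤ))
      = (∑ r ∈ Finset.range m, ap φ (((T.coc gg ((T.perm gg ^ r) i) : Γ') : SL(2, ℤ)) * g⁻¹))
        + ap φ (g ^ m) := by
    intro i
    rw [← ap_coc_pow g hg hn1 hn2 T hT hφ i m]
    have hu : ((T.coc (gg ^ m) i : Γ') : SL(2, ℤ)) * (g ^ m)⁻¹ ∈ Γ'' := by
      have := hT (gg ^ m) i
      simpa [hgg] using this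
    rw [← ap_mul φ hu hgm]
    congr 1
    group
  simp only [h1, Finset.sum_add_distrib, Finset.sum_const, Finset.card_univ]
  rw [Finset.sum_comm]
  have h2 : ∀ r ∈ Finset.range m,
      ∑ i : T.I, ap φ (((T.coc gg ((T.perm gg ^ r) i) : Γ') : SL(2, ℤ)) * g⁻¹)
        = ∑ i : T.I, ap φ (((T.coc gg i : Γ') : SL(2, ℤ)) * g⁻¹) := fun r _ =>
    Equiv.sum_comp (T.perm gg ^ r) (fun i => ap φ (((T.coc gg i : Γ') : SL(2, ℤ)) * g⁻¹))
  rw [Finset.sum_congr rfl h2, Finset.sum_const, Finset.card_range]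
  abel

end CP

end Fermat.Agent.M43.ExtCyc0
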