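/-
Programme M43 (target S43), Hecke side, chapter (6b) FREENESS (lead): **(E6) the boundary is
Eisenstein.**

`ℓ` a prime with `ℓ ≡ 1 mod N`, `Γ = Γ_H(N)`, `T = T_ℓ` on `Γ`, `φ : Hom(Γ, R)`, `R` torsion-free.
Then `T φ - (ℓ + 1) • φ` is a PARABOLIC homomorphism.

* `perm_T_zpow`, `coc_T_zpow_some`, `coc_T_zpow_none` : the level one data of `T ^ (ℓ e)`;
* `perm_conj`, `coc_conj` : the level one data of a conjugate `δ x δ⁻¹` at an index fixed by `x`;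
* `mem_Gamma1_of_beta_mul` : `coc δ i * T ^ b_k * δ⁻¹ ∈ Γ₁(N)` (`ℓ ≡ 1 mod N`);
* `sum_ap_coc` : `∑ i, φ (coc (δ T^(ℓ e) δ⁻¹) i) = (ℓ + 1) • φ (δ T^(ℓ e) δ⁻¹)`;
* **`isParabolicHom_hecke_sub`** : (E6).
-/
import Mathlib
import Fermat.Agent.M43.ExtCyc0
import Fermat.Agent.ES.KUM.TraceClass17

set_option autoImplicit false

open scoped Classical MatrixGroups
open CongruenceSubgroup Matrix.SpecialLinearGroup ModularCurve.Period

noncomputable section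

namespace Fermat.Agent.M43.Bdry0

open Fermat.Agent.M48.ESInv3 Fermat.Agent.M48.CosetOp3 Fermat.Agent.M43.HeckeH0
  Fermat.Agent.M43.ExtCyc0 Fermat.Agent.M48.Diamond1 Fermat.Agent.M48.G1Reps3
open Fermat.Agent.ES.HEQ

variable {ℓ : ℕ} [hℓ : Fact ℓ.Prime]

local notation "TT" => ModularGroup.T

/-! ### the level one data of `T ^ (ℓ e)` -/

theorem beta_some_mul_T (j : ZMod ℓ) (e : ℤ) :
    DoubleCoset27.beta ℓ (some j) * ((TT ^ ((ℓ : ℤ) * e) : SL(2, ℤ)) : Matrix (Fin 2) (Fin 2) ℤ)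
      = ((TT ^ e : SL(2, ℤ)) : Matrix (Fin 2) (Fin 2) ℤ) * DoubleCoset27.beta ℓ (some j) := by
  rw [ModularGroup.coe_T_zpow, ModularGroup.coe_T_zpow, DoubleCoset27.beta_some]
  ext a b
  fin_cases a <;> fin_cases b <;> simp [Matrix.mul_apply, Fin.sum_univ_two] <;> ring

theorem beta_none_mul_T (e : ℤ) :
    DoubleCoset27.beta ℓ none * ((TT ^ ((ℓ : ℤ) * e) : SL(2, ℤ)) : Matrix (Fin 2) (Fin 2) ℤ)
      = ((TT ^ ((ℓ : ℤ) * ((ℓ : ℤ) * e)) : SL(2, ℤ)) : Matrix (Fin 2) (Fin 2) ℤ)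
        * DoubleCoset27.beta ℓ none := by
  rw [ModularGroup.coe_T_zpow, ModularGroup.coe_T_zpow, DoubleCoset27.beta_none]
  ext a b
  fin_cases a <;> fin_cases b <;> simp [Matrix.mul_apply, Fin.sum_univ_two] <;> ring


/-- the exponent of the cocycle of `T ^ (ℓ e)` at the index `k`. -/
def ex (ℓ : ℕ) (e : ℤ) : Option (ZMod ℓ) → ℤ
  | some _ => e
  | none => (ℓ : ℤ) * ((ℓ : ℤ) * e)

theorem perm_coc_T_zpow (e : ℤ) (k : Option (ZMod ℓ)) :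
    DoubleCoset27.perm (TT ^ ((ℓ : ℤ) * e)) k = k ∧
      DoubleCoset27.coc (TT ^ ((ℓ : ℤ) * e)) k = TT ^ (ex ℓ e k) := by
  cases k with
  | some j => exact DoubleCoset27.eq_of_beta_mul (beta_some_mul_T j e)
  | none => exact DoubleCoset27.eq_of_beta_mul (beta_none_mul_T e)

/-! ### conjugates -/

theorem coc_inv_perm (δ : SL(2, ℤ)) (i : Option (ZMod ℓ)) :
    DoubleCoset27.coc δ⁻¹ (DoubleCoset27.perm δ i) = (DoubleCoset27.coc δ i)⁻¹ := by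
  have h := DoubleCoset27.coc_mul (p := ℓ) δ δ⁻¹ i
  rw [mul_inv_cancel, DoubleCoset27.coc_one] at h
  exact eq_inv_of_mul_eq_one_right h.symm

theorem perm_inv_perm (δ : SL(2, ℤ)) (i : Option (ZMod ℓ)) :
    DoubleCoset27.perm δ⁻¹ (DoubleCoset27.perm δ i) = i := by
  rw [← DoubleCoset27.perm_mul, mul_inv_cancel, DoubleCoset27.perm_one]

/-- the level one data of `δ x δ⁻¹` at an index `i` such that `x` fixes `perm δ i`. -/
theorem perm_coc_conj (δ x : SL(2, ℤ)) (i : Option (ZMod ℓ))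
    (hx : DoubleCoset27.perm x (DoubleCoset27.perm δ i) = DoubleCoset27.perm δ i) :
    DoubleCoset27.perm (δ * x * δ⁻¹) i = i ∧
      DoubleCoset27.coc (δ * x * δ⁻¹) i
        = DoubleCoset27.coc δ i * DoubleCoset27.coc x (DoubleCoset27.perm δ i)
          * (DoubleCoset27.coc δ i)⁻¹ := by
  constructor
  · rw [DoubleCoset27.perm_mul, DoubleCoset27.perm_mul, hx, perm_inv_perm]
  · rw [DoubleCoset27.coc_mul, DoubleCoset27.coc_mul, DoubleCoset27.perm_mul, hx, coc_inv_perm]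

/-! ### the congruence -/

/-- the translation exponent of `β_i` modulo `N` (for `ℓ ≡ 1 mod N`). -/
def bx (ℓ : ℕ) : Option (ZMod ℓ) → ℤ
  | some j => (j.val : ℤ)
  | none => 0

/-- reduction of integral matrices modulo `N`. -/
abbrev redM (N : ℕ) : Matrix (Fin 2) (Fin 2) ℤ →+* Matrix (Fin 2) (Fin 2) (ZMod N) :=
  (Int.castRingHom (ZMod N)).mapMatrix

theorem redM_beta {N : ℕ} (hℓ1 : (ℓ : ZMod N) = 1) (i : Option (ZMod ℓ)) :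
    redM N (DoubleCoset27.beta ℓ i)
      = redM N ((TT ^ (bx ℓ i) : SL(2, ℤ)) : Matrix (Fin 2) (Fin 2) ℤ) := by
  rw [ModularGroup.coe_T_zpow]
  cases i with
  | some j =>
    ext a b
    fin_cases a <;> fin_cases b <;> simp [bx, hℓ1]
  | none =>
    ext a b
    fin_cases a <;> fin_cases b <;> simp [bx, hℓ1]

/-- **`coc δ i * T ^ b_k * δ⁻¹ ≡ T ^ b_i mod N`, in particular it lies in `Γ₁(N)`.** -/
theorem mem_Gamma1_of_beta_mul {N : ℕ} (hℓ1 : (ℓ : ZMod N) = 1) (δ : SL(2, ℤ))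
    (i : Option (ZMod ℓ)) :
    DoubleCoset27.coc δ i * TT ^ (bx ℓ (DoubleCoset27.perm δ i)) * δ⁻¹ ∈ Gamma1 N := by
  set c := DoubleCoset27.coc δ i with hc
  set k := DoubleCoset27.perm δ i with hk
  set s : SL(2, ℤ) := c * TT ^ (bx ℓ k) * δ⁻¹ with hs
  have h1 : redM N ((s : SL(2, ℤ)) : Matrix (Fin 2) (Fin 2) ℤ)
      = redM N ((TT ^ (bx ℓ i) : SL(2, ℤ)) : Matrix (Fin 2) (Fin 2) ℤ) := by
    have hb := congrArg (redM N) (DoubleCoset27.beta_mul δ i)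
    rw [map_mul, map_mul, redM_beta hℓ1, redM_beta hℓ1, ← hc, ← hk] at hb
    -- `T^{b_i} δ = c T^{b_k}` mod `N`
    have hsd : ((s : SL(2, ℤ)) : Matrix (Fin 2) (Fin 2) ℤ)
        = (c : Matrix (Fin 2) (Fin 2) ℤ) * ((TT ^ (bx ℓ k) : SL(2, ℤ)) : Matrix (Fin 2) (Fin 2) ℤ)
          * ((δ⁻¹ : SL(2, ℤ)) : Matrix (Fin 2) (Fin 2) ℤ) := by
      rw [hs, Matrix.SpecialLinearGroup.coe_mul, Matrix.SpecialLinearGroup.coe_mul]
    have hdd : (δ : Matrix (Fin 2) (Fin 2) ℤ) * ((δ⁻¹ : SL(2, ℤ)) : Matrix (Fin 2) (Fin 2) ℤ) = 1 := by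
      rw [← Matrix.SpecialLinearGroup.coe_mul, mul_inv_cancel, Matrix.SpecialLinearGroup.coe_one]
    rw [hsd, map_mul, map_mul, ← hb, mul_assoc, ← map_mul, hdd, map_one, mul_one]
  rw [Gamma1_mem]
  have e00 := congrFun (congrFun h1 0) 0
  have e11 := congrFun (congrFun h1 1) 1
  have e10 := congrFun (congrFun h1 1) 0
  rw [ModularGroup.coe_T_zpow] at e00 e11 e10
  simp only [RingHom.mapMatrix_apply, Matrix.map_apply, Int.coe_castRingHom] at e00 e11 e10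
  refine ⟨?_, ?_, ?_⟩
  · rw [e00]; simp
  · rw [e11]; simp
  · rw [e10]; simp


/-! ### the sum -/

/-- the multiplicity of the cocycle at the index `k`. -/
def nx (ℓ : ℕ) : Option (ZMod ℓ) → ℤ
  | some _ => 1
  | none => (ℓ : ℤ) * (ℓ : ℤ)

theorem ex_eq (e : ℤ) (k : Option (ZMod ℓ)) : ex ℓ e k = e * nx ℓ k := by
  cases k with
  | some j => simp [ex, nx]
  | none => simp only [ex, nx]; ring

theorem conj_T_zpow_mul (δ : SL(2, ℤ)) (e n : ℤ) :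
    δ * TT ^ (e * n) * δ⁻¹ = (δ * TT ^ e * δ⁻¹) ^ n := by
  rw [zpow_mul, conj_zpow]

theorem sum_ap_coc {N : ℕ} (hℓ1 : (ℓ : ZMod N) = 1) {Γ : Subgroup SL(2, ℤ)} (hΓ : Gamma1 N ≤ Γ)
    {R : Type*} [CommRing R] (φ : Additive Γ →+ R) (δ : SL(2, ℤ)) (e : ℤ)
    (hw : δ * TT ^ e * δ⁻¹ ∈ Γ) :
    (∀ i : Option (ZMod ℓ), DoubleCoset27.coc (δ * TT ^ ((ℓ : ℤ) * e) * δ⁻¹) i ∈ Γ) ∧
      ∑ i : Option (ZMod ℓ), ap φ (DoubleCoset27.coc (δ * TT ^ ((ℓ : ℤ) * e) * δ⁻¹) i)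
        = (ℓ + 1) • ap φ (δ * TT ^ ((ℓ : ℤ) * e) * δ⁻¹) := by
  set w : SL(2, ℤ) := δ * TT ^ e * δ⁻¹ with hwdef
  -- the cocycle at `i`
  have key : ∀ i : Option (ZMod ℓ), ∃ s ∈ Γ,
      DoubleCoset27.coc (δ * TT ^ ((ℓ : ℤ) * e) * δ⁻¹) i
        = s * w ^ (nx ℓ (DoubleCoset27.perm δ i)) * s⁻¹ := by
    intro i
    set k := DoubleCoset27.perm δ i with hk
    set c := DoubleCoset27.coc δ i with hc
    obtain ⟨hp, hcoc⟩ := perm_coc_T_zpow (ℓ := ℓ) e k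
    obtain ⟨-, h2⟩ := perm_coc_conj δ (TT ^ ((ℓ : ℤ) * e)) i hp
    refine ⟨c * TT ^ (bx ℓ k) * δ⁻¹, hΓ (mem_Gamma1_of_beta_mul hℓ1 δ i), ?_⟩
    rw [h2, hcoc, ← hc, hwdef, ← conj_T_zpow_mul, ← ex_eq]
    group
  have hwn : ∀ n : ℤ, w ^ n ∈ Γ := fun n => Γ.zpow_mem hw n
  have hval : ∀ i : Option (ZMod ℓ),
      DoubleCoset27.coc (δ * TT ^ ((ℓ : ℤ) * e) * δ⁻¹) i ∈ Γ ∧
      ap φ (DoubleCoset27.coc (δ * TT ^ ((ℓ : ℤ) * e) * δ⁻¹) i)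
        = (nx ℓ (DoubleCoset27.perm δ i) : R) * ap φ w := by
    intro i
    obtain ⟨s, hs, h⟩ := key i
    have hmem : s * w ^ (nx ℓ (DoubleCoset27.perm δ i)) * s⁻¹ ∈ Γ :=
      Γ.mul_mem (Γ.mul_mem hs (hwn _)) (Γ.inv_mem hs)
    refine ⟨h ▸ hmem, ?_⟩
    rw [h, ap_mul φ (Γ.mul_mem hs (hwn _)) (Γ.inv_mem hs), ap_mul φ hs (hwn _), ap_inv φ hs,
      ap_zpow φ hw, zsmul_eq_mul]
    ring
  refine ⟨fun i => (hval i).1, ?_⟩
  rw [Finset.sum_congr rfl (fun i _ => (hval i).2)]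
  have hre : ∑ i : Option (ZMod ℓ), (nx ℓ (DoubleCoset27.perm δ i) : R) * ap φ w
      = ∑ k : Option (ZMod ℓ), (nx ℓ k : R) * ap φ w :=
    Equiv.sum_comp (DoubleCoset27.permEquiv δ) (fun k => (nx ℓ k : R) * ap φ w)
  rw [hre, Fintype.sum_option]
  have hπ : δ * TT ^ ((ℓ : ℤ) * e) * δ⁻¹ = w ^ (ℓ : ℤ) := by
    rw [mul_comm, hwdef, conj_T_zpow_mul]
  rw [hπ, ap_zpow φ hw, zsmul_eq_mul, nsmul_eq_mul]
  simp only [nx, Finset.sum_const, Finset.card_univ, ZMod.card, nsmul_eq_mul]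
  push_cast
  ring


/-! ### (E6) -/

omit hℓ in
theorem coe_tw_one {N : ℕ} (i : Option (ZMod ℓ)) :
    ((tw (1 : Gamma0 N) i : Gamma0 N) : SL(2, ℤ)) = 1 := by
  cases i <;> rfl

/-- the cocycle of `T_ℓ` on `Γ_H(N)` with `σ = 1` is the level one cocycle. -/
theorem coe_heckeH_one_coc {N : ℕ} (hℓN : ¬ ℓ ∣ N)
    (h1 : Gamma0Map N (1 : Gamma0 N) = (ℓ : ZMod N)) (H : Subgroup (ZMod N)ˣ)
    (γ : GH N H) (i : Option (ZMod ℓ)) :
    ((((heckeH hℓN 1 h1 H).coc γ i : GH N H)) : SL(2, ℤ))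
      = DoubleCoset27.coc ((γ : GH N H) : SL(2, ℤ)) i := by
  show ((coc0 hℓN 1 (Subgroup.inclusion (GH_le_Gamma0 H) γ) i : Gamma0 N) : SL(2, ℤ)) = _
  rw [coe_coc0, coe_tw_one, coe_tw_one]
  simp

/-- **(E6)** for a prime `ℓ ≡ 1 mod N`, `T_ℓ - (ℓ + 1)` maps `Hom(Γ_H(N), R)` into the parabolic
homomorphisms (`R` torsion-free). -/
theorem isParabolicHom_hecke_sub {N : ℕ} (hℓN : ¬ ℓ ∣ N) (hℓ1 : (ℓ : ZMod N) = 1)
    (σ : Gamma0 N) (hσ : Gamma0Map N σ = (ℓ : ZMod N)) (H : Subgroup (ZMod N)ˣ)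
    {R : Type*} [CommRing R] (htf : ∀ n : ℕ, n ≠ 0 → ∀ x : R, n • x = 0 → x = 0)
    (φ : Additive (GH N H) →+ R) :
    IsParabolicHom (GH N H) ((heckeH hℓN σ hσ H).addHom φ - (ℓ + 1) • φ) := by
  have h1 : Gamma0Map N (1 : Gamma0 N) = (ℓ : ZMod N) := by rw [map_one, hℓ1]
  rw [heckeH_indep hℓN 1 σ h1 hσ H φ]
  intro π hπ
  set F : Additive (GH N H) →+ R := (heckeH hℓN 1 h1 H).addHom φ - (ℓ + 1) • φ with hF
  obtain ⟨δ, m, hm⟩ := Fermat.Agent.ES.KUM.TraceClass17.exists_conj_T_zpow (π : SL(2, ℤ)) hπ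
  -- `π ^ 2 = δ T^(2m) δ⁻¹`
  have hsq : ((π : GH N H) : SL(2, ℤ)) ^ 2 = δ * TT ^ (m * 2) * δ⁻¹ := by
    rw [conj_T_zpow_mul]
    rcases hm with h | h
    · rw [h]; rfl
    · rw [h, neg_sq]; rfl
  have hw : δ * TT ^ (m * 2) * δ⁻¹ ∈ GH N H := by
    rw [← hsq]
    exact (GH N H).pow_mem π.2 2
  set π' : GH N H := π ^ (2 * ℓ) with hπ'
  have hπ'c : ((π' : GH N H) : SL(2, ℤ)) = δ * TT ^ ((ℓ : ℤ) * (m * 2)) * δ⁻¹ := by
    rw [hπ', Subgroup.coe_pow, pow_mul, hsq, mul_comm (ℓ : ℤ), conj_T_zpow_mul δ (m * 2) (ℓ : ℤ),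
      zpow_natCast]
  obtain ⟨hmem, hsum⟩ := sum_ap_coc (ℓ := ℓ) hℓ1 (Gamma1_le_GH H) φ δ (m * 2) hw
  -- `F π' = 0`
  have hF0 : F (Additive.ofMul π') = 0 := by
    rw [hF, AddMonoidHom.sub_apply, CosetOp.addHom_apply, AddMonoidHom.smul_apply]
    have hterm : ∀ i : Option (ZMod ℓ),
        φ (Additive.ofMul ((heckeH hℓN 1 h1 H).coc π' i))
          = ap φ (DoubleCoset27.coc (δ * TT ^ ((ℓ : ℤ) * (m * 2)) * δ⁻¹) i) := by
      intro i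
      rw [← ap_coe, coe_heckeH_one_coc, hπ'c]
    rw [show (∑ i : (heckeH hℓN 1 h1 H).I, φ (Additive.ofMul ((heckeH hℓN 1 h1 H).coc π' i)))
        = ∑ i : Option (ZMod ℓ),
          ap φ (DoubleCoset27.coc (δ * TT ^ ((ℓ : ℤ) * (m * 2)) * δ⁻¹) i) from
      Finset.sum_congr rfl (fun i _ => hterm i), hsum, ← hπ'c, ap_coe, sub_self]
  -- `F π' = (2 ℓ) • F π`
  have hpow : F (Additive.ofMul π') = (2 * ℓ) • F (Additive.ofMul π) := by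
    rw [hπ', ofMul_pow, map_nsmul]
  rw [hpow] at hF0
  exact htf (2 * ℓ) (by have := hℓ.out.pos; omega) _ hF0

end Fermat.Agent.M43.Bdry0
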