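/-
Programme M43 (target S43), pillar (P-MP) Mazur's principle, chapter (LIFT_q), block (S2b)
(helper4): **`T_ℓ` commutes with `β₂^* : J₀(N)(ℚ̄) → J₀(2N)(ℚ̄)`** (`N` odd, `ℓ ∤ 2N` prime).

`T_ℓ^{(N)} = (α_ℓ)_* (β_ℓ)^*`.  One application of the generic base change in the square of
`M15/HeckeComm9` (with `r = 2`, `r' = ℓ`)
      Fbar N ──α_ℓ──▶ Fbar (N ℓ)
        │β₂                 │β' : f(q) ↦ f(q²)
        ▼                   ▼
      Fbar (N 2) ──α'──▶ Fbar (N 2 ℓ)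
gives `β₂^* (α_ℓ)_* = (α')_* (β')^*`, hence
`β₂^* T_ℓ^{(N)} = (α')_* (β' ∘ β_ℓ)^* = (α')_* (β_ℓ^{(2N)} ∘ β₂)^* = T_ℓ^{(2N)} β₂^*`,
both composites being `f(q) ↦ f(q^{2ℓ})`.

* `heckeDivBar_betaPull` : the statement on divisors;
* **`betaPull_hecke`** : `T_ℓ (betaPull N hodd x) = betaPull N hodd (T_ℓ x)`;
* **`iotaO_hecke`** : the same for the composite `levelPullback h ∘ betaPull` (`N * 2 ∣ M`, `ℓ ∤ M`).
-/
import Mathlib
import Fermat.Agent.M15.HeckeComm9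
import Fermat.Agent.U44.PullTwo7

set_option autoImplicit false
set_option linter.style.haveILetI false
set_option linter.unusedVariables false
set_option linter.unusedSectionVars false
set_option synthInstance.maxHeartbeats 400000

noncomputable section

open AlgebraicCurve ModularCurve IntermediateField

namespace Fermat.Agent.M43.BetaHecke4

open Fermat.Agent.X0 Fermat.Agent.RED.BASE.Interface12
open Fermat.Agent.ES.HECKE Fermat.Agent.ES.HECKE.LevelPullback12 Fermat.Agent.RED.TOP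
open Fermat.Agent.M15.HeckeComm9 Fermat.Agent.U44.PullTwo7 Fermat.Agent.RED.Interface4

local notation "Qb" => AlgebraicClosure ℚ

attribute [local instance] FbarFacts20.hasPrincipalDivisors_bar

variable {N ℓ : ℕ} [NeZero N] [NeZero ℓ]

/-- the two composites `Fbar N → Fbar (N * 2 * ℓ)`, `f(q) ↦ f(q^{2ℓ})`. -/
theorem comp_eq :
    (frobTo 2 (dvd_top N 2 ℓ)).comp (heckeBetaBar Qb N ℓ) =
      (heckeBetaBar Qb (N * 2) ℓ).comp (heckeBetaBar Qb N 2) := by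
  apply AlgHom.ext
  intro x
  apply Subtype.ext
  rw [AlgHom.comp_apply, AlgHom.comp_apply, coe_frobTo, coe_heckeBetaBar, coe_heckeBetaBar,
    coe_heckeBetaBar, qExpand_qExpand, qExpand_qExpand]
  exact qExpand_congr (mul_comm 2 ℓ) _

/-- **`T_ℓ β₂^* = β₂^* T_ℓ` on divisors.** -/
theorem heckeDivBar_betaPull (hℓ : ℓ.Prime) (hodd : ¬ 2 ∣ N) (hℓN : ¬ ℓ ∣ N) (hℓ2 : ℓ ≠ 2)
    (hℓN2 : ¬ ℓ ∣ N * 2) (D : Divisor Qb (modularFunctionFieldBar N)) :
    heckeDivBar (AlongDegree25.heckeAlphaBarIntegral Qb (N * 2) ℓ hℓ hℓN2)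
        (AlongDegree25.heckeBetaBarIntegral Qb (N * 2) ℓ hℓ hℓN2)
        (Divisor.pullbackAlong (heckeBetaBar Qb N 2) (beta_isIntegral N hodd) D) =
      Divisor.pullbackAlong (heckeBetaBar Qb N 2) (beta_isIntegral N hodd)
        (heckeDivBar (AlongDegree25.heckeAlphaBarIntegral Qb N ℓ hℓ hℓN)
          (AlongDegree25.heckeBetaBarIntegral Qb N ℓ hℓ hℓN) D) := by
  have h2 : (2 : ℕ).Prime := Nat.prime_two
  have h2Nℓ : ¬ 2 ∣ N * ℓ := not_dvd_mul_of_ne hℓ h2 hodd hℓ2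
  have hα := AlongDegree25.heckeAlphaBarIntegral Qb N ℓ hℓ hℓN
  have hβ := AlongDegree25.heckeBetaBarIntegral Qb N ℓ hℓ hℓN
  have hA' := AlongDegree25.heckeAlphaBarIntegral Qb (N * 2) ℓ hℓ hℓN2
  have hBℓ' := AlongDegree25.heckeBetaBarIntegral Qb (N * 2) ℓ hℓ hℓN2
  have hβ2 := beta_isIntegral N hodd
  have hB' : (frobTo 2 (dvd_top N 2 ℓ)).toRingHom.IsIntegral :=
    frobTo_isIntegral h2 h2Nℓ (dvd_top N 2 ℓ)
  have e : ∀ (E : Divisor Qb (modularFunctionFieldBar N)),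
      heckeDivBar hα hβ E = Divisor.pushforwardAlong (heckeAlphaBar Qb N ℓ) hα
        (Divisor.pullbackAlong (heckeBetaBar Qb N ℓ) hβ E) := fun _ => rfl
  have e' : ∀ (E : Divisor Qb (modularFunctionFieldBar (N * 2))),
      heckeDivBar hA' hBℓ' E = Divisor.pushforwardAlong (heckeAlphaBar Qb (N * 2) ℓ) hA'
        (Divisor.pullbackAlong (heckeBetaBar Qb (N * 2) ℓ) hBℓ' E) := fun _ => rfl
  rw [e, e',
    BaseChange19.pullbackAlong_pushforwardAlong (heckeAlphaBar Qb N ℓ) (heckeBetaBar Qb N 2)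
      (heckeAlphaBar Qb (N * 2) ℓ) (frobTo 2 (dvd_top N 2 ℓ)) (square_comm N 2 ℓ)
      hα hβ2 hA' hB'
      (AlongDegree25.finiteAlong_alpha Qb N ℓ hℓ hℓN)
      (AlongDegree25.finiteAlong_alpha Qb (N * 2) ℓ hℓ hℓN2)
      (InputsFinal15.normFormulaAlong_alpha N ℓ hℓ hℓN)
      (InputsFinal15.normFormulaAlong_alpha (N * 2) ℓ hℓ hℓN2)
      (norm_compat h2 hℓ hodd hℓN (Ne.symm hℓ2)),
    ← BaseChange19.pullbackAlong_comp (heckeBetaBar Qb N ℓ) (frobTo 2 (dvd_top N 2 ℓ)) hβ hB'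
      (BaseChange19.isIntegral_comp _ _ hβ hB'),
    ← BaseChange19.pullbackAlong_comp (heckeBetaBar Qb N 2) (heckeBetaBar Qb (N * 2) ℓ) hβ2 hBℓ'
      (BaseChange19.isIntegral_comp _ _ hβ2 hBℓ')]
  rw [pullbackAlong_congr comp_eq _ (BaseChange19.isIntegral_comp _ _ hβ2 hBℓ')]

/-- **(S2b), case O, first step: `T_ℓ` commutes with `β₂^*` on `J₀`.** -/
theorem betaPull_hecke (hℓ : ℓ.Prime) (hodd : ¬ 2 ∣ N) (hℓN : ¬ ℓ ∣ N) (hℓ2 : ℓ ≠ 2)
    (x : JZero N) :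
    heckeOperatorAlong Qb (N * 2) ℓ (betaPull N hodd x) =
      betaPull N hodd (heckeOperatorAlong Qb N ℓ x) := by
  have hℓN2 : ¬ ℓ ∣ N * 2 := not_dvd_mul_of_ne Nat.prime_two hℓ hℓN (Ne.symm hℓ2)
  obtain ⟨D, rfl⟩ := Pic0.mk_surjective x
  rw [PointFormula28.heckeOperatorAlong_mk (AlongDegree25.heckeAlphaBarIntegral Qb N ℓ hℓ hℓN)
      (AlongDegree25.heckeBetaBarIntegral Qb N ℓ hℓ hℓN)
      (InputsMain19.fundamentalIdentityAlong_beta N ℓ hℓ hℓN)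
      (AlongDegree25.finiteAlong_alpha Qb N ℓ hℓ hℓN)
      (InputsFinal15.normFormulaAlong_alpha N ℓ hℓ hℓN)]
  show heckeOperatorAlong Qb (N * 2) ℓ (pic0PullbackAlong (heckeBetaBar Qb N 2)
      (beta_isIntegral N hodd) (beta_fundamentalIdentityAlong N hodd) (Pic0.mk D)) =
    pic0PullbackAlong (heckeBetaBar Qb N 2) (beta_isIntegral N hodd)
      (beta_fundamentalIdentityAlong N hodd) (Pic0.mk _)
  rw [pic0PullbackAlong_mk, pic0PullbackAlong_mk,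
    PointFormula28.heckeOperatorAlong_mk
      (AlongDegree25.heckeAlphaBarIntegral Qb (N * 2) ℓ hℓ hℓN2)
      (AlongDegree25.heckeBetaBarIntegral Qb (N * 2) ℓ hℓ hℓN2)
      (InputsMain19.fundamentalIdentityAlong_beta (N * 2) ℓ hℓ hℓN2)
      (AlongDegree25.finiteAlong_alpha Qb (N * 2) ℓ hℓ hℓN2)
      (InputsFinal15.normFormulaAlong_alpha (N * 2) ℓ hℓ hℓN2)]
  refine congrArg Pic0.mk (Subtype.ext ?_)
  exact heckeDivBar_betaPull hℓ hodd hℓN hℓ2 hℓN2 (D : Divisor Qb (modularFunctionFieldBar N))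

/-- **(S2b), case O**: `T_ℓ` commutes with `levelPullback h ∘ β₂^*`. -/
theorem iotaO_hecke {M : ℕ} [NeZero M] (hℓ : ℓ.Prime) (hodd : ¬ 2 ∣ N) (h : N * 2 ∣ M)
    (hℓM : ¬ ℓ ∣ M) (x : JZero N) :
    heckeOperatorAlong Qb M ℓ (levelPullback h (betaPull N hodd x)) =
      levelPullback h (betaPull N hodd (heckeOperatorAlong Qb N ℓ x)) := by
  have hℓN : ¬ ℓ ∣ N := fun hd => hℓM (dvd_trans hd (dvd_trans (Dvd.intro _ rfl) h))
  have hℓ2 : ℓ ≠ 2 := by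
    rintro rfl
    exact hℓM (dvd_trans (Dvd.intro_left _ rfl) h)
  rw [← LevelTop20.levelPullback_heckeOperatorAlong h hℓ hℓM, betaPull_hecke hℓ hodd hℓN hℓ2]

end Fermat.Agent.M43.BetaHecke4
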