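/-
Programme M43 (target S43), Hecke side, chapter (6b) FREENESS (lead): **the concrete cyclic step
`Γ_H''(N) ⊲ Γ_H'(N)`** and the diamond operators on `Hom(Γ_H(N), R)`.

`H'' ≤ H' ≤ (ℤ/N)ˣ`, `d₀ ∈ H'` with `H' = ⋃ d₀^k H''`, `d₀^k ∈ H'' ↔ m ∣ k`, `-1 ∈ H''`;
`g := σ_{d₀}`.

* generalities on `cj`: `cj_of_mem` (inner automorphisms act trivially), `cj_mul`, `cj_congr`,
  `isParabolicHom_cj`;
* `dia H d` : the diamond operator of `d : (ℤ/N)ˣ` on `Hom(Γ_H(N), R)`; `dia_mul`, `dia_of_mem`,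
  `dia_one`, `isParabolicHom_dia`, `heckeH_dia` (commutes with `T_ℓ`);
* `StepData` : the group-theoretic hypotheses of a cyclic step, and all the hypotheses of
  (E1)-(E5) derived from it;
* **`step_ker_norm`** (E2), **`step_hecke_sub_norm`** (E34), **`step_hecke_sub_par`** (E4par),
  `step_res_injective`, `step_cj_res` (E1), `step_hecke_cj` (E5), `step_hecke_res`.
-/
import Mathlib
import Fermat.Agent.M43.Bdry0

set_option autoImplicit false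

open scoped Classical MatrixGroups
open CongruenceSubgroup Matrix.SpecialLinearGroup ModularCurve.Period

noncomputable section

namespace Fermat.Agent.M43.CycInst0

open Fermat.Agent.M48.ESInv3 Fermat.Agent.M48.CosetOp3 Fermat.Agent.M43.HeckeH0
  Fermat.Agent.M43.ExtCyc0 Fermat.Agent.M43.ShapHom0 Fermat.Agent.M48.Diamond1

/-! ### generalities on `cj` -/

section Gen

variable {Γ'' : Subgroup SL(2, ℤ)} {R : Type*} [CommRing R]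

/-- inner automorphisms act trivially on `Hom(Γ'', R)`. -/
theorem cj_of_mem (g : SL(2, ℤ)) (hn2 : ∀ γ ∈ Γ'', g⁻¹ * γ * g ∈ Γ'') (hg : g ∈ Γ'')
    (φ : Additive Γ'' →+ R) : cj Γ'' g hn2 R φ = φ := by
  apply ext_ap
  intro x hx
  rw [ap_cj g hn2 φ hx, ap_mul φ (Γ''.mul_mem (Γ''.inv_mem hg) hx) hg,
    ap_mul φ (Γ''.inv_mem hg) hx, ap_inv φ hg]
  ring

theorem cj_mul (g g' : SL(2, ℤ)) (hn2 : ∀ γ ∈ Γ'', g⁻¹ * γ * g ∈ Γ'')
    (hn2' : ∀ γ ∈ Γ'', g'⁻¹ * γ * g' ∈ Γ'') (hn2'' : ∀ γ ∈ Γ'', (g * g')⁻¹ * γ * (g * g') ∈ Γ'')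
    (φ : Additive Γ'' →+ R) :
    cj Γ'' (g * g') hn2'' R φ = cj Γ'' g hn2 R (cj Γ'' g' hn2' R φ) := by
  apply ext_ap
  intro x hx
  rw [ap_cj _ hn2'' φ hx, ap_cj g hn2 _ hx, ap_cj g' hn2' _ (hn2 x hx)]
  congr 1
  group

/-- `cj` only depends on the class of `g` modulo `Γ''`. -/
theorem cj_congr (g g' : SL(2, ℤ)) (hn2 : ∀ γ ∈ Γ'', g⁻¹ * γ * g ∈ Γ'')
    (hn2' : ∀ γ ∈ Γ'', g'⁻¹ * γ * g' ∈ Γ'') (h : g⁻¹ * g' ∈ Γ'') (φ : Additive Γ'' →+ R) :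
    cj Γ'' g' hn2' R φ = cj Γ'' g hn2 R φ := by
  have hn : ∀ γ ∈ Γ'', (g⁻¹ * g')⁻¹ * γ * (g⁻¹ * g') ∈ Γ'' := fun γ hγ =>
    Γ''.mul_mem (Γ''.mul_mem (Γ''.inv_mem h) hγ) h
  have hn'' : ∀ γ ∈ Γ'', (g * (g⁻¹ * g'))⁻¹ * γ * (g * (g⁻¹ * g')) ∈ Γ'' := by
    intro γ hγ
    have e : g * (g⁻¹ * g') = g' := by group
    rw [e]
    exact hn2' γ hγ
  have e1 := cj_mul g (g⁻¹ * g') hn2 hn hn'' φ
  rw [cj_of_mem _ hn h] at e1
  rw [← e1]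
  apply ext_ap
  intro x hx
  rw [ap_cj _ hn2' φ hx, ap_cj _ hn'' φ hx]
  congr 1
  group

theorem isParabolicHom_cj (g : SL(2, ℤ)) (hn2 : ∀ γ ∈ Γ'', g⁻¹ * γ * g ∈ Γ'')
    {φ : Additive Γ'' →+ R} (hφ : IsParabolicHom Γ'' φ) :
    IsParabolicHom Γ'' (cj Γ'' g hn2 R φ) := by
  intro γ hγ
  show φ (Additive.ofMul (⟨g⁻¹ * (γ : SL(2, ℤ)) * g, hn2 γ γ.2⟩ : Γ'')) = 0
  apply hφ
  show ((g⁻¹ * (γ : SL(2, ℤ)) * g : SL(2, ℤ)) : Matrix (Fin 2) (Fin 2) ℤ).trace ^ 2 = 4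
  rw [Matrix.SpecialLinearGroup.coe_mul, Matrix.trace_mul_comm, ← Matrix.SpecialLinearGroup.coe_mul,
    ← mul_assoc, mul_inv_cancel, one_mul]
  exact hγ

end Gen


/-! ### the diamond operators on `Hom(Γ_H(N), R)` -/

section Dia

variable {N : ℕ} (H : Subgroup (ZMod N)ˣ) {R : Type*} [CommRing R]

theorem conj_mem_GH' (σ : Gamma0 N) : ∀ γ ∈ GH N H,
    (σ : SL(2, ℤ))⁻¹ * γ * (σ : SL(2, ℤ)) ∈ GH N H := by
  intro γ hγ
  have := conj_mem_GH (H := H) σ⁻¹ hγ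
  simpa using this

theorem conj_mem_GH'' (σ : Gamma0 N) : ∀ γ ∈ GH N H,
    (σ : SL(2, ℤ)) * γ * (σ : SL(2, ℤ))⁻¹ ∈ GH N H :=
  fun _ hγ => conj_mem_GH (H := H) σ hγ

/-- conjugation by `σ ∈ Γ₀(N)` on `Hom(Γ_H(N), R)`. -/
def cjs (σ : Gamma0 N) : Module.End R (Additive (GH N H) →+ R) :=
  cj (GH N H) (σ : SL(2, ℤ)) (conj_mem_GH' H σ) R

theorem cjs_congr {σ σ' : Gamma0 N} (h : (unitOf σ)⁻¹ * unitOf σ' ∈ H) (φ : Additive (GH N H) →+ R) :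
    cjs H σ' φ = cjs H σ φ := by
  refine cj_congr _ _ _ _ ?_ φ
  have e : ((σ : SL(2, ℤ)))⁻¹ * (σ' : SL(2, ℤ)) = ((σ⁻¹ * σ' : Gamma0 N) : SL(2, ℤ)) := rfl
  rw [e, coe_mem_GH_iff, unitOf_mul]
  have e2 : unitOf σ⁻¹ = (unitOf σ)⁻¹ := by
    have := unitOf_mul σ⁻¹ σ
    rw [inv_mul_cancel, unitOf_one] at this
    exact eq_inv_of_mul_eq_one_left this.symm
  rw [e2]
  exact h

theorem cjs_mul (σ σ' : Gamma0 N) (φ : Additive (GH N H) →+ R) :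
    cjs H (σ * σ') φ = cjs H σ (cjs H σ' φ) :=
  cj_mul _ _ _ _ _ φ

theorem cjs_of_mem {σ : Gamma0 N} (h : unitOf σ ∈ H) (φ : Additive (GH N H) →+ R) :
    cjs H σ φ = φ :=
  cj_of_mem _ _ ((coe_mem_GH_iff σ).mpr h) φ

variable [NeZero N]

/-- **the diamond operator** of `d : (ℤ/N)ˣ` on `Hom(Γ_H(N), R)`. -/
def dia (d : (ZMod N)ˣ) : Module.End R (Additive (GH N H) →+ R) := cjs H (sigma d)

theorem dia_eq_cjs {d : (ZMod N)ˣ} {σ : Gamma0 N} (hσ : unitOf σ = d)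
    (φ : Additive (GH N H) →+ R) : dia H d φ = cjs H σ φ := by
  refine cjs_congr H ?_ φ
  rw [hσ, unitOf_sigma, inv_mul_cancel]
  exact H.one_mem

theorem dia_mul (d d' : (ZMod N)ˣ) (φ : Additive (GH N H) →+ R) :
    dia H (d * d') φ = dia H d (dia H d' φ) := by
  rw [dia_eq_cjs H (σ := sigma d * sigma d') (by rw [unitOf_mul, unitOf_sigma, unitOf_sigma]) φ,
    cjs_mul]
  rfl

theorem dia_of_mem {d : (ZMod N)ˣ} (hd : d ∈ H) (φ : Additive (GH N H) →+ R) :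
    dia H d φ = φ :=
  cjs_of_mem H (by rw [unitOf_sigma]; exact hd) φ

theorem dia_one (φ : Additive (GH N H) →+ R) : dia H 1 φ = φ := dia_of_mem H H.one_mem φ

theorem dia_comm (d d' : (ZMod N)ˣ) (φ : Additive (GH N H) →+ R) :
    dia H d (dia H d' φ) = dia H d' (dia H d φ) := by
  rw [← dia_mul, ← dia_mul, mul_comm]

theorem isParabolicHom_dia (d : (ZMod N)ˣ) {φ : Additive (GH N H) →+ R}
    (hφ : IsParabolicHom (GH N H) φ) : IsParabolicHom (GH N H) (dia H d φ) :=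
  isParabolicHom_cj _ _ hφ

end Dia

/-! ### `T_ℓ` commutes with conjugation -/

section HeckeConj

variable {N : ℕ} {ℓ : ℕ} [hℓ : Fact ℓ.Prime] {R : Type*} [CommRing R]

/-- the master operator is class preserving for every `Γ_H(N)`. -/
theorem isClassPres_hecke0 (hℓN : ¬ ℓ ∣ N) {σ : Gamma0 N} (hσ : Gamma0Map N σ = (ℓ : ZMod N))
    (H : Subgroup (ZMod N)ˣ) :
    IsClassPres (Γ' := Gamma0 N) (hecke0 hℓN σ) (GH N H) := by
  intro γ i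
  have e : (((hecke0 hℓN σ).coc γ i : Gamma0 N) : SL(2, ℤ)) * ((γ : Gamma0 N) : SL(2, ℤ))⁻¹
      = (((hecke0 hℓN σ).coc γ i * γ⁻¹ : Gamma0 N) : SL(2, ℤ)) := rfl
  rw [e, coe_mem_GH_iff, unitOf_mul, unitOf_hecke0_coc hℓN hσ]
  have e2 : unitOf γ * unitOf γ⁻¹ = 1 := by
    rw [← unitOf_mul, mul_inv_cancel, unitOf_one]
  rw [e2]
  exact H.one_mem

/-- **`T_ℓ` on `Γ_H(N)` commutes with conjugation by `Γ₀(N)`.** -/
theorem heckeH_cjs (hℓN : ¬ ℓ ∣ N) (σ : Gamma0 N) (hσ : Gamma0Map N σ = (ℓ : ZMod N))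
    (H : Subgroup (ZMod N)ˣ) (τ : Gamma0 N) (φ : Additive (GH N H) →+ R) :
    (heckeH hℓN σ hσ H).addHom (cjs H τ φ) = cjs H τ ((heckeH hℓN σ hσ H).addHom φ) :=
  restrictCP_cj (GH_le_Gamma0 H) (τ : SL(2, ℤ)) τ.2 (conj_mem_GH'' H τ) (conj_mem_GH' H τ)
    (hecke0 hℓN σ) (isClassPres_hecke0 hℓN hσ H) φ

theorem heckeH_dia [NeZero N] (hℓN : ¬ ℓ ∣ N) (σ : Gamma0 N) (hσ : Gamma0Map N σ = (ℓ : ZMod N))
    (H : Subgroup (ZMod N)ˣ) (d : (ZMod N)ˣ) (φ : Additive (GH N H) →+ R) :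
    (heckeH hℓN σ hσ H).addHom (dia H d φ) = dia H d ((heckeH hℓN σ hσ H).addHom φ) :=
  heckeH_cjs hℓN σ hσ H (sigma d) φ

end HeckeConj


/-! ### the cyclic step -/

/-- the group-theoretic data of a cyclic step `H'' ≤ H' = ⋃ d₀^k H''`. -/
structure StepData (N : ℕ) (H' H'' : Subgroup (ZMod N)ˣ) (d₀ : (ZMod N)ˣ) (m : ℕ) : Prop where
  le : H'' ≤ H'
  mem : d₀ ∈ H'
  pos : 0 < m
  cos : ∀ h ∈ H', ∃ k : ℤ, d₀ ^ (-k) * h ∈ H''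
  dvd : ∀ k : ℤ, d₀ ^ k ∈ H'' → (m : ℤ) ∣ k
  pow : d₀ ^ m ∈ H''
  neg : (-1 : (ZMod N)ˣ) ∈ H''

section Step

variable {N : ℕ} {H' H'' : Subgroup (ZMod N)ˣ} {d₀ : (ZMod N)ˣ} {m : ℕ}

theorem unitOf_zpow (σ : Gamma0 N) (k : ℤ) : unitOf (σ ^ k) = unitOf σ ^ k :=
  map_zpow (unitHom N) σ k

theorem zpow_mem_GH_iff (H : Subgroup (ZMod N)ˣ) (σ : Gamma0 N) (k : ℤ) :
    (σ : SL(2, ℤ)) ^ k ∈ GH N H ↔ unitOf σ ^ k ∈ H := by
  have e : (σ : SL(2, ℤ)) ^ k = ((σ ^ k : Gamma0 N) : SL(2, ℤ)) := rfl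
  rw [e, coe_mem_GH_iff, unitOf_zpow]

theorem pow_mem_GH_iff (H : Subgroup (ZMod N)ˣ) (σ : Gamma0 N) (k : ℕ) :
    (σ : SL(2, ℤ)) ^ k ∈ GH N H ↔ unitOf σ ^ k ∈ H := by
  have := zpow_mem_GH_iff H σ (k : ℤ)
  simpa using this

variable [NeZero N] (S : StepData N H' H'' d₀ m)

/-- the lift of the generator. -/
abbrev gg (d₀ : (ZMod N)ˣ) : SL(2, ℤ) := ((sigma d₀ : Gamma0 N) : SL(2, ℤ))

include S

theorem StepData.hle : GH N H'' ≤ GH N H' := GH_mono S.le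

theorem StepData.hg : gg d₀ ∈ GH N H' := by
  rw [coe_mem_GH_iff, unitOf_sigma]
  exact S.mem

theorem StepData.hneg : (-1 : SL(2, ℤ)) ∈ GH N H'' := neg_one_mem_GH S.neg

theorem StepData.hgm : gg d₀ ^ m ∈ GH N H'' := by
  rw [pow_mem_GH_iff, unitOf_sigma]
  exact S.pow

theorem StepData.hdvd : ∀ k : ℤ, gg d₀ ^ k ∈ GH N H'' → (m : ℤ) ∣ k := by
  intro k hk
  rw [zpow_mem_GH_iff, unitOf_sigma] at hk
  exact S.dvd k hk

theorem StepData.hfree : ∀ j : ℕ, 0 < j → j < m → gg d₀ ^ j ∉ GH N H'' := by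
  intro j hj0 hjm hmem
  have h := S.hdvd (j : ℤ) (by rw [zpow_natCast]; exact hmem)
  have := Int.le_of_dvd (by exact_mod_cast hj0) h
  omega

theorem StepData.hcos : ∀ γ ∈ GH N H', ∃ k : ℤ, gg d₀ ^ (-k) * γ ∈ GH N H'' := by
  intro γ hγ
  obtain ⟨h0, h1⟩ := mem_GH.mp hγ
  obtain ⟨k, hk⟩ := S.cos _ h1
  refine ⟨k, ?_⟩
  have e : gg d₀ ^ (-k) * γ = (((sigma d₀) ^ (-k) * ⟨γ, h0⟩ : Gamma0 N) : SL(2, ℤ)) := rfl
  rw [e, coe_mem_GH_iff, unitOf_mul, unitOf_zpow, unitOf_sigma]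
  exact hk

/-- every element of `H'` has its `m`-th power in `H''`. -/
theorem StepData.pow_mem {h : (ZMod N)ˣ} (hh : h ∈ H') : h ^ m ∈ H'' := by
  obtain ⟨k, hk⟩ := S.cos h hh
  have e : h = d₀ ^ k * (d₀ ^ (-k) * h) := by group
  rw [e, mul_pow]
  refine H''.mul_mem ?_ (H''.pow_mem hk m)
  rw [← zpow_natCast, ← zpow_mul, mul_comm, zpow_mul, zpow_natCast]
  exact H''.zpow_mem S.pow k

omit [NeZero N] in
theorem StepData.pow_mem_GH {γ : SL(2, ℤ)} (hγ : γ ∈ GH N H')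
    (hpm : ∀ h ∈ H', h ^ m ∈ H'') : γ ^ m ∈ GH N H'' := by
  obtain ⟨h0, h1⟩ := mem_GH.mp hγ
  have e : γ = ((⟨γ, h0⟩ : Gamma0 N) : SL(2, ℤ)) := rfl
  rw [e, pow_mem_GH_iff]
  exact hpm _ h1

end Step


/-! ### the facts (E1)-(E5) for the concrete step -/

instance finiteIndex_GH {N : ℕ} [NeZero N] (H : Subgroup (ZMod N)ˣ) : (GH N H).FiniteIndex :=
  Subgroup.finiteIndex_of_le (Gamma1_le_GH H)

section StepThms

variable {N : ℕ} [NeZero N] {H' H'' : Subgroup (ZMod N)ˣ} {d₀ : (ZMod N)ˣ} {m : ℕ}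
  (S : StepData N H' H'' d₀ m) {R : Type*} [CommRing R]

omit [NeZero N] in
theorem card_heckeH_I {ℓ : ℕ} [hℓ : Fact ℓ.Prime] (hℓN : ¬ ℓ ∣ N) (σ : Gamma0 N)
    (hσ : Gamma0Map N σ = (ℓ : ZMod N)) (H : Subgroup (ZMod N)ˣ) :
    Fintype.card (heckeH hℓN σ hσ H).I = ℓ + 1 := by
  show Fintype.card (Option (ZMod ℓ)) = ℓ + 1
  rw [Fintype.card_option, ZMod.card]

omit [NeZero N] in
/-- `T_ℓ` on `Γ_H'(N)` is class preserving for `Γ_H''(N)`. -/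
theorem isClassPres_heckeH {ℓ : ℕ} [hℓ : Fact ℓ.Prime] (hℓN : ¬ ℓ ∣ N) (σ : Gamma0 N)
    (hσ : Gamma0Map N σ = (ℓ : ZMod N)) (H' H'' : Subgroup (ZMod N)ˣ) :
    IsClassPres (heckeH hℓN σ hσ H') (GH N H'') := by
  intro γ i
  exact isClassPres_hecke0 hℓN hσ H'' (Subgroup.inclusion (GH_le_Gamma0 H') γ) i

omit [NeZero N] in
/-- the restriction of `T_ℓ` on `Γ_H'(N)` to `Γ_H''(N)` is `T_ℓ` on `Γ_H''(N)`. -/
theorem restrictCP_heckeH {ℓ : ℕ} [hℓ : Fact ℓ.Prime] (hℓN : ¬ ℓ ∣ N) (σ : Gamma0 N)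
    (hσ : Gamma0Map N σ = (ℓ : ZMod N)) {H' H'' : Subgroup (ZMod N)ˣ} (hle : GH N H'' ≤ GH N H')
    (φ : Additive (GH N H'') →+ R) :
    (restrictCP hle (heckeH hℓN σ hσ H') (isClassPres_heckeH hℓN σ hσ H' H'')).addHom φ
      = (heckeH hℓN σ hσ H'').addHom φ := by
  refine AddMonoidHom.ext fun γ' => ?_
  obtain ⟨γ, rfl⟩ := Additive.ofMul.surjective γ'
  rw [CosetOp.addHom_apply, CosetOp.addHom_apply]
  rfl

include S in
/-- **(E2)** for the concrete step. -/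
theorem step_ker_norm [Invertible (2 : R)] [Invertible (3 : R)]
    (hreg : ∀ r : R, m • r = 0 → r = 0) (φ : Additive (GH N H'') →+ R)
    (hφ : ∑ j ∈ Finset.range m, (dia H'' d₀ ^ j) φ = 0) :
    ∃ φ' : Additive (GH N H'') →+ R, φ = dia H'' d₀ φ' - φ' :=
  ker_norm (GH N H'') (gg d₀) (conj_mem_GH'' H'' (sigma d₀)) (conj_mem_GH' H'' (sigma d₀))
    S.hneg S.pos S.hgm S.hfree (fun r hr => hreg r (by rw [nsmul_eq_mul]; exact hr)) φ hφ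

/-- (E1) restrictions are invariant. -/
theorem step_dia_res (Φ : Additive (GH N H') →+ R) :
    dia H'' d₀ (res S.hle Φ) = res S.hle Φ :=
  cj_res S.hle (gg d₀) S.hg (conj_mem_GH' H'' (sigma d₀)) Φ

/-- (E1) the restriction is injective. -/
theorem step_res_injective (hreg : ∀ r : R, m • r = 0 → r = 0) (Φ : Additive (GH N H') →+ R)
    (h : res S.hle Φ = 0) : Φ = 0 :=
  res_injective S.hle (gg d₀) S.hg S.pos S.hcos S.hgm hreg Φ h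

omit [NeZero N] in
/-- the restriction commutes with `T_ℓ`. -/
theorem step_hecke_res {ℓ : ℕ} [hℓ : Fact ℓ.Prime] (hℓN : ¬ ℓ ∣ N) (σ : Gamma0 N)
    (hσ : Gamma0Map N σ = (ℓ : ZMod N)) {H' H'' : Subgroup (ZMod N)ˣ} (hle : GH N H'' ≤ GH N H')
    (Φ : Additive (GH N H') →+ R) :
    (heckeH hℓN σ hσ H'').addHom (res hle Φ) = res hle ((heckeH hℓN σ hσ H').addHom Φ) := by
  rw [← restrictCP_heckeH hℓN σ hσ hle]
  exact restrictCP_res hle _ _ Φ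

omit [NeZero N] in
/-- the restriction commutes with conjugation by `Γ₀(N)`. -/
theorem step_cjs_res {H' H'' : Subgroup (ZMod N)ˣ} (hle : GH N H'' ≤ GH N H') (τ : Gamma0 N)
    (Φ : Additive (GH N H') →+ R) :
    cjs H'' τ (res hle Φ) = res hle (cjs H' τ Φ) := by
  apply ext_ap
  intro x hx
  rw [cjs, cjs, ap_cj _ _ _ hx, ap_res hle _ hx, ap_res hle _ (conj_mem_GH' H'' τ x hx)]
  rfl

/-- the restriction commutes with the diamond operators. -/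
theorem step_dia_res' {H' H'' : Subgroup (ZMod N)ˣ} (hle : GH N H'' ≤ GH N H') (d : (ZMod N)ˣ)
    (Φ : Additive (GH N H') →+ R) :
    dia H'' d (res hle Φ) = res hle (dia H' d Φ) :=
  step_cjs_res hle (sigma d) Φ

omit [NeZero N] in
theorem isParabolicHom_res {H' H'' : Subgroup (ZMod N)ˣ} (hle : GH N H'' ≤ GH N H')
    {Φ : Additive (GH N H') →+ R} (hΦ : IsParabolicHom (GH N H') Φ) :
    IsParabolicHom (GH N H'') (res hle Φ) := by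
  intro γ hγ
  exact hΦ (Subgroup.inclusion hle γ) hγ

/-- a homomorphism on `Γ_H'(N)` whose restriction is parabolic is parabolic. -/
theorem isParabolicHom_of_res (hreg : ∀ r : R, m • r = 0 → r = 0)
    {Φ : Additive (GH N H') →+ R} (hΦ : IsParabolicHom (GH N H'') (res S.hle Φ)) :
    IsParabolicHom (GH N H') Φ := by
  intro π hπ
  have hm : ((π : GH N H') : SL(2, ℤ)) ^ m ∈ GH N H'' :=
    S.pow_mem_GH π.2 (fun h hh => S.pow_mem hh)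
  have htr : (((⟨((π : GH N H') : SL(2, ℤ)) ^ m, hm⟩ : GH N H'') : SL(2, ℤ))
      : Matrix (Fin 2) (Fin 2) ℤ).trace ^ 2 = 4 :=
    Fermat.Agent.ES.HEQ.DoubleCosetPar27.trace_pow_sq_eq_four _ hπ m
  have h0 := hΦ ⟨_, hm⟩ htr
  rw [resHom_apply] at h0
  have e : Subgroup.inclusion S.hle (⟨((π : GH N H') : SL(2, ℤ)) ^ m, hm⟩ : GH N H'') = π ^ m := rfl
  rw [e, ofMul_pow, map_nsmul] at h0
  exact hreg _ h0

include S in
/-- **(E34)** for a `δ`-invariant `φ`, `T_ℓ φ - (ℓ + 1) φ` is a norm. -/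
theorem step_hecke_sub_norm [Invertible (2 : R)] [Invertible (3 : R)]
    {ℓ : ℕ} [hℓ : Fact ℓ.Prime] (hℓN : ¬ ℓ ∣ N) (σ : Gamma0 N)
    (hσ : Gamma0Map N σ = (ℓ : ZMod N)) {φ : Additive (GH N H'') →+ R}
    (hφ : dia H'' d₀ φ = φ) :
    ∃ y : Additive (GH N H'') →+ R,
      (heckeH hℓN σ hσ H'').addHom φ - (ℓ + 1) • φ
        = ∑ j ∈ Finset.range m, (dia H'' d₀ ^ j) y := by
  obtain ⟨Ψ, hΨ⟩ := exists_res_eq_hecke_sub S.hle (gg d₀) S.hg (conj_mem_GH'' H'' (sigma d₀))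
    (conj_mem_GH' H'' (sigma d₀)) S.hcos S.hdvd S.hgm (heckeH hℓN σ hσ H')
    (isClassPres_heckeH hℓN σ hσ H' H'') hφ
  obtain ⟨y, hy⟩ := res_mem_norm (GH N H'') (gg d₀) (conj_mem_GH'' H'' (sigma d₀))
    (conj_mem_GH' H'' (sigma d₀)) S.hneg S.pos S.hgm S.hfree (GH N H') S.hle S.hg Ψ
  refine ⟨y, ?_⟩
  rw [restrictCP_heckeH, card_heckeH_I] at hΨ
  rw [← hΨ]
  exact hy

/-- **(E4par)** for a `δ`-invariant parabolic `φ`, `T_ℓ φ - (ℓ + 1) φ` is the restriction of a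
parabolic homomorphism on `Γ_H'(N)`. -/
theorem step_hecke_sub_par (hreg : ∀ r : R, m • r = 0 → r = 0)
    {ℓ : ℕ} [hℓ : Fact ℓ.Prime] (hℓN : ¬ ℓ ∣ N) (σ : Gamma0 N)
    (hσ : Gamma0Map N σ = (ℓ : ZMod N)) {φ : Additive (GH N H'') →+ R}
    (hφ : dia H'' d₀ φ = φ) (hpar : IsParabolicHom (GH N H'') φ) :
    ∃ Ψ : Additive (GH N H') →+ R, IsParabolicHom (GH N H') Ψ ∧
      res S.hle Ψ = (heckeH hℓN σ hσ H'').addHom φ - (ℓ + 1) • φ := by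
  obtain ⟨Ψ, hΨ⟩ := exists_res_eq_hecke_sub S.hle (gg d₀) S.hg (conj_mem_GH'' H'' (sigma d₀))
    (conj_mem_GH' H'' (sigma d₀)) S.hcos S.hdvd S.hgm (heckeH hℓN σ hσ H')
    (isClassPres_heckeH hℓN σ hσ H' H'') hφ
  rw [restrictCP_heckeH, card_heckeH_I] at hΨ
  refine ⟨Ψ, isParabolicHom_of_res S hreg ?_, hΨ⟩
  rw [hΨ]
  have h1 := isParabolicHom_addHom (heckeH hℓN σ hσ H'') hpar
  intro γ hγ
  rw [AddMonoidHom.sub_apply, AddMonoidHom.smul_apply, h1 γ hγ, hpar γ hγ]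
  simp

end StepThms

end Fermat.Agent.M43.CycInst0
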