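import Mathlib
import Fermat.Agent.M43.CycInst0

/-!
# M43 / Hecke side, the concrete chain (group theory)

`N` a level, `ℓ i` (`i : Fin s`) divisors of `N`, `K i ≤ (ZMod (ℓ i))ˣ` subgroups, `d i : (ZMod N)ˣ`
with `d i ≡ 1` modulo `ℓ j` (`j ≠ i`) and the class of `d i` modulo `ℓ i` generating
`(ZMod (ℓ i))ˣ ⧸ K i`, cyclic of order `m i`.

* `Chain N s` : these data; `Chain.sub c j := ⨅ i < j, comap (unitsMap (ℓ i ∣ N)) (K i)` (PRODUCT
  form), `sub_zero : c.sub 0 = ⊤`, `sub_anti`;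
* `Chain.stepData` : `CycInst0.StepData N (c.sub j) (c.sub (j + 1)) (c.d j) (c.m j)`;
* `Chain.pow_prod_mem` : `x ^ ∏ i, c.m i ∈ c.sub s`;
* `Kq q m := ker (x ↦ x ^ ((q - 1) / m)) ≤ (ZMod q)ˣ`, `index_Kq`, `neg_one_mem_Kq`,
  `dvd_of_zpow_mem_Kq`, `pow_mem_Kq` : the cyclic quotient of order `m` of `(ZMod q)ˣ`;
* `exists_crt_unit` : units of `ZMod N` with prescribed class modulo `q` and class `1` modulo `N / q`;
* `piZModHom m g hg : Multiplicative (α → ZMod m) →* Q` with `single a 1 ↦ g a`.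
-/

set_option autoImplicit false

namespace Fermat.Agent.M43.ChainGrp5

open Fermat.Agent.M43.CycInst0

/-! ### abstract chains -/

/-- the data of a chain of subgroups of `(ZMod N)ˣ` of product form with cyclic steps. -/
structure Chain (N s : ℕ) where
  /-- the divisors of `N` (in use: distinct primes `q ∥ N`) -/
  ℓ : Fin s → ℕ
  dvd : ∀ i, ℓ i ∣ N
  /-- the local subgroups -/
  K : ∀ i, Subgroup (ZMod (ℓ i))ˣ
  /-- the orders of the steps -/
  m : Fin s → ℕ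
  /-- the generators -/
  d : Fin s → (ZMod N)ˣ
  pos : ∀ i, 0 < m i
  one : ∀ i j, i ≠ j → ZMod.unitsMap (dvd i) (d j) = 1
  gen : ∀ i (x : (ZMod (ℓ i))ˣ), ∃ k : ℤ, (ZMod.unitsMap (dvd i) (d i)) ^ (-k) * x ∈ K i
  ord : ∀ i (k : ℤ), (ZMod.unitsMap (dvd i) (d i)) ^ k ∈ K i → (m i : ℤ) ∣ k
  pow : ∀ i, (ZMod.unitsMap (dvd i) (d i)) ^ (m i) ∈ K i
  neg : ∀ i, (-1 : (ZMod (ℓ i))ˣ) ∈ K i

namespace Chain

variable {N s : ℕ} (c : Chain N s)

/-- the `j`-th subgroup of the chain: the conditions at the first `j` divisors. -/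
def sub (j : ℕ) : Subgroup (ZMod N)ˣ :=
  ⨅ i : Fin s, ⨅ _ : i.val < j, (c.K i).comap (ZMod.unitsMap (c.dvd i))

theorem mem_sub {j : ℕ} {x : (ZMod N)ˣ} :
    x ∈ c.sub j ↔ ∀ i : Fin s, i.val < j → ZMod.unitsMap (c.dvd i) x ∈ c.K i := by
  simp only [sub, Subgroup.mem_iInf, Subgroup.mem_comap]

theorem sub_zero : c.sub 0 = ⊤ := by
  rw [eq_top_iff]
  intro x _
  rw [mem_sub]
  intro i hi
  exact absurd hi (Nat.not_lt_zero _)

theorem sub_anti {j j' : ℕ} (h : j ≤ j') : c.sub j' ≤ c.sub j := by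
  intro x hx
  rw [mem_sub] at hx ⊢
  intro i hi
  exact hx i (lt_of_lt_of_le hi h)

theorem sub_eq_of_le {j : ℕ} (h : s ≤ j) : c.sub j = c.sub s := by
  apply le_antisymm (c.sub_anti h)
  intro x hx
  rw [mem_sub] at hx ⊢
  intro i _
  exact hx i i.2

theorem neg_one_mem_sub (j : ℕ) : (-1 : (ZMod N)ˣ) ∈ c.sub j := by
  rw [mem_sub]
  intro i _
  have : ZMod.unitsMap (c.dvd i) (-1) = -1 := by
    ext
    rw [ZMod.unitsMap_val, Units.val_neg, Units.val_one, ZMod.cast_neg (c.dvd i),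
      ZMod.cast_one (c.dvd i), Units.val_neg, Units.val_one]
  rw [this]
  exact c.neg i

theorem d_mem_sub (i : Fin s) : c.d i ∈ c.sub i.val := by
  rw [mem_sub]
  intro i' hi'
  rw [c.one i' i (fun h => by rw [h] at hi'; exact lt_irrefl _ hi')]
  exact (c.K i').one_mem

/-- **the cyclic steps of the chain.** -/
theorem stepData (i : Fin s) : StepData N (c.sub i.val) (c.sub (i.val + 1)) (c.d i) (c.m i) where
  le := c.sub_anti (Nat.le_succ _)
  mem := c.d_mem_sub i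
  pos := c.pos i
  cos := by
    intro h hh
    obtain ⟨k, hk⟩ := c.gen i (ZMod.unitsMap (c.dvd i) h)
    refine ⟨k, ?_⟩
    rw [mem_sub] at hh ⊢
    intro i' hi'
    rw [map_mul, map_zpow]
    rcases Nat.lt_succ_iff_lt_or_eq.mp hi' with hlt | heq
    · rw [c.one i' i (fun h => by rw [h] at hlt; exact lt_irrefl _ hlt), one_zpow, one_mul]
      exact hh i' hlt
    · obtain rfl : i' = i := Fin.ext heq
      exact hk
  dvd := by
    intro k hk
    rw [mem_sub] at hk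
    have := hk i (Nat.lt_succ_self _)
    rw [map_zpow] at this
    exact c.ord i k this
  pow := by
    rw [mem_sub]
    intro i' hi'
    rw [map_pow]
    rcases Nat.lt_succ_iff_lt_or_eq.mp hi' with hlt | heq
    · rw [c.one i' i (fun h => by rw [h] at hlt; exact lt_irrefl _ hlt), one_pow]
      exact (c.K i').one_mem
    · obtain rfl : i' = i := Fin.ext heq
      exact c.pow i'
  neg := c.neg_one_mem_sub _

/-- the `m i`-th power of any element lies in `K i`. -/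
theorem pow_mem_K (i : Fin s) (x : (ZMod (c.ℓ i))ˣ) : x ^ (c.m i) ∈ c.K i := by
  obtain ⟨k, hk⟩ := c.gen i x
  have e : x = (ZMod.unitsMap (c.dvd i) (c.d i)) ^ k *
      ((ZMod.unitsMap (c.dvd i) (c.d i)) ^ (-k) * x) := by group
  rw [e, mul_pow]
  refine (c.K i).mul_mem ?_ ((c.K i).pow_mem hk _)
  rw [← zpow_natCast, ← zpow_mul, mul_comm, zpow_mul, zpow_natCast]
  exact (c.K i).zpow_mem (c.pow i) k

/-- the quotient `(ZMod N)ˣ ⧸ c.sub s` has exponent dividing `∏ i, c.m i`. -/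
theorem pow_prod_mem (x : (ZMod N)ˣ) : x ^ (∏ i, c.m i) ∈ c.sub s := by
  rw [mem_sub]
  intro i _
  rw [map_pow, ← Finset.mul_prod_erase Finset.univ c.m (Finset.mem_univ i), pow_mul]
  exact (c.K i).pow_mem (c.pow_mem_K i _) _

end Chain

/-! ### the cyclic quotient of order `m` of `(ZMod q)ˣ` -/

/-- `K_q = {x | x ^ ((q - 1) / m) = 1}`: for `m ∣ q - 1` the subgroup of index `m` of `(ZMod q)ˣ`. -/
def Kq (q m : ℕ) : Subgroup (ZMod q)ˣ := (powMonoidHom ((q - 1) / m) : (ZMod q)ˣ →* (ZMod q)ˣ).ker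

theorem mem_Kq {q m : ℕ} {x : (ZMod q)ˣ} : x ∈ Kq q m ↔ x ^ ((q - 1) / m) = 1 := by
  rw [Kq, MonoidHom.mem_ker, powMonoidHom_apply]

theorem neg_one_mem_Kq {q m : ℕ} (h2 : 2 ∣ (q - 1) / m) : (-1 : (ZMod q)ˣ) ∈ Kq q m := by
  rw [mem_Kq]
  obtain ⟨k, hk⟩ := h2
  rw [hk, pow_mul]
  simp

section Kq

variable {q : ℕ} [hq : Fact q.Prime] {m : ℕ}

theorem index_Kq (hm : m ∣ q - 1) : (Kq q m).index = m := by
  have hq1 : 0 < q - 1 := Nat.sub_pos_of_lt hq.out.one_lt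
  have hm0 : 0 < m := Nat.pos_of_dvd_of_pos hm hq1
  rw [Kq, IsCyclic.index_powMonoidHom_ker, Nat.card_eq_fintype_card, ZMod.card_units,
    Nat.gcd_eq_right (Nat.div_dvd_of_dvd hm)]
  exact Nat.div_div_self hm hq1.ne'

theorem pow_mem_Kq (hm : m ∣ q - 1) (x : (ZMod q)ˣ) : x ^ m ∈ Kq q m := by
  rw [mem_Kq, ← pow_mul, Nat.mul_div_cancel' hm, ← ZMod.card_units q]
  exact pow_card_eq_one

/-- if the class of `g` generates `(ZMod q)ˣ ⧸ K_q` then `g ^ k ∈ K_q` only for `m ∣ k`. -/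
theorem dvd_of_zpow_mem_Kq (hm : m ∣ q - 1) {g : (ZMod q)ˣ}
    (hg : ∀ x : (ZMod q)ˣ, ∃ k : ℤ, g ^ (-k) * x ∈ Kq q m) (k : ℤ) (hk : g ^ k ∈ Kq q m) :
    (m : ℤ) ∣ k := by
  have hgen : ∀ y : (ZMod q)ˣ ⧸ Kq q m, y ∈ Subgroup.zpowers (QuotientGroup.mk g : (ZMod q)ˣ ⧸ Kq q m) := by
    intro y
    obtain ⟨x, rfl⟩ := QuotientGroup.mk_surjective y
    obtain ⟨k, hk⟩ := hg x
    refine ⟨k, ?_⟩
    show (QuotientGroup.mk g : (ZMod q)ˣ ⧸ Kq q m) ^ k = QuotientGroup.mk x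
    rw [← QuotientGroup.mk_zpow, QuotientGroup.eq]
    rw [← zpow_neg]
    exact hk
  have hord : orderOf (QuotientGroup.mk g : (ZMod q)ˣ ⧸ Kq q m) = m := by
    rw [orderOf_eq_card_of_forall_mem_zpowers hgen, ← Subgroup.index_eq_card, index_Kq hm]
  rw [← hord, orderOf_dvd_iff_zpow_eq_one, ← QuotientGroup.mk_zpow, QuotientGroup.eq_one_iff]
  exact hk

end Kq

/-! ### the chain of a family of primes -/

/-- **the chain of a family of primes** `q i ∣ N` with orders `m i ∣ q i - 1`, `(q i - 1) / m i` even,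
and generators `d i ≡ 1` modulo `q j` (`j ≠ i`) whose class generates `(ZMod (q i))ˣ ⧸ K_{q i}`. -/
def Chain.ofPrimes {N s : ℕ} (q : Fin s → ℕ) (hq : ∀ i, (q i).Prime) (hqN : ∀ i, q i ∣ N)
    (m : Fin s → ℕ) (hm : ∀ i, m i ∣ q i - 1) (h2 : ∀ i, 2 ∣ (q i - 1) / m i)
    (d : Fin s → (ZMod N)ˣ) (hone : ∀ i j, i ≠ j → ZMod.unitsMap (hqN i) (d j) = 1)
    (hgen : ∀ i (x : (ZMod (q i))ˣ), ∃ k : ℤ,
      (ZMod.unitsMap (hqN i) (d i)) ^ (-k) * x ∈ Kq (q i) (m i)) : Chain N s where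
  ℓ := q
  dvd := hqN
  K := fun i => Kq (q i) (m i)
  m := m
  d := d
  pos := fun i => Nat.pos_of_dvd_of_pos (hm i) (Nat.sub_pos_of_lt (hq i).one_lt)
  one := hone
  gen := hgen
  ord := fun i k hk => by
    have : Fact (q i).Prime := ⟨hq i⟩
    exact dvd_of_zpow_mem_Kq (hm i) (hgen i) k hk
  pow := fun i => by
    have : Fact (q i).Prime := ⟨hq i⟩
    exact pow_mem_Kq (hm i) _
  neg := fun i => neg_one_mem_Kq (h2 i)

/-! ### units with prescribed classes -/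

/-- **Chinese remainder theorem for units**: `N = q * M` with `q`, `M` coprime. -/
theorem exists_crt_unit {N q M : ℕ} [NeZero N] (hN : N = q * M) (hcop : q.Coprime M)
    (g : (ZMod q)ˣ) :
    ∃ d : (ZMod N)ˣ, ZMod.unitsMap (hN ▸ dvd_mul_right q M : q ∣ N) d = g ∧
      ZMod.unitsMap (hN ▸ dvd_mul_left M q : M ∣ N) d = 1 := by
  subst hN
  let e := ZMod.chineseRemainder hcop
  have hu : IsUnit (e.symm ((g : ZMod q), (1 : ZMod M))) :=
    (Prod.isUnit_iff.mpr ⟨g.isUnit, isUnit_one⟩ : IsUnit ((g : ZMod q), (1 : ZMod M))).map e.symm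
  have he : ∀ x : ZMod (q * M), e x = (ZMod.cast x : ZMod q × ZMod M) := fun _ => rfl
  refine ⟨hu.unit, ?_, ?_⟩
  · ext
    rw [ZMod.unitsMap_val, IsUnit.unit_spec]
    have := congrArg Prod.fst (e.apply_symm_apply ((g : ZMod q), (1 : ZMod M)))
    rw [he, Prod.fst_zmod_cast] at this
    exact this
  · ext
    rw [ZMod.unitsMap_val, IsUnit.unit_spec]
    have := congrArg Prod.snd (e.apply_symm_apply ((g : ZMod q), (1 : ZMod M)))
    rw [he, Prod.snd_zmod_cast] at this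
    exact this

/-! ### homomorphisms out of `(ℤ/m)^α` -/

section PiZMod

variable {α : Type*} [Fintype α] [DecidableEq α] {Q : Type*} [CommGroup Q] (m : ℕ)
  (g : α → Q) (hg : ∀ a, g a ^ m = 1)

/-- the homomorphism `ℤ/m → Q`, `1 ↦ g a`, additively. -/
noncomputable def zmodAddHom (a : α) : ZMod m →+ Additive Q :=
  ZMod.lift m ⟨zmultiplesHom (Additive Q) (Additive.ofMul (g a)), by
    rw [zmultiplesHom_apply, natCast_zsmul, ← ofMul_pow, hg a, ofMul_one]⟩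

/-- the homomorphism `(ℤ/m)^α → Q` with `single a 1 ↦ g a`. -/
noncomputable def piZModHom : Multiplicative (α → ZMod m) →* Q :=
  AddMonoidHom.toMultiplicativeLeft
    (∑ a, (zmodAddHom m g hg a).comp (Pi.evalAddMonoidHom (fun _ : α => ZMod m) a))

theorem piZModHom_single (a : α) :
    piZModHom m g hg (Multiplicative.ofAdd (Pi.single a 1)) = g a := by
  rw [piZModHom]
  show Additive.toMul ((∑ b, (zmodAddHom m g hg b).comp
    (Pi.evalAddMonoidHom (fun _ : α => ZMod m) b)) (Pi.single a 1)) = g a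
  rw [AddMonoidHom.finset_sum_apply, Finset.sum_eq_single a]
  · rw [AddMonoidHom.comp_apply, Pi.evalAddMonoidHom_apply, Pi.single_eq_same, zmodAddHom]
    have : ((1 : ℤ) : ZMod m) = 1 := Int.cast_one
    rw [← this, ZMod.lift_coe]
    simp
  · intro b _ hb
    rw [AddMonoidHom.comp_apply, Pi.evalAddMonoidHom_apply, Pi.single_eq_of_ne hb, map_zero]
  · intro h
    exact absurd (Finset.mem_univ a) h

end PiZMod

end Fermat.Agent.M43.ChainGrp5
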