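/-
Programme M43 (target S43), Hecke side, chapter (6c) U-CUT (lead): **the operator `U_q` on
`Γ_H(N)`, `q ∣ N`, and its commutation with `T_ℓ`.**

* `comp T U` : the composite of two coset operators, `comp_addHom : (comp T U).addHom φ
  = T.addHom (U.addHom φ)`;
* `heckeU hqN : CosetOp (Gamma0 N)` (`I = ZMod q`, representatives `β_j`, `permU`, `cocU` of
  `ES/LR/UqOp28`), `unitOf_heckeU_coc` (class preserving), `heckeUH hqN H : CosetOp (GH N H)`;
* **`heckeH_heckeUH_comm`** : `T_ℓ U_q = U_q T_ℓ` on `Hom(Γ_H(N), A)` (`ℓ ∤ N`, `q ∣ N`).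
-/
import Mathlib
import Fermat.Agent.M43.CycInst0
import Fermat.Agent.ES.LR.UqOp28

set_option autoImplicit false

open scoped Classical MatrixGroups
open CongruenceSubgroup Matrix.SpecialLinearGroup ModularCurve.Period

noncomputable section

namespace Fermat.Agent.M43.HeckeU0

open Fermat.Agent.M48.ESInv3 Fermat.Agent.M48.CosetOp3 Fermat.Agent.M43.HeckeH0
  Fermat.Agent.M48.Diamond1 Fermat.Agent.M48.G1Reps3
open Fermat.Agent.ES.HEQ Fermat.Agent.ES.LR

/-! ### composition of coset operators -/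

section Comp

variable {Γ : Subgroup SL(2, ℤ)}

/-- the composite coset operator: first `U`, then `T` (`(comp T U).addHom = T.addHom ∘ U.addHom`). -/
def comp (T U : CosetOp Γ) : CosetOp Γ where
  I := T.I × U.I
  fintype := inferInstance
  g x := U.g x.2 * T.g x.1
  det_pos x := by
    rw [map_mul, Units.val_mul]
    exact mul_pos (U.det_pos _) (T.det_pos _)
  perm γ := Equiv.prodShear (T.perm γ) (fun i => U.perm (T.coc γ i))
  coc γ x := U.coc (T.coc γ x.1) x.2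
  rel γ x := by
    show U.g x.2 * T.g x.1 * mapGL ℝ ((γ : Γ) : SL(2, ℤ))
      = mapGL ℝ ((U.coc (T.coc γ x.1) x.2 : Γ) : SL(2, ℤ))
        * (U.g (U.perm (T.coc γ x.1) x.2) * T.g (T.perm γ x.1))
    rw [mul_assoc, T.rel, ← mul_assoc, U.rel, mul_assoc]
  perm_mul γ δ x := by
    show ((T.perm (γ * δ)) x.1, (U.perm (T.coc (γ * δ) x.1)) x.2)
      = ((T.perm δ) ((T.perm γ) x.1), (U.perm (T.coc δ ((T.perm γ) x.1))) ((U.perm (T.coc γ x.1)) x.2))
    rw [T.perm_mul, T.coc_mul, U.perm_mul]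
  coc_mul γ δ x := by
    show U.coc (T.coc (γ * δ) x.1) x.2
      = U.coc (T.coc γ x.1) x.2 * U.coc (T.coc δ ((T.perm γ) x.1)) ((U.perm (T.coc γ x.1)) x.2)
    rw [T.coc_mul, U.coc_mul]

theorem comp_addHom {A : Type*} [AddCommGroup A] (T U : CosetOp Γ) (φ : Additive Γ →+ A) :
    (comp T U).addHom φ = T.addHom (U.addHom φ) := by
  refine AddMonoidHom.ext fun γ' => ?_
  obtain ⟨γ, rfl⟩ := Additive.ofMul.surjective γ'
  rw [CosetOp.addHom_apply, CosetOp.addHom_apply]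
  show ∑ x : T.I × U.I, φ (Additive.ofMul (U.coc (T.coc γ x.1) x.2)) = _
  rw [Fintype.sum_prod_type]
  refine Finset.sum_congr rfl fun i _ => ?_
  rw [CosetOp.addHom_apply]

theorem comp_g (T U : CosetOp Γ) (i : T.I) (j : U.I) : (comp T U).g (i, j) = U.g j * T.g i := rfl

end Comp

/-! ### `U_q` on `Γ₀(N)` -/

section U

variable {N : ℕ} {q : ℕ} [hq : Fact q.Prime]

/-- for `σ ∈ Γ₀(N)`: `σ₀₀ σ₁₁ ≡ 1 mod N`. -/
theorem upper_left_mul_Gamma0Map (σ : Gamma0 N) :
    (((σ : SL(2, ℤ)) 0 0 : ℤ) : ZMod N) * Gamma0Map N σ = 1 := by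
  have hdet := Fermat.Agent.ES.KUM.TraceClass17.det_eq (σ : SL(2, ℤ))
  have h10 : (((σ : SL(2, ℤ)) 1 0 : ℤ) : ZMod N) = 0 := by
    have := σ.2
    rwa [Gamma0_mem] at this
  have h := congrArg (Int.cast : ℤ → ZMod N) hdet
  push_cast at h
  rw [h10, mul_zero, sub_zero] at h
  exact h

/-- **the cocycle of `U_q` has the diamond class of `γ`.** -/
theorem Gamma0Map_cocU (hqN : q ∣ N) (γ : Gamma0 N) (j : ZMod q) :
    Gamma0Map N (UqOp28.cocU hqN γ j) = Gamma0Map N γ := by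
  set c := UqOp28.cocU hqN γ j with hc
  have e00 := congrFun (congrFun (UqOp28.beta_some_mul hqN γ j) 0) 0
  simp only [Matrix.mul_apply, Fin.sum_univ_two, DoubleCoset27.beta_some, Matrix.of_apply,
    Matrix.cons_val', Matrix.cons_val_zero, Matrix.cons_val_one, Matrix.cons_val_fin_one,
    one_mul, mul_one, mul_zero, add_zero] at e00
  -- `γ₀₀ + j γ₁₀ = c₀₀`
  have h10 : (((γ : SL(2, ℤ)) 1 0 : ℤ) : ZMod N) = 0 := by
    have := γ.2
    rwa [Gamma0_mem] at this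
  have h00 : (((c : SL(2, ℤ)) 0 0 : ℤ) : ZMod N) = (((γ : SL(2, ℤ)) 0 0 : ℤ) : ZMod N) := by
    have h := congrArg (Int.cast : ℤ → ZMod N) e00
    push_cast at h
    rw [h10, mul_zero, add_zero] at h
    exact h.symm
  have h1 := upper_left_mul_Gamma0Map c
  have h2 := upper_left_mul_Gamma0Map γ
  rw [h00] at h1
  calc Gamma0Map N c = Gamma0Map N c * ((((γ : SL(2, ℤ)) 0 0 : ℤ) : ZMod N) * Gamma0Map N γ) := by
        rw [h2, mul_one]
    _ = ((((γ : SL(2, ℤ)) 0 0 : ℤ) : ZMod N) * Gamma0Map N c) * Gamma0Map N γ := by ring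
    _ = Gamma0Map N γ := by rw [h1, one_mul]

theorem unitOf_cocU (hqN : q ∣ N) (γ : Gamma0 N) (j : ZMod q) :
    unitOf (UqOp28.cocU hqN γ j) = unitOf γ := by
  ext
  rw [coe_unitOf, coe_unitOf, Gamma0Map_cocU]

/-- **The coset-sum operator of `U_q` on `Γ₀(N)`**, `q ∣ N`. -/
def heckeU (hqN : q ∣ N) : CosetOp (Gamma0 N) where
  I := ZMod q
  fintype := inferInstance
  g j := DoubleCoset27.glBeta q (some j)
  det_pos j := det_glBeta_pos (some j)
  perm γ := UqOp28.permU γ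
  coc γ j := UqOp28.cocU hqN γ j
  rel γ j := by
    rw [DoubleCoset27.glBeta_mul, ← UqOp28.some_permU hqN]
    rfl
  perm_mul γ δ j := UqOp28.permU_mul hqN γ δ j
  coc_mul γ δ j := UqOp28.cocU_mul hqN γ δ j

@[simp] theorem heckeU_coc (hqN : q ∣ N) (γ : Gamma0 N) (j : ZMod q) :
    (heckeU hqN).coc γ j = UqOp28.cocU hqN γ j := rfl

theorem heckeU_g (hqN : q ∣ N) (j : ZMod q) :
    (heckeU hqN).g j = DoubleCoset27.glBeta q (some j) := rfl

/-- `U_q` on `Γ₀(N)` is the operator `UqAdd` of `ES/LR/UqOp28`. -/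
theorem heckeU_addHom {A : Type*} [AddCommGroup A] (hqN : q ∣ N) (φ : Additive (Gamma0 N) →+ A) :
    (heckeU hqN).addHom φ = UqOp28.UqAdd hqN φ := by
  refine AddMonoidHom.ext fun γ' => ?_
  obtain ⟨γ, rfl⟩ := Additive.ofMul.surjective γ'
  rfl

theorem isClassPres_heckeU (hqN : q ∣ N) (H : Subgroup (ZMod N)ˣ) :
    ExtCyc0.IsClassPres (Γ' := Gamma0 N) (heckeU hqN) (GH N H) := by
  intro γ j
  have e : (((heckeU hqN).coc γ j : Gamma0 N) : SL(2, ℤ)) * ((γ : Gamma0 N) : SL(2, ℤ))⁻¹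
      = (((heckeU hqN).coc γ j * γ⁻¹ : Gamma0 N) : SL(2, ℤ)) := rfl
  rw [e, coe_mem_GH_iff, unitOf_mul, heckeU_coc, unitOf_cocU]
  have e2 : unitOf γ * unitOf γ⁻¹ = 1 := by
    rw [← unitOf_mul, mul_inv_cancel, unitOf_one]
  rw [e2]
  exact H.one_mem

/-- **`U_q` on `Γ_H(N)`.** -/
def heckeUH (hqN : q ∣ N) (H : Subgroup (ZMod N)ˣ) : CosetOp (GH N H) :=
  ExtCyc0.restrictCP (GH_le_Gamma0 H) (heckeU hqN) (isClassPres_heckeU hqN H)

end U


/-! ### integral matrices in `GL₂(ℝ)` -/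

section IsInt

/-- `X : GL₂(ℝ)` is the image of the integral matrix `M`. -/
def IsInt (X : GL (Fin 2) ℝ) (M : Matrix (Fin 2) (Fin 2) ℤ) : Prop :=
  (X : Matrix (Fin 2) (Fin 2) ℝ) = M.map (Int.cast : ℤ → ℝ)

theorem IsInt.mul {X Y : GL (Fin 2) ℝ} {M M' : Matrix (Fin 2) (Fin 2) ℤ} (hX : IsInt X M)
    (hY : IsInt Y M') : IsInt (X * Y) (M * M') := by
  unfold IsInt at *
  rw [Matrix.GeneralLinearGroup.coe_mul, hX, hY, Matrix.map_mul_intCast]

theorem isInt_mapGL (γ : SL(2, ℤ)) : IsInt (mapGL ℝ γ) (γ : Matrix (Fin 2) (Fin 2) ℤ) := by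
  unfold IsInt
  rw [mapGL_coe_matrix]
  rfl

theorem isInt_glBeta {p : ℕ} [Fact p.Prime] (i : Option (ZMod p)) :
    IsInt (DoubleCoset27.glBeta p i) (DoubleCoset27.beta p i) :=
  DoubleCoset27.coe_glBeta i

theorem IsInt.eq {X Y : GL (Fin 2) ℝ} {M : Matrix (Fin 2) (Fin 2) ℤ} (hX : IsInt X M)
    (hY : IsInt Y M) : X = Y := by
  apply Matrix.GeneralLinearGroup.ext
  intro a b
  have : (X : Matrix (Fin 2) (Fin 2) ℝ) = (Y : Matrix (Fin 2) (Fin 2) ℝ) := by
    rw [hX, hY]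
  exact congrFun (congrFun this a) b

theorem IsInt.inj {X : GL (Fin 2) ℝ} {M M' : Matrix (Fin 2) (Fin 2) ℤ} (hX : IsInt X M)
    (hX' : IsInt X M') : M = M' := by
  unfold IsInt at *
  exact Matrix.map_injective (Int.cast_injective (α := ℝ)) (hX.symm.trans hX')

end IsInt


/-! ### distinctness of the composite representatives -/

section Distinct

variable {q : ℕ} [hq : Fact q.Prime]

/-- if `A β_j = B β_{j₂}` and `q` does not divide the first column of `A`, then `j = j₂`. -/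
theorem eq_of_mul_beta_some {A B : Matrix (Fin 2) (Fin 2) ℤ}
    (hA : ¬ ((q : ℤ) ∣ A 0 0 ∧ (q : ℤ) ∣ A 1 0)) {j j₂ : ZMod q}
    (h : A * DoubleCoset27.beta q (some j) = B * DoubleCoset27.beta q (some j₂)) : j = j₂ := by
  have e00 := congrFun (congrFun h 0) 0
  have e10 := congrFun (congrFun h 1) 0
  have e01 := congrFun (congrFun h 0) 1
  have e11 := congrFun (congrFun h 1) 1
  simp only [Matrix.mul_apply, Fin.sum_univ_two, DoubleCoset27.beta_some, Matrix.of_apply,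
    Matrix.cons_val', Matrix.cons_val_zero, Matrix.cons_val_one, Matrix.cons_val_fin_one,
    mul_one, mul_zero, add_zero] at e00 e10 e01 e11
  have hqp : Prime (q : ℤ) := Nat.prime_iff_prime_int.mp hq.out
  set d : ℤ := (j.val : ℤ) - (j₂.val : ℤ) with hd
  have h1 : (q : ℤ) ∣ A 0 0 * d := ⟨B 0 1 - A 0 1, by rw [hd]; rw [← e00] at e01; linarith⟩
  have h2 : (q : ℤ) ∣ A 1 0 * d := ⟨B 1 1 - A 1 1, by rw [hd]; rw [← e10] at e11; linarith⟩
  have hdq : (q : ℤ) ∣ d := by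
    by_contra hnd
    apply hA
    exact ⟨(hqp.dvd_or_dvd h1).resolve_right hnd, (hqp.dvd_or_dvd h2).resolve_right hnd⟩
  have hj : (j.val : ℤ) < q := by exact_mod_cast ZMod.val_lt j
  have hj₂ : (j₂.val : ℤ) < q := by exact_mod_cast ZMod.val_lt j₂
  have hj0 : (0 : ℤ) ≤ j.val := by positivity
  have hj₂0 : (0 : ℤ) ≤ j₂.val := by positivity
  have hd0 : d = 0 := by
    apply Int.eq_zero_of_abs_lt_dvd hdq
    rw [abs_lt]
    constructor <;> rw [hd] <;> linarith
  have : (j.val : ℤ) = j₂.val := by rw [hd] at hd0; linarith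
  exact ZMod.val_injective q (by exact_mod_cast this)

end Distinct


/-! ### `T_ℓ U_q = U_q T_ℓ` -/

section Comm

variable {N : ℕ} {ℓ q : ℕ} [hℓ : Fact ℓ.Prime] [hq : Fact q.Prime]
  (hℓN : ¬ ℓ ∣ N) (hqN : q ∣ N) (σ : Gamma0 N) (hσ : Gamma0Map N σ = (ℓ : ZMod N))
  (H : Subgroup (ZMod N)ˣ)

/-- the integral matrix of the representative `tw_i β_i` of `T_ℓ`. -/
def matT (σ : Gamma0 N) (i : Option (ZMod ℓ)) : Matrix (Fin 2) (Fin 2) ℤ :=
  (((tw σ i : Gamma0 N) : SL(2, ℤ)) : Matrix (Fin 2) (Fin 2) ℤ) * DoubleCoset27.beta ℓ i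

theorem isInt_heckeH_g (i : Option (ZMod ℓ)) :
    IsInt ((heckeH hℓN σ hσ H).g i) (matT σ i) :=
  (isInt_mapGL _).mul (isInt_glBeta i)

theorem isInt_heckeUH_g (j : ZMod q) :
    IsInt ((heckeUH hqN H).g j) (DoubleCoset27.beta q (some j)) :=
  isInt_glBeta (some j)

omit hq in
theorem det_matT (i : Option (ZMod ℓ)) : (matT σ i).det = ℓ := by
  rw [matT, Matrix.det_mul, DoubleCoset27.det_beta, Matrix.SpecialLinearGroup.det_coe, one_mul]

include hℓN hqN in
omit hℓ in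
theorem ne_of_dvd : q ≠ ℓ := by
  rintro rfl
  exact hℓN hqN

include hℓN hqN in
theorem not_dvd_col (i : Option (ZMod ℓ)) :
    ¬ ((q : ℤ) ∣ matT σ i 0 0 ∧ (q : ℤ) ∣ matT σ i 1 0) := by
  rintro ⟨h0, h1⟩
  have hdet := det_matT σ i
  rw [Matrix.det_fin_two] at hdet
  have : (q : ℤ) ∣ (ℓ : ℤ) := by
    rw [← hdet]
    exact dvd_sub (Dvd.dvd.mul_right h0 _) (Dvd.dvd.mul_left h1 _)
  have h2 : q ∣ ℓ := by exact_mod_cast this
  exact ne_of_dvd hℓN hqN ((Nat.prime_dvd_prime_iff_eq hq.out hℓ.out).mp h2)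

include hℓN hqN in
/-- the representatives of `U_q`-then-... `T.g i * U.g j` lie in distinct `SL(2, ℤ)`-cosets. -/
theorem comp_reps_inj (x y : (comp (heckeUH hqN H) (heckeH hℓN σ hσ H)).I) (c : SL(2, ℤ))
    (h : (comp (heckeUH hqN H) (heckeH hℓN σ hσ H)).g x
      = mapGL ℝ c * (comp (heckeUH hqN H) (heckeH hℓN σ hσ H)).g y) : x = y := by
  obtain ⟨jx, ix⟩ := x
  obtain ⟨jy, iy⟩ := y
  rw [comp_g, comp_g] at h
  have h1 : IsInt ((heckeH hℓN σ hσ H).g ix * (heckeUH hqN H).g jx)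
      (matT σ ix * DoubleCoset27.beta q (some jx)) :=
    (isInt_heckeH_g hℓN σ hσ H ix).mul (isInt_heckeUH_g hqN H jx)
  have h2 : IsInt (mapGL ℝ c * ((heckeH hℓN σ hσ H).g iy * (heckeUH hqN H).g jy))
      ((c : Matrix (Fin 2) (Fin 2) ℤ) * (matT σ iy * DoubleCoset27.beta q (some jy))) :=
    (isInt_mapGL c).mul ((isInt_heckeH_g hℓN σ hσ H iy).mul (isInt_heckeUH_g hqN H jy))
  rw [h] at h1
  have hM := h1.inj h2
  rw [← Matrix.mul_assoc] at hM
  have hj : jx = jy := eq_of_mul_beta_some (not_dvd_col hℓN hqN σ ix) hM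
  subst hj
  have hA := DoubleCoset27.mul_beta_cancel (some jx) hM
  rw [matT, matT, ← Matrix.mul_assoc, ← Matrix.SpecialLinearGroup.coe_mul] at hA
  have hi := (DoubleCoset27.decomp_unique hA).1
  rw [hi]


/-! #### the matching of the representatives -/

/-- the matching `P¹(𝔽_ℓ) × 𝔽_q → 𝔽_q × P¹(𝔽_ℓ)`. -/
def e0 (σ : Gamma0 N) : Option (ZMod ℓ) × ZMod q → ZMod q × Option (ZMod ℓ)
  | (some i, j) => (((i.val + j.val * ℓ : ℕ) : ZMod q),
      some (((i.val + j.val * ℓ) / q : ℕ) : ZMod ℓ))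
  | (none, j) => (((ℓ : ZMod q))⁻¹ * UqOp28.permU σ j, none)

omit hq in
theorem kk_lt (i : ZMod ℓ) (j : ZMod q) [NeZero q] : i.val + j.val * ℓ < q * ℓ := by
  have hi := ZMod.val_lt i
  have hj := ZMod.val_lt j
  have : (j.val + 1) * ℓ ≤ q * ℓ := Nat.mul_le_mul_right ℓ hj
  nlinarith

include hℓN hqN in
theorem unit_ell : IsUnit ((ℓ : ZMod q)) := by
  have hcop : Nat.Coprime ℓ q := by
    rw [Nat.coprime_primes hℓ.out hq.out]
    exact (ne_of_dvd hℓN hqN).symm
  exact (ZMod.unitOfCoprime ℓ hcop).isUnit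

include hℓN hqN in
theorem e0_injective : Function.Injective (e0 (ℓ := ℓ) (q := q) σ) := by
  rintro ⟨i, j⟩ ⟨i', j'⟩ h
  cases i with
  | none =>
    cases i' with
    | none =>
      simp only [e0, Prod.mk.injEq, and_true] at h
      have h2 := (unit_ell (ℓ := ℓ) (q := q) hℓN hqN).inv.mul_left_cancel h
      rw [(UqOp28.permU σ).injective h2]
    | some i' =>
      simp only [e0, Prod.mk.injEq] at h
      exact absurd h.2 (by simp)
  | some i =>
    cases i' with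
    | none =>
      simp only [e0, Prod.mk.injEq] at h
      exact absurd h.2 (by simp)
    | some i' =>
      simp only [e0, Prod.mk.injEq, Option.some.injEq] at h
      obtain ⟨h1, h2⟩ := h
      set k := i.val + j.val * ℓ with hk
      set k' := i'.val + j'.val * ℓ with hk'
      have hkl : k < q * ℓ := kk_lt i j
      have hkl' : k' < q * ℓ := kk_lt i' j'
      have hq0 : 0 < q := hq.out.pos
      have e1 : k % q = k' % q := by
        have := congrArg ZMod.val h1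
        rwa [ZMod.val_natCast, ZMod.val_natCast] at this
      have e2 : k / q = k' / q := by
        have := congrArg ZMod.val h2
        rw [ZMod.val_natCast, ZMod.val_natCast, Nat.mod_eq_of_lt (Nat.div_lt_of_lt_mul hkl),
          Nat.mod_eq_of_lt (Nat.div_lt_of_lt_mul hkl')] at this
        exact this
      have e3 : k = k' := by
        rw [← Nat.div_add_mod k q, ← Nat.div_add_mod k' q, e1, e2]
      have hi : i.val = i'.val := by
        have := congrArg (· % ℓ) e3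
        simp only [hk, hk', Nat.add_mul_mod_self_right] at this
        rwa [Nat.mod_eq_of_lt (ZMod.val_lt i), Nat.mod_eq_of_lt (ZMod.val_lt i')] at this
      have hj : j.val = j'.val := by
        have := congrArg (· / ℓ) e3
        simp only [hk, hk'] at this
        rwa [Nat.add_mul_div_right _ _ hℓ.out.pos, Nat.add_mul_div_right _ _ hℓ.out.pos,
          Nat.div_eq_of_lt (ZMod.val_lt i), Nat.div_eq_of_lt (ZMod.val_lt i'), zero_add,
          zero_add] at this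
      rw [ZMod.val_injective ℓ hi, ZMod.val_injective q hj]


omit hℓ hq in
theorem mat_finite (a b i j l r : ℤ) (h : a + b * r = i + j * l) :
    (!![1, b; 0, l] : Matrix (Fin 2) (Fin 2) ℤ) * !![1, a; 0, r]
      = !![1, j; 0, r] * !![1, i; 0, l] := by
  ext x y
  fin_cases x <;> fin_cases y <;> simp [Matrix.mul_apply, Fin.sum_univ_two]
  · linarith
  · ring

omit hℓ hq in
theorem mat_infinite (a b m l r : ℤ) (h : l * a = b + m * r) :
    (!![l, 0; 0, 1] : Matrix (Fin 2) (Fin 2) ℤ) * !![1, a; 0, r]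
      = !![1, m; 0, 1] * !![1, b; 0, r] * !![l, 0; 0, 1] := by
  ext x y
  fin_cases x <;> fin_cases y <;> simp [Matrix.mul_apply, Fin.sum_univ_two]
  linarith

/-- the finite matching: `β^ℓ_{i*} β^q_{j*} = β^q_j β^ℓ_i`. -/
theorem beta_mul_beta_finite (i : ZMod ℓ) (j : ZMod q) :
    DoubleCoset27.beta ℓ (some (((i.val + j.val * ℓ) / q : ℕ) : ZMod ℓ))
        * DoubleCoset27.beta q (some ((i.val + j.val * ℓ : ℕ) : ZMod q))
      = DoubleCoset27.beta q (some j) * DoubleCoset27.beta ℓ (some i) := by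
  set k := i.val + j.val * ℓ with hk
  have hkl : k < q * ℓ := kk_lt i j
  have v1 : (((k / q : ℕ) : ZMod ℓ)).val = k / q := by
    rw [ZMod.val_natCast, Nat.mod_eq_of_lt (Nat.div_lt_of_lt_mul hkl)]
  have v2 : ((k : ZMod q)).val = k % q := ZMod.val_natCast q k
  rw [DoubleCoset27.beta_some, DoubleCoset27.beta_some, DoubleCoset27.beta_some,
    DoubleCoset27.beta_some, v1, v2]
  have hdm : ((k % q : ℕ) : ℤ) + ((k / q : ℕ) : ℤ) * q = ((i.val : ℕ) : ℤ) + ((j.val : ℕ) : ℤ) * ℓ := by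
    have := Nat.mod_add_div k q
    have h2 : ((k % q + q * (k / q) : ℕ) : ℤ) = ((i.val + j.val * ℓ : ℕ) : ℤ) := by rw [this]
    rw [Nat.cast_add, Nat.cast_mul, Nat.cast_add, Nat.cast_mul] at h2
    linarith
  exact mat_finite _ _ _ _ _ _ hdm

/-- the matching at `∞`: `β^ℓ_∞ β^q_{j*} = T^m β^q_{j'} β^ℓ_∞` when `ℓ j* = j' + m q`. -/
theorem beta_mul_beta_infinite (js j' : ZMod q) (m : ℤ)
    (hm : (ℓ : ℤ) * ((js.val : ℕ) : ℤ) = ((j'.val : ℕ) : ℤ) + m * q) :
    DoubleCoset27.beta ℓ none * DoubleCoset27.beta q (some js)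
      = ((ModularGroup.T ^ m : SL(2, ℤ)) : Matrix (Fin 2) (Fin 2) ℤ)
        * DoubleCoset27.beta q (some j') * DoubleCoset27.beta ℓ none := by
  rw [ModularGroup.coe_T_zpow, DoubleCoset27.beta_some, DoubleCoset27.beta_some,
    DoubleCoset27.beta_none]
  exact mat_infinite _ _ _ _ _ hm


omit hq in
theorem matT_some (i : ZMod ℓ) : matT σ (some i) = DoubleCoset27.beta ℓ (some i) := by
  rw [matT, tw_some]
  simp

omit hq in
theorem matT_none : matT (ℓ := ℓ) σ none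
    = ((σ : SL(2, ℤ)) : Matrix (Fin 2) (Fin 2) ℤ) * DoubleCoset27.beta ℓ none := rfl

omit hℓ hq in
theorem T_zpow_mem_Gamma0 (m : ℤ) : ModularGroup.T ^ m ∈ Gamma0 N := by
  rw [Gamma0_mem, ModularGroup.coe_T_zpow]
  simp

omit hℓ hq in
theorem unitOf_T_zpow (m : ℤ) (h : ModularGroup.T ^ m ∈ Gamma0 N) :
    unitOf (⟨ModularGroup.T ^ m, h⟩ : Gamma0 N) = 1 := by
  ext
  rw [coe_unitOf]
  show (((ModularGroup.T ^ m : SL(2, ℤ)) 1 1 : ℤ) : ZMod N) = ((1 : (ZMod N)ˣ) : ZMod N)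
  rw [ModularGroup.coe_T_zpow]
  simp

include hℓN hqN in
theorem exists_match (x : Option (ZMod ℓ) × ZMod q) :
    ∃ a : GH N H, (comp (heckeUH hqN H) (heckeH hℓN σ hσ H)).g (e0 σ x)
      = mapGL ℝ ((a : GH N H) : SL(2, ℤ))
        * (comp (heckeH hℓN σ hσ H) (heckeUH hqN H)).g x := by
  obtain ⟨i, j⟩ := x
  cases i with
  | some i =>
    refine ⟨1, ?_⟩
    show (heckeH hℓN σ hσ H).g (some (((i.val + j.val * ℓ) / q : ℕ) : ZMod ℓ))
        * (heckeUH hqN H).g ((i.val + j.val * ℓ : ℕ) : ZMod q)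
      = mapGL ℝ (1 : SL(2, ℤ)) * ((heckeUH hqN H).g j * (heckeH hℓN σ hσ H).g (some i))
    rw [map_one, one_mul]
    have h1 := (isInt_heckeH_g hℓN σ hσ H (some (((i.val + j.val * ℓ) / q : ℕ) : ZMod ℓ))).mul
      (isInt_heckeUH_g hqN H ((i.val + j.val * ℓ : ℕ) : ZMod q))
    have h2 := (isInt_heckeUH_g hqN H j).mul (isInt_heckeH_g hℓN σ hσ H (some i))
    rw [matT_some, beta_mul_beta_finite] at h1
    rw [matT_some] at h2
    exact h1.eq h2
  | none =>
    set j' := UqOp28.permU σ j with hj'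
    set js : ZMod q := ((ℓ : ZMod q))⁻¹ * j' with hjs
    set c := UqOp28.cocU hqN σ j with hc
    -- the integer `m`
    have hu := unit_ell (ℓ := ℓ) (q := q) hℓN hqN
    have hmul : (ℓ : ZMod q) * js = j' := by
      rw [hjs, ← mul_assoc, ZMod.mul_inv_of_unit _ hu, one_mul]
    have hcast : (((j'.val : ℕ) : ℤ) : ZMod q) = (((ℓ : ℤ) * ((js.val : ℕ) : ℤ) : ℤ) : ZMod q) := by
      push_cast
      rw [ZMod.natCast_zmod_val, ZMod.natCast_zmod_val, hmul]
    obtain ⟨m, hm⟩ := (ZMod.intCast_eq_intCast_iff_dvd_sub _ _ q).mp hcast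
    have hm' : (ℓ : ℤ) * ((js.val : ℕ) : ℤ) = ((j'.val : ℕ) : ℤ) + m * q := by linarith
    have hTmem : ModularGroup.T ^ m ∈ Gamma0 N := T_zpow_mem_Gamma0 m
    set aG : Gamma0 N := σ * ⟨ModularGroup.T ^ m, hTmem⟩ * c⁻¹ with haG
    have hamem : (aG : SL(2, ℤ)) ∈ GH N H := by
      rw [coe_mem_GH_iff, haG, unitOf_mul, unitOf_mul, unitOf_T_zpow, mul_one]
      have e2 : unitOf c⁻¹ = (unitOf c)⁻¹ := by
        have := unitOf_mul c⁻¹ c
        rw [inv_mul_cancel, unitOf_one] at this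
        exact eq_inv_of_mul_eq_one_left this.symm
      rw [e2, hc, unitOf_cocU, mul_inv_cancel]
      exact H.one_mem
    refine ⟨⟨aG, hamem⟩, ?_⟩
    show (heckeH hℓN σ hσ H).g none * (heckeUH hqN H).g js
      = mapGL ℝ ((aG : Gamma0 N) : SL(2, ℤ)) * ((heckeUH hqN H).g j * (heckeH hℓN σ hσ H).g none)
    have hrel : DoubleCoset27.glBeta q (some j) * mapGL ℝ ((σ : Gamma0 N) : SL(2, ℤ))
        = mapGL ℝ ((c : Gamma0 N) : SL(2, ℤ)) * DoubleCoset27.glBeta q (some j') :=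
      (heckeU hqN).rel σ j
    have key : DoubleCoset27.glBeta ℓ none * DoubleCoset27.glBeta q (some js)
        = mapGL ℝ (ModularGroup.T ^ m) * DoubleCoset27.glBeta q (some j')
          * DoubleCoset27.glBeta ℓ none := by
      have h1 := (isInt_glBeta (p := ℓ) none).mul (isInt_glBeta (p := q) (some js))
      have h2 := ((isInt_mapGL (ModularGroup.T ^ m)).mul (isInt_glBeta (p := q) (some j'))).mul
        (isInt_glBeta (p := ℓ) none)
      rw [beta_mul_beta_infinite js j' m hm'] at h1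
      exact h1.eq h2
    show mapGL ℝ ((σ : Gamma0 N) : SL(2, ℤ)) * DoubleCoset27.glBeta ℓ none
        * DoubleCoset27.glBeta q (some js)
      = mapGL ℝ ((aG : Gamma0 N) : SL(2, ℤ)) * (DoubleCoset27.glBeta q (some j)
        * (mapGL ℝ ((σ : Gamma0 N) : SL(2, ℤ)) * DoubleCoset27.glBeta ℓ none))
    have haG' : mapGL ℝ ((aG : Gamma0 N) : SL(2, ℤ))
        = mapGL ℝ ((σ : Gamma0 N) : SL(2, ℤ)) * mapGL ℝ (ModularGroup.T ^ m)
          * (mapGL ℝ ((c : Gamma0 N) : SL(2, ℤ)))⁻¹ := by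
      rw [haG, Subgroup.coe_mul, Subgroup.coe_mul, Subgroup.coe_inv, map_mul, map_mul, map_inv]
    calc mapGL ℝ ((σ : Gamma0 N) : SL(2, ℤ)) * DoubleCoset27.glBeta ℓ none
          * DoubleCoset27.glBeta q (some js)
        = mapGL ℝ ((σ : Gamma0 N) : SL(2, ℤ))
          * (DoubleCoset27.glBeta ℓ none * DoubleCoset27.glBeta q (some js)) := by group
      _ = mapGL ℝ ((σ : Gamma0 N) : SL(2, ℤ)) * (mapGL ℝ (ModularGroup.T ^ m)
          * DoubleCoset27.glBeta q (some j') * DoubleCoset27.glBeta ℓ none) := by rw [key]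
      _ = mapGL ℝ ((σ : Gamma0 N) : SL(2, ℤ)) * mapGL ℝ (ModularGroup.T ^ m)
          * (mapGL ℝ ((c : Gamma0 N) : SL(2, ℤ)))⁻¹
          * (mapGL ℝ ((c : Gamma0 N) : SL(2, ℤ)) * DoubleCoset27.glBeta q (some j'))
          * DoubleCoset27.glBeta ℓ none := by group
      _ = mapGL ℝ ((σ : Gamma0 N) : SL(2, ℤ)) * mapGL ℝ (ModularGroup.T ^ m)
          * (mapGL ℝ ((c : Gamma0 N) : SL(2, ℤ)))⁻¹
          * (DoubleCoset27.glBeta q (some j) * mapGL ℝ ((σ : Gamma0 N) : SL(2, ℤ)))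
          * DoubleCoset27.glBeta ℓ none := by rw [hrel]
      _ = mapGL ℝ ((aG : Gamma0 N) : SL(2, ℤ)) * (DoubleCoset27.glBeta q (some j)
          * (mapGL ℝ ((σ : Gamma0 N) : SL(2, ℤ)) * DoubleCoset27.glBeta ℓ none)) := by
        rw [haG']; group

include hℓN hqN in
/-- **`T_ℓ U_q = U_q T_ℓ`** on `Hom(Γ_H(N), A)`, `ℓ ∤ N`, `q ∣ N`. -/
theorem heckeH_heckeUH_comm {A : Type*} [AddCommGroup A] (φ : Additive (GH N H) →+ A) :
    (heckeH hℓN σ hσ H).addHom ((heckeUH hqN H).addHom φ)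
      = (heckeUH hqN H).addHom ((heckeH hℓN σ hσ H).addHom φ) := by
  rw [← comp_addHom, ← comp_addHom]
  choose a ha using exists_match hℓN hqN σ hσ H
  have hbij : Function.Bijective
      (e0 σ : (comp (heckeH hℓN σ hσ H) (heckeUH hqN H)).I
        → (comp (heckeUH hqN H) (heckeH hℓN σ hσ H)).I) := by
    rw [Fintype.bijective_iff_injective_and_card]
    refine ⟨e0_injective hℓN hqN σ, ?_⟩
    show Fintype.card ((heckeH hℓN σ hσ H).I × (heckeUH hqN H).I)
      = Fintype.card ((heckeUH hqN H).I × (heckeH hℓN σ hσ H).I)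
    rw [Fintype.card_prod, Fintype.card_prod, mul_comm]
  exact (addHom_eq_of_reps (comp (heckeH hℓN σ hσ H) (heckeUH hqN H))
    (comp (heckeUH hqN H) (heckeH hℓN σ hσ H)) (Equiv.ofBijective _ hbij) a ha
    (fun x y c h => comp_reps_inj hℓN hqN σ hσ H x y c h) φ).symm

end Comm

/-! ### `U_q U_{q'} = U_{q'} U_q` -/

section CommUU

variable {N : ℕ} {q q' : ℕ} [hq : Fact q.Prime] [hq' : Fact q'.Prime]
  (hqN : q ∣ N) (hq'N : q' ∣ N) (hne : q ≠ q') (H : Subgroup (ZMod N)ˣ)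

/-- the matching `𝔽_q × 𝔽_{q'} → 𝔽_{q'} × 𝔽_q`. -/
def e1 : ZMod q × ZMod q' → ZMod q' × ZMod q :=
  fun x => (((x.1.val + x.2.val * q : ℕ) : ZMod q'), (((x.1.val + x.2.val * q) / q' : ℕ) : ZMod q))

theorem e1_injective : Function.Injective (e1 (q := q) (q' := q')) := by
  rintro ⟨i, j⟩ ⟨i', j'⟩ h
  simp only [e1, Prod.mk.injEq] at h
  obtain ⟨h1, h2⟩ := h
  set k := i.val + j.val * q with hk
  set k' := i'.val + j'.val * q with hk'
  have hkl : k < q' * q := kk_lt i j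
  have hkl' : k' < q' * q := kk_lt i' j'
  have e1' : k % q' = k' % q' := by
    have := congrArg ZMod.val h1
    rwa [ZMod.val_natCast, ZMod.val_natCast] at this
  have e2 : k / q' = k' / q' := by
    have := congrArg ZMod.val h2
    rw [ZMod.val_natCast, ZMod.val_natCast, Nat.mod_eq_of_lt (Nat.div_lt_of_lt_mul hkl),
      Nat.mod_eq_of_lt (Nat.div_lt_of_lt_mul hkl')] at this
    exact this
  have e3 : k = k' := by
    rw [← Nat.div_add_mod k q', ← Nat.div_add_mod k' q', e1', e2]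
  have hi : i.val = i'.val := by
    have := congrArg (· % q) e3
    simp only [hk, hk', Nat.add_mul_mod_self_right] at this
    rwa [Nat.mod_eq_of_lt (ZMod.val_lt i), Nat.mod_eq_of_lt (ZMod.val_lt i')] at this
  have hj : j.val = j'.val := by
    have := congrArg (· / q) e3
    simp only [hk, hk'] at this
    rwa [Nat.add_mul_div_right _ _ hq.out.pos, Nat.add_mul_div_right _ _ hq.out.pos,
      Nat.div_eq_of_lt (ZMod.val_lt i), Nat.div_eq_of_lt (ZMod.val_lt i'), zero_add,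
      zero_add] at this
  rw [ZMod.val_injective q hi, ZMod.val_injective q' hj]

include hne in
theorem compUU_reps_inj (x y : (comp (heckeUH hq'N H) (heckeUH hqN H)).I) (c : SL(2, ℤ))
    (h : (comp (heckeUH hq'N H) (heckeUH hqN H)).g x
      = mapGL ℝ c * (comp (heckeUH hq'N H) (heckeUH hqN H)).g y) : x = y := by
  obtain ⟨jx, ix⟩ := x
  obtain ⟨jy, iy⟩ := y
  rw [comp_g, comp_g] at h
  have h1 : IsInt ((heckeUH hqN H).g ix * (heckeUH hq'N H).g jx)
      (DoubleCoset27.beta q (some ix) * DoubleCoset27.beta q' (some jx)) :=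
    (isInt_heckeUH_g hqN H ix).mul (isInt_heckeUH_g hq'N H jx)
  have h2 : IsInt (mapGL ℝ c * ((heckeUH hqN H).g iy * (heckeUH hq'N H).g jy))
      ((c : Matrix (Fin 2) (Fin 2) ℤ)
        * (DoubleCoset27.beta q (some iy) * DoubleCoset27.beta q' (some jy))) :=
    (isInt_mapGL c).mul ((isInt_heckeUH_g hqN H iy).mul (isInt_heckeUH_g hq'N H jy))
  rw [h] at h1
  have hM := h1.inj h2
  rw [← Matrix.mul_assoc] at hM
  have hcol : ¬ ((q' : ℤ) ∣ DoubleCoset27.beta q (some ix) 0 0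
      ∧ (q' : ℤ) ∣ DoubleCoset27.beta q (some ix) 1 0) := by
    rintro ⟨h0, -⟩
    simp only [DoubleCoset27.beta_some, Matrix.of_apply, Matrix.cons_val', Matrix.cons_val_zero,
      Matrix.cons_val_fin_one] at h0
    have := Int.le_of_dvd one_pos h0
    have h2' : (2 : ℤ) ≤ q' := by exact_mod_cast hq'.out.two_le
    omega
  have hj : jx = jy := eq_of_mul_beta_some hcol hM
  subst hj
  have hA := DoubleCoset27.mul_beta_cancel (some jx) hM
  have hA' : ((1 : SL(2, ℤ)) : Matrix (Fin 2) (Fin 2) ℤ) * DoubleCoset27.beta q (some ix)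
      = (c : Matrix (Fin 2) (Fin 2) ℤ) * DoubleCoset27.beta q (some iy) := by
    rw [Matrix.SpecialLinearGroup.coe_one, Matrix.one_mul]
    exact hA
  have hi := (DoubleCoset27.decomp_unique hA').1
  rw [Option.some.injEq] at hi
  rw [hi]

include hne in
/-- **`U_q U_{q'} = U_{q'} U_q`** on `Hom(Γ_H(N), A)`. -/
theorem heckeUH_heckeUH_comm {A : Type*} [AddCommGroup A] (φ : Additive (GH N H) →+ A) :
    (heckeUH hqN H).addHom ((heckeUH hq'N H).addHom φ)
      = (heckeUH hq'N H).addHom ((heckeUH hqN H).addHom φ) := by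
  rw [← comp_addHom, ← comp_addHom]
  have hbij : Function.Bijective
      (e1 : (comp (heckeUH hqN H) (heckeUH hq'N H)).I
        → (comp (heckeUH hq'N H) (heckeUH hqN H)).I) := by
    rw [Fintype.bijective_iff_injective_and_card]
    refine ⟨e1_injective, ?_⟩
    show Fintype.card ((heckeUH hqN H).I × (heckeUH hq'N H).I)
      = Fintype.card ((heckeUH hq'N H).I × (heckeUH hqN H).I)
    rw [Fintype.card_prod, Fintype.card_prod, mul_comm]
  refine (addHom_eq_of_reps (comp (heckeUH hqN H) (heckeUH hq'N H))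
    (comp (heckeUH hq'N H) (heckeUH hqN H)) (Equiv.ofBijective _ hbij) (fun _ => 1) ?_
    (fun x y c h => compUU_reps_inj hqN hq'N hne H x y c h) φ).symm
  rintro ⟨i, j⟩
  show (heckeUH hqN H).g (((i.val + j.val * q) / q' : ℕ) : ZMod q)
      * (heckeUH hq'N H).g ((i.val + j.val * q : ℕ) : ZMod q')
    = mapGL ℝ (((1 : GH N H) : GH N H) : SL(2, ℤ)) * ((heckeUH hq'N H).g j * (heckeUH hqN H).g i)
  rw [Subgroup.coe_one, map_one, one_mul]
  have h1 := (isInt_heckeUH_g hqN H (((i.val + j.val * q) / q' : ℕ) : ZMod q)).mul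
    (isInt_heckeUH_g hq'N H ((i.val + j.val * q : ℕ) : ZMod q'))
  have h2 := (isInt_heckeUH_g hq'N H j).mul (isInt_heckeUH_g hqN H i)
  rw [beta_mul_beta_finite] at h1
  exact h1.eq h2

end CommUU

/-! ### compatibilities of `U_q` -/

section Compat

variable {N : ℕ} {q : ℕ} [hq : Fact q.Prime] (hqN : q ∣ N) {R : Type*} [CommRing R]

/-- `U_q` commutes with conjugation by `Γ₀(N)`. -/
theorem heckeUH_cjs (H : Subgroup (ZMod N)ˣ) (τ : Gamma0 N) (φ : Additive (GH N H) →+ R) :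
    (heckeUH hqN H).addHom (CycInst0.cjs H τ φ) = CycInst0.cjs H τ ((heckeUH hqN H).addHom φ) :=
  ExtCyc0.restrictCP_cj (GH_le_Gamma0 H) (τ : SL(2, ℤ)) τ.2 (CycInst0.conj_mem_GH'' H τ)
    (CycInst0.conj_mem_GH' H τ) (heckeU hqN) (isClassPres_heckeU hqN H) φ

theorem heckeUH_dia [NeZero N] (H : Subgroup (ZMod N)ˣ) (d : (ZMod N)ˣ)
    (φ : Additive (GH N H) →+ R) :
    (heckeUH hqN H).addHom (CycInst0.dia H d φ) = CycInst0.dia H d ((heckeUH hqN H).addHom φ) :=
  heckeUH_cjs hqN H (sigma d) φ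

/-- `U_q` commutes with the restriction. -/
theorem heckeUH_res {H' H'' : Subgroup (ZMod N)ˣ} (hle : GH N H'' ≤ GH N H')
    (Φ : Additive (GH N H') →+ R) :
    (heckeUH hqN H'').addHom (ExtCyc0.res hle Φ)
      = ExtCyc0.res hle ((heckeUH hqN H').addHom Φ) := by
  refine AddMonoidHom.ext fun γ' => ?_
  obtain ⟨γ, rfl⟩ := Additive.ofMul.surjective γ'
  rw [CosetOp.addHom_apply, resHom_apply, CosetOp.addHom_apply]
  rfl

/-- `U_q` on `Γ_H(N)` and on `Γ₀(N)`. -/
theorem heckeUH_resHom {A : Type*} [AddCommGroup A] (H : Subgroup (ZMod N)ˣ)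
    (φ : Additive (Gamma0 N) →+ A) :
    (heckeUH hqN H).addHom (resHom (GH_le_Gamma0 H) φ)
      = resHom (GH_le_Gamma0 H) (UqOp28.UqAdd hqN φ) := by
  rw [← heckeU_addHom]
  exact restrict_addHom (heckeU hqN) (GH N H) (GH_le_Gamma0 H)
    (fun γ i hγ => (isClassPres_heckeU hqN H).coc_mem γ i hγ) φ

end Compat

end Fermat.Agent.M43.HeckeU0
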