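import Mathlib

/-!
# M43 / Hecke side: modules over a polynomial ring from commuting families of operators

`O` a commutative ring, `P` an `O`-module, `τ : ι → Module.End O P` a commuting family.

* `polyAct τ hτ : MvPolynomial ι O →ₐ[O] Module.End O P` with `X i ↦ τ i`; `polyAct_X`, `polyAct_C`,
  `polyAct_commute`, `polyAct_intertwine`;
* `PolyMod τ hτ` : the type synonym of `P` with its structure of module over `MvPolynomial ι O`
  (`X i • y = τ i y`), `PolyMod.of : P ≃ₗ[O] PolyMod τ hτ`, `PolyMod.smul_of`, `PolyMod.X_smul`;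
* `PolyMod.map` : an `O`-linear map intertwining the families is linear over the polynomial ring;
  `PolyMod.endo` : an `O`-endomorphism commuting with the family, as an endomorphism over the
  polynomial ring (`endo_one`, `endo_mul`, `endo_pow`, `endoHom`);
* finiteness and freeness over `O` are inherited.
-/

set_option autoImplicit false

namespace Fermat.Agent.M43.PolyMod5

section PolyAct

variable {O : Type*} [CommRing O] {ι : Type*} {P : Type*} [AddCommGroup P] [Module O P]
  (τ : ι → Module.End O P) (hτ : ∀ i j, Commute (τ i) (τ j))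

include hτ in
theorem comm_range : ∀ a ∈ Set.range τ, ∀ b ∈ Set.range τ, a * b = b * a := by
  rintro _ ⟨i, rfl⟩ _ ⟨j, rfl⟩
  exact hτ i j

/-- the action of `O[X_i]` on `P` through the commuting family `τ`. -/
noncomputable def polyAct : MvPolynomial ι O →ₐ[O] Module.End O P :=
  letI : CommRing (Algebra.adjoin O (Set.range τ)) :=
    Algebra.adjoinCommRingOfComm O (comm_range τ hτ)
  (Algebra.adjoin O (Set.range τ)).val.comp
    (MvPolynomial.aeval fun i =>
      (⟨τ i, Algebra.subset_adjoin ⟨i, rfl⟩⟩ : Algebra.adjoin O (Set.range τ)))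

@[simp] theorem polyAct_X (i : ι) : polyAct τ hτ (MvPolynomial.X i) = τ i := by
  unfold polyAct
  simp

theorem polyAct_commute (s s' : MvPolynomial ι O) :
    Commute (polyAct τ hτ s) (polyAct τ hτ s') := by
  unfold Commute SemiconjBy
  rw [← map_mul, ← map_mul, mul_comm]

theorem polyAct_C (a : O) : polyAct τ hτ (MvPolynomial.C a) = a • (1 : Module.End O P) := by
  rw [← MvPolynomial.algebraMap_eq, AlgHom.commutes, Algebra.algebraMap_eq_smul_one]

/-- a linear map intertwining the generators intertwines the whole actions. -/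
theorem polyAct_intertwine {P' : Type*} [AddCommGroup P'] [Module O P'] (τ' : ι → Module.End O P')
    (hτ' : ∀ i j, Commute (τ' i) (τ' j)) (f : P →ₗ[O] P')
    (hf : ∀ i x, f (τ i x) = τ' i (f x)) (s : MvPolynomial ι O) (x : P) :
    f (polyAct τ hτ s x) = polyAct τ' hτ' s (f x) := by
  induction s using MvPolynomial.induction_on generalizing x with
  | C a => rw [polyAct_C, polyAct_C, LinearMap.smul_apply, LinearMap.smul_apply, map_smul,
      Module.End.one_apply, Module.End.one_apply]
  | add s s' hs hs' => rw [map_add, map_add, LinearMap.add_apply, LinearMap.add_apply, map_add,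
      hs, hs']
  | mul_X s i hs =>
    rw [map_mul, map_mul, polyAct_X, polyAct_X, Module.End.mul_apply, Module.End.mul_apply,
      hs, hf]

end PolyAct

section Syn

variable {O : Type*} [CommRing O] {ι : Type*} {P : Type*} [AddCommGroup P] [Module O P]

/-- the type synonym of `P` carrying the module structure over `MvPolynomial ι O`. -/
@[nolint unusedArguments]
def PolyMod (τ : ι → Module.End O P) (_hτ : ∀ i j, Commute (τ i) (τ j)) : Type _ := P

variable (τ : ι → Module.End O P) (hτ : ∀ i j, Commute (τ i) (τ j))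

instance : AddCommGroup (PolyMod τ hτ) := inferInstanceAs (AddCommGroup P)

instance : Module O (PolyMod τ hτ) := inferInstanceAs (Module O P)

/-- the identity `P ≃ PolyMod τ hτ`. -/
def PolyMod.of : P ≃ₗ[O] PolyMod τ hτ := LinearEquiv.refl O P

noncomputable instance : Module (MvPolynomial ι O) (PolyMod τ hτ) :=
  Module.compHom P (polyAct τ hτ : MvPolynomial ι O →+* Module.End O P)

theorem PolyMod.smul_of (s : MvPolynomial ι O) (y : P) :
    s • PolyMod.of τ hτ y = PolyMod.of τ hτ (polyAct τ hτ s y) := rfl

theorem PolyMod.smul_def (s : MvPolynomial ι O) (y : PolyMod τ hτ) :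
    s • y = PolyMod.of τ hτ (polyAct τ hτ s ((PolyMod.of τ hτ).symm y)) := rfl

theorem PolyMod.X_smul (i : ι) (y : P) :
    (MvPolynomial.X i : MvPolynomial ι O) • PolyMod.of τ hτ y = PolyMod.of τ hτ (τ i y) := by
  rw [PolyMod.smul_of, polyAct_X]

instance : IsScalarTower O (MvPolynomial ι O) (PolyMod τ hτ) :=
  ⟨fun c b x => by
    rw [PolyMod.smul_def, PolyMod.smul_def, map_smul, LinearMap.smul_apply, map_smul]⟩

instance [Module.Finite O P] : Module.Finite O (PolyMod τ hτ) := inferInstanceAs (Module.Finite O P)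

instance [Module.Free O P] : Module.Free O (PolyMod τ hτ) := inferInstanceAs (Module.Free O P)

variable {τ hτ}
variable {P' : Type*} [AddCommGroup P'] [Module O P'] {τ' : ι → Module.End O P'}
  {hτ' : ∀ i j, Commute (τ' i) (τ' j)}

/-- an intertwining `O`-linear map is linear over the polynomial ring. -/
def PolyMod.map (f : P →ₗ[O] P') (hf : ∀ i x, f (τ i x) = τ' i (f x)) :
    PolyMod τ hτ →ₗ[MvPolynomial ι O] PolyMod τ' hτ' where
  toFun y := PolyMod.of τ' hτ' (f ((PolyMod.of τ hτ).symm y))
  map_add' y y' := by rw [map_add, map_add, map_add]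
  map_smul' s y := by
    rw [RingHom.id_apply, PolyMod.smul_def, PolyMod.smul_def, LinearEquiv.symm_apply_apply,
      LinearEquiv.symm_apply_apply, polyAct_intertwine τ hτ τ' hτ' f hf]

@[simp] theorem PolyMod.map_of (f : P →ₗ[O] P') (hf : ∀ i x, f (τ i x) = τ' i (f x)) (y : P) :
    PolyMod.map (hτ := hτ) (hτ' := hτ') f hf (PolyMod.of τ hτ y) = PolyMod.of τ' hτ' (f y) := rfl

/-- an `O`-endomorphism commuting with the family, as an endomorphism over the polynomial ring. -/
def PolyMod.endo (f : Module.End O P) (hf : ∀ i, Commute f (τ i)) :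
    Module.End (MvPolynomial ι O) (PolyMod τ hτ) :=
  PolyMod.map f (fun i x => by
    have := congrArg (fun g : Module.End O P => g x) (hf i).eq
    exact this)

@[simp] theorem PolyMod.endo_of (f : Module.End O P) (hf : ∀ i, Commute f (τ i)) (y : P) :
    PolyMod.endo (hτ := hτ) f hf (PolyMod.of τ hτ y) = PolyMod.of τ hτ (f y) := rfl

theorem PolyMod.endo_one :
    PolyMod.endo (hτ := hτ) (1 : Module.End O P) (fun i => Commute.one_left _) = 1 := rfl

theorem PolyMod.endo_mul (f g : Module.End O P) (hf : ∀ i, Commute f (τ i))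
    (hg : ∀ i, Commute g (τ i)) :
    PolyMod.endo (hτ := hτ) (f * g) (fun i => (hf i).mul_left (hg i)) =
      PolyMod.endo f hf * PolyMod.endo g hg := rfl

theorem PolyMod.endo_sub (f g : Module.End O P) (hf : ∀ i, Commute f (τ i))
    (hg : ∀ i, Commute g (τ i)) :
    PolyMod.endo (hτ := hτ) (f - g) (fun i => (hf i).sub_left (hg i)) =
      PolyMod.endo f hf - PolyMod.endo g hg := rfl

theorem PolyMod.endo_pow (f : Module.End O P) (hf : ∀ i, Commute f (τ i)) (n : ℕ) :
    PolyMod.endo (hτ := hτ) (f ^ n) (fun i => (hf i).pow_left n) = PolyMod.endo f hf ^ n := by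
  induction n with
  | zero => rfl
  | succ n ih =>
    have : PolyMod.endo (hτ := hτ) (f ^ (n + 1)) (fun i => (hf i).pow_left (n + 1)) =
        PolyMod.endo (f ^ n) (fun i => (hf i).pow_left n) * PolyMod.endo f hf := by
      apply LinearMap.ext
      intro y
      show PolyMod.of τ hτ ((f ^ (n + 1)) ((PolyMod.of τ hτ).symm y)) =
        PolyMod.of τ hτ ((f ^ n) (f ((PolyMod.of τ hτ).symm y)))
      rw [pow_succ, Module.End.mul_apply]
    rw [this, ih, pow_succ]

/-- the scalar `X i` acts as `τ i`. -/
theorem PolyMod.X_smul_eq_endo (i : ι) (y : PolyMod τ hτ) :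
    (MvPolynomial.X i : MvPolynomial ι O) • y = PolyMod.endo (τ i) (fun j => hτ i j) y := by
  rw [PolyMod.smul_def, polyAct_X]
  rfl

end Syn

end Fermat.Agent.M43.PolyMod5
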