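/-
Programme M43 (target S43), chapter TWIST-LAT — helper6.
**(β'1): the operators `T_ℓ`, `T_ℓ'` commute on `Hom(Γ_H(N), A)`** for every level `N`, every
subgroup `H ≤ (ℤ/N)ˣ`, every abelian group `A` and all primes `ℓ, ℓ' ∤ N`.

Proof by the matching of the representatives (`HeckeH0.addHom_eq_of_reps`) of the two composite
coset operators (`HeckeU0.comp`): every integral matrix of determinant `ℓ ℓ'` factors through a
representative of `T_ℓ'` on the right (`exists_factor`), the indices are unique (`index_unique`),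
and the comparison matrices lie in `Γ₁(N)` because all the representatives are upper triangular
with upper left entry `1` modulo `N` (`IsU1`).
-/
import Mathlib
import Fermat.Agent.M43.HeckeU0

set_option autoImplicit false
set_option linter.unusedSectionVars false

open scoped Classical MatrixGroups
open CongruenceSubgroup Matrix.SpecialLinearGroup ModularCurve.Period

noncomputable section

namespace Fermat.Agent.M43.TwistLatK6

open Fermat.Agent.M48.ESInv3 Fermat.Agent.M48.CosetOp3 Fermat.Agent.M43.HeckeH0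
  Fermat.Agent.M48.Diamond1 Fermat.Agent.M48.G1Reps3 Fermat.Agent.M43.HeckeU0
open Fermat.Agent.ES.HEQ

/-! ### Integral matrices of determinant divisible by `p` -/

section Mat

variable {p : ℕ} [hp : Fact p.Prime]

/-- every integral matrix of determinant divisible by `p` is `M' β_k` for some `k`. -/
theorem exists_factor (M : Matrix (Fin 2) (Fin 2) ℤ) (hM : (p : ℤ) ∣ M.det) :
    ∃ (k : Option (ZMod p)) (M' : Matrix (Fin 2) (Fin 2) ℤ), M = M' * DoubleCoset27.beta p k := by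
  rw [Matrix.det_fin_two] at hM
  by_cases h : (p : ℤ) ∣ M 0 0 ∧ (p : ℤ) ∣ M 1 0
  · obtain ⟨⟨a', ha⟩, ⟨c', hc⟩⟩ := h
    refine ⟨none, !![a', M 0 1; c', M 1 1], ?_⟩
    ext i j
    fin_cases i <;> fin_cases j <;>
      simp [DoubleCoset27.beta, Matrix.mul_apply, Fin.sum_univ_two, ha, hc, mul_comm]
  · have hdet : ((M 0 0 : ℤ) : ZMod p) * ((M 1 1 : ℤ) : ZMod p)
        - ((M 0 1 : ℤ) : ZMod p) * ((M 1 0 : ℤ) : ZMod p) = 0 := by
      have := (ZMod.intCast_zmod_eq_zero_iff_dvd _ p).mpr hM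
      push_cast at this
      exact this
    have hj : ∃ j : ZMod p, ((M 0 1 : ℤ) : ZMod p) = ((M 0 0 : ℤ) : ZMod p) * j
        ∧ ((M 1 1 : ℤ) : ZMod p) = ((M 1 0 : ℤ) : ZMod p) * j := by
      by_cases ha : ((M 0 0 : ℤ) : ZMod p) = 0
      · have hc : ((M 1 0 : ℤ) : ZMod p) ≠ 0 := by
          intro hc
          exact h ⟨(ZMod.intCast_zmod_eq_zero_iff_dvd _ p).mp ha,
            (ZMod.intCast_zmod_eq_zero_iff_dvd _ p).mp hc⟩
        refine ⟨((M 1 1 : ℤ) : ZMod p) * (((M 1 0 : ℤ) : ZMod p))⁻¹, ?_, ?_⟩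
        · rw [ha, zero_mul, zero_sub, neg_eq_zero] at hdet
          rw [ha, zero_mul]
          exact ((mul_eq_zero.mp hdet).resolve_right hc)
        · field_simp
      · refine ⟨((M 0 1 : ℤ) : ZMod p) * (((M 0 0 : ℤ) : ZMod p))⁻¹, ?_, ?_⟩
        · field_simp
        · have : ((M 0 0 : ℤ) : ZMod p) * ((M 1 1 : ℤ) : ZMod p)
              = ((M 0 1 : ℤ) : ZMod p) * ((M 1 0 : ℤ) : ZMod p) := sub_eq_zero.mp hdet
          field_simp
          rw [mul_comm, this, mul_comm]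
    obtain ⟨j, hj0, hj1⟩ := hj
    have hjv : (((j.val : ℕ) : ℤ) : ZMod p) = j := by
      rw [Int.cast_natCast, ZMod.natCast_zmod_val]
    have h0 : (p : ℤ) ∣ M 0 1 - M 0 0 * (j.val : ℕ) := by
      rw [← ZMod.intCast_zmod_eq_zero_iff_dvd]
      push_cast
      rw [ZMod.natCast_zmod_val, hj0, sub_self]
    have h1 : (p : ℤ) ∣ M 1 1 - M 1 0 * (j.val : ℕ) := by
      rw [← ZMod.intCast_zmod_eq_zero_iff_dvd]
      push_cast
      rw [ZMod.natCast_zmod_val, hj1, sub_self]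
    obtain ⟨b', hb⟩ := h0
    obtain ⟨d', hd⟩ := h1
    refine ⟨some j, !![M 0 0, b'; M 1 0, d'], ?_⟩
    ext i k
    fin_cases i <;> fin_cases k <;>
      simp [DoubleCoset27.beta, Matrix.mul_apply, Fin.sum_univ_two, -ZMod.natCast_val]
    · linarith
    · linarith

/-- the index `k` of a factorisation `A β_k` is unique as long as `p ∤ det A`. -/
theorem index_unique {A B : Matrix (Fin 2) (Fin 2) ℤ} (hA : ¬ (p : ℤ) ∣ A.det)
    {k k' : Option (ZMod p)}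
    (h : A * DoubleCoset27.beta p k = B * DoubleCoset27.beta p k') : k = k' := by
  have hp0 : (p : ℤ) ≠ 0 := by exact_mod_cast hp.out.ne_zero
  have hdet : A.det = B.det := by
    have := congrArg Matrix.det h
    rw [Matrix.det_mul, Matrix.det_mul, DoubleCoset27.det_beta, DoubleCoset27.det_beta] at this
    exact mul_right_cancel₀ hp0 this
  have hB : ¬ (p : ℤ) ∣ B.det := hdet ▸ hA
  have hcolA : ¬ ((p : ℤ) ∣ A 0 0 ∧ (p : ℤ) ∣ A 1 0) := by
    rintro ⟨h0, h1⟩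
    apply hA
    rw [Matrix.det_fin_two]
    exact dvd_sub (Dvd.dvd.mul_right h0 _) (Dvd.dvd.mul_left h1 _)
  have e00 := congrFun (congrFun h 0) 0
  have e10 := congrFun (congrFun h 1) 0
  have e01 := congrFun (congrFun h 0) 1
  have e11 := congrFun (congrFun h 1) 1
  cases k with
  | none =>
    cases k' with
    | none => rfl
    | some j' =>
      exfalso
      simp only [Matrix.mul_apply, Fin.sum_univ_two, DoubleCoset27.beta_some,
        DoubleCoset27.beta_none, Matrix.of_apply,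
        Matrix.cons_val', Matrix.cons_val_zero, Matrix.cons_val_one, Matrix.cons_val_fin_one,
        mul_one, mul_zero, add_zero, zero_add] at e00 e10 e01 e11
      apply hA
      rw [Matrix.det_fin_two]
      have h0 : (p : ℤ) ∣ A 0 1 := ⟨A 0 0 * (j'.val : ℕ) + B 0 1, by rw [e01, ← e00]; ring⟩
      have h1 : (p : ℤ) ∣ A 1 1 := ⟨A 1 0 * (j'.val : ℕ) + B 1 1, by rw [e11, ← e10]; ring⟩
      exact dvd_sub (Dvd.dvd.mul_left h1 _) (Dvd.dvd.mul_right h0 _)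
  | some j =>
    cases k' with
    | none =>
      exfalso
      simp only [Matrix.mul_apply, Fin.sum_univ_two, DoubleCoset27.beta_some,
        DoubleCoset27.beta_none, Matrix.of_apply,
        Matrix.cons_val', Matrix.cons_val_zero, Matrix.cons_val_one, Matrix.cons_val_fin_one,
        mul_one, mul_zero, add_zero, zero_add] at e00 e10 e01 e11
      apply hB
      rw [Matrix.det_fin_two]
      have h0 : (p : ℤ) ∣ B 0 1 := ⟨B 0 0 * (j.val : ℕ) + A 0 1, by rw [← e01, e00]; ring⟩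
      have h1 : (p : ℤ) ∣ B 1 1 := ⟨B 1 0 * (j.val : ℕ) + A 1 1, by rw [← e11, e10]; ring⟩
      exact dvd_sub (Dvd.dvd.mul_left h1 _) (Dvd.dvd.mul_right h0 _)
    | some j' =>
      rw [eq_of_mul_beta_some hcolA h]

end Mat

/-! ### Matrices which are upper triangular with upper left entry `1` modulo `N` -/

section U1

variable {N : ℕ}

/-- `M ≡ [[1, *], [0, *]] mod N`. -/
def IsU1 (N : ℕ) (M : Matrix (Fin 2) (Fin 2) ℤ) : Prop :=
  ((M 1 0 : ℤ) : ZMod N) = 0 ∧ ((M 0 0 : ℤ) : ZMod N) = 1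

theorem IsU1.mul {A B : Matrix (Fin 2) (Fin 2) ℤ} (hA : IsU1 N A) (hB : IsU1 N B) :
    IsU1 N (A * B) := by
  obtain ⟨hA1, hA0⟩ := hA
  obtain ⟨hB1, hB0⟩ := hB
  constructor
  · simp only [Matrix.mul_apply, Fin.sum_univ_two]
    push_cast
    rw [hA1, hB1, zero_mul, mul_zero, add_zero]
  · simp only [Matrix.mul_apply, Fin.sum_univ_two]
    push_cast
    rw [hA0, hB0, hB1, mul_zero, add_zero, mul_one]

/-- if `X = γ Z` with `X`, `Z` of type `IsU1`, then `γ ∈ Γ₁(N)`. -/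
theorem mem_Gamma1_of_isU1 {γ : SL(2, ℤ)} {X Z : Matrix (Fin 2) (Fin 2) ℤ} (hX : IsU1 N X)
    (hZ : IsU1 N Z) (h : X = (γ : Matrix (Fin 2) (Fin 2) ℤ) * Z) : γ ∈ Gamma1 N := by
  obtain ⟨hX1, hX0⟩ := hX
  obtain ⟨hZ1, hZ0⟩ := hZ
  have e10 := congrArg (fun M : Matrix (Fin 2) (Fin 2) ℤ => ((M 1 0 : ℤ) : ZMod N)) h
  have e00 := congrArg (fun M : Matrix (Fin 2) (Fin 2) ℤ => ((M 0 0 : ℤ) : ZMod N)) h
  simp only [Matrix.mul_apply, Fin.sum_univ_two] at e10 e00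
  push_cast at e10 e00
  rw [hX1, hZ1, hZ0, mul_zero, add_zero, mul_one] at e10
  rw [hX0, hZ1, hZ0, mul_zero, add_zero, mul_one] at e00
  have hdet := congrArg (Int.cast : ℤ → ZMod N)
    (Fermat.Agent.ES.KUM.TraceClass17.det_eq γ)
  push_cast at hdet
  rw [← e10, ← e00, mul_zero, sub_zero, one_mul] at hdet
  rw [Gamma1_mem]
  exact ⟨e00.symm, hdet, e10.symm⟩

end U1

/-! ### `T_ℓ T_ℓ' = T_ℓ' T_ℓ` -/

section Comm

variable {N : ℕ} {ℓ ℓ' : ℕ} [hℓ : Fact ℓ.Prime] [hℓ' : Fact ℓ'.Prime]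

theorem isU1_matT {σ : Gamma0 N} (hσ : Gamma0Map N σ = (ℓ : ZMod N)) (i : Option (ZMod ℓ)) :
    IsU1 N (matT σ i) := by
  have h10 : (((σ : SL(2, ℤ)) 1 0 : ℤ) : ZMod N) = 0 := by
    have := σ.2
    rwa [Gamma0_mem] at this
  cases i with
  | none =>
    constructor
    · simp only [matT, tw_none, Matrix.mul_apply, Fin.sum_univ_two, DoubleCoset27.beta_none,
        Matrix.of_apply, Matrix.cons_val', Matrix.cons_val_zero, Matrix.cons_val_one,
        Matrix.cons_val_fin_one, mul_zero, add_zero]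
      push_cast
      rw [h10, zero_mul]
    · simp only [matT, tw_none, Matrix.mul_apply, Fin.sum_univ_two, DoubleCoset27.beta_none,
        Matrix.of_apply, Matrix.cons_val', Matrix.cons_val_zero, Matrix.cons_val_one,
        Matrix.cons_val_fin_one, mul_zero, add_zero]
      push_cast
      have := upper_left_mul_Gamma0Map σ
      rwa [hσ] at this
  | some j =>
    constructor
    · simp [matT, Matrix.mul_apply, Fin.sum_univ_two, DoubleCoset27.beta]
    · simp [matT, Matrix.mul_apply, Fin.sum_univ_two, DoubleCoset27.beta]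

variable (hℓN : ¬ ℓ ∣ N) (hℓ'N : ¬ ℓ' ∣ N) (σ : Gamma0 N) (hσ : Gamma0Map N σ = (ℓ : ZMod N))
  (σ' : Gamma0 N) (hσ' : Gamma0Map N σ' = (ℓ' : ZMod N)) (H : Subgroup (ZMod N)ˣ)

theorem matT_eq (i : Option (ZMod ℓ)) :
    matT σ i = (((tw σ i : Gamma0 N) : SL(2, ℤ)) : Matrix (Fin 2) (Fin 2) ℤ)
      * DoubleCoset27.beta ℓ i := rfl

/-- the representatives of the composite lie in distinct `SL(2, ℤ)`-cosets (`ℓ ≠ ℓ'`). -/
theorem reps_inj_aux (hne : ℓ ≠ ℓ') (ix iy : Option (ZMod ℓ)) (jx jy : Option (ZMod ℓ'))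
    (c : SL(2, ℤ))
    (h : (heckeH hℓ'N σ' hσ' H).g jx * (heckeH hℓN σ hσ H).g ix
      = mapGL ℝ c * ((heckeH hℓ'N σ' hσ' H).g jy * (heckeH hℓN σ hσ H).g iy)) :
    ix = iy ∧ jx = jy := by
  have h1 : IsInt ((heckeH hℓ'N σ' hσ' H).g jx * (heckeH hℓN σ hσ H).g ix)
      (matT σ' jx * matT σ ix) :=
    (isInt_heckeH_g hℓ'N σ' hσ' H jx).mul (isInt_heckeH_g hℓN σ hσ H ix)
  have h2 : IsInt (mapGL ℝ c * ((heckeH hℓ'N σ' hσ' H).g jy * (heckeH hℓN σ hσ H).g iy))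
      ((c : Matrix (Fin 2) (Fin 2) ℤ) * (matT σ' jy * matT σ iy)) :=
    (isInt_mapGL c).mul ((isInt_heckeH_g hℓ'N σ' hσ' H jy).mul (isInt_heckeH_g hℓN σ hσ H iy))
  rw [h] at h1
  have hM := h1.inj h2
  -- `(matT' jx * tw ix) * β_ix = (c * matT' jy * tw iy) * β_iy`
  rw [matT_eq σ ix, matT_eq σ iy, ← Matrix.mul_assoc, ← Matrix.mul_assoc, ← Matrix.mul_assoc] at hM
  have hdetA : ¬ (ℓ : ℤ) ∣ (matT σ' jx
      * (((tw σ ix : Gamma0 N) : SL(2, ℤ)) : Matrix (Fin 2) (Fin 2) ℤ)).det := by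
    rw [Matrix.det_mul, det_matT, Matrix.SpecialLinearGroup.det_coe, mul_one]
    intro hd
    have h2 : ℓ ∣ ℓ' := by exact_mod_cast hd
    exact hne ((Nat.prime_dvd_prime_iff_eq hℓ.out hℓ'.out).mp h2)
  have hi : ix = iy := index_unique hdetA hM
  subst hi
  refine ⟨rfl, ?_⟩
  have hA := DoubleCoset27.mul_beta_cancel ix hM
  -- cancel `tw ix`
  have hA2 : matT σ' jx = (c : Matrix (Fin 2) (Fin 2) ℤ) * matT σ' jy := by
    have := congrArg (fun M : Matrix (Fin 2) (Fin 2) ℤ =>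
      M * ((((tw σ ix : Gamma0 N) : SL(2, ℤ))⁻¹ : SL(2, ℤ)) : Matrix (Fin 2) (Fin 2) ℤ)) hA
    simp only [Matrix.mul_assoc, ← Matrix.SpecialLinearGroup.coe_mul, mul_inv_cancel,
      Matrix.SpecialLinearGroup.coe_one, Matrix.mul_one] at this
    exact this
  rw [matT_eq σ' jx, matT_eq σ' jy, ← Matrix.mul_assoc, ← Matrix.SpecialLinearGroup.coe_mul] at hA2
  have hA3 : (((1 : SL(2, ℤ)) * ((tw σ' jx : Gamma0 N) : SL(2, ℤ)) : SL(2, ℤ)) :
        Matrix (Fin 2) (Fin 2) ℤ) * DoubleCoset27.beta ℓ' jx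
      = ((c * ((tw σ' jy : Gamma0 N) : SL(2, ℤ)) : SL(2, ℤ)) : Matrix (Fin 2) (Fin 2) ℤ)
        * DoubleCoset27.beta ℓ' jy := by
    rw [one_mul]
    exact hA2
  exact (DoubleCoset27.decomp_unique hA3).1

theorem compTT_reps_inj (hne : ℓ ≠ ℓ')
    (x y : (comp (heckeH hℓN σ hσ H) (heckeH hℓ'N σ' hσ' H)).I) (c : SL(2, ℤ))
    (h : (comp (heckeH hℓN σ hσ H) (heckeH hℓ'N σ' hσ' H)).g x
      = mapGL ℝ c * (comp (heckeH hℓN σ hσ H) (heckeH hℓ'N σ' hσ' H)).g y) : x = y := by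
  obtain ⟨ix, jx⟩ := x
  obtain ⟨iy, jy⟩ := y
  rw [comp_g, comp_g] at h
  obtain ⟨h1, h2⟩ := reps_inj_aux hℓN hℓ'N σ hσ σ' hσ' H hne ix iy jx jy c h
  exact Prod.ext h1 h2

/-- every representative of the composite is in the `Γ₁(N)`-coset of a representative of the
composite in the other order. -/
theorem exists_match_aux (i : Option (ZMod ℓ)) (j : Option (ZMod ℓ')) :
    ∃ (k : Option (ZMod ℓ')) (k' : Option (ZMod ℓ)) (a : GH N H),
      (heckeH hℓN σ hσ H).g k' * (heckeH hℓ'N σ' hσ' H).g k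
        = mapGL ℝ ((a : GH N H) : SL(2, ℤ))
          * ((heckeH hℓ'N σ' hσ' H).g j * (heckeH hℓN σ hσ H).g i) := by
  set X : Matrix (Fin 2) (Fin 2) ℤ := matT σ' j * matT σ i with hX
  have hXdet : X.det = (ℓ' : ℤ) * ℓ := by
    rw [hX, Matrix.det_mul, det_matT, det_matT]
  have hℓ'0 : (ℓ' : ℤ) ≠ 0 := by exact_mod_cast hℓ'.out.ne_zero
  -- factor a representative of `T_ℓ'` on the right
  obtain ⟨k, M', hM'⟩ := exists_factor (p := ℓ') X (by rw [hXdet]; exact dvd_mul_right _ _)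
  set Y : Matrix (Fin 2) (Fin 2) ℤ :=
    M' * ((((tw σ' k : Gamma0 N) : SL(2, ℤ))⁻¹ : SL(2, ℤ)) : Matrix (Fin 2) (Fin 2) ℤ) with hY
  have hYX : X = Y * matT σ' k := by
    rw [hY, matT_eq σ' k, Matrix.mul_assoc, ← Matrix.mul_assoc
      ((((tw σ' k : Gamma0 N) : SL(2, ℤ))⁻¹ : SL(2, ℤ)) : Matrix (Fin 2) (Fin 2) ℤ),
      ← Matrix.SpecialLinearGroup.coe_mul, inv_mul_cancel, Matrix.SpecialLinearGroup.coe_one,
      Matrix.one_mul]
    exact hM'
  have hYdet : Y.det = ℓ := by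
    have := congrArg Matrix.det hYX
    rw [hXdet, Matrix.det_mul, det_matT, mul_comm] at this
    exact (mul_right_cancel₀ hℓ'0 this).symm
  obtain ⟨k', g, hg⟩ := DoubleCoset27.exists_decomp (p := ℓ) Y hYdet
  set γ : SL(2, ℤ) := g * ((tw σ k' : Gamma0 N) : SL(2, ℤ))⁻¹ with hγ
  have hγY : Y = (γ : Matrix (Fin 2) (Fin 2) ℤ) * matT σ k' := by
    rw [hγ, matT_eq σ k', ← Matrix.mul_assoc, ← Matrix.SpecialLinearGroup.coe_mul, mul_assoc,
      inv_mul_cancel, mul_one]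
    exact hg
  have hXZ : X = (γ : Matrix (Fin 2) (Fin 2) ℤ) * (matT σ k' * matT σ' k) := by
    rw [← Matrix.mul_assoc, ← hγY]
    exact hYX
  have hγ1 : γ ∈ Gamma1 N :=
    mem_Gamma1_of_isU1 ((isU1_matT hσ' j).mul (isU1_matT hσ i))
      ((isU1_matT hσ k').mul (isU1_matT hσ' k)) hXZ
  have hγH : γ⁻¹ ∈ GH N H := (GH N H).inv_mem (Gamma1_le_GH H hγ1)
  refine ⟨k, k', ⟨γ⁻¹, hγH⟩, ?_⟩
  have h1 : IsInt ((heckeH hℓN σ hσ H).g k' * (heckeH hℓ'N σ' hσ' H).g k)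
      (matT σ k' * matT σ' k) :=
    (isInt_heckeH_g hℓN σ hσ H k').mul (isInt_heckeH_g hℓ'N σ' hσ' H k)
  have h2 : IsInt (mapGL ℝ γ⁻¹ * ((heckeH hℓ'N σ' hσ' H).g j * (heckeH hℓN σ hσ H).g i))
      (((γ⁻¹ : SL(2, ℤ)) : Matrix (Fin 2) (Fin 2) ℤ) * (matT σ' j * matT σ i)) :=
    (isInt_mapGL γ⁻¹).mul ((isInt_heckeH_g hℓ'N σ' hσ' H j).mul (isInt_heckeH_g hℓN σ hσ H i))
  have h3 : ((γ⁻¹ : SL(2, ℤ)) : Matrix (Fin 2) (Fin 2) ℤ) * (matT σ' j * matT σ i)
      = matT σ k' * matT σ' k := by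
    rw [← hX, hXZ, ← Matrix.mul_assoc, ← Matrix.SpecialLinearGroup.coe_mul, inv_mul_cancel,
      Matrix.SpecialLinearGroup.coe_one, Matrix.one_mul]
  rw [h3] at h2
  exact h1.eq h2

theorem exists_matchTT (x : (comp (heckeH hℓN σ hσ H) (heckeH hℓ'N σ' hσ' H)).I) :
    ∃ (y : (comp (heckeH hℓ'N σ' hσ' H) (heckeH hℓN σ hσ H)).I) (a : GH N H),
      (comp (heckeH hℓ'N σ' hσ' H) (heckeH hℓN σ hσ H)).g y
        = mapGL ℝ ((a : GH N H) : SL(2, ℤ))
          * (comp (heckeH hℓN σ hσ H) (heckeH hℓ'N σ' hσ' H)).g x := by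
  obtain ⟨i, j⟩ := x
  obtain ⟨k, k', a, ha⟩ := exists_match_aux hℓN hℓ'N σ hσ σ' hσ' H i j
  exact ⟨(k, k'), a, ha⟩

/-- **(β'1) `T_ℓ T_ℓ' = T_ℓ' T_ℓ`** on `Hom(Γ_H(N), A)`, for all primes `ℓ, ℓ' ∤ N`. -/
theorem heckeH_comm {A : Type*} [AddCommGroup A] (φ : Additive (GH N H) →+ A) :
    (heckeH hℓN σ hσ H).addHom ((heckeH hℓ'N σ' hσ' H).addHom φ)
      = (heckeH hℓ'N σ' hσ' H).addHom ((heckeH hℓN σ hσ H).addHom φ) := by
  by_cases hne : ℓ = ℓ'
  · subst hne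
    rw [heckeH_indep hℓN σ σ' hσ hσ' H φ, heckeH_indep hℓN σ σ' hσ hσ' H]
  · rw [← comp_addHom, ← comp_addHom]
    choose e a ha using exists_matchTT hℓN hℓ'N σ hσ σ' hσ' H
    have hinj : Function.Injective e := by
      intro x x' hxx
      have h1 := ha x
      have h2 := ha x'
      rw [hxx] at h1
      rw [h1] at h2
      refine compTT_reps_inj hℓN hℓ'N σ hσ σ' hσ' H hne x x'
        ((((a x : GH N H) : SL(2, ℤ)))⁻¹ * ((a x' : GH N H) : SL(2, ℤ))) ?_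
      rw [map_mul, map_inv, mul_assoc, ← h2, inv_mul_cancel_left]
    have hbij : Function.Bijective e := by
      rw [Fintype.bijective_iff_injective_and_card]
      refine ⟨hinj, ?_⟩
      show Fintype.card ((heckeH hℓN σ hσ H).I × (heckeH hℓ'N σ' hσ' H).I)
        = Fintype.card ((heckeH hℓ'N σ' hσ' H).I × (heckeH hℓN σ hσ H).I)
      rw [Fintype.card_prod, Fintype.card_prod, mul_comm]
    exact (addHom_eq_of_reps (comp (heckeH hℓN σ hσ H) (heckeH hℓ'N σ' hσ' H))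
      (comp (heckeH hℓ'N σ' hσ' H) (heckeH hℓN σ hσ H)) (Equiv.ofBijective e hbij) a ha
      (fun x y c h => compTT_reps_inj hℓ'N hℓN σ' hσ' σ hσ H (Ne.symm hne) x y c h) φ).symm

end Comm

end Fermat.Agent.M43.TwistLatK6
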