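import Mathlib
import Fermat.Agent.M43.CycInst0
import Fermat.Agent.M43.HeckeU0
import Fermat.Agent.M43.TwistLatK6
import Fermat.Agent.M43.ChainGrp5
import Fermat.Agent.M43.PolyMod5

/-!
# M43 / Hecke side: the Hecke lattices of the concrete chain as modules over the Hecke ring

`N` a level, `O` a commutative ring, `Par O H := parabolicHoms O (GH N H) O`.

* operators on `Par O H` : `tPar` (`T_ℓ`, `ℓ ∤ N`), `dPar` (diamonds), `uPar` (`U_q`, `q ∣ N`),
  `resPar` (restriction along `H'' ≤ H'`); their commutation relations (`tPar_comm` from helper6's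
  `TwistLatK6.heckeH_comm`, `tPar_dPar`, `tPar_uPar`, `uPar_comm`, `uPar_dPar`, `dPar_comm` from
  lead's `CycInst0`/`HeckeU0`), `dPar_mul`, `dPar_one`, `dPar_of_mem`, `resPar_tPar`, `resPar_dPar`,
  `resPar_uPar`;
* `Frame N` : the data of the Hecke side at level `N`: the good primes `ℓ i ∤ N` (`i : ι`), the
  primes `q i ∣ N` of the `U`-operators, the exponent `e` of the twist, the chain `c`;
* `Frame.Var = Option ι ⊕ (ZMod N)ˣ` : the variables of the Hecke ring `MvPolynomial F.Var O`;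
  `Frame.tau O j : F.Var → End (Par O (c.sub j))`, `inl (some i) ↦ τ_{ℓ i} = T_{ℓ i} ∘ ⟨ℓ i⟩^e`,
  `inl none ↦ x = ∏ i, (U_{q i}² - 1)`, `inr d ↦ ⟨d⟩`; `Frame.tau_comm`;
* `Frame.P O j := PolyMod (tau O j) _` : the lattice at level `j` as a module over
  `MvPolynomial F.Var O`; `Frame.res`, `Frame.dia` (monoid homomorphism from `(ZMod N)ˣ`),
  `Frame.res_dia`, `Frame.dia_of_mem`.
-/

set_option autoImplicit false
set_option linter.unusedSectionVars false
set_option linter.style.haveILetI false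

open scoped MatrixGroups
open CongruenceSubgroup ModularCurve.Period

noncomputable section

namespace Fermat.Agent.M43.ChainMod5

open Fermat.Agent.M48.ESInv3 Fermat.Agent.M48.CosetOp3 Fermat.Agent.M43.HeckeH0
  Fermat.Agent.M43.CycInst0 Fermat.Agent.M43.HeckeU0 Fermat.Agent.M48.Diamond1
  Fermat.Agent.M43.ExtCyc0 Fermat.Agent.M43.ChainGrp5 Fermat.Agent.M43.PolyMod5

section Ops

variable {N : ℕ} [NeZero N] (O : Type) [CommRing O]

/-- the parabolic lattice of `Γ_H(N)` with coefficients in `O`. -/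
abbrev Par (H : Subgroup (ZMod N)ˣ) : Type := ↥(parabolicHoms O (GH N H) O)

/-- the unit `ℓ mod N`. -/
def unitL {ℓ : ℕ} (hℓ : ℓ.Prime) (hℓN : ¬ ℓ ∣ N) : (ZMod N)ˣ :=
  ZMod.unitOfCoprime ℓ ((Nat.Prime.coprime_iff_not_dvd hℓ).mpr hℓN)

theorem coe_unitL {ℓ : ℕ} (hℓ : ℓ.Prime) (hℓN : ¬ ℓ ∣ N) :
    ((unitL hℓ hℓN : (ZMod N)ˣ) : ZMod N) = (ℓ : ZMod N) := rfl

theorem Gamma0Map_sigma_unitL {ℓ : ℕ} (hℓ : ℓ.Prime) (hℓN : ¬ ℓ ∣ N) :
    Gamma0Map N (sigma (unitL hℓ hℓN)) = (ℓ : ZMod N) := by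
  rw [← coe_unitOf, unitOf_sigma, coe_unitL]

/-- `T_ℓ` on `Γ_H(N)`, with the standard choice of `σ_ℓ`. -/
def TH {ℓ : ℕ} (hℓ : ℓ.Prime) (hℓN : ¬ ℓ ∣ N) (H : Subgroup (ZMod N)ˣ) : CosetOp (GH N H) :=
  haveI := Fact.mk hℓ
  heckeH hℓN (sigma (unitL hℓ hℓN)) (Gamma0Map_sigma_unitL hℓ hℓN) H

/-- `U_q` on `Γ_H(N)`. -/
def UH {q : ℕ} (hq : q.Prime) (hqN : q ∣ N) (H : Subgroup (ZMod N)ˣ) : CosetOp (GH N H) :=
  haveI := Fact.mk hq
  heckeUH hqN H

/-- `T_ℓ` on the parabolic lattice. -/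
def tPar {ℓ : ℕ} (hℓ : ℓ.Prime) (hℓN : ¬ ℓ ∣ N) (H : Subgroup (ZMod N)ˣ) : Module.End O (Par O H) :=
  parOp (TH hℓ hℓN H) O O

/-- `U_q` on the parabolic lattice. -/
def uPar {q : ℕ} (hq : q.Prime) (hqN : q ∣ N) (H : Subgroup (ZMod N)ˣ) : Module.End O (Par O H) :=
  parOp (UH hq hqN H) O O

/-- the diamond operator on the parabolic lattice. -/
def dPar (H : Subgroup (ZMod N)ˣ) (d : (ZMod N)ˣ) : Module.End O (Par O H) :=
  (dia H d : Module.End O (Additive (GH N H) →+ O)).restrict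
    (p := parabolicHoms O (GH N H) O) (q := parabolicHoms O (GH N H) O)
    (fun _ hφ => isParabolicHom_dia H d hφ)

/-- the restriction on the parabolic lattices. -/
def resPar {H' H'' : Subgroup (ZMod N)ˣ} (hle : H'' ≤ H') : Par O H' →ₗ[O] Par O H'' where
  toFun Φ := ⟨res (GH_mono hle) Φ.1, isParabolicHom_res (GH_mono hle) Φ.2⟩
  map_add' Φ Ψ := Subtype.ext (by
    refine AddMonoidHom.ext fun γ => ?_
    rfl)
  map_smul' c Φ := Subtype.ext (by
    refine AddMonoidHom.ext fun γ => ?_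
    rfl)

variable {O}

@[simp] theorem coe_tPar {ℓ : ℕ} (hℓ : ℓ.Prime) (hℓN : ¬ ℓ ∣ N) (H : Subgroup (ZMod N)ˣ)
    (φ : Par O H) : ((tPar O hℓ hℓN H φ : Par O H) : Additive (GH N H) →+ O) =
      (TH hℓ hℓN H).addHom φ.1 := rfl

@[simp] theorem coe_uPar {q : ℕ} (hq : q.Prime) (hqN : q ∣ N) (H : Subgroup (ZMod N)ˣ)
    (φ : Par O H) : ((uPar O hq hqN H φ : Par O H) : Additive (GH N H) →+ O) =
      (UH hq hqN H).addHom φ.1 := rfl

@[simp] theorem coe_dPar (H : Subgroup (ZMod N)ˣ) (d : (ZMod N)ˣ) (φ : Par O H) :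
    ((dPar O H d φ : Par O H) : Additive (GH N H) →+ O) = dia H d φ.1 := rfl

@[simp] theorem coe_resPar {H' H'' : Subgroup (ZMod N)ˣ} (hle : H'' ≤ H') (Φ : Par O H') :
    ((resPar O hle Φ : Par O H'') : Additive (GH N H'') →+ O) = res (GH_mono hle) Φ.1 := rfl

/-! ### the commutation relations -/

theorem tPar_comm {ℓ ℓ' : ℕ} (hℓ : ℓ.Prime) (hℓN : ¬ ℓ ∣ N) (hℓ' : ℓ'.Prime) (hℓ'N : ¬ ℓ' ∣ N)
    (H : Subgroup (ZMod N)ˣ) : Commute (tPar O hℓ hℓN H) (tPar O hℓ' hℓ'N H) := by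
  apply LinearMap.ext
  intro φ
  apply Subtype.ext
  haveI := Fact.mk hℓ
  haveI := Fact.mk hℓ'
  exact TwistLatK6.heckeH_comm hℓN hℓ'N _ _ _ _ H φ.1

theorem tPar_dPar {ℓ : ℕ} (hℓ : ℓ.Prime) (hℓN : ¬ ℓ ∣ N) (H : Subgroup (ZMod N)ˣ) (d : (ZMod N)ˣ) :
    Commute (tPar O hℓ hℓN H) (dPar O H d) := by
  apply LinearMap.ext
  intro φ
  apply Subtype.ext
  haveI := Fact.mk hℓ
  exact heckeH_dia hℓN _ _ H d φ.1

theorem tPar_uPar {ℓ q : ℕ} (hℓ : ℓ.Prime) (hℓN : ¬ ℓ ∣ N) (hq : q.Prime) (hqN : q ∣ N)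
    (H : Subgroup (ZMod N)ˣ) : Commute (tPar O hℓ hℓN H) (uPar O hq hqN H) := by
  apply LinearMap.ext
  intro φ
  apply Subtype.ext
  haveI := Fact.mk hℓ
  haveI := Fact.mk hq
  exact heckeH_heckeUH_comm hℓN hqN _ _ H φ.1

theorem uPar_comm {q q' : ℕ} (hq : q.Prime) (hqN : q ∣ N) (hq' : q'.Prime) (hq'N : q' ∣ N)
    (H : Subgroup (ZMod N)ˣ) : Commute (uPar O hq hqN H) (uPar O hq' hq'N H) := by
  by_cases hne : q = q'
  · subst hne
    exact Commute.refl _
  · apply LinearMap.ext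
    intro φ
    apply Subtype.ext
    haveI := Fact.mk hq
    haveI := Fact.mk hq'
    exact heckeUH_heckeUH_comm hqN hq'N hne H φ.1

theorem uPar_dPar {q : ℕ} (hq : q.Prime) (hqN : q ∣ N) (H : Subgroup (ZMod N)ˣ) (d : (ZMod N)ˣ) :
    Commute (uPar O hq hqN H) (dPar O H d) := by
  apply LinearMap.ext
  intro φ
  apply Subtype.ext
  haveI := Fact.mk hq
  exact heckeUH_dia hqN H d φ.1

theorem dPar_mul (H : Subgroup (ZMod N)ˣ) (d d' : (ZMod N)ˣ) :
    dPar O H (d * d') = dPar O H d * dPar O H d' := by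
  apply LinearMap.ext
  intro φ
  apply Subtype.ext
  exact dia_mul H d d' φ.1

theorem dPar_of_mem (H : Subgroup (ZMod N)ˣ) {d : (ZMod N)ˣ} (hd : d ∈ H) : dPar O H d = 1 := by
  apply LinearMap.ext
  intro φ
  apply Subtype.ext
  exact dia_of_mem H hd φ.1

theorem dPar_one (H : Subgroup (ZMod N)ˣ) : dPar O H 1 = 1 := dPar_of_mem H H.one_mem

theorem dPar_comm (H : Subgroup (ZMod N)ˣ) (d d' : (ZMod N)ˣ) :
    Commute (dPar O H d) (dPar O H d') := by
  show dPar O H d * dPar O H d' = dPar O H d' * dPar O H d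
  rw [← dPar_mul, ← dPar_mul, mul_comm]

theorem resPar_tPar {ℓ : ℕ} (hℓ : ℓ.Prime) (hℓN : ¬ ℓ ∣ N) {H' H'' : Subgroup (ZMod N)ˣ}
    (hle : H'' ≤ H') (Φ : Par O H') :
    resPar O hle (tPar O hℓ hℓN H' Φ) = tPar O hℓ hℓN H'' (resPar O hle Φ) := by
  apply Subtype.ext
  haveI := Fact.mk hℓ
  exact (step_hecke_res hℓN _ _ (GH_mono hle) Φ.1).symm

theorem resPar_uPar {q : ℕ} (hq : q.Prime) (hqN : q ∣ N) {H' H'' : Subgroup (ZMod N)ˣ}
    (hle : H'' ≤ H') (Φ : Par O H') :
    resPar O hle (uPar O hq hqN H' Φ) = uPar O hq hqN H'' (resPar O hle Φ) := by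
  apply Subtype.ext
  haveI := Fact.mk hq
  exact (heckeUH_res hqN (GH_mono hle) Φ.1).symm

theorem resPar_dPar {H' H'' : Subgroup (ZMod N)ˣ} (hle : H'' ≤ H') (d : (ZMod N)ˣ) (Φ : Par O H') :
    resPar O hle (dPar O H' d Φ) = dPar O H'' d (resPar O hle Φ) := by
  apply Subtype.ext
  exact (step_dia_res' (GH_mono hle) d Φ.1).symm

end Ops

/-! ### products of lists of operators -/

section ListProd

variable {O : Type*} [CommRing O] {M M' : Type*} [AddCommGroup M] [Module O M]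
  [AddCommGroup M'] [Module O M']

/-- a linear map intertwining two families of operators intertwines their ordered products. -/
theorem ofFn_prod_intertwine (f : M →ₗ[O] M') {r : ℕ} (a : Fin r → Module.End O M)
    (a' : Fin r → Module.End O M') (h : ∀ i y, f (a i y) = a' i (f y)) (y : M) :
    f ((List.ofFn a).prod y) = (List.ofFn a').prod (f y) := by
  induction r generalizing y with
  | zero => simp
  | succ r ih =>
    rw [List.ofFn_succ, List.ofFn_succ, List.prod_cons, List.prod_cons, Module.End.mul_apply,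
      Module.End.mul_apply, h, ih (fun i => a i.succ) (fun i => a' i.succ) (fun i y => h i.succ y)]

/-- an operator commuting with every factor commutes with the ordered product. -/
theorem commute_ofFn_prod {r : ℕ} (a : Fin r → Module.End O M) (b : Module.End O M)
    (h : ∀ i, Commute (a i) b) : Commute (List.ofFn a).prod b := by
  refine Commute.list_prod_left _ _ ?_
  intro x hx
  obtain ⟨i, rfl⟩ := (List.mem_ofFn' a x).mp hx
  exact h i

theorem commute_sq_sub_one {a b : Module.End O M} (h : Commute a b) : Commute (a ^ 2 - 1) b := by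
  have h2 : a ^ 2 * b = b * a ^ 2 := (h.pow_left 2).eq
  apply LinearMap.ext
  intro y
  have h3 := LinearMap.congr_fun h2 y
  rw [Module.End.mul_apply, Module.End.mul_apply] at h3
  rw [Module.End.mul_apply, Module.End.mul_apply, LinearMap.sub_apply, LinearMap.sub_apply,
    Module.End.one_apply, Module.End.one_apply, map_sub, h3]

end ListProd

/-! ### the frame -/

/-- **the data of the Hecke side at level `N`.** -/
structure Frame (N : ℕ) where
  /-- the index set of the good primes -/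
  ι : Type
  /-- the good primes -/
  ℓ : ι → ℕ
  prime : ∀ i, (ℓ i).Prime
  ndvd : ∀ i, ¬ ℓ i ∣ N
  /-- the number of `U`-operators -/
  r : ℕ
  /-- the primes of the `U`-operators -/
  q : Fin r → ℕ
  qprime : ∀ i, (q i).Prime
  qdvd : ∀ i, q i ∣ N
  /-- the exponent of the twist (in use: `(|Δ| + 1) / 2`) -/
  e : ℕ
  /-- the length of the chain -/
  s : ℕ
  /-- the chain -/
  c : Chain N s

namespace Frame

variable {N : ℕ} [NeZero N] (O : Type) [CommRing O] (F : Frame N)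

/-- the subgroup of level `j`. -/
abbrev sub (j : ℕ) : Subgroup (ZMod N)ˣ := F.c.sub j

/-- the unit `ℓ i mod N`. -/
def u (i : F.ι) : (ZMod N)ˣ := unitL (F.prime i) (F.ndvd i)

/-- `τ_ℓ = T_ℓ ∘ ⟨ℓ⟩^e` at level `j`. -/
def tauL (j : ℕ) (i : F.ι) : Module.End O (Par O (F.sub j)) :=
  tPar O (F.prime i) (F.ndvd i) (F.sub j) * dPar O (F.sub j) (F.u i ^ F.e)

/-- the factors of the operator `x`. -/
def xFac (j : ℕ) (i : Fin F.r) : Module.End O (Par O (F.sub j)) :=
  uPar O (F.qprime i) (F.qdvd i) (F.sub j) ^ 2 - 1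

/-- `x = ∏ i, (U_{q i}² - 1)` at level `j` (ordered product). -/
def xOp (j : ℕ) : Module.End O (Par O (F.sub j)) := (List.ofFn (F.xFac O j)).prod

/-- the variables of the Hecke ring: the good primes, the operator `x`, the diamonds. -/
abbrev Var : Type := Option F.ι ⊕ (ZMod N)ˣ

/-- the family of operators defining the module structure at level `j`. -/
def tau (j : ℕ) : F.Var → Module.End O (Par O (F.sub j))
  | Sum.inl (some i) => F.tauL O j i
  | Sum.inl none => F.xOp O j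
  | Sum.inr d => dPar O (F.sub j) d

variable {O}

/-- the operators commuting with all the `T_ℓ`, the diamonds and the `U_q`. -/
def Central (j : ℕ) (a : Module.End O (Par O (F.sub j))) : Prop :=
  (∀ i, Commute a (tPar O (F.prime i) (F.ndvd i) (F.sub j))) ∧
  (∀ d, Commute a (dPar O (F.sub j) d)) ∧
  (∀ i, Commute a (uPar O (F.qprime i) (F.qdvd i) (F.sub j)))

theorem central_tPar (j : ℕ) (i : F.ι) : F.Central j (tPar O (F.prime i) (F.ndvd i) (F.sub j)) :=
  ⟨fun _ => tPar_comm _ _ _ _ _, fun _ => tPar_dPar _ _ _ _, fun _ => tPar_uPar _ _ _ _ _⟩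

theorem central_dPar (j : ℕ) (d : (ZMod N)ˣ) : F.Central j (dPar O (F.sub j) d) :=
  ⟨fun _ => (tPar_dPar _ _ _ _).symm, fun _ => dPar_comm _ _ _, fun _ => (uPar_dPar _ _ _ _).symm⟩

theorem central_uPar (j : ℕ) (i : Fin F.r) :
    F.Central j (uPar O (F.qprime i) (F.qdvd i) (F.sub j)) :=
  ⟨fun _ => (tPar_uPar _ _ _ _ _).symm, fun _ => uPar_dPar _ _ _ _, fun _ => uPar_comm _ _ _ _ _⟩

theorem Central.mul {j : ℕ} {a b : Module.End O (Par O (F.sub j))} (ha : F.Central j a)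
    (hb : F.Central j b) : F.Central j (a * b) :=
  ⟨fun i => (ha.1 i).mul_left (hb.1 i), fun d => (ha.2.1 d).mul_left (hb.2.1 d),
    fun i => (ha.2.2 i).mul_left (hb.2.2 i)⟩

theorem central_tauL (j : ℕ) (i : F.ι) : F.Central j (F.tauL O j i) :=
  (F.central_tPar j i).mul F (F.central_dPar j _)

theorem Central.sq_sub_one {j : ℕ} {a : Module.End O (Par O (F.sub j))} (ha : F.Central j a) :
    F.Central j (a ^ 2 - 1) :=
  ⟨fun i => commute_sq_sub_one (ha.1 i), fun d => commute_sq_sub_one (ha.2.1 d),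
    fun i => commute_sq_sub_one (ha.2.2 i)⟩

theorem central_xFac (j : ℕ) (i : Fin F.r) : F.Central j (F.xFac O j i) :=
  (F.central_uPar j i).sq_sub_one F

theorem central_xOp (j : ℕ) : F.Central j (F.xOp O j) :=
  ⟨fun i => commute_ofFn_prod _ _ fun i' => (F.central_xFac j i').1 i,
    fun d => commute_ofFn_prod _ _ fun i' => (F.central_xFac j i').2.1 d,
    fun i => commute_ofFn_prod _ _ fun i' => (F.central_xFac j i').2.2 i⟩

theorem central_tau (j : ℕ) (a : F.Var) : F.Central j (F.tau O j a) := by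
  rcases a with (_ | i) | d
  · exact F.central_xOp j
  · exact F.central_tauL j i
  · exact F.central_dPar j d

/-- a central operator commutes with the `τ_ℓ` and with `x`. -/
theorem Central.commute_tau {j : ℕ} {a : Module.End O (Par O (F.sub j))} (ha : F.Central j a)
    (b : F.Var) : Commute a (F.tau O j b) := by
  rcases b with (_ | i) | d
  · refine (commute_ofFn_prod _ _ fun i' => ?_).symm
    exact commute_sq_sub_one (ha.2.2 i').symm
  · exact (ha.1 i).mul_right (ha.2.1 _)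
  · exact ha.2.1 d

theorem tau_comm (j : ℕ) (a b : F.Var) : Commute (F.tau O j a) (F.tau O j b) :=
  (F.central_tau j a).commute_tau F b

variable (O)

/-- **the Hecke lattice of level `j`** as a module over `MvPolynomial F.Var O`. -/
abbrev P (j : ℕ) : Type := PolyMod (F.tau O j) (F.tau_comm j)

variable {O}

theorem resPar_tau (j : ℕ) (a : F.Var) (Φ : Par O (F.sub j)) :
    resPar O (F.c.sub_anti (Nat.le_succ j)) (F.tau O j a Φ) =
      F.tau O (j + 1) a (resPar O (F.c.sub_anti (Nat.le_succ j)) Φ) := by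
  rcases a with (_ | i) | d
  · refine ofFn_prod_intertwine (resPar O (F.c.sub_anti (Nat.le_succ j))) _ _ ?_ Φ
    intro i y
    show resPar O _ (F.xFac O j i y) = F.xFac O (j + 1) i (resPar O _ y)
    unfold xFac
    rw [LinearMap.sub_apply, LinearMap.sub_apply, Module.End.one_apply, Module.End.one_apply,
      pow_two, pow_two, Module.End.mul_apply, Module.End.mul_apply, map_sub, resPar_uPar,
      resPar_uPar]
  · show resPar O _ (tPar O _ _ _ (dPar O _ _ Φ)) = tPar O _ _ _ (dPar O _ _ (resPar O _ Φ))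
    rw [resPar_tPar, resPar_dPar]
  · exact resPar_dPar _ d Φ

variable (O)

/-- the restriction `P j → P (j + 1)`. -/
def res (j : ℕ) : F.P O j →ₗ[MvPolynomial F.Var O] F.P O (j + 1) :=
  PolyMod.map (resPar O (F.c.sub_anti (Nat.le_succ j))) (fun a Φ => F.resPar_tau j a Φ)

/-- the diamond operators at level `j`. -/
def dia (j : ℕ) : (ZMod N)ˣ →* Module.End (MvPolynomial F.Var O) (F.P O j) where
  toFun d := PolyMod.endo (dPar O (F.sub j) d) (fun a => (F.central_dPar j d).commute_tau F a)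
  map_one' := by
    apply LinearMap.ext
    intro y
    show PolyMod.of _ _ (dPar O (F.sub j) 1 ((PolyMod.of _ _).symm y)) = y
    rw [dPar_one]
    rfl
  map_mul' d d' := by
    apply LinearMap.ext
    intro y
    show PolyMod.of _ _ (dPar O (F.sub j) (d * d') ((PolyMod.of _ _).symm y)) =
      PolyMod.of _ _ (dPar O (F.sub j) d (dPar O (F.sub j) d' ((PolyMod.of _ _).symm y)))
    rw [dPar_mul]
    rfl

variable {O}

@[simp] theorem dia_of (j : ℕ) (d : (ZMod N)ˣ) (φ : Par O (F.sub j)) :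
    F.dia O j d (PolyMod.of _ _ φ) = PolyMod.of _ _ (dPar O (F.sub j) d φ) := rfl

@[simp] theorem res_of (j : ℕ) (φ : Par O (F.sub j)) :
    F.res O j (PolyMod.of _ _ φ) =
      PolyMod.of _ _ (resPar O (F.c.sub_anti (Nat.le_succ j)) φ) := rfl

theorem res_dia (j : ℕ) (d : (ZMod N)ˣ) :
    F.res O j ∘ₗ F.dia O j d = F.dia O (j + 1) d ∘ₗ F.res O j := by
  apply LinearMap.ext
  intro y
  obtain ⟨φ, rfl⟩ := (PolyMod.of (F.tau O j) (F.tau_comm j)).surjective y
  rw [LinearMap.comp_apply, LinearMap.comp_apply, dia_of, res_of, res_of, dia_of, resPar_dPar]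

theorem dia_of_mem (j : ℕ) {d : (ZMod N)ˣ} (hd : d ∈ F.sub j) : F.dia O j d = 1 := by
  apply LinearMap.ext
  intro y
  obtain ⟨φ, rfl⟩ := (PolyMod.of (F.tau O j) (F.tau_comm j)).surjective y
  rw [dia_of, dPar_of_mem _ hd]
  rfl

/-- `X_a` acts through `τ_a`. -/
theorem X_smul_of (j : ℕ) (a : F.Var) (φ : Par O (F.sub j)) :
    (MvPolynomial.X a : MvPolynomial F.Var O) • (PolyMod.of _ _ φ : F.P O j) =
      PolyMod.of _ _ (F.tau O j a φ) :=
  PolyMod.X_smul _ _ a φ

end Frame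

end Fermat.Agent.M43.ChainMod5
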