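/-
M43 (helper3) [BRIDGE / base change] BridgeBase3: **the Hecke operators `τ_ℓ`, `⟨d⟩` of a frame over
a torsion-free ring `R` are the base change of the operators over `ℤ`**, and the existence of
eigen-homomorphisms with values in a field of characteristic zero.

`F : ChainMod5.Frame N`; `Var' F = F.ι ⊕ (ZMod N)ˣ` (the variables of the Hecke ring WITHOUT `x`),
`tau' F R j v = F.tau R j (incl v)` on `Par R (F.sub j)`.

* `tensorEquiv_dPar`, `tensorEquiv_tau'`, `tensorEquiv_polyAct` : `ParTensor3.tensorEquiv`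
  intertwines the base change of the operators over `ℤ` with the operators over `R`;
* `polyAct_map_eq_zero` : a polynomial relation over `ℤ` on `Par ℤ H` holds over `R` on `Par R H`;
* `polyAct_rename` : `polyAct (F.tau R j) (rename incl Pol) = polyAct (tau' F R j) Pol`;
* **`exists_eigen_hom`** : a ring homomorphism `χ : ℤ[X_v] → K'` (`K'` a field of characteristic
  zero) killing the relations of the `tau' F ℤ j` has an eigenvector `f ≠ 0` in `Par K' (F.sub j)`:
  `tau' F K' j v f = χ (X v) • f`.
-/
import Mathlib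
import Fermat.Agent.M43.ChainMod5
import Fermat.Agent.M48.ParTensor3
import Fermat.Agent.ES.GAL.EigenExists10

set_option autoImplicit false
set_option linter.unusedSectionVars false
set_option linter.style.haveILetI false

open TensorProduct

noncomputable section

namespace Fermat.Agent.M43.BridgeBase3

open Matrix.SpecialLinearGroup ModularCurve.Period CongruenceSubgroup
open scoped MatrixGroups
open Fermat.Agent.M43.HeckeH0 Fermat.Agent.M43.CycInst0 Fermat.Agent.M43.ChainMod5
  Fermat.Agent.M43.PolyMod5 Fermat.Agent.M43.ChainGrp5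
open Fermat.Agent.M48.ESInv3 Fermat.Agent.M48.CosetOp3 Fermat.Agent.M48.ParTensor3
open Fermat.Agent.ES.HEQ

variable {N : ℕ} [NeZero N]

/-! ### Diamonds and base change -/

theorem dPar_castPar (R : Type) [CommRing R] (H : Subgroup (ZMod N)ˣ) (d : (ZMod N)ˣ)
    (φ : Par ℤ H) :
    dPar R H d (ParLattice11.castPar (GH N H) R φ) = ParLattice11.castPar (GH N H) R (dPar ℤ H d φ) := by
  apply Subtype.ext
  refine AddMonoidHom.ext fun g => ?_
  rfl

theorem tensorEquiv_dPar (R : Type) [CommRing R] [IsAddTorsionFree R] (H : Subgroup (ZMod N)ˣ)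
    (d : (ZMod N)ˣ) (x : R ⊗[ℤ] Par ℤ H) :
    tensorEquiv (GH N H) R ((dPar ℤ H d).baseChange R x)
      = dPar R H d (tensorEquiv (GH N H) R x) := by
  induction x using TensorProduct.induction_on with
  | zero => simp
  | tmul c φ =>
    rw [LinearMap.baseChange_tmul, tensorEquiv_tmul, tensorEquiv_tmul, map_smul, dPar_castPar]
  | add x y hx hy => rw [map_add, map_add, hx, hy, map_add, map_add]

/-! ### The operators of a frame without `x` -/

section Frame

variable (F : Frame N)

/-- the variables of the Hecke ring without `x`. -/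
abbrev Var' : Type := F.ι ⊕ (ZMod N)ˣ

/-- the inclusion of the variables. -/
def incl : Var' F → F.Var := Sum.map some id

/-- the operators `τ_ℓ`, `⟨d⟩` at level `j`. -/
def tau' (R : Type) [CommRing R] (j : ℕ) (v : Var' F) : Module.End R (Par R (F.sub j)) :=
  F.tau R j (incl F v)

theorem tau'_comm (R : Type) [CommRing R] (j : ℕ) (a b : Var' F) :
    Commute (tau' F R j a) (tau' F R j b) := F.tau_comm j _ _

theorem tau'_inl (R : Type) [CommRing R] (j : ℕ) (i : F.ι) :
    tau' F R j (Sum.inl i) = tPar R (F.prime i) (F.ndvd i) (F.sub j) * dPar R (F.sub j) (F.u i ^ F.e) :=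
  rfl

theorem tau'_inr (R : Type) [CommRing R] (j : ℕ) (d : (ZMod N)ˣ) :
    tau' F R j (Sum.inr d) = dPar R (F.sub j) d := rfl

/-- `polyAct` of the sub-family. -/
theorem polyAct_rename (R : Type) [CommRing R] (j : ℕ) (Pol : MvPolynomial (Var' F) R) :
    polyAct (F.tau R j) (F.tau_comm j) (MvPolynomial.rename (incl F) Pol)
      = polyAct (tau' F R j) (tau'_comm F R j) Pol := by
  have h : (polyAct (F.tau R j) (F.tau_comm j)).comp (MvPolynomial.rename (incl F))
      = polyAct (tau' F R j) (tau'_comm F R j) := by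
    apply MvPolynomial.algHom_ext
    intro v
    rw [AlgHom.comp_apply, MvPolynomial.rename_X, polyAct_X, polyAct_X]
    rfl
  exact congrArg (fun f : MvPolynomial (Var' F) R →ₐ[R] Module.End R (Par R (F.sub j)) => f Pol) h

variable (R : Type) [CommRing R] [IsAddTorsionFree R]

theorem tensorEquiv_tau' (j : ℕ) (v : Var' F) (x : R ⊗[ℤ] Par ℤ (F.sub j)) :
    tensorEquiv (GH N (F.sub j)) R ((tau' F ℤ j v).baseChange R x)
      = tau' F R j v (tensorEquiv (GH N (F.sub j)) R x) := by
  cases v with
  | inl i =>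
    rw [tau'_inl, tau'_inl, Module.End.mul_eq_comp, LinearMap.baseChange_comp,
      LinearMap.comp_apply, Module.End.mul_apply]
    have h1 := tensorEquiv_baseChange (Γ := GH N (F.sub j)) R (TH (F.prime i) (F.ndvd i) (F.sub j))
      ((dPar ℤ (F.sub j) (F.u i ^ F.e)).baseChange R x)
    rw [← tensorEquiv_dPar]
    exact h1
  | inr d =>
    rw [tau'_inr, tau'_inr]
    exact tensorEquiv_dPar R (F.sub j) d x

/-- **`tensorEquiv` intertwines the polynomial actions.** -/
theorem tensorEquiv_polyAct (j : ℕ) (Pol : MvPolynomial (Var' F) ℤ)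
    (x : R ⊗[ℤ] Par ℤ (F.sub j)) :
    tensorEquiv (GH N (F.sub j)) R
        ((polyAct (tau' F ℤ j) (tau'_comm F ℤ j) Pol).baseChange R x)
      = polyAct (tau' F R j) (tau'_comm F R j) (MvPolynomial.map (Int.castRingHom R) Pol)
          (tensorEquiv (GH N (F.sub j)) R x) := by
  induction Pol using MvPolynomial.induction_on generalizing x with
  | C a =>
    rw [polyAct_C, MvPolynomial.map_C, polyAct_C, LinearMap.baseChange_smul,
      LinearMap.smul_apply, LinearMap.smul_apply, Module.End.one_eq_id, LinearMap.baseChange_id,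
      LinearMap.id_apply, Module.End.one_apply, map_zsmul, eq_intCast, Int.cast_smul_eq_zsmul]
  | add s s' hs hs' =>
    rw [map_add, map_add, map_add, LinearMap.baseChange_add, LinearMap.add_apply,
      LinearMap.add_apply, map_add, hs, hs']
  | mul_X s v hs =>
    have e1 : polyAct (tau' F ℤ j) (tau'_comm F ℤ j) (s * MvPolynomial.X v)
        = (polyAct (tau' F ℤ j) (tau'_comm F ℤ j) s) ∘ₗ (tau' F ℤ j v) := by
      rw [map_mul, polyAct_X]
      rfl
    have e2 : polyAct (tau' F R j) (tau'_comm F R j)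
          (MvPolynomial.map (Int.castRingHom R) (s * MvPolynomial.X v))
        = (polyAct (tau' F R j) (tau'_comm F R j) (MvPolynomial.map (Int.castRingHom R) s))
            ∘ₗ (tau' F R j v) := by
      rw [map_mul (MvPolynomial.map (Int.castRingHom R)), MvPolynomial.map_X, map_mul, polyAct_X]
      rfl
    rw [e1, e2, LinearMap.baseChange_comp, LinearMap.comp_apply, LinearMap.comp_apply, hs,
      tensorEquiv_tau']

/-- a polynomial relation over `ℤ` holds over `R`. -/
theorem polyAct_map_eq_zero (j : ℕ) (Pol : MvPolynomial (Var' F) ℤ)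
    (h : polyAct (tau' F ℤ j) (tau'_comm F ℤ j) Pol = 0) :
    polyAct (tau' F R j) (tau'_comm F R j) (MvPolynomial.map (Int.castRingHom R) Pol) = 0 := by
  apply LinearMap.ext
  intro y
  obtain ⟨x, rfl⟩ := (tensorEquiv (GH N (F.sub j)) R).surjective y
  rw [← tensorEquiv_polyAct, h, LinearMap.baseChange_zero, LinearMap.zero_apply, map_zero,
    LinearMap.zero_apply]

/-- **eigen-homomorphisms**: a character of the polynomial ring over `ℤ` killing the relations of
the operators on `Par ℤ (F.sub j)` has an eigenvector in `Par K' (F.sub j)`. -/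
theorem exists_eigen_hom (K' : Type) [Field K'] [CharZero K'] (j : ℕ)
    (χ : MvPolynomial (Var' F) ℤ →+* K')
    (hχ : ∀ Pol, polyAct (tau' F ℤ j) (tau'_comm F ℤ j) Pol = 0 → χ Pol = 0) :
    ∃ f : Par K' (F.sub j), f ≠ 0 ∧ ∀ v, tau' F K' j v f = χ (MvPolynomial.X v) • f := by
  classical
  let π : MvPolynomial (Var' F) ℤ →+* Module.End ℤ (Par ℤ (F.sub j)) :=
    (polyAct (tau' F ℤ j) (tau'_comm F ℤ j) : MvPolynomial (Var' F) ℤ →+* _)
  let ρ : MvPolynomial (Var' F) ℤ ⧸ RingHom.ker π →+* Module.End ℤ (Par ℤ (F.sub j)) :=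
    RingHom.kerLift π
  have hρ : Function.Injective ρ := RingHom.kerLift_injective π
  let χ' : MvPolynomial (Var' F) ℤ ⧸ RingHom.ker π →+* K' :=
    Ideal.Quotient.lift (RingHom.ker π) χ (fun a ha => hχ a ((RingHom.mem_ker).mp ha))
  haveI : Module.Free ℤ (Par ℤ (F.sub j)) := free_lam (GH N (F.sub j))
  haveI : Module.Finite ℤ (Par ℤ (F.sub j)) := finite_lam (GH N (F.sub j))
  obtain ⟨w, hw0, hw⟩ := Fermat.Agent.ES.GAL.EigenExists10.exists_eigenvector_baseChange
    (K := K') ρ hρ χ'
  refine ⟨tensorEquiv (GH N (F.sub j)) K' w, ?_, fun v => ?_⟩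
  · intro h0
    exact hw0 ((tensorEquiv (GH N (F.sub j)) K').injective (h0.trans (map_zero _).symm))
  · have h1 := hw (Ideal.Quotient.mk _ (MvPolynomial.X v))
    have h2 : ρ (Ideal.Quotient.mk _ (MvPolynomial.X v)) = tau' F ℤ j v := by
      show π (MvPolynomial.X v) = _
      exact polyAct_X (tau' F ℤ j) (tau'_comm F ℤ j) v
    have h3 : χ' (Ideal.Quotient.mk _ (MvPolynomial.X v)) = χ (MvPolynomial.X v) :=
      Ideal.Quotient.lift_mk _ _ _
    rw [h2, h3] at h1
    rw [← tensorEquiv_tau', h1, map_smul]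

end Frame

end Fermat.Agent.M43.BridgeBase3
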