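/-
Programme M43 (target S43), chapter TWIST-LAT (the twist on the lattice `Hom(Γ, K)`) — helper6.
**Abstract tools.**

* `extHom N f` : for `N ⊴ G` of finite index and a `ℚ`-module `A`, the extension
  `(1/[G:N]) · transfer f` of `f : Hom(N, A)` to `Hom(G, A)`; `extHom_apply_coe` : it restricts to `f`
  when `f` is invariant under conjugation by `G`.
* `eq_of_eqOn_of_finiteIndex` : a homomorphism `G → A` (`A` torsion free) is determined by its
  restriction to a subgroup of finite index.
* `invariant_of_twisted_sum_eq_zero` : finite Fourier analysis on `ℤ/q` over a field `K` containing a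
  primitive `q`-th root of unity: if `c : ℤ/q → End_K(V)` is an action, `ω ≠ 1` a multiplicative
  character of `ℤ/q` and `∑_u ω⁻¹(u) c_u f = 0`, then `c_u f = f` for all `u` (Gauss sums do not vanish).
-/
import Mathlib

set_option autoImplicit false

noncomputable section

namespace Fermat.Agent.M43.TwistLatA6

open Subgroup MonoidHom
open scoped Pointwise

/-! ### Transfer to a normal subgroup of finite index -/

section transfer

variable {G : Type*} [Group G] {H : Subgroup G}

theorem conj_mem' [hn : H.Normal] (g : G) (h : H) : g⁻¹ * h * g ∈ H := by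
  have := hn.conj_mem h h.2 g⁻¹
  simpa using this

/-- For a conjugation invariant homomorphism on a normal subgroup of finite index, the transfer
restricts to the `[G:H]`-th power. -/
theorem transfer_coe_eq_pow_index [hn : H.Normal] [H.FiniteIndex] {A : Type*} [CommGroup A]
    (ϕ : H →* A) (hinv : ∀ (g : G) (h : H), ϕ ⟨g⁻¹ * h * g, conj_mem' g h⟩ = ϕ h) (h : H) :
    transfer ϕ (h : G) = ϕ h ^ H.index := by
  classical
  let T : H.LeftTransversal := default
  let _ := H.fintypeQuotientOfFiniteIndex
  rw [transfer_def ϕ T]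
  unfold Subgroup.leftTransversals.diff
  have hq : ∀ q : G ⧸ H, ((h : G))⁻¹ • q = q := by
    intro q
    induction q using QuotientGroup.induction_on with
    | H g =>
      show ((((h : G))⁻¹ * g : G) : G ⧸ H) = (g : G ⧸ H)
      rw [QuotientGroup.eq]
      have := hn.conj_mem h h.2 g⁻¹
      simpa [mul_assoc] using this
  have hterm : ∀ q : G ⧸ H,
      ((T.2.leftQuotientEquiv q : G))⁻¹ * ((((h : G) • T).2.leftQuotientEquiv q : G)) =
        ((T.2.leftQuotientEquiv q : G))⁻¹ * h * (T.2.leftQuotientEquiv q : G) := by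
    intro q
    rw [smul_apply_eq_smul_apply_inv_smul, hq, smul_eq_mul, mul_assoc]
  rw [index_eq_card, Nat.card_eq_fintype_card, ← Finset.card_univ, ← Finset.prod_const]
  refine Finset.prod_congr rfl fun q _ => ?_
  rw [← hinv (T.2.leftQuotientEquiv q : G) h]
  congr 1
  exact Subtype.ext (hterm q)

variable (H) in
/-- **Extension by transfer**: `(1/[G:H]) · transfer f`. -/
def extHom [H.FiniteIndex] {A : Type*} [AddCommGroup A] [Module ℚ A] (f : Additive H →+ A) :
    Additive G →+ A :=
  ((H.index : ℚ)⁻¹) • MonoidHom.toAdditiveLeft (transfer (AddMonoidHom.toMultiplicativeRight f))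

/-- The conjugation invariance of a homomorphism on a normal subgroup. -/
def ConjInv [H.Normal] {A : Type*} [AddCommGroup A] (f : Additive H →+ A) : Prop :=
  ∀ (g : G) (h : H), f (Additive.ofMul ⟨g⁻¹ * h * g, conj_mem' g h⟩) = f (Additive.ofMul h)

theorem extHom_apply_coe [H.Normal] [H.FiniteIndex] {A : Type*} [AddCommGroup A] [Module ℚ A]
    {f : Additive H →+ A} (hf : ConjInv f) (h : H) :
    extHom H f (Additive.ofMul (h : G)) = f (Additive.ofMul h) := by
  have h1 := transfer_coe_eq_pow_index (AddMonoidHom.toMultiplicativeRight f)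
    (fun g h => congrArg Multiplicative.ofAdd (hf g h)) h
  have h2 : (MonoidHom.toAdditiveLeft (transfer (AddMonoidHom.toMultiplicativeRight f)))
      (Additive.ofMul (h : G)) = H.index • f (Additive.ofMul h) := by
    show Multiplicative.toAdd (transfer (AddMonoidHom.toMultiplicativeRight f) (h : G)) = _
    rw [h1]
    rfl
  unfold extHom
  rw [AddMonoidHom.smul_apply, h2, ← Nat.cast_smul_eq_nsmul ℚ, smul_smul,
    inv_mul_cancel₀ (by exact_mod_cast (FiniteIndex.index_ne_zero (H := H))), one_smul]

/-- A homomorphism to a torsion free group is determined on a subgroup of finite index. -/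
theorem eq_of_eqOn_of_finiteIndex [H.FiniteIndex] {A : Type*} [AddCommGroup A]
    [IsAddTorsionFree A] {F F' : Additive G →+ A}
    (h : ∀ x : H, F (Additive.ofMul (x : G)) = F' (Additive.ofMul (x : G))) : F = F' := by
  refine AddMonoidHom.ext fun g' => ?_
  obtain ⟨g, rfl⟩ := Additive.ofMul.surjective g'
  obtain ⟨n, hn0, -, hn⟩ := Subgroup.exists_pow_mem_of_index_ne_zero
    (FiniteIndex.index_ne_zero (H := H)) g
  have h1 := h ⟨g ^ n, hn⟩
  rw [Subgroup.coe_mk, ofMul_pow, map_nsmul, map_nsmul] at h1
  exact nsmul_right_injective (Nat.pos_iff_ne_zero.mp hn0) h1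

end transfer

/-! ### Finite Fourier analysis on `ℤ/q` -/

section fourier

variable {q : ℕ} [Fact q.Prime] {K : Type*} [Field K] {V : Type*} [AddCommGroup V] [Module K V]

/-- The projector onto the `b`-th isotypic component. -/
def proj (e : AddChar (ZMod q) K) (c : ZMod q → Module.End K V) (b : ZMod q) (f : V) : V :=
  ((q : K)⁻¹) • ∑ u : ZMod q, e (-(b * u)) • c u f

theorem sum_proj (hq : (q : K) ≠ 0) {e : AddChar (ZMod q) K} (he : e.IsPrimitive)
    {c : ZMod q → Module.End K V} (hc0 : c 0 = 1) (f : V) :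
    ∑ b : ZMod q, proj e c b f = f := by
  classical
  unfold proj
  rw [← Finset.smul_sum, Finset.sum_comm]
  have h1 : ∀ u : ZMod q, ∑ b : ZMod q, e (-(b * u)) • c u f =
      (if u = 0 then (q : K) else 0) • c u f := by
    intro u
    rw [← Finset.sum_smul]
    congr 1
    have h2 := AddChar.sum_mulShift (-u) he
    simp only [neg_eq_zero, ZMod.card] at h2
    rw [Nat.cast_ite, Nat.cast_zero] at h2
    rw [← h2]
    refine Finset.sum_congr rfl fun b _ => ?_
    rw [mul_neg]
  simp_rw [h1]
  rw [Finset.sum_eq_single (0 : ZMod q)]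
  · rw [if_pos rfl, hc0, Module.End.one_apply, smul_smul, inv_mul_cancel₀ hq, one_smul]
  · intro u _ hu
    rw [if_neg hu, zero_smul]
  · intro h
    exact absurd (Finset.mem_univ _) h

theorem proj_twisted_sum {e : AddChar (ZMod q) K} {c : ZMod q → Module.End K V}
    (hcadd : ∀ u v, c (u + v) = c u * c v) (ω : MulChar (ZMod q) K) (b : ZMod q) (f : V) :
    proj e c b (∑ w : ZMod q, ω⁻¹ w • c w f) =
      gaussSum ω⁻¹ (e.mulShift b) • proj e c b f := by
  unfold proj
  rw [smul_comm]
  congr 1
  simp_rw [map_sum, map_smul, Finset.smul_sum, smul_smul]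
  rw [gaussSum]
  simp_rw [Finset.sum_mul, Finset.sum_smul]
  conv_rhs => rw [Finset.sum_comm]
  conv_lhs => rw [Finset.sum_comm]
  refine Finset.sum_congr rfl fun w _ => ?_
  rw [← Equiv.sum_comp (Equiv.subRight w)
    (fun u => (e (-(b * u)) * ω⁻¹ w) • (c u) ((c w) f))]
  refine Finset.sum_congr rfl fun u _ => ?_
  rw [Equiv.subRight_apply, ← Module.End.mul_apply, ← hcadd, sub_add_cancel,
    AddChar.mulShift_apply]
  congr 1
  have h1 : -(b * (u - w)) = -(b * u) + b * w := by ring
  rw [h1, AddChar.map_add_eq_mul]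
  ring

theorem proj_zero_invariant {e : AddChar (ZMod q) K} {c : ZMod q → Module.End K V}
    (hcadd : ∀ u v, c (u + v) = c u * c v) (v : ZMod q) (f : V) :
    c v (proj e c 0 f) = proj e c 0 f := by
  unfold proj
  rw [map_smul]
  congr 1
  simp_rw [zero_mul, neg_zero, AddChar.map_zero_eq_one, one_smul]
  rw [map_sum, ← Equiv.sum_comp (Equiv.addLeft v) (fun u => c u f)]
  refine Finset.sum_congr rfl fun u _ => ?_
  rw [Equiv.coe_addLeft, hcadd, Module.End.mul_apply]

theorem gaussSum_mulShift_ne_zero (hq : (q : K) ≠ 0) {e : AddChar (ZMod q) K}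
    (he : e.IsPrimitive) {ω : MulChar (ZMod q) K} (hω : ω ≠ 1) {b : ZMod q} (hb : b ≠ 0) :
    gaussSum ω⁻¹ (e.mulShift b) ≠ 0 := by
  have hω' : ω⁻¹ ≠ 1 := fun h => hω (by rw [← inv_inv ω, h, inv_one])
  have h1 := gaussSum_mul_gaussSum_eq_card hω' he
  rw [ZMod.card] at h1
  have h2 : gaussSum ω⁻¹ e ≠ 0 := fun h => hq (by rw [← h1, h, zero_mul])
  have hbu : IsUnit b := isUnit_iff_ne_zero.mpr hb
  have h3 := gaussSum_mulShift ω⁻¹ e hbu.unit
  rw [IsUnit.unit_spec] at h3
  intro h
  rw [h, mul_zero] at h3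
  exact h2 h3.symm

/-- **Finite Fourier analysis**: if `∑_u ω⁻¹(u) c_u f = 0` for a nontrivial multiplicative
character `ω` of `ℤ/q`, then `f` is invariant under the action `c` of `ℤ/q`. -/
theorem invariant_of_twisted_sum_eq_zero (hq : (q : K) ≠ 0) {e : AddChar (ZMod q) K}
    (he : e.IsPrimitive) {c : ZMod q → Module.End K V} (hc0 : c 0 = 1)
    (hcadd : ∀ u v, c (u + v) = c u * c v) {ω : MulChar (ZMod q) K} (hω : ω ≠ 1) {f : V}
    (hf : ∑ w : ZMod q, ω⁻¹ w • c w f = 0) (v : ZMod q) : c v f = f := by
  classical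
  have h1 : ∀ b : ZMod q, b ≠ 0 → proj e c b f = 0 := by
    intro b hb
    have h2 := proj_twisted_sum (e := e) hcadd ω b f
    rw [hf] at h2
    have h3 : proj e c b (0 : V) = 0 := by
      unfold proj
      simp
    rw [h3] at h2
    rcases smul_eq_zero.mp h2.symm with h4 | h4
    · exact absurd h4 (gaussSum_mulShift_ne_zero hq he hω hb)
    · exact h4
  have h2 : proj e c 0 f = f := by
    have h3 := sum_proj hq he hc0 f
    rw [Finset.sum_eq_single (0 : ZMod q) (fun b _ hb => h1 b hb)
      (fun h => absurd (Finset.mem_univ _) h)] at h3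
    exact h3
  rw [← h2]
  exact proj_zero_invariant hcadd v f

end fourier

end Fermat.Agent.M43.TwistLatA6
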