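/-
Programme M43 (target S43), block (6d-TWIST) — helper6.
**Matrix identities for twisting modular forms by Dirichlet characters.**

`trans x = [[1, x], [0, 1]] ∈ GL₂(ℝ)`; `f ∣[k] trans x = (z ↦ f (x + z))`.

* `trans_mul_mapGL` : for `g ∈ SL₂(ℤ)` with `D² ∣ g₁₀` and `g₁₁ u - g₀₀ u' = D t`:
  `trans (u/D) * g = g' * trans (u'/D)` with `g' ∈ SL₂(ℤ)`, `g'₁₀ = g₁₀`, `g'₁₁ = g₁₁ - (g₁₀/D) u'`.
* `trans_mul_heckeMatrix`, `trans_mul_heckeDiagMatrix` : commutation with the Hecke matrices.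
* `heckeMatrix_mul_mapGL` : `[[1, j], [0, p]] * g = g' * [[1, j'], [0, p]]` with
  `g'₁₀ = p g₁₀`, `g'₁₁ = g₁₁ - g₁₀ j'` (the Prelude's identity with the lower right entry exposed).
-/
import Mathlib
import Fermat.Prelude.Def_ModularForm_HeckeOperator

set_option autoImplicit false

noncomputable section

namespace Fermat.Agent.M43.TwistMat6

open Matrix.SpecialLinearGroup UpperHalfPlane ModularForm
open scoped MatrixGroups ModularForm

/-- The translation matrix `[[1, x], [0, 1]]`. -/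
def trans (x : ℝ) : GL (Fin 2) ℝ := upperTriangularGL 1 x 1 (by norm_num)

@[simp] theorem val_trans (x : ℝ) :
    ((trans x : GL (Fin 2) ℝ) : Matrix (Fin 2) (Fin 2) ℝ) = !![(1 : ℝ), x; 0, 1] := rfl

theorem det_trans (x : ℝ) : ((trans x).det : ℝ) = 1 := by
  rw [Matrix.GeneralLinearGroup.val_det_apply, val_trans, Matrix.det_fin_two_of]
  ring

theorem det_trans_pos (x : ℝ) : 0 < ((trans x).det : ℝ) := by
  rw [det_trans]; exact one_pos

theorem denom_trans (x : ℝ) (τ : ℍ) : denom (trans x) τ = 1 := by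
  simp [denom, val_trans]

theorem coe_trans_smul (x : ℝ) (τ : ℍ) : ((trans x • τ : ℍ) : ℂ) = (τ : ℂ) + x := by
  rw [coe_smul_of_det_pos (det_trans_pos x)]
  simp [num, denom, val_trans]

theorem trans_smul (x : ℝ) (τ : ℍ) : trans x • τ = x +ᵥ τ := by
  apply UpperHalfPlane.ext
  rw [coe_trans_smul, UpperHalfPlane.coe_vadd]
  ring

theorem σ_trans (x : ℝ) : UpperHalfPlane.σ (trans x) = .refl ℝ ℂ := by
  rw [UpperHalfPlane.σ, if_pos (det_trans_pos x)]

/-- `f ∣[k] trans x = (z ↦ f (x + z))`. -/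
theorem slash_trans_apply (k : ℤ) (x : ℝ) (f : ℍ → ℂ) (τ : ℍ) :
    (f ∣[k] trans x) τ = f (x +ᵥ τ) := by
  rw [ModularForm.slash_apply, σ_trans, det_trans, denom_trans, trans_smul]
  simp

theorem trans_add (x y : ℝ) : trans (x + y) = trans x * trans y := by
  ext i j
  fin_cases i <;> fin_cases j <;> simp [Matrix.mul_apply, Fin.sum_univ_two, add_comm]

theorem trans_zero : trans 0 = 1 := by
  ext i j
  fin_cases i <;> fin_cases j <;> simp

theorem mapGL_apply' (g : SL(2, ℤ)) (i j : Fin 2) :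
    (mapGL ℝ g : GL (Fin 2) ℝ) i j = ((g i j : ℤ) : ℝ) := by
  simp

theorem det_eq (g : SL(2, ℤ)) : g 0 0 * g 1 1 - g 0 1 * g 1 0 = 1 := by
  have h := g.det_coe
  rwa [Matrix.det_fin_two] at h

theorem exists_SL (a b c d : ℤ) (h : a * d - b * c = 1) :
    ∃ g' : SL(2, ℤ), g' 0 0 = a ∧ g' 0 1 = b ∧ g' 1 0 = c ∧ g' 1 1 = d :=
  ⟨⟨!![a, b; c, d], by rw [Matrix.det_fin_two_of]; exact h⟩, rfl, rfl, rfl, rfl⟩

/-- **The basic commutation relation for twists.** -/
theorem trans_mul_mapGL (g : SL(2, ℤ)) {D : ℕ} (hD : D ≠ 0) (u u' t c₂ : ℤ)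
    (hc : g 1 0 = (D : ℤ) ^ 2 * c₂) (ht : g 1 1 * u - g 0 0 * u' = D * t) :
    ∃ g' : SL(2, ℤ), g' 1 0 = g 1 0 ∧ g' 1 1 = g 1 1 - D * c₂ * u' ∧
      trans ((u : ℝ) / D) * mapGL ℝ g = mapGL ℝ g' * trans ((u' : ℝ) / D) := by
  have hdet := det_eq g
  have hD' : (D : ℝ) ≠ 0 := by exact_mod_cast hD
  obtain ⟨g', e00, e01, e10, e11⟩ := exists_SL (g 0 0 + D * c₂ * u) (g 0 1 + t - c₂ * u * u')
    (g 1 0) (g 1 1 - D * c₂ * u')
    (by linear_combination hdet + ((D : ℤ) * c₂) * ht + (c₂ * u * u' - t) * hc)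
  refine ⟨g', e10, e11, ?_⟩
  have hcR : ((g 1 0 : ℤ) : ℝ) = (D : ℝ) ^ 2 * c₂ := by exact_mod_cast hc
  have htR : ((g 1 1 : ℤ) : ℝ) * u - ((g 0 0 : ℤ) : ℝ) * u' = D * t := by exact_mod_cast ht
  ext i j
  fin_cases i <;> fin_cases j <;>
    simp [Matrix.mul_apply, Fin.sum_univ_two, e00, e01, e10, e11]
  all_goals first
    | ring1
    | (rw [hcR]; field_simp; done)
    | (field_simp; linear_combination htR)
    | (field_simp; linear_combination -(u' : ℝ) * hcR)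

/-- Commutation of translations with `[[1, j], [0, p]]`. -/
theorem trans_mul_heckeMatrix {p : ℕ} (hp : p ≠ 0) (j : ℕ) (x : ℝ) :
    trans x * heckeMatrix p j = heckeMatrix p j * trans ((p : ℝ) * x) := by
  ext a b
  fin_cases a <;> fin_cases b <;>
    simp [hp, Matrix.mul_apply, Fin.sum_univ_two, add_comm, mul_comm]

/-- Commutation of translations with `[[p, 0], [0, 1]]`. -/
theorem trans_mul_heckeDiagMatrix {p : ℕ} (hp : p ≠ 0) (x : ℝ) :
    trans ((p : ℝ) * x) * heckeDiagMatrix p = heckeDiagMatrix p * trans x := by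
  ext a b
  fin_cases a <;> fin_cases b <;> simp [hp, Matrix.mul_apply, Fin.sum_univ_two]

/-- The Prelude's commutation relation for `U_p`, with the lower right entry exposed. -/
theorem heckeMatrix_mul_mapGL {p : ℕ} (hp : p ≠ 0) (g : SL(2, ℤ)) (j j' : ℕ) (e : ℤ)
    (he : g 0 1 + j * g 1 1 = j' * (g 0 0 + j * g 1 0) + p * e) :
    ∃ g' : SL(2, ℤ), g' 1 0 = p * g 1 0 ∧ g' 1 1 = g 1 1 - g 1 0 * j' ∧
      heckeMatrix p j * mapGL ℝ g = mapGL ℝ g' * heckeMatrix p j' := by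
  have hdet := det_eq g
  obtain ⟨g', e00, e01, e10, e11⟩ := exists_SL (g 0 0 + j * g 1 0) e (p * g 1 0)
    (g 1 1 - g 1 0 * j') (by linear_combination hdet + (g 1 0) * he)
  refine ⟨g', e10, e11, ?_⟩
  have heR := congrArg (Int.cast : ℤ → ℝ) he
  push_cast at heR
  ext a b
  fin_cases a <;> fin_cases b <;>
    simp [hp, Matrix.mul_apply, Fin.sum_univ_two, e00, e01, e10, e11]
  · linear_combination heR
  · ring

end Fermat.Agent.M43.TwistMat6
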