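/-
Programme M43 (target S43), chapter TWIST-LAT — helper6.
**Conjugation by real matrices on `Hom(Γ, K)`, and the congruence groups of the lattice twist.**

* `MapsInto A Γ₁ Γ₂` (`A Γ₁ A⁻¹ ⊆ Γ₂` for `A ∈ GL₂(ℝ)`), `cjHom : Γ₁ →* Γ₂`, `pull : Hom(Γ₂, K) → Hom(Γ₁, K)`;
  `pull_mul`, `pull_mapGL_self` (inner conjugations act trivially).
* `GHc N N₀ S` : `{g ∈ SL₂(ℤ) : N ∣ g₁₀, (g₁₁ mod N₀) ∈ S}` for `N₀ ∣ N`, `S ≤ (ℤ/N₀)ˣ`.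
-/
import Mathlib
import Fermat.Agent.M43.TwistMat6
import Fermat.Agent.M43.TwistLatA6

set_option autoImplicit false

noncomputable section

namespace Fermat.Agent.M43.TwistLatB6

open Matrix.SpecialLinearGroup
open scoped MatrixGroups
open Fermat.Agent.M43.TwistMat6

/-! ### Conjugation by real matrices -/

/-- `A Γ₁ A⁻¹ ⊆ Γ₂`. -/
def MapsInto (A : GL (Fin 2) ℝ) (Γ₁ Γ₂ : Subgroup SL(2, ℤ)) : Prop :=
  ∀ x ∈ Γ₁, ∃ y ∈ Γ₂, A * mapGL ℝ x = mapGL ℝ y * A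

variable {A B : GL (Fin 2) ℝ} {Γ₁ Γ₂ Γ₃ : Subgroup SL(2, ℤ)}

theorem mapGL_inj {x y : SL(2, ℤ)} (h : (mapGL ℝ x : GL (Fin 2) ℝ) = mapGL ℝ y) : x = y :=
  mapGL_injective h

/-- The conjugate `A x A⁻¹` as an element of `Γ₂`. -/
def cjFun (h : MapsInto A Γ₁ Γ₂) (x : Γ₁) : Γ₂ :=
  ⟨(h x x.2).choose, (h x x.2).choose_spec.1⟩

theorem cjFun_spec (h : MapsInto A Γ₁ Γ₂) (x : Γ₁) :
    A * mapGL ℝ (x : SL(2, ℤ)) = mapGL ℝ ((cjFun h x : Γ₂) : SL(2, ℤ)) * A :=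
  (h x x.2).choose_spec.2

theorem cjFun_unique (h : MapsInto A Γ₁ Γ₂) (x : Γ₁) {y : SL(2, ℤ)}
    (hy : A * mapGL ℝ (x : SL(2, ℤ)) = mapGL ℝ y * A) : ((cjFun h x : Γ₂) : SL(2, ℤ)) = y := by
  apply mapGL_inj
  have h1 := cjFun_spec h x
  rw [hy] at h1
  exact (mul_right_cancel h1).symm

/-- Conjugation by `A` as a group homomorphism `Γ₁ →* Γ₂`. -/
def cjHom (h : MapsInto A Γ₁ Γ₂) : Γ₁ →* Γ₂ where
  toFun := cjFun h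
  map_one' := by
    apply Subtype.ext
    apply cjFun_unique
    simp
  map_mul' x x' := by
    apply Subtype.ext
    apply cjFun_unique
    rw [Subgroup.coe_mul, Subgroup.coe_mul, map_mul, map_mul, ← mul_assoc, cjFun_spec h x,
      mul_assoc, cjFun_spec h x', mul_assoc]

theorem cjHom_spec (h : MapsInto A Γ₁ Γ₂) (x : Γ₁) :
    A * mapGL ℝ (x : SL(2, ℤ)) = mapGL ℝ ((cjHom h x : Γ₂) : SL(2, ℤ)) * A :=
  cjFun_spec h x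

theorem cjHom_unique (h : MapsInto A Γ₁ Γ₂) (x : Γ₁) {y : SL(2, ℤ)}
    (hy : A * mapGL ℝ (x : SL(2, ℤ)) = mapGL ℝ y * A) : ((cjHom h x : Γ₂) : SL(2, ℤ)) = y :=
  cjFun_unique h x hy

theorem MapsInto.mul (hA : MapsInto A Γ₂ Γ₃) (hB : MapsInto B Γ₁ Γ₂) :
    MapsInto (A * B) Γ₁ Γ₃ := by
  intro x hx
  obtain ⟨y, hy, hxy⟩ := hB x hx
  obtain ⟨z, hz, hyz⟩ := hA y hy
  exact ⟨z, hz, by rw [mul_assoc, hxy, ← mul_assoc, hyz, mul_assoc]⟩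

theorem MapsInto.mono {Γ₁' Γ₂' : Subgroup SL(2, ℤ)} (h : MapsInto A Γ₁ Γ₂) (h1 : Γ₁' ≤ Γ₁)
    (h2 : Γ₂ ≤ Γ₂') : MapsInto A Γ₁' Γ₂' := by
  intro x hx
  obtain ⟨y, hy, hxy⟩ := h x (h1 hx)
  exact ⟨y, h2 hy, hxy⟩

theorem mapsInto_mapGL {g : SL(2, ℤ)} {Γ : Subgroup SL(2, ℤ)} (hg : g ∈ Γ) :
    MapsInto (mapGL ℝ g) Γ Γ := by
  intro x hx
  exact ⟨g * x * g⁻¹, Γ.mul_mem (Γ.mul_mem hg hx) (Γ.inv_mem hg), by
    rw [← map_mul, ← map_mul]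
    congr 1
    group⟩

theorem cjHom_mul (hA : MapsInto A Γ₂ Γ₃) (hB : MapsInto B Γ₁ Γ₂) (x : Γ₁) :
    cjHom (hA.mul hB) x = cjHom hA (cjHom hB x) := by
  apply Subtype.ext
  apply cjHom_unique
  rw [mul_assoc, cjHom_spec hB, ← mul_assoc, cjHom_spec hA, mul_assoc]

/-- Independence of the proof and of the presentation of the matrix. -/
theorem cjHom_congr (h : MapsInto A Γ₁ Γ₂) (h' : MapsInto B Γ₁ Γ₂) (hAB : A = B) (x : Γ₁) :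
    cjHom h x = cjHom h' x := by
  subst hAB
  rfl

section pull

variable {K : Type*} [AddCommGroup K]

/-- The pullback of a homomorphism along conjugation by `A`. -/
def pull (h : MapsInto A Γ₁ Γ₂) (φ : Additive Γ₂ →+ K) : Additive Γ₁ →+ K :=
  φ.comp (MonoidHom.toAdditive (cjHom h))

@[simp] theorem pull_apply (h : MapsInto A Γ₁ Γ₂) (φ : Additive Γ₂ →+ K) (x : Γ₁) :
    pull h φ (Additive.ofMul x) = φ (Additive.ofMul (cjHom h x)) := rfl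

theorem pull_mul (hA : MapsInto A Γ₂ Γ₃) (hB : MapsInto B Γ₁ Γ₂) (φ : Additive Γ₃ →+ K) :
    pull (hA.mul hB) φ = pull hB (pull hA φ) := by
  refine AddMonoidHom.ext fun x' => ?_
  obtain ⟨x, rfl⟩ := Additive.ofMul.surjective x'
  rw [pull_apply, pull_apply, pull_apply, cjHom_mul]

theorem pull_congr (h : MapsInto A Γ₁ Γ₂) (h' : MapsInto B Γ₁ Γ₂) (hAB : A = B)
    (φ : Additive Γ₂ →+ K) : pull h φ = pull h' φ := by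
  subst hAB
  rfl

/-- Inner conjugations act trivially on `Hom(Γ, K)`. -/
theorem pull_mapGL_self {Γ : Subgroup SL(2, ℤ)} {g : SL(2, ℤ)} (hg : g ∈ Γ)
    (h : MapsInto (mapGL ℝ g) Γ Γ) (φ : Additive Γ →+ K) : pull h φ = φ := by
  refine AddMonoidHom.ext fun x' => ?_
  obtain ⟨x, rfl⟩ := Additive.ofMul.surjective x'
  rw [pull_apply]
  have h1 : cjHom h x = ⟨g, hg⟩ * x * ⟨g, hg⟩⁻¹ := by
    apply Subtype.ext
    apply cjHom_unique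
    rw [← map_mul, ← map_mul]
    congr 1
    simp only [Subgroup.coe_mul, Subgroup.coe_inv]
    group
  rw [h1, ofMul_mul, ofMul_mul, ofMul_inv, map_add, map_add, map_neg]
  abel

theorem pull_add (h : MapsInto A Γ₁ Γ₂) (φ φ' : Additive Γ₂ →+ K) :
    pull h (φ + φ') = pull h φ + pull h φ' := rfl

theorem pull_smul {R : Type*} [Semiring R] [Module R K] (h : MapsInto A Γ₁ Γ₂) (c : R)
    (φ : Additive Γ₂ →+ K) : pull h (c • φ) = c • pull h φ := rfl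

end pull

/-! ### The congruence groups -/

theorem SL_mul_10 (g g' : SL(2, ℤ)) : (g * g') 1 0 = g 1 0 * g' 0 0 + g 1 1 * g' 1 0 := by
  rw [Matrix.SpecialLinearGroup.coe_mul, Matrix.mul_apply, Fin.sum_univ_two]

theorem SL_mul_11 (g g' : SL(2, ℤ)) : (g * g') 1 1 = g 1 0 * g' 0 1 + g 1 1 * g' 1 1 := by
  rw [Matrix.SpecialLinearGroup.coe_mul, Matrix.mul_apply, Fin.sum_univ_two]

theorem SL_inv_10 (g : SL(2, ℤ)) : (g⁻¹) 1 0 = -g 1 0 := by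
  rw [Matrix.SpecialLinearGroup.coe_inv, Matrix.adjugate_fin_two]
  rfl

theorem SL_inv_11 (g : SL(2, ℤ)) : (g⁻¹) 1 1 = g 0 0 := by
  rw [Matrix.SpecialLinearGroup.coe_inv, Matrix.adjugate_fin_two]
  rfl

/-- `{g ∈ SL₂(ℤ) : N ∣ g₁₀, (g₁₁ mod N₀) ∈ S}` (`N₀ ∣ N`, `S ≤ (ℤ/N₀)ˣ`). -/
def GHc (N N₀ : ℕ) (S : Subgroup (ZMod N₀)ˣ) (h : N₀ ∣ N) : Subgroup SL(2, ℤ) where
  carrier := {g | (N : ℤ) ∣ g 1 0 ∧
    ∃ u ∈ S, ((u : (ZMod N₀)ˣ) : ZMod N₀) = ((g 1 1 : ℤ) : ZMod N₀)}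
  one_mem' := ⟨by simp, 1, S.one_mem, by simp⟩
  mul_mem' := by
    rintro g g' ⟨hg, u, hu, hug⟩ ⟨hg', u', hu', hug'⟩
    refine ⟨?_, u * u', S.mul_mem hu hu', ?_⟩
    · rw [SL_mul_10]
      exact dvd_add (Dvd.dvd.mul_right hg _) (Dvd.dvd.mul_left hg' _)
    · rw [SL_mul_11, Units.val_mul, hug, hug']
      have h0 : ((g 1 0 : ℤ) : ZMod N₀) = 0 :=
        (ZMod.intCast_zmod_eq_zero_iff_dvd _ _).mpr ((Int.natCast_dvd_natCast.mpr h).trans hg)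
      push_cast
      rw [h0, zero_mul, zero_add]
  inv_mem' := by
    rintro g ⟨hg, u, hu, hug⟩
    refine ⟨?_, u⁻¹, S.inv_mem hu, ?_⟩
    · rw [SL_inv_10]
      exact (dvd_neg).mpr hg
    · rw [SL_inv_11]
      have h0 : ((g 1 0 : ℤ) : ZMod N₀) = 0 :=
        (ZMod.intCast_zmod_eq_zero_iff_dvd _ _).mpr ((Int.natCast_dvd_natCast.mpr h).trans hg)
      have hdet := congrArg (Int.cast : ℤ → ZMod N₀) (det_eq g)
      push_cast at hdet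
      rw [h0, mul_zero, sub_zero, ← hug] at hdet
      -- `g₀₀ * u = 1`
      have h1 : ((g 0 0 : ℤ) : ZMod N₀) = ((u⁻¹ : (ZMod N₀)ˣ) : ZMod N₀) := by
        calc ((g 0 0 : ℤ) : ZMod N₀) = ((g 0 0 : ℤ) : ZMod N₀) * (u * (u⁻¹ : (ZMod N₀)ˣ)) := by
              rw [← Units.val_mul, mul_inv_cancel, Units.val_one, mul_one]
          _ = ((u⁻¹ : (ZMod N₀)ˣ) : ZMod N₀) := by rw [← mul_assoc, hdet, one_mul]
      exact h1.symm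

theorem mem_GHc {N N₀ : ℕ} {S : Subgroup (ZMod N₀)ˣ} {h : N₀ ∣ N} {g : SL(2, ℤ)} :
    g ∈ GHc N N₀ S h ↔ (N : ℤ) ∣ g 1 0 ∧
      ∃ u ∈ S, ((u : (ZMod N₀)ˣ) : ZMod N₀) = ((g 1 1 : ℤ) : ZMod N₀) := Iff.rfl

/-- Membership only depends on `g₁₀` and on `g₁₁ mod N₀`. -/
theorem mem_GHc_of_congr {N N₀ : ℕ} {S : Subgroup (ZMod N₀)ˣ} {h : N₀ ∣ N} {g g' : SL(2, ℤ)}
    (hg : g ∈ GHc N N₀ S h) (h10 : g' 1 0 = g 1 0) (h11 : (N₀ : ℤ) ∣ g' 1 1 - g 1 1) :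
    g' ∈ GHc N N₀ S h := by
  obtain ⟨hg1, u, hu, hug⟩ := hg
  refine ⟨h10 ▸ hg1, u, hu, ?_⟩
  rw [hug]
  exact ((ZMod.intCast_eq_intCast_iff_dvd_sub _ _ _).mpr h11)

theorem GHc_mono {N N' N₀ : ℕ} {S S' : Subgroup (ZMod N₀)ˣ} {h : N₀ ∣ N} {h' : N₀ ∣ N'}
    (hN : N ∣ N') (hS : S' ≤ S) : GHc N' N₀ S' h' ≤ GHc N N₀ S h := by
  rintro g ⟨hg, u, hu, hug⟩
  exact ⟨(Int.natCast_dvd_natCast.mpr hN).trans hg, u, hS hu, hug⟩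

/-! ### `d mod N₀` on `Γ₀(N₀)` -/

/-- The lower right entry mod `N₀`. -/
def d0 (N₀ : ℕ) (g : SL(2, ℤ)) : ZMod N₀ := ((g 1 1 : ℤ) : ZMod N₀)

theorem d0_mul {N₀ : ℕ} {g : SL(2, ℤ)} (hg : (N₀ : ℤ) ∣ g 1 0) (g' : SL(2, ℤ)) :
    d0 N₀ (g * g') = d0 N₀ g * d0 N₀ g' := by
  unfold d0
  rw [SL_mul_11]
  push_cast
  rw [(ZMod.intCast_zmod_eq_zero_iff_dvd _ _).mpr hg, zero_mul, zero_add]

theorem d0_inv_mul {N₀ : ℕ} {g : SL(2, ℤ)} (hg : (N₀ : ℤ) ∣ g 1 0) :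
    d0 N₀ g⁻¹ * d0 N₀ g = 1 := by
  unfold d0
  rw [SL_inv_11]
  have hdet := congrArg (Int.cast : ℤ → ZMod N₀) (det_eq g)
  push_cast at hdet
  rw [(ZMod.intCast_zmod_eq_zero_iff_dvd _ _).mpr hg, mul_zero, sub_zero] at hdet
  exact hdet

theorem d0_conj {N₀ : ℕ} {g x : SL(2, ℤ)} (hg : (N₀ : ℤ) ∣ g 1 0) (hx : (N₀ : ℤ) ∣ x 1 0) :
    d0 N₀ (g * x * g⁻¹) = d0 N₀ x := by
  have hgx : (N₀ : ℤ) ∣ (g * x) 1 0 := by
    rw [SL_mul_10]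
    exact dvd_add (Dvd.dvd.mul_right hg _) (Dvd.dvd.mul_left hx _)
  rw [d0_mul hgx, d0_mul hg, mul_comm (d0 N₀ g), mul_assoc, mul_comm (d0 N₀ g), d0_inv_mul hg,
    mul_one]

theorem dvd_10_of_mem_GHc {N N₀ : ℕ} {S : Subgroup (ZMod N₀)ˣ} {h : N₀ ∣ N} {g : SL(2, ℤ)}
    (hg : g ∈ GHc N N₀ S h) : (N₀ : ℤ) ∣ g 1 0 :=
  (Int.natCast_dvd_natCast.mpr h).trans hg.1

/-- `GHc N N₀ S` is normalised by `GHc N N₀ S'` for any `S'`. -/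
theorem conj_mem_GHc {N N₀ : ℕ} {S S' : Subgroup (ZMod N₀)ˣ} {h : N₀ ∣ N} {g x : SL(2, ℤ)}
    (hg : g ∈ GHc N N₀ S' h) (hx : x ∈ GHc N N₀ S h) : g * x * g⁻¹ ∈ GHc N N₀ S h := by
  obtain ⟨hx1, u, hu, hux⟩ := hx
  refine ⟨?_, u, hu, ?_⟩
  · have hg1 := hg.1
    rw [SL_mul_10, SL_mul_10, SL_inv_10]
    exact dvd_add (Dvd.dvd.mul_right (dvd_add (Dvd.dvd.mul_right hg1 _) (Dvd.dvd.mul_left hx1 _)) _)
      (Dvd.dvd.mul_left ((dvd_neg).mpr hg1) _)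
  · rw [hux]
    exact (d0_conj (dvd_10_of_mem_GHc hg) ((Int.natCast_dvd_natCast.mpr h).trans hx1)).symm

end Fermat.Agent.M43.TwistLatB6
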