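/-
Programme M43 (target S43), chapter TWIST-LAT — helper6.
**Matrix lemmas for the lattice twist at a prime `q ∣ N₀`.**

`GpC hq S = {g : N₀ q ∣ g₁₀, (g₁₁ mod N₀) ∈ S, g₁₁ ≡ 1 mod q}`.

* `tau_mul` : for `N₀ q ∣ g₁₀` and `q ∣ g₁₁ u - g₀₀ u'`: `τ^u g = g' τ^{u'}` with `g'₁₀ = g₁₀`,
  `g'₁₁ ≡ g₁₁ mod N₀`  (`τ = [[1, 1/q], [0, 1]]`).
* `mapsInto_tau_GpC` : `τ^n` normalises `GpC`; `mapsInto_mapGL_GpC` : so does every element of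
  `Γ₀(N₀)`.
* `tau_mul_sq` : `τ^u g = g' τ^{d² u}` for `N₀ q ∣ g₁₀`.
* `exists_torus_word` : the explicit word `τ^x L^y τ^x τ⁻¹ L^{y'} τ⁻¹` (`L = [[1, 0], [N₀, 1]]`) which is
  an element of `Γ₀(N₀)` with lower right entry `≡ a mod q`, `≡ 1 mod M` (`N₀ = M q`, `q ∤ M`).
-/
import Mathlib
import Fermat.Agent.M43.TwistLatB6

set_option autoImplicit false

noncomputable section

namespace Fermat.Agent.M43.TwistLatC6

open Matrix.SpecialLinearGroup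
open scoped MatrixGroups
open Fermat.Agent.M43.TwistMat6 Fermat.Agent.M43.TwistLatB6

theorem SL_inv_00 (g : SL(2, ℤ)) : (g⁻¹) 0 0 = g 1 1 := by
  rw [Matrix.SpecialLinearGroup.coe_inv, Matrix.adjugate_fin_two]
  rfl

theorem SL_inv_01 (g : SL(2, ℤ)) : (g⁻¹) 0 1 = -g 0 1 := by
  rw [Matrix.SpecialLinearGroup.coe_inv, Matrix.adjugate_fin_two]
  rfl

variable {q N₀ : ℕ}

/-- `S ∩ {u ≡ 1 mod q}`. -/
def Sone (hq : q ∣ N₀) (S : Subgroup (ZMod N₀)ˣ) : Subgroup (ZMod N₀)ˣ :=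
  S ⊓ (ZMod.unitsMap hq).ker

theorem Sone_le (hq : q ∣ N₀) (S : Subgroup (ZMod N₀)ˣ) : Sone hq S ≤ S := inf_le_left

theorem mem_Sone {hq : q ∣ N₀} {S : Subgroup (ZMod N₀)ˣ} {u : (ZMod N₀)ˣ} :
    u ∈ Sone hq S ↔ u ∈ S ∧ ZMod.unitsMap hq u = 1 := by
  rw [Sone, Subgroup.mem_inf, MonoidHom.mem_ker]

/-- `{g : N₀ q ∣ g₁₀, (g₁₁ mod N₀) ∈ S, g₁₁ ≡ 1 mod q}`. -/
abbrev GpC (hq : q ∣ N₀) (S : Subgroup (ZMod N₀)ˣ) : Subgroup SL(2, ℤ) :=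
  GHc (N₀ * q) N₀ (Sone hq S) (dvd_mul_right N₀ q)

theorem cast_11_of_mem_GpC {hq : q ∣ N₀} {S : Subgroup (ZMod N₀)ˣ} {x : SL(2, ℤ)}
    (hx : x ∈ GpC hq S) : ((x 1 1 : ℤ) : ZMod q) = 1 := by
  obtain ⟨-, u, hu, hux⟩ := hx
  have h2 := congrArg Units.val (mem_Sone.mp hu).2
  rw [ZMod.unitsMap_val, hux, ZMod.cast_intCast hq, Units.val_one] at h2
  exact h2

theorem dvd_10_q {g : SL(2, ℤ)} (hg : ((N₀ * q : ℕ) : ℤ) ∣ g 1 0) :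
    (q : ℤ) ∣ g 1 0 :=
  (Int.natCast_dvd_natCast.mpr (Dvd.intro_left N₀ rfl)).trans hg

/-- for `q ∣ g₁₀`: `g₀₀ g₁₁ ≡ 1 mod q`. -/
theorem cast_00_mul_11 {g : SL(2, ℤ)} (hg : (q : ℤ) ∣ g 1 0) :
    ((g 0 0 : ℤ) : ZMod q) * ((g 1 1 : ℤ) : ZMod q) = 1 := by
  have hdet := congrArg (Int.cast : ℤ → ZMod q) (det_eq g)
  push_cast at hdet
  rw [(ZMod.intCast_zmod_eq_zero_iff_dvd _ _).mpr hg, mul_zero, sub_zero] at hdet
  exact hdet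

theorem cast_00_of_mem_GpC {hq : q ∣ N₀} {S : Subgroup (ZMod N₀)ˣ} {x : SL(2, ℤ)}
    (hx : x ∈ GpC hq S) : ((x 0 0 : ℤ) : ZMod q) = 1 := by
  have h1 := cast_00_mul_11 (q := q) (dvd_10_q hx.1)
  rwa [cast_11_of_mem_GpC hx, mul_one] at h1

/-- **The basic commutation relation** at level `N₀ q`, `q ∣ N₀`. -/
theorem tau_mul (hq0 : q ≠ 0) (hq : q ∣ N₀) (g : SL(2, ℤ))
    (hg : ((N₀ * q : ℕ) : ℤ) ∣ g 1 0) (u u' : ℤ) (hu : (q : ℤ) ∣ g 1 1 * u - g 0 0 * u') :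
    ∃ g' : SL(2, ℤ), g' 1 0 = g 1 0 ∧ (N₀ : ℤ) ∣ g' 1 1 - g 1 1 ∧
      trans ((u : ℝ) / q) * mapGL ℝ g = mapGL ℝ g' * trans ((u' : ℝ) / q) := by
  obtain ⟨m, rfl⟩ := hq
  obtain ⟨k, hk⟩ := hg
  obtain ⟨t, ht⟩ := hu
  obtain ⟨g', h10, h11, hmat⟩ := trans_mul_mapGL g hq0 u u' t (m * k)
    (by rw [hk]; push_cast; ring) ht
  refine ⟨g', h10, ?_, hmat⟩
  rw [h11]
  refine ⟨-(k * u'), ?_⟩
  push_cast
  ring

/-- `τ^n` normalises `GpC`. -/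
theorem mapsInto_tau_GpC (hq0 : q ≠ 0) (hq : q ∣ N₀) (S : Subgroup (ZMod N₀)ˣ) (n : ℤ) :
    MapsInto (trans ((n : ℝ) / q)) (GpC hq S) (GpC hq S) := by
  intro x hx
  have hu : (q : ℤ) ∣ x 1 1 * n - x 0 0 * n := by
    rw [← sub_mul]
    refine Dvd.dvd.mul_right ?_ _
    rw [← ZMod.intCast_eq_intCast_iff_dvd_sub, cast_11_of_mem_GpC hx, cast_00_of_mem_GpC hx]
  obtain ⟨x', h10, h11, hmat⟩ := tau_mul hq0 hq x hx.1 n n hu
  exact ⟨x', mem_GHc_of_congr hx h10 h11, hmat⟩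

/-- `τ^u g = g' τ^{d² u}` for `g` with `N₀ q ∣ g₁₀`. -/
theorem tau_mul_sq (hq0 : q ≠ 0) (hq : q ∣ N₀) (g : SL(2, ℤ))
    (hg : ((N₀ * q : ℕ) : ℤ) ∣ g 1 0) (u : ℤ) :
    ∃ g' : SL(2, ℤ), g' 1 0 = g 1 0 ∧ (N₀ : ℤ) ∣ g' 1 1 - g 1 1 ∧
      trans ((u : ℝ) / q) * mapGL ℝ g = mapGL ℝ g' * trans (((g 1 1 ^ 2 * u : ℤ) : ℝ) / q) := by
  refine tau_mul hq0 hq g hg u (g 1 1 ^ 2 * u) ?_
  have h1 : g 1 1 * u - g 0 0 * (g 1 1 ^ 2 * u) = g 1 0 * (-(g 0 1 * g 1 1 * u)) := by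
    linear_combination (-(g 1 1 * u)) * det_eq g
  rw [h1]
  exact Dvd.dvd.mul_right (dvd_10_q hg) _

/-- every element of `Γ₀(N₀)` normalises `GpC`. -/
theorem mapsInto_mapGL_GpC (hq : q ∣ N₀) (S : Subgroup (ZMod N₀)ˣ) {g : SL(2, ℤ)}
    (hg : (N₀ : ℤ) ∣ g 1 0) : MapsInto (mapGL ℝ g) (GpC hq S) (GpC hq S) := by
  intro x hx
  refine ⟨g * x * g⁻¹, ?_, by rw [← map_mul, ← map_mul]; congr 1; group⟩
  obtain ⟨hx1, u, hu, hux⟩ := hx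
  have hx' : x ∈ GpC hq S := ⟨hx1, u, hu, hux⟩
  refine ⟨?_, u, hu, ?_⟩
  · have e : (g * x * g⁻¹) 1 0
        = g 1 0 * g 1 1 * (x 0 0 - x 1 1) + g 1 1 ^ 2 * x 1 0 - g 1 0 ^ 2 * x 0 1 := by
      rw [SL_mul_10, SL_mul_10, SL_mul_11, SL_inv_00, SL_inv_10]
      ring
    rw [e]
    obtain ⟨γ, hγ⟩ := hg
    have hd : (q : ℤ) ∣ x 0 0 - x 1 1 := by
      rw [← ZMod.intCast_eq_intCast_iff_dvd_sub, cast_11_of_mem_GpC hx', cast_00_of_mem_GpC hx']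
    obtain ⟨e', he'⟩ := hd
    obtain ⟨m, hm⟩ := hq
    refine dvd_sub (dvd_add ?_ (Dvd.dvd.mul_left hx1 _)) ?_
    · refine ⟨γ * g 1 1 * e', ?_⟩
      rw [hγ, he']
      push_cast
      ring
    · refine ⟨m * γ ^ 2 * x 0 1, ?_⟩
      rw [hγ]
      push_cast
      rw [hm]
      push_cast
      ring
  · rw [hux]
    exact (d0_conj hg ((Int.natCast_dvd_natCast.mpr (dvd_mul_right N₀ q)).trans hx1)).symm

/-! ### The torus word -/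

theorem val_mapGL (g : SL(2, ℤ)) :
    ((mapGL ℝ g : GL (Fin 2) ℝ) : Matrix (Fin 2) (Fin 2) ℝ)
      = !![((g 0 0 : ℤ) : ℝ), ((g 0 1 : ℤ) : ℝ); ((g 1 0 : ℤ) : ℝ), ((g 1 1 : ℤ) : ℝ)] := by
  ext i j
  fin_cases i <;> fin_cases j <;> simp


/-- `[[1, 0], [c, 1]]`. -/
def lowerL (c : ℤ) : SL(2, ℤ) := ⟨!![1, 0; c, 1], by rw [Matrix.det_fin_two_of]; ring⟩

@[simp] theorem lowerL_10 (c : ℤ) : lowerL c 1 0 = c := rfl
@[simp] theorem lowerL_11 (c : ℤ) : lowerL c 1 1 = 1 := rfl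
@[simp] theorem lowerL_00 (c : ℤ) : lowerL c 0 0 = 1 := rfl
@[simp] theorem lowerL_01 (c : ℤ) : lowerL c 0 1 = 0 := rfl

/-- **The torus word.** -/
theorem exists_torus_word {M : ℕ} [hqp : Fact q.Prime] (hM : ¬ q ∣ M) (a : (ZMod q)ˣ) :
    ∃ (x y y' : ℤ) (t₀ : SL(2, ℤ)), ((M * q : ℕ) : ℤ) ∣ t₀ 1 0 ∧
      ((t₀ 1 1 : ℤ) : ZMod q) = a ∧ ((t₀ 1 1 : ℤ) : ZMod M) = 1 ∧
      mapGL ℝ t₀ = trans ((x : ℝ) / q) * mapGL ℝ (lowerL (((M * q : ℕ) : ℤ) * y))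
        * trans ((x : ℝ) / q) * trans ((-1 : ℝ) / q)
        * mapGL ℝ (lowerL (((M * q : ℕ) : ℤ) * y')) * trans ((-1 : ℝ) / q) := by
  have hq0 : (q : ℝ) ≠ 0 := by exact_mod_cast hqp.out.ne_zero
  -- the unit `M mod q`
  have hMu : IsUnit ((M : ℕ) : ZMod q) := by
    rw [ZMod.isUnit_iff_coprime]
    exact ((Nat.Prime.coprime_iff_not_dvd hqp.out).mpr hM).symm
  obtain ⟨μ, hμ⟩ := hMu
  -- the integers
  set x : ℤ := (((a⁻¹ : (ZMod q)ˣ) : ZMod q).val : ℤ) with hx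
  set y : ℤ := (((-(a * μ⁻¹) : (ZMod q)ˣ) : ZMod q).val : ℤ) with hy
  set y' : ℤ := (((μ⁻¹ : (ZMod q)ˣ) : ZMod q).val : ℤ) with hy'
  have cx : ((x : ℤ) : ZMod q) = ((a⁻¹ : (ZMod q)ˣ) : ZMod q) := by
    rw [hx, Int.cast_natCast, ZMod.natCast_zmod_val]
  have cy : ((y : ℤ) : ZMod q) = ((-(a * μ⁻¹) : (ZMod q)ˣ) : ZMod q) := by
    rw [hy, Int.cast_natCast, ZMod.natCast_zmod_val]
  have cy' : ((y' : ℤ) : ZMod q) = ((μ⁻¹ : (ZMod q)ˣ) : ZMod q) := by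
    rw [hy', Int.cast_natCast, ZMod.natCast_zmod_val]
  have h1 : (q : ℤ) ∣ 1 + x * M * y := by
    rw [← ZMod.intCast_zmod_eq_zero_iff_dvd]
    push_cast
    rw [cx, cy, ← hμ, Units.val_neg, Units.val_mul]
    have e1 : ((a⁻¹ : (ZMod q)ˣ) : ZMod q) * (a : ZMod q) = 1 := by
      rw [← Units.val_mul, inv_mul_cancel, Units.val_one]
    have e2 : ((μ : (ZMod q)ˣ) : ZMod q) * ((μ⁻¹ : (ZMod q)ˣ) : ZMod q) = 1 := by
      rw [← Units.val_mul, mul_inv_cancel, Units.val_one]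
    linear_combination (-1 : ZMod q) * e1 - ((a⁻¹ : (ZMod q)ˣ) : ZMod q) * (a : ZMod q) * e2
  have h2 : (q : ℤ) ∣ 1 - M * y' := by
    rw [← ZMod.intCast_zmod_eq_zero_iff_dvd]
    push_cast
    rw [cy', ← hμ]
    have e2 : ((μ : (ZMod q)ˣ) : ZMod q) * ((μ⁻¹ : (ZMod q)ˣ) : ZMod q) = 1 := by
      rw [← Units.val_mul, mul_inv_cancel, Units.val_one]
    linear_combination (-1 : ZMod q) * e2
  obtain ⟨σ, hσ⟩ := h1
  obtain ⟨σ', hσ'⟩ := h2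
  have hP : ((q : ℤ) * σ) ^ 2 - x * (1 + q * σ) * M * y = 1 := by
    linear_combination (-(1 + (q : ℤ) * σ)) * hσ
  have hQ : ((q : ℤ) * σ') ^ 2 + (1 + q * σ') * M * y' = 1 := by
    linear_combination (-(1 + (q : ℤ) * σ')) * hσ'
  obtain ⟨t₀, e00, e01, e10, e11⟩ := exists_SL
    (((q : ℤ) * σ) * (q * σ') + x * (1 + q * σ) * M * y')
    (-σ * (1 + q * σ') + x * (1 + q * σ) * σ')
    ((M : ℤ) * q * (y * (q * σ') + (q * σ) * y'))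
    (((q : ℤ) * σ) * (q * σ') - M * y * (1 + q * σ'))
    (by
      have : (((q : ℤ) * σ) * (q * σ') + x * (1 + q * σ) * M * y')
            * (((q : ℤ) * σ) * (q * σ') - M * y * (1 + q * σ'))
          - (-σ * (1 + q * σ') + x * (1 + q * σ) * σ')
            * ((M : ℤ) * q * (y * (q * σ') + (q * σ) * y'))
          = (((q : ℤ) * σ) ^ 2 - x * (1 + q * σ) * M * y)
            * (((q : ℤ) * σ') ^ 2 + (1 + q * σ') * M * y') := by ring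
      rw [this, hP, hQ, one_mul])
  refine ⟨x, y, y', t₀, ?_, ?_, ?_, ?_⟩
  · rw [e10]
    refine ⟨y * (q * σ') + (q * σ) * y', ?_⟩
    push_cast
    ring
  · rw [e11]
    push_cast
    rw [ZMod.natCast_self, cy, ← hμ, Units.val_neg, Units.val_mul]
    have e2 : ((μ : (ZMod q)ˣ) : ZMod q) * ((μ⁻¹ : (ZMod q)ˣ) : ZMod q) = 1 := by
      rw [← Units.val_mul, mul_inv_cancel, Units.val_one]
    linear_combination (a : ZMod q) * e2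
  · rw [e11]
    have c1 : (((q : ℤ) * σ : ℤ) : ZMod M) = 1 := by
      rw [← hσ]
      push_cast
      rw [ZMod.natCast_self]
      ring
    have c2 : (((q : ℤ) * σ' : ℤ) : ZMod M) = 1 := by
      rw [← hσ']
      push_cast
      rw [ZMod.natCast_self]
      ring
    rw [Int.cast_sub, Int.cast_mul, c1, c2]
    push_cast
    rw [ZMod.natCast_self]
    ring
  · have hσR : (σ : ℝ) = (1 + x * M * y) / q := by
      have := congrArg (Int.cast : ℤ → ℝ) hσ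
      push_cast at this
      rw [this]
      field_simp
    have hσR' : (σ' : ℝ) = (1 - M * y') / q := by
      have := congrArg (Int.cast : ℤ → ℝ) hσ'
      push_cast at this
      rw [this]
      field_simp
    apply Matrix.GeneralLinearGroup.ext
    intro i j
    simp only [Matrix.GeneralLinearGroup.coe_mul, val_trans, val_mapGL, lowerL_00, lowerL_01,
      lowerL_10, lowerL_11, e00, e01, e10, e11, Matrix.mul_fin_two]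
    push_cast
    rw [hσR, hσR']
    fin_cases i <;> fin_cases j <;> simp <;> field_simp <;> ring

end Fermat.Agent.M43.TwistLatC6
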