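/-
Programme M43 (target S43), chapter TWIST-LAT — helper6.
**The twist on the lattice `Hom(Γ, K)` at a prime `q ∣ N₀`: construction, (R1) and (R3).**

Groups (`S₁ ≤ S₂ ≤ (ℤ/N₀)ˣ`, lead's `GH`): `Src = GH N₀ S₁`, `All = GH N₀ S₂`,
`Tgt = GH (N₀ q) (S₂.comap _)`, `Gp = {g ∈ Tgt : g₁₁ ≡ 1 mod q}`; `τ = [[1, 1/q], [0, 1]]`.

* `cOp u` : the action of `ℤ/q` on `Hom(Gp, K)` by conjugation with `τ^u`; `cOp_zero`, `cOp_add`.
* `Rp ω f = ∑_u ω⁻¹(u) • cOp u f`.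
* `IsEig ψ Γ₀ Γ f` : `f(g x g⁻¹) = ψ(g₁₁ mod q) f(x)` for `g ∈ Γ₀`.
* **(R1)** `pull_Rp` : for `f` `ψ`-eigen under `Tgt` and `ω² ψ = 1`, `Rp ω f` is invariant under
  conjugation by `Tgt`.
* `Rext` : extension to `Hom(Tgt, K)` by transfer; `Rext_apply_coe`; parabolicity.
* **(R3)** `eq_zero_of_Rp_eq_zero` : `Rp ω f = 0`, `f` `ψ`-eigen under `All`, `ψ(a) ≠ 1`  ⟹  `f = 0`.
-/
import Mathlib
import Fermat.Agent.M43.TwistLatC6
import Fermat.Agent.M43.TwistLatG6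

set_option autoImplicit false
set_option linter.unusedSectionVars false

noncomputable section

namespace Fermat.Agent.M43.TwistLatT6

open Matrix.SpecialLinearGroup ModularCurve.Period CongruenceSubgroup
open scoped MatrixGroups
open Fermat.Agent.M43.TwistMat6 Fermat.Agent.M43.TwistLatA6 Fermat.Agent.M43.TwistLatB6
  Fermat.Agent.M43.TwistLatC6 Fermat.Agent.M43.TwistLatG6 Fermat.Agent.M43.HeckeH0
open Fermat.Agent.ES.HEQ

/-! ### Generalities on `pull` -/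

section pullgen

variable {A : GL (Fin 2) ℝ} {Γ₁ Γ₂ Γ₁' Γ₂' : Subgroup SL(2, ℤ)} {K : Type*} [Field K]

/-- `pull` as a linear map. -/
def pullLin (h : MapsInto A Γ₁ Γ₂) : (Additive Γ₂ →+ K) →ₗ[K] (Additive Γ₁ →+ K) where
  toFun := pull h
  map_add' := pull_add h
  map_smul' := pull_smul h

@[simp] theorem pullLin_apply (h : MapsInto A Γ₁ Γ₂) (φ : Additive Γ₂ →+ K) :
    pullLin h φ = pull h φ := rfl

theorem pull_one {Γ : Subgroup SL(2, ℤ)} (h : MapsInto (1 : GL (Fin 2) ℝ) Γ Γ)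
    (φ : Additive Γ →+ K) : pull h φ = φ := by
  refine AddMonoidHom.ext fun x' => ?_
  obtain ⟨x, rfl⟩ := Additive.ofMul.surjective x'
  rw [pull_apply]
  have : cjHom h x = x := Subtype.ext (cjHom_unique h x (by rw [one_mul, mul_one]))
  rw [this]

/-- `pull` commutes with restriction. -/
theorem pull_resHom (h : MapsInto A Γ₁ Γ₂) (h' : MapsInto A Γ₁' Γ₂') (hle₁ : Γ₁' ≤ Γ₁)
    (hle₂ : Γ₂' ≤ Γ₂) (φ : Additive Γ₂ →+ K) :
    pull h' (resHom hle₂ φ) = resHom hle₁ (pull h φ) := by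
  refine AddMonoidHom.ext fun x' => ?_
  obtain ⟨x, rfl⟩ := Additive.ofMul.surjective x'
  rw [pull_apply, resHom_apply, resHom_apply, pull_apply]
  congr 2
  apply Subtype.ext
  exact (cjHom_unique h (Subgroup.inclusion hle₁ x) (cjHom_spec h' x)).symm

/-- conjugation preserves the trace. -/
theorem trace_cjHom (h : MapsInto A Γ₁ Γ₂) (x : Γ₁) :
    (((cjHom h x : Γ₂) : SL(2, ℤ)) : Matrix (Fin 2) (Fin 2) ℤ).trace
      = ((x : SL(2, ℤ)) : Matrix (Fin 2) (Fin 2) ℤ).trace := by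
  have h1 := cjHom_spec h x
  have h2 : (mapGL ℝ ((cjHom h x : Γ₂) : SL(2, ℤ)) : GL (Fin 2) ℝ)
      = A * mapGL ℝ (x : SL(2, ℤ)) * A⁻¹ := by
    rw [h1, mul_inv_cancel_right]
  have h3 := congrArg (fun M : GL (Fin 2) ℝ => (M : Matrix (Fin 2) (Fin 2) ℝ).trace) h2
  simp only [Matrix.GeneralLinearGroup.coe_mul] at h3
  rw [Matrix.trace_mul_comm, ← Matrix.mul_assoc] at h3
  have h4 : ((A⁻¹ : GL (Fin 2) ℝ) : Matrix (Fin 2) (Fin 2) ℝ) * (A : Matrix (Fin 2) (Fin 2) ℝ) = 1 := by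
    rw [← Matrix.GeneralLinearGroup.coe_mul, inv_mul_cancel]
    rfl
  rw [h4, Matrix.one_mul] at h3
  have e : ∀ g : SL(2, ℤ), ((mapGL ℝ g : GL (Fin 2) ℝ) : Matrix (Fin 2) (Fin 2) ℝ).trace
      = (((g : Matrix (Fin 2) (Fin 2) ℤ).trace : ℤ) : ℝ) := by
    intro g
    rw [val_mapGL, Matrix.trace_fin_two_of, Matrix.trace_fin_two]
    push_cast
    rfl
  rw [e, e] at h3
  exact_mod_cast h3

theorem isParabolicHom_pull (h : MapsInto A Γ₁ Γ₂) {φ : Additive Γ₂ →+ K}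
    (hφ : IsParabolicHom Γ₂ φ) : IsParabolicHom Γ₁ (pull h φ) := by
  intro x hx
  rw [pull_apply]
  apply hφ
  rw [trace_cjHom]
  exact hx

theorem isParabolicHom_resHom (hle : Γ₁ ≤ Γ₂) {φ : Additive Γ₂ →+ K}
    (hφ : IsParabolicHom Γ₂ φ) : IsParabolicHom Γ₁ (resHom hle φ) := by
  intro x hx
  rw [resHom_apply]
  exact hφ _ hx

end pullgen

/-! ### The groups -/

section groups

variable {q N₀ : ℕ}

/-- the subgroup of `(ℤ/N₀q)ˣ` defining the target group. -/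
abbrev HT (q : ℕ) (S₂ : Subgroup (ZMod N₀)ˣ) : Subgroup (ZMod (N₀ * q))ˣ :=
  S₂.comap (ZMod.unitsMap (dvd_mul_right N₀ q))

/-- the subgroup of `(ℤ/N₀q)ˣ` defining the group `Gp`. -/
abbrev HP (hq : q ∣ N₀) (S₂ : Subgroup (ZMod N₀)ˣ) : Subgroup (ZMod (N₀ * q))ˣ :=
  (Sone hq S₂).comap (ZMod.unitsMap (dvd_mul_right N₀ q))

/-- the target group `{g ∈ Γ₀(N₀ q) : (g₁₁ mod N₀) ∈ S₂}`. -/
abbrev Tgt (q : ℕ) (S₂ : Subgroup (ZMod N₀)ˣ) : Subgroup SL(2, ℤ) := GH (N₀ * q) (HT q S₂)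

/-- the group `{g ∈ Tgt : g₁₁ ≡ 1 mod q}`. -/
abbrev Gp (hq : q ∣ N₀) (S₂ : Subgroup (ZMod N₀)ˣ) : Subgroup SL(2, ℤ) := GH (N₀ * q) (HP hq S₂)

theorem Gp_eq (hq : q ∣ N₀) (S₂ : Subgroup (ZMod N₀)ˣ) : Gp hq S₂ = GpC hq S₂ :=
  GH_comap_eq_GHc _ _

theorem Tgt_eq (q : ℕ) (S₂ : Subgroup (ZMod N₀)ˣ) :
    Tgt q S₂ = GHc (N₀ * q) N₀ S₂ (dvd_mul_right N₀ q) :=
  GH_comap_eq_GHc _ _

theorem Gp_le_Tgt (hq : q ∣ N₀) (S₂ : Subgroup (ZMod N₀)ˣ) : Gp hq S₂ ≤ Tgt q S₂ := by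
  rw [Gp_eq, Tgt_eq]
  exact GHc_mono dvd_rfl (Sone_le hq S₂)

theorem Tgt_le_All (q : ℕ) (S₂ : Subgroup (ZMod N₀)ˣ) : Tgt q S₂ ≤ GH N₀ S₂ := by
  rw [Tgt_eq, GH_eq_GHc]
  exact GHc_mono (dvd_mul_right N₀ q) le_rfl

theorem Gp_le_Src (hq : q ∣ N₀) {S₁ S₂ : Subgroup (ZMod N₀)ˣ} (hS : Sone hq S₂ ≤ S₁) :
    Gp hq S₂ ≤ GH N₀ S₁ := by
  rw [Gp_eq, GH_eq_GHc]
  exact GHc_mono (dvd_mul_right N₀ q) hS

theorem dvd_10_of_mem_All {S₂ : Subgroup (ZMod N₀)ˣ} {g : SL(2, ℤ)} (hg : g ∈ GH N₀ S₂) :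
    (N₀ : ℤ) ∣ g 1 0 := by
  rw [GH_eq_GHc] at hg
  exact hg.1

theorem dvd_10_of_mem_Tgt {S₂ : Subgroup (ZMod N₀)ˣ} {g : SL(2, ℤ)} (hg : g ∈ Tgt q S₂) :
    ((N₀ * q : ℕ) : ℤ) ∣ g 1 0 := by
  rw [Tgt_eq] at hg
  exact hg.1

instance finiteIndex_GH {N : ℕ} [NeZero N] (H : Subgroup (ZMod N)ˣ) : (GH N H).FiniteIndex :=
  Subgroup.finiteIndex_of_le (Gamma1_le_GH H)

/-- `τ^n` normalises `Gp`. -/
theorem mapsInto_tau (hq0 : q ≠ 0) (hq : q ∣ N₀) (S₂ : Subgroup (ZMod N₀)ˣ) (n : ℤ) :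
    MapsInto (trans ((n : ℝ) / q)) (Gp hq S₂) (Gp hq S₂) := by
  rw [Gp_eq]
  exact mapsInto_tau_GpC hq0 hq S₂ n

/-- every element of `Γ₀(N₀)` normalises `Gp`. -/
theorem mapsInto_mapGL_Gp (hq : q ∣ N₀) (S₂ : Subgroup (ZMod N₀)ˣ) {g : SL(2, ℤ)}
    (hg : (N₀ : ℤ) ∣ g 1 0) : MapsInto (mapGL ℝ g) (Gp hq S₂) (Gp hq S₂) := by
  rw [Gp_eq]
  exact mapsInto_mapGL_GpC hq S₂ hg

/-- `[[1, m], [0, 1]]`. -/
def upperT (m : ℤ) : SL(2, ℤ) := ⟨!![1, m; 0, 1], by rw [Matrix.det_fin_two_of]; ring⟩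

theorem mapGL_upperT (m : ℤ) : mapGL ℝ (upperT m) = trans (m : ℝ) := by
  apply Matrix.GeneralLinearGroup.ext
  intro i j
  rw [val_mapGL, val_trans]
  fin_cases i <;> fin_cases j <;> simp [upperT]

theorem upperT_mem_Gp (hq : q ∣ N₀) (S₂ : Subgroup (ZMod N₀)ˣ) (m : ℤ) :
    upperT m ∈ Gp hq S₂ := by
  rw [Gp_eq]
  refine ⟨?_, 1, Subgroup.one_mem _, ?_⟩
  · show ((N₀ * q : ℕ) : ℤ) ∣ 0
    exact dvd_zero _
  · show ((1 : (ZMod N₀)ˣ) : ZMod N₀) = (((1 : ℤ) : ℤ) : ZMod N₀)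
    simp

end groups

/-! ### The action of `ℤ/q` on `Hom(Gp, K)` and the twisting sum -/

section ops

variable {q N₀ : ℕ} [hqp : Fact q.Prime] (hq : q ∣ N₀) (S₂ : Subgroup (ZMod N₀)ˣ)
  {K : Type*} [Field K]

/-- the action of `u ∈ ℤ/q` on `Hom(Gp, K)` : `f ↦ (x ↦ f (τ^u x τ^{-u}))`. -/
def cOp (u : ZMod q) : Module.End K (Additive (Gp hq S₂) →+ K) :=
  pullLin (mapsInto_tau hqp.out.ne_zero hq S₂ (u.val : ℤ))

theorem cOp_apply (u : ZMod q) (f : Additive (Gp hq S₂) →+ K) :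
    cOp hq S₂ u f = pull (mapsInto_tau hqp.out.ne_zero hq S₂ (u.val : ℤ)) f := rfl

/-- conjugation by `τ^n` only depends on `n mod q`. -/
theorem pull_tau (n : ℤ) (f : Additive (Gp hq S₂) →+ K) :
    pull (mapsInto_tau hqp.out.ne_zero hq S₂ n) f = cOp hq S₂ (n : ZMod q) f := by
  have hq0 : (q : ℝ) ≠ 0 := by exact_mod_cast hqp.out.ne_zero
  have hn : (((n : ZMod q).val : ℤ)) = n % q := by
    rw [ZMod.val_intCast]
  set m : ℤ := n / q with hm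
  have hdecomp : n = ((n : ZMod q).val : ℤ) + q * m := by
    rw [hn, hm]
    exact (Int.emod_add_mul_ediv n q).symm
  have hmat : trans ((n : ℝ) / q)
      = trans ((((n : ZMod q).val : ℤ) : ℝ) / q) * mapGL ℝ (upperT m) := by
    rw [mapGL_upperT, ← trans_add]
    congr 1
    have : (n : ℝ) = (((n : ZMod q).val : ℤ) : ℝ) + q * m := by exact_mod_cast hdecomp
    rw [this]
    field_simp
  have hT := mapsInto_mapGL (upperT_mem_Gp hq S₂ m)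
  rw [cOp_apply, pull_congr _ ((mapsInto_tau hqp.out.ne_zero hq S₂ _).mul hT) hmat,
    pull_mul (mapsInto_tau hqp.out.ne_zero hq S₂ _) hT, pull_mapGL_self (upperT_mem_Gp hq S₂ m)]

theorem cOp_zero : cOp (K := K) hq S₂ 0 = 1 := by
  refine LinearMap.ext fun f => ?_
  rw [cOp_apply, Module.End.one_apply]
  have h0 : trans ((((0 : ZMod q).val : ℤ) : ℝ) / q) = 1 := by
    rw [ZMod.val_zero]
    simp [trans_zero]
  have h1 : MapsInto (1 : GL (Fin 2) ℝ) (Gp hq S₂) (Gp hq S₂) := fun x hx => ⟨x, hx, by simp⟩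
  rw [pull_congr _ h1 h0, pull_one]

theorem cOp_add (u v : ZMod q) : cOp (K := K) hq S₂ (u + v) = cOp hq S₂ u * cOp hq S₂ v := by
  refine LinearMap.ext fun f => ?_
  rw [Module.End.mul_apply, cOp_apply hq S₂ u, cOp_apply hq S₂ v, ← pull_mul]
  have hmat : trans (((v.val : ℤ) : ℝ) / q) * trans (((u.val : ℤ) : ℝ) / q)
      = trans ((((v.val : ℤ) + (u.val : ℤ) : ℤ) : ℝ) / q) := by
    rw [← trans_add]
    congr 1
    push_cast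
    ring
  rw [pull_congr _ (mapsInto_tau hqp.out.ne_zero hq S₂ _) hmat, pull_tau]
  congr 2
  push_cast
  rw [ZMod.natCast_zmod_val, ZMod.natCast_zmod_val, add_comm]

/-- **the twisting sum** `∑_u ω⁻¹(u) • (x ↦ f (τ^u x τ^{-u}))`. -/
def Rp (ω : MulChar (ZMod q) K) (f : Additive (Gp hq S₂) →+ K) : Additive (Gp hq S₂) →+ K :=
  ∑ u : ZMod q, ω⁻¹ u • cOp hq S₂ u f

theorem Rp_add (ω : MulChar (ZMod q) K) (f f' : Additive (Gp hq S₂) →+ K) :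
    Rp hq S₂ ω (f + f') = Rp hq S₂ ω f + Rp hq S₂ ω f' := by
  unfold Rp
  rw [← Finset.sum_add_distrib]
  refine Finset.sum_congr rfl fun u _ => ?_
  rw [map_add, smul_add]

theorem Rp_smul (ω : MulChar (ZMod q) K) (c : K) (f : Additive (Gp hq S₂) →+ K) :
    Rp hq S₂ ω (c • f) = c • Rp hq S₂ ω f := by
  unfold Rp
  rw [Finset.smul_sum]
  refine Finset.sum_congr rfl fun u _ => ?_
  rw [map_smul, smul_comm]

/-- `f (g x g⁻¹) = ψ(g₁₁ mod q) f(x)` for `g ∈ Γ₀`. -/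
def IsEig (ψ : MulChar (ZMod q) K) (Γ₀ : Subgroup SL(2, ℤ)) {Γ : Subgroup SL(2, ℤ)}
    (f : Additive Γ →+ K) : Prop :=
  ∀ g ∈ Γ₀, ∀ h : MapsInto (mapGL ℝ g) Γ Γ, pull h f = ψ ((g 1 1 : ℤ) : ZMod q) • f

theorem IsEig.mono {ψ : MulChar (ZMod q) K} {Γ₀ Γ₀' Γ : Subgroup SL(2, ℤ)} {f : Additive Γ →+ K}
    (hf : IsEig ψ Γ₀ f) (h : Γ₀' ≤ Γ₀) : IsEig ψ Γ₀' f := fun g hg => hf g (h hg)

/-- restriction of an eigen-homomorphism. -/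
theorem IsEig.resHom {ψ : MulChar (ZMod q) K} {Γ₀ Γ Γ' : Subgroup SL(2, ℤ)}
    {φ : Additive Γ →+ K} (hφ : IsEig ψ Γ₀ φ) (hle : Γ' ≤ Γ)
    (hn : ∀ g ∈ Γ₀, MapsInto (mapGL ℝ g) Γ Γ) : IsEig ψ Γ₀ (resHom hle φ) := by
  intro g hg h
  rw [pull_resHom (hn g hg) h hle hle, hφ g hg]
  rfl

/-! ### (R1) -/

theorem cast_11_congr (hq' : q ∣ N₀) {g g' : SL(2, ℤ)} (h11 : (N₀ : ℤ) ∣ g' 1 1 - g 1 1) :
    ((g' 1 1 : ℤ) : ZMod q) = ((g 1 1 : ℤ) : ZMod q) := by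
  rw [ZMod.intCast_eq_intCast_iff_dvd_sub]
  have := (Int.natCast_dvd_natCast.mpr hq').trans h11
  rw [← dvd_neg]
  simpa using this

theorem isUnit_cast_11 (hq' : q ∣ N₀) {g : SL(2, ℤ)} (hg : (N₀ : ℤ) ∣ g 1 0) :
    IsUnit (((g 1 1 : ℤ) : ZMod q)) := by
  have h1 := cast_00_mul_11 (q := q) ((Int.natCast_dvd_natCast.mpr hq').trans hg)
  exact IsUnit.of_mul_eq_one_right _ h1

variable {hq S₂}

/-- `f (g x g⁻¹) = Ψ(g₁₁) f(x)` for `g ∈ Γ₀`, for a general function `Ψ` of the lower right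
entry. -/
def IsEigZ (Ψ : ℤ → K) (Γ₀ : Subgroup SL(2, ℤ)) {Γ : Subgroup SL(2, ℤ)}
    (f : Additive Γ →+ K) : Prop :=
  ∀ g ∈ Γ₀, ∀ h : MapsInto (mapGL ℝ g) Γ Γ, pull h f = Ψ (g 1 1) • f

theorem isEig_iff_isEigZ {ψ : MulChar (ZMod q) K} {Γ₀ Γ : Subgroup SL(2, ℤ)}
    {f : Additive Γ →+ K} :
    IsEig ψ Γ₀ f ↔ IsEigZ (fun d : ℤ => ψ ((d : ℤ) : ZMod q)) Γ₀ f := Iff.rfl

theorem IsEigZ.mono {Ψ : ℤ → K} {Γ₀ Γ₀' Γ : Subgroup SL(2, ℤ)} {f : Additive Γ →+ K}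
    (hf : IsEigZ Ψ Γ₀ f) (h : Γ₀' ≤ Γ₀) : IsEigZ Ψ Γ₀' f := fun g hg => hf g (h hg)

/-- restriction of an eigen-homomorphism. -/
theorem IsEigZ.resHom {Ψ : ℤ → K} {Γ₀ Γ Γ' : Subgroup SL(2, ℤ)}
    {φ : Additive Γ →+ K} (hφ : IsEigZ Ψ Γ₀ φ) (hle : Γ' ≤ Γ)
    (hn : ∀ g ∈ Γ₀, MapsInto (mapGL ℝ g) Γ Γ) : IsEigZ Ψ Γ₀ (resHom hle φ) := by
  intro g hg h
  rw [pull_resHom (hn g hg) h hle hle, hφ g hg]
  rfl

/-- conjugation by `g ∈ Γ₀(N₀ q)` moves `cOp u` to `cOp (d² u)` (general eigen-function `Ψ` of period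
`N₀`, general subgroup `S'`). -/
theorem pull_cOp_gen {Ψ : ℤ → K} (hΨ : ∀ d d' : ℤ, (N₀ : ℤ) ∣ d' - d → Ψ d' = Ψ d)
    {S' : Subgroup (ZMod N₀)ˣ} {f : Additive (Gp hq S₂) →+ K}
    (hf : IsEigZ Ψ (Tgt q S') f) {g : SL(2, ℤ)} (hg : g ∈ Tgt q S')
    (h : MapsInto (mapGL ℝ g) (Gp hq S₂) (Gp hq S₂)) (u : ZMod q) :
    pull h (cOp hq S₂ u f)
      = Ψ (g 1 1) • cOp hq S₂ (((g 1 1 : ℤ) : ZMod q) ^ 2 * u) f := by
  have hq0 := hqp.out.ne_zero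
  rw [cOp_apply, ← pull_mul (mapsInto_tau hq0 hq S₂ (u.val : ℤ)) h]
  obtain ⟨g', h10, h11, hmat⟩ := tau_mul_sq hq0 hq g (dvd_10_of_mem_Tgt hg) (u.val : ℤ)
  have hg' : g' ∈ Tgt q S' := by
    rw [Tgt_eq] at hg ⊢
    exact mem_GHc_of_congr hg h10 h11
  have hN : (N₀ : ℤ) ∣ g' 1 0 :=
    (Int.natCast_dvd_natCast.mpr (dvd_mul_right N₀ q)).trans (dvd_10_of_mem_Tgt hg')
  have hmg' := mapsInto_mapGL_Gp hq S₂ hN
  rw [pull_congr _ (hmg'.mul (mapsInto_tau hq0 hq S₂ (g 1 1 ^ 2 * (u.val : ℤ)))) hmat,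
    pull_mul hmg' (mapsInto_tau hq0 hq S₂ _), hf g' hg' hmg', pull_smul, pull_tau,
    hΨ _ _ h11]
  congr 2
  push_cast
  rw [ZMod.natCast_zmod_val]

/-- **(R1)/(R4), general form**: conjugation by `g ∈ Γ₀(N₀ q)` multiplies the twisting sum of a
`Ψ`-eigen homomorphism by `Ψ(d) ω(d)²`. -/
theorem pull_Rp_gen {Ψ : ℤ → K} (hΨ : ∀ d d' : ℤ, (N₀ : ℤ) ∣ d' - d → Ψ d' = Ψ d)
    {S' : Subgroup (ZMod N₀)ˣ} (ω : MulChar (ZMod q) K)
    {f : Additive (Gp hq S₂) →+ K} (hf : IsEigZ Ψ (Tgt q S') f) {g : SL(2, ℤ)}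
    (hg : g ∈ Tgt q S') (h : MapsInto (mapGL ℝ g) (Gp hq S₂) (Gp hq S₂)) :
    pull h (Rp hq S₂ ω f) = (Ψ (g 1 1) * ω ((g 1 1 : ℤ) : ZMod q) ^ 2) • Rp hq S₂ ω f := by
  have hN : (N₀ : ℤ) ∣ g 1 0 :=
    (Int.natCast_dvd_natCast.mpr (dvd_mul_right N₀ q)).trans (dvd_10_of_mem_Tgt hg)
  have hd := isUnit_cast_11 hq hN
  set d : ZMod q := ((g 1 1 : ℤ) : ZMod q) with hd'
  have hd0 : d ^ 2 ≠ 0 := pow_ne_zero 2 hd.ne_zero
  unfold Rp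
  have e1 : pull h (∑ u : ZMod q, ω⁻¹ u • cOp hq S₂ u f)
      = ∑ u : ZMod q, ω⁻¹ u • pull h (cOp hq S₂ u f) := by
    show pullLin h _ = _
    rw [map_sum]
    refine Finset.sum_congr rfl fun u _ => ?_
    rw [map_smul, pullLin_apply]
  rw [e1, ← Equiv.sum_comp (Equiv.mulLeft₀ (d ^ 2) hd0) (fun v => ω⁻¹ v • cOp hq S₂ v f),
    Finset.smul_sum]
  refine Finset.sum_congr rfl fun u _ => ?_
  rw [pull_cOp_gen hΨ hf hg h u, Equiv.mulLeft₀_apply, smul_smul, smul_smul, map_mul, map_pow,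
    ← hd']
  congr 1
  have h2 : ω d ≠ 0 := (hd.map ω).ne_zero
  rw [MulChar.inv_apply_eq_inv' ω d]
  field_simp

/-- conjugation by `g ∈ Tgt` moves `cOp u` to `cOp (d² u)`. -/
theorem pull_cOp {ψ : MulChar (ZMod q) K} {f : Additive (Gp hq S₂) →+ K}
    (hf : IsEig ψ (Tgt q S₂) f) {g : SL(2, ℤ)} (hg : g ∈ Tgt q S₂)
    (h : MapsInto (mapGL ℝ g) (Gp hq S₂) (Gp hq S₂)) (u : ZMod q) :
    pull h (cOp hq S₂ u f)
      = ψ ((g 1 1 : ℤ) : ZMod q) • cOp hq S₂ (((g 1 1 : ℤ) : ZMod q) ^ 2 * u) f :=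
  pull_cOp_gen (Ψ := fun d : ℤ => ψ ((d : ℤ) : ZMod q))
    (fun d d' hdd => by
      show ψ ((d' : ℤ) : ZMod q) = ψ ((d : ℤ) : ZMod q)
      congr 1
      rw [ZMod.intCast_eq_intCast_iff_dvd_sub]
      have := (Int.natCast_dvd_natCast.mpr hq).trans hdd
      rw [← dvd_neg]
      simpa using this) hf hg h u

/-- **(R1)** the twisting sum of a `ψ`-eigen homomorphism is invariant under conjugation by the
target group, when `ω² ψ = 1`. -/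
theorem pull_Rp {ψ ω : MulChar (ZMod q) K} (hωψ : ω ^ 2 * ψ = 1)
    {f : Additive (Gp hq S₂) →+ K} (hf : IsEig ψ (Tgt q S₂) f) {g : SL(2, ℤ)}
    (hg : g ∈ Tgt q S₂) (h : MapsInto (mapGL ℝ g) (Gp hq S₂) (Gp hq S₂)) :
    pull h (Rp hq S₂ ω f) = Rp hq S₂ ω f := by
  have hN : (N₀ : ℤ) ∣ g 1 0 :=
    (Int.natCast_dvd_natCast.mpr (dvd_mul_right N₀ q)).trans (dvd_10_of_mem_Tgt hg)
  have hd := isUnit_cast_11 hq hN
  have h0 := pull_Rp_gen (Ψ := fun d : ℤ => ψ ((d : ℤ) : ZMod q))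
    (fun d d' hdd => by
      show ψ ((d' : ℤ) : ZMod q) = ψ ((d : ℤ) : ZMod q)
      congr 1
      rw [ZMod.intCast_eq_intCast_iff_dvd_sub]
      have := (Int.natCast_dvd_natCast.mpr hq).trans hdd
      rw [← dvd_neg]
      simpa using this) ω hf hg h
  rw [h0]
  have h1 : ω ((g 1 1 : ℤ) : ZMod q) ^ 2 * ψ ((g 1 1 : ℤ) : ZMod q) = 1 := by
    have := congrArg (fun χ : MulChar (ZMod q) K => χ ((g 1 1 : ℤ) : ZMod q)) hωψ
    simp only [MulChar.mul_apply, MulChar.one_apply hd] at this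
    rwa [MulChar.pow_apply' _ (by norm_num : (2 : ℕ) ≠ 0)] at this
  rw [mul_comm, h1, one_smul]

end ops

/-! ### The extension to the target group -/

section ext

variable {q N₀ : ℕ} [hqp : Fact q.Prime] [hN₀ : NeZero N₀] (hq : q ∣ N₀)
  (S₂ : Subgroup (ZMod N₀)ˣ) {K : Type*} [Field K] [CharZero K]

instance neZero_mul : NeZero (N₀ * q) := ⟨Nat.mul_ne_zero hN₀.out hqp.out.ne_zero⟩

instance normal_Gp : ((Gp hq S₂).subgroupOf (Tgt q S₂)).Normal := by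
  rw [Subgroup.normal_subgroupOf_iff (Gp_le_Tgt hq S₂)]
  intro x g hx hg
  rw [Gp_eq] at hx ⊢
  rw [Tgt_eq] at hg
  exact conj_mem_GHc hg hx

/-- a homomorphism on `Gp`, seen on `Gp.subgroupOf Tgt`. -/
def toSub (f : Additive (Gp hq S₂) →+ K) : Additive ((Gp hq S₂).subgroupOf (Tgt q S₂)) →+ K :=
  f.comp (MonoidHom.toAdditive (Subgroup.subgroupOfEquivOfLe (Gp_le_Tgt hq S₂)).toMonoidHom)

/-- **the extension** `(1/[Tgt : Gp]) · transfer` of a homomorphism on `Gp` to `Tgt`. -/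
def Rext (f : Additive (Gp hq S₂) →+ K) : Additive (Tgt q S₂) →+ K :=
  extHom ((Gp hq S₂).subgroupOf (Tgt q S₂)) (toSub hq S₂ f)

/-- invariance under conjugation by the target group. -/
def TgtInv (f : Additive (Gp hq S₂) →+ K) : Prop :=
  ∀ g ∈ Tgt q S₂, ∀ h : MapsInto (mapGL ℝ g) (Gp hq S₂) (Gp hq S₂), pull h f = f

variable {hq S₂}

theorem conjInv_toSub {f : Additive (Gp hq S₂) →+ K} (hf : TgtInv hq S₂ f) :
    ConjInv (toSub hq S₂ f) := by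
  intro g x
  have hg' : ((g⁻¹ : Tgt q S₂) : SL(2, ℤ)) ∈ Tgt q S₂ := (g⁻¹).2
  have hN : (N₀ : ℤ) ∣ ((g⁻¹ : Tgt q S₂) : SL(2, ℤ)) 1 0 :=
    (Int.natCast_dvd_natCast.mpr (dvd_mul_right N₀ q)).trans (dvd_10_of_mem_Tgt hg')
  have hm := mapsInto_mapGL_Gp hq S₂ hN
  have h1 := hf _ hg' hm
  set y : Gp hq S₂ := Subgroup.subgroupOfEquivOfLe (Gp_le_Tgt hq S₂) x with hy
  have h2 := congrArg (fun F : Additive (Gp hq S₂) →+ K => F (Additive.ofMul y)) h1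
  simp only [pull_apply] at h2
  show f (Additive.ofMul (Subgroup.subgroupOfEquivOfLe (Gp_le_Tgt hq S₂) _))
    = f (Additive.ofMul y)
  rw [← h2]
  congr 2
  apply Subtype.ext
  symm
  apply cjHom_unique
  rw [← map_mul, ← map_mul]
  congr 1
  show ((g⁻¹ : Tgt q S₂) : SL(2, ℤ)) * ((x : Tgt q S₂) : SL(2, ℤ))
    = ((g : Tgt q S₂) : SL(2, ℤ))⁻¹ * ((x : Tgt q S₂) : SL(2, ℤ)) * ((g : Tgt q S₂) : SL(2, ℤ))
      * ((g⁻¹ : Tgt q S₂) : SL(2, ℤ))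
  rw [Subgroup.coe_inv]
  group

/-- the extension restricts to the given homomorphism. -/
theorem Rext_apply_coe {f : Additive (Gp hq S₂) →+ K} (hf : TgtInv hq S₂ f) (x : Gp hq S₂) :
    Rext hq S₂ f (Additive.ofMul (Subgroup.inclusion (Gp_le_Tgt hq S₂) x))
      = f (Additive.ofMul x) := by
  have hmem : Subgroup.inclusion (Gp_le_Tgt hq S₂) x ∈ (Gp hq S₂).subgroupOf (Tgt q S₂) := by
    rw [Subgroup.mem_subgroupOf]
    exact x.2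
  have h1 := extHom_apply_coe (conjInv_toSub hf) ⟨_, hmem⟩
  unfold Rext
  rw [h1]
  show f (Additive.ofMul (Subgroup.subgroupOfEquivOfLe (Gp_le_Tgt hq S₂) _)) = _
  congr 2

theorem resHom_Rext {f : Additive (Gp hq S₂) →+ K} (hf : TgtInv hq S₂ f) :
    resHom (Gp_le_Tgt hq S₂) (Rext hq S₂ f) = f := by
  refine AddMonoidHom.ext fun x' => ?_
  obtain ⟨x, rfl⟩ := Additive.ofMul.surjective x'
  rw [resHom_apply, Rext_apply_coe hf]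

/-- a homomorphism on the target group is determined by its restriction to `Gp`. -/
theorem eq_of_resHom_eq {F F' : Additive (Tgt q S₂) →+ K}
    (h : resHom (Gp_le_Tgt hq S₂) F = resHom (Gp_le_Tgt hq S₂) F') : F = F' := by
  apply eq_of_eqOn_of_finiteIndex (H := (Gp hq S₂).subgroupOf (Tgt q S₂))
  intro x
  have h1 := congrArg (fun G : Additive (Gp hq S₂) →+ K =>
    G (Additive.ofMul (Subgroup.subgroupOfEquivOfLe (Gp_le_Tgt hq S₂) x))) h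
  simp only [resHom_apply] at h1
  exact h1

/-- the extension of a parabolic homomorphism is parabolic. -/
theorem isParabolicHom_Rext {f : Additive (Gp hq S₂) →+ K} (hf : TgtInv hq S₂ f)
    (hpar : IsParabolicHom (Gp hq S₂) f) : IsParabolicHom (Tgt q S₂) (Rext hq S₂ f) := by
  intro x hx
  obtain ⟨n, hn0, -, hn⟩ := Subgroup.exists_pow_mem_of_index_ne_zero
    (Subgroup.FiniteIndex.index_ne_zero (H := (Gp hq S₂).subgroupOf (Tgt q S₂))) x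
  rw [Subgroup.mem_subgroupOf] at hn
  have h1 := Rext_apply_coe hf ⟨_, hn⟩
  have h2 : Subgroup.inclusion (Gp_le_Tgt hq S₂) ⟨((x ^ n : Tgt q S₂) : SL(2, ℤ)), hn⟩ = x ^ n :=
    Subtype.ext rfl
  rw [h2, ofMul_pow, map_nsmul] at h1
  have h3 : f (Additive.ofMul (⟨((x ^ n : Tgt q S₂) : SL(2, ℤ)), hn⟩ : Gp hq S₂)) = 0 := by
    apply hpar
    show ((((x ^ n : Tgt q S₂) : SL(2, ℤ))) : Matrix (Fin 2) (Fin 2) ℤ).trace ^ 2 = 4
    rw [Subgroup.coe_pow]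
    exact DoubleCosetPar27.trace_pow_sq_eq_four _ hx n
  rw [h3] at h1
  rcases smul_eq_zero.mp h1 with h4 | h4
  · exact absurd h4 (Nat.pos_iff_ne_zero.mp hn0)
  · exact h4

end ext

/-! ### (R3) injectivity -/

section R3

variable {q N₀ : ℕ} [hqp : Fact q.Prime] {K : Type*} [Field K]

/-- an element of `Γ₀(N₀)` with lower right entry `≡ 1 mod M` lies in `GH N₀ S₂` as soon as `S₂`
contains the kernel of the reduction mod `M`. -/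
theorem mem_All_of_cast_eq_one {M : ℕ} (hMd : M ∣ N₀) {S₂ : Subgroup (ZMod N₀)ˣ}
    (hS₂ : (ZMod.unitsMap hMd).ker ≤ S₂) {t : SL(2, ℤ)} (h10 : (N₀ : ℤ) ∣ t 1 0)
    (h11 : ((t 1 1 : ℤ) : ZMod M) = 1) : t ∈ GH N₀ S₂ := by
  rw [GH_eq_GHc]
  have h1 := cast_00_mul_11 (q := N₀) h10
  rw [mul_comm] at h1
  refine ⟨h10, Units.mkOfMulEqOne _ _ h1, hS₂ ?_, rfl⟩
  rw [MonoidHom.mem_ker]
  apply Units.ext
  rw [ZMod.unitsMap_val, Units.val_mkOfMulEqOne, ZMod.cast_intCast hMd, h11, Units.val_one]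

/-- **(R3)** if the twisting sum of a `ψ`-eigen homomorphism `f` (for the conjugation action of
`GH N₀ S₂`) vanishes and `ψ` is nontrivial, then `f = 0`. -/
theorem eq_zero_of_Rp_eq_zero {M : ℕ} (hq : q ∣ N₀) (hN₀ : N₀ = M * q) (hM : ¬ q ∣ M)
    (hMd : M ∣ N₀) {S₂ : Subgroup (ZMod N₀)ˣ} (hS₂ : (ZMod.unitsMap hMd).ker ≤ S₂)
    (hqK : (q : K) ≠ 0) {e : AddChar (ZMod q) K} (he : e.IsPrimitive)
    {ψ ω : MulChar (ZMod q) K} (hω : ω ≠ 1) {a : (ZMod q)ˣ} (ha : ψ a ≠ 1)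
    {f : Additive (Gp hq S₂) →+ K} (hf : IsEig ψ (GH N₀ S₂) f) (h0 : Rp hq S₂ ω f = 0) :
    f = 0 := by
  have hq0 := hqp.out.ne_zero
  have hinv : ∀ v, cOp hq S₂ v f = f :=
    invariant_of_twisted_sum_eq_zero hqK he (cOp_zero hq S₂) (cOp_add hq S₂) hω h0
  have hτ : ∀ (n : ℤ) (h : MapsInto (trans ((n : ℝ) / q)) (Gp hq S₂) (Gp hq S₂)),
      pull h f = f := by
    intro n h
    have := pull_tau hq S₂ n f
    rw [hinv] at this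
    exact this
  obtain ⟨x, y, y', t₀, h10, h11q, h11M, hword⟩ := exists_torus_word hM a
  rw [← hN₀] at h10 hword
  have ht₀ : t₀ ∈ GH N₀ S₂ := mem_All_of_cast_eq_one hMd hS₂ h10 h11M
  have hm := mapsInto_mapGL_Gp hq S₂ h10
  have h1 := hf t₀ ht₀ hm
  rw [h11q] at h1
  -- the lower unipotent elements act trivially
  have hL : ∀ (z : ℤ) (h : MapsInto (mapGL ℝ (lowerL ((N₀ : ℤ) * z))) (Gp hq S₂) (Gp hq S₂)),
      pull h f = f := by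
    intro z h
    have hz10 : (N₀ : ℤ) ∣ (lowerL ((N₀ : ℤ) * z)) 1 0 := by
      rw [lowerL_10]
      exact Dvd.intro _ rfl
    have hz : lowerL ((N₀ : ℤ) * z) ∈ GH N₀ S₂ :=
      mem_All_of_cast_eq_one hMd hS₂ hz10 (by rw [lowerL_11]; simp)
    have := hf _ hz h
    rw [lowerL_11] at this
    simpa using this
  have hcast : ((-1 : ℝ)) = (((-1 : ℤ) : ℤ) : ℝ) := by norm_num
  rw [hcast] at hword
  have mτ := mapsInto_tau hq0 hq S₂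
  have mL : ∀ z : ℤ, MapsInto (mapGL ℝ (lowerL ((N₀ : ℤ) * z))) (Gp hq S₂) (Gp hq S₂) := by
    intro z
    apply mapsInto_mapGL_Gp hq S₂
    rw [lowerL_10]
    exact Dvd.intro _ rfl
  have h2 : pull hm f = f := by
    rw [pull_congr hm ((((((mτ x).mul (mL y)).mul (mτ x)).mul (mτ (-1))).mul (mL y')).mul (mτ (-1)))
      hword, pull_mul (((((mτ x).mul (mL y)).mul (mτ x)).mul (mτ (-1))).mul (mL y')) (mτ (-1)),
      pull_mul ((((mτ x).mul (mL y)).mul (mτ x)).mul (mτ (-1))) (mL y'),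
      pull_mul (((mτ x).mul (mL y)).mul (mτ x)) (mτ (-1)),
      pull_mul ((mτ x).mul (mL y)) (mτ x),
      pull_mul (mτ x) (mL y), hτ x, hL y, hτ x, hτ (-1), hL y', hτ (-1)]
  rw [h2] at h1
  have h3 : (ψ a - 1) • f = 0 := by
    rw [sub_smul, one_smul, ← h1, sub_self]
  rcases smul_eq_zero.mp h3 with h4 | h4
  · exact absurd (sub_eq_zero.mp h4) ha
  · exact h4

end R3

/-! ### The twist `R : Hom(Src, K) → Hom(Tgt, K)` -/

section final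

variable {q N₀ : ℕ} [hqp : Fact q.Prime] [hN₀ : NeZero N₀] (hq : q ∣ N₀)
  {S₁ S₂ : Subgroup (ZMod N₀)ˣ} (hS : Sone hq S₂ ≤ S₁) {K : Type*} [Field K] [CharZero K]

/-- **the lattice twist** `R φ = ext (∑_u ω⁻¹(u) (x ↦ φ (τ^u x τ^{-u})))`. -/
def R (ω : MulChar (ZMod q) K) (φ : Additive (GH N₀ S₁) →+ K) : Additive (Tgt q S₂) →+ K :=
  Rext hq S₂ (Rp hq S₂ ω (resHom (Gp_le_Src hq hS) φ))

/-- every element of `Γ₀(N₀)` normalises `GH N₀ S₁`. -/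
theorem mapsInto_mapGL_GH (S : Subgroup (ZMod N₀)ˣ) {g : SL(2, ℤ)} (hg : (N₀ : ℤ) ∣ g 1 0) :
    MapsInto (mapGL ℝ g) (GH N₀ S) (GH N₀ S) := by
  intro x hx
  refine ⟨g * x * g⁻¹, ?_, by rw [← map_mul, ← map_mul]; congr 1; group⟩
  exact conj_mem_GH ⟨g, mem_Gamma0_iff_dvd.mpr hg⟩ hx

/-- the restriction to `Gp` of a `ψ`-eigen homomorphism on the source group. -/
theorem isEig_resHom {ψ : MulChar (ZMod q) K} {φ : Additive (GH N₀ S₁) →+ K}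
    (hφ : IsEig ψ (GH N₀ S₂) φ) : IsEig ψ (GH N₀ S₂) (resHom (Gp_le_Src hq hS) φ) :=
  hφ.resHom _ fun _ hg => mapsInto_mapGL_GH S₁ (dvd_10_of_mem_All hg)

/-- **(R1)** the twisting sum is invariant under the target group. -/
theorem tgtInv_Rp {ψ ω : MulChar (ZMod q) K} (hωψ : ω ^ 2 * ψ = 1)
    {φ : Additive (GH N₀ S₁) →+ K} (hφ : IsEig ψ (GH N₀ S₂) φ) :
    TgtInv hq S₂ (Rp hq S₂ ω (resHom (Gp_le_Src hq hS) φ)) :=
  fun _ hg h => pull_Rp hωψ ((isEig_resHom hq hS hφ).mono (Tgt_le_All q S₂)) hg h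

/-- the twist restricts to the twisting sum on `Gp`. -/
theorem resHom_R {ψ ω : MulChar (ZMod q) K} (hωψ : ω ^ 2 * ψ = 1)
    {φ : Additive (GH N₀ S₁) →+ K} (hφ : IsEig ψ (GH N₀ S₂) φ) :
    resHom (Gp_le_Tgt hq S₂) (R hq hS ω φ) = Rp hq S₂ ω (resHom (Gp_le_Src hq hS) φ) :=
  resHom_Rext (tgtInv_Rp hq hS hωψ hφ)

/-- the twist of a parabolic homomorphism is parabolic. -/
theorem isParabolicHom_R {ψ ω : MulChar (ZMod q) K} (hωψ : ω ^ 2 * ψ = 1)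
    {φ : Additive (GH N₀ S₁) →+ K} (hφ : IsEig ψ (GH N₀ S₂) φ)
    (hpar : IsParabolicHom (GH N₀ S₁) φ) : IsParabolicHom (Tgt q S₂) (R hq hS ω φ) := by
  apply isParabolicHom_Rext (tgtInv_Rp hq hS hωψ hφ)
  unfold Rp
  have h1 : ∀ u : ZMod q, IsParabolicHom (Gp hq S₂)
      (ω⁻¹ u • cOp hq S₂ u (resHom (Gp_le_Src hq hS) φ)) := by
    intro u
    have h2 : IsParabolicHom (Gp hq S₂) (cOp hq S₂ u (resHom (Gp_le_Src hq hS) φ)) :=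
      isParabolicHom_pull _ (isParabolicHom_resHom _ hpar)
    exact (parabolicHoms K (Gp hq S₂) K).smul_mem _ h2
  exact (parabolicHoms K (Gp hq S₂) K).sum_mem fun u _ => h1 u

theorem R_add {ψ ω : MulChar (ZMod q) K} (hωψ : ω ^ 2 * ψ = 1)
    {φ φ' : Additive (GH N₀ S₁) →+ K} (hφ : IsEig ψ (GH N₀ S₂) φ)
    (hφ' : IsEig ψ (GH N₀ S₂) φ') :
    R hq hS ω (φ + φ') = R hq hS ω φ + R hq hS ω φ' := by
  have hsum : IsEig ψ (GH N₀ S₂) (φ + φ') := by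
    intro g hg h
    rw [pull_add, hφ g hg h, hφ' g hg h, smul_add]
  apply eq_of_resHom_eq
  have e : resHom (Gp_le_Tgt hq S₂) (R hq hS ω φ + R hq hS ω φ')
      = resHom (Gp_le_Tgt hq S₂) (R hq hS ω φ) + resHom (Gp_le_Tgt hq S₂) (R hq hS ω φ') := rfl
  rw [e, resHom_R hq hS hωψ hsum, resHom_R hq hS hωψ hφ, resHom_R hq hS hωψ hφ', ← Rp_add]
  rfl

theorem R_smul {ψ ω : MulChar (ZMod q) K} (hωψ : ω ^ 2 * ψ = 1) (c : K)
    {φ : Additive (GH N₀ S₁) →+ K} (hφ : IsEig ψ (GH N₀ S₂) φ) :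
    R hq hS ω (c • φ) = c • R hq hS ω φ := by
  have hc : IsEig ψ (GH N₀ S₂) (c • φ) := by
    intro g hg h
    rw [pull_smul, hφ g hg h, smul_comm]
  apply eq_of_resHom_eq
  have e : resHom (Gp_le_Tgt hq S₂) (c • R hq hS ω φ)
      = c • resHom (Gp_le_Tgt hq S₂) (R hq hS ω φ) := rfl
  rw [e, resHom_R hq hS hωψ hc, resHom_R hq hS hωψ hφ, ← Rp_smul]
  rfl

/-- **(R4)** the twist of a homomorphism which is `Ψ`-eigen under `GH N₀ S'` is `Ψ ω²`-eigen under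
`Tgt q S'` (`S'` arbitrary, e.g. `⊤`; `Ψ` any function of period `N₀`). -/
theorem isEigZ_R {Ψ : ℤ → K} (hΨ : ∀ d d' : ℤ, (N₀ : ℤ) ∣ d' - d → Ψ d' = Ψ d)
    {S' : Subgroup (ZMod N₀)ˣ} {ψ ω : MulChar (ZMod q) K} (hωψ : ω ^ 2 * ψ = 1)
    {φ : Additive (GH N₀ S₁) →+ K} (hφ : IsEig ψ (GH N₀ S₂) φ)
    (hφ' : IsEigZ Ψ (GH N₀ S') φ) :
    IsEigZ (fun d : ℤ => Ψ d * ω ((d : ℤ) : ZMod q) ^ 2) (Tgt q S') (R hq hS ω φ) := by
  intro g hg h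
  have hN : (N₀ : ℤ) ∣ g 1 0 :=
    (Int.natCast_dvd_natCast.mpr (dvd_mul_right N₀ q)).trans (dvd_10_of_mem_Tgt hg)
  have h' := mapsInto_mapGL_Gp hq S₂ hN
  have hres : IsEigZ Ψ (Tgt q S') (resHom (Gp_le_Src hq hS) φ) :=
    (hφ'.resHom _ fun _ hg' => mapsInto_mapGL_GH S₁ (dvd_10_of_mem_All hg')).mono
      (Tgt_le_All q S')
  apply eq_of_resHom_eq
  rw [← pull_resHom h h' (Gp_le_Tgt hq S₂) (Gp_le_Tgt hq S₂), resHom_R hq hS hωψ hφ,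
    pull_Rp_gen hΨ ω hres hg h']
  show _ = (Ψ (g 1 1) * ω ((g 1 1 : ℤ) : ZMod q) ^ 2)
    • resHom (Gp_le_Tgt hq S₂) (R hq hS ω φ)
  rw [resHom_R hq hS hωψ hφ]

/-- **(R3)** the twist is injective on the `ψ`-eigenspace, `ψ` nontrivial. -/
theorem eq_zero_of_R_eq_zero {M : ℕ} (hN₀' : N₀ = M * q) (hM : ¬ q ∣ M) (hMd : M ∣ N₀)
    (hS₂ : (ZMod.unitsMap hMd).ker ≤ S₂) {e : AddChar (ZMod q) K} (he : e.IsPrimitive)
    {ψ ω : MulChar (ZMod q) K} (hωψ : ω ^ 2 * ψ = 1) {a : (ZMod q)ˣ} (ha : ψ a ≠ 1)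
    {φ : Additive (GH N₀ S₁) →+ K} (hφ : IsEig ψ (GH N₀ S₂) φ) (h0 : R hq hS ω φ = 0) :
    φ = 0 := by
  have hqK : (q : K) ≠ 0 := by exact_mod_cast hqp.out.ne_zero
  have hω : ω ≠ 1 := by
    rintro rfl
    rw [one_pow, one_mul] at hωψ
    rw [hωψ, MulChar.one_apply a.isUnit] at ha
    exact ha rfl
  have h1 := resHom_R hq hS hωψ hφ
  rw [h0] at h1
  have h2 : resHom (Gp_le_Src hq hS) φ = 0 :=
    eq_zero_of_Rp_eq_zero hq hN₀' hM hMd hS₂ hqK he hω ha (isEig_resHom hq hS hφ) h1.symm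
  apply eq_of_eqOn_of_finiteIndex (H := (Gp hq S₂).subgroupOf (GH N₀ S₁))
  intro x
  have h3 := congrArg (fun G : Additive (Gp hq S₂) →+ K =>
    G (Additive.ofMul (Subgroup.subgroupOfEquivOfLe (Gp_le_Src hq hS) x))) h2
  simp only [resHom_apply] at h3
  exact h3

end final

end Fermat.Agent.M43.TwistLatT6
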