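/-
Programme M43 (target S43), chapter TWIST-LAT — helper6.
**(R2) The lattice twist and the Hecke operators.**

* `addHom_pull` : the master intertwining lemma. If the representatives of two coset operators
  `T₁` on `Γ₁`, `T₂` on `Γ₂` satisfy `A g¹_i = k_i g²_{e i} B` (`A, B ∈ GL₂(ℝ)` conjugating `Γ₁` into
  `Γ₂`, `k_i ∈ Γ₂`, `e` a bijection of the index sets) and the `g²` lie in distinct `Γ₂`-cosets,
  then `T₁ ∘ pull_A = pull_B ∘ T₂` on `Hom(Γ₂, K)`.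
* `heckeH_pull_mapGL` : `T_ℓ` on `GH N H` commutes with the conjugation by any `g ∈ Γ₀(N)`
  (Hecke operators commute with the diamond action on the lattice).
* `heckeH_resHom` : compatibility of `T_ℓ` with restriction `GH N' H' ≤ GH N H` (same `σ`).
-/
import Mathlib
import Fermat.Agent.M43.TwistLatT6

set_option autoImplicit false
set_option linter.unusedSectionVars false

noncomputable section

namespace Fermat.Agent.M43.TwistLatH6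

open Matrix.SpecialLinearGroup ModularCurve.Period CongruenceSubgroup
open scoped MatrixGroups
open Fermat.Agent.M43.TwistMat6 Fermat.Agent.M43.TwistLatA6 Fermat.Agent.M43.TwistLatB6
  Fermat.Agent.M43.TwistLatC6 Fermat.Agent.M43.TwistLatG6 Fermat.Agent.M43.HeckeH0
  Fermat.Agent.M43.TwistLatT6
open Fermat.Agent.M48.ESInv3 Fermat.Agent.M48.CosetOp3 Fermat.Agent.M48.Diamond1
  Fermat.Agent.M48.G1Reps3
open Fermat.Agent.ES.HEQ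

/-! ### The master intertwining lemma -/

section master

variable {Γ₁ Γ₂ : Subgroup SL(2, ℤ)} {K : Type*} [AddCommGroup K]

theorem mapGL_coe_mul4 (a b c d : Γ₂) :
    mapGL ℝ (((a⁻¹ * b⁻¹ * c * d : Γ₂)) : SL(2, ℤ))
      = (mapGL ℝ ((a : Γ₂) : SL(2, ℤ)))⁻¹ * (mapGL ℝ ((b : Γ₂) : SL(2, ℤ)))⁻¹
        * mapGL ℝ ((c : Γ₂) : SL(2, ℤ)) * mapGL ℝ ((d : Γ₂) : SL(2, ℤ)) := by
  simp only [Subgroup.coe_mul, Subgroup.coe_inv, map_mul, map_inv]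

/-- **The master intertwining lemma.** -/
theorem addHom_pull (T₁ : CosetOp Γ₁) (T₂ : CosetOp Γ₂) {A B : GL (Fin 2) ℝ}
    (hA : MapsInto A Γ₁ Γ₂) (hB : MapsInto B Γ₁ Γ₂) (e : T₁.I ≃ T₂.I) (k : T₁.I → Γ₂)
    (hg : ∀ i, A * T₁.g i = mapGL ℝ ((k i : Γ₂) : SL(2, ℤ)) * T₂.g (e i) * B)
    (hinj : ∀ (i j : T₂.I) (c : Γ₂), T₂.g i = mapGL ℝ ((c : Γ₂) : SL(2, ℤ)) * T₂.g j → i = j)
    (φ : Additive Γ₂ →+ K) :
    T₁.addHom (pull hA φ) = pull hB (T₂.addHom φ) := by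
  have key : ∀ (x : Γ₁) (i : T₁.I),
      T₂.perm (cjHom hB x) (e i) = e (T₁.perm x i) ∧
      T₂.coc (cjHom hB x) (e i)
        = (k i)⁻¹ * cjHom hA (T₁.coc x i) * k (T₁.perm x i) := by
    intro x i
    set y := cjHom hB x with hy
    set c := T₁.coc x i with hc
    set π := T₁.perm x i with hπ
    set c₂ := T₂.coc y (e i) with hc₂
    set π₂ := T₂.perm y (e i) with hπ₂
    have r1 := T₁.rel x i
    have r2 := T₂.rel y (e i)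
    have sB := cjHom_spec hB x
    have sA := cjHom_spec hA c
    rw [← hc, ← hπ] at r1
    rw [← hc₂, ← hπ₂] at r2
    rw [← hy] at sB
    -- the two computations of `A * g¹_i * x`
    have E : mapGL ℝ ((k i : Γ₂) : SL(2, ℤ)) * mapGL ℝ ((c₂ : Γ₂) : SL(2, ℤ)) * T₂.g π₂
        = mapGL ℝ ((cjHom hA c : Γ₂) : SL(2, ℤ)) * mapGL ℝ ((k π : Γ₂) : SL(2, ℤ))
          * T₂.g (e π) := by
      have e1 : A * T₁.g i * mapGL ℝ ((x : Γ₁) : SL(2, ℤ))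
          = mapGL ℝ ((k i : Γ₂) : SL(2, ℤ)) * mapGL ℝ ((c₂ : Γ₂) : SL(2, ℤ)) * T₂.g π₂ * B := by
        rw [hg i, mul_assoc, sB, ← mul_assoc, mul_assoc (mapGL ℝ ((k i : Γ₂) : SL(2, ℤ))), r2,
          ← mul_assoc]
      have e2 : A * T₁.g i * mapGL ℝ ((x : Γ₁) : SL(2, ℤ))
          = mapGL ℝ ((cjHom hA c : Γ₂) : SL(2, ℤ)) * mapGL ℝ ((k π : Γ₂) : SL(2, ℤ))
            * T₂.g (e π) * B := by
        rw [mul_assoc, r1, ← mul_assoc, sA, mul_assoc, hg π, ← mul_assoc, ← mul_assoc]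
      exact mul_right_cancel (e1.symm.trans e2)
    have h3 : T₂.g π₂ = mapGL ℝ (((c₂⁻¹ * (k i)⁻¹ * cjHom hA c * k π : Γ₂)) : SL(2, ℤ))
        * T₂.g (e π) := by
      rw [mapGL_coe_mul4]
      have : T₂.g π₂ = (mapGL ℝ ((c₂ : Γ₂) : SL(2, ℤ)))⁻¹ * (mapGL ℝ ((k i : Γ₂) : SL(2, ℤ)))⁻¹
          * (mapGL ℝ ((k i : Γ₂) : SL(2, ℤ)) * mapGL ℝ ((c₂ : Γ₂) : SL(2, ℤ)) * T₂.g π₂) := by
        group
      rw [this, E]
      group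
    have hperm : π₂ = e π := hinj _ _ _ h3
    refine ⟨hperm, ?_⟩
    rw [hperm] at E
    have h4 := mul_right_cancel E
    rw [← map_mul, ← map_mul] at h4
    have h5 : k i * c₂ = cjHom hA c * k π := Subtype.ext (mapGL_injective h4)
    calc c₂ = (k i)⁻¹ * (k i * c₂) := by group
      _ = (k i)⁻¹ * cjHom hA c * k π := by rw [h5]; group
  refine AddMonoidHom.ext fun x' => ?_
  obtain ⟨x, rfl⟩ := Additive.ofMul.surjective x'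
  rw [CosetOp.addHom_apply, pull_apply, CosetOp.addHom_apply, ← Equiv.sum_comp e]
  have h1 : ∀ i, φ (Additive.ofMul (T₂.coc (cjHom hB x) (e i)))
      = pull hA φ (Additive.ofMul (T₁.coc x i)) - φ (Additive.ofMul (k i))
        + φ (Additive.ofMul (k (T₁.perm x i))) := by
    intro i
    rw [(key x i).2, ofMul_mul, ofMul_mul, ofMul_inv, map_add, map_add, map_neg, pull_apply]
    abel
  simp only [h1, Finset.sum_sub_distrib, Finset.sum_add_distrib]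
  have h2 : ∑ i, φ (Additive.ofMul (k (T₁.perm x i))) = ∑ i, φ (Additive.ofMul (k i)) :=
    Equiv.sum_comp (T₁.perm x) (fun i => φ (Additive.ofMul (k i)))
  rw [h2]
  abel

end master

/-! ### Hecke operators commute with the diamond action -/

section diamond

variable {N : ℕ} {p : ℕ} [hp : Fact p.Prime]

/-- **`T_p` on `GH N H` commutes with the conjugation by any `g ∈ Γ₀(N)`.** -/
theorem heckeH_pull_mapGL {A : Type*} [AddCommGroup A] (hpN : ¬ p ∣ N) (σ : Gamma0 N)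
    (hσ : Gamma0Map N σ = (p : ZMod N)) (H : Subgroup (ZMod N)ˣ) {g : SL(2, ℤ)}
    (hg : g ∈ Gamma0 N) (hm : MapsInto (mapGL ℝ g) (GH N H) (GH N H))
    (φ : Additive (GH N H) →+ A) :
    (heckeH hpN σ hσ H).addHom (pull hm φ) = pull hm ((heckeH hpN σ hσ H).addHom φ) := by
  set γ : Gamma0 N := (⟨g, hg⟩ : Gamma0 N)⁻¹ with hγ
  have hk : ∀ i : Option (ZMod p),
      (((⟨g, hg⟩ : Gamma0 N) * (hecke0 hpN σ).coc γ i : Gamma0 N) : SL(2, ℤ)) ∈ GH N H := by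
    intro i
    rw [coe_mem_GH_iff, unitOf_mul, unitOf_hecke0_coc hpN hσ, ← unitOf_mul, hγ, mul_inv_cancel,
      unitOf_one]
    exact H.one_mem
  refine addHom_pull (heckeH hpN σ hσ H) (heckeH hpN σ hσ H) hm hm ((hecke0 hpN σ).perm γ)
    (fun i => ⟨_, hk i⟩) ?_ (heckeH_reps_inj hpN σ hσ H) φ
  intro i
  have h1 := (hecke0 hpN σ).rel γ i
  have h2 : mapGL ℝ ((γ : Gamma0 N) : SL(2, ℤ)) = (mapGL ℝ g)⁻¹ := by
    rw [hγ, Subgroup.coe_inv, map_inv]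
  rw [h2] at h1
  show mapGL ℝ g * (hecke0 hpN σ).g i
    = mapGL ℝ (g * (((hecke0 hpN σ).coc γ i : Gamma0 N) : SL(2, ℤ)))
      * (hecke0 hpN σ).g ((hecke0 hpN σ).perm γ i) * mapGL ℝ g
  rw [map_mul, mul_assoc (mapGL ℝ g), ← h1]
  group

end diamond

/-! ### Compatibility with restriction (change of level) -/

section level

variable {N N' : ℕ} {p : ℕ} [hp : Fact p.Prime]

theorem coe_tw_eq {σ : Gamma0 N} {σ' : Gamma0 N'} (hσσ' : (σ' : SL(2, ℤ)) = (σ : SL(2, ℤ)))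
    (i : Option (ZMod p)) :
    ((tw σ' i : Gamma0 N') : SL(2, ℤ)) = ((tw σ i : Gamma0 N) : SL(2, ℤ)) := by
  cases i with
  | none => exact hσσ'
  | some j => rfl

/-- **`T_p` is compatible with the restriction** `GH N' H' ≤ GH N H` (the same matrix `σ`). -/
theorem heckeH_resHom {A : Type*} [AddCommGroup A] (hpN : ¬ p ∣ N) (hpN' : ¬ p ∣ N')
    (σ : Gamma0 N) (hσ : Gamma0Map N σ = (p : ZMod N)) (σ' : Gamma0 N')
    (hσ' : Gamma0Map N' σ' = (p : ZMod N')) (hσσ' : (σ' : SL(2, ℤ)) = (σ : SL(2, ℤ)))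
    (H : Subgroup (ZMod N)ˣ) (H' : Subgroup (ZMod N')ˣ) (hle : GH N' H' ≤ GH N H)
    (φ : Additive (GH N H) →+ A) :
    (heckeH hpN' σ' hσ' H').addHom (resHom hle φ)
      = resHom hle ((heckeH hpN σ hσ H).addHom φ) := by
  refine AddMonoidHom.ext fun x' => ?_
  obtain ⟨x, rfl⟩ := Additive.ofMul.surjective x'
  rw [CosetOp.addHom_apply, resHom_apply, CosetOp.addHom_apply]
  refine Finset.sum_congr rfl fun i _ => ?_
  rw [resHom_apply]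
  congr 2
  apply Subtype.ext
  show ((tw σ' i : Gamma0 N') : SL(2, ℤ)) * DoubleCoset27.coc ((x : GH N' H') : SL(2, ℤ)) i
      * ((tw σ' (DoubleCoset27.perm ((x : GH N' H') : SL(2, ℤ)) i) : Gamma0 N') : SL(2, ℤ))⁻¹
    = ((tw σ i : Gamma0 N) : SL(2, ℤ)) * DoubleCoset27.coc ((x : GH N' H') : SL(2, ℤ)) i
      * ((tw σ (DoubleCoset27.perm ((x : GH N' H') : SL(2, ℤ)) i) : Gamma0 N) : SL(2, ℤ))⁻¹
  rw [coe_tw_eq hσσ' (DoubleCoset27.perm ((x : GH N' H') : SL(2, ℤ)) i)]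
  congr 2
  exact coe_tw_eq hσσ' i

end level

/-! ### `T_ℓ` and the twisting sum on `Gp` -/

section twist

/-- `T.addHom` as a linear map. -/
def addHomLin {Γ : Subgroup SL(2, ℤ)} (T : CosetOp Γ) (K : Type*) [Field K] :
    (Additive Γ →+ K) →ₗ[K] (Additive Γ →+ K) where
  toFun := T.addHom
  map_add' := addHom_add T
  map_smul' := addHom_smul T

@[simp] theorem addHomLin_apply {Γ : Subgroup SL(2, ℤ)} (T : CosetOp Γ) (K : Type*) [Field K]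
    (φ : Additive Γ →+ K) : addHomLin T K φ = T.addHom φ := rfl

variable {q N₀ : ℕ}

/-- `σ' σ⁻¹ ∈ GpC` when `σ'₁₀ = σ₁₀` and `σ'₁₁ ≡ σ₁₁ mod N₀`. -/
theorem mul_inv_mem_GpC (hq : q ∣ N₀) (S : Subgroup (ZMod N₀)ˣ) {σ σ' : SL(2, ℤ)}
    (hσ : ((N₀ * q : ℕ) : ℤ) ∣ σ 1 0) (h10 : σ' 1 0 = σ 1 0) (h11 : (N₀ : ℤ) ∣ σ' 1 1 - σ 1 1) :
    σ' * σ⁻¹ ∈ GpC hq S := by
  have hN : (N₀ : ℤ) ∣ σ 1 0 := (Int.natCast_dvd_natCast.mpr (dvd_mul_right N₀ q)).trans hσ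
  refine ⟨?_, 1, Subgroup.one_mem _, ?_⟩
  · have e : (σ' * σ⁻¹) 1 0 = σ 1 0 * (σ 1 1 - σ' 1 1) := by
      rw [SL_mul_10, SL_inv_00, SL_inv_10, h10]
      ring
    rw [e]
    exact Dvd.dvd.mul_right hσ _
  · rw [SL_mul_11, SL_inv_01, SL_inv_11, h10, Units.val_one]
    have h0 : ((σ 1 0 : ℤ) : ZMod N₀) = 0 := (ZMod.intCast_zmod_eq_zero_iff_dvd _ _).mpr hN
    have h1 : ((σ' 1 1 : ℤ) : ZMod N₀) = ((σ 1 1 : ℤ) : ZMod N₀) :=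
      (ZMod.intCast_eq_intCast_iff_dvd_sub _ _ _).mpr (by
        rw [← dvd_neg]
        simpa using h11)
    have h2 := cast_00_mul_11 (q := N₀) hN
    push_cast
    rw [h0, h1, zero_mul, zero_add, mul_comm, h2]

variable [hqp : Fact q.Prime] {ℓ : ℕ} [hℓ : Fact ℓ.Prime] (hq : q ∣ N₀)
  (S₂ : Subgroup (ZMod N₀)ˣ) {K : Type*} [Field K]
  (hℓN : ¬ ℓ ∣ N₀ * q) (σ : Gamma0 (N₀ * q))
  (hσ : Gamma0Map (N₀ * q) σ = (ℓ : ZMod (N₀ * q)))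

/-- **`T_ℓ` on `Gp` moves the conjugation by `τ^u` to the conjugation by `τ^{ℓ u}`.** -/
theorem heckeGp_pull_tau (u : ℤ) (f : Additive (Gp hq S₂) →+ K) :
    (heckeH hℓN σ hσ (HP hq S₂)).addHom (pull (mapsInto_tau hqp.out.ne_zero hq S₂ u) f)
      = pull (mapsInto_tau hqp.out.ne_zero hq S₂ ((ℓ : ℤ) * u))
          ((heckeH hℓN σ hσ (HP hq S₂)).addHom f) := by
  have hq0 := hqp.out.ne_zero
  have hℓ0 : ℓ ≠ 0 := hℓ.out.ne_zero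
  have hσN : ((N₀ * q : ℕ) : ℤ) ∣ (σ : SL(2, ℤ)) 1 0 := mem_Gamma0_iff_dvd.mp σ.2
  have hd : ((((σ : SL(2, ℤ)) 1 1 : ℤ)) : ZMod q) = (ℓ : ZMod q) := by
    have h1 := congrArg (ZMod.cast : ZMod (N₀ * q) → ZMod q) hσ
    have hdvd : q ∣ N₀ * q := Dvd.intro_left N₀ rfl
    rw [ZMod.cast_natCast hdvd] at h1
    rw [← h1]
    exact (ZMod.cast_intCast hdvd _).symm
  have h00 := cast_00_mul_11 (q := q) (dvd_10_q hσN)
  rw [hd] at h00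
  have hu : (q : ℤ) ∣ (σ : SL(2, ℤ)) 1 1 * u - (σ : SL(2, ℤ)) 0 0 * ((ℓ : ℤ) ^ 2 * u) := by
    rw [← ZMod.intCast_zmod_eq_zero_iff_dvd]
    push_cast
    rw [hd]
    linear_combination (-((ℓ : ZMod q) * (u : ZMod q))) * h00
  obtain ⟨σ', h10, h11, hmat⟩ := tau_mul hq0 hq (σ : SL(2, ℤ)) hσN u ((ℓ : ℤ) ^ 2 * u) hu
  have hk : σ' * (σ : SL(2, ℤ))⁻¹ ∈ Gp hq S₂ := by
    rw [Gp_eq]
    exact mul_inv_mem_GpC hq S₂ hσN h10 h11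
  have hgi : ∀ i : Option (ZMod ℓ),
      trans ((u : ℝ) / q) * (heckeH hℓN σ hσ (HP hq S₂)).g i
        = mapGL ℝ (((Option.elim i (⟨σ' * (σ : SL(2, ℤ))⁻¹, hk⟩ : Gp hq S₂) (fun _ => 1)
            : Gp hq S₂)) : SL(2, ℤ))
          * (heckeH hℓN σ hσ (HP hq S₂)).g i * trans ((((ℓ : ℤ) * u : ℤ) : ℝ) / q) := by
    intro i
    cases i with
    | none =>
      show trans ((u : ℝ) / q) * (mapGL ℝ (σ : SL(2, ℤ)) * ModularForm.heckeDiagMatrix ℓ)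
        = mapGL ℝ (σ' * (σ : SL(2, ℤ))⁻¹)
          * (mapGL ℝ (σ : SL(2, ℤ)) * ModularForm.heckeDiagMatrix ℓ)
          * trans ((((ℓ : ℤ) * u : ℤ) : ℝ) / q)
      have e1 : trans ((((ℓ : ℤ) ^ 2 * u : ℤ) : ℝ) / q)
          = trans ((ℓ : ℝ) * ((((ℓ : ℤ) * u : ℤ) : ℝ) / q)) := by
        congr 1
        push_cast
        ring
      rw [← mul_assoc, hmat, e1, mul_assoc, trans_mul_heckeDiagMatrix hℓ0, map_mul, map_inv]
      group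
    | some j =>
      show trans ((u : ℝ) / q)
          * (mapGL ℝ ((1 : Gamma0 (N₀ * q)) : SL(2, ℤ)) * ModularForm.heckeMatrix ℓ j.val)
        = mapGL ℝ (((1 : Gp hq S₂)) : SL(2, ℤ))
          * (mapGL ℝ ((1 : Gamma0 (N₀ * q)) : SL(2, ℤ)) * ModularForm.heckeMatrix ℓ j.val)
          * trans ((((ℓ : ℤ) * u : ℤ) : ℝ) / q)
      have e1 : trans ((((ℓ : ℤ) * u : ℤ) : ℝ) / q) = trans ((ℓ : ℝ) * ((u : ℝ) / q)) := by
        congr 1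
        push_cast
        ring
      rw [Subgroup.coe_one, Subgroup.coe_one, map_one, one_mul, one_mul,
        trans_mul_heckeMatrix hℓ0, e1]
  exact addHom_pull (heckeH hℓN σ hσ (HP hq S₂)) (heckeH hℓN σ hσ (HP hq S₂))
    (mapsInto_tau hq0 hq S₂ u) (mapsInto_tau hq0 hq S₂ ((ℓ : ℤ) * u)) (Equiv.refl _)
    (fun i : Option (ZMod ℓ) =>
      Option.elim i (⟨σ' * (σ : SL(2, ℤ))⁻¹, hk⟩ : Gp hq S₂) (fun _ => 1))
    hgi (heckeH_reps_inj hℓN σ hσ (HP hq S₂)) f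

/-- `T_ℓ ∘ cOp u = cOp (ℓ u) ∘ T_ℓ` on `Hom(Gp, K)`. -/
theorem heckeGp_cOp (u : ZMod q) (f : Additive (Gp hq S₂) →+ K) :
    (heckeH hℓN σ hσ (HP hq S₂)).addHom (cOp hq S₂ u f)
      = cOp hq S₂ ((ℓ : ZMod q) * u) ((heckeH hℓN σ hσ (HP hq S₂)).addHom f) := by
  rw [cOp_apply, heckeGp_pull_tau, pull_tau]
  congr 2
  push_cast
  rw [ZMod.natCast_zmod_val]

/-- **`T_ℓ (Rp ω f) = ω(ℓ) Rp ω (T_ℓ f)`** on `Hom(Gp, K)`. -/
theorem heckeGp_Rp (hℓq : ℓ ≠ q) (ω : MulChar (ZMod q) K) (f : Additive (Gp hq S₂) →+ K) :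
    (heckeH hℓN σ hσ (HP hq S₂)).addHom (Rp hq S₂ ω f)
      = ω (ℓ : ZMod q) • Rp hq S₂ ω ((heckeH hℓN σ hσ (HP hq S₂)).addHom f) := by
  have hℓu : IsUnit ((ℓ : ℕ) : ZMod q) := by
    rw [ZMod.isUnit_iff_coprime]
    exact (Nat.coprime_primes hℓ.out hqp.out).mpr hℓq
  have hℓ0 : ((ℓ : ℕ) : ZMod q) ≠ 0 := hℓu.ne_zero
  unfold Rp
  have e1 : (heckeH hℓN σ hσ (HP hq S₂)).addHom (∑ u : ZMod q, ω⁻¹ u • cOp hq S₂ u f)
      = ∑ u : ZMod q, ω⁻¹ u • (heckeH hℓN σ hσ (HP hq S₂)).addHom (cOp hq S₂ u f) := by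
    show addHomLin _ K _ = _
    rw [map_sum]
    refine Finset.sum_congr rfl fun u _ => ?_
    rw [map_smul, addHomLin_apply]
  rw [e1, Finset.smul_sum, ← Equiv.sum_comp (Equiv.mulLeft₀ ((ℓ : ℕ) : ZMod q) hℓ0)
    (fun v => ω (ℓ : ZMod q) • ω⁻¹ v • cOp hq S₂ v ((heckeH hℓN σ hσ (HP hq S₂)).addHom f))]
  refine Finset.sum_congr rfl fun u _ => ?_
  rw [heckeGp_cOp, Equiv.mulLeft₀_apply, smul_smul, map_mul]
  congr 1
  have h2 : ω (ℓ : ZMod q) ≠ 0 := (hℓu.map ω).ne_zero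
  rw [MulChar.inv_apply_eq_inv' ω ((ℓ : ℕ) : ZMod q)]
  field_simp

end twist

/-! ### (R2) -/

section R2

variable {q N₀ : ℕ} [hqp : Fact q.Prime] [hN₀ : NeZero N₀] {ℓ : ℕ} [hℓ : Fact ℓ.Prime]
  (hq : q ∣ N₀) {S₁ S₂ : Subgroup (ZMod N₀)ˣ} (hS : Sone hq S₂ ≤ S₁)
  {K : Type*} [Field K] [CharZero K]

/-- `T_ℓ` preserves the `Ψ`-eigenspaces of the conjugation action of `Γ₀(N)`. -/
theorem isEigZ_heckeH {N : ℕ} {Ψ : ℤ → K} {Γ₀ : Subgroup SL(2, ℤ)} (hΓ₀ : Γ₀ ≤ Gamma0 N)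
    (hℓN : ¬ ℓ ∣ N) (σ : Gamma0 N) (hσ : Gamma0Map N σ = (ℓ : ZMod N)) (H : Subgroup (ZMod N)ˣ)
    {φ : Additive (GH N H) →+ K} (hφ : IsEigZ Ψ Γ₀ φ) :
    IsEigZ Ψ Γ₀ ((heckeH hℓN σ hσ H).addHom φ) := by
  intro g hg h
  rw [← heckeH_pull_mapGL hℓN σ hσ H (hΓ₀ hg) h φ, hφ g hg h, addHom_smul]

theorem isEig_heckeH {N : ℕ} {ψ : MulChar (ZMod q) K} {Γ₀ : Subgroup SL(2, ℤ)}
    (hΓ₀ : Γ₀ ≤ Gamma0 N) (hℓN : ¬ ℓ ∣ N) (σ : Gamma0 N) (hσ : Gamma0Map N σ = (ℓ : ZMod N))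
    (H : Subgroup (ZMod N)ˣ) {φ : Additive (GH N H) →+ K} (hφ : IsEig ψ Γ₀ φ) :
    IsEig ψ Γ₀ ((heckeH hℓN σ hσ H).addHom φ) :=
  isEig_iff_isEigZ.mpr (isEigZ_heckeH hΓ₀ hℓN σ hσ H (isEig_iff_isEigZ.mp hφ))

/-- **(R2)** `T_ℓ (R φ) = ω(ℓ) R (T_ℓ φ)` for a `ψ`-eigen `φ`, `ℓ ∤ N₀ q`. -/
theorem hecke_R (hℓN : ¬ ℓ ∣ N₀ * q) (hℓN₀ : ¬ ℓ ∣ N₀)
    (σT : Gamma0 (N₀ * q)) (hσT : Gamma0Map (N₀ * q) σT = (ℓ : ZMod (N₀ * q)))
    (σS : Gamma0 N₀) (hσS : Gamma0Map N₀ σS = (ℓ : ZMod N₀))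
    {ψ ω : MulChar (ZMod q) K} (hωψ : ω ^ 2 * ψ = 1)
    {φ : Additive (GH N₀ S₁) →+ K} (hφ : IsEig ψ (GH N₀ S₂) φ) :
    (heckeH hℓN σT hσT (HT q S₂)).addHom (R hq hS ω φ)
      = ω (ℓ : ZMod q) • R hq hS ω ((heckeH hℓN₀ σS hσS S₁).addHom φ) := by
  have hℓq : ℓ ≠ q := by
    rintro rfl
    exact hℓN (Dvd.intro_left N₀ rfl)
  -- `σT` at level `N₀`
  have hdvd : N₀ ∣ N₀ * q := dvd_mul_right N₀ q
  have hmem : (σT : SL(2, ℤ)) ∈ Gamma0 N₀ := by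
    rw [mem_Gamma0_iff_dvd]
    exact (Int.natCast_dvd_natCast.mpr hdvd).trans (mem_Gamma0_iff_dvd.mp σT.2)
  set σ₀ : Gamma0 N₀ := ⟨(σT : SL(2, ℤ)), hmem⟩ with hσ₀def
  have hσ₀ : Gamma0Map N₀ σ₀ = (ℓ : ZMod N₀) := by
    have h1 := congrArg (ZMod.cast : ZMod (N₀ * q) → ZMod N₀) hσT
    rw [ZMod.cast_natCast hdvd] at h1
    rw [← h1]
    exact (ZMod.cast_intCast hdvd _).symm
  rw [heckeH_indep hℓN₀ σ₀ σS hσ₀ hσS S₁ φ]
  have hTφ : IsEig ψ (GH N₀ S₂) ((heckeH hℓN₀ σ₀ hσ₀ S₁).addHom φ) :=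
    isEig_heckeH (GH_le_Gamma0 S₂) hℓN₀ σ₀ hσ₀ S₁ hφ
  apply eq_of_resHom_eq
  have e1 := heckeH_resHom hℓN hℓN σT hσT σT hσT rfl (HT q S₂) (HP hq S₂) (Gp_le_Tgt hq S₂)
    (R hq hS ω φ)
  have e2 := heckeH_resHom hℓN₀ hℓN σ₀ hσ₀ σT hσT rfl S₁ (HP hq S₂) (Gp_le_Src hq hS) φ
  rw [← e1, resHom_R hq hS hωψ hφ, heckeGp_Rp hq S₂ hℓN σT hσT hℓq, e2]
  show _ = ω (ℓ : ZMod q) • resHom (Gp_le_Tgt hq S₂)
    (R hq hS ω ((heckeH hℓN₀ σ₀ hσ₀ S₁).addHom φ))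
  rw [resHom_R hq hS hωψ hTφ]

end R2

end Fermat.Agent.M43.TwistLatH6
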