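/-
Programme M43 (target S43), chapter TWIST-LAT — helper6.
**Eigen-submodules, extension of invariant homomorphisms, transport along equalities of groups.**

* `eigSub Ψ Γ₀ Γ` : the `K`-submodule of `Hom(Γ, K)` of the `φ` with `φ(g x g⁻¹) = Ψ(g₁₁) φ(x)`, `g ∈ Γ₀`.
* `extN hle f` : the extension `(1/index) · transfer` of `f ∈ Hom(Γ', K)` to `Γ ⊇ Γ'` (`Γ'` normal of
  finite index in `Γ`); `resHom_extN` (for `Γ`-invariant `f`), `eq_of_resHom_eq'`,
  `isParabolicHom_extN`, `isEigZ_extN`.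
* `heckeH_extN` : `T_ℓ` commutes with the extension `GH N S₁ ≤ GH N S₂`.
* `castHom h` : transport of `Hom(Γ, K)` along an equality `Γ = Γ'`.
-/
import Mathlib
import Fermat.Agent.M43.TwistLatH6

set_option autoImplicit false
set_option linter.unusedSectionVars false

noncomputable section

namespace Fermat.Agent.M43.TwistLatX6

open Matrix.SpecialLinearGroup ModularCurve.Period CongruenceSubgroup
open scoped MatrixGroups
open Fermat.Agent.M43.TwistMat6 Fermat.Agent.M43.TwistLatA6 Fermat.Agent.M43.TwistLatB6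
  Fermat.Agent.M43.TwistLatC6 Fermat.Agent.M43.TwistLatG6 Fermat.Agent.M43.HeckeH0
  Fermat.Agent.M43.TwistLatT6 Fermat.Agent.M43.TwistLatH6
open Fermat.Agent.M48.ESInv3 Fermat.Agent.M48.CosetOp3 Fermat.Agent.M48.Diamond1
open Fermat.Agent.ES.HEQ

variable {K : Type*} [Field K]

/-! ### Eigen-submodules -/

/-- the submodule of the `Ψ`-eigen homomorphisms. -/
def eigSub (Ψ : ℤ → K) (Γ₀ Γ : Subgroup SL(2, ℤ)) : Submodule K (Additive Γ →+ K) where
  carrier := {φ | IsEigZ Ψ Γ₀ φ}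
  zero_mem' := by
    intro g _ h
    show pull h 0 = Ψ (g 1 1) • (0 : Additive Γ →+ K)
    rw [smul_zero]
    rfl
  add_mem' := by
    intro φ φ' hφ hφ' g hg h
    rw [pull_add, hφ g hg h, hφ' g hg h, smul_add]
  smul_mem' := by
    intro c φ hφ g hg h
    rw [pull_smul, hφ g hg h, smul_comm]

theorem mem_eigSub {Ψ : ℤ → K} {Γ₀ Γ : Subgroup SL(2, ℤ)} {φ : Additive Γ →+ K} :
    φ ∈ eigSub Ψ Γ₀ Γ ↔ IsEigZ Ψ Γ₀ φ := Iff.rfl

theorem IsEigZ.congr {Ψ Ψ' : ℤ → K} {Γ₀ Γ : Subgroup SL(2, ℤ)} {φ : Additive Γ →+ K}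
    (hφ : IsEigZ Ψ Γ₀ φ) (h : ∀ g ∈ Γ₀, Ψ' (g 1 1) = Ψ (g 1 1)) : IsEigZ Ψ' Γ₀ φ := by
  intro g hg hm
  rw [hφ g hg hm, h g hg]

/-! ### Transport along an equality of groups -/

/-- transport of homomorphisms along `Γ = Γ'`. -/
def castHom {Γ Γ' : Subgroup SL(2, ℤ)} (h : Γ = Γ') (φ : Additive Γ →+ K) : Additive Γ' →+ K :=
  resHom (le_of_eq h.symm) φ

theorem castHom_apply {Γ Γ' : Subgroup SL(2, ℤ)} (h : Γ = Γ') (φ : Additive Γ →+ K) (x : Γ') :
    castHom h φ (Additive.ofMul x) = φ (Additive.ofMul (⟨x, h ▸ x.2⟩ : Γ)) := rfl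

theorem castHom_injective {Γ Γ' : Subgroup SL(2, ℤ)} (h : Γ = Γ') {φ : Additive Γ →+ K}
    (h0 : castHom h φ = 0) : φ = 0 := by
  subst h
  refine AddMonoidHom.ext fun x' => ?_
  obtain ⟨x, rfl⟩ := Additive.ofMul.surjective x'
  have := congrArg (fun F : Additive Γ →+ K => F (Additive.ofMul x)) h0
  exact this

theorem castHom_add {Γ Γ' : Subgroup SL(2, ℤ)} (h : Γ = Γ') (φ φ' : Additive Γ →+ K) :
    castHom h (φ + φ') = castHom h φ + castHom h φ' := rfl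

theorem castHom_smul {Γ Γ' : Subgroup SL(2, ℤ)} (h : Γ = Γ') (c : K) (φ : Additive Γ →+ K) :
    castHom h (c • φ) = c • castHom h φ := rfl

theorem isParabolicHom_castHom {Γ Γ' : Subgroup SL(2, ℤ)} (h : Γ = Γ') {φ : Additive Γ →+ K}
    (hφ : IsParabolicHom Γ φ) : IsParabolicHom Γ' (castHom h φ) :=
  isParabolicHom_resHom _ hφ

theorem isEigZ_castHom {Γ Γ' Γ₀ : Subgroup SL(2, ℤ)} (h : Γ = Γ') {Ψ : ℤ → K}
    {φ : Additive Γ →+ K} (hφ : IsEigZ Ψ Γ₀ φ) : IsEigZ Ψ Γ₀ (castHom h φ) := by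
  subst h
  intro g hg hm
  have := hφ g hg hm
  exact this

/-! ### Extension of invariant homomorphisms -/

section ext

variable [CharZero K] {Γ' Γ : Subgroup SL(2, ℤ)}

/-- a homomorphism on `Γ'`, seen on `Γ'.subgroupOf Γ`. -/
def toSubN (hle : Γ' ≤ Γ) (f : Additive Γ' →+ K) : Additive (Γ'.subgroupOf Γ) →+ K :=
  f.comp (MonoidHom.toAdditive (Subgroup.subgroupOfEquivOfLe hle).toMonoidHom)

/-- **the extension** `(1/[Γ : Γ']) · transfer` of a homomorphism on `Γ'` to `Γ`. -/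
def extN (hle : Γ' ≤ Γ) [(Γ'.subgroupOf Γ).FiniteIndex] (f : Additive Γ' →+ K) :
    Additive Γ →+ K :=
  extHom (Γ'.subgroupOf Γ) (toSubN hle f)

/-- invariance under conjugation by `Γ`. -/
def InvUnder (Γ : Subgroup SL(2, ℤ)) (f : Additive Γ' →+ K) : Prop :=
  ∀ g ∈ Γ, ∀ h : MapsInto (mapGL ℝ g) Γ' Γ', pull h f = f

theorem mapsInto_of_normal (hle : Γ' ≤ Γ) [hn : (Γ'.subgroupOf Γ).Normal] {g : SL(2, ℤ)}
    (hg : g ∈ Γ) : MapsInto (mapGL ℝ g) Γ' Γ' := by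
  intro x hx
  refine ⟨g * x * g⁻¹, ?_, by rw [← map_mul, ← map_mul]; congr 1; group⟩
  exact (Subgroup.normal_subgroupOf_iff hle).mp hn x g hx hg

theorem conjInv_toSubN (hle : Γ' ≤ Γ) [hn : (Γ'.subgroupOf Γ).Normal]
    {f : Additive Γ' →+ K} (hf : InvUnder Γ f) : ConjInv (toSubN hle f) := by
  intro g x
  have hg' : ((g⁻¹ : Γ) : SL(2, ℤ)) ∈ Γ := (g⁻¹).2
  have hm := mapsInto_of_normal hle hg'
  have h1 := hf _ hg' hm
  set y : Γ' := Subgroup.subgroupOfEquivOfLe hle x with hy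
  have h2 := congrArg (fun F : Additive Γ' →+ K => F (Additive.ofMul y)) h1
  simp only [pull_apply] at h2
  show f (Additive.ofMul (Subgroup.subgroupOfEquivOfLe hle _)) = f (Additive.ofMul y)
  rw [← h2]
  congr 2
  apply Subtype.ext
  symm
  apply cjHom_unique
  rw [← map_mul, ← map_mul]
  congr 1
  show ((g⁻¹ : Γ) : SL(2, ℤ)) * ((x : Γ) : SL(2, ℤ))
    = ((g : Γ) : SL(2, ℤ))⁻¹ * ((x : Γ) : SL(2, ℤ)) * ((g : Γ) : SL(2, ℤ))
      * ((g⁻¹ : Γ) : SL(2, ℤ))
  rw [Subgroup.coe_inv]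
  group

variable (hle : Γ' ≤ Γ) [hn : (Γ'.subgroupOf Γ).Normal] [hfi : (Γ'.subgroupOf Γ).FiniteIndex]

theorem extN_apply_coe {f : Additive Γ' →+ K} (hf : InvUnder Γ f) (x : Γ') :
    extN hle f (Additive.ofMul (Subgroup.inclusion hle x)) = f (Additive.ofMul x) := by
  have hmem : Subgroup.inclusion hle x ∈ Γ'.subgroupOf Γ := by
    rw [Subgroup.mem_subgroupOf]
    exact x.2
  have h1 := extHom_apply_coe (conjInv_toSubN hle hf) ⟨_, hmem⟩
  unfold extN
  rw [h1]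
  show f (Additive.ofMul (Subgroup.subgroupOfEquivOfLe hle _)) = _
  congr 2

/-- the extension restricts to the given invariant homomorphism. -/
theorem resHom_extN {f : Additive Γ' →+ K} (hf : InvUnder Γ f) :
    resHom hle (extN hle f) = f := by
  refine AddMonoidHom.ext fun x' => ?_
  obtain ⟨x, rfl⟩ := Additive.ofMul.surjective x'
  rw [resHom_apply, extN_apply_coe hle hf]

omit hn in
/-- a homomorphism on `Γ` is determined by its restriction to `Γ'`. -/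
theorem eq_of_resHom_eq' {F F' : Additive Γ →+ K} (h : resHom hle F = resHom hle F') :
    F = F' := by
  apply eq_of_eqOn_of_finiteIndex (H := Γ'.subgroupOf Γ)
  intro x
  have h1 := congrArg (fun G : Additive Γ' →+ K =>
    G (Additive.ofMul (Subgroup.subgroupOfEquivOfLe hle x))) h
  simp only [resHom_apply] at h1
  exact h1

/-- the extension of a parabolic homomorphism is parabolic. -/
theorem isParabolicHom_extN {f : Additive Γ' →+ K} (hf : InvUnder Γ f)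
    (hpar : IsParabolicHom Γ' f) : IsParabolicHom Γ (extN hle f) := by
  intro x hx
  obtain ⟨n, hn0, -, hnm⟩ := Subgroup.exists_pow_mem_of_index_ne_zero
    (Subgroup.FiniteIndex.index_ne_zero (H := Γ'.subgroupOf Γ)) x
  rw [Subgroup.mem_subgroupOf] at hnm
  have h1 := extN_apply_coe hle hf ⟨_, hnm⟩
  have h2 : Subgroup.inclusion hle ⟨((x ^ n : Γ) : SL(2, ℤ)), hnm⟩ = x ^ n := Subtype.ext rfl
  rw [h2, ofMul_pow, map_nsmul] at h1
  have h3 : f (Additive.ofMul (⟨((x ^ n : Γ) : SL(2, ℤ)), hnm⟩ : Γ')) = 0 := by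
    apply hpar
    show ((((x ^ n : Γ) : SL(2, ℤ))) : Matrix (Fin 2) (Fin 2) ℤ).trace ^ 2 = 4
    rw [Subgroup.coe_pow]
    exact DoubleCosetPar27.trace_pow_sq_eq_four _ hx n
  rw [h3] at h1
  rcases smul_eq_zero.mp h1 with h4 | h4
  · exact absurd h4 (Nat.pos_iff_ne_zero.mp hn0)
  · exact h4

/-- the extension of an eigen-homomorphism is an eigen-homomorphism. -/
theorem isEigZ_extN {Ψ : ℤ → K} {Γ₀ : Subgroup SL(2, ℤ)} {f : Additive Γ' →+ K}
    (hf : InvUnder Γ f) (hΨ : IsEigZ Ψ Γ₀ f)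
    (hΓ₀ : ∀ g ∈ Γ₀, MapsInto (mapGL ℝ g) Γ' Γ') : IsEigZ Ψ Γ₀ (extN hle f) := by
  intro g hg h
  apply eq_of_resHom_eq' hle
  rw [← pull_resHom h (hΓ₀ g hg) hle hle, resHom_extN hle hf, hΨ g hg]
  show _ = Ψ (g 1 1) • resHom hle (extN hle f)
  rw [resHom_extN hle hf]

theorem extN_add {f f' : Additive Γ' →+ K} (hf : InvUnder Γ f) (hf' : InvUnder Γ f') :
    extN hle (f + f') = extN hle f + extN hle f' := by
  have hsum : InvUnder Γ (f + f') := by
    intro g hg h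
    rw [pull_add, hf g hg h, hf' g hg h]
  apply eq_of_resHom_eq' hle
  have e : resHom hle (extN hle f + extN hle f')
      = resHom hle (extN hle f) + resHom hle (extN hle f') := rfl
  rw [e, resHom_extN hle hsum, resHom_extN hle hf, resHom_extN hle hf']

theorem extN_smul (c : K) {f : Additive Γ' →+ K} (hf : InvUnder Γ f) :
    extN hle (c • f) = c • extN hle f := by
  have hc : InvUnder Γ (c • f) := by
    intro g hg h
    rw [pull_smul, hf g hg h]
  apply eq_of_resHom_eq' hle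
  have e : resHom hle (c • extN hle f) = c • resHom hle (extN hle f) := rfl
  rw [e, resHom_extN hle hc, resHom_extN hle hf]

end ext

/-! ### Hecke operators and the extension `GH N S₁ ≤ GH N S₂` -/

section heckeExt

variable [CharZero K] {N : ℕ} [NeZero N] {ℓ : ℕ} [hℓ : Fact ℓ.Prime]
  {S₁ S₂ : Subgroup (ZMod N)ˣ}

theorem normal_GH (hS : S₁ ≤ S₂) : ((GH N S₁).subgroupOf (GH N S₂)).Normal := by
  rw [Subgroup.normal_subgroupOf_iff (GH_mono hS)]
  intro x g hx hg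
  exact conj_mem_GH ⟨g, GH_le_Gamma0 _ hg⟩ hx

/-- `T_ℓ` preserves the invariance under a bigger group `GH N S₂`. -/
theorem invUnder_heckeH (hℓN : ¬ ℓ ∣ N) (σ : Gamma0 N) (hσ : Gamma0Map N σ = (ℓ : ZMod N))
    {f : Additive (GH N S₁) →+ K} (hf : InvUnder (GH N S₂) f) :
    InvUnder (GH N S₂) ((heckeH hℓN σ hσ S₁).addHom f) := by
  intro g hg h
  rw [← heckeH_pull_mapGL hℓN σ hσ S₁ (GH_le_Gamma0 _ hg) h f, hf g hg h]

/-- **`T_ℓ` commutes with the extension of invariant homomorphisms.** -/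
theorem heckeH_extN (hS : S₁ ≤ S₂) (hℓN : ¬ ℓ ∣ N) (σ : Gamma0 N)
    (hσ : Gamma0Map N σ = (ℓ : ZMod N)) {f : Additive (GH N S₁) →+ K}
    (hf : InvUnder (GH N S₂) f) :
    haveI := normal_GH hS
    (heckeH hℓN σ hσ S₂).addHom (extN (GH_mono hS) f)
      = extN (GH_mono hS) ((heckeH hℓN σ hσ S₁).addHom f) := by
  have := normal_GH hS
  apply eq_of_resHom_eq' (GH_mono hS)
  rw [← heckeH_resHom hℓN hℓN σ hσ σ hσ rfl S₂ S₁ (GH_mono hS), resHom_extN _ hf,
    resHom_extN _ (invUnder_heckeH hℓN σ hσ hf)]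

/-- `T_ℓ` commutes with the transport along an equality of the subgroups. -/
theorem heckeH_castHom {S S' : Subgroup (ZMod N)ˣ} (h : S = S') (hℓN : ¬ ℓ ∣ N) (σ : Gamma0 N)
    (hσ : Gamma0Map N σ = (ℓ : ZMod N)) (φ : Additive (GH N S) →+ K) :
    (heckeH hℓN σ hσ S').addHom (castHom (congrArg (GH N) h) φ)
      = castHom (congrArg (GH N) h) ((heckeH hℓN σ hσ S).addHom φ) :=
  heckeH_resHom hℓN hℓN σ hσ σ hσ rfl S S' _ φ

end heckeExt

end Fermat.Agent.M43.TwistLatX6
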