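/-
Programme M43 (target S43), chapter TWIST-LAT — helper6.
**Embeddings of eigenspaces and their composition; the four basic embeddings.**

`Embeds S S' Ψ Ψ' c ι` : `ι : Hom(GH L S, K) → Hom(GH L' S', K)` maps the `Ψ`-eigenspace (for the
conjugation action of `Γ₀(L)`) into the `Ψ'`-eigenspace, is linear and injective there, preserves
parabolic homomorphisms and satisfies `T_ℓ (ι φ) = c ℓ • ι (T_ℓ φ)`.

* `Embeds.comp`, `Embeds.congr`;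
* `embeds_castHom` (equal subgroups), `embeds_resHom` (restriction to a smaller group),
  `embeds_extN` (extension of homomorphisms invariant under a bigger subgroup),
  **`embeds_R`** (the twist at a prime `q ∥ L`).
-/
import Mathlib
import Fermat.Agent.M43.TwistLatX6

set_option autoImplicit false
set_option linter.unusedSectionVars false

noncomputable section

namespace Fermat.Agent.M43.TwistLatE6

open Matrix.SpecialLinearGroup ModularCurve.Period CongruenceSubgroup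
open scoped MatrixGroups
open Fermat.Agent.M43.TwistMat6 Fermat.Agent.M43.TwistLatA6 Fermat.Agent.M43.TwistLatB6
  Fermat.Agent.M43.TwistLatC6 Fermat.Agent.M43.TwistLatG6 Fermat.Agent.M43.HeckeH0
  Fermat.Agent.M43.TwistLatT6 Fermat.Agent.M43.TwistLatH6 Fermat.Agent.M43.TwistLatX6
open Fermat.Agent.M48.ESInv3 Fermat.Agent.M48.CosetOp3 Fermat.Agent.M48.Diamond1

variable {K : Type*} [Field K] [CharZero K]

/-- `ι` embeds the `Ψ`-eigenspace of `Hom(GH L S, K)` into the `Ψ'`-eigenspace of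
`Hom(GH L' S', K)`, intertwining `T_ℓ` up to the scalar `c ℓ`. -/
structure Embeds {L L' : ℕ} (S : Subgroup (ZMod L)ˣ) (S' : Subgroup (ZMod L')ˣ) (Ψ Ψ' : ℤ → K)
    (c : ℕ → K) (ι : (Additive (GH L S) →+ K) → (Additive (GH L' S') →+ K)) : Prop where
  eig : ∀ φ, IsEigZ Ψ (Gamma0 L) φ → IsEigZ Ψ' (Gamma0 L') (ι φ)
  add : ∀ φ φ', IsEigZ Ψ (Gamma0 L) φ → IsEigZ Ψ (Gamma0 L) φ' → ι (φ + φ') = ι φ + ι φ'
  smul : ∀ (a : K) φ, IsEigZ Ψ (Gamma0 L) φ → ι (a • φ) = a • ι φ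
  inj : ∀ φ, IsEigZ Ψ (Gamma0 L) φ → ι φ = 0 → φ = 0
  par : ∀ φ, IsEigZ Ψ (Gamma0 L) φ → IsParabolicHom (GH L S) φ → IsParabolicHom (GH L' S') (ι φ)
  hecke : ∀ (ℓ : ℕ) [Fact ℓ.Prime] (hℓ' : ¬ ℓ ∣ L') (hℓ : ¬ ℓ ∣ L) (σ' : Gamma0 L')
    (hσ' : Gamma0Map L' σ' = (ℓ : ZMod L')) (σ : Gamma0 L) (hσ : Gamma0Map L σ = (ℓ : ZMod L)) φ,
    IsEigZ Ψ (Gamma0 L) φ →
      (heckeH hℓ' σ' hσ' S').addHom (ι φ) = c ℓ • ι ((heckeH hℓ σ hσ S).addHom φ)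

/-- existence of `σ ∈ Γ₀(L)` with lower right entry `≡ ℓ`. -/
theorem exists_sigma {L ℓ : ℕ} [NeZero L] [hℓ : Fact ℓ.Prime] (h : ¬ ℓ ∣ L) :
    ∃ σ : Gamma0 L, Gamma0Map L σ = (ℓ : ZMod L) := by
  have hcop : Nat.Coprime ℓ L := (Nat.Prime.coprime_iff_not_dvd hℓ.out).mpr h
  obtain ⟨σ, hσ⟩ := exists_Gamma0_map_eq (ZMod.unitOfCoprime ℓ hcop)
  refine ⟨σ, ?_⟩
  have := congrArg Units.val hσ
  rwa [coe_unitOf, ZMod.coe_unitOfCoprime] at this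

theorem Embeds.comp {L L' L'' : ℕ} [NeZero L'] {S : Subgroup (ZMod L)ˣ}
    {S' : Subgroup (ZMod L')ˣ} {S'' : Subgroup (ZMod L'')ˣ} {Ψ Ψ' Ψ'' : ℤ → K} {c c' : ℕ → K}
    {ι : (Additive (GH L S) →+ K) → (Additive (GH L' S') →+ K)}
    {ι' : (Additive (GH L' S') →+ K) → (Additive (GH L'' S'') →+ K)}
    (h : Embeds S S' Ψ Ψ' c ι) (h' : Embeds S' S'' Ψ' Ψ'' c' ι') (hdvd : L' ∣ L'') :
    Embeds S S'' Ψ Ψ'' (fun ℓ => c ℓ * c' ℓ) (ι' ∘ ι) where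
  eig φ hφ := h'.eig _ (h.eig φ hφ)
  add φ φ' hφ hφ' := by
    show ι' (ι (φ + φ')) = _
    rw [h.add φ φ' hφ hφ', h'.add _ _ (h.eig φ hφ) (h.eig φ' hφ')]
    rfl
  smul a φ hφ := by
    show ι' (ι (a • φ)) = _
    rw [h.smul a φ hφ, h'.smul a _ (h.eig φ hφ)]
    rfl
  inj φ hφ h0 := h.inj φ hφ (h'.inj _ (h.eig φ hφ) h0)
  par φ hφ hpar := h'.par _ (h.eig φ hφ) (h.par φ hφ hpar)
  hecke ℓ _ hℓ'' hℓ σ'' hσ'' σ hσ φ hφ := by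
    have hℓ' : ¬ ℓ ∣ L' := fun hd => hℓ'' (hd.trans hdvd)
    obtain ⟨σ', hσ'⟩ := exists_sigma hℓ'
    show (heckeH hℓ'' σ'' hσ'' S'').addHom (ι' (ι φ)) = _
    have hT : IsEigZ Ψ (Gamma0 L) ((heckeH hℓ σ hσ S).addHom φ) :=
      isEigZ_heckeH le_rfl hℓ σ hσ S hφ
    rw [h'.hecke ℓ hℓ'' hℓ' σ'' hσ'' σ' hσ' _ (h.eig φ hφ), h.hecke ℓ hℓ' hℓ σ' hσ' σ hσ φ hφ,
      h'.smul _ _ (h.eig _ hT), smul_smul, mul_comm]
    rfl

theorem Embeds.congr {L L' : ℕ} {S : Subgroup (ZMod L)ˣ} {S' : Subgroup (ZMod L')ˣ}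
    {Ψ Ψ' Ψ₁ Ψ₁' : ℤ → K} {c c₁ : ℕ → K}
    {ι : (Additive (GH L S) →+ K) → (Additive (GH L' S') →+ K)}
    (h : Embeds S S' Ψ Ψ' c ι) (hΨ : ∀ g ∈ Gamma0 L, Ψ₁ (g 1 1) = Ψ (g 1 1))
    (hΨ' : ∀ g ∈ Gamma0 L', Ψ₁' (g 1 1) = Ψ' (g 1 1))
    (hc : ∀ ℓ : ℕ, ℓ.Prime → ¬ ℓ ∣ L' → c₁ ℓ = c ℓ) :
    Embeds S S' Ψ₁ Ψ₁' c₁ ι where
  eig φ hφ := IsEigZ.congr (h.eig φ (IsEigZ.congr hφ fun g hg => (hΨ g hg).symm)) hΨ'
  add φ φ' hφ hφ' := h.add φ φ' (IsEigZ.congr hφ fun g hg => (hΨ g hg).symm)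
    (IsEigZ.congr hφ' fun g hg => (hΨ g hg).symm)
  smul a φ hφ := h.smul a φ (IsEigZ.congr hφ fun g hg => (hΨ g hg).symm)
  inj φ hφ := h.inj φ (IsEigZ.congr hφ fun g hg => (hΨ g hg).symm)
  par φ hφ := h.par φ (IsEigZ.congr hφ fun g hg => (hΨ g hg).symm)
  hecke ℓ hℓp hℓ' hℓ σ' hσ' σ hσ φ hφ := by
    rw [hc ℓ hℓp.out hℓ']
    exact h.hecke ℓ hℓ' hℓ σ' hσ' σ hσ φ (IsEigZ.congr hφ fun g hg => (hΨ g hg).symm)

/-! ### The basic embeddings -/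

section basic

variable {L : ℕ} [hL : NeZero L]

/-- transport along an equality of the subgroups. -/
theorem embeds_castHom {S S' : Subgroup (ZMod L)ˣ} (h : S = S') (Ψ : ℤ → K) :
    Embeds S S' Ψ Ψ (fun _ => 1) (castHom (congrArg (GH L) h)) where
  eig φ hφ := isEigZ_castHom _ hφ
  add φ φ' _ _ := castHom_add _ φ φ'
  smul a φ _ := castHom_smul _ a φ
  inj φ _ h0 := castHom_injective _ h0
  par φ _ hpar := isParabolicHom_castHom _ hpar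
  hecke ℓ _ hℓ' hℓ σ' hσ' σ hσ φ _ := by
    rw [one_smul, heckeH_indep hℓ' σ σ' hσ hσ' S', heckeH_castHom h hℓ σ hσ φ]

/-- restriction to a smaller group `GH L' S' ≤ GH L S`, `L ∣ L'`. -/
theorem embeds_resHom {L' : ℕ} [NeZero L'] (hdvd : L ∣ L') {S : Subgroup (ZMod L)ˣ}
    {S' : Subgroup (ZMod L')ˣ} (hle : GH L' S' ≤ GH L S) (Ψ : ℤ → K) :
    Embeds S S' Ψ Ψ (fun _ => 1) (resHom hle) where
  eig φ hφ := by
    have h1 : Gamma0 L' ≤ Gamma0 L := by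
      intro g hg
      rw [mem_Gamma0_iff_dvd] at hg ⊢
      exact (Int.natCast_dvd_natCast.mpr hdvd).trans hg
    exact (IsEigZ.resHom hφ hle fun g hg =>
      mapsInto_mapGL_GH S (mem_Gamma0_iff_dvd.mp hg)).mono h1
  add φ φ' _ _ := rfl
  smul a φ _ := rfl
  inj φ _ h0 := by
    apply eq_of_resHom_eq' hle
    rw [h0]
    rfl
  par φ _ hpar := isParabolicHom_resHom hle hpar
  hecke ℓ _ hℓ' hℓ σ' hσ' σ hσ φ _ := by
    have hmem : (σ' : SL(2, ℤ)) ∈ Gamma0 L := by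
      rw [mem_Gamma0_iff_dvd]
      exact (Int.natCast_dvd_natCast.mpr hdvd).trans (mem_Gamma0_iff_dvd.mp σ'.2)
    have hσ₀ : Gamma0Map L (⟨(σ' : SL(2, ℤ)), hmem⟩ : Gamma0 L) = (ℓ : ZMod L) := by
      have h1 := congrArg (ZMod.cast : ZMod L' → ZMod L) hσ'
      rw [ZMod.cast_natCast hdvd] at h1
      rw [← h1]
      exact (ZMod.cast_intCast hdvd _).symm
    rw [one_smul, heckeH_indep hℓ ⟨(σ' : SL(2, ℤ)), hmem⟩ σ hσ₀ hσ S φ]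
    exact heckeH_resHom hℓ hℓ' ⟨(σ' : SL(2, ℤ)), hmem⟩ hσ₀ σ' hσ' rfl S S' hle φ

/-- extension of the homomorphisms which are invariant under a bigger group. -/
theorem embeds_extN {S₁ S₂ : Subgroup (ZMod L)ˣ} (hS : S₁ ≤ S₂) {Ψ : ℤ → K}
    (hΨ1 : ∀ g ∈ GH L S₂, Ψ (g 1 1) = 1) :
    haveI := normal_GH hS
    Embeds S₁ S₂ Ψ Ψ (fun _ => 1) (extN (GH_mono hS)) := by
  have := normal_GH hS
  have hinv : ∀ φ : Additive (GH L S₁) →+ K, IsEigZ Ψ (Gamma0 L) φ → InvUnder (GH L S₂) φ := by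
    intro φ hφ g hg h
    rw [hφ g (GH_le_Gamma0 _ hg) h, hΨ1 g hg, one_smul]
  exact
  { eig := fun φ hφ => isEigZ_extN _ (hinv φ hφ) hφ fun g hg =>
      mapsInto_mapGL_GH S₁ (mem_Gamma0_iff_dvd.mp hg)
    add := fun φ φ' hφ hφ' => extN_add _ (hinv φ hφ) (hinv φ' hφ')
    smul := fun a φ hφ => extN_smul _ a (hinv φ hφ)
    inj := fun φ hφ h0 => by
      have := resHom_extN (GH_mono hS) (hinv φ hφ)
      rw [h0] at this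
      exact this.symm
    par := fun φ hφ hpar => isParabolicHom_extN _ (hinv φ hφ) hpar
    hecke := fun ℓ _ hℓ' hℓ σ' hσ' σ hσ φ hφ => by
      rw [one_smul, heckeH_indep hℓ' σ σ' hσ hσ' S₂, heckeH_extN hS hℓ σ hσ (hinv φ hφ)] }

/-- **the twist at a prime `q ∥ L`** as an embedding of eigenspaces. -/
theorem embeds_R {q : ℕ} [hqp : Fact q.Prime] (hq : q ∣ L) {S₁ S₂ : Subgroup (ZMod L)ˣ}
    (hS : Sone hq S₂ ≤ S₁) {M' : ℕ} (hLM : L = M' * q) (hM' : ¬ q ∣ M') (hMd : M' ∣ L)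
    (hS₂ : (ZMod.unitsMap hMd).ker ≤ S₂) {e : AddChar (ZMod q) K} (he : e.IsPrimitive)
    {ψ ω : MulChar (ZMod q) K} (hωψ : ω ^ 2 * ψ = 1) {a : (ZMod q)ˣ} (ha : ψ a ≠ 1)
    {Ψ : ℤ → K} (hΨper : ∀ d d' : ℤ, (L : ℤ) ∣ d' - d → Ψ d' = Ψ d)
    (hΨψ : ∀ g ∈ GH L S₂, Ψ (g 1 1) = ψ ((g 1 1 : ℤ) : ZMod q)) :
    Embeds S₁ (HT q S₂) Ψ (fun d : ℤ => Ψ d * ω ((d : ℤ) : ZMod q) ^ 2)
      (fun ℓ : ℕ => ω ((ℓ : ℕ) : ZMod q)) (R hq hS ω) := by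
  have hE : ∀ φ : Additive (GH L S₁) →+ K, IsEigZ Ψ (Gamma0 L) φ → IsEig ψ (GH L S₂) φ := by
    intro φ hφ g hg h
    rw [hφ g (GH_le_Gamma0 _ hg) h, hΨψ g hg]
  exact
  { eig := fun φ hφ => by
      have h1 := isEigZ_R hq hS hΨper (S' := ⊤) hωψ (hE φ hφ)
        (IsEigZ.mono hφ (GH_le_Gamma0 ⊤))
      refine IsEigZ.mono h1 ?_
      intro g hg
      exact mem_GH.mpr ⟨hg, Subgroup.mem_comap.mpr (Subgroup.mem_top _)⟩
    add := fun φ φ' hφ hφ' => R_add hq hS hωψ (hE φ hφ) (hE φ' hφ')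
    smul := fun c φ hφ => R_smul hq hS hωψ c (hE φ hφ)
    inj := fun φ hφ h0 => eq_zero_of_R_eq_zero hq hS hLM hM' hMd hS₂ he hωψ ha (hE φ hφ) h0
    par := fun φ hφ hpar => isParabolicHom_R hq hS hωψ (hE φ hφ) hpar
    hecke := fun ℓ _ hℓ' hℓ σ' hσ' σ hσ φ hφ =>
      hecke_R hq hS hℓ' hℓ σ' hσ' σ hσ hωψ (hE φ hφ) }

end basic

end Fermat.Agent.M43.TwistLatE6
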