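/-
Programme M43 (target S43), chapter TWIST-LAT — helper6.
**Iteration of the lattice twist over a finite set of primes.**

`Q` a finite set of primes with `q ∥ L` for `q ∈ Q`; `Kq q ≤ (ℤ/q)ˣ` arbitrary subgroups;
`SQ Kq Q L ≤ (ℤ/L)ˣ` the subgroup cut out by the conditions `(u mod q) ∈ Kq q`, `q ∈ Q`;
`ψ q`, `ω q` characters mod `q` with `ψ q` trivial on `Kq q`, `(ω q)² ψ q = 1`, `ω q = 1` if `ψ q = 1`;
`PsiQ ψ Q z = ∏_{q ∈ Q} ψ q (z mod q)`.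

**`exists_embeds`** : there is an embedding (`TwistLatE6.Embeds`) of the `PsiQ ψ Q`-eigenspace of
`Hom(GH L (SQ Kq Q L), K)` into `Hom(GH M ⊤, K)`, `M = L ∏_{q ∈ Q} q`, with
`T_ℓ (ι φ) = (∏_{q ∈ Q} ω q (ℓ)) • ι (T_ℓ φ)`.
-/
import Mathlib
import Fermat.Agent.M43.TwistLatE6

set_option autoImplicit false
set_option linter.unusedSectionVars false

noncomputable section

namespace Fermat.Agent.M43.TwistLatI6

open Matrix.SpecialLinearGroup ModularCurve.Period CongruenceSubgroup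
open scoped MatrixGroups
open Fermat.Agent.M43.TwistMat6 Fermat.Agent.M43.TwistLatA6 Fermat.Agent.M43.TwistLatB6
  Fermat.Agent.M43.TwistLatC6 Fermat.Agent.M43.TwistLatG6 Fermat.Agent.M43.HeckeH0
  Fermat.Agent.M43.TwistLatT6 Fermat.Agent.M43.TwistLatH6 Fermat.Agent.M43.TwistLatX6
  Fermat.Agent.M43.TwistLatE6
open Fermat.Agent.M48.ESInv3 Fermat.Agent.M48.CosetOp3 Fermat.Agent.M48.Diamond1

variable {K : Type*} [Field K] [CharZero K]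

/-! ### The subgroups `SQ` -/

/-- the subgroup of `(ℤ/L)ˣ` cut out by the conditions `(u mod q) ∈ Kq q`, `q ∈ Q`, `q ∣ L`. -/
def SQ (Kq : ∀ q : ℕ, Subgroup (ZMod q)ˣ) (Q : Finset ℕ) (L : ℕ) : Subgroup (ZMod L)ˣ :=
  ⨅ q ∈ Q, ⨅ h : q ∣ L, (Kq q).comap (ZMod.unitsMap h)

variable {Kq : ∀ q : ℕ, Subgroup (ZMod q)ˣ} {Q : Finset ℕ} {L : ℕ}

theorem mem_SQ {u : (ZMod L)ˣ} :
    u ∈ SQ Kq Q L ↔ ∀ q ∈ Q, ∀ h : q ∣ L, ZMod.unitsMap h u ∈ Kq q := by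
  simp only [SQ, Subgroup.mem_iInf, Subgroup.mem_comap]

theorem SQ_empty : SQ Kq ∅ L = ⊤ := by
  ext u
  simp [mem_SQ]

theorem SQ_insert_le (q : ℕ) : SQ Kq (insert q Q) L ≤ SQ Kq Q L := by
  intro u hu
  rw [mem_SQ] at hu ⊢
  exact fun q' hq' h => hu q' (Finset.mem_insert_of_mem hq') h

theorem comap_SQ {L' : ℕ} (h : L ∣ L') (hQ : ∀ q ∈ Q, q ∣ L) :
    (SQ Kq Q L).comap (ZMod.unitsMap h) = SQ Kq Q L' := by
  ext u
  rw [Subgroup.mem_comap, mem_SQ, mem_SQ]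
  constructor
  · intro hu q hq hq'
    have := hu q hq (hQ q hq)
    rwa [← MonoidHom.comp_apply, ZMod.unitsMap_comp] at this
  · intro hu q hq hq'
    have := hu q hq (hq'.trans h)
    rwa [← MonoidHom.comp_apply, ZMod.unitsMap_comp]

theorem Sone_SQ_le {q : ℕ} (hq : q ∣ L) : Sone hq (SQ Kq Q L) ≤ SQ Kq (insert q Q) L := by
  intro u hu
  obtain ⟨hu1, hu2⟩ := mem_Sone.mp hu
  rw [mem_SQ] at hu1 ⊢
  intro q' hq' h
  rcases Finset.mem_insert.mp hq' with rfl | hq''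
  · rw [hu2]
    exact Subgroup.one_mem _
  · exact hu1 q' hq'' h

theorem ker_le_SQ {M' : ℕ} (hMd : M' ∣ L) (hQ : ∀ q ∈ Q, q ∣ M') :
    (ZMod.unitsMap hMd).ker ≤ SQ Kq Q L := by
  intro u hu
  rw [MonoidHom.mem_ker] at hu
  rw [mem_SQ]
  intro q hq h
  have h1 : ZMod.unitsMap h u = ZMod.unitsMap (hQ q hq) (ZMod.unitsMap hMd u) := by
    rw [← MonoidHom.comp_apply, ZMod.unitsMap_comp]
  rw [h1, hu, map_one]
  exact Subgroup.one_mem _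

/-- for `g ∈ GH L S`, the reduction mod `q` of the class of `g` is the class of `g₁₁`. -/
theorem exists_unit_of_mem_GH {S : Subgroup (ZMod L)ˣ} {g : SL(2, ℤ)} (hg : g ∈ GH L S) :
    ∃ u ∈ S, ((u : (ZMod L)ˣ) : ZMod L) = ((g 1 1 : ℤ) : ZMod L) := by
  rw [GH_eq_GHc] at hg
  exact hg.2

theorem cast_unitsMap {q : ℕ} (hq : q ∣ L) {u : (ZMod L)ˣ} {d : ℤ}
    (hu : ((u : (ZMod L)ˣ) : ZMod L) = ((d : ℤ) : ZMod L)) :
    ((ZMod.unitsMap hq u : (ZMod q)ˣ) : ZMod q) = ((d : ℤ) : ZMod q) := by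
  rw [ZMod.unitsMap_val, hu, ZMod.cast_intCast hq]

/-! ### The product characters -/

/-- the product character `z ↦ ∏_{q ∈ Q} ψ q (z mod q)`. -/
def PsiQ (ψ : ∀ q : ℕ, MulChar (ZMod q) K) (Q : Finset ℕ) (z : ℤ) : K :=
  ∏ q ∈ Q, ψ q ((z : ℤ) : ZMod q)

variable {ψ ω : ∀ q : ℕ, MulChar (ZMod q) K}

theorem PsiQ_empty (z : ℤ) : PsiQ ψ ∅ z = 1 := Finset.prod_empty

theorem PsiQ_insert {q : ℕ} (hq : q ∉ Q) (z : ℤ) :
    PsiQ ψ (insert q Q) z = ψ q ((z : ℤ) : ZMod q) * PsiQ ψ Q z :=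
  Finset.prod_insert hq

theorem PsiQ_periodic (hQ : ∀ q ∈ Q, q ∣ L) (d d' : ℤ) (h : (L : ℤ) ∣ d' - d) :
    PsiQ ψ Q d' = PsiQ ψ Q d := by
  unfold PsiQ
  refine Finset.prod_congr rfl fun q hq => ?_
  congr 1
  rw [ZMod.intCast_eq_intCast_iff_dvd_sub]
  have := (Int.natCast_dvd_natCast.mpr (hQ q hq)).trans h
  rw [← dvd_neg]
  simpa using this

/-- on `GH L (SQ Kq Q L)` the product character is trivial. -/
theorem PsiQ_eq_one (hQ : ∀ q ∈ Q, q ∣ L) (hψK : ∀ q ∈ Q, ∀ u ∈ Kq q, ψ q (u : (ZMod q)ˣ) = 1)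
    {g : SL(2, ℤ)} (hg : g ∈ GH L (SQ Kq Q L)) : PsiQ ψ Q (g 1 1) = 1 := by
  obtain ⟨u, hu, hug⟩ := exists_unit_of_mem_GH hg
  unfold PsiQ
  refine Finset.prod_eq_one fun q hq => ?_
  rw [← cast_unitsMap (hQ q hq) hug]
  exact hψK q hq _ (mem_SQ.mp hu q hq (hQ q hq))

/-- the lower right entry of an element of `Γ₀(L)` is a unit mod `q ∣ L`. -/
theorem isUnit_cast_of_mem_Gamma0 {q : ℕ} (hq : q ∣ L) {g : SL(2, ℤ)} (hg : g ∈ Gamma0 L) :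
    IsUnit (((g 1 1 : ℤ)) : ZMod q) := by
  have h1 := cast_00_mul_11 (q := q)
    ((Int.natCast_dvd_natCast.mpr hq).trans (mem_Gamma0_iff_dvd.mp hg))
  exact IsUnit.of_mul_eq_one_right _ h1

theorem GH_top_le {M M₁ : ℕ} (h : M₁ ∣ M) :
    GH M (⊤ : Subgroup (ZMod M)ˣ) ≤ GH M₁ (⊤ : Subgroup (ZMod M₁)ˣ) := by
  intro g hg
  have h0 : g ∈ Gamma0 M := GH_le_Gamma0 _ hg
  have h1 : g ∈ Gamma0 M₁ := by
    rw [mem_Gamma0_iff_dvd] at h0 ⊢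
    exact (Int.natCast_dvd_natCast.mpr h).trans h0
  exact mem_GH.mpr ⟨h1, Subgroup.mem_top _⟩

/-! ### The two kinds of steps -/

/-- step at a prime `q` where the character is trivial: extension. -/
theorem exists_embeds_stepA [NeZero L] {q : ℕ} (hq : q ∣ L) (hqQ : q ∉ Q) (hQ : ∀ q' ∈ Q, q' ∣ L)
    (hψK : ∀ q' ∈ Q, ∀ u ∈ Kq q', ψ q' (u : (ZMod q')ˣ) = 1) (hψ1 : ψ q = 1) :
    ∃ ι : (Additive (GH L (SQ Kq (insert q Q) L)) →+ K) → (Additive (GH L (SQ Kq Q L)) →+ K),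
      Embeds (SQ Kq (insert q Q) L) (SQ Kq Q L) (PsiQ ψ (insert q Q)) (PsiQ ψ Q)
        (fun _ => 1) ι := by
  have hle : SQ Kq (insert q Q) L ≤ SQ Kq Q L := SQ_insert_le q
  have := normal_GH hle
  have hone : ∀ g ∈ Gamma0 L, PsiQ ψ (insert q Q) (g 1 1) = PsiQ ψ Q (g 1 1) := by
    intro g hg
    rw [PsiQ_insert hqQ, hψ1, MulChar.one_apply (isUnit_cast_of_mem_Gamma0 hq hg), one_mul]
  have h1 := embeds_extN (K := K) hle (Ψ := PsiQ ψ (insert q Q)) (fun g hg => by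
    rw [hone g (GH_le_Gamma0 _ hg)]
    exact PsiQ_eq_one hQ hψK hg)
  exact ⟨_, h1.congr (fun g _ => rfl) (fun g hg => (hone g hg).symm) (fun _ _ _ => rfl)⟩

/-- step at a prime `q ∥ L` where the character is non-trivial: the twist. -/
theorem exists_embeds_stepB [NeZero L] {q : ℕ} [hqp : Fact q.Prime] (hq : q ∣ L)
    (hqL : ¬ q ∣ L / q) (hqQ : q ∉ Q) (hQ : ∀ q' ∈ Q, q'.Prime ∧ q' ∣ L)
    (hψK : ∀ q' ∈ Q, ∀ u ∈ Kq q', ψ q' (u : (ZMod q')ˣ) = 1) (hωψ : ω q ^ 2 * ψ q = 1)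
    (hψ1 : ψ q ≠ 1) {e : AddChar (ZMod q) K} (he : e.IsPrimitive) :
    ∃ ι : (Additive (GH L (SQ Kq (insert q Q) L)) →+ K) →
        (Additive (GH (L * q) (SQ Kq Q (L * q))) →+ K),
      Embeds (SQ Kq (insert q Q) L) (SQ Kq Q (L * q)) (PsiQ ψ (insert q Q)) (PsiQ ψ Q)
        (fun ℓ : ℕ => ω q ((ℓ : ℕ) : ZMod q)) ι := by
  obtain ⟨a, ha⟩ := MulChar.ne_one_iff.mp hψ1
  have hQd : ∀ q' ∈ Q, q' ∣ L := fun q' hq' => (hQ q' hq').2
  have hLM : L = L / q * q := (Nat.div_mul_cancel hq).symm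
  have hMd : L / q ∣ L := Nat.div_dvd_of_dvd hq
  have hQM : ∀ q' ∈ Q, q' ∣ L / q := by
    intro q' hq'
    have h1 : q' ∣ L / q * q := hLM ▸ hQd q' hq'
    have hne : q' ≠ q := fun h => hqQ (h ▸ hq')
    have hcop : Nat.Coprime q' q := (Nat.coprime_primes (hQ q' hq').1 hqp.out).mpr hne
    exact hcop.dvd_of_dvd_mul_right h1
  have hins : ∀ q' ∈ insert q Q, q' ∣ L := by
    intro q' hq'
    rcases Finset.mem_insert.mp hq' with rfl | h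
    · exact hq
    · exact hQd q' h
  have h1 := embeds_R (K := K) hq (S₁ := SQ Kq (insert q Q) L) (S₂ := SQ Kq Q L)
    (Sone_SQ_le hq) hLM hqL hMd (ker_le_SQ hMd hQM) he hωψ ha
    (Ψ := PsiQ ψ (insert q Q)) (PsiQ_periodic hins) (fun g hg => by
      rw [PsiQ_insert hqQ, PsiQ_eq_one hQd hψK hg, mul_one])
  have hHT : HT q (SQ Kq Q L) = SQ Kq Q (L * q) := comap_SQ (dvd_mul_right L q) hQd
  have h2 := embeds_castHom (K := K) hHT (PsiQ ψ Q)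
  have h3 := (h1.congr (Ψ₁ := PsiQ ψ (insert q Q)) (Ψ₁' := PsiQ ψ Q) (fun g _ => rfl)
    (fun g hg => by
      have hu : IsUnit (((g 1 1 : ℤ)) : ZMod q) :=
        isUnit_cast_of_mem_Gamma0 (dvd_mul_left q L) hg
      have h4 : ω q ((g 1 1 : ℤ) : ZMod q) ^ 2 * ψ q ((g 1 1 : ℤ) : ZMod q) = 1 := by
        have := congrArg (fun χ : MulChar (ZMod q) K => χ ((g 1 1 : ℤ) : ZMod q)) hωψ
        simp only [MulChar.mul_apply, MulChar.one_apply hu] at this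
        rwa [MulChar.pow_apply' _ (by norm_num : (2 : ℕ) ≠ 0)] at this
      show PsiQ ψ Q (g 1 1) = PsiQ ψ (insert q Q) (g 1 1) * ω q ((g 1 1 : ℤ) : ZMod q) ^ 2
      rw [PsiQ_insert hqQ, mul_comm (ψ q _), mul_assoc, mul_comm (ψ q _), h4, mul_one])
    (fun _ _ _ => rfl)).comp h2 dvd_rfl
  exact ⟨_, h3.congr (fun g _ => rfl) (fun g _ => rfl) (fun ℓ _ _ => (mul_one _).symm)⟩

/-! ### The iteration -/

/-- **iterated twist**: the `PsiQ ψ Q`-eigenspace of `Hom(GH L (SQ Kq Q L), K)` embeds into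
`Hom(Γ₀(M), K)`, `M = L ∏_{q ∈ Q} q`, compatibly with the `T_ℓ` up to `∏_{q ∈ Q} ω q (ℓ)`. -/
theorem exists_embeds (Kq : ∀ q : ℕ, Subgroup (ZMod q)ˣ) (ψ ω : ∀ q : ℕ, MulChar (ZMod q) K)
    (Q : Finset ℕ) :
    ∀ (L : ℕ) [NeZero L], (∀ q ∈ Q, q.Prime ∧ q ∣ L ∧ ¬ q ∣ L / q) →
      (∀ q ∈ Q, ∀ u ∈ Kq q, ψ q (u : (ZMod q)ˣ) = 1) →
      (∀ q ∈ Q, ω q ^ 2 * ψ q = 1) →
      (∀ q ∈ Q, ψ q = 1 → ω q = 1) →
      (∀ q ∈ Q, ∃ e : AddChar (ZMod q) K, e.IsPrimitive) →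
      ∀ M : ℕ, M = L * ∏ q ∈ Q, q →
      ∃ ι : (Additive (GH L (SQ Kq Q L)) →+ K) →
          (Additive (GH M (⊤ : Subgroup (ZMod M)ˣ)) →+ K),
        Embeds (SQ Kq Q L) (⊤ : Subgroup (ZMod M)ˣ) (PsiQ ψ Q) (fun _ => 1)
          (fun ℓ : ℕ => ∏ q ∈ Q, ω q ((ℓ : ℕ) : ZMod q)) ι := by
  induction Q using Finset.induction_on with
  | empty =>
    intro L _ _ _ _ _ _ M hM
    rw [Finset.prod_empty, mul_one] at hM
    subst hM
    have h1 := embeds_castHom (K := K) (SQ_empty (Kq := Kq) (L := M)) (PsiQ ψ ∅)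
    exact ⟨_, h1.congr (fun g _ => rfl) (fun g _ => (PsiQ_empty (g 1 1)).symm)
      (fun ℓ _ _ => Finset.prod_empty)⟩
  | insert q Q' hqQ ih =>
    intro L _ hQ hψK hωψ hω1 he M hM
    have hq := hQ q (Finset.mem_insert_self q Q')
    have hQ' : ∀ q' ∈ Q', q'.Prime ∧ q' ∣ L ∧ ¬ q' ∣ L / q' :=
      fun q' hq' => hQ q' (Finset.mem_insert_of_mem hq')
    have hψK' : ∀ q' ∈ Q', ∀ u ∈ Kq q', ψ q' (u : (ZMod q')ˣ) = 1 :=
      fun q' hq' => hψK q' (Finset.mem_insert_of_mem hq')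
    have hωψ' : ∀ q' ∈ Q', ω q' ^ 2 * ψ q' = 1 :=
      fun q' hq' => hωψ q' (Finset.mem_insert_of_mem hq')
    have hω1' : ∀ q' ∈ Q', ψ q' = 1 → ω q' = 1 :=
      fun q' hq' => hω1 q' (Finset.mem_insert_of_mem hq')
    have he' : ∀ q' ∈ Q', ∃ e : AddChar (ZMod q') K, e.IsPrimitive :=
      fun q' hq' => he q' (Finset.mem_insert_of_mem hq')
    have : Fact q.Prime := ⟨hq.1⟩
    have hprodne : (∏ q' ∈ Q', q') ≠ 0 :=
      Finset.prod_ne_zero_iff.mpr fun q' hq' => (hQ' q' hq').1.ne_zero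
    rw [Finset.prod_insert hqQ] at hM
    have hMne : NeZero M := ⟨by
      rw [hM]
      exact Nat.mul_ne_zero (NeZero.ne L) (Nat.mul_ne_zero hq.1.ne_zero hprodne)⟩
    by_cases hψ1 : ψ q = 1
    · -- extension, then the induction hypothesis at level `L`, then restriction
      obtain ⟨ι₁, h1⟩ := exists_embeds_stepA (K := K) (Kq := Kq) (ψ := ψ) hq.2.1 hqQ
        (fun q' hq' => (hQ' q' hq').2.1) hψK' hψ1
      obtain ⟨ι₂, h2⟩ := ih L hQ' hψK' hωψ' hω1' he' (L * ∏ q' ∈ Q', q') rfl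
      have : NeZero (L * ∏ q' ∈ Q', q') := ⟨Nat.mul_ne_zero (NeZero.ne L) hprodne⟩
      have hdvd : L * ∏ q' ∈ Q', q' ∣ M := by
        rw [hM]
        exact Nat.mul_dvd_mul_left L (dvd_mul_left _ _)
      have h3 := embeds_resHom (K := K) hdvd (GH_top_le hdvd) (fun _ : ℤ => (1 : K))
      have h4 := (h1.comp h2 (dvd_mul_right L _)).comp h3 hdvd
      refine ⟨_, h4.congr (fun g _ => rfl) (fun g _ => rfl) ?_⟩
      intro ℓ hℓ hℓM
      have hne : ℓ ≠ q := by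
        rintro rfl
        apply hℓM
        rw [hM]
        exact Dvd.dvd.mul_left (dvd_mul_right _ _) L
      have hcop : Nat.Coprime ℓ q := (Nat.coprime_primes hℓ hq.1).mpr hne
      have hu : IsUnit ((ℓ : ℕ) : ZMod q) := (ZMod.isUnit_iff_coprime ℓ q).mpr hcop
      show ∏ q' ∈ insert q Q', ω q' ((ℓ : ℕ) : ZMod q') =
        1 * (∏ q' ∈ Q', ω q' ((ℓ : ℕ) : ZMod q')) * 1
      rw [Finset.prod_insert hqQ, hω1 q (Finset.mem_insert_self q Q') hψ1,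
        MulChar.one_apply hu, mul_one]
    · -- the twist at `q`, then the induction hypothesis at level `L q`
      obtain ⟨e, hep⟩ := he q (Finset.mem_insert_self q Q')
      obtain ⟨ι₁, h1⟩ := exists_embeds_stepB (K := K) (Kq := Kq) (ψ := ψ) (ω := ω) hq.2.1 hq.2.2
        hqQ (fun q' hq' => ⟨(hQ' q' hq').1, (hQ' q' hq').2.1⟩) hψK'
        (hωψ q (Finset.mem_insert_self q Q')) hψ1 hep
      have hQ'' : ∀ q' ∈ Q', q'.Prime ∧ q' ∣ L * q ∧ ¬ q' ∣ L * q / q' := by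
        intro q' hq'
        obtain ⟨hp', hd', hn'⟩ := hQ' q' hq'
        refine ⟨hp', Dvd.dvd.mul_right hd' q, ?_⟩
        intro hdiv
        have h5 : L * q / q' = L / q' * q := by
          obtain ⟨k, hk⟩ := hd'
          rw [hk, mul_assoc, Nat.mul_div_cancel_left _ hp'.pos, Nat.mul_div_cancel_left _ hp'.pos]
        rw [h5] at hdiv
        rcases (Nat.Prime.dvd_mul hp').mp hdiv with h6 | h6
        · exact hn' h6
        · have : q' = q := (Nat.prime_dvd_prime_iff_eq hp' hq.1).mp h6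
          exact hqQ (this ▸ hq')
      obtain ⟨ι₂, h2⟩ := ih (L * q) hQ'' hψK' hωψ' hω1' he' M (by rw [hM, mul_assoc])
      have hdvd : L * q ∣ M := by
        rw [hM, ← mul_assoc]
        exact dvd_mul_right _ _
      have h4 := h1.comp h2 hdvd
      refine ⟨_, h4.congr (fun g _ => rfl) (fun g _ => rfl) ?_⟩
      intro ℓ _ _
      show ∏ q' ∈ insert q Q', ω q' ((ℓ : ℕ) : ZMod q') =
        ω q ((ℓ : ℕ) : ZMod q) * (∏ q' ∈ Q', ω q' ((ℓ : ℕ) : ZMod q'))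
      rw [Finset.prod_insert hqQ]

end Fermat.Agent.M43.TwistLatI6
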