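/-
Programme M43 (target S43), chapter TWIST-LAT — helper6.
**Decomposition of `Hom(Γ_H(N), K)` under the diamond operators `CycInst0.dia`.**

* `pull_eq_cjs`, `isEigZ_of_dia` : an eigenvector of all `dia H d` with eigenvalues `χ d` is an
  eigenvector for the conjugation action of `Γ₀(N)` in the sense of `TwistLatT6.IsEigZ`, with
  the function `z ↦ (χ z)⁻¹`;
* `proj H χ φ` : the `χ`-component of `φ`; `dia_proj`, `sum_proj`, `isParabolicHom_proj`,
  `proj_eq_zero_or`;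
* `exists_factorization` : a Dirichlet character mod `N` which is trivial on `SQ Kq Q N` is a
  product of characters mod `q`, `q ∈ Q`, trivial on `Kq q` (Chinese remainder theorem).
-/
import Mathlib
import Fermat.Agent.M43.TwistLatI6
import Fermat.Agent.M43.CycInst0

set_option autoImplicit false
set_option linter.unusedSectionVars false

noncomputable section

namespace Fermat.Agent.M43.TwistLatD6

open Matrix.SpecialLinearGroup ModularCurve.Period CongruenceSubgroup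
open scoped MatrixGroups
open Fermat.Agent.M43.TwistMat6 Fermat.Agent.M43.TwistLatA6 Fermat.Agent.M43.TwistLatB6
  Fermat.Agent.M43.TwistLatC6 Fermat.Agent.M43.TwistLatG6 Fermat.Agent.M43.HeckeH0
  Fermat.Agent.M43.TwistLatT6 Fermat.Agent.M43.TwistLatH6 Fermat.Agent.M43.TwistLatX6
  Fermat.Agent.M43.TwistLatE6 Fermat.Agent.M43.TwistLatI6 Fermat.Agent.M43.CycInst0
open Fermat.Agent.M48.ESInv3 Fermat.Agent.M48.CosetOp3 Fermat.Agent.M48.Diamond1

variable {N : ℕ} (H : Subgroup (ZMod N)ˣ) {K : Type*} [Field K]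

/-! ### `pull` and `cjs` -/

/-- the pull-back along conjugation by `g ∈ Γ₀(N)` is `cjs` of `g⁻¹`. -/
theorem pull_eq_cjs {g : SL(2, ℤ)} (hg : g ∈ Gamma0 N)
    (h : MapsInto (mapGL ℝ g) (GH N H) (GH N H)) (φ : Additive (GH N H) →+ K) :
    pull h φ = cjs H ((⟨g, hg⟩ : Gamma0 N)⁻¹) φ := by
  refine AddMonoidHom.ext fun x' => ?_
  obtain ⟨x, rfl⟩ := Additive.ofMul.surjective x'
  rw [pull_apply]
  show _ = φ (Additive.ofMul (⟨(((⟨g, hg⟩ : Gamma0 N)⁻¹ : Gamma0 N) : SL(2, ℤ))⁻¹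
    * (x : SL(2, ℤ)) * (((⟨g, hg⟩ : Gamma0 N)⁻¹ : Gamma0 N) : SL(2, ℤ)), _⟩ : GH N H))
  congr 2
  apply Subtype.ext
  apply cjHom_unique
  show mapGL ℝ g * mapGL ℝ (x : SL(2, ℤ)) = mapGL ℝ ((g⁻¹)⁻¹ * (x : SL(2, ℤ)) * g⁻¹) * mapGL ℝ g
  rw [inv_inv, map_mul, map_mul, map_inv]
  group

variable [NeZero N]

/-- an eigenvector of the diamond operators with character `χ` is an eigenvector for the
conjugation action of `Γ₀(N)` with the function `z ↦ (χ z)⁻¹`. -/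
theorem isEigZ_of_dia {χ : MulChar (ZMod N) K} {φ : Additive (GH N H) →+ K}
    (hφ : ∀ d : (ZMod N)ˣ, dia H d φ = χ (d : ZMod N) • φ) :
    IsEigZ (fun z : ℤ => (χ ((z : ℤ) : ZMod N))⁻¹) (Gamma0 N) φ := by
  intro g hg h
  rw [pull_eq_cjs H hg h φ, ← dia_eq_cjs H (σ := (⟨g, hg⟩ : Gamma0 N)⁻¹) rfl φ, hφ]
  congr 1
  have h1 : unitOf ((⟨g, hg⟩ : Gamma0 N)⁻¹) * unitOf (⟨g, hg⟩ : Gamma0 N) = 1 := by
    rw [← unitOf_mul, inv_mul_cancel, unitOf_one]
  have h2 : χ ((unitOf ((⟨g, hg⟩ : Gamma0 N)⁻¹) : (ZMod N)ˣ) : ZMod N)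
      * χ ((unitOf (⟨g, hg⟩ : Gamma0 N) : (ZMod N)ˣ) : ZMod N) = 1 := by
    rw [← map_mul, ← Units.val_mul, h1, Units.val_one, map_one]
  have h3 : ((unitOf (⟨g, hg⟩ : Gamma0 N) : (ZMod N)ˣ) : ZMod N) = ((g 1 1 : ℤ) : ZMod N) := rfl
  rw [h3] at h2
  exact eq_inv_of_mul_eq_one_left h2

/-! ### The projectors -/

/-- the `χ`-component of `φ`. -/
def proj (χ : MulChar (ZMod N) K) (φ : Additive (GH N H) →+ K) : Additive (GH N H) →+ K :=
  ((N.totient : ℕ) : K)⁻¹ • ∑ d : (ZMod N)ˣ, (χ (d : ZMod N))⁻¹ • dia H d φ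

theorem chi_inv_unit (χ : MulChar (ZMod N) K) (d : (ZMod N)ˣ) :
    χ ((d⁻¹ : (ZMod N)ˣ) : ZMod N) = (χ (d : ZMod N))⁻¹ := by
  have h2 : χ ((d⁻¹ : (ZMod N)ˣ) : ZMod N) * χ (d : ZMod N) = 1 := by
    rw [← map_mul, ← Units.val_mul, inv_mul_cancel, Units.val_one, map_one]
  exact eq_inv_of_mul_eq_one_left h2

theorem chi_unit_ne_zero (χ : MulChar (ZMod N) K) (d : (ZMod N)ˣ) : χ (d : ZMod N) ≠ 0 := by
  intro h0
  have h2 : χ ((d⁻¹ : (ZMod N)ˣ) : ZMod N) * χ (d : ZMod N) = 1 := by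
    rw [← map_mul, ← Units.val_mul, inv_mul_cancel, Units.val_one, map_one]
  rw [h0, mul_zero] at h2
  exact zero_ne_one h2

theorem dia_proj (χ : MulChar (ZMod N) K) (d' : (ZMod N)ˣ) (φ : Additive (GH N H) →+ K) :
    dia H d' (proj H χ φ) = χ (d' : ZMod N) • proj H χ φ := by
  unfold proj
  rw [map_smul, map_sum, smul_comm (χ (d' : ZMod N))]
  congr 1
  rw [Finset.smul_sum]
  have h1 : ∀ d : (ZMod N)ˣ, dia H d' ((χ (d : ZMod N))⁻¹ • dia H d φ)
      = (fun d₁ : (ZMod N)ˣ => χ (d' : ZMod N) • ((χ (d₁ : ZMod N))⁻¹ • dia H d₁ φ)) (d' * d) := by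
    intro d
    show _ = χ (d' : ZMod N) • ((χ ((d' * d : (ZMod N)ˣ) : ZMod N))⁻¹ • dia H (d' * d) φ)
    rw [map_smul, ← dia_mul, Units.val_mul, map_mul, smul_smul, mul_inv,
      ← mul_assoc, mul_inv_cancel₀ (chi_unit_ne_zero χ d'), one_mul]
  rw [Finset.sum_congr rfl fun d _ => h1 d]
  exact Equiv.sum_comp (Equiv.mulLeft d')
    (fun d₁ : (ZMod N)ˣ => χ (d' : ZMod N) • ((χ (d₁ : ZMod N))⁻¹ • dia H d₁ φ))

theorem isParabolicHom_proj (χ : MulChar (ZMod N) K) {φ : Additive (GH N H) →+ K}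
    (hφ : IsParabolicHom (GH N H) φ) : IsParabolicHom (GH N H) (proj H χ φ) := by
  have h1 : proj H χ φ ∈ parabolicHoms K (GH N H) K := by
    unfold proj
    refine Submodule.smul_mem _ _ (Submodule.sum_mem _ fun d _ => Submodule.smul_mem _ _ ?_)
    exact isParabolicHom_dia H d hφ
  exact h1

/-- either the `χ`-component vanishes or `χ` is trivial on `H`. -/
theorem proj_eq_zero_or (χ : MulChar (ZMod N) K) (φ : Additive (GH N H) →+ K) :
    proj H χ φ = 0 ∨ ∀ h ∈ H, χ ((h : (ZMod N)ˣ) : ZMod N) = 1 := by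
  by_cases h0 : proj H χ φ = 0
  · exact Or.inl h0
  · refine Or.inr fun h hh => ?_
    have h1 := dia_proj H χ h φ
    rw [dia_of_mem H hh] at h1
    by_contra hne
    apply h0
    have h2 : (χ ((h : (ZMod N)ˣ) : ZMod N) - 1) • proj H χ φ = 0 := by
      rw [sub_smul, one_smul, ← h1, sub_self]
    rcases smul_eq_zero.mp h2 with h3 | h3
    · exact absurd (sub_eq_zero.mp h3) hne
    · exact h3

/-- **the decomposition** `φ = ∑_χ proj χ φ`. -/
theorem sum_proj [CharZero K] [HasEnoughRootsOfUnity K (Monoid.exponent (ZMod N)ˣ)]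
    (φ : Additive (GH N H) →+ K) :
    ∑ χ : DirichletCharacter K N, proj H χ φ = φ := by
  unfold proj
  rw [← Finset.smul_sum, Finset.sum_comm]
  have h1 : ∀ d : (ZMod N)ˣ, ∑ χ : DirichletCharacter K N, (χ (d : ZMod N))⁻¹ • dia H d φ
      = (if d = 1 then ((N.totient : ℕ) : K) else 0) • dia H d φ := by
    intro d
    rw [← Finset.sum_smul]
    congr 1
    have h2 := DirichletCharacter.sum_characters_eq K ((d⁻¹ : (ZMod N)ˣ) : ZMod N)
    have h3 : (((d⁻¹ : (ZMod N)ˣ) : ZMod N) = 1) ↔ d = 1 := by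
      rw [Units.val_eq_one, inv_eq_one]
    rw [← Finset.sum_congr rfl fun χ _ => chi_inv_unit χ d, h2]
    simp only [h3]
  rw [Finset.sum_congr rfl fun d _ => h1 d, Finset.sum_eq_single (1 : (ZMod N)ˣ)]
  · rw [if_pos rfl, dia_one, smul_smul, inv_mul_cancel₀, one_smul]
    have : 0 < N.totient := Nat.totient_pos.mpr (Nat.pos_of_ne_zero (NeZero.ne N))
    exact_mod_cast this.ne'
  · intro d _ hd
    rw [if_neg hd, zero_smul]
  · intro h
    exact absurd (Finset.mem_univ _) h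

/-! ### The Chinese remainder theorem for units and characters -/

section CRT

/-- the CRT section `(ℤ/q)ˣ → (ℤ/qM')ˣ`, `a ↦ (a, 1)`. -/
def crtSec {q M' : ℕ} (hcop : Nat.Coprime q M') : (ZMod q)ˣ →* (ZMod (q * M'))ˣ :=
  ((Units.mapEquiv (ZMod.chineseRemainder hcop).toMulEquiv).symm.toMonoidHom.comp
    (MulEquiv.prodUnits (M := ZMod q) (N := ZMod M')).symm.toMonoidHom).comp
    (MonoidHom.inl (ZMod q)ˣ (ZMod M')ˣ)

theorem crt_fst {q M' : ℕ} (hcop : Nat.Coprime q M') (x : ZMod (q * M')) :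
    (ZMod.chineseRemainder hcop x).1 = ZMod.cast x := by
  have : ZMod.chineseRemainder hcop x
      = ZMod.castHom (show q.lcm M' ∣ q * M' by simp [Nat.lcm_dvd_iff]) (ZMod q × ZMod M') x := rfl
  rw [this, ZMod.castHom_apply, Prod.fst_zmod_cast]

theorem crt_snd {q M' : ℕ} (hcop : Nat.Coprime q M') (x : ZMod (q * M')) :
    (ZMod.chineseRemainder hcop x).2 = ZMod.cast x := by
  have : ZMod.chineseRemainder hcop x
      = ZMod.castHom (show q.lcm M' ∣ q * M' by simp [Nat.lcm_dvd_iff]) (ZMod q × ZMod M') x := rfl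
  rw [this, ZMod.castHom_apply, Prod.snd_zmod_cast]

theorem crt_crtSec {q M' : ℕ} (hcop : Nat.Coprime q M') (a : (ZMod q)ˣ) :
    ZMod.chineseRemainder hcop ((crtSec hcop a : (ZMod (q * M'))ˣ) : ZMod (q * M'))
      = ((a : ZMod q), 1) := by
  show ZMod.chineseRemainder hcop ((ZMod.chineseRemainder hcop).symm _) = _
  rw [RingEquiv.apply_symm_apply]
  rfl

theorem unitsMap_crtSec {q M' : ℕ} (hcop : Nat.Coprime q M') (a : (ZMod q)ˣ) :
    ZMod.unitsMap (Dvd.intro M' rfl) (crtSec hcop a) = a := by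
  apply Units.ext
  rw [ZMod.unitsMap_val, ← crt_fst hcop, crt_crtSec]

theorem unitsMap_crtSec' {q M' : ℕ} (hcop : Nat.Coprime q M') (a : (ZMod q)ˣ) :
    ZMod.unitsMap (Dvd.intro_left q rfl) (crtSec hcop a) = (1 : (ZMod M')ˣ) := by
  apply Units.ext
  rw [ZMod.unitsMap_val, ← crt_snd hcop, crt_crtSec]
  rfl

theorem exists_crtHom {L q M' : ℕ} (hL : L = q * M') (hcop : q.Coprime M') :
    ∃ s : (ZMod q)ˣ →* (ZMod L)ˣ,
      (∀ (h : q ∣ L) (a : (ZMod q)ˣ), ZMod.unitsMap h (s a) = a) ∧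
      (∀ (h : M' ∣ L) (a : (ZMod q)ˣ), ZMod.unitsMap h (s a) = 1) := by
  subst hL
  exact ⟨crtSec hcop, fun _ a => unitsMap_crtSec hcop a, fun _ a => unitsMap_crtSec' hcop a⟩

/-- a section of `(ℤ/L)ˣ → (ℤ/q)ˣ`, `q ∥ L` prime, with values `≡ 1` modulo every divisor of `L`
which is prime to `q`. -/
theorem exists_sec {L q : ℕ} (hq : q.Prime) (hqL : q ∣ L) (hqL' : ¬ q ∣ L / q) :
    ∃ s : (ZMod q)ˣ →* (ZMod L)ˣ,
      (∀ (h : q ∣ L) (a : (ZMod q)ˣ), ZMod.unitsMap h (s a) = a) ∧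
      (∀ (m : ℕ) (hm : m ∣ L), m.Coprime q → ∀ a : (ZMod q)ˣ, ZMod.unitsMap hm (s a) = 1) := by
  have hL : L = q * (L / q) := (Nat.mul_div_cancel' hqL).symm
  have hcop : q.Coprime (L / q) := (Nat.Prime.coprime_iff_not_dvd hq).mpr hqL'
  obtain ⟨s, hs1, hs2⟩ := exists_crtHom hL hcop
  refine ⟨s, hs1, ?_⟩
  intro m hm hmq a
  have hm' : m ∣ L / q := by
    have : m ∣ q * (L / q) := hL ▸ hm
    exact hmq.dvd_of_dvd_mul_left this
  have hd : L / q ∣ L := Nat.div_dvd_of_dvd hqL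
  have h1 : ZMod.unitsMap hm (s a) = ZMod.unitsMap hm' (ZMod.unitsMap hd (s a)) := by
    have := congrArg (fun f : (ZMod L)ˣ →* (ZMod m)ˣ => f (s a)) (ZMod.unitsMap_comp hm' hd)
    exact this.symm
  rw [h1, hs2 hd a, map_one]

end CRT

/-- **CRT for characters**: a character mod `N` which is trivial on `SQ Kq Q N` is the product of
characters mod `q`, `q ∈ Q`, which are trivial on `Kq q`. -/
theorem exists_factorization {Q : Finset ℕ} (hQ : ∀ q ∈ Q, q.Prime ∧ q ∣ N ∧ ¬ q ∣ N / q)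
    (Kq : ∀ q : ℕ, Subgroup (ZMod q)ˣ) (χ : MulChar (ZMod N) K)
    (hχ : ∀ u ∈ SQ Kq Q N, χ ((u : (ZMod N)ˣ) : ZMod N) = 1) :
    ∃ ψ : ∀ q : ℕ, MulChar (ZMod q) K,
      (∀ q ∈ Q, ∀ u ∈ Kq q, ψ q ((u : (ZMod q)ˣ) : ZMod q) = 1) ∧
      (∀ q ∈ Q, ∀ u : (ZMod q)ˣ, ∃ v : (ZMod N)ˣ, ψ q (u : ZMod q) = χ (v : ZMod N)) ∧
      (∀ d : (ZMod N)ˣ,
        χ (d : ZMod N) = ∏ q ∈ Q, ψ q (ZMod.cast ((d : (ZMod N)ˣ) : ZMod N) : ZMod q)) := by
  have key : ∀ q : ℕ, ∃ s : (ZMod q)ˣ →* (ZMod N)ˣ, q ∈ Q →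
      ((∀ (h : q ∣ N) (a : (ZMod q)ˣ), ZMod.unitsMap h (s a) = a) ∧
      (∀ (m : ℕ) (hm : m ∣ N), m.Coprime q → ∀ a : (ZMod q)ˣ, ZMod.unitsMap hm (s a) = 1)) := by
    intro q
    by_cases hq : q ∈ Q
    · obtain ⟨s, hs⟩ := exists_sec (hQ q hq).1 (hQ q hq).2.1 (hQ q hq).2.2
      exact ⟨s, fun _ => hs⟩
    · exact ⟨1, fun h => absurd h hq⟩
  choose s hs using key
  have hcopr : ∀ q ∈ Q, ∀ q' ∈ Q, q ≠ q' → q.Coprime q' := fun q hq q' hq' hne =>
    (Nat.coprime_primes (hQ q hq).1 (hQ q' hq').1).mpr hne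
  -- the values of `s q` lie in the right places
  have hsmem : ∀ q ∈ Q, ∀ u : (ZMod q)ˣ, ∀ q₀ ∈ Q, ∀ h : q₀ ∣ N,
      ZMod.unitsMap h (s q u) = if q₀ = q then (if e : q₀ = q then e ▸ u else 1) else 1 := by
    intro q hq u q₀ hq₀ h
    by_cases e : q₀ = q
    · subst e
      rw [if_pos rfl, dif_pos rfl]
      exact (hs q₀ hq).1 h u
    · rw [if_neg e]
      exact (hs q hq).2 q₀ h (hcopr q₀ hq₀ q hq e) u
  refine ⟨fun q => MulChar.ofUnitHom (χ.toUnitHom.comp (s q)), ?_, ?_, ?_⟩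
  · intro q hq u hu
    rw [MulChar.ofUnitHom_coe, MonoidHom.comp_apply, MulChar.coe_toUnitHom]
    apply hχ
    rw [mem_SQ]
    intro q₀ hq₀ h
    rw [hsmem q hq u q₀ hq₀ h]
    by_cases e : q₀ = q
    · subst e
      rw [if_pos rfl, dif_pos rfl]
      exact hu
    · rw [if_neg e]
      exact Subgroup.one_mem _
  · intro q hq u
    exact ⟨s q u, by rw [MulChar.ofUnitHom_coe, MonoidHom.comp_apply, MulChar.coe_toUnitHom]⟩
  · intro d
    set d' : (ZMod N)ˣ := ∏ x ∈ Q.attach, s x.1 (ZMod.unitsMap (hQ x.1 x.2).2.1 d) with hd'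
    have hmem : d * d'⁻¹ ∈ SQ Kq Q N := by
      rw [mem_SQ]
      intro q₀ hq₀ h
      have h1 : ZMod.unitsMap h d' = ZMod.unitsMap h d := by
        rw [hd', map_prod, Finset.prod_eq_single (⟨q₀, hq₀⟩ : {x // x ∈ Q})]
        · exact (hs q₀ hq₀).1 h _
        · intro x _ hx
          have hne : q₀ ≠ x.1 := fun e => hx (Subtype.ext e.symm)
          exact (hs x.1 x.2).2 q₀ h (hcopr q₀ hq₀ x.1 x.2 hne) _
        · intro hx
          exact absurd (Finset.mem_attach _ _) hx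
      rw [map_mul, map_inv, h1, mul_inv_cancel]
      exact Subgroup.one_mem _
    have h2 : χ (d : ZMod N) = χ (d' : ZMod N) := by
      have h3 : (d : ZMod N) = ((d * d'⁻¹ : (ZMod N)ˣ) : ZMod N) * (d' : ZMod N) := by
        rw [← Units.val_mul, inv_mul_cancel_right]
      rw [h3, map_mul, hχ _ hmem, one_mul]
    rw [h2, hd', Units.coe_prod, map_prod, ← Finset.prod_attach Q]
    refine Finset.prod_congr rfl fun x _ => ?_
    rw [← ZMod.unitsMap_val (hQ x.1 x.2).2.1, MulChar.ofUnitHom_coe, MonoidHom.comp_apply,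
      MulChar.coe_toUnitHom]

end Fermat.Agent.M43.TwistLatD6
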