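/-
M43 (helper3) [BRIDGE / support] BridgeChar3: **characters**.

* `unitsMap_cycloM` : the mod-`M` cyclotomic characters of `DirCharGal8` are compatible with
  reduction, `ZMod.unitsMap h (cycloM M σ) = cycloM m σ` (`m ∣ M`);
* `exists_factor_hom` : a homomorphism `χ : (ℤ/N)ˣ →* G` (`G` a commutative group) which is trivial
  on `SQ Kq Q N` (product type at primes `q ∥ N`) factors as `χ d = ∏_{q ∈ Q} χq q (d mod q)` with
  `χq q = χ ∘ s q` for sections `s q : (ℤ/q)ˣ →* (ℤ/N)ˣ` (`≡ 1` modulo the prime-to-`q` part).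
-/
import Mathlib
import Fermat.Agent.M43.TwistLatD6
import Fermat.Agent.M48.DirCharGal8

set_option autoImplicit false
set_option linter.unusedSectionVars false

noncomputable section

namespace Fermat.Agent.M43.BridgeChar3

open Fermat.Agent.M48.DirCharGal8 Fermat.Agent.M43.TwistLatI6 Fermat.Agent.M43.TwistLatD6

local notation "Qb" => AlgebraicClosure ℚ
local notation "GQ" => (AlgebraicClosure ℚ ≃ₐ[ℚ] AlgebraicClosure ℚ)

/-! ### Cyclotomic characters and reduction -/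

theorem unitsMap_cycloM {m M : ℕ} [NeZero m] [NeZero M] (h : m ∣ M) (σ : GQ) :
    ZMod.unitsMap h (cycloM M σ) = cycloM m σ := by
  obtain ⟨k, hk⟩ := h
  have hM0 : M ≠ 0 := NeZero.ne M
  have hm0 : m ≠ 0 := NeZero.ne m
  have hk0 : k ≠ 0 := by
    rintro rfl
    exact hM0 (by rw [hk, mul_zero])
  -- `η = ζ_M ^ k` is a primitive `m`-th root of unity
  have hη : IsPrimitiveRoot (zetaM M ^ k) m := by
    have := (zetaM_spec M).pow (Nat.pos_of_ne_zero hM0) (show M = k * m by rw [hk, mul_comm])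
    exact this
  -- `ζ_m = η ^ j`
  obtain ⟨j, -, hj⟩ := hη.eq_pow_of_pow_eq_one (zetaM_spec m).pow_eq_one
  set d : ℕ := ((cycloM M σ : (ZMod M)ˣ) : ZMod M).val with hd
  have h1 : σ (zetaM m) = zetaM m ^ d := by
    rw [← hj, map_pow, map_pow, cycloM_spec M σ, ← hd]
    ring
  have h2 := coe_cycloM_eq h1
  apply Units.ext
  rw [ZMod.unitsMap_val, h2, hd, ZMod.natCast_val]

/-! ### Factorisation of characters trivial on `SQ Kq Q N` -/

/-- **CRT for homomorphisms**: a homomorphism `χ : (ℤ/N)ˣ →* G` trivial on `SQ Kq Q N` is the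
product of homomorphisms `χq q : (ℤ/q)ˣ →* G`, `q ∈ Q`, trivial on `Kq q` (family form: `u q` any
family of units with `u q = d mod q`). -/
theorem exists_factor_hom {N : ℕ} {G : Type*} [CommGroup G] {Q : Finset ℕ}
    (hQ : ∀ q ∈ Q, q.Prime ∧ q ∣ N ∧ ¬ q ∣ N / q)
    (Kq : ∀ q : ℕ, Subgroup (ZMod q)ˣ) (χ : (ZMod N)ˣ →* G)
    (hχ : ∀ u ∈ SQ Kq Q N, χ u = 1) :
    ∃ χq : ∀ q : ℕ, (ZMod q)ˣ →* G,
      (∀ q ∈ Q, ∀ u ∈ Kq q, χq q u = 1) ∧
      (∀ q, ∀ u : (ZMod q)ˣ, ∃ v : (ZMod N)ˣ, χq q u = χ v) ∧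
      (∀ (d : (ZMod N)ˣ) (u : ∀ q : ℕ, (ZMod q)ˣ),
        (∀ q ∈ Q, ∀ h : q ∣ N, ZMod.unitsMap h d = u q) → χ d = ∏ q ∈ Q, χq q (u q)) := by
  have key : ∀ q : ℕ, ∃ s : (ZMod q)ˣ →* (ZMod N)ˣ, q ∈ Q →
      ((∀ (h : q ∣ N) (a : (ZMod q)ˣ), ZMod.unitsMap h (s a) = a) ∧
      (∀ (m : ℕ) (hm : m ∣ N), m.Coprime q → ∀ a : (ZMod q)ˣ, ZMod.unitsMap hm (s a) = 1)) := by
    intro q
    by_cases hq : q ∈ Q
    · obtain ⟨s, hs⟩ := exists_sec (hQ q hq).1 (hQ q hq).2.1 (hQ q hq).2.2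
      exact ⟨s, fun _ => hs⟩
    · exact ⟨1, fun h => absurd h hq⟩
  choose s hs using key
  have hcopr : ∀ q ∈ Q, ∀ q' ∈ Q, q ≠ q' → q.Coprime q' := fun q hq q' hq' hne =>
    (Nat.coprime_primes (hQ q hq).1 (hQ q' hq').1).mpr hne
  refine ⟨fun q => χ.comp (s q), ?_, fun q u => ⟨s q u, rfl⟩, ?_⟩
  · intro q hq u hu
    rw [MonoidHom.comp_apply]
    apply hχ
    rw [mem_SQ]
    intro q₀ hq₀ h
    by_cases e : q₀ = q
    · subst e
      rw [(hs q₀ hq).1 h u]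
      exact hu
    · rw [(hs q hq).2 q₀ h (hcopr q₀ hq₀ q hq e) u]
      exact Subgroup.one_mem _
  · intro d u hu
    set d' : (ZMod N)ˣ := ∏ q ∈ Q, s q (u q) with hd'
    have hmem : d * d'⁻¹ ∈ SQ Kq Q N := by
      rw [mem_SQ]
      intro q₀ hq₀ h
      have h1 : ZMod.unitsMap h d' = ZMod.unitsMap h d := by
        rw [hd', map_prod, Finset.prod_eq_single q₀]
        · rw [(hs q₀ hq₀).1 h _, hu q₀ hq₀ h]
        · intro q hq hne
          exact (hs q hq).2 q₀ h (hcopr q₀ hq₀ q hq (Ne.symm hne)) _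
        · intro hx
          exact absurd hq₀ hx
      rw [map_mul, map_inv, h1, mul_inv_cancel]
      exact Subgroup.one_mem _
    have h2 : χ d = χ d' := by
      have h3 : d = (d * d'⁻¹) * d' := by rw [inv_mul_cancel_right]
      rw [h3, map_mul, hχ _ hmem, one_mul]
    rw [h2, hd', map_prod]
    rfl

end Fermat.Agent.M43.BridgeChar3
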