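/-
Programme M43 (target S43), pillar (P-GLOB), helper3: **a universal tame `p`-generator of the
inertia group at `q ≠ p`.**

`A` a valuation subring of `ℚ̄` over the prime `q`, `I_A` its inertia group, `p ≠ q` a prime.
`TameInertia8.isCyclic_range_of_inertia`: the image of every continuous homomorphism
`f : I_A → H` without `q`-power torsion is cyclic.  Here:

* **`exists_universal_generator`**: there is ONE `s ∈ I_A` such that for EVERY group `H` and every
  continuous `f : I_A → H` all of whose values have `p`-power order, `f(I_A)` is generated by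
  `f s`.  (No ramified `ℤ/p`-extension has to be exhibited: if `I_A` has no non-trivial continuous
  character of order `p`, then every such `f` is trivial and `s = 1` works; otherwise any `s`
  outside the kernel of one such character works, by cyclicity of the image of pairs `(f, f₀)`.)
-/
import Mathlib
import Fermat.Agent.W56.TameInertia8

set_option autoImplicit false
set_option linter.unusedSectionVars false
set_option linter.style.haveILetI false

namespace Fermat.Agent.M43.GlobTame3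

open Fermat.Agent.W56.TameInertia8

section Universal

variable {q : ℕ} {A : ValuationSubring Qb}

/-- Continuity of a homomorphism from the inertia group: it kills the elements fixing a finite
extension of `ℚ` pointwise. -/
def ContI {H : Type*} [Group H] (f : ↥(A.inertiaSubgroupIn ℚ) →* H) : Prop :=
  ∃ L : IntermediateField ℚ Qb, FiniteDimensional ℚ L ∧
    ∀ σ : ↥(A.inertiaSubgroupIn ℚ), (∀ x ∈ L, (σ : GQ) x = x) → f σ = 1

theorem contI_prod {H H' : Type*} [Group H] [Group H'] {f : ↥(A.inertiaSubgroupIn ℚ) →* H}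
    {f' : ↥(A.inertiaSubgroupIn ℚ) →* H'} (hf : ContI f) (hf' : ContI f') :
    ContI (f.prod f') := by
  obtain ⟨L, hL, h⟩ := hf
  obtain ⟨L', hL', h'⟩ := hf'
  haveI := hL
  haveI := hL'
  refine ⟨L ⊔ L', inferInstance, fun σ hσ => ?_⟩
  rw [MonoidHom.prod_apply, Prod.mk_eq_one]
  exact ⟨h σ fun x hx => hσ x ((le_sup_left : L ≤ L ⊔ L') hx),
    h' σ fun x hx => hσ x ((le_sup_right : L' ≤ L ⊔ L') hx)⟩

variable (p : ℕ) [hp : Fact p.Prime]

/-- The image of a continuous homomorphism with values of `p`-power order is cyclic. -/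
theorem isCyclic_range_of_pPow (hq : q.Prime) (hA : A.LiesOverPrime q) (hpq : p ≠ q)
    {H : Type*} [Group H] (f : ↥(A.inertiaSubgroupIn ℚ) →* H) (hf : ContI f)
    (hfp : ∀ σ, ∃ a : ℕ, f σ ^ p ^ a = 1) : IsCyclic f.range := by
  obtain ⟨L, hL, h⟩ := hf
  haveI := hL
  refine isCyclic_range_of_inertia hq hA f L h fun σ a ha => ?_
  obtain ⟨b, hb⟩ := hfp σ
  have h1 : orderOf (f σ) ∣ p ^ b := orderOf_dvd_of_pow_eq_one hb
  have h2 : orderOf (f σ) ∣ q ^ a := orderOf_dvd_of_pow_eq_one ha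
  have hcop : Nat.Coprime (p ^ b) (q ^ a) :=
    Nat.Coprime.pow _ _ ((Nat.coprime_primes hp.out hq).2 hpq)
  have h3 : orderOf (f σ) = 1 := Nat.eq_one_of_dvd_coprimes hcop h1 h2
  exact orderOf_eq_one_iff.1 h3

/-- In a group, if `c` has `p`-power order and `p ∤ i`, then `c` is a power of `c ^ i`. -/
theorem exists_zpow_zpow_eq {H : Type*} [Group H] {c : H} {b : ℕ} (hc : c ^ p ^ b = 1) {i : ℤ}
    (hi : ¬ (p : ℤ) ∣ i) : ∃ u : ℤ, (c ^ i) ^ u = c := by
  have hcop : IsCoprime i ((p : ℤ) ^ b) := by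
    refine IsCoprime.pow_right ?_
    rw [Int.isCoprime_iff_gcd_eq_one]
    have hpp : Prime (p : ℤ) := Nat.prime_iff_prime_int.1 hp.out
    rw [Int.gcd_comm]
    exact (Int.isCoprime_iff_gcd_eq_one.1
      ((Prime.coprime_iff_not_dvd hpp).2 hi))
  obtain ⟨u, v, huv⟩ := hcop
  refine ⟨u, ?_⟩
  have h1 : c ^ ((p : ℤ) ^ b) = 1 := by
    have : ((p : ℤ) ^ b) = ((p ^ b : ℕ) : ℤ) := by push_cast; rfl
    rw [this, zpow_natCast, hc]
  calc (c ^ i) ^ u = c ^ (u * i) := by rw [← zpow_mul, mul_comm]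
    _ = c ^ (u * i) * (c ^ ((p : ℤ) ^ b)) ^ v := by rw [h1, one_zpow, mul_one]
    _ = c ^ (u * i + v * (p : ℤ) ^ b) := by rw [← zpow_mul, ← zpow_add, mul_comm ((p : ℤ) ^ b) v]
    _ = c := by rw [huv, zpow_one]

/-- **A universal tame `p`-generator.** -/
theorem exists_universal_generator (hq : q.Prime) (hA : A.LiesOverPrime q) (hpq : p ≠ q) :
    ∃ s : ↥(A.inertiaSubgroupIn ℚ), ∀ {H : Type} [Group H]
      (f : ↥(A.inertiaSubgroupIn ℚ) →* H), ContI f → (∀ σ, ∃ a : ℕ, f σ ^ p ^ a = 1) →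
        ∀ σ, f σ ∈ Subgroup.zpowers (f s) := by
  classical
  by_cases hex : ∃ (s : ↥(A.inertiaSubgroupIn ℚ))
      (f₀ : ↥(A.inertiaSubgroupIn ℚ) →* Multiplicative (ZMod p)), ContI f₀ ∧ f₀ s ≠ 1
  · -- a non-trivial character of order `p` exists
    obtain ⟨s, f₀, hf₀, hs⟩ := hex
    refine ⟨s, fun {H} _ f hf hfp σ => ?_⟩
    have hf₀p : ∀ x : Multiplicative (ZMod p), x ^ p = 1 := by
      intro x
      apply Multiplicative.toAdd.injective
      rw [toAdd_pow, toAdd_one, nsmul_eq_mul, CharP.cast_eq_zero, zero_mul]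
    have hGp : ∀ τ, ∃ a : ℕ, (f.prod f₀) τ ^ p ^ a = 1 := by
      intro τ
      obtain ⟨a, ha⟩ := hfp τ
      refine ⟨a + 1, ?_⟩
      rw [MonoidHom.prod_apply, Prod.pow_mk, Prod.mk_eq_one]
      constructor
      · rw [pow_succ, pow_mul, ha, one_pow]
      · rw [pow_succ', pow_mul, hf₀p, one_pow]
    have hcyc := isCyclic_range_of_pPow p hq hA hpq (f.prod f₀) (contI_prod hf hf₀) hGp
    obtain ⟨⟨g, ρ₀, rfl⟩, hg⟩ := hcyc.exists_generator
    -- `s` and `σ` as powers of the generator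
    obtain ⟨i, hi⟩ := Subgroup.mem_zpowers_iff.1 (hg ⟨(f.prod f₀) s, s, rfl⟩)
    obtain ⟨n, hn⟩ := Subgroup.mem_zpowers_iff.1 (hg ⟨(f.prod f₀) σ, σ, rfl⟩)
    have hi' := congrArg Subtype.val hi
    have hn' := congrArg Subtype.val hn
    rw [Subgroup.coe_zpow] at hi' hn'
    have hi1 : f ρ₀ ^ i = f s := by
      have := congrArg Prod.fst hi'
      rwa [Prod.pow_fst] at this
    have hi2 : f₀ ρ₀ ^ i = f₀ s := by
      have := congrArg Prod.snd hi'
      rwa [Prod.pow_snd] at this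
    have hn1 : f ρ₀ ^ n = f σ := by
      have := congrArg Prod.fst hn'
      rwa [Prod.pow_fst] at this
    -- `p ∤ i`
    have hpi : ¬ (p : ℤ) ∣ i := by
      rintro ⟨j, rfl⟩
      apply hs
      rw [← hi2, zpow_mul, zpow_natCast, hf₀p, one_zpow]
    obtain ⟨a, ha⟩ := hfp ρ₀
    obtain ⟨u, hu⟩ := exists_zpow_zpow_eq p ha hpi
    rw [Subgroup.mem_zpowers_iff]
    refine ⟨u * n, ?_⟩
    rw [zpow_mul, ← hi1, hu, hn1]
  · -- no non-trivial character of order `p`: every such `f` is trivial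
    push Not at hex
    refine ⟨1, fun {H} _ f hf hfp σ => ?_⟩
    suffices h1 : ∀ τ, f τ = 1 by
      rw [h1 σ]
      exact Subgroup.one_mem _
    by_contra hne
    push Not at hne
    obtain ⟨τ₀, hτ₀⟩ := hne
    have hcyc := isCyclic_range_of_pPow p hq hA hpq f hf hfp
    obtain ⟨⟨c, τ, rfl⟩, hc⟩ := hcyc.exists_generator
    have hexp : ∀ τ', ∃ n : ℤ, f τ ^ n = f τ' := by
      intro τ'
      obtain ⟨n, hn⟩ := Subgroup.mem_zpowers_iff.1 (hc ⟨f τ', τ', rfl⟩)
      have hn' := congrArg Subtype.val hn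
      rw [Subgroup.coe_zpow] at hn'
      exact ⟨n, hn'⟩
    -- the generator is non-trivial, of order `p ^ b`, `b ≥ 1`
    have hcne : f τ ≠ 1 := by
      intro h
      obtain ⟨n, hn⟩ := hexp τ₀
      rw [h, one_zpow] at hn
      exact hτ₀ hn.symm
    obtain ⟨a, ha⟩ := hfp τ
    have hdvd : p ∣ orderOf (f τ) := by
      obtain ⟨b, -, hb⟩ := (Nat.dvd_prime_pow hp.out).1 (orderOf_dvd_of_pow_eq_one ha)
      rcases Nat.eq_zero_or_pos b with h0 | hpos
      · rw [h0, pow_zero, orderOf_eq_one_iff] at hb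
        exact absurd hb hcne
      · rw [hb]
        exact dvd_pow_self p (Nat.pos_iff_ne_zero.1 hpos)
    -- exponents are well defined modulo `p`
    have hmod : ∀ m n : ℤ, f τ ^ m = f τ ^ n → ((m : ℤ) : ZMod p) = ((n : ℤ) : ZMod p) := by
      intro m n hmn
      have h1 := zpow_eq_zpow_iff_modEq.1 hmn
      have h2 : m ≡ n [ZMOD (p : ℤ)] := Int.ModEq.of_dvd (Int.natCast_dvd_natCast.2 hdvd) h1
      exact (ZMod.intCast_eq_intCast_iff m n p).2 h2
    choose e he using hexp
    let f₀ : ↥(A.inertiaSubgroupIn ℚ) →* Multiplicative (ZMod p) :=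
      MonoidHom.mk' (fun τ' => Multiplicative.ofAdd ((e τ' : ℤ) : ZMod p)) (by
        intro x y
        rw [← ofAdd_add, ← Int.cast_add]
        congr 1
        apply hmod
        rw [he, zpow_add, he, he, map_mul])
    have hf₀c : ContI f₀ := by
      obtain ⟨L, hL, h⟩ := hf
      refine ⟨L, hL, fun σ' hσ' => ?_⟩
      show Multiplicative.ofAdd ((e σ' : ℤ) : ZMod p) = 1
      have h1 : f τ ^ e σ' = f τ ^ (0 : ℤ) := by rw [he, h σ' hσ', zpow_zero]
      rw [hmod _ _ h1, Int.cast_zero]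
      rfl
    have h2 : f₀ τ = 1 := hex τ f₀ hf₀c
    have h3 : f₀ τ = Multiplicative.ofAdd (1 : ZMod p) := by
      show Multiplicative.ofAdd ((e τ : ℤ) : ZMod p) = _
      have h1 : f τ ^ e τ = f τ ^ (1 : ℤ) := by rw [he, zpow_one]
      rw [hmod _ _ h1, Int.cast_one]
    rw [h3] at h2
    have h4 : (1 : ZMod p) = 0 := Multiplicative.ofAdd.injective h2
    exact one_ne_zero h4

end Universal

end Fermat.Agent.M43.GlobTame3
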