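/-
M43 (helper3) [BRIDGE / generators] BridgeRam3: **the inertia group at `q` acts on `μ_q` through
all of `(ℤ/q)ˣ`** (`ℚ(ζ_q)/ℚ` is totally ramified at `q`), in the form needed to choose the chain
generators of the Hecke side.

* `exists_inertia_pow` : for `a` prime to `q` and a valuation subring `A` of `ℚ̄` over `q` there is
  `τ` in the inertia group of `A` with `τ ζ = ζ ^ a` for all `ζ ∈ μ_q` (generalises helper9's
  `S33x.InertiaCyclo9.exists_inertia_pow_two`; `S13.UnramBridge.exists_inertia_lift`);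
* `exists_inertia_cycloM_eq` : `cycloM q` restricted to the inertia group of `A` is onto `(ℤ/q)ˣ`;
* `exists_inertia_cycloM_level` : for `q ∥ N` and `d : (ℤ/N)ˣ`, `d ≡ 1 mod N/q`, there is `τ` in the
  inertia group with `cycloM N τ = d`;
* `cycloM_level_of_mem_inertia` : conversely `cycloM N τ ≡ 1 mod m` for `m ∣ N` prime to `q`;
* `gen_of_universal` : the class of `cycloM q s` generates `(ℤ/q)ˣ ⧸ Kq q m` (`m` a power of `p`) for
  a universal tame `p`-generator `s` of the inertia group at `q` (`GlobTame3`);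
* `gen_pow` : with `g` also `g ^ e` generates modulo `Kq q m` when `m ∣ 2 e - 1`.
-/
import Mathlib
import Fermat.Agent.S33x.InertiaCyclo9
import Fermat.Agent.M43.BridgeChar3
import Fermat.Agent.M43.ChainGrp5
import Fermat.Agent.M43.GlobTame3

set_option autoImplicit false
set_option linter.style.haveILetI false
set_option linter.unusedSectionVars false

noncomputable section

namespace Fermat.Agent.M43.BridgeRam3

open Polynomial
open Fermat.Agent.ES.J.CycloChar8 Fermat.Agent.M48.DirCharGal8 Fermat.Agent.S33x.InertiaCyclo9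

local notation "Qb" => AlgebraicClosure ℚ
local notation "GQ" => (AlgebraicClosure ℚ ≃ₐ[ℚ] AlgebraicClosure ℚ)

variable (q : ℕ) [hq : Fact q.Prime]

/-- **the inertia group at `q` acts on `μ_q` through all of `(ℤ/q)ˣ`**, root-of-unity form. -/
theorem exists_inertia_pow (a : ℕ) (ha : a.Coprime q) (A : ValuationSubring Qb)
    (hA : A.LiesOverPrime q) :
    ∃ τ ∈ A.inertiaSubgroupIn ℚ, ∀ ζ : Qb, ζ ^ q = 1 → τ ζ = ζ ^ a := by
  classical
  obtain ⟨ζ, hζ'⟩ := exists_primitiveRoot q 1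
  have hζ : IsPrimitiveRoot ζ q := by simpa using hζ'
  have hq0 : q ≠ 0 := hq.out.ne_zero
  haveI : NeZero q := ⟨hq0⟩
  have hζa : IsPrimitiveRoot (ζ ^ a) q := hζ.pow_of_coprime a ha
  have hmin : minpoly ℚ ζ = cyclotomic q ℚ :=
    (cyclotomic_eq_minpoly_rat hζ hq.out.pos).symm
  have hroot : aeval (ζ ^ a) (minpoly ℚ ζ) = 0 := by
    rw [hmin, aeval_def, eval₂_eq_eval_map, map_cyclotomic]
    exact hζa.isRoot_cyclotomic hq.out.pos
  have halg : IsAlgebraic ℚ ζ := Algebra.IsAlgebraic.isAlgebraic ζ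
  obtain ⟨σ₀, hσ₀⟩ := minpoly.exists_algEquiv_of_root' (K := ℚ) (L := Qb) halg hroot
  -- the field `K = ℚ(ζ)`
  set K : IntermediateField ℚ Qb := IntermediateField.adjoin ℚ {ζ} with hK
  haveI hcyc : IsCyclotomicExtension {q} ℚ K := hζ.intermediateField_adjoin_isCyclotomicExtension ℚ
  haveI : IsGalois ℚ K := IsCyclotomicExtension.isGalois {q} ℚ K
  have hζK : ζ ∈ K := IntermediateField.mem_adjoin_simple_self ℚ ζ
  set ζK : K := ⟨ζ, hζK⟩ with hζKdef
  have hζKprim : IsPrimitiveRoot ζK q := by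
    have : (algebraMap K Qb) ζK = ζ := rfl
    exact IsPrimitiveRoot.of_map_of_injective (f := algebraMap K Qb)
      (by rw [this]; exact hζ) (algebraMap K Qb).injective
  let τ₀ : K ≃ₐ[ℚ] K := σ₀.restrictNormal K
  have hτ₀ : ∀ x : K, ((τ₀ x : K) : Qb) = σ₀ x := fun x => AlgEquiv.restrictNormal_commutes σ₀ K x
  have hζ1 : ζ - 1 ∈ A.nonunits := sub_one_mem_nonunits A hq.out hA hζ.pow_eq_one
  have hζA : ζ ∈ A := mem_of_pow_eq_one hq0 hζ.pow_eq_one
  -- integral elements of `K` are polynomials in `ζ` with integer coefficients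
  have hint : ∀ x : K, IsIntegral ℤ x → (((τ₀ x : K) : Qb) - x) ∈ A.nonunits := by
    intro x hx
    have hic : IsIntegralClosure (Algebra.adjoin ℤ ({ζK} : Set K)) ℤ K :=
      IsCyclotomicExtension.Rat.isIntegralClosure_adjoin_singleton_of_prime hζKprim
    obtain ⟨y, hy⟩ := (hic.isIntegral_iff).mp hx
    obtain ⟨f, hf⟩ : ∃ f : ℤ[X], aeval ζK f = x := by
      have hy' : (y : K) ∈ (aeval ζK : ℤ[X] →ₐ[ℤ] K).range := by
        rw [← Algebra.adjoin_singleton_eq_range_aeval]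
        exact y.2
      obtain ⟨f, hf⟩ := hy'
      exact ⟨f, by rw [← hy]; exact hf⟩
    have hx1 : ((x : K) : Qb) = aeval ζ f := by
      rw [← hf]
      have : ((aeval ζK f : K) : Qb) = algebraMap K Qb (aeval ζK f) := rfl
      rw [this, ← aeval_algebraMap_apply]
      rfl
    have hx2 : σ₀ (x : Qb) = aeval (ζ ^ a) f := by
      rw [hx1, ← hσ₀]
      exact (aeval_algHom_apply (σ₀ : Qb →ₐ[ℚ] Qb).toRingHom.toIntAlgHom ζ f).symm
    rw [hτ₀, hx2, hx1]
    -- work inside the ring `A`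
    set z : A := ⟨ζ, hζA⟩ with hz
    have hdvd : z ^ a - z ∣ aeval (z ^ a) f - aeval z f := by
      rw [aeval_def, aeval_def, eval₂_eq_eval_map, eval₂_eq_eval_map]
      exact sub_dvd_eval_sub _ _ _
    obtain ⟨c, hc⟩ := hdvd
    have hval : aeval (ζ ^ a) f - aeval ζ f = ((z ^ a - z) * c : A) := by
      rw [← hc]
      have h1 : ((aeval (z ^ a) f : A) : Qb) = aeval (ζ ^ a) f := by
        have : ((aeval (z ^ a) f : A) : Qb) = algebraMap A Qb (aeval (z ^ a) f) := rfl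
        rw [this, ← aeval_algebraMap_apply]
        rfl
      have h2 : ((aeval z f : A) : Qb) = aeval ζ f := by
        have : ((aeval z f : A) : Qb) = algebraMap A Qb (aeval z f) := rfl
        rw [this, ← aeval_algebraMap_apply]
        rfl
      push_cast
      rw [h1, h2]
    rw [hval]
    have h4 : (z - 1 : A) ∈ IsLocalRing.maximalIdeal A := by
      obtain ⟨hm, hmax⟩ := ValuationSubring.mem_nonunits_iff_exists_mem_maximalIdeal.mp hζ1
      have : (⟨ζ - 1, hm⟩ : A) = z - 1 := Subtype.ext (by simp [hz])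
      rwa [this] at hmax
    -- `z - 1 ∣ z ^ a - z`
    have h6 : (z ^ a - z : A) ∈ IsLocalRing.maximalIdeal A := by
      have h7 : (z ^ a - z : A) = (z ^ a - 1) - (z - 1) := by ring
      rw [h7]
      refine Ideal.sub_mem _ ?_ h4
      obtain ⟨w, hw⟩ : z - 1 ∣ z ^ a - 1 := by
        have := sub_dvd_pow_sub_pow z 1 a
        rwa [one_pow] at this
      rw [hw]
      exact Ideal.mul_mem_right _ _ h4
    have h5 : ((z ^ a - z) * c : A) ∈ IsLocalRing.maximalIdeal A :=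
      Ideal.mul_mem_right _ _ h6
    exact ValuationSubring.mem_nonunits_iff_exists_mem_maximalIdeal.mpr ⟨_, h5⟩
  obtain ⟨τ, hτI, hτK⟩ :=
    Fermat.Agent.S13.UnramBridge.exists_inertia_lift K A hq.out hA τ₀ hint
  refine ⟨τ, hτI, ?_⟩
  have hτζ : τ ζ = ζ ^ a := by
    have h1 := hτK ζK
    rw [hτ₀] at h1
    have : ((ζK : K) : Qb) = ζ := rfl
    rw [this] at h1
    rw [h1, hσ₀]
  intro η hη
  obtain ⟨i, -, rfl⟩ := hζ.eq_pow_of_pow_eq_one hη
  rw [map_pow, hτζ]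
  ring

/-- **`cycloM q` restricted to the inertia group at `q` is onto `(ℤ/q)ˣ`.** -/
theorem exists_inertia_cycloM_eq [NeZero q] (u : (ZMod q)ˣ) (A : ValuationSubring Qb)
    (hA : A.LiesOverPrime q) : ∃ τ ∈ A.inertiaSubgroupIn ℚ, cycloM q τ = u := by
  have hcop : ((u : ZMod q).val).Coprime q := ZMod.val_coe_unit_coprime u
  obtain ⟨τ, hτI, hτ⟩ := exists_inertia_pow q (u : ZMod q).val hcop A hA
  refine ⟨τ, hτI, ?_⟩
  have h1 := hτ (zetaM q) (zetaM_spec q).pow_eq_one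
  have h2 := coe_cycloM_eq h1
  apply Units.ext
  rw [h2, ZMod.natCast_val, ZMod.cast_id', id]

/-! ### Level `N` -/

/-- a unit mod `N = a b`, `(a, b) = 1`, is determined by its reductions mod `a` and mod `b`. -/
theorem units_ext_of_coprime {N a b : ℕ} [NeZero N] (hab : a.Coprime b) (hN : N = a * b)
    (ha : a ∣ N) (hb : b ∣ N) (x y : (ZMod N)ˣ)
    (h1 : ZMod.unitsMap ha x = ZMod.unitsMap ha y)
    (h2 : ZMod.unitsMap hb x = ZMod.unitsMap hb y) : x = y := by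
  apply Units.ext
  have h1' := congrArg Units.val h1
  have h2' := congrArg Units.val h2
  rw [ZMod.unitsMap_val, ZMod.unitsMap_val, ← ZMod.natCast_val, ← ZMod.natCast_val,
    ZMod.natCast_eq_natCast_iff] at h1' h2'
  have h3 : (x : ZMod N).val ≡ (y : ZMod N).val [MOD a * b] :=
    (Nat.modEq_and_modEq_iff_modEq_mul hab).mp ⟨h1', h2'⟩
  rw [← hN] at h3
  have h4 := (ZMod.natCast_eq_natCast_iff _ _ N).mpr h3
  rwa [ZMod.natCast_zmod_val, ZMod.natCast_zmod_val] at h4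

/-- `cycloM N τ ≡ 1 mod m` for `τ` in the inertia group at `q`, `m ∣ N` prime to `q`. -/
theorem cycloM_level_of_mem_inertia {N m : ℕ} [NeZero N] [NeZero m] (hm : m ∣ N) (hqm : ¬ q ∣ m)
    (A : ValuationSubring Qb) (hA : A.LiesOverPrime q) {τ : GQ}
    (hτ : τ ∈ A.inertiaSubgroupIn ℚ) : ZMod.unitsMap hm (cycloM N τ) = 1 := by
  rw [BridgeChar3.unitsMap_cycloM hm τ, cycloM_of_mem_inertia (M := m) hq.out hqm A hA hτ]

/-- **every `d : (ℤ/N)ˣ`, `d ≡ 1 mod N/q` (`q ∥ N`), is `cycloM N τ` for some `τ` in the inertia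
group at `q`.** -/
theorem exists_inertia_cycloM_level {N : ℕ} [NeZero N] (hqN : q ∣ N) (hqN' : ¬ q ∣ N / q)
    (d : (ZMod N)ˣ) (hd : ZMod.unitsMap (Nat.div_dvd_of_dvd hqN) d = 1)
    (A : ValuationSubring Qb) (hA : A.LiesOverPrime q) :
    ∃ τ ∈ A.inertiaSubgroupIn ℚ, cycloM N τ = d := by
  haveI : NeZero q := ⟨hq.out.ne_zero⟩
  have hN : N = q * (N / q) := (Nat.mul_div_cancel' hqN).symm
  haveI : NeZero (N / q) := ⟨by
    intro h0
    rw [h0, mul_zero] at hN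
    exact NeZero.ne N hN⟩
  obtain ⟨τ, hτI, hτ⟩ := exists_inertia_cycloM_eq q (ZMod.unitsMap hqN d) A hA
  refine ⟨τ, hτI, ?_⟩
  have hcop : q.Coprime (N / q) := (Nat.Prime.coprime_iff_not_dvd hq.out).mpr hqN'
  refine units_ext_of_coprime hcop hN hqN (Nat.div_dvd_of_dvd hqN) _ _ ?_ ?_
  · rw [BridgeChar3.unitsMap_cycloM hqN τ, hτ]
  · rw [cycloM_level_of_mem_inertia q (Nat.div_dvd_of_dvd hqN) hqN' A hA hτI, hd]

/-! ### Generators of `(ℤ/q)ˣ ⧸ Kq q m` -/

open Fermat.Agent.M43.ChainGrp5 Fermat.Agent.M43.GlobTame3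

/-- with `g` also `g ^ e` generates `(ℤ/q)ˣ` modulo `Kq q m`, if `m ∣ 2 e - 1`. -/
theorem gen_pow {m : ℕ} (hm : m ∣ q - 1) (e : ℕ) (he : (m : ℤ) ∣ 2 * (e : ℤ) - 1)
    {g : (ZMod q)ˣ} (hg : ∀ x : (ZMod q)ˣ, ∃ k : ℤ, g ^ (-k) * x ∈ Kq q m) :
    ∀ x : (ZMod q)ˣ, ∃ k : ℤ, (g ^ e) ^ (-k) * x ∈ Kq q m := by
  intro x
  obtain ⟨l, hl⟩ := hg x
  obtain ⟨w, hw⟩ := he
  refine ⟨2 * l, ?_⟩
  have h1 : (g ^ e) ^ (-(2 * l)) * x = (g ^ (-l) * x) * ((g ^ (-(w * l))) ^ m) := by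
    rw [← zpow_natCast g e, ← zpow_mul, ← zpow_natCast _ m, ← zpow_mul, mul_comm (g ^ (-l)) x,
      mul_assoc, ← zpow_add, mul_comm x]
    congr 2
    have : (e : ℤ) * -(2 * l) = -l + -(w * l) * (m : ℤ) := by
      have h2 : 2 * (e : ℤ) = (m : ℤ) * w + 1 := by linarith
      calc (e : ℤ) * -(2 * l) = -(2 * (e : ℤ)) * l := by ring
        _ = -((m : ℤ) * w + 1) * l := by rw [h2]
        _ = -l + -(w * l) * (m : ℤ) := by ring
    exact this
  rw [h1]
  exact (Kq q m).mul_mem hl (pow_mem_Kq hm _)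

/-- **the class of `cycloM q s` generates `(ℤ/q)ˣ ⧸ Kq q m`** for a universal tame `p`-generator
`s` of the inertia group at `q` (`m` a power of `p`). -/
theorem gen_of_universal [NeZero q] (p : ℕ) {m : ℕ} (hm : m ∣ q - 1) (hmp : ∃ a : ℕ, m = p ^ a)
    (A : ValuationSubring Qb) (hA : A.LiesOverPrime q) (s : ↥(A.inertiaSubgroupIn ℚ))
    (hs : ∀ {H : Type} [Group H] (f : ↥(A.inertiaSubgroupIn ℚ) →* H), ContI f →
      (∀ σ, ∃ a : ℕ, f σ ^ p ^ a = 1) → ∀ σ, f σ ∈ Subgroup.zpowers (f s)) :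
    ∀ x : (ZMod q)ˣ, ∃ k : ℤ, (cycloM q (s : GQ)) ^ (-k) * x ∈ Kq q m := by
  intro x
  let f : ↥(A.inertiaSubgroupIn ℚ) →* (ZMod q)ˣ ⧸ Kq q m :=
    (QuotientGroup.mk' (Kq q m)).comp ((cycloM q).comp (A.inertiaSubgroupIn ℚ).subtype)
  have hf : ContI f := by
    obtain ⟨L, hL, h⟩ := cycloM_eq_one_of_fixes (M := q)
    refine ⟨L, hL, fun σ hσ => ?_⟩
    show (QuotientGroup.mk' (Kq q m)) (cycloM q (σ : GQ)) = 1
    rw [h (σ : GQ) hσ, map_one]
  obtain ⟨a, ha⟩ := hmp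
  have hfp : ∀ σ, ∃ b : ℕ, f σ ^ p ^ b = 1 := by
    intro σ
    refine ⟨a, ?_⟩
    rw [← ha]
    show (QuotientGroup.mk' (Kq q m)) (cycloM q (σ : GQ)) ^ m = 1
    rw [← map_pow, QuotientGroup.mk'_apply, QuotientGroup.eq_one_iff]
    exact pow_mem_Kq hm _
  obtain ⟨τ, hτI, hτ⟩ := exists_inertia_cycloM_eq q x A hA
  obtain ⟨k, hk⟩ := hs f hf hfp ⟨τ, hτI⟩
  refine ⟨k, ?_⟩
  have h1 : (QuotientGroup.mk' (Kq q m)) (cycloM q (s : GQ)) ^ k
      = (QuotientGroup.mk' (Kq q m)) x := by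
    have : f ⟨τ, hτI⟩ = (QuotientGroup.mk' (Kq q m)) x := by
      show (QuotientGroup.mk' (Kq q m)) (cycloM q τ) = _
      rw [hτ]
    rw [← this]
    exact hk
  rw [← map_zpow, QuotientGroup.mk'_apply, QuotientGroup.mk'_apply, QuotientGroup.eq,
    ← zpow_neg] at h1
  exact h1

end Fermat.Agent.M43.BridgeRam3
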