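/-
Programme M43 (target S43), pillar (P-GLOB), helper3: **the Greenberg–Wiles count with TRIVIAL local
conditions at a set `Z` of primes.**

`W56/GWCount4.card_Sel_le` bounds the Selmer group whose local conditions are "unramified" at the
primes of `U` and `Lp` at `pp`.  Here the local condition at `v ∈ U` is an ARBITRARY subspace `L v`
of `H¹(Γ_v, M)` together with a "gain" `g v` such that `#L v · g v ≤ #H⁰(Γ_v, M)`; the count is then
`#Sel · ∏_{v ∈ U} g v ≤ κ ^ #(T ∖ (U ∪ {pp}))`.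

For `M = ad⁰ρ̄`, `L v = 0` at the primes `v ∈ Z` where `ρ̄|Γ_v` is scalar (gain `κ³`) and
`L v = H¹_ur` at the other primes of `U`, this is the inequality
`#Sel^Z · κ^(3 #Z) ≤ κ^r` (`card_SelZ_le`) behind the relative number of generators of the Hecke
algebras over the local rings at the bad primes.
-/
import Mathlib
import Fermat.Agent.W56.SelBound9
import Fermat.Agent.W56.Discharge9
import Fermat.Agent.W56.FinalTwo9
import Fermat.Agent.W56.LecUnits7
import Fermat.Agent.W56.BaseFinal4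

set_option autoImplicit false
set_option linter.style.haveILetI false
set_option linter.unusedSectionVars false

open CategoryTheory ExtCitation Polynomial

namespace Fermat.Agent.M43.GlobCount3

open Fermat.Agent.PT.PRO Fermat.Agent.PT.BR Fermat.Agent.W56.Defs9 Fermat.Agent.W56.GWCount4
  Fermat.Agent.W56.GWContracts4 Fermat.Agent.W56.Contracts9 Fermat.Agent.W56.Ad0Facts9
  Fermat.Agent.W56.EulerDefs4

local notation "Γ" => (AlgebraicClosure ℚ ≃ₐ[ℚ] AlgebraicClosure ℚ)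
local notation "Qbar" => AlgebraicClosure ℚ

noncomputable section

/-! ### The numerical chain with gains -/

section Chain

variable {ι : Type*} [Fintype ι]

/-- The Greenberg–Wiles count, numerical form, with gains `g v` at the places with a local
condition: `l v * g v ≤ d0 v`. -/
theorem chainZ (s h1 h2 κ nQ dp0 dp1 dp2 lp : ℕ) (d0 d1 d2 l g : ι → ℕ)
    (hcount : s * (dp1 * ∏ v, d1 v) = h1 * (lp * ∏ v, l v))
    (hEC : h1 ≤ κ ^ 2 * h2)
    (hsha : h2 ≤ dp2 * (∏ v, d2 v) * κ ^ nQ)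
    (hl : ∀ v, l v * g v ≤ d0 v) (hlec : ∀ v, d0 v * d2 v ≤ d1 v)
    (hlp : lp ≤ κ * dp0) (hlecp : dp0 * dp2 * κ ^ 3 ≤ dp1)
    (hpos : 0 < dp1) (hpos' : ∀ v, 0 < d1 v) : s * ∏ v, g v ≤ κ ^ nQ := by
  have hP : 0 < dp1 * ∏ v, d1 v :=
    Nat.mul_pos hpos (Finset.prod_pos fun v _ => hpos' v)
  have h1' : (∏ v, d2 v * (l v * g v)) ≤ ∏ v, d1 v :=
    Finset.prod_le_prod (fun _ _ => Nat.zero_le _)
      (fun v _ => le_trans (by rw [mul_comm]; exact Nat.mul_le_mul_right _ (hl v)) (hlec v))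
  have h2' : κ ^ 2 * (dp2 * lp) ≤ dp1 := by
    calc κ ^ 2 * (dp2 * lp) ≤ κ ^ 2 * (dp2 * (κ * dp0)) := by gcongr
      _ = dp0 * dp2 * κ ^ 3 := by ring
      _ ≤ dp1 := hlecp
  have key : (s * ∏ v, g v) * (dp1 * ∏ v, d1 v) ≤ κ ^ nQ * (dp1 * ∏ v, d1 v) := by
    calc (s * ∏ v, g v) * (dp1 * ∏ v, d1 v) = (s * (dp1 * ∏ v, d1 v)) * ∏ v, g v := by ring
      _ = (h1 * (lp * ∏ v, l v)) * ∏ v, g v := by rw [hcount]
      _ ≤ ((κ ^ 2 * (dp2 * (∏ v, d2 v) * κ ^ nQ)) * (lp * ∏ v, l v)) * ∏ v, g v := by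
          gcongr
          exact le_trans hEC (Nat.mul_le_mul_left _ hsha)
      _ = κ ^ nQ * ((κ ^ 2 * (dp2 * lp)) * ((∏ v, d2 v) * ((∏ v, l v) * ∏ v, g v))) := by ring
      _ = κ ^ nQ * ((κ ^ 2 * (dp2 * lp)) * ∏ v, d2 v * (l v * g v)) := by
          rw [← Finset.prod_mul_distrib, ← Finset.prod_mul_distrib]
      _ ≤ κ ^ nQ * (dp1 * ∏ v, d1 v) := by gcongr
  exact Nat.le_of_mul_le_mul_right key hP

end Chain

/-! ### Selmer groups with arbitrary local conditions -/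

section SelL

variable {k : Type} [CommRing k] (T U : Finset Nat.Primes) (pp : Nat.Primes) (M : Rep k Γ)
  (Lp : Submodule k (H1D M pp)) (L : ∀ v : Nat.Primes, Submodule k (H1D M v))

/-- **The Selmer group with local conditions `L v` at the primes `v ∈ U` and `Lp` at `pp`**; no
condition at the remaining primes of `T`. -/
def SelL : Submodule k (H1g T M) :=
  (⨅ q ∈ U, (L q).comap (resD T M q)) ⊓ Lp.comap (resD T M pp)

theorem mem_SelL_iff (x : H1g T M) :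
    x ∈ SelL T U pp M Lp L ↔ (∀ q ∈ U, resD T M q x ∈ L q) ∧ resD T M pp x ∈ Lp := by
  simp only [SelL, Submodule.mem_inf, Submodule.mem_iInf, Submodule.mem_comap]

theorem mem_SelL_iff' (x : H1g T M) :
    x ∈ SelL T U pp M Lp L ↔
      resD T M pp x ∈ Lp.toAddSubgroup ∧ ∀ v : ↥U, resD T M v x ∈ (L v).toAddSubgroup := by
  rw [mem_SelL_iff]
  constructor
  · rintro ⟨h1, h2⟩
    exact ⟨h2, fun v => h1 v v.2⟩
  · rintro ⟨h1, h2⟩
    exact ⟨fun q hq => h2 ⟨q, hq⟩, h1⟩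

/-- **The Greenberg–Wiles count with arbitrary local conditions and gains.** -/
theorem card_SelL_le (κ : ℕ) (hUT : U ⊆ T) (hppT : pp ∈ T) (hppU : pp ∉ U)
    [Finite (H1D M pp)] [∀ v : ↥U, Finite (H1D M v)] [∀ q : ↥T, Finite (H2D M q)]
    (honto : ∀ (wp : H1D M pp) (w : ∀ v : ↥U, H1D M v),
      ∃ x : H1g T M, resD T M pp x = wp ∧ ∀ v : ↥U, resD T M v x = w v)
    (hinj : ∀ x : H2g T M, (∀ q ∈ T, resD2 T M q x = 0) → x = 0)
    (hEC : Nat.card (H1g T M) ≤ κ ^ 2 * Nat.card (H2g T M))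
    (d0 g : Nat.Primes → ℕ)
    (hL : ∀ v ∈ U, Nat.card ↥(L v) * g v ≤ d0 v)
    (hlec : ∀ v ∈ U, d0 v * Nat.card (H2D M v) ≤ Nat.card (H1D M v))
    (hLp : Nat.card ↥Lp ≤ κ * d0 pp)
    (hlecp : d0 pp * Nat.card (H2D M pp) * κ ^ 3 ≤ Nat.card (H1D M pp))
    (hTW : ∀ q ∈ T, q ∉ U → q ≠ pp → Nat.card (H2D M q) ≤ κ) :
    Nat.card ↥(SelL T U pp M Lp L) * ∏ v ∈ U, g v ≤ κ ^ (T \ insert pp U).card := by
  classical
  let r : ∀ v : ↥U, H1g T M →+ H1D M v := fun v => (resD T M v).toAddMonoidHom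
  have honto' : ∀ (wp : H1D M pp) (w : ∀ v : ↥U, H1D M v),
      ∃ x : H1g T M, (resD T M pp).toAddMonoidHom x = wp ∧ ∀ v : ↥U, r v x = w v := honto
  have hcount := card_sel_mul (H := H1g T M) (Dp := H1D M pp) (ι := ↥U)
    (D := fun v : ↥U => H1D M v)
    (resD T M pp).toAddMonoidHom r
    Lp.toAddSubgroup (fun v : ↥U => (L v).toAddSubgroup) honto'
  have hs : Nat.card ↥(SelL T U pp M Lp L) =
      Nat.card {x : H1g T M // (resD T M pp).toAddMonoidHom x ∈ Lp.toAddSubgroup ∧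
        ∀ v : ↥U, (resD T M v).toAddMonoidHom x ∈ (L v).toAddSubgroup} :=
    Nat.card_congr (Equiv.subtypeEquivRight fun x => mem_SelL_iff' T U pp M Lp L x)
  rw [← hs] at hcount
  have h2 := card_H2g_le T M hinj
  have hsub : insert pp U ⊆ T := Finset.insert_subset hppT hUT
  have hsplit : ∏ q ∈ T, Nat.card (H2D M q) =
      (∏ q ∈ T \ insert pp U, Nat.card (H2D M q)) *
        (Nat.card (H2D M pp) * ∏ q ∈ U, Nat.card (H2D M q)) := by
    rw [← Finset.prod_insert (f := fun q => Nat.card (H2D M q)) hppU, Finset.prod_sdiff hsub]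
  have hQ : ∏ q ∈ T \ insert pp U, Nat.card (H2D M q) ≤ κ ^ (T \ insert pp U).card := by
    refine Finset.prod_le_pow_card _ _ _ fun q hq => ?_
    rw [Finset.mem_sdiff, Finset.mem_insert, not_or] at hq
    exact hTW q hq.1 hq.2.2 hq.2.1
  have hsha : Nat.card (H2g T M) ≤
      Nat.card (H2D M pp) * (∏ v : ↥U, Nat.card (H2D M v)) * κ ^ (T \ insert pp U).card := by
    rw [Finset.prod_coe_sort U fun q => Nat.card (H2D M q)]
    calc Nat.card (H2g T M) ≤ ∏ q ∈ T, Nat.card (H2D M q) := h2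
      _ = (∏ q ∈ T \ insert pp U, Nat.card (H2D M q)) *
            (Nat.card (H2D M pp) * ∏ q ∈ U, Nat.card (H2D M q)) := hsplit
      _ ≤ κ ^ (T \ insert pp U).card *
            (Nat.card (H2D M pp) * ∏ q ∈ U, Nat.card (H2D M q)) :=
          Nat.mul_le_mul_right _ hQ
      _ = _ := by ring
  have hmain := chainZ (ι := ↥U) (Nat.card ↥(SelL T U pp M Lp L)) (Nat.card (H1g T M))
    (Nat.card (H2g T M)) κ
    (T \ insert pp U).card (d0 pp) (Nat.card (H1D M pp)) (Nat.card (H2D M pp)) (Nat.card ↥Lp)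
    (fun v => d0 v) (fun v => Nat.card (H1D M v)) (fun v => Nat.card (H2D M v))
    (fun v => Nat.card ↥(L v)) (fun v => g v) hcount hEC hsha (fun v => hL v v.2)
    (fun v => hlec v v.2) hLp hlecp Nat.card_pos (fun v => Nat.card_pos)
  rwa [Finset.prod_coe_sort U fun q => g q] at hmain

end SelL

/-! ### Trivial conditions at `Z`, unramified conditions elsewhere -/

section SelZ

variable {k : Type} [CommRing k] (T U Z : Finset Nat.Primes) (pp : Nat.Primes) (M : Rep k Γ)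
  (Lp : Submodule k (H1D M pp))

/-- The local conditions: trivial at the primes of `Z`, unramified at the other primes. -/
def LZ (v : Nat.Primes) : Submodule k (H1D M v) := if v ∈ Z then ⊥ else H1ur M v

/-- The gains: `κ ^ 3` at the primes of `Z`, `1` elsewhere. -/
def gZ (κ : ℕ) (v : Nat.Primes) : ℕ := if v ∈ Z then κ ^ 3 else 1

/-- **The Selmer group `Sel^Z`**: classes of `H¹(G_T, M)` which are TRIVIAL at the primes of
`U ∩ Z`, unramified at the primes of `U ∖ Z`, and in `Lp` at `pp`. -/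
def SelZ : Submodule k (H1g T M) := SelL T U pp M Lp (LZ Z M)

theorem mem_SelZ_iff (x : H1g T M) :
    x ∈ SelZ T U Z pp M Lp ↔
      (∀ q ∈ U, q ∉ Z → resI T M q x = 0) ∧ (∀ q ∈ U, q ∈ Z → resD T M q x = 0) ∧
        resD T M pp x ∈ Lp := by
  rw [SelZ, mem_SelL_iff]
  constructor
  · rintro ⟨h1, h2⟩
    refine ⟨fun q hq hqZ => ?_, fun q hq hqZ => ?_, h2⟩
    · have h3 := h1 q hq
      rw [LZ, if_neg hqZ, H1ur, LinearMap.mem_ker, ← resI_eq] at h3
      exact h3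
    · have h3 := h1 q hq
      rw [LZ, if_pos hqZ, Submodule.mem_bot] at h3
      exact h3
  · rintro ⟨h1, h2, h3⟩
    refine ⟨fun q hq => ?_, h3⟩
    by_cases hqZ : q ∈ Z
    · rw [LZ, if_pos hqZ, Submodule.mem_bot]
      exact h2 q hq hqZ
    · rw [LZ, if_neg hqZ, H1ur, LinearMap.mem_ker, ← resI_eq]
      exact h1 q hq hqZ

theorem prod_gZ (κ : ℕ) (hZU : Z ⊆ U) : ∏ v ∈ U, gZ Z κ v = κ ^ (3 * Z.card) := by
  classical
  rw [← Finset.prod_sdiff hZU]
  have h1 : ∏ v ∈ U \ Z, gZ Z κ v = 1 :=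
    Finset.prod_eq_one fun v hv => by rw [gZ, if_neg (Finset.mem_sdiff.1 hv).2]
  have h2 : ∏ v ∈ Z, gZ Z κ v = ∏ _v ∈ Z, κ ^ 3 :=
    Finset.prod_congr rfl fun v hv => by rw [gZ, if_pos hv]
  rw [h1, h2, one_mul, Finset.prod_const, ← pow_mul]

end SelZ

/-! ### The count for `ad⁰ρ̄` at a set of Taylor–Wiles primes -/

section Ad0

variable {k : Type} [Field k] [Finite k] (p : ℕ) [Fact p.Prime] [CharP k p]
  (ρbar : ResidualGaloisRep k)

/-- If `ρ̄` is scalar on the decomposition group at `q`, all of `ad⁰ρ̄` is `Γ_q`-invariant. -/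
theorem d0_ad0_of_scalar (h2 : (2 : k) ≠ 0) (q : Nat.Primes)
    (hsc : ∀ σ ∈ (primeLocalPlace q).decompositionSubgroup ℚ, ∃ c : k, ρbar.ρ σ = c • 1) :
    d0 (ad0 ρbar) q = Nat.card k ^ 3 := by
  rw [d0, ← W56.EulerAd4.card_ad0 ρbar h2]
  have htop : (Rep.res (locD q) (ad0 ρbar)).ρ.invariants = ⊤ := by
    rw [eq_top_iff]
    intro X _
    rw [Representation.mem_invariants]
    intro τ
    obtain ⟨c, hc⟩ := hsc (locD q τ) (W56.DictSO9.locD_mem_decompositionSubgroup q τ)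
    have hc' : ρbar.ρ (locD q τ) * ρbar.ρ (locD q τ)⁻¹ = 1 := rho_mul_inv ρbar _
    apply W56.UnipSel8.endOf_injective ρbar
    show W56.UnipSel8.endOf ρbar ((ad0 ρbar).ρ (locD q τ) X) = W56.UnipSel8.endOf ρbar X
    rw [W56.UnipSel8.endOf_ρ]
    have hcomm : ρbar.ρ (locD q τ) * W56.UnipSel8.endOf ρbar X =
        W56.UnipSel8.endOf ρbar X * ρbar.ρ (locD q τ) := by
      rw [hc, smul_mul_assoc, one_mul, mul_smul_comm, mul_one]
    rw [hcomm, mul_assoc, hc', mul_one]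
  rw [htop]
  exact Nat.card_congr (Submodule.topEquiv (R := k) (M := ↥(Rep.res (locD q) (ad0 ρbar)))).toEquiv

/-- **The Selmer bound at a set of Taylor–Wiles primes, with TRIVIAL conditions at `Z`**: if `ρ̄` is
scalar on the decomposition groups at the primes of `Z ⊆ Smin ∖ {p}`, then
`#Sel^Z · κ^(3 #Z) ≤ κ^r`. -/
theorem card_SelZ_le
    (hlecp : d0 (ad0 ρbar) (pPrime p) * Nat.card (H2D (ad0 ρbar) (pPrime p)) * Nat.card k ^ 3 ≤
      Nat.card (H1D (ad0 ρbar) (pPrime p)))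
    (hEC : EulerCharBoundAd0) (hPT : PTMidOnto)
    (hSha : Sha2Injective) (hH2 : TwH2Bound) (hp2 : p ≠ 2)
    (habs : ρbar.IsAbsolutelyIrreducible)
    (hdet : (GaloisRepAdic.ofResidualGaloisRep ρbar).DetIsCyclotomic p)
    (S Smin : Finset ℕ) (hpSmin : p ∈ Smin) (hSmin : Smin ⊆ S)
    (hur : ∀ q : ℕ, q.Prime → q ∉ Smin → ρbar.IsUnramifiedAt q)
    {r : ℕ} (n : ℕ) (qv : Fin r → ℕ)
    (hqv : ∀ i, (qv i).Prime ∧ qv i ∉ S ∧ p ^ (n + 1) ∣ qv i - 1)
    (hfrob : ∀ i, ∀ P : ValuationSubring Qbar, P.LiesOverPrime (qv i) →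
      ∀ φ : Γ, P.IsFrobeniusAt φ (qv i) →
        ∃ α β : k, α ≠ β ∧ LinearMap.charpoly (ρbar.ρ φ) = (X - C α) * (X - C β))
    (hvan : ∀ y : H1g (primesOf (Smin ∪ Finset.univ.image qv)) (ad0D ρbar p),
      (∀ q ∈ primesOf (Smin ∪ Finset.univ.image qv), q ∉ primesOf Smin →
        resD (primesOf (Smin ∪ Finset.univ.image qv)) (ad0D ρbar p) q y = 0) → y = 0)
    (Lp : Submodule k (H1D (ad0 ρbar) (pPrime p)))
    (hLp : Nat.card ↥Lp ≤ Nat.card k * d0 (ad0 ρbar) (pPrime p))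
    (Z : Finset ℕ) (hZS : Z ⊆ Smin.erase p)
    (hsc : ∀ q ∈ primesOf Z, ∀ σ ∈ (primeLocalPlace q).decompositionSubgroup ℚ,
      ∃ c : k, ρbar.ρ σ = c • 1) :
    Nat.card ↥(SelZ (primesOf (Smin ∪ Finset.univ.image qv)) (primesOf (Smin.erase p))
      (primesOf Z) (pPrime p) (ad0 ρbar) Lp) * Nat.card k ^ (3 * (primesOf Z).card) ≤
        Nat.card k ^ r := by
  classical
  set T := primesOf (Smin ∪ Finset.univ.image qv) with hT
  set U := primesOf (Smin.erase p) with hU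
  have h2 : (2 : k) ≠ 0 := W56.TwMain9.two_ne_zero_of_ne_two p hp2
  haveI : Module.Finite k (ad0 ρbar) := W56.Ad0Facts9.moduleFinite_ad0 ρbar
  haveI : Finite (ad0 ρbar) := Module.finite_of_finite k
  have hsm := isSmooth_ad0 ρbar
  have hST : primesOf Smin ⊆ T := fun q hq =>
    mem_primesOf.2 (Finset.mem_union_left _ (mem_primesOf.1 hq))
  have hUS : U ⊆ primesOf Smin := fun q hq =>
    mem_primesOf.2 (Finset.mem_of_mem_erase (mem_primesOf.1 hq))
  have hUT : U ⊆ T := hUS.trans hST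
  have hZU : primesOf Z ⊆ U := fun q hq => mem_primesOf.2 (hZS (mem_primesOf.1 hq))
  have hppS : pPrime p ∈ primesOf Smin := mem_primesOf.2 hpSmin
  have hppT : pPrime p ∈ T := hST hppS
  have hppU : pPrime p ∉ U := fun h => (Finset.mem_erase.1 (mem_primesOf.1 h)).1 rfl
  have hMur : ∀ q : Nat.Primes, q ∉ T → ∀ A : ValuationSubring Qbar, A.LiesOverPrime (q : ℕ) →
      ∀ g ∈ A.inertiaSubgroupIn ℚ, (ad0 ρbar).ρ g = 1 := fun q hq A hA g hg =>
    ad0_unram ρbar Smin hur q (fun h => hq (hST h)) A hA g hg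
  have hpM : ∀ m : ad0 ρbar, p • m = 0 := nsmul_eq_zero_of_charP p (ad0 ρbar)
  -- the dual Selmer group vanishes
  have hvan1 : ∀ y : H1g T ((ad0 ρbar).dualTwist (cycloK (k := k) p)),
      (∀ q ∈ T \ insert (pPrime p) U,
        resD T ((ad0 ρbar).dualTwist (cycloK (k := k) p)) q y = 0) → y = 0 := by
    intro y hy
    refine hvan y fun q hqT hqS => hy q ?_
    rw [Finset.mem_sdiff, Finset.mem_insert, not_or]
    exact ⟨hqT, fun h => hqS (h ▸ hppS), fun h => hqS (hUS h)⟩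
  have hvan2 : ∀ y : H1g T ((ad0 ρbar).dualTwist (cycloK (k := k) p)),
      (∀ q ∈ T, resD T ((ad0 ρbar).dualTwist (cycloK (k := k) p)) q y = 0) → y = 0 :=
    fun y hy => hvan1 y fun q hq => hy q (Finset.mem_sdiff.1 hq).1
  have hinsT : insert (pPrime p) U ⊆ T := Finset.insert_subset hppT hUT
  have hPT' := hPT k p hp2 T hppT (ad0 ρbar) hsm hMur (insert (pPrime p) U) hinsT
    (fun q _ => W56.FinH1D1.finite_H1D (ad0 ρbar) p hpM hsm q) hvan1
  have hinj := hSha k p hp2 T hppT (ad0 ρbar) hsm hMur hvan2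
  haveI : ∀ q : ↥T, Finite (H2D (ad0 ρbar) q) := fun q =>
    (W56.LH2D1.finite_and_card_H2D p (ad0 ρbar) hsm q).1
  haveI : Finite (H2g T (ad0 ρbar)) := finite_H2g_of_inj T (ad0 ρbar) hinj
  have hdisc := W56.TwMain9.isDiscrete_ad0 ρbar Smin hur T hST
  have hECb := W56.EulerAd4.card_H1g_ad0_le ρbar hEC p hp2 T (pPrime p) rfl hppT hdisc
    (H0_ad0_eq_zero ρbar habs h2) (det_complexConjugation ρbar p hdet)
  have hTWq : ∀ q ∈ T, q ∉ U → q ≠ pPrime p → Nat.card (H2D (ad0 ρbar) q) ≤ Nat.card k := by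
    intro q hqT hqU hqp
    have hqQ : (q : ℕ) ∈ Finset.univ.image qv := by
      rcases Finset.mem_union.1 (mem_primesOf.1 hqT) with h | h
      · exfalso
        apply hqU
        rw [hU, mem_primesOf, Finset.mem_erase]
        exact ⟨fun h' => hqp (Subtype.ext h'), h⟩
      · exact h
    obtain ⟨i, -, hi⟩ := Finset.mem_image.1 hqQ
    have hqS : (q : ℕ) ∉ Smin := fun h => (hqv i).2.1 (hi ▸ hSmin h)
    refine hH2 k p hp2 ρbar q (fun h => hqS (h ▸ hpSmin)) ?_ (hur q q.2 hqS) ?_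
    · rw [← hi]
      exact (dvd_pow_self p (Nat.succ_ne_zero n)).trans (hqv i).2.2
    · rw [← hi]
      exact hfrob i
  haveI hf1 : Finite (H1D (ad0 ρbar) (pPrime p)) :=
    W56.FinH1D1.finite_H1D (ad0 ρbar) p hpM hsm (pPrime p)
  haveI hf2 : ∀ v : ↥U, Finite (H1D (ad0 ρbar) v) := fun v =>
    W56.FinH1D1.finite_H1D (ad0 ρbar) p hpM hsm v
  have hvp : ∀ v ∈ U, ((v : Nat.Primes) : ℕ) ≠ p := by
    intro v hv h'
    apply hppU
    have : v = pPrime p := Subtype.ext h'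
    rw [← this]
    exact hv
  have hmain := card_SelL_le T U (pPrime p) (ad0 ρbar) Lp (LZ (primesOf Z) (ad0 ρbar))
    (Nat.card k) hUT hppT hppU (honto_of_forall T U (pPrime p) (ad0 ρbar) hppU hPT') hinj hECb
    (d0 (ad0 ρbar)) (gZ (primesOf Z) (Nat.card k)) (fun v hv => ?_)
    (fun v hv => W56.LecFinal5.lec_v' p v (hvp v hv) (ad0 ρbar) hsm) hLp hlecp hTWq
  · rw [prod_gZ U (primesOf Z) (Nat.card k) hZU] at hmain
    refine hmain.trans (Nat.pow_le_pow_right Nat.card_pos ?_)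
    exact W56.SelBound9.card_sdiff_le p Smin qv
  · by_cases hvZ : v ∈ primesOf Z
    · rw [LZ, if_pos hvZ, gZ, if_pos hvZ, d0_ad0_of_scalar ρbar h2 v (hsc v hvZ)]
      have h1 : Nat.card ↥(⊥ : Submodule k (H1D (ad0 ρbar) v)) = 1 := by
        rw [Nat.card_eq_one_iff_unique]
        exact ⟨inferInstance, inferInstance⟩
      rw [h1, one_mul]
    · rw [LZ, if_neg hvZ, gZ, if_neg hvZ, mul_one]
      exact W56.H1urCard8.card_H1ur_le' v (ad0 ρbar)
        (LevelBridge13.isDiscrete_pullSets (ad0 ρbar) (locD v) hsm)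

/-- **The Selmer bound with trivial conditions at `Z`, UNCONDITIONAL** (all classical contracts of
programme W56 are theorems). -/
theorem card_SelZ_le' (hp2 : p ≠ 2)
    (habs : ρbar.IsAbsolutelyIrreducible)
    (hdet : (GaloisRepAdic.ofResidualGaloisRep ρbar).DetIsCyclotomic p)
    (hsplit : ∀ σ : Γ, ∃ α β : k, LinearMap.charpoly (ρbar.ρ σ) = (X - C α) * (X - C β))
    (S Smin : Finset ℕ) (hpSmin : p ∈ Smin) (hSmin : Smin ⊆ S)
    (hur : ∀ q : ℕ, q.Prime → q ∉ Smin → ρbar.IsUnramifiedAt q)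
    {r : ℕ} (n : ℕ) (qv : Fin r → ℕ)
    (hqv : ∀ i, (qv i).Prime ∧ qv i ∉ S ∧ p ^ (n + 1) ∣ qv i - 1)
    (hfrob : ∀ i, ∀ P : ValuationSubring Qbar, P.LiesOverPrime (qv i) →
      ∀ φ : Γ, P.IsFrobeniusAt φ (qv i) →
        ∃ α β : k, α ≠ β ∧ LinearMap.charpoly (ρbar.ρ φ) = (X - C α) * (X - C β))
    (hvan : ∀ y : H1g (primesOf (Smin ∪ Finset.univ.image qv)) (ad0D ρbar p),
      (∀ q ∈ primesOf (Smin ∪ Finset.univ.image qv), q ∉ primesOf Smin →
        resD (primesOf (Smin ∪ Finset.univ.image qv)) (ad0D ρbar p) q y = 0) → y = 0)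
    (Lp : Submodule k (H1D (ad0 ρbar) (pPrime p)))
    (hLp : Nat.card ↥Lp ≤ Nat.card k * d0 (ad0 ρbar) (pPrime p))
    (Z : Finset ℕ) (hZS : Z ⊆ Smin.erase p)
    (hsc : ∀ q ∈ primesOf Z, ∀ σ ∈ (primeLocalPlace q).decompositionSubgroup ℚ,
      ∃ c : k, ρbar.ρ σ = c • 1) :
    Nat.card ↥(SelZ (primesOf (Smin ∪ Finset.univ.image qv)) (primesOf (Smin.erase p))
      (primesOf Z) (pPrime p) (ad0 ρbar) Lp) * Nat.card k ^ (3 * (primesOf Z).card) ≤
        Nat.card k ^ r :=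
  card_SelZ_le p ρbar
    (W56.FinalTwo9.lecPAd0_of_unitsBound W56.LecUnits7.unitsBound k p hp2 ρbar habs hdet hsplit)
    (W56.FinalTwo9.eulerCharBoundAd0_of_baseCase W56.BaseFinal4.baseCase)
    W56.Discharge9.ptMidOnto W56.Discharge9.sha2Injective
    (W56.Discharge9.twH2Bound_of_LH2 W56.LH2D1.localH2Bound) hp2 habs hdet S Smin hpSmin hSmin hur
    n qv hqv hfrob hvan Lp hLp Z hZS hsc

end Ad0

end

end Fermat.Agent.M43.GlobCount3
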