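/-
Programme M43 (target S43), pillar (P-GLOB), helper3: **the dictionary for an ABSTRACT pair
`(A, ρ_A)`.**

`W56/Dict9`, `W56/DictFlat9` attach to a tangent homomorphism `φ : DQ.R → k[ε]` of a universal
deformation ring a class in `H¹(G_T, ad⁰ρ̄)` and prove injectivity from universality.  Here the
same dictionary for ANY local `𝒪`-algebra `A` with residue field `k` and ANY lift
`ρ_A : GaloisRepAdic A` of `ρ̄` (in use: a Hecke algebra with its Galois representation):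

* `rOfA`, `exists_basis_strictA`, `tangentClassA`: the class of a tangent homomorphism;
* `eq_of_tangentClassA_eq`: injectivity, from the hypothesis `hinj` ("tangent-injective": two
  tangent homomorphisms with equivalent specialisations of `ρ_A` are equal);
* `tangentClassA_mem_SelZ`: the class lies in `GlobCount3.SelZ` - flat at `p`, unramified class at
  the unipotent primes where `ρ̄` is ramified, TRIVIAL at the primes `q ∈ Z` where the
  specialisation is the constant lift of the scalar `ρ̄|D_q`;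
* **`exists_injective_tangentA`**: an injection of the tangent homomorphisms killing `E` into
  `SelZ`.
-/
import Mathlib
import Fermat.Agent.W56.DictFlat9
import Fermat.Agent.M43.GlobCount3

set_option autoImplicit false
set_option linter.unusedSectionVars false
set_option linter.unnecessarySeqFocus false
set_option linter.style.haveILetI false

open CategoryTheory groupCohomology IsLocalRing ExtCitation

namespace Fermat.Agent.M43.GlobDict3

open Fermat.Agent.S53 Fermat.Agent.S53.MatrixModel Fermat.Agent.W56.Defs9 Fermat.Agent.W56.Lift9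
  Fermat.Agent.W56.Dict9 Fermat.Agent.W56.DictSO9 Fermat.Agent.W56.DictFlat9
  Fermat.Agent.PT.PRO Fermat.Agent.PT.BR Fermat.Agent.M43.GlobCount3

local notation "Qbar" => AlgebraicClosure ℚ
local notation "Γ" => (AlgebraicClosure ℚ ≃ₐ[ℚ] AlgebraicClosure ℚ)

noncomputable section

attribute [local instance] dualNumberAlgebra

/-! ### The matrices of the tangent specialisations -/

section Universal

variable {𝒪 : Type} [CommRing 𝒪] [IsDomain 𝒪] [IsDiscreteValuationRing 𝒪]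
  [IsAdicComplete (maximalIdeal 𝒪) 𝒪] [Finite (ResidueField 𝒪)]
  {ρbar : ResidualGaloisRep (ResidueField 𝒪)}
  {A : Type} [CommRing A] [IsLocalRing A] [Algebra 𝒪 A] [IsLocalHom (algebraMap 𝒪 A)]
  (hres : Function.Surjective (residue A ∘ algebraMap 𝒪 A))
  (ρA : GaloisRepAdic A)
  (hlift : ρA.residual.IsEquiv (ρbar.baseChangeAlong (ResidueField.map (algebraMap 𝒪 A))))

/-- The matrices of the tangent specialisation `φ` of `ρ_A` in the basis `b'`. -/
def rOfA (b' : Module.Basis (Fin 2) A ρA.V) (φ : A →ₐ[𝒪] DualNumber (ResidueField 𝒪)) :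
    Γ →* M2 (DualNumber (ResidueField 𝒪)) :=
  mapMat (φ : A →+* DualNumber (ResidueField 𝒪)) (matrixOf ρA b')

theorem rOfA_apply (b' : Module.Basis (Fin 2) A ρA.V)
    (φ : A →ₐ[𝒪] DualNumber (ResidueField 𝒪)) (σ : Γ) (i j : Fin 2) :
    rOfA (𝒪 := 𝒪) ρA b' φ σ i j = φ (matrixOf ρA b' σ i j) := by
  simp [rOfA]

theorem matCont_rOfA (b' : Module.Basis (Fin 2) A ρA.V)
    (φ : A →ₐ[𝒪] DualNumber (ResidueField 𝒪)) : MatCont (rOfA (𝒪 := 𝒪) ρA b' φ) :=
  matCont_mapMat (matCont_matrixOf ρA b') _ (isLocalHom_tangent φ)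

include hres hlift in
/-- **There is a basis of `V̄` in which all tangent specialisations of the matrices of `ρ_A` are
strict lifts of the matrices of `ρ̄`** (and the matrices of `ρ̄` are the reductions of those of
`ρ_A`). -/
theorem exists_basis_strictA' (b' : Module.Basis (Fin 2) A ρA.V) :
    ∃ b : Module.Basis (Fin 2) (ResidueField 𝒪) ρbar.V,
      (∀ (σ : Γ) (i j : Fin 2), ResidueField.map (algebraMap 𝒪 A) (rbarOf ρbar b σ i j) =
        residue A (matrixOf ρA b' σ i j)) ∧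
      ∀ φ : A →ₐ[𝒪] DualNumber (ResidueField 𝒪), redM (rOfA (𝒪 := 𝒪) ρA b' φ) = rbarOf ρbar b := by
  let ι : ResidueField 𝒪 →+* ResidueField A := ResidueField.map (algebraMap 𝒪 A)
  have hι : Function.Bijective ι := by
    refine ⟨ι.injective, fun x => ?_⟩
    obtain ⟨a, rfl⟩ := IsLocalRing.residue_surjective x
    obtain ⟨c, hc⟩ := hres (residue A a)
    exact ⟨residue 𝒪 c, by rw [ResidueField.map_residue]; exact hc⟩
  let e : ResidueField 𝒪 ≃+* ResidueField A := RingEquiv.ofBijective ι hι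
  let π : A →+* ResidueField 𝒪 :=
    (e.symm : ResidueField A →+* ResidueField 𝒪).comp (residue A)
  let Ru := matrixOf ρA b'
  have hcont : MatCont Ru := matCont_matrixOf ρA b'
  have hfac : GaloisFactorsThroughFiniteLevel (mapMat (residue A) Ru) :=
    factors_of_matCont_residue hcont
  have ha : ρA.residual.IsEquiv (ofMatrixRes (mapMat (residue A) Ru) hfac) :=
    residual_isEquiv_ofMatrixRes ρA b' _ _ fun σ => rfl
  let b₁ := stdB ρbar
  have hfac₁ := matrixOfBasisRes_factors ρbar b₁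
  have hb : (ρbar.baseChangeAlong ι).IsEquiv
      (ofMatrixRes (mapMat ι (rbarOf ρbar b₁)) (factors_mapMat ι hfac₁)) :=
    res_baseChangeAlong_isEquiv_ofMatrixRes ι ρbar b₁ _ _ fun σ => rfl
  have h1 := resIsEquiv_trans (resIsEquiv_symm ha) (resIsEquiv_trans hlift hb)
  obtain ⟨gbar, hg⟩ := (ofMatrixRes_isEquiv_iff _ _).1 h1
  -- descend to `k`
  have hπ : ∀ x : A, ι (π x) = residue A x := fun x => e.apply_symm_apply _
  have hfacu : GaloisFactorsThroughFiniteLevel (mapMat π Ru) := by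
    obtain ⟨L, hL, h⟩ := hfac
    refine ⟨L, hL, fun σ hσ => ?_⟩
    have h2 := h σ hσ
    ext i j
    have h3 := congrFun (congrFun h2 i) j
    rw [mapMat_apply] at h3 ⊢
    apply ι.injective
    rw [hπ, h3]
    by_cases hij : i = j
    · subst hij; simp
    · simp [Matrix.one_apply_ne hij]
  let f : M2 (ResidueField A) →* M2 (ResidueField 𝒪) :=
    ((e.symm : ResidueField A →+* ResidueField 𝒪).mapMatrix (m := Fin 2)).toMonoidHom
  let g : (M2 (ResidueField 𝒪))ˣ := Units.map f gbar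
  have hgu : ∀ σ, (g : M2 (ResidueField 𝒪)) * mapMat π Ru σ = rbarOf ρbar b₁ σ * g := by
    intro σ
    have h2 := congrArg f (hg σ)
    rw [map_mul, map_mul] at h2
    have h3 : f (mapMat (residue A) Ru σ) = mapMat π Ru σ := by
      ext i j
      simp [f, π, mapMat]
    have h4 : f (mapMat ι (rbarOf ρbar b₁) σ) = rbarOf ρbar b₁ σ := by
      ext i j
      simp only [f, mapMat_apply, RingHom.toMonoidHom_eq_coe, MonoidHom.coe_coe,
        RingHom.mapMatrix_apply, Matrix.map_apply]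
      exact e.symm_apply_apply _
    rw [h3, h4] at h2
    exact h2
  have hE : ρbar.IsEquiv (ofMatrixRes (mapMat π Ru) hfacu) := by
    refine resIsEquiv_trans ⟨resEquivOfMatrixOfBasis ρbar b₁ (rbarOf ρbar b₁) hfac₁ fun _ => rfl⟩
      ((ofMatrixRes_isEquiv_iff _ _).2 ⟨g⁻¹, fun σ => ?_⟩)
    have h2 := hgu σ
    calc ((g⁻¹ : (M2 (ResidueField 𝒪))ˣ) : M2 (ResidueField 𝒪)) * rbarOf ρbar b₁ σ
        = (g⁻¹ : (M2 (ResidueField 𝒪))ˣ) * (rbarOf ρbar b₁ σ * g) *
            (g⁻¹ : (M2 (ResidueField 𝒪))ˣ) := by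
          rw [mul_assoc, mul_assoc, Units.mul_inv, mul_one]
      _ = (g⁻¹ : (M2 (ResidueField 𝒪))ˣ) * (g * mapMat π Ru σ) *
            (g⁻¹ : (M2 (ResidueField 𝒪))ˣ) := by
          rw [h2]
      _ = mapMat π Ru σ * (g⁻¹ : (M2 (ResidueField 𝒪))ˣ) := by
          rw [← mul_assoc, Units.inv_mul, one_mul]
  obtain ⟨b, hb⟩ := exists_basis_of_isEquiv ρbar hfacu hE
  refine ⟨b, fun σ i j => ?_, fun φ => ?_⟩
  · rw [hb, mapMat_apply]
    exact hπ _
  rw [hb]
  ext σ i j
  rw [redM_apply, fstM_apply, rOfA_apply, mapMat_apply]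
  apply ι.injective
  rw [hπ]
  exact map_fst_tangent hres φ _

include hres hlift in
/-- **There is a basis of `V̄` in which all tangent specialisations of the matrices of `ρ_A` are
strict lifts of the matrices of `ρ̄`.** -/
theorem exists_basis_strictA (b' : Module.Basis (Fin 2) A ρA.V) :
    ∃ b : Module.Basis (Fin 2) (ResidueField 𝒪) ρbar.V,
      ∀ φ : A →ₐ[𝒪] DualNumber (ResidueField 𝒪), redM (rOfA (𝒪 := 𝒪) ρA b' φ) = rbarOf ρbar b := by
  obtain ⟨b, -, hb⟩ := exists_basis_strictA' hres ρA hlift b'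
  exact ⟨b, hb⟩

end Universal


/-! ### The trivial condition at a prime where the specialisation is a constant scalar lift -/

section ZCond

variable {k : Type} [Field k] (ρbar : ResidualGaloisRep k) (b : Module.Basis (Fin 2) k ρbar.V)
  {r : Γ →* M2 (DualNumber k)} (T : Finset Nat.Primes)
  (hred : redM r = rbarOf ρbar b)
  (hdet : ∀ σ, (r σ).det = TrivSqZeroExt.inl (redM r σ).det)
  (hlev : ∃ L : IntermediateField ℚ Qbar, L.IsUnramifiedOutside T ∧
    ∀ s ∈ L.fixingSubgroup, r s = 1)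

/-- If the cocycle of a strict lift vanishes on the decomposition group at `q`, its class is
trivial at `q`. -/
theorem resD_classOf_eq_zero (q : Nat.Primes)
    (hX : ∀ τ : primeLocalGaloisGroup q, cocEnd ρbar b r (locD q τ) = 0) :
    resD T (ad0 ρbar) q (classOf ρbar b T hred hdet hlev) = 0 := by
  rw [classOf, resD, ShaBridge13.resH1_mk, LevelCoh28.H1mk_eq_zero_iff]
  refine ⟨0, ?_⟩
  funext τ
  apply Subtype.ext
  show ρbar.ρ (locD q τ) * 0 * ρbar.ρ (locD q τ)⁻¹ - 0 = cocEnd ρbar b r (locD q τ)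
  rw [hX τ, mul_zero, zero_mul, sub_zero]

/-- The cocycle of a strict lift vanishes at `σ` as soon as `r σ` has no `ε`-component. -/
theorem cocEnd_eq_zero_of_sndM {σ : Γ} (h : sndM (r σ) = 0) : cocEnd ρbar b r σ = 0 := by
  rw [cocEnd, cocM, h, zero_mul, map_zero]

end ZCond

section Scalar

variable {B : Type} [CommRing B] [IsLocalRing B]

/-- Scalar operators are preserved by equivalences. -/
theorem smul_one_of_isEquiv {ρ₁ ρ₂ : GaloisRepAdic B} (h : ρ₁.IsEquiv ρ₂) {σ : Γ} {a : B}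
    (h1 : ρ₁.ρ σ = a • (1 : Module.End B ρ₁.V)) : ρ₂.ρ σ = a • (1 : Module.End B ρ₂.V) := by
  obtain ⟨e⟩ := h
  refine LinearMap.ext fun x => ?_
  obtain ⟨y, rfl⟩ := e.toLinearEquiv.surjective x
  rw [← e.map_apply, h1, LinearMap.smul_apply, Module.End.one_apply, map_smul,
    LinearMap.smul_apply, Module.End.one_apply]

/-- A matrix representation which is scalar at `σ`. -/
theorem apply_eq_of_ofMatrix_smul_one {r : Γ →* M2 B} (hr : MatCont r) {σ : Γ} {a : B}
    (h : (ofMatrix r hr).ρ σ = a • (1 : Module.End B (ofMatrix r hr).V)) (i j : Fin 2) :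
    r σ i j = if i = j then a else 0 := by
  have h1 : (ofMatrix r hr).ρ σ (Pi.single j (1 : B) : Fin 2 → B) =
      a • (Pi.single j (1 : B) : Fin 2 → B) := by
    rw [h]
    rfl
  rw [ofMatrix_ρ_apply, Matrix.mulVec_single_one] at h1
  have h2 := congrFun h1 i
  rw [Pi.smul_apply, Pi.single_apply, smul_eq_mul] at h2
  rw [show r σ i j = (r σ).col j i from rfl, h2]
  split_ifs <;> simp

end Scalar

/-! ### The tangent classes -/

section Main

variable {𝒪 : Type} [CommRing 𝒪] [IsDomain 𝒪] [IsDiscreteValuationRing 𝒪]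
  [IsAdicComplete (maximalIdeal 𝒪) 𝒪] [Finite (ResidueField 𝒪)]
  (p : ℕ) [Fact p.Prime] (hp𝒪 : (p : 𝒪) ∈ maximalIdeal 𝒪)
  {ρbar : ResidualGaloisRep (ResidueField 𝒪)}
  (hdetbar : (GaloisRepAdic.ofResidualGaloisRep ρbar).DetIsCyclotomic p)
  {A : Type} [CommRing A] [IsLocalRing A] [Algebra 𝒪 A] [IsLocalHom (algebraMap 𝒪 A)]
  (ρA : GaloisRepAdic A)
  (b' : Module.Basis (Fin 2) A ρA.V)
  (b : Module.Basis (Fin 2) (ResidueField 𝒪) ρbar.V)
  (hb : ∀ φ : A →ₐ[𝒪] DualNumber (ResidueField 𝒪), redM (rOfA (𝒪 := 𝒪) ρA b' φ) = rbarOf ρbar b)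
  (T : Finset ℕ) (hD : ρA.DetIsCyclotomic p)
  (hU : ∀ q : ℕ, q.Prime → q ∉ T → ρA.IsUnramifiedAt q)

include hp𝒪 hdetbar hb hD in
theorem det_rOfA (φ : A →ₐ[𝒪] DualNumber (ResidueField 𝒪)) (σ : Γ) :
    (rOfA (𝒪 := 𝒪) ρA b' φ σ).det = TrivSqZeroExt.inl (redM (rOfA (𝒪 := 𝒪) ρA b' φ) σ).det := by
  have h1 : (rOfA (𝒪 := 𝒪) ρA b' φ σ).det = φ ((matrixOf ρA b' σ).det) := by
    rw [rOfA, mapMat_apply']
    exact (RingHom.map_det (φ : A →+* DualNumber (ResidueField 𝒪)) _).symm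
  have h2 := hD.2 1 σ (cycloExp p σ) (apply_eq_pow_cycloExp' p σ)
  rw [← det_matrixOf ρA b'] at h2
  have h3 := W56.BaseChange9.map_mem_span_natCast (φ : A →+* DualNumber (ResidueField 𝒪)) h2
  rw [pow_one, natCast_p_dualNumber p hp𝒪, Ideal.mem_span_singleton, zero_dvd_iff, map_sub,
    sub_eq_zero, map_natCast] at h3
  have h4 : (redM (rOfA (𝒪 := 𝒪) ρA b' φ) σ).det = (cycloExp p σ : ResidueField 𝒪) := by
    rw [hb φ, matrixOfBasisRes_apply, LinearMap.det_toMatrix]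
    exact det_eq_cycloExp p (GaloisRepAdic.ofResidualGaloisRep ρbar)
      (natCast_p_residueField p hp𝒪) hdetbar σ
  rw [h1, h4]
  change (φ : A →+* DualNumber (ResidueField 𝒪)) _ = _
  rw [h3]
  exact (map_natCast (TrivSqZeroExt.inlHom (ResidueField 𝒪) (ResidueField 𝒪)) _).symm

include hU in
theorem lev_rOfA (φ : A →ₐ[𝒪] DualNumber (ResidueField 𝒪)) :
    ∃ L : IntermediateField ℚ Qbar, L.IsUnramifiedOutside (primesOf T) ∧
      ∀ s ∈ L.fixingSubgroup, rOfA (𝒪 := 𝒪) ρA b' φ s = 1 := by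
  refine exists_isUnramifiedOutside_forall_eq_one (rOfA (𝒪 := 𝒪) ρA b' φ) (primesOf T) ?_ ?_
  · obtain ⟨L, hL, h⟩ := factors_of_matCont_dualNumber (matCont_rOfA (𝒪 := 𝒪) ρA b' φ)
    exact ⟨L, hL, fun s hs => h s fun x hx =>
      (IntermediateField.mem_fixingSubgroup_iff _ _).1 hs x hx⟩
  · intro q hq P hP g hg
    have hq' : (q : ℕ) ∉ T := fun h => hq (mem_primesOf.2 h)
    have h1 := hU q q.2 hq' P hP g hg
    rw [rOfA, mapMat_apply', matrixOf_eq_one ρA b' h1]
    exact Matrix.map_one _ (map_zero _) (map_one _)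

/-- **The class in `H¹(G_T, ad⁰ρ̄)` of a tangent homomorphism of `A`.** -/
def tangentClassA (φ : A →ₐ[𝒪] DualNumber (ResidueField 𝒪)) : H1g (primesOf T) (ad0 ρbar) :=
  classOf ρbar b (primesOf T) (hb φ) (det_rOfA p hp𝒪 hdetbar ρA b' b hb hD φ)
    (lev_rOfA (𝒪 := 𝒪) ρA b' T hU φ)

/-- Every tangent specialisation of `ρ_A` is equivalent to its matrix model `rOfA`. -/
theorem baseChangeAlong_isEquiv_rOfA (φ : A →ₐ[𝒪] DualNumber (ResidueField 𝒪)) :
    (ρA.baseChangeAlong (φ : A →+* DualNumber (ResidueField 𝒪))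
      (isLocalHom_tangent φ)).IsEquiv (ofMatrix (rOfA (𝒪 := 𝒪) ρA b' φ) (matCont_rOfA (𝒪 := 𝒪) ρA b' φ)) :=
  adicIsEquiv_trans
    (adicIsEquiv_baseChangeAlong _ (isLocalHom_tangent φ) (isEquiv_ofMatrix_matrixOf ρA b'))
    (baseChangeAlong_ofMatrix _ (isLocalHom_tangent φ) _ (matCont_matrixOf ρA b'))

include hp𝒪 hdetbar hb hD hU in
/-- **Injectivity of the tangent class**, from the hypothesis that tangent homomorphisms with
equivalent specialisations are equal. -/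
theorem eq_of_tangentClassA_eq
    (hinj : ∀ φ ψ : A →ₐ[𝒪] DualNumber (ResidueField 𝒪),
      (ρA.baseChangeAlong (φ : A →+* DualNumber (ResidueField 𝒪)) (isLocalHom_tangent φ)).IsEquiv
        (ρA.baseChangeAlong (ψ : A →+* DualNumber (ResidueField 𝒪)) (isLocalHom_tangent ψ)) →
      φ = ψ)
    (φ ψ : A →ₐ[𝒪] DualNumber (ResidueField 𝒪))
    (h : tangentClassA p hp𝒪 hdetbar ρA b' b hb T hD hU φ =
      tangentClassA p hp𝒪 hdetbar ρA b' b hb T hD hU ψ) : φ = ψ := by
  have h1 : (ofMatrix (rOfA (𝒪 := 𝒪) ρA b' φ) (matCont_rOfA (𝒪 := 𝒪) ρA b' φ)).IsEquiv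
      (ofMatrix (rOfA (𝒪 := 𝒪) ρA b' ψ) (matCont_rOfA (𝒪 := 𝒪) ρA b' ψ)) :=
    isEquiv_of_classOf_eq ρbar b (primesOf T) (hb φ) _ _ (matCont_rOfA (𝒪 := 𝒪) ρA b' φ)
      (matCont_rOfA (𝒪 := 𝒪) ρA b' ψ) (hb ψ) _ _ h
  exact hinj φ ψ (adicIsEquiv_trans (baseChangeAlong_isEquiv_rOfA (𝒪 := 𝒪) ρA b' φ)
    (adicIsEquiv_trans h1 (adicIsEquiv_symm (baseChangeAlong_isEquiv_rOfA (𝒪 := 𝒪) ρA b' ψ))))

/-- The class of a tangent homomorphism without `ε`-component is zero. -/
theorem tangentClassA_eq_zero (φ : A →ₐ[𝒪] DualNumber (ResidueField 𝒪))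
    (hφ : ∀ x : A, (φ x).snd = 0) :
    tangentClassA p hp𝒪 hdetbar ρA b' b hb T hD hU φ = 0 := by
  rw [tangentClassA, classOf]
  have h0 : cocZ ρbar b (primesOf T) (hb φ) (det_rOfA p hp𝒪 hdetbar ρA b' b hb hD φ)
      (lev_rOfA (𝒪 := 𝒪) ρA b' T hU φ) = 0 := by
    apply Subtype.ext
    funext σ
    apply Subtype.ext
    show cocEnd ρbar b (rOfA (𝒪 := 𝒪) ρA b' φ) σ = 0
    have h1 : sndM (rOfA (𝒪 := 𝒪) ρA b' φ σ) = 0 := by
      ext i j
      rw [sndM_apply, rOfA_apply, hφ]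
      rfl
    rw [cocEnd, cocM, h1, zero_mul, map_zero]
  rw [h0, map_zero]

/-- **The specialisation of a flat `ρ_A` along a surjective tangent homomorphism is (equivalent
to) a flat lift `liftOf ρ̄ c`, `c` its cocycle.** -/
theorem isFlatAt_liftOfA (hflat : ρA.IsFlatAt p)
    (φ : A →ₐ[𝒪] DualNumber (ResidueField 𝒪)) (hφ : Function.Surjective φ) :
    (liftOf ρbar (cocZ ρbar b (primesOf T) (hb φ) (det_rOfA p hp𝒪 hdetbar ρA b' b hb hD φ)
      (lev_rOfA (𝒪 := 𝒪) ρA b' T hU φ))).IsFlatAt p := by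
  have h1 : (ρA.baseChangeAlong (φ : A →+* DualNumber (ResidueField 𝒪))
      (isLocalHom_tangent φ)).IsFlatAt p :=
    W56.FlatBC9.isFlatAt_baseChangeAlong_of_surjective ρA _ (isLocalHom_tangent φ) hφ p hflat
  have h2 := W56.FlatBC9.isFlatAt_of_isEquiv p (baseChangeAlong_isEquiv_rOfA (𝒪 := 𝒪) ρA b' φ) h1
  exact W56.FlatBC9.isFlatAt_of_isEquiv p
    (ofMatrix_isEquiv_liftOf ρbar b (matCont_rOfA (𝒪 := 𝒪) ρA b' φ) (hb φ) _ _) h2

end Main

/-! ### The injection into the Selmer group `Sel^Z` -/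

section Final

variable {𝒪 : Type} [CommRing 𝒪] [IsDomain 𝒪] [IsDiscreteValuationRing 𝒪]
  [IsAdicComplete (maximalIdeal 𝒪) 𝒪] [Finite (ResidueField 𝒪)]

open Polynomial in
/-- **The dictionary for an abstract pair `(A, ρ_A)`**: `ρ_A` a lift of `ρ̄` to a local
`𝒪`-algebra `A` with residue field `k`, of cyclotomic determinant, flat at `p`, unramified outside
`Smin ∪ Q`, unipotent on inertia at the primes of `Smin ∖ ({p} ∪ Z)` (where `ρ̄` is ramified),
"tangent-injective" (`hinj`).  If every tangent homomorphism killing `E` specialises `ρ_A` on the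
decomposition groups at the primes `q ∈ Z` to the constant lift of the scalar `ρ̄|D_q` (`hE`), then
the tangent homomorphisms killing `E` INJECT into `Sel^Z`. -/
theorem exists_injective_tangentA (p : ℕ) [Fact p.Prime] [CharP (ResidueField 𝒪) p]
    (hp2 : p ≠ 2) (hp𝒪 : (p : 𝒪) ∈ maximalIdeal 𝒪) (ρbar : ResidualGaloisRep (ResidueField 𝒪))
    (hdetbar : (GaloisRepAdic.ofResidualGaloisRep ρbar).DetIsCyclotomic p)
    (Smin Q Z : Finset ℕ)
    (hmin : ∀ q ∈ Smin, q.Prime → q ≠ p → q ∉ Z → ¬ ρbar.IsUnramifiedAt q)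
    {A : Type} [CommRing A] [IsLocalRing A] [Algebra 𝒪 A] [IsLocalHom (algebraMap 𝒪 A)]
    (hres : Function.Surjective (residue A ∘ algebraMap 𝒪 A))
    (ρA : GaloisRepAdic A)
    (hlift : ρA.residual.IsEquiv (ρbar.baseChangeAlong (ResidueField.map (algebraMap 𝒪 A))))
    (hD : ρA.DetIsCyclotomic p) (hflat : ρA.IsFlatAt p)
    (hU : ∀ q : ℕ, q.Prime → q ∉ Smin ∪ Q → ρA.IsUnramifiedAt q)
    (hunip : ∀ q ∈ Smin, q.Prime → q ≠ p → q ∉ Z → ρA.IsUnipotentOnInertiaAt q)
    (hinj : ∀ φ ψ : A →ₐ[𝒪] DualNumber (ResidueField 𝒪),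
      (ρA.baseChangeAlong (φ : A →+* DualNumber (ResidueField 𝒪)) (isLocalHom_tangent φ)).IsEquiv
        (ρA.baseChangeAlong (ψ : A →+* DualNumber (ResidueField 𝒪)) (isLocalHom_tangent ψ)) →
      φ = ψ)
    (E : Set A)
    (hE : ∀ φ : A →ₐ[𝒪] DualNumber (ResidueField 𝒪), (∀ e ∈ E, φ e = 0) →
      ∀ q ∈ primesOf Z, ∀ σ ∈ (primeLocalPlace q).decompositionSubgroup ℚ,
        ∀ c : ResidueField 𝒪, ρbar.ρ σ = c • (1 : Module.End (ResidueField 𝒪) ρbar.V) →
          (ρA.baseChangeAlong (φ : A →+* DualNumber (ResidueField 𝒪))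
            (isLocalHom_tangent φ)).ρ σ =
            (TrivSqZeroExt.inl c : DualNumber (ResidueField 𝒪)) • 1)
    (hZsc : ∀ q ∈ primesOf Z, ∀ σ ∈ (primeLocalPlace q).decompositionSubgroup ℚ,
      ∃ c : ResidueField 𝒪, ρbar.ρ σ = c • (1 : Module.End (ResidueField 𝒪) ρbar.V))
    (Lp : Submodule (ResidueField 𝒪) (H1D (ad0 ρbar) (pPrime p)))
    (hLp : ∀ c : ↥(LevelCoh28.Z1 (LevelBridge13.globalBasis (primesOf (Smin ∪ Q))) (ad0 ρbar)),
      (liftOf ρbar c).IsFlatAt p →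
        resD (primesOf (Smin ∪ Q)) (ad0 ρbar) (pPrime p)
          (LevelCoh28.H1mk (LevelBridge13.globalBasis (primesOf (Smin ∪ Q))) (ad0 ρbar) c) ∈ Lp) :
    ∃ F : {φ : A →ₐ[𝒪] DualNumber (ResidueField 𝒪) // ∀ e ∈ E, φ e = 0} →
        ↥(SelZ (primesOf (Smin ∪ Q)) (primesOf (Smin.erase p)) (primesOf Z) (pPrime p)
          (ad0 ρbar) Lp),
      Function.Injective F := by
  let b' : Module.Basis (Fin 2) A ρA.V := Module.finBasisOfFinrankEq A ρA.V ρA.finrank_eq
  obtain ⟨b, hb⟩ := exists_basis_strictA hres ρA hlift b'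
  have hmem : ∀ φ : A →ₐ[𝒪] DualNumber (ResidueField 𝒪), (∀ e ∈ E, φ e = 0) →
      tangentClassA p hp𝒪 hdetbar ρA b' b hb (Smin ∪ Q) hD hU φ ∈
        SelZ (primesOf (Smin ∪ Q)) (primesOf (Smin.erase p)) (primesOf Z) (pPrime p)
          (ad0 ρbar) Lp := by
    intro φ hφE
    rw [mem_SelZ_iff]
    refine ⟨?_, ?_, ?_⟩
    · intro q hq hqZ
      rw [mem_primesOf, Finset.mem_erase] at hq
      obtain ⟨hqp, hqS⟩ := hq
      have hqZ' : (q : ℕ) ∉ Z := fun h => hqZ (mem_primesOf.2 h)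
      refine W56.UnipSel8.resI_eq_zero_of_unipotent ρbar p hp2 _ q hqp
        (hmin q hqS q.2 hqp hqZ') _ ?_
      intro σ hσ
      have hch : (rOfA (𝒪 := 𝒪) ρA b' φ σ).charpoly = (X - 1) ^ 2 := by
        have h1 := hunip q hqS q.2 hqp hqZ' (primeLocalPlace q)
          (W56.UnipSel8.liesOverPrime_primeLocalPlace q) σ hσ
        rw [← charpoly_matrixOf ρA b'] at h1
        rw [rOfA, mapMat_apply', Matrix.charpoly_map, h1]
        simp
      obtain ⟨e1, e2, e3⟩ := unip_of_charpoly hch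
      rw [hb φ] at e1 e2 e3
      refine ⟨?_, ?_, ?_⟩
      · rw [LinearMap.trace_eq_matrix_trace _ b]; exact e1
      · rw [← LinearMap.det_toMatrix b]; exact e2
      · show LinearMap.trace _ _ (cocEnd ρbar b (rOfA (𝒪 := 𝒪) ρA b' φ) σ * ρbar.ρ σ) = 0
        rw [LinearMap.trace_eq_matrix_trace _ b, Module.End.mul_eq_comp,
          LinearMap.toMatrix_comp b b b, toMatrix_cocEnd]
        exact e3
    · intro q _ hqZ
      rw [tangentClassA]
      refine resD_classOf_eq_zero ρbar b _ _ _ _ q fun τ => ?_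
      have hσ := locD_mem_decompositionSubgroup q τ
      obtain ⟨c, hc⟩ := hZsc q hqZ _ hσ
      have h1 := hE φ hφE q hqZ _ hσ c hc
      have h2 := smul_one_of_isEquiv (baseChangeAlong_isEquiv_rOfA ρA b' φ) h1
      have h3 := apply_eq_of_ofMatrix_smul_one (matCont_rOfA (𝒪 := 𝒪) ρA b' φ) h2
      refine cocEnd_eq_zero_of_sndM ρbar b ?_
      ext i j
      rw [sndM_apply, h3 i j]
      split_ifs <;> simp
    · rcases surjective_or_snd_eq_zero φ with hs | h0
      · exact hLp _ (isFlatAt_liftOfA p hp𝒪 hdetbar ρA b' b hb (Smin ∪ Q) hD hU hflat φ hs)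
      · rw [tangentClassA_eq_zero p hp𝒪 hdetbar ρA b' b hb (Smin ∪ Q) hD hU φ h0, map_zero]
        exact Lp.zero_mem
  refine ⟨fun φ => ⟨_, hmem φ.1 φ.2⟩, fun φ ψ h => ?_⟩
  have h' := congrArg Subtype.val h
  exact Subtype.ext
    (eq_of_tangentClassA_eq p hp𝒪 hdetbar ρA b' b hb _ hD hU hinj φ.1 ψ.1 h')

end Final

end

end Fermat.Agent.M43.GlobDict3
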