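/-
Programme M43 (target S43), pillar (P-GLOB), helper3: **discharge of the hypothesis `hE` of
`GlobMain3.exists_tw_generators`**: it is enough to control the tangent specialisations at TWO
elements of the decomposition group at each bad prime `q`: a Frobenius element `fr_q` and the
universal tame `p`-generator `s_q` of `GlobTame3`.

* `sndM_eq_zero_of_frob_tame` (matrix level): `r : Γ → GL₂(k[ε])` continuous with reduction
  unramified at `q ≠ p`; if `r(fr_q)` has no `ε`-part and `r(s_q) = 1`, then `r(σ)` has no `ε`-part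
  for EVERY `σ` in the decomposition group (`D_q ⊆ ⟨fr_q⟩ I_q Gal(ℚ̄/F)`, `r(I_q) = ⟨r(s_q)⟩`);
* **`hE_of_frob_tame`**: the hypothesis `hE` from its instances at `fr_q`, `s_q`;
* `smul_one_of_scalar_matrix`: the instance at an element `g` with `ρ̄(g) = c` scalar follows from
  "`φ` kills the traceless coordinates of the matrix of `ρ_A(g)`" in ANY basis of `V_A` (the
  determinant being cyclotomic and `p` odd).
-/
import Mathlib
import Fermat.Agent.M43.GlobDict3
import Fermat.Agent.M43.GlobTame3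
import Fermat.Agent.W56.FrobGen8

set_option autoImplicit false
set_option linter.unusedSectionVars false
set_option linter.unnecessarySeqFocus false
set_option linter.style.haveILetI false

open CategoryTheory groupCohomology IsLocalRing ExtCitation

namespace Fermat.Agent.M43.GlobLoc3

open Fermat.Agent.S53 Fermat.Agent.S53.MatrixModel Fermat.Agent.W56.Defs9 Fermat.Agent.W56.Lift9
  Fermat.Agent.W56.Dict9 Fermat.Agent.M43.GlobDict3 Fermat.Agent.M43.GlobTame3

local notation "Qbar" => AlgebraicClosure ℚ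
local notation "Γ" => (AlgebraicClosure ℚ ≃ₐ[ℚ] AlgebraicClosure ℚ)

noncomputable section

/-! ### Matrices over the dual numbers -/

section DN

variable {k : Type} [Field k]

theorem dn_zero_pow (X : M2 k) (n : ℕ) : dn X 0 ^ n = dn (X ^ n) 0 := by
  induction n with
  | zero => rw [pow_zero, pow_zero, dn_one]
  | succ n ih => rw [pow_succ, ih, dn_mul, mul_zero, zero_mul, add_zero, ← pow_succ]

theorem dn_one_pow (Y : M2 k) (n : ℕ) : dn 1 Y ^ n = dn 1 (n • Y) := by
  induction n with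
  | zero => rw [pow_zero, zero_smul, dn_one]
  | succ n ih => rw [pow_succ, ih, dn_mul, one_mul, one_mul, mul_one, add_comm, succ_nsmul]

theorem eq_dn_of_sndM_eq_zero {M : M2 (DualNumber k)} (h : sndM M = 0) : M = dn (fstM M) 0 := by
  rw [← h, dn_fstM_sndM]

end DN

/-! ### The matrix level -/

section MatrixLevel

variable {k : Type} [Field k] (p : ℕ) [Fact p.Prime] [CharP k p]
  {q : ℕ} {P : ValuationSubring Qbar}

/-- **From a Frobenius element and the tame generator to the whole decomposition group.** -/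
theorem sndM_eq_zero_of_frob_tame (hq : q.Prime) (hP : P.LiesOverPrime q)
    {r : Γ →* M2 (DualNumber k)} (hr : GaloisFactorsThroughFiniteLevel r)
    (hred : ∀ τ ∈ P.inertiaSubgroupIn ℚ, redM r τ = 1)
    {fr : Γ} (hfr : P.IsFrobeniusAt fr q) (hrfr : sndM (r fr) = 0)
    (s : ↥(P.inertiaSubgroupIn ℚ))
    (hs : ∀ {H : Type} [Group H] (f : ↥(P.inertiaSubgroupIn ℚ) →* H), ContI f →
      (∀ σ, ∃ a : ℕ, f σ ^ p ^ a = 1) → ∀ σ, f σ ∈ Subgroup.zpowers (f s))
    (hrs : r (s : Γ) = 1)
    {σ : Γ} (hσ : σ ∈ P.decompositionSubgroup ℚ) : sndM (r σ) = 0 := by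
  classical
  obtain ⟨L, hL, hLr⟩ := hr
  haveI := hL
  -- `r` is trivial on the inertia group
  have hI : ∀ τ ∈ P.inertiaSubgroupIn ℚ, r τ = 1 := by
    let f : ↥(P.inertiaSubgroupIn ℚ) →* (M2 (DualNumber k))ˣ :=
      r.toHomUnits.comp (P.inertiaSubgroupIn ℚ).subtype
    have hfval : ∀ τ : ↥(P.inertiaSubgroupIn ℚ), ((f τ : (M2 (DualNumber k))ˣ) :
        M2 (DualNumber k)) = r (τ : Γ) := fun τ => rfl
    have hfc : ContI f := by
      refine ⟨L, hL, fun τ hτ => ?_⟩
      apply Units.ext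
      rw [hfval, Units.val_one]
      exact hLr _ hτ
    have hfp : ∀ τ, ∃ a : ℕ, f τ ^ p ^ a = 1 := by
      intro τ
      refine ⟨1, ?_⟩
      apply Units.ext
      rw [pow_one, Units.val_pow_eq_pow_val, hfval, Units.val_one]
      have h1 : r (τ : Γ) = dn 1 (sndM (r (τ : Γ))) := by
        have h2 := dn_fstM_sndM (r (τ : Γ))
        have h3 : fstM (r (τ : Γ)) = 1 := hred _ τ.2
        rw [h3] at h2
        exact h2.symm
      rw [h1, dn_one_pow]
      have h4 : (p : ℕ) • sndM (r (τ : Γ)) = 0 := by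
        rw [← Nat.cast_smul_eq_nsmul k, CharP.cast_eq_zero, zero_smul]
      rw [h4, dn_one]
    intro τ hτ
    have h1 := hs f hfc hfp ⟨τ, hτ⟩
    have hfs : f s = 1 := by
      apply Units.ext
      rw [hfval, Units.val_one, hrs]
    rw [hfs, Subgroup.zpowers_one_eq_bot, Subgroup.mem_bot] at h1
    have h2 := congrArg Units.val h1
    rwa [hfval, Units.val_one] at h2
  -- the decomposition group
  let F : IntermediateField ℚ Qbar := IntermediateField.normalClosure ℚ L Qbar
  haveI : Normal ℚ Qbar := W56.TameInertia8.normal_Qb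
  haveI : FiniteDimensional ℚ F := by
    show FiniteDimensional ℚ (IntermediateField.normalClosure ℚ L Qbar)
    infer_instance
  haveI : Normal ℚ F := normalClosure.normal ℚ L Qbar
  obtain ⟨n, ι, hι, u, hu, rfl⟩ := W56.FrobGen8.exists_eq_frob_pow_mul hq hP hfr F hσ
  have hru : r u = 1 := by
    refine hLr u fun x hx => ?_
    have hxF : x ∈ F := IntermediateField.le_normalClosure L hx
    exact (IntermediateField.mem_fixingSubgroup_iff _ _).1 hu x hxF
  rw [map_mul, map_mul, map_pow, hI ι hι, hru, mul_one, mul_one,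
    eq_dn_of_sndM_eq_zero hrfr, dn_zero_pow, sndM_dn]

end MatrixLevel

/-! ### The level of `(A, ρ_A)` -/

section ALevel

attribute [local instance] dualNumberAlgebra

variable {𝒪 : Type} [CommRing 𝒪] [IsDomain 𝒪] [IsDiscreteValuationRing 𝒪]
  [IsAdicComplete (maximalIdeal 𝒪) 𝒪] [Finite (ResidueField 𝒪)]

/-- A matrix representation which is the scalar matrix `a` at `σ` acts by `a` at `σ`. -/
theorem ofMatrix_smul_one_of_apply {B : Type} [CommRing B] [IsLocalRing B] {r : Γ →* M2 B}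
    (hr : MatCont r) {σ : Γ} {a : B} (h : ∀ i j : Fin 2, r σ i j = if i = j then a else 0) :
    (ofMatrix r hr).ρ σ = a • (1 : Module.End B (ofMatrix r hr).V) := by
  have h1 : r σ = a • (1 : M2 B) := by
    refine Matrix.ext fun i j => ?_
    rw [h i j, Matrix.smul_apply, Matrix.one_apply, smul_eq_mul]
    split_ifs <;> simp
  refine LinearMap.ext fun v => ?_
  obtain ⟨w, rfl⟩ : ∃ w : Fin 2 → B, w = v := ⟨v, rfl⟩
  rw [ofMatrix_ρ_apply, h1, Matrix.smul_mulVec, Matrix.one_mulVec]
  rfl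

/-- **The hypothesis `hE` from its instances at a Frobenius element and at the universal tame
generator.** -/
theorem hE_of_frob_tame (p : ℕ) [Fact p.Prime] [CharP (ResidueField 𝒪) p]
    (ρbar : ResidualGaloisRep (ResidueField 𝒪))
    {A : Type} [CommRing A] [IsLocalRing A] [Algebra 𝒪 A] [IsLocalHom (algebraMap 𝒪 A)]
    (hres : Function.Surjective (residue A ∘ algebraMap 𝒪 A))
    (ρA : GaloisRepAdic A)
    (hlift : ρA.residual.IsEquiv (ρbar.baseChangeAlong (ResidueField.map (algebraMap 𝒪 A))))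
    (φ : A →ₐ[𝒪] DualNumber (ResidueField 𝒪))
    (q : Nat.Primes) (hur : ρbar.IsUnramifiedAt (q : ℕ))
    {fr : Γ} (hfr : (primeLocalPlace q).IsFrobeniusAt fr (q : ℕ))
    (s : ↥((primeLocalPlace q).inertiaSubgroupIn ℚ))
    (hs : ∀ {H : Type} [Group H] (f : ↥((primeLocalPlace q).inertiaSubgroupIn ℚ) →* H),
      ContI f → (∀ σ, ∃ a : ℕ, f σ ^ p ^ a = 1) → ∀ σ, f σ ∈ Subgroup.zpowers (f s))
    (cfr : ResidueField 𝒪)
    (hφfr : (ρA.baseChangeAlong (φ : A →+* DualNumber (ResidueField 𝒪))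
      (isLocalHom_tangent φ)).ρ fr =
        (TrivSqZeroExt.inl cfr : DualNumber (ResidueField 𝒪)) • 1)
    (hφs : (ρA.baseChangeAlong (φ : A →+* DualNumber (ResidueField 𝒪))
      (isLocalHom_tangent φ)).ρ (s : Γ) = 1) :
    ∀ σ ∈ (primeLocalPlace q).decompositionSubgroup ℚ, ∀ c : ResidueField 𝒪,
      ρbar.ρ σ = c • (1 : Module.End (ResidueField 𝒪) ρbar.V) →
        (ρA.baseChangeAlong (φ : A →+* DualNumber (ResidueField 𝒪))
          (isLocalHom_tangent φ)).ρ σ =
          (TrivSqZeroExt.inl c : DualNumber (ResidueField 𝒪)) • 1 := by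
  intro σ hσ c hc
  have hP := W56.UnipSel8.liesOverPrime_primeLocalPlace q
  let b' : Module.Basis (Fin 2) A ρA.V := Module.finBasisOfFinrankEq A ρA.V ρA.finrank_eq
  obtain ⟨b, hb⟩ := exists_basis_strictA hres ρA hlift b'
  have hr := matCont_rOfA (𝒪 := 𝒪) ρA b' φ
  have hfac := factors_of_matCont_dualNumber hr
  have heq := baseChangeAlong_isEquiv_rOfA ρA b' φ
  -- the two instances, in matrix form
  have hrfr : sndM (rOfA (𝒪 := 𝒪) ρA b' φ fr) = 0 := by
    have h1 := apply_eq_of_ofMatrix_smul_one hr (smul_one_of_isEquiv heq hφfr)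
    refine Matrix.ext fun i j => ?_
    rw [sndM_apply, h1 i j]
    split_ifs <;> simp
  have hrs : rOfA (𝒪 := 𝒪) ρA b' φ (s : Γ) = 1 := by
    have h0 : (ρA.baseChangeAlong (φ : A →+* DualNumber (ResidueField 𝒪))
        (isLocalHom_tangent φ)).ρ (s : Γ) = (1 : DualNumber (ResidueField 𝒪)) • 1 := by
      rw [hφs, one_smul]
    have h1 := apply_eq_of_ofMatrix_smul_one hr (smul_one_of_isEquiv heq h0)
    refine Matrix.ext fun i j => ?_
    rw [h1 i j, Matrix.one_apply]
  have hred : ∀ τ ∈ (primeLocalPlace q).inertiaSubgroupIn ℚ,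
      redM (rOfA (𝒪 := 𝒪) ρA b' φ) τ = 1 := by
    intro τ hτ
    rw [hb φ, matrixOfBasisRes_apply, hur _ hP τ hτ, LinearMap.toMatrix_one]
  have hsnd := sndM_eq_zero_of_frob_tame p q.2 hP hfac hred hfr hrfr s hs hrs hσ
  -- the value at `σ`
  have hval : ∀ i j : Fin 2, rOfA (𝒪 := 𝒪) ρA b' φ σ i j =
      if i = j then (TrivSqZeroExt.inl c : DualNumber (ResidueField 𝒪)) else 0 := by
    intro i j
    have h1 := eq_dn_of_sndM_eq_zero hsnd
    have h2 : fstM (rOfA (𝒪 := 𝒪) ρA b' φ σ) = c • (1 : M2 (ResidueField 𝒪)) := by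
      have h3 : redM (rOfA (𝒪 := 𝒪) ρA b' φ) σ = rbarOf ρbar b σ := by rw [hb φ]
      rw [redM_apply] at h3
      rw [h3, matrixOfBasisRes_apply, hc, map_smul, LinearMap.toMatrix_one]
    rw [h1, h2, dn_apply, Matrix.smul_apply, Matrix.one_apply, Matrix.zero_apply]
    split_ifs <;> simp
  exact smul_one_of_isEquiv (adicIsEquiv_symm heq) (ofMatrix_smul_one_of_apply hr hval)

/-- **The instance of `hE` at one element `g` with `ρ̄(g) = c` scalar**: if `φ` kills the traceless
coordinates of the matrix of `ρ_A(g)` in a basis `b''` of `V_A` (off-diagonal entries and the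
difference of the diagonal entries), then the specialisation of `ρ_A(g)` along `φ` is the constant
scalar `c` (determinant cyclotomic, `p` odd). -/
theorem smul_one_of_scalar_matrix (p : ℕ) [Fact p.Prime] [CharP (ResidueField 𝒪) p] (hp2 : p ≠ 2)
    (hp𝒪 : (p : 𝒪) ∈ maximalIdeal 𝒪)
    (ρbar : ResidualGaloisRep (ResidueField 𝒪))
    (hdetbar : (GaloisRepAdic.ofResidualGaloisRep ρbar).DetIsCyclotomic p)
    {A : Type} [CommRing A] [IsLocalRing A] [Algebra 𝒪 A] [IsLocalHom (algebraMap 𝒪 A)]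
    (hres : Function.Surjective (residue A ∘ algebraMap 𝒪 A))
    (ρA : GaloisRepAdic A)
    (hlift : ρA.residual.IsEquiv (ρbar.baseChangeAlong (ResidueField.map (algebraMap 𝒪 A))))
    (hD : ρA.DetIsCyclotomic p)
    (b'' : Module.Basis (Fin 2) A ρA.V)
    (φ : A →ₐ[𝒪] DualNumber (ResidueField 𝒪)) (g : Γ) (c : ResidueField 𝒪)
    (hc : ρbar.ρ g = c • (1 : Module.End (ResidueField 𝒪) ρbar.V))
    (h01 : φ (matrixOf ρA b'' g 0 1) = 0) (h10 : φ (matrixOf ρA b'' g 1 0) = 0)
    (h00 : φ (matrixOf ρA b'' g 0 0) = φ (matrixOf ρA b'' g 1 1)) :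
    (ρA.baseChangeAlong (φ : A →+* DualNumber (ResidueField 𝒪)) (isLocalHom_tangent φ)).ρ g =
      (TrivSqZeroExt.inl c : DualNumber (ResidueField 𝒪)) • 1 := by
  obtain ⟨b, hb⟩ := exists_basis_strictA hres ρA hlift b''
  have hr := matCont_rOfA (𝒪 := 𝒪) ρA b'' φ
  have heq := baseChangeAlong_isEquiv_rOfA ρA b'' φ
  set t : DualNumber (ResidueField 𝒪) := φ (matrixOf ρA b'' g 0 0) with ht
  have hval : ∀ i j : Fin 2, rOfA (𝒪 := 𝒪) ρA b'' φ g i j = if i = j then t else 0 := by
    intro i j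
    rw [rOfA_apply]
    fin_cases i <;> fin_cases j
    · simp [ht]
    · simpa using h01
    · simpa using h10
    · simpa [ht] using h00.symm
  -- the reduction
  have hfstM : fstM (rOfA (𝒪 := 𝒪) ρA b'' φ g) = c • (1 : M2 (ResidueField 𝒪)) := by
    have h3 : redM (rOfA (𝒪 := 𝒪) ρA b'' φ) g = rbarOf ρbar b g := by rw [hb φ]
    rw [redM_apply] at h3
    rw [h3, matrixOfBasisRes_apply, hc, map_smul, LinearMap.toMatrix_one]
  have hfst : t.fst = c := by
    have h1 := congrFun (congrFun hfstM 0) 0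
    rw [fstM_apply, hval 0 0, if_pos rfl, Matrix.smul_apply, Matrix.one_apply_eq, smul_eq_mul,
      mul_one] at h1
    exact h1
  -- the determinant
  have hdet := det_rOfA p hp𝒪 hdetbar ρA b'' b hb hD φ g
  have hdet1 : (rOfA (𝒪 := 𝒪) ρA b'' φ g).det = t * t := by
    rw [Matrix.det_fin_two, hval 0 0, hval 1 1, hval 0 1, hval 1 0]
    simp
  have hdet2 : (redM (rOfA (𝒪 := 𝒪) ρA b'' φ) g).det = c * c := by
    rw [redM_apply, hfstM, Matrix.det_fin_two]
    simp
  rw [hdet1, hdet2] at hdet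
  have h2 : (2 : ResidueField 𝒪) ≠ 0 := W56.TwMain9.two_ne_zero_of_ne_two p hp2
  have hc0 : c ≠ 0 := by
    intro h0
    have hV : Nontrivial ρbar.V :=
      Module.nontrivial_of_finrank_pos (R := ResidueField 𝒪) (by rw [ρbar.finrank_eq]; norm_num)
    have h1 : ρbar.ρ g * ρbar.ρ g⁻¹ = 1 := rho_mul_inv ρbar g
    rw [hc, h0, zero_smul, zero_mul] at h1
    obtain ⟨v, hv⟩ := exists_ne (0 : ρbar.V)
    apply hv
    have := congrArg (fun f : Module.End (ResidueField 𝒪) ρbar.V => f v) h1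
    simpa using this.symm
  have hsnd : t.snd = 0 := by
    have h1 := congrArg TrivSqZeroExt.snd hdet
    rw [TrivSqZeroExt.snd_mul, TrivSqZeroExt.snd_inl, hfst] at h1
    simp only [smul_eq_mul, MulOpposite.smul_eq_mul_unop, MulOpposite.unop_op] at h1
    have h3 : (2 * c) * t.snd = 0 := by
      rw [← h1]; ring
    rcases mul_eq_zero.1 h3 with h | h
    · exact absurd h (mul_ne_zero h2 hc0)
    · exact h
  have htc : t = TrivSqZeroExt.inl c := by
    apply TrivSqZeroExt.ext
    · rw [hfst, TrivSqZeroExt.fst_inl]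
    · rw [hsnd, TrivSqZeroExt.snd_inl]
  rw [htc] at hval
  exact smul_one_of_isEquiv (adicIsEquiv_symm heq) (ofMatrix_smul_one_of_apply hr hval)

end ALevel

end

end Fermat.Agent.M43.GlobLoc3
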