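/-
Programme M43 (target S43), pillar (P-GLOB), helper3: **the RELATIVE generator count.**

`W56/GenCount0.exists_fun_maximalIdeal_le`: if the tangent homomorphisms `A → k[ε]` inject into a
set with at most `(#k)^g` elements, then `𝔪_A = (u_1, …, u_g) + 𝔪_𝒪 A`.  Relative version: if the
tangent homomorphisms KILLING a set `E ⊆ 𝔪_A` inject into such a set, then
`𝔪_A = (u_1, …, u_g) + (E) + 𝔪_𝒪 A` (apply the absolute version to `A ⧸ (E)`), and the
consequence for power series: `exists_surjective_of_generators`.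
-/
import Mathlib
import Fermat.Agent.W56.GenCount0

set_option autoImplicit false
set_option linter.unusedSectionVars false
set_option linter.style.haveILetI false

namespace Fermat.Agent.M43.GlobGen3

open IsLocalRing Fermat.Agent.S53 Fermat.Agent.W56

attribute [local instance] Fermat.Agent.S53.dualNumberAlgebra

section Rel

variable {𝒪 : Type} [CommRing 𝒪] [IsLocalRing 𝒪] [Finite (ResidueField 𝒪)]
  {A : Type} [CommRing A] [IsLocalRing A] [IsNoetherianRing A] [Algebra 𝒪 A]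

/-- **The relative generator count.** -/
theorem exists_fun_maximalIdeal_le_rel (hloc : IsLocalHom (algebraMap 𝒪 A))
    (hsurj : Function.Surjective (residue A ∘ algebraMap 𝒪 A))
    (E : Set A) (hEm : E ⊆ (maximalIdeal A : Set A))
    {ι : Type*} [Finite ι]
    (F : {φ : A →ₐ[𝒪] DualNumber (ResidueField 𝒪) // ∀ e ∈ E, φ e = 0} → ι)
    (hF : Function.Injective F) (g : ℕ)
    (hι : Nat.card ι ≤ Nat.card (ResidueField 𝒪) ^ g) :
    ∃ u : Fin g → A, (∀ j, u j ∈ maximalIdeal A) ∧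
      maximalIdeal A ≤ Ideal.span (Set.range u) ⊔ Ideal.span E ⊔
        (maximalIdeal 𝒪).map (algebraMap 𝒪 A) := by
  set I : Ideal A := Ideal.span E with hI
  have hIm : I ≤ maximalIdeal A := Ideal.span_le.2 hEm
  have hIne : I ≠ ⊤ := fun h =>
    (maximalIdeal.isMaximal A).ne_top (top_le_iff.mp (h ▸ hIm))
  haveI : Nontrivial (A ⧸ I) := Ideal.Quotient.nontrivial_iff.mpr hIne
  haveI : IsLocalRing (A ⧸ I) :=
    IsLocalRing.of_surjective' (Ideal.Quotient.mk I) Ideal.Quotient.mk_surjective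
  have hmkloc : IsLocalHom (Ideal.Quotient.mk I) :=
    IsLocalHom.of_surjective _ Ideal.Quotient.mk_surjective
  have hlocq : IsLocalHom (algebraMap 𝒪 (A ⧸ I)) := by
    have h1 : algebraMap 𝒪 (A ⧸ I) = (Ideal.Quotient.mk I).comp (algebraMap 𝒪 A) := rfl
    rw [h1]
    have := hloc
    have := hmkloc
    exact RingHom.isLocalHom_comp _ _
  have hmax : maximalIdeal (A ⧸ I) = (maximalIdeal A).map (Ideal.Quotient.mk I) :=
    (map_maximalIdeal_of_surjective _ Ideal.Quotient.mk_surjective).symm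
  have hsurjq : Function.Surjective (residue (A ⧸ I) ∘ algebraMap 𝒪 (A ⧸ I)) := by
    intro y
    obtain ⟨z, rfl⟩ := IsLocalRing.residue_surjective y
    obtain ⟨a, rfl⟩ := Ideal.Quotient.mk_surjective z
    obtain ⟨c, hc⟩ := hsurj (residue A a)
    refine ⟨c, ?_⟩
    simp only [Function.comp_apply] at hc ⊢
    have hmem : algebraMap 𝒪 A c - a ∈ maximalIdeal A := by
      rw [← IsLocalRing.residue_eq_zero_iff, map_sub, hc, sub_self]
    have hmem' : Ideal.Quotient.mk I (algebraMap 𝒪 A c - a) ∈ maximalIdeal (A ⧸ I) := by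
      rw [hmax]
      exact Ideal.mem_map_of_mem _ hmem
    rw [← IsLocalRing.residue_eq_zero_iff, map_sub, map_sub, sub_eq_zero] at hmem'
    exact hmem'
  -- tangent homomorphisms of the quotient
  let mkA : A →ₐ[𝒪] A ⧸ I := Ideal.Quotient.mkₐ 𝒪 I
  have hmkA : Function.Surjective mkA := Ideal.Quotient.mkₐ_surjective 𝒪 I
  have hkill : ∀ (ψ : (A ⧸ I) →ₐ[𝒪] DualNumber (ResidueField 𝒪)), ∀ e ∈ E,
      (ψ.comp mkA) e = 0 := by
    intro ψ e he
    have h0 : mkA e = 0 := Ideal.Quotient.eq_zero_iff_mem.2 (Ideal.subset_span he)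
    rw [AlgHom.comp_apply, h0, map_zero]
  let Fq : ((A ⧸ I) →ₐ[𝒪] DualNumber (ResidueField 𝒪)) → ι := fun ψ =>
    F ⟨ψ.comp mkA, hkill ψ⟩
  have hFq : Function.Injective Fq := by
    intro ψ ψ' h
    have h1 := congrArg Subtype.val (hF h)
    exact (AlgHom.cancel_right hmkA).mp h1
  obtain ⟨uq, huq, hle⟩ := GenCount0.exists_fun_maximalIdeal_le (R := A ⧸ I) hlocq hsurjq Fq hFq
    g hι
  choose u hu using fun j => Ideal.Quotient.mk_surjective (I := I) (uq j)
  have hum : ∀ j, u j ∈ maximalIdeal A := by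
    intro j
    by_contra h
    have hunit : IsUnit (u j) := by
      by_contra h'
      exact h ((mem_maximalIdeal _).mpr h')
    have h2 : IsUnit (uq j) := by
      rw [← hu j]
      exact hunit.map _
    exact (mem_maximalIdeal _).mp (huq j) h2
  refine ⟨u, hum, fun w hw => ?_⟩
  have h1 : Ideal.Quotient.mk I w ∈ maximalIdeal (A ⧸ I) := by
    rw [hmax]
    exact Ideal.mem_map_of_mem _ hw
  have h2 := hle h1
  have himg : Ideal.span (Set.range uq) ⊔ (maximalIdeal 𝒪).map (algebraMap 𝒪 (A ⧸ I)) =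
      (Ideal.span (Set.range u) ⊔ (maximalIdeal 𝒪).map (algebraMap 𝒪 A)).map
        (Ideal.Quotient.mk I) := by
    have hrange : Set.range uq = (Ideal.Quotient.mk I) '' (Set.range u) := by
      rw [← Set.range_comp]
      congr 1
      funext j
      exact (hu j).symm
    rw [Ideal.map_sup, Ideal.map_span, Ideal.map_map, ← hrange]
    rfl
  rw [himg] at h2
  have h3 : w ∈ (Ideal.span (Set.range u) ⊔ (maximalIdeal 𝒪).map (algebraMap 𝒪 A)) ⊔ I := by
    have := Ideal.mem_comap.mpr h2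
    rwa [Ideal.comap_map_of_surjective _ Ideal.Quotient.mk_surjective, ← RingHom.ker_eq_comap_bot,
      Ideal.mk_ker] at this
  rw [sup_right_comm]
  exact h3

end Rel

section PowerSeries

variable {𝒪 : Type} [CommRing 𝒪] [IsLocalRing 𝒪] [IsAdicComplete (maximalIdeal 𝒪) 𝒪]
  [Finite (ResidueField 𝒪)]
  {A : Type} [CommRing A] [IsLocalRing A] [IsNoetherianRing A]
  [IsAdicComplete (maximalIdeal A) A] [Algebra 𝒪 A]

theorem range_append {ℓ g : ℕ} (e : Fin ℓ → A) (u : Fin g → A) :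
    Set.range (Fin.append e u) = Set.range e ∪ Set.range u := by
  ext x
  constructor
  · rintro ⟨i, rfl⟩
    refine Fin.addCases (fun i => ?_) (fun j => ?_) i
    · rw [Fin.append_left]
      exact Or.inl ⟨i, rfl⟩
    · rw [Fin.append_right]
      exact Or.inr ⟨j, rfl⟩
  · rintro (⟨i, rfl⟩ | ⟨j, rfl⟩)
    · exact ⟨Fin.castAdd g i, Fin.append_left e u i⟩
    · exact ⟨Fin.natAdd ℓ j, Fin.append_right e u j⟩

/-- **From generators to a surjection of a power series ring**: if
`𝔪_A = (u_1..u_g) + (e_1..e_ℓ) + 𝔪_𝒪 A` with all `e_i, u_j ∈ 𝔪_A`, there is a SURJECTIVE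
`𝒪`-algebra homomorphism `𝒪⟦X_1..X_{ℓ+g}⟧ → A` with `X_i ↦ e_i` (`i < ℓ`), `X_{ℓ+j} ↦ u_j`. -/
theorem exists_surjective_of_generators (hloc : IsLocalHom (algebraMap 𝒪 A))
    (hsurj : Function.Surjective (residue A ∘ algebraMap 𝒪 A))
    {ℓ g : ℕ} (e : Fin ℓ → A) (he : ∀ i, e i ∈ maximalIdeal A)
    (u : Fin g → A) (hu : ∀ j, u j ∈ maximalIdeal A)
    (hle : maximalIdeal A ≤ Ideal.span (Set.range u) ⊔ Ideal.span (Set.range e) ⊔
      (maximalIdeal 𝒪).map (algebraMap 𝒪 A)) :
    ∃ γ : MvPowerSeries (Fin (ℓ + g)) 𝒪 →ₐ[𝒪] A, Function.Surjective γ ∧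
      (∀ i, γ (MvPowerSeries.X (Fin.castAdd g i)) = e i) ∧
      (∀ j, γ (MvPowerSeries.X (Fin.natAdd ℓ j)) = u j) := by
  have hv : ∀ i, Fin.append e u i ∈ maximalIdeal A := by
    intro i
    refine Fin.addCases (fun i => ?_) (fun j => ?_) i
    · rw [Fin.append_left]; exact he i
    · rw [Fin.append_right]; exact hu j
  obtain ⟨γ, hγ⟩ := GenCount0.exists_algHom_X_eq (𝒪 := 𝒪) (Fin.append e u) hv
  refine ⟨γ, ?_, fun i => ?_, fun j => ?_⟩
  · refine GenCount0.surjective_of_maximalIdeal_le hloc hsurj (Fin.append e u) hv ?_ γ hγ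
    rw [range_append, Ideal.span_union, sup_comm (Ideal.span (Set.range e))]
    exact hle
  · rw [hγ, Fin.append_left]
  · rw [hγ, Fin.append_right]

end PowerSeries

end Fermat.Agent.M43.GlobGen3
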