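/-
Programme M43 (target S43), pillar (P-GLOB), helper3: **THE END THEOREM of the pillar.**

`exists_tw_generators`: for `ρ̄` as in S56 (absolutely irreducible, cyclotomic determinant, split
characteristic polynomials, irreducible on index-2 subgroups), `T ∋ p` a finite set of primes
outside which `ρ̄` is unramified, `Z ⊆ T ∖ {p}` a set of primes `q` with `ρ̄|D_q` SCALAR (the bad
primes of the level), `ρ̄` ramified at the primes of `T ∖ ({p} ∪ Z)`; `r := dim H¹(G_T, ad⁰ρ̄(1))`.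
For every `n` there are `r` Taylor–Wiles primes `q ≡ 1 mod p^(n+1)` (the literal of S56) such
that `3 #Z ≤ r` and, for EVERY noetherian local `𝒪`-algebra `A` with residue field `k` and EVERY
lift `ρ_A` of `ρ̄` to `A` which has cyclotomic determinant, is flat at `p`, unramified outside
`T ∪ Q`, unipotent on inertia at the primes of `T ∖ ({p} ∪ Z)` and tangent-injective (NO
condition at the primes of `Z`), and every `E ⊆ 𝔪_A` whose vanishing forces the tangent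
specialisations to be the constant lift on the decomposition groups at `Z`:

  `𝔪_A = (u_1, …, u_{r - 3 #Z}) + (E) + 𝔪_𝒪 A`.

`exists_surjective_mvPowerSeries`: the same as a surjection `𝒪⟦X_1..X_{ℓ + (r - 3 #Z)}⟧ → A` with
`X_i ↦ e_i` for a tuple `e : Fin ℓ → 𝔪_A` (`E = range e`), `A` complete.
-/
import Mathlib
import Fermat.Agent.M43.GlobDict3
import Fermat.Agent.M43.GlobGen3

set_option autoImplicit false
set_option linter.unusedSectionVars false
set_option linter.style.haveILetI false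

open CategoryTheory ExtCitation Polynomial IsLocalRing

namespace Fermat.Agent.M43.GlobMain3

open Fermat.Agent.PT.PRO Fermat.Agent.PT.BR Fermat.Agent.W56.Defs9 Fermat.Agent.W56.Dict9
  Fermat.Agent.M43.GlobCount3

local notation "Γ" => (AlgebraicClosure ℚ ≃ₐ[ℚ] AlgebraicClosure ℚ)
local notation "Qbar" => AlgebraicClosure ℚ

attribute [local instance] Fermat.Agent.S53.dualNumberAlgebra

variable {𝒪 : Type} [CommRing 𝒪] [IsDomain 𝒪] [IsDiscreteValuationRing 𝒪]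
  [IsAdicComplete (maximalIdeal 𝒪) 𝒪] [Finite (ResidueField 𝒪)]

/-- Arithmetic: `s · κ^(3z) ≤ κ^r` with `s > 0`, `κ > 1` gives `3z ≤ r` and `s ≤ κ^(r - 3z)`. -/
theorem aux_pow {κ s r z : ℕ} (hκ : 1 < κ) (hs : 0 < s) (h : s * κ ^ (3 * z) ≤ κ ^ r) :
    3 * z ≤ r ∧ s ≤ κ ^ (r - 3 * z) := by
  have h3 : 3 * z ≤ r := by
    have h1 : κ ^ (3 * z) ≤ κ ^ r := le_trans (Nat.le_mul_of_pos_left _ hs) h
    exact (Nat.pow_le_pow_iff_right hκ).mp h1
  refine ⟨h3, ?_⟩
  have h1 : κ ^ r = κ ^ (r - 3 * z) * κ ^ (3 * z) := by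
    rw [← pow_add, Nat.sub_add_cancel h3]
  rw [h1] at h
  exact Nat.le_of_mul_le_mul_right h (Nat.pos_of_ne_zero (by positivity))

/-- **P-GLOB, END THEOREM (generators).** -/
theorem exists_tw_generators
    (p : ℕ) [Fact p.Prime] [CharP (ResidueField 𝒪) p] (hp2 : p ≠ 2)
    (hp𝒪 : (p : 𝒪) ∈ maximalIdeal 𝒪)
    (ρbar : ResidualGaloisRep (ResidueField 𝒪))
    (habs : ρbar.IsAbsolutelyIrreducible)
    (hdet : (GaloisRepAdic.ofResidualGaloisRep ρbar).DetIsCyclotomic p)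
    (hsplit : ∀ σ : Γ, ∃ α β : ResidueField 𝒪,
      LinearMap.charpoly (ρbar.ρ σ) = (X - C α) * (X - C β))
    (hTW : ∀ (K : Type) [Field K] [Algebra (ResidueField 𝒪) K] (G : Subgroup Γ), G.index = 2 →
      ∀ V : Submodule K (ρbar.baseChange K).V,
        (∀ σ ∈ G, ∀ x ∈ V, (ρbar.baseChange K).ρ σ x ∈ V) → V = ⊥ ∨ V = ⊤)
    (S T Z : Finset ℕ) (hpT : p ∈ T) (hTS : T ⊆ S) (hZT : Z ⊆ T.erase p)
    (hur : ∀ q : ℕ, q.Prime → q ∉ T → ρbar.IsUnramifiedAt q)
    (hram : ∀ q ∈ T, q.Prime → q ≠ p → q ∉ Z → ¬ ρbar.IsUnramifiedAt q)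
    (hZsc : ∀ q ∈ primesOf Z, ∀ σ ∈ (primeLocalPlace q).decompositionSubgroup ℚ,
      ∃ c : ResidueField 𝒪, ρbar.ρ σ = c • (1 : Module.End (ResidueField 𝒪) ρbar.V))
    (n : ℕ) :
    ∃ qv : Fin (Module.finrank (ResidueField 𝒪) (H1g (primesOf T) (ad0D ρbar p))) → ℕ,
      Function.Injective qv ∧
      (∀ i, (qv i).Prime ∧ qv i ∉ S ∧ p ^ (n + 1) ∣ qv i - 1) ∧
      (∀ i, ∀ P : ValuationSubring Qbar, P.LiesOverPrime (qv i) →
        ∀ φ : Γ, P.IsFrobeniusAt φ (qv i) →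
          ∃ α β : ResidueField 𝒪, α ≠ β ∧
            LinearMap.charpoly (ρbar.ρ φ) = (X - C α) * (X - C β)) ∧
      3 * (primesOf Z).card ≤
        Module.finrank (ResidueField 𝒪) (H1g (primesOf T) (ad0D ρbar p)) ∧
      ∀ (A : Type) [CommRing A] [IsLocalRing A] [IsNoetherianRing A] [Algebra 𝒪 A]
        [IsLocalHom (algebraMap 𝒪 A)]
        (_hres : Function.Surjective (residue A ∘ algebraMap 𝒪 A))
        (ρA : GaloisRepAdic A)
        (_hlift : ρA.residual.IsEquiv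
          (ρbar.baseChangeAlong (ResidueField.map (algebraMap 𝒪 A))))
        (_hD : ρA.DetIsCyclotomic p) (_hflat : ρA.IsFlatAt p)
        (_hU : ∀ q : ℕ, q.Prime → q ∉ T ∪ Finset.univ.image qv → ρA.IsUnramifiedAt q)
        (_hunip : ∀ q ∈ T, q.Prime → q ≠ p → q ∉ Z → ρA.IsUnipotentOnInertiaAt q)
        (_hinj : ∀ φ ψ : A →ₐ[𝒪] DualNumber (ResidueField 𝒪),
          (ρA.baseChangeAlong (φ : A →+* DualNumber (ResidueField 𝒪))
            (isLocalHom_tangent φ)).IsEquiv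
            (ρA.baseChangeAlong (ψ : A →+* DualNumber (ResidueField 𝒪))
              (isLocalHom_tangent ψ)) → φ = ψ)
        (E : Set A) (_hEm : E ⊆ (maximalIdeal A : Set A))
        (_hE : ∀ φ : A →ₐ[𝒪] DualNumber (ResidueField 𝒪), (∀ e ∈ E, φ e = 0) →
          ∀ q ∈ primesOf Z, ∀ σ ∈ (primeLocalPlace q).decompositionSubgroup ℚ,
            ∀ c : ResidueField 𝒪, ρbar.ρ σ = c • (1 : Module.End (ResidueField 𝒪) ρbar.V) →
              (ρA.baseChangeAlong (φ : A →+* DualNumber (ResidueField 𝒪))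
                (isLocalHom_tangent φ)).ρ σ =
                (TrivSqZeroExt.inl c : DualNumber (ResidueField 𝒪)) • 1),
        ∃ u : Fin (Module.finrank (ResidueField 𝒪) (H1g (primesOf T) (ad0D ρbar p)) -
            3 * (primesOf Z).card) → A,
          (∀ j, u j ∈ maximalIdeal A) ∧
          maximalIdeal A ≤ Ideal.span (Set.range u) ⊔ Ideal.span E ⊔
            (maximalIdeal 𝒪).map (algebraMap 𝒪 A) := by
  classical
  obtain ⟨Lp, hLpcard, hLpmem⟩ := W56.FlatKF3.exists_LpFlat p hp2 ρbar hdet hsplit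
  obtain ⟨qv, hinj, hqv, hfrob, hvan⟩ := W56.TwMain9.exists_tw_primes p ρbar hp2
    (W56.Discharge9.twPrimes (ResidueField 𝒪) p hp2 ρbar) habs hdet hsplit hTW S T hpT hTS
    hur n
  have hκ1 : 1 < Nat.card (ResidueField 𝒪) := Finite.one_lt_card
  have hcard := card_SelZ_le' p ρbar hp2 habs hdet hsplit S T hpT hTS hur n qv hqv hfrob hvan Lp
    hLpcard Z hZT hZsc
  -- finiteness of the Selmer group
  haveI : Module.Finite (ResidueField 𝒪) (ad0 ρbar) := W56.Ad0Facts9.moduleFinite_ad0 ρbar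
  have hST : primesOf T ⊆ primesOf (T ∪ Finset.univ.image qv) := fun q hq =>
    mem_primesOf.2 (Finset.mem_union_left _ (mem_primesOf.1 hq))
  haveI : Finite (H1g (primesOf (T ∪ Finset.univ.image qv)) (ad0 ρbar)) :=
    W56.FinH1g0.finite_H1g _ (hST (mem_primesOf.2 hpT)) (ad0 ρbar)
      (W56.TwMain9.isDiscrete_ad0 ρbar T hur _ hST)
  have hpos : 0 < Nat.card ↥(SelZ (primesOf (T ∪ Finset.univ.image qv)) (primesOf (T.erase p))
    (primesOf Z) (pPrime p) (ad0 ρbar) Lp) := Nat.card_pos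
  obtain ⟨h3, hSelcard⟩ := aux_pow hκ1 hpos hcard
  refine ⟨qv, hinj, hqv, hfrob, h3, ?_⟩
  intro A _ _ _ _ _ hres ρA hlift hD hflat hU hunip hinjA E hEm hE
  obtain ⟨F, hF⟩ := GlobDict3.exists_injective_tangentA p hp2 hp𝒪 ρbar hdet T
    (Finset.univ.image qv) Z hram hres ρA hlift hD hflat hU hunip hinjA E hE hZsc Lp
    (fun c hc => hLpmem _ c hc)
  exact GlobGen3.exists_fun_maximalIdeal_le_rel inferInstance hres E hEm F hF _ hSelcard

/-- **P-GLOB, END THEOREM (surjection of a power series ring)**: the same statement with `A`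
complete, `E` the range of a tuple `e : Fin ℓ → 𝔪_A` (in use: the entries of `ρ_A(φ_q) - c_q`,
`ρ_A(s_q) - 1` at the primes `q ∈ Z` in a basis of `V_A`), as an `𝒪`-algebra SURJECTION
`𝒪⟦X_1..X_{ℓ + (r - 3 #Z)}⟧ → A` with `X_i ↦ e_i` for `i < ℓ`. -/
theorem exists_tw_surjection
    (p : ℕ) [Fact p.Prime] [CharP (ResidueField 𝒪) p] (hp2 : p ≠ 2)
    (hp𝒪 : (p : 𝒪) ∈ maximalIdeal 𝒪)
    (ρbar : ResidualGaloisRep (ResidueField 𝒪))
    (habs : ρbar.IsAbsolutelyIrreducible)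
    (hdet : (GaloisRepAdic.ofResidualGaloisRep ρbar).DetIsCyclotomic p)
    (hsplit : ∀ σ : Γ, ∃ α β : ResidueField 𝒪,
      LinearMap.charpoly (ρbar.ρ σ) = (X - C α) * (X - C β))
    (hTW : ∀ (K : Type) [Field K] [Algebra (ResidueField 𝒪) K] (G : Subgroup Γ), G.index = 2 →
      ∀ V : Submodule K (ρbar.baseChange K).V,
        (∀ σ ∈ G, ∀ x ∈ V, (ρbar.baseChange K).ρ σ x ∈ V) → V = ⊥ ∨ V = ⊤)
    (S T Z : Finset ℕ) (hpT : p ∈ T) (hTS : T ⊆ S) (hZT : Z ⊆ T.erase p)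
    (hur : ∀ q : ℕ, q.Prime → q ∉ T → ρbar.IsUnramifiedAt q)
    (hram : ∀ q ∈ T, q.Prime → q ≠ p → q ∉ Z → ¬ ρbar.IsUnramifiedAt q)
    (hZsc : ∀ q ∈ primesOf Z, ∀ σ ∈ (primeLocalPlace q).decompositionSubgroup ℚ,
      ∃ c : ResidueField 𝒪, ρbar.ρ σ = c • (1 : Module.End (ResidueField 𝒪) ρbar.V))
    (n : ℕ) :
    ∃ qv : Fin (Module.finrank (ResidueField 𝒪) (H1g (primesOf T) (ad0D ρbar p))) → ℕ,
      Function.Injective qv ∧
      (∀ i, (qv i).Prime ∧ qv i ∉ S ∧ p ^ (n + 1) ∣ qv i - 1) ∧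
      (∀ i, ∀ P : ValuationSubring Qbar, P.LiesOverPrime (qv i) →
        ∀ φ : Γ, P.IsFrobeniusAt φ (qv i) →
          ∃ α β : ResidueField 𝒪, α ≠ β ∧
            LinearMap.charpoly (ρbar.ρ φ) = (X - C α) * (X - C β)) ∧
      3 * (primesOf Z).card ≤
        Module.finrank (ResidueField 𝒪) (H1g (primesOf T) (ad0D ρbar p)) ∧
      ∀ (A : Type) [CommRing A] [IsLocalRing A] [IsNoetherianRing A]
        [IsAdicComplete (maximalIdeal A) A] [Algebra 𝒪 A] [IsLocalHom (algebraMap 𝒪 A)]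
        (_hres : Function.Surjective (residue A ∘ algebraMap 𝒪 A))
        (ρA : GaloisRepAdic A)
        (_hlift : ρA.residual.IsEquiv
          (ρbar.baseChangeAlong (ResidueField.map (algebraMap 𝒪 A))))
        (_hD : ρA.DetIsCyclotomic p) (_hflat : ρA.IsFlatAt p)
        (_hU : ∀ q : ℕ, q.Prime → q ∉ T ∪ Finset.univ.image qv → ρA.IsUnramifiedAt q)
        (_hunip : ∀ q ∈ T, q.Prime → q ≠ p → q ∉ Z → ρA.IsUnipotentOnInertiaAt q)
        (_hinj : ∀ φ ψ : A →ₐ[𝒪] DualNumber (ResidueField 𝒪),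
          (ρA.baseChangeAlong (φ : A →+* DualNumber (ResidueField 𝒪))
            (isLocalHom_tangent φ)).IsEquiv
            (ρA.baseChangeAlong (ψ : A →+* DualNumber (ResidueField 𝒪))
              (isLocalHom_tangent ψ)) → φ = ψ)
        (ℓ : ℕ) (e : Fin ℓ → A) (_he : ∀ i, e i ∈ maximalIdeal A)
        (_hE : ∀ φ : A →ₐ[𝒪] DualNumber (ResidueField 𝒪), (∀ i, φ (e i) = 0) →
          ∀ q ∈ primesOf Z, ∀ σ ∈ (primeLocalPlace q).decompositionSubgroup ℚ,
            ∀ c : ResidueField 𝒪, ρbar.ρ σ = c • (1 : Module.End (ResidueField 𝒪) ρbar.V) →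
              (ρA.baseChangeAlong (φ : A →+* DualNumber (ResidueField 𝒪))
                (isLocalHom_tangent φ)).ρ σ =
                (TrivSqZeroExt.inl c : DualNumber (ResidueField 𝒪)) • 1),
        ∃ γ : MvPowerSeries (Fin (ℓ +
            (Module.finrank (ResidueField 𝒪) (H1g (primesOf T) (ad0D ρbar p)) -
              3 * (primesOf Z).card))) 𝒪 →ₐ[𝒪] A,
          Function.Surjective γ ∧ ∀ i, γ (MvPowerSeries.X (Fin.castAdd _ i)) = e i := by
  obtain ⟨qv, hinj, hqv, hfrob, h3, hgen⟩ := exists_tw_generators p hp2 hp𝒪 ρbar habs hdet hsplit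
    hTW S T Z hpT hTS hZT hur hram hZsc n
  refine ⟨qv, hinj, hqv, hfrob, h3, ?_⟩
  intro A _ _ _ _ _ _ hres ρA hlift hD hflat hU hunip hinjA ℓ e he hE
  obtain ⟨u, hu, hle⟩ := hgen A hres ρA hlift hD hflat hU hunip hinjA (Set.range e)
    (by rintro _ ⟨i, rfl⟩; exact he i)
    (fun φ hφ => hE φ fun i => hφ (e i) ⟨i, rfl⟩)
  obtain ⟨γ, hγ, hγe, -⟩ := GlobGen3.exists_surjective_of_generators inferInstance hres e he u hu
    hle
  exact ⟨γ, hγ, hγe⟩

end Fermat.Agent.M43.GlobMain3
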