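/-
Programme M43 (target S43), pillar (P-GLOB), helper3: **discharge of the hypothesis
"tangent-injective"** (`hinj` of `GlobMain3.exists_tw_generators`) for rings generated by traces.

If `A` is generated as an `𝒪`-algebra by the traces of `ρ_A` (e.g. a Hecke algebra generated by
the `T_ℓ = tr ρ_A(Frob_ℓ)`), then two `𝒪`-algebra homomorphisms `φ, ψ : A → B` into a local ring
with equivalent specialisations of `ρ_A` are equal (`eq_of_isEquiv_baseChangeAlong`).
-/
import Mathlib
import Fermat.Prelude.Def_GaloisRep_DeformationRingData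

set_option autoImplicit false
set_option linter.unusedSectionVars false
set_option linter.style.haveILetI false

open scoped TensorProduct

namespace Fermat.Agent.M43.GlobTrace3

local notation "Γ" => (AlgebraicClosure ℚ ≃ₐ[ℚ] AlgebraicClosure ℚ)

section Trace

variable {A B : Type} [CommRing A] [IsLocalRing A] [CommRing B] [IsLocalRing B]
  (φ : A →+* B) (hφ : IsLocalHom φ) (ρ : GaloisRepAdic A)

/-- The trace of a base change. -/
theorem trace_baseChangeAlong (σ : Γ) :
    LinearMap.trace B (ρ.baseChangeAlong φ hφ).V ((ρ.baseChangeAlong φ hφ).ρ σ) =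
      φ (LinearMap.trace A ρ.V (ρ.ρ σ)) := by
  letI : Algebra A B := φ.toAlgebra
  exact LinearMap.trace_baseChange (ρ.ρ σ) B

/-- Equivalent representations have the same traces. -/
theorem trace_eq_of_isEquiv {ρ₁ ρ₂ : GaloisRepAdic B} (h : ρ₁.IsEquiv ρ₂) (σ : Γ) :
    LinearMap.trace B ρ₁.V (ρ₁.ρ σ) = LinearMap.trace B ρ₂.V (ρ₂.ρ σ) := by
  obtain ⟨e⟩ := h
  have h1 : ρ₂.ρ σ = e.toLinearEquiv.conj (ρ₁.ρ σ) := by
    refine LinearMap.ext fun x => ?_
    rw [LinearEquiv.conj_apply, LinearMap.comp_apply, LinearMap.comp_apply,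
      LinearEquiv.coe_coe, LinearEquiv.coe_coe, e.map_apply, LinearEquiv.apply_symm_apply]
  rw [h1, LinearMap.trace_conj']

end Trace

section Main

variable {𝒪 : Type} [CommRing 𝒪]
  {A : Type} [CommRing A] [IsLocalRing A] [Algebra 𝒪 A]
  {B : Type} [CommRing B] [IsLocalRing B] [Algebra 𝒪 B]

/-- **Rings generated by traces are "specialisation-injective".** -/
theorem eq_of_isEquiv_baseChangeAlong (ρA : GaloisRepAdic A)
    (htr : Algebra.adjoin 𝒪 (Set.range fun σ : Γ => LinearMap.trace A ρA.V (ρA.ρ σ)) = ⊤)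
    (φ ψ : A →ₐ[𝒪] B) (hφ : IsLocalHom (φ : A →+* B)) (hψ : IsLocalHom (ψ : A →+* B))
    (h : (ρA.baseChangeAlong (φ : A →+* B) hφ).IsEquiv
      (ρA.baseChangeAlong (ψ : A →+* B) hψ)) : φ = ψ := by
  refine AlgHom.ext_of_adjoin_eq_top htr ?_
  rintro _ ⟨σ, rfl⟩
  have h1 := trace_eq_of_isEquiv h σ
  rw [trace_baseChangeAlong, trace_baseChangeAlong] at h1
  exact h1

end Main

end Fermat.Agent.M43.GlobTrace3
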