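/-
Programme M43 (target S43), pillar (P-GLOB), helper3: **THE END THEOREM in consumable form**: all
Galois-side hypotheses of `GlobMain3.exists_tw_generators` discharged.

* `hinj` ("tangent-injective") from `A = 𝒪[traces of ρ_A]` (`GlobTrace3`);
* `hE` from the EXPLICIT set `locE` = the traceless coordinates (off-diagonal entries and the
  difference of the diagonal entries) of the matrices of `ρ_A(fr_q)`, `ρ_A(s_q)` in ANY basis of
  `V_A`, `q ∈ Z`, `fr_q` a Frobenius element and `s_q` the universal tame `p`-generator at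
  `primeLocalPlace q` (`GlobTame3.exists_universal_generator`, `GlobLoc3`).

**`exists_tw_generators_loc`**: `𝔪_A = (u_1, …, u_{r - 3 #Z}) + (E) + 𝔪_𝒪 A` for every `E ⊆ 𝔪_A`
whose ideal contains `locE`; `locE_subset_maximalIdeal`: `locE ⊆ 𝔪_A`.
-/
import Mathlib
import Fermat.Agent.M43.GlobMain3
import Fermat.Agent.M43.GlobLoc3
import Fermat.Agent.M43.GlobTrace3

set_option autoImplicit false
set_option linter.unusedSectionVars false
set_option linter.style.haveILetI false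

open CategoryTheory ExtCitation Polynomial IsLocalRing

namespace Fermat.Agent.M43.GlobFinal3

open Fermat.Agent.S53 Fermat.Agent.S53.MatrixModel Fermat.Agent.PT.PRO Fermat.Agent.PT.BR
  Fermat.Agent.W56.Defs9 Fermat.Agent.W56.Dict9 Fermat.Agent.W56.Lift9
  Fermat.Agent.M43.GlobCount3 Fermat.Agent.M43.GlobTame3

local notation "Γ" => (AlgebraicClosure ℚ ≃ₐ[ℚ] AlgebraicClosure ℚ)
local notation "Qbar" => AlgebraicClosure ℚ

attribute [local instance] Fermat.Agent.S53.dualNumberAlgebra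

noncomputable section

section LocE

variable {A : Type} [CommRing A] [IsLocalRing A]

/-- The traceless coordinates of the matrix of `ρ_A(g)` in the basis `b''`. -/
def tlCoord (ρA : GaloisRepAdic A) (b'' : Module.Basis (Fin 2) A ρA.V) (g : Γ) : Fin 3 → A :=
  ![matrixOf ρA b'' g 0 0 - matrixOf ρA b'' g 1 1, matrixOf ρA b'' g 0 1, matrixOf ρA b'' g 1 0]

/-- **The local set**: the traceless coordinates of `ρ_A(fr_q)` and `ρ_A(s_q)`, `q ∈ Z`. -/
def locE (ρA : GaloisRepAdic A) (b'' : Module.Basis (Fin 2) A ρA.V) (fr : Nat.Primes → Γ)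
    (s : ∀ q : Nat.Primes, ↥((primeLocalPlace q).inertiaSubgroupIn ℚ)) (Z : Finset Nat.Primes) :
    Set A :=
  {x | ∃ q ∈ Z, ∃ i : Fin 3, x = tlCoord ρA b'' (fr q) i ∨ x = tlCoord ρA b'' (s q : Γ) i}

end LocE

variable {𝒪 : Type} [CommRing 𝒪] [IsDomain 𝒪] [IsDiscreteValuationRing 𝒪]
  [IsAdicComplete (maximalIdeal 𝒪) 𝒪] [Finite (ResidueField 𝒪)]

/-- The traceless coordinates at an element where `ρ̄` is scalar lie in the maximal ideal. -/
theorem tlCoord_mem_maximalIdeal (ρbar : ResidualGaloisRep (ResidueField 𝒪))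
    {A : Type} [CommRing A] [IsLocalRing A] [Algebra 𝒪 A] [IsLocalHom (algebraMap 𝒪 A)]
    (hres : Function.Surjective (residue A ∘ algebraMap 𝒪 A))
    (ρA : GaloisRepAdic A)
    (hlift : ρA.residual.IsEquiv (ρbar.baseChangeAlong (ResidueField.map (algebraMap 𝒪 A))))
    (b'' : Module.Basis (Fin 2) A ρA.V) (g : Γ) (c : ResidueField 𝒪)
    (hc : ρbar.ρ g = c • (1 : Module.End (ResidueField 𝒪) ρbar.V)) (i : Fin 3) :
    tlCoord ρA b'' g i ∈ maximalIdeal A := by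
  obtain ⟨b, hπ, -⟩ := GlobDict3.exists_basis_strictA' hres ρA hlift b''
  have hbar : rbarOf ρbar b g = c • (1 : M2 (ResidueField 𝒪)) := by
    rw [matrixOfBasisRes_apply, hc, map_smul, LinearMap.toMatrix_one]
  have hres' : ∀ i j : Fin 2, residue A (matrixOf ρA b'' g i j) =
      ResidueField.map (algebraMap 𝒪 A) (if i = j then c else 0) := by
    intro i j
    rw [← hπ g i j, hbar, Matrix.smul_apply, Matrix.one_apply, smul_eq_mul]
    split_ifs <;> simp
  rw [← residue_eq_zero_iff]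
  fin_cases i
  · show residue A (matrixOf ρA b'' g 0 0 - matrixOf ρA b'' g 1 1) = 0
    rw [map_sub, hres' 0 0, hres' 1 1, if_pos rfl, if_pos rfl, sub_self]
  · show residue A (matrixOf ρA b'' g 0 1) = 0
    rw [hres' 0 1, if_neg (by decide), map_zero]
  · show residue A (matrixOf ρA b'' g 1 0) = 0
    rw [hres' 1 0, if_neg (by decide), map_zero]

/-- `locE ⊆ 𝔪_A`. -/
theorem locE_subset_maximalIdeal (ρbar : ResidualGaloisRep (ResidueField 𝒪))
    {A : Type} [CommRing A] [IsLocalRing A] [Algebra 𝒪 A] [IsLocalHom (algebraMap 𝒪 A)]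
    (hres : Function.Surjective (residue A ∘ algebraMap 𝒪 A))
    (ρA : GaloisRepAdic A)
    (hlift : ρA.residual.IsEquiv (ρbar.baseChangeAlong (ResidueField.map (algebraMap 𝒪 A))))
    (b'' : Module.Basis (Fin 2) A ρA.V) (fr : Nat.Primes → Γ)
    (s : ∀ q : Nat.Primes, ↥((primeLocalPlace q).inertiaSubgroupIn ℚ)) (Z : Finset Nat.Primes)
    (hZsc : ∀ q ∈ Z, ∀ σ ∈ (primeLocalPlace q).decompositionSubgroup ℚ,
      ∃ c : ResidueField 𝒪, ρbar.ρ σ = c • (1 : Module.End (ResidueField 𝒪) ρbar.V))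
    (hfr : ∀ q ∈ Z, (primeLocalPlace q).IsFrobeniusAt (fr q) (q : ℕ)) :
    locE ρA b'' fr s Z ⊆ (maximalIdeal A : Set A) := by
  rintro x ⟨q, hq, i, rfl | rfl⟩
  · obtain ⟨c, hc⟩ := hZsc q hq (fr q) (hfr q hq).mem_decompositionSubgroup
    exact tlCoord_mem_maximalIdeal ρbar hres ρA hlift b'' _ c hc i
  · have hmem : ((s q : Γ)) ∈ (primeLocalPlace q).decompositionSubgroup ℚ := by
      obtain ⟨σ', -, hσ'⟩ := (s q).2
      rw [← hσ']
      exact σ'.2
    obtain ⟨c, hc⟩ := hZsc q hq _ hmem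
    exact tlCoord_mem_maximalIdeal ρbar hres ρA hlift b'' _ c hc i

/-- A tangent homomorphism killing `E` kills the ideal spanned by `E`. -/
theorem kills_span {A B : Type} [CommRing A] [CommRing B] [Algebra 𝒪 A] [Algebra 𝒪 B]
    (φ : A →ₐ[𝒪] B) {E : Set A} (h : ∀ e ∈ E, φ e = 0) {x : A} (hx : x ∈ Ideal.span E) :
    φ x = 0 := by
  have h1 : Ideal.span E ≤ RingHom.ker (φ : A →+* B) := Ideal.span_le.2 fun e he => h e he
  exact h1 hx

/-- **P-GLOB, END THEOREM, consumable form.** -/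
theorem exists_tw_generators_loc
    (p : ℕ) [Fact p.Prime] [CharP (ResidueField 𝒪) p] (hp2 : p ≠ 2)
    (hp𝒪 : (p : 𝒪) ∈ maximalIdeal 𝒪)
    (ρbar : ResidualGaloisRep (ResidueField 𝒪))
    (habs : ρbar.IsAbsolutelyIrreducible)
    (hdet : (GaloisRepAdic.ofResidualGaloisRep ρbar).DetIsCyclotomic p)
    (hsplit : ∀ σ : Γ, ∃ α β : ResidueField 𝒪,
      LinearMap.charpoly (ρbar.ρ σ) = (X - C α) * (X - C β))
    (hTW : ∀ (K : Type) [Field K] [Algebra (ResidueField 𝒪) K] (G : Subgroup Γ), G.index = 2 →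
      ∀ V : Submodule K (ρbar.baseChange K).V,
        (∀ σ ∈ G, ∀ x ∈ V, (ρbar.baseChange K).ρ σ x ∈ V) → V = ⊥ ∨ V = ⊤)
    (S T Z : Finset ℕ) (hpT : p ∈ T) (hTS : T ⊆ S) (hZT : Z ⊆ T.erase p)
    (hur : ∀ q : ℕ, q.Prime → q ∉ T → ρbar.IsUnramifiedAt q)
    (hram : ∀ q ∈ T, q.Prime → q ≠ p → q ∉ Z → ¬ ρbar.IsUnramifiedAt q)
    (hZsc : ∀ q ∈ primesOf Z, ∀ σ ∈ (primeLocalPlace q).decompositionSubgroup ℚ,
      ∃ c : ResidueField 𝒪, ρbar.ρ σ = c • (1 : Module.End (ResidueField 𝒪) ρbar.V))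
    (hZur : ∀ q ∈ primesOf Z, ρbar.IsUnramifiedAt (q : ℕ))
    (fr : Nat.Primes → Γ)
    (hfr : ∀ q ∈ primesOf Z, (primeLocalPlace q).IsFrobeniusAt (fr q) (q : ℕ))
    (s : ∀ q : Nat.Primes, ↥((primeLocalPlace q).inertiaSubgroupIn ℚ))
    (hs : ∀ q ∈ primesOf Z, ∀ {H : Type} [Group H]
      (f : ↥((primeLocalPlace q).inertiaSubgroupIn ℚ) →* H), ContI f →
        (∀ σ, ∃ a : ℕ, f σ ^ p ^ a = 1) → ∀ σ, f σ ∈ Subgroup.zpowers (f (s q)))
    (n : ℕ) :
    ∃ qv : Fin (Module.finrank (ResidueField 𝒪) (H1g (primesOf T) (ad0D ρbar p))) → ℕ,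
      Function.Injective qv ∧
      (∀ i, (qv i).Prime ∧ qv i ∉ S ∧ p ^ (n + 1) ∣ qv i - 1) ∧
      (∀ i, ∀ P : ValuationSubring Qbar, P.LiesOverPrime (qv i) →
        ∀ φ : Γ, P.IsFrobeniusAt φ (qv i) →
          ∃ α β : ResidueField 𝒪, α ≠ β ∧
            LinearMap.charpoly (ρbar.ρ φ) = (X - C α) * (X - C β)) ∧
      3 * (primesOf Z).card ≤
        Module.finrank (ResidueField 𝒪) (H1g (primesOf T) (ad0D ρbar p)) ∧
      ∀ (A : Type) [CommRing A] [IsLocalRing A] [IsNoetherianRing A] [Algebra 𝒪 A]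
        [IsLocalHom (algebraMap 𝒪 A)]
        (_hres : Function.Surjective (residue A ∘ algebraMap 𝒪 A))
        (ρA : GaloisRepAdic A)
        (_hlift : ρA.residual.IsEquiv
          (ρbar.baseChangeAlong (ResidueField.map (algebraMap 𝒪 A))))
        (_hD : ρA.DetIsCyclotomic p) (_hflat : ρA.IsFlatAt p)
        (_hU : ∀ q : ℕ, q.Prime → q ∉ T ∪ Finset.univ.image qv → ρA.IsUnramifiedAt q)
        (_hunip : ∀ q ∈ T, q.Prime → q ≠ p → q ∉ Z → ρA.IsUnipotentOnInertiaAt q)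
        (_htr : Algebra.adjoin 𝒪
          (Set.range fun σ : Γ => LinearMap.trace A ρA.V (ρA.ρ σ)) = ⊤)
        (b'' : Module.Basis (Fin 2) A ρA.V)
        (E : Set A) (_hEm : E ⊆ (maximalIdeal A : Set A))
        (_hEloc : locE ρA b'' fr s (primesOf Z) ⊆ (Ideal.span E : Set A)),
        ∃ u : Fin (Module.finrank (ResidueField 𝒪) (H1g (primesOf T) (ad0D ρbar p)) -
            3 * (primesOf Z).card) → A,
          (∀ j, u j ∈ maximalIdeal A) ∧
          maximalIdeal A ≤ Ideal.span (Set.range u) ⊔ Ideal.span E ⊔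
            (maximalIdeal 𝒪).map (algebraMap 𝒪 A) := by
  obtain ⟨qv, hinj, hqv, hfrob, h3, hgen⟩ := GlobMain3.exists_tw_generators p hp2 hp𝒪 ρbar habs
    hdet hsplit hTW S T Z hpT hTS hZT hur hram hZsc n
  refine ⟨qv, hinj, hqv, hfrob, h3, ?_⟩
  intro A _ _ _ _ _ hres ρA hlift hD hflat hU hunip htr b'' E hEm hEloc
  refine hgen A hres ρA hlift hD hflat hU hunip
    (fun φ ψ h => GlobTrace3.eq_of_isEquiv_baseChangeAlong ρA htr φ ψ _ _ h) E hEm ?_
  intro φ hφ q hq σ hσ c hc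
  -- the three coordinates at an element
  have hcoord : ∀ (g : Γ) (i : Fin 3), (tlCoord ρA b'' g i ∈ locE ρA b'' fr s (primesOf Z)) →
      φ (tlCoord ρA b'' g i) = 0 := fun g i hmem => kills_span φ hφ (hEloc hmem)
  have hscal : ∀ (g : Γ) (cg : ResidueField 𝒪),
      ρbar.ρ g = cg • (1 : Module.End (ResidueField 𝒪) ρbar.V) →
      (∀ i, tlCoord ρA b'' g i ∈ locE ρA b'' fr s (primesOf Z)) →
      (ρA.baseChangeAlong (φ : A →+* DualNumber (ResidueField 𝒪))
        (isLocalHom_tangent φ)).ρ g =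
        (TrivSqZeroExt.inl cg : DualNumber (ResidueField 𝒪)) • 1 := by
    intro g cg hcg hmem
    have h0 := hcoord g 0 (hmem 0)
    have h1 := hcoord g 1 (hmem 1)
    have h2 := hcoord g 2 (hmem 2)
    refine GlobLoc3.smul_one_of_scalar_matrix p hp2 hp𝒪 ρbar hdet hres ρA hlift hD b'' φ g cg hcg
      h1 h2 ?_
    have h0' : φ (matrixOf ρA b'' g 0 0 - matrixOf ρA b'' g 1 1) = 0 := h0
    rwa [map_sub, sub_eq_zero] at h0'
  obtain ⟨cfr, hcfr⟩ := hZsc q hq (fr q) (hfr q hq).mem_decompositionSubgroup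
  have hφfr := hscal (fr q) cfr hcfr fun i => ⟨q, hq, i, Or.inl rfl⟩
  have hs1 : ρbar.ρ (s q : Γ) = (1 : ResidueField 𝒪) • (1 : Module.End (ResidueField 𝒪) ρbar.V) := by
    rw [one_smul]
    exact hZur q hq _ (W56.UnipSel8.liesOverPrime_primeLocalPlace q) _ (s q).2
  have hφs := hscal (s q : Γ) 1 hs1 fun i => ⟨q, hq, i, Or.inr rfl⟩
  have hφs' : (ρA.baseChangeAlong (φ : A →+* DualNumber (ResidueField 𝒪))
      (isLocalHom_tangent φ)).ρ (s q : Γ) = 1 := by
    rw [hφs, TrivSqZeroExt.inl_one, one_smul]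
  exact GlobLoc3.hE_of_frob_tame p ρbar hres ρA hlift φ q (hZur q hq) (hfr q hq) (s q) (hs q hq)
    cfr hφfr hφs' σ hσ c hc

end

end Fermat.Agent.M43.GlobFinal3
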