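/-
Programme M43 (target S43), ARCHITECT (helper2): **the contract between the Hecke side at the
auxiliary levels and the patching glue.**

Frame: `𝒪` a complete discrete valuation ring with finite residue field, `ρbar`, the finite sets
`T ∋ p` and `Z ⊆ T ∖ {p}` (the bad primes, `ρbar|D_q` scalar), Frobenius elements `fr q` and the
universal tame generators `s q` at the places `primeLocalPlace q` (all as in
`GlobFinal3.exists_tw_generators_loc`), a character `χ` of `Δ_Z = ∏_Z ℤ/p`, and the FIXED level-`0`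
objects `T0`, `ρ0 : GaloisRepAdic T0`, `act0 : T0 → Mat_d(𝒪)`.

* `DZ`, `Dn`, `gZ`, `gn`, `GR`, `spec`, `augD` : the groups `Δ_Z`, `Δ_n = (ℤ/p^n)^r`, their
  generators, the group ring `𝒪[Δ_Z × Δ_n]`, the specialisation `𝒪[Δ_Z × Δ_n] → 𝒪[Δ_n]` along a
  character of `Δ_Z`, and the augmentation of `𝒪[Δ_n]`.
* `HeckeLevel` : **what the Hecke side delivers at level `n` for a tuple `qv` of Taylor–Wiles
  primes**: ONE local `𝒪`-algebra `A` with `ρ : GaloisRepAdic A` satisfying literally the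
  per-`(A, ρ_A)` hypotheses of `GlobFinal3.exists_tw_generators_loc` (no condition at `Z`), acting
  on a free `𝒪[Δ_Z × Δ_n]`-module of rank `d` (matrix form `act`), the TRACE FORM of (LG-q) at the
  Taylor–Wiles primes (`trTW`) and at the bad primes (`trZ`), and control on the `1`-side (`π`,
  `hρ0`, `ctrl`).
* `PatchOutputStmt` : the theorem the glue proves from these data for all `n` (with P-GLOB, P-LOC
  and P-PATCH): a prime `𝔔` of `T0` not containing `lam` and containing the traceless coordinates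
  of `ρ0 (s q)`, `q ∈ Z` — a characteristic-`0` point of the level-`0` Hecke algebra whose
  representation is unramified at the bad primes.
-/
import Mathlib
import Fermat.Agent.M43.GlobFinal3

set_option autoImplicit false

open CategoryTheory ExtCitation Polynomial IsLocalRing

namespace Fermat.Agent.M43.Iface2

open Fermat.Agent.W56.Defs9 Fermat.Agent.M43.GlobFinal3 Fermat.Agent.M43.GlobTame3
  Fermat.Agent.PT.PRO Fermat.Agent.PT.BR

local notation "Γ" => (AlgebraicClosure ℚ ≃ₐ[ℚ] AlgebraicClosure ℚ)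
local notation "Qbar" => AlgebraicClosure ℚ

/-! ### The groups and the group rings -/

/-- `Δ_Z = ∏_{q ∈ Z} ℤ/p`, written multiplicatively. -/
abbrev DZ (ι : Type) (p : ℕ) : Type := Multiplicative (ι → ZMod p)

/-- `Δ_n = (ℤ/p^n)^r`, written multiplicatively. -/
abbrev Dn (r p n : ℕ) : Type := Multiplicative (Fin r → ZMod (p ^ n))

/-- the generator of the `i`-th factor of `Δ_Z`. -/
def gZ {ι : Type} [DecidableEq ι] (p : ℕ) (i : ι) : DZ ι p :=
  Multiplicative.ofAdd (Pi.single i 1)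

/-- the generator of the `i`-th factor of `Δ_n`. -/
def gn {r : ℕ} (p n : ℕ) (i : Fin r) : Dn r p n :=
  Multiplicative.ofAdd (Pi.single i 1)

/-- the group ring `𝒪[Δ_Z × Δ_n]`. -/
abbrev GR (𝒪 : Type) [CommRing 𝒪] (ι : Type) (r p n : ℕ) : Type :=
  MonoidAlgebra 𝒪 (DZ ι p × Dn r p n)

section Spec

variable {𝒪 : Type} [CommRing 𝒪] {ι : Type} {r p n : ℕ}

/-- the monoid homomorphism `(h, δ) ↦ χ(h) δ`. -/
noncomputable def specHom (χ : DZ ι p →* 𝒪) :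
    DZ ι p × Dn r p n →* MonoidAlgebra 𝒪 (Dn r p n) :=
  (((algebraMap 𝒪 (MonoidAlgebra 𝒪 (Dn r p n)) : 𝒪 →+* _) : 𝒪 →* _).comp
      (χ.comp (MonoidHom.fst _ _))) *
    (MonoidAlgebra.of 𝒪 (Dn r p n)).comp (MonoidHom.snd _ _)

/-- **the specialisation** `𝒪[Δ_Z × Δ_n] → 𝒪[Δ_n]` along a character `χ` of `Δ_Z`
(`χ = 1`: the `1`-side; `χ` of order `p` on every factor: the `χ`-side). -/
noncomputable def spec (χ : DZ ι p →* 𝒪) : GR 𝒪 ι r p n →ₐ[𝒪] MonoidAlgebra 𝒪 (Dn r p n) :=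
  MonoidAlgebra.lift 𝒪 _ _ (specHom χ)

/-- the augmentation `𝒪[Δ_n] → 𝒪`. -/
noncomputable def augD : MonoidAlgebra 𝒪 (Dn r p n) →ₐ[𝒪] 𝒪 :=
  MonoidAlgebra.lift 𝒪 _ _ (1 : Dn r p n →* 𝒪)

end Spec

/-! ### The contract -/

/-- **The Hecke side at level `n`** for the Taylor–Wiles primes `qv`. -/
structure HeckeLevel (𝒪 : Type) [CommRing 𝒪] [IsDomain 𝒪] [IsDiscreteValuationRing 𝒪]
    (p : ℕ) (ρbar : ResidualGaloisRep (ResidueField 𝒪)) (T Z : Finset ℕ)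
    (s : ∀ q : Nat.Primes, ↥((primeLocalPlace q).inertiaSubgroupIn ℚ)) (d : ℕ)
    (T0 : Type) [CommRing T0] [IsLocalRing T0] [Algebra 𝒪 T0] (ρ0 : GaloisRepAdic T0)
    (act0 : T0 →ₐ[𝒪] Matrix (Fin d) (Fin d) 𝒪) (n : ℕ) {r : ℕ} (qv : Fin r → ℕ) : Type 1 where
  /-- the (trace) Hecke algebra of level `n` -/
  A : Type
  [instCommRing : CommRing A]
  [instLocal : IsLocalRing A]
  [instNoeth : IsNoetherianRing A]
  [instAlgebra : Algebra 𝒪 A]
  [instLocalHom : IsLocalHom (algebraMap 𝒪 A)]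
  /-- its representation (twisted to cyclotomic determinant) -/
  ρ : GaloisRepAdic A
  hres : Function.Surjective (residue A ∘ algebraMap 𝒪 A)
  hlift : ρ.residual.IsEquiv (ρbar.baseChangeAlong (ResidueField.map (algebraMap 𝒪 A)))
  hD : ρ.DetIsCyclotomic p
  hflat : ρ.IsFlatAt p
  hU : ∀ q : ℕ, q.Prime → q ∉ T ∪ Finset.univ.image qv → ρ.IsUnramifiedAt q
  hunip : ∀ q ∈ T, q.Prime → q ≠ p → q ∉ Z → ρ.IsUnipotentOnInertiaAt q
  htr : Algebra.adjoin 𝒪 (Set.range fun σ : Γ => LinearMap.trace A ρ.V (ρ.ρ σ)) = ⊤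
  /-- the action on the free `𝒪[Δ_Z × Δ_n]`-module of rank `d`, in a basis -/
  act : A →ₐ[𝒪] Matrix (Fin d) (Fin d) (GR 𝒪 ↥(primesOf Z) r p n)
  /-- (LG-q), trace form, at the Taylor–Wiles primes: `w_i + w_i⁻¹` is (the action of) an element
  of `A` (namely the trace of an inertia element at `qv i`) -/
  trTW : ∀ i : Fin r, ∃ a : A, act a = Matrix.scalar (Fin d)
    (MonoidAlgebra.of 𝒪 _ (1, gn p n i) + MonoidAlgebra.of 𝒪 _ (1, (gn p n i)⁻¹))
  /-- (LG-q), trace form, at the bad primes -/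
  trZ : ∀ q : ↥(primesOf Z), act (LinearMap.trace A ρ.V (ρ.ρ (s q.1 : Γ))) =
    Matrix.scalar (Fin d)
      (MonoidAlgebra.of 𝒪 _ (gZ p q, 1) + MonoidAlgebra.of 𝒪 _ ((gZ p q)⁻¹, 1))
  /-- control: the map to the level-`0` Hecke algebra -/
  π : A →ₐ[𝒪] T0
  hπ : Function.Surjective π
  hπloc : IsLocalHom (π : A →+* T0)
  hρ0 : (ρ.baseChangeAlong (π : A →+* T0) hπloc).IsEquiv ρ0
  /-- control: modulo the augmentation ideal of `Δ_n` the `1`-side is the level-`0` module -/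
  ctrl : ∀ a : A,
    (((spec (1 : DZ ↥(primesOf Z) p →* 𝒪)).mapMatrix (m := Fin d) (act a)).map
      (augD : MonoidAlgebra 𝒪 (Dn r p n) →ₐ[𝒪] 𝒪)) = act0 (π a)

attribute [instance] HeckeLevel.instCommRing HeckeLevel.instLocal HeckeLevel.instNoeth
  HeckeLevel.instAlgebra HeckeLevel.instLocalHom

/-- **The theorem of the glue** (P-GLOB + P-LOC + P-PATCH + the Hecke side at all levels). -/
def PatchOutputStmt : Prop :=
  ∀ (𝒪 : Type) [CommRing 𝒪] [IsDomain 𝒪] [IsDiscreteValuationRing 𝒪]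
    [IsAdicComplete (maximalIdeal 𝒪) 𝒪] [Finite (ResidueField 𝒪)] (lam : 𝒪) (_hlam : Irreducible lam)
    (p : ℕ) [Fact p.Prime] [CharP (ResidueField 𝒪) p] (_hp2 : p ≠ 2)
    (_hp𝒪 : (p : 𝒪) ∈ maximalIdeal 𝒪)
    (ρbar : ResidualGaloisRep (ResidueField 𝒪))
    (_habs : ρbar.IsAbsolutelyIrreducible)
    (_hdet : (GaloisRepAdic.ofResidualGaloisRep ρbar).DetIsCyclotomic p)
    (_hsplit : ∀ σ : Γ, ∃ α β : ResidueField 𝒪,
      LinearMap.charpoly (ρbar.ρ σ) = (X - C α) * (X - C β))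
    (_hTW : ∀ (K : Type) [Field K] [Algebra (ResidueField 𝒪) K] (G : Subgroup Γ), G.index = 2 →
      ∀ V : Submodule K (ρbar.baseChange K).V,
        (∀ σ ∈ G, ∀ x ∈ V, (ρbar.baseChange K).ρ σ x ∈ V) → V = ⊥ ∨ V = ⊤)
    (S T Z : Finset ℕ) (_hpT : p ∈ T) (_hTS : T ⊆ S) (_hZT : Z ⊆ T.erase p)
    (_hur : ∀ q : ℕ, q.Prime → q ∉ T → ρbar.IsUnramifiedAt q)
    (_hram : ∀ q ∈ T, q.Prime → q ≠ p → q ∉ Z → ¬ ρbar.IsUnramifiedAt q)
    (_hZsc : ∀ q ∈ primesOf Z, ∀ σ ∈ (primeLocalPlace q).decompositionSubgroup ℚ,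
      ∃ c : ResidueField 𝒪, ρbar.ρ σ = c • (1 : Module.End (ResidueField 𝒪) ρbar.V))
    (_hZur : ∀ q ∈ primesOf Z, ρbar.IsUnramifiedAt (q : ℕ))
    (_hZ1 : ∀ q ∈ primesOf Z, ((q : ℕ) : 𝒪) - 1 ∈ Ideal.span {lam})
    (fr : Nat.Primes → Γ)
    (_hfr : ∀ q ∈ primesOf Z, (primeLocalPlace q).IsFrobeniusAt (fr q) (q : ℕ))
    (s : ∀ q : Nat.Primes, ↥((primeLocalPlace q).inertiaSubgroupIn ℚ))
    (_hs : ∀ q ∈ primesOf Z, ∀ {H : Type} [Group H]
      (f : ↥((primeLocalPlace q).inertiaSubgroupIn ℚ) →* H), ContI f →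
        (∀ σ, ∃ a : ℕ, f σ ^ p ^ a = 1) → ∀ σ, f σ ∈ Subgroup.zpowers (f (s q)))
    -- the character of `Δ_Z`
    (χ : DZ ↥(primesOf Z) p →* 𝒪) (_hχ : ∀ q : ↥(primesOf Z), χ (gZ p q) ≠ 1)
    -- the level-`0` objects
    (d : ℕ) (_hd : 0 < d)
    (T0 : Type) [CommRing T0] [IsLocalRing T0] [Algebra 𝒪 T0] [Module.Finite 𝒪 T0]
    (ρ0 : GaloisRepAdic T0) (act0 : T0 →ₐ[𝒪] Matrix (Fin d) (Fin d) 𝒪)
    -- the Hecke side at all levels
    (_hH : ∀ (n : ℕ)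
      (qv : Fin (Module.finrank (ResidueField 𝒪) (H1g (primesOf T) (ad0D ρbar p))) → ℕ),
      Function.Injective qv →
      (∀ i, (qv i).Prime ∧ qv i ∉ S ∧ p ^ (n + 1) ∣ qv i - 1) →
      (∀ i, ∀ P : ValuationSubring Qbar, P.LiesOverPrime (qv i) →
        ∀ φ : Γ, P.IsFrobeniusAt φ (qv i) →
          ∃ α β : ResidueField 𝒪, α ≠ β ∧
            LinearMap.charpoly (ρbar.ρ φ) = (X - C α) * (X - C β)) →
      Nonempty (HeckeLevel 𝒪 p ρbar T Z s d T0 ρ0 act0 n qv)),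
    ∃ (b0 : Module.Basis (Fin 2) T0 ρ0.V) (𝔔 : Ideal T0), 𝔔.IsPrime ∧
      algebraMap 𝒪 T0 lam ∉ 𝔔 ∧
      ∀ q ∈ primesOf Z, ∀ k : Fin 3, tlCoord ρ0 b0 (s q : Γ) k ∈ 𝔔

end Fermat.Agent.M43.Iface2
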