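import Mathlib
import Fermat.Agent.M43.ChainMod5
import Fermat.Agent.M43.Iface2

/-!
# M43 / Hecke side: the group `Δ_Z × Δ_n`, its chain and its frame

The concrete instance of the group data consumed by `ChainLevel5.exists_level`.

`Z` a finite type of bad primes, `r` Taylor–Wiles primes, labelled by `Z ⊕ Fin r`; the order of the
step at a bad prime is `p`, at a Taylor–Wiles prime `p ^ n` (`mOf`).

* `Lvl N p n Z r` : the primes `q a ∣ N`, `mOf a ∣ q a - 1` with even cofactor, generators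
  `d a : (ZMod N)ˣ` (`≡ 1` modulo the other primes, generating `(ZMod (q a))ˣ ⧸ Kq`); the generators
  are PARAMETERS (the BRIDGE picks them);
* `en : Fin (card Z + r) ≃ Z ⊕ Fin r`, `Lvl.chain : Chain N (card Z + r)`, `pow_mem_sub`;
* `Lvl.psi : DZ Z p × Dn r p n →* (ZMod N)ˣ ⧸ chain.sub s`, `psi_gZ`, `psi_gn`, `Lvl.g`, `psi_g`;
* `closure_single`, `closure_g` : the generators generate; `card_G`;
* `Lvl.frame` : the `ChainMod5.Frame`;
* `exists_gen` : existence of a generator at a prime `q ∥ N` (CRT + a primitive root).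
-/

set_option autoImplicit false
set_option linter.unusedSectionVars false

noncomputable section

namespace Fermat.Agent.M43.LevelGrp5

open Fermat.Agent.M43.ChainGrp5 Fermat.Agent.M43.ChainMod5 Fermat.Agent.M43.Iface2

/-- the coproduct of two homomorphisms into a quotient of a commutative group (stated generically:
for `(ZMod N)ˣ` the two paths to the monoid structure of the quotient are not unified at instance
transparency). -/
def coprodQ {A B G : Type} [CommGroup A] [CommGroup B] [CommGroup G] (H : Subgroup G)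
    (f : A →* G ⧸ H) (g : B →* G ⧸ H) : A × B →* G ⧸ H :=
  MonoidHom.coprod f g

theorem coprodQ_apply {A B G : Type} [CommGroup A] [CommGroup B] [CommGroup G] (H : Subgroup G)
    (f : A →* G ⧸ H) (g : B →* G ⧸ H) (x : A × B) : coprodQ H f g x = f x.1 * g x.2 := rfl

/-- the orders of the steps: `p` at the bad primes, `p ^ n` at the Taylor–Wiles primes. -/
def mOf (p n : ℕ) {Z : Type} {r : ℕ} : Z ⊕ Fin r → ℕ := Sum.elim (fun _ => p) (fun _ => p ^ n)

/-- the group data of level `n`. -/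
structure Lvl (N p n : ℕ) (Z : Type) (r : ℕ) where
  /-- the primes -/
  q : Z ⊕ Fin r → ℕ
  prime : ∀ a, (q a).Prime
  dvd : ∀ a, q a ∣ N
  hm : ∀ a, mOf p n a ∣ q a - 1
  h2 : ∀ a, 2 ∣ (q a - 1) / mOf p n a
  /-- the generators -/
  d : Z ⊕ Fin r → (ZMod N)ˣ
  one : ∀ a b, a ≠ b → ZMod.unitsMap (dvd a) (d b) = 1
  gen : ∀ a (x : (ZMod (q a))ˣ), ∃ k : ℤ,
    (ZMod.unitsMap (dvd a) (d a)) ^ (-k) * x ∈ Kq (q a) (mOf p n a)

section Enum

variable (Z : Type) [Fintype Z] (r : ℕ)

/-- the enumeration of the labels: the bad primes first. -/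
def en : Fin (Fintype.card Z + r) ≃ Z ⊕ Fin r :=
  finSumFinEquiv.symm.trans (Equiv.sumCongr (Fintype.equivFin Z).symm (Equiv.refl (Fin r)))

end Enum

namespace Lvl

variable {N p n : ℕ} {Z : Type} [Fintype Z] {r : ℕ} (L : Lvl N p n Z r)

/-- **the chain.** -/
def chain : Chain N (Fintype.card Z + r) :=
  Chain.ofPrimes (fun i => L.q (en Z r i)) (fun i => L.prime _) (fun i => L.dvd _)
    (fun i => mOf p n (en Z r i)) (fun i => L.hm _) (fun i => L.h2 _) (fun i => L.d (en Z r i))
    (fun i j hij => L.one _ _ (fun h => hij ((en Z r).injective h))) (fun i => L.gen _)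

@[simp] theorem chain_d (i : Fin (Fintype.card Z + r)) : L.chain.d i = L.d (en Z r i) := rfl

@[simp] theorem chain_m (i : Fin (Fintype.card Z + r)) : L.chain.m i = mOf p n (en Z r i) := rfl

theorem exists_pow (p n : ℕ) {N : ℕ} {Z : Type} [Fintype Z] {r : ℕ} (L : Lvl N p n Z r)
    (i : Fin (Fintype.card Z + r)) : ∃ k : ℕ, L.chain.m i = p ^ k := by
  show ∃ k, mOf p n (en Z r i) = p ^ k
  rcases (en Z r i) with z | j
  · exact ⟨1, by simp [mOf]⟩
  · exact ⟨n, by simp [mOf]⟩

/-- the subgroup of level `n`. -/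
abbrev top : Subgroup (ZMod N)ˣ := L.chain.sub (Fintype.card Z + r)

theorem pow_mem_top (a : Z ⊕ Fin r) : L.d a ^ mOf p n a ∈ L.top := by
  rw [Chain.mem_sub]
  intro i _
  by_cases h : en Z r i = a
  · have := L.chain.pow i
    rw [chain_d, chain_m, h] at this
    rw [map_pow]
    convert this using 2 <;> rw [h]
  · rw [map_pow]
    have := L.chain.one i ((en Z r).symm a) (fun h' => h (by rw [h', Equiv.apply_symm_apply]))
    rw [chain_d, Equiv.apply_symm_apply] at this
    rw [this, one_pow]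
    exact Subgroup.one_mem _

variable [DecidableEq Z]

/-- the component of `psi` on `Δ_Z`. -/
def psiZ : DZ Z p →* (ZMod N)ˣ ⧸ L.top :=
  piZModHom p (fun z => (QuotientGroup.mk (L.d (Sum.inl z)) : (ZMod N)ˣ ⧸ L.top)) (fun z => by
    rw [← QuotientGroup.mk_pow, QuotientGroup.eq_one_iff]
    exact L.pow_mem_top (Sum.inl z))

/-- the component of `psi` on `Δ_n`. -/
def psiN : Dn r p n →* (ZMod N)ˣ ⧸ L.top :=
  piZModHom (p ^ n) (fun i => (QuotientGroup.mk (L.d (Sum.inr i)) : (ZMod N)ˣ ⧸ L.top))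
    (fun i => by
      rw [← QuotientGroup.mk_pow, QuotientGroup.eq_one_iff]
      exact L.pow_mem_top (Sum.inr i))

/-- **the homomorphism `Δ_Z × Δ_n → (ZMod N)ˣ ⧸ H_n`.** -/
def psi : DZ Z p × Dn r p n →* (ZMod N)ˣ ⧸ L.top :=
  coprodQ L.top L.psiZ L.psiN

theorem psi_gZ (z : Z) : L.psi (gZ p z, 1) = QuotientGroup.mk (L.d (Sum.inl z)) := by
  rw [psi, coprodQ_apply, map_one]
  exact (mul_one (L.psiZ (gZ p z))).trans (piZModHom_single _ _ _ z)

theorem psi_gn (i : Fin r) : L.psi (1, gn p n i) = QuotientGroup.mk (L.d (Sum.inr i)) := by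
  rw [psi, coprodQ_apply, map_one]
  exact (one_mul (L.psiN (gn p n i))).trans (piZModHom_single _ _ _ i)

/-- the generators of `Δ_Z × Δ_n`. -/
def g (p n : ℕ) (a : Z ⊕ Fin r) : DZ Z p × Dn r p n :=
  Sum.elim (fun z => (gZ p z, 1)) (fun i => (1, gn p n i)) a

theorem psi_g (a : Z ⊕ Fin r) : L.psi (g p n a) = QuotientGroup.mk (L.d a) := by
  rcases a with z | i
  · exact L.psi_gZ z
  · exact L.psi_gn i

theorem psi_g_en (i : Fin (Fintype.card Z + r)) :
    L.psi (g p n (en Z r i)) = QuotientGroup.mk (L.chain.d i) := L.psi_g _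

end Lvl

/-! ### generation -/

section Gen

variable {α : Type} [Fintype α] [DecidableEq α] (m : ℕ)

theorem closure_single :
    AddSubgroup.closure (Set.range fun a : α => (Pi.single a 1 : α → ZMod m)) = ⊤ := by
  rw [eq_top_iff]
  intro f _
  rw [← Finset.univ_sum_single f]
  refine AddSubgroup.sum_mem _ (fun a _ => ?_)
  obtain ⟨k, hk⟩ := ZMod.intCast_surjective (f a)
  have : (Pi.single a (f a) : α → ZMod m) = k • Pi.single a 1 := by
    rw [← Pi.single_smul, zsmul_one, hk]
  rw [this]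
  exact AddSubgroup.zsmul_mem _ (AddSubgroup.subset_closure (Set.mem_range_self a)) k

theorem closure_ofAdd_single :
    Subgroup.closure (Set.range fun a : α =>
      (Multiplicative.ofAdd (Pi.single a 1 : α → ZMod m))) = ⊤ := by
  have key : ∀ y : α → ZMod m,
      y ∈ AddSubgroup.closure (Set.range fun a : α => (Pi.single a 1 : α → ZMod m)) →
      Multiplicative.ofAdd y ∈ Subgroup.closure (Set.range fun a : α =>
        (Multiplicative.ofAdd (Pi.single a 1 : α → ZMod m))) := by
    intro y hy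
    induction hy using AddSubgroup.closure_induction with
    | mem y hy =>
      obtain ⟨a, rfl⟩ := hy
      exact Subgroup.subset_closure (Set.mem_range_self a)
    | zero => exact Subgroup.one_mem _
    | add y z _ _ hy hz => exact Subgroup.mul_mem _ hy hz
    | neg y _ hy => exact Subgroup.inv_mem _ hy
  rw [eq_top_iff]
  intro x _
  have := key (Multiplicative.toAdd x) (by rw [closure_single]; trivial)
  exact this

end Gen

section GenG

variable {Z : Type} [Fintype Z] [DecidableEq Z] {r : ℕ} (p n : ℕ)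

/-- **the generators generate `Δ_Z × Δ_n`.** -/
theorem closure_g : Subgroup.closure (Set.range (Lvl.g (Z := Z) (r := r) p n)) = ⊤ := by
  rw [eq_top_iff]
  intro x _
  have hx : x = (x.1, 1) * (1, x.2) := by
    ext <;> simp
  rw [hx]
  refine Subgroup.mul_mem _ ?_ ?_
  · have h1 : x.1 ∈ Subgroup.closure (Set.range fun a : Z =>
        Multiplicative.ofAdd (Pi.single a 1 : Z → ZMod p)) := by
      rw [closure_ofAdd_single]; trivial
    have := Subgroup.mem_map_of_mem (MonoidHom.inl (DZ Z p) (Dn r p n)) h1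
    rw [MonoidHom.map_closure] at this
    refine Subgroup.closure_mono ?_ this
    rintro _ ⟨_, ⟨z, rfl⟩, rfl⟩
    exact ⟨Sum.inl z, rfl⟩
  · have h1 : x.2 ∈ Subgroup.closure (Set.range fun a : Fin r =>
        Multiplicative.ofAdd (Pi.single a 1 : Fin r → ZMod (p ^ n))) := by
      rw [closure_ofAdd_single]; trivial
    have := Subgroup.mem_map_of_mem (MonoidHom.inr (DZ Z p) (Dn r p n)) h1
    rw [MonoidHom.map_closure] at this
    refine Subgroup.closure_mono ?_ this
    rintro _ ⟨_, ⟨i, rfl⟩, rfl⟩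
    exact ⟨Sum.inr i, rfl⟩

theorem closure_g_en :
    Subgroup.closure (Set.range fun i : Fin (Fintype.card Z + r) =>
      Lvl.g (Z := Z) (r := r) p n (en Z r i)) = ⊤ := by
  have : (Set.range fun i : Fin (Fintype.card Z + r) => Lvl.g (Z := Z) (r := r) p n (en Z r i))
      = Set.range (Lvl.g (Z := Z) (r := r) p n) :=
    (en Z r).surjective.range_comp _
  rw [this, closure_g]

variable [NeZero p]

theorem card_G : Fintype.card (DZ Z p × Dn r p n) = p ^ Fintype.card Z * (p ^ n) ^ r := by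
  rw [Fintype.card_prod, Fintype.card_multiplicative, Fintype.card_multiplicative,
    Fintype.card_fun, Fintype.card_fun, ZMod.card, ZMod.card, Fintype.card_fin]

theorem prod_mOf : ∏ a : Z ⊕ Fin r, mOf p n a = p ^ Fintype.card Z * (p ^ n) ^ r := by
  rw [Fintype.prod_sum_type]
  simp only [mOf, Sum.elim_inl, Sum.elim_inr, Finset.prod_const, Finset.card_univ,
    Fintype.card_fin]

theorem card_G_eq {N : ℕ} (L : Lvl N p n Z r) :
    Fintype.card (DZ Z p × Dn r p n) = ∏ i, L.chain.m i := by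
  rw [card_G, ← prod_mOf]
  exact ((en Z r).prod_comp (mOf p n)).symm

end GenG

/-! ### the frame -/

/-- **the frame of level `n`**: the good primes `ℓ`, the `U`-operators at the Taylor–Wiles primes,
the twist exponent `e`, the chain. -/
def Lvl.frame {N p n : ℕ} {Z : Type} [Fintype Z] {r : ℕ} (L : Lvl N p n Z r) (ι : Type)
    (ℓ : ι → ℕ) (hℓ : ∀ i, (ℓ i).Prime) (hN : ∀ i, ¬ ℓ i ∣ N) (e : ℕ) : Frame N where
  ι := ι
  ℓ := ℓ
  prime := hℓ
  ndvd := hN
  r := r
  q := fun i => L.q (Sum.inr i)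
  qprime := fun i => L.prime _
  qdvd := fun i => L.dvd _
  e := e
  s := Fintype.card Z + r
  c := L.chain

/-! ### existence of generators -/

/-- **a generator at a prime `q ∥ N`**: `d ≡ 1` modulo `N / q`, and the class of `d` generates
`(ZMod q)ˣ ⧸ Kq q m`. -/
theorem exists_gen {N q M : ℕ} [NeZero N] (hq : q.Prime) (hN : N = q * M) (hcop : q.Coprime M)
    (m : ℕ) :
    ∃ d : (ZMod N)ˣ, ZMod.unitsMap (hN ▸ dvd_mul_left M q : M ∣ N) d = 1 ∧
      ∀ x : (ZMod q)ˣ, ∃ k : ℤ,
        (ZMod.unitsMap (hN ▸ dvd_mul_right q M : q ∣ N) d) ^ (-k) * x ∈ Kq q m := by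
  haveI : Fact q.Prime := ⟨hq⟩
  obtain ⟨g0, hg0⟩ := IsCyclic.exists_generator (α := (ZMod q)ˣ)
  obtain ⟨d, hd1, hd2⟩ := exists_crt_unit hN hcop g0
  refine ⟨d, hd2, fun x => ?_⟩
  obtain ⟨k, hk⟩ := Subgroup.mem_zpowers_iff.mp (hg0 x)
  refine ⟨k, ?_⟩
  rw [hd1, ← hk, ← zpow_add, neg_add_cancel, zpow_zero]
  exact Subgroup.one_mem _

/-- a unit `≡ 1` modulo `M` is `≡ 1` modulo every divisor of `M`. -/
theorem unitsMap_eq_one_of_dvd {N M q' : ℕ} (hM : M ∣ N) (hq' : q' ∣ M) (d : (ZMod N)ˣ)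
    (hd : ZMod.unitsMap hM d = 1) : ZMod.unitsMap (hq'.trans hM) d = 1 := by
  rw [← ZMod.unitsMap_comp hq' hM, MonoidHom.comp_apply, hd, map_one]

end Fermat.Agent.M43.LevelGrp5
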