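import Mathlib
import Fermat.Agent.M43.LevelGrp5
import Fermat.Agent.M43.BridgeRam3
import Fermat.Agent.W56.UnipSel8

/-!
# M43 / Hecke side: the level data of `(n, qv)` for the top frame

Top frame: `p` odd, `N0` squarefree, `S ⊇ primes(N0)`, the bad primes `Z = odd primes of N0`
(`p ∣ q - 1` for `q ∈ Z`), the universal tame generators `s q`; per level: `n`, the Taylor–Wiles
primes `qv : Fin r → ℕ` outside `S`, `p ^ (n + 1) ∣ qv i - 1`, and inertia elements `τ i` at `qv i`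
whose cyclotomic character generates `(ZMod (qv i))ˣ`.

* `Setup p N0 S N n r` : the data (`N = N0 * ∏ qv`);
* `eOf`, `two_mul_eOf` : the twist exponent `e = (|Δ| + 1) / 2`, `|Δ| = p ^ |Z| * (p ^ n) ^ r`;
* `Setup.sig a` : the inertia elements (`s z` at the bad primes, `τ i` at the Taylor–Wiles primes);
* `Setup.lvl : LevelGrp5.Lvl N p n ↥(primesOf Z) r` with generators `d a = cycloM N (sig a) ^ e`;
* `exists_tau` : existence of the `τ i`.
-/

set_option autoImplicit false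
set_option linter.unusedSectionVars false
set_option linter.style.haveILetI false

noncomputable section

namespace Fermat.Agent.M43.LevelSetup5

open CategoryTheory ExtCitation
open Fermat.Agent.M43.ChainGrp5 Fermat.Agent.M43.LevelGrp5 Fermat.Agent.M43.BridgeRam3
  Fermat.Agent.M43.GlobTame3 Fermat.Agent.M48.DirCharGal8 Fermat.Agent.W56.Defs9
  Fermat.Agent.PT.PRO Fermat.Agent.PT.BR

local notation "Γ" => (AlgebraicClosure ℚ ≃ₐ[ℚ] AlgebraicClosure ℚ)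

/-- the bad primes: the odd primes of `N0`. -/
abbrev Zs (N0 : ℕ) : Finset ℕ := N0.primeFactors.erase 2

/-- the twist exponent `(|Δ| + 1) / 2`. -/
def eOf (p n z r : ℕ) : ℕ := (p ^ z * (p ^ n) ^ r + 1) / 2

theorem two_mul_eOf {p : ℕ} (hp : p.Prime) (hp2 : p ≠ 2) (n z r : ℕ) :
    2 * eOf p n z r = p ^ z * (p ^ n) ^ r + 1 := by
  have hodd : Odd p := hp.odd_of_ne_two hp2
  have h1 : Odd (p ^ z * (p ^ n) ^ r) := (hodd.pow).mul ((hodd.pow).pow)
  obtain ⟨k, hk⟩ := h1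
  rw [eOf, hk]
  omega

/-- **the data of level `(n, qv)`.** -/
structure Setup (p N0 : ℕ) (S : Finset ℕ) (N : ℕ) [NeZero N] (n r : ℕ) where
  qv : Fin r → ℕ
  hN : N = N0 * ∏ i, qv i
  hp : p.Prime
  hp2 : p ≠ 2
  hsq : Squarefree N0
  hNS : ∀ q : ℕ, q.Prime → q ∣ N0 → q ∈ S
  hZ1 : ∀ q ∈ primesOf (Zs N0), p ∣ (q : ℕ) - 1
  qinj : Function.Injective qv
  qprime : ∀ i, (qv i).Prime
  qS : ∀ i, qv i ∉ S
  qdvd : ∀ i, p ^ (n + 1) ∣ qv i - 1
  /-- the universal tame generators -/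
  s : ∀ q : Nat.Primes, ↥((primeLocalPlace q).inertiaSubgroupIn ℚ)
  hs : ∀ q ∈ primesOf (Zs N0), ∀ {H : Type} [Group H]
    (f : ↥((primeLocalPlace q).inertiaSubgroupIn ℚ) →* H), ContI f →
      (∀ σ, ∃ a : ℕ, f σ ^ p ^ a = 1) → ∀ σ, f σ ∈ Subgroup.zpowers (f (s q))
  /-- the inertia elements at the Taylor–Wiles primes -/
  τ : Fin r → Γ
  hτ : ∀ i, τ i ∈ (primeLocalPlace ⟨qv i, qprime i⟩).inertiaSubgroupIn ℚ
  hτgen : ∀ (i : Fin r) (h : qv i ∣ N) (x : (ZMod (qv i))ˣ),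
    ∃ k : ℤ, ZMod.unitsMap h (cycloM N (τ i)) ^ k = x

namespace Setup

variable {p N0 : ℕ} {S : Finset ℕ} {N : ℕ} [NeZero N] {n r : ℕ}

/-- the labelled primes. -/
def q (D : Setup p N0 S N n r) : ↥(primesOf (Zs N0)) ⊕ Fin r → ℕ :=
  Sum.elim (fun z => ((z : Nat.Primes) : ℕ)) D.qv

theorem q_prime (D : Setup p N0 S N n r) (a : ↥(primesOf (Zs N0)) ⊕ Fin r) : (D.q a).Prime := by
  rcases a with z | i
  · exact (z : Nat.Primes).2
  · exact D.qprime i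

theorem mem_Zs (z : ↥(primesOf (Zs N0))) : ((z : Nat.Primes) : ℕ) ∈ Zs N0 := by
  have := z.2
  unfold primesOf at this
  exact Finset.mem_subtype.mp this

theorem z_dvd (z : ↥(primesOf (Zs N0))) : ((z : Nat.Primes) : ℕ) ∣ N0 :=
  Nat.dvd_of_mem_primeFactors (Finset.mem_of_mem_erase (mem_Zs z))

theorem z_ne_two (z : ↥(primesOf (Zs N0))) : ((z : Nat.Primes) : ℕ) ≠ 2 :=
  Finset.ne_of_mem_erase (mem_Zs z)

theorem z_mem_S (D : Setup p N0 S N n r) (z : ↥(primesOf (Zs N0))) :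
    ((z : Nat.Primes) : ℕ) ∈ S :=
  D.hNS _ (z : Nat.Primes).2 (z_dvd z)

theorem q_dvd (D : Setup p N0 S N n r) (a : ↥(primesOf (Zs N0)) ⊕ Fin r) : D.q a ∣ N := by
  have h : D.q a ∣ N0 * ∏ i, D.qv i := by
    rcases a with z | i
    · exact Dvd.dvd.mul_right (z_dvd z) _
    · exact Dvd.dvd.mul_left (Finset.dvd_prod_of_mem D.qv (Finset.mem_univ i)) _
  exact h.trans (dvd_of_eq D.hN.symm)

theorem q_injective (D : Setup p N0 S N n r) : Function.Injective D.q := by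
  rintro (z | i) (z' | i') h
  · congr 1
    exact Subtype.ext (Subtype.ext h)
  · exfalso
    have : D.qv i' ∈ S := by
      rw [show D.qv i' = ((z : Nat.Primes) : ℕ) from h.symm]
      exact D.z_mem_S z
    exact D.qS i' this
  · exfalso
    have : D.qv i ∈ S := by
      rw [show D.qv i = ((z' : Nat.Primes) : ℕ) from h]
      exact D.z_mem_S z'
    exact D.qS i this
  · congr 1
    exact D.qinj h

theorem q_ne_two (D : Setup p N0 S N n r) (a : ↥(primesOf (Zs N0)) ⊕ Fin r) : D.q a ≠ 2 := by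
  rcases a with z | i
  · exact z_ne_two z
  · intro h
    have h1 : p ∣ D.qv i - 1 := Dvd.dvd.trans (dvd_pow_self p (Nat.succ_ne_zero n)) (D.qdvd i)
    have h2 : D.qv i = 2 := h
    rw [h2] at h1
    exact D.hp.one_lt.ne' (Nat.dvd_one.mp h1)

theorem m_dvd (D : Setup p N0 S N n r) (a : ↥(primesOf (Zs N0)) ⊕ Fin r) :
    mOf p n a ∣ D.q a - 1 := by
  rcases a with z | i
  · exact D.hZ1 _ z.2
  · exact Dvd.dvd.trans (pow_dvd_pow p (Nat.le_succ n)) (D.qdvd i)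

theorem m_odd (D : Setup p N0 S N n r) (a : ↥(primesOf (Zs N0)) ⊕ Fin r) : Odd (mOf p n a) := by
  have hodd : Odd p := D.hp.odd_of_ne_two D.hp2
  rcases a with z | i
  · exact hodd
  · exact hodd.pow

theorem two_dvd (D : Setup p N0 S N n r) (a : ↥(primesOf (Zs N0)) ⊕ Fin r) :
    2 ∣ (D.q a - 1) / mOf p n a := by
  obtain ⟨c, hc⟩ := D.m_dvd a
  have hmpos : 0 < mOf p n a := (D.m_odd a).pos
  rw [hc, Nat.mul_div_cancel_left _ hmpos]
  have hqodd : Odd (D.q a) := (D.q_prime a).odd_of_ne_two (D.q_ne_two a)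
  have heven : Even (D.q a - 1) := by
    obtain ⟨k, hk⟩ := hqodd
    exact ⟨k, by omega⟩
  rw [hc] at heven
  rcases (Nat.even_mul.mp heven) with h | h
  · exact absurd h (Nat.not_even_iff_odd.mpr (D.m_odd a))
  · exact even_iff_two_dvd.mp h

/-- the inertia elements. -/
def sig (D : Setup p N0 S N n r) : ↥(primesOf (Zs N0)) ⊕ Fin r → Γ :=
  Sum.elim (fun z => ((D.s (z : Nat.Primes) :
    ↥((primeLocalPlace (z : Nat.Primes)).inertiaSubgroupIn ℚ)) : Γ)) D.τ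

/-- the places. -/
def place (D : Setup p N0 S N n r) (a : ↥(primesOf (Zs N0)) ⊕ Fin r) :
    ValuationSubring (AlgebraicClosure ℚ) :=
  primeLocalPlace ⟨D.q a, D.q_prime a⟩

theorem place_liesOver (D : Setup p N0 S N n r) (a : ↥(primesOf (Zs N0)) ⊕ Fin r) :
    (D.place a).LiesOverPrime (D.q a) :=
  Fermat.Agent.W56.UnipSel8.liesOverPrime_primeLocalPlace ⟨D.q a, D.q_prime a⟩

theorem sig_mem (D : Setup p N0 S N n r) (a : ↥(primesOf (Zs N0)) ⊕ Fin r) :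
    D.sig a ∈ (D.place a).inertiaSubgroupIn ℚ := by
  rcases a with z | i
  · exact (D.s (z : Nat.Primes)).2
  · exact D.hτ i

/-- the number of bad primes. -/
abbrev zc (N0 : ℕ) : ℕ := Fintype.card ↥(primesOf (Zs N0))

/-- the twist exponent. -/
def e (_D : Setup p N0 S N n r) : ℕ := eOf p n (zc N0) r

theorem two_mul_e (D : Setup p N0 S N n r) : 2 * D.e = p ^ zc N0 * (p ^ n) ^ r + 1 :=
  two_mul_eOf D.hp D.hp2 n _ r

/-- the generators. -/
def d (D : Setup p N0 S N n r) (a : ↥(primesOf (Zs N0)) ⊕ Fin r) : (ZMod N)ˣ :=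
  cycloM N (D.sig a) ^ D.e

theorem m_dvd_two_e (D : Setup p N0 S N n r) (a : ↥(primesOf (Zs N0)) ⊕ Fin r) :
    ((mOf p n a : ℕ) : ℤ) ∣ 2 * (D.e : ℤ) - 1 := by
  haveI : NeZero p := ⟨D.hp.ne_zero⟩
  have h : (2 * (D.e : ℤ) - 1) = ((p ^ zc N0 * (p ^ n) ^ r : ℕ) : ℤ) := by
    have h2 : ((2 * D.e : ℕ) : ℤ) = ((p ^ zc N0 * (p ^ n) ^ r + 1 : ℕ) : ℤ) := by
      rw [D.two_mul_e]
    push_cast at h2 ⊢
    linarith
  rw [h]
  apply Int.natCast_dvd_natCast.mpr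
  rw [← prod_mOf (Z := ↥(primesOf (Zs N0))) (r := r) p n]
  exact Finset.dvd_prod_of_mem _ (Finset.mem_univ a)

theorem not_dvd_of_ne (D : Setup p N0 S N n r) {a b : ↥(primesOf (Zs N0)) ⊕ Fin r} (hab : a ≠ b) :
    ¬ D.q b ∣ D.q a := by
  intro h
  exact hab (D.q_injective ((Nat.prime_dvd_prime_iff_eq (D.q_prime b) (D.q_prime a)).mp h)).symm

theorem unitsMap_d_of_ne (D : Setup p N0 S N n r) {a b : ↥(primesOf (Zs N0)) ⊕ Fin r}
    (hab : a ≠ b) : ZMod.unitsMap (D.q_dvd a) (D.d b) = 1 := by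
  haveI : Fact (D.q b).Prime := ⟨D.q_prime b⟩
  haveI : NeZero (D.q a) := ⟨(D.q_prime a).ne_zero⟩
  rw [d, map_pow, cycloM_level_of_mem_inertia (D.q b) (D.q_dvd a) (D.not_dvd_of_ne hab)
    (D.place b) (D.place_liesOver b) (D.sig_mem b), one_pow]

theorem unitsMap_d (D : Setup p N0 S N n r) (a : ↥(primesOf (Zs N0)) ⊕ Fin r) :
    haveI : NeZero (D.q a) := ⟨(D.q_prime a).ne_zero⟩
    ZMod.unitsMap (D.q_dvd a) (D.d a) = cycloM (D.q a) (D.sig a) ^ D.e := by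
  haveI : NeZero (D.q a) := ⟨(D.q_prime a).ne_zero⟩
  rw [d, map_pow, BridgeChar3.unitsMap_cycloM (D.q_dvd a)]

theorem gen_sig (D : Setup p N0 S N n r) (a : ↥(primesOf (Zs N0)) ⊕ Fin r) :
    haveI : NeZero (D.q a) := ⟨(D.q_prime a).ne_zero⟩
    ∀ x : (ZMod (D.q a))ˣ, ∃ k : ℤ, cycloM (D.q a) (D.sig a) ^ (-k) * x ∈ Kq (D.q a) (mOf p n a) := by
  haveI : NeZero (D.q a) := ⟨(D.q_prime a).ne_zero⟩
  haveI : Fact (D.q a).Prime := ⟨D.q_prime a⟩
  rcases a with z | i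
  · exact gen_of_universal ((z : Nat.Primes) : ℕ) p (D.m_dvd (Sum.inl z)) ⟨1, by simp [mOf]⟩
      (primeLocalPlace (z : Nat.Primes))
      (Fermat.Agent.W56.UnipSel8.liesOverPrime_primeLocalPlace (z : Nat.Primes))
      (D.s (z : Nat.Primes)) (D.hs (z : Nat.Primes) z.2)
  · intro x
    obtain ⟨k, hk⟩ := D.hτgen i (D.q_dvd (Sum.inr i)) x
    refine ⟨k, ?_⟩
    have h1 : cycloM (D.q (Sum.inr i)) (D.sig (Sum.inr i)) ^ k = x := by
      rw [← hk]
      congr 1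
      exact (BridgeChar3.unitsMap_cycloM (D.q_dvd (Sum.inr i)) (D.τ i)).symm
    rw [← h1, ← zpow_add, neg_add_cancel, zpow_zero]
    exact Subgroup.one_mem _

/-- **the group data of level `(n, qv)`.** -/
def lvl (D : Setup p N0 S N n r) : Lvl N p n ↥(primesOf (Zs N0)) r where
  q := D.q
  prime := D.q_prime
  dvd := D.q_dvd
  hm := D.m_dvd
  h2 := D.two_dvd
  d := D.d
  one := fun _ _ hab => D.unitsMap_d_of_ne hab
  gen := fun a x => by
    haveI : NeZero (D.q a) := ⟨(D.q_prime a).ne_zero⟩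
    haveI : Fact (D.q a).Prime := ⟨D.q_prime a⟩
    rw [D.unitsMap_d a]
    exact gen_pow (D.q a) (D.m_dvd a) D.e (D.m_dvd_two_e a) (D.gen_sig a) x

@[simp] theorem lvl_q (D : Setup p N0 S N n r) (a : ↥(primesOf (Zs N0)) ⊕ Fin r) :
    D.lvl.q a = D.q a := rfl

@[simp] theorem lvl_d (D : Setup p N0 S N n r) (a : ↥(primesOf (Zs N0)) ⊕ Fin r) :
    D.lvl.d a = cycloM N (D.sig a) ^ D.e := rfl

/-! ### the frame -/

theorem qv_not_dvd_N0 (D : Setup p N0 S N n r) (i : Fin r) : ¬ D.qv i ∣ N0 := fun h =>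
  D.qS i (D.hNS _ (D.qprime i) h)

theorem squarefree_prod_qv (D : Setup p N0 S N n r) : Squarefree (∏ i, D.qv i) := by
  apply Finset.squarefree_prod_of_pairwise_isCoprime
  · intro i _ j _ hij
    exact Nat.coprime_iff_isRelPrime.mp
      ((Nat.coprime_primes (D.qprime i) (D.qprime j)).mpr (fun h => hij (D.qinj h)))
  · intro i _
    exact (D.qprime i).prime.squarefree

theorem coprime_N0_prod (D : Setup p N0 S N n r) : Nat.Coprime N0 (∏ i, D.qv i) := by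
  apply Nat.Coprime.prod_right
  intro i _
  exact (Nat.Coprime.symm ((Nat.Prime.coprime_iff_not_dvd (D.qprime i)).mpr (D.qv_not_dvd_N0 i)))

theorem squarefree_N (D : Setup p N0 S N n r) : Squarefree N := by
  have h : Squarefree (N0 * ∏ i, D.qv i) :=
    (Nat.squarefree_mul D.coprime_N0_prod).mpr ⟨D.hsq, D.squarefree_prod_qv⟩
  exact D.hN ▸ h

theorem not_dvd_div (D : Setup p N0 S N n r) (a : ↥(primesOf (Zs N0)) ⊕ Fin r) :
    ¬ D.q a ∣ N / D.q a := by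
  intro h
  have h2 : D.q a * D.q a ∣ N := by
    obtain ⟨c, hc⟩ := h
    have hN : N = D.q a * (N / D.q a) := (Nat.mul_div_cancel' (D.q_dvd a)).symm
    exact ⟨c, by rw [mul_assoc, ← hc, ← hN]⟩
  exact (D.q_prime a).prime.not_unit (D.squarefree_N _ h2)

/-- the good primes: all primes outside `S ∪ qv`. -/
def Good (S : Finset ℕ) {r : ℕ} (qv : Fin r → ℕ) : Type :=
  {ℓ : ℕ // ℓ.Prime ∧ ℓ ∉ S ∧ ∀ i, qv i ≠ ℓ}

theorem good_not_dvd (D : Setup p N0 S N n r) (ℓ : Good S D.qv) : ¬ ℓ.1 ∣ N := by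
  intro h
  have h : ℓ.1 ∣ N0 * ∏ i, D.qv i := h.trans (dvd_of_eq D.hN)
  rcases (Nat.Prime.dvd_mul ℓ.2.1).mp h with h | h
  · exact ℓ.2.2.1 (D.hNS _ ℓ.2.1 h)
  · obtain ⟨i, _, hi⟩ := (Prime.dvd_finsetProd_iff (Nat.Prime.prime ℓ.2.1) _).mp h
    exact ℓ.2.2.2 i ((Nat.prime_dvd_prime_iff_eq ℓ.2.1 (D.qprime i)).mp hi).symm

/-- **the frame of level `(n, qv)`.** -/
def frame (D : Setup p N0 S N n r) : ChainMod5.Frame N :=
  D.lvl.frame (Good S D.qv) (fun ℓ => ℓ.1) (fun ℓ => ℓ.2.1) D.good_not_dvd D.e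

theorem frame_eq (D : Setup p N0 S N n r) :
    D.frame = D.lvl.frame (Good S D.qv) (fun ℓ => ℓ.1) (fun ℓ => ℓ.2.1) D.good_not_dvd D.e := rfl

theorem frame_hN (D : Setup p N0 S N n r) : N = N0 * ∏ i, D.frame.q i := D.hN

theorem frame_qinj (D : Setup p N0 S N n r) : Function.Injective D.frame.q := D.qinj

theorem frame_qS (D : Setup p N0 S N n r) (i : Fin D.frame.r) : D.frame.q i ∉ S := D.qS i

theorem frame_ℓS (D : Setup p N0 S N n r) (i : D.frame.ι) : D.frame.ℓ i ∉ S := i.2.2.1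

theorem frame_cov (D : Setup p N0 S N n r) (ℓ' : ℕ) (hℓ' : ℓ'.Prime) (hS : ℓ' ∉ S)
    (hq : ∀ i, D.frame.q i ≠ ℓ') : ∃ i, D.frame.ℓ i = ℓ' :=
  ⟨⟨ℓ', hℓ', hS, hq⟩, rfl⟩

theorem frame_prod_m (D : Setup p N0 S N n r) :
    ∏ i, D.frame.c.m i = p ^ zc N0 * (p ^ n) ^ r := by
  haveI : NeZero p := ⟨D.hp.ne_zero⟩
  rw [← prod_mOf (Z := ↥(primesOf (Zs N0))) (r := r) p n]
  exact (en ↥(primesOf (Zs N0)) r).prod_comp (mOf p n)

theorem two_mul_frame_e (D : Setup p N0 S N n r) :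
    2 * D.frame.e = (∏ i, D.frame.c.m i) + 1 := by
  rw [D.frame_prod_m]
  exact D.two_mul_e

theorem pow_mem_sub (D : Setup p N0 S N n r) (x : (ZMod N)ˣ) :
    x ^ (2 * D.frame.e - 1) ∈ D.frame.c.sub D.frame.s := by
  rw [D.two_mul_frame_e, Nat.add_sub_cancel]
  exact D.frame.c.pow_prod_mem x

theorem chain_ℓ (D : Setup p N0 S N n r) (i : Fin D.frame.s) :
    D.frame.c.ℓ i = D.q (en ↥(primesOf (Zs N0)) r i) := rfl

theorem chain_ℓ_prime (D : Setup p N0 S N n r) (i : Fin D.frame.s) :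
    (D.frame.c.ℓ i).Prime ∧ ¬ D.frame.c.ℓ i ∣ N / D.frame.c.ℓ i :=
  ⟨D.q_prime _, D.not_dvd_div _⟩

theorem chain_ℓ_injective (D : Setup p N0 S N n r) : Function.Injective D.frame.c.ℓ :=
  fun _ _ h => (en ↥(primesOf (Zs N0)) r).injective (D.q_injective h)

end Setup

/-! ### existence of the inertia elements at the Taylor–Wiles primes -/

/-- an inertia element at `q ∥ N` whose cyclotomic character modulo `q` generates `(ZMod q)ˣ`. -/
theorem exists_tau {N : ℕ} [NeZero N] {q : ℕ} (hq : q.Prime) (hqN : q ∣ N) :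
    ∃ τ : Γ, τ ∈ (primeLocalPlace ⟨q, hq⟩).inertiaSubgroupIn ℚ ∧
      ∀ x : (ZMod q)ˣ, ∃ k : ℤ, ZMod.unitsMap hqN (cycloM N τ) ^ k = x := by
  haveI : Fact q.Prime := ⟨hq⟩
  haveI : NeZero q := ⟨hq.ne_zero⟩
  obtain ⟨g0, hg0⟩ := IsCyclic.exists_generator (α := (ZMod q)ˣ)
  obtain ⟨τ, hτI, hτ⟩ := exists_inertia_cycloM_eq q g0 (primeLocalPlace ⟨q, hq⟩)
    (Fermat.Agent.W56.UnipSel8.liesOverPrime_primeLocalPlace ⟨q, hq⟩)
  refine ⟨τ, hτI, fun x => ?_⟩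
  obtain ⟨k, hk⟩ := Subgroup.mem_zpowers_iff.mp (hg0 x)
  exact ⟨k, by rw [BridgeChar3.unitsMap_cycloM hqN, hτ, hk]⟩

end Fermat.Agent.M43.LevelSetup5
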