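/-
M43 (helper3) [BRIDGE, top frame] BridgeSetup3: **the BRIDGE binders `hTW`, `hZ` of
`LevelTop5.heckeLevel_of_rep`** for a `LevelSetup5.Setup`, from the packaged (LG-q) inputs
`BridgeLevel3.LGqInput` at the primes `D.q a` of the level (places `D.place a`).

* `q_ne_p` : the primes of the level are different from `p`;
* `bridge_setup` : the operator identity for the inertia element `D.sig a`;
* `hTW_hZ_of_setup` : the two binders.
-/
import Mathlib
import Fermat.Agent.M43.BridgeLevel3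
import Fermat.Agent.M43.LevelSetup5

set_option autoImplicit false
set_option linter.unusedSectionVars false
set_option linter.style.haveILetI false
set_option synthInstance.maxHeartbeats 400000

open TensorProduct Polynomial

noncomputable section

namespace Fermat.Agent.M43.BridgeSetup3

open IsLocalRing ExtCitation
open Fermat.Agent.M43.ChainMod5 Fermat.Agent.M43.PolyMod5 Fermat.Agent.M43.ChainGrp5
  Fermat.Agent.M43.ChainMain5 Fermat.Agent.M43.ChainLevel5 Fermat.Agent.M43.AlgHecke5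
  Fermat.Agent.M43.LevelGrp5 Fermat.Agent.M43.LevelSetup5 Fermat.Agent.M43.BridgeLevel3
  Fermat.Agent.W56.Defs9
open Fermat.Agent.M48.DirCharGal8

local notation "Qb" => AlgebraicClosure ℚ
local notation "GQ" => (AlgebraicClosure ℚ ≃ₐ[ℚ] AlgebraicClosure ℚ)

variable {p N0 : ℕ} {S : Finset ℕ} {N : ℕ} [NeZero N] {n r : ℕ}

/-- the primes of the level are different from `p`. -/
theorem q_ne_p (D : Setup p N0 S N n r) (a : ↥(primesOf (Zs N0)) ⊕ Fin r) : D.q a ≠ p := by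
  have h1 : p ∣ D.q a - 1 := by
    rcases a with z | i
    · exact D.hZ1 _ z.2
    · exact Dvd.dvd.trans (dvd_pow_self p (Nat.succ_ne_zero n)) (D.qdvd i)
  intro h
  rw [h] at h1
  have h2 : 0 < p - 1 := Nat.sub_pos_of_lt D.hp.one_lt
  have h3 := Nat.le_of_dvd h2 h1
  omega

variable [Fact p.Prime]
  {O : Type} [CommRing O] [IsDomain O] [IsDiscreteValuationRing O]
  [IsAdicComplete (maximalIdeal O) O] [Finite (ResidueField O)] [CharZero O]

/-- **the operator identity for the inertia element `D.sig a`.** -/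
theorem bridge_setup (hpO : (p : O) ∈ maximalIdeal O) (hpS : p ∈ S) (D : Setup p N0 S N n r)
    (θ : D.frame.ι → ResidueField O) [IsLocalRing (An θ)] (ρ : GaloisRepAdic (An θ))
    {T₁ : Type} [CommRing T₁] [Algebra O T₁] [Module.Free O T₁] [Module.Finite O T₁]
    [IsReduced T₁] (g₁ : T₁ →ₐ[O] An θ) (hg₁ : Function.Surjective g₁)
    (hfrob : ∀ (i : D.frame.ι) (P : ValuationSubring Qb), P.LiesOverPrime (D.frame.ℓ i) →
      ∀ φ : GQ, P.IsFrobeniusAt φ (D.frame.ℓ i) →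
      LinearMap.charpoly (ρ.ρ φ) = X ^ 2
        - C (Ideal.Quotient.mk (annL O (Hk0 O D.frame) (HnMod θ)) (MvPolynomial.X i) : An θ) * X
        + C ((D.frame.ℓ i : An θ)))
    (a : ↥(primesOf (Zs N0)) ⊕ Fin r)
    (hLG : LGqInput p N (QL D.lvl) (S ∪ Finset.univ.image D.qv) (D.q a)
      (Kq (D.q a) (mOf p n a)) (D.place a)) (w : Hn θ) :
    actH θ (LinearMap.trace (An θ) ρ.V (ρ.ρ (D.sig a))) w =
      (MvPolynomial.X (Sum.inr (D.d a)) : Hk O D.frame) • w
      + (MvPolynomial.X (Sum.inr (D.d a)⁻¹) : Hk O D.frame) • w :=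
  bridge_lvl' (p := p) hpO D.lvl D.q_injective D.not_dvd_div (Setup.Good S D.qv)
    (fun ℓ => ℓ.1) (fun ℓ => ℓ.2.1) D.good_not_dvd D.e D.two_mul_frame_e D.frame D.frame_eq θ ρ
    g₁ hg₁ (S ∪ Finset.univ.image D.qv) (Finset.mem_union_left _ hpS)
    (fun r' hr' hr'S => D.frame_cov r' hr' (fun h => hr'S (Finset.mem_union_left _ h))
      (fun i h => hr'S (Finset.mem_union_right _
        (Finset.mem_image.mpr ⟨i, Finset.mem_univ i, h⟩))))
    hfrob a (q_ne_p D a) (D.place a) (D.place_liesOver a) hLG (D.sig a) (D.sig_mem a) (D.d a) rfl w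

/-- **the BRIDGE binders `hTW`, `hZ` of `LevelTop5.heckeLevel_of_rep`.** -/
theorem hTW_hZ_of_setup (hpO : (p : O) ∈ maximalIdeal O) (hpS : p ∈ S) (D : Setup p N0 S N n r)
    (θ : D.frame.ι → ResidueField O) [IsLocalRing (An θ)] (ρ : GaloisRepAdic (An θ))
    {T₁ : Type} [CommRing T₁] [Algebra O T₁] [Module.Free O T₁] [Module.Finite O T₁]
    [IsReduced T₁] (g₁ : T₁ →ₐ[O] An θ) (hg₁ : Function.Surjective g₁)
    (hfrob : ∀ (i : D.frame.ι) (P : ValuationSubring Qb), P.LiesOverPrime (D.frame.ℓ i) →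
      ∀ φ : GQ, P.IsFrobeniusAt φ (D.frame.ℓ i) →
      LinearMap.charpoly (ρ.ρ φ) = X ^ 2
        - C (Ideal.Quotient.mk (annL O (Hk0 O D.frame) (HnMod θ)) (MvPolynomial.X i) : An θ) * X
        + C ((D.frame.ℓ i : An θ)))
    (hLG : ∀ a : ↥(primesOf (Zs N0)) ⊕ Fin r,
      LGqInput p N (QL D.lvl) (S ∪ Finset.univ.image D.qv) (D.q a)
        (Kq (D.q a) (mOf p n a)) (D.place a)) :
    (∀ i : Fin r, ∃ a : An θ, ∀ w : Hn θ, actH θ a w =
        (MvPolynomial.X (Sum.inr (D.d (Sum.inr i))) : Hk O D.frame) • w +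
        (MvPolynomial.X (Sum.inr (D.d (Sum.inr i))⁻¹) : Hk O D.frame) • w) ∧
    (∀ z : ↥(primesOf (Zs N0)), ∀ w : Hn θ,
      actH θ (LinearMap.trace (An θ) ρ.V (ρ.ρ (D.s z.1 : GQ))) w =
        (MvPolynomial.X (Sum.inr (D.d (Sum.inl z))) : Hk O D.frame) • w +
        (MvPolynomial.X (Sum.inr (D.d (Sum.inl z))⁻¹) : Hk O D.frame) • w) :=
  ⟨fun i => ⟨LinearMap.trace (An θ) ρ.V (ρ.ρ (D.sig (Sum.inr i))),
      fun w => bridge_setup hpO hpS D θ ρ g₁ hg₁ hfrob (Sum.inr i) (hLG _) w⟩,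
    fun z w => bridge_setup hpO hpS D θ ρ g₁ hg₁ hfrob (Sum.inl z) (hLG _) w⟩

end Fermat.Agent.M43.BridgeSetup3
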