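/-
M43 (helper3) [BRIDGE / (BR-1)] BridgeLat3: **M48's eigen-lattice chain with EXTRA quadratic
relations** (what turns an inertial relation on the Tate module of `J₁` into a statement about the
TRACE of the attached two-dimensional representation).

* `exists_eigenRep3` : `BaseChangeRep8/P1Lattice8.exists_eigenRep2` with one more clause: a
  quadratic relation `ρ g (ρ g v) - s • ρ g v + n • v = 0` checked on the vectors `v` of the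
  eigen-submodule of `𝒪 ⊗ T` passes to the eigen-representation.
* `EigenLatticeX` : the contract `P1Skeleton8.EigenLattice1` plus a family of extra relations
  `Rel σ s n → ρ σ * ρ σ - s • ρ σ + n • 1 = 0`.
* `exists_rep_of_eigenLatticeX` : the rank-two representation of `P1Skeleton8`, with
  `charpoly (ρ' σ) = X² - s X + n` whenever `Rel σ s n` and `n = d σ`
  (`d = galChar ε · cycloO`, the determinant).
* `eigenLatticeX_of` : `P1Lattice8.eigenLattice1_of` with an ABSTRACT (LG-q) input: a subgroup `Hd`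
  of diamond operators, a set `𝓘 ⊆ G_ℚ` with diamond classes `dσ`, `c ≠ 0` and
  `c • (σ - 1)(σ - ⟨dσ σ⟩) y = 0` for `σ ∈ 𝓘` on the `Hd`-invariant `p`-power torsion of `J`; `ε`
  trivial on `Hd`. Then `Rel σ (1 + ε(dσ σ)) (ε(dσ σ))` for `σ ∈ 𝓘` (the averaging operator
  `E = ∑_{h ∈ Hd} ⟨h⟩` is `|Hd|` on the eigen-lattice; no invariants, no flatness).
* `exists_rep_of_inputsX` : from `I : P1Inputs p M H S` and a LATTICE eigenvector `v ∈ K ⊗ I.Λ`: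
  `ρ : GaloisRepAdic 𝒪'` with Frobenius charpolys `X² - a_r X + ε(r) r`, unramified outside `Mp`,
  and `charpoly ρ(σ) = X² - (1 + ε(dσ σ)) X + ε(dσ σ)` for `σ ∈ 𝓘`.
-/
import Mathlib
import Fermat.Agent.M48.P1Lattice8
import Fermat.Agent.M48.P1Skeleton8
import Fermat.Agent.M48.P1Inputs8

set_option autoImplicit false
set_option linter.unusedSectionVars false
set_option linter.style.haveILetI false
set_option synthInstance.maxHeartbeats 400000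

open TensorProduct Polynomial

noncomputable section

namespace Fermat.Agent.M43.BridgeLat3

open Fermat.Agent.ES.ALG.RelDense9 Fermat.Agent.ES.ALG.RankTwo9 Fermat.Agent.ES.J.BaseChangeRep8
  Fermat.Agent.ES.J.CycloChar8 Fermat.Agent.M48.DirCharGal8 Fermat.Agent.M48.P1Skeleton8
  Fermat.Agent.ES.J.TateModule13 Fermat.Agent.M48.P1Lattice8

local notation "Qb" => AlgebraicClosure ℚ
local notation "GQ" => (AlgebraicClosure ℚ ≃ₐ[ℚ] AlgebraicClosure ℚ)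

/-! ### The eigen-representation with extra relations -/

section Eigen

variable {𝒪 : Type} [CommRing 𝒪] [IsDomain 𝒪] [IsPrincipalIdealRing 𝒪]
variable {Λ : Type} [AddCommGroup Λ] [Module 𝒪 Λ] [Module.Free 𝒪 Λ] [Module.Finite 𝒪 Λ]
variable {G : Type*} [Group G] {ι : Type*}

theorem exists_eigenSubRep3 (ρ : G →* Module.End 𝒪 Λ) (t : ι → Module.End 𝒪 Λ) (c : ι → 𝒪)
    (hcomm : ∀ g i, Commute (ρ g) (t i)) (w : Λ) (hw0 : w ≠ 0) (hw : ∀ i, t i w = c i • w) :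
    ∃ (Λ' : Type) (_ : AddCommGroup Λ') (_ : Module 𝒪 Λ') (_ : Module.Free 𝒪 Λ')
      (_ : Module.Finite 𝒪 Λ') (_ : Nontrivial Λ') (ρ' : G →* Module.End 𝒪 Λ'),
      (∀ (I : Ideal 𝒪) (g : G), EndCongr I (ρ g) 1 → EndCongr I (ρ' g) 1) ∧
      (∀ g, ρ g = 1 → ρ' g = 1) ∧
      (∀ (g : G) (i j : ι) (n : 𝒪), ρ g * ρ g - t i * ρ g + n • t j = 0 →
        ρ' g * ρ' g - c i • ρ' g + (n * c j) • (1 : Module.End 𝒪 Λ') = 0) ∧
      (∀ (g : G) (s n : 𝒪), (∀ v ∈ eigenSub t c, ρ g (ρ g v) - s • ρ g v + n • v = 0) →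
        ρ' g * ρ' g - s • ρ' g + n • (1 : Module.End 𝒪 Λ') = 0) := by
  have hsat := saturated_eigenSub t c
  have hst := stable_eigenSub ρ t c hcomm
  have hwmem : w ∈ eigenSub t c := mem_eigenSub.mpr hw
  have hnt : Nontrivial (eigenSub t c) :=
    ⟨⟨⟨w, hwmem⟩, 0, fun h => hw0 (congrArg Subtype.val h)⟩⟩
  refine ⟨eigenSub t c, inferInstance, inferInstance, inferInstance, inferInstance, hnt,
    restrictRep ρ (eigenSub t c) hst, ?_, ?_, ?_, ?_⟩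
  · intro I g h
    exact endCongr_restrictRep hsat hst I g h
  · intro g hg
    ext v
    simp [hg]
  · intro g i j n h
    ext v
    have hv := mem_eigenSub.mp v.2
    have hρv : ρ g (v : Λ) ∈ eigenSub t c := hst g v v.2
    have h1 := congrArg (fun F : Module.End 𝒪 Λ => F (v : Λ)) h
    simp only [LinearMap.add_apply, LinearMap.sub_apply, Module.End.mul_apply,
      LinearMap.smul_apply, LinearMap.zero_apply] at h1
    rw [mem_eigenSub.mp hρv i, hv j, smul_smul] at h1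
    simpa using h1
  · intro g s n h
    ext v
    have h1 := h (v : Λ) v.2
    simpa using h1

end Eigen

section Main

variable {R : Type} [CommRing R] {𝒪 : Type} [CommRing 𝒪] [IsDomain 𝒪] [IsPrincipalIdealRing 𝒪]
  [Algebra R 𝒪]
variable {T : Type} [AddCommGroup T] [Module R T] [Module.Free R T] [Module.Finite R T]
variable {G : Type*} [Group G] {ι : Type*}

/-- **`P1Lattice8.exists_eigenRep2` with relations checked on the eigen-submodule.** -/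
theorem exists_eigenRep3 (ρ : G →* Module.End R T) (t : ι → Module.End R T)
    (hcomm : ∀ g i, Commute (ρ g) (t i)) (c : ι → 𝒪) (w : 𝒪 ⊗[R] T) (hw0 : w ≠ 0)
    (hw : ∀ i, (t i).baseChange 𝒪 w = c i • w) :
    ∃ (Λ' : Type) (_ : AddCommGroup Λ') (_ : Module 𝒪 Λ') (_ : Module.Free 𝒪 Λ')
      (_ : Module.Finite 𝒪 Λ') (_ : Nontrivial Λ') (ρ' : G →* Module.End 𝒪 Λ'),
      (∀ (I : Ideal 𝒪) (g : G) (r : R), algebraMap R 𝒪 r ∈ I → (∀ x, ∃ y, ρ g x - x = r • y) →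
        EndCongr I (ρ' g) 1) ∧
      (∀ g, ρ g = 1 → ρ' g = 1) ∧
      (∀ (g : G) (i j : ι) (n : R), ρ g * ρ g - t i * ρ g + n • t j = 0 →
        ρ' g * ρ' g - c i • ρ' g + (algebraMap R 𝒪 n * c j) • (1 : Module.End 𝒪 Λ') = 0) ∧
      (∀ (g : G) (s n : 𝒪),
        (∀ v ∈ eigenSub (fun i => (t i).baseChange 𝒪) c,
          (ρ g).baseChange 𝒪 ((ρ g).baseChange 𝒪 v) - s • (ρ g).baseChange 𝒪 v + n • v = 0) →
        ρ' g * ρ' g - s • ρ' g + n • (1 : Module.End 𝒪 Λ') = 0) := by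
  have hcomm' : ∀ g i, Commute (bcRep (𝒪 := 𝒪) ρ g) ((t i).baseChange 𝒪) := by
    intro g i
    have := (hcomm g i).map (Module.End.baseChangeHom R 𝒪 T)
    exact this
  obtain ⟨Λ', i1, i2, i3, i4, i5, ρ', h1, h2, h3, h4⟩ :=
    exists_eigenSubRep3 (bcRep (𝒪 := 𝒪) ρ) (fun i => (t i).baseChange 𝒪) c hcomm' w hw0 hw
  refine ⟨Λ', i1, i2, i3, i4, i5, ρ', ?_, ?_, ?_, ?_⟩
  · intro I g r hr hf
    exact h1 I g (endCongr_baseChange I (ρ g) r hr hf)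
  · intro g hg
    apply h2
    rw [bcRep_apply, hg, LinearMap.baseChange_one]
  · intro g i j n h
    apply h3 g i j (algebraMap R 𝒪 n)
    have := congrArg (fun F : Module.End R T => F.baseChange 𝒪) h
    simp only [LinearMap.baseChange_add, LinearMap.baseChange_sub, LinearMap.baseChange_mul,
      LinearMap.baseChange_smul, LinearMap.baseChange_zero] at this
    rw [bcRep_apply, algebraMap_smul]
    exact this
  · intro g s n h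
    exact h4 g s n h

end Main

/-! ### The contract with extra relations and the rank-two representation -/

/-- `P1Skeleton8.EigenLattice1` plus extra quadratic relations `Rel σ s n`. -/
def EigenLatticeX (p M : ℕ) (S : Finset ℕ) (𝒪' : Type) [CommRing 𝒪'] [IsLocalRing 𝒪']
    (a : ℕ → 𝒪') (δ : ∀ ℓ : ℕ, ℓ.Prime → ¬ ℓ ∣ M → 𝒪') (Rel : GQ → 𝒪' → 𝒪' → Prop) : Prop :=
  ∃ (Λ : Type) (_ : AddCommGroup Λ) (_ : Module 𝒪' Λ) (_ : Module.Free 𝒪' Λ)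
    (_ : Module.Finite 𝒪' Λ) (_ : Nontrivial Λ) (ρ : GQ →* Module.End 𝒪' Λ),
    (∀ n : ℕ, ∃ L : IntermediateField ℚ Qb, FiniteDimensional ℚ L ∧
      ∀ σ : GQ, (∀ x ∈ L, σ x = x) → EndCongr (IsLocalRing.maximalIdeal 𝒪' ^ n) (ρ σ) 1) ∧
    (∀ q : ℕ, q.Prime → ¬ q ∣ M → q ≠ p → ∀ A : ValuationSubring Qb, A.LiesOverPrime q →
      ∀ τ ∈ A.inertiaSubgroupIn ℚ, ρ τ = 1) ∧
    (∀ (ℓ : ℕ) (hℓ : ℓ.Prime) (hℓM : ¬ ℓ ∣ M) (_ : ℓ ∉ (↑S : Set ℕ)),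
      ∀ A : ValuationSubring Qb, A.LiesOverPrime ℓ → ∀ σ : GQ, A.IsFrobeniusAt σ ℓ →
        ρ σ * ρ σ - a ℓ • ρ σ + δ ℓ hℓ hℓM • (1 : Module.End 𝒪' Λ) = 0) ∧
    (∀ (σ : GQ) (s n : 𝒪'), Rel σ s n →
      ρ σ * ρ σ - s • ρ σ + n • (1 : Module.End 𝒪' Λ) = 0)

section Core

variable {p : ℕ} [Fact p.Prime] {M : ℕ} [NeZero M] {S : Finset ℕ}
  {𝒪' : Type} [CommRing 𝒪'] [IsDomain 𝒪'] [IsDiscreteValuationRing 𝒪']
  [IsAdicComplete (IsLocalRing.maximalIdeal 𝒪') 𝒪'] [CharZero 𝒪']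

/-- **The core with extra relations**: the rank-two representation of
`P1Skeleton8.exists_rep_of_eigenLattice1`; a quadratic relation `Rel σ s n` with
`n = det` pins the characteristic polynomial of `ρ σ`. -/
theorem exists_rep_of_eigenLatticeX (hpS : p ∈ S) (hMS : ∀ q : ℕ, q.Prime → q ∣ M → q ∈ S)
    (hp𝒪' : (p : 𝒪') ∈ IsLocalRing.maximalIdeal 𝒪')
    (a : ℕ → 𝒪') (ε : (ZMod M)ˣ →* 𝒪'ˣ) (hε : ε (-1) = 1) (Rel : GQ → 𝒪' → 𝒪' → Prop)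
    (h : EigenLatticeX p M S 𝒪' a (fun ℓ hℓ hℓM => epsAt ε hℓ hℓM * (ℓ : 𝒪')) Rel) :
    ∃ ρ : GaloisRepAdic 𝒪',
      (∀ (ℓ : ℕ) (hℓ : ℓ.Prime) (hℓM : ¬ ℓ ∣ M) (_ : ℓ ∉ (↑S : Set ℕ)),
        ∀ A : ValuationSubring Qb, A.LiesOverPrime ℓ → ∀ σ : GQ, A.IsFrobeniusAt σ ℓ →
          LinearMap.charpoly (ρ.ρ σ) =
            X ^ 2 - C (a ℓ) * X + C (epsAt ε hℓ hℓM * (ℓ : 𝒪'))) ∧
      (∀ q : ℕ, q.Prime → ¬ q ∣ M → q ≠ p → ρ.IsUnramifiedAt q) ∧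
      (∀ (σ : GQ) (s n : 𝒪'), Rel σ s n →
        n = ((galChar ε σ : 𝒪'ˣ) : 𝒪') * ((cycloO p hp𝒪' σ : 𝒪'ˣ) : 𝒪') →
          LinearMap.charpoly (ρ.ρ σ) = X ^ 2 - C s * X + C n) := by
  classical
  obtain ⟨Λ, _, _, _, _, _, ρ, hcont, hunr, hes, hrelX⟩ := h
  have hpprime : p.Prime := Fact.out
  set 𝔪 := IsLocalRing.maximalIdeal 𝒪' with h𝔪
  set d : GQ →* 𝒪'ˣ := galChar ε * cycloO p hp𝒪' with hd
  have hd_apply : ∀ σ : GQ, ((d σ : 𝒪'ˣ) : 𝒪') =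
      ((galChar ε σ : 𝒪'ˣ) : 𝒪') * ((cycloO p hp𝒪' σ : 𝒪'ˣ) : 𝒪') := fun σ => by
    rw [hd, MonoidHom.mul_apply, Units.val_mul]
  have hne_p : ∀ ℓ : ℕ, ℓ ∉ (↑S : Set ℕ) → ℓ ≠ p := fun ℓ hℓS h => hℓS (h ▸ hpS)
  have hd_frob : ∀ (ℓ : ℕ) (hℓ : ℓ.Prime) (hℓM : ¬ ℓ ∣ M) (_ : ℓ ∉ (↑S : Set ℕ))
      (A : ValuationSubring Qb), A.LiesOverPrime ℓ → ∀ σ : GQ, A.IsFrobeniusAt σ ℓ →
      ((d σ : 𝒪'ˣ) : 𝒪') = epsAt ε hℓ hℓM * (ℓ : 𝒪') := by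
    intro ℓ hℓ hℓM hℓS A hA σ hσ
    rw [hd_apply, galChar_of_isFrobeniusAt ε hℓ hℓM A hA hσ,
      cycloO_of_isFrobeniusAt p hp𝒪' hℓ (hne_p ℓ hℓS) A hA hσ]
    rfl
  have hd_cont : ∀ n : ℕ, ∃ L : IntermediateField ℚ Qb, FiniteDimensional ℚ L ∧
      ∀ σ : GQ, (∀ x ∈ L, σ x = x) → ((d σ : 𝒪'ˣ) : 𝒪') - 1 ∈ 𝔪 ^ n := by
    intro n
    obtain ⟨L₁, hL₁, h1⟩ := galChar_eq_one_of_fixes ε
    obtain ⟨L₂, hL₂, h2⟩ := cycloO_sub_one_mem p hp𝒪' n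
    have := hL₁
    have := hL₂
    refine ⟨L₁ ⊔ L₂, inferInstance, fun σ hσ => ?_⟩
    rw [hd_apply, h1 σ fun x hx => hσ x (le_sup_left (a := L₁) (b := L₂) hx), Units.val_one,
      one_mul]
    exact h2 σ fun x hx => hσ x (le_sup_right (a := L₁) (b := L₂) hx)
  have hd_c : ((d complexConjugation : 𝒪'ˣ) : 𝒪') = -1 := by
    rw [hd_apply, galChar_complexConjugation, hε, Units.val_one, one_mul,
      cycloO_complexConjugation]
  have hd_inertia : ∀ (q : ℕ), q.Prime → ¬ q ∣ M → q ≠ p → ∀ A : ValuationSubring Qb,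
      A.LiesOverPrime q → ∀ τ ∈ A.inertiaSubgroupIn ℚ, d τ = 1 := by
    intro q hq hqM hqp A hA τ hτ
    rw [hd, MonoidHom.mul_apply, galChar_of_mem_inertia ε hq hqM A hA hτ,
      cycloO_of_mem_inertia p hp𝒪' hq hqp A hA hτ, one_mul]
  -- the set of Frobenius lifts at the good primes
  let Φ : Set GQ := {σ | ∃ (ℓ : ℕ) (_ : ℓ.Prime) (_ : ¬ ℓ ∣ M) (_ : ℓ ∉ (↑S : Set ℕ))
    (A : ValuationSubring Qb), A.LiesOverPrime ℓ ∧ A.IsFrobeniusAt σ ℓ}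
  let aΦ : GQ → 𝒪' := fun σ => if hσ : σ ∈ Φ then a hσ.choose else 0
  have hΦ : ∀ σ ∈ Φ, ρ σ * ρ σ - aΦ σ • ρ σ + ((d σ : 𝒪'ˣ) : 𝒪') • (1 : Module.End 𝒪' Λ) = 0 := by
    intro σ hσ
    have hσ' := hσ
    obtain ⟨hℓ, hℓM, hℓS, A, hA, hFr⟩ := hσ.choose_spec
    have e1 : aΦ σ = a hσ.choose := dif_pos hσ'
    rw [e1, hd_frob _ hℓ hℓM hℓS A hA σ hFr]
    exact hes _ hℓ hℓM hℓS A hA σ hFr
  have hdense : ∀ (n : ℕ) (g : GQ), ∃ σ ∈ Φ, ∃ j : ℕ, EndCongr (𝔪 ^ n) (ρ g) (ρ σ ^ j) ∧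
      ((d g : 𝒪'ˣ) : 𝒪') - ((d σ : 𝒪'ˣ) : 𝒪') ^ j ∈ 𝔪 ^ n := by
    intro n g
    obtain ⟨L₁, hL₁, h1⟩ := hcont n
    obtain ⟨L₂, hL₂, h2⟩ := hd_cont n
    have := hL₁
    have := hL₂
    obtain ⟨ℓ, A, φ, j, hℓ, hℓS, hA, hφ, hj⟩ :=
      Fermat.Agent.ES.GAL.ChebQbar23.exists_frobenius_pow_eq_on (L₁ ⊔ L₂) g S
    have hℓS' : ℓ ∉ (↑S : Set ℕ) := by simpa using hℓS
    have hℓM : ¬ ℓ ∣ M := fun hdvd => hℓS (hMS ℓ hℓ hdvd)
    refine ⟨φ, ⟨ℓ, hℓ, hℓM, hℓS', A, hA, hφ⟩, j, ?_, ?_⟩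
    all_goals
      set τ : GQ := g⁻¹ * φ ^ j with hτ
      have hτfix : ∀ x ∈ L₁ ⊔ L₂, τ x = x := by
        intro x hx
        rw [hτ, AlgEquiv.mul_apply, hj x hx]
        exact g.symm_apply_apply x
      have hφj : φ ^ j = g * τ := by rw [hτ, mul_inv_cancel_left]
    · have hc := h1 τ (fun x hx => hτfix x (le_sup_left (a := L₁) (b := L₂) hx))
      have e : ρ φ ^ j = ρ g * ρ τ := by rw [← map_pow, hφj, map_mul]
      rw [e]
      have := (hc.mul_left (ρ g)).symm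
      rwa [mul_one] at this
    · have hc := h2 τ (fun x hx => hτfix x (le_sup_right (a := L₁) (b := L₂) hx))
      have e : ((d φ : 𝒪'ˣ) : 𝒪') ^ j = ((d g : 𝒪'ˣ) : 𝒪') * ((d τ : 𝒪'ˣ) : 𝒪') := by
        rw [← Units.val_pow_eq_pow_val, ← map_pow, hφj, map_mul, Units.val_mul]
      rw [e]
      have e2 : ((d g : 𝒪'ˣ) : 𝒪') - ((d g : 𝒪'ˣ) : 𝒪') * ((d τ : 𝒪'ˣ) : 𝒪') =
          -(((d g : 𝒪'ˣ) : 𝒪') * (((d τ : 𝒪'ˣ) : 𝒪') - 1)) := by ring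
      rw [e2]
      exact neg_mem (Ideal.mul_mem_left _ _ hc)
  obtain ⟨tr, htr, htrΦ⟩ := exists_trace_fun_of_dense ρ d (fun n => 𝔪 ^ n)
    eq_zero_of_forall_mem_pow Φ aΦ hΦ hdense
  have h2 : (2 : 𝒪') ≠ 0 := two_ne_zero
  obtain ⟨Λ', _, _, _, _, ρ', hrk, hchar, hcongr⟩ :=
    exists_rankTwo (c := complexConjugation) h2 htr complexConjugation_mul_self hd_c
  -- adic continuity
  have hcont' : GaloisActionIsAdicContinuous 𝒪' ρ' := by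
    intro n
    obtain ⟨L₁, hL₁, h1⟩ := hcont n
    obtain ⟨L₂, hL₂, h2⟩ := hd_cont n
    have := hL₁
    have := hL₂
    refine ⟨L₁ ⊔ L₂, inferInstance, fun σ hσ v => ?_⟩
    exact hcongr (𝔪 ^ n) σ (h1 σ fun x hx => hσ x (le_sup_left (a := L₁) (b := L₂) hx))
      (h2 σ fun x hx => hσ x (le_sup_right (a := L₁) (b := L₂) hx)) v
  have hpos : 0 < Module.finrank 𝒪' Λ := Module.finrank_pos
  refine ⟨{ V := Λ', finrank_eq := hrk, ρ := ρ', isAdicContinuous := hcont' }, ?_, ?_, ?_⟩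
  · -- characteristic polynomials at Frobenius lifts
    intro ℓ hℓ hℓM hℓS A hA σ hσ
    change (ρ' σ).charpoly = _
    rw [hchar σ]
    have hdσ := hd_frob ℓ hℓ hℓM hℓS A hA σ hσ
    have haσ : tr σ = a ℓ := by
      have e1 := rel_of_quadratic (rho_mul_inv ρ σ) (δ := epsAt ε hℓ hℓM * (ℓ : 𝒪'))
        (a := a ℓ) (hes ℓ hℓ hℓM hℓS A hA σ hσ)
      have e2 := htr σ
      rw [hdσ, e1] at e2
      exact (smul_one_injective_of_finrank_pos hpos e2).symm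
    rw [haσ, hdσ]
  · -- unramified outside `Mp`
    intro q hq hqM hqp P hP τ hτ
    have h1 : EndCongr (⊥ : Ideal 𝒪') (ρ τ) 1 := by
      rw [hunr q hq hqM hqp P hP τ hτ]
      exact EndCongr.refl _ _
    have h2 : ((d τ : 𝒪'ˣ) : 𝒪') - 1 ∈ (⊥ : Ideal 𝒪') := by
      rw [hd_inertia q hq hqM hqp P hP τ hτ, Units.val_one, sub_self]
      exact Ideal.zero_mem _
    have h3 := hcongr ⊥ τ h1 h2
    change ρ' τ = 1
    apply LinearMap.ext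
    intro v
    have := h3 v
    rw [Submodule.bot_smul, Submodule.mem_bot, sub_eq_zero] at this
    exact this
  · -- the extra relations
    intro σ s n hrel hn
    change (ρ' σ).charpoly = _
    rw [hchar σ]
    have hdσ : ((d σ : 𝒪'ˣ) : 𝒪') = n := by rw [hd_apply, hn]
    have hsσ : tr σ = s := by
      have e1 := rel_of_quadratic (rho_mul_inv ρ σ) (δ := n) (a := s) (hrelX σ s n hrel)
      have e2 := htr σ
      rw [hdσ, e1] at e2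
      exact (smul_one_injective_of_finrank_pos hpos e2).symm
    rw [hsσ, hdσ]

end Core

/-! ### The contract from the torsion relations, an inertial relation and an eigenvector -/

section Tate

variable {p : ℕ} [hp : Fact p.Prime] {M : ℕ} [NeZero M] {S : Finset ℕ}
  {𝒪' : Type} [CommRing 𝒪'] [IsDomain 𝒪'] [IsDiscreteValuationRing 𝒪'] [Algebra ℤ_[p] 𝒪']
  [CharZero 𝒪']
  {J : Type} [AddCommGroup J] [DistribMulAction GQ J]

/-- **`EigenLatticeX` from the torsion relations, an abstract (LG-q) relation and a nonzero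
eigenvector.** `P1Lattice8.eigenLattice1_of` plus: a subgroup `Hd` of diamond operators, a set
`𝓘` of Galois elements with diamond classes `dσ`, and `c ≠ 0` such that
`c • (σ - 1)(σ - ⟨dσ σ⟩) y = 0` for `σ ∈ 𝓘` on the `Hd`-invariant `p`-power torsion; `ε` trivial
on `Hd`. Output relation: `(ρ σ - 1)(ρ σ - ε(dσ σ)) = 0` on the eigen-lattice, `σ ∈ 𝓘`. -/
theorem eigenLatticeX_of (hpS : p ∈ S)
    (hp𝒪' : (p : 𝒪') ∈ IsLocalRing.maximalIdeal 𝒪')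
    (hecke : ℕ → J →+ J) (dia : (ZMod M)ˣ → J →+ J)
    (hfin : {y : J | p • y = 0}.Finite)
    (hlvl : ∀ n : ℕ, ∃ L : IntermediateField ℚ Qb, FiniteDimensional ℚ L ∧
      ∀ σ : GQ, (∀ x ∈ L, σ x = x) → ∀ y : J, p ^ n • y = 0 → σ • y = y)
    (hcommT : ∀ (ℓ : ℕ) (σ : GQ) (y : J), hecke ℓ (σ • y) = σ • hecke ℓ y)
    (hcommD : ∀ (d : (ZMod M)ˣ) (σ : GQ) (y : J), dia d (σ • y) = σ • dia d y)
    (hinert : ∀ q : ℕ, q.Prime → ¬ q ∣ M → q ≠ p → ∀ A : ValuationSubring Qb, A.LiesOverPrime q →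
      ∀ τ ∈ A.inertiaSubgroupIn ℚ, ∀ (k : ℕ) (y : J), p ^ k • y = 0 → τ • y = y)
    (hfrob : ∀ (ℓ : ℕ) (hℓ : ℓ.Prime) (hℓM : ¬ ℓ ∣ M), ℓ ≠ p →
      ∀ A : ValuationSubring Qb, A.LiesOverPrime ℓ → ∀ σ : GQ, A.IsFrobeniusAt σ ℓ →
        ∀ (k : ℕ) (y : J), p ^ k • y = 0 →
          σ • σ • y - hecke ℓ (σ • y) + ℓ • dia (unitAt hℓ hℓM) y = 0)
    (hdia_mul : ∀ (d e : (ZMod M)ˣ) (y : J), dia (d * e) y = dia d (dia e y))
    (Hd : Subgroup (ZMod M)ˣ) (𝓘 : Set GQ) (dσ : GQ → (ZMod M)ˣ) (c : ℕ) (hc : c ≠ 0)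
    (hLG : ∀ σ ∈ 𝓘, ∀ (k : ℕ) (y : J), p ^ k • y = 0 → (∀ h ∈ Hd, dia h y = y) →
      c • (σ • (σ • y - dia (dσ σ) y) - (σ • y - dia (dσ σ) y)) = 0)
    (a : ℕ → 𝒪') (ε : (ZMod M)ˣ →* 𝒪'ˣ) (hεH : ∀ h ∈ Hd, ε h = 1)
    (w : 𝒪' ⊗[ℤ_[p]] TateModule p J) (hw0 : w ≠ 0)
    (hwT : ∀ (ℓ : ℕ), ℓ.Prime → ¬ ℓ ∣ M → ℓ ∉ (↑S : Set ℕ) →
      (map (p := p) (hecke ℓ)).baseChange 𝒪' w = a ℓ • w)
    (hwD : ∀ d : (ZMod M)ˣ, (map (p := p) (dia d)).baseChange 𝒪' w = ((ε d : 𝒪'ˣ) : 𝒪') • w) :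
    EigenLatticeX p M S 𝒪' a (fun ℓ hℓ hℓM => epsAt ε hℓ hℓM * (ℓ : 𝒪'))
      (fun σ s n => σ ∈ 𝓘 ∧ s = 1 + ((ε (dσ σ) : 𝒪'ˣ) : 𝒪') ∧ n = ((ε (dσ σ) : 𝒪'ˣ) : 𝒪')) := by
  classical
  haveI : Finite {y : J // p • y = 0} := hfin.to_subtype
  haveI hfinT : Module.Finite ℤ_[p] (TateModule p J) := module_finite
  haveI hfreeT : Module.Free ℤ_[p] (TateModule p J) := module_free
  let ι : Type := {ℓ : ℕ // ℓ.Prime ∧ ¬ ℓ ∣ M ∧ ℓ ∉ (↑S : Set ℕ)} ⊕ (ZMod M)ˣ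
  let t : ι → Module.End ℤ_[p] (TateModule p J) := fun i =>
    Sum.elim (fun ℓ => map (p := p) (hecke ℓ.1)) (fun d => map (p := p) (dia d)) i
  let cc : ι → 𝒪' := fun i => Sum.elim (fun ℓ => a ℓ.1) (fun d => ((ε d : 𝒪'ˣ) : 𝒪')) i
  have hcomm : ∀ (g : GQ) (i : ι), Commute (rho p J g) (t i) := by
    intro g i
    refine LinearMap.ext fun x => ?_
    ext k
    rcases i with ℓ | d
    · show g • hecke ℓ.1 (proj k x) = hecke ℓ.1 (g • proj k x)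
      exact (hcommT ℓ.1 g (proj k x)).symm
    · show g • dia d (proj k x) = dia d (g • proj k x)
      exact (hcommD d g (proj k x)).symm
  obtain ⟨Λ, i1, i2, i3, i4, i5, ρ, h1, h2, h3, h4⟩ :=
    exists_eigenRep3 (𝒪 := 𝒪') (rho p J) t hcomm cc w hw0 (by
      intro i
      rcases i with ℓ | d
      · exact hwT ℓ.1 ℓ.2.1 ℓ.2.2.1 ℓ.2.2.2
      · exact hwD d)
  refine ⟨Λ, i1, i2, i3, i4, i5, ρ, ?_, ?_, ?_, ?_⟩
  · intro n
    obtain ⟨L, hL, H⟩ := hlvl n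
    refine ⟨L, hL, fun σ hσ => ?_⟩
    refine h1 _ σ ((p : ℤ_[p]) ^ n) ?_ (fun x => rho_sub_mem σ n (H σ hσ) x)
    rw [map_pow, map_natCast]
    exact Ideal.pow_mem_pow hp𝒪' n
  · intro q hq hqM hqp A hA τ hτ
    exact h2 τ (rho_eq_one τ fun k y hy => hinert q hq hqM hqp A hA τ hτ k y hy)
  · intro ℓ hℓ hℓM hℓS A hA σ hσ
    have hℓp : ℓ ≠ p := fun h => hℓS (h ▸ hpS)
    have hrel : rho p J σ * rho p J σ - t (Sum.inl ⟨ℓ, hℓ, hℓM, hℓS⟩) * rho p J σ +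
        (ℓ : ℤ_[p]) • t (Sum.inr (unitAt hℓ hℓM)) = 0 := by
      refine LinearMap.ext fun x => ?_
      ext k
      show σ • σ • proj k x - hecke ℓ (σ • proj k x) +
        proj k ((ℓ : ℤ_[p]) • map (p := p) (dia (unitAt hℓ hℓM)) x) = 0
      rw [proj_natCast_smul]
      exact hfrob ℓ hℓ hℓM hℓp A hA σ hσ k (proj k x) (pow_smul_proj k x)
    have := h3 σ (Sum.inl ⟨ℓ, hℓ, hℓM, hℓS⟩) (Sum.inr (unitAt hℓ hℓM)) (ℓ : ℤ_[p]) hrel
    rw [map_natCast] at this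
    show ρ σ * ρ σ - a ℓ • ρ σ + (epsAt ε hℓ hℓM * (ℓ : 𝒪')) • (1 : Module.End 𝒪' Λ) = 0
    rw [mul_comm (epsAt ε hℓ hℓM)]
    exact this
  · -- the inertial relation
    rintro σ s n ⟨hσ, rfl, rfl⟩
    apply h4 σ
    intro v hv
    set R : Module.End ℤ_[p] (TateModule p J) := rho p J σ with hR
    set D : Module.End ℤ_[p] (TateModule p J) := map (p := p) (dia (dσ σ)) with hD
    set E : Module.End ℤ_[p] (TateModule p J) := ∑ h : Hd, map (p := p) (dia (h : (ZMod M)ˣ))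
      with hE
    -- the identity on the Tate module
    have hA : (R - 1) * ((R - D) * E) = 0 := by
      have hcA : (c : ℤ_[p]) • ((R - 1) * ((R - D) * E)) = 0 := by
        refine LinearMap.ext fun x => ?_
        ext k
        show proj k ((c : ℤ_[p]) • ((R - 1) * ((R - D) * E)) x) = 0
        rw [proj_natCast_smul]
        set y : J := proj k (E x) with hy
        have hyk : p ^ k • y = 0 := pow_smul_proj k (E x)
        have hyE : y = ∑ h : Hd, dia (h : (ZMod M)ˣ) (proj k x) := by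
          rw [hy, hE, LinearMap.sum_apply, map_sum]
          rfl
        have hyH : ∀ h ∈ Hd, dia h y = y := by
          intro h hh
          rw [hyE, map_sum]
          have e1 : ∀ h' : Hd, dia h (dia (h' : (ZMod M)ˣ) (proj k x)) =
              dia (((⟨h, hh⟩ : Hd) * h' : Hd) : (ZMod M)ˣ) (proj k x) := fun h' => by
            rw [Subgroup.coe_mul, hdia_mul]
          rw [Finset.sum_congr rfl fun h' _ => e1 h']
          exact Fintype.sum_equiv (Equiv.mulLeft (⟨h, hh⟩ : Hd)) _ _ fun h' => rfl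
        have := hLG σ hσ k y hyk hyH
        exact this
      have hc' : (c : ℤ_[p]) ≠ 0 := Nat.cast_ne_zero.mpr hc
      exact (smul_eq_zero.mp hcA).resolve_left hc'
    -- base change
    let B := Module.End.baseChangeHom ℤ_[p] 𝒪' (TateModule p J)
    have hAB : (B R - 1) * ((B R - B D) * ∑ h : Hd, B (map (p := p) (dia (h : (ZMod M)ˣ)))) = 0 := by
      have := congrArg B hA
      rw [map_zero, map_mul, map_mul, map_sub, map_sub, map_one, hE, map_sum] at this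
      exact this
    have hv' := mem_eigenSub.mp hv
    have hDv : ∀ (d : (ZMod M)ˣ) (u : 𝒪' ⊗[ℤ_[p]] TateModule p J),
        u ∈ eigenSub (fun i => (t i).baseChange 𝒪') cc →
        B (map (p := p) (dia d)) u = ((ε d : 𝒪'ˣ) : 𝒪') • u := fun d u hu =>
      mem_eigenSub.mp hu (Sum.inr d)
    have hEv : (∑ h : Hd, B (map (p := p) (dia (h : (ZMod M)ˣ)))) v =
        ((Fintype.card Hd : ℕ) : 𝒪') • v := by
      rw [LinearMap.sum_apply]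
      have e1 : ∀ h : Hd, B (map (p := p) (dia (h : (ZMod M)ˣ))) v = v := fun h => by
        rw [hDv _ v hv, hεH _ h.2, Units.val_one, one_smul]
      rw [Finset.sum_congr rfl fun h _ => e1 h, Finset.sum_const, Finset.card_univ,
        Nat.cast_smul_eq_nsmul]
    have h5 := LinearMap.congr_fun hAB v
    rw [Module.End.mul_apply, Module.End.mul_apply, hEv, LinearMap.zero_apply, map_smul, map_smul,
      smul_eq_zero] at h5
    have hcard : ((Fintype.card Hd : ℕ) : 𝒪') ≠ 0 :=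
      Nat.cast_ne_zero.mpr Fintype.card_ne_zero
    have h6 := h5.resolve_left hcard
    have e1 : (B R - B D) v = B R v - ((ε (dσ σ) : 𝒪'ˣ) : 𝒪') • v := by
      rw [LinearMap.sub_apply, hD, hDv _ v hv]
    rw [e1, LinearMap.sub_apply, Module.End.one_apply, map_sub, map_smul] at h6
    have hBR : B R = (rho p J σ).baseChange 𝒪' := rfl
    rw [hBR] at h6
    rw [← h6]
    module

end Tate

/-! ### The representation from the inputs of (P1) and a lattice eigenvector -/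

section Top

open Fermat.Agent.M48.P1Inputs8 Fermat.Agent.M48.P1Target8

variable {p : ℕ} [Fact p.Prime] {M : ℕ} [NeZero M] {H : G1Ops M 2} {S : Finset ℕ}
  {𝒪' : Type} [CommRing 𝒪'] [IsDomain 𝒪'] [IsDiscreteValuationRing 𝒪']
  [IsAdicComplete (IsLocalRing.maximalIdeal 𝒪') 𝒪'] [CharZero 𝒪']

/-- **(BR-1) the representation attached to a LATTICE eigenvector, with the inertial trace.**
`I : P1Inputs p M H S` (the Jacobian `J₁(M)` with its Kummer comparison), `v ≠ 0` an eigenvector in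
`K ⊗ Λ` (`K = Frac 𝒪'`) with eigenvalues `a r` of `T_r`, `ε d` of `⟨d⟩`; an abstract (LG-q)
relation on the `Hd`-invariant `p`-power torsion of `J` for the elements of `𝓘`. Then there is
`ρ : GaloisRepAdic 𝒪'` with Frobenius characteristic polynomials `X² - a_r X + ε(r) r`, unramified
outside `Mp`, and **`charpoly ρ(σ) = X² - (1 + ε(dσ σ)) X + ε(dσ σ)` for `σ ∈ 𝓘`** (as soon as
`ε(dσ σ)` is the determinant `galChar ε σ * cycloO σ`). -/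
theorem exists_rep_of_inputsX (I : P1Inputs p M H S) (hpS : p ∈ S)
    (hMS : ∀ q : ℕ, q.Prime → q ∣ M → q ∈ S)
    (hp𝒪' : (p : 𝒪') ∈ IsLocalRing.maximalIdeal 𝒪')
    (a : ℕ → 𝒪') (ε : (ZMod M)ˣ →* 𝒪'ˣ) (hε : ε (-1) = 1)
    (K : Type) [Field K] [Algebra 𝒪' K] [IsFractionRing 𝒪' K]
    (v : K ⊗[ℤ] I.Λ) (hv0 : v ≠ 0)
    (hvT : ∀ (r : ℕ), r.Prime → ¬ r ∣ M → r ∉ (↑S : Set ℕ) →
      (I.tZ r).baseChange K v = algebraMap 𝒪' K (a r) • v)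
    (hvD : ∀ d : (ZMod M)ˣ,
      (I.dZ d).baseChange K v = algebraMap 𝒪' K ((ε d : 𝒪'ˣ) : 𝒪') • v)
    (hdia_mul : ∀ (d e : (ZMod M)ˣ) (y : I.J), I.dia (d * e) y = I.dia d (I.dia e y))
    (Hd : Subgroup (ZMod M)ˣ) (𝓘 : Set GQ) (dσ : GQ → (ZMod M)ˣ) (c : ℕ) (hc : c ≠ 0)
    (hLG : ∀ σ ∈ 𝓘, ∀ (k : ℕ) (y : I.J), p ^ k • y = 0 → (∀ h ∈ Hd, I.dia h y = y) →
      c • (σ • (σ • y - I.dia (dσ σ) y) - (σ • y - I.dia (dσ σ) y)) = 0)
    (hεH : ∀ h ∈ Hd, ε h = 1) :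
    ∃ ρ : GaloisRepAdic 𝒪',
      (∀ (r : ℕ) (hr : r.Prime) (hrM : ¬ r ∣ M) (_ : r ∉ (↑S : Set ℕ)),
        ∀ A : ValuationSubring Qb, A.LiesOverPrime r → ∀ σ : GQ, A.IsFrobeniusAt σ r →
          LinearMap.charpoly (ρ.ρ σ) =
            X ^ 2 - C (a r) * X + C (epsAt ε hr hrM * (r : 𝒪'))) ∧
      (∀ q : ℕ, q.Prime → ¬ q ∣ M → q ≠ p → ρ.IsUnramifiedAt q) ∧
      (∀ σ ∈ 𝓘, ((ε (dσ σ) : 𝒪'ˣ) : 𝒪') =
          ((galChar ε σ : 𝒪'ˣ) : 𝒪') * ((cycloO p hp𝒪' σ : 𝒪'ˣ) : 𝒪') →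
        LinearMap.charpoly (ρ.ρ σ) =
          X ^ 2 - C (1 + ((ε (dσ σ) : 𝒪'ˣ) : 𝒪')) * X + C ((ε (dσ σ) : 𝒪'ˣ) : 𝒪')) := by
  classical
  letI : Algebra ℤ_[p] 𝒪' := (Fermat.Agent.ES.J.PadicAlg8.padicToLocal p hp𝒪').toAlgebra
  -- the index family
  let ι' : Type := {ℓ : ℕ // ℓ.Prime ∧ ¬ ℓ ∣ M ∧ ℓ ∉ (↑S : Set ℕ)} ⊕ (ZMod M)ˣ
  let t : ι' → Module.End ℤ I.Λ := fun i => Sum.elim (fun ℓ => I.tZ ℓ.1) (fun d => I.dZ d) i
  let cc : ι' → 𝒪' := fun i =>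
    Sum.elim (fun ℓ => a ℓ.1) (fun d => ((ε d : 𝒪'ˣ) : 𝒪')) i
  -- the base change `Λ → 𝒪' ⊗ T_p J`
  let g : TateModule p I.J →ₗ[ℤ_[p]] 𝒪' ⊗[ℤ_[p]] TateModule p I.J :=
    TensorProduct.mk ℤ_[p] 𝒪' (TateModule p I.J) 1
  have hg : IsBaseChange 𝒪' g := TensorProduct.isBaseChange ℤ_[p] (TateModule p I.J) 𝒪'
  have hι : IsBaseChange 𝒪' ((g.restrictScalars ℤ).comp I.ι₀) :=
    IsBaseChange.comp I.isBaseChange_ι₀ hg
  obtain ⟨w, hw0, hw⟩ := exists_eigenvector_of_frac K ((g.restrictScalars ℤ).comp I.ι₀) hι t cc v hv0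
    (by
      intro i
      rcases i with ℓ | d
      · exact hvT ℓ.1 ℓ.2.1 ℓ.2.2.1 ℓ.2.2.2
      · exact hvD d)
  -- the eigen-lattice
  have hEL := eigenLatticeX_of (𝒪' := 𝒪') hpS hp𝒪' I.hecke I.dia I.fin_torsion I.level
    I.hecke_smul I.dia_smul I.inertia I.frobenius hdia_mul Hd 𝓘 dσ c hc hLG a ε hεH w hw0
    (by
      intro ℓ hℓ hℓM hℓS
      refine hw (Sum.inl ⟨ℓ, hℓ, hℓM, hℓS⟩) ((map (p := p) (I.hecke ℓ)).baseChange 𝒪') fun x => ?_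
      show (map (p := p) (I.hecke ℓ)).baseChange 𝒪' ((1 : 𝒪') ⊗ₜ[ℤ_[p]] I.ι₀ x) =
        (1 : 𝒪') ⊗ₜ[ℤ_[p]] I.ι₀ (I.tZ ℓ x)
      rw [LinearMap.baseChange_tmul, I.ι₀_hecke ℓ hℓ hℓM x])
    (by
      intro d
      refine hw (Sum.inr d) ((map (p := p) (I.dia d)).baseChange 𝒪') fun x => ?_
      show (map (p := p) (I.dia d)).baseChange 𝒪' ((1 : 𝒪') ⊗ₜ[ℤ_[p]] I.ι₀ x) =
        (1 : 𝒪') ⊗ₜ[ℤ_[p]] I.ι₀ (I.dZ d x)
      rw [LinearMap.baseChange_tmul, I.ι₀_dia d x])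
  obtain ⟨ρ, hρ1, hρ2, hρ3⟩ := exists_rep_of_eigenLatticeX hpS hMS hp𝒪' a ε hε _ hEL
  refine ⟨ρ, hρ1, hρ2, fun σ hσ hdet => ?_⟩
  exact hρ3 σ _ _ ⟨hσ, rfl, rfl⟩ hdet

end Top

end Fermat.Agent.M43.BridgeLat3
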