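/-
M43 (helper3) [BRIDGE / support] DiaMul3: **the diamond operators of M48 on `J₁(M)` are
multiplicative** (`2 ≤ M`): `dia1 Qb M (d * e) = dia1 Qb M d ∘ dia1 Qb M e`, `dia1 Qb M 1 = id`
(existence of the diamond automorphisms from the analytic model `G10Model4.g10ModelStmt`, their
uniqueness and `diaAut_trans` from `DiamondAut5`).
-/
import Mathlib
import Fermat.Agent.M48.DiamondAut5
import Fermat.Agent.M48.G10Model4

set_option autoImplicit false
set_option linter.unusedSectionVars false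

open AlgebraicCurve ModularCurve

noncomputable section

namespace Fermat.Agent.M43.DiaMul3

open Fermat.Agent.M48.J1Defs8 Fermat.Agent.M48.DiamondAut5 Fermat.Agent.M48.DictIface4

local notation "Qb" => AlgebraicClosure ℚ

variable {M : ℕ} [NeZero M]

/-- `dia1` is multiplicative as soon as the two diamond automorphisms exist (any field). -/
theorem dia1_mul_of_exists {K : Type*} [Field K] [Algebra ℚ K] {d e : (ZMod M)ˣ}
    {δ δ' : FK K M 1 ≃ₐ[K] FK K M 1} (hδ : IsDiamondAut K M d δ) (hδ' : IsDiamondAut K M e δ')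
    (y : Pic0 K (FK K M 1)) :
    dia1 K M (d * e) y = dia1 K M d (dia1 K M e y) := by
  have h := diaAut_trans hδ' hδ
  rw [mul_comm] at h
  rw [dia1_eq h, dia1_eq hδ, dia1_eq hδ']
  show SemilinearAut.ofAlgAut (δ'.trans δ) • y =
    SemilinearAut.ofAlgAut δ • (SemilinearAut.ofAlgAut δ' • y)
  rw [← mul_smul, ← map_mul]
  rfl

theorem dia1_one_apply {K : Type*} [Field K] [Algebra ℚ K] (y : Pic0 K (FK K M 1)) :
    dia1 K M 1 y = y := by
  rw [dia1_eq (isDiamondAut_one (K := K) (M := M))]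
  show SemilinearAut.ofAlgAut (AlgEquiv.refl : FK K M 1 ≃ₐ[K] FK K M 1) • y = y
  have : (AlgEquiv.refl : FK K M 1 ≃ₐ[K] FK K M 1) = 1 := rfl
  rw [this, map_one, one_smul]

/-- **`⟨d e⟩ = ⟨d⟩ ⟨e⟩` on `J₁(M)`** (`2 ≤ M`). -/
theorem dia1_mul (hM : 2 ≤ M) (d e : (ZMod M)ˣ) (y : J1 M) :
    dia1 Qb M (d * e) y = dia1 Qb M d (dia1 Qb M e y) := by
  obtain ⟨δ, hδ⟩ := exists_isDiamondAut_Qbar Fermat.Agent.M48.G10Model4.g10ModelStmt hM d
  obtain ⟨δ', hδ'⟩ := exists_isDiamondAut_Qbar Fermat.Agent.M48.G10Model4.g10ModelStmt hM e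
  exact dia1_mul_of_exists hδ hδ' y

end Fermat.Agent.M43.DiaMul3
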