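/-
M43 (helper3) [BRIDGE / (BR-3)] BridgeInst3: **`BridgeLat3.exists_rep_of_inputsX` instantiated at
M48's Jacobian package `J₁(M)`, `4 ∣ M ∨ 9 ∣ M`** (KUM1 = `Kum1Stmt3.kum1Stmt`, GAL1 =
`Gal1Stmt9.gal1Stmt`, SP1 = `sp1Stmt49`, all hypothesis-free) — the representation attached to an
eigenvector of the lattice `Lam1 M` (parabolic cohomology of `Γ₁(M)` with `ℤ` coefficients,
operators `tZ1 M r`, `dZ1 M d`), with the inertial characteristic polynomial coming from an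
(LG-q) relation on `J₁(M)`.

* `sp1Stmt49 : P1Jac49_8.SP1Stmt49` (the assembly of `S48Final0`/`S48Plug0`, hypothesis-free);
* `inputs49 p M h49 S : P1Inputs p M ops1 S` with `J = J1 M`, `dia = dia1 Qb M`, `Λ = Lam1 M`,
  `tZ = tZ1 M`, `dZ = dZ1 M`;
* `exists_rep_of_lam1` : the representation of a `Lam1 M`-eigenvector with the inertial relation
  (hypothesis `hLG` literally in the shape of helper9's `LGqStmt` for `J1 M`, `dia1 Qb M`).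
-/
import Mathlib
import Fermat.Agent.M43.BridgeLat3
import Fermat.Agent.M43.DiaMul3
import Fermat.Agent.M48.S48Final0
import Fermat.Agent.M48.CuspFamMain4
import Fermat.Agent.M48.ModelAtTop1
import Fermat.Agent.M48.OpsInst1

set_option autoImplicit false
set_option linter.unusedSectionVars false
set_option linter.style.haveILetI false
set_option synthInstance.maxHeartbeats 400000

open TensorProduct Polynomial

noncomputable section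

namespace Fermat.Agent.M43.BridgeInst3

open Fermat.Agent.M48 Fermat.Agent.M48.P1Inputs8 Fermat.Agent.M48.P1Target8
  Fermat.Agent.M48.P1Geom3 Fermat.Agent.M48.P1Jac8 Fermat.Agent.M48.J1Defs8
  Fermat.Agent.M48.DirCharGal8 Fermat.Agent.M48.P1Skeleton8 Fermat.Agent.ES.J.CycloChar8
  Fermat.Agent.M48.G1Fin3

local notation "Qb" => AlgebraicClosure ℚ
local notation "GQ" => (AlgebraicClosure ℚ ≃ₐ[ℚ] AlgebraicClosure ℚ)

/-- **(SP1) at the levels divisible by `4` or `9`**, hypothesis-free (assembly of `S48Final0`). -/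
theorem sp1Stmt49 : P1Jac49_8.SP1Stmt49 :=
  S48Plug0.sp1Stmt49_of_model_split S48Final0.hIG ModelAtTop1.hmodel_four ModelAtTop1.hmodel_nine
    (StepOfFam4.hstep_of_cuspFam S48Final0.hIG CuspFamMain4.cuspFamStmt)

theorem two_le_of_49 {M : ℕ} [NeZero M] (h49 : 4 ∣ M ∨ 9 ∣ M) : 2 ≤ M := by
  have := NeZero.ne M
  rcases h49 with ⟨k, hk⟩ | ⟨k, hk⟩ <;> omega

section Inst

variable (p : ℕ) [Fact p.Prime] (M : ℕ) [NeZero M] (h49 : 4 ∣ M ∨ 9 ∣ M) (S : Finset ℕ)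

/-- the Kummer system of `J₁(M)` (a choice). -/
def kummer49 : Fermat.Agent.ES.J.TateChar11.KummerSystem p (CongruenceSubgroup.Gamma1 M) (J1 M) :=
  (Kum1Stmt3.kum1Stmt p M (two_le_of_49 h49)).choose

theorem kummer49_compat : HeckeCompat1 M (kummer49 p M h49) :=
  (Kum1Stmt3.kum1Stmt p M (two_le_of_49 h49)).choose_spec

/-- **M48's (P1) inputs at a level with `4 ∣ M ∨ 9 ∣ M`.** -/
def inputs49 : P1Inputs p M (OpsInst1.ops1 (M := M) (k := 2)) S :=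
  (p1Geom_of_jac (kummer49 p M h49) (kummer49_compat p M h49)
    (Gal1Stmt9.gal1Stmt M (two_le_of_49 h49))
    (sp1Stmt49 M (two_le_of_49 h49) h49)).toInputs _ S

end Inst

section Top

variable {p : ℕ} [Fact p.Prime] {M : ℕ} [NeZero M] {S : Finset ℕ}
  {𝒪' : Type} [CommRing 𝒪'] [IsDomain 𝒪'] [IsDiscreteValuationRing 𝒪']
  [IsAdicComplete (IsLocalRing.maximalIdeal 𝒪') 𝒪'] [CharZero 𝒪']

/-- **(BR-3) the representation of a `Lam1 M`-eigenvector with the inertial trace**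
(`4 ∣ M ∨ 9 ∣ M`). `v ≠ 0` in `K ⊗ Lam1 M` with eigenvalues `a r` of `tZ1 M r` (`r ∤ M`, `r ∉ S`)
and `ε d` of `dZ1 M d`; an (LG-q) relation on the `Hd`-invariant `p`-power torsion of `J₁(M)`
for the elements of `𝓘`; `ε` trivial on `Hd`. -/
theorem exists_rep_of_lam1 (h49 : 4 ∣ M ∨ 9 ∣ M) (hpS : p ∈ S)
    (hMS : ∀ q : ℕ, q.Prime → q ∣ M → q ∈ S)
    (hp𝒪' : (p : 𝒪') ∈ IsLocalRing.maximalIdeal 𝒪')
    (a : ℕ → 𝒪') (ε : (ZMod M)ˣ →* 𝒪'ˣ) (hε : ε (-1) = 1)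
    (K : Type) [Field K] [Algebra 𝒪' K] [IsFractionRing 𝒪' K]
    (v : K ⊗[ℤ] Lam1 M) (hv0 : v ≠ 0)
    (hvT : ∀ (r : ℕ), r.Prime → ¬ r ∣ M → r ∉ (↑S : Set ℕ) →
      (tZ1 M r).baseChange K v = algebraMap 𝒪' K (a r) • v)
    (hvD : ∀ d : (ZMod M)ˣ,
      (dZ1 M d).baseChange K v = algebraMap 𝒪' K ((ε d : 𝒪'ˣ) : 𝒪') • v)
    (Hd : Subgroup (ZMod M)ˣ) (𝓘 : Set GQ) (dσ : GQ → (ZMod M)ˣ) (c : ℕ) (hc : c ≠ 0)
    (hLG : ∀ σ ∈ 𝓘, ∀ (k : ℕ) (y : J1 M), p ^ k • y = 0 → (∀ h ∈ Hd, dia1 Qb M h y = y) →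
      c • (σ • (σ • y - dia1 Qb M (dσ σ) y) - (σ • y - dia1 Qb M (dσ σ) y)) = 0)
    (hεH : ∀ h ∈ Hd, ε h = 1) :
    ∃ ρ : GaloisRepAdic 𝒪',
      (∀ (r : ℕ) (hr : r.Prime) (hrM : ¬ r ∣ M) (_ : r ∉ (↑S : Set ℕ)),
        ∀ A : ValuationSubring Qb, A.LiesOverPrime r → ∀ σ : GQ, A.IsFrobeniusAt σ r →
          LinearMap.charpoly (ρ.ρ σ) =
            X ^ 2 - C (a r) * X + C (epsAt ε hr hrM * (r : 𝒪'))) ∧
      (∀ q : ℕ, q.Prime → ¬ q ∣ M → q ≠ p → ρ.IsUnramifiedAt q) ∧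
      (∀ σ ∈ 𝓘, ((ε (dσ σ) : 𝒪'ˣ) : 𝒪') =
          ((galChar ε σ : 𝒪'ˣ) : 𝒪') * ((cycloO p hp𝒪' σ : 𝒪'ˣ) : 𝒪') →
        LinearMap.charpoly (ρ.ρ σ) =
          X ^ 2 - C (1 + ((ε (dσ σ) : 𝒪'ˣ) : 𝒪')) * X + C ((ε (dσ σ) : 𝒪'ˣ) : 𝒪')) :=
  Fermat.Agent.M43.BridgeLat3.exists_rep_of_inputsX (inputs49 p M h49 S) hpS hMS hp𝒪' a ε hε K v
    hv0 hvT hvD (fun d e y => Fermat.Agent.M43.DiaMul3.dia1_mul (two_le_of_49 h49) d e y)
    Hd 𝓘 dσ c hc hLG hεH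

end Top

end Fermat.Agent.M43.BridgeInst3
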