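/-
M43 (helper3) [BRIDGE / (BR-4)(ii)] BridgeRes3: **from an eigen-homomorphism on `Γ_H(L)` to an
eigenvector of M48's lattice `Lam1 M`** (`L ∣ M`), by restriction to `Γ₁(M)`.

* `Gamma1_le_GH_of_dvd : Gamma1 M ≤ GH L S` (`L ∣ M`);
* `heckeCoset1_resHom` : M48's coset operator `heckeCoset1` (on `Γ₁(M)`) is the restriction of the
  lead's `heckeH` (on `Γ_H(M)`): the two have literally the same representatives and cocycle;
* `heckeOp1_resHom` : the same with change of level `L ∣ M` (helper6's `heckeH_resHom`) and the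
  normalised choice `heckeOp1` of M48;
* `diaOp1_resHom` : M48's `diaOp1 d` on `Γ₁(M)` is the restriction of the conjugation `pull` by
  `sigma d`;
* **`exists_lam1_eigenvector`** : `f ≠ 0` parabolic on `Γ_H(L)`, eigen for the `T_r` (`r ∉ Sp`,
  eigenvalues `a r`) and for the conjugation action of `Γ₀(L)` (`IsEigZ Ψ`, `Ψ = ε` on `Γ₀(M)`)
  gives `v ≠ 0` in `K ⊗ Lam1 M` with `tZ1 M r v = a r • v`, `dZ1 M d v = ε d • v`.
-/
import Mathlib
import Fermat.Agent.M43.TwistLatE6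
import Fermat.Agent.M48.P1Geom3

set_option autoImplicit false
set_option linter.unusedSectionVars false
set_option linter.style.haveILetI false

open TensorProduct

noncomputable section

namespace Fermat.Agent.M43.BridgeRes3

open Matrix.SpecialLinearGroup ModularCurve.Period CongruenceSubgroup
open scoped MatrixGroups
open Fermat.Agent.M43.HeckeH0 Fermat.Agent.M43.TwistLatB6 Fermat.Agent.M43.TwistLatG6
  Fermat.Agent.M43.TwistLatT6 Fermat.Agent.M43.TwistLatH6 Fermat.Agent.M43.TwistLatX6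
open Fermat.Agent.M48.ESInv3 Fermat.Agent.M48.CosetOp3 Fermat.Agent.M48.Diamond1
  Fermat.Agent.M48.G1Reps3 Fermat.Agent.M48.HeckeOne1 Fermat.Agent.M48.P1Geom3
  Fermat.Agent.M48.G1Fin3

/-! ### Groups -/

section Groups

variable {L M : ℕ}

theorem Gamma1_le_Gamma1_of_dvd (hLM : L ∣ M) : Gamma1 M ≤ Gamma1 L := by
  intro g hg
  rw [Gamma1_mem] at hg ⊢
  obtain ⟨h00, h11, h10⟩ := hg
  have key : ∀ z : ℤ, ((z : ℤ) : ZMod L) = ZMod.castHom hLM (ZMod L) ((z : ℤ) : ZMod M) := by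
    intro z
    rw [map_intCast]
  refine ⟨?_, ?_, ?_⟩
  · rw [key, h00, map_one]
  · rw [key, h11, map_one]
  · rw [key, h10, map_zero]

theorem Gamma1_le_GH_of_dvd (hLM : L ∣ M) (S : Subgroup (ZMod L)ˣ) : Gamma1 M ≤ GH L S :=
  (Gamma1_le_Gamma1_of_dvd hLM).trans (Gamma1_le_GH S)

theorem Gamma0_le_Gamma0_of_dvd (hLM : L ∣ M) : Gamma0 M ≤ Gamma0 L := by
  intro g hg
  rw [mem_Gamma0_iff_dvd] at hg ⊢
  exact (Int.natCast_dvd_natCast.mpr hLM).trans hg

end Groups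

/-! ### The Hecke operators -/

section Hecke

variable {N : ℕ} {p : ℕ} [hp : Fact p.Prime]

/-- **M48's `heckeCoset1` is the restriction of `heckeH` to `Γ₁(N)`.** -/
theorem heckeCoset1_resHom {A : Type*} [AddCommGroup A] (hpN : ¬ p ∣ N) (σ : Gamma0 N)
    (hσ : Gamma0Map N σ = (p : ZMod N)) (H : Subgroup (ZMod N)ˣ)
    (φ : Additive (GH N H) →+ A) :
    (heckeCoset1 hpN σ hσ).addHom (resHom (Gamma1_le_GH H) φ)
      = resHom (Gamma1_le_GH H) ((heckeH hpN σ hσ H).addHom φ) := by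
  refine AddMonoidHom.ext fun x' => ?_
  obtain ⟨x, rfl⟩ := Additive.ofMul.surjective x'
  rw [CosetOp.addHom_apply, resHom_apply, CosetOp.addHom_apply]
  refine Finset.sum_congr rfl fun i _ => ?_
  rw [resHom_apply]
  congr 2

/-- **M48's `heckeOp1` at level `M` on the restriction of a homomorphism of `Γ_H(L)`**, `L ∣ M`. -/
theorem heckeOp1_resHom {A : Type*} [AddCommGroup A] {L M : ℕ} [NeZero L] [NeZero M]
    (hLM : L ∣ M) (S : Subgroup (ZMod L)ˣ) {r : ℕ} [Fact r.Prime] (hr : r.Prime) (hrM : ¬ r ∣ M)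
    (hrL : ¬ r ∣ L) (σ : Gamma0 L) (hσ : Gamma0Map L σ = (r : ZMod L))
    (φ : Additive (GH L S) →+ A) :
    (heckeOp1 hr hrM).addHom (resHom (Gamma1_le_GH_of_dvd hLM S) φ)
      = resHom (Gamma1_le_GH_of_dvd hLM S) ((heckeH hrL σ hσ S).addHom φ) := by
  -- the element of `Γ₀(M)` used by M48
  set σM : Gamma0 M := sigma (unitOfPrime hr hrM) with hσM
  have hσM' : Gamma0Map M σM = (r : ZMod M) := Gamma0Map_sigma_unitOfPrime hr hrM
  -- the same element at level `L`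
  have hmem : (σM : SL(2, ℤ)) ∈ Gamma0 L := Gamma0_le_Gamma0_of_dvd hLM σM.2
  have hσL : Gamma0Map L (⟨(σM : SL(2, ℤ)), hmem⟩ : Gamma0 L) = (r : ZMod L) := by
    have h1 := congrArg (ZMod.castHom hLM (ZMod L)) hσM'
    rw [map_natCast] at h1
    rw [← h1]
    show (((σM : SL(2, ℤ)) 1 1 : ℤ) : ZMod L) = ZMod.castHom hLM (ZMod L) (((σM : SL(2, ℤ)) 1 1 : ℤ) : ZMod M)
    rw [map_intCast]
  -- the intermediate group `Γ_{S'}(M)`, `S'` the preimage of `S`
  set S' : Subgroup (ZMod M)ˣ := S.comap (ZMod.unitsMap hLM) with hS'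
  have hle : GH M S' ≤ GH L S := by
    intro g hg
    obtain ⟨h0, hu⟩ := mem_GH.mp hg
    refine mem_GH.mpr ⟨Gamma0_le_Gamma0_of_dvd hLM h0, ?_⟩
    have hu' : ZMod.unitsMap hLM (unitOf (⟨g, h0⟩ : Gamma0 M)) ∈ S := hu
    convert hu' using 1
    ext
    rw [coe_unitOf', ZMod.unitsMap_def, Units.coe_map, coe_unitOf']
    show ((g 1 1 : ℤ) : ZMod L) = ZMod.castHom hLM (ZMod L) ((g 1 1 : ℤ) : ZMod M)
    rw [map_intCast]
  have e1 : resHom (Gamma1_le_GH_of_dvd hLM S) φ = resHom (Gamma1_le_GH S') (resHom hle φ) := rfl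
  have e2 : ∀ ψ : Additive (GH L S) →+ A,
      resHom (Gamma1_le_GH_of_dvd hLM S) ψ = resHom (Gamma1_le_GH S') (resHom hle ψ) := fun _ => rfl
  rw [e1, e2]
  show (heckeCoset1 hrM σM hσM').addHom _ = _
  rw [heckeCoset1_resHom hrM σM hσM' S',
    heckeH_resHom hrL hrM ⟨(σM : SL(2, ℤ)), hmem⟩ hσL σM hσM' rfl S S' hle φ,
    heckeH_indep hrL σ ⟨(σM : SL(2, ℤ)), hmem⟩ hσ hσL S φ]

end Hecke

/-! ### The diamond operators -/

section Dia

variable {M : ℕ} [NeZero M]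

/-- **M48's `diaCoset1 σ` on `Γ₁(M)` is the restriction of the conjugation `pull` by `σ`.** -/
theorem diaCoset1_resHom {K : Type*} [AddCommGroup K] (σ : Gamma0 M) {Γ : Subgroup SL(2, ℤ)}
    (hle : Gamma1 M ≤ Γ) (hm : MapsInto (mapGL ℝ (σ : SL(2, ℤ))) Γ Γ) (φ : Additive Γ →+ K) :
    (diaCoset1 σ).addHom (resHom hle φ) = resHom hle (pull hm φ) := by
  refine AddMonoidHom.ext fun x' => ?_
  obtain ⟨x, rfl⟩ := Additive.ofMul.surjective x'
  rw [CosetOp.addHom_apply, resHom_apply, pull_apply]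
  show ∑ i : Unit, (resHom hle φ) (Additive.ofMul ((diaCoset1 σ).coc x i)) = _
  rw [Finset.univ_unique, Finset.sum_singleton, resHom_apply]
  congr 2
  apply Subtype.ext
  symm
  apply cjHom_unique
  show mapGL ℝ (σ : SL(2, ℤ)) * mapGL ℝ ((x : Gamma1 M) : SL(2, ℤ))
    = mapGL ℝ ((σ : SL(2, ℤ)) * (x : SL(2, ℤ)) * (σ : SL(2, ℤ))⁻¹) * mapGL ℝ (σ : SL(2, ℤ))
  rw [← map_mul, ← map_mul]
  congr 1
  group

end Dia

/-! ### The eigenvector of `Lam1 M` -/

section Main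

variable {K : Type*} [Field K] [CharZero K]

/-- **(BR-4)(ii)**: an eigen-homomorphism on `Γ_H(L)` gives an eigenvector of `K ⊗ Lam1 M`
(`L ∣ M`) for M48's operators `tZ1 M r`, `dZ1 M d`, with the same `T_r`-eigenvalues and the
nebentypus `ε = Ψ` on `Γ₀(M)`. -/
theorem exists_lam1_eigenvector {L M : ℕ} [NeZero L] [NeZero M] (hLM : L ∣ M)
    (S : Subgroup (ZMod L)ˣ) (Sp : Set ℕ)
    (f : Additive (GH L S) →+ K) (hf0 : f ≠ 0) (hpar : IsParabolicHom (GH L S) f)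
    (Ψ : ℤ → K) (hΨ : IsEigZ Ψ (Gamma0 L) f)
    (a : ℕ → K)
    (hT : ∀ (r : ℕ) [Fact r.Prime] (hrL : ¬ r ∣ L), r ∉ Sp → ∀ (σ : Gamma0 L)
      (hσ : Gamma0Map L σ = (r : ZMod L)), (heckeH hrL σ hσ S).addHom f = a r • f)
    (ε : (ZMod M)ˣ → K) (hε : ∀ g : Gamma0 M, Ψ ((g : SL(2, ℤ)) 1 1) = ε (unitOf g)) :
    ∃ v : K ⊗[ℤ] Lam1 M, v ≠ 0 ∧
      (∀ (r : ℕ), r.Prime → ¬ r ∣ M → r ∉ Sp → (tZ1 M r).baseChange K v = a r • v) ∧
      (∀ d : (ZMod M)ˣ, (dZ1 M d).baseChange K v = ε d • v) := by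
  have hle : Gamma1 M ≤ GH L S := Gamma1_le_GH_of_dvd hLM S
  haveI : ((Gamma1 M).subgroupOf (GH L S)).FiniteIndex := inferInstance
  set F : parabolicHoms K (Gamma1 M) K := ⟨resHom hle f, isParabolicHom_resHom hle hpar⟩ with hF
  have hF0 : F ≠ 0 := by
    intro h0
    apply hf0
    apply eq_of_resHom_eq' hle
    have := congrArg Subtype.val h0
    exact this
  set E := Fermat.Agent.M48.ParTensor3.tensorEquiv (Gamma1 M) K with hE
  refine ⟨E.symm F, ?_, ?_, ?_⟩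
  · intro h0
    apply hF0
    have := congrArg E h0
    rwa [LinearEquiv.apply_symm_apply, map_zero] at this
  · intro r hr hrM hrS
    haveI : Fact r.Prime := ⟨hr⟩
    have hrL : ¬ r ∣ L := fun h => hrM (h.trans hLM)
    apply E.injective
    rw [tZ1_of_prime hr hrM, hE, Fermat.Agent.M48.ParTensor3.tensorEquiv_baseChange, ← hE,
      LinearEquiv.apply_symm_apply, map_smul, LinearEquiv.apply_symm_apply]
    apply Subtype.ext
    obtain ⟨σ, hσ⟩ := Fermat.Agent.M43.TwistLatE6.exists_sigma (L := L) (ℓ := r) hrL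
    show (heckeOp1 hr hrM).addHom (resHom hle f) = a r • resHom hle f
    rw [heckeOp1_resHom hLM S hr hrM hrL σ hσ f, hT r hrL hrS σ hσ]
    rfl
  · intro d
    apply E.injective
    rw [dZ1, hE, Fermat.Agent.M48.ParTensor3.tensorEquiv_baseChange, ← hE,
      LinearEquiv.apply_symm_apply, map_smul, LinearEquiv.apply_symm_apply]
    apply Subtype.ext
    show (diaCoset1 (sigma d)).addHom (resHom hle f) = ε d • resHom hle f
    have hmem : ((sigma d : Gamma0 M) : SL(2, ℤ)) ∈ Gamma0 L :=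
      Gamma0_le_Gamma0_of_dvd hLM (sigma d).2
    have hm : MapsInto (mapGL ℝ ((sigma d : Gamma0 M) : SL(2, ℤ))) (GH L S) (GH L S) :=
      mapsInto_mapGL_GH S (mem_Gamma0_iff_dvd.mp hmem)
    rw [diaCoset1_resHom (sigma d) hle hm f, hΨ _ hmem hm, hε (sigma d), unitOf_sigma]
    rfl

end Main

end Fermat.Agent.M43.BridgeRes3
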