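/-
M43 (lead) [P-CAR] CarMat0: the matrix core of Carayol's lemma for `2 × 2` representations.

A family of matrix representations `r i : G →* M₂(O i)` whose traces come from ONE ring `T`
(through jointly injective ring homomorphisms `ψ i : T →+* O i`), normalised so that
`r i g1 = diag(ψ i α, ψ i β)` with `α - β` a unit of `T` and `r i g0` has upper right entry `1`,
descends to ONE matrix representation `rT : G →* M₂(T)` with `(rT g).map (ψ i) = r i g` for all
`i`, provided `x(g0, h0)` is a unit of `T`.  All entries are explicit polynomials in the traces.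
Also: diagonalisation of a `2 × 2` matrix over a local ring with two eigenvalues whose
difference is a unit, and the rescaling step.  Mathlib only.
-/
import Mathlib

set_option autoImplicit false

namespace Fermat.Agent.M43.CarMat0

open Matrix

/-- The data of Carayol's normalisation inside the trace ring `T`. -/
structure TraceData (G : Type*) [Monoid G] (T : Type*) [CommRing T] where
  /-- the trace function -/
  t : G → T
  /-- the element with two distinct eigenvalues -/
  g1 : G
  /-- first eigenvalue -/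
  α : T
  /-- second eigenvalue -/
  β : T
  /-- inverse of `α - β` -/
  δ : T
  hδ : (α - β) * δ = 1
  /-- element with upper right entry `1` -/
  g0 : G
  /-- element with unit lower left entry -/
  h0 : G
  /-- inverse of `x g0 h0` -/
  v : T

variable {G : Type*} [Monoid G] {T : Type*} [CommRing T]

namespace TraceData

variable (D : TraceData G T)

/-- upper left entry -/
def a (g : G) : T := (D.t (D.g1 * g) - D.β * D.t g) * D.δ

/-- lower right entry -/
def d (g : G) : T := (D.α * D.t g - D.t (D.g1 * g)) * D.δ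

/-- the product (upper right of `g`) * (lower left of `h`) -/
def x (g h : G) : T := D.a (g * h) - D.a g * D.a h

/-- lower left entry -/
def c (h : G) : T := D.x D.g0 h

/-- upper right entry -/
def b (g : G) : T := D.x g D.h0 * D.v

/-- the candidate matrix -/
def mat (g : G) : Matrix (Fin 2) (Fin 2) T := !![D.a g, D.b g; D.c g, D.d g]

end TraceData

section Descent

variable {O : Type*} [CommRing O] (ψ : T →+* O) (D : TraceData G T)
  (r : G →* Matrix (Fin 2) (Fin 2) O)

/-- First normalisation: traces come from `T` and `r g1 = diag(ψ α, ψ β)`. -/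
structure IsDiagonalized : Prop where
  trace_eq : ∀ g, ψ (D.t g) = (r g).trace
  g1_00 : r D.g1 0 0 = ψ D.α
  g1_01 : r D.g1 0 1 = 0
  g1_10 : r D.g1 1 0 = 0
  g1_11 : r D.g1 1 1 = ψ D.β

/-- Full normalisation: moreover the upper right entry of `r g0` is `1`. -/
structure IsNormalized : Prop extends IsDiagonalized ψ D r where
  g0_01 : r D.g0 0 1 = 1

variable {ψ D r}

theorem IsDiagonalized.trace_g1_mul (h : IsDiagonalized ψ D r) (g : G) :
    ψ (D.t (D.g1 * g)) = ψ D.α * r g 0 0 + ψ D.β * r g 1 1 := by
  rw [h.trace_eq, map_mul, Matrix.trace_fin_two, Matrix.mul_apply, Matrix.mul_apply,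
    Fin.sum_univ_two, Fin.sum_univ_two, h.g1_00, h.g1_01, h.g1_10, h.g1_11]
  ring

theorem map_hδ (ψ : T →+* O) (D : TraceData G T) : (ψ D.α - ψ D.β) * ψ D.δ = 1 := by
  rw [← map_sub, ← map_mul, D.hδ, map_one]

theorem IsDiagonalized.map_a (h : IsDiagonalized ψ D r) (g : G) : ψ (D.a g) = r g 0 0 := by
  have hδ := map_hδ ψ D
  have ht : ψ (D.t g) = r g 0 0 + r g 1 1 := by rw [h.trace_eq, Matrix.trace_fin_two]
  unfold TraceData.a
  rw [map_mul, map_sub, map_mul, h.trace_g1_mul, ht]
  linear_combination (r g 0 0) * hδ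

theorem IsDiagonalized.map_d (h : IsDiagonalized ψ D r) (g : G) : ψ (D.d g) = r g 1 1 := by
  have hδ := map_hδ ψ D
  have ht : ψ (D.t g) = r g 0 0 + r g 1 1 := by rw [h.trace_eq, Matrix.trace_fin_two]
  unfold TraceData.d
  rw [map_mul, map_sub, map_mul, h.trace_g1_mul, ht]
  linear_combination (r g 1 1) * hδ

theorem IsDiagonalized.map_x (h : IsDiagonalized ψ D r) (g g' : G) :
    ψ (D.x g g') = r g 0 1 * r g' 1 0 := by
  unfold TraceData.x
  rw [map_sub, map_mul, h.map_a, h.map_a, h.map_a, map_mul, Matrix.mul_apply, Fin.sum_univ_two]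
  ring

theorem IsNormalized.map_c (h : IsNormalized ψ D r) (g : G) : ψ (D.c g) = r g 1 0 := by
  unfold TraceData.c
  rw [h.toIsDiagonalized.map_x, h.g0_01, one_mul]

theorem IsNormalized.map_b (h : IsNormalized ψ D r) (hv : D.x D.g0 D.h0 * D.v = 1) (g : G) :
    ψ (D.b g) = r g 0 1 := by
  have h1 : r D.h0 1 0 * ψ D.v = 1 := by
    rw [← h.map_c, ← map_mul]
    unfold TraceData.c
    rw [hv, map_one]
  unfold TraceData.b
  rw [map_mul, h.toIsDiagonalized.map_x, mul_assoc, h1, mul_one]

theorem IsNormalized.map_mat (h : IsNormalized ψ D r) (hv : D.x D.g0 D.h0 * D.v = 1) (g : G) :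
    (D.mat g).map ψ = r g := by
  ext i j
  fin_cases i <;> fin_cases j
  · simpa [TraceData.mat] using h.toIsDiagonalized.map_a g
  · simpa [TraceData.mat] using h.map_b hv g
  · simpa [TraceData.mat] using h.map_c g
  · simpa [TraceData.mat] using h.toIsDiagonalized.map_d g

/-- In a diagonalised member the upper right entry of `r g0` is a unit as soon as `x g0 h0`
is a unit of `T`. -/
theorem IsDiagonalized.isUnit_g0_01 (h : IsDiagonalized ψ D r) (hv : D.x D.g0 D.h0 * D.v = 1) :
    IsUnit (r D.g0 0 1) := by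
  have h1 : r D.g0 0 1 * (r D.h0 1 0 * ψ D.v) = 1 := by
    rw [← mul_assoc, ← h.map_x, ← map_mul, hv, map_one]
  exact IsUnit.of_mul_eq_one _ h1

end Descent

section Family

variable {ι : Type*} {O : ι → Type*} [∀ i, CommRing (O i)] (ψ : ∀ i, T →+* O i)
  (D : TraceData G T) (r : ∀ i, G →* Matrix (Fin 2) (Fin 2) (O i))

/-- **Carayol's lemma, matrix core.**  A normalised family with traces in `T` and jointly
injective `ψ i` descends to `T`. -/
theorem exists_monoidHom_of_isNormalized
    (hinj : ∀ x : T, (∀ i, ψ i x = 0) → x = 0)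
    (hv : D.x D.g0 D.h0 * D.v = 1)
    (h : ∀ i, IsNormalized (ψ i) D (r i)) :
    ∃ rT : G →* Matrix (Fin 2) (Fin 2) T, (∀ g, rT g = D.mat g) ∧
      ∀ i g, (rT g).map (ψ i) = r i g := by
  have hinjM : ∀ M N : Matrix (Fin 2) (Fin 2) T, (∀ i, M.map (ψ i) = N.map (ψ i)) → M = N := by
    intro M N hMN
    ext a b
    have : M a b - N a b = 0 := by
      apply hinj
      intro i
      have := congrFun (congrFun (hMN i) a) b
      simp only [Matrix.map_apply] at this
      rw [map_sub, this, sub_self]
    exact sub_eq_zero.mp this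
  refine ⟨{ toFun := D.mat, map_one' := ?_, map_mul' := ?_ }, fun g => rfl,
    fun i g => (h i).map_mat hv g⟩
  · apply hinjM
    intro i
    rw [(h i).map_mat hv, map_one]
    ext a b
    simp [Matrix.one_apply]
  · intro g g'
    apply hinjM
    intro i
    rw [(h i).map_mat hv, map_mul, Matrix.map_mul, (h i).map_mat hv, (h i).map_mat hv]

end Family

section Conj

variable {O : Type*} [CommRing O]

/-- Conjugation of a matrix representation by an invertible matrix. -/
def conj (r : G →* Matrix (Fin 2) (Fin 2) O) (g g' : Matrix (Fin 2) (Fin 2) O)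
    (hg'g : g' * g = 1) : G →* Matrix (Fin 2) (Fin 2) O where
  toFun σ := g * r σ * g'
  map_one' := by
    rw [map_one, mul_one]
    exact mul_eq_one_comm.mp hg'g
  map_mul' σ τ := by
    rw [map_mul]
    calc g * (r σ * r τ) * g' = g * r σ * (1 : Matrix (Fin 2) (Fin 2) O) * r τ * g' := by
          rw [mul_one]; simp only [mul_assoc]
      _ = g * r σ * g' * (g * r τ * g') := by rw [← hg'g]; simp only [mul_assoc]

theorem conj_apply (r : G →* Matrix (Fin 2) (Fin 2) O) (g g' : Matrix (Fin 2) (Fin 2) O)
    (hg'g : g' * g = 1) (σ : G) : conj r g g' hg'g σ = g * r σ * g' := rfl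

theorem trace_conj (r : G →* Matrix (Fin 2) (Fin 2) O) (g g' : Matrix (Fin 2) (Fin 2) O)
    (hg'g : g' * g = 1) (σ : G) : (conj r g g' hg'g σ).trace = (r σ).trace := by
  rw [conj_apply, Matrix.trace_mul_comm, ← mul_assoc, hg'g, one_mul]

theorem conj_intertwine (r : G →* Matrix (Fin 2) (Fin 2) O) (g g' : Matrix (Fin 2) (Fin 2) O)
    (hg'g : g' * g = 1) (σ : G) : g * r σ = conj r g g' hg'g σ * g := by
  rw [conj_apply, mul_assoc, hg'g, mul_one]

end Conj

section Diag

variable {O : Type*} [CommRing O] [IsLocalRing O]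

/-- A `2 × 2` matrix over a local ring with trace `a + b`, determinant `a * b` and `a - b` a
unit is conjugate to `diag(a, b)`. -/
theorem exists_conj_diagonal (M : Matrix (Fin 2) (Fin 2) O) (a b : O) (hab : IsUnit (a - b))
    (htr : M.trace = a + b) (hdet : M.det = a * b) :
    ∃ g g' : Matrix (Fin 2) (Fin 2) O, g * g' = 1 ∧ g' * g = 1 ∧
      g * M * g' = !![a, 0; 0, b] := by
  -- entries
  set m00 := M 0 0 with hm00
  set m01 := M 0 1 with hm01
  set m10 := M 1 0 with hm10
  set m11 := M 1 1 with hm11
  have hM : M = !![m00, m01; m10, m11] := by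
    ext i j; fin_cases i <;> fin_cases j <;> rfl
  have htr' : m00 + m11 = a + b := by rw [← htr, Matrix.trace_fin_two]
  have hdet' : m00 * m11 - m01 * m10 = a * b := by rw [← hdet, Matrix.det_fin_two]
  -- the quadratic form `q w = m01 w2^2 + (m00 - m11) w1 w2 - m10 w1^2` takes a unit value
  have hq : ∃ w1 w2 : O, IsUnit (m01 * w2 ^ 2 + (m00 - m11) * w1 * w2 - m10 * w1 ^ 2) := by
    by_cases h10 : IsUnit m10
    · exact ⟨1, 0, by simpa using h10.neg⟩
    by_cases h01 : IsUnit m01
    · exact ⟨0, 1, by simpa using h01⟩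
    refine ⟨1, 1, ?_⟩
    have h10' : m10 ∈ IsLocalRing.maximalIdeal O := (IsLocalRing.mem_maximalIdeal _).mpr h10
    have h01' : m01 ∈ IsLocalRing.maximalIdeal O := (IsLocalRing.mem_maximalIdeal _).mpr h01
    have hprod : (m00 - a) * (m00 - b) ∈ IsLocalRing.maximalIdeal O := by
      have : (m00 - a) * (m00 - b) = -(m01 * m10) := by
        linear_combination m00 * htr' - hdet'
      rw [this]
      exact neg_mem (Ideal.mul_mem_left _ _ h10')
    have hdiff : IsUnit (m00 - m11) := by
      rcases (IsLocalRing.maximalIdeal.isMaximal O).isPrime.mem_or_mem hprod with h | h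
      · -- m00 ≡ a, so m00 - m11 ≡ a - b
        have : m00 - m11 = (a - b) + 2 * (m00 - a) := by linear_combination (-1 : O) * htr'
        rw [this]
        by_contra hnu
        have hmem := (IsLocalRing.mem_maximalIdeal _).mpr hnu
        have : a - b ∈ IsLocalRing.maximalIdeal O := by
          have h2 := Ideal.sub_mem _ hmem (Ideal.mul_mem_left _ 2 h)
          simpa using h2
        exact (IsLocalRing.mem_maximalIdeal _).mp this hab
      · have : m00 - m11 = -(a - b) + 2 * (m00 - b) := by linear_combination (-1 : O) * htr'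
        rw [this]
        by_contra hnu
        have hmem := (IsLocalRing.mem_maximalIdeal _).mpr hnu
        have : -(a - b) ∈ IsLocalRing.maximalIdeal O := by
          have h2 := Ideal.sub_mem _ hmem (Ideal.mul_mem_left _ 2 h)
          simpa using h2
        exact (IsLocalRing.mem_maximalIdeal _).mp (neg_mem_iff.mp this) hab
    by_contra hnu
    have hmem := (IsLocalRing.mem_maximalIdeal _).mpr hnu
    have : m00 - m11 ∈ IsLocalRing.maximalIdeal O := by
      have h2 := Ideal.add_mem _ (Ideal.sub_mem _ hmem h01') h10'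
      have e : m01 * 1 ^ 2 + (m00 - m11) * 1 * 1 - m10 * 1 ^ 2 - m01 + m10 = m00 - m11 := by ring
      rwa [e] at h2
    exact (IsLocalRing.mem_maximalIdeal _).mp this hdiff
  obtain ⟨w1, w2, hw⟩ := hq
  obtain ⟨u, hu⟩ := hab
  -- columns: (M - b) w and (M - a) w
  set p1 := (m00 - b) * w1 + m01 * w2 with hp1
  set p2 := m10 * w1 + (m11 - b) * w2 with hp2
  set s1 := (m00 - a) * w1 + m01 * w2 with hs1
  set s2 := m10 * w1 + (m11 - a) * w2 with hs2
  -- h = [p | s], determinant = -(a-b) q(w)
  have hdetP : p1 * s2 - s1 * p2 =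
      -((a - b) * (m01 * w2 ^ 2 + (m00 - m11) * w1 * w2 - m10 * w1 ^ 2)) := by
    rw [hp1, hp2, hs1, hs2]; ring
  have hunit : IsUnit (p1 * s2 - s1 * p2) := by
    rw [hdetP]
    exact ((hu ▸ u.isUnit).mul hw).neg
  obtain ⟨e, he⟩ := hunit
  set einv : O := ((e⁻¹ : Oˣ) : O) with heinv
  have hee : (p1 * s2 - s1 * p2) * einv = 1 := by rw [← he, heinv]; exact e.mul_inv
  -- P = [p | s] (columns), P⁻¹ = einv * adj
  refine ⟨!![einv * s2, -(einv * s1); -(einv * p2), einv * p1], !![p1, s1; p2, s2], ?_, ?_, ?_⟩
  · ext i j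
    fin_cases i <;> fin_cases j <;>
      simp [Matrix.mul_apply, Fin.sum_univ_two]
    · linear_combination hee
    · ring
    · ring
    · linear_combination hee
  · ext i j
    fin_cases i <;> fin_cases j <;>
      simp [Matrix.mul_apply, Fin.sum_univ_two]
    · linear_combination hee
    · ring
    · ring
    · linear_combination hee
  · -- M P = P diag(a,b):  M p = a p, M s = b s  (Cayley-Hamilton)
    have hMp1 : m00 * p1 + m01 * p2 = a * p1 := by
      rw [hp1, hp2]; linear_combination (m00 * w1 + m01 * w2) * htr' - w1 * hdet'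
    have hMp2 : m10 * p1 + m11 * p2 = a * p2 := by
      rw [hp1, hp2]; linear_combination (m10 * w1 + m11 * w2) * htr' - w2 * hdet'
    have hMs1 : m00 * s1 + m01 * s2 = b * s1 := by
      rw [hs1, hs2]; linear_combination (m00 * w1 + m01 * w2) * htr' - w1 * hdet'
    have hMs2 : m10 * s1 + m11 * s2 = b * s2 := by
      rw [hs1, hs2]; linear_combination (m10 * w1 + m11 * w2) * htr' - w2 * hdet'
    rw [hM]
    ext i j
    fin_cases i <;> fin_cases j <;>
      simp [Matrix.mul_apply, Fin.sum_univ_two]
    · linear_combination (einv * s2) * hMp1 - (einv * s1) * hMp2 + a * hee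
    · linear_combination (einv * s2) * hMs1 - (einv * s1) * hMs2
    · linear_combination (-(einv * p2)) * hMp1 + (einv * p1) * hMp2
    · linear_combination (-(einv * p2)) * hMs1 + (einv * p1) * hMs2 + b * hee

end Diag

end Fermat.Agent.M43.CarMat0
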