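/-
M43 (lead) [P-CAR] CarRep0: Carayol's lemma for `GaloisRepAdic`.

`T` a local ring, `ψ i : T →+* O i` finitely many jointly injective local homomorphisms into
local rings such that the `𝔪_T`-adic topology is induced (`htop`), `ρ i : GaloisRepAdic (O i)`
whose traces all come from ONE function `t : G_ℚ → T`.  If some `g1` has two eigenvalues
`α, β ∈ T` with `α - β` a unit and `x(g0,h0)` is a unit of `T` (both are statements inside `T`,
see `CarMat0.TraceData`), then there is ONE `ρT : GaloisRepAdic T` with trace `t` and with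
`ρT ⊗_{ψ i} O i ≃ ρ i` for every `i`.
Built on `S53/Defs`, `S53/MatrixModel` (matrix models of `GaloisRepAdic`) and `CarMat0`.
-/
import Mathlib
import Fermat.Agent.S53.MatrixModel
import Fermat.Agent.M43.CarMat0

set_option autoImplicit false

namespace Fermat.Agent.M43.CarRep0

open Fermat.Agent.S53 Fermat.Agent.S53.MatrixModel Fermat.Agent.M43.CarMat0 IsLocalRing

section Conj

variable {A : Type} [CommRing A] [IsLocalRing A]

theorem matCont_conj {r : GQ →* M2 A} (hr : MatCont r) (g g' : M2 A) (hg'g : g' * g = 1) :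
    MatCont (conj r g g' hg'g) := by
  intro n
  obtain ⟨L, hL, h⟩ := hr n
  refine ⟨L, hL, fun σ hσ i j => ?_⟩
  have hgg' : g * g' = 1 := mul_eq_one_comm.mp hg'g
  have e : conj r g g' hg'g σ - 1 = g * (r σ - 1) * g' := by
    rw [conj_apply, mul_sub, sub_mul, mul_one, hgg']
  rw [e, Matrix.mul_apply]
  refine Ideal.sum_mem _ fun k _ => Ideal.mul_mem_right _ _ ?_
  rw [Matrix.mul_apply]
  exact Ideal.sum_mem _ fun l _ => Ideal.mul_mem_left _ _ (h σ hσ l k)

theorem isEquiv_conj {r : GQ →* M2 A} (hr : MatCont r) (g g' : M2 A) (hg'g : g' * g = 1) :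
    (ofMatrix r hr).IsEquiv (ofMatrix (conj r g g' hg'g) (matCont_conj hr g g' hg'g)) :=
  ⟨equivOfConj hr (matCont_conj hr g g' hg'g) g g' (mul_eq_one_comm.mp hg'g) hg'g
    (conj_intertwine r g g' hg'g)⟩

theorem trace_ofMatrix (r : GQ →* M2 A) (hr : MatCont r) (σ : GQ) :
    (ofMatrix r hr).trace σ = (r σ).trace := by
  unfold GaloisRepAdic.trace
  rw [LinearMap.trace_eq_matrix_trace A (stdBasis r hr), ← matrixOf_apply, matrixOf_ofMatrix]

theorem trace_eq_of_isEquiv {ρ₁ ρ₂ : GaloisRepAdic A} (h : ρ₁.IsEquiv ρ₂) (σ : GQ) :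
    ρ₁.trace σ = ρ₂.trace σ := by
  obtain ⟨e⟩ := h
  unfold GaloisRepAdic.trace
  have : ρ₂.ρ σ = e.toLinearEquiv.conj (ρ₁.ρ σ) := by
    ext x
    rw [LinearEquiv.conj_apply, LinearMap.comp_apply, LinearMap.comp_apply,
      LinearEquiv.coe_coe, LinearEquiv.coe_coe, e.map_apply, LinearEquiv.apply_symm_apply]
  rw [this, LinearMap.trace_conj']

theorem det_eq_of_isEquiv {ρ₁ ρ₂ : GaloisRepAdic A} (h : ρ₁.IsEquiv ρ₂) (σ : GQ) :
    LinearMap.det (ρ₁.ρ σ) = LinearMap.det (ρ₂.ρ σ) := by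
  obtain ⟨e⟩ := h
  have : ρ₂.ρ σ = e.toLinearEquiv.conj (ρ₁.ρ σ) := by
    ext x
    rw [LinearEquiv.conj_apply, LinearMap.comp_apply, LinearMap.comp_apply,
      LinearEquiv.coe_coe, LinearEquiv.coe_coe, e.map_apply, LinearEquiv.apply_symm_apply]
  rw [this, LinearEquiv.conj_apply, LinearMap.comp_assoc, LinearMap.det_conj]

theorem det_ofMatrix (r : GQ →* M2 A) (hr : MatCont r) (σ : GQ) :
    LinearMap.det ((ofMatrix r hr).ρ σ) = (r σ).det := by
  rw [← LinearMap.det_toMatrix (stdBasis r hr), ← matrixOf_apply, matrixOf_ofMatrix]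

theorem isEquiv_symm {ρ₁ ρ₂ : GaloisRepAdic A} (h : ρ₁.IsEquiv ρ₂) : ρ₂.IsEquiv ρ₁ :=
  h.elim fun e => ⟨e.symm⟩

theorem isEquiv_trans {ρ₁ ρ₂ ρ₃ : GaloisRepAdic A} (h : ρ₁.IsEquiv ρ₂) (h' : ρ₂.IsEquiv ρ₃) :
    ρ₁.IsEquiv ρ₃ :=
  h.elim fun e => h'.elim fun e' => ⟨e.trans e'⟩

end Conj

section Normalise

variable {T : Type} [CommRing T] {O : Type} [CommRing O] [IsLocalRing O]

omit [IsLocalRing O] in
theorem diag_conj (yi y : O) (M : M2 O) :
    (!![yi, 0; 0, 1] : M2 O) * M * !![y, 0; 0, 1] =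
      !![yi * M 0 0 * y, yi * M 0 1; M 1 0 * y, M 1 1] := by
  rw [Matrix.eta_fin_two M]
  simp

/-- Every member of the family has a NORMALISED matrix model. -/
theorem exists_isNormalized (ψ : T →+* O) (ρ : GaloisRepAdic O) (D : TraceData GQ T)
    (ht : ∀ σ, ψ (D.t σ) = ρ.trace σ)
    (ht1 : D.t D.g1 = D.α + D.β)
    (hdet1 : LinearMap.det (ρ.ρ D.g1) = ψ (D.α * D.β))
    (hv : D.x D.g0 D.h0 * D.v = 1) :
    ∃ (r : GQ →* M2 O) (hr : MatCont r), ρ.IsEquiv (ofMatrix r hr) ∧ IsNormalized ψ D r := by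
  -- step 1: some matrix model
  obtain ⟨r0, hr0, he0⟩ := exists_isEquiv_ofMatrix ρ
  have htr0 : ∀ σ, ψ (D.t σ) = (r0 σ).trace := fun σ => by
    rw [ht, trace_eq_of_isEquiv he0, trace_ofMatrix]
  -- step 2: diagonalise `r0 g1`
  have hunit : IsUnit (ψ D.α - ψ D.β) := IsUnit.of_mul_eq_one _ (map_hδ ψ D)
  have htrM : (r0 D.g1).trace = ψ D.α + ψ D.β := by rw [← htr0, ht1, map_add]
  have hdetM : (r0 D.g1).det = ψ D.α * ψ D.β := by
    rw [← det_ofMatrix r0 hr0, ← det_eq_of_isEquiv he0, hdet1, map_mul]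
  obtain ⟨g, g', hgg', hg'g, hdiag⟩ :=
    exists_conj_diagonal (r0 D.g1) (ψ D.α) (ψ D.β) hunit htrM hdetM
  set r1 := conj r0 g g' hg'g with hr1def
  have hr1 : MatCont r1 := matCont_conj hr0 g g' hg'g
  have he1 : (ofMatrix r0 hr0).IsEquiv (ofMatrix r1 hr1) := isEquiv_conj hr0 g g' hg'g
  have hg1 : r1 D.g1 = !![ψ D.α, 0; 0, ψ D.β] := by rw [hr1def, conj_apply, hdiag]
  have hD1 : IsDiagonalized ψ D r1 :=
    { trace_eq := fun σ => by rw [hr1def, trace_conj, htr0]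
      g1_00 := by rw [hg1]; rfl
      g1_01 := by rw [hg1]; rfl
      g1_10 := by rw [hg1]; rfl
      g1_11 := by rw [hg1]; rfl }
  -- step 3: rescale
  obtain ⟨y, hy⟩ := hD1.isUnit_g0_01 hv
  set yi : O := ((y⁻¹ : Oˣ) : O) with hyi
  have hyy : yi * (y : O) = 1 := by rw [hyi]; exact y.inv_mul
  have hyy' : (y : O) * yi = 1 := by rw [hyi]; exact y.mul_inv
  have hs's : (!![(y : O), 0; 0, 1] : M2 O) * !![yi, 0; 0, 1] = 1 := by
    ext i j
    fin_cases i <;> fin_cases j <;> simp [Matrix.mul_apply, Fin.sum_univ_two, hyy']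
  set r2 := conj r1 !![yi, 0; 0, 1] !![(y : O), 0; 0, 1] hs's with hr2def
  have hr2 : MatCont r2 := matCont_conj hr1 _ _ hs's
  have he2 : (ofMatrix r1 hr1).IsEquiv (ofMatrix r2 hr2) := isEquiv_conj hr1 _ _ hs's
  have hentry : ∀ σ, r2 σ = !![r1 σ 0 0, yi * r1 σ 0 1; r1 σ 1 0 * (y : O), r1 σ 1 1] := by
    intro σ
    rw [hr2def, conj_apply, diag_conj, mul_right_comm, hyy, one_mul]
  refine ⟨r2, hr2, isEquiv_trans he0 (isEquiv_trans he1 he2), ?_⟩
  refine { trace_eq := fun σ => by rw [hr2def, trace_conj, hD1.trace_eq], g1_00 := ?_, g1_01 := ?_,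
           g1_10 := ?_, g1_11 := ?_, g0_01 := ?_ }
  · rw [hentry]; simpa using hD1.g1_00
  · rw [hentry]; simp [hD1.g1_01]
  · rw [hentry]; simp [hD1.g1_10]
  · rw [hentry]; simpa using hD1.g1_11
  · rw [hentry]
    show yi * r1 D.g0 0 1 = 1
    rw [← hy, hyy]

end Normalise

section Main

variable {T : Type} [CommRing T] [IsLocalRing T]
  {ι : Type} [Finite ι] {O : ι → Type} [∀ i, CommRing (O i)] [∀ i, IsLocalRing (O i)]

/-- **Carayol's lemma** in the form needed to build a Galois representation over a Hecke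
algebra from the representations attached to its characteristic-zero points. -/
theorem exists_galoisRepAdic_of_traces
    (ψ : ∀ i, T →+* O i) (hloc : ∀ i, IsLocalHom (ψ i))
    (hinj : ∀ x : T, (∀ i, ψ i x = 0) → x = 0)
    (htop : ∀ n : ℕ, ∃ N : ℕ, ∀ x : T,
      (∀ i, ψ i x ∈ maximalIdeal (O i) ^ N) → x ∈ maximalIdeal T ^ n)
    (ρ : ∀ i, GaloisRepAdic (O i)) (D : TraceData GQ T)
    (ht : ∀ i σ, ψ i (D.t σ) = (ρ i).trace σ)
    (ht1 : D.t D.g1 = D.α + D.β)
    (hdet1 : ∀ i, LinearMap.det ((ρ i).ρ D.g1) = ψ i (D.α * D.β))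
    (hv : D.x D.g0 D.h0 * D.v = 1) :
    ∃ ρT : GaloisRepAdic T, (∀ σ, ρT.trace σ = D.t σ) ∧
      ∀ i, ((ρT.baseChangeAlong (ψ i) (hloc i)).IsEquiv (ρ i)) := by
  choose r hr he hn using fun i =>
    exists_isNormalized (ψ i) (ρ i) D (ht i) ht1 (hdet1 i) hv
  obtain ⟨rT, hrT, hmap⟩ := exists_monoidHom_of_isNormalized ψ D r hinj hv hn
  have hmapMat : ∀ i, mapMat (ψ i) rT = r i := fun i => by
    ext σ : 1
    rw [mapMat_apply']
    exact hmap i σ
  -- continuity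
  have hcont : MatCont rT := by
    intro n
    obtain ⟨N, hN⟩ := htop n
    choose L hL hσL using fun i => hr i N
    have : ∀ i, FiniteDimensional ℚ (L i) := hL
    refine ⟨⨆ i, L i, IntermediateField.finiteDimensional_iSup_of_finite, fun σ hσ j k => ?_⟩
    apply hN
    intro i
    have h1 : ψ i ((rT σ - 1) j k) = (r i σ - 1) j k := by
      rw [← hmap i σ, Matrix.sub_apply, Matrix.sub_apply, map_sub, Matrix.map_apply,
        Matrix.one_apply, Matrix.one_apply]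
      split_ifs <;> simp
    rw [h1]
    exact hσL i σ (fun x hx => hσ x (le_iSup L i hx)) j k
  refine ⟨ofMatrix rT hcont, fun σ => ?_, fun i => ?_⟩
  · rw [trace_ofMatrix, hrT, Matrix.trace_fin_two]
    show D.a σ + D.d σ = D.t σ
    unfold TraceData.a TraceData.d
    linear_combination (D.t σ) * D.hδ
  · have h1 := baseChangeAlong_ofMatrix (ψ i) (hloc i) rT hcont
    have h2 : (ofMatrix (mapMat (ψ i) rT) (matCont_mapMat hcont (ψ i) (hloc i))).IsEquiv
        (ofMatrix (r i) (hr i)) := ofMatrix_isEquiv_of_eq _ _ (hmapMat i)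
    exact isEquiv_trans h1 (isEquiv_trans h2 (isEquiv_symm (he i)))

end Main

end Fermat.Agent.M43.CarRep0
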