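/-
M43 (lead) [P-CAR] CarCheb0: all traces lie in the Hecke algebra (Chebotarev + completeness).

`T` a complete local ring, `ψ i : T →+* O i` finitely many jointly injective local homomorphisms
into noetherian local rings inducing the `𝔪_T`-adic topology (`htop`), `ρ i : GaloisRepAdic (O i)`.
If at the Frobenius elements of almost all primes `ℓ` the characteristic polynomial of every
`ρ i` is `X² - ψ i (τ ℓ) X + ℓ` with `τ ℓ ∈ T`, then there is ONE function `t : G_ℚ → T` with
`ψ i (t σ) = tr ρ i (σ)` for all `i, σ` - the input of Carayol's lemma `CarRep0`.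
Uses the tree's generator form of Chebotarev (`ES/GAL/ChebQbar23`): every `σ` agrees at any finite
level with a POWER of a Frobenius element; power sums take care of the exponent.
-/
import Mathlib
import Fermat.Agent.ES.GAL.ChebQbar23
import Fermat.Agent.M43.CarRep0

set_option autoImplicit false

namespace Fermat.Agent.M43.CarCheb0

open Fermat.Agent.S53 Fermat.Agent.S53.MatrixModel Fermat.Agent.M43.CarRep0 IsLocalRing Polynomial

section PowerSums

variable {T : Type*} [CommRing T]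

/-- The power sums `s_n = α^n + β^n` as polynomials in `t = α + β`, `d = α β`. -/
def psum (t d : T) : ℕ → T
  | 0 => 2
  | 1 => t
  | (n + 2) => t * psum t d (n + 1) - d * psum t d n

theorem map_psum {O : Type*} [CommRing O] (ψ : T →+* O) (t d : T) (n : ℕ) :
    ψ (psum t d n) = psum (ψ t) (ψ d) n := by
  induction n using Nat.strong_induction_on with
  | _ n ih =>
    match n with
    | 0 => simp only [psum]; exact map_ofNat ψ 2
    | 1 => simp [psum]
    | (k + 2) =>
      simp only [psum, map_sub, map_mul]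
      rw [ih (k + 1) (by omega), ih k (by omega)]

theorem trace_pow_eq_psum (M : Matrix (Fin 2) (Fin 2) T) (n : ℕ) :
    (M ^ n).trace = psum M.trace M.det n := by
  have hCH : M ^ 2 = M.trace • M - M.det • (1 : Matrix (Fin 2) (Fin 2) T) := by
    rw [Matrix.eta_fin_two M]
    ext i j
    fin_cases i <;> fin_cases j <;>
      simp [pow_two, Matrix.mul_apply, Fin.sum_univ_two, Matrix.trace_fin_two, Matrix.det_fin_two] <;>
      ring
  induction n using Nat.strong_induction_on with
  | _ n ih =>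
    match n with
    | 0 => simp [psum]
    | 1 => simp [psum]
    | (k + 2) =>
      have h1 : M ^ (k + 2) = M.trace • M ^ (k + 1) - M.det • M ^ k := by
        rw [pow_add, hCH, mul_sub, Matrix.mul_smul, Matrix.mul_smul, mul_one, ← pow_succ]
      rw [h1, Matrix.trace_sub, Matrix.trace_smul, Matrix.trace_smul, ih (k + 1) (by omega),
        ih k (by omega)]
      simp [psum]

end PowerSums

section Charpoly

variable {A : Type} [CommRing A] [IsLocalRing A]

theorem trace_det_of_charpoly (M : Matrix (Fin 2) (Fin 2) A) (t d : A)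
    (h : M.charpoly = X ^ 2 - C t * X + C d) : M.trace = t ∧ M.det = d := by
  rw [Matrix.charpoly_fin_two] at h
  constructor
  · have := congrArg (fun f => Polynomial.coeff f 1) h
    simp only [coeff_add, coeff_sub, coeff_X_pow, coeff_C_mul, coeff_X_one, coeff_C] at this
    norm_num at this
    exact this
  · have := congrArg (fun f => Polynomial.coeff f 0) h
    simp only [coeff_add, coeff_sub, coeff_X_pow, coeff_C_mul, coeff_X_zero, coeff_C_zero] at this
    norm_num at this
    exact this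

end Charpoly

section Main

variable {T : Type} [CommRing T] [IsLocalRing T] [IsAdicComplete (maximalIdeal T) T]
  {ι : Type} [Finite ι] {O : ι → Type} [∀ i, CommRing (O i)] [∀ i, IsLocalRing (O i)]
  [∀ i, IsNoetherianRing (O i)]

omit [IsAdicComplete (maximalIdeal T) T] [Finite ι] [∀ i, IsNoetherianRing (O i)] in
theorem map_pow_mem (ψ : ∀ i, T →+* O i) (hloc : ∀ i, IsLocalHom (ψ i)) (i : ι) (n : ℕ) (x : T)
    (hx : x ∈ maximalIdeal T ^ n) : ψ i x ∈ maximalIdeal (O i) ^ n := by
  have hmap : (maximalIdeal T ^ n).map (ψ i) ≤ maximalIdeal (O i) ^ n := by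
    rw [Ideal.map_pow]
    exact Ideal.pow_right_mono (Ideal.map_le_iff_le_comap.mpr fun a ha =>
      Ideal.mem_comap.mpr (haveI := hloc i; map_nonunit (ψ i) a ha)) n
  exact hmap (Ideal.mem_map_of_mem _ hx)

omit [Finite ι] in
/-- Limits of compatible approximations. -/
theorem exists_limit (ψ : ∀ i, T →+* O i) (hloc : ∀ i, IsLocalHom (ψ i))
    (Nf : ℕ → ℕ) (hNf : ∀ n : ℕ, ∀ x : T,
      (∀ i, ψ i x ∈ maximalIdeal (O i) ^ (Nf n)) → x ∈ maximalIdeal T ^ n)
    (N' : ℕ → ℕ) (hN'mono : Monotone N') (hN'ge : ∀ n, Nf n ≤ N' n) (hN'n : ∀ n, n ≤ N' n)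
    {Γ : Type*} (x : Γ → ℕ → T) (target : ∀ i, Γ → O i)
    (hx : ∀ σ n i, ψ i (x σ n) - target i σ ∈ maximalIdeal (O i) ^ (N' n)) :
    ∃ t : Γ → T, ∀ i σ, ψ i (t σ) = target i σ := by
  have hcauchy : ∀ σ {m n : ℕ}, m ≤ n →
      x σ m ≡ x σ n [SMOD (maximalIdeal T ^ m • ⊤ : Submodule T T)] := by
    intro σ m n hmn
    rw [SModEq.sub_mem, smul_eq_mul, Ideal.mul_top]
    apply hNf m
    intro i
    have h1 := hx σ m i
    have h2 : ψ i (x σ n) - target i σ ∈ maximalIdeal (O i) ^ (N' m) :=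
      Ideal.pow_le_pow_right (hN'mono hmn) (hx σ n i)
    have h3 : ψ i (x σ m - x σ n) ∈ maximalIdeal (O i) ^ (N' m) := by
      have := Ideal.sub_mem _ h1 h2
      rwa [sub_sub_sub_cancel_right, ← map_sub] at this
    exact Ideal.pow_le_pow_right (hN'ge m) h3
  have hlim : ∀ σ, ∃ l : T, ∀ n, x σ n ≡ l [SMOD (maximalIdeal T ^ n • ⊤ : Submodule T T)] :=
    fun σ => IsPrecomplete.prec (IsAdicComplete.toIsPrecomplete) (hcauchy σ)
  choose t ht using hlim
  refine ⟨t, fun i σ => ?_⟩
  have hall : ∀ n, ψ i (t σ) - target i σ ∈ maximalIdeal (O i) ^ n := by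
    intro n
    have h1 : x σ n - t σ ∈ maximalIdeal T ^ n := by
      have := ht σ n
      rwa [SModEq.sub_mem, smul_eq_mul, Ideal.mul_top] at this
    have h2 := map_pow_mem ψ hloc i n _ h1
    have h3 : ψ i (x σ n) - target i σ ∈ maximalIdeal (O i) ^ n :=
      Ideal.pow_le_pow_right (hN'n n) (hx σ n i)
    have := Ideal.sub_mem _ h3 h2
    rwa [map_sub, sub_sub_sub_cancel_left] at this
  have hmem : ψ i (t σ) - target i σ ∈ ⨅ n, maximalIdeal (O i) ^ n := by
    rw [Ideal.mem_iInf]; exact hall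
  rw [Ideal.iInf_pow_eq_bot_of_isLocalRing _ (Ideal.IsMaximal.ne_top inferInstance)] at hmem
  exact sub_eq_zero.mp hmem

/-- **All traces and determinants lie in `T`.** -/
theorem exists_trace_det_function
    (ψ : ∀ i, T →+* O i) (hloc : ∀ i, IsLocalHom (ψ i))
    (htop : ∀ n : ℕ, ∃ N : ℕ, ∀ x : T,
      (∀ i, ψ i x ∈ maximalIdeal (O i) ^ N) → x ∈ maximalIdeal T ^ n)
    (ρ : ∀ i, GaloisRepAdic (O i)) (S : Finset ℕ) (τ : ℕ → T)
    (hfrob : ∀ i, ∀ ℓ : ℕ, ℓ.Prime → ℓ ∉ S → ∀ A : ValuationSubring (AlgebraicClosure ℚ),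
      A.LiesOverPrime ℓ → ∀ φ : GQ, A.IsFrobeniusAt φ ℓ →
        LinearMap.charpoly ((ρ i).ρ φ) = X ^ 2 - C (ψ i (τ ℓ)) * X + C ((ℓ : O i))) :
    ∃ t d : GQ → T, (∀ i σ, ψ i (t σ) = (ρ i).trace σ) ∧
      (∀ i σ, ψ i (d σ) = LinearMap.det ((ρ i).ρ σ)) := by
  classical
  -- matrix models
  choose r hr he using fun i => exists_isEquiv_ofMatrix (ρ i)
  have htr : ∀ i σ, (ρ i).trace σ = (r i σ).trace := fun i σ => by
    rw [trace_eq_of_isEquiv (he i), trace_ofMatrix]
  have hdt : ∀ i σ, LinearMap.det ((ρ i).ρ σ) = (r i σ).det := fun i σ => by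
    rw [det_eq_of_isEquiv (he i), det_ofMatrix]
  have hcp : ∀ i (σ : GQ), LinearMap.charpoly ((ρ i).ρ σ) = (r i σ).charpoly := by
    intro i σ
    obtain ⟨e⟩ := he i
    have h1 : (ofMatrix (r i) (hr i)).ρ σ = e.toLinearEquiv.conj ((ρ i).ρ σ) := by
      ext x
      rw [LinearEquiv.conj_apply, LinearMap.comp_apply, LinearMap.comp_apply,
        LinearEquiv.coe_coe, LinearEquiv.coe_coe, e.map_apply, LinearEquiv.apply_symm_apply]
    have h2 : LinearMap.charpoly ((ofMatrix (r i) (hr i)).ρ σ) = (r i σ).charpoly := by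
      rw [← LinearMap.charpoly_toMatrix _ (stdBasis (r i) (hr i)), ← matrixOf_apply,
        matrixOf_ofMatrix]
    rw [← h2, h1, LinearEquiv.charpoly_conj]
  -- a monotone choice of levels
  choose Nf hNf using htop
  let N' : ℕ → ℕ := fun n => (Finset.range (n + 1)).sup Nf + n
  have hN'mono : Monotone N' := by
    intro a b hab
    exact Nat.add_le_add (Finset.sup_mono (Finset.range_mono (Nat.succ_le_succ hab))) hab
  have hN'ge : ∀ n, Nf n ≤ N' n := fun n =>
    (Finset.le_sup (f := Nf) (Finset.self_mem_range_succ n)).trans (Nat.le_add_right _ _)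
  have hN'n : ∀ n, n ≤ N' n := fun n => Nat.le_add_left _ _
  -- fields of definition at level `N' n`
  choose L hLfin hL using fun n i => hr i (N' n)
  have hfinL : ∀ n, FiniteDimensional ℚ (↥(⨆ i, L n i)) := fun n => by
    have : ∀ i, FiniteDimensional ℚ (L n i) := hLfin n
    exact IntermediateField.finiteDimensional_iSup_of_finite
  -- Frobenius approximations
  have happrox : ∀ (σ : GQ) (n : ℕ), ∃ x y : T,
      (∀ i, ψ i x - (r i σ).trace ∈ maximalIdeal (O i) ^ (N' n)) ∧
      (∀ i, ψ i y - (r i σ).det ∈ maximalIdeal (O i) ^ (N' n)) := by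
    intro σ n
    have := hfinL n
    obtain ⟨ℓ, A, φ, j, hℓ, hℓS, hA, hφ, hfix⟩ :=
      Fermat.Agent.ES.GAL.ChebQbar23.exists_frobenius_inv_mul_pow_fixes (⨆ i, L n i) σ S
    have hkey : ∀ i, (r i φ).trace = ψ i (τ ℓ) ∧ (r i φ).det = (ℓ : O i) := by
      intro i
      have hcharp := hfrob i ℓ hℓ hℓS A hA φ hφ
      rw [hcp] at hcharp
      exact trace_det_of_charpoly (r i φ) _ _ hcharp
    have h3 : ∀ i a b, (r i (σ⁻¹ * φ ^ j) - 1) a b ∈ maximalIdeal (O i) ^ (N' n) :=
      fun i => hL n i (σ⁻¹ * φ ^ j) fun x hx => hfix x (le_iSup (L n) i hx)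
    have hfac : ∀ i, r i (φ ^ j) = r i σ * r i (σ⁻¹ * φ ^ j) := fun i => by
      rw [← map_mul, mul_inv_cancel_left]
    refine ⟨psum (τ ℓ) (ℓ : T) j, (ℓ : T) ^ j, fun i => ?_, fun i => ?_⟩
    · have h1 : ψ i (psum (τ ℓ) (ℓ : T) j) = (r i (φ ^ j)).trace := by
        rw [map_psum, map_pow, trace_pow_eq_psum, (hkey i).1, (hkey i).2, map_natCast]
      rw [h1]
      have h2 : r i (φ ^ j) - r i σ = r i σ * (r i (σ⁻¹ * φ ^ j) - 1) := by
        rw [mul_sub, mul_one, ← hfac]
      rw [← Matrix.trace_sub, h2, Matrix.trace_fin_two, Matrix.mul_apply, Matrix.mul_apply]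
      exact Ideal.add_mem _
        (Ideal.sum_mem _ fun k _ => Ideal.mul_mem_left _ _ (h3 i k 0))
        (Ideal.sum_mem _ fun k _ => Ideal.mul_mem_left _ _ (h3 i k 1))
    · have h1 : ψ i ((ℓ : T) ^ j) = (r i (φ ^ j)).det := by
        rw [map_pow, map_natCast, map_pow, Matrix.det_pow, (hkey i).2]
      rw [h1, hfac, Matrix.det_mul]
      have h4 : (r i (σ⁻¹ * φ ^ j)).det - 1 ∈ maximalIdeal (O i) ^ (N' n) := by
        set M := r i (σ⁻¹ * φ ^ j) with hM
        have e : M.det - 1 = (M - 1) 0 0 + (M - 1) 1 1 + (M - 1) 0 0 * (M - 1) 1 1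
            - (M - 1) 0 1 * (M - 1) 1 0 := by
          rw [Matrix.det_fin_two]
          simp only [Matrix.sub_apply, Matrix.one_apply_eq, Matrix.one_apply_ne (zero_ne_one' (Fin 2)),
            Matrix.one_apply_ne (zero_ne_one' (Fin 2)).symm]
          ring
        rw [e]
        exact Ideal.sub_mem _ (Ideal.add_mem _ (Ideal.add_mem _ (h3 i 0 0) (h3 i 1 1))
          (Ideal.mul_mem_left _ _ (h3 i 1 1))) (Ideal.mul_mem_left _ _ (h3 i 1 0))
      have e2 : (r i σ).det * (r i (σ⁻¹ * φ ^ j)).det - (r i σ).det =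
          (r i σ).det * ((r i (σ⁻¹ * φ ^ j)).det - 1) := by ring
      rw [e2]
      exact Ideal.mul_mem_left _ _ h4
  choose x y hx hy using happrox
  obtain ⟨t, ht⟩ := exists_limit ψ hloc Nf hNf N' hN'mono hN'ge hN'n x
    (fun i σ => (r i σ).trace) (fun σ n i => hx σ n i)
  obtain ⟨d, hd⟩ := exists_limit ψ hloc Nf hNf N' hN'mono hN'ge hN'n y
    (fun i σ => (r i σ).det) (fun σ n i => hy σ n i)
  exact ⟨t, d, fun i σ => by rw [htr]; exact ht i σ, fun i σ => by rw [hdt]; exact hd i σ⟩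

end Main

end Fermat.Agent.M43.CarCheb0
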