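/-
M43 (helper3) [BRIDGE / (BR-2)] BridgeTwist3: **twist by a finite-level character and the trace of
inertia of the twisted representation.**

* `charpoly_eq` : the characteristic polynomial of `ρ σ` (rank two) is
  `X² - tr(ρ σ) X + det(ρ σ)`.
* `trace_eq_of_charpoly_frob` : two `GaloisRepAdic` over a complete noetherian local ring with the
  same Frobenius characteristic polynomials `X² - τ_ℓ X + ℓ` outside a finite set have EQUAL TRACES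
  everywhere (Chebotarev + continuity = `CarCheb0.exists_trace_det_function` with `T = O_i`).
* `twist ρ χ hχ` : the twist `σ ↦ χ σ • ρ σ` by a character of finite level; `twist_apply`,
  `trace_twist`, `charpoly_twist`.
* `trace_core` : **the CORE of the bridge**: `ρ_g` with Frobenius charpolys `X² - ω(ℓ) a'_ℓ X + ℓ`,
  `ρ'` with Frobenius charpolys `X² - a'_ℓ X + ε(ℓ) ℓ`, `ω² ε = 1`, and
  `charpoly ρ'(σ) = X² - (1 + ε(d)) X + ε(d)` at one `σ` with `cycloM σ = d`. Then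
  `tr ρ_g(σ) = ω(d) + ω(d)⁻¹`.
-/
import Mathlib
import Fermat.Agent.M43.CarCheb0
import Fermat.Agent.M48.DirCharGal8
import Fermat.Agent.M48.P1Skeleton8

set_option autoImplicit false
set_option linter.unusedSectionVars false
set_option linter.style.haveILetI false

open Polynomial IsLocalRing

noncomputable section

namespace Fermat.Agent.M43.BridgeTwist3

open Fermat.Agent.M48.DirCharGal8 Fermat.Agent.M48.P1Skeleton8

local notation "Qb" => AlgebraicClosure ℚ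
local notation "GQ" => (AlgebraicClosure ℚ ≃ₐ[ℚ] AlgebraicClosure ℚ)

section Charpoly

variable {A : Type} [CommRing A] [IsLocalRing A]

/-- rank two: `charpoly = X² - tr X + det`. -/
theorem charpoly_eq (ρ : GaloisRepAdic A) (σ : GQ) :
    LinearMap.charpoly (ρ.ρ σ) = X ^ 2 - C (ρ.trace σ) * X + C (LinearMap.det (ρ.ρ σ)) := by
  classical
  let b : Module.Basis (Fin 2) A ρ.V := Module.finBasisOfFinrankEq A ρ.V ρ.finrank_eq
  rw [← LinearMap.charpoly_toMatrix (ρ.ρ σ) b, Matrix.charpoly_fin_two, GaloisRepAdic.trace,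
    LinearMap.trace_eq_matrix_trace A b, LinearMap.det_toMatrix]

theorem trace_det_of_charpoly (ρ : GaloisRepAdic A) (σ : GQ) (t d : A)
    (h : LinearMap.charpoly (ρ.ρ σ) = X ^ 2 - C t * X + C d) :
    ρ.trace σ = t ∧ LinearMap.det (ρ.ρ σ) = d := by
  rw [charpoly_eq] at h
  have h1 := congrArg (fun q : A[X] => q.coeff 1) h
  have h0 := congrArg (fun q : A[X] => q.coeff 0) h
  simp only [coeff_add, coeff_sub, coeff_X_pow, coeff_C_mul, coeff_X_one, coeff_C_zero,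
    coeff_X_zero, mul_zero, mul_one] at h1 h0
  simp at h1 h0
  exact ⟨h1, h0⟩

end Charpoly

/-! ### Same Frobenius characteristic polynomials, same traces -/

section Cheb

variable {A : Type} [CommRing A] [IsLocalRing A] [IsNoetherianRing A]
  [IsAdicComplete (maximalIdeal A) A]

/-- **Chebotarev**: equal Frobenius characteristic polynomials `X² - τ_ℓ X + ℓ` give equal
traces. -/
theorem trace_eq_of_charpoly_frob (ρ₁ ρ₂ : GaloisRepAdic A) (S : Finset ℕ) (τ : ℕ → A)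
    (h₁ : ∀ ℓ : ℕ, ℓ.Prime → ℓ ∉ S → ∀ P : ValuationSubring Qb, P.LiesOverPrime ℓ →
      ∀ φ : GQ, P.IsFrobeniusAt φ ℓ →
        LinearMap.charpoly (ρ₁.ρ φ) = X ^ 2 - C (τ ℓ) * X + C ((ℓ : A)))
    (h₂ : ∀ ℓ : ℕ, ℓ.Prime → ℓ ∉ S → ∀ P : ValuationSubring Qb, P.LiesOverPrime ℓ →
      ∀ φ : GQ, P.IsFrobeniusAt φ ℓ →
        LinearMap.charpoly (ρ₂.ρ φ) = X ^ 2 - C (τ ℓ) * X + C ((ℓ : A)))
    (σ : GQ) : ρ₁.trace σ = ρ₂.trace σ := by
  classical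
  let O : Fin 2 → Type := fun _ => A
  let ψ : ∀ i : Fin 2, A →+* O i := fun _ => RingHom.id A
  have hloc : ∀ i, IsLocalHom (ψ i) := fun _ => ⟨fun _ h => h⟩
  let ρ : ∀ i : Fin 2, GaloisRepAdic (O i) := fun i => if i = 0 then ρ₁ else ρ₂
  obtain ⟨t, -, ht, -⟩ := CarCheb0.exists_trace_det_function (T := A) (O := O) ψ hloc
    (fun n => ⟨n, fun x hx => hx 0⟩) ρ S τ
    (fun i ℓ hℓ hℓS P hP φ hφ => by
      fin_cases i
      · exact h₁ ℓ hℓ hℓS P hP φ hφ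
      · exact h₂ ℓ hℓ hℓS P hP φ hφ)
  have e0 : t σ = ρ₁.trace σ := ht 0 σ
  have e1 : t σ = ρ₂.trace σ := ht 1 σ
  rw [← e0, e1]

end Cheb

/-! ### The twist -/

section Twist

variable {A : Type} [CommRing A] [IsLocalRing A]

/-- **the twist of `ρ` by a character of finite level.** -/
def twist (ρ : GaloisRepAdic A) (χ : GQ →* Aˣ)
    (hχ : ∃ L : IntermediateField ℚ Qb, FiniteDimensional ℚ L ∧
      ∀ σ : GQ, (∀ x ∈ L, σ x = x) → χ σ = 1) : GaloisRepAdic A where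
  V := ρ.V
  finrank_eq := ρ.finrank_eq
  ρ :=
    { toFun := fun σ => ((χ σ : Aˣ) : A) • ρ.ρ σ
      map_one' := by rw [map_one, map_one, Units.val_one, one_smul]
      map_mul' := fun σ τ => by
        rw [map_mul, map_mul, Units.val_mul, smul_mul_smul_comm] }
  isAdicContinuous := by
    intro n
    obtain ⟨L₁, hL₁, h1⟩ := hχ
    obtain ⟨L₂, hL₂, h2⟩ := ρ.isAdicContinuous n
    haveI := hL₁
    haveI := hL₂
    refine ⟨L₁ ⊔ L₂, inferInstance, fun σ hσ v => ?_⟩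
    have e1 := h1 σ fun x hx => hσ x (le_sup_left (a := L₁) (b := L₂) hx)
    have e2 := h2 σ (fun x hx => hσ x (le_sup_right (a := L₁) (b := L₂) hx)) v
    show (((χ σ : Aˣ) : A) • ρ.ρ σ) v - v ∈ _
    rw [e1, Units.val_one, one_smul]
    exact e2

@[simp] theorem twist_apply (ρ : GaloisRepAdic A) (χ : GQ →* Aˣ)
    (hχ : ∃ L : IntermediateField ℚ Qb, FiniteDimensional ℚ L ∧
      ∀ σ : GQ, (∀ x ∈ L, σ x = x) → χ σ = 1) (σ : GQ) :
    (twist ρ χ hχ).ρ σ = ((χ σ : Aˣ) : A) • ρ.ρ σ := rfl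

theorem trace_twist (ρ : GaloisRepAdic A) (χ : GQ →* Aˣ)
    (hχ : ∃ L : IntermediateField ℚ Qb, FiniteDimensional ℚ L ∧
      ∀ σ : GQ, (∀ x ∈ L, σ x = x) → χ σ = 1) (σ : GQ) :
    (twist ρ χ hχ).trace σ = ((χ σ : Aˣ) : A) * ρ.trace σ := by
  show LinearMap.trace A ρ.V (((χ σ : Aˣ) : A) • ρ.ρ σ) = _
  rw [map_smul, smul_eq_mul]
  rfl

theorem det_twist (ρ : GaloisRepAdic A) (χ : GQ →* Aˣ)
    (hχ : ∃ L : IntermediateField ℚ Qb, FiniteDimensional ℚ L ∧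
      ∀ σ : GQ, (∀ x ∈ L, σ x = x) → χ σ = 1) (σ : GQ) :
    LinearMap.det ((twist ρ χ hχ).ρ σ) =
      ((χ σ : Aˣ) : A) ^ 2 * LinearMap.det (ρ.ρ σ) := by
  show LinearMap.det (((χ σ : Aˣ) : A) • ρ.ρ σ) = _
  rw [LinearMap.det_smul]
  have : Module.finrank A ρ.V = 2 := ρ.finrank_eq
  rw [this]

theorem charpoly_twist (ρ : GaloisRepAdic A) (χ : GQ →* Aˣ)
    (hχ : ∃ L : IntermediateField ℚ Qb, FiniteDimensional ℚ L ∧
      ∀ σ : GQ, (∀ x ∈ L, σ x = x) → χ σ = 1) (σ : GQ) (t d : A)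
    (h : LinearMap.charpoly (ρ.ρ σ) = X ^ 2 - C t * X + C d) :
    LinearMap.charpoly ((twist ρ χ hχ).ρ σ) =
      X ^ 2 - C (((χ σ : Aˣ) : A) * t) * X + C (((χ σ : Aˣ) : A) ^ 2 * d) := by
  obtain ⟨h1, h2⟩ := trace_det_of_charpoly ρ σ t d h
  rw [charpoly_eq, trace_twist, det_twist, h1, h2]

end Twist

/-! ### The core of the bridge -/

section Core

variable {A : Type} [CommRing A] [IsLocalRing A] [IsNoetherianRing A]
  [IsAdicComplete (maximalIdeal A) A] {M : ℕ} [NeZero M]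

/-- **(BR-2) the core**: `ρ_g ≅ ρ' ⊗ ω` on traces; the quadratic relation of `ρ'` at `σ` gives
`tr ρ_g(σ) = ω(d) + ω(d)⁻¹`. -/
theorem trace_core (ρg ρ' : GaloisRepAdic A) (S : Finset ℕ)
    (hMS : ∀ q : ℕ, q.Prime → q ∣ M → q ∈ S)
    (ω ε : (ZMod M)ˣ →* Aˣ) (hωε : ∀ d, ω d * ω d * ε d = 1) (a' : ℕ → A)
    (hg : ∀ (ℓ : ℕ) (hℓ : ℓ.Prime) (hℓM : ¬ ℓ ∣ M), ℓ ∉ S →
      ∀ P : ValuationSubring Qb, P.LiesOverPrime ℓ → ∀ φ : GQ, P.IsFrobeniusAt φ ℓ →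
        LinearMap.charpoly (ρg.ρ φ) = X ^ 2 - C (epsAt ω hℓ hℓM * a' ℓ) * X + C ((ℓ : A)))
    (h' : ∀ (ℓ : ℕ) (hℓ : ℓ.Prime) (hℓM : ¬ ℓ ∣ M), ℓ ∉ S →
      ∀ P : ValuationSubring Qb, P.LiesOverPrime ℓ → ∀ φ : GQ, P.IsFrobeniusAt φ ℓ →
        LinearMap.charpoly (ρ'.ρ φ) = X ^ 2 - C (a' ℓ) * X + C (epsAt ε hℓ hℓM * (ℓ : A)))
    (σ : GQ) (d : (ZMod M)ˣ) (hωσ : galChar ω σ = ω d)
    (hσ : LinearMap.charpoly (ρ'.ρ σ) =
      X ^ 2 - C (1 + ((ε d : Aˣ) : A)) * X + C ((ε d : Aˣ) : A)) :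
    ρg.trace σ = ((ω d : Aˣ) : A) + (((ω d)⁻¹ : Aˣ) : A) := by
  classical
  set ρ'' := twist ρ' (galChar ω) (galChar_eq_one_of_fixes ω) with hρ''
  let τ : ℕ → A := fun ℓ => if h : ℓ.Prime ∧ ¬ ℓ ∣ M then epsAt ω h.1 h.2 * a' ℓ else 0
  have hτ : ∀ (ℓ : ℕ) (hℓ : ℓ.Prime) (hℓM : ¬ ℓ ∣ M), τ ℓ = epsAt ω hℓ hℓM * a' ℓ :=
    fun ℓ hℓ hℓM => dif_pos ⟨hℓ, hℓM⟩
  have hnd : ∀ ℓ : ℕ, ℓ.Prime → ℓ ∉ S → ¬ ℓ ∣ M := fun ℓ hℓ hℓS h => hℓS (hMS ℓ hℓ h)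
  have key := trace_eq_of_charpoly_frob ρg ρ'' S τ
    (fun ℓ hℓ hℓS P hP φ hφ => by
      rw [hτ ℓ hℓ (hnd ℓ hℓ hℓS)]
      exact hg ℓ hℓ (hnd ℓ hℓ hℓS) hℓS P hP φ hφ)
    (fun ℓ hℓ hℓS P hP φ hφ => by
      have hℓM := hnd ℓ hℓ hℓS
      rw [hτ ℓ hℓ hℓM, hρ'', charpoly_twist ρ' _ _ φ _ _ (h' ℓ hℓ hℓM hℓS P hP φ hφ),
        galChar_of_isFrobeniusAt ω hℓ hℓM P hP hφ]
      have e : ((ω (ZMod.unitOfCoprime ℓ ((Nat.Prime.coprime_iff_not_dvd hℓ).mpr hℓM)) : Aˣ) : A) ^ 2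
          * (epsAt ε hℓ hℓM * (ℓ : A)) = (ℓ : A) := by
        have h1 := congrArg (fun u : Aˣ => (u : A))
          (hωε (ZMod.unitOfCoprime ℓ ((Nat.Prime.coprime_iff_not_dvd hℓ).mpr hℓM)))
        simp only [Units.val_mul, Units.val_one] at h1
        unfold epsAt
        rw [pow_two, ← mul_assoc, h1, one_mul]
      rw [e]
      rfl) σ
  rw [key, hρ'', trace_twist, hωσ, (trace_det_of_charpoly ρ' σ _ _ hσ).1, mul_add, mul_one]
  congr 1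
  have h1 := hωε d
  have h2 : (ω d)⁻¹ = ω d * ε d := by
    rw [inv_eq_iff_mul_eq_one, ← h1, mul_assoc]
  rw [h2, Units.val_mul]

end Core

end Fermat.Agent.M43.BridgeTwist3
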