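/-
M43 (helper3) [BRIDGE / (BR-4) core] BridgeCore3: **the inertial trace of the representation attached
to an eigen-homomorphism, via a (partially twisted) companion on `Γ_H(L)`**.

Inputs: a complete DVR `𝒪'` (`K = Frac 𝒪'`), levels `L ∣ M` with `4 ∣ M ∨ 9 ∣ M`;
`f ≠ 0` a parabolic homomorphism on `Γ_H(L)` with values in `K`, eigen for the `T_r` (`r ∉ Sf`,
eigenvalues `a' r ∈ 𝒪'`) and for the conjugation action of `Γ₀(L)` (`IsEigZ Ψ`, with `Ψ = ε` on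
`Γ₀(M)`, `ε : (ℤ/M)ˣ →* 𝒪'ˣ` even, trivial on `Hd`); an (LG-q)-shaped relation on the `Hd`-invariant
`p`-power torsion of `J₁(M)` for `σ ∈ 𝓘` with diamond classes `dσ σ`; `ω` with `ω² ε = 1`;
`ρg : GaloisRepAdic 𝒪'` with Frobenius characteristic polynomials `X² - ω(r) a'_r X + r`.
Output: **`tr ρg(σ) = ω(dσ σ) + ω(dσ σ)⁻¹` for `σ ∈ 𝓘`** (`trace_of_eigen`; `trace_of_eigen_cyclo`
is the case `dσ = cycloM M`, where the two compatibility hypotheses are `rfl`).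
-/
import Mathlib
import Fermat.Agent.M43.BridgeRes3
import Fermat.Agent.M43.BridgeInst3
import Fermat.Agent.M43.BridgeTwist3

set_option autoImplicit false
set_option linter.unusedSectionVars false
set_option linter.style.haveILetI false
set_option synthInstance.maxHeartbeats 400000

open TensorProduct Polynomial

noncomputable section

namespace Fermat.Agent.M43.BridgeCore3

open Matrix.SpecialLinearGroup ModularCurve.Period CongruenceSubgroup IsLocalRing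
open scoped MatrixGroups
open Fermat.Agent.M43.HeckeH0 Fermat.Agent.M43.TwistLatB6 Fermat.Agent.M43.TwistLatT6
open Fermat.Agent.M48.ESInv3 Fermat.Agent.M48.CosetOp3 Fermat.Agent.M48.Diamond1
  Fermat.Agent.M48.G1Fin3 Fermat.Agent.M48.J1Defs8 Fermat.Agent.M48.DirCharGal8
  Fermat.Agent.M48.P1Skeleton8 Fermat.Agent.ES.J.CycloChar8

local notation "Qb" => AlgebraicClosure ℚ
local notation "GQ" => (AlgebraicClosure ℚ ≃ₐ[ℚ] AlgebraicClosure ℚ)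

variable {p : ℕ} [Fact p.Prime]
  {𝒪' : Type} [CommRing 𝒪'] [IsDomain 𝒪'] [IsDiscreteValuationRing 𝒪']
  [IsAdicComplete (maximalIdeal 𝒪') 𝒪'] [CharZero 𝒪']

/-- **(BR-4) core.** -/
theorem trace_of_eigen (hp𝒪' : (p : 𝒪') ∈ maximalIdeal 𝒪')
    (K : Type) [Field K] [Algebra 𝒪' K] [IsFractionRing 𝒪' K]
    {L M : ℕ} [NeZero L] [NeZero M] (hLM : L ∣ M) (h49 : 4 ∣ M ∨ 9 ∣ M)
    (Sf : Finset ℕ) (hpS : p ∈ Sf) (hMS : ∀ q : ℕ, q.Prime → q ∣ M → q ∈ Sf)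
    (S' : Subgroup (ZMod L)ˣ)
    (f : Additive (GH L S') →+ K) (hf0 : f ≠ 0) (hpar : IsParabolicHom (GH L S') f)
    (Ψ : ℤ → K) (hΨ : IsEigZ Ψ (Gamma0 L) f)
    (a' : ℕ → 𝒪')
    (hT : ∀ (r : ℕ) [Fact r.Prime] (hrL : ¬ r ∣ L), r ∉ (↑Sf : Set ℕ) → ∀ (σ : Gamma0 L)
      (hσ : Gamma0Map L σ = (r : ZMod L)),
      (heckeH hrL σ hσ S').addHom f = algebraMap 𝒪' K (a' r) • f)
    (ε ω : (ZMod M)ˣ →* 𝒪'ˣ) (hε1 : ε (-1) = 1) (hωε : ∀ d, ω d * ω d * ε d = 1)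
    (hε : ∀ g : Gamma0 M,
      Ψ ((g : SL(2, ℤ)) 1 1) = algebraMap 𝒪' K ((ε (unitOf g) : 𝒪'ˣ) : 𝒪'))
    (Hd : Subgroup (ZMod M)ˣ) (𝓘 : Set GQ) (dσ : GQ → (ZMod M)ˣ) (c : ℕ) (hc : c ≠ 0)
    (hLG : ∀ σ ∈ 𝓘, ∀ (k : ℕ) (y : J1 M), p ^ k • y = 0 → (∀ h ∈ Hd, dia1 Qb M h y = y) →
      c • (σ • (σ • y - dia1 Qb M (dσ σ) y) - (σ • y - dia1 Qb M (dσ σ) y)) = 0)
    (hεH : ∀ h ∈ Hd, ε h = 1)
    (hdet : ∀ σ ∈ 𝓘, ((ε (dσ σ) : 𝒪'ˣ) : 𝒪') =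
      ((galChar ε σ : 𝒪'ˣ) : 𝒪') * ((cycloO p hp𝒪' σ : 𝒪'ˣ) : 𝒪'))
    (hωσ : ∀ σ ∈ 𝓘, galChar ω σ = ω (dσ σ))
    (ρg : GaloisRepAdic 𝒪')
    (hg : ∀ (ℓ : ℕ) (hℓ : ℓ.Prime) (hℓM : ¬ ℓ ∣ M), ℓ ∉ Sf →
      ∀ P : ValuationSubring Qb, P.LiesOverPrime ℓ → ∀ φ : GQ, P.IsFrobeniusAt φ ℓ →
        LinearMap.charpoly (ρg.ρ φ) = X ^ 2 - C (epsAt ω hℓ hℓM * a' ℓ) * X + C ((ℓ : 𝒪')))
    (σ : GQ) (hσ : σ ∈ 𝓘) :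
    ρg.trace σ = ((ω (dσ σ) : 𝒪'ˣ) : 𝒪') + (((ω (dσ σ))⁻¹ : 𝒪'ˣ) : 𝒪') := by
  haveI : CharZero K := charZero_of_injective_algebraMap (IsFractionRing.injective 𝒪' K)
  -- the eigenvector of `Lam1 M`
  obtain ⟨v, hv0, hvT, hvD⟩ := Fermat.Agent.M43.BridgeRes3.exists_lam1_eigenvector hLM S'
    (↑Sf : Set ℕ) f hf0 hpar Ψ hΨ (fun r => algebraMap 𝒪' K (a' r)) hT
    (fun d => algebraMap 𝒪' K ((ε d : 𝒪'ˣ) : 𝒪')) hε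
  -- the companion representation
  obtain ⟨ρ', h1, -, h3⟩ := Fermat.Agent.M43.BridgeInst3.exists_rep_of_lam1 h49 hpS hMS hp𝒪' a' ε
    hε1 K v hv0 hvT hvD Hd 𝓘 dσ c hc hLG hεH
  exact Fermat.Agent.M43.BridgeTwist3.trace_core ρg ρ' Sf hMS ω ε hωε a'
    hg (fun ℓ hℓ hℓM hℓS P hP φ hφ => h1 ℓ hℓ hℓM hℓS P hP φ hφ) σ (dσ σ) (hωσ σ hσ)
    (h3 σ hσ (hdet σ hσ))

/-- **(BR-4) core, inertial form**: `𝓘` the inertia group at a place `A` over `q ≠ p`, diamond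
classes `dσ = cycloM M` (the compatibilities are automatic). -/
theorem trace_of_eigen_inertia (hp𝒪' : (p : 𝒪') ∈ maximalIdeal 𝒪')
    (K : Type) [Field K] [Algebra 𝒪' K] [IsFractionRing 𝒪' K]
    {L M : ℕ} [NeZero L] [NeZero M] (hLM : L ∣ M) (h49 : 4 ∣ M ∨ 9 ∣ M)
    (Sf : Finset ℕ) (hpS : p ∈ Sf) (hMS : ∀ q : ℕ, q.Prime → q ∣ M → q ∈ Sf)
    (S' : Subgroup (ZMod L)ˣ)
    (f : Additive (GH L S') →+ K) (hf0 : f ≠ 0) (hpar : IsParabolicHom (GH L S') f)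
    (Ψ : ℤ → K) (hΨ : IsEigZ Ψ (Gamma0 L) f)
    (a' : ℕ → 𝒪')
    (hT : ∀ (r : ℕ) [Fact r.Prime] (hrL : ¬ r ∣ L), r ∉ (↑Sf : Set ℕ) → ∀ (σ : Gamma0 L)
      (hσ : Gamma0Map L σ = (r : ZMod L)),
      (heckeH hrL σ hσ S').addHom f = algebraMap 𝒪' K (a' r) • f)
    (ε ω : (ZMod M)ˣ →* 𝒪'ˣ) (hε1 : ε (-1) = 1) (hωε : ∀ d, ω d * ω d * ε d = 1)
    (hε : ∀ g : Gamma0 M,
      Ψ ((g : SL(2, ℤ)) 1 1) = algebraMap 𝒪' K ((ε (unitOf g) : 𝒪'ˣ) : 𝒪'))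
    (Hd : Subgroup (ZMod M)ˣ) {q : ℕ} (hq : q.Prime) (hqp : q ≠ p) (A : ValuationSubring Qb)
    (hA : A.LiesOverPrime q) (c : ℕ) (hc : c ≠ 0)
    (hLG : ∀ σ ∈ A.inertiaSubgroupIn ℚ, ∀ (k : ℕ) (y : J1 M), p ^ k • y = 0 →
      (∀ h ∈ Hd, dia1 Qb M h y = y) →
      c • (σ • (σ • y - dia1 Qb M (cycloM M σ) y) - (σ • y - dia1 Qb M (cycloM M σ) y)) = 0)
    (hεH : ∀ h ∈ Hd, ε h = 1)
    (ρg : GaloisRepAdic 𝒪')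
    (hg : ∀ (ℓ : ℕ) (hℓ : ℓ.Prime) (hℓM : ¬ ℓ ∣ M), ℓ ∉ Sf →
      ∀ P : ValuationSubring Qb, P.LiesOverPrime ℓ → ∀ φ : GQ, P.IsFrobeniusAt φ ℓ →
        LinearMap.charpoly (ρg.ρ φ) = X ^ 2 - C (epsAt ω hℓ hℓM * a' ℓ) * X + C ((ℓ : 𝒪')))
    (σ : GQ) (hσ : σ ∈ A.inertiaSubgroupIn ℚ) :
    ρg.trace σ = ((ω (cycloM M σ) : 𝒪'ˣ) : 𝒪') + (((ω (cycloM M σ))⁻¹ : 𝒪'ˣ) : 𝒪') :=
  trace_of_eigen hp𝒪' K hLM h49 Sf hpS hMS S' f hf0 hpar Ψ hΨ a' hT ε ω hε1 hωε hε Hd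
    (↑(A.inertiaSubgroupIn ℚ) : Set GQ) (cycloM M) c hc hLG hεH
    (fun τ hτ => by
      rw [cycloO_of_mem_inertia p hp𝒪' hq hqp A hA hτ, Units.val_one, mul_one]
      rfl)
    (fun τ _ => rfl) ρg hg σ hσ

end Fermat.Agent.M43.BridgeCore3
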