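/-
M43 (helper3) [BRIDGE / (BR-4) eigenvector level] BridgeEig3: **the inertial trace at a
Taylor–Wiles prime `q₀` of the representation attached to an eigenvector on `Γ_H(N)`, `H` of
product type** — in the vocabulary of the Hecke side (lead's `CycInst0.dia`, `HeckeH0.heckeH`,
helper6's `SQ Kq Q N`).

Inputs: `f ≠ 0` parabolic on `GH N (SQ Kq Q N)` with values in `K = Frac 𝒪'`, with
`dia H d f = χ(d) f` (`χ : (ℤ/N)ˣ →* 𝒪'ˣ`), `T_r f = t_r f` (`r ∉ Sf`), an exponent `e` with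
`χ^(2e) = χ`, `ρg : GaloisRepAdic 𝒪'` with Frobenius characteristic polynomials
`X² - χ(ℓ)^e t_ℓ X + ℓ`, a prime `q₀ ∈ Q`, `q₀ ≠ p`, a level `Mb` (multiple of
`N ∏_{q ∈ Q, q ≠ q₀} q`, `4 ∣ Mb ∨ 9 ∣ Mb`) at which (LG-q) holds on the `Hd`-invariants
(`Hd mod q₀ ⊆ Kq q₀`), primitive additive characters mod `q ∈ Q ∖ {q₀}` in `K`.
Output: **`tr ρg(σ) = χ(c_σ)^e + χ(c_σ)^(-e)`, `c_σ = cycloM N σ`, for `σ` in the inertia group at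
`q₀`.**

Proof: `χ` is trivial on `H` (as `f ≠ 0`), so it factors as `∏ χ_q` (`BridgeChar3`); the partial
lattice twist by `∏_{q ≠ q₀} χ_q^e` (`BridgePart3.exists_embeds_rel`) moves `f` to an eigenvector
`f'` on `Γ_{H'}(N ∏_{q≠q₀} q)` whose conjugation character `χ_{q₀}⁻¹` is concentrated at `q₀`;
then `BridgeCore3.trace_of_eigen_inertia`.
-/
import Mathlib
import Fermat.Agent.M43.BridgeCore3
import Fermat.Agent.M43.BridgePart3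
import Fermat.Agent.M43.BridgeChar3

set_option autoImplicit false
set_option linter.unusedSectionVars false
set_option linter.style.haveILetI false
set_option synthInstance.maxHeartbeats 400000

open TensorProduct Polynomial

noncomputable section

namespace Fermat.Agent.M43.BridgeEig3

open Matrix.SpecialLinearGroup ModularCurve.Period CongruenceSubgroup IsLocalRing
open scoped MatrixGroups
open Fermat.Agent.M43.HeckeH0 Fermat.Agent.M43.TwistLatB6 Fermat.Agent.M43.TwistLatT6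
  Fermat.Agent.M43.TwistLatX6 Fermat.Agent.M43.TwistLatE6 Fermat.Agent.M43.TwistLatI6
  Fermat.Agent.M43.TwistLatD6 Fermat.Agent.M43.CycInst0
open Fermat.Agent.M48.ESInv3 Fermat.Agent.M48.CosetOp3 Fermat.Agent.M48.Diamond1
  Fermat.Agent.M48.G1Fin3 Fermat.Agent.M48.J1Defs8 Fermat.Agent.M48.DirCharGal8
  Fermat.Agent.M48.P1Skeleton8 Fermat.Agent.ES.J.CycloChar8

local notation "Qb" => AlgebraicClosure ℚ
local notation "GQ" => (AlgebraicClosure ℚ ≃ₐ[ℚ] AlgebraicClosure ℚ)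

/-! ### Small lemmas -/

/-- the total unit of `ℓ` modulo `q` (`1` if not coprime). -/
def unitAt (ℓ q : ℕ) : (ZMod q)ˣ :=
  if h : ℓ.Coprime q then ZMod.unitOfCoprime ℓ h else 1

theorem unitAt_of_coprime {ℓ q : ℕ} (h : ℓ.Coprime q) : unitAt ℓ q = ZMod.unitOfCoprime ℓ h :=
  dif_pos h

theorem coe_unitAt {ℓ q : ℕ} (h : ℓ.Coprime q) : ((unitAt ℓ q : (ZMod q)ˣ) : ZMod q) = (ℓ : ZMod q) := by
  rw [unitAt_of_coprime h, ZMod.coe_unitOfCoprime]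

theorem unitsMap_unitOfCoprime {ℓ q N : ℕ} (hN : ℓ.Coprime N) (hq : q ∣ N) :
    ZMod.unitsMap hq (ZMod.unitOfCoprime ℓ hN) = unitAt ℓ q := by
  have hc : ℓ.Coprime q := Nat.Coprime.coprime_dvd_right hq hN
  apply Units.ext
  rw [coe_unitAt hc, ZMod.unitsMap_val, ZMod.coe_unitOfCoprime, ZMod.cast_natCast hq]

/-- the total mod-`q` cyclotomic character (`1` for `q = 0`). -/
def cycloAt (σ : GQ) (q : ℕ) : (ZMod q)ˣ :=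
  if h : q ≠ 0 then (haveI : NeZero q := ⟨h⟩; cycloM q σ) else 1

theorem cycloAt_eq (σ : GQ) (q : ℕ) [NeZero q] : cycloAt σ q = cycloM q σ :=
  dif_pos (NeZero.ne q)

theorem algebraMap_units_inv {R K : Type*} [CommRing R] [Field K] [Algebra R K] (u : Rˣ) :
    algebraMap R K ((u⁻¹ : Rˣ) : R) = (algebraMap R K (u : R))⁻¹ := by
  apply eq_inv_of_mul_eq_one_left
  rw [← map_mul, ← Units.val_mul, inv_mul_cancel, Units.val_one, map_one]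

/-! ### The main theorem -/

variable {p : ℕ} [Fact p.Prime]
  {𝒪' : Type} [CommRing 𝒪'] [IsDomain 𝒪'] [IsDiscreteValuationRing 𝒪']
  [IsAdicComplete (maximalIdeal 𝒪') 𝒪'] [CharZero 𝒪']

/-- **BRIDGE, eigenvector level** (`Q = Q₁ ∪ {q₀}`). -/
theorem trace_of_eigen_SQ_aux (hp𝒪' : (p : 𝒪') ∈ maximalIdeal 𝒪')
    (K : Type) [Field K] [Algebra 𝒪' K] [IsFractionRing 𝒪' K]
    {N Mb : ℕ} [NeZero N] [NeZero Mb]
    (Kq : ∀ q : ℕ, Subgroup (ZMod q)ˣ) (Q Q₁ : Finset ℕ) {q₀ : ℕ} (hQ₁ : Q = Q₁ ∪ {q₀})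
    (hq₀Q₁ : q₀ ∉ Q₁)
    (hQ : ∀ q ∈ Q, q.Prime ∧ q ∣ N ∧ ¬ q ∣ N / q) (hq₀p : q₀ ≠ p)
    (hneg : (-1 : (ZMod q₀)ˣ) ∈ Kq q₀)
    (hζ : ∀ q ∈ Q₁, ∃ e : AddChar (ZMod q) K, e.IsPrimitive)
    (hNMb : N * ∏ q ∈ Q₁, q ∣ Mb) (h49 : 4 ∣ Mb ∨ 9 ∣ Mb)
    (Sf : Finset ℕ) (hpS : p ∈ Sf) (hMS : ∀ q : ℕ, q.Prime → q ∣ Mb → q ∈ Sf)
    (f : Additive (GH N (SQ Kq Q N)) →+ K) (hf0 : f ≠ 0)
    (hpar : IsParabolicHom (GH N (SQ Kq Q N)) f)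
    (χ : (ZMod N)ˣ →* 𝒪'ˣ)
    (hdia : ∀ d : (ZMod N)ˣ,
      dia (SQ Kq Q N) d f = algebraMap 𝒪' K ((χ d : 𝒪'ˣ) : 𝒪') • f)
    (t : ℕ → 𝒪')
    (hT : ∀ (r : ℕ) [Fact r.Prime] (hrN : ¬ r ∣ N), r ∉ (↑Sf : Set ℕ) → ∀ (σ : Gamma0 N)
      (hσ : Gamma0Map N σ = (r : ZMod N)),
      (heckeH hrN σ hσ (SQ Kq Q N)).addHom f = algebraMap 𝒪' K (t r) • f)
    (e : ℕ) (he : ∀ d, χ d ^ (2 * e) = χ d)
    (Hd : Subgroup (ZMod Mb)ˣ) (hHd : ∀ h ∈ Hd, ∀ hq : q₀ ∣ Mb, ZMod.unitsMap hq h ∈ Kq q₀)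
    (A : ValuationSubring Qb) (hA : A.LiesOverPrime q₀) (c : ℕ) (hc : c ≠ 0)
    (hLG : ∀ σ ∈ A.inertiaSubgroupIn ℚ, ∀ (k : ℕ) (y : J1 Mb), p ^ k • y = 0 →
      (∀ h ∈ Hd, dia1 Qb Mb h y = y) →
      c • (σ • (σ • y - dia1 Qb Mb (cycloM Mb σ) y) - (σ • y - dia1 Qb Mb (cycloM Mb σ) y)) = 0)
    (ρg : GaloisRepAdic 𝒪')
    (hg : ∀ (ℓ : ℕ) (hℓ : ℓ.Prime) (hℓN : ¬ ℓ ∣ N), ℓ ∉ Sf →
      ∀ P : ValuationSubring Qb, P.LiesOverPrime ℓ → ∀ φ : GQ, P.IsFrobeniusAt φ ℓ →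
        LinearMap.charpoly (ρg.ρ φ) = X ^ 2 - C (epsAt χ hℓ hℓN ^ e * t ℓ) * X + C ((ℓ : 𝒪')))
    (σ : GQ) (hσ : σ ∈ A.inertiaSubgroupIn ℚ) :
    ρg.trace σ = (((χ (cycloM N σ)) ^ e : 𝒪'ˣ) : 𝒪') + ((((χ (cycloM N σ)) ^ e)⁻¹ : 𝒪'ˣ) : 𝒪') := by
  classical
  subst hQ₁
  haveI : CharZero K := charZero_of_injective_algebraMap (IsFractionRing.injective 𝒪' K)
  have hinjK := IsFractionRing.injective 𝒪' K
  have hq₀Q : q₀ ∈ Q₁ ∪ {q₀} := Finset.mem_union_right _ (Finset.mem_singleton_self q₀)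
  have hq₀ := hQ q₀ hq₀Q
  have hQ₁' : ∀ q ∈ Q₁, q.Prime ∧ q ∣ N ∧ ¬ q ∣ N / q :=
    fun q hq => hQ q (Finset.mem_union_left _ hq)
  -- `χ` is trivial on `H`
  have hχH : ∀ u ∈ SQ Kq (Q₁ ∪ {q₀}) N, χ u = 1 := by
    intro u hu
    have h1 := hdia u
    rw [dia_of_mem _ hu f] at h1
    obtain ⟨x, hx⟩ : ∃ x, f x ≠ 0 := by
      by_contra hcon
      push Not at hcon
      exact hf0 (AddMonoidHom.ext hcon)
    have h2 := congrArg (fun φ : Additive (GH N (SQ Kq (Q₁ ∪ {q₀}) N)) →+ K => φ x) h1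
    have h3 : f x = algebraMap 𝒪' K ((χ u : 𝒪'ˣ) : 𝒪') * f x := h2
    have h4 : algebraMap 𝒪' K ((χ u : 𝒪'ˣ) : 𝒪') = 1 := by
      have h5 : (algebraMap 𝒪' K ((χ u : 𝒪'ˣ) : 𝒪') - 1) * f x = 0 := by
        rw [sub_mul, one_mul, ← h3, sub_self]
      exact sub_eq_zero.mp ((mul_eq_zero.mp h5).resolve_right hx)
    apply Units.ext
    apply hinjK
    rw [h4, Units.val_one, map_one]
  obtain ⟨χq, hχqK, hχqv, hfac⟩ := BridgeChar3.exists_factor_hom hQ Kq χ hχH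
  -- `χq q u ^ (2e) = χq q u`
  have heq : ∀ q (u : (ZMod q)ˣ), χq q u ^ (2 * e) = χq q u := by
    intro q u
    obtain ⟨v, hv⟩ := hχqv q u
    rw [hv, he]
  -- the characters
  let uK : 𝒪'ˣ →* Kˣ := Units.map (algebraMap 𝒪' K : 𝒪' →* K)
  have huK : Function.Injective uK := by
    intro a b hab
    apply Units.ext
    apply hinjK
    exact congrArg Units.val hab
  let ψ : ∀ q : ℕ, MulChar (ZMod q) K := fun q =>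
    MulChar.ofUnitHom (uK.comp ((invMonoidHom : 𝒪'ˣ →* 𝒪'ˣ).comp (χq q)))
  let ω : ∀ q : ℕ, MulChar (ZMod q) K := fun q =>
    MulChar.ofUnitHom (uK.comp ((powMonoidHom e : 𝒪'ˣ →* 𝒪'ˣ).comp (χq q)))
  have hψu : ∀ q (u : (ZMod q)ˣ), ψ q (u : ZMod q)
      = algebraMap 𝒪' K (((χq q u)⁻¹ : 𝒪'ˣ) : 𝒪') := by
    intro q u
    show MulChar.ofUnitHom _ (u : ZMod q) = _
    rw [MulChar.ofUnitHom_coe]
    rfl
  have hωu : ∀ q (u : (ZMod q)ˣ), ω q (u : ZMod q)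
      = algebraMap 𝒪' K (((χq q u) ^ e : 𝒪'ˣ) : 𝒪') := by
    intro q u
    show MulChar.ofUnitHom _ (u : ZMod q) = _
    rw [MulChar.ofUnitHom_coe]
    rfl
  let χK : MulChar (ZMod N) K := MulChar.ofUnitHom (uK.comp χ)
  have hχKu : ∀ d : (ZMod N)ˣ, χK (d : ZMod N) = algebraMap 𝒪' K ((χ d : 𝒪'ˣ) : 𝒪') := by
    intro d
    show MulChar.ofUnitHom _ (d : ZMod N) = _
    rw [MulChar.ofUnitHom_coe]
    rfl
  have hdia' : ∀ d : (ZMod N)ˣ, dia (SQ Kq (Q₁ ∪ {q₀}) N) d f = χK (d : ZMod N) • f := by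
    intro d
    rw [hχKu, hdia]
  have hE0 := isEigZ_of_dia (SQ Kq (Q₁ ∪ {q₀}) N) hdia'
  -- the conjugation character is the product character
  have hfE : IsEigZ (PsiQ ψ (Q₁ ∪ {q₀})) (Gamma0 N) f := by
    refine IsEigZ.congr hE0 ?_
    intro g hg
    show PsiQ ψ (Q₁ ∪ {q₀}) (g 1 1) = (χK ((g 1 1 : ℤ) : ZMod N))⁻¹
    have h1 : ((g 1 1 : ℤ) : ZMod N) = ((unitOf (⟨g, hg⟩ : Gamma0 N) : (ZMod N)ˣ) : ZMod N) := rfl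
    rw [h1, hχKu]
    have h2 := hfac (unitOf (⟨g, hg⟩ : Gamma0 N))
      (fun q => if h : q ∣ N then ZMod.unitsMap h (unitOf (⟨g, hg⟩ : Gamma0 N)) else 1)
      (fun q _ h => by rw [dif_pos h])
    rw [h2, Units.coe_prod, map_prod, ← Finset.prod_inv_distrib]
    unfold PsiQ
    refine Finset.prod_congr rfl fun q hq => ?_
    have hqN : q ∣ N := (hQ q hq).2.1
    rw [dif_pos hqN, ← cast_unitsMap hqN h1.symm, hψu, algebraMap_units_inv]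
  -- the hypotheses of the partial twist
  have hdisj : Disjoint Q₁ ({q₀} : Finset ℕ) := Finset.disjoint_singleton_right.mpr hq₀Q₁
  have hQ₀ : ∀ q ∈ ({q₀} : Finset ℕ), q.Prime ∧ q ∣ N := by
    intro q hq
    rw [Finset.mem_singleton] at hq
    subst hq
    exact ⟨hq₀.1, hq₀.2.1⟩
  have hψK : ∀ q ∈ Q₁ ∪ {q₀}, ∀ u ∈ Kq q, ψ q ((u : (ZMod q)ˣ) : ZMod q) = 1 := by
    intro q hq u hu
    rw [hψu, hχqK q hq u hu, inv_one, Units.val_one, map_one]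
  have hωψ : ∀ q ∈ Q₁, ω q ^ 2 * ψ q = 1 := by
    intro q _
    apply MulChar.ext
    intro u
    rw [MulChar.mul_apply, MulChar.pow_apply_coe, MulChar.one_apply_coe, hωu, hψu, ← map_pow,
      ← map_mul, ← Units.val_pow_eq_pow_val, ← Units.val_mul, ← pow_mul, mul_comm e 2, heq,
      mul_inv_cancel, Units.val_one, map_one]
  have hω1 : ∀ q ∈ Q₁, ψ q = 1 → ω q = 1 := by
    intro q _ h1
    apply MulChar.ext
    intro u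
    have h2 : ψ q (u : ZMod q) = 1 := by rw [h1, MulChar.one_apply_coe]
    rw [hψu] at h2
    have h3 : (χq q u)⁻¹ = 1 := by
      apply Units.ext
      apply hinjK
      rw [h2, Units.val_one, map_one]
    rw [inv_eq_one] at h3
    rw [hωu, h3, one_pow, Units.val_one, map_one, MulChar.one_apply_coe]
  set L' : ℕ := N * ∏ q ∈ Q₁, q with hL'
  have hprodne : (∏ q ∈ Q₁, q) ≠ 0 :=
    Finset.prod_ne_zero_iff.mpr fun q hq => (hQ₁' q hq).1.ne_zero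
  haveI : NeZero L' := ⟨Nat.mul_ne_zero (NeZero.ne N) hprodne⟩
  have hNL' : N ∣ L' := dvd_mul_right N _
  obtain ⟨ι, hι⟩ := BridgePart3.exists_embeds_rel (K := K) Kq ψ ω {q₀} Q₁ N hdisj hQ₁' hQ₀ hψK
    hωψ hω1 hζ L' rfl
  have hf'0 : ι f ≠ 0 := fun h => hf0 (hι.inj f hfE h)
  have hpar' := hι.par f hfE hpar
  have hΨ' := hι.eig f hfE
  -- the Hecke eigenvalues of `ι f`
  let a' : ℕ → 𝒪' := fun r => ((∏ q ∈ Q₁, (χq q (unitAt r q)) ^ e : 𝒪'ˣ) : 𝒪') * t r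
  have hcop : ∀ (r : ℕ), r.Prime → ¬ r ∣ N → ∀ q ∈ Q₁ ∪ {q₀}, r.Coprime q := by
    intro r hr hrN q hq
    have hqN := (hQ q hq).2.1
    rw [Nat.Prime.coprime_iff_not_dvd hr]
    intro hrq
    exact hrN (hrq.trans hqN)
  have hT' : ∀ (r : ℕ) [Fact r.Prime] (hrL : ¬ r ∣ L'), r ∉ (↑Sf : Set ℕ) → ∀ (σ' : Gamma0 L')
      (hσ' : Gamma0Map L' σ' = (r : ZMod L')),
      (heckeH hrL σ' hσ' (SQ Kq {q₀} L')).addHom (ι f) = algebraMap 𝒪' K (a' r) • ι f := by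
    intro r hrp hrL hrS σ' hσ'
    have hrN : ¬ r ∣ N := fun h => hrL (h.trans hNL')
    obtain ⟨σ₀, hσ₀⟩ := exists_sigma hrN
    rw [hι.hecke r hrL hrN σ' hσ' σ₀ hσ₀ f hfE, hT r hrN hrS σ₀ hσ₀, hι.smul _ f hfE, smul_smul]
    congr 1
    show _ = algebraMap 𝒪' K (((∏ q ∈ Q₁, (χq q (unitAt r q)) ^ e : 𝒪'ˣ) : 𝒪') * t r)
    rw [map_mul, Units.coe_prod, map_prod]
    congr 1
    refine Finset.prod_congr rfl fun q hq => ?_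
    rw [← coe_unitAt (hcop r hrp.out hrN q (Finset.mem_union_left _ hq)), hωu]
  -- the characters at level `Mb`
  have hq₀L' : q₀ ∣ L' := hq₀.2.1.trans hNL'
  have hq₀Mb : q₀ ∣ Mb := hq₀L'.trans hNMb
  have hNMb' : N ∣ Mb := hNL'.trans hNMb
  let ε : (ZMod Mb)ˣ →* 𝒪'ˣ :=
    ((invMonoidHom : 𝒪'ˣ →* 𝒪'ˣ).comp (χq q₀)).comp (ZMod.unitsMap hq₀Mb)
  let ω' : (ZMod Mb)ˣ →* 𝒪'ˣ :=
    ((powMonoidHom e : 𝒪'ˣ →* 𝒪'ˣ).comp (χq q₀)).comp (ZMod.unitsMap hq₀Mb)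
  have hεd : ∀ d, ε d = (χq q₀ (ZMod.unitsMap hq₀Mb d))⁻¹ := fun d => rfl
  have hω'd : ∀ d, ω' d = (χq q₀ (ZMod.unitsMap hq₀Mb d)) ^ e := fun d => rfl
  have hε1 : ε (-1) = 1 := by
    rw [hεd, inv_eq_one]
    have h1 : ZMod.unitsMap hq₀Mb (-1) = -1 := by
      apply Units.ext
      rw [ZMod.unitsMap_val, Units.val_neg, Units.val_one, Units.val_neg, Units.val_one,
        ZMod.cast_neg hq₀Mb, ZMod.cast_one hq₀Mb]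
    rw [h1]
    exact hχqK q₀ hq₀Q _ hneg
  have hωε : ∀ d, ω' d * ω' d * ε d = 1 := by
    intro d
    rw [hεd, hω'd, ← pow_add, ← two_mul, heq, mul_inv_cancel]
  have hε : ∀ g : Gamma0 Mb, PsiQ ψ {q₀} ((g : SL(2, ℤ)) 1 1)
      = algebraMap 𝒪' K ((ε (unitOf g) : 𝒪'ˣ) : 𝒪') := by
    intro g
    unfold PsiQ
    rw [Finset.prod_singleton, hεd, ← hψu]
    congr 1
    exact (cast_unitsMap hq₀Mb (u := unitOf g) (d := (g : SL(2, ℤ)) 1 1) rfl).symm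
  have hεH : ∀ h ∈ Hd, ε h = 1 := by
    intro h hh
    rw [hεd, inv_eq_one]
    exact hχqK q₀ hq₀Q _ (hHd h hh hq₀Mb)
  -- the Frobenius characteristic polynomials
  have hg' : ∀ (ℓ : ℕ) (hℓ : ℓ.Prime) (hℓM : ¬ ℓ ∣ Mb), ℓ ∉ Sf →
      ∀ P : ValuationSubring Qb, P.LiesOverPrime ℓ → ∀ φ : GQ, P.IsFrobeniusAt φ ℓ →
        LinearMap.charpoly (ρg.ρ φ) = X ^ 2 - C (epsAt ω' hℓ hℓM * a' ℓ) * X + C ((ℓ : 𝒪')) := by
    intro ℓ hℓ hℓM hℓS P hP φ hφ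
    have hℓN : ¬ ℓ ∣ N := fun h => hℓM (h.trans hNMb')
    rw [hg ℓ hℓ hℓN hℓS P hP φ hφ]
    have hcN : ℓ.Coprime N := (Nat.Prime.coprime_iff_not_dvd hℓ).mpr hℓN
    have hcM : ℓ.Coprime Mb := (Nat.Prime.coprime_iff_not_dvd hℓ).mpr hℓM
    have h2 := hfac (ZMod.unitOfCoprime ℓ hcN) (unitAt ℓ)
      (fun q _ h => unitsMap_unitOfCoprime hcN h)
    have hU : (χ (ZMod.unitOfCoprime ℓ hcN)) ^ e
        = (χq q₀ (unitAt ℓ q₀)) ^ e * ∏ q ∈ Q₁, (χq q (unitAt ℓ q)) ^ e := by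
      rw [h2, Finset.prod_union hdisj, Finset.prod_singleton, mul_pow, Finset.prod_pow, mul_comm]
    have h3 : epsAt χ hℓ hℓN ^ e * t ℓ = epsAt ω' hℓ hℓM * a' ℓ := by
      show ((χ (ZMod.unitOfCoprime ℓ hcN) : 𝒪'ˣ) : 𝒪') ^ e * t ℓ
        = ((ω' (ZMod.unitOfCoprime ℓ hcM) : 𝒪'ˣ) : 𝒪')
          * (((∏ q ∈ Q₁, (χq q (unitAt ℓ q)) ^ e : 𝒪'ˣ) : 𝒪') * t ℓ)
      rw [hω'd, unitsMap_unitOfCoprime hcM hq₀Mb, ← Units.val_pow_eq_pow_val, hU, Units.val_mul,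
        mul_assoc]
    rw [h3]
  have key := BridgeCore3.trace_of_eigen_inertia hp𝒪' K (L := L') (M := Mb) hNMb h49 Sf hpS hMS
    (SQ Kq {q₀} L') (ι f) hf'0 hpar' (PsiQ ψ {q₀}) hΨ' a' hT' ε ω' hε1 hωε hε Hd hq₀.1 hq₀p A hA
    c hc hLG hεH ρg hg' σ hσ
  haveI : NeZero q₀ := ⟨hq₀.1.ne_zero⟩
  have h1 : ω' (cycloM Mb σ) = (χ (cycloM N σ)) ^ e := by
    rw [hω'd, BridgeChar3.unitsMap_cycloM hq₀Mb σ]
    have h2 := hfac (cycloM N σ) (cycloAt σ) (fun q hq h => by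
      haveI : NeZero q := ⟨(hQ q hq).1.ne_zero⟩
      rw [cycloAt_eq, BridgeChar3.unitsMap_cycloM h σ])
    rw [h2, Finset.prod_union hdisj, Finset.prod_singleton, cycloAt_eq,
      Finset.prod_eq_one, one_mul]
    intro q hq
    haveI : NeZero q := ⟨(hQ₁' q hq).1.ne_zero⟩
    have hne : ¬ q₀ ∣ q := by
      intro hd
      have : q₀ = q := (Nat.prime_dvd_prime_iff_eq hq₀.1 (hQ₁' q hq).1).mp hd
      exact hq₀Q₁ (this ▸ hq)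
    rw [cycloAt_eq, cycloM_of_mem_inertia (M := q) hq₀.1 hne A hA hσ, map_one]
  rw [key, h1]

/-- **BRIDGE, eigenvector level.** `f ≠ 0` parabolic on `GH N (SQ Kq Q N)`, eigen for the diamond
operators (character `χ`) and the `T_r`; `ρg` with Frobenius characteristic polynomials
`X² - χ(ℓ)^e t_ℓ X + ℓ`; (LG-q) at the level `Mb` for the prime `q₀ ∈ Q`. Then
`tr ρg(σ) = χ(c_σ)^e + χ(c_σ)^(-e)` on the inertia group at `q₀`. -/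
theorem trace_of_eigen_SQ (hp𝒪' : (p : 𝒪') ∈ maximalIdeal 𝒪')
    (K : Type) [Field K] [Algebra 𝒪' K] [IsFractionRing 𝒪' K]
    {N Mb : ℕ} [NeZero N] [NeZero Mb]
    (Kq : ∀ q : ℕ, Subgroup (ZMod q)ˣ) (Q : Finset ℕ) {q₀ : ℕ} (hq₀ : q₀ ∈ Q)
    (hQ : ∀ q ∈ Q, q.Prime ∧ q ∣ N ∧ ¬ q ∣ N / q) (hq₀p : q₀ ≠ p)
    (hneg : (-1 : (ZMod q₀)ˣ) ∈ Kq q₀)
    (hζ : ∀ q ∈ Q.erase q₀, ∃ e : AddChar (ZMod q) K, e.IsPrimitive)
    (hNMb : N * ∏ q ∈ Q.erase q₀, q ∣ Mb) (h49 : 4 ∣ Mb ∨ 9 ∣ Mb)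
    (Sf : Finset ℕ) (hpS : p ∈ Sf) (hMS : ∀ q : ℕ, q.Prime → q ∣ Mb → q ∈ Sf)
    (f : Additive (GH N (SQ Kq Q N)) →+ K) (hf0 : f ≠ 0)
    (hpar : IsParabolicHom (GH N (SQ Kq Q N)) f)
    (χ : (ZMod N)ˣ →* 𝒪'ˣ)
    (hdia : ∀ d : (ZMod N)ˣ,
      dia (SQ Kq Q N) d f = algebraMap 𝒪' K ((χ d : 𝒪'ˣ) : 𝒪') • f)
    (t : ℕ → 𝒪')
    (hT : ∀ (r : ℕ) [Fact r.Prime] (hrN : ¬ r ∣ N), r ∉ (↑Sf : Set ℕ) → ∀ (σ : Gamma0 N)
      (hσ : Gamma0Map N σ = (r : ZMod N)),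
      (heckeH hrN σ hσ (SQ Kq Q N)).addHom f = algebraMap 𝒪' K (t r) • f)
    (e : ℕ) (he : ∀ d, χ d ^ (2 * e) = χ d)
    (Hd : Subgroup (ZMod Mb)ˣ) (hHd : ∀ h ∈ Hd, ∀ hq : q₀ ∣ Mb, ZMod.unitsMap hq h ∈ Kq q₀)
    (A : ValuationSubring Qb) (hA : A.LiesOverPrime q₀) (c : ℕ) (hc : c ≠ 0)
    (hLG : ∀ σ ∈ A.inertiaSubgroupIn ℚ, ∀ (k : ℕ) (y : J1 Mb), p ^ k • y = 0 →
      (∀ h ∈ Hd, dia1 Qb Mb h y = y) →
      c • (σ • (σ • y - dia1 Qb Mb (cycloM Mb σ) y) - (σ • y - dia1 Qb Mb (cycloM Mb σ) y)) = 0)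
    (ρg : GaloisRepAdic 𝒪')
    (hg : ∀ (ℓ : ℕ) (hℓ : ℓ.Prime) (hℓN : ¬ ℓ ∣ N), ℓ ∉ Sf →
      ∀ P : ValuationSubring Qb, P.LiesOverPrime ℓ → ∀ φ : GQ, P.IsFrobeniusAt φ ℓ →
        LinearMap.charpoly (ρg.ρ φ) = X ^ 2 - C (epsAt χ hℓ hℓN ^ e * t ℓ) * X + C ((ℓ : 𝒪')))
    (σ : GQ) (hσ : σ ∈ A.inertiaSubgroupIn ℚ) :
    ρg.trace σ = (((χ (cycloM N σ)) ^ e : 𝒪'ˣ) : 𝒪') + ((((χ (cycloM N σ)) ^ e)⁻¹ : 𝒪'ˣ) : 𝒪') :=
  trace_of_eigen_SQ_aux hp𝒪' K Kq Q (Q.erase q₀)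
    (by rw [Finset.union_comm, ← Finset.insert_eq, Finset.insert_erase hq₀])
    (Finset.notMem_erase q₀ Q) hQ hq₀p hneg hζ hNMb h49 Sf hpS hMS f hf0 hpar χ hdia t hT e he
    Hd hHd A hA c hc hLG ρg hg σ hσ

end Fermat.Agent.M43.BridgeEig3
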