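/-
M43 (helper3) [BRIDGE / support] BridgeExt3: **adjoining roots of unity to a complete discrete
valuation ring.**

* `exists_ext_with_roots` : a complete DVR `𝒪` (characteristic `0`, finite residue field) embeds,
  by an injective local homomorphism, into a complete DVR `𝒪'` (characteristic `0`, finite residue
  field) containing a primitive `m`-th root of unity (`m > 0`).
  (`CyclotomicRing m 𝒪 K` is a domain finite over `𝒪`; localise at a maximal ideal;
  `LocalHecke3.exists_completeDVR_of_domain`.)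
* `exists_primitive_addChar` : then `Frac 𝒪'` carries primitive additive characters of `ℤ/q` for
  every `q ∣ m`, `q > 0`.
-/
import Mathlib
import Fermat.Agent.M43.LocalHecke3

set_option autoImplicit false
set_option linter.unusedSectionVars false
set_option linter.style.haveILetI false
set_option synthInstance.maxHeartbeats 400000

noncomputable section

namespace Fermat.Agent.M43.BridgeExt3

open IsLocalRing nonZeroDivisors

variable (𝒪 : Type) [CommRing 𝒪] [IsDomain 𝒪] [IsDiscreteValuationRing 𝒪]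
  [IsAdicComplete (maximalIdeal 𝒪) 𝒪] [CharZero 𝒪] [Finite (ResidueField 𝒪)]

/-- **adjoining a primitive `m`-th root of unity.** -/
theorem exists_ext_with_roots (m : ℕ) (hm : 0 < m) :
    ∃ (𝒪' : Type) (_ : CommRing 𝒪') (_ : IsDomain 𝒪') (_ : IsDiscreteValuationRing 𝒪')
      (_ : IsAdicComplete (maximalIdeal 𝒪') 𝒪') (_ : Finite (ResidueField 𝒪')) (_ : CharZero 𝒪')
      (ι : 𝒪 →+* 𝒪'), IsLocalHom ι ∧ Function.Injective ι ∧ ∃ ζ : 𝒪', IsPrimitiveRoot ζ m := by
  classical
  haveI : CharZero (FractionRing 𝒪) :=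
    charZero_of_injective_algebraMap (IsFractionRing.injective 𝒪 (FractionRing 𝒪))
  haveI : NeZero ((m : ℕ) : FractionRing 𝒪) := ⟨Nat.cast_ne_zero.mpr hm.ne'⟩
  haveI : NeZero m := ⟨hm.ne'⟩
  -- the cyclotomic ring
  let D : Type := CyclotomicRing m 𝒪 (FractionRing 𝒪)
  haveI : IsCyclotomicExtension {m} 𝒪 D := CyclotomicRing.isCyclotomicExtension m 𝒪 (FractionRing 𝒪)
  haveI : Module.Finite 𝒪 D := IsCyclotomicExtension.finite {m} 𝒪 D
  obtain ⟨ζ, hζ⟩ := IsCyclotomicExtension.exists_isPrimitiveRoot 𝒪 D (Set.mem_singleton m) hm.ne'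
  have hinjD : Function.Injective (algebraMap 𝒪 D) :=
    CyclotomicRing.algebraBase_injective m 𝒪 (FractionRing 𝒪)
  -- a maximal ideal and the localisation
  obtain ⟨I, hI⟩ := Ideal.exists_maximal D
  haveI := hI
  let DI : Type := Localization.AtPrime I
  haveI : Module.Finite 𝒪 DI := LocalHecke3.finite_localization 𝒪 D I
  have hinjL : Function.Injective (algebraMap D DI) :=
    IsLocalization.injective DI (M := I.primeCompl)
      (fun x (hx : x ∈ I.primeCompl) =>
        mem_nonZeroDivisors_of_ne_zero (fun h => hx (h ▸ I.zero_mem)))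
  have hinj : Function.Injective (algebraMap 𝒪 DI) := by
    rw [IsScalarTower.algebraMap_eq 𝒪 D DI]
    exact hinjL.comp hinjD
  obtain ⟨𝒪', i1, i2, i3, i4, i5, i6, ψ, hloc, hψ⟩ :=
    LocalHecke3.exists_completeDVR_of_domain 𝒪 DI hinj
  refine ⟨𝒪', i1, i2, i3, i4, i5, i6, ψ.comp (algebraMap 𝒪 DI), ?_, hψ.comp hinj, ?_⟩
  · haveI := hloc
    haveI : IsLocalHom (algebraMap 𝒪 DI) := LocalHecke3.isLocalHom_algebraMap_of_finite DI
    exact RingHom.isLocalHom_comp _ _
  · exact ⟨ψ (algebraMap D DI ζ), (hζ.map_of_injective hinjL).map_of_injective hψ⟩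

/-- a field containing a primitive `m`-th root of unity carries primitive additive characters of
`ℤ/q` for every `q ∣ m`, `q > 0`. -/
theorem exists_primitive_addChar {K : Type*} [Field K] {m : ℕ} {ζ : K} (hζ : IsPrimitiveRoot ζ m)
    (hm : 0 < m) {q : ℕ} (hq : q ∣ m) :
    ∃ e : AddChar (ZMod q) K, e.IsPrimitive := by
  obtain ⟨k, hk⟩ := hq
  have hq0 : q ≠ 0 := by
    rintro rfl
    rw [zero_mul] at hk
    exact hm.ne' hk
  haveI : NeZero q := ⟨hq0⟩
  have h1 : IsPrimitiveRoot (ζ ^ k) q := hζ.pow hm (by rw [hk, mul_comm])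
  exact ⟨_, AddChar.zmodChar_primitive_of_primitive_root q h1⟩

/-- primitive roots of unity pass to the fraction field. -/
theorem isPrimitiveRoot_algebraMap {R K : Type*} [CommRing R] [IsDomain R] [Field K] [Algebra R K]
    [IsFractionRing R K] {m : ℕ} {ζ : R} (hζ : IsPrimitiveRoot ζ m) :
    IsPrimitiveRoot (algebraMap R K ζ) m :=
  hζ.map_of_injective (IsFractionRing.injective R K)

end Fermat.Agent.M43.BridgeExt3
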