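/-
M43 (helper3) [BRIDGE / (BR-5)] BridgeOp3: **abstract spectral lemmas** turning an identity checked
at the characteristic-zero points of a commutative algebra of operators into an identity of
operators.

* (S1) `isSemisimple_of_mem_adjoin` : over a perfect field, every element of the algebra generated
  by pairwise commuting semisimple endomorphisms is semisimple;
  `eq_zero_of_isNilpotent_of_mem_adjoin` : `𝒪` a domain with fraction field `K` of characteristic
  `0`, `H` a finite free `𝒪`-module: the `𝒪`-subalgebra of `End_𝒪 H` generated by pairwise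
  commuting operators which are semisimple on `K ⊗ H` has no nonzero nilpotent element
  (`mk_one_injective`, `baseChangeHom_injective`);
* suppliers of semisimplicity: `isSemisimple_of_pow_eq_one` (finite order, characteristic zero),
  `isReduced_tensor` (`K ⊗ T` reduced), **`isSemisimple_baseChange_of_isReduced`** (the elements of
  a reduced commutative `𝒪`-algebra `T`, finite free over `𝒪`, act semisimply on `K ⊗ H` through any
  `g : T →ₐ[𝒪] End_𝒪 H`);
* (S3) **`eq_zero_of_points`** : `T` reduced, finite, torsion-free over a complete DVR `𝒪` (NOT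
  necessarily local): an element killed by all the points `T →+* 𝒪'` (`𝒪'` complete DVR of
  characteristic zero with finite residue field, `𝒪 → 𝒪'` local) is zero;
* **`eq_zero_of_points_of_faithful`** (BR-5, abstract form): the same for a commutative `𝒪`-algebra
  `𝔹` acting faithfully on a finite free `𝒪`-module, generated by elements acting semisimply.
-/
import Mathlib
import Fermat.Agent.M43.LocalHecke3

set_option autoImplicit false
set_option linter.unusedSectionVars false
set_option linter.style.haveILetI false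

open TensorProduct Polynomial

noncomputable section

namespace Fermat.Agent.M43.BridgeOp3

/-! ### (S1) commuting semisimple endomorphisms -/

section Field

variable {K V : Type*} [Field K] [PerfectField K] [AddCommGroup V] [Module K V]
  [FiniteDimensional K V]

/-- two elements of the algebra generated by a commuting family commute. -/
theorem commute_of_mem_adjoin {R A : Type*} [CommSemiring R] [Semiring A] [Algebra R A]
    (s : Set A) (hcomm : ∀ x ∈ s, ∀ y ∈ s, Commute x y) {a b : A}
    (ha : a ∈ Algebra.adjoin R s) (hb : b ∈ Algebra.adjoin R s) : Commute a b := by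
  have h1 : ∀ y ∈ s, ∀ a ∈ Algebra.adjoin R s, Commute a y := by
    intro y hy a ha
    induction ha using Algebra.adjoin_induction with
    | mem x hx => exact hcomm x hx y hy
    | algebraMap r => exact Algebra.commute_algebraMap_left r y
    | add x z _ _ hx hz => exact hx.add_left hz
    | mul x z _ _ hx hz => exact hx.mul_left hz
  induction hb using Algebra.adjoin_induction with
  | mem y hy => exact h1 y hy a ha
  | algebraMap r => exact Algebra.commute_algebraMap_right r a
  | add x z _ _ hx hz => exact hx.add_right hz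
  | mul x z _ _ hx hz => exact hx.mul_right hz

/-- **(S1)** every element of the algebra generated by pairwise commuting semisimple endomorphisms
is semisimple. -/
theorem isSemisimple_of_mem_adjoin (s : Set (Module.End K V))
    (hcomm : ∀ x ∈ s, ∀ y ∈ s, Commute x y) (hss : ∀ x ∈ s, x.IsSemisimple)
    {a : Module.End K V} (ha : a ∈ Algebra.adjoin K s) : a.IsSemisimple := by
  induction ha using Algebra.adjoin_induction with
  | mem x hx => exact hss x hx
  | algebraMap r =>
    rw [Algebra.algebraMap_eq_smul_one]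
    exact Module.End.IsSemisimple_smul r Module.End.isSemisimple_id
  | add x y hx hy hx' hy' =>
    exact Module.End.IsSemisimple.add_of_commute (commute_of_mem_adjoin s hcomm hx hy) hx' hy'
  | mul x y hx hy hx' hy' =>
    exact Module.End.IsSemisimple.mul_of_commute (commute_of_mem_adjoin s hcomm hx hy) hx' hy'

end Field

/-! ### Operators on a lattice -/

section Lattice

variable {𝒪 : Type*} [CommRing 𝒪] [IsDomain 𝒪] (K : Type*) [Field K] [Algebra 𝒪 K]
  [IsFractionRing 𝒪 K]
  {H : Type*} [AddCommGroup H] [Module 𝒪 H] [Module.Free 𝒪 H]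

/-- `H → K ⊗ H` is injective (`H` free, `K = Frac 𝒪`). -/
theorem mk_one_injective : Function.Injective (TensorProduct.mk 𝒪 K H 1) := by
  have hloc : IsLocalizedModule (nonZeroDivisors 𝒪) (TensorProduct.mk 𝒪 K H 1) :=
    (isLocalizedModule_iff_isBaseChange (nonZeroDivisors 𝒪) K _).mpr
      (TensorProduct.isBaseChange 𝒪 H K)
  rw [← LinearMap.ker_eq_bot, LinearMap.ker_eq_bot']
  intro m hm
  have h0 : TensorProduct.mk 𝒪 K H 1 m = TensorProduct.mk 𝒪 K H 1 0 := by rw [hm, map_zero]
  obtain ⟨s, hs⟩ := (IsLocalizedModule.eq_iff_exists (nonZeroDivisors 𝒪) _).mp h0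
  rw [smul_zero] at hs
  rcases smul_eq_zero.mp hs with h | h
  · exact absurd h (nonZeroDivisors.ne_zero s.2)
  · exact h

/-- `f ↦ f.baseChange K` is injective on `End_𝒪 H`. -/
theorem baseChangeHom_injective :
    Function.Injective (Module.End.baseChangeHom 𝒪 K H) := by
  intro f g hfg
  refine LinearMap.ext fun m => ?_
  apply mk_one_injective (𝒪 := 𝒪) K
  have h1 : (f.baseChange K) ((1 : K) ⊗ₜ[𝒪] m) = (g.baseChange K) ((1 : K) ⊗ₜ[𝒪] m) :=
    LinearMap.congr_fun hfg ((1 : K) ⊗ₜ[𝒪] m)
  rw [LinearMap.baseChange_tmul, LinearMap.baseChange_tmul] at h1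
  exact h1

variable [CharZero K] [Module.Finite 𝒪 H]

/-- **(S1), lattice form**: the `𝒪`-subalgebra of `End_𝒪 H` generated by pairwise commuting
operators which are semisimple on `K ⊗ H` has no nonzero nilpotent element. -/
theorem eq_zero_of_isNilpotent_of_mem_adjoin (s : Set (Module.End 𝒪 H))
    (hcomm : ∀ x ∈ s, ∀ y ∈ s, Commute x y)
    (hss : ∀ x ∈ s, Module.End.IsSemisimple (Module.End.baseChangeHom 𝒪 K H x))
    {b : Module.End 𝒪 H}
    (hb : b ∈ Algebra.adjoin 𝒪 s) (hnil : IsNilpotent b) : b = 0 := by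
  set Φ := Module.End.baseChangeHom 𝒪 K H with hΦ
  -- the image of `b` lies in the `K`-algebra generated by the images
  have hmem : ∀ b ∈ Algebra.adjoin 𝒪 s, Φ b ∈ Algebra.adjoin K (Φ '' s) := by
    intro b hb
    induction hb using Algebra.adjoin_induction with
    | mem x hx => exact Algebra.subset_adjoin ⟨x, hx, rfl⟩
    | algebraMap r =>
      rw [AlgHom.commutes, Algebra.algebraMap_eq_smul_one, ← algebraMap_smul K r
        (1 : Module.End K (K ⊗[𝒪] H))]
      exact Subalgebra.smul_mem _ (Subalgebra.one_mem _) _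
    | add x y _ _ hx hy => rw [map_add]; exact Subalgebra.add_mem _ hx hy
    | mul x y _ _ hx hy => rw [map_mul]; exact Subalgebra.mul_mem _ hx hy
  have hss' : (Φ b).IsSemisimple := by
    refine isSemisimple_of_mem_adjoin (Φ '' s) ?_ ?_ (hmem b hb)
    · rintro _ ⟨x, hx, rfl⟩ _ ⟨y, hy, rfl⟩
      exact (hcomm x hx y hy).map Φ
    · rintro _ ⟨x, hx, rfl⟩
      exact hss x hx
  have hnil' : IsNilpotent (Φ b) := hnil.map Φ
  have h0 : Φ b = 0 := Module.End.eq_zero_of_isNilpotent_isSemisimple hnil' hss'
  exact baseChangeHom_injective K (h0.trans (map_zero Φ).symm)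

end Lattice

/-! ### Suppliers of semisimplicity -/

section Suppliers

/-- an endomorphism of finite order is semisimple (characteristic zero). -/
theorem isSemisimple_of_pow_eq_one {K V : Type*} [Field K] [CharZero K] [AddCommGroup V]
    [Module K V] (g : Module.End K V) {m : ℕ} (hm : m ≠ 0) (h : g ^ m = 1) : g.IsSemisimple := by
  have hsep : (X ^ m - C (1 : K)).Separable :=
    separable_X_pow_sub_C (1 : K) (by exact_mod_cast hm) one_ne_zero
  refine Module.End.isSemisimple_of_squarefree_aeval_eq_zero hsep.squarefree ?_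
  simp [h]

variable {𝒪 : Type*} [CommRing 𝒪] [IsDomain 𝒪] (K : Type*) [Field K] [Algebra 𝒪 K]
  [IsFractionRing 𝒪 K]

/-- `K ⊗ T` is reduced if `T` is (free over `𝒪`, `K = Frac 𝒪`). -/
theorem isReduced_tensor (T : Type*) [CommRing T] [Algebra 𝒪 T] [Module.Free 𝒪 T] [IsReduced T] :
    IsReduced (K ⊗[𝒪] T) := by
  have hloc : IsLocalizedModule (nonZeroDivisors 𝒪) (TensorProduct.mk 𝒪 K T 1) :=
    (isLocalizedModule_iff_isBaseChange (nonZeroDivisors 𝒪) K _).mpr
      (TensorProduct.isBaseChange 𝒪 T K)
  refine ⟨fun x hx => ?_⟩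
  obtain ⟨n, hn⟩ := hx
  obtain ⟨⟨t, c⟩, hc⟩ := IsLocalizedModule.surj (nonZeroDivisors 𝒪) (TensorProduct.mk 𝒪 K T 1) x
  have hc' : (c : 𝒪) • x = (1 : K) ⊗ₜ[𝒪] t := hc
  have h1 : ((1 : K) ⊗ₜ[𝒪] t : K ⊗[𝒪] T) ^ n = 0 := by
    rw [← hc', _root_.smul_pow, hn, smul_zero]
  rw [Algebra.TensorProduct.tmul_pow, one_pow] at h1
  have h2 : t ^ n = 0 := by
    apply mk_one_injective (𝒪 := 𝒪) K
    rw [map_zero]
    exact h1
  have h3 : t = 0 := IsReduced.eq_zero t ⟨n, h2⟩
  rw [h3, TensorProduct.tmul_zero] at hc'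
  have hcK : algebraMap 𝒪 K (c : 𝒪) ≠ 0 := fun h =>
    nonZeroDivisors.ne_zero c.2 ((map_eq_zero_iff _ (IsFractionRing.injective 𝒪 K)).mp h)
  rw [← algebraMap_smul K (c : 𝒪) x] at hc'
  exact (smul_eq_zero.mp hc').resolve_left hcK

variable {H : Type*} [AddCommGroup H] [Module 𝒪 H]

/-- **the elements of a reduced finite free commutative `𝒪`-algebra act semisimply on `K ⊗ H`**
(any action, not necessarily faithful). -/
theorem isSemisimple_baseChange_of_isReduced (T : Type*) [CommRing T] [Algebra 𝒪 T]
    [Module.Free 𝒪 T] [Module.Finite 𝒪 T] [IsReduced T] (g : T →ₐ[𝒪] Module.End 𝒪 H) (t : T) :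
    Module.End.IsSemisimple (Module.End.baseChangeHom 𝒪 K H (g t)) := by
  haveI : IsReduced (K ⊗[𝒪] T) := isReduced_tensor K T
  set Φ := Module.End.baseChangeHom 𝒪 K H with hΦ
  let gK : K ⊗[𝒪] T →ₐ[K] Module.End K (K ⊗[𝒪] H) :=
    Algebra.TensorProduct.lift (Algebra.ofId K (Module.End K (K ⊗[𝒪] H))) (Φ.comp g)
      (fun a x => by
        rw [Algebra.ofId_apply]
        exact Algebra.commute_algebraMap_left a _)
  have hgK : gK ((1 : K) ⊗ₜ[𝒪] t) = Φ (g t) := by
    show Algebra.TensorProduct.lift _ _ _ ((1 : K) ⊗ₜ[𝒪] t) = _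
    rw [Algebra.TensorProduct.lift_tmul, map_one, one_mul]
    rfl
  set y : K ⊗[𝒪] T := (1 : K) ⊗ₜ[𝒪] t with hy
  have hint : IsIntegral K y := IsIntegral.of_finite K y
  have hsq : Squarefree (minpoly K y) := (minpoly.isRadical K y).squarefree (minpoly.ne_zero hint)
  refine Module.End.isSemisimple_of_squarefree_aeval_eq_zero hsq ?_
  rw [← hgK, Polynomial.aeval_algHom_apply, minpoly.aeval, map_zero]

end Suppliers

/-! ### (S3) the characteristic-zero points of a reduced finite algebra (not necessarily local) -/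

section Points

open IsLocalRing

variable (𝒪 : Type) [CommRing 𝒪] [IsDomain 𝒪] [IsDiscreteValuationRing 𝒪] [CharZero 𝒪]
  [Finite (ResidueField 𝒪)] [IsAdicComplete (maximalIdeal 𝒪) 𝒪]

/-- **(S3)** `T` reduced, finite and torsion-free over the complete DVR `𝒪` (not necessarily
local): an element killed by all the points of `T` with values in complete discrete valuation
rings (of characteristic zero, finite residue field, `𝒪 → 𝒪'` local) is zero. -/
theorem eq_zero_of_points (T : Type) [CommRing T] [Algebra 𝒪 T] [Module.Finite 𝒪 T] [IsReduced T]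
    (htf : ∀ (a : 𝒪) (x : T), a • x = 0 → a = 0 ∨ x = 0) (x : T)
    (h : ∀ (O' : Type) [CommRing O'] [IsDomain O'] [IsDiscreteValuationRing O']
      [IsAdicComplete (maximalIdeal O') O'] [Finite (ResidueField O')] [CharZero O']
      (ψ : T →+* O'), IsLocalHom (ψ.comp (algebraMap 𝒪 T)) → ψ x = 0) : x = 0 := by
  classical
  obtain ⟨-, hbij, -, -⟩ :=
    Algebra.finite_maximalSpectrum_and_bijective_localization_of_module_finite (𝒪 := 𝒪) T
  apply hbij.1
  rw [map_zero]
  funext I
  simp only [RingHom.pi_apply, Pi.zero_apply]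
  -- the local factor
  haveI := I.isMaximal
  set TI := Localization.AtPrime I.asIdeal with hTI
  haveI : Module.Finite 𝒪 TI := LocalHecke3.finite_localization 𝒪 T I.asIdeal
  haveI : IsReduced TI := inferInstance
  have htfI : ∀ (a : 𝒪) (y : TI), a • y = 0 → a = 0 ∨ y = 0 :=
    LocalHecke3.smul_eq_zero_localization T I.asIdeal htf
  obtain ⟨ι, _, O, i1, i2, i3, i4, i5, i6, ψ, hloc, hinj⟩ := LocalHecke3.exists_points 𝒪 TI htfI
  apply hinj
  intro i
  haveI := hloc i
  haveI : IsLocalHom (algebraMap 𝒪 TI) := LocalHecke3.isLocalHom_algebraMap_of_finite TI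
  have := h (O i) ((ψ i).comp (algebraMap T TI)) (by
    have e : ((ψ i).comp (algebraMap T TI)).comp (algebraMap 𝒪 T)
        = (ψ i).comp (algebraMap 𝒪 TI) := by
      ext a
      simp only [RingHom.comp_apply]
      rw [← IsScalarTower.algebraMap_apply 𝒪 T TI]
    rw [e]
    exact RingHom.isLocalHom_comp _ _)
  exact this

/-- **(BR-5), abstract form.** `𝔹` a commutative `𝒪`-algebra acting FAITHFULLY on a finite free
`𝒪`-module `H`, generated by elements acting semisimply on `K ⊗ H` (`K = Frac 𝒪`). An element of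
`𝔹` killed by all the points of `𝔹` with values in complete discrete valuation rings is zero. -/
theorem eq_zero_of_points_of_faithful (K : Type*) [Field K] [Algebra 𝒪 K] [IsFractionRing 𝒪 K]
    {H : Type*} [AddCommGroup H] [Module 𝒪 H] [Module.Free 𝒪 H] [Module.Finite 𝒪 H]
    (𝔹 : Type) [CommRing 𝔹] [Algebra 𝒪 𝔹] (θ : 𝔹 →ₐ[𝒪] Module.End 𝒪 H)
    (hθ : Function.Injective θ) (g : Set 𝔹) (hg : Algebra.adjoin 𝒪 g = ⊤)
    (hss : ∀ x ∈ g, Module.End.IsSemisimple (Module.End.baseChangeHom 𝒪 K H (θ x)))
    (Z : 𝔹)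
    (h : ∀ (O' : Type) [CommRing O'] [IsDomain O'] [IsDiscreteValuationRing O']
      [IsAdicComplete (maximalIdeal O') O'] [Finite (ResidueField O')] [CharZero O']
      (ψ : 𝔹 →+* O'), IsLocalHom (ψ.comp (algebraMap 𝒪 𝔹)) → ψ Z = 0) : Z = 0 := by
  haveI : CharZero K := charZero_of_injective_algebraMap (IsFractionRing.injective 𝒪 K)
  -- finiteness
  haveI : IsNoetherianRing 𝒪 := inferInstance
  haveI : Module.Finite 𝒪 (Module.End 𝒪 H) := inferInstance
  haveI : Module.Finite 𝒪 𝔹 := Module.Finite.of_injective θ.toLinearMap hθ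
  -- torsion-freeness
  have htf : ∀ (a : 𝒪) (x : 𝔹), a • x = 0 → a = 0 ∨ x = 0 := by
    intro a x hax
    by_cases ha : a = 0
    · exact Or.inl ha
    right
    apply hθ
    rw [map_zero]
    have h1 : a • θ x = 0 := by rw [← map_smul, hax, map_zero]
    refine LinearMap.ext fun m => ?_
    have h2 : a • (θ x m) = 0 := by
      have := LinearMap.congr_fun h1 m
      simpa using this
    exact (smul_eq_zero.mp h2).resolve_left ha
  -- reducedness
  haveI : IsReduced 𝔹 := by
    refine ⟨fun b hb => ?_⟩
    apply hθ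
    rw [map_zero]
    have hmem : θ b ∈ Algebra.adjoin 𝒪 (θ '' g) := by
      have : b ∈ Algebra.adjoin 𝒪 g := by rw [hg]; exact Algebra.mem_top
      have h2 : θ b ∈ (Algebra.adjoin 𝒪 g).map θ := Subalgebra.mem_map.mpr ⟨b, this, rfl⟩
      rwa [AlgHom.map_adjoin] at h2
    refine eq_zero_of_isNilpotent_of_mem_adjoin K (θ '' g) ?_ ?_ hmem (hb.map θ)
    · rintro _ ⟨x, _, rfl⟩ _ ⟨y, _, rfl⟩
      exact (Commute.all x y).map θ
    · rintro _ ⟨x, hx, rfl⟩
      exact hss x hx
  exact eq_zero_of_points 𝒪 𝔹 htf Z h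

end Points

end Fermat.Agent.M43.BridgeOp3
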