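/-
M43 (helper3) [BRIDGE, operator level] BridgeFinal3: **the trace of an inertia element at a prime
`q₀` of the chain acts on the unit part of the Hecke lattice as `⟨c^e⟩ + ⟨c^e⟩⁻¹`, `c` the mod-`N`
cyclotomic character of the element.**

Frame: helper5's `ChainMod5.Frame N` (`F.tau`, `F.P O F.s` a module over the big Hecke ring
`MvPolynomial F.Var O`), an abstract module `Hn` over the big Hecke ring whose relations contain
those of `F.P O F.s` (`hAnn`; in use `Hn = ChainLevel5.Hn θ`), a local `O`-algebra `A` with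
`ρ : GaloisRepAdic A` acting on `Hn` (`act`), generated by elements `tA i` acting as `τ_{ℓ i}` with
`charpoly ρ(Frob_{ℓ i}) = X² - tA i X + ℓ i`, quotient of a reduced finite free `O`-algebra `T₁`.
(LG-q) at a level `Mb` for the prime `q₀` is a named hypothesis.

* `isLocalHom_of_comp_algebraMap` : a ring homomorphism from a local ring finite over `O` is local
  as soon as its restriction to `O` is;
* `trace_of_eigen_H` : `BridgeEig3.trace_of_eigen_SQ` for a subgroup `H = SQ Kq Q N`;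
* **`bridge_operator`**.
-/
import Mathlib
import Fermat.Agent.M43.BridgeEig3
import Fermat.Agent.M43.BridgeBase3
import Fermat.Agent.M43.BridgeExt3
import Fermat.Agent.M43.BridgeOp3
import Fermat.Agent.M43.GlobTrace3

set_option autoImplicit false
set_option linter.unusedSectionVars false
set_option linter.style.haveILetI false
set_option synthInstance.maxHeartbeats 400000

open TensorProduct Polynomial

noncomputable section

namespace Fermat.Agent.M43.BridgeFinal3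

open Matrix.SpecialLinearGroup ModularCurve.Period CongruenceSubgroup IsLocalRing
open scoped MatrixGroups
open Fermat.Agent.M43.HeckeH0 Fermat.Agent.M43.CycInst0 Fermat.Agent.M43.ChainMod5
  Fermat.Agent.M43.PolyMod5 Fermat.Agent.M43.ChainGrp5 Fermat.Agent.M43.TwistLatI6
  Fermat.Agent.M43.BridgeBase3
open Fermat.Agent.M48.ESInv3 Fermat.Agent.M48.CosetOp3 Fermat.Agent.M48.Diamond1
  Fermat.Agent.M48.J1Defs8 Fermat.Agent.M48.DirCharGal8 Fermat.Agent.M48.P1Skeleton8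

local notation "Qb" => AlgebraicClosure ℚ
local notation "GQ" => (AlgebraicClosure ℚ ≃ₐ[ℚ] AlgebraicClosure ℚ)

/-! ### Local homomorphisms -/

/-- a ring homomorphism from a local ring `A` finite over the local ring `O` to a local ring is
local as soon as its restriction to `O` is. -/
theorem isLocalHom_of_comp_algebraMap {O A B : Type*} [CommRing O] [IsLocalRing O] [CommRing A]
    [IsLocalRing A] [Algebra O A] [Module.Finite O A] [CommRing B] [IsLocalRing B] (f : A →+* B)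
    (h : IsLocalHom (f.comp (algebraMap O A))) : IsLocalHom f := by
  haveI : Algebra.IsIntegral O A := inferInstance
  have h1 : (maximalIdeal B).comap (f.comp (algebraMap O A)) = maximalIdeal O :=
    ((IsLocalRing.local_hom_TFAE (f.comp (algebraMap O A))).out 0 4).mp h
  set 𝔭 : Ideal A := (maximalIdeal B).comap f with h𝔭
  haveI : 𝔭.IsPrime := Ideal.comap_isPrime f _
  have h2 : 𝔭.comap (algebraMap O A) = maximalIdeal O := by
    rw [h𝔭, Ideal.comap_comap]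
    exact h1
  have h3 : 𝔭.IsMaximal := by
    apply Ideal.isMaximal_of_isIntegral_of_isMaximal_comap (R := O) 𝔭
    rw [h2]
    exact maximalIdeal.isMaximal O
  have h4 : 𝔭 = maximalIdeal A := IsLocalRing.eq_maximalIdeal h3
  exact ((IsLocalRing.local_hom_TFAE f).out 0 4).mpr h4

/-! ### The eigenvector-level BRIDGE for `H = SQ Kq Q N` -/

section EigH

variable {p : ℕ} [Fact p.Prime]
  {𝒪' : Type} [CommRing 𝒪'] [IsDomain 𝒪'] [IsDiscreteValuationRing 𝒪']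
  [IsAdicComplete (maximalIdeal 𝒪') 𝒪'] [CharZero 𝒪']

/-- `BridgeEig3.trace_of_eigen_SQ` for a subgroup `H` equal to `SQ Kq Q N`. -/
theorem trace_of_eigen_H (hp𝒪' : (p : 𝒪') ∈ maximalIdeal 𝒪')
    (K : Type) [Field K] [Algebra 𝒪' K] [IsFractionRing 𝒪' K]
    {N Mb : ℕ} [NeZero N] [NeZero Mb]
    (Kq : ∀ q : ℕ, Subgroup (ZMod q)ˣ) (Q : Finset ℕ) (H : Subgroup (ZMod N)ˣ)
    (hH : H = SQ Kq Q N) {q₀ : ℕ} (hq₀ : q₀ ∈ Q)
    (hQ : ∀ q ∈ Q, q.Prime ∧ q ∣ N ∧ ¬ q ∣ N / q) (hq₀p : q₀ ≠ p)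
    (hneg : (-1 : (ZMod q₀)ˣ) ∈ Kq q₀)
    (hζ : ∀ q ∈ Q.erase q₀, ∃ e : AddChar (ZMod q) K, e.IsPrimitive)
    (hNMb : N * ∏ q ∈ Q.erase q₀, q ∣ Mb) (h49 : 4 ∣ Mb ∨ 9 ∣ Mb)
    (Sf : Finset ℕ) (hpS : p ∈ Sf) (hMS : ∀ q : ℕ, q.Prime → q ∣ Mb → q ∈ Sf)
    (f : Additive (GH N H) →+ K) (hf0 : f ≠ 0) (hpar : IsParabolicHom (GH N H) f)
    (χ : (ZMod N)ˣ →* 𝒪'ˣ)
    (hdia : ∀ d : (ZMod N)ˣ, dia H d f = algebraMap 𝒪' K ((χ d : 𝒪'ˣ) : 𝒪') • f)
    (t : ℕ → 𝒪')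
    (hT : ∀ (r : ℕ) [Fact r.Prime] (hrN : ¬ r ∣ N), r ∉ (↑Sf : Set ℕ) → ∀ (σ : Gamma0 N)
      (hσ : Gamma0Map N σ = (r : ZMod N)),
      (heckeH hrN σ hσ H).addHom f = algebraMap 𝒪' K (t r) • f)
    (e : ℕ) (he : ∀ d, χ d ^ (2 * e) = χ d)
    (Hd : Subgroup (ZMod Mb)ˣ) (hHd : ∀ h ∈ Hd, ∀ hq : q₀ ∣ Mb, ZMod.unitsMap hq h ∈ Kq q₀)
    (A : ValuationSubring Qb) (hA : A.LiesOverPrime q₀) (c : ℕ) (hc : c ≠ 0)
    (hLG : ∀ σ ∈ A.inertiaSubgroupIn ℚ, ∀ (k : ℕ) (y : J1 Mb), p ^ k • y = 0 →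
      (∀ h ∈ Hd, dia1 Qb Mb h y = y) →
      c • (σ • (σ • y - dia1 Qb Mb (cycloM Mb σ) y) - (σ • y - dia1 Qb Mb (cycloM Mb σ) y)) = 0)
    (ρg : GaloisRepAdic 𝒪')
    (hg : ∀ (ℓ : ℕ) (hℓ : ℓ.Prime) (hℓN : ¬ ℓ ∣ N), ℓ ∉ Sf →
      ∀ P : ValuationSubring Qb, P.LiesOverPrime ℓ → ∀ φ : GQ, P.IsFrobeniusAt φ ℓ →
        LinearMap.charpoly (ρg.ρ φ) = X ^ 2 - C (epsAt χ hℓ hℓN ^ e * t ℓ) * X + C ((ℓ : 𝒪')))
    (σ : GQ) (hσ : σ ∈ A.inertiaSubgroupIn ℚ) :
    ρg.trace σ = (((χ (cycloM N σ)) ^ e : 𝒪'ˣ) : 𝒪') + ((((χ (cycloM N σ)) ^ e)⁻¹ : 𝒪'ˣ) : 𝒪') := by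
  subst hH
  exact BridgeEig3.trace_of_eigen_SQ hp𝒪' K Kq Q hq₀ hQ hq₀p hneg hζ hNMb h49 Sf hpS hMS f hf0 hpar
    χ hdia t hT e he Hd hHd A hA c hc hLG ρg hg σ hσ

end EigH

/-! ### The trace at a point of the Hecke algebra -/

section Point

variable {p : ℕ} [Fact p.Prime] {N : ℕ} [NeZero N]
  {O : Type} [CommRing O] [IsDomain O] [CharZero O]

/-- **the trace at a point, with enough roots of unity.** `Ψ` a point of the Hecke ring (without
`x`) killing the relations of `Hn`, `ψA` a local point of `A` compatible with `Ψ` on the `tA i`. -/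
theorem point_trace_of_roots (F : Frame N) (Kq : ∀ q : ℕ, Subgroup (ZMod q)ˣ) (Q : Finset ℕ)
    (hsub : F.c.sub F.s = SQ Kq Q N)
    (hQ : ∀ q ∈ Q, q.Prime ∧ q ∣ N ∧ ¬ q ∣ N / q)
    {Hn : Type} [AddCommGroup Hn] [Module O Hn] [Module (MvPolynomial F.Var O) Hn]
    (hAnn : ∀ Pol : MvPolynomial F.Var O, (∀ y : F.P O F.s, Pol • y = 0) → ∀ y : Hn, Pol • y = 0)
    (m : ℕ) (hm : ∀ d : (ZMod N)ˣ, d ^ m ∈ F.c.sub F.s) (he : 2 * F.e = m + 1)
    {A : Type} [CommRing A] [IsLocalRing A]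
    (ρ : GaloisRepAdic A) (tA : F.ι → A)
    (Sf : Finset ℕ) (hpS : p ∈ Sf) (hcof : ∀ r : ℕ, r.Prime → r ∉ Sf → ∃ i, F.ℓ i = r)
    (hfrob : ∀ (i : F.ι) (P : ValuationSubring Qb), P.LiesOverPrime (F.ℓ i) → ∀ φ : GQ,
      P.IsFrobeniusAt φ (F.ℓ i) →
      LinearMap.charpoly (ρ.ρ φ) = X ^ 2 - C (tA i) * X + C ((F.ℓ i : A)))
    {q₀ : ℕ} (hq₀ : q₀ ∈ Q) (hq₀p : q₀ ≠ p) (hneg : (-1 : (ZMod q₀)ˣ) ∈ Kq q₀)
    {Mb : ℕ} [NeZero Mb] (hNMb : N * ∏ q ∈ Q.erase q₀, q ∣ Mb) (h49 : 4 ∣ Mb ∨ 9 ∣ Mb)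
    (hMS : ∀ q : ℕ, q.Prime → q ∣ Mb → q ∈ Sf)
    (Hd : Subgroup (ZMod Mb)ˣ) (hHd : ∀ h ∈ Hd, ∀ hq : q₀ ∣ Mb, ZMod.unitsMap hq h ∈ Kq q₀)
    (Aq : ValuationSubring Qb) (hAq : Aq.LiesOverPrime q₀) (c : ℕ) (hc : c ≠ 0)
    (hLG : ∀ σ ∈ Aq.inertiaSubgroupIn ℚ, ∀ (k : ℕ) (y : J1 Mb), p ^ k • y = 0 →
      (∀ h ∈ Hd, dia1 Qb Mb h y = y) →
      c • (σ • (σ • y - dia1 Qb Mb (cycloM Mb σ) y) - (σ • y - dia1 Qb Mb (cycloM Mb σ) y)) = 0)
    (O' : Type) [CommRing O'] [IsDomain O'] [IsDiscreteValuationRing O']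
    [IsAdicComplete (maximalIdeal O') O'] [CharZero O']
    (hpO' : (p : O') ∈ maximalIdeal O')
    (hζ : ∀ q ∈ Q.erase q₀, ∃ e : AddChar (ZMod q) (FractionRing O'), e.IsPrimitive)
    (Ψ : MvPolynomial (Var' F) O →+* O')
    (hΨ : ∀ Pol : MvPolynomial (Var' F) O,
      (∀ y : Hn, (MvPolynomial.rename (incl F) Pol) • y = 0) → Ψ Pol = 0)
    (ψA : A →+* O') (hψA : IsLocalHom ψA)
    (hΨA : ∀ i, ψA (tA i) = Ψ (MvPolynomial.X (Sum.inl i)))
    (σ : GQ) (hσ : σ ∈ Aq.inertiaSubgroupIn ℚ) :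
    ψA (ρ.trace σ) = Ψ (MvPolynomial.X (Sum.inr (cycloM N σ ^ F.e)))
      + Ψ (MvPolynomial.X (Sum.inr ((cycloM N σ ^ F.e)⁻¹))) := by
  classical
  set K' := FractionRing O' with hK'
  haveI : CharZero K' := charZero_of_injective_algebraMap (IsFractionRing.injective O' K')
  -- `Ψ` kills the relations of the lattice
  have key : ∀ Pol : MvPolynomial (Var' F) O,
      polyAct (tau' F O F.s) (tau'_comm F O F.s) Pol = 0 → Ψ Pol = 0 := by
    intro Pol h
    apply hΨ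
    apply hAnn
    intro y
    rw [PolyMod.smul_def, polyAct_rename, h, LinearMap.zero_apply, map_zero]
  have hR3 : ∀ d ∈ F.c.sub F.s, Ψ (MvPolynomial.X (Sum.inr d)) = 1 := by
    intro d hd
    have h1 := key (MvPolynomial.X (Sum.inr d) - 1) (by
      rw [map_sub, polyAct_X, map_one, tau'_inr, dPar_of_mem _ hd, sub_self])
    rw [map_sub, map_one, sub_eq_zero] at h1
    exact h1
  have hR2 : ∀ d d' : (ZMod N)ˣ, Ψ (MvPolynomial.X (Sum.inr (d * d')))
      = Ψ (MvPolynomial.X (Sum.inr d)) * Ψ (MvPolynomial.X (Sum.inr d')) := by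
    intro d d'
    have h1 := key (MvPolynomial.X (Sum.inr (d * d'))
        - MvPolynomial.X (Sum.inr d) * MvPolynomial.X (Sum.inr d')) (by
      rw [map_sub, map_mul, polyAct_X, polyAct_X, polyAct_X, tau'_inr, tau'_inr, tau'_inr,
        dPar_mul, sub_self])
    rw [map_sub, map_mul, sub_eq_zero] at h1
    exact h1
  -- the character
  let χ₀ : (ZMod N)ˣ →* O' :=
    { toFun := fun d => Ψ (MvPolynomial.X (Sum.inr d))
      map_one' := hR3 1 (one_mem _)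
      map_mul' := hR2 }
  let χ : (ZMod N)ˣ →* O'ˣ := χ₀.toHomUnits
  have hχv : ∀ d, ((χ d : O'ˣ) : O') = Ψ (MvPolynomial.X (Sum.inr d)) := fun d => rfl
  -- the eigenvector
  let χℤ : MvPolynomial (Var' F) ℤ →+* K' :=
    ((algebraMap O' K').comp Ψ).comp (MvPolynomial.map (Int.castRingHom O))
  have hχℤX : ∀ v, χℤ (MvPolynomial.X v) = algebraMap O' K' (Ψ (MvPolynomial.X v)) := by
    intro v
    show algebraMap O' K' (Ψ (MvPolynomial.map (Int.castRingHom O) (MvPolynomial.X v))) = _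
    rw [MvPolynomial.map_X]
  have hχℤ : ∀ Pol, polyAct (tau' F ℤ F.s) (tau'_comm F ℤ F.s) Pol = 0 → χℤ Pol = 0 := by
    intro Pol h
    show algebraMap O' K' (Ψ (MvPolynomial.map (Int.castRingHom O) Pol)) = 0
    rw [key _ (polyAct_map_eq_zero F O F.s Pol h), map_zero]
  obtain ⟨f, hf0, hf⟩ := exists_eigen_hom F K' F.s χℤ hχℤ
  -- the diamonds on `f`
  have hd : ∀ d : (ZMod N)ˣ, dPar K' (F.sub F.s) d f
      = algebraMap O' K' (Ψ (MvPolynomial.X (Sum.inr d))) • f := by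
    intro d
    have h1 := hf (Sum.inr d)
    rw [tau'_inr, hχℤX] at h1
    exact h1
  -- the `T_ℓ` on `f`
  have hTi : ∀ i : F.ι, tPar K' (F.prime i) (F.ndvd i) (F.sub F.s) f
      = algebraMap O' K' ((((χ (F.u i)) ^ F.e)⁻¹ : O'ˣ) * Ψ (MvPolynomial.X (Sum.inl i))) • f := by
    intro i
    have h1 := hf (Sum.inl i)
    rw [tau'_inl, Module.End.mul_apply, hd, map_smul, hχℤX] at h1
    have h3 : Ψ (MvPolynomial.X (Sum.inr (F.u i ^ F.e))) = (((χ (F.u i)) ^ F.e : O'ˣ) : O') := by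
      rw [← map_pow]
      rfl
    rw [h3] at h1
    rw [map_mul, mul_smul, ← h1, smul_smul, ← map_mul, ← Units.val_mul, inv_mul_cancel,
      Units.val_one, map_one, one_smul]
  -- the eigenvalues of the `T_r`
  let t : ℕ → O' := fun r => if h : ∃ i, F.ℓ i = r then
    ((((χ (F.u h.choose)) ^ F.e)⁻¹ : O'ˣ) : O') * Ψ (MvPolynomial.X (Sum.inl h.choose)) else 0
  have ht : ∀ (r : ℕ) (h : ∃ i, F.ℓ i = r), t r =
      ((((χ (F.u h.choose)) ^ F.e)⁻¹ : O'ˣ) : O') * Ψ (MvPolynomial.X (Sum.inl h.choose)) :=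
    fun r h => dif_pos h
  have hTgen : ∀ (r : ℕ) [Fact r.Prime] (hrN : ¬ r ∣ N) (i : F.ι) (hi : F.ℓ i = r)
      (σ' : Gamma0 N) (hσ' : Gamma0Map N σ' = (r : ZMod N)),
      (heckeH hrN σ' hσ' (F.c.sub F.s)).addHom f.1 =
        algebraMap O' K' (((((χ (F.u i)) ^ F.e)⁻¹ : O'ˣ) : O')
          * Ψ (MvPolynomial.X (Sum.inl i))) • f.1 := by
    intro r _ hrN i hi σ' hσ'
    subst hi
    have h1 := congrArg Subtype.val (hTi i)
    rw [coe_tPar] at h1
    refine Eq.trans ?_ h1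
    exact heckeH_indep hrN _ σ' _ hσ' (F.c.sub F.s) f.1
  have he' : ∀ d, χ d ^ (2 * F.e) = χ d := by
    intro d
    rw [he, pow_succ, ← map_pow]
    have h1 : χ (d ^ m) = 1 := by
      apply Units.ext
      rw [hχv, hR3 _ (hm d), Units.val_one]
    rw [h1, one_mul]
  -- the representation at the point
  have hmain := trace_of_eigen_H (p := p) hpO' K' Kq Q (F.c.sub F.s) hsub hq₀ hQ hq₀p hneg hζ hNMb h49
    Sf hpS hMS f.1 (fun h => hf0 (Subtype.ext h)) f.2 χ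
    (fun d => by
      have h1 := congrArg Subtype.val (hd d)
      rw [coe_dPar] at h1
      exact h1)
    t
    (fun r _ hrN hrS σ' hσ' => by
      have hex := hcof r Fact.out (by simpa using hrS)
      rw [ht r hex]
      exact hTgen r hrN hex.choose hex.choose_spec σ' hσ')
    F.e he' Hd hHd Aq hAq c hc hLG (ρ.baseChangeAlong ψA hψA)
    (fun ℓ hℓ hℓN hℓS P hP φ hφ => by
      have hex := hcof ℓ hℓ hℓS
      have hi : F.ℓ hex.choose = ℓ := hex.choose_spec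
      have hP' : P.LiesOverPrime (F.ℓ hex.choose) := by rw [hi]; exact hP
      have hφ' : P.IsFrobeniusAt φ (F.ℓ hex.choose) := by rw [hi]; exact hφ
      have h1 := hfrob hex.choose P hP' φ hφ'
      letI : Algebra A O' := ψA.toAlgebra
      show LinearMap.charpoly ((ρ.ρ φ).baseChange O') = _
      rw [LinearMap.charpoly_baseChange, h1]
      simp only [Polynomial.map_add, Polynomial.map_sub, Polynomial.map_pow, Polynomial.map_X,
        Polynomial.map_mul, Polynomial.map_C]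
      rw [map_natCast]
      have h2 : algebraMap A O' (tA hex.choose) = ψA (tA hex.choose) := rfl
      have h3 : epsAt χ hℓ hℓN ^ F.e * t ℓ = Ψ (MvPolynomial.X (Sum.inl hex.choose)) := by
        rw [ht ℓ hex]
        have h4 : epsAt χ hℓ hℓN = ((χ (F.u hex.choose) : O'ˣ) : O') := by
          unfold epsAt
          congr 2
          apply Units.ext
          rw [ZMod.coe_unitOfCoprime, Frame.u, coe_unitL, hi]
        rw [h4, ← Units.val_pow_eq_pow_val, ← mul_assoc, ← Units.val_mul, mul_inv_cancel,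
          Units.val_one, one_mul]
      rw [h2, hΨA, h3, hi])
    σ hσ
  have h5 : (ρ.baseChangeAlong ψA hψA).trace σ = ψA (ρ.trace σ) :=
    GlobTrace3.trace_baseChangeAlong ψA hψA ρ σ
  rw [← h5, hmain, ← map_pow, ← map_inv, hχv, hχv]

/-- **the trace at a point** (no roots of unity needed: they are adjoined). -/
theorem point_trace (F : Frame N) (Kq : ∀ q : ℕ, Subgroup (ZMod q)ˣ) (Q : Finset ℕ)
    (hsub : F.c.sub F.s = SQ Kq Q N)
    (hQ : ∀ q ∈ Q, q.Prime ∧ q ∣ N ∧ ¬ q ∣ N / q)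
    {Hn : Type} [AddCommGroup Hn] [Module O Hn] [Module (MvPolynomial F.Var O) Hn]
    (hAnn : ∀ Pol : MvPolynomial F.Var O, (∀ y : F.P O F.s, Pol • y = 0) → ∀ y : Hn, Pol • y = 0)
    (m : ℕ) (hm : ∀ d : (ZMod N)ˣ, d ^ m ∈ F.c.sub F.s) (he : 2 * F.e = m + 1)
    {A : Type} [CommRing A] [IsLocalRing A]
    (ρ : GaloisRepAdic A) (tA : F.ι → A)
    (Sf : Finset ℕ) (hpS : p ∈ Sf) (hcof : ∀ r : ℕ, r.Prime → r ∉ Sf → ∃ i, F.ℓ i = r)
    (hfrob : ∀ (i : F.ι) (P : ValuationSubring Qb), P.LiesOverPrime (F.ℓ i) → ∀ φ : GQ,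
      P.IsFrobeniusAt φ (F.ℓ i) →
      LinearMap.charpoly (ρ.ρ φ) = X ^ 2 - C (tA i) * X + C ((F.ℓ i : A)))
    {q₀ : ℕ} (hq₀ : q₀ ∈ Q) (hq₀p : q₀ ≠ p) (hneg : (-1 : (ZMod q₀)ˣ) ∈ Kq q₀)
    {Mb : ℕ} [NeZero Mb] (hNMb : N * ∏ q ∈ Q.erase q₀, q ∣ Mb) (h49 : 4 ∣ Mb ∨ 9 ∣ Mb)
    (hMS : ∀ q : ℕ, q.Prime → q ∣ Mb → q ∈ Sf)
    (Hd : Subgroup (ZMod Mb)ˣ) (hHd : ∀ h ∈ Hd, ∀ hq : q₀ ∣ Mb, ZMod.unitsMap hq h ∈ Kq q₀)
    (Aq : ValuationSubring Qb) (hAq : Aq.LiesOverPrime q₀) (c : ℕ) (hc : c ≠ 0)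
    (hLG : ∀ σ ∈ Aq.inertiaSubgroupIn ℚ, ∀ (k : ℕ) (y : J1 Mb), p ^ k • y = 0 →
      (∀ h ∈ Hd, dia1 Qb Mb h y = y) →
      c • (σ • (σ • y - dia1 Qb Mb (cycloM Mb σ) y) - (σ • y - dia1 Qb Mb (cycloM Mb σ) y)) = 0)
    (O' : Type) [CommRing O'] [IsDomain O'] [IsDiscreteValuationRing O']
    [IsAdicComplete (maximalIdeal O') O'] [Finite (ResidueField O')] [CharZero O']
    (hpO' : (p : O') ∈ maximalIdeal O')
    (Ψ : MvPolynomial (Var' F) O →+* O')
    (hΨ : ∀ Pol : MvPolynomial (Var' F) O,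
      (∀ y : Hn, (MvPolynomial.rename (incl F) Pol) • y = 0) → Ψ Pol = 0)
    (ψA : A →+* O') (hψA : IsLocalHom ψA)
    (hΨA : ∀ i, ψA (tA i) = Ψ (MvPolynomial.X (Sum.inl i)))
    (σ : GQ) (hσ : σ ∈ Aq.inertiaSubgroupIn ℚ) :
    ψA (ρ.trace σ) = Ψ (MvPolynomial.X (Sum.inr (cycloM N σ ^ F.e)))
      + Ψ (MvPolynomial.X (Sum.inr ((cycloM N σ ^ F.e)⁻¹))) := by
  classical
  have hpos : 0 < ∏ q ∈ Q.erase q₀, q :=
    Finset.prod_pos fun q hq => (hQ q (Finset.mem_of_mem_erase hq)).1.pos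
  obtain ⟨O'', i1, i2, i3, i4, i5, i6, ι, hιloc, hιinj, ζ, hζ⟩ :=
    BridgeExt3.exists_ext_with_roots O' (∏ q ∈ Q.erase q₀, q) hpos
  have hζ' : ∀ q ∈ Q.erase q₀, ∃ e : AddChar (ZMod q) (FractionRing O''), e.IsPrimitive :=
    fun q hq => BridgeExt3.exists_primitive_addChar
      (BridgeExt3.isPrimitiveRoot_algebraMap (K := FractionRing O'') hζ) hpos
      (Finset.dvd_prod_of_mem _ hq)
  have hpO'' : (p : O'') ∈ maximalIdeal O'' := by
    rw [← map_natCast ι p, mem_maximalIdeal, mem_nonunits_iff]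
    intro hu
    exact (mem_nonunits_iff.mp ((mem_maximalIdeal _).mp hpO')) (isUnit_of_map_unit ι _ hu)
  have hloc2 : IsLocalHom (ι.comp ψA) := RingHom.isLocalHom_comp _ _
  have h1 := point_trace_of_roots (p := p) F Kq Q hsub hQ hAnn m hm he ρ tA Sf hpS hcof hfrob hq₀ hq₀p
    hneg hNMb h49 hMS Hd hHd Aq hAq c hc hLG O'' hpO'' hζ' (ι.comp Ψ)
    (fun Pol h => by rw [RingHom.comp_apply, hΨ Pol h, map_zero]) (ι.comp ψA) hloc2
    (fun i => by rw [RingHom.comp_apply, RingHom.comp_apply, hΨA]) σ hσ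
  apply hιinj
  rw [map_add]
  exact h1

end Point

/-! ### The operator identity -/

section Main

variable {p : ℕ} [Fact p.Prime] {N : ℕ} [NeZero N]
  {O : Type} [CommRing O] [IsDomain O] [IsDiscreteValuationRing O]
  [IsAdicComplete (maximalIdeal O) O] [Finite (ResidueField O)] [CharZero O]

/-- **BRIDGE, operator level.** The trace of an inertia element `σ` at the prime `q₀` of the chain
acts on `Hn` as `⟨c^e⟩ + ⟨c^e⟩⁻¹`, `c = cycloM N σ`. -/
theorem bridge_operator (hpO : (p : O) ∈ maximalIdeal O)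
    (F : Frame N) (Kq : ∀ q : ℕ, Subgroup (ZMod q)ˣ) (Q : Finset ℕ)
    (hsub : F.c.sub F.s = SQ Kq Q N)
    (hQ : ∀ q ∈ Q, q.Prime ∧ q ∣ N ∧ ¬ q ∣ N / q)
    {Hn : Type} [AddCommGroup Hn] [Module O Hn] [Module (MvPolynomial F.Var O) Hn]
    [IsScalarTower O (MvPolynomial F.Var O) Hn] [Module.Free O Hn] [Module.Finite O Hn]
    (hAnn : ∀ Pol : MvPolynomial F.Var O, (∀ y : F.P O F.s, Pol • y = 0) → ∀ y : Hn, Pol • y = 0)
    (m : ℕ) (hm : ∀ d : (ZMod N)ˣ, d ^ m ∈ F.c.sub F.s) (he : 2 * F.e = m + 1)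
    {A : Type} [CommRing A] [IsLocalRing A] [Algebra O A] [Module.Finite O A]
    (ρ : GaloisRepAdic A) (act : A →ₐ[O] Module.End O Hn) (tA : F.ι → A)
    (hact : ∀ i y, act (tA i) y
      = (MvPolynomial.X (Sum.inl (some i)) : MvPolynomial F.Var O) • y)
    (hgen : Algebra.adjoin O (Set.range tA) = ⊤)
    {T₁ : Type} [CommRing T₁] [Algebra O T₁] [Module.Free O T₁] [Module.Finite O T₁]
    [IsReduced T₁] (g₁ : T₁ →ₐ[O] A) (hg₁ : Function.Surjective g₁)
    (Sf : Finset ℕ) (hpS : p ∈ Sf) (hcof : ∀ r : ℕ, r.Prime → r ∉ Sf → ∃ i, F.ℓ i = r)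
    (hfrob : ∀ (i : F.ι) (P : ValuationSubring Qb), P.LiesOverPrime (F.ℓ i) → ∀ φ : GQ,
      P.IsFrobeniusAt φ (F.ℓ i) →
      LinearMap.charpoly (ρ.ρ φ) = X ^ 2 - C (tA i) * X + C ((F.ℓ i : A)))
    {q₀ : ℕ} (hq₀ : q₀ ∈ Q) (hq₀p : q₀ ≠ p) (hneg : (-1 : (ZMod q₀)ˣ) ∈ Kq q₀)
    {Mb : ℕ} [NeZero Mb] (hNMb : N * ∏ q ∈ Q.erase q₀, q ∣ Mb) (h49 : 4 ∣ Mb ∨ 9 ∣ Mb)
    (hMS : ∀ q : ℕ, q.Prime → q ∣ Mb → q ∈ Sf)
    (Hd : Subgroup (ZMod Mb)ˣ) (hHd : ∀ h ∈ Hd, ∀ hq : q₀ ∣ Mb, ZMod.unitsMap hq h ∈ Kq q₀)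
    (Aq : ValuationSubring Qb) (hAq : Aq.LiesOverPrime q₀) (c : ℕ) (hc : c ≠ 0)
    (hLG : ∀ σ ∈ Aq.inertiaSubgroupIn ℚ, ∀ (k : ℕ) (y : J1 Mb), p ^ k • y = 0 →
      (∀ h ∈ Hd, dia1 Qb Mb h y = y) →
      c • (σ • (σ • y - dia1 Qb Mb (cycloM Mb σ) y) - (σ • y - dia1 Qb Mb (cycloM Mb σ) y)) = 0) :
    ∀ σ ∈ Aq.inertiaSubgroupIn ℚ, ∀ y : Hn, act (ρ.trace σ) y =
      (MvPolynomial.X (Sum.inr (cycloM N σ ^ F.e)) : MvPolynomial F.Var O) • y
      + (MvPolynomial.X (Sum.inr ((cycloM N σ ^ F.e)⁻¹)) : MvPolynomial F.Var O) • y := by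
  classical
  intro σ hσ
  -- the Hecke ring without `x` acting on `Hn`
  let actR' : MvPolynomial (Var' F) O →ₐ[O] Module.End O Hn :=
    (Algebra.lsmul O O Hn : MvPolynomial F.Var O →ₐ[O] Module.End O Hn).comp
      (MvPolynomial.rename (incl F))
  have hactR' : ∀ (Pol : MvPolynomial (Var' F) O) (y : Hn),
      actR' Pol y = (MvPolynomial.rename (incl F) Pol) • y := fun _ _ => rfl
  let 𝔹 : Type := MvPolynomial (Var' F) O ⧸ RingHom.ker actR'
  let θ' : 𝔹 →ₐ[O] Module.End O Hn := Ideal.kerLiftAlg actR'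
  have hθ' : Function.Injective θ' := Ideal.kerLiftAlg_injective actR'
  have hθ'mk : ∀ Pol, θ' (Ideal.Quotient.mk _ Pol) = actR' Pol := fun _ => rfl
  -- the relations of the lattice hold on `Hn`
  have hrel : ∀ Pol : MvPolynomial (Var' F) O,
      polyAct (tau' F O F.s) (tau'_comm F O F.s) Pol = 0 → actR' Pol = 0 := by
    intro Pol h
    apply LinearMap.ext
    intro y
    rw [hactR', LinearMap.zero_apply]
    apply hAnn
    intro z
    rw [PolyMod.smul_def, polyAct_rename, h, LinearMap.zero_apply, map_zero]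
  -- the diamond operators on `Hn`
  let D : (ZMod N)ˣ →* Module.End O Hn :=
    { toFun := fun d => actR' (MvPolynomial.X (Sum.inr d))
      map_one' := by
        have h1 := hrel (MvPolynomial.X (Sum.inr 1) - 1) (by
          rw [map_sub, polyAct_X, map_one, tau'_inr, dPar_one, sub_self])
        rw [map_sub, map_one, sub_eq_zero] at h1
        exact h1
      map_mul' := fun d d' => by
        have h1 := hrel (MvPolynomial.X (Sum.inr (d * d'))
            - MvPolynomial.X (Sum.inr d) * MvPolynomial.X (Sum.inr d')) (by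
          rw [map_sub, map_mul, polyAct_X, polyAct_X, polyAct_X, tau'_inr, tau'_inr, tau'_inr,
            dPar_mul, sub_self])
        rw [map_sub, map_mul, sub_eq_zero] at h1
        exact h1 }
  have hD : ∀ d, D d = actR' (MvPolynomial.X (Sum.inr d)) := fun _ => rfl
  -- the generators
  let g : Set 𝔹 := Set.range fun v : Var' F =>
    (Ideal.Quotient.mk (RingHom.ker actR') (MvPolynomial.X v) : 𝔹)
  have hg : Algebra.adjoin O g = ⊤ := by
    have h1 : Algebra.adjoin O (Set.range (MvPolynomial.X : Var' F → MvPolynomial (Var' F) O)) = ⊤ :=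
      MvPolynomial.adjoin_range_X
    have h2 := AlgHom.map_adjoin (Ideal.Quotient.mkₐ O (RingHom.ker actR'))
      (Set.range (MvPolynomial.X : Var' F → MvPolynomial (Var' F) O))
    rw [h1, Algebra.map_top, (AlgHom.range_eq_top _).mpr (Ideal.Quotient.mkₐ_surjective O _),
      ← Set.range_comp] at h2
    exact h2.symm
  -- the action of the generators of `A`
  have hactX : ∀ i : F.ι, actR' (MvPolynomial.X (Sum.inl i)) = act (tA i) := by
    intro i
    apply LinearMap.ext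
    intro y
    rw [hactR', MvPolynomial.rename_X, hact]
    rfl
  -- semisimplicity of the generators
  have hss : ∀ x ∈ g, Module.End.IsSemisimple
      (Module.End.baseChangeHom O (FractionRing O) Hn (θ' x)) := by
    rintro _ ⟨v, rfl⟩
    rw [hθ'mk]
    cases v with
    | inl i =>
      obtain ⟨t, ht⟩ := hg₁ (tA i)
      have h1 : actR' (MvPolynomial.X (Sum.inl i)) = (act.comp g₁) t := by
        rw [hactX, AlgHom.comp_apply, ht]
      rw [h1]
      exact BridgeOp3.isSemisimple_baseChange_of_isReduced (FractionRing O) T₁ (act.comp g₁) t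
    | inr d =>
      haveI : CharZero (FractionRing O) :=
        charZero_of_injective_algebraMap (IsFractionRing.injective O (FractionRing O))
      refine BridgeOp3.isSemisimple_of_pow_eq_one _ (m := Fintype.card (ZMod N)ˣ)
        Fintype.card_ne_zero ?_
      rw [← hD, ← map_pow, ← map_pow, pow_card_eq_one, map_one, map_one]
  -- the Hecke algebra `A` maps to `𝔹`
  have claim : ∀ a : A, ∃ b : 𝔹, θ' b = act a := by
    intro a
    have ha : a ∈ Algebra.adjoin O (Set.range tA) := by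
      rw [hgen]
      exact Algebra.mem_top
    induction ha using Algebra.adjoin_induction with
    | mem x hx =>
      obtain ⟨i, rfl⟩ := hx
      exact ⟨Ideal.Quotient.mk _ (MvPolynomial.X (Sum.inl i)), by rw [hθ'mk, hactX]⟩
    | algebraMap r => exact ⟨algebraMap O 𝔹 r, by rw [AlgHom.commutes, AlgHom.commutes]⟩
    | add x y _ _ hx hy =>
      obtain ⟨bx, hbx⟩ := hx
      obtain ⟨by', hby⟩ := hy
      exact ⟨bx + by', by rw [map_add, map_add, hbx, hby]⟩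
    | mul x y _ _ hx hy =>
      obtain ⟨bx, hbx⟩ := hx
      obtain ⟨by', hby⟩ := hy
      exact ⟨bx * by', by rw [map_mul, map_mul, hbx, hby]⟩
  have hrange : ∀ a : A, act a ∈ θ'.range := fun a => by
    obtain ⟨b, hb⟩ := claim a
    exact ⟨b, hb⟩
  let β : A →ₐ[O] 𝔹 :=
    ((AlgEquiv.ofInjective θ' hθ').symm : θ'.range →ₐ[O] 𝔹).comp (act.codRestrict θ'.range hrange)
  have hβ : ∀ a : A, θ' (β a) = act a := by
    intro a
    have h1 : (AlgEquiv.ofInjective θ' hθ') (β a) = act.codRestrict θ'.range hrange a :=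
      (AlgEquiv.ofInjective θ' hθ').apply_symm_apply _
    exact congrArg Subtype.val h1
  have hβt : ∀ i, β (tA i) = Ideal.Quotient.mk _ (MvPolynomial.X (Sum.inl i)) := by
    intro i
    apply hθ'
    rw [hβ, hθ'mk, hactX]
  -- the element to kill
  have hZ : β (ρ.trace σ) - Ideal.Quotient.mk _ (MvPolynomial.X (Sum.inr (cycloM N σ ^ F.e)))
      - Ideal.Quotient.mk _ (MvPolynomial.X (Sum.inr ((cycloM N σ ^ F.e)⁻¹))) = (0 : 𝔹) := by
    refine BridgeOp3.eq_zero_of_points_of_faithful O (FractionRing O) 𝔹 θ' hθ' g hg hss _ ?_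
    intro O' _ _ _ _ _ _ ψ hψ
    -- the point of the polynomial ring
    let Ψ : MvPolynomial (Var' F) O →+* O' := ψ.comp (Ideal.Quotient.mk (RingHom.ker actR'))
    have hΨ : ∀ Pol : MvPolynomial (Var' F) O,
        (∀ y : Hn, (MvPolynomial.rename (incl F) Pol) • y = 0) → Ψ Pol = 0 := by
      intro Pol h
      have h1 : Pol ∈ RingHom.ker actR' := by
        rw [RingHom.mem_ker]
        apply LinearMap.ext
        intro y
        rw [hactR', h, LinearMap.zero_apply]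
      show ψ (Ideal.Quotient.mk _ Pol) = 0
      rw [Ideal.Quotient.eq_zero_iff_mem.mpr h1, map_zero]
    -- the point of `A`
    let ψA : A →+* O' := ψ.comp (β : A →+* 𝔹)
    have hcomp : ψA.comp (algebraMap O A) = ψ.comp (algebraMap O 𝔹) := by
      ext r
      show ψ (β (algebraMap O A r)) = ψ (algebraMap O 𝔹 r)
      rw [AlgHom.commutes]
    have hψA : IsLocalHom ψA := by
      apply isLocalHom_of_comp_algebraMap (O := O) ψA
      rw [hcomp]
      exact hψ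
    have hpO' : (p : O') ∈ maximalIdeal O' := by
      have h1 : (ψ.comp (algebraMap O 𝔹)) (p : O) = (p : O') := map_natCast _ p
      rw [← h1, mem_maximalIdeal, mem_nonunits_iff]
      intro hu
      exact (mem_nonunits_iff.mp ((mem_maximalIdeal _).mp hpO))
        (isUnit_of_map_unit (ψ.comp (algebraMap O 𝔹)) _ hu)
    have h2 := point_trace (p := p) F Kq Q hsub hQ hAnn m hm he ρ tA Sf hpS hcof hfrob hq₀ hq₀p
      hneg hNMb h49 hMS Hd hHd Aq hAq c hc hLG O' hpO' Ψ hΨ ψA hψA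
      (fun i => by
        show ψ (β (tA i)) = ψ (Ideal.Quotient.mk _ (MvPolynomial.X (Sum.inl i)))
        rw [hβt]) σ hσ
    rw [map_sub, map_sub, sub_sub, sub_eq_zero]
    exact h2
  -- conclusion
  intro y
  have h1 := congrArg θ' (sub_eq_zero.mp (by rw [← sub_sub]; exact hZ))
  rw [hβ, map_add, hθ'mk, hθ'mk] at h1
  have h2 := LinearMap.congr_fun h1 y
  rw [LinearMap.add_apply, hactR', hactR', MvPolynomial.rename_X, MvPolynomial.rename_X] at h2
  exact h2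

end Main

end Fermat.Agent.M43.BridgeFinal3
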