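import Mathlib
import Fermat.Agent.M43.ChainMod5
import Fermat.Agent.M43.AlgStep5
import Fermat.Agent.M43.Bdry0

/-!
# M43 / Hecke side: the cyclic steps of the concrete chain satisfy `CycLoc`

`F : Frame N`, `O` a commutative ring with `2`, `3` invertible and without `ℕ`-torsion,
`i₀ : F.ι` a good prime with `ℓ i₀ ≡ 1 mod N`, `t := X_{i₀} - (ℓ i₀ + 1)` in the Hecke ring
`MvPolynomial F.Var O`, `S` a submonoid containing `t`.

* `tFull` : the operator `T_{ℓ i₀} - (ℓ i₀ + 1)` from the FULL `Hom(Γ_H(N), O)` to the parabolic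
  lattice (lead's `Bdry0.isParabolicHom_hecke_sub`);
* `cycLoc` : `CycLoc S (F.res O i) (F.dia O (i + 1) (F.c.d i)) (F.c.m i)` for every step
  `i : Fin F.s` of the chain (from lead's `CycInst0`: (E2) `step_ker_norm`, (E34)
  `step_hecke_sub_norm`, (E4par) `step_hecke_sub_par`, (E1), through `AlgStep5.CycLoc.of_full`).
-/

set_option autoImplicit false
set_option linter.unusedSectionVars false
set_option linter.style.haveILetI false

open scoped MatrixGroups
open CongruenceSubgroup ModularCurve.Period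

noncomputable section

namespace Fermat.Agent.M43.ChainStep5

open Fermat.Agent.M48.ESInv3 Fermat.Agent.M48.CosetOp3 Fermat.Agent.M43.HeckeH0
  Fermat.Agent.M43.CycInst0 Fermat.Agent.M48.Diamond1
  Fermat.Agent.M43.ExtCyc0 Fermat.Agent.M43.ChainGrp5 Fermat.Agent.M43.PolyMod5
  Fermat.Agent.M43.ChainMod5 Fermat.Agent.M43.AlgStep5

variable {N : ℕ} [NeZero N] {O : Type} [CommRing O] (F : Frame N)

/-- the full `Hom(Γ_H(N), O)` at level `j`. -/
abbrev Full (O : Type) [CommRing O] (F : Frame N) (j : ℕ) : Type := Additive (GH N (F.sub j)) →+ O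

/-- the inclusion of the parabolic lattice into the full `Hom`. -/
def incl (j : ℕ) : F.P O j →ₗ[O] Full O F j :=
  (parabolicHoms O (GH N (F.sub j)) O).subtype ∘ₗ
    ((PolyMod.of (F.tau O j) (F.tau_comm j)).symm : F.P O j →ₗ[O] Par O (F.sub j))

@[simp] theorem incl_of (j : ℕ) (φ : Par O (F.sub j)) :
    incl F j (PolyMod.of _ _ φ) = (φ : Additive (GH N (F.sub j)) →+ O) := rfl

theorem incl_injective (j : ℕ) : Function.Injective (incl F (O := O) j) := by
  intro x y h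
  obtain ⟨φ, rfl⟩ := (PolyMod.of (F.tau O j) (F.tau_comm j)).surjective x
  obtain ⟨ψ, rfl⟩ := (PolyMod.of (F.tau O j) (F.tau_comm j)).surjective y
  rw [incl_of, incl_of] at h
  rw [Subtype.ext h]

variable (htf : ∀ n : ℕ, n ≠ 0 → ∀ x : O, n • x = 0 → x = 0)
  (i₀ : F.ι) (h₀ : ((F.ℓ i₀ : ℕ) : ZMod N) = 1)

/-- `T_{ℓ i₀} - (ℓ i₀ + 1)` from the full `Hom` to the parabolic lattice. -/
def tFull (j : ℕ) : Full O F j →ₗ[O] F.P O j where
  toFun φ := PolyMod.of _ _ ⟨(TH (F.prime i₀) (F.ndvd i₀) (F.sub j)).addHom φ - (F.ℓ i₀ + 1) • φ, by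
    haveI := Fact.mk (F.prime i₀)
    exact Bdry0.isParabolicHom_hecke_sub (F.ndvd i₀) h₀ _ _ (F.sub j) htf φ⟩
  map_add' φ ψ := by
    rw [← map_add]
    congr 1
    apply Subtype.ext
    show (TH (F.prime i₀) (F.ndvd i₀) (F.sub j)).addHom (φ + ψ) - (F.ℓ i₀ + 1) • (φ + ψ) =
      ((TH (F.prime i₀) (F.ndvd i₀) (F.sub j)).addHom φ - (F.ℓ i₀ + 1) • φ) +
      ((TH (F.prime i₀) (F.ndvd i₀) (F.sub j)).addHom ψ - (F.ℓ i₀ + 1) • ψ)
    rw [addHom_add, smul_add]
    abel
  map_smul' c φ := by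
    rw [RingHom.id_apply, ← map_smul]
    congr 1
    apply Subtype.ext
    show (TH (F.prime i₀) (F.ndvd i₀) (F.sub j)).addHom (c • φ) - (F.ℓ i₀ + 1) • (c • φ) =
      c • ((TH (F.prime i₀) (F.ndvd i₀) (F.sub j)).addHom φ - (F.ℓ i₀ + 1) • φ)
    rw [addHom_smul, smul_sub, smul_comm]

theorem incl_tFull (j : ℕ) (φ : Full O F j) :
    incl F j (tFull F htf i₀ h₀ j φ) =
      (TH (F.prime i₀) (F.ndvd i₀) (F.sub j)).addHom φ - (F.ℓ i₀ + 1) • φ := rfl

include h₀ in
theorem u_eq_one : F.u i₀ = 1 := by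
  ext
  rw [Frame.u, coe_unitL, h₀, Units.val_one]

/-- the element `t = X_{i₀} - (ℓ i₀ + 1)` of the Hecke ring. -/
def tElt (O : Type) [CommRing O] (F : Frame N) (i₀ : F.ι) : MvPolynomial F.Var O :=
  MvPolynomial.X (Sum.inl (some i₀)) - MvPolynomial.C ((F.ℓ i₀ : O) + 1)

include h₀ in
/-- `t` acts on the parabolic lattice as `T_{ℓ i₀} - (ℓ i₀ + 1)`. -/
theorem tElt_smul (j : ℕ) (x : F.P O j) : tElt O F i₀ • x = tFull F htf i₀ h₀ j (incl F j x) := by
  obtain ⟨φ, rfl⟩ := (PolyMod.of (F.tau O j) (F.tau_comm j)).surjective x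
  apply incl_injective F j
  rw [incl_tFull, incl_of, tElt, sub_smul, map_sub, F.X_smul_of, incl_of, PolyMod.smul_of,
    polyAct_C, incl_of]
  have h1 : F.tau O j (Sum.inl (some i₀)) φ = tPar O (F.prime i₀) (F.ndvd i₀) (F.sub j) φ := by
    show tPar O _ _ _ (dPar O _ (F.u i₀ ^ F.e) φ) = _
    rw [u_eq_one F i₀ h₀, one_pow, dPar_one, Module.End.one_apply]
  rw [h1, coe_tPar, LinearMap.smul_apply, Module.End.one_apply]
  congr 1
  have : ((F.ℓ i₀ : O) + 1) = ((F.ℓ i₀ + 1 : ℕ) : O) := by push_cast; ring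
  rw [this, Nat.cast_smul_eq_nsmul]
  rfl

include htf h₀ in
/-- **the cyclic steps of the concrete chain satisfy `CycLoc`.** -/
theorem cycLoc [Invertible (2 : O)] [Invertible (3 : O)]
    (S : Submonoid (MvPolynomial F.Var O)) (hS : tElt O F i₀ ∈ S) (i : Fin F.s) :
    CycLoc S (F.res O i.val) (F.dia O (i.val + 1) (F.c.d i)) (F.c.m i) := by
  have SD := F.c.stepData i
  have hreg : ∀ r : O, F.c.m i • r = 0 → r = 0 := fun r hr => htf _ (F.c.pos i).ne' r hr
  refine CycLoc.of_full S (O := O) (H := Full O F (i.val + 1)) ?_ ?_ ?_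
    (CycInst0.dia (F.sub (i.val + 1)) (F.c.d i)) (incl F (i.val + 1)) ?_
    (tFull F htf i₀ h₀ (i.val + 1)) ?_ (tElt O F i₀) hS ?_ ?_ ?_ ?_
  · -- `δ ^ m = 1`
    rw [← map_pow]
    exact F.dia_of_mem _ SD.pow
  · -- `res` is injective
    intro x y hxy
    obtain ⟨φ, rfl⟩ := (PolyMod.of (F.tau O i.val) (F.tau_comm i.val)).surjective x
    obtain ⟨ψ, rfl⟩ := (PolyMod.of (F.tau O i.val) (F.tau_comm i.val)).surjective y
    rw [Frame.res_of, Frame.res_of] at hxy
    have h1 : res SD.hle (φ.1 - ψ.1) = 0 := by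
      have h2 := congrArg (fun z => incl F (i.val + 1) z) hxy
      simp only [incl_of, coe_resPar] at h2
      show resHom _ (φ.1 - ψ.1) = 0
      rw [show resHom SD.hle (φ.1 - ψ.1) = resHom SD.hle φ.1 - resHom SD.hle ψ.1 from by
        refine AddMonoidHom.ext fun γ => ?_
        rfl]
      exact sub_eq_zero.mpr h2
    have h3 := step_res_injective SD hreg _ h1
    rw [sub_eq_zero] at h3
    rw [Subtype.ext h3]
  · -- restrictions are invariant
    intro x
    obtain ⟨φ, rfl⟩ := (PolyMod.of (F.tau O i.val) (F.tau_comm i.val)).surjective x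
    rw [Frame.res_of, Frame.dia_of]
    congr 1
    apply Subtype.ext
    exact step_dia_res SD φ.1
  · -- the inclusion intertwines the diamonds
    intro x
    obtain ⟨φ, rfl⟩ := (PolyMod.of (F.tau O (i.val + 1)) (F.tau_comm (i.val + 1))).surjective x
    rfl
  · -- `t` commutes with the diamonds
    intro y
    apply incl_injective F (i.val + 1)
    obtain ⟨ψ, hψ⟩ := (PolyMod.of (F.tau O (i.val + 1)) (F.tau_comm (i.val + 1))).surjective
      (tFull F htf i₀ h₀ (i.val + 1) y)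
    rw [incl_tFull, ← hψ, Frame.dia_of, incl_of, coe_dPar]
    have hψ' : (ψ : Additive (GH N (F.sub (i.val + 1))) →+ O) =
        (TH (F.prime i₀) (F.ndvd i₀) (F.sub (i.val + 1))).addHom y - (F.ℓ i₀ + 1) • y := by
      have := congrArg (incl F (i.val + 1)) hψ
      rwa [incl_of, incl_tFull] at this
    rw [hψ', map_sub, map_nsmul]
    haveI := Fact.mk (F.prime i₀)
    congr 1
    exact heckeH_dia (F.ndvd i₀) _ _ _ (F.c.d i) y
  · -- `t ∘ incl = t •`
    intro x
    exact (tElt_smul F htf i₀ h₀ _ x).symm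
  · -- (E2)
    intro y hy
    rw [LinearMap.sum_apply] at hy
    exact step_ker_norm SD hreg y hy
  · -- (E34)
    intro y hy
    haveI := Fact.mk (F.prime i₀)
    obtain ⟨y', hy'⟩ := step_hecke_sub_norm SD (F.ndvd i₀) _
      (Gamma0Map_sigma_unitL (F.prime i₀) (F.ndvd i₀)) hy
    refine ⟨y', ?_⟩
    rw [LinearMap.sum_apply, incl_tFull]
    exact hy'
  · -- (E4par)
    intro x hx
    obtain ⟨φ, rfl⟩ := (PolyMod.of (F.tau O (i.val + 1)) (F.tau_comm (i.val + 1))).surjective x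
    haveI := Fact.mk (F.prime i₀)
    have hφ : CycInst0.dia (F.sub (i.val + 1)) (F.c.d i) φ.1 = φ.1 := by
      have := congrArg (incl F (i.val + 1)) hx
      rwa [Frame.dia_of, incl_of, incl_of, coe_dPar] at this
    obtain ⟨Ψ, hΨpar, hΨ⟩ := step_hecke_sub_par SD hreg (F.ndvd i₀) _
      (Gamma0Map_sigma_unitL (F.prime i₀) (F.ndvd i₀)) hφ φ.2
    refine ⟨PolyMod.of _ _ ⟨Ψ, hΨpar⟩, ?_⟩
    apply incl_injective F (i.val + 1)
    rw [Frame.res_of, incl_of, coe_resPar, tElt_smul F htf i₀ h₀, incl_tFull, incl_of]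
    exact hΨ

end Fermat.Agent.M43.ChainStep5
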