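import Mathlib
import Fermat.Agent.M43.AlgMain5

/-!
# M43 / Hecke side: the tower of cyclic steps (induction)

`O` a complete discrete valuation ring, `𝔓` a commutative `O`-algebra, `S ⊆ 𝔓` a submonoid;
`P j` (`j : ℕ`) `𝔓`-modules with localisations `f j : P j → L j` at `S` (finite over `O`),
`res j : P j → P (j + 1)`, a commutative monoid `U` acting on every `P j` through
`dia j : U →* Module.End 𝔓 (P j)` compatibly with `res`, elements `d j : U`, orders `m j = p ^ k j`.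

* `Coinv.step_cycLoc'` : one cyclic step for an arbitrary submonoid `S` (finiteness of `L₂` over `O`
  as a hypothesis);
* `mapEndHom`, `restrictEndHom` : localisation and restriction of scalars of endomorphisms as monoid
  homomorphisms;
* `tower` : if `CycLoc S (res j) (dia (j + 1) (d j)) (m j)` for all `j < s`, then for every `j ≤ s`
  there is `π : L j →ₗ[𝔓] L 0` with
  `Coinv O π (mapEnd S (f j) '' {dia j (d i) | i < j}) (∏ i < j, m i)`;
* `towerRep`, `tower_bijective` : for a finite group `G` with `|G| = ∏ i < s, m i` and `U = G`: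
  lifts along `π` of an `O`-basis of `L 0` form an `O[G]`-basis of `L s`.
-/

set_option autoImplicit false
set_option linter.unusedSectionVars false
set_option linter.style.haveILetI false

namespace Fermat.Agent.M43.ChainTower5

open IsLocalRing Fermat.Agent.M43.AlgTower5 Fermat.Agent.M43.AlgStep5 Fermat.Agent.M43.AlgLoc5

variable {O : Type} [CommRing O] [IsDomain O] [IsDiscreteValuationRing O]
  [IsAdicComplete (maximalIdeal O) O]
  {𝔓 : Type} [CommRing 𝔓] [Algebra O 𝔓] (S : Submonoid 𝔓)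

section Step

variable {P₂ P₁ L₂ L₁ M₀ : Type*}
  [AddCommGroup P₂] [Module 𝔓 P₂]
  [AddCommGroup P₁] [Module 𝔓 P₁]
  [AddCommGroup L₂] [Module O L₂] [Module 𝔓 L₂] [IsScalarTower O 𝔓 L₂] [Module.Finite O L₂]
  [AddCommGroup L₁] [Module O L₁] [Module 𝔓 L₁] [IsScalarTower O 𝔓 L₁]
  [AddCommGroup M₀] [Module O M₀] [Module 𝔓 M₀] [IsScalarTower O 𝔓 M₀]
  [Module.Free O M₀] [Module.Finite O M₀]
  (f₂ : P₂ →ₗ[𝔓] L₂) [IsLocalizedModule S f₂]
  (f₁ : P₁ →ₗ[𝔓] L₁) [IsLocalizedModule S f₁]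

/-- **one cyclic step of the tower, after localisation at an arbitrary submonoid `S`.** -/
theorem Coinv.step_cycLoc' {p : ℕ} (hp : p.Prime) (k : ℕ) (hpO : (p : O) ∈ maximalIdeal O)
    {res : P₁ →ₗ[𝔓] P₂} {δ : Module.End 𝔓 P₂} {m : ℕ} [NeZero m] (hm : m = p ^ k)
    (h : CycLoc S res δ m)
    {π₁ : L₁ →ₗ[𝔓] M₀} {C₁ : Set (Module.End 𝔓 P₁)} {n₁ : ℕ}
    (h₁ : Coinv O π₁ (mapEnd S f₁ '' C₁) n₁)
    (C₂ : Set (Module.End 𝔓 P₂)) (hδC : δ ∈ C₂) (hcomm : ∀ c₂ ∈ C₂, c₂ * δ = δ * c₂)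
    (hdown : ∀ c₂ ∈ C₂, ∃ c₁ : Module.End 𝔓 P₁, (c₁ ∈ C₁ ∨ c₁ = 1) ∧ res ∘ₗ c₁ = c₂ ∘ₗ res)
    (hup : ∀ c₁ ∈ C₁, ∃ c₂ ∈ C₂, res ∘ₗ c₁ = c₂ ∘ₗ res) :
    Coinv O (π₁ ∘ₗ h.cores f₂ f₁) (mapEnd S f₂ '' C₂) (m * n₁) := by
  refine Coinv.step hp k hpO h₁ (h.cores f₂ f₁) (h.cores_surjective f₂ f₁) m hm
    (mapEnd S f₂ δ) (h.mapEnd_pow_eq f₂) (h.ker_cores f₂ f₁) (h.ker_sub_one f₂).le
    _ ⟨δ, hδC, rfl⟩ ?_ ?_
  · rintro _ ⟨c₂, hc₂, rfl⟩
    obtain ⟨c₁, hc₁, hres⟩ := hdown c₂ hc₂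
    refine ⟨mapEnd S f₁ c₁, ?_, h.cores_comm f₂ f₁ c₂ c₁ hres (hcomm c₂ hc₂)⟩
    rcases hc₁ with hc₁ | rfl
    · exact Or.inl ⟨c₁, hc₁, rfl⟩
    · exact Or.inr (mapEnd_one _ f₁)
  · rintro _ ⟨c₁, hc₁, rfl⟩
    obtain ⟨c₂, hc₂, hres⟩ := hup c₁ hc₁
    exact ⟨_, ⟨c₂, hc₂, rfl⟩, h.cores_comm f₂ f₁ c₂ c₁ hres (hcomm c₂ hc₂)⟩

end Step

section Homs

variable {P L : Type*} [AddCommGroup P] [Module 𝔓 P] [AddCommGroup L] [Module 𝔓 L]
  (f : P →ₗ[𝔓] L) [IsLocalizedModule S f]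

/-- localisation of endomorphisms, as a monoid homomorphism. -/
noncomputable def mapEndHom : Module.End 𝔓 P →* Module.End 𝔓 L where
  toFun := mapEnd S f
  map_one' := mapEnd_one S f
  map_mul' := mapEnd_mul S f

@[simp] theorem mapEndHom_apply (c : Module.End 𝔓 P) : mapEndHom S f c = mapEnd S f c := rfl

variable (O) in
/-- restriction of scalars of endomorphisms, as a monoid homomorphism. -/
def restrictEndHom (L : Type*) [AddCommGroup L] [Module 𝔓 L] [Module O L] [IsScalarTower O 𝔓 L] :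
    Module.End 𝔓 L →* Module.End O L where
  toFun c := c.restrictScalars O
  map_one' := rfl
  map_mul' _ _ := rfl

@[simp] theorem restrictEndHom_apply {L : Type*} [AddCommGroup L] [Module 𝔓 L] [Module O L]
    [IsScalarTower O 𝔓 L] (c : Module.End 𝔓 L) (y : L) : restrictEndHom O L c y = c y := rfl

end Homs

section Tower

variable (P L : ℕ → Type) [∀ j, AddCommGroup (P j)] [∀ j, Module 𝔓 (P j)]
  [∀ j, AddCommGroup (L j)] [∀ j, Module O (L j)] [∀ j, Module 𝔓 (L j)]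
  [∀ j, IsScalarTower O 𝔓 (L j)] [∀ j, Module.Finite O (L j)] [Module.Free O (L 0)]
  (f : ∀ j, P j →ₗ[𝔓] L j) [∀ j, IsLocalizedModule S (f j)]
  (res : ∀ j, P j →ₗ[𝔓] P (j + 1))
  {U : Type*} [CommMonoid U] (dia : ∀ j, U →* Module.End 𝔓 (P j))
  (hres : ∀ j u, res j ∘ₗ dia j u = dia (j + 1) u ∘ₗ res j)
  (d : ℕ → U) (m : ℕ → ℕ)

/-- the diamond operators of the first `j` steps at level `j`. -/
def diaSet (j : ℕ) : Set (Module.End 𝔓 (P j)) := {c | ∃ i, i < j ∧ c = dia j (d i)}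

include hres in
/-- **the tower.** -/
theorem tower {p : ℕ} (hp : p.Prime) (hpO : (p : O) ∈ maximalIdeal O) (k : ℕ → ℕ) (s : ℕ)
    (hm : ∀ j, j < s → m j = p ^ k j)
    (hcyc : ∀ j, j < s → CycLoc S (res j) (dia (j + 1) (d j)) (m j)) :
    ∀ j, j ≤ s → ∃ π : L j →ₗ[𝔓] L 0,
      Coinv O π (mapEnd S (f j) '' diaSet P dia d j) (∏ i ∈ Finset.range j, m i) := by
  intro j
  induction j with
  | zero =>
    intro _
    refine ⟨LinearMap.id, ?_⟩
    have h0 : diaSet P dia d 0 = ∅ := by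
      ext c
      simp [diaSet]
    rw [h0, Set.image_empty, Finset.range_zero, Finset.prod_empty]
    exact Coinv.refl LinearMap.id Function.bijective_id
  | succ j ih =>
    intro hj
    obtain ⟨π, hπ⟩ := ih (Nat.le_of_succ_le hj)
    have hjs : j < s := hj
    have hmj := hm j hjs
    haveI : NeZero (m j) := ⟨by rw [hmj]; exact pow_ne_zero _ hp.ne_zero⟩
    have h := hcyc j hjs
    refine ⟨π ∘ₗ h.cores (f (j + 1)) (f j), ?_⟩
    rw [Finset.prod_range_succ, mul_comm]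
    refine Coinv.step_cycLoc' S (f (j + 1)) (f j) hp (k j) hpO hmj h hπ
      (diaSet P dia d (j + 1)) ⟨j, Nat.lt_succ_self j, rfl⟩ ?_ ?_ ?_
    · rintro _ ⟨i, _, rfl⟩
      rw [← map_mul, ← map_mul, mul_comm]
    · rintro _ ⟨i, hi, rfl⟩
      rcases Nat.lt_succ_iff_lt_or_eq.mp hi with hlt | rfl
      · exact ⟨dia j (d i), Or.inl ⟨i, hlt, rfl⟩, hres j (d i)⟩
      · refine ⟨1, Or.inr rfl, ?_⟩
        apply LinearMap.ext
        intro Ψ
        exact (h.res_inv Ψ).symm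
    · rintro _ ⟨i, hi, rfl⟩
      exact ⟨dia (j + 1) (d i), ⟨i, Nat.lt_succ_of_lt hi, rfl⟩, hres j (d i)⟩

end Tower

section Final

variable (P L : ℕ → Type) [∀ j, AddCommGroup (P j)] [∀ j, Module 𝔓 (P j)]
  [∀ j, AddCommGroup (L j)] [∀ j, Module O (L j)] [∀ j, Module 𝔓 (L j)]
  [∀ j, IsScalarTower O 𝔓 (L j)] [∀ j, Module.Finite O (L j)] [Module.Free O (L 0)]
  (f : ∀ j, P j →ₗ[𝔓] L j) [∀ j, IsLocalizedModule S (f j)]
  (res : ∀ j, P j →ₗ[𝔓] P (j + 1))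
  {G : Type*} [CommGroup G] [Fintype G] (dia : ∀ j, G →* Module.End 𝔓 (P j))
  (hres : ∀ j u, res j ∘ₗ dia j u = dia (j + 1) u ∘ₗ res j)
  (d : ℕ → G) (m : ℕ → ℕ)

variable (O) in
/-- the representation of `G` on `L j`. -/
noncomputable def towerRep (j : ℕ) : Representation O G (L j) :=
  (restrictEndHom O (L j)).comp ((mapEndHom S (f j)).comp (dia j))

theorem towerRep_apply (j : ℕ) (g : G) (y : L j) :
    towerRep O S P L f dia j g y = mapEnd S (f j) (dia j g) y := rfl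

include hres in
/-- **the tower, final form**: lifts of an `O`-basis of `L 0` are an `O[G]`-basis of `L s`. -/
theorem tower_bijective {p : ℕ} (hp : p.Prime) (hpO : (p : O) ∈ maximalIdeal O) (k : ℕ → ℕ) (s : ℕ)
    (hm : ∀ j, j < s → m j = p ^ k j)
    (hcyc : ∀ j, j < s → CycLoc S (res j) (dia (j + 1) (d j)) (m j))
    (hcard : Fintype.card G = ∏ i ∈ Finset.range s, m i) :
    ∃ π : L s →ₗ[𝔓] L 0, Function.Surjective π ∧
      (∀ i, i < s → ∀ y, π (mapEnd S (f s) (dia s (d i)) y) = π y) ∧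
      Module.Free O (L s) ∧
      Module.finrank O (L s) = Fintype.card G * Module.finrank O (L 0) ∧
      ∀ {ι : Type} [Fintype ι] (b : Module.Basis ι O (L 0)) (e : ι → L s),
        (∀ i, π (e i) = b i) → Function.Bijective (grpMap (towerRep O S P L f dia s) e) := by
  obtain ⟨π, hπ⟩ := tower S P L f res dia hres d m hp hpO k s hm hcyc s le_rfl
  refine ⟨π, hπ.surj, ?_, hπ.free, ?_, ?_⟩
  · intro i hi y
    have hmem : (mapEnd S (f s) (dia s (d i)) - 1) y ∈ LinearMap.ker π := by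
      rw [hπ.ker_eq]
      exact (le_iSup₂_of_le (mapEnd S (f s) (dia s (d i))) ⟨dia s (d i), ⟨i, hi, rfl⟩, rfl⟩ le_rfl :
        LinearMap.range (mapEnd S (f s) (dia s (d i)) - 1) ≤ _) ⟨y, rfl⟩
    rw [LinearMap.mem_ker, LinearMap.sub_apply, Module.End.one_apply, map_sub, sub_eq_zero] at hmem
    exact hmem
  · rw [hπ.finrank_eq, hcard]
  · intro ι _ b e he
    refine Coinv.bijective hπ (towerRep O S P L f dia s) ?_ hcard b e he
    rintro _ ⟨_, ⟨i, _, rfl⟩, rfl⟩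
    exact ⟨d i, fun y => rfl⟩

end Final

end Fermat.Agent.M43.ChainTower5
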