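import Mathlib
import Fermat.Agent.M43.ChainTower5
import Fermat.Agent.M43.AlgFit5

/-!
# M43 / Hecke side: the unit part of the tower (abstract assembly of (A1)-(A6))

Two submonoids `S₁ ≤ S₂ = 𝔪₂.primeCompl` of the Hecke ring `𝔓` (`𝔪₂` maximal; in use
`S₁ = 𝔓 ∖ 𝔪` inside `𝔓⁺ = 𝔓[X]` and `𝔪₂ = (𝔪, X)`), the tower `P j` with localisations
`f₁ j : P j → L₁ j` at `S₁` and `f₂ j : P j → L₂ j` at `S₂`, `loc j : L₁ j → L₂ j` the canonical map.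
The UNIT PART of `L₁ j` is `ker (loc j)`.

* `CycLoc.mono` : the hypotheses of the cyclic step pass to a bigger submonoid;
* `loc`, `loc_apply`, `loc_mapEnd` (the canonical map commutes with localised endomorphisms),
  `loc_surjective`;
* `exists_basis_sum` : completion of a basis of `ker loc₀` to a basis of `L₁ 0` by lifts of a basis of
  `L₂ 0`;
* `unit_basis` : **the unit part of the tower**: there is `π : L₁ s →ₗ[𝔓] L₁ 0`, onto, invariant under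
  the diamond operators, mapping `ker (loc s)` into `ker (loc 0)`, such that every `O`-basis `b` of
  `ker (loc 0)` has lifts `e i ∈ ker (loc s)` and for all such lifts `grpMap ρ e` is injective with range
  `ker (loc s)` (`e` is an `O[G]`-basis of the unit part of `L₁ s`).
-/

set_option autoImplicit false
set_option linter.unusedSectionVars false
set_option linter.style.haveILetI false

namespace Fermat.Agent.M43.ChainUnit5

open IsLocalRing Fermat.Agent.M43.AlgTower5 Fermat.Agent.M43.AlgStep5 Fermat.Agent.M43.AlgLoc5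
  Fermat.Agent.M43.ChainTower5 Fermat.Agent.M43.AlgFit5

section Mono

variable {𝔓 : Type*} [CommRing 𝔓] {S₁ S₂ : Submonoid 𝔓}
  {P₂ P₁ : Type*} [AddCommGroup P₂] [Module 𝔓 P₂] [AddCommGroup P₁] [Module 𝔓 P₁]

theorem CycLoc.mono (h : S₁ ≤ S₂) {res : P₁ →ₗ[𝔓] P₂} {δ : Module.End 𝔓 P₂} {m : ℕ}
    (hc : CycLoc S₁ res δ m) : CycLoc S₂ res δ m := by
  obtain ⟨h1, h2, h3, ⟨τ₁, hτ₁, h4⟩, ⟨τ₂, hτ₂, h5⟩, ⟨τ₃, hτ₃, h6⟩⟩ := hc
  exact ⟨h1, h2, h3, ⟨τ₁, h hτ₁, h4⟩, ⟨τ₂, h hτ₂, h5⟩, ⟨τ₃, h hτ₃, h6⟩⟩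

end Mono

section Loc

variable {𝔓 : Type*} [CommRing 𝔓] (S₁ S₂ : Submonoid 𝔓) (hS : S₁ ≤ S₂)
  {P L₁ L₂ : Type*} [AddCommGroup P] [Module 𝔓 P] [AddCommGroup L₁] [Module 𝔓 L₁]
  [AddCommGroup L₂] [Module 𝔓 L₂]
  (f₁ : P →ₗ[𝔓] L₁) [IsLocalizedModule S₁ f₁] (f₂ : P →ₗ[𝔓] L₂) [IsLocalizedModule S₂ f₂]

/-- the canonical map between the two localisations commutes with localised endomorphisms. -/
theorem liftOfLE_mapEnd (c : Module.End 𝔓 P) (y : L₁) :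
    IsLocalizedModule.liftOfLE S₁ S₂ hS f₁ f₂ (mapEnd S₁ f₁ c y) =
      mapEnd S₂ f₂ c (IsLocalizedModule.liftOfLE S₁ S₂ hS f₁ f₂ y) := by
  have : (IsLocalizedModule.liftOfLE S₁ S₂ hS f₁ f₂) ∘ₗ mapEnd S₁ f₁ c =
      mapEnd S₂ f₂ c ∘ₗ (IsLocalizedModule.liftOfLE S₁ S₂ hS f₁ f₂) := by
    apply IsLocalizedModule.ext S₁ f₁
      (fun x => IsLocalizedModule.map_units (S := S₂) f₂ ⟨x.1, hS x.2⟩)
    apply LinearMap.ext
    intro x
    rw [LinearMap.comp_apply, LinearMap.comp_apply, LinearMap.comp_apply, LinearMap.comp_apply,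
      mapEnd_apply, IsLocalizedModule.liftOfLE_apply, IsLocalizedModule.liftOfLE_apply, mapEnd_apply]
  exact LinearMap.congr_fun this y

end Loc

section Basis

variable {O : Type*} [CommRing O] {M M' : Type*} [AddCommGroup M] [Module O M]
  [AddCommGroup M'] [Module O M']

/-- completion of a basis of the kernel of a surjection by lifts of a basis of the target. -/
theorem exists_basis_sum (l : M →ₗ[O] M') (hl : Function.Surjective l) {n n'' : ℕ}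
    (b : Module.Basis (Fin n) O (LinearMap.ker l)) (b'' : Module.Basis (Fin n'') O M') :
    ∃ B : Module.Basis (Fin n ⊕ Fin n'') O M, (∀ i, B (Sum.inl i) = (b i : M)) ∧
      ∀ j, l (B (Sum.inr j)) = b'' j := by
  choose f'' hf'' using fun j => hl (b'' j)
  let σ : M' →ₗ[O] M := b''.constr O f''
  have hσ : ∀ y, l (σ y) = y := by
    intro y
    have : l ∘ₗ σ = LinearMap.id := by
      apply b''.ext
      intro j
      rw [LinearMap.comp_apply, Module.Basis.constr_basis, hf'', LinearMap.id_apply]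
    exact LinearMap.congr_fun this y
  let Φ : (LinearMap.ker l × M') →ₗ[O] M := (LinearMap.ker l).subtype.coprod σ
  have hΦ : Function.Bijective Φ := by
    constructor
    · rw [← LinearMap.ker_eq_bot, LinearMap.ker_eq_bot']
      rintro ⟨k, y⟩ h
      have h1 : (k : M) + σ y = 0 := by simpa [Φ] using h
      have h2 : y = 0 := by
        have := congrArg l h1
        rw [map_add, LinearMap.mem_ker.mp k.2, zero_add, hσ, map_zero] at this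
        exact this
      rw [h2, map_zero, add_zero] at h1
      exact Prod.ext (Subtype.ext h1) h2
    · intro x
      refine ⟨(⟨x - σ (l x), ?_⟩, l x), ?_⟩
      · rw [LinearMap.mem_ker, map_sub, hσ, sub_self]
      · simp [Φ]
  let E : (LinearMap.ker l × M') ≃ₗ[O] M := LinearEquiv.ofBijective Φ hΦ
  refine ⟨(b.prod b'').map E, ?_, ?_⟩
  · intro i
    rw [Module.Basis.map_apply, Module.Basis.prod_apply, Sum.elim_inl]
    simp [E, Φ]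
  · intro j
    rw [Module.Basis.map_apply, Module.Basis.prod_apply, Sum.elim_inr]
    simp [E, Φ, σ, hf'']

end Basis

section Unit

variable {O : Type} [CommRing O] [IsDomain O] [IsDiscreteValuationRing O]
  [IsAdicComplete (maximalIdeal O) O]
  {𝔓 : Type} [CommRing 𝔓] [Algebra O 𝔓] (S₁ : Submonoid 𝔓) (𝔪₂ : Ideal 𝔓) [h𝔪₂ : 𝔪₂.IsMaximal]
  (hS : S₁ ≤ 𝔪₂.primeCompl)
  (P L₁ L₂ : ℕ → Type) [∀ j, AddCommGroup (P j)] [∀ j, Module 𝔓 (P j)]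
  [∀ j, AddCommGroup (L₁ j)] [∀ j, Module O (L₁ j)] [∀ j, Module 𝔓 (L₁ j)]
  [∀ j, IsScalarTower O 𝔓 (L₁ j)] [∀ j, Module.Finite O (L₁ j)] [Module.Free O (L₁ 0)]
  [∀ j, AddCommGroup (L₂ j)] [∀ j, Module O (L₂ j)] [∀ j, Module 𝔓 (L₂ j)]
  [∀ j, IsScalarTower O 𝔓 (L₂ j)] [∀ j, Module.Finite O (L₂ j)] [Module.Free O (L₂ 0)]
  (f₁ : ∀ j, P j →ₗ[𝔓] L₁ j) [∀ j, IsLocalizedModule S₁ (f₁ j)]
  (f₂ : ∀ j, P j →ₗ[𝔓] L₂ j) [∀ j, IsLocalizedModule 𝔪₂.primeCompl (f₂ j)]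
  (res : ∀ j, P j →ₗ[𝔓] P (j + 1))
  {G : Type*} [CommGroup G] [Fintype G] (dia : ∀ j, G →* Module.End 𝔓 (P j))
  (hres : ∀ j u, res j ∘ₗ dia j u = dia (j + 1) u ∘ₗ res j)
  (d : ℕ → G) (m : ℕ → ℕ)

/-- the canonical map `L₁ j → L₂ j`. -/
noncomputable def loc (j : ℕ) : L₁ j →ₗ[𝔓] L₂ j :=
  IsLocalizedModule.liftOfLE S₁ 𝔪₂.primeCompl hS (f₁ j) (f₂ j)

instance (j : ℕ) : IsLocalizedModule 𝔪₂.primeCompl (loc S₁ 𝔪₂ hS P L₁ L₂ f₁ f₂ j) := by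
  unfold loc
  infer_instance

theorem loc_apply (j : ℕ) (x : P j) : loc S₁ 𝔪₂ hS P L₁ L₂ f₁ f₂ j (f₁ j x) = f₂ j x :=
  IsLocalizedModule.liftOfLE_apply S₁ 𝔪₂.primeCompl hS (f₁ j) (f₂ j) x

theorem loc_mapEnd (j : ℕ) (c : Module.End 𝔓 (P j)) (y : L₁ j) :
    loc S₁ 𝔪₂ hS P L₁ L₂ f₁ f₂ j (mapEnd S₁ (f₁ j) c y) =
      mapEnd 𝔪₂.primeCompl (f₂ j) c (loc S₁ 𝔪₂ hS P L₁ L₂ f₁ f₂ j y) :=
  liftOfLE_mapEnd S₁ 𝔪₂.primeCompl hS (f₁ j) (f₂ j) c y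

theorem loc_surjective (j : ℕ) :
    Function.Surjective ((loc S₁ 𝔪₂ hS P L₁ L₂ f₁ f₂ j).restrictScalars O) :=
  surjective_of_finite O 𝔪₂ (loc S₁ 𝔪₂ hS P L₁ L₂ f₁ f₂ j)

include hres in
/-- **the unit part of the tower.** -/
theorem unit_basis {p : ℕ} (hp : p.Prime) (hpO : (p : O) ∈ maximalIdeal O) (k : ℕ → ℕ) (s : ℕ)
    (hm : ∀ j, j < s → m j = p ^ k j)
    (hcyc : ∀ j, j < s → CycLoc S₁ (res j) (dia (j + 1) (d j)) (m j))
    (hcard : Fintype.card G = ∏ i ∈ Finset.range s, m i) :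
    ∃ π : L₁ s →ₗ[𝔓] L₁ 0, Function.Surjective π ∧
      (∀ i, i < s → ∀ y, π (mapEnd S₁ (f₁ s) (dia s (d i)) y) = π y) ∧
      (∀ y, loc S₁ 𝔪₂ hS P L₁ L₂ f₁ f₂ s y = 0 → loc S₁ 𝔪₂ hS P L₁ L₂ f₁ f₂ 0 (π y) = 0) ∧
      ∀ {n : ℕ} (b : Module.Basis (Fin n) O (LinearMap.ker (loc S₁ 𝔪₂ hS P L₁ L₂ f₁ f₂ 0))),
        (∃ e : Fin n → L₁ s, (∀ i, loc S₁ 𝔪₂ hS P L₁ L₂ f₁ f₂ s (e i) = 0) ∧
          ∀ i, π (e i) = (b i : L₁ 0)) ∧
        ∀ e : Fin n → L₁ s, (∀ i, loc S₁ 𝔪₂ hS P L₁ L₂ f₁ f₂ s (e i) = 0) →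
          (∀ i, π (e i) = (b i : L₁ 0)) →
          Function.Injective (grpMap (towerRep O S₁ P L₁ f₁ dia s) e) ∧
            LinearMap.range (grpMap (towerRep O S₁ P L₁ f₁ dia s) e) =
              (LinearMap.ker (loc S₁ 𝔪₂ hS P L₁ L₂ f₁ f₂ s)).restrictScalars O := by
  obtain ⟨π, hπs, hπinv, -, -, hπbij⟩ :=
    tower_bijective S₁ P L₁ f₁ res dia hres d m hp hpO k s hm hcyc hcard
  obtain ⟨π₂, -, -, hfree₂, hrank₂, -⟩ :=
    tower_bijective 𝔪₂.primeCompl P L₂ f₂ res dia hres d m hp hpO k s hm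
      (fun j hj => CycLoc.mono hS (hcyc j hj)) hcard
  have hker : ∀ y, loc S₁ 𝔪₂ hS P L₁ L₂ f₁ f₂ s y = 0 →
      loc S₁ 𝔪₂ hS P L₁ L₂ f₁ f₂ 0 (π y) = 0 := by
    intro y hy
    obtain ⟨t, ht⟩ := (IsLocalizedModule.eq_zero_iff 𝔪₂.primeCompl
      (loc S₁ 𝔪₂ hS P L₁ L₂ f₁ f₂ s)).mp hy
    rw [IsLocalizedModule.eq_zero_iff 𝔪₂.primeCompl (loc S₁ 𝔪₂ hS P L₁ L₂ f₁ f₂ 0)]
    refine ⟨t, ?_⟩
    rw [Submonoid.smul_def] at ht ⊢
    rw [← map_smul, ht, map_zero]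
  refine ⟨π, hπs, hπinv, hker, ?_⟩
  intro n b
  haveI : Module.Finite 𝔓 (L₂ s) := Module.Finite.of_restrictScalars_finite O 𝔓 (L₂ s)
  have hlift : ∀ y₀ : L₁ 0, loc S₁ 𝔪₂ hS P L₁ L₂ f₁ f₂ 0 y₀ = 0 →
      ∃ y : L₁ s, loc S₁ 𝔪₂ hS P L₁ L₂ f₁ f₂ s y = 0 ∧ π y = y₀ := by
    intro y₀ hy₀
    refine exists_lift_ker 𝔪₂.primeCompl π hπs (loc S₁ 𝔪₂ hS P L₁ L₂ f₁ f₂ s)
      (loc S₁ 𝔪₂ hS P L₁ L₂ f₁ f₂ 0) ?_ y₀ hy₀
    intro t ht
    exact (bijective_smul 𝔪₂ (f₂ s) t ht).2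
  refine ⟨?_, ?_⟩
  · choose e he using fun i => hlift (b i : L₁ 0) (LinearMap.mem_ker.mp (b i).2)
    exact ⟨e, fun i => (he i).1, fun i => (he i).2⟩
  · intro e he0 heb
    -- a basis of `L₂ 0` and the completed basis of `L₁ 0`
    let b'' := Module.finBasis O (L₂ 0)
    obtain ⟨B, hB1, hB2⟩ := exists_basis_sum
      ((loc S₁ 𝔪₂ hS P L₁ L₂ f₁ f₂ 0).restrictScalars O)
      (loc_surjective S₁ 𝔪₂ hS P L₁ L₂ f₁ f₂ 0) b b''
    choose e'' he'' using fun j => hπs (B (Sum.inr j))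
    have hbij : Function.Bijective (grpMap (towerRep O S₁ P L₁ f₁ dia s) (Sum.elim e e'')) := by
      refine hπbij B (Sum.elim e e'') ?_
      rintro (i | j)
      · exact (heb i).trans (hB1 i).symm
      · exact he'' j
    haveI : Module.Free O (L₂ s) := hfree₂
    have hrank : Module.finrank O (L₂ s) = Fintype.card G * Module.finrank O (L₂ 0) := hrank₂
    have h := bijective_of_ker (towerRep O S₁ P L₁ f₁ dia s)
      (towerRep O 𝔪₂.primeCompl P L₂ f₂ dia s)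
      ((loc S₁ 𝔪₂ hS P L₁ L₂ f₁ f₂ s).restrictScalars O)
      (loc_surjective S₁ 𝔪₂ hS P L₁ L₂ f₁ f₂ s)
      (fun g y => loc_mapEnd S₁ 𝔪₂ hS P L₁ L₂ f₁ f₂ s (dia s g) y)
      e e'' hbij he0 hrank
    exact h

end Unit

end Fermat.Agent.M43.ChainUnit5
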