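import Mathlib
import Fermat.Agent.M43.AlgLoc5

/-!
# M43 / Hecke side: localisations of Hecke lattices as `O`-modules

* `LocMod O S M` : the type synonym of `LocalizedModule S M` (`M` a module over an `O`-algebra `𝔓`,
  `S ⊆ 𝔓` a submonoid) with its structure of `O`-module, `IsScalarTower O 𝔓 (LocMod O S M)`,
  `LocMod.mk : M →ₗ[𝔓] LocMod O S M`, a localisation at `S`;
* `surjective_of_map`, `finite_of_map`, `free_of_map` : `O` a complete discrete valuation ring,
  `φ : 𝔓 →ₐ[O] 𝔓'`, `𝔪` a maximal ideal of `𝔓`, `P` a `𝔓'`-module finite (free) over `O`,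
  `f : P → L` a localisation at the image of `𝔓 ∖ 𝔪` in `𝔓'`: `f` is onto, `L` is finite (free)
  over `O`.
-/

set_option autoImplicit false
set_option linter.unusedSectionVars false
set_option linter.style.haveILetI false

namespace Fermat.Agent.M43.LocMod5

open IsLocalRing Fermat.Agent.M43.AlgLoc5

section Syn

variable (O : Type*) [CommRing O] {𝔓 : Type*} [CommRing 𝔓] [Algebra O 𝔓] (S : Submonoid 𝔓)
  (M : Type*) [AddCommGroup M] [Module 𝔓 M]

/-- the localisation of `M` at `S`, as an `O`-module. -/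
@[nolint unusedArguments]
def LocMod [Algebra O 𝔓] : Type _ := LocalizedModule S M

instance : AddCommGroup (LocMod O S M) := inferInstanceAs (AddCommGroup (LocalizedModule S M))

instance : Module 𝔓 (LocMod O S M) := inferInstanceAs (Module 𝔓 (LocalizedModule S M))

instance : Module O (LocMod O S M) :=
  Module.compHom (LocalizedModule S M) (algebraMap O 𝔓)

instance : IsScalarTower O 𝔓 (LocMod O S M) :=
  ⟨fun c b x => by
    show (c • b) • x = algebraMap O 𝔓 c • (b • x)
    rw [Algebra.smul_def, mul_smul]⟩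

/-- the localisation map. -/
noncomputable def LocMod.mk : M →ₗ[𝔓] LocMod O S M := LocalizedModule.mkLinearMap S M

instance : IsLocalizedModule S (LocMod.mk O S M) :=
  inferInstanceAs (IsLocalizedModule S (LocalizedModule.mkLinearMap S M))

end Syn

section Map

variable {O : Type} [CommRing O] [IsLocalRing O] [IsNoetherianRing O]
  [IsAdicComplete (maximalIdeal O) O]
  {𝔓 𝔓' : Type} [CommRing 𝔓] [Algebra O 𝔓] [CommRing 𝔓'] [Algebra O 𝔓'] (φ : 𝔓 →ₐ[O] 𝔓')
  (𝔪 : Ideal 𝔓) [h𝔪 : 𝔪.IsMaximal]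
  {P : Type*} [AddCommGroup P] [Module O P] [Module 𝔓' P] [IsScalarTower O 𝔓' P]
  [Module.Finite O P]
  {L : Type*} [AddCommGroup L] [Module 𝔓' L]
  (f : P →ₗ[𝔓'] L) [hf : IsLocalizedModule (𝔪.primeCompl.map φ) f]

include O φ 𝔪 hf in
/-- the localisation map at the image of `𝔓 ∖ 𝔪` is onto. -/
theorem surjective_of_map : Function.Surjective f := by
  letI : Algebra 𝔓 𝔓' := φ.toRingHom.toAlgebra
  letI : Module 𝔓 P := Module.compHom P (algebraMap 𝔓 𝔓')
  letI : Module 𝔓 L := Module.compHom L (algebraMap 𝔓 𝔓')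
  haveI : IsScalarTower 𝔓 𝔓' P := ⟨fun a b x => by
    show (algebraMap 𝔓 𝔓' a * b) • x = algebraMap 𝔓 𝔓' a • (b • x)
    rw [mul_smul]⟩
  haveI : IsScalarTower 𝔓 𝔓' L := ⟨fun a b x => by
    show (algebraMap 𝔓 𝔓' a * b) • x = algebraMap 𝔓 𝔓' a • (b • x)
    rw [mul_smul]⟩
  haveI : IsScalarTower O 𝔓 P := ⟨fun c a x => by
    show φ (c • a) • x = c • (φ a • x)
    rw [map_smul, smul_assoc]⟩
  have hS : Algebra.algebraMapSubmonoid 𝔓' 𝔪.primeCompl = 𝔪.primeCompl.map φ := rfl
  haveI : IsLocalizedModule (Algebra.algebraMapSubmonoid 𝔓' 𝔪.primeCompl) f := by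
    rw [hS]; exact hf
  haveI : IsLocalizedModule 𝔪.primeCompl (f.restrictScalars 𝔓) :=
    IsLocalizedModule.restrictScalars 𝔪.primeCompl f
  exact surjective_of_finite O 𝔪 (f.restrictScalars 𝔓)

variable [Module O L] [IsScalarTower O 𝔓' L]

include φ 𝔪 f hf in
theorem finite_of_map : Module.Finite O L :=
  Module.Finite.of_surjective (f.restrictScalars O) (surjective_of_map φ 𝔪 f)

end Map

section Free

variable {O : Type} [CommRing O] [IsDomain O] [IsDiscreteValuationRing O]
  [IsAdicComplete (maximalIdeal O) O]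
  {𝔓 𝔓' : Type} [CommRing 𝔓] [Algebra O 𝔓] [CommRing 𝔓'] [Algebra O 𝔓'] (φ : 𝔓 →ₐ[O] 𝔓')
  (𝔪 : Ideal 𝔓) [h𝔪 : 𝔪.IsMaximal]
  {P : Type*} [AddCommGroup P] [Module O P] [Module 𝔓' P] [IsScalarTower O 𝔓' P]
  [Module.Finite O P] [Module.Free O P]
  {L : Type*} [AddCommGroup L] [Module 𝔓' L] [Module O L] [IsScalarTower O 𝔓' L]
  (f : P →ₗ[𝔓'] L) [hf : IsLocalizedModule (𝔪.primeCompl.map φ) f]

include φ 𝔪 f hf in
/-- the localisation of a finite free Hecke lattice at the image of `𝔓 ∖ 𝔪` is free over `O`. -/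
theorem free_of_map : Module.Free O L := by
  haveI : Module.Finite O L := finite_of_map φ 𝔪 f
  haveI : Module.IsTorsionFree O L := by
    rw [Module.isTorsionFree_iff_smul_eq_zero]
    intro a y h
    by_cases ha : a = 0
    · exact Or.inl ha
    right
    obtain ⟨⟨x, t⟩, rfl⟩ := IsLocalizedModule.mk'_surjective (𝔪.primeCompl.map φ) f y
    rw [Function.uncurry_apply_pair] at h ⊢
    have h1 : IsLocalizedModule.mk' f (a • x) t = 0 := by
      rw [← h, ← algebraMap_smul 𝔓' a x, IsLocalizedModule.mk'_smul, algebraMap_smul]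
    rw [IsLocalizedModule.mk'_eq_zero'] at h1 ⊢
    obtain ⟨u, hu⟩ := h1
    refine ⟨u, ?_⟩
    rw [Submonoid.smul_def] at hu ⊢
    rw [smul_comm] at hu
    exact (smul_eq_zero.mp hu).resolve_left ha
  exact Module.free_of_finite_type_torsion_free'

end Free

end Fermat.Agent.M43.LocMod5
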