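import Mathlib
import Fermat.Agent.M43.ChainStep5
import Fermat.Agent.M43.ChainUnit5
import Fermat.Agent.M43.LocMod5
import Fermat.Agent.ES.HEQ.ParLattice11

/-!
# M43 / Hecke side: the unit part of the concrete tower (module form of the Hecke side)

`O` a complete discrete valuation ring of characteristic `0` with `2`, `3` invertible, `F : Frame N`,
`θ : F.ι → ResidueField O` the residual eigensystem.

* `Hk0 O F = MvPolynomial F.ι O` (the trace Hecke ring), `Hk O F = MvPolynomial F.Var O` (with the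
  extra variables `x` and the diamonds), `emb : Hk0 →ₐ[O] Hk`;
  `theta0 θ : Hk0 →ₐ[O] k`, `theta2 θ : Hk →ₐ[O] k` (`x ↦ 0`, diamonds `↦ 1`), `m0 θ`, `m2 θ` their
  kernels (maximal), `S1 θ` the image of `Hk0 ∖ m0 θ` in `Hk`; `S1_le : S1 θ ≤ (m2 θ).primeCompl`;
* `L1 θ j`, `L2 θ j` : the localisations of `F.P O j` at `S1 θ` (= at `m0 θ` as a module over the trace
  Hecke ring) and at `m2 θ`; finite free over `O`; `locU θ j : L1 θ j → L2 θ j`; the unit part of
  `L1 θ j` is `ker (locU θ j)`;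
* `diaG ψ j : G →* End (F.P O j)` for `ψ : G →* (ZMod N)ˣ ⧸ F.c.sub F.s`; `repG ψ`;
* `exists_unit_basis` : **the module form of the Hecke side** (instantiation of
  `ChainUnit5.unit_basis` with `ChainStep5.cycLoc`).
-/

set_option autoImplicit false
set_option linter.unusedSectionVars false
set_option linter.style.haveILetI false

open scoped MatrixGroups
open CongruenceSubgroup ModularCurve.Period IsLocalRing

noncomputable section

namespace Fermat.Agent.M43.ChainMain5

open Fermat.Agent.M43.HeckeH0 Fermat.Agent.M43.CycInst0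
  Fermat.Agent.M43.ChainGrp5 Fermat.Agent.M43.PolyMod5 Fermat.Agent.M43.ChainMod5
  Fermat.Agent.M43.ChainStep5 Fermat.Agent.M43.AlgStep5 Fermat.Agent.M43.AlgTower5
  Fermat.Agent.M43.ChainTower5 Fermat.Agent.M43.ChainUnit5 Fermat.Agent.M43.LocMod5
  Fermat.Agent.M43.AlgLoc5

/-! ### the lattices are finite free -/

section Lattice

variable {N : ℕ} [NeZero N] (O : Type) [CommRing O] [IsDomain O] [CharZero O]

instance finite_Par (H : Subgroup (ZMod N)ˣ) : Module.Finite O (Par O H) :=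
  Module.Finite.equiv
    (Fermat.Agent.ES.HEQ.ParLattice11.evalEquiv O O
      (Fermat.Agent.S22.fg_of_finiteIndex (GH N H))).symm

instance free_Par (H : Subgroup (ZMod N)ˣ) : Module.Free O (Par O H) :=
  Module.Free.of_equiv
    (Fermat.Agent.ES.HEQ.ParLattice11.evalEquiv O O
      (Fermat.Agent.S22.fg_of_finiteIndex (GH N H))).symm

end Lattice

/-! ### the Hecke rings and the maximal ideals -/

section Rings

variable {N : ℕ} (O : Type) [CommRing O] [IsLocalRing O] (F : Frame N)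

/-- the trace Hecke ring. -/
abbrev Hk0 : Type := MvPolynomial F.ι O

/-- the big Hecke ring (with `x` and the diamonds). -/
abbrev Hk : Type := MvPolynomial F.Var O

/-- the inclusion of the trace Hecke ring. -/
def emb : Hk0 O F →ₐ[O] Hk O F := MvPolynomial.rename (fun i => Sum.inl (some i))

variable {O F} (θ : F.ι → ResidueField O)

/-- the residual eigensystem on the trace Hecke ring. -/
def theta0 : Hk0 O F →ₐ[O] ResidueField O := MvPolynomial.aeval θ

/-- the values of the extended residual eigensystem: `x ↦ 0`, diamonds `↦ 1`. -/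
def thetaV : F.Var → ResidueField O
  | Sum.inl (some i) => θ i
  | Sum.inl none => 0
  | Sum.inr _ => 1

/-- the extended residual eigensystem on the big Hecke ring. -/
def theta2 : Hk O F →ₐ[O] ResidueField O := MvPolynomial.aeval (thetaV θ)

theorem theta2_emb (s : Hk0 O F) : theta2 θ (emb O F s) = theta0 θ s := by
  rw [theta2, emb, MvPolynomial.aeval_rename, theta0]
  rfl

theorem theta0_surjective : Function.Surjective (theta0 θ) := by
  intro y
  obtain ⟨a, rfl⟩ := IsLocalRing.residue_surjective y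
  exact ⟨MvPolynomial.C a, by rw [theta0, MvPolynomial.aeval_C]; rfl⟩

theorem theta2_surjective : Function.Surjective (theta2 θ) := by
  intro y
  obtain ⟨a, rfl⟩ := IsLocalRing.residue_surjective y
  exact ⟨MvPolynomial.C a, by rw [theta2, MvPolynomial.aeval_C]; rfl⟩

/-- the maximal ideal of the residual eigensystem in the trace Hecke ring. -/
def m0 : Ideal (Hk0 O F) := RingHom.ker (theta0 θ : Hk0 O F →+* ResidueField O)

/-- the maximal ideal `(m0, x, ⟨d⟩ - 1)` of the big Hecke ring. -/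
def m2 : Ideal (Hk O F) := RingHom.ker (theta2 θ : Hk O F →+* ResidueField O)

instance isMaximal_m0 : (m0 θ).IsMaximal :=
  RingHom.ker_isMaximal_of_surjective _ (theta0_surjective θ)

instance isMaximal_m2 : (m2 θ).IsMaximal :=
  RingHom.ker_isMaximal_of_surjective _ (theta2_surjective θ)

/-- the image of the complement of `m0` in the big Hecke ring. -/
def S1 : Submonoid (Hk O F) := (m0 θ).primeCompl.map (emb O F)

theorem S1_le : S1 θ ≤ (m2 θ).primeCompl := by
  rintro _ ⟨s, hs, rfl⟩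
  show (emb O F) s ∉ m2 θ
  intro h
  apply hs
  show s ∈ m0 θ
  rw [m0, RingHom.mem_ker]
  rw [m2, RingHom.mem_ker] at h
  exact (theta2_emb θ s).symm.trans h

end Rings

/-! ### the localisations -/

section Loc

variable {N : ℕ} [NeZero N] {O : Type} [CommRing O] [IsDomain O] [IsDiscreteValuationRing O]
  [IsAdicComplete (maximalIdeal O) O] [CharZero O] {F : Frame N} (θ : F.ι → ResidueField O)

/-- the localisation of the lattice of level `j` at `m0 θ`. -/
abbrev L1 (j : ℕ) : Type := LocMod O (S1 θ) (F.P O j)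

/-- the localisation of the lattice of level `j` at `m2 θ`. -/
abbrev L2 (j : ℕ) : Type := LocMod O (m2 θ).primeCompl (F.P O j)

/-- the localisation map at `m0 θ`. -/
abbrev f1 (j : ℕ) : F.P O j →ₗ[Hk O F] L1 θ j := LocMod.mk O (S1 θ) (F.P O j)

/-- the localisation map at `m2 θ`. -/
abbrev f2 (j : ℕ) : F.P O j →ₗ[Hk O F] L2 θ j := LocMod.mk O (m2 θ).primeCompl (F.P O j)

instance isLocalizedModule_f1 (j : ℕ) :
    IsLocalizedModule ((m0 θ).primeCompl.map (emb O F)) (f1 θ j) :=
  inferInstanceAs (IsLocalizedModule (S1 θ) (LocMod.mk O (S1 θ) (F.P O j)))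

instance finite_L1 (j : ℕ) : Module.Finite O (L1 θ j) :=
  finite_of_map (emb O F) (m0 θ) (f1 θ j)

instance free_L1 (j : ℕ) : Module.Free O (L1 θ j) :=
  free_of_map (emb O F) (m0 θ) (f1 θ j)

instance finite_L2 (j : ℕ) : Module.Finite O (L2 θ j) :=
  finite_of_finite O (m2 θ) (f2 θ j)

instance free_L2 (j : ℕ) : Module.Free O (L2 θ j) :=
  free_of_free O (m2 θ) (f2 θ j)

/-- the canonical map from the localisation at `m0 θ` to the localisation at `m2 θ`; its kernel is
the UNIT PART of `L1 θ j` (the part where `x` is bijective). -/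
def locU (j : ℕ) : L1 θ j →ₗ[Hk O F] L2 θ j :=
  ChainUnit5.loc (S1 θ) (m2 θ) (S1_le θ) (F.P O) (L1 θ) (L2 θ) (f1 θ) (f2 θ) j

end Loc

/-! ### the group action and the main theorem -/

section Main

variable {N : ℕ} [NeZero N] {O : Type} [CommRing O] [IsDomain O] [IsDiscreteValuationRing O]
  [IsAdicComplete (maximalIdeal O) O] [CharZero O] (F : Frame N) (θ : F.ι → ResidueField O)
  {G : Type} [CommGroup G] [Fintype G] (ψ : G →* (ZMod N)ˣ ⧸ F.c.sub F.s)

theorem sub_top_le (j : ℕ) : F.c.sub F.s ≤ F.c.sub j := by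
  rcases le_total j F.s with h | h
  · exact F.c.sub_anti h
  · rw [F.c.sub_eq_of_le h]

/-- the diamond operators of the quotient `(ZMod N)ˣ ⧸ F.c.sub F.s` at level `j`. -/
def diaQ (j : ℕ) : (ZMod N)ˣ ⧸ F.c.sub F.s →* Module.End (Hk O F) (F.P O j) :=
  QuotientGroup.lift (F.c.sub F.s) (F.dia O j) (fun d hd => by
    rw [MonoidHom.mem_ker]
    exact F.dia_of_mem j (sub_top_le F j hd))

/-- the action of `G` at level `j`. -/
def diaG (j : ℕ) : G →* Module.End (Hk O F) (F.P O j) := (diaQ F j).comp ψ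

theorem diaG_of_mk {u : G} {d : (ZMod N)ˣ} (h : ψ u = QuotientGroup.mk d) (j : ℕ) :
    diaG (O := O) F ψ j u = F.dia O j d := by
  rw [diaG, MonoidHom.comp_apply, h]
  rfl

theorem res_diaG (j : ℕ) (u : G) :
    F.res O j ∘ₗ diaG F ψ j u = diaG F ψ (j + 1) u ∘ₗ F.res O j := by
  obtain ⟨d, hd⟩ := QuotientGroup.mk_surjective (ψ u)
  rw [diaG_of_mk F ψ hd.symm, diaG_of_mk F ψ hd.symm]
  exact F.res_dia j d

/-- **the representation of `G` on the localisation of the top lattice.** -/
def repG : Representation O G (L1 θ F.s) :=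
  towerRep O (S1 θ) (F.P O) (L1 θ) (f1 θ) (diaG F ψ) F.s

theorem repG_apply (u : G) (y : L1 θ F.s) :
    repG F θ ψ u y = mapEnd (S1 θ) (f1 θ F.s) (diaG F ψ F.s u) y := rfl

/-- **the module form of the Hecke side.** -/
theorem exists_unit_basis [Invertible (2 : O)] [Invertible (3 : O)] {p : ℕ} (hp : p.Prime)
    (hpO : (p : O) ∈ maximalIdeal O) (hmp : ∀ i, ∃ k : ℕ, F.c.m i = p ^ k)
    (i₀ : F.ι) (h₀ : ((F.ℓ i₀ : ℕ) : ZMod N) = 1)
    (hθ₀ : θ i₀ ≠ (F.ℓ i₀ : ResidueField O) + 1)
    (g : Fin F.s → G) (hψ : ∀ i, ψ (g i) = QuotientGroup.mk (F.c.d i))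
    (hcard : Fintype.card G = ∏ i, F.c.m i) :
    ∃ π : L1 θ F.s →ₗ[Hk O F] L1 θ 0, Function.Surjective π ∧
      (∀ (i : Fin F.s) (y : L1 θ F.s), π (repG F θ ψ (g i) y) = π y) ∧
      (∀ y, locU θ F.s y = 0 → locU θ 0 (π y) = 0) ∧
      ∀ {n : ℕ} (b : Module.Basis (Fin n) O (LinearMap.ker (locU θ 0))),
        (∃ e : Fin n → L1 θ F.s, (∀ i, locU θ F.s (e i) = 0) ∧ ∀ i, π (e i) = (b i : L1 θ 0)) ∧
        ∀ e : Fin n → L1 θ F.s, (∀ i, locU θ F.s (e i) = 0) → (∀ i, π (e i) = (b i : L1 θ 0)) →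
          Function.Injective (grpMap (repG F θ ψ) e) ∧
            LinearMap.range (grpMap (repG F θ ψ) e) =
              (LinearMap.ker (locU θ F.s)).restrictScalars O := by
  have htf : ∀ n : ℕ, n ≠ 0 → ∀ x : O, n • x = 0 → x = 0 := by
    intro n hn x h
    rw [nsmul_eq_mul] at h
    rcases mul_eq_zero.mp h with h | h
    · exact absurd (Nat.cast_eq_zero.mp h) hn
    · exact h
  -- `t ∈ S1`
  have hS : tElt O F i₀ ∈ S1 θ := by
    refine ⟨MvPolynomial.X i₀ - MvPolynomial.C ((F.ℓ i₀ : O) + 1), ?_, ?_⟩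
    · show MvPolynomial.X i₀ - MvPolynomial.C ((F.ℓ i₀ : O) + 1) ∉ m0 θ
      intro hmem
      rw [m0, RingHom.mem_ker] at hmem
      have h1 : theta0 θ (MvPolynomial.X i₀ - MvPolynomial.C ((F.ℓ i₀ : O) + 1)) =
          θ i₀ - ((F.ℓ i₀ : ResidueField O) + 1) := by
        rw [map_sub, theta0, MvPolynomial.aeval_X, MvPolynomial.aeval_C, map_add, map_one,
          map_natCast]
      exact hθ₀ (sub_eq_zero.mp (h1.symm.trans hmem))
    · show emb O F (MvPolynomial.X i₀ - MvPolynomial.C ((F.ℓ i₀ : O) + 1)) = tElt O F i₀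
      rw [map_sub, emb, MvPolynomial.rename_X, MvPolynomial.rename_C]
      rfl
  choose k hk using hmp
  -- the sequences indexed by `ℕ`
  let d : ℕ → G := fun j => if h : j < F.s then g ⟨j, h⟩ else 1
  let m : ℕ → ℕ := fun j => if h : j < F.s then F.c.m ⟨j, h⟩ else 1
  let kk : ℕ → ℕ := fun j => if h : j < F.s then k ⟨j, h⟩ else 0
  have hm : ∀ j, j < F.s → m j = p ^ kk j := by
    intro j hj
    simp only [m, kk, dif_pos hj]
    exact hk ⟨j, hj⟩
  have hcyc : ∀ j, j < F.s →
      CycLoc (S1 θ) (F.res O j) (diaG F ψ (j + 1) (d j)) (m j) := by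
    intro j hj
    simp only [m, d, dif_pos hj]
    rw [diaG_of_mk F ψ (hψ ⟨j, hj⟩)]
    exact cycLoc F htf i₀ h₀ (S1 θ) hS ⟨j, hj⟩
  have hcard' : Fintype.card G = ∏ i ∈ Finset.range F.s, m i := by
    rw [hcard, Finset.prod_range]
    refine Finset.prod_congr rfl fun i _ => ?_
    simp only [m, dif_pos i.2]
  obtain ⟨π, hπs, hπinv, hπker, hπb⟩ := unit_basis (S1 θ) (m2 θ) (S1_le θ) (F.P O) (L1 θ) (L2 θ)
    (f1 θ) (f2 θ) (F.res O) (diaG F ψ) (res_diaG F ψ) d m hp hpO kk F.s hm hcyc hcard'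
  refine ⟨π, hπs, ?_, hπker, hπb⟩
  intro i y
  have := hπinv i.val i.2 y
  simp only [d, dif_pos i.2] at this
  exact this

end Main

end Fermat.Agent.M43.ChainMain5
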