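import Mathlib
import Fermat.Agent.M43.AlgTower5

/-!
# M43 / Hecke side: from `grpMap` bijective to a basis over the group ring

`O` a commutative ring, `G` a group, `ρ : Representation O G L`, `W ≤ L` a `ρ`-stable `O`-submodule.

* `subRep ρ W hW : Representation O G W`;
* `basisOfBijective` : if `grpMap σ e` is bijective then `e` is a basis of `σ.asModule` over
  `MonoidAlgebra O G`; `basisOfBijective_apply`;
* `basisOfGrpMap` : if `e : Fin n → W` and `grpMap ρ (↑ ∘ e)` is injective with range `W`, then `e` is
  a basis of `(subRep ρ W hW).asModule` over `MonoidAlgebra O G`; `basisOfGrpMap_apply`;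
* `endOfComm` : an `O`-endomorphism of `W` commuting with the action of `G`, as an endomorphism of
  `(subRep ρ W hW).asModule` over the group ring; `endOfCommHom` (algebra homomorphism from a
  commutative `O`-algebra acting on `W` and commuting with `G`);
* `augG : MonoidAlgebra O G →ₐ[O] O`, `map_smul_aug` : a `G`-invariant `O`-linear map is
  `augG`-semilinear.
-/

set_option autoImplicit false
set_option linter.unusedSectionVars false

noncomputable section

namespace Fermat.Agent.M43.GrpBasis5

open Fermat.Agent.M43.AlgTower5

variable {O : Type*} [CommRing O] {G : Type*} [Group G]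
  {L : Type*} [AddCommGroup L] [Module O L]

/-- the restriction of a representation to a stable submodule. -/
def subRep (ρ : Representation O G L) (W : Submodule O L) (hW : ∀ g, ∀ w ∈ W, ρ g w ∈ W) :
    Representation O G W where
  toFun g := (ρ g).restrict (hW g)
  map_one' := by
    apply LinearMap.ext
    intro w
    apply Subtype.ext
    show ρ 1 (w : L) = w
    rw [map_one, Module.End.one_apply]
  map_mul' g h := by
    apply LinearMap.ext
    intro w
    apply Subtype.ext
    show ρ (g * h) (w : L) = ρ g (ρ h (w : L))
    rw [map_mul, Module.End.mul_apply]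

variable (ρ : Representation O G L) (W : Submodule O L) (hW : ∀ g, ∀ w ∈ W, ρ g w ∈ W)

@[simp] theorem coe_subRep (g : G) (w : W) : ((subRep ρ W hW g w : W) : L) = ρ g (w : L) := rfl

theorem coe_asAlgebraHom_subRep (z : MonoidAlgebra O G) (w : W) :
    (((subRep ρ W hW).asAlgebraHom z w : W) : L) = ρ.asAlgebraHom z (w : L) := by
  induction z using MonoidAlgebra.induction_on with
  | of g => rw [Representation.asAlgebraHom_of, Representation.asAlgebraHom_of, coe_subRep]
  | add f g hf hg =>
    rw [map_add, map_add, LinearMap.add_apply, LinearMap.add_apply, Submodule.coe_add, hf, hg]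
  | smul c f hf =>
    rw [map_smul, map_smul, LinearMap.smul_apply, LinearMap.smul_apply, Submodule.coe_smul, hf]

variable [Fintype G] {n : ℕ}

theorem coe_grpMap_subRep (e : Fin n → W) (f : Fin n → MonoidAlgebra O G) :
    ((grpMap (subRep ρ W hW) e f : W) : L) = grpMap ρ (fun i => (e i : L)) f := by
  rw [grpMap_apply, grpMap_apply, Submodule.coe_sum]
  exact Finset.sum_congr rfl fun i _ => coe_asAlgebraHom_subRep ρ W hW (f i) (e i)

/-- the `MonoidAlgebra O G`-linear map `f ↦ ∑ i, f i • e i` into the module of a representation. -/
def grpLin (σ : Representation O G L) (e : Fin n → L) :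
    (Fin n → MonoidAlgebra O G) →ₗ[MonoidAlgebra O G] σ.asModule where
  toFun f := σ.asModuleEquiv.symm (grpMap σ e f)
  map_add' f f' := by rw [map_add, map_add]
  map_smul' z f := by
    rw [RingHom.id_apply, LinearEquiv.symm_apply_eq, Representation.asModuleEquiv_map_smul,
      LinearEquiv.apply_symm_apply, grpMap_apply, grpMap_apply, map_sum]
    refine Finset.sum_congr rfl fun i _ => ?_
    rw [Pi.smul_apply, smul_eq_mul, map_mul, Module.End.mul_apply]

theorem asModuleEquiv_grpLin (σ : Representation O G L) (e : Fin n → L)
    (f : Fin n → MonoidAlgebra O G) : σ.asModuleEquiv (grpLin σ e f) = grpMap σ e f :=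
  LinearEquiv.apply_symm_apply _ _

/-- **the basis over the group ring** of the module of a representation, from `grpMap` bijective. -/
def basisOfBijective (σ : Representation O G L) (e : Fin n → L)
    (h : Function.Bijective (grpMap σ e)) :
    Module.Basis (Fin n) (MonoidAlgebra O G) σ.asModule :=
  Module.Basis.ofEquivFun (LinearEquiv.ofBijective (grpLin σ e) (by
    constructor
    · intro f f' hff
      apply h.1
      have h1 := congrArg (fun y => σ.asModuleEquiv y) hff
      simp only [asModuleEquiv_grpLin] at h1
      exact h1
    · intro y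
      obtain ⟨f, hf⟩ := h.2 (σ.asModuleEquiv y)
      refine ⟨f, ?_⟩
      apply σ.asModuleEquiv.injective
      rw [asModuleEquiv_grpLin]
      exact hf)).symm

theorem basisOfBijective_apply (σ : Representation O G L) (e : Fin n → L)
    (h : Function.Bijective (grpMap σ e)) (i : Fin n) :
    σ.asModuleEquiv (basisOfBijective σ e h i) = e i := by
  classical
  rw [basisOfBijective, Module.Basis.coe_ofEquivFun, LinearEquiv.symm_symm]
  show σ.asModuleEquiv (grpLin σ e (Pi.single i 1)) = e i
  rw [asModuleEquiv_grpLin, grpMap_apply]
  rw [Finset.sum_eq_single i]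
  · rw [Pi.single_eq_same, map_one, Module.End.one_apply]
  · intro j _ hj
    rw [Pi.single_eq_of_ne hj, map_zero, LinearMap.zero_apply]
  · intro h
    exact absurd (Finset.mem_univ i) h

/-- **the basis over the group ring**, for a stable submodule. -/
def basisOfGrpMap (e : Fin n → W)
    (hinj : Function.Injective (grpMap ρ (fun i => (e i : L))))
    (hrange : LinearMap.range (grpMap ρ (fun i => (e i : L))) = W) :
    Module.Basis (Fin n) (MonoidAlgebra O G) (subRep ρ W hW).asModule :=
  Module.Basis.ofEquivFun (LinearEquiv.ofBijective (grpLin (subRep ρ W hW) e) (by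
    constructor
    · intro f f' h
      apply hinj
      have h1 := congrArg (fun y => (((subRep ρ W hW).asModuleEquiv y : W) : L)) h
      simp only [asModuleEquiv_grpLin, coe_grpMap_subRep] at h1
      exact h1
    · intro y
      have hy : (((subRep ρ W hW).asModuleEquiv y : W) : L) ∈
          LinearMap.range (grpMap ρ (fun i => (e i : L))) := by
        rw [hrange]
        exact ((subRep ρ W hW).asModuleEquiv y).2
      obtain ⟨f, hf⟩ := hy
      refine ⟨f, ?_⟩
      apply (subRep ρ W hW).asModuleEquiv.injective
      apply Subtype.ext
      rw [asModuleEquiv_grpLin, coe_grpMap_subRep]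
      exact hf)).symm

theorem basisOfGrpMap_apply (e : Fin n → W)
    (hinj : Function.Injective (grpMap ρ (fun i => (e i : L))))
    (hrange : LinearMap.range (grpMap ρ (fun i => (e i : L))) = W) (i : Fin n) :
    (subRep ρ W hW).asModuleEquiv (basisOfGrpMap ρ W hW e hinj hrange i) = e i := by
  classical
  rw [basisOfGrpMap, Module.Basis.coe_ofEquivFun, LinearEquiv.symm_symm]
  show (subRep ρ W hW).asModuleEquiv (grpLin (subRep ρ W hW) e (Pi.single i 1)) = e i
  rw [asModuleEquiv_grpLin, grpMap_apply]
  rw [Finset.sum_eq_single i]
  · rw [Pi.single_eq_same, map_one, Module.End.one_apply]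
  · intro j _ hj
    rw [Pi.single_eq_of_ne hj, map_zero, LinearMap.zero_apply]
  · intro h
    exact absurd (Finset.mem_univ i) h

omit [Fintype G] in
/-- an `O`-endomorphism commuting with the action of `G`, over the group ring. -/
def endOfComm (σ : Representation O G L) (a : Module.End O L) (ha : ∀ g y, a (σ g y) = σ g (a y)) :
    Module.End (MonoidAlgebra O G) σ.asModule where
  toFun y := σ.asModuleEquiv.symm (a (σ.asModuleEquiv y))
  map_add' y y' := by rw [map_add, map_add, map_add]
  map_smul' z y := by
    rw [RingHom.id_apply, LinearEquiv.symm_apply_eq, Representation.asModuleEquiv_map_smul,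
      Representation.asModuleEquiv_map_smul, LinearEquiv.apply_symm_apply]
    generalize σ.asModuleEquiv y = w
    induction z using MonoidAlgebra.induction_on with
    | of g => rw [Representation.asAlgebraHom_of, ha]
    | add f g hf hg => rw [map_add, LinearMap.add_apply, LinearMap.add_apply, map_add, hf, hg]
    | smul c f hf => rw [map_smul, LinearMap.smul_apply, LinearMap.smul_apply, map_smul, hf]

omit [Fintype G] in
@[simp] theorem asModuleEquiv_endOfComm (σ : Representation O G L) (a : Module.End O L)
    (ha : ∀ g y, a (σ g y) = σ g (a y)) (y : σ.asModule) :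
    σ.asModuleEquiv (endOfComm σ a ha y) = a (σ.asModuleEquiv y) :=
  LinearEquiv.apply_symm_apply _ _

omit [Fintype G] in
/-- a commutative `O`-algebra acting `O`-linearly and commuting with `G` acts over the group ring. -/
def endOfCommHom (σ : Representation O G L) {A : Type*} [CommRing A] [Algebra O A]
    (act : A →ₐ[O] Module.End O L) (hact : ∀ a g y, act a (σ g y) = σ g (act a y)) :
    A →ₐ[O] Module.End (MonoidAlgebra O G) σ.asModule where
  toFun a := endOfComm σ (act a) (hact a)
  map_one' := by
    apply LinearMap.ext
    intro y
    apply σ.asModuleEquiv.injective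
    rw [asModuleEquiv_endOfComm, map_one, Module.End.one_apply, Module.End.one_apply]
  map_mul' a b := by
    apply LinearMap.ext
    intro y
    apply σ.asModuleEquiv.injective
    rw [asModuleEquiv_endOfComm, map_mul, Module.End.mul_apply, Module.End.mul_apply,
      asModuleEquiv_endOfComm, asModuleEquiv_endOfComm]
  map_zero' := by
    apply LinearMap.ext
    intro y
    apply σ.asModuleEquiv.injective
    rw [asModuleEquiv_endOfComm, map_zero, LinearMap.zero_apply, LinearMap.zero_apply, map_zero]
  map_add' a b := by
    apply LinearMap.ext
    intro y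
    apply σ.asModuleEquiv.injective
    rw [asModuleEquiv_endOfComm, map_add, LinearMap.add_apply, LinearMap.add_apply, map_add,
      asModuleEquiv_endOfComm, asModuleEquiv_endOfComm]
  commutes' c := by
    apply LinearMap.ext
    intro y
    apply σ.asModuleEquiv.injective
    rw [asModuleEquiv_endOfComm, AlgHom.commutes, Module.algebraMap_end_apply,
      Module.algebraMap_end_apply, map_smul]

omit [Fintype G] in
@[simp] theorem asModuleEquiv_endOfCommHom (σ : Representation O G L) {A : Type*} [CommRing A]
    [Algebra O A] (act : A →ₐ[O] Module.End O L) (hact : ∀ a g y, act a (σ g y) = σ g (act a y))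
    (a : A) (y : σ.asModule) :
    σ.asModuleEquiv (endOfCommHom σ act hact a y) = act a (σ.asModuleEquiv y) :=
  LinearEquiv.apply_symm_apply _ _

/-- the augmentation of the group ring. -/
def augG (O : Type*) [CommRing O] (G : Type*) [Group G] : MonoidAlgebra O G →ₐ[O] O :=
  MonoidAlgebra.lift O O G (1 : G →* O)

omit [Fintype G] in
/-- **a `G`-invariant linear map is semilinear along the augmentation.** -/
theorem map_smul_aug (σ : Representation O G L) {M₀ : Type*} [AddCommGroup M₀] [Module O M₀]
    (pr : L →ₗ[O] M₀) (hpr : ∀ g y, pr (σ g y) = pr y) (z : MonoidAlgebra O G) (y : σ.asModule) :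
    pr (σ.asModuleEquiv (z • y)) = augG O G z • pr (σ.asModuleEquiv y) := by
  rw [Representation.asModuleEquiv_map_smul]
  generalize σ.asModuleEquiv y = w
  induction z using MonoidAlgebra.induction_on with
  | of g =>
    rw [Representation.asAlgebraHom_of, hpr, augG, MonoidAlgebra.lift_of, MonoidHom.one_apply,
      one_smul]
  | add f g hf hg => rw [map_add, LinearMap.add_apply, map_add, hf, hg, map_add, add_smul]
  | smul c f hf => rw [map_smul, LinearMap.smul_apply, map_smul, hf, map_smul, smul_assoc]

end Fermat.Agent.M43.GrpBasis5
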