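import Mathlib
import Fermat.Agent.M43.ChainMain5
import Fermat.Agent.M43.GrpBasis5
import Fermat.Agent.M43.AlgHecke5

/-!
# M43 / Hecke side: the unit part `Hn` of the top level, its Hecke algebra `An`, the group ring action

Notation of `ChainMain5`. `Hn θ := ker (locU θ F.s) ≤ L1 θ F.s` (a module over the big Hecke ring
`Hk O F`), `H0 θ := ker (locU θ 0)`.

* `repH F θ ψ : Representation O G (Hn θ)` (the diamonds of `G` on the unit part), `coe_grpMap_repH`;
* `tauH θ i` : the operator `τ_{ℓ i}` on `Hn θ`; `HnMod θ := PolyMod (tauH θ) _` : `Hn θ` as a module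
  over the TRACE Hecke ring `Hk0 O F`; `smul_of` (`s • of w = of (emb s • w)`);
* `An θ := AlgHecke5.HeckeIm O (Hk0 O F) (HnMod θ)` : **the Hecke algebra of level `n`**: finite over
  `O`, noetherian; `isLocalRing_An` (if `Hn θ ≠ 0`), `isLocalHom_An`; `actH θ : An θ →ₐ[O] End_O (Hn θ)`
  faithful, `actH_mk_X`; `actR F θ ψ : An θ →ₐ[O] End_{O[G]} (repH F θ ψ).asModule`;
* `exists_level` : **the module form**: an `O[G]`-basis `B` of `(repH F θ ψ).asModule` and
  `pr : Hn θ →ₗ[O] H0 θ`, onto, `G`-invariant, `Hk`-equivariant, with `pr (B i) = b i` for a given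
  `O`-basis `b` of `H0 θ`.
-/

set_option autoImplicit false
set_option linter.unusedSectionVars false
set_option linter.style.haveILetI false

open IsLocalRing

noncomputable section

namespace Fermat.Agent.M43.ChainLevel5

open Fermat.Agent.M43.ChainGrp5 Fermat.Agent.M43.PolyMod5 Fermat.Agent.M43.ChainMod5
  Fermat.Agent.M43.AlgStep5 Fermat.Agent.M43.AlgTower5 Fermat.Agent.M43.ChainTower5
  Fermat.Agent.M43.ChainUnit5 Fermat.Agent.M43.LocMod5 Fermat.Agent.M43.AlgLoc5
  Fermat.Agent.M43.ChainMain5 Fermat.Agent.M43.GrpBasis5 Fermat.Agent.M43.AlgHecke5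

variable {N : ℕ} [NeZero N] {O : Type} [CommRing O] [IsDomain O] [IsDiscreteValuationRing O]
  [IsAdicComplete (maximalIdeal O) O] [CharZero O] {F : Frame N} (θ : F.ι → ResidueField O)

/-- **the unit part of the top level.** -/
def Hn : Submodule (Hk O F) (L1 θ F.s) := LinearMap.ker (locU θ F.s)

/-- the unit part of the bottom level. -/
def H0 : Submodule (Hk O F) (L1 θ 0) := LinearMap.ker (locU θ 0)

theorem mem_Hn {y : L1 θ F.s} : y ∈ Hn θ ↔ locU θ F.s y = 0 := LinearMap.mem_ker

theorem mem_H0 {y : L1 θ 0} : y ∈ H0 θ ↔ locU θ 0 y = 0 := LinearMap.mem_ker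

instance finite_Hn : Module.Finite O (Hn θ) :=
  Module.Finite.of_injective ((Hn θ).subtype.restrictScalars O) (Hn θ).injective_subtype

/-! ### the group action -/

section Grp

variable (F) {G : Type} [CommGroup G] [Fintype G] (ψ : G →* (ZMod N)ˣ ⧸ F.c.sub F.s)

theorem repG_mem_Hn (u : G) {y : L1 θ F.s} (hy : y ∈ Hn θ) : repG F θ ψ u y ∈ Hn θ := by
  rw [mem_Hn] at hy ⊢
  rw [repG_apply, locU, loc_mapEnd, ← locU, hy, map_zero]

/-- **the representation of `G` on the unit part.** -/
def repH : Representation O G (Hn θ) where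
  toFun u :=
    { toFun := fun w => ⟨repG F θ ψ u w, repG_mem_Hn F θ ψ u w.2⟩
      map_add' := fun w w' => Subtype.ext (by
        show repG F θ ψ u ((w : L1 θ F.s) + w') = _
        rw [map_add]
        rfl)
      map_smul' := fun c w => Subtype.ext (by
        show repG F θ ψ u (c • (w : L1 θ F.s)) = _
        rw [map_smul]
        rfl) }
  map_one' := by
    apply LinearMap.ext
    intro w
    apply Subtype.ext
    show repG F θ ψ 1 (w : L1 θ F.s) = w
    rw [map_one, Module.End.one_apply]
  map_mul' u v := by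
    apply LinearMap.ext
    intro w
    apply Subtype.ext
    show repG F θ ψ (u * v) (w : L1 θ F.s) = repG F θ ψ u (repG F θ ψ v (w : L1 θ F.s))
    rw [map_mul, Module.End.mul_apply]

@[simp] theorem coe_repH (u : G) (w : Hn θ) :
    ((repH F θ ψ u w : Hn θ) : L1 θ F.s) = repG F θ ψ u (w : L1 θ F.s) := rfl

theorem coe_asAlgebraHom_repH (z : MonoidAlgebra O G) (w : Hn θ) :
    (((repH F θ ψ).asAlgebraHom z w : Hn θ) : L1 θ F.s) =
      (repG F θ ψ).asAlgebraHom z (w : L1 θ F.s) := by
  induction z using MonoidAlgebra.induction_on with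
  | of g => rw [Representation.asAlgebraHom_of, Representation.asAlgebraHom_of, coe_repH]
  | add f g hf hg =>
    rw [map_add, map_add, LinearMap.add_apply, LinearMap.add_apply, Submodule.coe_add, hf, hg]
  | smul c f hf =>
    rw [map_smul, map_smul, LinearMap.smul_apply, LinearMap.smul_apply, Submodule.coe_smul_of_tower,
      hf]

theorem coe_grpMap_repH {n : ℕ} (e : Fin n → Hn θ) (f : Fin n → MonoidAlgebra O G) :
    ((grpMap (repH F θ ψ) e f : Hn θ) : L1 θ F.s) =
      grpMap (repG F θ ψ) (fun i => (e i : L1 θ F.s)) f := by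
  rw [grpMap_apply, grpMap_apply, Submodule.coe_sum]
  exact Finset.sum_congr rfl fun i _ => coe_asAlgebraHom_repH F θ ψ (f i) (e i)

/-- bijectivity on the unit part from injectivity and the range in `L1`. -/
theorem bijective_grpMap_repH {n : ℕ} (e : Fin n → Hn θ)
    (hinj : Function.Injective (grpMap (repG F θ ψ) (fun i => (e i : L1 θ F.s))))
    (hrange : LinearMap.range (grpMap (repG F θ ψ) (fun i => (e i : L1 θ F.s))) =
      (LinearMap.ker (locU θ F.s)).restrictScalars O) :
    Function.Bijective (grpMap (repH F θ ψ) e) := by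
  constructor
  · intro f f' h
    apply hinj
    rw [← coe_grpMap_repH, ← coe_grpMap_repH, h]
  · intro y
    have hy : (y : L1 θ F.s) ∈ LinearMap.range
        (grpMap (repG F θ ψ) (fun i => (e i : L1 θ F.s))) := by
      rw [hrange]
      exact y.2
    obtain ⟨f, hf⟩ := hy
    refine ⟨f, Subtype.ext ?_⟩
    rw [coe_grpMap_repH]
    exact hf

end Grp

/-! ### the trace Hecke ring acting on the unit part -/

section Hecke

/-- `τ_{ℓ i}` on the unit part. -/
def tauH (i : F.ι) : Module.End O (Hn θ) :=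
  Algebra.lsmul O O (Hn θ) (MvPolynomial.X (Sum.inl (some i)) : Hk O F)

theorem tauH_apply (i : F.ι) (w : Hn θ) :
    tauH θ i w = (MvPolynomial.X (Sum.inl (some i)) : Hk O F) • w := rfl

theorem tauH_comm (i j : F.ι) : Commute (tauH θ i) (tauH θ j) := by
  show tauH θ i * tauH θ j = tauH θ j * tauH θ i
  rw [tauH, tauH, ← map_mul, ← map_mul, mul_comm]

/-- the unit part as a module over the trace Hecke ring. -/
abbrev HnMod : Type := PolyMod (tauH θ) (tauH_comm θ)

/-- the action of the trace Hecke ring is the restriction of the action of the big Hecke ring. -/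
theorem smul_of (s : Hk0 O F) (w : Hn θ) :
    s • (PolyMod.of (tauH θ) (tauH_comm θ) w : HnMod θ) =
      PolyMod.of (tauH θ) (tauH_comm θ) (emb O F s • w) := by
  rw [PolyMod.smul_of]
  congr 1
  induction s using MvPolynomial.induction_on generalizing w with
  | C a =>
    rw [polyAct_C, LinearMap.smul_apply, Module.End.one_apply, emb, MvPolynomial.rename_C,
      ← MvPolynomial.algebraMap_eq, algebraMap_smul]
  | add s s' hs hs' => rw [map_add, map_add, LinearMap.add_apply, add_smul, hs, hs']
  | mul_X s i hs =>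
    rw [map_mul, map_mul, polyAct_X, Module.End.mul_apply, hs, tauH_apply, emb,
      MvPolynomial.rename_X, mul_smul]

/-- **the Hecke algebra of level `n`** (the image of the trace Hecke ring in `End (Hn θ)`). -/
abbrev An : Type := HeckeIm O (Hk0 O F) (HnMod θ)

/-- the elements outside `m0 θ` act bijectively on the unit part. -/
theorem bijective_smul_HnMod (a : Hk0 O F) (ha : a ∉ m0 θ) :
    Function.Bijective fun y : HnMod θ => a • y := by
  have hS : emb O F a ∈ S1 θ := ⟨a, ha, rfl⟩
  have h1 : Function.Bijective fun y : L1 θ F.s => emb O F a • y :=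
    (Module.End.isUnit_iff _).mp (IsLocalizedModule.map_units (S := S1 θ) (f1 θ F.s) ⟨_, hS⟩)
  have h2 : Function.Bijective fun y : L2 θ F.s => emb O F a • y :=
    (Module.End.isUnit_iff _).mp (IsLocalizedModule.map_units (S := (m2 θ).primeCompl) (f2 θ F.s)
      ⟨_, S1_le θ hS⟩)
  constructor
  · intro y y' h
    obtain ⟨w, rfl⟩ := (PolyMod.of (tauH θ) (tauH_comm θ)).surjective y
    obtain ⟨w', rfl⟩ := (PolyMod.of (tauH θ) (tauH_comm θ)).surjective y'
    have h3 : a • (PolyMod.of (tauH θ) (tauH_comm θ) w : HnMod θ) =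
        a • (PolyMod.of (tauH θ) (tauH_comm θ) w' : HnMod θ) := h
    rw [smul_of, smul_of] at h3
    have h4 := congrArg (fun z : Hn θ => (z : L1 θ F.s))
      ((PolyMod.of (tauH θ) (tauH_comm θ)).injective h3)
    simp only [Submodule.coe_smul] at h4
    rw [Subtype.ext (h1.1 h4)]
  · intro y
    obtain ⟨w, rfl⟩ := (PolyMod.of (tauH θ) (tauH_comm θ)).surjective y
    obtain ⟨z, hz⟩ := h1.2 (w : L1 θ F.s)
    have hz' : emb O F a • z = (w : L1 θ F.s) := hz
    have hzH : z ∈ Hn θ := by
      rw [mem_Hn]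
      apply h2.1
      show emb O F a • locU θ F.s z = emb O F a • (0 : L2 θ F.s)
      rw [smul_zero, ← map_smul, hz']
      exact (mem_Hn θ).mp w.2
    refine ⟨PolyMod.of (tauH θ) (tauH_comm θ) ⟨z, hzH⟩, ?_⟩
    show a • (PolyMod.of (tauH θ) (tauH_comm θ) ⟨z, hzH⟩ : HnMod θ) = _
    rw [smul_of]
    congr 1
    exact Subtype.ext hz'

theorem isLocalRing_An [Nontrivial (Hn θ)] : IsLocalRing (An θ) := by
  haveI : Nontrivial (HnMod θ) := inferInstanceAs (Nontrivial (Hn θ))
  exact isLocalRing_heckeIm O (m0 θ) (fun a ha => (bijective_smul_HnMod θ a ha).2)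

theorem isLocalHom_An [Nontrivial (Hn θ)] :
    haveI := isLocalRing_An θ
    IsLocalHom (algebraMap O (An θ)) := by
  haveI : Nontrivial (HnMod θ) := inferInstanceAs (Nontrivial (Hn θ))
  exact isLocalHom_algebraMap_heckeIm O (m0 θ) (fun a ha => (bijective_smul_HnMod θ a ha).2)

/-- the action of the Hecke algebra on the unit part. -/
def actH : An θ →ₐ[O] Module.End O (Hn θ) :=
  (LinearEquiv.conjAlgEquiv O (PolyMod.of (tauH θ) (tauH_comm θ)).symm :
    Module.End O (HnMod θ) ≃ₐ[O] Module.End O (Hn θ)).toAlgHom.comp (actL O (Hk0 O F) (HnMod θ))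

theorem actH_mk (s : Hk0 O F) (w : Hn θ) :
    actH θ (Ideal.Quotient.mk _ s) w = emb O F s • w := by
  show (PolyMod.of (tauH θ) (tauH_comm θ)).symm
    (actL O (Hk0 O F) (HnMod θ) (Ideal.Quotient.mk _ s)
      ((PolyMod.of (tauH θ) (tauH_comm θ)).symm.symm w)) = _
  rw [LinearEquiv.symm_symm, actL_mk, smul_of, LinearEquiv.symm_apply_apply]

theorem actH_injective : Function.Injective (actH θ) := by
  intro a b h
  apply actL_injective O (Hk0 O F) (HnMod θ)
  exact (LinearEquiv.conjAlgEquiv O (PolyMod.of (tauH θ) (tauH_comm θ)).symm).injective h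

end Hecke

/-! ### the Hecke algebra acts over the group ring; the module form -/

section Final

variable (F) {G : Type} [CommGroup G] [Fintype G] (ψ : G →* (ZMod N)ˣ ⧸ F.c.sub F.s)

theorem actH_repH (a : An θ) (u : G) (w : Hn θ) :
    actH θ a (repH F θ ψ u w) = repH F θ ψ u (actH θ a w) := by
  obtain ⟨s, rfl⟩ := Ideal.Quotient.mk_surjective a
  rw [actH_mk, actH_mk]
  apply Subtype.ext
  rw [Submodule.coe_smul, coe_repH, coe_repH, Submodule.coe_smul, repG_apply, repG_apply, map_smul]

/-- **the Hecke algebra acting on the unit part as a module over the group ring.** -/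
def actR : An θ →ₐ[O] Module.End (MonoidAlgebra O G) (repH F θ ψ).asModule :=
  endOfCommHom (repH F θ ψ) (actH θ) (actH_repH F θ ψ)

@[simp] theorem asModuleEquiv_actR (a : An θ) (y : (repH F θ ψ).asModule) :
    (repH F θ ψ).asModuleEquiv (actR F θ ψ a y) = actH θ a ((repH F θ ψ).asModuleEquiv y) :=
  asModuleEquiv_endOfCommHom _ _ _ a y

theorem actR_injective : Function.Injective (actR F θ ψ) := by
  intro a b h
  apply actH_injective θ
  apply LinearMap.ext
  intro w
  have := LinearMap.congr_fun h ((repH F θ ψ).asModuleEquiv.symm w)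
  have h2 := congrArg (repH F θ ψ).asModuleEquiv this
  rwa [asModuleEquiv_actR, asModuleEquiv_actR, LinearEquiv.apply_symm_apply] at h2

/-- **the module form of the Hecke side at level `n`.** -/
theorem exists_level [Invertible (2 : O)] [Invertible (3 : O)] {p : ℕ} (hp : p.Prime)
    (hpO : (p : O) ∈ maximalIdeal O) (hmp : ∀ i, ∃ k : ℕ, F.c.m i = p ^ k)
    (i₀ : F.ι) (h₀ : ((F.ℓ i₀ : ℕ) : ZMod N) = 1)
    (hθ₀ : θ i₀ ≠ (F.ℓ i₀ : ResidueField O) + 1)
    (g : Fin F.s → G) (hψ : ∀ i, ψ (g i) = QuotientGroup.mk (F.c.d i))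
    (hgen : Subgroup.closure (Set.range g) = ⊤)
    (hcard : Fintype.card G = ∏ i, F.c.m i)
    {n : ℕ} (b : Module.Basis (Fin n) O (H0 θ)) :
    ∃ (B : Module.Basis (Fin n) (MonoidAlgebra O G) (repH F θ ψ).asModule)
      (pr : Hn θ →ₗ[O] H0 θ), Function.Surjective pr ∧
      (∀ u w, pr (repH F θ ψ u w) = pr w) ∧
      (∀ (a : Hk O F) w, pr (a • w) = a • pr w) ∧
      ∀ i, pr ((repH F θ ψ).asModuleEquiv (B i)) = b i := by
  obtain ⟨π, hπs, hπinv, hπker, hπb⟩ :=
    exists_unit_basis F θ ψ hp hpO hmp i₀ h₀ hθ₀ g hψ hcard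
  obtain ⟨⟨e, he0, heb⟩, hbasis⟩ := hπb b
  obtain ⟨hinj, hrange⟩ := hbasis e he0 heb
  -- the projection
  let pr : Hn θ →ₗ[Hk O F] H0 θ := π.restrict (fun y hy => (mem_H0 θ).mpr (hπker y ((mem_Hn θ).mp hy)))
  have hpr : ∀ w : Hn θ, ((pr w : H0 θ) : L1 θ 0) = π (w : L1 θ F.s) := fun w => rfl
  -- invariance under `G`
  have hinvG : ∀ (u : G) (y : L1 θ F.s), π (repG F θ ψ u y) = π y := by
    intro u
    have hu : u ∈ Subgroup.closure (Set.range g) := by rw [hgen]; trivial
    induction hu using Subgroup.closure_induction with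
    | mem x hx =>
      obtain ⟨i, rfl⟩ := hx
      exact hπinv i
    | one => intro y; rw [map_one, Module.End.one_apply]
    | mul x y _ _ hx hy => intro z; rw [map_mul, Module.End.mul_apply, hx, hy]
    | inv x _ hx =>
      intro z
      have := hx (repG F θ ψ x⁻¹ z)
      rw [← Module.End.mul_apply, ← map_mul, mul_inv_cancel, map_one, Module.End.one_apply] at this
      exact this.symm
  let ee : Fin n → Hn θ := fun i => ⟨e i, (mem_Hn θ).mpr (he0 i)⟩
  have hbij : Function.Bijective (grpMap (repH F θ ψ) ee) :=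
    bijective_grpMap_repH F θ ψ ee hinj hrange
  refine ⟨basisOfBijective (repH F θ ψ) ee hbij, pr.restrictScalars O, ?_, ?_, ?_, ?_⟩
  · -- onto: every element of `H0` is an `O`-combination of the `b i = π (e i)`
    intro y₀
    refine ⟨∑ i, b.repr y₀ i • ee i, ?_⟩
    rw [map_sum]
    conv_rhs => rw [← b.sum_repr y₀]
    refine Finset.sum_congr rfl fun i _ => ?_
    rw [map_smul]
    congr 1
    apply Subtype.ext
    exact heb i
  · intro u w
    apply Subtype.ext
    show π (repG F θ ψ u (w : L1 θ F.s)) = π (w : L1 θ F.s)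
    exact hinvG u w
  · intro a w
    exact map_smul pr a w
  · intro i
    rw [basisOfBijective_apply]
    apply Subtype.ext
    exact heb i

end Final

end Fermat.Agent.M43.ChainLevel5
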