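import Mathlib
import Fermat.Agent.M43.ChainLevel5

/-!
# M43 / Hecke side: adapters for the consumers of `Hn θ` and `An θ`

For the BRIDGE (`BridgeFinal3.bridge_operator`, abstract `Hk`-module `Hn`) and for (6d):

* `ann_Hn` : a polynomial of the big Hecke ring killing the lattice `F.P O F.s` kills `Hn θ`;
* `free_Hn` : `Hn θ` is free over `O`;
* `actH_mk_X` : `mk (X i)` acts on `Hn θ` as `X (inl (some i))`;
* `adjoin_mk_X` : `An θ` is generated over `O` by the `mk (X i)`;
* `finite_An` : `An θ` is finite over `O`.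
-/

set_option autoImplicit false
set_option linter.unusedSectionVars false
set_option linter.style.haveILetI false

open IsLocalRing

noncomputable section

namespace Fermat.Agent.M43.LevelInst5

open Fermat.Agent.M43.ChainGrp5 Fermat.Agent.M43.PolyMod5 Fermat.Agent.M43.ChainMod5
  Fermat.Agent.M43.LocMod5 Fermat.Agent.M43.ChainMain5 Fermat.Agent.M43.AlgHecke5
  Fermat.Agent.M43.ChainLevel5

variable {N : ℕ} [NeZero N] {O : Type} [CommRing O] [IsDomain O] [IsDiscreteValuationRing O]
  [IsAdicComplete (maximalIdeal O) O] [CharZero O] {F : Frame N} (θ : F.ι → ResidueField O)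

/-- a polynomial killing the lattice kills its localisation. -/
theorem ann_L1 (j : ℕ) (Pol : Hk O F) (h : ∀ y : F.P O j, Pol • y = 0) (z : L1 θ j) :
    Pol • z = 0 := by
  obtain ⟨⟨x, s⟩, hs⟩ := IsLocalizedModule.surj (S1 θ) (f1 θ j) z
  have hu := IsLocalizedModule.map_units (S := S1 θ) (f1 θ j) s
  have hinj : Function.Injective (fun y : L1 θ j => (s : Hk O F) • y) :=
    ((Module.End.isUnit_iff _).mp hu).1
  apply hinj
  show (s : Hk O F) • (Pol • z) = (s : Hk O F) • (0 : L1 θ j)
  rw [smul_zero, smul_comm]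
  have : (s : Hk O F) • z = f1 θ j x := hs
  rw [this, ← map_smul, h, map_zero]

/-- **a polynomial of the big Hecke ring killing the lattice `F.P O F.s` kills `Hn θ`.** -/
theorem ann_Hn (Pol : Hk O F) (h : ∀ y : F.P O F.s, Pol • y = 0) (w : Hn θ) : Pol • w = 0 := by
  apply Subtype.ext
  rw [Submodule.coe_smul, Submodule.coe_zero]
  exact ann_L1 θ F.s Pol h _

instance free_Hn : Module.Free O (Hn θ) := by
  haveI : Module.Free O (L1 θ F.s) := inferInstance
  haveI : NoZeroSMulDivisors O (Hn θ) := by
    refine ⟨fun {c w} h => ?_⟩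
    by_cases hc : c = 0
    · exact Or.inl hc
    · right
      apply Subtype.ext
      have h1 : c • (w : L1 θ F.s) = 0 := by
        have := congrArg (Subtype.val : Hn θ → L1 θ F.s) h
        rwa [Submodule.coe_smul_of_tower, Submodule.coe_zero] at this
      rcases smul_eq_zero.mp h1 with h2 | h2
      · exact absurd h2 hc
      · exact h2
  exact Module.free_of_finite_type_torsion_free'

theorem actH_mk_X (i : F.ι) (w : Hn θ) :
    actH θ (Ideal.Quotient.mk _ (MvPolynomial.X i)) w =
      (MvPolynomial.X (Sum.inl (some i)) : Hk O F) • w := by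
  rw [actH_mk, emb, MvPolynomial.rename_X]

/-- **`An θ` is generated over `O` by the Hecke operators.** -/
theorem adjoin_mk_X :
    Algebra.adjoin O (Set.range fun i : F.ι =>
      (Ideal.Quotient.mk (annL O (Hk0 O F) (HnMod θ)) (MvPolynomial.X i) : An θ)) = ⊤ := by
  have h := adjoin_image_eq_top O (Hk0 O F) (HnMod θ) (Set.range MvPolynomial.X)
    (MvPolynomial.adjoin_range_X)
  rw [← h]
  congr 1
  ext a
  constructor
  · rintro ⟨i, rfl⟩
    exact ⟨MvPolynomial.X i, ⟨i, rfl⟩, rfl⟩
  · rintro ⟨_, ⟨i, rfl⟩, rfl⟩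
    exact ⟨i, rfl⟩

instance finite_An : Module.Finite O (An θ) := inferInstance

end Fermat.Agent.M43.LevelInst5
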