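/-
M43 (helper3) [BRIDGE, level form] BridgeLevel3: **the BRIDGE inputs `hTW`, `hZ` of
`LevelAsm5.nonempty_heckeLevel_lvl`** from `BridgeFinal3.bridge_operator`.

* `bridge_level` : `bridge_operator` for `Hn := ChainLevel5.Hn θ`, `A := An θ`, `act := actH θ`,
  `tA i := mk (X i)`;
* `KqL`, `sub_eq_SQ` : the top subgroup of the chain of a `LevelGrp5.Lvl` in the `SQ` form;
* `bridge_lvl` : the operator identity for the frame of a `Lvl`, at every prime of the level;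
* `exists_lvl` : the construction of the `Lvl` with generators `cycloM N τ ^ e`, `τ` inertia elements;
* `hTW_of_lvl`, `hZ_of_lvl` : the two BRIDGE binders.
-/
import Mathlib
import Fermat.Agent.M43.BridgeFinal3
import Fermat.Agent.M43.BridgeRam3
import Fermat.Agent.M43.LevelInst5
import Fermat.Agent.M43.LevelGrp5

set_option autoImplicit false
set_option linter.unusedSectionVars false
set_option linter.style.haveILetI false
set_option synthInstance.maxHeartbeats 400000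

open TensorProduct Polynomial

noncomputable section

namespace Fermat.Agent.M43.BridgeLevel3

open Matrix.SpecialLinearGroup ModularCurve.Period CongruenceSubgroup IsLocalRing
open scoped MatrixGroups
open Fermat.Agent.M43.HeckeH0 Fermat.Agent.M43.CycInst0 Fermat.Agent.M43.ChainMod5
  Fermat.Agent.M43.PolyMod5 Fermat.Agent.M43.ChainGrp5 Fermat.Agent.M43.TwistLatI6
  Fermat.Agent.M43.BridgeBase3 Fermat.Agent.M43.ChainMain5 Fermat.Agent.M43.ChainLevel5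
  Fermat.Agent.M43.AlgHecke5 Fermat.Agent.M43.LevelGrp5
open Fermat.Agent.M48.ESInv3 Fermat.Agent.M48.CosetOp3 Fermat.Agent.M48.Diamond1
  Fermat.Agent.M48.J1Defs8 Fermat.Agent.M48.DirCharGal8 Fermat.Agent.M48.P1Skeleton8

local notation "Qb" => AlgebraicClosure ℚ
local notation "GQ" => (AlgebraicClosure ℚ ≃ₐ[ℚ] AlgebraicClosure ℚ)

/-! ### The operator identity on `Hn θ` -/

section Level

variable {p : ℕ} [Fact p.Prime] {N : ℕ} [NeZero N]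
  {O : Type} [CommRing O] [IsDomain O] [IsDiscreteValuationRing O]
  [IsAdicComplete (maximalIdeal O) O] [Finite (ResidueField O)] [CharZero O]
  {F : Frame N} (θ : F.ι → ResidueField O)

/-- **`bridge_operator` on the unit part `Hn θ` of the Hecke lattice, for the Hecke algebra
`An θ`.** -/
theorem bridge_level (hpO : (p : O) ∈ maximalIdeal O)
    (Kq : ∀ q : ℕ, Subgroup (ZMod q)ˣ) (Q : Finset ℕ)
    (hsub : F.c.sub F.s = SQ Kq Q N)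
    (hQ : ∀ q ∈ Q, q.Prime ∧ q ∣ N ∧ ¬ q ∣ N / q)
    (m : ℕ) (hm : ∀ d : (ZMod N)ˣ, d ^ m ∈ F.c.sub F.s) (he : 2 * F.e = m + 1)
    [IsLocalRing (An θ)] (ρ : GaloisRepAdic (An θ))
    {T₁ : Type} [CommRing T₁] [Algebra O T₁] [Module.Free O T₁] [Module.Finite O T₁]
    [IsReduced T₁] (g₁ : T₁ →ₐ[O] An θ) (hg₁ : Function.Surjective g₁)
    (Sf : Finset ℕ) (hpS : p ∈ Sf) (hcof : ∀ r : ℕ, r.Prime → r ∉ Sf → ∃ i, F.ℓ i = r)
    (hfrob : ∀ (i : F.ι) (P : ValuationSubring Qb), P.LiesOverPrime (F.ℓ i) → ∀ φ : GQ,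
      P.IsFrobeniusAt φ (F.ℓ i) →
      LinearMap.charpoly (ρ.ρ φ) = X ^ 2
        - C (Ideal.Quotient.mk (annL O (Hk0 O F) (HnMod θ)) (MvPolynomial.X i) : An θ) * X
        + C ((F.ℓ i : An θ)))
    {q₀ : ℕ} (hq₀ : q₀ ∈ Q) (hq₀p : q₀ ≠ p) (hneg : (-1 : (ZMod q₀)ˣ) ∈ Kq q₀)
    {Mb : ℕ} [NeZero Mb] (hNMb : N * ∏ q ∈ Q.erase q₀, q ∣ Mb) (h49 : 4 ∣ Mb ∨ 9 ∣ Mb)
    (hMS : ∀ q : ℕ, q.Prime → q ∣ Mb → q ∈ Sf)
    (Hd : Subgroup (ZMod Mb)ˣ) (hHd : ∀ h ∈ Hd, ∀ hq : q₀ ∣ Mb, ZMod.unitsMap hq h ∈ Kq q₀)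
    (Aq : ValuationSubring Qb) (hAq : Aq.LiesOverPrime q₀) (c : ℕ) (hc : c ≠ 0)
    (hLG : ∀ σ ∈ Aq.inertiaSubgroupIn ℚ, ∀ (k : ℕ) (y : J1 Mb), p ^ k • y = 0 →
      (∀ h ∈ Hd, dia1 Qb Mb h y = y) →
      c • (σ • (σ • y - dia1 Qb Mb (cycloM Mb σ) y) - (σ • y - dia1 Qb Mb (cycloM Mb σ) y)) = 0) :
    ∀ σ ∈ Aq.inertiaSubgroupIn ℚ, ∀ w : Hn θ, actH θ (ρ.trace σ) w =
      (MvPolynomial.X (Sum.inr (cycloM N σ ^ F.e)) : Hk O F) • w
      + (MvPolynomial.X (Sum.inr ((cycloM N σ ^ F.e)⁻¹)) : Hk O F) • w :=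
  BridgeFinal3.bridge_operator (p := p) hpO F Kq Q hsub hQ (Hn := ↥(Hn θ))
    (fun Pol h w => LevelInst5.ann_Hn θ Pol h w) m hm he ρ (actH θ)
    (fun i => (Ideal.Quotient.mk (annL O (Hk0 O F) (HnMod θ)) (MvPolynomial.X i) : An θ))
    (fun i w => LevelInst5.actH_mk_X θ i w) (LevelInst5.adjoin_mk_X θ) g₁ hg₁ Sf hpS hcof hfrob
    hq₀ hq₀p hneg hNMb h49 hMS Hd hHd Aq hAq c hc hLG

end Level

/-! ### The chain of a `Lvl` in the `SQ` form -/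

section LvlGrp

variable {N p n : ℕ} {Z : Type} [Fintype Z] {r : ℕ} (L : Lvl N p n Z r)

/-- the local subgroups of a `Lvl`, as a function of the prime. -/
def KqL (x : ℕ) : Subgroup (ZMod x)ˣ := ⨅ a : Z ⊕ Fin r, ⨅ _ : L.q a = x, Kq x (mOf p n a)

theorem mem_KqL {x : ℕ} {u : (ZMod x)ˣ} :
    u ∈ KqL L x ↔ ∀ a, L.q a = x → u ∈ Kq x (mOf p n a) := by
  simp only [KqL, Subgroup.mem_iInf]

theorem KqL_q (hinj : Function.Injective L.q) (a : Z ⊕ Fin r) :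
    KqL L (L.q a) = Kq (L.q a) (mOf p n a) := by
  ext u
  rw [mem_KqL]
  constructor
  · intro h
    exact h a rfl
  · intro h b hb
    obtain rfl := hinj hb
    exact h

/-- the primes of the level. -/
def QL : Finset ℕ := Finset.univ.image L.q

theorem mem_QL (a : Z ⊕ Fin r) : L.q a ∈ QL L := Finset.mem_image_of_mem _ (Finset.mem_univ _)

theorem top_eq_SQ (hinj : Function.Injective L.q) : L.top = SQ (KqL L) (QL L) N := by
  ext u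
  rw [Chain.mem_sub, mem_SQ]
  constructor
  · intro h q hq hqN
    obtain ⟨a, -, rfl⟩ := Finset.mem_image.mp hq
    obtain ⟨i, rfl⟩ := (en Z r).surjective a
    rw [KqL_q L hinj]
    exact h i i.2
  · intro h i _
    have h1 := h (L.q (en Z r i)) (mem_QL L _) (L.dvd _)
    rw [KqL_q L hinj] at h1
    exact h1

theorem prod_chain_m : ∏ i, L.chain.m i = ∏ a : Z ⊕ Fin r, mOf p n a :=
  (en Z r).prod_comp (mOf p n)

theorem hQ_QL (hsf : ∀ a, ¬ L.q a ∣ N / L.q a) :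
    ∀ q ∈ QL L, q.Prime ∧ q ∣ N ∧ ¬ q ∣ N / q := by
  intro q hq
  obtain ⟨a, -, rfl⟩ := Finset.mem_image.mp hq
  exact ⟨L.prime a, L.dvd a, hsf a⟩

theorem neg_one_mem_KqL (hinj : Function.Injective L.q) (a : Z ⊕ Fin r) :
    (-1 : (ZMod (L.q a))ˣ) ∈ KqL L (L.q a) := by
  rw [KqL_q L hinj]
  exact neg_one_mem_Kq (L.h2 a)

end LvlGrp

/-! ### The operator identity for the frame of a `Lvl` -/

section LvlOp

variable {p : ℕ} [Fact p.Prime] {N : ℕ} [NeZero N]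
  {O : Type} [CommRing O] [IsDomain O] [IsDiscreteValuationRing O]
  [IsAdicComplete (maximalIdeal O) O] [Finite (ResidueField O)] [CharZero O]
  {n : ℕ} {Z : Type} [Fintype Z] {r : ℕ}

/-- **the operator identity at the prime `L.q a` of the level**, for the frame of a `Lvl`. -/
theorem bridge_lvl (hpO : (p : O) ∈ maximalIdeal O) (L : Lvl N p n Z r)
    (hinj : Function.Injective L.q) (hsf : ∀ a, ¬ L.q a ∣ N / L.q a)
    (ι : Type) (ℓ : ι → ℕ) (hℓ : ∀ i, (ℓ i).Prime) (hℓN : ∀ i, ¬ ℓ i ∣ N) (e : ℕ)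
    (he : 2 * e = (∏ i, L.chain.m i) + 1)
    (F : Frame N) (hF : F = L.frame ι ℓ hℓ hℓN e) (θ : F.ι → ResidueField O)
    [IsLocalRing (An θ)] (ρ : GaloisRepAdic (An θ))
    {T₁ : Type} [CommRing T₁] [Algebra O T₁] [Module.Free O T₁] [Module.Finite O T₁]
    [IsReduced T₁] (g₁ : T₁ →ₐ[O] An θ) (hg₁ : Function.Surjective g₁)
    (Sf : Finset ℕ) (hpS : p ∈ Sf) (hcof : ∀ r' : ℕ, r'.Prime → r' ∉ Sf → ∃ i, F.ℓ i = r')
    (hfrob : ∀ (i : F.ι) (P : ValuationSubring Qb), P.LiesOverPrime (F.ℓ i) → ∀ φ : GQ,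
      P.IsFrobeniusAt φ (F.ℓ i) →
      LinearMap.charpoly (ρ.ρ φ) = X ^ 2
        - C (Ideal.Quotient.mk (annL O (Hk0 O F) (HnMod θ)) (MvPolynomial.X i) : An θ) * X
        + C ((F.ℓ i : An θ)))
    (a : Z ⊕ Fin r) (hap : L.q a ≠ p)
    {Mb : ℕ} [NeZero Mb] (hNMb : N * ∏ q ∈ (QL L).erase (L.q a), q ∣ Mb)
    (h49 : 4 ∣ Mb ∨ 9 ∣ Mb) (hMS : ∀ q : ℕ, q.Prime → q ∣ Mb → q ∈ Sf)
    (Hd : Subgroup (ZMod Mb)ˣ)
    (hHd : ∀ h ∈ Hd, ∀ hq : L.q a ∣ Mb, ZMod.unitsMap hq h ∈ Kq (L.q a) (mOf p n a))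
    (Aq : ValuationSubring Qb) (hAq : Aq.LiesOverPrime (L.q a)) (c : ℕ) (hc : c ≠ 0)
    (hLG : ∀ σ ∈ Aq.inertiaSubgroupIn ℚ, ∀ (k : ℕ) (y : J1 Mb), p ^ k • y = 0 →
      (∀ h ∈ Hd, dia1 Qb Mb h y = y) →
      c • (σ • (σ • y - dia1 Qb Mb (cycloM Mb σ) y) - (σ • y - dia1 Qb Mb (cycloM Mb σ) y)) = 0) :
    ∀ σ ∈ Aq.inertiaSubgroupIn ℚ, ∀ w : Hn θ, actH θ (ρ.trace σ) w =
      (MvPolynomial.X (Sum.inr (cycloM N σ ^ e)) : Hk O F) • w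
      + (MvPolynomial.X (Sum.inr ((cycloM N σ ^ e)⁻¹)) : Hk O F) • w := by
  subst hF
  exact bridge_level (p := p) θ hpO (KqL L) (QL L) (top_eq_SQ L hinj) (hQ_QL L hsf)
    (∏ i, L.chain.m i) (fun d => L.chain.pow_prod_mem d) he ρ g₁ hg₁ Sf hpS hcof hfrob
    (mem_QL L a) hap (neg_one_mem_KqL L hinj a) hNMb h49 hMS Hd
    (fun h hh hq => by rw [KqL_q L hinj]; exact hHd h hh hq) Aq hAq c hc hLG

end LvlOp

/-! ### The construction of the `Lvl` -/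

section Construct

open Fermat.Agent.W56.Defs9 Fermat.Agent.M43.GlobTame3 ExtCitation

/-- `m ∣ 2 e - 1` for every order `m` of a step, when `2 e = ∏ m + 1`. -/
theorem dvd_two_mul_sub_one {Z : Type} [Fintype Z] {r : ℕ} (p n : ℕ) (e : ℕ)
    (he : 2 * e = (∏ a : Z ⊕ Fin r, mOf p n a) + 1) (a : Z ⊕ Fin r) :
    ((mOf p n a : ℕ) : ℤ) ∣ 2 * (e : ℤ) - 1 := by
  have h1 : (2 * (e : ℤ)) - 1 = ((∏ a : Z ⊕ Fin r, mOf p n a : ℕ) : ℤ) := by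
    have := congrArg (Nat.cast : ℕ → ℤ) he
    push_cast at this ⊢
    linarith
  rw [h1]
  exact Int.natCast_dvd_natCast.mpr (Finset.dvd_prod_of_mem _ (Finset.mem_univ a))

/-- **the `Lvl` of the BRIDGE**: the generators are the `e`-th powers of the mod-`N` cyclotomic
characters of inertia elements: the universal tame generators `s z` at the bad primes, elements
`τ i` (whose mod-`qv i` cyclotomic character generates `(ZMod (qv i))ˣ`) at the Taylor–Wiles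
primes. -/
theorem exists_lvl {N : ℕ} [NeZero N] (p n : ℕ) (Zs : Finset ℕ) {r : ℕ} (qv : Fin r → ℕ)
    (s : ∀ q : Nat.Primes, ↥((primeLocalPlace q).inertiaSubgroupIn ℚ))
    (hs : ∀ q ∈ primesOf Zs, ∀ {H : Type} [Group H]
      (f : ↥((primeLocalPlace q).inertiaSubgroupIn ℚ) →* H), ContI f →
        (∀ σ, ∃ a : ℕ, f σ ^ p ^ a = 1) → ∀ σ, f σ ∈ Subgroup.zpowers (f (s q)))
    (hZN : ∀ z : ↥(primesOf Zs), ((z.1 : Nat.Primes) : ℕ) ∣ N)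
    (hZp : ∀ z : ↥(primesOf Zs), p ∣ ((z.1 : Nat.Primes) : ℕ) - 1)
    (hZ2 : ∀ z : ↥(primesOf Zs), 2 ∣ (((z.1 : Nat.Primes) : ℕ) - 1) / p)
    (hqp : ∀ i, (qv i).Prime) (hqN : ∀ i, qv i ∣ N) (hqn : ∀ i, p ^ n ∣ qv i - 1)
    (hq2 : ∀ i, 2 ∣ (qv i - 1) / p ^ n)
    (hinj : Function.Injective
      (Sum.elim (fun z : ↥(primesOf Zs) => ((z.1 : Nat.Primes) : ℕ)) qv))
    (e : ℕ) (he : ∀ a : ↥(primesOf Zs) ⊕ Fin r, ((mOf p n a : ℕ) : ℤ) ∣ 2 * (e : ℤ) - 1)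
    (Aq : Fin r → ValuationSubring Qb) (hAq : ∀ i, (Aq i).LiesOverPrime (qv i)) :
    ∃ (L : Lvl N p n ↥(primesOf Zs) r) (τ : Fin r → GQ),
      L.q = Sum.elim (fun z : ↥(primesOf Zs) => ((z.1 : Nat.Primes) : ℕ)) qv ∧
      (∀ i, τ i ∈ (Aq i).inertiaSubgroupIn ℚ) ∧
      (∀ z, L.d (Sum.inl z) = cycloM N (s z.1 : GQ) ^ e) ∧
      (∀ i, L.d (Sum.inr i) = cycloM N (τ i) ^ e) := by
  classical
  haveI hneq : ∀ i, NeZero (qv i) := fun i => ⟨(hqp i).ne_zero⟩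
  -- the inertia elements at the Taylor–Wiles primes
  have hu : ∀ i, ∃ τ ∈ (Aq i).inertiaSubgroupIn ℚ, ∀ x : (ZMod (qv i))ˣ, ∃ k : ℤ,
      (cycloM (qv i) τ) ^ (-k) * x ∈ Kq (qv i) (p ^ n) := by
    intro i
    haveI : Fact (qv i).Prime := ⟨hqp i⟩
    obtain ⟨g0, hg0⟩ := IsCyclic.exists_generator (α := (ZMod (qv i))ˣ)
    obtain ⟨τ, hτI, hτ⟩ := BridgeRam3.exists_inertia_cycloM_eq (qv i) g0 (Aq i) (hAq i)
    refine ⟨τ, hτI, fun x => ?_⟩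
    obtain ⟨k, hk⟩ := Subgroup.mem_zpowers_iff.mp (hg0 x)
    refine ⟨k, ?_⟩
    rw [hτ, ← hk, ← zpow_add, neg_add_cancel, zpow_zero]
    exact Subgroup.one_mem _
  choose τ hτI hτgen using hu
  -- the data indexed by the labels
  let qa : ↥(primesOf Zs) ⊕ Fin r → ℕ :=
    Sum.elim (fun z : ↥(primesOf Zs) => ((z.1 : Nat.Primes) : ℕ)) qv
  have hqa : ∀ a, (qa a).Prime := by
    rintro (z | i)
    · exact z.1.2
    · exact hqp i
  have hqaN : ∀ a, qa a ∣ N := by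
    rintro (z | i)
    · exact hZN z
    · exact hqN i
  haveI hne : ∀ a, NeZero (qa a) := fun a => ⟨(hqa a).ne_zero⟩
  haveI hfa : ∀ a, Fact (qa a).Prime := fun a => ⟨hqa a⟩
  let pl : ↥(primesOf Zs) ⊕ Fin r → ValuationSubring Qb :=
    Sum.elim (fun z : ↥(primesOf Zs) => primeLocalPlace z.1) Aq
  have hpl : ∀ a, (pl a).LiesOverPrime (qa a) := by
    rintro (z | i)
    · exact W56.UnipSel8.liesOverPrime_primeLocalPlace z.1
    · exact hAq i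
  let σa : ↥(primesOf Zs) ⊕ Fin r → GQ := Sum.elim (fun z : ↥(primesOf Zs) => (s z.1 : GQ)) τ
  have hσa : ∀ a, σa a ∈ (pl a).inertiaSubgroupIn ℚ := by
    rintro (z | i)
    · exact (s z.1).2
    · exact hτI i
  have hma : ∀ a, mOf p n a ∣ qa a - 1 := by
    rintro (z | i)
    · exact hZp z
    · exact hqn i
  have hgen0 : ∀ a, ∀ x : (ZMod (qa a))ˣ, ∃ k : ℤ,
      (cycloM (qa a) (σa a)) ^ (-k) * x ∈ Kq (qa a) (mOf p n a) := by
    rintro (z | i)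
    · exact BridgeRam3.gen_of_universal ((z.1 : Nat.Primes) : ℕ) p (hZp z) ⟨1, (pow_one p).symm⟩
        (primeLocalPlace z.1) (W56.UnipSel8.liesOverPrime_primeLocalPlace z.1) (s z.1)
        (hs z.1 z.2)
    · exact hτgen i
  refine ⟨{
    q := qa
    prime := hqa
    dvd := hqaN
    hm := hma
    h2 := by
      rintro (z | i)
      · exact hZ2 z
      · exact hq2 i
    d := fun a => cycloM N (σa a) ^ e
    one := by
      intro a b hab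
      rw [map_pow, BridgeRam3.cycloM_level_of_mem_inertia (qa b) (hqaN a)
        (fun h => hab (hinj ((Nat.prime_dvd_prime_iff_eq (hqa b) (hqa a)).mp h)).symm)
        (pl b) (hpl b) (hσa b), one_pow]
    gen := by
      intro a
      have h1 : ZMod.unitsMap (hqaN a) (cycloM N (σa a) ^ e) = (cycloM (qa a) (σa a)) ^ e := by
        rw [map_pow, BridgeChar3.unitsMap_cycloM]
      rw [h1]
      exact BridgeRam3.gen_pow (qa a) (hma a) e (he a) (hgen0 a) }, τ, rfl, hτI,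
    fun z => rfl, fun i => rfl⟩

end Construct

/-! ### The BRIDGE binders of `LevelAsm5.nonempty_heckeLevel_lvl` -/

section Binders

open Fermat.Agent.W56.Defs9 Fermat.Agent.M43.GlobTame3 ExtCitation

/-- **the (LG-q) input of the BRIDGE** at the prime `q₀` (a prime of the set `Q`, local subgroup
`K₀ ≤ (ZMod q₀)ˣ`) for the place `Aq`: a level `Mb` (divisible by `N ∏_{q ∈ Q ∖ q₀} q` and by `4`
or `9`, with all its primes in `Sf`), a subgroup `Hd ≤ (ZMod Mb)ˣ` mapping into `K₀`, a constant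
`c ≠ 0`, and helper9's (LG-q) literal at level `Mb` on the `Hd`-invariants of `J₁(Mb)[p^∞]`. -/
def LGqInput (p N : ℕ) (Q : Finset ℕ) (Sf : Finset ℕ) (q₀ : ℕ) (K₀ : Subgroup (ZMod q₀)ˣ)
    (Aq : ValuationSubring Qb) : Prop :=
  ∃ (Mb : ℕ) (_ : NeZero Mb) (Hd : Subgroup (ZMod Mb)ˣ) (c : ℕ),
    N * ∏ q ∈ Q.erase q₀, q ∣ Mb ∧ (4 ∣ Mb ∨ 9 ∣ Mb) ∧
    (∀ q : ℕ, q.Prime → q ∣ Mb → q ∈ Sf) ∧
    (∀ h ∈ Hd, ∀ hq : q₀ ∣ Mb, ZMod.unitsMap hq h ∈ K₀) ∧ c ≠ 0 ∧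
    ∀ σ ∈ Aq.inertiaSubgroupIn ℚ, ∀ (k : ℕ) (y : J1 Mb), p ^ k • y = 0 →
      (∀ h ∈ Hd, dia1 Qb Mb h y = y) →
      c • (σ • (σ • y - dia1 Qb Mb (cycloM Mb σ) y) - (σ • y - dia1 Qb Mb (cycloM Mb σ) y)) = 0

variable {p : ℕ} [Fact p.Prime] {N : ℕ} [NeZero N]
  {O : Type} [CommRing O] [IsDomain O] [IsDiscreteValuationRing O]
  [IsAdicComplete (maximalIdeal O) O] [Finite (ResidueField O)] [CharZero O]
  {n : ℕ} {Z : Type} [Fintype Z] {r : ℕ}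

/-- `bridge_lvl` with the (LG-q) input packaged. -/
theorem bridge_lvl' (hpO : (p : O) ∈ maximalIdeal O) (L : Lvl N p n Z r)
    (hinj : Function.Injective L.q) (hsf : ∀ a, ¬ L.q a ∣ N / L.q a)
    (ι : Type) (ℓ : ι → ℕ) (hℓ : ∀ i, (ℓ i).Prime) (hℓN : ∀ i, ¬ ℓ i ∣ N) (e : ℕ)
    (he : 2 * e = (∏ i, L.chain.m i) + 1)
    (F : Frame N) (hF : F = L.frame ι ℓ hℓ hℓN e) (θ : F.ι → ResidueField O)
    [IsLocalRing (An θ)] (ρ : GaloisRepAdic (An θ))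
    {T₁ : Type} [CommRing T₁] [Algebra O T₁] [Module.Free O T₁] [Module.Finite O T₁]
    [IsReduced T₁] (g₁ : T₁ →ₐ[O] An θ) (hg₁ : Function.Surjective g₁)
    (Sf : Finset ℕ) (hpS : p ∈ Sf) (hcof : ∀ r' : ℕ, r'.Prime → r' ∉ Sf → ∃ i, F.ℓ i = r')
    (hfrob : ∀ (i : F.ι) (P : ValuationSubring Qb), P.LiesOverPrime (F.ℓ i) → ∀ φ : GQ,
      P.IsFrobeniusAt φ (F.ℓ i) →
      LinearMap.charpoly (ρ.ρ φ) = X ^ 2
        - C (Ideal.Quotient.mk (annL O (Hk0 O F) (HnMod θ)) (MvPolynomial.X i) : An θ) * X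
        + C ((F.ℓ i : An θ)))
    (a : Z ⊕ Fin r) (hap : L.q a ≠ p)
    (Aq : ValuationSubring Qb) (hAq : Aq.LiesOverPrime (L.q a))
    (hLG : LGqInput p N (QL L) Sf (L.q a) (Kq (L.q a) (mOf p n a)) Aq) :
    ∀ σ ∈ Aq.inertiaSubgroupIn ℚ, ∀ d : (ZMod N)ˣ, d = cycloM N σ ^ e → ∀ w : Hn θ,
      actH θ (LinearMap.trace (An θ) ρ.V (ρ.ρ σ)) w =
      (MvPolynomial.X (Sum.inr d) : Hk O F) • w
      + (MvPolynomial.X (Sum.inr d⁻¹) : Hk O F) • w := by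
  obtain ⟨Mb, hMb, Hd, c, hNMb, h49, hMS, hHd, hc, hLG'⟩ := hLG
  intro σ hσ d hd
  subst hd
  exact bridge_lvl (p := p) hpO L hinj hsf ι ℓ hℓ hℓN e he F hF θ ρ g₁ hg₁ Sf hpS hcof hfrob a hap
    hNMb h49 hMS Hd hHd Aq hAq c hc hLG' σ hσ

/-- **the BRIDGE binders `hTW`, `hZ` of `LevelAsm5.nonempty_heckeLevel_lvl`**, for a `Lvl` whose
generators are the `e`-th powers of the cyclotomic characters of inertia elements (`exists_lvl`). -/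
theorem hTW_hZ_of_lvl (hpO : (p : O) ∈ maximalIdeal O) (Zs : Finset ℕ)
    (L : Lvl N p n ↥(primesOf Zs) r)
    (hinj : Function.Injective L.q) (hsf : ∀ a, ¬ L.q a ∣ N / L.q a)
    (hqp : ∀ a, L.q a ≠ p)
    (ι : Type) (ℓ : ι → ℕ) (hℓ : ∀ i, (ℓ i).Prime) (hℓN : ∀ i, ¬ ℓ i ∣ N) (e : ℕ)
    (he : 2 * e = (∏ i, L.chain.m i) + 1)
    (F : Frame N) (hF : F = L.frame ι ℓ hℓ hℓN e) (θ : F.ι → ResidueField O)
    [IsLocalRing (An θ)] (ρ : GaloisRepAdic (An θ))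
    {T₁ : Type} [CommRing T₁] [Algebra O T₁] [Module.Free O T₁] [Module.Finite O T₁]
    [IsReduced T₁] (g₁ : T₁ →ₐ[O] An θ) (hg₁ : Function.Surjective g₁)
    (Sf : Finset ℕ) (hpS : p ∈ Sf) (hcof : ∀ r' : ℕ, r'.Prime → r' ∉ Sf → ∃ i, F.ℓ i = r')
    (hfrob : ∀ (i : F.ι) (P : ValuationSubring Qb), P.LiesOverPrime (F.ℓ i) → ∀ φ : GQ,
      P.IsFrobeniusAt φ (F.ℓ i) →
      LinearMap.charpoly (ρ.ρ φ) = X ^ 2
        - C (Ideal.Quotient.mk (annL O (Hk0 O F) (HnMod θ)) (MvPolynomial.X i) : An θ) * X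
        + C ((F.ℓ i : An θ)))
    (s : ∀ q : Nat.Primes, ↥((primeLocalPlace q).inertiaSubgroupIn ℚ))
    (hZq : ∀ z : ↥(primesOf Zs), L.q (Sum.inl z) = ((z.1 : Nat.Primes) : ℕ))
    (hdZ : ∀ z : ↥(primesOf Zs), L.d (Sum.inl z) = cycloM N (s z.1 : GQ) ^ e)
    (τ : Fin r → GQ) (Aq : Fin r → ValuationSubring Qb)
    (hAq : ∀ i, (Aq i).LiesOverPrime (L.q (Sum.inr i)))
    (hτ : ∀ i, τ i ∈ (Aq i).inertiaSubgroupIn ℚ)
    (hdq : ∀ i, L.d (Sum.inr i) = cycloM N (τ i) ^ e)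
    (hLGZ : ∀ z : ↥(primesOf Zs), LGqInput p N (QL L) Sf (L.q (Sum.inl z))
      (Kq (L.q (Sum.inl z)) (mOf p n (Sum.inl z : ↥(primesOf Zs) ⊕ Fin r)))
      (primeLocalPlace z.1))
    (hLGq : ∀ i : Fin r, LGqInput p N (QL L) Sf (L.q (Sum.inr i))
      (Kq (L.q (Sum.inr i)) (mOf p n (Sum.inr i : ↥(primesOf Zs) ⊕ Fin r))) (Aq i)) :
    (∀ i : Fin r, ∃ a : An θ, ∀ w : Hn θ, actH θ a w =
        (MvPolynomial.X (Sum.inr (L.d (Sum.inr i))) : Hk O F) • w +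
        (MvPolynomial.X (Sum.inr (L.d (Sum.inr i))⁻¹) : Hk O F) • w) ∧
    (∀ z : ↥(primesOf Zs), ∀ w : Hn θ,
      actH θ (LinearMap.trace (An θ) ρ.V (ρ.ρ (s z.1 : GQ))) w =
        (MvPolynomial.X (Sum.inr (L.d (Sum.inl z))) : Hk O F) • w +
        (MvPolynomial.X (Sum.inr (L.d (Sum.inl z))⁻¹) : Hk O F) • w) := by
  constructor
  · intro i
    exact ⟨LinearMap.trace (An θ) ρ.V (ρ.ρ (τ i)),
      bridge_lvl' (p := p) hpO L hinj hsf ι ℓ hℓ hℓN e he F hF θ ρ g₁ hg₁ Sf hpS hcof hfrob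
        (Sum.inr i) (hqp _) (Aq i) (hAq i) (hLGq i) (τ i) (hτ i) _ (hdq i)⟩
  · intro z
    have hpl : (primeLocalPlace z.1).LiesOverPrime (L.q (Sum.inl z)) := by
      rw [hZq z]
      exact W56.UnipSel8.liesOverPrime_primeLocalPlace z.1
    exact bridge_lvl' (p := p) hpO L hinj hsf ι ℓ hℓ hℓN e he F hF θ ρ g₁ hg₁ Sf hpS hcof hfrob
      (Sum.inl z) (hqp _) (primeLocalPlace z.1) hpl (hLGZ z) (s z.1 : GQ) (s z.1).2 _ (hdZ z)

end Binders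

end Fermat.Agent.M43.BridgeLevel3
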