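/-
M43 (helper3) [BRIDGE ↔ (LG-q), characters] BridgePsi3: **multiplicative characters modulo a prime
`r` of prescribed order `m ∣ r - 1` and their kernels** — the dictionary between the subgroups
`ChainGrp5.Kq r m` of the Hecke side and the characters `ψ` of the (LG-q) side.

* `Kq_le_of_dvd` : `Kq r m' ≤ Kq r m` for `m ∣ m' ∣ r - 1`;
* `exists_mulChar_Kq` : for a primitive `m`-th root of unity `ζ` in a field `K` there is
  `ψ : MulChar (ZMod r) K` of order `m` with `ψ x = 1 ↔ x ∈ Kq r m`;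
* `mulChar_neg_one` : such a `ψ` is even when `(r - 1) / m` is even;
* `exists_psi0` : the same with coefficients in the cyclotomic subfield `K₀ = ℚ(ζ_m)` of `ℚ̄`,
  which is fixed pointwise by the inertia groups at `r`.
-/
import Mathlib
import Fermat.Agent.M43.ChainGrp5
import Fermat.Agent.M43.BridgeRam3

set_option autoImplicit false
set_option linter.unusedSectionVars false
set_option linter.style.haveILetI false

noncomputable section

namespace Fermat.Agent.M43.BridgePsi3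

open Fermat.Agent.M43.ChainGrp5

local notation "Qb" => AlgebraicClosure ℚ
local notation "GQ" => (AlgebraicClosure ℚ ≃ₐ[ℚ] AlgebraicClosure ℚ)

/-- `Kq r m' ≤ Kq r m` for `m ∣ m' ∣ r - 1`. -/
theorem Kq_le_of_dvd {r m m' : ℕ} (hmm : m ∣ m') (hm' : m' ∣ r - 1) (hr : 1 < r) :
    Kq r m' ≤ Kq r m := by
  intro x hx
  rw [mem_Kq] at hx ⊢
  obtain ⟨a, ha⟩ := hmm
  obtain ⟨b, hb⟩ := hm'
  have hr1 : 0 < r - 1 := Nat.sub_pos_of_lt hr
  have hm'0 : 0 < m' := Nat.pos_of_ne_zero (by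
    rintro rfl
    rw [zero_mul] at hb
    omega)
  have hm0 : 0 < m := Nat.pos_of_ne_zero (by
    rintro rfl
    rw [zero_mul] at ha
    omega)
  have h1 : (r - 1) / m' = b := by rw [hb, Nat.mul_div_cancel_left _ hm'0]
  have h2 : (r - 1) / m = a * b := by
    rw [hb, ha, mul_assoc, Nat.mul_div_cancel_left _ hm0]
  rw [h1] at hx
  rw [h2, mul_comm, pow_mul, hx, one_pow]

section Char

variable (r : ℕ) [hr : Fact r.Prime]

/-- **characters of prescribed order and kernel.** -/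
theorem exists_mulChar_Kq {m : ℕ} (hm : m ∣ r - 1) {K : Type*} [Field K] {ζ : K}
    (hζ : IsPrimitiveRoot ζ m) :
    ∃ ψ : MulChar (ZMod r) K, orderOf ψ = m ∧ ∀ x : (ZMod r)ˣ, ψ x = 1 ↔ x ∈ Kq r m := by
  classical
  have hcard : Fintype.card (ZMod r) - 1 = r - 1 := by rw [ZMod.card]
  obtain ⟨ψ, hψ⟩ := MulChar.exists_mulChar_orderOf (ZMod r) (hcard.symm ▸ hm) hζ
  refine ⟨ψ, hψ, ?_⟩
  obtain ⟨g, hg⟩ := IsCyclic.exists_generator (α := (ZMod r)ˣ)
  have hr1 : 0 < r - 1 := Nat.sub_pos_of_lt hr.out.one_lt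
  have hm0 : 0 < m := Nat.pos_of_dvd_of_pos hm hr1
  obtain ⟨c, hc⟩ := hm
  have hc' : (r - 1) / m = c := by rw [hc, Nat.mul_div_cancel_left _ hm0]
  have hordg : orderOf g = r - 1 := by
    rw [orderOf_eq_card_of_forall_mem_zpowers hg, Nat.card_eq_fintype_card, ZMod.card_units]
  -- the image of the generator
  set u : Kˣ := ψ.toUnitHom g with hu
  have hux : ∀ j : ℤ, ψ.toUnitHom (g ^ j) = u ^ j := fun j => map_zpow _ _ _
  have hψ1 : ∀ x : (ZMod r)ˣ, ψ x = 1 ↔ ψ.toUnitHom x = 1 := by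
    intro x
    rw [← MulChar.coe_toUnitHom, Units.ext_iff, Units.val_one]
  have hordu : orderOf u = m := by
    rw [← hψ]
    symm
    rw [orderOf_eq_orderOf_iff]
    intro n
    constructor
    · intro h
      apply Units.ext
      have h1 := congrArg (fun χ : MulChar (ZMod r) K => χ (g : ZMod r)) h
      simp only [MulChar.pow_apply_coe, MulChar.one_apply_coe] at h1
      rw [Units.val_pow_eq_pow_val, Units.val_one, hu, MulChar.coe_toUnitHom]
      exact h1
    · intro h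
      apply MulChar.ext
      intro x
      rw [MulChar.pow_apply_coe, MulChar.one_apply_coe]
      obtain ⟨j, rfl⟩ := Subgroup.mem_zpowers_iff.mp (hg x)
      rw [← MulChar.coe_toUnitHom, hux, ← Units.val_pow_eq_pow_val, ← zpow_natCast, ← zpow_mul,
        mul_comm, zpow_mul, zpow_natCast, h, one_zpow, Units.val_one]
  intro x
  obtain ⟨j, rfl⟩ := Subgroup.mem_zpowers_iff.mp (hg x)
  rw [hψ1, hux, mem_Kq, hc', ← orderOf_dvd_iff_zpow_eq_one, hordu, ← zpow_natCast, ← zpow_mul,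
    ← orderOf_dvd_iff_zpow_eq_one, hordg, hc]
  have hc0 : (c : ℤ) ≠ 0 := by
    intro h0
    have : c = 0 := by exact_mod_cast h0
    rw [this, mul_zero] at hc
    omega
  constructor
  · rintro ⟨t, rfl⟩
    refine ⟨t, ?_⟩
    push_cast
    ring
  · rintro ⟨t, ht⟩
    refine ⟨t, ?_⟩
    have h1 : (j - (m : ℤ) * t) * (c : ℤ) = 0 := by
      push_cast at ht
      linear_combination ht
    rcases mul_eq_zero.mp h1 with h2 | h2
    · linarith
    · exact absurd h2 hc0

/-- a character with kernel `Kq r m` is even when `(r - 1) / m` is even. -/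
theorem mulChar_neg_one {m : ℕ} (h2 : 2 ∣ (r - 1) / m) {K : Type*} [Field K]
    (ψ : MulChar (ZMod r) K) (hψ : ∀ x : (ZMod r)ˣ, ψ x = 1 ↔ x ∈ Kq r m) : ψ (-1) = 1 := by
  have h1 := (hψ (-1)).mpr (neg_one_mem_Kq h2)
  rw [Units.val_neg, Units.val_one] at h1
  exact h1

end Char

/-! ### Coefficients in the cyclotomic field -/

section Cyclo

open Fermat.Agent.M48.DirCharGal8

theorem eq_one_of_isPrimitiveRoot_one {K : Type*} [CommMonoid K] {ζ : K} {k : ℕ}
    (h : IsPrimitiveRoot ζ k) (hk : k = 1) : ζ = 1 := by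
  subst hk
  exact IsPrimitiveRoot.one_right_iff.mp h

/-- the inertia groups at a prime `r ∤ m` fix `ℚ(ζ_m)` pointwise. -/
theorem inertia_fixes_adjoin_zetaM {r : ℕ} (hr : r.Prime) (m : ℕ) [NeZero m] (hrm : ¬ r ∣ m)
    (A : ValuationSubring Qb) (hA : A.LiesOverPrime r) {σ : GQ}
    (hσ : σ ∈ A.inertiaSubgroupIn ℚ) (x : Qb) (hx : x ∈ IntermediateField.adjoin ℚ {zetaM m}) :
    σ x = x := by
  have h1 : cycloM m σ = 1 := cycloM_of_mem_inertia hr hrm A hA hσ
  have h2 : σ (zetaM m) = zetaM m := by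
    have h3 := cycloM_spec m σ
    rw [h1, Units.val_one] at h3
    by_cases hm1 : m = 1
    · have hz : zetaM m = 1 := eq_one_of_isPrimitiveRoot_one (zetaM_spec m) hm1
      rw [hz, map_one]
    · haveI : Fact (1 < m) := ⟨lt_of_le_of_ne (Nat.one_le_iff_ne_zero.mpr (NeZero.ne m))
        (Ne.symm hm1)⟩
      rw [ZMod.val_one, pow_one] at h3
      exact h3
  have hle : IntermediateField.adjoin ℚ {zetaM m} ≤
      IntermediateField.fixedField (Subgroup.zpowers σ) := by
    rw [IntermediateField.adjoin_le_iff]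
    intro y hy
    rw [Set.mem_singleton_iff] at hy
    subst hy
    rw [SetLike.mem_coe, IntermediateField.mem_fixedField_iff]
    intro τ hτ
    have h3 : τ ∈ MulAction.stabilizer GQ (zetaM m) :=
      (Subgroup.zpowers_le.mpr (MulAction.mem_stabilizer_iff.mpr h2)) hτ
    exact MulAction.mem_stabilizer_iff.mp h3
  have h5 := (IntermediateField.mem_fixedField_iff _ x).mp (hle hx) σ (Subgroup.mem_zpowers σ)
  exact h5

/-- **the character of the (LG-q) side for the subgroup `Kq r m` of the Hecke side**, with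
coefficients in `K₀ = ℚ(ζ_m) ⊆ ℚ̄`, a finite extension of `ℚ` fixed pointwise by the inertia groups
at `r`. -/
theorem exists_psi0 (r : ℕ) [hr : Fact r.Prime] {m : ℕ} (hm : m ∣ r - 1) (h2 : 2 ∣ (r - 1) / m) :
    ∃ K₀ : IntermediateField ℚ Qb, FiniteDimensional ℚ K₀ ∧
      (∀ (A : ValuationSubring Qb), A.LiesOverPrime r → ∀ σ ∈ A.inertiaSubgroupIn ℚ,
        ∀ x ∈ K₀, σ x = x) ∧
      ∃ ψ₀ : MulChar (ZMod r) ↥K₀, orderOf ψ₀ = m ∧ ψ₀ (-1) = 1 ∧
        ∀ x : (ZMod r)ˣ, ψ₀ x = 1 ↔ x ∈ Kq r m := by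
  have hr1 : 0 < r - 1 := Nat.sub_pos_of_lt hr.out.one_lt
  have hm0 : 0 < m := Nat.pos_of_dvd_of_pos hm hr1
  haveI : NeZero m := ⟨hm0.ne'⟩
  have hrm : ¬ r ∣ m := by
    intro h
    have h1 := Nat.le_of_dvd hr1 (h.trans hm)
    omega
  have hζ := zetaM_spec m
  refine ⟨IntermediateField.adjoin ℚ {zetaM m}, ?_, ?_, ?_⟩
  · exact IntermediateField.adjoin.finiteDimensional
      ((hζ.isIntegral hm0).tower_top (A := ℚ)).isAlgebraic.isIntegral
  · intro A hA σ hσ x hx
    exact inertia_fixes_adjoin_zetaM hr.out m hrm A hA hσ x hx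
  · let ζ₀ : ↥(IntermediateField.adjoin ℚ {zetaM m}) :=
      ⟨zetaM m, IntermediateField.subset_adjoin ℚ _ (Set.mem_singleton _)⟩
    have hζ₀ : IsPrimitiveRoot ζ₀ m := by
      refine IsPrimitiveRoot.of_map_of_injective
        (f := (IntermediateField.adjoin ℚ {zetaM m}).val) ?_ (Subtype.val_injective)
      exact hζ
    obtain ⟨ψ₀, hord, hker⟩ := exists_mulChar_Kq r hm hζ₀
    exact ⟨ψ₀, hord, mulChar_neg_one r h2 ψ₀ hker, hker⟩

end Cyclo

end Fermat.Agent.M43.BridgePsi3
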