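/-
M43 (helper3) [BRIDGE ↔ (LG-q), level bookkeeping] BridgeEnd3: **the level `Mb = M' * q₀` at which
(LG-q) is applied for the BRIDGE**, `M' := 2 * (N / q₀) * ∏_{q ∈ Q ∖ q₀} q`.

`N` even, `Q` a set of odd primes `q ∥ N`, `q₀ ∈ Q`, `Sf ⊇ primes(N)`.

* `Mprime N Q q₀`, `four_dvd_Mprime`, `not_dvd_Mprime`, `dvd_Mprime_mul`, `prime_dvd_Mprime_mul`;
* `LGqInput_of_level` : `BridgeLevel3.LGqInput` from the (LG-q) statement at the level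
  `Mprime N Q q₀ * q₀` for a subgroup `Hd` mapping into `K₀`.
-/
import Mathlib
import Fermat.Agent.M43.BridgeLevel3
import Fermat.Agent.M43.BridgePsi3

set_option autoImplicit false
set_option linter.unusedSectionVars false
set_option linter.style.haveILetI false

noncomputable section

namespace Fermat.Agent.M43.BridgeEnd3

open Fermat.Agent.M43.ChainGrp5 Fermat.Agent.M43.BridgeLevel3
open Fermat.Agent.M48.J1Defs8 Fermat.Agent.M48.DirCharGal8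

local notation "Qb" => AlgebraicClosure ℚ
local notation "GQ" => (AlgebraicClosure ℚ ≃ₐ[ℚ] AlgebraicClosure ℚ)

/-- the prime-to-`q₀` part of the level of (LG-q). -/
def Mprime (N : ℕ) (Q : Finset ℕ) (q₀ : ℕ) : ℕ := 2 * (N / q₀) * ∏ q ∈ Q.erase q₀, q

variable {N : ℕ} {Q : Finset ℕ} {q₀ : ℕ}

theorem Mprime_mul (hq₀N : q₀ ∣ N) :
    Mprime N Q q₀ * q₀ = 2 * (N * ∏ q ∈ Q.erase q₀, q) := by
  unfold Mprime
  have h1 : N / q₀ * q₀ = N := Nat.div_mul_cancel hq₀N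
  calc 2 * (N / q₀) * (∏ q ∈ Q.erase q₀, q) * q₀
      = 2 * ((N / q₀ * q₀) * ∏ q ∈ Q.erase q₀, q) := by ring
    _ = 2 * (N * ∏ q ∈ Q.erase q₀, q) := by rw [h1]

theorem dvd_Mprime_mul (hq₀N : q₀ ∣ N) : N * ∏ q ∈ Q.erase q₀, q ∣ Mprime N Q q₀ * q₀ := by
  rw [Mprime_mul hq₀N]
  exact Dvd.intro_left 2 rfl

theorem four_dvd_Mprime (h2N : 2 ∣ N) (hq₀N : q₀ ∣ N) (hq₀ : q₀.Prime) (hq₀2 : q₀ ≠ 2) :
    4 ∣ Mprime N Q q₀ := by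
  have h1 : 2 ∣ N / q₀ := by
    have h2 : 2 ∣ q₀ * (N / q₀) := by rw [Nat.mul_div_cancel' hq₀N]; exact h2N
    rcases (Nat.Prime.dvd_mul Nat.prime_two).mp h2 with h | h
    · exact absurd ((Nat.prime_dvd_prime_iff_eq Nat.prime_two hq₀).mp h).symm hq₀2
    · exact h
  obtain ⟨a, ha⟩ := h1
  unfold Mprime
  rw [ha]
  exact ⟨a * ∏ q ∈ Q.erase q₀, q, by ring⟩

theorem four_dvd_Mprime_mul (h2N : 2 ∣ N) (hq₀N : q₀ ∣ N) (hq₀ : q₀.Prime) (hq₀2 : q₀ ≠ 2) :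
    4 ∣ Mprime N Q q₀ * q₀ :=
  Dvd.dvd.mul_right (four_dvd_Mprime h2N hq₀N hq₀ hq₀2) _

theorem not_dvd_Mprime (hQ : ∀ q ∈ Q, q.Prime ∧ q ∣ N ∧ ¬ q ∣ N / q) (hq₀ : q₀ ∈ Q)
    (hq₀2 : q₀ ≠ 2) : ¬ q₀ ∣ Mprime N Q q₀ := by
  have hp := (hQ q₀ hq₀).1
  intro h
  unfold Mprime at h
  rcases (Nat.Prime.dvd_mul hp).mp h with h | h
  · rcases (Nat.Prime.dvd_mul hp).mp h with h | h
    · exact hq₀2 ((Nat.prime_dvd_prime_iff_eq hp Nat.prime_two).mp h)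
    · exact (hQ q₀ hq₀).2.2 h
  · obtain ⟨q, hq, hdvd⟩ := (Prime.dvd_finsetProd_iff (Nat.Prime.prime hp) _).mp h
    have hqQ := Finset.mem_of_mem_erase hq
    have := (Nat.prime_dvd_prime_iff_eq hp (hQ q hqQ).1).mp hdvd
    exact Finset.ne_of_mem_erase hq this.symm

theorem Mprime_ne_zero [NeZero N] (hQ : ∀ q ∈ Q, q.Prime ∧ q ∣ N ∧ ¬ q ∣ N / q) (hq₀ : q₀ ∈ Q) :
    Mprime N Q q₀ ≠ 0 := by
  unfold Mprime
  have h1 : N / q₀ ≠ 0 := by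
    intro h
    have := Nat.div_mul_cancel (hQ q₀ hq₀).2.1
    rw [h, zero_mul] at this
    exact NeZero.ne N this.symm
  have h2 : ∏ q ∈ Q.erase q₀, q ≠ 0 :=
    Finset.prod_ne_zero_iff.mpr fun q hq => (hQ q (Finset.mem_of_mem_erase hq)).1.ne_zero
  exact mul_ne_zero (mul_ne_zero two_ne_zero h1) h2

theorem prime_dvd_Mprime_mul (hQ : ∀ q ∈ Q, q.Prime ∧ q ∣ N ∧ ¬ q ∣ N / q) (hq₀ : q₀ ∈ Q)
    (h2N : 2 ∣ N) {q : ℕ} (hq : q.Prime) (h : q ∣ Mprime N Q q₀ * q₀) : q ∣ N := by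
  rw [Mprime_mul (hQ q₀ hq₀).2.1] at h
  rcases (Nat.Prime.dvd_mul hq).mp h with h | h
  · rw [(Nat.prime_dvd_prime_iff_eq hq Nat.prime_two).mp h]
    exact h2N
  · rcases (Nat.Prime.dvd_mul hq).mp h with h | h
    · exact h
    · obtain ⟨q', hq', hdvd⟩ := (Prime.dvd_finsetProd_iff (Nat.Prime.prime hq) _).mp h
      have hq'Q := Finset.mem_of_mem_erase hq'
      rw [(Nat.prime_dvd_prime_iff_eq hq (hQ q' hq'Q).1).mp hdvd]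
      exact (hQ q' hq'Q).2.1

/-- **`LGqInput` from the (LG-q) statement at the level `Mprime N Q q₀ * q₀`.** -/
theorem LGqInput_of_level {p : ℕ} [NeZero N] (hQ : ∀ q ∈ Q, q.Prime ∧ q ∣ N ∧ ¬ q ∣ N / q)
    (hq₀ : q₀ ∈ Q) (hq₀2 : q₀ ≠ 2) (h2N : 2 ∣ N) (Sf : Finset ℕ)
    (hSf : ∀ q : ℕ, q.Prime → q ∣ N → q ∈ Sf) (K₀ : Subgroup (ZMod q₀)ˣ)
    (Aq : ValuationSubring Qb)
    (hEND : ∀ [NeZero (Mprime N Q q₀ * q₀)], ∃ (Hd : Subgroup (ZMod (Mprime N Q q₀ * q₀))ˣ)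
      (c : ℕ), (∀ h ∈ Hd, ∀ hq : q₀ ∣ Mprime N Q q₀ * q₀, ZMod.unitsMap hq h ∈ K₀) ∧ c ≠ 0 ∧
      ∀ σ ∈ Aq.inertiaSubgroupIn ℚ, ∀ (k : ℕ) (y : J1 (Mprime N Q q₀ * q₀)), p ^ k • y = 0 →
        (∀ h ∈ Hd, dia1 Qb (Mprime N Q q₀ * q₀) h y = y) →
        c • (σ • (σ • y - dia1 Qb (Mprime N Q q₀ * q₀) (cycloM (Mprime N Q q₀ * q₀) σ) y)
          - (σ • y - dia1 Qb (Mprime N Q q₀ * q₀) (cycloM (Mprime N Q q₀ * q₀) σ) y)) = 0) :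
    LGqInput p N Q Sf q₀ K₀ Aq := by
  have hne : NeZero (Mprime N Q q₀ * q₀) :=
    ⟨mul_ne_zero (Mprime_ne_zero hQ hq₀) (hQ q₀ hq₀).1.ne_zero⟩
  obtain ⟨Hd, c, hHd, hc, hLG⟩ := hEND
  exact ⟨Mprime N Q q₀ * q₀, hne, Hd, c, dvd_Mprime_mul (hQ q₀ hq₀).2.1,
    Or.inl (four_dvd_Mprime_mul h2N (hQ q₀ hq₀).2.1 (hQ q₀ hq₀).1 hq₀2),
    fun q hq hdvd => hSf q hq (prime_dvd_Mprime_mul hQ hq₀ h2N hq hdvd), hHd, hc, hLG⟩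

/-! ### The subgroup `Hd` of a character -/

/-- the subgroup of `(ZMod M)ˣ` of the units whose class modulo `r` is killed by `ψ`. -/
def HdOf {r M : ℕ} {K : Type*} [CommMonoidWithZero K] (ψ : MulChar (ZMod r) K) (hr : r ∣ M) :
    Subgroup (ZMod M)ˣ :=
  (ψ.toUnitHom.comp (ZMod.unitsMap hr)).ker

theorem mem_HdOf {r M : ℕ} {K : Type*} [CommMonoidWithZero K] (ψ : MulChar (ZMod r) K)
    (hr : r ∣ M) (h : (ZMod M)ˣ) :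
    h ∈ HdOf ψ hr ↔ ψ ((ZMod.unitsMap hr h : (ZMod r)ˣ) : ZMod r) = 1 := by
  rw [HdOf, MonoidHom.mem_ker, MonoidHom.comp_apply, ← MulChar.coe_toUnitHom, Units.ext_iff,
    Units.val_one]

/-- `HdOf ψ` maps into `Kq r m` when `ker ψ = Kq r m'`, `m ∣ m' ∣ r - 1`. -/
theorem unitsMap_mem_Kq_of_mem_HdOf {r M m m' : ℕ} {K : Type*} [CommMonoidWithZero K]
    (ψ : MulChar (ZMod r) K) (hker : ∀ x : (ZMod r)ˣ, ψ x = 1 ↔ x ∈ Kq r m')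
    (hmm : m ∣ m') (hm' : m' ∣ r - 1) (hr1 : 1 < r) (hr : r ∣ M) :
    ∀ h ∈ HdOf ψ hr, ∀ hq : r ∣ M, ZMod.unitsMap hq h ∈ Kq r m := by
  intro h hh hq
  exact BridgePsi3.Kq_le_of_dvd hmm hm' hr1 ((hker _).mp ((mem_HdOf ψ hr h).mp hh))

end Fermat.Agent.M43.BridgeEnd3
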