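/-
M43 (helper3) [BRIDGE ↔ (LG-q), END adapter] BridgeSpine3: **from the norm-descent form of (LG-q)
(`NormConcMain4.lgq_norm`-shape) to the BRIDGE input `BridgeLevel3.LGqInput`.**

* `hLG_of_norm` : the algebra: `c • (⟨d⟩ σ σ x + x) = c • (σ x + ⟨d⟩ σ x)` gives
  `c • ((σ - 1)(σ - ⟨d⁻¹⟩) x) = 0`;
* `LGqInput_of_norm` : for `N` even, `Q` odd primes `q ∥ N`, `q₀ ∈ Q`, `m ∣ p ^ k ∣ q₀ - 1`: the
  norm-descent statement at the level `Mprime N Q q₀ * q₀` for ONE even character `ψ₀` of order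
  `p ^ k` with coefficients in a finite extension `K₀` of `ℚ` fixed by the inertia at `q₀`
  (existence: `BridgePsi3.exists_psi0`) gives `LGqInput p N Q Sf q₀ (Kq q₀ m) Aq`.
-/
import Mathlib
import Fermat.Agent.M43.BridgeEnd3
import Fermat.Agent.M43.DiaMul3
import Fermat.Agent.M43.LevelSetup5

set_option autoImplicit false
set_option linter.unusedSectionVars false
set_option linter.style.haveILetI false

noncomputable section

namespace Fermat.Agent.M43.BridgeSpine3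

open Fermat.Agent.M43.ChainGrp5 Fermat.Agent.M43.BridgeLevel3 Fermat.Agent.M43.BridgeEnd3
open Fermat.Agent.M48.J1Defs8 Fermat.Agent.M48.DirCharGal8 Fermat.Agent.M48.DiamondAut5
  Fermat.Agent.M43.DiaMul3

local notation "Qb" => AlgebraicClosure ℚ
local notation "GQ" => (AlgebraicClosure ℚ ≃ₐ[ℚ] AlgebraicClosure ℚ)

/-- **the algebra**: from the norm-descent form to the (LG-q) form. -/
theorem hLG_of_norm {M : ℕ} [NeZero M] (hM : 2 ≤ M) (σ : GQ) (d : (ZMod M)ˣ) (c : ℕ) (x : J1 M)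
    (h : c • (dia1 Qb M d (σ • (σ • x)) + x) = c • (σ • x + dia1 Qb M d (σ • x))) :
    c • (σ • (σ • x - dia1 Qb M d⁻¹ x) - (σ • x - dia1 Qb M d⁻¹ x)) = 0 := by
  have h1 := congrArg (dia1 Qb M d⁻¹) h
  rw [map_nsmul, map_nsmul, map_add, map_add, ← dia1_mul hM, ← dia1_mul hM, inv_mul_cancel,
    dia1_one_apply, dia1_one_apply] at h1
  have h2 : σ • (σ • x - dia1 Qb M d⁻¹ x) - (σ • x - dia1 Qb M d⁻¹ x)
      = (σ • (σ • x) + dia1 Qb M d⁻¹ x) - (dia1 Qb M d⁻¹ (σ • x) + σ • x) := by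
    rw [smul_sub, dia1_smul]
    abel
  rw [h2, nsmul_sub, h1, sub_self]

variable {N : ℕ} {Q : Finset ℕ} {q₀ : ℕ}

/-- **`LGqInput` from the norm-descent form of (LG-q).** -/
theorem LGqInput_of_norm {p : ℕ} [NeZero N] (hQ : ∀ q ∈ Q, q.Prime ∧ q ∣ N ∧ ¬ q ∣ N / q)
    (hq₀ : q₀ ∈ Q) (hq₀2 : q₀ ≠ 2) (h2N : 2 ∣ N) (Sf : Finset ℕ)
    (hSf : ∀ q : ℕ, q.Prime → q ∣ N → q ∈ Sf) (m k : ℕ) (hmk : m ∣ p ^ k)
    (hk : p ^ k ∣ q₀ - 1) (h2 : 2 ∣ (q₀ - 1) / p ^ k) (Aq : ValuationSubring Qb)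
    (hAq : Aq.LiesOverPrime q₀)
    (hNORM : ∀ [NeZero (Mprime N Q q₀ * q₀)] (K₀ : IntermediateField ℚ Qb)
      [FiniteDimensional ℚ K₀], (∀ σ ∈ Aq.inertiaSubgroupIn ℚ, ∀ x ∈ K₀, σ x = x) →
      ∀ ψ₀ : MulChar (ZMod q₀) ↥K₀, ψ₀ (-1) = 1 → orderOf ψ₀ = p ^ k →
      ∃ c : ℕ, c ≠ 0 ∧ ∀ σ ∈ Aq.inertiaSubgroupIn ℚ, ∀ (j : ℕ)
        (y : J1 (Mprime N Q q₀ * q₀)), p ^ j • y = 0 →
        (∀ h : (ZMod (Mprime N Q q₀ * q₀))ˣ,
          (ψ₀.ringHomComp (algebraMap ↥K₀ Qb))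
            (ZMod.castHom (Dvd.intro_left (Mprime N Q q₀) rfl : q₀ ∣ Mprime N Q q₀ * q₀)
              (ZMod q₀) (h : ZMod (Mprime N Q q₀ * q₀))) = 1 →
          dia1 Qb (Mprime N Q q₀ * q₀) h y = y) →
        c • (dia1 Qb (Mprime N Q q₀ * q₀) (cycloM (Mprime N Q q₀ * q₀) σ)⁻¹ (σ • (σ • y)) + y)
          = c • (σ • y + dia1 Qb (Mprime N Q q₀ * q₀) (cycloM (Mprime N Q q₀ * q₀) σ)⁻¹
              (σ • y))) :
    LGqInput p N Q Sf q₀ (Kq q₀ m) Aq := by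
  haveI : Fact q₀.Prime := ⟨(hQ q₀ hq₀).1⟩
  refine LGqInput_of_level hQ hq₀ hq₀2 h2N Sf hSf (Kq q₀ m) Aq ?_
  intro hne
  obtain ⟨K₀, hfd, hfix, ψ₀, hord, heven, hker⟩ := BridgePsi3.exists_psi0 q₀ hk h2
  haveI := hfd
  obtain ⟨c, hc, hN⟩ := hNORM K₀ (fun σ hσ x hx => hfix Aq hAq σ hσ x hx) ψ₀ heven hord
  have hdvd : q₀ ∣ Mprime N Q q₀ * q₀ := Dvd.intro_left (Mprime N Q q₀) rfl
  have hM2 : 2 ≤ Mprime N Q q₀ * q₀ := by
    have h4 := four_dvd_Mprime_mul (Q := Q) h2N (hQ q₀ hq₀).2.1 (hQ q₀ hq₀).1 hq₀2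
    have := Nat.le_of_dvd (Nat.pos_of_ne_zero (NeZero.ne _)) h4
    omega
  refine ⟨HdOf ψ₀ hdvd, c,
    unitsMap_mem_Kq_of_mem_HdOf ψ₀ hker hmk hk (hQ q₀ hq₀).1.one_lt hdvd, hc, ?_⟩
  intro σ hσ j y hy hinv
  have h1 := hN σ hσ j y hy (fun h hh => hinv h (by
    rw [mem_HdOf]
    have h3 : ((ZMod.unitsMap hdvd h : (ZMod q₀)ˣ) : ZMod q₀)
        = ZMod.castHom hdvd (ZMod q₀) (h : ZMod (Mprime N Q q₀ * q₀)) := by
      rw [ZMod.unitsMap_val, ZMod.castHom_apply]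
    rw [h3]
    have h4 := hh
    rw [MulChar.ringHomComp_apply] at h4
    have h5 : algebraMap ↥K₀ Qb (ψ₀ (ZMod.castHom hdvd (ZMod q₀)
        (h : ZMod (Mprime N Q q₀ * q₀)))) = algebraMap ↥K₀ Qb 1 := by rw [h4, map_one]
    exact (algebraMap ↥K₀ Qb).injective h5))
  have h6 := hLG_of_norm hM2 σ (cycloM (Mprime N Q q₀ * q₀) σ)⁻¹ c y h1
  rw [inv_inv] at h6
  exact h6

/-! ### The top frame -/

section Setup

open Fermat.Agent.M43.LevelGrp5 Fermat.Agent.M43.LevelSetup5 Fermat.Agent.W56.Defs9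

variable {p N0 : ℕ} {S : Finset ℕ} {N : ℕ} [NeZero N] {n r : ℕ}

/-- the exponent of the order of the character used at the prime `D.q a`: `1` at the bad primes,
`n + 1` at the Taylor–Wiles primes. -/
def kOf (n : ℕ) {Z : Type} {r : ℕ} : Z ⊕ Fin r → ℕ := Sum.elim (fun _ => 1) (fun _ => n + 1)

theorem two_dvd_N (D : Setup p N0 S N n r) (h2 : 2 ∣ N0) : 2 ∣ N := by
  rw [D.hN]
  exact Dvd.dvd.mul_right h2 _

theorem prime_dvd_N_mem (D : Setup p N0 S N n r) {q : ℕ} (hq : q.Prime) (h : q ∣ N) :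
    q ∈ S ∪ Finset.univ.image D.qv := by
  rw [D.hN] at h
  rcases (Nat.Prime.dvd_mul hq).mp h with h | h
  · exact Finset.mem_union_left _ (D.hNS q hq h)
  · obtain ⟨i, _, hi⟩ := (Prime.dvd_finsetProd_iff (Nat.Prime.prime hq) _).mp h
    rw [(Nat.prime_dvd_prime_iff_eq hq (D.qprime i)).mp hi]
    exact Finset.mem_union_right _ (Finset.mem_image_of_mem _ (Finset.mem_univ i))

theorem mOf_dvd_pow_kOf (p n : ℕ) {Z : Type} {r : ℕ} (a : Z ⊕ Fin r) :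
    mOf p n a ∣ p ^ kOf n a := by
  rcases a with z | i
  · simp [mOf, kOf]
  · exact pow_dvd_pow p (Nat.le_succ n)

theorem pow_kOf_dvd (D : Setup p N0 S N n r) (a : ↥(primesOf (Zs N0)) ⊕ Fin r) :
    p ^ kOf n a ∣ D.q a - 1 := by
  rcases a with z | i
  · show p ^ 1 ∣ _
    rw [pow_one]
    exact D.hZ1 _ z.2
  · exact D.qdvd i

theorem two_dvd_div_pow_kOf (D : Setup p N0 S N n r) (a : ↥(primesOf (Zs N0)) ⊕ Fin r) :
    2 ∣ (D.q a - 1) / p ^ kOf n a := by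
  obtain ⟨c, hc⟩ := pow_kOf_dvd D a
  have hodd : Odd (p ^ kOf n a) := (D.hp.odd_of_ne_two D.hp2).pow
  rw [hc, Nat.mul_div_cancel_left _ hodd.pos]
  have hqodd : Odd (D.q a) := (D.q_prime a).odd_of_ne_two (D.q_ne_two a)
  have heven : Even (D.q a - 1) := by
    obtain ⟨t, ht⟩ := hqodd
    exact ⟨t, by omega⟩
  rw [hc] at heven
  rcases (Nat.even_mul.mp heven) with h | h
  · exact absurd h (Nat.not_even_iff_odd.mpr hodd)
  · exact even_iff_two_dvd.mp h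

/-- **the BRIDGE input at the prime `D.q a` of the top frame from the norm-descent form of (LG-q)**
at the level `Mprime N (QL D.lvl) (D.q a) * D.q a`, for even characters of order `p ^ kOf n a`. -/
theorem LGqInput_setup (D : Setup p N0 S N n r) (h2N0 : 2 ∣ N0)
    (a : ↥(primesOf (Zs N0)) ⊕ Fin r)
    (hNORM : ∀ [NeZero (Mprime N (QL D.lvl) (D.q a) * D.q a)] (K₀ : IntermediateField ℚ Qb)
      [FiniteDimensional ℚ K₀], (∀ σ ∈ (D.place a).inertiaSubgroupIn ℚ, ∀ x ∈ K₀, σ x = x) →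
      ∀ ψ₀ : MulChar (ZMod (D.q a)) ↥K₀, ψ₀ (-1) = 1 → orderOf ψ₀ = p ^ kOf n a →
      ∃ c : ℕ, c ≠ 0 ∧ ∀ σ ∈ (D.place a).inertiaSubgroupIn ℚ, ∀ (j : ℕ)
        (y : J1 (Mprime N (QL D.lvl) (D.q a) * D.q a)), p ^ j • y = 0 →
        (∀ h : (ZMod (Mprime N (QL D.lvl) (D.q a) * D.q a))ˣ,
          (ψ₀.ringHomComp (algebraMap ↥K₀ Qb))
            (ZMod.castHom (Dvd.intro_left (Mprime N (QL D.lvl) (D.q a)) rfl :
                D.q a ∣ Mprime N (QL D.lvl) (D.q a) * D.q a)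
              (ZMod (D.q a)) (h : ZMod (Mprime N (QL D.lvl) (D.q a) * D.q a))) = 1 →
          dia1 Qb (Mprime N (QL D.lvl) (D.q a) * D.q a) h y = y) →
        c • (dia1 Qb (Mprime N (QL D.lvl) (D.q a) * D.q a)
              (cycloM (Mprime N (QL D.lvl) (D.q a) * D.q a) σ)⁻¹ (σ • (σ • y)) + y)
          = c • (σ • y + dia1 Qb (Mprime N (QL D.lvl) (D.q a) * D.q a)
              (cycloM (Mprime N (QL D.lvl) (D.q a) * D.q a) σ)⁻¹ (σ • y))) :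
    LGqInput p N (QL D.lvl) (S ∪ Finset.univ.image D.qv) (D.q a) (Kq (D.q a) (mOf p n a))
      (D.place a) :=
  LGqInput_of_norm (hQ_QL D.lvl D.not_dvd_div) (mem_QL D.lvl a) (D.q_ne_two a)
    (two_dvd_N D h2N0) _ (fun _ hq h => prime_dvd_N_mem D hq h) (mOf p n a) (kOf n a)
    (mOf_dvd_pow_kOf p n a) (pow_kOf_dvd D a) (two_dvd_div_pow_kOf D a) (D.place a)
    (D.place_liesOver a) @hNORM

end Setup

end Fermat.Agent.M43.BridgeSpine3
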