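/-
Programme M43, chapter (LG-q), Stage 1, block [KLIFT] (helper9), part E: **eigen-decomposition
under a cyclic automorphism.**

`L` a field, `δ : L →+* L` with `δ^[n] = id`, `ζ ∈ L` a primitive `n`-th root of unity fixed by `δ`,
`n ≠ 0` in `L`.  For `z ∈ L` the `j`-th eigen-component

  `eig δ ζ n j z = n⁻¹ ∑_{i < n} ζ^{-ij} δ^i z`

satisfies `∑_{j < n} eig j z = z` (`sum_eig`), `δ (eig j z) = ζ^j · eig j z` (`map_eig`), and if
`δ v = ζ v`, `v ≠ 0`, then `eig j z · v^{-j}` is fixed by `δ` (`coef_fixed`): `z = ∑ f_j v^j` with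
`f_j` in the fixed field.  Membership lemmas: `eig j z` stays in any additive subgroup stable under
`δ` and under multiplication by `ζ⁻¹`, `n⁻¹`.
-/
import Mathlib

set_option autoImplicit false

namespace Fermat.Agent.M43.KEigen9

open Finset

variable {L : Type*} [Field L]

/-- the `j`-th eigen-component of `z` under `δ` (eigenvalue `ζ ^ j`). -/
noncomputable def eig (δ : L →+* L) (ζ : L) (n j : ℕ) (z : L) : L :=
  (n : L)⁻¹ * ∑ i ∈ range n, (ζ⁻¹) ^ (i * j) * (δ^[i]) z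

/-- geometric sums of a non-trivial power of a primitive root vanish. -/
theorem geom_sum_pow_eq_zero {ξ : L} {n : ℕ} (hξ : IsPrimitiveRoot ξ n) {i : ℕ} (hi0 : i ≠ 0)
    (hin : i < n) : ∑ j ∈ range n, (ξ ^ i) ^ j = 0 := by
  have h1 : ξ ^ i ≠ 1 := hξ.pow_ne_one_of_pos_of_lt hi0 hin
  have h2 : (ξ ^ i - 1) * ∑ j ∈ range n, (ξ ^ i) ^ j = 0 := by
    rw [mul_geom_sum, ← pow_mul, mul_comm, pow_mul, hξ.pow_eq_one, one_pow, sub_self]
  rcases mul_eq_zero.1 h2 with h | h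
  · exact absurd (sub_eq_zero.1 h) h1
  · exact h

theorem sum_eig (δ : L →+* L) {ζ : L} {n : ℕ} (hζ : IsPrimitiveRoot ζ n) (hn : (n : L) ≠ 0)
    (z : L) : ∑ j ∈ range n, eig δ ζ n j z = z := by
  have hn0 : n ≠ 0 := by
    rintro rfl
    exact hn Nat.cast_zero
  have hξ : IsPrimitiveRoot ζ⁻¹ n := hζ.inv
  unfold eig
  rw [← mul_sum, sum_comm]
  have hinner : ∀ i ∈ range n, ∑ j ∈ range n, (ζ⁻¹) ^ (i * j) * (δ^[i]) z =
      (∑ j ∈ range n, ((ζ⁻¹) ^ i) ^ j) * (δ^[i]) z := by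
    intro i _
    rw [sum_mul]
    refine sum_congr rfl fun j _ => ?_
    rw [pow_mul]
  rw [sum_congr rfl hinner]
  rw [sum_eq_single 0]
  · simp only [pow_zero, one_pow, sum_const, card_range, nsmul_eq_mul, mul_one,
      Function.iterate_zero, id_eq]
    rw [← mul_assoc, inv_mul_cancel₀ hn, one_mul]
  · intro i hi hi0
    rw [geom_sum_pow_eq_zero hξ hi0 (mem_range.1 hi), zero_mul]
  · intro h0
    exact absurd (mem_range.2 (Nat.pos_of_ne_zero hn0)) h0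

theorem map_eig (δ : L →+* L) {ζ : L} {n : ℕ} (hζ : IsPrimitiveRoot ζ n) (hn0 : n ≠ 0)
    (hδζ : δ ζ = ζ) (hδn : ∀ x, (δ^[n]) x = x) (j : ℕ) (z : L) :
    δ (eig δ ζ n j z) = ζ ^ j * eig δ ζ n j z := by
  have hζ0 : ζ ≠ 0 := hζ.ne_zero hn0
  unfold eig
  rw [map_mul, map_inv₀, map_natCast, map_sum]
  have hterm : ∀ i ∈ range n, δ ((ζ⁻¹) ^ (i * j) * (δ^[i]) z) =
      ζ ^ j * ((ζ⁻¹) ^ ((i + 1) * j) * (δ^[i + 1]) z) := by
    intro i _
    rw [map_mul, map_pow, map_inv₀, hδζ, Function.iterate_succ_apply', add_mul, one_mul, pow_add,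
      ← mul_assoc, ← mul_assoc]
    congr 1
    rw [mul_comm (ζ ^ j), mul_assoc, inv_pow ζ j, mul_inv_cancel₀ (pow_ne_zero j hζ0), mul_one]
  rw [sum_congr rfl hterm, ← mul_sum]
  have hshift : ∑ i ∈ range n, (ζ⁻¹) ^ ((i + 1) * j) * (δ^[i + 1]) z =
      ∑ i ∈ range n, (ζ⁻¹) ^ (i * j) * (δ^[i]) z := by
    have h1 := sum_range_succ (fun i => (ζ⁻¹) ^ (i * j) * (δ^[i]) z) n
    have h2 := sum_range_succ' (fun i => (ζ⁻¹) ^ (i * j) * (δ^[i]) z) n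
    have hlast : (ζ⁻¹) ^ (n * j) * (δ^[n]) z = (ζ⁻¹) ^ (0 * j) * (δ^[0]) z := by
      rw [hδn, pow_mul, hζ.inv.pow_eq_one, one_pow, zero_mul, pow_zero, Function.iterate_zero,
        id_eq]
    rw [h1, hlast] at h2
    exact (add_right_cancel h2).symm
  rw [hshift]
  ring

theorem coef_fixed (δ : L →+* L) {ζ : L} {n : ℕ} (hζ : IsPrimitiveRoot ζ n) (hn0 : n ≠ 0)
    (hδζ : δ ζ = ζ) (hδn : ∀ x, (δ^[n]) x = x) {v : L} (hv : δ v = ζ * v) (j : ℕ) (z : L) :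
    δ (eig δ ζ n j z * (v⁻¹) ^ j) = eig δ ζ n j z * (v⁻¹) ^ j := by
  have hζ0 : ζ ≠ 0 := hζ.ne_zero hn0
  rw [map_mul, map_eig δ hζ hn0 hδζ hδn, map_pow, map_inv₀, hv, mul_inv, mul_pow, inv_pow ζ j]
  have : ζ ^ j * eig δ ζ n j z * ((ζ ^ j)⁻¹ * v⁻¹ ^ j) =
      (ζ ^ j * (ζ ^ j)⁻¹) * (eig δ ζ n j z * v⁻¹ ^ j) := by ring
  rw [this, mul_inv_cancel₀ (pow_ne_zero j hζ0), one_mul]

/-- reconstruction: `z = ∑ (eig j z · v^{-j}) · v^j`. -/
theorem sum_coef_mul_pow (δ : L →+* L) {ζ : L} {n : ℕ} (hζ : IsPrimitiveRoot ζ n)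
    (hn : (n : L) ≠ 0) {v : L} (hv0 : v ≠ 0) (z : L) :
    ∑ j ∈ range n, (eig δ ζ n j z * (v⁻¹) ^ j) * v ^ j = z := by
  have h : ∀ j ∈ range n, (eig δ ζ n j z * (v⁻¹) ^ j) * v ^ j = eig δ ζ n j z := by
    intro j _
    rw [mul_assoc, inv_pow, inv_mul_cancel₀ (pow_ne_zero j hv0), mul_one]
  rw [sum_congr rfl h, sum_eig δ hζ hn]

/-- iterates of `δ` preserve a `δ`-stable set. -/
theorem iterate_mem {δ : L →+* L} {S : Set L} (hδ : ∀ x ∈ S, δ x ∈ S) {x : L} (hx : x ∈ S)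
    (i : ℕ) : (δ^[i]) x ∈ S := by
  induction i with
  | zero => simpa using hx
  | succ i ih =>
    rw [Function.iterate_succ_apply']
    exact hδ _ ih

/-- the eigen-components stay in an additive subgroup `M` stable under `δ` and under
multiplication by `ζ⁻¹` and `n⁻¹`. -/
theorem eig_mem {δ : L →+* L} {ζ : L} {n : ℕ} (M : AddSubgroup L)
    (hδ : ∀ x ∈ M, δ x ∈ M) (hζM : ∀ x ∈ M, ζ⁻¹ * x ∈ M) (hnM : ∀ x ∈ M, (n : L)⁻¹ * x ∈ M)
    {z : L} (hz : z ∈ M) (j : ℕ) : eig δ ζ n j z ∈ M := by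
  unfold eig
  apply hnM
  refine M.sum_mem fun i _ => ?_
  have h1 : (δ^[i]) z ∈ M := iterate_mem (S := (M : Set L)) hδ hz i
  have h2 : ∀ k : ℕ, (ζ⁻¹) ^ k * (δ^[i]) z ∈ M := by
    intro k
    induction k with
    | zero => simpa using h1
    | succ k ih =>
      rw [pow_succ', mul_assoc]
      exact hζM _ ih
  exact h2 _

end Fermat.Agent.M43.KEigen9
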