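/-
Programme M43, chapter (LG-q), Stage 1, block [KLIFT] (helper9), part L: **the local set-up of a
cyclic Kummer extension of charts.**

`B ⊂ F` a chart (integrally closed `R`-subalgebra of the field `F`), `F' / F` a field extension with
a cyclic automorphism `δ` of order dividing `n` whose fixed field is `F`, `B' ⊂ F'` the integral
closure of `B` (`KSetup`: only the root-closed forms of integral closedness are recorded),
`n` invertible in `R`.

* `δB` : the restriction of `δ` to `B'`; `iterate_mod` : periodicity;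
* `exists_avoid` : for a maximal ideal `𝔪'` of `B'` and `y ∈ 𝔪'` there is `d₀ ∉ 𝔪'` such that ALL
  conjugates of `d₀ y` lie in `𝔪'`;
* `conjSub 𝔪'` : the additive subgroup of the elements of `B'` all of whose conjugates lie in `𝔪'`;
  it contains the eigen-components of its elements (`eig_mem_conjSub`);
* `exists_coef` : the eigen-component `eig j z` is `φ · v ^ j` with `φ ∈ F`, if `δ v = ζ v`.
-/
import Mathlib
import Fermat.Agent.M43.KEigen9

set_option autoImplicit false
set_option linter.unusedSectionVars false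
set_option linter.unusedVariables false

namespace Fermat.Agent.M43.KLocal9

open Fermat.Agent.M43.KEigen9

variable {R F F' : Type*} [CommRing R] [Field F] [Field F'] [Algebra R F] [Algebra F F']
  [Algebra R F'] [IsScalarTower R F F']

/-- The local set-up: `B' ⊂ F'` is "the integral closure of `B ⊂ F`" and `δ` is a cyclic
automorphism of `F'` over `F` of order dividing `n`, with fixed field `F`. -/
structure KSetup (B : Subalgebra R F) (B' : Subalgebra R F') (δ : F' →+* F') (n : ℕ) : Prop where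
  map_mem : ∀ x ∈ B, algebraMap F F' x ∈ B'
  mem_of_map : ∀ x : F, algebraMap F F' x ∈ B' → x ∈ B
  root_mem : ∀ (x : F) (k : ℕ), 0 < k → x ^ k ∈ B → x ∈ B
  root_mem' : ∀ (z : F') (k : ℕ), 0 < k → z ^ k ∈ B' → z ∈ B'
  δ_mem : ∀ z ∈ B', δ z ∈ B'
  δ_fix : ∀ x : F, δ (algebraMap F F' x) = algebraMap F F' x
  fix_δ : ∀ z : F', δ z = z → ∃ x : F, algebraMap F F' x = z
  δ_pow : ∀ z : F', (δ^[n]) z = z
  n_pos : 0 < n
  ninv : ∃ c : R, (n : R) * c = 1

variable {B : Subalgebra R F} {B' : Subalgebra R F'} {δ : F' →+* F'} {n : ℕ}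

namespace KSetup

variable (S : KSetup B B' δ n)

include S

theorem δ_algebraMap (r : R) : δ (algebraMap R F' r) = algebraMap R F' r := by
  rw [IsScalarTower.algebraMap_apply R F F', S.δ_fix]

theorem n_ne_zero : (n : F') ≠ 0 := by
  obtain ⟨c, hc⟩ := S.ninv
  intro h0
  have h1 : algebraMap R F' ((n : R) * c) = 1 := by rw [hc, map_one]
  rw [map_mul, map_natCast, h0, zero_mul] at h1
  exact zero_ne_one h1

theorem ninv_eq : ∃ c : R, (n : F')⁻¹ = algebraMap R F' c := by
  obtain ⟨c, hc⟩ := S.ninv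
  refine ⟨c, ?_⟩
  have h1 : (n : F') * algebraMap R F' c = 1 := by
    rw [← map_natCast (algebraMap R F'), ← map_mul, hc, map_one]
  exact inv_eq_of_mul_eq_one_right h1

/-- periodicity of the iterates. -/
theorem iterate_mod (i : ℕ) (z : F') : (δ^[i]) z = (δ^[i % n]) z := by
  have hq : ∀ q : ℕ, ∀ x : F', (δ^[n * q]) x = x := by
    intro q
    induction q with
    | zero => intro x; simp
    | succ q ih =>
      intro x
      rw [Nat.mul_succ, Function.iterate_add_apply, S.δ_pow, ih]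
  conv_lhs => rw [← Nat.div_add_mod i n]
  rw [Function.iterate_add_apply, hq]

theorem iterate_mem {z : F'} (hz : z ∈ B') (i : ℕ) : (δ^[i]) z ∈ B' :=
  KEigen9.iterate_mem (S := (B' : Set F')) S.δ_mem hz i

theorem iterate_algebraMap (x : F) (i : ℕ) : (δ^[i]) (algebraMap F F' x) = algebraMap F F' x :=
  Function.iterate_fixed (S.δ_fix x) i

end KSetup

/-! ### ideals of `B'` seen inside `F'` -/

/-- membership of an element of `F'` in an ideal of `B'`. -/
def InI (I : Ideal B') (z : F') : Prop := ∃ h : z ∈ B', (⟨z, h⟩ : B') ∈ I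

theorem inI_coe {I : Ideal B'} {b : B'} : InI I (b : F') ↔ b ∈ I :=
  ⟨fun ⟨_, h⟩ => h, fun h => ⟨b.2, h⟩⟩

theorem InI.mem {I : Ideal B'} {z : F'} (h : InI I z) : z ∈ B' := h.1

theorem InI.add {I : Ideal B'} {z z' : F'} (h : InI I z) (h' : InI I z') : InI I (z + z') := by
  obtain ⟨h1, h2⟩ := h
  obtain ⟨h1', h2'⟩ := h'
  exact ⟨B'.add_mem h1 h1', I.add_mem h2 h2'⟩

theorem InI.zero {I : Ideal B'} : InI I (0 : F') := ⟨B'.zero_mem, I.zero_mem⟩

theorem InI.neg {I : Ideal B'} {z : F'} (h : InI I z) : InI I (-z) := by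
  obtain ⟨h1, h2⟩ := h
  exact ⟨B'.neg_mem h1, I.neg_mem h2⟩

theorem InI.mul_left {I : Ideal B'} {z : F'} (h : InI I z) {c : F'} (hc : c ∈ B') :
    InI I (c * z) := by
  obtain ⟨h1, h2⟩ := h
  exact ⟨B'.mul_mem hc h1, I.mul_mem_left ⟨c, hc⟩ h2⟩

theorem InI.mul_right {I : Ideal B'} {z : F'} (h : InI I z) {c : F'} (hc : c ∈ B') :
    InI I (z * c) := by
  rw [mul_comm]
  exact h.mul_left hc

theorem inI_or_of_mul {I : Ideal B'} [hI : I.IsPrime] {z z' : F'} (hz : z ∈ B') (hz' : z' ∈ B')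
    (h : InI I (z * z')) : InI I z ∨ InI I z' := by
  obtain ⟨_, h2⟩ := h
  have : (⟨z, hz⟩ : B') * ⟨z', hz'⟩ ∈ I := h2
  rcases hI.mem_or_mem this with h | h
  · exact Or.inl ⟨hz, h⟩
  · exact Or.inr ⟨hz', h⟩

theorem inI_of_pow {I : Ideal B'} [hI : I.IsPrime] {z : F'} (hz : z ∈ B') {k : ℕ}
    (h : InI I (z ^ k)) : InI I z := by
  obtain ⟨_, h2⟩ := h
  have : (⟨z, hz⟩ : B') ^ k ∈ I := h2
  exact ⟨hz, hI.mem_of_pow_mem k this⟩

theorem not_inI_one {I : Ideal B'} [hI : I.IsPrime] : ¬ InI I (1 : F') := by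
  rintro ⟨_, h2⟩
  exact hI.ne_top ((Ideal.eq_top_iff_one I).mpr h2)

/-! ### the restriction of `δ` to `B'` -/

/-- `δ` restricted to `B'`. -/
def δB (S : KSetup B B' δ n) : B' →+* B' where
  toFun z := ⟨δ z, S.δ_mem z z.2⟩
  map_one' := Subtype.ext (map_one δ)
  map_mul' x y := Subtype.ext (map_mul δ _ _)
  map_zero' := Subtype.ext (map_zero δ)
  map_add' x y := Subtype.ext (map_add δ _ _)

theorem coe_δB (S : KSetup B B' δ n) (z : B') : ((δB S z : B') : F') = δ z := rfl

theorem coe_δB_iterate (S : KSetup B B' δ n) (i : ℕ) (z : B') :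
    (((δB S)^[i] z : B') : F') = (δ^[i]) (z : F') := by
  induction i with
  | zero => rfl
  | succ i ih =>
    rw [Function.iterate_succ_apply', Function.iterate_succ_apply', coe_δB, ih]

theorem δB_iterate_surjective (S : KSetup B B' δ n) (i : ℕ) :
    Function.Surjective ((δB S)^[i]) := by
  have hn : ∀ z : B', ((δB S)^[n]) z = z := by
    intro z
    apply Subtype.ext
    rw [coe_δB_iterate, S.δ_pow]
  have hsurj : Function.Surjective (δB S) := by
    intro z
    obtain ⟨m, hm⟩ : ∃ m, n = m + 1 := ⟨n - 1, by have := S.n_pos; omega⟩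
    refine ⟨((δB S)^[m]) z, ?_⟩
    have h1 : δB S (((δB S)^[m]) z) = ((δB S)^[m + 1]) z :=
      (Function.iterate_succ_apply' (δB S) m z).symm
    rw [h1, ← hm, hn]
  exact hsurj.iterate i

/-- the iterate `δ^[i]` on `B'` as a ring homomorphism. -/
def δBpow (S : KSetup B B' δ n) (i : ℕ) : B' →+* B' := (δB S) ^ i

theorem δBpow_apply (S : KSetup B B' δ n) (i : ℕ) (z : B') : δBpow S i z = ((δB S)^[i]) z := by
  unfold δBpow
  induction i generalizing z with
  | zero => rfl
  | succ i ih =>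
    rw [pow_succ, RingHom.mul_def, RingHom.comp_apply, ih, Function.iterate_succ_apply]

/-- **Avoidance**: for `y ∈ 𝔪'` there is `d₀ ∉ 𝔪'` such that all conjugates of `d₀ y` lie in
`𝔪'`. -/
theorem exists_avoid (S : KSetup B B' δ n) (𝔪' : Ideal B') [h𝔪' : 𝔪'.IsMaximal] {y : B'}
    (hy : y ∈ 𝔪') :
    ∃ d₀ : B', d₀ ∉ 𝔪' ∧ ∀ i : ℕ, ((δB S)^[i]) (d₀ * y) ∈ 𝔪' := by
  classical
  have hprime : 𝔪'.IsPrime := h𝔪'.isPrime
  -- one index at a time
  have hone : ∀ i : ℕ, ∃ c : B', c ∉ 𝔪' ∧ ((δB S)^[i]) (c * y) ∈ 𝔪' := by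
    intro i
    by_cases hiy : ((δB S)^[i]) y ∈ 𝔪'
    · refine ⟨1, fun h1 => hprime.ne_top ((Ideal.eq_top_iff_one 𝔪').mpr h1), ?_⟩
      rw [one_mul]
      exact hiy
    · -- the conjugate maximal ideal
      set 𝔫 : Ideal B' := 𝔪'.comap (δBpow S i) with h𝔫
      have hsurj : Function.Surjective (δBpow S i) := by
        intro z
        obtain ⟨x, hx⟩ := δB_iterate_surjective S i z
        exact ⟨x, by rw [δBpow_apply, hx]⟩
      have h𝔫max : 𝔫.IsMaximal := Ideal.comap_isMaximal_of_surjective (δBpow S i) hsurj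
      have hne : ¬ 𝔫 ≤ 𝔪' := by
        intro hle
        have heq : 𝔫 = 𝔪' := h𝔫max.eq_of_le hprime.ne_top hle
        apply hiy
        have : y ∈ 𝔫 := by rw [heq]; exact hy
        rw [h𝔫, Ideal.mem_comap, δBpow_apply] at this
        exact this
      obtain ⟨c, hc𝔫, hc𝔪⟩ := SetLike.not_le_iff_exists.1 hne
      refine ⟨c, hc𝔪, ?_⟩
      rw [h𝔫, Ideal.mem_comap, δBpow_apply] at hc𝔫
      have : ((δB S)^[i]) (c * y) = ((δB S)^[i]) c * ((δB S)^[i]) y := by
        rw [← δBpow_apply, ← δBpow_apply, ← δBpow_apply, map_mul]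
      rw [this]
      exact 𝔪'.mul_mem_right _ hc𝔫
  choose c hc1 hc2 using hone
  refine ⟨∏ k ∈ Finset.range n, c k, ?_, ?_⟩
  · intro hmem
    obtain ⟨k, _, hk⟩ := (hprime.prod_mem_iff).1 hmem
    exact hc1 k hk
  · intro i
    -- reduce to `i % n`
    have hper : ((δB S)^[i]) ((∏ k ∈ Finset.range n, c k) * y) =
        ((δB S)^[i % n]) ((∏ k ∈ Finset.range n, c k) * y) := by
      apply Subtype.ext
      rw [coe_δB_iterate, coe_δB_iterate, S.iterate_mod]
    rw [hper]
    have hin : i % n ∈ Finset.range n := Finset.mem_range.2 (Nat.mod_lt _ S.n_pos)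
    rw [← Finset.mul_prod_erase _ _ hin, mul_comm (c (i % n)), mul_assoc]
    have : ((δB S)^[i % n]) ((∏ k ∈ (Finset.range n).erase (i % n), c k) * (c (i % n) * y)) =
        ((δB S)^[i % n]) (∏ k ∈ (Finset.range n).erase (i % n), c k) *
          ((δB S)^[i % n]) (c (i % n) * y) := by
      rw [← δBpow_apply, ← δBpow_apply, ← δBpow_apply, map_mul]
    rw [this]
    exact 𝔪'.mul_mem_left _ (hc2 (i % n))

/-! ### the subgroup of the elements all of whose conjugates lie in `𝔪'` -/

/-- elements of `B'` all of whose conjugates lie in the ideal `I`. -/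
def conjSub (δ : F' →+* F') (I : Ideal B') : AddSubgroup F' where
  carrier := {z | ∀ i : ℕ, InI I ((δ^[i]) z)}
  zero_mem' := fun i => by
    have : (δ^[i]) (0 : F') = 0 := Function.iterate_fixed (map_zero δ) i
    rw [this]; exact InI.zero
  add_mem' := by
    intro a b ha hb i
    have : (δ^[i]) (a + b) = (δ^[i]) a + (δ^[i]) b := by
      induction i with
      | zero => rfl
      | succ i ih => rw [Function.iterate_succ_apply', ih, map_add,
          ← Function.iterate_succ_apply' δ, ← Function.iterate_succ_apply' δ]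
    rw [this]; exact (ha i).add (hb i)
  neg_mem' := by
    intro a ha i
    have : (δ^[i]) (-a) = -(δ^[i]) a := by
      induction i with
      | zero => rfl
      | succ i ih => rw [Function.iterate_succ_apply', ih, map_neg,
          ← Function.iterate_succ_apply' δ]
    rw [this]; exact (ha i).neg

theorem mem_conjSub {I : Ideal B'} {z : F'} :
    z ∈ conjSub δ I ↔ ∀ i : ℕ, InI I ((δ^[i]) z) := Iff.rfl

theorem conjSub_inI {I : Ideal B'} {z : F'} (hz : z ∈ conjSub δ I) : InI I z := hz 0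

theorem δ_mem_conjSub {I : Ideal B'} {z : F'} (hz : z ∈ conjSub δ I) : δ z ∈ conjSub δ I := by
  intro i
  rw [← Function.iterate_succ_apply]
  exact hz (i + 1)

theorem algebraMap_mul_mem_conjSub (S : KSetup B B' δ n) {I : Ideal B'} (r : R) {z : F'}
    (hz : z ∈ conjSub δ I) : algebraMap R F' r * z ∈ conjSub δ I := by
  intro i
  have : (δ^[i]) (algebraMap R F' r * z) = algebraMap R F' r * (δ^[i]) z := by
    induction i with
    | zero => rfl
    | succ i ih => rw [Function.iterate_succ_apply', ih, map_mul, S.δ_algebraMap,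
        ← Function.iterate_succ_apply' δ]
  rw [this]
  exact (hz i).mul_left (B'.algebraMap_mem r)

theorem mem_conjSub_of_iterate (S : KSetup B B' δ n) {I : Ideal B'} {z : B'}
    (h : ∀ i : ℕ, ((δB S)^[i]) z ∈ I) : (z : F') ∈ conjSub δ I := by
  intro i
  rw [← coe_δB_iterate S]
  exact inI_coe.2 (h i)

/-- the eigen-components of an element of `conjSub` stay in `conjSub`. -/
theorem eig_mem_conjSub (S : KSetup B B' δ n) {I : Ideal B'} {ζ : R}
    (hζ : IsPrimitiveRoot (algebraMap R F' ζ) n) {z : F'} (hz : z ∈ conjSub δ I) (j : ℕ) :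
    eig δ (algebraMap R F' ζ) n j z ∈ conjSub δ I := by
  refine eig_mem (conjSub δ I) (fun x hx => δ_mem_conjSub hx) ?_ ?_ hz j
  · intro x hx
    have hinv : (algebraMap R F' ζ)⁻¹ = algebraMap R F' (ζ ^ (n - 1)) := by
      have h1 : algebraMap R F' ζ * algebraMap R F' (ζ ^ (n - 1)) = 1 := by
        rw [map_pow, ← pow_succ', Nat.sub_add_cancel S.n_pos, hζ.pow_eq_one]
      exact inv_eq_of_mul_eq_one_right h1
    rw [hinv]
    exact algebraMap_mul_mem_conjSub S _ hx
  · intro x hx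
    obtain ⟨c, hc⟩ := S.ninv_eq
    rw [hc]
    exact algebraMap_mul_mem_conjSub S _ hx

/-- the eigen-components of an element of `B'` stay in `B'`. -/
theorem eig_mem_B' (S : KSetup B B' δ n) {ζ : R}
    (hζ : IsPrimitiveRoot (algebraMap R F' ζ) n) {z : F'} (hz : z ∈ B') (j : ℕ) :
    eig δ (algebraMap R F' ζ) n j z ∈ B' := by
  have h : z ∈ conjSub δ (⊤ : Ideal B') := fun i => ⟨S.iterate_mem hz i, Submodule.mem_top⟩
  exact (conjSub_inI (eig_mem_conjSub S hζ h j)).mem

/-- **the coefficient**: `eig j z = φ · v ^ j` with `φ ∈ F`. -/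
theorem exists_coef (S : KSetup B B' δ n) {ζ : R} (hζ : IsPrimitiveRoot (algebraMap R F' ζ) n)
    {v : F'} (hv0 : v ≠ 0) (hv : δ v = algebraMap R F' ζ * v) (j : ℕ) (z : F') :
    ∃ φ : F, algebraMap F F' φ * v ^ j = eig δ (algebraMap R F' ζ) n j z := by
  obtain ⟨φ, hφ⟩ := S.fix_δ _ (coef_fixed δ hζ S.n_pos.ne' (S.δ_algebraMap ζ) S.δ_pow hv j z)
  refine ⟨φ, ?_⟩
  rw [hφ, mul_assoc, inv_pow, inv_mul_cancel₀ (pow_ne_zero j hv0), mul_one]

end Fermat.Agent.M43.KLocal9
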