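/-
Programme M43, chapter (LG-q), Stage 1, block [KLIFT] (helper9), part S: **smooth points lift
along a Kummer extension which is étale at the point.**

Setting of `KLocal9.KSetup` (`B' ⊂ F'` the integral closure of the chart `B ⊂ F`, `δ` a cyclic
automorphism of order dividing `n` with fixed field `F`, `n` invertible).  Let `𝔪'` be a maximal
ideal of `B'` over the prime `𝔪` of `B`, at which `B` is smooth (`NodalCL13.SmoothAt π B 𝔪`:
`𝔪 B_𝔪 = (π, s)`), and let `v ∈ F'` be a LOCAL KUMMER GENERATOR at `𝔪`: `δ v = ζ v`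
(`ζ ∈ R` a primitive `n`-th root of unity) and `v ^ n = w` with `w = a / d`, `a, d ∈ B ∖ 𝔪`
(a unit of `B_𝔪`).  Then `B'` is smooth at `𝔪'` with the SAME parameter: `𝔪' B'_𝔪' = (π, s)`
(`smoothAt_lift`).

Proof: for `y ∈ 𝔪'` choose `d₀ ∉ 𝔪'` such that all conjugates of `z = d₀ y` lie in `𝔪'`
(`KLocal9.exists_avoid`); the eigen-components `g_j = φ_j v ^ j` of `z` have all conjugates in
`𝔪'`; `ψ_j = φ_j a ^ j ∈ F` has `ψ_j ^ n ∈ 𝔪`, hence `ψ_j ∈ 𝔪 ⊆ (π, s) B_𝔪`, and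
`(a d) ^ j g_j = ψ_j (d v) ^ j` with `d v ∈ B'`.
-/
import Mathlib
import Fermat.Agent.M43.KLocal9
import Fermat.Agent.ES.N34.NodalCL13

set_option autoImplicit false
set_option linter.unusedSectionVars false
set_option linter.unusedVariables false

namespace Fermat.Agent.M43.KSmooth9

open Fermat.Agent.M43.KEigen9 Fermat.Agent.M43.KLocal9 Fermat.Agent.ES.N34.NodalCore13
  Fermat.Agent.ES.N34.NodalCL13

variable {R F F' : Type*} [CommRing R] [Field F] [Field F'] [Algebra R F] [Algebra F F']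
  [Algebra R F'] [IsScalarTower R F F']
variable {B : Subalgebra R F} {B' : Subalgebra R F'} {δ : F' →+* F'} {n : ℕ}

/-- `𝔪'` (an ideal of `B'`) lies over `𝔪` (an ideal of `B`). -/
def LiesOver (𝔪 : Ideal B) (𝔪' : Ideal B') : Prop :=
  ∀ b : B, InI 𝔪' (algebraMap F F' (b : F)) ↔ b ∈ 𝔪

/-- the inclusion `B → B'`. -/
def incl (S : KSetup B B' δ n) : B →+* B' where
  toFun b := ⟨algebraMap F F' (b : F), S.map_mem _ b.2⟩
  map_one' := Subtype.ext (by simp)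
  map_mul' x y := Subtype.ext (by simp)
  map_zero' := Subtype.ext (by simp)
  map_add' x y := Subtype.ext (by simp)

theorem coe_incl (S : KSetup B B' δ n) (b : B) : ((incl S b : B') : F') = algebraMap F F' (b : F) :=
  rfl

theorem incl_mem_iff (S : KSetup B B' δ n) {𝔪 : Ideal B} {𝔪' : Ideal B'} (h : LiesOver 𝔪 𝔪')
    (b : B) : incl S b ∈ 𝔪' ↔ b ∈ 𝔪 := by
  rw [← h b, ← inI_coe (I := 𝔪') (b := incl S b), coe_incl]

theorem incl_algebraMap (S : KSetup B B' δ n) (r : R) :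
    incl S (algebraMap R B r) = algebraMap R B' r := by
  apply Subtype.ext
  rw [coe_incl]
  show algebraMap F F' (algebraMap R F r) = algebraMap R F' r
  rw [← IsScalarTower.algebraMap_apply R F F']

/-- the comap of a maximal ideal of `B'` lies under it. -/
theorem liesOver_comap (S : KSetup B B' δ n) (𝔪' : Ideal B') :
    LiesOver (𝔪'.comap (incl S)) 𝔪' := by
  intro b
  rw [Ideal.mem_comap, ← inI_coe (I := 𝔪') (b := incl S b), coe_incl]

/-- the target set `π B' + s B'` inside `F'`. -/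
def PiS (B' : Subalgebra R F') (π : R) (s : F') (x : F') : Prop :=
  ∃ β ∈ B', ∃ γ ∈ B', x = algebraMap R F' π * β + s * γ

theorem PiS.add {π : R} {s x x' : F'} (h : PiS B' π s x) (h' : PiS B' π s x') :
    PiS B' π s (x + x') := by
  obtain ⟨β, hβ, γ, hγ, rfl⟩ := h
  obtain ⟨β', hβ', γ', hγ', rfl⟩ := h'
  exact ⟨β + β', B'.add_mem hβ hβ', γ + γ', B'.add_mem hγ hγ', by ring⟩

theorem PiS.mul_left {π : R} {s x : F'} (h : PiS B' π s x) {c : F'} (hc : c ∈ B') :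
    PiS B' π s (c * x) := by
  obtain ⟨β, hβ, γ, hγ, rfl⟩ := h
  exact ⟨c * β, B'.mul_mem hc hβ, c * γ, B'.mul_mem hc hγ, by ring⟩

theorem PiS.zero {π : R} {s : F'} : PiS B' π s 0 :=
  ⟨0, B'.zero_mem, 0, B'.zero_mem, by ring⟩

/-- summing local statements with denominators outside a prime. -/
theorem exists_denominator_sum (S : KSetup B B' δ n) (𝔪 : Ideal B) [h𝔪 : 𝔪.IsPrime]
    (P : F' → Prop) (hP0 : P 0) (hPadd : ∀ x x', P x → P x' → P (x + x'))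
    (hPmul : ∀ x, P x → ∀ c ∈ B', P (c * x))
    (g : ℕ → F') (T : Finset ℕ)
    (h : ∀ j ∈ T, ∃ D : B, D ∉ 𝔪 ∧ P (algebraMap F F' (D : F) * g j)) :
    ∃ D : B, D ∉ 𝔪 ∧ P (algebraMap F F' (D : F) * ∑ j ∈ T, g j) := by
  classical
  induction T using Finset.induction_on with
  | empty =>
    refine ⟨1, fun h1 => h𝔪.ne_top ((Ideal.eq_top_iff_one 𝔪).mpr h1), ?_⟩
    rw [Finset.sum_empty, mul_zero]
    exact hP0
  | insert j T hj ih =>
    obtain ⟨D₁, hD₁, h₁⟩ := h j (Finset.mem_insert_self j T)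
    obtain ⟨D₂, hD₂, h₂⟩ := ih fun k hk => h k (Finset.mem_insert_of_mem hk)
    refine ⟨D₁ * D₂, fun hh => (h𝔪.mem_or_mem hh).elim hD₁ hD₂, ?_⟩
    rw [Finset.sum_insert hj]
    have e : algebraMap F F' ((D₁ * D₂ : B) : F) * (g j + ∑ k ∈ T, g k) =
        algebraMap F F' (D₂ : F) * (algebraMap F F' (D₁ : F) * g j) +
        algebraMap F F' (D₁ : F) * (algebraMap F F' (D₂ : F) * ∑ k ∈ T, g k) := by
      have h0 : ((D₁ * D₂ : B) : F) = (D₁ : F) * (D₂ : F) := rfl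
      rw [h0, map_mul]
      ring
    rw [e]
    exact hPadd _ _ (hPmul _ h₁ _ (S.map_mem _ D₂.2)) (hPmul _ h₂ _ (S.map_mem _ D₁.2))

/-- a unit `w = a / d` of `B_𝔪` is nonzero. -/
theorem ne_zero_of_unit {𝔪 : Ideal B} {w : F} {a d : B} (ha : a ∉ 𝔪)
    (hw : w * (d : F) = (a : F)) : w ≠ 0 := by
  rintro rfl
  rw [zero_mul] at hw
  apply ha
  have : a = 0 := Subtype.ext hw.symm
  rw [this]
  exact 𝔪.zero_mem

/-- **the local Kummer generator, cleared of its denominator, lies in `B'`.** -/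
theorem dv_mem (S : KSetup B B' δ n) {v : F'} {w : F} {a d : B}
    (hvw : v ^ n = algebraMap F F' w) (hw : w * (d : F) = (a : F)) :
    algebraMap F F' (d : F) * v ∈ B' := by
  apply S.root_mem' _ n S.n_pos
  obtain ⟨m, hm⟩ : ∃ m, n = m + 1 := ⟨n - 1, by have := S.n_pos; omega⟩
  have e : (algebraMap F F' (d : F) * v) ^ n = algebraMap F F' (((d ^ m * a : B) : F)) := by
    rw [mul_pow, hvw, ← map_pow, ← map_mul]
    congr 1
    push_cast
    rw [hm, pow_succ, mul_assoc, mul_comm (d : F) w, hw]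
  rw [e]
  exact S.map_mem _ (d ^ m * a : B).2

/-- **one eigen-component**: if all conjugates of `z` lie in `𝔪'`, then
`D · eig j z ∈ π B' + s B'` for some `D ∈ B ∖ 𝔪`. -/
theorem eig_mem_piS (S : KSetup B B' δ n) (π : R) (𝔪 : Ideal B) [h𝔪 : 𝔪.IsPrime] (𝔪' : Ideal B')
    [h𝔪' : 𝔪'.IsPrime] (hover : LiesOver 𝔪 𝔪')
    (s : B) (hgen : ∀ y ∈ 𝔪, ∃ d : B, d ∉ 𝔪 ∧ d * y ∈ Ideal.span {algebraMap R B π, s})
    {ζ : R} (hζ : IsPrimitiveRoot (algebraMap R F' ζ) n)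
    {v : F'} {w : F} (hδv : δ v = algebraMap R F' ζ * v) (hvw : v ^ n = algebraMap F F' w)
    {a d : B} (ha : a ∉ 𝔪) (hd : d ∉ 𝔪) (hw : w * (d : F) = (a : F))
    {z : F'} (hz : z ∈ conjSub δ 𝔪') (j : ℕ) :
    ∃ D : B, D ∉ 𝔪 ∧ PiS B' π (algebraMap F F' (s : F))
      (algebraMap F F' (D : F) * eig δ (algebraMap R F' ζ) n j z) := by
  have hn := S.n_pos
  have hw0 : w ≠ 0 := ne_zero_of_unit ha hw
  have hv0 : v ≠ 0 := by
    rintro rfl
    rw [zero_pow hn.ne'] at hvw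
    exact hw0 ((map_eq_zero_iff _ (algebraMap F F').injective).1 hvw.symm)
  set g := eig δ (algebraMap R F' ζ) n j z with hg
  have hgconj : g ∈ conjSub δ 𝔪' := eig_mem_conjSub S hζ hz j
  have hgI : InI 𝔪' g := conjSub_inI hgconj
  obtain ⟨φ, hφ⟩ := exists_coef S hζ hv0 hδv j z
  rw [← hg] at hφ
  -- `c = φ ^ n w ^ j ∈ 𝔪`
  have hcmap : algebraMap F F' (φ ^ n * w ^ j) = g ^ n := by
    rw [← hφ, mul_pow, ← pow_mul, mul_comm j n, pow_mul, hvw, map_mul, map_pow, map_pow]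
  have hcB : φ ^ n * w ^ j ∈ B := S.mem_of_map _ (by rw [hcmap]; exact B'.pow_mem hgI.mem n)
  have hc𝔪 : (⟨φ ^ n * w ^ j, hcB⟩ : B) ∈ 𝔪 := by
    rw [← hover]
    show InI 𝔪' (algebraMap F F' (φ ^ n * w ^ j))
    rw [hcmap]
    obtain ⟨h1, h2⟩ := hgI
    exact ⟨B'.pow_mem h1 n, by
      have : (⟨g ^ n, B'.pow_mem h1 n⟩ : B') = (⟨g, h1⟩ : B') ^ n := rfl
      rw [this]
      exact Ideal.pow_mem_of_mem _ h2 n hn⟩
  -- `ψ = φ a ^ j ∈ 𝔪`
  have hψpow : (φ * (a : F) ^ j) ^ n =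
      (φ ^ n * w ^ j) * ((d : F) ^ j * (a : F) ^ (j * (n - 1))) := by
    obtain ⟨m, hm⟩ : ∃ m, n = m + 1 := ⟨n - 1, by omega⟩
    have hm' : n - 1 = m := by omega
    rw [hm', ← hw, hm]
    ring
  have hψB : φ * (a : F) ^ j ∈ B := by
    apply S.root_mem _ n hn
    rw [hψpow]
    exact B.mul_mem hcB (B.mul_mem (B.pow_mem d.2 j) (B.pow_mem a.2 _))
  have hψ𝔪 : (⟨φ * (a : F) ^ j, hψB⟩ : B) ∈ 𝔪 := by
    apply h𝔪.mem_of_pow_mem n
    have : (⟨φ * (a : F) ^ j, hψB⟩ : B) ^ n =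
        ⟨φ ^ n * w ^ j, hcB⟩ * (d ^ j * a ^ (j * (n - 1))) := by
      apply Subtype.ext
      push_cast
      exact hψpow
    rw [this]
    exact 𝔪.mul_mem_right _ hc𝔪
  obtain ⟨d₁, hd₁, hspan⟩ := hgen _ hψ𝔪
  obtain ⟨b₁, b₂, hb⟩ := Ideal.mem_span_pair.1 hspan
  have hbF : (b₁ : F) * algebraMap R F π + (b₂ : F) * (s : F) = (d₁ : F) * (φ * (a : F) ^ j) := by
    have := congrArg (fun x : B => (x : F)) hb
    simpa using this
  have hV : algebraMap F F' (d : F) * v ∈ B' := dv_mem S hvw hw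
  refine ⟨d₁ * a ^ j * d ^ j, fun hh => ?_, ?_⟩
  · rcases h𝔪.mem_or_mem hh with h1 | h1
    · rcases h𝔪.mem_or_mem h1 with h2 | h2
      · exact hd₁ h2
      · exact ha (h𝔪.mem_of_pow_mem j h2)
    · exact hd (h𝔪.mem_of_pow_mem j h1)
  · refine ⟨algebraMap F F' (b₁ : F) * (algebraMap F F' (d : F) * v) ^ j,
      B'.mul_mem (S.map_mem _ b₁.2) (B'.pow_mem hV j),
      algebraMap F F' (b₂ : F) * (algebraMap F F' (d : F) * v) ^ j,
      B'.mul_mem (S.map_mem _ b₂.2) (B'.pow_mem hV j), ?_⟩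
    have e1 : algebraMap F F' (((d₁ * a ^ j * d ^ j : B) : F)) * g =
        algebraMap F F' ((d₁ : F) * (φ * (a : F) ^ j)) * (algebraMap F F' (d : F) * v) ^ j := by
      have h0 : ((d₁ * a ^ j * d ^ j : B) : F) = (d₁ : F) * (a : F) ^ j * (d : F) ^ j := rfl
      rw [h0, ← hφ]
      simp only [map_mul, map_pow]
      ring
    rw [e1, ← hbF, map_add, map_mul, map_mul, ← IsScalarTower.algebraMap_apply R F F']
    ring

/-- **Smooth points lift.** -/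
theorem smoothAt_lift (S : KSetup B B' δ n) (π : R) (𝔪 : Ideal B) [h𝔪 : 𝔪.IsPrime]
    (𝔪' : Ideal B') [h𝔪' : 𝔪'.IsMaximal] (hover : LiesOver 𝔪 𝔪') (hsm : SmoothAt π B 𝔪)
    {ζ : R} (hζ : IsPrimitiveRoot (algebraMap R F' ζ) n)
    {v : F'} {w : F} (hδv : δ v = algebraMap R F' ζ * v) (hvw : v ^ n = algebraMap F F' w)
    {a d : B} (ha : a ∉ 𝔪) (hd : d ∉ 𝔪) (hw : w * (d : F) = (a : F)) :
    SmoothAt π B' 𝔪' := by
  have hprime : 𝔪'.IsPrime := h𝔪'.isPrime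
  obtain ⟨s, hs, hgen⟩ := hsm
  refine ⟨incl S s, (incl_mem_iff S hover s).2 hs, fun y hy => ?_⟩
  obtain ⟨d₀, hd₀, hconj⟩ := exists_avoid S 𝔪' hy
  have hz : ((d₀ * y : B') : F') ∈ conjSub δ 𝔪' := mem_conjSub_of_iterate S hconj
  obtain ⟨D, hD, β, hβ, γ, hγ, hsum⟩ := exists_denominator_sum S 𝔪
    (PiS B' π (algebraMap F F' (s : F))) PiS.zero (fun _ _ h h' => h.add h')
    (fun _ h _ hc => h.mul_left hc)
    (fun j => eig δ (algebraMap R F' ζ) n j ((d₀ * y : B') : F')) (Finset.range n)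
    (fun j _ => eig_mem_piS S π 𝔪 𝔪' hover s hgen hζ hδv hvw ha hd hw hz j)
  rw [sum_eig δ hζ S.n_ne_zero] at hsum
  refine ⟨incl S D * d₀, fun hh => (hprime.mem_or_mem hh).elim
    (fun h1 => hD ((incl_mem_iff S hover D).1 h1)) hd₀, ?_⟩
  rw [Ideal.mem_span_pair]
  refine ⟨⟨β, hβ⟩, ⟨γ, hγ⟩, ?_⟩
  apply Subtype.ext
  have e : ((incl S D * d₀ * y : B') : F') =
      algebraMap F F' (D : F) * ((d₀ * y : B') : F') := by
    push_cast
    rw [coe_incl]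
    ring
  rw [e, hsum]
  push_cast
  rw [coe_incl]
  show β * algebraMap R F' π + γ * algebraMap F F' (s : F) = _
  ring

end Fermat.Agent.M43.KSmooth9
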