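/-
Programme M43, chapter (LG-q), Stage 1, block [KLIFT] (helper9), part N: **nodes lift along a
Kummer extension which is totally ramified at the node.**

Setting of `KLocal9.KSetup`.  Let `𝔪` be a prime of the chart `B` lying on both components
(`hon2`), with NODE COORDINATES `x, y ∈ 𝔪` of thickness `π ^ (n T)`:
`x y d = π ^ (n T) a` (`a, d ∉ 𝔪`), `x ∈ π ^ (n T) O2`, `x` generates `𝔪` modulo `π O1` (`hgen1`),
`𝔪 B_𝔪 = (π, x, y)` (`hgenxy`), and let `v ∈ F'` be a local Kummer generator with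
`v ^ n = w x`, `w` a unit of `B_𝔪`, `δ v = ζ v`.  Then for EVERY prime `𝔪'` of `B'` over `𝔪`:

* `struct` : every `z ∈ B'` satisfies `D (z − eig₀ z) = V β + Y γ` with `D ∈ B ∖ 𝔪`, `β γ ∈ B'`,
  `V = d' v`, `Y = a a' π ^ T / v` (`V Y = d' a a' π ^ T`);
* `nodeCoords_lift` : the literal `NumData13.NodeCoords π B' 𝔪'` with `x' = V`, `y' = Y`;
* `not_offBranch_lift` : `𝔪'` lies on both upper components.

Key step `cap`: `B_𝔪 ∩ π ^ k O2 = (x, π ^ k) B_𝔪` for `k ≤ n T` (induction on `k`: an element of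
`π O2` lies in `𝔪`, is `≡ b x` modulo `π O1`, and the difference is `π g₁` with `g₁ ∈ B` by
saturation).
-/
import Mathlib
import Fermat.Agent.M43.KSmooth9
import Fermat.Agent.ES.N34.NumData13

set_option autoImplicit false
set_option linter.unusedSectionVars false
set_option linter.unusedVariables false

namespace Fermat.Agent.M43.KNode9

open Fermat.Agent.M43.KEigen9 Fermat.Agent.M43.KLocal9 Fermat.Agent.M43.KSmooth9
  Fermat.Agent.ES.N34.NodalCore13 Fermat.Agent.ES.N34.NodalCL13 Fermat.Agent.ES.N34.NumData13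

section Cap

variable {R F : Type*} [CommRing R] [Field F] [Algebra R F]

/-- **`B_𝔪 ∩ π ^ k O2 = (x, π ^ k) B_𝔪` for `k ≤ N`**, where `x ∈ π ^ N O2` generates `𝔪` modulo
`π O1`. -/
theorem cap (π : R) (B : Subalgebra R F) (O1 O2 : ValuationSubring F)
    (leO1 : ∀ x ∈ B, x ∈ O1) (leO2 : ∀ x ∈ B, x ∈ O2)
    (sat : ∀ b ∈ B, ∀ c : F, c ∈ O1 → c ∈ O2 → b = algebraMap R F π * c → c ∈ B)
    (pi_ne : algebraMap R F π ≠ 0)
    (𝔪 : Ideal B) [h𝔪 : 𝔪.IsPrime]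
    (hon2 : ∀ b : B, (∃ c ∈ O2, (b : F) = algebraMap R F π * c) → b ∈ 𝔪)
    (x : B) (N : ℕ) (hx2 : ∃ o ∈ O2, (x : F) = algebraMap R F π ^ N * o)
    (hgen1 : ∀ f ∈ 𝔪, ∃ e : B, e ∉ 𝔪 ∧ ∃ b : B, ∃ o ∈ O1,
      (e : F) * (f : F) - (b : F) * (x : F) = algebraMap R F π * o) :
    ∀ k : ℕ, k ≤ N → ∀ g : B, (∃ o ∈ O2, (g : F) = algebraMap R F π ^ k * o) →
      ∃ D : B, D ∉ 𝔪 ∧ ∃ α α' : B,
        (D : F) * (g : F) = (α : F) * (x : F) + algebraMap R F π ^ k * (α' : F) := by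
  have hπ2 : algebraMap R F π ∈ O2 := leO2 _ (B.algebraMap_mem π)
  obtain ⟨ox, hox, hxo⟩ := hx2
  intro k
  induction k with
  | zero =>
    intro _ g _
    refine ⟨1, fun h1 => h𝔪.ne_top ((Ideal.eq_top_iff_one 𝔪).mpr h1), 0, g, ?_⟩
    simp
  | succ k ih =>
    intro hk g hg
    obtain ⟨o, ho, hgo⟩ := hg
    have hk' : k ≤ N := by omega
    -- `g ∈ 𝔪`
    have hg𝔪 : g ∈ 𝔪 := hon2 g ⟨algebraMap R F π ^ k * o,
      O2.mul_mem _ _ (pow_mem hπ2 k) ho, by rw [hgo, pow_succ]; ring⟩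
    obtain ⟨e, he, b, o₁, ho₁, heq⟩ := hgen1 g hg𝔪
    -- `o₁ ∈ O2`
    obtain ⟨j, hj⟩ : ∃ j, N = k + 1 + j := ⟨N - (k + 1), by omega⟩
    have ho₁eq : o₁ = algebraMap R F π ^ k * ((e : F) * o - (b : F) * (algebraMap R F π ^ j * ox)) := by
      apply mul_left_cancel₀ pi_ne
      rw [← heq, hgo, hxo, hj]
      ring
    have ho₁2 : o₁ ∈ O2 := by
      rw [ho₁eq]
      exact O2.mul_mem _ _ (pow_mem hπ2 k) (sub_mem (O2.mul_mem _ _ (leO2 _ e.2) ho)
        (O2.mul_mem _ _ (leO2 _ b.2) (O2.mul_mem _ _ (pow_mem hπ2 j) hox)))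
    have ho₁B : o₁ ∈ B := sat ((e : F) * (g : F) - (b : F) * (x : F))
      (B.sub_mem (B.mul_mem e.2 g.2) (B.mul_mem b.2 x.2)) o₁ ho₁ ho₁2 heq
    obtain ⟨D₁, hD₁, α₁, α₁', h1⟩ := ih hk' ⟨o₁, ho₁B⟩
      ⟨(e : F) * o - (b : F) * (algebraMap R F π ^ j * ox),
        sub_mem (O2.mul_mem _ _ (leO2 _ e.2) ho)
          (O2.mul_mem _ _ (leO2 _ b.2) (O2.mul_mem _ _ (pow_mem hπ2 j) hox)), ho₁eq⟩
    refine ⟨D₁ * e, fun hh => (h𝔪.mem_or_mem hh).elim hD₁ he,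
      D₁ * b + algebraMap R B π * α₁, α₁', ?_⟩
    have h1' : (D₁ : F) * o₁ = (α₁ : F) * (x : F) + algebraMap R F π ^ k * (α₁' : F) := h1
    have e1 : (e : F) * (g : F) = (b : F) * (x : F) + algebraMap R F π * o₁ := by
      rw [← heq]; ring
    have hcoe : ((D₁ * b + algebraMap R B π * α₁ : B) : F) =
        (D₁ : F) * (b : F) + algebraMap R F π * (α₁ : F) := rfl
    have hcoe' : ((D₁ * e : B) : F) = (D₁ : F) * (e : F) := rfl
    rw [hcoe, hcoe', mul_assoc, e1, pow_succ]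
    linear_combination (algebraMap R F π) * h1'

/-- valuation subrings are closed under roots. -/
theorem vs_root {L : Type*} [Field L] (O : ValuationSubring L) (m : ℕ) (hm : 0 < m) (x : L)
    (hx : x ^ m ∈ O) : x ∈ O := by
  rcases O.mem_or_inv_mem x with h | h
  · exact h
  · rcases eq_or_ne x 0 with rfl | hx0
    · exact O.zero_mem
    · obtain ⟨m', rfl⟩ : ∃ m', m = m' + 1 := ⟨m - 1, (Nat.sub_add_cancel hm).symm⟩
      have : x = x ^ (m' + 1) * (x⁻¹) ^ m' := by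
        rw [pow_succ, inv_pow]
        field_simp
      rw [this]
      exact O.mul_mem _ _ hx (pow_mem h m')

/-- the exponent bookkeeping of `struct_one`. -/
theorem pow_identity (φ x w d' a' : F) (i l : ℕ) (hw : w * d' = a') :
    (φ * x * a' ^ (i + 1)) ^ (i + 1 + l) =
      (φ ^ (i + 1 + l) * (w * x) ^ (i + 1)) *
        (x ^ l * a' ^ ((i + 1) * (i + l)) * d' ^ (i + 1)) := by
  rw [← hw]
  ring

end Cap

section Lift

variable {R F F' : Type*} [CommRing R] [Field F] [Field F'] [Algebra R F] [Algebra F F']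
  [Algebra R F'] [IsScalarTower R F F']
variable {B : Subalgebra R F} {B' : Subalgebra R F'} {δ : F' →+* F'} {n : ℕ}

/-- **the node datum**: node coordinates `x, y` of thickness `π ^ (n T)` at `𝔪` and a local Kummer
generator `v` with `v ^ n = w x`, `w = a' / d'` a unit of `B_𝔪`. -/
structure KNodeDatum (π : R) (B : Subalgebra R F) (O1 O2 : ValuationSubring F) (𝔪 : Ideal B)
    (δ : F' →+* F') (n : ℕ) where
  x : B
  y : B
  a : B
  d : B
  T : ℕ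
  ζ : R
  v : F'
  w : F
  a' : B
  d' : B
  T_pos : 0 < T
  x_mem : x ∈ 𝔪
  y_mem : y ∈ 𝔪
  a_nmem : a ∉ 𝔪
  d_nmem : d ∉ 𝔪
  thick : (x : F) * (y : F) * (d : F) = algebraMap R F π ^ (n * T) * (a : F)
  x_O2 : ∃ o ∈ O2, (x : F) = algebraMap R F π ^ (n * T) * o
  gen1 : ∀ f ∈ 𝔪, ∃ e : B, e ∉ 𝔪 ∧ ∃ b : B, ∃ o ∈ O1,
    (e : F) * (f : F) - (b : F) * (x : F) = algebraMap R F π * o
  genxy : ∀ b ∈ 𝔪, ∃ e : B, e ∉ 𝔪 ∧ e * b ∈ Ideal.span {algebraMap R B π, x, y}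
  ζ_prim : IsPrimitiveRoot (algebraMap R F' ζ) n
  δ_v : δ v = algebraMap R F' ζ * v
  v_pow : v ^ n = algebraMap F F' (w * (x : F))
  a'_nmem : a' ∉ 𝔪
  d'_nmem : d' ∉ 𝔪
  w_eq : w * (d' : F) = (a' : F)

namespace KNodeDatum

variable {π : R} {O1 O2 : ValuationSubring F} {𝔪 : Ideal B}
variable (D : KNodeDatum (F' := F') π B O1 O2 𝔪 δ n)

/-- the upper coordinate `x' = d' v`. -/
def V : F' := algebraMap F F' (D.d' : F) * D.v

/-- the upper coordinate `y' = a a' π ^ T / v`. -/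
def Y : F' := algebraMap F F' ((D.a : F) * (D.a' : F)) * algebraMap R F' π ^ D.T * D.v⁻¹

theorem coe_ne_zero {b : B} (hb : b ∉ 𝔪) : (b : F) ≠ 0 := by
  intro h0
  apply hb
  have : b = 0 := Subtype.ext h0
  rw [this]
  exact 𝔪.zero_mem

theorem w_ne_zero : D.w ≠ 0 := by
  intro h0
  have := D.w_eq
  rw [h0, zero_mul] at this
  exact coe_ne_zero D.a'_nmem this.symm

theorem x_ne_zero (pi_ne : algebraMap R F π ≠ 0) : (D.x : F) ≠ 0 := by
  intro h0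
  have := D.thick
  rw [h0, zero_mul, zero_mul] at this
  exact mul_ne_zero (pow_ne_zero _ pi_ne) (coe_ne_zero D.a_nmem) this.symm

theorem wx_ne_zero (pi_ne : algebraMap R F π ≠ 0) : algebraMap F F' (D.w * (D.x : F)) ≠ 0 := by
  rw [ne_eq, map_eq_zero_iff _ (algebraMap F F').injective]
  exact mul_ne_zero D.w_ne_zero (D.x_ne_zero pi_ne)

theorem v_ne_zero (pi_ne : algebraMap R F π ≠ 0) (hn : n ≠ 0) : D.v ≠ 0 := by
  intro h0
  have h1 := D.v_pow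
  rw [h0, zero_pow hn] at h1
  exact D.wx_ne_zero pi_ne h1.symm

/-- the target set `V B' + Y B'` inside `F'`. -/
def VY (B' : Subalgebra R F') (x : F') : Prop :=
  ∃ β ∈ B', ∃ γ ∈ B', x = D.V * β + D.Y * γ

theorem vy_add {x x' : F'} (h : D.VY B' x) (h' : D.VY B' x') : D.VY B' (x + x') := by
  obtain ⟨β, hβ, γ, hγ, rfl⟩ := h
  obtain ⟨β', hβ', γ', hγ', rfl⟩ := h'
  exact ⟨β + β', B'.add_mem hβ hβ', γ + γ', B'.add_mem hγ hγ', by ring⟩

theorem vy_mul_left {x : F'} (h : D.VY B' x) {c : F'} (hc : c ∈ B') : D.VY B' (c * x) := by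
  obtain ⟨β, hβ, γ, hγ, rfl⟩ := h
  exact ⟨c * β, B'.mul_mem hc hβ, c * γ, B'.mul_mem hc hγ, by ring⟩

theorem vy_zero : D.VY B' 0 := ⟨0, B'.zero_mem, 0, B'.zero_mem, by ring⟩

variable (S : KSetup B B' δ n) (pi_ne : algebraMap R F π ≠ 0) [h𝔪 : 𝔪.IsPrime]

include S pi_ne h𝔪

theorem V_pow : ∃ c : B, c ∉ 𝔪 ∧ D.V ^ n = algebraMap F F' ((c : F) * (D.x : F)) := by
  have hn0 : n ≠ 0 := S.n_pos.ne'
  refine ⟨D.d' ^ (n - 1) * D.a', fun hh => ?_, ?_⟩
  · rcases h𝔪.mem_or_mem hh with h1 | h1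
    · exact D.d'_nmem (h𝔪.mem_of_pow_mem _ h1)
    · exact D.a'_nmem h1
  · unfold V
    rw [mul_pow, D.v_pow, ← map_pow, ← map_mul]
    congr 1
    have hcoe : ((D.d' ^ (n - 1) * D.a' : B) : F) = (D.d' : F) ^ (n - 1) * (D.a' : F) := rfl
    have e : (D.d' : F) ^ n = (D.d' : F) ^ (n - 1) * (D.d' : F) := (pow_sub_one_mul hn0 _).symm
    rw [hcoe, e]
    linear_combination ((D.d' : F) ^ (n - 1) * (D.x : F)) * D.w_eq

theorem V_mem : D.V ∈ B' := by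
  obtain ⟨c, _, hc⟩ := D.V_pow S pi_ne
  apply S.root_mem' _ n S.n_pos
  rw [hc]
  exact S.map_mem _ (B.mul_mem c.2 D.x.2)

theorem V_inI {𝔪' : Ideal B'} [h𝔪' : 𝔪'.IsPrime] (hover : LiesOver 𝔪 𝔪') : InI 𝔪' D.V := by
  obtain ⟨c, _, hc⟩ := D.V_pow S pi_ne
  apply inI_of_pow (D.V_mem S pi_ne) (k := n)
  rw [hc]
  exact (hover (c * D.x)).2 (𝔪.mul_mem_left _ D.x_mem)

theorem Y_mul_v : D.Y * D.v =
    algebraMap F F' ((D.a : F) * (D.a' : F)) * algebraMap R F' π ^ D.T := by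
  unfold Y
  rw [mul_assoc, inv_mul_cancel₀ (D.v_ne_zero pi_ne S.n_pos.ne'), mul_one]

theorem Y_pow : ∃ c : B, c ∉ 𝔪 ∧ D.Y ^ n = algebraMap F F' ((c : F) * (D.y : F)) := by
  have hn0 : n ≠ 0 := S.n_pos.ne'
  refine ⟨(D.a * D.a') ^ (n - 1) * D.d * D.d', fun hh => ?_, ?_⟩
  · rcases h𝔪.mem_or_mem hh with h1 | h1
    · rcases h𝔪.mem_or_mem h1 with h2 | h2
      · rcases h𝔪.mem_or_mem (h𝔪.mem_of_pow_mem _ h2) with h3 | h3
        · exact D.a_nmem h3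
        · exact D.a'_nmem h3
      · exact D.d_nmem h2
    · exact D.d'_nmem h1
  · apply mul_right_cancel₀ (D.wx_ne_zero pi_ne)
    rw [← D.v_pow, ← mul_pow, D.Y_mul_v S pi_ne, D.v_pow, mul_pow, ← map_pow, ← pow_mul,
      IsScalarTower.algebraMap_apply R F F', ← map_pow, ← map_mul, ← map_mul]
    congr 1
    have hcoe : (((D.a * D.a') ^ (n - 1) * D.d * D.d' : B) : F) =
        ((D.a : F) * (D.a' : F)) ^ (n - 1) * (D.d : F) * (D.d' : F) := rfl
    have e : ((D.a : F) * (D.a' : F)) ^ n =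
        ((D.a : F) * (D.a' : F)) ^ (n - 1) * ((D.a : F) * (D.a' : F)) :=
      (pow_sub_one_mul hn0 _).symm
    have ht : algebraMap R F π ^ (D.T * n) = algebraMap R F π ^ (n * D.T) := by
      rw [mul_comm]
    rw [hcoe, e, ht]
    linear_combination (-(((D.a : F) * (D.a' : F)) ^ (n - 1) * (D.w * (D.d' : F)))) * D.thick -
      (((D.a : F) * (D.a' : F)) ^ (n - 1) * algebraMap R F π ^ (n * D.T) * (D.a : F)) * D.w_eq

theorem Y_mem : D.Y ∈ B' := by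
  obtain ⟨c, _, hc⟩ := D.Y_pow S pi_ne
  apply S.root_mem' _ n S.n_pos
  rw [hc]
  exact S.map_mem _ (B.mul_mem c.2 D.y.2)

theorem Y_inI {𝔪' : Ideal B'} [h𝔪' : 𝔪'.IsPrime] (hover : LiesOver 𝔪 𝔪') : InI 𝔪' D.Y := by
  obtain ⟨c, _, hc⟩ := D.Y_pow S pi_ne
  apply inI_of_pow (D.Y_mem S pi_ne) (k := n)
  rw [hc]
  exact (hover (c * D.y)).2 (𝔪.mul_mem_left _ D.y_mem)

theorem V_mul_Y : D.V * D.Y =
    algebraMap F F' ((D.d' : F) * ((D.a : F) * (D.a' : F))) * algebraMap R F' π ^ D.T := by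
  unfold V
  rw [mul_assoc, mul_comm D.v, D.Y_mul_v S pi_ne]
  simp only [map_mul]
  ring

/-- **one eigen-component** (`0 < j < n`): `E · eig_j z ∈ V B' + Y B'` for some `E ∈ B ∖ 𝔪`. -/
theorem struct_one (leO1 : ∀ x ∈ B, x ∈ O1) (leO2 : ∀ x ∈ B, x ∈ O2)
    (sat : ∀ b ∈ B, ∀ c : F, c ∈ O1 → c ∈ O2 → b = algebraMap R F π * c → c ∈ B)
    (hon2 : ∀ b : B, (∃ c ∈ O2, (b : F) = algebraMap R F π * c) → b ∈ 𝔪)
    {z : F'} (hz : z ∈ B') (i l : ℕ) (hn' : n = i + 1 + (l + 1)) :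
    ∃ E : B, E ∉ 𝔪 ∧
      D.VY B' (algebraMap F F' (E : F) * eig δ (algebraMap R F' D.ζ) n (i + 1) z) := by
  have hn := S.n_pos
  have hv0 := D.v_ne_zero pi_ne hn.ne'
  have hsub1 : n - (i + 1) = l + 1 := by omega
  have hsub2 : n - 1 = i + (l + 1) := by omega
  set g := eig δ (algebraMap R F' D.ζ) n (i + 1) z with hg
  have hgB : g ∈ B' := eig_mem_B' S D.ζ_prim hz (i + 1)
  obtain ⟨φ, hφ⟩ := exists_coef S D.ζ_prim hv0 D.δ_v (i + 1) z
  rw [← hg] at hφ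
  -- `c = φ ^ n (w x) ^ j ∈ B`
  have hcmap : algebraMap F F' (φ ^ n * (D.w * (D.x : F)) ^ (i + 1)) = g ^ n := by
    rw [← hφ, map_mul, map_pow, map_pow, ← D.v_pow]
    ring
  have hcB : φ ^ n * (D.w * (D.x : F)) ^ (i + 1) ∈ B :=
    S.mem_of_map _ (by rw [hcmap]; exact B'.pow_mem hgB n)
  -- `ψ = φ x a' ^ j ∈ B`
  have hψpow : (φ * (D.x : F) * (D.a' : F) ^ (i + 1)) ^ n =
      (φ ^ n * (D.w * (D.x : F)) ^ (i + 1)) *
        ((D.x : F) ^ (l + 1) * (D.a' : F) ^ ((i + 1) * (i + (l + 1))) * (D.d' : F) ^ (i + 1)) := by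
    have key : ∀ N : ℕ, N = i + 1 + (l + 1) →
        (φ * (D.x : F) * (D.a' : F) ^ (i + 1)) ^ N =
        (φ ^ N * (D.w * (D.x : F)) ^ (i + 1)) *
          ((D.x : F) ^ (l + 1) * (D.a' : F) ^ ((i + 1) * (i + (l + 1))) * (D.d' : F) ^ (i + 1)) := by
      intro N hN
      subst hN
      exact pow_identity φ (D.x : F) D.w (D.d' : F) (D.a' : F) i (l + 1) D.w_eq
    exact key n hn'
  have hψB : φ * (D.x : F) * (D.a' : F) ^ (i + 1) ∈ B := by
    apply S.root_mem _ n hn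
    rw [hψpow]
    exact B.mul_mem hcB (B.mul_mem (B.mul_mem (B.pow_mem D.x.2 _) (B.pow_mem D.a'.2 _))
      (B.pow_mem D.d'.2 _))
  -- `ψ ∈ π ^ (T (l + 1)) O2`
  obtain ⟨ox, hox, hxo⟩ := D.x_O2
  have hPk : algebraMap R F π ^ (D.T * (l + 1)) ≠ 0 := pow_ne_zero _ pi_ne
  have hx' : (D.x : F) ^ (l + 1) = (algebraMap R F π ^ (D.T * (l + 1))) ^ n * ox ^ (l + 1) := by
    rw [hxo, mul_pow, ← pow_mul, ← pow_mul]
    congr 2
    ring
  have hψO2 : ∃ o ∈ O2, φ * (D.x : F) * (D.a' : F) ^ (i + 1) =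
      algebraMap R F π ^ (D.T * (l + 1)) * o := by
    refine ⟨φ * (D.x : F) * (D.a' : F) ^ (i + 1) * (algebraMap R F π ^ (D.T * (l + 1)))⁻¹, ?_, ?_⟩
    · apply vs_root O2 n hn
      have e : (φ * (D.x : F) * (D.a' : F) ^ (i + 1) *
          (algebraMap R F π ^ (D.T * (l + 1)))⁻¹) ^ n =
          (φ ^ n * (D.w * (D.x : F)) ^ (i + 1)) *
            (ox ^ (l + 1) * (D.a' : F) ^ ((i + 1) * (i + (l + 1))) * (D.d' : F) ^ (i + 1)) := by
        rw [mul_pow, hψpow, hx', inv_pow]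
        have h0 := pow_ne_zero n hPk
        field_simp
      rw [e]
      exact O2.mul_mem _ _ (leO2 _ hcB) (O2.mul_mem _ _ (O2.mul_mem _ _ (pow_mem hox _)
        (pow_mem (leO2 _ D.a'.2) _)) (pow_mem (leO2 _ D.d'.2) _))
    · field_simp
  have hkN : D.T * (l + 1) ≤ n * D.T := by
    rw [mul_comm n]
    exact Nat.mul_le_mul_left _ (by omega)
  obtain ⟨D₁, hD₁, α, α', h1⟩ := cap π B O1 O2 leO1 leO2 sat pi_ne 𝔪 hon2 D.x (n * D.T)
    ⟨ox, hox, hxo⟩ D.gen1 (D.T * (l + 1)) hkN ⟨_, hψB⟩ hψO2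
  have h1' : (D₁ : F) * (φ * (D.x : F) * (D.a' : F) ^ (i + 1)) =
      (α : F) * (D.x : F) + algebraMap R F π ^ (D.T * (l + 1)) * (α' : F) := h1
  refine ⟨D₁ * D.a' ^ (i + 1) * D.d' ^ (i + 2) * (D.a * D.a') ^ (l + 1), fun hh => ?_, ?_⟩
  · rcases h𝔪.mem_or_mem hh with h2 | h2
    · rcases h𝔪.mem_or_mem h2 with h3 | h3
      · rcases h𝔪.mem_or_mem h3 with h4 | h4
        · exact hD₁ h4
        · exact D.a'_nmem (h𝔪.mem_of_pow_mem _ h4)
      · exact D.d'_nmem (h𝔪.mem_of_pow_mem _ h3)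
    · rcases h𝔪.mem_or_mem (h𝔪.mem_of_pow_mem _ h2) with h3 | h3
      · exact D.a_nmem h3
      · exact D.a'_nmem h3
  · have hV := D.V_mem S pi_ne
    have hY := D.Y_mem S pi_ne
    refine ⟨algebraMap F F' ((α : F) * ((D.a : F) * (D.a' : F)) ^ (l + 1) * (D.d' : F)) * D.V ^ i,
      B'.mul_mem (S.map_mem _ (B.mul_mem (B.mul_mem α.2 (B.pow_mem (B.mul_mem D.a.2 D.a'.2) _))
        D.d'.2)) (B'.pow_mem hV i),
      algebraMap F F' ((α' : F) * (D.a' : F) * (D.d' : F) ^ (i + 1)) * D.Y ^ l,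
      B'.mul_mem (S.map_mem _ (B.mul_mem (B.mul_mem α'.2 D.a'.2) (B.pow_mem D.d'.2 _)))
        (B'.pow_mem hY l), ?_⟩
    apply mul_right_cancel₀ (pow_ne_zero (l + 1) hv0)
    have hvn : D.v ^ (i + 1) * D.v ^ (l + 1) = algebraMap F F' (D.w * (D.x : F)) := by
      rw [← pow_add, ← hn', D.v_pow]
    have hVv : D.V ^ (i + 1) * D.v ^ (l + 1) =
        algebraMap F F' (D.d' : F) ^ (i + 1) *
          (algebraMap F F' D.w * algebraMap F F' (D.x : F)) := by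
      unfold V
      rw [mul_pow, mul_assoc, hvn, map_mul]
    have hYv : D.Y ^ (l + 1) * D.v ^ (l + 1) =
        (algebraMap F F' (D.a : F) * algebraMap F F' (D.a' : F)) ^ (l + 1) *
          algebraMap F F' (algebraMap R F π) ^ (D.T * (l + 1)) := by
      rw [← mul_pow, D.Y_mul_v S pi_ne, IsScalarTower.algebraMap_apply R F F', map_mul]
      ring
    have hgv : g * D.v ^ (l + 1) =
        algebraMap F F' φ * (algebraMap F F' D.w * algebraMap F F' (D.x : F)) := by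
      rw [← hφ, mul_assoc, hvn, map_mul]
    have hcoe : ((D₁ * D.a' ^ (i + 1) * D.d' ^ (i + 2) * (D.a * D.a') ^ (l + 1) : B) : F) =
        (D₁ : F) * (D.a' : F) ^ (i + 1) * (D.d' : F) ^ (i + 2) *
          ((D.a : F) * (D.a' : F)) ^ (l + 1) := rfl
    have h1'' := congrArg (algebraMap F F') h1'
    have hw' := congrArg (algebraMap F F') D.w_eq
    rw [hcoe]
    simp only [map_mul, map_pow, map_add] at h1'' hw' ⊢
    linear_combination (algebraMap F F' (D₁ : F) * algebraMap F F' (D.a' : F) ^ (i + 1) *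
        algebraMap F F' (D.d' : F) ^ (i + 2) *
        (algebraMap F F' (D.a : F) * algebraMap F F' (D.a' : F)) ^ (l + 1)) * hgv -
      (algebraMap F F' (α : F) * (algebraMap F F' (D.a : F) * algebraMap F F' (D.a' : F)) ^ (l + 1) *
        algebraMap F F' (D.d' : F)) * hVv -
      (algebraMap F F' (α' : F) * algebraMap F F' (D.a' : F) *
        algebraMap F F' (D.d' : F) ^ (i + 1)) * hYv +
      ((algebraMap F F' (D.a : F) * algebraMap F F' (D.a' : F)) ^ (l + 1) *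
        algebraMap F F' (D.d' : F) ^ (i + 2) * algebraMap F F' D.w) * h1'' +
      ((algebraMap F F' (D.a : F) * algebraMap F F' (D.a' : F)) ^ (l + 1) *
        algebraMap F F' (α' : F) * algebraMap F F' (algebraMap R F π) ^ (D.T * (l + 1)) *
        algebraMap F F' (D.d' : F) ^ (i + 1)) * hw'

/-- **the structure of `B'` over the node**: `E (z − φ₀) ∈ V B' + Y B'` with `E ∈ B ∖ 𝔪` and
`φ₀ = eig₀ z ∈ B`. -/
theorem struct (leO1 : ∀ x ∈ B, x ∈ O1) (leO2 : ∀ x ∈ B, x ∈ O2)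
    (sat : ∀ b ∈ B, ∀ c : F, c ∈ O1 → c ∈ O2 → b = algebraMap R F π * c → c ∈ B)
    (hon2 : ∀ b : B, (∃ c ∈ O2, (b : F) = algebraMap R F π * c) → b ∈ 𝔪)
    {z : F'} (hz : z ∈ B') :
    ∃ E : B, E ∉ 𝔪 ∧ ∃ φ₀ : B,
      algebraMap F F' (φ₀ : F) = eig δ (algebraMap R F' D.ζ) n 0 z ∧
      D.VY B' (algebraMap F F' (E : F) * (z - algebraMap F F' (φ₀ : F))) := by
  have hn := S.n_pos
  have hv0 := D.v_ne_zero pi_ne hn.ne'
  obtain ⟨m, hm⟩ : ∃ m, n = m + 1 := ⟨n - 1, by omega⟩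
  obtain ⟨φ, hφ⟩ := exists_coef S D.ζ_prim hv0 D.δ_v 0 z
  rw [pow_zero, mul_one] at hφ
  have hφB : φ ∈ B := S.mem_of_map _ (by rw [hφ]; exact eig_mem_B' S D.ζ_prim hz 0)
  obtain ⟨E, hE, hsum⟩ := exists_denominator_sum S 𝔪 (D.VY B') D.vy_zero
    (fun _ _ h h' => D.vy_add h h') (fun _ h _ hc => D.vy_mul_left h hc)
    (fun j => eig δ (algebraMap R F' D.ζ) n (j + 1) z) (Finset.range m)
    (fun j hj => by
      have hjm : j < m := Finset.mem_range.1 hj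
      obtain ⟨l, hl⟩ : ∃ l, m = j + 1 + l := ⟨m - (j + 1), by omega⟩
      exact D.struct_one S pi_ne leO1 leO2 sat hon2 hz j l (by omega))
  refine ⟨E, hE, ⟨φ, hφB⟩, hφ, ?_⟩
  have hz' : z - algebraMap F F' φ =
      ∑ j ∈ Finset.range m, eig δ (algebraMap R F' D.ζ) n (j + 1) z := by
    have h1 := sum_eig δ D.ζ_prim S.n_ne_zero z
    have h2 : ∀ (f : ℕ → F') (N : ℕ), N = m + 1 →
        ∑ j ∈ Finset.range N, f j = ∑ j ∈ Finset.range m, f (j + 1) + f 0 := by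
      intro f N hN
      subst hN
      exact Finset.sum_range_succ' _ _
    rw [h2 _ n hm] at h1
    rw [hφ]
    linear_combination -h1
  show D.VY B' (algebraMap F F' (E : F) * (z - algebraMap F F' φ))
  rw [hz']
  exact hsum

include D

/-- **Nodes lift**: the literal `NodeCoords π B' 𝔪'` at every prime `𝔪'` over `𝔪`. -/
theorem nodeCoords_lift (leO1 : ∀ x ∈ B, x ∈ O1) (leO2 : ∀ x ∈ B, x ∈ O2)
    (sat : ∀ b ∈ B, ∀ c : F, c ∈ O1 → c ∈ O2 → b = algebraMap R F π * c → c ∈ B)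
    (hon2 : ∀ b : B, (∃ c ∈ O2, (b : F) = algebraMap R F π * c) → b ∈ 𝔪)
    (𝔪' : Ideal B') [h𝔪' : 𝔪'.IsPrime] (hover : LiesOver 𝔪 𝔪') :
    NodeCoords π B' 𝔪' := by
  have hn := S.n_pos
  have hV := D.V_mem S pi_ne
  have hY := D.Y_mem S pi_ne
  have hVI : (⟨D.V, hV⟩ : B') ∈ 𝔪' := (D.V_inI S pi_ne hover).2
  have hYI : (⟨D.Y, hY⟩ : B') ∈ 𝔪' := (D.Y_inI S pi_ne hover).2
  obtain ⟨T', hT'⟩ : ∃ T', D.T = T' + 1 := ⟨D.T - 1, by have := D.T_pos; omega⟩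
  refine ⟨⟨D.V, hV⟩, ⟨D.Y, hY⟩, hVI, hYI, ⟨1, fun h1 => h𝔪'.ne_top
    ((Ideal.eq_top_iff_one 𝔪').mpr h1), incl S (D.d' * (D.a * D.a')) * algebraMap R B' π ^ T', ?_⟩,
    ?_⟩
  · apply Subtype.ext
    rw [one_mul]
    show D.V * D.Y = algebraMap R F' π * (algebraMap F F' ((D.d' * (D.a * D.a') : B) : F) *
      algebraMap R F' π ^ T')
    rw [D.V_mul_Y S pi_ne, hT', pow_succ]
    have : ((D.d' * (D.a * D.a') : B) : F) = (D.d' : F) * ((D.a : F) * (D.a' : F)) := rfl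
    rw [this]
    ring
  · intro b hb
    obtain ⟨E, hE, φ₀, hφ₀, β, hβ, γ, hγ, hEq⟩ := D.struct S pi_ne leO1 leO2 sat hon2 b.2
    obtain ⟨cV, hcV, hVn⟩ := D.V_pow S pi_ne
    obtain ⟨cY, hcY, hYn⟩ := D.Y_pow S pi_ne
    -- `E φ₀ ∈ 𝔪`
    have hEφ : E * φ₀ ∈ 𝔪 := by
      rw [← hover]
      have e : algebraMap F F' ((E * φ₀ : B) : F) =
          algebraMap F F' (E : F) * (b : F') - (D.V * β + D.Y * γ) := by
        have : ((E * φ₀ : B) : F) = (E : F) * (φ₀ : F) := rfl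
        rw [this, map_mul, ← hEq]
        ring
      rw [e]
      have hb' : InI 𝔪' (b : F') := inI_coe.2 hb
      have h1 : InI 𝔪' (algebraMap F F' (E : F) * (b : F')) := hb'.mul_left (S.map_mem _ E.2)
      have h2 : InI 𝔪' (D.V * β + D.Y * γ) :=
        ((D.V_inI S pi_ne hover).mul_right hβ).add ((D.Y_inI S pi_ne hover).mul_right hγ)
      have := h1.add h2.neg
      rwa [← sub_eq_add_neg] at this
    obtain ⟨e₁, he₁, hspan⟩ := D.genxy _ hEφ
    obtain ⟨r₁, z₁, hz₁, hr⟩ := Ideal.mem_span_insert.1 hspan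
    obtain ⟨r₂, r₃, hz₁'⟩ := Ideal.mem_span_pair.1 hz₁
    have hrF : (e₁ : F) * ((E : F) * (φ₀ : F)) =
        (r₁ : F) * algebraMap R F π + ((r₂ : F) * (D.x : F) + (r₃ : F) * (D.y : F)) := by
      have h : ((e₁ * (E * φ₀) : B) : F) =
          ((r₁ * algebraMap R B π + (r₂ * D.x + r₃ * D.y) : B) : F) := by rw [hr, hz₁']
      exact h
    obtain ⟨m, hm⟩ : ∃ m, n = m + 1 := ⟨n - 1, by omega⟩
    refine ⟨incl S (cV * cY * e₁ * E), fun hh => ?_, ?_⟩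
    · rcases h𝔪.mem_or_mem ((incl_mem_iff S hover _).1 hh) with h2 | h2
      · rcases h𝔪.mem_or_mem h2 with h3 | h3
        · rcases h𝔪.mem_or_mem h3 with h4 | h4
          · exact hcV h4
          · exact hcY h4
        · exact he₁ h3
      · exact hE h2
    · rw [Ideal.mem_span_insert]
      refine ⟨incl S (cV * cY * r₁), ?_⟩
      refine ⟨incl S (cY * r₂) * ⟨D.V, hV⟩ ^ m * ⟨D.V, hV⟩ + incl S (cV * cY * e₁) * ⟨β, hβ⟩ * ⟨D.V, hV⟩
        + (incl S (cV * r₃) * ⟨D.Y, hY⟩ ^ m * ⟨D.Y, hY⟩ + incl S (cV * cY * e₁) * ⟨γ, hγ⟩ * ⟨D.Y, hY⟩),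
        ?_, ?_⟩
      · rw [Ideal.mem_span_pair]
        exact ⟨incl S (cY * r₂) * ⟨D.V, hV⟩ ^ m + incl S (cV * cY * e₁) * ⟨β, hβ⟩,
          incl S (cV * r₃) * ⟨D.Y, hY⟩ ^ m + incl S (cV * cY * e₁) * ⟨γ, hγ⟩, by ring⟩
      · apply Subtype.ext
        push_cast
        simp only [coe_incl]
        have hc1 : ((cV * cY * e₁ * E : B) : F) = (cV : F) * (cY : F) * (e₁ : F) * (E : F) := rfl
        have hc2 : ((cV * cY * r₁ : B) : F) = (cV : F) * (cY : F) * (r₁ : F) := rfl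
        have hc3 : ((cY * r₂ : B) : F) = (cY : F) * (r₂ : F) := rfl
        have hc4 : ((cV * cY * e₁ : B) : F) = (cV : F) * (cY : F) * (e₁ : F) := rfl
        have hc5 : ((cV * r₃ : B) : F) = (cV : F) * (r₃ : F) := rfl
        rw [hc1, hc2, hc3, hc4, hc5]
        have hVn' : D.V ^ m * D.V = algebraMap F F' ((cV : F) * (D.x : F)) := by
          rw [← pow_succ, ← hm, hVn]
        have hYn' : D.Y ^ m * D.Y = algebraMap F F' ((cY : F) * (D.y : F)) := by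
          rw [← pow_succ, ← hm, hYn]
        rw [IsScalarTower.algebraMap_apply R F F' π]
        have hrF' := congrArg (algebraMap F F') hrF
        simp only [map_mul, map_add] at hrF' hEq hVn' hYn' ⊢
        linear_combination (algebraMap F F' (cV : F) * algebraMap F F' (cY : F) *
          algebraMap F F' (e₁ : F)) * hEq + (algebraMap F F' (cV : F) * algebraMap F F' (cY : F)) * hrF'
          - (algebraMap F F' (cY : F) * algebraMap F F' (r₂ : F)) * hVn'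
          - (algebraMap F F' (cV : F) * algebraMap F F' (r₃ : F)) * hYn'

/-- **`𝔪'` stays on the component `O'`** (`O' ∩ F = O`, `O'` stable under `δ`) if `𝔪` is on `O`. -/
theorem not_offBranch_lift (leO1 : ∀ x ∈ B, x ∈ O1) (leO2 : ∀ x ∈ B, x ∈ O2)
    (sat : ∀ b ∈ B, ∀ c : F, c ∈ O1 → c ∈ O2 → b = algebraMap R F π * c → c ∈ B)
    (hon2 : ∀ b : B, (∃ c ∈ O2, (b : F) = algebraMap R F π * c) → b ∈ 𝔪)
    (𝔪' : Ideal B') [h𝔪' : 𝔪'.IsPrime] (hover : LiesOver 𝔪 𝔪')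
    (O : ValuationSubring F) (O' : ValuationSubring F')
    (hO'δ : ∀ c ∈ O', δ c ∈ O') (leO' : ∀ z ∈ B', z ∈ O')
    (hcomap : ∀ f : F, algebraMap F F' f ∈ O' → f ∈ O)
    (hon : ¬ OffBranch π B O 𝔪) : ¬ OffBranch π B' O' 𝔪' := by
  rintro ⟨e', he', c', hc', hec'⟩
  apply hon
  have hn := S.n_pos
  obtain ⟨E, hE, φ₀, hφ₀, β, hβ, γ, hγ, hEq⟩ := D.struct S pi_ne leO1 leO2 sat hon2 e'.2
  -- `eig₀ e' = π c''` with `c'' ∈ O'`
  have hiter : ∀ i : ℕ, (δ^[i]) (e' : F') = algebraMap R F' π * (δ^[i]) c' := by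
    intro i
    induction i with
    | zero => simpa using hec'
    | succ i ih =>
      rw [Function.iterate_succ_apply', ih, map_mul, S.δ_algebraMap, Function.iterate_succ_apply']
  have hcO : ∀ i : ℕ, (δ^[i]) c' ∈ O' := fun i =>
    KEigen9.iterate_mem (S := (O' : Set F')) hO'δ hc' i
  obtain ⟨cinv, hcinv⟩ := S.ninv_eq
  have hRO : ∀ r : R, algebraMap R F' r ∈ O' := fun r => leO' _ (B'.algebraMap_mem r)
  have heig : eig δ (algebraMap R F' D.ζ) n 0 (e' : F') =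
      algebraMap R F' π * (algebraMap R F' cinv * ∑ i ∈ Finset.range n, (δ^[i]) c') := by
    unfold eig
    rw [hcinv, Finset.mul_sum, Finset.mul_sum, Finset.mul_sum]
    refine Finset.sum_congr rfl fun i _ => ?_
    rw [mul_zero, pow_zero, one_mul, hiter]
    ring
  have hc''O : algebraMap R F' cinv * ∑ i ∈ Finset.range n, (δ^[i]) c' ∈ O' :=
    O'.mul_mem _ _ (hRO _) (sum_mem fun i _ => hcO i)
  -- `φ₀ / π ∈ O`
  have hφπ : (φ₀ : F) * (algebraMap R F π)⁻¹ ∈ O := by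
    apply hcomap
    have : algebraMap F F' ((φ₀ : F) * (algebraMap R F π)⁻¹) =
        algebraMap R F' cinv * ∑ i ∈ Finset.range n, (δ^[i]) c' := by
      have hπ' : algebraMap R F' π ≠ 0 := by
        rw [IsScalarTower.algebraMap_apply R F F', ne_eq,
          map_eq_zero_iff _ (algebraMap F F').injective]
        exact pi_ne
      apply mul_left_cancel₀ hπ'
      rw [← heig, ← hφ₀, IsScalarTower.algebraMap_apply R F F', ← map_mul]
      congr 1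
      field_simp
    rw [this]
    exact hc''O
  have hEO : (E : F) ∈ O := hcomap _ (leO' _ (S.map_mem _ E.2))
  refine ⟨E * φ₀, fun hh => ?_, (E : F) * ((φ₀ : F) * (algebraMap R F π)⁻¹),
    O.mul_mem _ _ hEO hφπ, ?_⟩
  · -- `E φ₀ ∈ 𝔪` would force `e' ∈ 𝔪'`
    have h1 : InI 𝔪' (algebraMap F F' ((E * φ₀ : B) : F)) := (hover _).2 hh
    have h2 : InI 𝔪' (D.V * β + D.Y * γ) :=
      ((D.V_inI S pi_ne hover).mul_right hβ).add ((D.Y_inI S pi_ne hover).mul_right hγ)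
    have h3 : InI 𝔪' (algebraMap F F' (E : F) * (e' : F')) := by
      have e : algebraMap F F' (E : F) * (e' : F') =
          algebraMap F F' ((E * φ₀ : B) : F) + (D.V * β + D.Y * γ) := by
        have : ((E * φ₀ : B) : F) = (E : F) * (φ₀ : F) := rfl
        rw [this, map_mul, ← hEq]
        ring
      rw [e]
      exact h1.add h2
    rcases inI_or_of_mul (S.map_mem _ E.2) e'.2 h3 with h4 | h4
    · exact hE ((hover E).1 h4)
    · exact he' (inI_coe.1 h4)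
  · show (E : F) * (φ₀ : F) = _
    field_simp


end KNodeDatum

end Lift

end Fermat.Agent.M43.KNode9
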