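/-
Programme M43, chapter (LG-q), Stage 1, block [KLIFT] (helper9), ASSEMBLY: **the nodal two-chart
model lifts along a cyclic Kummer extension `F' / F` of the function field.**

* `glueOut_lift` : the valuation fields (`TwoGlue20.GlueOut`) for the pair `O1', O2'` of `F'` from the
  Gauss hypotheses of `TwoGlue20.glue_core` DOWNSTAIRS and, upstairs, (EXT) `O_j' ∩ F = O_j`,
  (UNIQ) `O_j'` is the only valuation subring of `F'` over `O_j`, (UNR) `π` generates the maximal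
  ideal of `O_j'`.
* `LSAt` : the smooth normal form (a local Kummer generator which is a unit at `𝔪`).
* `lift_chart` : on one chart, smoothness off one branch and node coordinates at the two-branch
  points lift (`KSmooth9.smoothAt_lift`, `KNode9.nodeCoords_lift`, `KNode9.not_offBranch_lift`).
* `nodalNumData_lift` : **`NumData13.NodalNumData` for `F'`** from the one for `F`, the chart
  inputs of `F'`, the glue output, the two `KSetup`s and the local normal forms (LS), (LN).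
-/
import Mathlib
import Fermat.Agent.M43.KNode9
import Fermat.Agent.ES.N34.TwoGlue20
import Fermat.Agent.ES.N34.ChartN26

set_option autoImplicit false
set_option linter.unusedSectionVars false
set_option linter.unusedVariables false
set_option linter.style.haveILetI false

namespace Fermat.Agent.M43.KLift9

open Fermat.Agent.M43.KEigen9 Fermat.Agent.M43.KLocal9 Fermat.Agent.M43.KSmooth9
  Fermat.Agent.M43.KNode9
  Fermat.Agent.ES.N34.NodalCore13 Fermat.Agent.ES.N34.NodalCL13 Fermat.Agent.ES.N34.NumData13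
  Fermat.Agent.ES.N34.TwoGlue20 Fermat.Agent.ES.N34.ChartN26
  Fermat.Agent.RED.PUR.ChartGeneric22 Fermat.Agent.RED.PUR.UniqueExt20

section Glue

variable {R K F F' : Type*} [CommRing R] [IsDomain R] [Field K] [Field F] [Field F']
  [Algebra R K] [Algebra K F] [Algebra R F] [IsScalarTower R K F]
  [Algebra F F'] [Algebra K F'] [Algebra R F'] [IsScalarTower K F F'] [IsScalarTower R K F']
  [IsScalarTower R F F']

/-- values `< 1` are detected downstairs. -/
theorem val_map_lt_one_iff {O : ValuationSubring F} {O' : ValuationSubring F'}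
    (hext : ∀ f : F, algebraMap F F' f ∈ O' ↔ f ∈ O) (f : F) :
    O'.valuation (algebraMap F F' f) < 1 ↔ O.valuation f < 1 := by
  rw [val_lt_one_iff, val_lt_one_iff, map_eq_zero_iff _ (algebraMap F F').injective, ← map_inv₀,
    hext]

/-- `K(t') = ι K(t)`. -/
theorem exists_of_mem_adjoin_map {t : F} {z : F'}
    (hz : z ∈ IntermediateField.adjoin K {algebraMap F F' t}) :
    ∃ z₀ ∈ IntermediateField.adjoin K {t}, algebraMap F F' z₀ = z := by
  have h := IntermediateField.adjoin_map K {t} (IsScalarTower.toAlgHom K F F')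
  rw [Set.image_singleton] at h
  have h' : z ∈ (IntermediateField.adjoin K {t}).map (IsScalarTower.toAlgHom K F F') := by
    rw [h]; exact hz
  obtain ⟨z₀, hz₀, rfl⟩ := h'
  exact ⟨z₀, hz₀, rfl⟩

theorem map_mem_adjoin {t : F} {z₀ : F} (hz : z₀ ∈ IntermediateField.adjoin K {t}) :
    algebraMap F F' z₀ ∈ IntermediateField.adjoin K {algebraMap F F' t} := by
  have h := IntermediateField.adjoin_map K {t} (IsScalarTower.toAlgHom K F F')
  rw [Set.image_singleton] at h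
  have h' : algebraMap F F' z₀ ∈
      (IntermediateField.adjoin K {t}).map (IsScalarTower.toAlgHom K F F') := ⟨z₀, hz, rfl⟩
  rw [h] at h'
  exact h'

/-- `R[t'] = ι R[t]`. -/
theorem exists_of_mem_algAdjoin_map {t : F} {p : F'}
    (hp : p ∈ Algebra.adjoin R {algebraMap F F' t}) :
    ∃ p₀ ∈ Algebra.adjoin R {t}, algebraMap F F' p₀ = p := by
  have h := AlgHom.map_adjoin (IsScalarTower.toAlgHom R F F') {t}
  rw [Set.image_singleton] at h
  have h' : p ∈ (Algebra.adjoin R {t}).map (IsScalarTower.toAlgHom R F F') := by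
    rw [h]; exact hp
  obtain ⟨p₀, hp₀, rfl⟩ := h'
  exact ⟨p₀, hp₀, rfl⟩

theorem map_mem_algAdjoin {t : F} {p₀ : F} (hp : p₀ ∈ Algebra.adjoin R {t}) :
    algebraMap F F' p₀ ∈ Algebra.adjoin R {algebraMap F F' t} := by
  have h := AlgHom.map_adjoin (IsScalarTower.toAlgHom R F F') {t}
  rw [Set.image_singleton] at h
  have h' : algebraMap F F' p₀ ∈ (Algebra.adjoin R {t}).map (IsScalarTower.toAlgHom R F F') :=
    ⟨p₀, hp, rfl⟩
  rw [h] at h'
  exact h'

variable [IsFractionRing R K] [IsNoetherianRing R] [IsIntegrallyClosed R] [CharZero K]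

/-- **The glue output lifts.** -/
theorem glueOut_lift {π : R} (hπ : Prime π) {t : F}
    [FiniteDimensional (IntermediateField.adjoin K {algebraMap F F' t}) F']
    (htr : Transcendental K t)
    (O1 O2 : ValuationSubring F) (O1' O2' : ValuationSubring F')
    (hcomap : O1.comap (algebraMap (IntermediateField.adjoin K {t}) F) =
      O2.comap (algebraMap (IntermediateField.adjoin K {t}) F))
    (hR : ∀ r : R, algebraMap R F r ∈ O1) (ht : t ∈ O1) (htinv : t⁻¹ ∈ O1)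
    (hπv : O1.valuation (algebraMap R F π) < 1)
    (hcen0 : ∀ p ∈ Algebra.adjoin R {t}, O1.valuation p < 1 →
      ∃ p' ∈ Algebra.adjoin R {t}, p = algebraMap R F π * p')
    (hcen1 : ∀ p ∈ Algebra.adjoin R {t⁻¹}, O1.valuation p < 1 →
      ∃ p' ∈ Algebra.adjoin R {t⁻¹}, p = algebraMap R F π * p')
    (htwo : ∀ V : ValuationSubring F,
      V.comap (algebraMap (IntermediateField.adjoin K {t}) F) =
        O1.comap (algebraMap (IntermediateField.adjoin K {t}) F) → V = O1 ∨ V = O2)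
    (hext1 : ∀ f : F, algebraMap F F' f ∈ O1' ↔ f ∈ O1)
    (hext2 : ∀ f : F, algebraMap F F' f ∈ O2' ↔ f ∈ O2)
    (huniq1 : ∀ V : ValuationSubring F', (∀ f : F, algebraMap F F' f ∈ V ↔ f ∈ O1) → V = O1')
    (huniq2 : ∀ V : ValuationSubring F', (∀ f : F, algebraMap F F' f ∈ V ↔ f ∈ O2) → V = O2')
    (hval1 : ∀ x : F', O1'.valuation x < 1 →
      O1'.valuation x ≤ O1'.valuation (algebraMap R F' π))
    (hval2 : ∀ x : F', O2'.valuation x < 1 →
      O2'.valuation x ≤ O2'.valuation (algebraMap R F' π)) :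
    GlueOut K π (algebraMap F F' t) O1' O2' := by
  have hinj : Function.Injective (algebraMap F F') := (algebraMap F F').injective
  have hRmap : ∀ r : R, algebraMap R F' r = algebraMap F F' (algebraMap R F r) := fun r =>
    IsScalarTower.algebraMap_apply R F F' r
  have htr' : Transcendental K (algebraMap F F' t) :=
    (transcendental_algebraMap_iff hinj).2 htr
  refine glue_core hπ htr' O1' O2' ?_ ?_ ?_ ?_ ?_ ?_ ?_ ?_ hval1 hval2
  · -- same restriction to `K(t')`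
    ext z
    rw [ValuationSubring.mem_comap, ValuationSubring.mem_comap]
    obtain ⟨z₀, hz₀, hz⟩ := exists_of_mem_adjoin_map (K := K) z.2
    have hz' : algebraMap (IntermediateField.adjoin K {algebraMap F F' t}) F' z =
        algebraMap F F' z₀ := hz.symm
    rw [hz', hext1, hext2]
    exact ⟨fun h => mem_of_comap_eq hcomap hz₀ h, fun h => mem_of_comap_eq hcomap.symm hz₀ h⟩
  · intro r
    rw [hRmap, hext1]
    exact hR r
  · exact (hext1 t).2 ht
  · rw [← map_inv₀]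
    exact (hext1 _).2 htinv
  · rw [hRmap, val_map_lt_one_iff hext1]
    exact hπv
  · intro p hp hlt
    obtain ⟨p₀, hp₀, rfl⟩ := exists_of_mem_algAdjoin_map hp
    obtain ⟨p', hp', hpp⟩ := hcen0 p₀ hp₀ ((val_map_lt_one_iff hext1 p₀).1 hlt)
    exact ⟨algebraMap F F' p', map_mem_algAdjoin hp', by rw [hpp, map_mul, hRmap]⟩
  · intro p hp hlt
    rw [← map_inv₀] at hp
    obtain ⟨p₀, hp₀, rfl⟩ := exists_of_mem_algAdjoin_map hp
    obtain ⟨p', hp', hpp⟩ := hcen1 p₀ hp₀ ((val_map_lt_one_iff hext1 p₀).1 hlt)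
    refine ⟨algebraMap F F' p', ?_, by rw [hpp, map_mul, hRmap]⟩
    have := map_mem_algAdjoin (F' := F') hp'
    rwa [map_inv₀] at this
  · intro V hV
    -- `W = V ∩ F`
    have hW : (V.comap (algebraMap F F')).comap
        (algebraMap (IntermediateField.adjoin K {t}) F) =
        O1.comap (algebraMap (IntermediateField.adjoin K {t}) F) := by
      ext z₀
      rw [ValuationSubring.mem_comap, ValuationSubring.mem_comap, ValuationSubring.mem_comap]
      have hmem : algebraMap F F' (z₀ : F) ∈ IntermediateField.adjoin K {algebraMap F F' t} :=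
        map_mem_adjoin z₀.2
      have h1 : (⟨algebraMap F F' (z₀ : F), hmem⟩ :
          IntermediateField.adjoin K {algebraMap F F' t}) ∈
          V.comap (algebraMap (IntermediateField.adjoin K {algebraMap F F' t}) F') ↔
          algebraMap F F' (z₀ : F) ∈ V := Iff.rfl
      have h2 : (⟨algebraMap F F' (z₀ : F), hmem⟩ :
          IntermediateField.adjoin K {algebraMap F F' t}) ∈
          O1'.comap (algebraMap (IntermediateField.adjoin K {algebraMap F F' t}) F') ↔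
          algebraMap F F' (z₀ : F) ∈ O1' := Iff.rfl
      show algebraMap F F' (z₀ : F) ∈ V ↔ (z₀ : F) ∈ O1
      rw [← h1, hV, h2, hext1]
    rcases htwo _ hW with h | h
    · left
      apply huniq1
      intro f
      rw [← h]
      exact Iff.rfl
    · right
      apply huniq2
      intro f
      rw [← h]
      exact Iff.rfl

end Glue

section Chart

variable {R F F' : Type*} [CommRing R] [Field F] [Field F'] [Algebra R F] [Algebra F F']
  [Algebra R F'] [IsScalarTower R F F']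
variable {B : Subalgebra R F} {B' : Subalgebra R F'} {δ : F' →+* F'} {n : ℕ}

/-- **(LS)**: the smooth normal form at `𝔪` — a local Kummer generator `v` (`δ v = ζ v`) whose
`n`-th power is a unit `w = a / d` of `B_𝔪`. -/
def LSAt (B : Subalgebra R F) (𝔪 : Ideal B) (δ : F' →+* F') (n : ℕ) : Prop :=
  ∃ (ζ : R) (v : F') (w : F) (a d : B), IsPrimitiveRoot (algebraMap R F' ζ) n ∧
    δ v = algebraMap R F' ζ * v ∧ v ^ n = algebraMap F F' w ∧ a ∉ 𝔪 ∧ d ∉ 𝔪 ∧
    w * (d : F) = (a : F)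

/-- `OffBranch` downstairs gives `OffBranch` upstairs. -/
theorem offBranch_map (S : KSetup B B' δ n) (π : R) {O : ValuationSubring F}
    {O' : ValuationSubring F'} (hext : ∀ f : F, algebraMap F F' f ∈ O' ↔ f ∈ O)
    {𝔪 : Ideal B} {𝔪' : Ideal B'} (hover : LiesOver 𝔪 𝔪') (h : OffBranch π B O 𝔪) :
    OffBranch π B' O' 𝔪' := by
  obtain ⟨e, he, c, hc, hec⟩ := h
  refine ⟨incl S e, fun hh => he ((incl_mem_iff S hover e).1 hh), algebraMap F F' c,
    (hext c).2 hc, ?_⟩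
  rw [coe_incl, hec, map_mul, ← IsScalarTower.algebraMap_apply R F F']

/-- **One chart lifts**: smoothness off one branch and node coordinates at the two-branch points. -/
theorem lift_chart (S : KSetup B B' δ n) (hint : (incl S).IsIntegral) (π : R)
    (O1 O2 : ValuationSubring F) (O1' O2' : ValuationSubring F')
    (leO1 : ∀ x ∈ B, x ∈ O1) (leO2 : ∀ x ∈ B, x ∈ O2)
    (sat : ∀ b ∈ B, ∀ c : F, c ∈ O1 → c ∈ O2 → b = algebraMap R F π * c → c ∈ B)
    (pi_ne : algebraMap R F π ≠ 0)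
    (leO1' : ∀ z ∈ B', z ∈ O1') (leO2' : ∀ z ∈ B', z ∈ O2')
    (hO1δ : ∀ c ∈ O1', δ c ∈ O1') (hO2δ : ∀ c ∈ O2', δ c ∈ O2')
    (hext1 : ∀ f : F, algebraMap F F' f ∈ O1' ↔ f ∈ O1)
    (hext2 : ∀ f : F, algebraMap F F' f ∈ O2' ↔ f ∈ O2)
    (hsm : ∀ 𝔪 : Ideal B, 𝔪.IsMaximal → algebraMap R B π ∈ 𝔪 →
      OffBranch π B O1 𝔪 ∨ OffBranch π B O2 𝔪 → SmoothAt π B 𝔪)
    (LS : ∀ 𝔪 : Ideal B, 𝔪.IsMaximal → algebraMap R B π ∈ 𝔪 →
      OffBranch π B O1 𝔪 ∨ OffBranch π B O2 𝔪 → LSAt (F' := F') B 𝔪 δ n)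
    (LN : ∀ 𝔪 : Ideal B, 𝔪.IsMaximal → algebraMap R B π ∈ 𝔪 →
      ¬ OffBranch π B O1 𝔪 → ¬ OffBranch π B O2 𝔪 →
      Nonempty (KNodeDatum (F' := F') π B O1 O2 𝔪 δ n)) :
    (∀ 𝔪' : Ideal B', 𝔪'.IsMaximal → algebraMap R B' π ∈ 𝔪' →
      OffBranch π B' O1' 𝔪' ∨ OffBranch π B' O2' 𝔪' → SmoothAt π B' 𝔪') ∧
    (∀ 𝔪' : Ideal B', 𝔪'.IsMaximal → algebraMap R B' π ∈ 𝔪' →
      ¬ OffBranch π B' O1' 𝔪' → ¬ OffBranch π B' O2' 𝔪' → NodeCoords π B' 𝔪') := by
  have key : ∀ 𝔪' : Ideal B', 𝔪'.IsMaximal → algebraMap R B' π ∈ 𝔪' →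
      ∃ 𝔪 : Ideal B, 𝔪.IsMaximal ∧ algebraMap R B π ∈ 𝔪 ∧ LiesOver 𝔪 𝔪' := by
    intro 𝔪' h𝔪' hπ'
    haveI := h𝔪'
    refine ⟨𝔪'.comap (incl S), Ideal.isMaximal_comap_of_isIntegral_of_isMaximal' _ hint 𝔪', ?_,
      liesOver_comap S 𝔪'⟩
    rw [Ideal.mem_comap, incl_algebraMap]
    exact hπ'
  constructor
  · intro 𝔪' h𝔪' hπ' hoff'
    obtain ⟨𝔪, h𝔪, hπ, hover⟩ := key 𝔪' h𝔪' hπ'
    haveI := h𝔪.isPrime
    haveI := h𝔪'
    haveI hp' := h𝔪'.isPrime
    by_cases hoff : OffBranch π B O1 𝔪 ∨ OffBranch π B O2 𝔪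
    · obtain ⟨ζ, v, w, a, d, hζ, hδv, hvw, ha, hd, hw⟩ := LS 𝔪 h𝔪 hπ hoff
      exact smoothAt_lift S π 𝔪 𝔪' hover (hsm 𝔪 h𝔪 hπ hoff) hζ hδv hvw ha hd hw
    · exfalso
      have h1 : ¬ OffBranch π B O1 𝔪 := fun h => hoff (Or.inl h)
      have h2 : ¬ OffBranch π B O2 𝔪 := fun h => hoff (Or.inr h)
      obtain ⟨D⟩ := LN 𝔪 h𝔪 hπ h1 h2
      have hon2 : ∀ b : B, (∃ c ∈ O2, (b : F) = algebraMap R F π * c) → b ∈ 𝔪 := by
        intro b hb
        by_contra hb𝔪
        exact h2 ⟨b, hb𝔪, hb⟩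
      rcases hoff' with h | h
      · exact D.not_offBranch_lift S pi_ne leO1 leO2 sat hon2 𝔪' hover O1 O1' hO1δ leO1'
          (fun f hf => (hext1 f).1 hf) h1 h
      · exact D.not_offBranch_lift S pi_ne leO1 leO2 sat hon2 𝔪' hover O2 O2' hO2δ leO2'
          (fun f hf => (hext2 f).1 hf) h2 h
  · intro 𝔪' h𝔪' hπ' h1' h2'
    obtain ⟨𝔪, h𝔪, hπ, hover⟩ := key 𝔪' h𝔪' hπ'
    haveI := h𝔪.isPrime
    haveI hp' := h𝔪'.isPrime
    have h1 : ¬ OffBranch π B O1 𝔪 := fun h => h1' (offBranch_map S π hext1 hover h)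
    have h2 : ¬ OffBranch π B O2 𝔪 := fun h => h2' (offBranch_map S π hext2 hover h)
    obtain ⟨D⟩ := LN 𝔪 h𝔪 hπ h1 h2
    have hon2 : ∀ b : B, (∃ c ∈ O2, (b : F) = algebraMap R F π * c) → b ∈ 𝔪 := by
      intro b hb
      by_contra hb𝔪
      exact h2 ⟨b, hb𝔪, hb⟩
    exact D.nodeCoords_lift S pi_ne leO1 leO2 sat hon2 𝔪' hover

end Chart

section Assembly

variable {R K F F' : Type*} [CommRing R] [Field K] [Field F] [Field F']
  [Algebra R K] [Algebra K F] [Algebra R F] [IsScalarTower R K F]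
  [Algebra F F'] [Algebra K F'] [Algebra R F'] [IsScalarTower R K F'] [IsScalarTower R F F']

/-- **KLIFT**: the bundle `NodalNumData` for the Kummer extension `F'`. -/
theorem nodalNumData_lift {π : R} {t : F} {O1 O2 : ValuationSubring F}
    {O1' O2' : ValuationSubring F'} {δ : F' →+* F'} {n : ℕ}
    (hD : NodalNumData R K F π t (chart R t) (chart R t⁻¹) O1 O2)
    (hc' : ChartInputs R K F' π (algebraMap F F' t))
    (g' : GlueOut K π (algebraMap F F' t) O1' O2')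
    (S0 : KSetup (chart R t) (chart R (algebraMap F F' t)) δ n)
    (S1 : KSetup (chart R t⁻¹) (chart R (algebraMap F F' t)⁻¹) δ n)
    (hint0 : (incl S0).IsIntegral) (hint1 : (incl S1).IsIntegral)
    (hO1δ : ∀ c ∈ O1', δ c ∈ O1') (hO2δ : ∀ c ∈ O2', δ c ∈ O2')
    (hext1 : ∀ f : F, algebraMap F F' f ∈ O1' ↔ f ∈ O1)
    (hext2 : ∀ f : F, algebraMap F F' f ∈ O2' ↔ f ∈ O2)
    (LS0 : ∀ 𝔪 : Ideal (chart R t), 𝔪.IsMaximal → algebraMap R (chart R t) π ∈ 𝔪 →
      OffBranch π (chart R t) O1 𝔪 ∨ OffBranch π (chart R t) O2 𝔪 →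
        LSAt (F' := F') (chart R t) 𝔪 δ n)
    (LN0 : ∀ 𝔪 : Ideal (chart R t), 𝔪.IsMaximal → algebraMap R (chart R t) π ∈ 𝔪 →
      ¬ OffBranch π (chart R t) O1 𝔪 → ¬ OffBranch π (chart R t) O2 𝔪 →
        Nonempty (KNodeDatum (F' := F') π (chart R t) O1 O2 𝔪 δ n))
    (LS1 : ∀ 𝔪 : Ideal (chart R t⁻¹), 𝔪.IsMaximal → algebraMap R (chart R t⁻¹) π ∈ 𝔪 →
      OffBranch π (chart R t⁻¹) O1 𝔪 ∨ OffBranch π (chart R t⁻¹) O2 𝔪 →
        LSAt (F' := F') (chart R t⁻¹) 𝔪 δ n)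
    (LN1 : ∀ 𝔪 : Ideal (chart R t⁻¹), 𝔪.IsMaximal → algebraMap R (chart R t⁻¹) π ∈ 𝔪 →
      ¬ OffBranch π (chart R t⁻¹) O1 𝔪 → ¬ OffBranch π (chart R t⁻¹) O2 𝔪 →
        Nonempty (KNodeDatum (F' := F') π (chart R t⁻¹) O1 O2 𝔪 δ n)) :
    NodalNumData R K F' π (algebraMap F F' t) (chart R (algebraMap F F' t))
      (chart R (algebraMap F F' t)⁻¹) O1' O2' := by
  have model' : NodalTwoChartModel R F' π (algebraMap F F' t) (chart R (algebraMap F F' t))
      (chart R (algebraMap F F' t)⁻¹) O1' O2' :=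
    hc'.model O1' O2' g'.R_le_O1 g'.R_le_O2 g'.t_mem_O1 g'.t_mem_O2 g'.tinv_mem_O1 g'.tinv_mem_O2
      g'.pi_ne g'.pi_nonunit1 g'.pi_nonunit2 g'.unif1 g'.unif2 g'.arch1 g'.arch2 g'.sat0 g'.sat1
  obtain ⟨hs0, hn0⟩ := lift_chart S0 hint0 π O1 O2 O1' O2' hD.model.le_O1_0 hD.model.le_O2_0
    hD.model.sat0 hD.model.pi_ne model'.le_O1_0 model'.le_O2_0 hO1δ hO2δ hext1 hext2
    hD.smooth0 LS0 LN0
  obtain ⟨hs1, hn1⟩ := lift_chart S1 hint1 π O1 O2 O1' O2' hD.model.le_O1_1 hD.model.le_O2_1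
    hD.model.sat1 hD.model.pi_ne model'.le_O1_1 model'.le_O2_1 hO1δ hO2δ hext1 hext2
    hD.smooth1 LS1 LN1
  exact
    { model := model'
      noeth0 := hc'.noeth0
      noeth1 := hc'.noeth1
      frac0 := hc'.frac0
      frac1 := hc'.frac1
      fracR := hc'.fracR
      dvrR := hc'.dvrR
      smooth0 := hs0
      smooth1 := hs1
      node0 := hn0
      node1 := hn1
      algClosed := hc'.hKF }

end Assembly

end Fermat.Agent.M43.KLift9
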