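/-
M43 (helper9) [LG-q / K-level wiring, upstairs] LGqUp9: **`NumData13.NodalNumData` for the Kummer
extension `F'` from named inputs** (abstract `R, K, F, F'`).

* `GlueIn π t V₁ V₂` : the base-field inputs of `KLift9.glueOut_lift`;
* `kSetup_chart` : `KLocal9.KSetup (chart R t) (chart R t') δ n` from the `δ`-fields
  (`δ_fix`, `fix_δ`, `δ_pow`, `n` invertible) — everything else is integrality bookkeeping;
* `incl_isIntegral_chart` : `chart R t → chart R t'` is integral;
* `delta_mem_of_uniq` : `δ` preserves the unique extension `O'` of `O`;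
* `nodalNumData_up` : the assembly
    downstairs `NodalNumData` + `GlueOut` + `GlueIn`, upstairs (EXT), (UNIQ), (UNR), the `δ`-fields,
    `K` algebraically closed in `F'`, (LS), (LN)  ⟹  `NodalNumData` for `F'`.
-/
import Mathlib
import Fermat.Agent.M43.KLift9

set_option autoImplicit false
set_option linter.unusedSectionVars false
set_option linter.unusedVariables false

namespace Fermat.Agent.M43.LGqUp9

open Polynomial
open Fermat.Agent.M43.KEigen9 Fermat.Agent.M43.KLocal9 Fermat.Agent.M43.KSmooth9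
  Fermat.Agent.M43.KNode9 Fermat.Agent.M43.KLift9
  Fermat.Agent.ES.N34.NodalCore13 Fermat.Agent.ES.N34.NodalCL13 Fermat.Agent.ES.N34.NumData13
  Fermat.Agent.ES.N34.TwoGlue20 Fermat.Agent.ES.N34.ChartN26
  Fermat.Agent.RED.PUR.ChartGeneric22

/-- **The base-field inputs of `KLift9.glueOut_lift`.** -/
structure GlueIn {R F : Type*} (K : Type*) [CommRing R] [Field K] [Field F] [Algebra K F]
    [Algebra R F] (π : R) (t : F) (V₁ V₂ : ValuationSubring F) : Prop where
  htr : Transcendental K t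
  hcomap : V₁.comap (algebraMap (IntermediateField.adjoin K {t}) F) =
    V₂.comap (algebraMap (IntermediateField.adjoin K {t}) F)
  hR : ∀ r : R, algebraMap R F r ∈ V₁
  ht : t ∈ V₁
  htinv : t⁻¹ ∈ V₁
  hπv : V₁.valuation (algebraMap R F π) < 1
  hcen0 : ∀ p ∈ Algebra.adjoin R {t}, V₁.valuation p < 1 →
    ∃ p' ∈ Algebra.adjoin R {t}, p = algebraMap R F π * p'
  hcen1 : ∀ p ∈ Algebra.adjoin R {t⁻¹}, V₁.valuation p < 1 →
    ∃ p' ∈ Algebra.adjoin R {t⁻¹}, p = algebraMap R F π * p'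

section Charts

variable {R F F' : Type*} [CommRing R] [Field F] [Field F'] [Algebra R F] [Algebra F F']
  [Algebra R F'] [IsScalarTower R F F']

theorem map_mem_algAdjoin' {t : F} {p₀ : F} (hp : p₀ ∈ Algebra.adjoin R {t}) :
    algebraMap F F' p₀ ∈ Algebra.adjoin R {algebraMap F F' t} := by
  have h := AlgHom.map_adjoin (IsScalarTower.toAlgHom R F F') {t}
  rw [Set.image_singleton] at h
  have h' : algebraMap F F' p₀ ∈ (Algebra.adjoin R {t}).map (IsScalarTower.toAlgHom R F F') :=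
    ⟨p₀, hp, rfl⟩
  rw [h] at h'
  exact h'

theorem exists_of_mem_algAdjoin_map' {t : F} {p : F'}
    (hp : p ∈ Algebra.adjoin R {algebraMap F F' t}) :
    ∃ p₀ ∈ Algebra.adjoin R {t}, algebraMap F F' p₀ = p := by
  have h := AlgHom.map_adjoin (IsScalarTower.toAlgHom R F F') {t}
  rw [Set.image_singleton] at h
  have h' : p ∈ (Algebra.adjoin R {t}).map (IsScalarTower.toAlgHom R F F') := by
    rw [h]; exact hp
  obtain ⟨p₀, hp₀, rfl⟩ := h'
  exact ⟨p₀, hp₀, rfl⟩

/-- integral elements of `F` stay integral in `F'`. -/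
theorem map_mem_chart {t x : F} (hx : x ∈ chart R t) :
    algebraMap F F' x ∈ chart R (algebraMap F F' t) := by
  rw [mem_chart_iff, isIntegral_subalgebra_iff] at hx ⊢
  obtain ⟨P, hP, hcoeff, hPx⟩ := hx
  refine ⟨P.map (algebraMap F F'), hP.map _, fun i => ?_, ?_⟩
  · rw [coeff_map]
    exact map_mem_algAdjoin' (hcoeff i)
  · rw [eval_map, eval₂_hom, hPx, map_zero]

/-- a monic polynomial over `R[t]` killing an element of the chart upstairs. -/
theorem exists_monic_of_mem_chart {t : F} {z : F'} (hz : z ∈ chart R (algebraMap F F' t)) :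
    ∃ q : F[X], q.Monic ∧ (∀ i, q.coeff i ∈ Algebra.adjoin R {t}) ∧
      (q.map (algebraMap F F')).eval z = 0 := by
  rw [mem_chart_iff, isIntegral_subalgebra_iff] at hz
  obtain ⟨P', hP', hcoeff, hPz⟩ := hz
  have hinj : Function.Injective (algebraMap F F') := (algebraMap F F').injective
  have hl : P' ∈ lifts (algebraMap F F') := by
    rw [lifts_iff_coeff_lifts]
    intro i
    obtain ⟨c, -, hc⟩ := exists_of_mem_algAdjoin_map' (hcoeff i)
    exact ⟨c, hc⟩
  obtain ⟨q, hq, -, hqm⟩ := lifts_and_natDegree_eq_and_monic hl hP'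
  refine ⟨q, hqm, fun i => ?_, by rw [hq]; exact hPz⟩
  obtain ⟨c, hc, hcc⟩ := exists_of_mem_algAdjoin_map' (hcoeff i)
  have h1 : algebraMap F F' (q.coeff i) = algebraMap F F' c := by rw [← coeff_map, hq, hcc]
  rw [hinj h1]
  exact hc

/-- integrality descends. -/
theorem mem_chart_of_map {t x : F} (hx : algebraMap F F' x ∈ chart R (algebraMap F F' t)) :
    x ∈ chart R t := by
  obtain ⟨q, hqm, hcoeff, hq⟩ := exists_monic_of_mem_chart hx
  rw [mem_chart_iff, isIntegral_subalgebra_iff]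
  refine ⟨q, hqm, hcoeff, ?_⟩
  apply (algebraMap F F').injective
  rw [map_zero, ← eval₂_hom, ← eval_map]
  exact hq

/-- the chart is closed under roots. -/
theorem root_mem_chart (t : F) (x : F) (k : ℕ) (hk : 0 < k) (hx : x ^ k ∈ chart R t) :
    x ∈ chart R t := by
  refine chart_intcl t x ⟨X ^ k - C (⟨x ^ k, hx⟩ : chart R t), monic_X_pow_sub_C _ hk.ne', ?_⟩
  rw [eval₂_sub, eval₂_pow, eval₂_X, eval₂_C]
  exact sub_self _

/-- an endomorphism fixing `F` preserves the chart upstairs. -/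
theorem delta_mem_chart {t : F} (δ : F' →+* F')
    (δ_fix : ∀ x : F, δ (algebraMap F F' x) = algebraMap F F' x) {z : F'}
    (hz : z ∈ chart R (algebraMap F F' t)) : δ z ∈ chart R (algebraMap F F' t) := by
  obtain ⟨q, hqm, hcoeff, hq⟩ := exists_monic_of_mem_chart hz
  rw [mem_chart_iff, isIntegral_subalgebra_iff]
  refine ⟨q.map (algebraMap F F'), hqm.map _, fun i => ?_, ?_⟩
  · rw [coeff_map]
    exact map_mem_algAdjoin' (hcoeff i)
  · have h1 : (q.map (algebraMap F F')).map δ = q.map (algebraMap F F') := by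
      ext i
      rw [coeff_map, coeff_map, δ_fix]
    have h2 := congrArg δ hq
    rw [map_zero, ← eval₂_hom, ← eval_map, h1] at h2
    exact h2

/-- **`KSetup` for the charts.** -/
theorem kSetup_chart (t : F) (δ : F' →+* F') (n : ℕ)
    (δ_fix : ∀ x : F, δ (algebraMap F F' x) = algebraMap F F' x)
    (fix_δ : ∀ z : F', δ z = z → ∃ x : F, algebraMap F F' x = z)
    (δ_pow : ∀ z : F', (δ^[n]) z = z) (n_pos : 0 < n) (ninv : ∃ c : R, (n : R) * c = 1) :
    KSetup (chart R t) (chart R (algebraMap F F' t)) δ n where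
  map_mem := fun x hx => map_mem_chart hx
  mem_of_map := fun x hx => mem_chart_of_map hx
  root_mem := fun x k hk hx => root_mem_chart t x k hk hx
  root_mem' := fun z k hk hz => root_mem_chart _ z k hk hz
  δ_mem := fun z hz => delta_mem_chart δ δ_fix hz
  δ_fix := δ_fix
  fix_δ := fix_δ
  δ_pow := δ_pow
  n_pos := n_pos
  ninv := ninv

/-- `chart R t → chart R t'` is integral. -/
theorem incl_isIntegral_chart {t : F} {δ : F' →+* F'} {n : ℕ}
    (S : KSetup (chart R t) (chart R (algebraMap F F' t)) δ n) : (incl S).IsIntegral := by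
  intro z
  obtain ⟨q, hqm, hcoeff, hq⟩ := exists_monic_of_mem_chart z.2
  have hl : q ∈ lifts (algebraMap (chart R t) F) := by
    rw [lifts_iff_coeff_lifts]
    intro i
    exact ⟨⟨q.coeff i, adjoin_le_chart t (hcoeff i)⟩, rfl⟩
  obtain ⟨p, hp, -, hpm⟩ := lifts_and_natDegree_eq_and_monic hl hqm
  refine ⟨p, hpm, ?_⟩
  apply Subtype.ext
  have h1 := hom_eval₂ p (incl S) ((chart R (algebraMap F F' t)).val : _ →+* F') z
  have h2 : ((chart R (algebraMap F F' t)).val : _ →+* F').comp (incl S) =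
      (algebraMap F F').comp (algebraMap (chart R t) F) := RingHom.ext fun b => rfl
  rw [h2] at h1
  show ((chart R (algebraMap F F' t)).val : _ →+* F') (eval₂ (incl S) z p) = 0
  rw [h1, ← eval_map, ← map_map, hp]
  exact hq

/-- `δ` preserves the unique extension of `O`. -/
theorem delta_mem_of_uniq {O : ValuationSubring F} {O' : ValuationSubring F'} (δ : F' →+* F')
    (δ_fix : ∀ x : F, δ (algebraMap F F' x) = algebraMap F F' x)
    (hext : ∀ f : F, algebraMap F F' f ∈ O' ↔ f ∈ O)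
    (huniq : ∀ V : ValuationSubring F', (∀ f : F, algebraMap F F' f ∈ V ↔ f ∈ O) → V = O') :
    ∀ c ∈ O', δ c ∈ O' := by
  have h := huniq (O'.comap δ) (fun f => by rw [ValuationSubring.mem_comap, δ_fix, hext])
  intro c hc
  have h1 : c ∈ O'.comap δ := by rw [h]; exact hc
  exact h1

end Charts

section Assembly

variable {R K F F' : Type*} [CommRing R] [IsDomain R] [Field K] [Field F] [Field F']
  [Algebra R K] [Algebra K F] [Algebra R F] [IsScalarTower R K F]
  [Algebra F F'] [Algebra K F'] [Algebra R F'] [IsScalarTower K F F'] [IsScalarTower R K F']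
  [IsScalarTower R F F']
  [IsFractionRing R K] [IsNoetherianRing R] [IsIntegrallyClosed R] [CharZero K]

/-- **MODEL' (abstract assembly).** -/
theorem nodalNumData_up {π : R} (hπ : Prime π) {t : F}
    [FiniteDimensional (IntermediateField.adjoin K {algebraMap F F' t}) F']
    {O1 O2 : ValuationSubring F} {O1' O2' : ValuationSubring F'} {δ : F' →+* F'} {n : ℕ}
    (hD : NodalNumData R K F π t (chart R t) (chart R t⁻¹) O1 O2)
    (gout : GlueOut K π t O1 O2) (gin : GlueIn K π t O1 O2)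
    (dvrR : ∀ r : R, r ≠ 0 → ∃ (k : ℕ) (v : Rˣ), r = π ^ k * v)
    (hKF' : ∀ y : F', IsAlgebraic K y → ∃ c : K, algebraMap K F' c = y)
    (hext1 : ∀ f : F, algebraMap F F' f ∈ O1' ↔ f ∈ O1)
    (hext2 : ∀ f : F, algebraMap F F' f ∈ O2' ↔ f ∈ O2)
    (huniq1 : ∀ V : ValuationSubring F', (∀ f : F, algebraMap F F' f ∈ V ↔ f ∈ O1) → V = O1')
    (huniq2 : ∀ V : ValuationSubring F', (∀ f : F, algebraMap F F' f ∈ V ↔ f ∈ O2) → V = O2')
    (hval1 : ∀ x : F', O1'.valuation x < 1 →
      O1'.valuation x ≤ O1'.valuation (algebraMap R F' π))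
    (hval2 : ∀ x : F', O2'.valuation x < 1 →
      O2'.valuation x ≤ O2'.valuation (algebraMap R F' π))
    (δ_fix : ∀ x : F, δ (algebraMap F F' x) = algebraMap F F' x)
    (fix_δ : ∀ z : F', δ z = z → ∃ x : F, algebraMap F F' x = z)
    (δ_pow : ∀ z : F', (δ^[n]) z = z) (n_pos : 0 < n) (ninv : ∃ c : R, (n : R) * c = 1)
    (LS0 : ∀ 𝔪 : Ideal (chart R t), 𝔪.IsMaximal → algebraMap R (chart R t) π ∈ 𝔪 →
      OffBranch π (chart R t) O1 𝔪 ∨ OffBranch π (chart R t) O2 𝔪 →
        LSAt (F' := F') (chart R t) 𝔪 δ n)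
    (LN0 : ∀ 𝔪 : Ideal (chart R t), 𝔪.IsMaximal → algebraMap R (chart R t) π ∈ 𝔪 →
      ¬ OffBranch π (chart R t) O1 𝔪 → ¬ OffBranch π (chart R t) O2 𝔪 →
        Nonempty (KNodeDatum (F' := F') π (chart R t) O1 O2 𝔪 δ n))
    (LS1 : ∀ 𝔪 : Ideal (chart R t⁻¹), 𝔪.IsMaximal → algebraMap R (chart R t⁻¹) π ∈ 𝔪 →
      OffBranch π (chart R t⁻¹) O1 𝔪 ∨ OffBranch π (chart R t⁻¹) O2 𝔪 →
        LSAt (F' := F') (chart R t⁻¹) 𝔪 δ n)
    (LN1 : ∀ 𝔪 : Ideal (chart R t⁻¹), 𝔪.IsMaximal → algebraMap R (chart R t⁻¹) π ∈ 𝔪 →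
      ¬ OffBranch π (chart R t⁻¹) O1 𝔪 → ¬ OffBranch π (chart R t⁻¹) O2 𝔪 →
        Nonempty (KNodeDatum (F' := F') π (chart R t⁻¹) O1 O2 𝔪 δ n)) :
    NodalNumData R K F' π (algebraMap F F' t) (chart R (algebraMap F F' t))
      (chart R (algebraMap F F' t)⁻¹) O1' O2' := by
  have htr' : Transcendental K (algebraMap F F' t) :=
    (transcendental_algebraMap_iff (algebraMap F F').injective).2 gin.htr
  have hc' : ChartInputs R K F' π (algebraMap F F' t) := chartInputs_of htr' dvrR hKF'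
  have g' : GlueOut K π (algebraMap F F' t) O1' O2' :=
    glueOut_lift hπ gin.htr O1 O2 O1' O2' gin.hcomap gin.hR gin.ht gin.htinv gin.hπv gin.hcen0
      gin.hcen1 gout.two hext1 hext2 huniq1 huniq2 hval1 hval2
  have S0 : KSetup (chart R t) (chart R (algebraMap F F' t)) δ n :=
    kSetup_chart t δ n δ_fix fix_δ δ_pow n_pos ninv
  have S1 : KSetup (chart R t⁻¹) (chart R (algebraMap F F' t)⁻¹) δ n := by
    have h := kSetup_chart (R := R) t⁻¹ δ n δ_fix fix_δ δ_pow n_pos ninv
    rwa [map_inv₀] at h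
  have hint0 := incl_isIntegral_chart S0
  have hint1 : (incl S1).IsIntegral := by
    have h : ∀ (t₁ : F') (ht₁ : t₁ = algebraMap F F' t⁻¹)
        (S : KSetup (chart R t⁻¹) (chart R t₁) δ n), (incl S).IsIntegral := by
      intro t₁ ht₁
      subst ht₁
      exact fun S => incl_isIntegral_chart S
    exact h _ (map_inv₀ _ _).symm S1
  exact nodalNumData_lift hD hc' g' S0 S1 hint0 hint1
    (delta_mem_of_uniq δ δ_fix hext1 huniq1) (delta_mem_of_uniq δ δ_fix hext2 huniq2)
    hext1 hext2 LS0 LN0 LS1 LN1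

end Assembly

end Fermat.Agent.M43.LGqUp9
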