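/-
M43 (helper9) [LG-q / K-level wiring, downstairs] LGqDown9: **the facts about the base field
`F = FK (M' q) K` consumed by KLIFT**, for all large finite normal `K ⊂ ℚ̄`.

* `glueIn_of_pullbacks` : `LGqUp9.GlueIn` (the base-field inputs of `KLift9.glueOut_lift`: `t`
  transcendental, same restriction of `V₁, V₂` to `K(t)`, `R, t, t⁻¹ ∈ V₁`, `v₁(π) < 1`, the centre
  of `V₁` on `R[t]` and on `R[t⁻¹]` is `(π)`) for two Gauss pull-backs (`GaussEmb22`);
* `exists_down` : for `q` odd, `q ∤ M'`, `4 ∣ M'`, over every large finite normal `K` the Program N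
  data `(tN, B0, B1, O1, O2)` satisfy `NodalNumData` (= `ModelEnd4.modelInput_four`), `GlueOut` and
  `GlueIn`.
-/
import Mathlib
import Fermat.Agent.ES.N34.ModelEnd4
import Fermat.Agent.M43.LGqUp9

set_option autoImplicit false
set_option synthInstance.maxHeartbeats 400000
set_option linter.unusedSectionVars false

noncomputable section

open HahnSeries ModularCurve IntermediateField

namespace Fermat.Agent.M43.LGqDown9

open Fermat.Agent.RED.Interface4 Fermat.Agent.RED.PUR.GaussGen8 Fermat.Agent.RED.PUR.KtGauss8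
open Fermat.Agent.RED.PUR.G1Package8
open Fermat.Agent.ES.N34.GaussEmb22 Fermat.Agent.ES.N34.G2Out22 Fermat.Agent.ES.N34.ModelDefs9
open Fermat.Agent.ES.N34.ModelGlue22 Fermat.Agent.ES.N34
open Fermat.Agent.RED.BASE Fermat.Agent.RED.BASE.EtaQuot12

section Generic

variable {K : Type*} [Field K] {O : ValuationSubring K}

variable [IsDiscreteValuationRing ↥O] {π : ↥O} [CharZero K]

/-- `GlueIn` for two Gauss pull-backs. -/
theorem glueIn_of_pullbacks {F : Type*} [Field F] [Algebra K F] [Algebra ↥O F]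
    [IsScalarTower ↥O K F] {ι₁ ι₂ : F →ₐ[K] LaurentSeries K} {V₁ V₂ : ValuationSubring F} {t : F}
    (hV₁ : IsGaussPullback O ι₁ V₁) (hV₂ : IsGaussPullback O ι₂ V₂)
    (hπ : Irreducible π)
    (ht₁ : ι₁ t ∈ gaussRing O) (htr₁ : Transcendental (Res O) (gaussRed O ⟨ι₁ t, ht₁⟩))
    (ht₂ : ι₂ t ∈ gaussRing O) (htr₂ : Transcendental (Res O) (gaussRed O ⟨ι₂ t, ht₂⟩)) :
    LGqUp9.GlueIn K π t V₁ V₂ where
  htr := transcendental_of_map hπ ht₁ htr₁
  hcomap := comap_eq hV₁ hV₂ hπ ht₁ htr₁ ht₂ htr₂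
  hR := algebraMap_O_mem hV₁
  ht := (hV₁ t).mpr ht₁
  htinv := (hV₁ _).mpr (map_inv_mem ht₁ htr₁)
  hπv := by rw [algebraMap_O_eq]; exact val_pi_lt_one hV₁ hπ
  hcen0 := center_adjoin hV₁ hπ ht₁ htr₁
  hcen1 := center_adjoin hV₁ hπ (map_inv_mem ht₁ htr₁) (transcendental_inv ht₁ htr₁)

end Generic

set_option maxHeartbeats 3200000 in
/-- **Downstairs data over all large `K`** (`q` odd, `4 ∣ M'`). -/
theorem exists_down (q M' : ℕ) [NeZero M'] [NeZero q] (A : ValuationSubring Qbar)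
    (hq : q.Prime) (hqM : ¬ q ∣ M') (hq2 : q ≠ 2) (hM : 4 ∣ M') (hA : A.LiesOverPrime q) :
    ∃ K₀ : IntermediateField ℚ Qbar, FiniteDimensional ℚ K₀ ∧
      ∀ (K : IntermediateField ℚ Qbar) [Normal ℚ K], FiniteDimensional ℚ K → K₀ ≤ K →
        ∃ (ht : tq ↥K 4 8 ∈ FK M' K) (hE : FK (M' * q) K ≤ fracField (AK A K)),
          ∀ (π : ↥(AK A K)) (hπ : IsUnif (AK A K) π),
            ModelInput13.NodalDataAt (AK A K) (FK (M' * q) K) π (tN q ht) (B0 A q ht)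
              (B1 A q ht) (O1 M' q hπ hE) (O2 M' q hπ hE) ∧
            TwoGlue20.GlueOut (↥K) π (tN q ht) (O1 M' q hπ hE) (O2 M' q hπ hE) ∧
            LGqUp9.GlueIn (↥K) π (tN q ht) (O1 M' q hπ hE) (O2 M' q hπ hE) ∧
            FiniteDimensional ↥(IntermediateField.adjoin ↥K {tN q ht}) ↥(FK (M' * q) K) := by
  have hJ : Fermat.Agent.RED.ModelTargets4.JTarget 4 8 :=
    Fermat.Agent.RED.ModelFinal4.jTarget
      (Fermat.Agent.RED.BASE.MainCusp12.base_four M' hM).1.genBase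
  obtain ⟨K₁, hK₁, h1⟩ := ModelEnd4.modelInput_four q M' A hq hqM hq2 hM hA
  obtain ⟨K₂, hK₂, h2⟩ := GaussVTwoInst25.v2Items_large A M' q 4 8 hq hqM hA hJ
  obtain ⟨K₃, hK₃, h3⟩ := ModelTop4.glueItems_of_v2 hq hqM hA hJ ⟨K₂, hK₂, h2⟩
  obtain ⟨K₄, hK₄, h4⟩ := hJ
  have := hK₁
  have := hK₂
  have := hK₃
  have := hK₄
  refine ⟨K₁ ⊔ K₂ ⊔ K₃ ⊔ K₄, inferInstance, fun K _ hfd hle => ?_⟩
  have hle₁ : K₁ ≤ K := ((le_sup_left.trans le_sup_left).trans le_sup_left).trans hle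
  have hle₂ : K₂ ≤ K := ((le_sup_right.trans le_sup_left).trans le_sup_left).trans hle
  have hle₃ : K₃ ≤ K := (le_sup_right.trans le_sup_left).trans hle
  have hle₄ : K₄ ≤ K := le_sup_right.trans hle
  obtain ⟨ht, hE, hN⟩ := h1 K hfd hle₁
  refine ⟨ht, hE, fun π hπ => ⟨hN π hπ, h3 K hfd hle₃ ht hE π hπ, ?_⟩⟩
  have hdvr : IsDiscreteValuationRing ↥(AK A K) :=
    Fermat.Agent.RED.DESC.NumberFieldDVR27.isDiscreteValuationRing_AK A K hq.ne_zero hA
  have hirr : Irreducible π := (IsDiscreteValuationRing.irreducible_iff_uniformizer π).mpr hπ.max_eq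
  obtain ⟨-, ht₂, htr₂, -, -, -⟩ := h2 K hfd hle₂ ht hE π hπ
  have ht₁ := tN_mem_gaussRing (A := A) M' q ht
  have heq := tN_eq_tG (A := A) M' q ht ht₁
  have htr₁ : Transcendental (Res (AK A K))
      (gaussRed (AK A K) ⟨((tN q ht : FK (M' * q) K) : LaurentSeries K), ht₁⟩) := by
    rw [heq]
    exact Fermat.Agent.RED.BASE.TBridge15.transcendental_gaussRed_tG (AK A K) 4 8
  have := Fermat.Agent.RED.NumInst4.isScalarTower_OE (AK A K) (FK (M' * q) K)
  refine ⟨glueIn_of_pullbacks (isGaussPullback_O1 M' q hπ hE) (isGaussPullback_O2 M' q hπ hE) hirr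
    (t := tN q ht) ht₁ htr₁ ht₂ htr₂, ?_⟩
  have hjt : jqModC K ∈ Kt (AK A K) ⟨((tN q ht : ↥(FK (M' * q) K)) : LaurentSeries K), ht₁⟩ := by
    rw [heq]
    exact h4 K hfd hle₄
  have : NeZero (M' * q) := ⟨Nat.mul_ne_zero (NeZero.ne M') (NeZero.ne q)⟩
  have hn : relfinrank (Kt (AK A K) ⟨((tN q ht : ↥(FK (M' * q) K)) : LaurentSeries K), ht₁⟩)
      (FK (M' * q) K) ≠ 0 :=
    Fermat.Agent.RED.ModelMain4.relfinrank_ne_zero (AK A K) (M' * q) _ (tN q ht).2 hjt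
  exact Fermat.Agent.RED.ModelAsm4.finiteDimensional_adjoin (tN q ht) hn

end Fermat.Agent.M43.LGqDown9
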