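/-
Programme M43, chapter (LG-q), K-level wiring (helper8): **the largeness conditions on the auxiliary
number fields `K ⊂ ℚbar`** used by `ModelFH8.mixReadyAt_FH`, `LSInst8.ls_FH` and (LN):
`ζ_r ∈ K`, a primitive `n`-th root of unity in `K`, an `n`-th root of `r` in `K`, `ζ_{M'} ∈ K`.

* `exists_K1` : one finite-dimensional `K₁` such that every `K ⊇ K₁` satisfies all four;
* `exists_isUnif` : the DVR `AK A K` has a uniformiser in the sense of `GaussGen8.IsUnif`.
-/
import Mathlib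
import Fermat.Agent.X0.RootsK
import Fermat.Agent.RED.DESC.NumberFieldDVR27
import Fermat.Agent.RED.PUR.GaussGen8

set_option autoImplicit false
set_option linter.unusedSectionVars false
set_option linter.style.haveILetI false

noncomputable section

namespace Fermat.Agent.M43.LargeK8

local notation "Qbar" => AlgebraicClosure ℚ

open Fermat.Agent.X0 Fermat.Agent.RED.Interface4

/-- **the largeness conditions hold over every `K ⊇ K₁`.** -/
theorem exists_K1 (r M' n : ℕ) [NeZero r] [NeZero M'] (hn : n ≠ 0) :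
    ∃ K₁ : IntermediateField ℚ Qbar, FiniteDimensional ℚ K₁ ∧
      ∀ K : IntermediateField ℚ Qbar, K₁ ≤ K →
        (∃ ζr : ↥K, algebraMap ↥K Qbar ζr = zetaK r) ∧
        (∃ ζ : ↥K, IsPrimitiveRoot ζ n) ∧
        (∃ ρ : ↥K, ρ ^ n = (r : ↥K)) ∧ zetaK M' ∈ K := by
  haveI : NeZero n := ⟨hn⟩
  obtain ⟨ρ, hρ⟩ := IsAlgClosed.exists_pow_nat_eq (r : Qbar) (Nat.pos_of_ne_zero hn)
  set S : Set Qbar := {zetaK r, zetaK n, ρ, zetaK M'} with hS
  haveI : Finite S := by
    rw [hS]
    exact Set.Finite.to_subtype (Set.toFinite _)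
  refine ⟨IntermediateField.adjoin ℚ S,
    IntermediateField.finiteDimensional_adjoin fun x _ =>
      (AlgebraicClosure.isAlgebraic ℚ).isAlgebraic x |>.isIntegral, fun K hK => ?_⟩
  have hmem : ∀ x ∈ S, x ∈ K := fun x hx => hK (IntermediateField.subset_adjoin ℚ S hx)
  have h1 : zetaK r ∈ K := hmem _ (by rw [hS]; simp)
  have h2 : zetaK n ∈ K := hmem _ (by rw [hS]; simp)
  have h3 : ρ ∈ K := hmem _ (by rw [hS]; simp)
  have h4 : zetaK M' ∈ K := hmem _ (by rw [hS]; simp)
  refine ⟨⟨⟨zetaK r, h1⟩, rfl⟩, ⟨⟨zetaK n, h2⟩, ?_⟩, ⟨⟨ρ, h3⟩, ?_⟩, h4⟩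
  · exact IsPrimitiveRoot.of_map_of_injective (f := algebraMap ↥K Qbar)
      (isPrimitiveRoot_zetaK n) (algebraMap ↥K Qbar).injective
  · apply (algebraMap ↥K Qbar).injective
    rw [map_pow, map_natCast]
    exact hρ

open Fermat.Agent.RED.DESC.NumberFieldDVR27 Fermat.Agent.RED.PUR.GaussGen8

/-- `AK A K` has a uniformiser. -/
theorem exists_isUnif {q : ℕ} (hq : q.Prime) {A : ValuationSubring Qbar}
    (hA : A.LiesOverPrime q) (K : IntermediateField ℚ Qbar) [FiniteDimensional ℚ K] :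
    ∃ π : ↥(AK A K), IsUnif (AK A K) π := by
  haveI : IsDiscreteValuationRing ↥(AK A K) := isDiscreteValuationRing_AK A K hq.ne_zero hA
  obtain ⟨π, hπ⟩ := IsDiscreteValuationRing.exists_irreducible ↥(AK A K)
  exact ⟨π, isUnif_of_irreducible (AK A K) hπ⟩

end Fermat.Agent.M43.LargeK8
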