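/-
Programme M43, chapter (LG-q), block [FIELD] (helper8): **descent of the field of constants for
subfields of Laurent series fields.**

For fields `k ⊆ K` and `F₀ ⊆ ℚ((q))`: a series `x ∈ k((q))` whose coefficientwise image in `K((q))`
lies in `K · F₀` already lies in `k · F₀` (`mem_laurentBaseChange_of_coeffMap_mem`).

Proof: `K · F₀` is the fraction field of the `K`-span `W` of the image of `E = k · F₀`; for a
`k`-linear functional `l : K → k` the coefficientwise map `Λ_l : K((q)) → k((q))` is
`k((q))`-semilinear (`coeffLin_mul`) and maps `W` into `E`; from `Φ(x) · s = r` with `r, s ∈ W`,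
`s ≠ 0`, we get `x · Λ_l(s) = Λ_l(r)` and `Λ_l(s) ≠ 0` for a suitable `l`.
-/
import Mathlib
import Fermat.Prelude.Def_ModularCurve_LaurentCoeff
import Fermat.Agent.RED.DESC.CoeffDescent1

set_option autoImplicit false

open HahnSeries ModularCurve

noncomputable section

namespace Fermat.Agent.M43.DescentC8

variable {k K : Type*} [Field k] [Field K] [Algebra k K]

/-- coefficientwise application of a `k`-linear functional `K → k`. -/
def coeffLin (l : K →ₗ[k] k) : LaurentSeries K →+ LaurentSeries k where
  toFun z := z.map l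
  map_zero' := by
    ext n
    simp
  map_add' x y := by
    ext n
    simp

@[simp] theorem coeffLin_coeff (l : K →ₗ[k] k) (z : LaurentSeries K) (n : ℤ) :
    (coeffLin l z).coeff n = l (z.coeff n) := rfl

theorem support_coeffLin_subset (l : K →ₗ[k] k) (z : LaurentSeries K) :
    (coeffLin l z).support ⊆ z.support := by
  intro n hn
  rw [HahnSeries.mem_support] at hn ⊢
  intro h0
  apply hn
  rw [coeffLin_coeff, h0, map_zero]

theorem support_coeffMap_subset (y : LaurentSeries k) :
    (coeffMap (algebraMap k K) y).support ⊆ y.support := by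
  intro n hn
  rw [HahnSeries.mem_support] at hn ⊢
  intro h0
  apply hn
  rw [coeffMap_coeff, h0, map_zero]

/-- **`Λ_l` is semilinear over `k((q))`.** -/
theorem coeffLin_mul (l : K →ₗ[k] k) (y : LaurentSeries k) (z : LaurentSeries K) :
    coeffLin l (coeffMap (algebraMap k K) y * z) = y * coeffLin l z := by
  ext n
  rw [coeffLin_coeff, HahnSeries.coeff_mul_left' y.isPWO_support (support_coeffMap_subset y),
    HahnSeries.coeff_mul_right' z.isPWO_support (support_coeffLin_subset l z), map_sum]
  refine Finset.sum_congr rfl fun ij _ => ?_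
  rw [coeffMap_coeff, coeffLin_coeff, ← Algebra.smul_def, map_smul, smul_eq_mul]

theorem coeffLin_algebraMap_mul (l : K →ₗ[k] k) (c : K) (z : LaurentSeries K) (n : ℤ) :
    (coeffLin l (algebraMap K (LaurentSeries K) c * z)).coeff n = l (c * z.coeff n) := by
  rw [coeffLin_coeff, algebraMap_laurentSeries_eq_single, HahnSeries.coeff_single_zero_mul]

/-- the functional `a ↦ l (c a)`. -/
def mulFun (l : K →ₗ[k] k) (c : K) : K →ₗ[k] k := l.comp (LinearMap.mulLeft k c)

theorem coeffLin_algebraMap_mul' (l : K →ₗ[k] k) (c : K) (z : LaurentSeries K) :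
    coeffLin l (algebraMap K (LaurentSeries K) c * z) = coeffLin (mulFun l c) z := by
  ext n
  rw [coeffLin_algebraMap_mul]
  rfl

theorem coeffLin_coeffMap (l : K →ₗ[k] k) (e : LaurentSeries k) :
    coeffLin l (coeffMap (algebraMap k K) e) = algebraMap k (LaurentSeries k) (l 1) * e := by
  ext n
  rw [coeffLin_coeff, coeffMap_coeff, algebraMap_laurentSeries_eq_single,
    HahnSeries.coeff_single_zero_mul, Algebra.algebraMap_eq_smul_one, map_smul, smul_eq_mul,
    mul_comm]

/-- a nonzero series has a nonzero image under some `Λ_l`. -/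
theorem exists_coeffLin_ne_zero {s : LaurentSeries K} (hs : s ≠ 0) :
    ∃ l : K →ₗ[k] k, coeffLin l s ≠ 0 := by
  obtain ⟨n, hn⟩ : ∃ n, s.coeff n ≠ 0 := by
    by_contra h
    push Not at h
    exact hs (HahnSeries.ext (funext h))
  obtain ⟨l, hl⟩ : ∃ l : Module.Dual k K, l (s.coeff n) ≠ 0 := by
    by_contra h
    push Not at h
    exact hn ((Module.forall_dual_apply_eq_zero_iff k (s.coeff n)).1 h)
  refine ⟨l, fun h0 => hl ?_⟩
  have := congrArg (fun z : LaurentSeries k => z.coeff n) h0
  simpa using this

/-! ### the main lemma, abstract form -/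

/-- **descent, abstract form**: `E` a subfield of `k((q))` containing the constants; if
`Φ(x) = r / s` with `r, s` in the `K`-subalgebra generated by `Φ(E)` then `x ∈ E`. -/
theorem mem_of_coeffMap_mem_adjoin (E : IntermediateField k (LaurentSeries k))
    {x : LaurentSeries k}
    (hx : coeffMap (algebraMap k K) x ∈ IntermediateField.adjoin K
      (⇑(coeffMap (algebraMap k K)) '' (E : Set (LaurentSeries k)))) : x ∈ E := by
  set Φ := coeffMap (algebraMap k K) with hΦ
  -- every element of the subalgebra is mapped into `E` by every `Λ_l`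
  have key : ∀ w ∈ Algebra.adjoin K (⇑Φ '' (E : Set (LaurentSeries k))),
      ∀ l : K →ₗ[k] k, coeffLin l w ∈ E := by
    intro w hw
    have hw' : w ∈ Subalgebra.toSubmodule
        (Algebra.adjoin K (⇑Φ '' (E : Set (LaurentSeries k)))) := hw
    rw [Algebra.adjoin_eq_span] at hw'
    have hcl : (Submonoid.closure (⇑Φ '' (E : Set (LaurentSeries k))) : Set (LaurentSeries K)) =
        ⇑Φ '' (E : Set (LaurentSeries k)) := by
      have : (⇑Φ '' (E : Set (LaurentSeries k))) =
          ((E.toSubalgebra.toSubring.toSubmonoid.map (Φ : LaurentSeries k →* LaurentSeries K) :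
            Submonoid (LaurentSeries K)) : Set (LaurentSeries K)) := by
        ext z
        simp
      rw [this, Submonoid.closure_eq]
    rw [hcl] at hw'
    clear hw
    induction hw' using Submodule.span_induction with
    | mem z hz =>
      intro l
      obtain ⟨e, he, rfl⟩ := hz
      rw [hΦ, coeffLin_coeffMap]
      exact E.mul_mem (E.algebraMap_mem _) he
    | zero =>
      intro l
      rw [map_zero]
      exact E.zero_mem
    | add a b _ _ ha hb =>
      intro l
      rw [map_add]
      exact E.add_mem (ha l) (hb l)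
    | smul c a _ ha =>
      intro l
      rw [Algebra.smul_def, coeffLin_algebraMap_mul']
      exact ha _
  obtain ⟨r, hr, s, hs, hrs⟩ := IntermediateField.mem_adjoin_iff_div.1 hx
  rcases eq_or_ne s 0 with rfl | hs0
  · rw [div_zero] at hrs
    have hx0 : x = 0 := by
      have hinj : Function.Injective Φ :=
        Fermat.Agent.RED.DESC.CoeffDescent1.coeffMap_injective_of_injective (algebraMap k K)
          (algebraMap k K).injective
      apply hinj
      rw [hrs, map_zero]
    rw [hx0]
    exact E.zero_mem
  · obtain ⟨l, hl⟩ := exists_coeffLin_ne_zero (k := k) hs0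
    have h1 : Φ x * s = r := by
      rw [hrs, div_mul_cancel₀ _ hs0]
    have h2 : x * coeffLin l s = coeffLin l r := by
      rw [← coeffLin_mul, h1]
    have h3 : x = coeffLin l r / coeffLin l s := by
      rw [eq_div_iff hl, h2]
    rw [h3]
    exact E.div_mem (key r hr l) (key s hs l)

/-- **descent of constants for `laurentBaseChange`.** -/
theorem mem_laurentBaseChange_of_coeffMap_mem [Algebra ℚ k] [Algebra ℚ K]
    (F₀ : IntermediateField ℚ (LaurentSeries ℚ)) {x : LaurentSeries k}
    (hx : coeffMap (algebraMap k K) x ∈ laurentBaseChange K F₀) : x ∈ laurentBaseChange k F₀ := by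
  apply mem_of_coeffMap_mem_adjoin (K := K) (laurentBaseChange k F₀)
  have hle : laurentBaseChange K F₀ ≤ IntermediateField.adjoin K
      (⇑(coeffMap (algebraMap k K)) '' (laurentBaseChange k F₀ : Set (LaurentSeries k))) := by
    unfold laurentBaseChange
    rw [IntermediateField.adjoin_le_iff]
    rintro _ ⟨f, hf, rfl⟩
    apply IntermediateField.subset_adjoin
    refine ⟨coeffEmb k f, coeffEmb_mem_laurentBaseChange k hf, ?_⟩
    exact Fermat.Agent.RED.DESC.CoeffDescent1.coeffMap_coeffEmb_of_algHom (algebraMap k K) f
  exact hle hx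

end Fermat.Agent.M43.DescentC8
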