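/-
Programme M43 (target S43), gate (LG-q), Plan K block (1) — helper6.
**The expansions at the cusps `∞` and `0` of the Kummer generator
`θ_ψ = ∑_a ψ⁻¹(a) g_{r,a}` of the `Γ_H(r)`-cover of `X₀(r)`** (`r` a prime, `ψ` an EVEN non-trivial
character of `(ℤ/r)ˣ` with values in a field `K ⊂ ℂ` containing `ζ = ζ_r`; `g_{r,a}` the weight-`0`
generators `(11!/(2π)¹²) E₁₂^{(a)} / Δ` of `M48/DictIface4`).

* `thetaAn ι ψ` : the analytic function `z ↦ ∑_a ι(ψ⁻¹ a) gFun r a z` on `ℍ`.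
* `rel_compSL_thetaAn` : every `SL(2, ℤ)`-translate has the `q_r`-expansion
  `∑_a ψ⁻¹(a) • gExp r ζ a σ` (banked `EisRat6.rel_gExp`).
* `thetaS_eq` : at `σ = S` this is
  `Q^{-r} · r^{-12} · B_ψ(Q) · η^{-24}(Q^r)`,
  `B_ψ = c0ψ + 2 τ(ψ⁻¹) ∑_{N ≥ 1} (∑_{d ∣ N} ψ(d) d¹¹) Q^N`,
  `τ(ψ⁻¹) = ∑_b ψ⁻¹(b) ζ^b` the Gauss sum, `c0ψ = ∑_b ψ⁻¹(b) Li_{-11}(ζ^b)`.
* `rel_fricke_thetaAn` : hence `z ↦ θ_ψ(-1/(r z))` has the `q`-expansion (`q = e^{2πiz}`)
  `q^{-r} · r^{-12} · B_ψ(q) · η^{-24}(q^r)`.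
-/
import Mathlib
import Fermat.Agent.M48.EisRat6

set_option autoImplicit false
set_option linter.unusedSectionVars false

open UpperHalfPlane hiding I
open Complex
open scoped Real Nat MatrixGroups Matrix

noncomputable section

namespace Fermat.Agent.M43.EisPsi6

open Fermat.Agent.ES.KUM.EisChar20 Fermat.Agent.X0 Fermat.Agent.X0.QExpAffine
open Fermat.Agent.M48.EisConst6 Fermat.Agent.M48.EisCuspExp6 Fermat.Agent.M48.FullLevelGen6
open Fermat.Agent.M48.EisRat6 Fermat.Agent.M48.DictIface4 Fermat.Agent.IG.AN.DeltaAffine11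

/-! ### General lemmas on expansions -/

section General

theorem qh_scaleH (h : ℕ) [NeZero h] (z : ℍ) : qh h (scaleH h z) = qh 1 z := by
  have hh : (h : ℂ) ≠ 0 := by exact_mod_cast NeZero.ne h
  unfold qh Function.Periodic.qParam
  rw [coe_scaleH]
  congr 1
  push_cast
  field_simp

/-- A `q_h`-expansion of `f` is a `q`-expansion of `z ↦ f (h z)`. -/
theorem isQExp_comp_scaleH {h : ℕ} [NeZero h] {f : ℍ → ℂ} {m : ℕ} {P : PowerSeries ℂ}
    (hf : IsQExp h f m P) : IsQExp 1 (fun z => f (scaleH h z)) m P := by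
  intro z
  have := hf (scaleH h z)
  rwa [qh_scaleH] at this

variable {K : Type} [Field K] {ι : K →+* ℂ}

theorem rel_comp_scaleH {h : ℕ} [NeZero h] {a : LaurentSeries K} {f : ℍ → ℂ}
    (ha : Rel ι h a f) : Rel ι 1 a (fun z => f (scaleH h z)) := by
  obtain ⟨m, P, hP, e⟩ := ha
  exact ⟨m, P, isQExp_comp_scaleH hP, e⟩

theorem rel_zero (n : ℕ) [NeZero n] : Rel ι n (0 : LaurentSeries K) (0 : ℍ → ℂ) := by
  have := rel_algebraMap (ι := ι) (n := n) (0 : K)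
  rw [map_zero, map_zero] at this
  exact this

theorem rel_sum {n : ℕ} [NeZero n] {I : Type*} (s : Finset I) (x : I → LaurentSeries K)
    (f : I → ℍ → ℂ) (h : ∀ i ∈ s, Rel ι n (x i) (f i)) :
    Rel ι n (∑ i ∈ s, x i) (∑ i ∈ s, f i) := by
  classical
  induction s using Finset.induction_on with
  | empty => simpa using rel_zero (ι := ι) n
  | insert i s hi ih =>
    rw [Finset.sum_insert hi, Finset.sum_insert hi]
    exact (h i (Finset.mem_insert_self i s)).add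
      (ih fun j hj => h j (Finset.mem_insert_of_mem hj))

theorem rel_const_mul {n : ℕ} [NeZero n] (c : K) {a : LaurentSeries K} {f : ℍ → ℂ}
    (ha : Rel ι n a f) :
    Rel ι n (algebraMap K (LaurentSeries K) c * a) (fun z => ι c * f z) :=
  (rel_algebraMap (ι := ι) (n := n) c).mul ha

theorem algebraMap_mul_laurentOf (c : K) (m : ℕ) (P : PowerSeries K) :
    algebraMap K (LaurentSeries K) c * laurentOf m P = laurentOf m (PowerSeries.C c * P) := by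
  have h1 : algebraMap K (PowerSeries K) c = PowerSeries.C c := by simp
  have h2 : algebraMap K (LaurentSeries K) c = HahnSeries.ofPowerSeries ℤ K (PowerSeries.C c) := by
    rw [HahnSeries.algebraMap_apply', h1]
  unfold laurentOf
  rw [map_mul, h2]
  ring

theorem laurentOf_sum {I : Type*} (s : Finset I) (m : ℕ) (P : I → PowerSeries K) :
    laurentOf m (∑ i ∈ s, P i) = ∑ i ∈ s, laurentOf m (P i) := by
  classical
  induction s using Finset.induction_on with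
  | empty => simp [laurentOf]
  | insert i s hi ih => rw [Finset.sum_insert hi, Finset.sum_insert hi, laurentOf_add, ih]

end General

/-! ### Character sums -/

section CharSum

variable {K : Type} [Field K] {r : ℕ} [Fact r.Prime] {ζ : K}

theorem sum_fin_eq_sum_zmod (f : ℕ → K) : ∑ b : Fin r, f (b : ℕ) = ∑ b : ZMod r, f b.val := by
  have hr : r ≠ 0 := NeZero.ne r
  obtain ⟨n, rfl⟩ := Nat.exists_eq_succ_of_ne_zero hr
  rfl

/-- The Gauss sum `τ(ψ⁻¹) = ∑_b ψ⁻¹(b) ζ^b`. -/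
def tau (hζ : ζ ^ r = 1) (ψ : MulChar (ZMod r) K) : K := gaussSum ψ⁻¹ (AddChar.zmodChar r hζ)

theorem tau_eq (hζ : ζ ^ r = 1) (ψ : MulChar (ZMod r) K) :
    tau hζ ψ = ∑ b : ZMod r, ψ⁻¹ b * ζ ^ b.val := by
  unfold tau gaussSum
  refine Finset.sum_congr rfl fun b _ => ?_
  rw [AddChar.zmodChar_apply]

theorem inv_ne_one {ψ : MulChar (ZMod r) K} (hψ : ψ ≠ 1) : ψ⁻¹ ≠ 1 := by
  intro h
  apply hψ
  rw [← inv_inv ψ, h, inv_one]

/-- `∑_b ψ⁻¹(b) ζ^{b d} = ψ(d) τ(ψ⁻¹)` for all `d` (both sides vanish when `r ∣ d`). -/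
theorem sum_psi_zeta (hζ : ζ ^ r = 1) {ψ : MulChar (ZMod r) K} (hψ : ψ ≠ 1) (d : ℕ) :
    ∑ b : ZMod r, ψ⁻¹ b * ζ ^ (b.val * d) = ψ (d : ZMod r) * tau hζ ψ := by
  have key : ∀ b : ZMod r, ζ ^ (b.val * d) = AddChar.zmodChar r hζ ((d : ZMod r) * b) := by
    intro b
    rw [← AddChar.zmodChar_apply' hζ (b.val * d)]
    congr 1
    push_cast
    rw [ZMod.natCast_zmod_val]
    ring
  simp_rw [key]
  by_cases hd : (d : ZMod r) = 0
  · simp_rw [hd, zero_mul, AddChar.map_zero_eq_one, mul_one]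
    rw [MulChar.sum_eq_zero_of_ne_one (inv_ne_one hψ), MulChar.map_zero, zero_mul]
  · have h1 := gaussSum_mulShift_eq ψ⁻¹ (AddChar.zmodChar r hζ) (Units.mk0 (d : ZMod r) hd)
    rw [inv_inv, Units.val_mk0] at h1
    rw [tau, ← h1, gaussSum]
    refine Finset.sum_congr rfl fun b _ => ?_
    rw [AddChar.mulShift_apply]

theorem vecMul_S_inv (v : Fin 2 → ℤ) :
    (v ᵥ* ((ModularGroup.S⁻¹ : SL(2, ℤ)) : Matrix (Fin 2) (Fin 2) ℤ)) 0 = - v 1 := by
  rw [Fermat.Agent.M48.G10Eis4.vecMul_zero_apply, Fermat.Agent.M48.G10Eis4.coe_inv_zero_zero,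
    Fermat.Agent.M48.G10Eis4.coe_inv_one_zero]
  simp [ModularGroup.S]

theorem STr_S_iff (a : ZMod r) (m b : ℤ) :
    STr r a ModularGroup.S ![m, b] ↔ ((-b : ℤ) : ZMod r) = a := by
  unfold STr
  rw [vecMul_S_inv]
  simp

theorem STr_S_neg_iff (a : ZMod r) (m b : ℤ) :
    STr r a ModularGroup.S (-![m, b]) ↔ ((b : ℤ) : ZMod r) = a := by
  unfold STr
  rw [vecMul_S_inv]
  simp

end CharSum

/-! ### The weighted sum of the cusp-`0` expansions -/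

section Main

variable {K : Type} [Field K] {r : ℕ} [Fact r.Prime] {ζ : K}

open Classical in
theorem sum_mul_TwK (hζ : ζ ^ r = 1) {ψ : MulChar (ZMod r) K} (hψ : ψ ≠ 1)
    (heven : ψ (-1) = 1) (m : ℤ) (d : ℕ) :
    ∑ a : ZMod r, ψ⁻¹ a * TwK r ζ (STr r a ModularGroup.S) m d = ψ (d : ZMod r) * tau hζ ψ := by
  unfold TwK
  simp_rw [STr_S_iff, Finset.mul_sum, mul_ite, mul_zero]
  rw [Finset.sum_comm]
  simp_rw [Finset.sum_ite_eq, Finset.mem_univ, if_true]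
  rw [← sum_psi_zeta hζ hψ d]
  rw [sum_fin_eq_sum_zmod (fun b => ψ⁻¹ (((-(b : ℤ) : ℤ)) : ZMod r) * ζ ^ (b * d))]
  refine Finset.sum_congr rfl fun b _ => ?_
  congr 1
  have h1 : (((-((b.val : ℕ) : ℤ) : ℤ)) : ZMod r) = -1 * b := by
    push_cast
    rw [ZMod.natCast_zmod_val]
    ring
  have h2 : ψ⁻¹ (-1 : ZMod r) = 1 := by
    rw [MulChar.inv_apply_eq_inv, heven, Ring.inverse_one]
  rw [h1, map_mul, h2, one_mul]

open Classical in
theorem sum_mul_TwK_neg (hζ : ζ ^ r = 1) {ψ : MulChar (ZMod r) K} (hψ : ψ ≠ 1) (m : ℤ) (d : ℕ) :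
    ∑ a : ZMod r, ψ⁻¹ a * TwK r ζ (fun v => STr r a ModularGroup.S (-v)) m d =
      ψ (d : ZMod r) * tau hζ ψ := by
  unfold TwK
  simp_rw [STr_S_neg_iff, Finset.mul_sum, mul_ite, mul_zero]
  rw [Finset.sum_comm]
  simp_rw [Finset.sum_ite_eq, Finset.mem_univ, if_true]
  rw [← sum_psi_zeta hζ hψ d]
  rw [sum_fin_eq_sum_zmod (fun b => ψ⁻¹ ((((b : ℤ) : ℤ)) : ZMod r) * ζ ^ (b * d))]
  refine Finset.sum_congr rfl fun b _ => ?_
  congr 2
  push_cast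
  rw [ZMod.natCast_zmod_val]

/-- The constant term `∑_b ψ⁻¹(b) Li_{-11}(ζ^b)` (up to the factor `r^{-12}`) of `θ_ψ` at the
cusp `0`. -/
def c0psi (ζ : K) (ψ : MulChar (ZMod r) K) : K := ∑ b : ZMod r, ψ⁻¹ b * liF 11 (ζ ^ b.val)

/-- `B_ψ = c0ψ + 2 τ(ψ⁻¹) ∑_{N ≥ 1} (∑_{d ∣ N} ψ(d) d¹¹) Q^N`. -/
def Bpsi (hζ : ζ ^ r = 1) (ψ : MulChar (ZMod r) K) : PowerSeries K :=
  PowerSeries.mk fun N => if N = 0 then c0psi ζ ψ else
    2 * tau hζ ψ * ∑ d ∈ N.divisors, ψ (d : ZMod r) * (d : K) ^ 11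

theorem sum_mul_coeffNK (hζ : ζ ^ r = 1) {ψ : MulChar (ZMod r) K} (hψ : ψ ≠ 1)
    (heven : ψ (-1) = 1) (N : ℕ) :
    ∑ a : ZMod r, ψ⁻¹ a * coeffNK r ζ 12 (STr r a ModularGroup.S) N =
      2 * tau hζ ψ * ∑ d ∈ N.divisors, ψ (d : ZMod r) * (d : K) ^ 11 := by
  unfold coeffNK
  simp_rw [Finset.mul_sum]
  rw [Finset.sum_comm]
  refine Finset.sum_congr rfl fun d _ => ?_
  have h1 : ∀ a : ZMod r, ψ⁻¹ a * ((d : K) ^ (12 - 1) *
      (TwK r ζ (STr r a ModularGroup.S) ((N / d : ℕ) : ℤ) d +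
        (-1) ^ 12 * TwK r ζ (fun v => STr r a ModularGroup.S (-v)) ((N / d : ℕ) : ℤ) d)) =
      (d : K) ^ 11 * (ψ⁻¹ a * TwK r ζ (STr r a ModularGroup.S) ((N / d : ℕ) : ℤ) d) +
      (d : K) ^ 11 * (ψ⁻¹ a * TwK r ζ (fun v => STr r a ModularGroup.S (-v))
        ((N / d : ℕ) : ℤ) d) := by
    intro a
    norm_num
    ring
  simp_rw [h1]
  rw [Finset.sum_add_distrib, ← Finset.mul_sum, ← Finset.mul_sum, sum_mul_TwK hζ hψ heven,
    sum_mul_TwK_neg hζ hψ]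
  ring

open Classical in
theorem sum_mul_c0K {ψ : MulChar (ZMod r) K} (heven : ψ (-1) = 1) :
    ∑ a : ZMod r, ψ⁻¹ a * c0K r ζ 12 (STr r a ModularGroup.S) = c0psi ζ ψ := by
  unfold c0K c0psi
  simp_rw [STr_S_iff, Finset.mul_sum, mul_ite, mul_zero]
  rw [Finset.sum_comm]
  have h0 : ∀ b : Fin r, (∑ a : ZMod r, if (b : ℕ) = 0 then 0 else
      if (((-((b : ℕ) : ℤ) : ℤ)) : ZMod r) = a then ψ⁻¹ a * liF (12 - 1) (ζ ^ (b : ℕ)) else 0) =
      ψ⁻¹ (((b : ℕ) : ZMod r)) * liF 11 (ζ ^ (b : ℕ)) := by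
    intro b
    have h2 : ψ⁻¹ (-1 : ZMod r) = 1 := by
      rw [MulChar.inv_apply_eq_inv, heven, Ring.inverse_one]
    have h1 : (((-((b : ℕ) : ℤ) : ℤ)) : ZMod r) = -1 * ((b : ℕ) : ZMod r) := by
      push_cast
      ring
    by_cases hb : (b : ℕ) = 0
    · simp only [hb, if_true, Finset.sum_const_zero]
      rw [Nat.cast_zero, MulChar.map_zero, zero_mul]
    · simp only [hb, if_false]
      rw [Finset.sum_ite_eq, if_pos (Finset.mem_univ _), h1, map_mul, h2, one_mul]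
  simp_rw [h0]
  rw [sum_fin_eq_sum_zmod (fun b => ψ⁻¹ ((b : ℕ) : ZMod r) * liF 11 (ζ ^ b))]
  refine Finset.sum_congr rfl fun b _ => ?_
  rw [ZMod.natCast_zmod_val]

/-- **The weighted sum of the normalised Eisenstein expansions at the cusp `0`.** -/
theorem sum_C_mul_nPSK (hζ : ζ ^ r = 1) {ψ : MulChar (ZMod r) K} (hψ : ψ ≠ 1)
    (heven : ψ (-1) = 1) :
    ∑ a : ZMod r, PowerSeries.C (ψ⁻¹ a) * nPSK r ζ 12 (STr r a ModularGroup.S) = Bpsi hζ ψ := by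
  ext N
  rw [map_sum]
  simp_rw [PowerSeries.coeff_C_mul]
  unfold nPSK Bpsi
  simp_rw [PowerSeries.coeff_mk]
  by_cases hN : N = 0
  · simp_rw [if_pos hN]
    exact sum_mul_c0K heven
  · simp_rw [if_neg hN]
    exact sum_mul_coeffNK hζ hψ heven N

end Main

/-! ### The analytic generator and its expansions -/

section Analytic

variable {K : Type} [Field K] (ι : K →+* ℂ) {r : ℕ} [Fact r.Prime] {ζ : K}

/-- The analytic Kummer generator `θ_ψ = ∑_a ψ⁻¹(a) g_{r,a}` (the term `a = 0` vanishes). -/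
def thetaAn (ψ : MulChar (ZMod r) K) : ℍ → ℂ := fun z => ∑ a : ZMod r, ι (ψ⁻¹ a) * gFun r a z

/-- The `q_r`-expansion of the translate `θ_ψ ∘ σ`. -/
def thetaExp (ζ : K) (ψ : MulChar (ZMod r) K) (σ : SL(2, ℤ)) : LaurentSeries K :=
  ∑ a : ZMod r, algebraMap K (LaurentSeries K) (ψ⁻¹ a) * gExp r ζ a σ

variable {ι}

/-- **Every `SL(2, ℤ)`-translate of `θ_ψ` has the `q_r`-expansion `thetaExp ζ ψ σ`.** -/
theorem rel_compSL_thetaAn (hζ : ι ζ = zetaC r) (ψ : MulChar (ZMod r) K) (σ : SL(2, ℤ)) :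
    Rel ι r (thetaExp ζ ψ σ) (compSL (thetaAn ι ψ) σ) := by
  have hfun : compSL (thetaAn ι ψ) σ =
      ∑ a : ZMod r, fun z => ι (ψ⁻¹ a) * compSL (gFun r a) σ z := by
    funext z
    simp only [compSL, thetaAn, Finset.sum_apply]
  rw [hfun]
  refine rel_sum _ _ _ fun a _ => ?_
  by_cases ha : a = 0
  · subst ha
    rw [MulChar.map_zero, map_zero, zero_mul]
    have : (fun z : ℍ => ι 0 * compSL (gFun r 0) σ z) = 0 := by
      funext z
      rw [map_zero, zero_mul]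
      rfl
    rw [this]
    exact rel_zero r
  · exact rel_const_mul _ (rel_gExp r hζ ha σ)

/-- **The expansion at the cusp `0`**: `Q^{-r} · r^{-12} · B_ψ(Q) · η^{-24}(Q^r)`. -/
theorem thetaExp_S (hζ : ζ ^ r = 1) {ψ : MulChar (ZMod r) K} (hψ : ψ ≠ 1)
    (heven : ψ (-1) = 1) :
    thetaExp ζ ψ ModularGroup.S = laurentOf r (PowerSeries.C (((r : K) ^ 12)⁻¹) * Bpsi hζ ψ *
      (etaUInv K).expand r (NeZero.ne r)) := by
  unfold thetaExp gExp
  simp_rw [algebraMap_mul_laurentOf]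
  rw [← laurentOf_sum, ← sum_C_mul_nPSK hζ hψ heven]
  congr 1
  rw [Finset.mul_sum, Finset.sum_mul]
  refine Finset.sum_congr rfl fun a _ => ?_
  ring

/-- The Fricke involution `z ↦ -1/(r z) = S • (r z)` on `ℍ`. -/
def fricke (r : ℕ) [NeZero r] (z : ℍ) : ℍ := ModularGroup.S • scaleH r z

/-- **`z ↦ θ_ψ(-1/(r z))` has the `q`-expansion `q^{-r} · r^{-12} · B_ψ(q) · η^{-24}(q^r)`.** -/
theorem rel_fricke_thetaAn (hζ : ι ζ = zetaC r) (hζ1 : ζ ^ r = 1) {ψ : MulChar (ZMod r) K}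
    (hψ : ψ ≠ 1) (heven : ψ (-1) = 1) :
    Rel ι 1 (laurentOf r (PowerSeries.C (((r : K) ^ 12)⁻¹) * Bpsi hζ1 ψ *
      (etaUInv K).expand r (NeZero.ne r))) (fun z => thetaAn ι ψ (fricke r z)) := by
  have h := rel_comp_scaleH (rel_compSL_thetaAn hζ ψ ModularGroup.S)
  rw [thetaExp_S hζ1 hψ heven] at h
  exact h

end Analytic

end Fermat.Agent.M43.EisPsi6
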