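/-
Programme M43 (target S43), gate (LG-q), Plan K block (1), the cusp `∞` — helper6.
**The `q`-expansion at `∞` of the Kummer generator `θ_ψ = ∑_a ψ⁻¹(a) g_{r,a}`:**

  `θ_ψ = q⁻¹ · A_ψ(q) · η^{-24}(q)`,  `A_ψ = 2 ∑_{N ≥ 1} (∑_{d ∣ N} d¹¹ ψ⁻¹(N/d)) q^N`

(`ψ` even).  The coefficient of `q` in `A_ψ` is `2` (a Gauss unit at every odd prime), all
coefficients are integral over `ℤ[ψ]`.
-/
import Mathlib
import Fermat.Agent.M43.EisPsi6
import Fermat.Agent.M48.G10QExp5
import Fermat.Agent.M43.EisPsiAlg6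

set_option autoImplicit false
set_option linter.unusedSectionVars false

open UpperHalfPlane hiding I
open Complex
open scoped Real Nat MatrixGroups Matrix

noncomputable section

namespace Fermat.Agent.M43.EisPsiInf6

open Fermat.Agent.X0 Fermat.Agent.X0.Analytic Fermat.Agent.M48.FullLevelGen6
open Fermat.Agent.M48.DictIface4 Fermat.Agent.IG.AN.DeltaAffine11 Fermat.Agent.M43.EisPsi6
open Fermat.Agent.M48.G10QExp5

variable {K : Type} [Field K] {ι : K →+* ℂ} {r : ℕ} [Fact r.Prime]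

/-- The formal generator `g_{r,a}` with coefficients in `K`. -/
def gqK (K : Type) [Field K] (r : ℕ) (a : ZMod r) : LaurentSeries K :=
  laurentOf 1 ((eisPS r a).map (Int.castRingHom K) * etaUInv K)

theorem map_map_int (P : PowerSeries ℤ) :
    (P.map (Int.castRingHom K)).map ι = P.map (Int.castRingHom ℂ) := by
  ext n
  simp only [PowerSeries.coeff_map]
  simp

/-- `g_{r,a}` has the `q`-expansion `gqK K r a`. -/
theorem rel_gFun {a : ZMod r} (ha : a ≠ 0) : Rel ι 1 (gqK K r a) (gFun r a) := by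
  obtain ⟨m, P, hP, e⟩ := (hasQExp_gFun r a ha).exists_isQExp
  refine ⟨m, P, hP, ?_⟩
  rw [← e, coeffEmb_gq, lau_eq_laurentOf, gqK, coeffMap_laurentOf, map_mul, map_mul,
    map_map_int, map_etaUInv]
  rfl

/-- `A_ψ = 2 ∑_{N ≥ 1} (∑_{d ∣ N} d¹¹ ψ⁻¹(N/d)) q^N`. -/
def Apsi (ψ : MulChar (ZMod r) K) : PowerSeries K :=
  PowerSeries.mk fun N => if N = 0 then 0 else
    2 * ∑ d ∈ N.divisors, (d : K) ^ 11 * ψ⁻¹ ((N / d : ℕ) : ZMod r)

theorem sum_mul_eisCoeff {ψ : MulChar (ZMod r) K} (heven : ψ (-1) = 1) (N : ℕ) :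
    ∑ a : ZMod r, ψ⁻¹ a * ((eisCoeff r a N : ℤ) : K) =
      2 * ∑ d ∈ N.divisors, (d : K) ^ 11 * ψ⁻¹ ((N / d : ℕ) : ZMod r) := by
  unfold eisCoeff
  push_cast
  simp_rw [Finset.mul_sum]
  rw [Finset.sum_comm]
  refine Finset.sum_congr rfl fun d _ => ?_
  have h2 : ψ⁻¹ (-1 : ZMod r) = 1 := by
    rw [MulChar.inv_apply_eq_inv, heven, Ring.inverse_one]
  have h3 : ψ⁻¹ (-((N / d : ℕ) : ZMod r)) = ψ⁻¹ ((N / d : ℕ) : ZMod r) := by
    rw [← neg_one_mul, map_mul, h2, one_mul]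
  have h1 : ∀ a : ZMod r, ψ⁻¹ a * ((d : K) ^ 11 *
      ((if ((N / d : ℕ) : ZMod r) = a then 1 else 0) +
        (if ((N / d : ℕ) : ZMod r) = -a then 1 else 0))) =
      (d : K) ^ 11 * ((if ((N / d : ℕ) : ZMod r) = a then ψ⁻¹ a else 0) +
        (if -((N / d : ℕ) : ZMod r) = a then ψ⁻¹ a else 0)) := by
    intro a
    have e : (((N / d : ℕ) : ZMod r) = -a) ↔ (-((N / d : ℕ) : ZMod r) = a) := by
      constructor
      · intro h; rw [h, neg_neg]
      · intro h; rw [← h, neg_neg]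
    simp only [e]
    split_ifs <;> ring
  simp_rw [h1]
  rw [← Finset.mul_sum, Finset.sum_add_distrib, Finset.sum_ite_eq, Finset.sum_ite_eq,
    if_pos (Finset.mem_univ _), if_pos (Finset.mem_univ _), h3]
  ring

theorem sum_C_mul_eisPS {ψ : MulChar (ZMod r) K} (heven : ψ (-1) = 1) :
    ∑ a : ZMod r, PowerSeries.C (ψ⁻¹ a) * (eisPS r a).map (Int.castRingHom K) = Apsi ψ := by
  ext N
  rw [map_sum]
  simp_rw [PowerSeries.coeff_C_mul, PowerSeries.coeff_map, eisPS, Apsi, PowerSeries.coeff_mk]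
  by_cases hN : N = 0
  · simp [hN]
  · simp_rw [if_neg hN]
    exact sum_mul_eisCoeff heven N

/-- **`θ_ψ` has the `q`-expansion `q⁻¹ · A_ψ(q) · η^{-24}(q)` at `∞`.** -/
theorem rel_thetaAn {ψ : MulChar (ZMod r) K} (heven : ψ (-1) = 1) :
    Rel ι 1 (laurentOf 1 (Apsi ψ * etaUInv K)) (thetaAn ι ψ) := by
  have hfun : thetaAn ι ψ = ∑ a : ZMod r, fun z => ι (ψ⁻¹ a) * gFun r a z := by
    funext z
    simp only [thetaAn, Finset.sum_apply]
  have hser : laurentOf 1 (Apsi ψ * etaUInv K) =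
      ∑ a : ZMod r, algebraMap K (LaurentSeries K) (ψ⁻¹ a) * gqK K r a := by
    unfold gqK
    simp_rw [algebraMap_mul_laurentOf]
    rw [← laurentOf_sum, ← sum_C_mul_eisPS heven, Finset.sum_mul]
    congr 1
    refine Finset.sum_congr rfl fun a _ => ?_
    ring
  rw [hfun, hser]
  refine rel_sum _ _ _ fun a _ => ?_
  by_cases ha : a = 0
  · subst ha
    rw [MulChar.map_zero, map_zero, zero_mul]
    have : (fun z : ℍ => ι 0 * gFun r 0 z) = 0 := by
      funext z
      rw [map_zero, zero_mul]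
      rfl
    rw [this]
    exact rel_zero 1
  · exact rel_const_mul _ (rel_gFun ha)

theorem coeff_one_Apsi (ψ : MulChar (ZMod r) K) : PowerSeries.coeff 1 (Apsi ψ) = 2 := by
  rw [Apsi, PowerSeries.coeff_mk, if_neg one_ne_zero]
  simp

theorem coeff_zero_Apsi (ψ : MulChar (ZMod r) K) : PowerSeries.coeff 0 (Apsi ψ) = 0 := by
  rw [Apsi, PowerSeries.coeff_mk, if_pos rfl]

/-! ### Integrality over a valuation ring of `ℚbar` -/

section Integral

local notation "Qbar" => AlgebraicClosure ℚ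

open Fermat.Agent.ES.J.CycloChar8 Fermat.Agent.S05.Inertia

variable {A : ValuationSubring Qbar}

/-- All coefficients of `A_ψ` are integral. -/
theorem valuation_coeff_Apsi_le (ψ : MulChar (ZMod r) Qbar) (k : ℕ) :
    A.valuation (PowerSeries.coeff k (Apsi ψ)) ≤ 1 := by
  have hr : r.Prime := Fact.out
  rw [ValuationSubring.valuation_le_one_iff, Apsi, PowerSeries.coeff_mk]
  split_ifs
  · exact zero_mem A
  · refine mul_mem (by exact_mod_cast natCast_mem A 2) (sum_mem fun d _ => ?_)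
    refine mul_mem (pow_mem (natCast_mem A d) 11) ?_
    by_cases hd : ((k / d : ℕ) : ZMod r) = 0
    · rw [hd, MulChar.map_zero]
      exact zero_mem A
    · have h1 : (ψ⁻¹ ((k / d : ℕ) : ZMod r)) ^ (r - 1) = 1 := by
        rw [← map_pow, ZMod.pow_card_sub_one_eq_one hd, map_one]
      exact mem_of_pow_eq_one (Nat.sub_pos_of_lt hr.one_lt).ne' h1

/-- `A_ψ` is primitive at every odd prime: its coefficient of `q` is `2`. -/
theorem valuation_coeff_one_Apsi (hA : A.LiesOverPrime r) (hr2 : r ≠ 2)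
    (ψ : MulChar (ZMod r) Qbar) : A.valuation (PowerSeries.coeff 1 (Apsi ψ)) = 1 := by
  rw [coeff_one_Apsi]
  exact valuation_two_eq_one Fact.out hA hr2

end Integral

end Fermat.Agent.M43.EisPsiInf6
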