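/-
Programme M43 (target S43), gate (LG-q), Plan K block (1), algebraic side — helper6.
**The cusp-`0` series `B_ψ` of the Kummer generator `θ_ψ` is `τ(ψ⁻¹) · r^n ·` (a primitive power
series over the valuation ring `A`), `n ≤ 0` an INTEGER.**

* general field `K`, `σ : K →+* K` fixing the values of `ψ`, `σ ζ = ζ^t`: `σ τ = ψ(t) τ`,
  `σ c0ψ = ψ(t) c0ψ` (`map_tau`, `map_c0psi`), hence `c0ψ / τ` is `σ`-fixed (`map_div_fixed`).
* `K = ℚbar`, `A` a valuation subring over the prime `r`: the values of `ψ` (roots of unity of order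
  dividing `r - 1`) are fixed by the inertia group `I_A` (`psi_fixed`), so `c0ψ / τ` is fixed by
  `I_A` (`cpsi_fixed`); an `I_A`-fixed nonzero element of `ℚbar` is `r^n ·` (unit of `A`), `n ∈ ℤ`
  (`exists_zpow_mul_unit_of_fixed`, from banked `ES/P36/UnrFixed1`).
* `exists_Bpsi_eq` : the packaged statement.  No Bernoulli numbers, no condition on `ψ` beyond
  `ψ ≠ 1`, `ψ(-1) = 1`.
-/
import Mathlib
import Fermat.Agent.M43.EisPsi6
import Fermat.Agent.ES.P36.UnrFixed1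
import Fermat.Agent.ES.J.CycloChar8

set_option autoImplicit false
set_option linter.unusedSectionVars false
set_option linter.style.haveILetI false

noncomputable section

namespace Fermat.Agent.M43.EisPsiAlg6

open Fermat.Agent.M43.EisPsi6 Fermat.Agent.M48.EisConst6

/-! ### Equivariance under automorphisms fixing the values of `ψ` -/

section Equivariance

variable {K : Type} [Field K] {r : ℕ} [Fact r.Prime] {ζ : K}

/-- `∑_b ψ⁻¹(b) f(t b) = ψ(t) ∑_b ψ⁻¹(b) f(b)` for `t ≠ 0`. -/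
theorem sum_psi_shift (ψ : MulChar (ZMod r) K) (f : ZMod r → K) {t : ZMod r} (ht : t ≠ 0) :
    ∑ b : ZMod r, ψ⁻¹ b * f (t * b) = ψ t * ∑ b : ZMod r, ψ⁻¹ b * f b := by
  have hu : IsUnit t := isUnit_iff_ne_zero.mpr ht
  have h1 : ∑ b : ZMod r, ψ⁻¹ b * f (t * b) = ∑ b : ZMod r, ψ t * (ψ⁻¹ (t * b) * f (t * b)) := by
    refine Finset.sum_congr rfl fun b _ => ?_
    rw [map_mul, MulChar.inv_apply_eq_inv ψ t, ← mul_assoc, ← mul_assoc,
      Ring.mul_inverse_cancel _ (hu.map ψ), one_mul]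
  rw [h1, ← Finset.mul_sum]
  congr 1
  exact Fintype.sum_bijective (fun b => t * b) (mulLeft_bijective₀ t ht) _ _ fun b => rfl

theorem map_psi_inv {ψ : MulChar (ZMod r) K} (σ : K →+* K) (hσψ : ∀ a, σ (ψ a) = ψ a)
    (a : ZMod r) : σ (ψ⁻¹ a) = ψ⁻¹ a := by
  rw [MulChar.inv_apply_eq_inv, Ring.inverse_eq_inv', map_inv₀, hσψ]

theorem zeta_pow_mul (hζ : ζ ^ r = 1) (t : ℕ) (b : ZMod r) :
    (ζ ^ t) ^ b.val = ζ ^ (((t : ZMod r) * b).val) := by
  rw [← pow_mul, ← AddChar.zmodChar_apply' hζ (t * b.val), ← AddChar.zmodChar_apply hζ]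
  congr 1
  push_cast
  rw [ZMod.natCast_zmod_val]

theorem map_tau (hζ : ζ ^ r = 1) {ψ : MulChar (ZMod r) K} (hψ : ψ ≠ 1) (σ : K →+* K)
    (hσψ : ∀ a, σ (ψ a) = ψ a) (t : ℕ) (hσζ : σ ζ = ζ ^ t) :
    σ (tau hζ ψ) = ψ (t : ZMod r) * tau hζ ψ := by
  rw [← sum_psi_zeta hζ hψ t, tau_eq, map_sum]
  refine Finset.sum_congr rfl fun b _ => ?_
  rw [map_mul, map_psi_inv σ hσψ, map_pow, hσζ, ← pow_mul, mul_comm t]

theorem map_c0psi (hζ : ζ ^ r = 1) {ψ : MulChar (ZMod r) K} (σ : K →+* K)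
    (hσψ : ∀ a, σ (ψ a) = ψ a) (t : ℕ) (ht : (t : ZMod r) ≠ 0) (hσζ : σ ζ = ζ ^ t) :
    σ (c0psi ζ ψ) = ψ (t : ZMod r) * c0psi ζ ψ := by
  unfold c0psi
  rw [map_sum, ← sum_psi_shift ψ (fun b => liF 11 (ζ ^ b.val)) ht]
  refine Finset.sum_congr rfl fun b _ => ?_
  rw [map_mul, map_psi_inv σ hσψ, map_liF, map_pow, hσζ, zeta_pow_mul hζ]

/-- `c0ψ / τ` is fixed by every endomorphism fixing the values of `ψ`. -/
theorem map_div_fixed (hprim : IsPrimitiveRoot ζ r) {ψ : MulChar (ZMod r) K} (hψ : ψ ≠ 1)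
    (σ : K →+* K) (hσψ : ∀ a, σ (ψ a) = ψ a) :
    σ (c0psi ζ ψ / tau hprim.pow_eq_one ψ) = c0psi ζ ψ / tau hprim.pow_eq_one ψ := by
  have hr : r.Prime := Fact.out
  have hζ := hprim.pow_eq_one
  have h1 : (σ ζ) ^ r = 1 := by rw [← map_pow, hζ, map_one]
  obtain ⟨t, -, ht⟩ := hprim.eq_pow_of_pow_eq_one h1
  have ht0 : (t : ZMod r) ≠ 0 := by
    intro h0
    rw [ZMod.natCast_eq_zero_iff] at h0
    obtain ⟨k, rfl⟩ := h0
    rw [pow_mul, hζ, one_pow] at ht
    have : σ ζ = σ 1 := by rw [← ht, map_one]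
    have h2 := σ.injective this
    exact hr.one_lt.ne' (hprim.unique (h2 ▸ IsPrimitiveRoot.one))
  rw [map_div₀, map_tau hζ hψ σ hσψ t ht.symm, map_c0psi hζ σ hσψ t ht0 ht.symm]
  have hu : ψ (t : ZMod r) ≠ 0 := by
    have : IsUnit (t : ZMod r) := isUnit_iff_ne_zero.mpr ht0
    exact (this.map ψ).ne_zero
  rw [mul_div_mul_left _ _ hu]

end Equivariance

/-! ### Inertia -/

section Inertia

local notation "Qbar" => AlgebraicClosure ℚ

open Fermat.Agent.ES.J.CycloChar8 Fermat.Agent.S05.Inertia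

variable {A : ValuationSubring Qbar} {r : ℕ}

/-- Roots of unity of order prime to the residue characteristic are fixed by inertia. -/
theorem root_fixed (hr : r.Prime) (hA : A.LiesOverPrime r) {m : ℕ} (hm : ¬ r ∣ m) {η : Qbar}
    (hη : η ^ m = 1) {σ : Qbar ≃ₐ[ℚ] Qbar} (hσ : σ ∈ A.inertiaSubgroupIn ℚ) : σ η = η := by
  have hm0 : m ≠ 0 := fun h0 => hm (h0 ▸ dvd_zero r)
  have hηA : η ∈ A := mem_of_pow_eq_one hm0 hη
  have hη0 : η ≠ 0 := by
    rintro rfl
    rw [zero_pow hm0] at hη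
    exact zero_ne_one hη
  have hinv : (η⁻¹) ^ m = 1 := by rw [inv_pow, hη, inv_one]
  have hξ : (σ η * η⁻¹) ^ m = 1 := by
    rw [mul_pow, hinv, mul_one, ← map_pow, hη, map_one]
  have h1 : σ η * η⁻¹ - 1 ∈ A.nonunits := by
    have e : σ η * η⁻¹ - 1 = (σ η - η) * η⁻¹ := by
      field_simp
    rw [e, ValuationSubring.mem_nonunits_iff, map_mul,
      valuation_eq_one_of_pow_eq_one hm0 hinv, mul_one]
    exact (ValuationSubring.mem_nonunits_iff (A := A)).mp (apply_sub_mem_nonunits hσ hηA)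
  have h2 := eq_one_of_sub_one_mem_nonunits hr hA hm hξ h1
  rw [mul_inv_eq_one₀ hη0] at h2
  exact h2

variable [Fact r.Prime]

/-- The values of a character of `(ℤ/r)ˣ` are fixed by the inertia group at `r`. -/
theorem psi_fixed (hA : A.LiesOverPrime r) (ψ : MulChar (ZMod r) Qbar) {σ : Qbar ≃ₐ[ℚ] Qbar}
    (hσ : σ ∈ A.inertiaSubgroupIn ℚ) (a : ZMod r) : σ (ψ a) = ψ a := by
  have hr : r.Prime := Fact.out
  by_cases ha : a = 0
  · rw [ha, MulChar.map_zero, map_zero]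
  · have h1 : (ψ a) ^ (r - 1) = 1 := by
      rw [← map_pow, ZMod.pow_card_sub_one_eq_one ha, map_one]
    refine root_fixed hr hA ?_ h1 hσ
    intro hdvd
    have := Nat.le_of_dvd (Nat.sub_pos_of_lt hr.one_lt) hdvd
    have := hr.one_lt
    omega

/-- **`c0ψ / τ` is fixed by the inertia group.** -/
theorem cpsi_fixed (hA : A.LiesOverPrime r) {ζ : Qbar} (hprim : IsPrimitiveRoot ζ r)
    {ψ : MulChar (ZMod r) Qbar} (hψ : ψ ≠ 1) {σ : Qbar ≃ₐ[ℚ] Qbar}
    (hσ : σ ∈ A.inertiaSubgroupIn ℚ) :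
    σ (c0psi ζ ψ / tau hprim.pow_eq_one ψ) = c0psi ζ ψ / tau hprim.pow_eq_one ψ :=
  map_div_fixed hprim hψ (σ : Qbar →+* Qbar) fun a => psi_fixed hA ψ hσ a

end Inertia

/-! ### Inertia-fixed elements have valuation in `v(r)^ℤ` -/

section Unramified

local notation "Qbar" => AlgebraicClosure ℚ

open Fermat.Agent.ES.P36.UnrFixed1 Fermat.Agent.RED.DESC.NumberFieldDVR27
  Fermat.Agent.RED.Interface4 Fermat.Agent.RED.PUR.GaussGen8

variable {A : ValuationSubring Qbar} {r : ℕ}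

theorem valuation_eq_pow_of_fixed_of_mem (hr : r.Prime) (hA : A.LiesOverPrime r) {x : Qbar}
    (hx0 : x ≠ 0) (hxA : x ∈ A) (hfix : ∀ τ ∈ A.inertiaSubgroupIn ℚ, τ x = x) :
    ∃ n : ℕ, A.valuation x = A.valuation (r : Qbar) ^ n := by
  set K : IntermediateField ℚ Qbar := IntermediateField.adjoin ℚ {x} with hKdef
  haveI hfin : FiniteDimensional ℚ K :=
    IntermediateField.adjoin.finiteDimensional (Algebra.IsIntegral.isIntegral x)
  have hxK : x ∈ K := IntermediateField.mem_adjoin_simple_self ℚ x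
  have hle : K ≤ IntermediateField.fixedField (A.inertiaSubgroupIn ℚ) := by
    rw [hKdef, IntermediateField.adjoin_le_iff]
    intro z hz
    rw [Set.mem_singleton_iff] at hz
    subst hz
    intro τ
    exact hfix τ.1 τ.2
  have hK : ∀ τ ∈ A.inertiaSubgroupIn ℚ, ∀ y ∈ K, τ y = y := by
    intro τ hτ y hy
    exact hle hy ⟨τ, hτ⟩
  have hU := isUnif_natCast A hr hA K hK
  have hxAK : (⟨x, hxK⟩ : K) ∈ AK A K := by
    rw [mem_AK_iff]
    exact hxA
  set x' : AK A K := ⟨⟨x, hxK⟩, hxAK⟩ with hx'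
  have hx'0 : x' ≠ 0 := by
    intro h0
    apply hx0
    have h1 : ((x' : K) : Qbar) = (((0 : AK A K) : K) : Qbar) := by rw [h0]
    exact h1
  classical
  set n := Nat.find (hU.sep x' hx'0) with hn
  have hn1 : ¬ (r : AK A K) ^ (n + 1) ∣ x' := Nat.find_spec (hU.sep x' hx'0)
  have hn2 : (r : AK A K) ^ n ∣ x' := by
    rcases Nat.eq_zero_or_pos n with h0 | hpos
    · rw [h0, pow_zero]
      exact one_dvd _
    · have hlt : n - 1 < n := Nat.sub_lt hpos Nat.one_pos
      have := Nat.find_min (hU.sep x' hx'0) hlt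
      rw [not_not, Nat.sub_add_cancel hpos] at this
      exact this
  obtain ⟨y, hy⟩ := hn2
  have hyu : IsUnit y := by
    by_contra hnu
    have hym : y ∈ IsLocalRing.maximalIdeal (AK A K) := (IsLocalRing.mem_maximalIdeal y).mpr hnu
    rw [hU.max_eq, Ideal.mem_span_singleton] at hym
    obtain ⟨w, hw⟩ := hym
    apply hn1
    refine ⟨w, ?_⟩
    rw [hy, hw, pow_succ]
    ring
  have hyu' : IsUnit (incl A K y) := hyu.map (incl A K)
  have hv : A.valuation ((incl A K y : A) : Qbar) = 1 :=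
    (ValuationSubring.valuation_eq_one_iff A _).mp hyu'
  refine ⟨n, ?_⟩
  have hxe : x = (r : Qbar) ^ n * ((incl A K y : A) : Qbar) := by
    have := congrArg (fun z : AK A K => ((z : K) : Qbar)) hy
    simpa using this
  rw [hxe, map_mul, map_pow, hv, mul_one]

/-- **An `I_A`-fixed nonzero element of `ℚbar` has valuation in `v(r)^ℤ`.** -/
theorem valuation_eq_zpow_of_fixed (hr : r.Prime) (hA : A.LiesOverPrime r) {x : Qbar}
    (hx0 : x ≠ 0) (hfix : ∀ τ ∈ A.inertiaSubgroupIn ℚ, τ x = x) :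
    ∃ n : ℤ, A.valuation x = A.valuation (r : Qbar) ^ n := by
  rcases A.mem_or_inv_mem x with hx | hx
  · obtain ⟨n, hn⟩ := valuation_eq_pow_of_fixed_of_mem hr hA hx0 hx hfix
    exact ⟨n, by rw [hn, zpow_natCast]⟩
  · have hfix' : ∀ τ ∈ A.inertiaSubgroupIn ℚ, τ x⁻¹ = x⁻¹ := by
      intro τ hτ
      rw [map_inv₀, hfix τ hτ]
    obtain ⟨n, hn⟩ := valuation_eq_pow_of_fixed_of_mem hr hA (inv_ne_zero hx0) hx hfix'
    refine ⟨-(n : ℤ), ?_⟩
    rw [map_inv₀] at hn
    rw [zpow_neg, zpow_natCast, ← hn, inv_inv]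

end Unramified

/-! ### The packaged statement -/

section Package

local notation "Qbar" => AlgebraicClosure ℚ

open Fermat.Agent.ES.J.CycloChar8 Fermat.Agent.S05.Inertia

theorem tau_ne_zero {K : Type} [Field K] [CharZero K] {r : ℕ} [Fact r.Prime] {ζ : K}
    (hprim : IsPrimitiveRoot ζ r) {ψ : MulChar (ZMod r) K} (hψ : ψ ≠ 1) :
    tau hprim.pow_eq_one ψ ≠ 0 := by
  have hr : r.Prime := Fact.out
  have h1 := gaussSum_mul_gaussSum_eq_card (inv_ne_one hψ)
    (AddChar.zmodChar_primitive_of_primitive_root r hprim)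
  intro h0
  have h2 : tau hprim.pow_eq_one ψ = gaussSum ψ⁻¹ (AddChar.zmodChar r
    ((IsPrimitiveRoot.iff_def ζ r).mp hprim).left) := rfl
  rw [← h2, h0, zero_mul, ZMod.card] at h1
  exact hr.ne_zero (by exact_mod_cast h1.symm)

variable {A : ValuationSubring Qbar} {r : ℕ} [Fact r.Prime]

/-- The divisor sums `∑_{d ∣ N} ψ(d) d¹¹` are integral. -/
theorem valuation_divisorSum_le (ψ : MulChar (ZMod r) Qbar) (N : ℕ) :
    A.valuation (∑ d ∈ N.divisors, ψ (d : ZMod r) * (d : Qbar) ^ 11) ≤ 1 := by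
  have hr : r.Prime := Fact.out
  rw [ValuationSubring.valuation_le_one_iff]
  refine sum_mem fun d _ => mul_mem ?_ (pow_mem (natCast_mem A d) 11)
  by_cases hd : (d : ZMod r) = 0
  · rw [hd, MulChar.map_zero]
    exact zero_mem A
  · have h1 : (ψ (d : ZMod r)) ^ (r - 1) = 1 := by
      rw [← map_pow, ZMod.pow_card_sub_one_eq_one hd, map_one]
    exact mem_of_pow_eq_one (Nat.sub_pos_of_lt hr.one_lt).ne' h1

/-- **The cusp-`0` series of `θ_ψ` is `τ(ψ⁻¹) · r^n ·` (primitive series over `A`), `n ≤ 0`.** -/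
theorem exists_Bpsi_eq (hA : A.LiesOverPrime r) (hr2 : r ≠ 2) {ζ : Qbar}
    (hprim : IsPrimitiveRoot ζ r) {ψ : MulChar (ZMod r) Qbar} (hψ : ψ ≠ 1) :
    ∃ (n : ℤ) (P : PowerSeries Qbar), n ≤ 0 ∧ (∀ k, A.valuation (PowerSeries.coeff k P) ≤ 1) ∧
      (∃ k, A.valuation (PowerSeries.coeff k P) = 1) ∧
      Bpsi hprim.pow_eq_one ψ =
        PowerSeries.C (tau hprim.pow_eq_one ψ * (r : Qbar) ^ n) * P := by
  have hr : r.Prime := Fact.out
  have hτ := tau_ne_zero hprim hψ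
  have hv2 : A.valuation (2 : Qbar) = 1 := valuation_two_eq_one hr hA hr2
  have hvr : A.valuation (r : Qbar) < 1 := (ValuationSubring.mem_nonunits_iff (A := A)).mp hA
  have hr0 : (r : Qbar) ≠ 0 := Nat.cast_ne_zero.mpr hr.ne_zero
  set τ := tau hprim.pow_eq_one ψ with hτdef
  set c := c0psi ζ ψ / τ with hc
  have hcτ : τ * c = c0psi ζ ψ := by rw [hc, mul_div_cancel₀ _ hτ]
  set s : ℕ → Qbar := fun N => ∑ d ∈ N.divisors, ψ (d : ZMod r) * (d : Qbar) ^ 11 with hs
  have hs1 : s 1 = 1 := by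
    simp only [hs, Nat.divisors_one, Finset.sum_singleton, Nat.cast_one, one_pow, mul_one]
    exact map_one ψ
  by_cases hcA : A.valuation c ≤ 1
  · -- integral constant term
    refine ⟨0, PowerSeries.mk fun N => if N = 0 then c else 2 * s N, le_refl 0, ?_, ⟨1, ?_⟩, ?_⟩
    · intro k
      rw [PowerSeries.coeff_mk]
      split_ifs
      · exact hcA
      · rw [map_mul, hv2, one_mul]
        exact valuation_divisorSum_le ψ k
    · rw [PowerSeries.coeff_mk, if_neg one_ne_zero, hs1, mul_one, hv2]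
    · ext N
      rw [zpow_zero, mul_one, PowerSeries.coeff_C_mul, Bpsi, PowerSeries.coeff_mk,
        PowerSeries.coeff_mk]
      split_ifs
      · exact hcτ.symm
      · ring
  · -- non-integral constant term: it is `r^n · unit`, `n < 0`
    have hc0 : c ≠ 0 := by
      rintro h0
      rw [h0, map_zero] at hcA
      exact hcA zero_le_one
    obtain ⟨n, hn⟩ := valuation_eq_zpow_of_fixed hr hA hc0
      (fun σ hσ => cpsi_fixed hA hprim hψ hσ)
    have hvr0 : A.valuation (r : Qbar) ≠ 0 := (map_ne_zero _).mpr hr0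
    have hnneg : n < 0 := by
      by_contra hge
      rw [not_lt] at hge
      apply hcA
      rw [hn]
      lift n to ℕ using hge
      rw [zpow_natCast]
      exact pow_le_one₀ zero_le hvr.le
    have hvpow : A.valuation ((r : Qbar) ^ (-n)) ≤ 1 := by
      have : (0 : ℤ) ≤ -n := by omega
      obtain ⟨m, hm⟩ := Int.eq_ofNat_of_zero_le this
      rw [hm, zpow_natCast, map_pow]
      exact pow_le_one₀ zero_le hvr.le
    refine ⟨n, PowerSeries.mk fun N => if N = 0 then c * (r : Qbar) ^ (-n)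
      else 2 * s N * (r : Qbar) ^ (-n), hnneg.le, ?_, ⟨0, ?_⟩, ?_⟩
    · intro k
      rw [PowerSeries.coeff_mk]
      split_ifs
      · rw [map_mul, hn, map_zpow₀, ← zpow_add₀ hvr0, add_neg_cancel, zpow_zero]
      · rw [map_mul, map_mul, hv2, one_mul]
        exact mul_le_one₀ (valuation_divisorSum_le ψ k) zero_le hvpow
    · rw [PowerSeries.coeff_mk, if_pos rfl, map_mul, hn, map_zpow₀, ← zpow_add₀ hvr0,
        add_neg_cancel, zpow_zero]
    · ext N
      rw [PowerSeries.coeff_C_mul, Bpsi, PowerSeries.coeff_mk, PowerSeries.coeff_mk]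
      have hrn : (r : Qbar) ^ n * (r : Qbar) ^ (-n) = 1 := by
        rw [← zpow_add₀ hr0, add_neg_cancel, zpow_zero]
      split_ifs
      · rw [← hcτ]
        linear_combination (-(τ * c)) * hrn
      · linear_combination (-(2 * τ * s N)) * hrn

end Package

end Fermat.Agent.M43.EisPsiAlg6
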