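/-
Programme M43 (target S43), gate (LG-q), Plan K block (2), concrete part — helper6.
**The valuation of the `p`-th power of the Gauss sum `τ(ψ⁻¹)` at a prime over `r` is `v(r)^n` with
`0 < n < p`** (`ψ ≠ 1` a character of `(ℤ/r)ˣ` with `ψ^p = 1`, values in `ℚbar`; `A` a valuation
subring of `ℚbar` over `r`).  Elementary (no Stickelberger):

* `tau_mem_nonunits` : `τ = ∑_b ψ⁻¹(b) (ζ^b - 1) ∈ 𝔪_A` since `ζ ≡ 1`;
* `tau_mul_tau_inv` : `τ(ψ⁻¹) τ(ψ) ψ(-1) = r`;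
* `tau_pow_fixed` : `τ^p` is fixed by the inertia group (`σ τ = ψ(t) τ`), hence
  `v(τ^p) ∈ v(r)^ℤ` (`EisPsiAlg6.valuation_eq_zpow_of_fixed`);
* `exists_valuation_tau_pow` : the statement.
-/
import Mathlib
import Fermat.Agent.M43.EisPsiAlg6
import Fermat.Agent.S33x.InertiaCyclo9

set_option autoImplicit false
set_option linter.unusedSectionVars false

noncomputable section

namespace Fermat.Agent.M43.GaussTau6

open Fermat.Agent.M43.EisPsi6 Fermat.Agent.M43.EisPsiAlg6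
open Fermat.Agent.ES.J.CycloChar8 Fermat.Agent.S05.Inertia

local notation "Qbar" => AlgebraicClosure ℚ

/-! ### The product formula -/

section Product

variable {K : Type} [Field K] {r : ℕ} [Fact r.Prime] {ζ : K}

theorem gaussSum_inv_addChar (ψ : MulChar (ZMod r) K) (e : AddChar (ZMod r) K) :
    gaussSum ψ e⁻¹ = ψ (-1) * gaussSum ψ e := by
  unfold gaussSum
  rw [Finset.mul_sum]
  refine Fintype.sum_equiv (Equiv.neg (ZMod r)) _ _ fun b => ?_
  rw [Equiv.neg_apply, AddChar.inv_apply, ← mul_assoc, ← map_mul, neg_one_mul, neg_neg]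

/-- `τ(ψ⁻¹) τ(ψ) ψ(-1) = r`. -/
theorem tau_mul_tau_inv (hprim : IsPrimitiveRoot ζ r) {ψ : MulChar (ZMod r) K} (hψ : ψ ≠ 1) :
    tau hprim.pow_eq_one ψ * tau hprim.pow_eq_one ψ⁻¹ * ψ (-1) = (r : K) := by
  have h1 := gaussSum_mul_gaussSum_eq_card (inv_ne_one hψ)
    (AddChar.zmodChar_primitive_of_primitive_root r hprim)
  rw [inv_inv, gaussSum_inv_addChar, ZMod.card] at h1
  have h2 : tau hprim.pow_eq_one ψ = gaussSum ψ⁻¹ (AddChar.zmodChar r
    ((IsPrimitiveRoot.iff_def ζ r).mp hprim).left) := rfl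
  have h3 : tau hprim.pow_eq_one ψ⁻¹ = gaussSum ψ (AddChar.zmodChar r
    ((IsPrimitiveRoot.iff_def ζ r).mp hprim).left) := by
    unfold tau
    rw [inv_inv]
  rw [h2, h3, ← h1]
  ring

theorem psi_neg_one_sq (ψ : MulChar (ZMod r) K) : ψ (-1) * ψ (-1) = 1 := by
  rw [← map_mul, neg_one_mul, neg_neg, map_one]

end Product

/-! ### Valuations -/

section Val

variable {A : ValuationSubring Qbar} {r : ℕ} [Fact r.Prime]

theorem valuation_psi_le (ψ : MulChar (ZMod r) Qbar) (a : ZMod r) : A.valuation (ψ a) ≤ 1 := by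
  have hr : r.Prime := Fact.out
  by_cases ha : a = 0
  · rw [ha, MulChar.map_zero, map_zero]
    exact zero_le_one
  · have h1 : (ψ a) ^ (r - 1) = 1 := by
      rw [← map_pow, ZMod.pow_card_sub_one_eq_one ha, map_one]
    exact (valuation_eq_one_of_pow_eq_one (Nat.sub_pos_of_lt hr.one_lt).ne' h1).le

theorem valuation_psi_unit (ψ : MulChar (ZMod r) Qbar) {a : ZMod r} (ha : a ≠ 0) :
    A.valuation (ψ a) = 1 := by
  have hr : r.Prime := Fact.out
  have h1 : (ψ a) ^ (r - 1) = 1 := by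
    rw [← map_pow, ZMod.pow_card_sub_one_eq_one ha, map_one]
  exact valuation_eq_one_of_pow_eq_one (Nat.sub_pos_of_lt hr.one_lt).ne' h1

/-- **The Gauss sum lies in the maximal ideal.** -/
theorem tau_mem_nonunits (hA : A.LiesOverPrime r) {ζ : Qbar} (hζ : ζ ^ r = 1)
    {ψ : MulChar (ZMod r) Qbar} (hψ : ψ ≠ 1) : tau hζ ψ ∈ A.nonunits := by
  have hr : r.Prime := Fact.out
  have h1 : tau hζ ψ = ∑ b : ZMod r, ψ⁻¹ b * (ζ ^ b.val - 1) := by
    rw [tau_eq]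
    simp_rw [mul_sub, mul_one]
    rw [Finset.sum_sub_distrib, MulChar.sum_eq_zero_of_ne_one (inv_ne_one hψ), sub_zero]
  rw [h1, ValuationSubring.mem_nonunits_iff]
  refine Valuation.map_sum_lt _ one_ne_zero fun b _ => ?_
  rw [map_mul]
  have h2 : (ζ ^ b.val) ^ r = 1 := by rw [← pow_mul, mul_comm, pow_mul, hζ, one_pow]
  have h3 : A.valuation (ζ ^ b.val - 1) < 1 :=
    (ValuationSubring.mem_nonunits_iff (A := A)).mp
      (Fermat.Agent.S33x.InertiaCyclo9.sub_one_mem_nonunits A hr hA h2)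
  exact mul_lt_one_of_nonneg_of_lt_one_right (valuation_psi_le ψ⁻¹ b) zero_le h3

/-- **`τ^p` is fixed by the inertia group** when `ψ^p = 1`. -/
theorem tau_pow_fixed (hA : A.LiesOverPrime r) {ζ : Qbar} (hprim : IsPrimitiveRoot ζ r)
    {ψ : MulChar (ZMod r) Qbar} (hψ : ψ ≠ 1) {p : ℕ} (hp0 : p ≠ 0) (hp : ψ ^ p = 1)
    {σ : Qbar ≃ₐ[ℚ] Qbar} (hσ : σ ∈ A.inertiaSubgroupIn ℚ) :
    σ (tau hprim.pow_eq_one ψ ^ p) = tau hprim.pow_eq_one ψ ^ p := by
  have hr : r.Prime := Fact.out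
  have hζ := hprim.pow_eq_one
  have h1 : (σ ζ) ^ r = 1 := by rw [← map_pow, hζ, map_one]
  obtain ⟨t, -, ht⟩ := hprim.eq_pow_of_pow_eq_one h1
  have ht0 : (t : ZMod r) ≠ 0 := by
    intro h0
    rw [ZMod.natCast_eq_zero_iff] at h0
    obtain ⟨k, rfl⟩ := h0
    rw [pow_mul, hζ, one_pow] at ht
    have h2 : σ ζ = σ 1 := by rw [← ht, map_one]
    have h3 := σ.injective h2
    exact hr.one_lt.ne' (hprim.unique (h3 ▸ IsPrimitiveRoot.one))
  have h4 := map_tau hζ hψ (σ : Qbar →+* Qbar) (fun a => psi_fixed hA ψ hσ a) t ht.symm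
  have h5 : σ (tau hζ ψ) = ψ (t : ZMod r) * tau hζ ψ := h4
  rw [map_pow, h5, mul_pow, ← MulChar.pow_apply' ψ hp0, hp,
    MulChar.one_apply (isUnit_iff_ne_zero.mpr ht0), one_mul]

/-- **`v(τ(ψ⁻¹)^p) = v(r)^n` with `0 < n < p`.** -/
theorem exists_valuation_tau_pow (hA : A.LiesOverPrime r) {ζ : Qbar}
    (hprim : IsPrimitiveRoot ζ r) {ψ : MulChar (ZMod r) Qbar} (hψ : ψ ≠ 1) {p : ℕ} (hp0 : p ≠ 0)
    (hp : ψ ^ p = 1) :
    ∃ n : ℕ, 0 < n ∧ n < p ∧
      A.valuation (tau hprim.pow_eq_one ψ ^ p) = A.valuation (r : Qbar) ^ n := by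
  have hr : r.Prime := Fact.out
  have hζ := hprim.pow_eq_one
  have hr0 : (r : Qbar) ≠ 0 := Nat.cast_ne_zero.mpr hr.ne_zero
  have hvr : A.valuation (r : Qbar) < 1 := (ValuationSubring.mem_nonunits_iff (A := A)).mp hA
  have hvr0 : 0 < A.valuation (r : Qbar) := zero_lt_iff.mpr ((map_ne_zero _).mpr hr0)
  have hψ' : ψ⁻¹ ≠ 1 := inv_ne_one hψ
  have hp' : ψ⁻¹ ^ p = 1 := by rw [inv_pow, hp, inv_one]
  have hτ := tau_ne_zero hprim hψ
  have hτ' := tau_ne_zero hprim hψ'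
  obtain ⟨n, hn⟩ := valuation_eq_zpow_of_fixed hr hA (pow_ne_zero p hτ)
    (fun σ hσ => tau_pow_fixed hA hprim hψ hp0 hp hσ)
  obtain ⟨n', hn'⟩ := valuation_eq_zpow_of_fixed hr hA (pow_ne_zero p hτ')
    (fun σ hσ => tau_pow_fixed hA hprim hψ' hp0 hp' hσ)
  -- positivity
  have hpos : ∀ {x : Qbar} {m : ℤ}, x ∈ A.nonunits →
      A.valuation (x ^ p) = A.valuation (r : Qbar) ^ m → 0 < m := by
    intro x m hx hm
    have h1 : A.valuation (x ^ p) < 1 := by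
      rw [map_pow]
      exact pow_lt_one₀ zero_le ((ValuationSubring.mem_nonunits_iff (A := A)).mp hx) hp0
    rw [hm] at h1
    by_contra hle
    rw [not_lt] at hle
    have h2 : (1 : A.ValueGroup) ≤ A.valuation (r : Qbar) ^ m := by
      obtain ⟨k, hk⟩ := Int.eq_ofNat_of_zero_le (neg_nonneg.mpr hle)
      have : m = -(k : ℤ) := by omega
      rw [this, zpow_neg, zpow_natCast]
      exact (one_le_inv₀ (pow_pos hvr0 k)).mpr (pow_le_one₀ zero_le hvr.le)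
    exact absurd h1 (not_lt.mpr h2)
  have hnpos := hpos (tau_mem_nonunits hA hζ hψ) hn
  have hn'pos := hpos (tau_mem_nonunits hA hζ hψ') hn'
  -- the product
  have hprod := tau_mul_tau_inv hprim hψ
  have hv1 : A.valuation (ψ (-1 : ZMod r)) = 1 := valuation_psi_unit ψ (neg_ne_zero.mpr one_ne_zero)
  have h3 : A.valuation (tau hζ ψ ^ p) * A.valuation (tau hζ ψ⁻¹ ^ p) =
      A.valuation (r : Qbar) ^ (p : ℤ) := by
    rw [zpow_natCast, ← map_pow, ← hprod, mul_pow, mul_pow, map_mul, map_mul,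
      map_pow _ (ψ (-1 : ZMod r)), hv1, one_pow, mul_one]
  rw [hn, hn', ← zpow_add₀ hvr0.ne'] at h3
  have h4 : n + n' = (p : ℤ) := zpow_right_injective₀ hvr0 hvr.ne h3
  obtain ⟨k, hk⟩ := Int.eq_ofNat_of_zero_le hnpos.le
  refine ⟨k, by omega, by omega, ?_⟩
  rw [hn, hk, zpow_natCast]

end Val

end Fermat.Agent.M43.GaussTau6
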