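/-
Programme M43 (target S43), gate (LG-q), Plan K — helper6.
**Gauss's lemma for power series over a valuation subring** (no discreteness): a power series over a
field `K` is PRIMITIVE with respect to a valuation subring `A` if all its coefficients lie in `A`
and one of them is a unit of `A`; products and powers of primitive series are primitive; a series
with integer coefficients and constant term `1` is primitive.
-/
import Mathlib

set_option autoImplicit false

noncomputable section

namespace Fermat.Agent.M43.PrimSeries6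

open PowerSeries

variable {K : Type*} [Field K] (A : ValuationSubring K)

/-- `P` is primitive over `A`. -/
def IsPrim (P : PowerSeries K) : Prop :=
  (∀ k, A.valuation (coeff k P) ≤ 1) ∧ ∃ k, A.valuation (coeff k P) = 1

variable {A}

theorem IsPrim.mul {P Q : PowerSeries K} (hP : IsPrim A P) (hQ : IsPrim A Q) :
    IsPrim A (P * Q) := by
  classical
  obtain ⟨hPi, hPu⟩ := hP
  obtain ⟨hQi, hQu⟩ := hQ
  refine ⟨fun k => ?_, ?_⟩
  · rw [coeff_mul]
    refine Valuation.map_sum_le _ fun x _ => ?_
    rw [map_mul]
    exact mul_le_one₀ (hPi _) zero_le (hQi _)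
  · set i := Nat.find hPu with hi
    set j := Nat.find hQu with hj
    have hi1 : A.valuation (coeff i P) = 1 := Nat.find_spec hPu
    have hj1 : A.valuation (coeff j Q) = 1 := Nat.find_spec hQu
    have hilt : ∀ a < i, A.valuation (coeff a P) < 1 := fun a ha =>
      lt_of_le_of_ne (hPi a) (Nat.find_min hPu ha)
    have hjlt : ∀ b < j, A.valuation (coeff b Q) < 1 := fun b hb =>
      lt_of_le_of_ne (hQi b) (Nat.find_min hQu hb)
    refine ⟨i + j, ?_⟩
    rw [coeff_mul]
    have hmem : (i, j) ∈ Finset.HasAntidiagonal.antidiagonal (i + j) := Finset.HasAntidiagonal.mem_antidiagonal.mpr rfl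
    rw [← Finset.add_sum_erase _ _ hmem]
    have hrest : A.valuation (∑ x ∈ (Finset.HasAntidiagonal.antidiagonal (i + j)).erase (i, j),
        coeff x.1 P * coeff x.2 Q) < 1 := by
      refine Valuation.map_sum_lt _ one_ne_zero fun x hx => ?_
      obtain ⟨hne, hxm⟩ := Finset.mem_erase.mp hx
      have hsum : x.1 + x.2 = i + j := Finset.HasAntidiagonal.mem_antidiagonal.mp hxm
      rw [map_mul]
      by_cases h1 : x.1 < i
      · exact mul_lt_one_of_nonneg_of_lt_one_left zero_le (hilt _ h1) (hQi _)
      · have h2 : x.2 < j := by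
          by_contra h2
          apply hne
          have : x.1 = i := by omega
          have : x.2 = j := by omega
          exact Prod.ext ‹x.1 = i› this
        exact mul_lt_one_of_nonneg_of_lt_one_right (hPi _) zero_le (hjlt _ h2)
    have hmain : A.valuation (coeff i P * coeff j Q) = 1 := by
      rw [map_mul, hi1, hj1, one_mul]
    rw [Valuation.map_add_eq_of_lt_left _ (by rw [hmain]; exact hrest), hmain]

theorem isPrim_one : IsPrim A (1 : PowerSeries K) := by
  refine ⟨fun k => ?_, ⟨0, by simp⟩⟩
  rw [coeff_one]
  split_ifs <;> simp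

theorem IsPrim.pow {P : PowerSeries K} (hP : IsPrim A P) (n : ℕ) : IsPrim A (P ^ n) := by
  induction n with
  | zero => rw [pow_zero]; exact isPrim_one
  | succ n ih => rw [pow_succ]; exact ih.mul hP

theorem valuation_intCast_le (n : ℤ) : A.valuation (n : K) ≤ 1 := by
  rw [ValuationSubring.valuation_le_one_iff]
  exact intCast_mem A n

/-- A series with integer coefficients and constant term `1` is primitive. -/
theorem isPrim_map_int {P : PowerSeries ℤ} (h0 : constantCoeff P = 1) :
    IsPrim A (P.map (Int.castRingHom K)) := by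
  refine ⟨fun k => ?_, ⟨0, ?_⟩⟩
  · rw [coeff_map]
    exact valuation_intCast_le _
  · rw [coeff_map, coeff_zero_eq_constantCoeff_apply, h0]
    simp

/-- Multiplying a primitive series by a unit constant. -/
theorem IsPrim.C_mul {P : PowerSeries K} (hP : IsPrim A P) {w : K} (hw : A.valuation w = 1) :
    IsPrim A (C w * P) := by
  obtain ⟨hPi, k, hk⟩ := hP
  refine ⟨fun n => ?_, ⟨k, ?_⟩⟩
  · rw [coeff_C_mul, map_mul, hw, one_mul]
    exact hPi n
  · rw [coeff_C_mul, map_mul, hw, one_mul, hk]

theorem IsPrim.expand {P : PowerSeries K} (hP : IsPrim A P) (d : ℕ) (hd : d ≠ 0) :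
    IsPrim A (P.expand d hd) := by
  obtain ⟨hPi, k, hk⟩ := hP
  refine ⟨fun n => ?_, ⟨d * k, ?_⟩⟩
  · by_cases hdn : d ∣ n
    · obtain ⟨m, rfl⟩ := hdn
      rw [coeff_expand_mul]
      exact hPi m
    · rw [coeff_expand_of_not_dvd d hd P hdn, map_zero]
      exact zero_le_one
  · rw [coeff_expand_mul, hk]

end Fermat.Agent.M43.PrimSeries6
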