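/-
Programme M43 (target S43), gate (LG-q), Plan K blocks (1)+(2), packaged — helper6.
**The `p`-th power `u = θ_ψ^p` of the Kummer generator at the cusp `0`:**

  `u(-1/(r z)) = q^{-rp} · w · r^b · Q(q)`,  `w` a unit of `A`, `Q` a PRIMITIVE power series over
  `A`, **`p ∤ b`**

(`ψ ≠ 1` even with `ψ^p = 1`, `A` a valuation subring of `ℚbar` over the odd prime `r`).  So the Gauss
valuation of `u` on the Fricke side is `v(r)^b` with `b` prime to `p`, while on the `∞` side `u` is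
`2^p ·` (primitive) (`EisPsiInf6`).
-/
import Mathlib
import Fermat.Agent.M43.GaussTau6
import Fermat.Agent.M43.EisPsiInf6
import Fermat.Agent.M43.PrimSeries6

set_option autoImplicit false
set_option linter.unusedSectionVars false

open UpperHalfPlane hiding I
open scoped MatrixGroups

noncomputable section

namespace Fermat.Agent.M43.EisPsiPack6

open Fermat.Agent.X0 Fermat.Agent.M48.FullLevelGen6 Fermat.Agent.IG.AN.DeltaAffine11
open Fermat.Agent.M43.EisPsi6 Fermat.Agent.M43.EisPsiAlg6 Fermat.Agent.M43.EisPsiInf6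
open Fermat.Agent.M43.GaussTau6 Fermat.Agent.M43.PrimSeries6

local notation "Qbar" => AlgebraicClosure ℚ

/-! ### Powers of expansions -/

section Pow

variable {K : Type} [Field K] {ι : K →+* ℂ}

theorem laurentOf_pow (m : ℕ) (P : PowerSeries K) (p : ℕ) :
    (laurentOf m P) ^ p = laurentOf (m * p) (P ^ p) := by
  induction p with
  | zero =>
    rw [pow_zero, pow_zero, Nat.mul_zero, laurentOf_zero_left]
    simp
  | succ p ih => rw [pow_succ, pow_succ, ih, ← laurentOf_mul, Nat.mul_succ]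

theorem rel_pow {n : ℕ} [NeZero n] {a : LaurentSeries K} {f : ℍ → ℂ} (h : Rel ι n a f) (p : ℕ) :
    Rel ι n (a ^ p) (f ^ p) := by
  induction p with
  | zero =>
    rw [pow_zero, pow_zero]
    have := rel_algebraMap (ι := ι) (n := n) (1 : K)
    rw [map_one, map_one] at this
    exact this
  | succ p ih => rw [pow_succ, pow_succ]; exact ih.mul h

end Pow

variable {A : ValuationSubring Qbar} {r : ℕ} [Fact r.Prime]

theorem isPrim_etaUInv_expand (d : ℕ) (hd : d ≠ 0) :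
    IsPrim A ((etaUInv Qbar).expand d hd) :=
  (isPrim_map_int ModularCurve.constantCoeff_dedekindEtaUnitInv).expand d hd

/-- **The cusp-`0` expansion of `u = θ_ψ^p`: `q^{-rp} · w · r^b · Q`, `w` a unit, `Q` primitive,
`p ∤ b`.** -/
theorem exists_thetaExp_S_pow (hA : A.LiesOverPrime r) (hr2 : r ≠ 2) {ζ : Qbar}
    (hprim : IsPrimitiveRoot ζ r) {ψ : MulChar (ZMod r) Qbar} (hψ : ψ ≠ 1) (heven : ψ (-1) = 1)
    {p : ℕ} (hp0 : p ≠ 0) (hp : ψ ^ p = 1) :
    ∃ (b : ℤ) (w : Qbar) (Q : PowerSeries Qbar), ¬ (p : ℤ) ∣ b ∧ A.valuation w = 1 ∧ IsPrim A Q ∧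
      (thetaExp ζ ψ ModularGroup.S) ^ p =
        laurentOf (r * p) (PowerSeries.C (w * (r : Qbar) ^ b) * Q) := by
  have hr : r.Prime := Fact.out
  have hr0 : (r : Qbar) ≠ 0 := Nat.cast_ne_zero.mpr hr.ne_zero
  have hvr0 : A.valuation (r : Qbar) ≠ 0 := (map_ne_zero _).mpr hr0
  obtain ⟨n, P, -, hPi, hPu, hB⟩ := exists_Bpsi_eq hA hr2 hprim hψ
  obtain ⟨m, hm0, hmp, hm⟩ := exists_valuation_tau_pow hA hprim hψ hp0 hp
  set τ := tau hprim.pow_eq_one ψ with hτ
  set E := (etaUInv Qbar).expand r (NeZero.ne r) with hE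
  have hPE : IsPrim A (P * E) := IsPrim.mul ⟨hPi, hPu⟩ (isPrim_etaUInv_expand r _)
  refine ⟨(m : ℤ) + p * (n - 12), τ ^ p / (r : Qbar) ^ m, (P * E) ^ p, ?_, ?_, hPE.pow p, ?_⟩
  · intro hdvd
    have h1 : (p : ℤ) ∣ (m : ℤ) := by
      have h2 : (p : ℤ) ∣ (p : ℤ) * (n - 12) := dvd_mul_right _ _
      exact (dvd_add_left h2).mp hdvd
    have h3 := Int.le_of_dvd (by exact_mod_cast hm0) h1
    omega
  · rw [map_div₀, hm, map_pow, div_self (pow_ne_zero _ hvr0)]
  · rw [thetaExp_S hprim.pow_eq_one hψ heven, laurentOf_pow, hB]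
    congr 1
    have e1 : (r : Qbar) ^ ((p : ℤ) * (n - 12)) = ((r : Qbar) ^ n / (r : Qbar) ^ 12) ^ p := by
      rw [mul_comm, zpow_mul, zpow_natCast, zpow_sub₀ hr0]
      norm_cast
    have hc : (((r : Qbar) ^ 12)⁻¹ * (τ * (r : Qbar) ^ n)) ^ p =
        τ ^ p / (r : Qbar) ^ m * (r : Qbar) ^ ((m : ℤ) + p * (n - 12)) := by
      rw [zpow_add₀ hr0, zpow_natCast, e1]
      generalize (r : Qbar) ^ n = X
      have hrm : (r : Qbar) ^ m ≠ 0 := pow_ne_zero _ hr0
      have hr12 : (r : Qbar) ^ 12 ≠ 0 := pow_ne_zero _ hr0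
      rw [div_mul_eq_mul_div, mul_left_comm, mul_div_assoc, mul_div_cancel_left₀ _ hrm, ← mul_pow,
        ← div_eq_inv_mul]
    calc (PowerSeries.C ((r : Qbar) ^ 12)⁻¹ * (PowerSeries.C (τ * (r : Qbar) ^ n) * P) * E) ^ p
        = PowerSeries.C ((((r : Qbar) ^ 12)⁻¹ * (τ * (r : Qbar) ^ n)) ^ p) * (P * E) ^ p := by
          simp only [map_pow, map_mul]
          ring
      _ = _ := by rw [hc]

/-- The analytic statement: `z ↦ θ_ψ(-1/(r z))^p` has the `q`-expansion `thetaExp ζ ψ S ^ p`. -/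
theorem rel_fricke_thetaAn_pow {ι : Qbar →+* ℂ} {ζ : Qbar} (hζ : ι ζ = QExpAffine.zetaC r)
    (ψ : MulChar (ZMod r) Qbar) (p : ℕ) :
    Rel ι 1 ((thetaExp ζ ψ ModularGroup.S) ^ p) (fun z => thetaAn ι ψ (fricke r z) ^ p) :=
  rel_pow (rel_comp_scaleH (rel_compSL_thetaAn hζ ψ ModularGroup.S)) p

end Fermat.Agent.M43.EisPsiPack6
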