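/-
Programme M43, chapter (LG-q), block [FIELD] (helper8), file 1: **the `n`-th power of the Kummer
generator `θ_ψ` lies in the algebra `𝒜(Γ₀(r))`** of ES/KUM (holomorphic, `Γ₀(r)`-invariant,
finite-order poles at all cusps), hence is realised by an element of `FC r = ℂ · F(X₀(r))`.

* `thetaAn_mem_HolH`, `thetaAn_smul_of_mem_Gamma0` (`θ_ψ ∘ σ = ψ(σ₀₀) θ_ψ` for `σ ∈ Γ₀(r)`),
  `bdd_compSL_thetaAn` (`(θ_ψ ∘ γ) Δ` bounded at `i∞` for every `γ`);
* `thetaPowH ψ n : HolH`, `thetaPowH_mem_algA` (`ψ ^ n = 1`);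
* `exists_FC_realMer_eq` : `∃ f : FC r, realMer r f = θ_ψ^n`.
-/
import Mathlib
import Fermat.Agent.M43.EisPsi6
import Fermat.Agent.M48.G10QExp5
import Fermat.Agent.M48.G10Eis4
import Fermat.Agent.ES.KUM.RatioMem15

set_option autoImplicit false
set_option linter.unusedSectionVars false

open UpperHalfPlane hiding I
open Complex CongruenceSubgroup
open scoped Real Nat MatrixGroups Matrix Manifold

noncomputable section

namespace Fermat.Agent.M43.ThetaAlgA8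

open Fermat.Agent.X0 Fermat.Agent.X0.SurjPoint Fermat.Agent.M48.DictIface4
open Fermat.Agent.M43.EisPsi6 Fermat.Agent.ES.KUM Fermat.Agent.ES.KUM.RatioAlg15
open Fermat.Agent.ES.KUM.RatioMem15

local notation "Δ" => ModularForm.discriminant

variable {K : Type} [Field K] (ι : K →+* ℂ) {r : ℕ} [Fact r.Prime]

/-- `θ_ψ` as a sum over the nonzero residues (the term `a = 0` vanishes). -/
theorem thetaAn_eq_sum_ne (ψ : MulChar (ZMod r) K) :
    thetaAn ι ψ = ∑ a ∈ (Finset.univ : Finset (ZMod r)).filter (fun a => a ≠ 0),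
      fun z => ι (ψ⁻¹ a) * gFun r a z := by
  classical
  funext z
  rw [Finset.sum_apply, thetaAn]
  rw [Finset.sum_filter]
  refine Finset.sum_congr rfl fun a _ => ?_
  by_cases ha : a = 0
  · rw [if_neg (not_not.2 ha), ha, MulChar.map_zero, map_zero, zero_mul]
  · rw [if_pos ha]

theorem thetaAn_mem_HolH (ψ : MulChar (ZMod r) K) : thetaAn ι ψ ∈ HolH := by
  classical
  rw [thetaAn_eq_sum_ne]
  refine Subalgebra.sum_mem _ fun a ha => ?_
  have ha0 : a ≠ 0 := (Finset.mem_filter.1 ha).2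
  have h1 : (fun z => ι (ψ⁻¹ a) * gFun r a z) =
      (algebraMap ℂ (ℍ → ℂ) (ι (ψ⁻¹ a))) * gFun r a := by
    funext z
    rfl
  rw [h1]
  exact HolH.mul_mem (HolH.algebraMap_mem _) (Fermat.Agent.M48.G10QExp5.gFun_mem_HolH r a ha0)

/-- The upper left entry of an element of `Γ₀(r)` is a unit modulo `r`. -/
theorem isUnit_cast_of_mem_Gamma0 {σ : SL(2, ℤ)} (hσ : σ ∈ Gamma0 r) :
    IsUnit (((σ 0 0 : ℤ) : ZMod r)) := by
  have hdet : σ 0 0 * σ 1 1 - σ 0 1 * σ 1 0 = 1 := by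
    have := σ.det_coe
    rw [Matrix.det_fin_two] at this
    exact this
  have h10 : ((σ 1 0 : ℤ) : ZMod r) = 0 := by
    rw [Gamma0_mem] at hσ
    exact hσ
  have h1 : ((σ 0 0 : ℤ) : ZMod r) * ((σ 1 1 : ℤ) : ZMod r) = 1 := by
    have := congrArg (fun x : ℤ => (x : ZMod r)) hdet
    simp only [Int.cast_sub, Int.cast_mul, Int.cast_one, h10, mul_zero, sub_zero] at this
    exact this
  exact IsUnit.of_mul_eq_one _ h1

/-- **`θ_ψ ∘ σ = ψ(σ₀₀) θ_ψ` for `σ ∈ Gamma0(r)`.** -/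
theorem thetaAn_smul_of_mem_Gamma0 (ψ : MulChar (ZMod r) K) {σ : SL(2, ℤ)}
    (hσ : σ ∈ Gamma0 r) (z : ℍ) :
    thetaAn ι ψ (σ • z) = ι (ψ ((σ 0 0 : ℤ) : ZMod r)) * thetaAn ι ψ z := by
  classical
  set d : ZMod r := ((σ 0 0 : ℤ) : ZMod r) with hd
  have hdu : IsUnit d := isUnit_cast_of_mem_Gamma0 hσ
  unfold thetaAn
  simp_rw [Fermat.Agent.M48.G10Eis4.gFun_smul_of_mem_Gamma0 r _ hσ]
  rw [Finset.mul_sum]
  -- reindex `a ↦ a d`
  have hbij : Function.Bijective (fun a : ZMod r => a * d) := by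
    obtain ⟨u, hu⟩ := hdu
    rw [← hu]
    exact (Units.mulRight u).bijective
  rw [← Function.Bijective.sum_comp hbij
    (fun b => ι (ψ ((σ 0 0 : ℤ) : ZMod r)) * (ι (ψ⁻¹ b) * gFun r b z))]
  refine Finset.sum_congr rfl fun a _ => ?_
  show ι (ψ⁻¹ a) * gFun r (a * d) z = ι (ψ d) * (ι (ψ⁻¹ (a * d)) * gFun r (a * d) z)
  rw [← mul_assoc, ← map_mul ι]
  congr 2
  rw [map_mul, MulChar.inv_apply_eq_inv ψ d, mul_comm (ψ⁻¹ a), ← mul_assoc,
    Ring.mul_inverse_cancel _ (hdu.map ψ), one_mul]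

/-- `(θ_ψ ∘ γ) Δ` is bounded at `i∞` for every `γ`. -/
theorem bdd_compSL_thetaAn (ψ : MulChar (ZMod r) K) (γ : SL(2, ℤ)) :
    Bdd 1 (compSL (thetaAn ι ψ) γ) := by
  classical
  have h1 : compSL (thetaAn ι ψ) γ =
      ∑ a : ZMod r, (fun _ : ℍ => ι (ψ⁻¹ a)) * compSL (gFun r a) γ := by
    funext z
    rw [Finset.sum_apply]
    rfl
  rw [h1]
  have : ∀ s : Finset (ZMod r),
      Bdd 1 (∑ a ∈ s, (fun _ : ℍ => ι (ψ⁻¹ a)) * compSL (gFun r a) γ) := by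
    intro s
    induction s using Finset.induction_on with
    | empty =>
      rw [Finset.sum_empty]
      exact bdd_zero 1
    | insert a s ha ih =>
      rw [Finset.sum_insert ha]
      refine Bdd.add ?_ ih
      have h2 : Bdd 1 (compSL (gFun r a) γ) :=
        Fermat.Agent.M48.G10Eis4.isBoundedAtImInfty_gFun_smul r a γ
      have := (bdd_const (ι (ψ⁻¹ a))).mul h2
      rwa [zero_add] at this
  exact this _

/-- `θ_ψ ^ n` as a holomorphic function. -/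
def thetaPowH (ψ : MulChar (ZMod r) K) (n : ℕ) : HolH :=
  ⟨thetaAn ι ψ, thetaAn_mem_HolH ι ψ⟩ ^ n

theorem coe_thetaPowH (ψ : MulChar (ZMod r) K) (n : ℕ) :
    ((thetaPowH ι ψ n : HolH) : ℍ → ℂ) = thetaAn ι ψ ^ n := rfl

theorem bdd_pow {f : ℍ → ℂ} (hf : Bdd 1 f) (n : ℕ) : Bdd n (f ^ n) := by
  induction n with
  | zero =>
    rw [pow_zero]
    exact bdd_one 0
  | succ n ih =>
    rw [pow_succ]
    exact ih.mul hf

/-- **`θ_ψ ^ n ∈ 𝒜(Γ₀(r))` when `ψ ^ n = 1`.** -/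
theorem thetaPowH_mem_algA (ψ : MulChar (ZMod r) K) {n : ℕ} (hn : ψ ^ n = 1) :
    thetaPowH ι ψ n ∈ algA r := by
  refine ⟨fun γ hγ => ?_, n, fun γ => ?_⟩
  · funext z
    show (thetaAn ι ψ ^ n) (γ • z) = (thetaAn ι ψ ^ n) z
    rw [Pi.pow_apply, Pi.pow_apply, thetaAn_smul_of_mem_Gamma0 ι ψ hγ, mul_pow, ← map_pow]
    obtain ⟨u, hu⟩ := isUnit_cast_of_mem_Gamma0 (r := r) hγ
    rw [← hu, ← MulChar.pow_apply_coe, hn, MulChar.one_apply_coe, map_one, one_mul]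
  · have : compSL ((thetaPowH ι ψ n : HolH) : ℍ → ℂ) γ = compSL (thetaAn ι ψ) γ ^ n := by
      funext z
      rfl
    rw [this]
    exact bdd_pow (bdd_compSL_thetaAn ι ψ γ) n

end Fermat.Agent.M43.ThetaAlgA8
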