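/-
Programme M43, chapter (LG-q), block [FIELD] (helper8), file 2: **from the analytic realisation to
membership in the formal function field over `ℚbar`.**

* `coe_eq_coeffMap_of_realMer_eq` : `f ∈ F_ℂ(X₀(N))` whose realisation `Θ f` is the holomorphic
  function `U`, and `X ∈ K((q))` the `q`-expansion of `U` (`Rel ι 1 X U`)  ⟹  the formal series
  of `f` is `ι(X)`;
* `mem_Fbar_of_realMer_eq` : with `K = ℚbar`, `X ∈ ℚbar · F(X₀(N)) = modularFunctionFieldBar N`
  (descent `ℂ → ℚbar` of `DescentC8`);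
* `thetaPow_mem_Fbar` : **`(q⁻¹ A_ψ η⁻²⁴)^n ∈ ℚbar · F(X₀(r))` for `ψ` even with `ψ^n = 1`**, and
  `Fbar_mono` (`N ∣ N'`).
-/
import Mathlib
import Fermat.Agent.M43.ThetaAlgA8
import Fermat.Agent.M43.DescentC8
import Fermat.Agent.M43.EisPsiPack6

set_option autoImplicit false
set_option linter.unusedSectionVars false
set_option linter.style.haveILetI false

open UpperHalfPlane hiding I
open ModularCurve
open scoped MatrixGroups

noncomputable section

namespace Fermat.Agent.M43.FieldBridge8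

open Fermat.Agent.X0 Fermat.Agent.X0.SurjPoint Fermat.Agent.M48.FullLevelGen6
open Fermat.Agent.ES.KUM Fermat.Agent.M43.EisPsi6 Fermat.Agent.M43.EisPsiInf6
open Fermat.Agent.M43.ThetaAlgA8 Fermat.Agent.IG.AN.DeltaAffine11

/-- **Series identification.** -/
theorem coe_eq_coeffMap_of_realMer_eq {K : Type} [Field K] (ι : K →+* ℂ) (N : ℕ) [NeZero N]
    (f : FC N) (U : HolH) (X : LaurentSeries K)
    (hf : realMer N f = algebraMap HolH MerH U) (hX : Rel ι 1 X (U : ℍ → ℂ)) :
    (f : LaurentSeries ℂ) = coeffMap ι X := by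
  obtain ⟨a, s, hs, rfl⟩ := exists_divC_ne_zero N f
  have hs' : realC N s ≠ 0 := fun h => hs (realC_injective N (h.trans (map_zero _).symm))
  have hsM : algebraMap HolH MerH (realC N s) ≠ 0 := fun h =>
    hs' ((IsFractionRing.injective HolH MerH) (h.trans (map_zero _).symm))
  rw [map_div₀, realMer_coe, realMer_coe, div_eq_iff hsM, ← map_mul] at hf
  have hf' : realC N a = U * realC N s := IsFractionRing.injective HolH MerH hf
  obtain ⟨m, P, hP, e1⟩ := hX
  obtain ⟨ma, Pa, hPa, ea⟩ := realC_isQExp N a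
  obtain ⟨ms, Ps, hPs, es⟩ := realC_isQExp N s
  have h1 : IsQExp 1 (((U * realC N s : HolH)) : ℍ → ℂ) (m + ms) (P * Ps) := hP.mul hPs
  rw [← hf'] at h1
  have h2 := hPa.unique h1
  rw [laurentOf_mul, ← ea, ← es, e1] at h2
  have hs0 : ((s : FC N) : LaurentSeries ℂ) ≠ 0 := fun h => hs (Subtype.ext (Subtype.ext h))
  have h3 : ((((a : FC N) / (s : FC N) : FC N)) : LaurentSeries ℂ) =
      ((a : FC N) : LaurentSeries ℂ) / ((s : FC N) : LaurentSeries ℂ) := rfl
  rw [h3, h2, mul_div_assoc, div_self hs0, mul_one]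

/-- **Descent to `ℚbar`.** -/
theorem mem_Fbar_of_realMer_eq (N : ℕ) [NeZero N] (f : FC N) (U : HolH) (X : LaurentSeries Kbar)
    (hf : realMer N f = algebraMap HolH MerH U) (hX : Rel iotaK 1 X (U : ℍ → ℂ)) :
    X ∈ modularFunctionFieldBar N := by
  letI : Algebra Kbar ℂ := iotaK.toAlgebra
  have h1 := coe_eq_coeffMap_of_realMer_eq iotaK N f U X hf hX
  have h2 : coeffMap (algebraMap Kbar ℂ) X ∈ laurentBaseChange ℂ (modularFunctionFieldFull N) := by
    have : coeffMap (algebraMap Kbar ℂ) X = (f : LaurentSeries ℂ) := h1.symm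
    rw [this]
    exact f.2
  exact Fermat.Agent.M43.DescentC8.mem_laurentBaseChange_of_coeffMap_mem
    (modularFunctionFieldFull N) h2

/-- Monotonicity of the function fields in the level. -/
theorem full_mono {N N' : ℕ} (h : N ∣ N') :
    modularFunctionFieldFull N ≤ modularFunctionFieldFull N' := by
  unfold modularFunctionFieldFull
  apply IntermediateField.adjoin.mono
  rintro _ ⟨d, hd, hdN, rfl⟩
  exact ⟨d, hd, hdN.trans h, rfl⟩

theorem Fbar_mono {N N' : ℕ} (h : N ∣ N') :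
    modularFunctionFieldBar N ≤ modularFunctionFieldBar N' := by
  show laurentBaseChange Kbar _ ≤ laurentBaseChange Kbar _
  rw [laurentBaseChange, IntermediateField.adjoin_le_iff]
  rintro _ ⟨y, hy, rfl⟩
  exact coeffEmb_mem_laurentBaseChange Kbar (full_mono h hy)

variable {r : ℕ} [Fact r.Prime]

/-- The `q`-expansion at `∞` of the Kummer generator `θ_ψ`. -/
def thetaInf (ψ : MulChar (ZMod r) Kbar) : LaurentSeries Kbar :=
  laurentOf 1 (Apsi ψ * etaUInv Kbar)

/-- **`θ_ψ^n ∈ ℚbar · F(X₀(r))` for `ψ` even with `ψ ^ n = 1`.** -/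
theorem thetaPow_mem_Fbar {ψ : MulChar (ZMod r) Kbar} (heven : ψ (-1) = 1) {n : ℕ}
    (hn : ψ ^ n = 1) : thetaInf ψ ^ n ∈ modularFunctionFieldBar r := by
  haveI : NeZero r := ⟨(Fact.out : r.Prime).ne_zero⟩
  obtain ⟨f, hf⟩ := RatioMem15.exists_realMer_eq_of_mem_fracA r
    (RatioAlg15.algebraMap_mem_fracA r (thetaPowH_mem_algA iotaK ψ hn))
  refine mem_Fbar_of_realMer_eq r f (thetaPowH iotaK ψ n) _ hf ?_
  rw [coe_thetaPowH]
  exact Fermat.Agent.M43.EisPsiPack6.rel_pow (rel_thetaAn heven) n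

theorem thetaPow_mem_Fbar_mul {ψ : MulChar (ZMod r) Kbar} (heven : ψ (-1) = 1) {n : ℕ}
    (hn : ψ ^ n = 1) (M' : ℕ) : thetaInf ψ ^ n ∈ modularFunctionFieldBar (M' * r) :=
  Fbar_mono (Dvd.intro_left M' rfl) (thetaPow_mem_Fbar heven hn)

end Fermat.Agent.M43.FieldBridge8
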