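/-
Programme M43, chapter (LG-q), block [ETALE] (helper7): **every order of the Kummer element
`u = θ_ψ ^ n ∈ Fbar (M' r)` is divisible by `n`.**

`r` a prime, `ψ` an even character of `(ℤ/r)ˣ` with `ψ ^ n = 1`, `θ_ψ = ∑_a ψ⁻¹(a) g_{r,a}` the
Kummer generator of helper6/helper8 (`EisPsi6.thetaAn`, `FieldBridge8.thetaInf`), `M'` a tame level
with `4 ∣ M'`.  Then for EVERY place `P` of `Fbar (M' r) / ℚbar`:  `n ∣ ord_P (θ_ψ ^ n)`.

Route: `θ_ψ` is an eigenfunction of `Γ₀(M' r)` for the character `γ ↦ ι ψ(γ₀₀)`, which lies in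
`KumChar (M' r) n` (it is trivial on the elements of trace `|tr| ≤ 2`: with `4 ∣ M'` these have trace
`± 2`, hence `γ₀₀ ≡ ± 1 mod r`, and `ψ` is even).  The banked Kummer theory over `ℂ`
(`ES/KUM/DivAllPlaces25.dvd_ord_of_eigen`: point places via the stabiliser index, cusp places via
the multiplier formula at `i∞`) gives `n ∣ ord_v` at every place `v` of `F_ℂ`, and the places of
`F_ℚbar` extend to `F_ℂ` with the same orders (`J/DESC/DescentFinal24.extPlaceC`).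

* `ulHom`, `kumChi` : the character `γ ↦ ι ψ(γ₀₀)` of `Γ₀(N)`, `r ∣ N`;
* `kumChi_mem_kumChar` : it lies in `KumChar N n` when `4 r ∣ N`, `ψ` even, `ψ ^ n = 1`;
* **`dvd_ord_of_coe_eq`** : `u : Fbar (M' r)` with series `thetaInf ψ ^ n`  ⟹  `n ∣ P.ord u` for all `P`;
* `exists_thetaPow`, `dvd_ord_thetaPow` : packaged with `FieldBridge8.thetaPow_mem_Fbar_mul`.
-/
import Mathlib
import Fermat.Agent.M43.FieldBridge8
import Fermat.Agent.ES.KUM.HasEigenFinal18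
import Fermat.Agent.J.DESC.DescentFinal24

set_option autoImplicit false
set_option linter.unusedSectionVars false
set_option linter.style.haveILetI false

open UpperHalfPlane hiding I
open ModularCurve AlgebraicCurve CongruenceSubgroup
open scoped MatrixGroups

noncomputable section

namespace Fermat.Agent.M43.EtaleDiv7

open Fermat.Agent.X0 Fermat.Agent.X0.SurjPoint Fermat.Agent.M48.FullLevelGen6
open Fermat.Agent.ES.KUM Fermat.Agent.M43.EisPsi6 Fermat.Agent.M43.EisPsiInf6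
open Fermat.Agent.M43.ThetaAlgA8 Fermat.Agent.M43.FieldBridge8
open Fermat.Agent.ES.KUM.RatioAlg15 Fermat.Agent.ES.KUM.RatioMem15
open Fermat.Agent.J.DESC.DescentFinal24

/-! ### Elementary facts on `Γ₀(N)` -/

theorem gamma0_le_of_dvd7 {M N : ℕ} (h : M ∣ N) : Gamma0 N ≤ Gamma0 M := by
  intro γ hγ
  rw [Gamma0_mem] at hγ ⊢
  rw [ZMod.intCast_zmod_eq_zero_iff_dvd] at hγ ⊢
  exact (Int.natCast_dvd_natCast.2 h).trans hγ

theorem lower_left_dvd {N : ℕ} {γ : SL(2, ℤ)} (hγ : γ ∈ Gamma0 N) : (N : ℤ) ∣ γ 1 0 := by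
  rw [Gamma0_mem, ZMod.intCast_zmod_eq_zero_iff_dvd] at hγ
  exact hγ

theorem det_eq7 (γ : SL(2, ℤ)) : γ 0 0 * γ 1 1 - γ 0 1 * γ 1 0 = 1 := by
  have := γ.det_coe
  rw [Matrix.det_fin_two] at this
  exact this

theorem trace_eq7 (γ : SL(2, ℤ)) :
    ((γ : SL(2, ℤ)) : Matrix (Fin 2) (Fin 2) ℤ).trace = γ 0 0 + γ 1 1 := by
  rw [Matrix.trace_fin_two]

/-- modulo `4`: `x y = 1` forces `x + y = 2`. -/
theorem zmod4_aux : ∀ x y : ZMod 4, x * y = 1 → x + y = 2 := by decide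

/-- **With `4 ∣ N`, the elements of `Γ₀(N)` of trace `|tr| ≤ 2` have trace `± 2`.** -/
theorem trace_eq_two_or {N : ℕ} (h4 : 4 ∣ N) {γ : SL(2, ℤ)} (hγ : γ ∈ Gamma0 N)
    (htr : |γ 0 0 + γ 1 1| ≤ 2) : γ 0 0 + γ 1 1 = 2 ∨ γ 0 0 + γ 1 1 = -2 := by
  have hc : ((4 : ℕ) : ℤ) ∣ γ 1 0 := (Int.natCast_dvd_natCast.2 h4).trans (lower_left_dvd hγ)
  have hc0 : ((γ 1 0 : ℤ) : ZMod 4) = 0 := (ZMod.intCast_zmod_eq_zero_iff_dvd _ 4).2 hc
  have hdet := congrArg (fun x : ℤ => (x : ZMod 4)) (det_eq7 γ)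
  simp only [Int.cast_sub, Int.cast_mul, Int.cast_one, hc0, mul_zero, sub_zero] at hdet
  have h2 := zmod4_aux _ _ hdet
  have h3 : (((γ 0 0 + γ 1 1 - 2 : ℤ)) : ZMod 4) = 0 := by
    push_cast
    rw [h2]
    ring
  rw [ZMod.intCast_zmod_eq_zero_iff_dvd] at h3
  obtain ⟨k, hk⟩ := h3
  have := abs_le.1 htr
  push_cast at hk
  omega

variable {r : ℕ} [Fact r.Prime]

/-- **An element of `Γ₀(N)`, `r ∣ N`, of trace `± 2` has upper left entry `≡ ± 1 mod r`.** -/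
theorem cast_ul_of_trace {N : ℕ} (hrN : r ∣ N) {γ : SL(2, ℤ)} (hγ : γ ∈ Gamma0 N) {t : ℤ}
    (ht : γ 0 0 + γ 1 1 = 2 * t) (ht2 : t * t = 1) : ((γ 0 0 : ℤ) : ZMod r) = (t : ZMod r) := by
  have hc : (r : ℤ) ∣ γ 1 0 := (Int.natCast_dvd_natCast.2 hrN).trans (lower_left_dvd hγ)
  have hc0 : ((γ 1 0 : ℤ) : ZMod r) = 0 := (ZMod.intCast_zmod_eq_zero_iff_dvd _ r).2 hc
  have hdet := congrArg (fun x : ℤ => (x : ZMod r)) (det_eq7 γ)
  simp only [Int.cast_sub, Int.cast_mul, Int.cast_one, hc0, mul_zero, sub_zero] at hdet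
  have htr := congrArg (fun x : ℤ => (x : ZMod r)) ht
  simp only [Int.cast_add, Int.cast_mul, Int.cast_ofNat] at htr
  have ht2' := congrArg (fun x : ℤ => (x : ZMod r)) ht2
  simp only [Int.cast_mul, Int.cast_one] at ht2'
  have hsq : (((γ 0 0 : ℤ) : ZMod r) - (t : ZMod r)) ^ 2 = 0 := by
    have hd : ((γ 1 1 : ℤ) : ZMod r) = 2 * (t : ZMod r) - ((γ 0 0 : ℤ) : ZMod r) := by
      rw [← htr]
      ring
    rw [hd] at hdet
    linear_combination -hdet + ht2'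
  exact sub_eq_zero.1 ((pow_eq_zero_iff two_ne_zero).1 hsq)

/-! ### The character `γ ↦ ι ψ(γ₀₀)` -/

/-- the upper left entry modulo `r`, a monoid homomorphism on `Γ₀(N)` for `r ∣ N`. -/
def ulHom (N : ℕ) (hrN : r ∣ N) : ↥(Gamma0 N) →* ZMod r where
  toFun γ := (((γ : SL(2, ℤ)) 0 0 : ℤ) : ZMod r)
  map_one' := by
    show ((((1 : SL(2, ℤ)) 0 0 : ℤ)) : ZMod r) = 1
    simp
  map_mul' γ δ := by
    show (((((γ : SL(2, ℤ)) * (δ : SL(2, ℤ))) 0 0 : ℤ)) : ZMod r) =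
      (((γ : SL(2, ℤ)) 0 0 : ℤ) : ZMod r) * (((δ : SL(2, ℤ)) 0 0 : ℤ) : ZMod r)
    have hc : (r : ℤ) ∣ (δ : SL(2, ℤ)) 1 0 :=
      (Int.natCast_dvd_natCast.2 hrN).trans (lower_left_dvd δ.2)
    have hc0 : ((((δ : SL(2, ℤ)) 1 0 : ℤ)) : ZMod r) = 0 :=
      (ZMod.intCast_zmod_eq_zero_iff_dvd _ r).2 hc
    rw [Matrix.SpecialLinearGroup.coe_mul, Matrix.mul_apply, Fin.sum_univ_two]
    push_cast
    rw [hc0, mul_zero, add_zero]

theorem ulHom_apply (N : ℕ) (hrN : r ∣ N) (γ : ↥(Gamma0 N)) :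
    ulHom N hrN γ = (((γ : SL(2, ℤ)) 0 0 : ℤ) : ZMod r) := rfl

/-- the character `γ ↦ ι ψ(γ₀₀)` of `Γ₀(N)`. -/
def kumChi (ψ : MulChar (ZMod r) Kbar) (N : ℕ) (hrN : r ∣ N) : ↥(Gamma0 N) →* ℂˣ :=
  ((iotaK : Kbar →* ℂ).comp (ψ.toMonoidHom.comp (ulHom N hrN))).toHomUnits

theorem coe_kumChi (ψ : MulChar (ZMod r) Kbar) (N : ℕ) (hrN : r ∣ N) (γ : ↥(Gamma0 N)) :
    ((kumChi ψ N hrN γ : ℂˣ) : ℂ) = iotaK (ψ (((γ : SL(2, ℤ)) 0 0 : ℤ) : ZMod r)) := rfl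

/-- **`γ ↦ ι ψ(γ₀₀)` lies in `KumChar N n`** (`4 ∣ N`, `r ∣ N`, `ψ` even, `ψ ^ n = 1`). -/
theorem kumChi_mem_kumChar {ψ : MulChar (ZMod r) Kbar} (heven : ψ (-1) = 1) {n : ℕ}
    (hn : ψ ^ n = 1) (N : ℕ) [NeZero N] (hrN : r ∣ N) (h4 : 4 ∣ N) :
    kumChi ψ N hrN ∈ KumInst18.KumChar N n := by
  rw [KumInst18.mem_kumChar_iff]
  refine ⟨fun γ => ?_, fun γ htr => ?_⟩
  · apply Units.ext
    rw [Units.val_pow_eq_pow_val, coe_kumChi, Units.val_one, ← map_pow]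
    obtain ⟨u, hu⟩ := isUnit_cast_of_mem_Gamma0 (r := r) (gamma0_le_of_dvd7 hrN γ.2)
    rw [← hu, ← MulChar.pow_apply_coe, hn, MulChar.one_apply_coe, map_one]
  · apply Units.ext
    rw [coe_kumChi, Units.val_one]
    rw [trace_eq7] at htr
    rcases trace_eq_two_or h4 γ.2 htr with h2 | h2
    · have := cast_ul_of_trace (r := r) (t := 1) hrN γ.2 (by rw [h2]; norm_num) (by norm_num)
      rw [this, Int.cast_one, map_one, map_one]
    · have := cast_ul_of_trace (r := r) (t := -1) hrN γ.2 (by rw [h2]; norm_num) (by norm_num)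
      rw [this, Int.cast_neg, Int.cast_one, heven, map_one]

/-! ### The eigenfunction -/

/-- `θ_ψ` as a holomorphic function. -/
def thetaH (ψ : MulChar (ZMod r) Kbar) : HolH := ⟨thetaAn iotaK ψ, thetaAn_mem_HolH iotaK ψ⟩

theorem thetaPowH_eq (ψ : MulChar (ZMod r) Kbar) (n : ℕ) : thetaPowH iotaK ψ n = thetaH ψ ^ n := rfl

/-- **`θ_ψ ^ n ∈ 𝒜(Γ₀(N))` for `r ∣ N`.** -/
theorem thetaPowH_mem_algA_of_dvd (ψ : MulChar (ZMod r) Kbar) {n : ℕ} (hn : ψ ^ n = 1)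
    (N : ℕ) [NeZero N] (hrN : r ∣ N) : thetaPowH iotaK ψ n ∈ algA N := by
  obtain ⟨h1, m, h2⟩ := thetaPowH_mem_algA iotaK ψ hn
  exact ⟨fun γ hγ => h1 γ (gamma0_le_of_dvd7 hrN hγ), m, h2⟩

/-- the eigenfunction equation in `MerH`. -/
theorem slMer_thetaH (ψ : MulChar (ZMod r) Kbar) (N : ℕ) (hrN : r ∣ N) (γ : ↥(Gamma0 N)) :
    slMer (γ : SL(2, ℤ)) (algebraMap HolH MerH (thetaH ψ)) =
      algebraMap HolH MerH (algebraMap ℂ HolH ((kumChi ψ N hrN γ : ℂˣ) : ℂ)) *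
        algebraMap HolH MerH (thetaH ψ) := by
  rw [slMer_algebraMap, ← map_mul]
  congr 1
  apply Subtype.ext
  funext z
  show thetaAn iotaK ψ ((γ : SL(2, ℤ)) • z) = _
  rw [thetaAn_smul_of_mem_Gamma0 iotaK ψ (gamma0_le_of_dvd7 hrN γ.2) z]
  rfl

/-! ### The main statement -/

/-- **[ETALE]** every order of `u = θ_ψ ^ n ∈ Fbar N` (`4 r ∣ N`) is divisible by `n`. -/
theorem dvd_ord_of_coe_eq' {ψ : MulChar (ZMod r) Kbar} (heven : ψ (-1) = 1) {n : ℕ} (hn0 : n ≠ 0)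
    (hn : ψ ^ n = 1) (N : ℕ) [NeZero N] (hrN : r ∣ N) (h4 : 4 ∣ N) (u : FF N)
    (hu : (u : LaurentSeries Kbar) = thetaInf ψ ^ n) (P : Place Kbar (FF N)) :
    (n : ℤ) ∣ P.ord u := by
  rcases eq_or_ne u 0 with rfl | hu0
  · rw [Place.ord_zero]
    exact dvd_zero _
  -- the realisation over `ℂ`
  obtain ⟨f, hf⟩ := exists_realMer_eq_of_mem_fracA N
    (algebraMap_mem_fracA N (thetaPowH_mem_algA_of_dvd ψ hn N hrN))
  have hX : Rel iotaK 1 (thetaInf ψ ^ n) (((thetaPowH iotaK ψ n : HolH)) : ℍ → ℂ) := by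
    rw [coe_thetaPowH]
    exact Fermat.Agent.M43.EisPsiPack6.rel_pow (rel_thetaAn heven) n
  have hfc := coe_eq_coeffMap_of_realMer_eq iotaK N f (thetaPowH iotaK ψ n) _ hf hX
  have hfu : f = bcQC N u := by
    apply Subtype.ext
    rw [hfc, coe_bcQC, hu]
    rfl
  -- the eigenfunction
  have hh : algebraMap HolH MerH (thetaH ψ) ≠ 0 := by
    intro h0
    have h1 : thetaH ψ = 0 := (IsFractionRing.injective HolH MerH) (h0.trans (map_zero _).symm)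
    have h2 : (((thetaPowH iotaK ψ n : HolH)) : ℍ → ℂ) = 0 := by
      rw [thetaPowH_eq, h1, zero_pow hn0]
      rfl
    have h3 : thetaInf ψ ^ n = 0 := hX.eq_zero_iff.1 h2
    exact hu0 (Subtype.ext (hu.trans h3))
  have hpow : algebraMap HolH MerH (thetaH ψ) ^ n = realMer N f := by
    rw [hf, ← map_pow, thetaPowH_eq]
  have hdvd := DivAllPlaces25.dvd_ord_of_eigen N HasEigenFinal18.fixedTrace
    (MultTrivialFinal18.parMultStmt N) hn0 (kumChi_mem_kumChar heven hn N hrN h4) hh hpow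
    (slMer_thetaH ψ N hrN) (extPlaceC N P)
  rw [hfu, ord_extPlaceC] at hdvd
  exact hdvd

/-- **[ETALE]** at the level `M' r` with `4 ∣ M'`. -/
theorem dvd_ord_of_coe_eq {ψ : MulChar (ZMod r) Kbar} (heven : ψ (-1) = 1) {n : ℕ} (hn0 : n ≠ 0)
    (hn : ψ ^ n = 1) (M' : ℕ) [NeZero M'] (h4 : 4 ∣ M') (u : FF (M' * r))
    (hu : (u : LaurentSeries Kbar) = thetaInf ψ ^ n) (P : Place Kbar (FF (M' * r))) :
    (n : ℤ) ∣ P.ord u :=
  dvd_ord_of_coe_eq' heven hn0 hn (M' * r) (Dvd.intro_left M' rfl) (Dvd.dvd.mul_right h4 r) u hu P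

/-- the Kummer element `θ_ψ ^ n` of `Fbar (M' r)`. -/
def thetaPow {ψ : MulChar (ZMod r) Kbar} (heven : ψ (-1) = 1) {n : ℕ} (hn : ψ ^ n = 1) (M' : ℕ) :
    FF (M' * r) := ⟨thetaInf ψ ^ n, thetaPow_mem_Fbar_mul heven hn M'⟩

theorem coe_thetaPow {ψ : MulChar (ZMod r) Kbar} (heven : ψ (-1) = 1) {n : ℕ} (hn : ψ ^ n = 1)
    (M' : ℕ) : ((thetaPow heven hn M' : FF (M' * r)) : LaurentSeries Kbar) = thetaInf ψ ^ n := rfl

/-- **[ETALE]**, packaged. -/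
theorem dvd_ord_thetaPow {ψ : MulChar (ZMod r) Kbar} (heven : ψ (-1) = 1) {n : ℕ} (hn0 : n ≠ 0)
    (hn : ψ ^ n = 1) (M' : ℕ) [NeZero M'] (h4 : 4 ∣ M') (P : Place Kbar (FF (M' * r))) :
    (n : ℤ) ∣ P.ord (thetaPow heven hn M') :=
  dvd_ord_of_coe_eq heven hn0 hn M' h4 _ (coe_thetaPow heven hn M') P

end Fermat.Agent.M43.EtaleDiv7
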