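/-
Programme M43, chapter (LG-q), block [IGUSA-q], Plan K (helper8): **the slope formula modulo `m`
at a node, for functions fixed by inertia.**

Abstract layer over T33's nodal reduction context `NodalCtx1.NodalRed` and U44's annulus coordinate
`Annulus3.AnnCoord`.  Let `γ : Γ → SemilinearAut K F` be a family of semilinear automorphisms
compatible with the context (`NodalRed.Compat`: in use the inertia group of `A`), fixing the annulus
coordinate `z'` of the node `k`, and let `f ≠ 0` be fixed by all `γ σ`, with ALL ORDERS OVER THE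
NODE DIVISIBLE BY `m`.  If every nonzero constant fixed by the `γ σ` is `ϖ ^ n · unit` (the fixed
field of inertia is unramified and `ϖ` is a uniformiser of it), then for the normalisations
`c₁ f`, `c₂ f` of `f` on the two components with `c₁ / c₂ = ϖ ^ b · unit`:

  **`m ∣ ord_{s1 k} ρ₁ (c₁ f) − b`**  (`slope_mod`).

Proof: `Annulus3.annulus_formula` gives `c₁ / c₂ = ϖ ^ (s − Σ n_P) ∏ z'(P) ^ n_P · unit`; the
constant `c = ∏ z'(P) ^ (n_P / m)` is fixed by every `γ σ` because `γ σ` permutes the places over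
the node, `z'(γ σ • P) = σ (z'(P))` and `n_{γ σ • P} = n_P`.
-/
import Mathlib
import Fermat.Agent.U44.Annulus3

set_option autoImplicit false

open AlgebraicCurve IsLocalRing

namespace Fermat.Agent.M43.SlopeMod8

open Fermat.Agent.T33.NodalCtx1 Fermat.Agent.T33.NodalCurve6 Fermat.Agent.T33.NodalAbs1A
  Fermat.Agent.X0.FF Fermat.Agent.U44.GaussRed3 Fermat.Agent.U44.Annulus3
  AlgebraicCurve.SemilinearAut

variable {K : Type*} [Field K] {A : ValuationSubring K}
variable {F : Type*} [Field F] [Algebra K F]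
variable {Fb₁ Fb₂ : Type*} [Field Fb₁] [Field Fb₂]
  [Algebra (ResidueField A) Fb₁] [Algebra (ResidueField A) Fb₂]
variable {ι : Type*} {Nd : NodalData (ResidueField A) Fb₁ Fb₂ ι}
variable {N : NodalRed A F Nd}

/-! ### powers of a small element -/

theorem small_pow {a : K} (ha : Small A a) {n : ℕ} (hn : 0 < n) : Small A (a ^ n) := by
  obtain ⟨j, rfl⟩ := Nat.exists_eq_succ_of_ne_zero hn.ne'
  rw [pow_succ]
  exact Small.mem_mul (A.pow_mem ha.1 j) ha

/-- a power of a small nonzero element is a unit only for the exponent `0`. -/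
theorem eq_zero_of_aunit_zpow {a : K} (ha : Small A a) {e : ℤ}
    (h : AUnit A (a ^ e)) : e = 0 := by
  rcases lt_trichotomy e 0 with he | he | he
  · exfalso
    have h1 : AUnit A (a ^ (-e)) := by
      rw [zpow_neg]
      exact h.inv
    obtain ⟨n, hn⟩ := Int.eq_ofNat_of_zero_le (le_of_lt (neg_pos.2 he))
    rw [hn, zpow_natCast] at h1
    have hn0 : 0 < n := by
      rcases Nat.eq_zero_or_pos n with h0 | h0
      · rw [h0] at hn
        omega
      · exact h0
    exact h1.not_small (small_pow ha hn0)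
  · exact he
  · exfalso
    obtain ⟨n, hn⟩ := Int.eq_ofNat_of_zero_le (le_of_lt he)
    rw [hn, zpow_natCast] at h
    have hn0 : 0 < n := by
      rcases Nat.eq_zero_or_pos n with h0 | h0
      · rw [h0] at hn
        omega
      · exact h0
    exact h.not_small (small_pow ha hn0)

/-! ### the action on the places over a node -/

section Action

variable {Γ : Type*} {γ : Γ → SemilinearAut K F} (hC : N.Compat γ)
variable {k : ι} (X : AnnCoord N k)

include hC in
theorem redToNode_smul (σ : Γ) {P : Place K F} (hP : N.RedToNode P k) :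
    N.RedToNode (γ σ • P) k := by
  unfold NodalRed.RedToNode
  rw [hC.r₁_smul σ P]
  exact hP

/-- two constants `a`, `a'` with `z' − a`, `z' − a'` both vanishing at a place are equal. -/
theorem const_eq_of_ord_pos (z : F) (Q : Place K F) {a a' : K}
    (h1 : 0 < Q.ord (z - algebraMap K F a)) (h2 : 0 < Q.ord (z - algebraMap K F a')) :
    a' = a := by
  by_contra hne
  have hd : algebraMap K F (a - a') = (z - algebraMap K F a') - (z - algebraMap K F a) := by
    rw [map_sub]; ring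
  have hd0 : a - a' ≠ 0 := sub_ne_zero.2 (fun h => hne h.symm)
  have h3 : Q.ord (algebraMap K F (a - a')) = 0 := ord_algebraMap Q (a - a')
  have hdne : (z - algebraMap K F a') - (z - algebraMap K F a) ≠ 0 := by
    rw [← hd, ne_eq, _root_.map_eq_zero]
    exact hd0
  have h4 := ord_sub_ge Q hdne
  rw [← hd, h3] at h4
  have : 0 < min (Q.ord (z - algebraMap K F a')) (Q.ord (z - algebraMap K F a)) := lt_min h2 h1
  exact lt_irrefl _ (lt_of_lt_of_le this h4)

include hC in
/-- **the value of the annulus coordinate is equivariant.** -/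
theorem value_smul (hzp : ∀ σ, γ σ • X.zp = X.zp) (σ : Γ) {P : Place K F}
    (hP : N.RedToNode P k) :
    X.value (γ σ • P) = baseAut (γ σ) (X.value P) := by
  have hP' : N.RedToNode (γ σ • P) k := redToNode_smul hC σ hP
  -- `z' − σ(a_P)` vanishes at `σ P`
  have h1 : 0 < (γ σ • P).ord (X.zp - algebraMap K F (baseAut (γ σ) (X.value P))) := by
    have e : X.zp - algebraMap K F (baseAut (γ σ) (X.value P)) =
        γ σ • (X.zp - algebraMap K F (X.value P)) := by
      rw [smul_sub, hzp σ, SemilinearAut.smul_algebraMap]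
    rw [e, SemilinearAut.ord_smul]
    exact X.value_spec P hP
  exact const_eq_of_ord_pos X.zp (γ σ • P) h1 (X.value_spec _ hP')

end Action

/-! ### the main statement -/

/-- **(QS-m) the slope formula modulo `m`.** -/
theorem slope_mod {Γ : Type*} {γ : Γ → SemilinearAut K F} (hC : N.Compat γ) {k : ι}
    (X : AnnCoord N k) (hzp : ∀ σ, γ σ • X.zp = X.zp)
    (hfix : ∀ c : K, c ≠ 0 → (∀ σ, baseAut (γ σ) c = c) → ∃ n : ℤ, AUnit A (c / X.ϖ ^ n))
    {f : F} (hf : f ≠ 0) (hfγ : ∀ σ, γ σ • f = f)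
    (D : Divisor K F) (hD : ∀ P, D P = P.ord f)
    (m : ℤ) (hm : ∀ P : Place K F, N.RedToNode P k → m ∣ P.ord f)
    {c₁ c₂ : K} (h₁ : IsGU N.c₁ (algebraMap K F c₁ * f))
    (h₂ : IsGU N.c₂ (algebraMap K F c₂ * f)) (b : ℤ) (hb : AUnit A (c₁ / (c₂ * X.ϖ ^ b))) :
    m ∣ (Nd.s1 k).ord (red N.c₁ (algebraMap K F c₁ * f)) - b := by
  classical
  set s : ℤ := (Nd.s1 k).ord (red N.c₁ (algebraMap K F c₁ * f)) with hs
  -- the places over the node where `f` has a zero or a pole
  set T : Finset (Place K F) := D.support.filter (fun P => N.RedToNode P k) with hT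
  have hTmem : ∀ P, P ∈ T ↔ P.ord f ≠ 0 ∧ N.RedToNode P k := by
    intro P
    rw [hT, Finset.mem_filter, Finsupp.mem_support_iff, hD]
  have hT1 : ∀ P ∈ T, N.RedToNode P k := fun P hP => ((hTmem P).1 hP).2
  have hT2 : ∀ P : Place K F, N.RedToNode P k → P.ord f ≠ 0 → P ∈ T :=
    fun P hP h0 => (hTmem P).2 ⟨h0, hP⟩
  have hAF := annulus_formula X hf T hT1 hT2 h₁ h₂
  rw [← hs] at hAF
  -- the fixed constant
  set c : K := ∏ P ∈ T, X.value P ^ (P.ord f / m) with hc
  have hc0 : c ≠ 0 := Finset.prod_ne_zero_iff.2 fun P hP =>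
    zpow_ne_zero _ (X.value_ne P (hT1 P hP))
  have hcm : c ^ m = ∏ P ∈ T, X.value P ^ P.ord f := by
    rw [hc, ← Finset.prod_zpow]
    refine Finset.prod_congr rfl fun P hP => ?_
    rw [← zpow_mul, Int.ediv_mul_cancel (hm P (hT1 P hP))]
  have hordγ : ∀ (σ : Γ) (P : Place K F), (γ σ • P).ord f = P.ord f := by
    intro σ P
    have := SemilinearAut.ord_smul (γ σ) P f
    rwa [hfγ σ] at this
  have hcfix : ∀ σ, baseAut (γ σ) c = c := by
    intro σ
    rw [hc, map_prod]
    have hmaps : ∀ P ∈ T, γ σ • P ∈ T := by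
      intro P hP
      refine (hTmem _).2 ⟨?_, redToNode_smul hC σ (hT1 P hP)⟩
      rw [hordγ]
      exact ((hTmem P).1 hP).1
    have hinj : Set.InjOn (fun P : Place K F => γ σ • P) (T : Set (Place K F)) :=
      fun P _ P' _ h => MulAction.injective (γ σ) h
    have hsurj : Set.SurjOn (fun P : Place K F => γ σ • P) (T : Set (Place K F))
        (T : Set (Place K F)) := by
      have hcard : (T.image fun P : Place K F => γ σ • P).card = T.card :=
        Finset.card_image_of_injOn hinj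
      have hsub : (T.image fun P : Place K F => γ σ • P) ⊆ T := by
        intro Q hQ
        obtain ⟨P, hP, rfl⟩ := Finset.mem_image.1 hQ
        exact hmaps P hP
      have heq : (T.image fun P : Place K F => γ σ • P) = T :=
        Finset.eq_of_subset_of_card_le hsub (le_of_eq hcard.symm)
      intro Q hQ
      have : Q ∈ T.image fun P : Place K F => γ σ • P := by rw [heq]; exact hQ
      obtain ⟨P, hP, rfl⟩ := Finset.mem_image.1 this
      exact ⟨P, hP, rfl⟩
    have hterm : ∀ P ∈ T, baseAut (γ σ) (X.value P ^ (P.ord f / m)) =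
        X.value (γ σ • P) ^ ((γ σ • P).ord f / m) := by
      intro P hP
      rw [map_zpow₀, value_smul hC X hzp σ (hT1 P hP), hordγ]
    rw [Finset.prod_congr rfl hterm]
    exact Finset.prod_nbij (fun P : Place K F => γ σ • P) hmaps hinj hsurj fun _ _ => rfl
  obtain ⟨n₀, hn₀⟩ := hfix c hc0 hcfix
  -- compare the two expressions of `c₁ / c₂`
  have hc₁ : c₁ ≠ 0 := fun h0 => h₁.ne_zero (by rw [h0, map_zero, zero_mul])
  have hc₂ : c₂ ≠ 0 := fun h0 => h₂.ne_zero (by rw [h0, map_zero, zero_mul])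
  have hϖ : X.ϖ ≠ 0 := X.ϖ_ne
  set S : ℤ := ∑ P ∈ T, P.ord f with hS
  have hprod0 : (∏ P ∈ T, X.value P ^ P.ord f) ≠ 0 := by
    rw [← hcm]
    exact zpow_ne_zero _ hc0
  have hquot : AUnit A (X.ϖ ^ (m * n₀ + (s - S) - b)) := by
    have h3 : AUnit A ((c₁ / (c₂ * X.ϖ ^ b)) *
        (c₁ / (c₂ * (∏ P ∈ T, X.value P ^ P.ord f) * X.ϖ ^ (s - S)))⁻¹ *
        ((c / X.ϖ ^ n₀) ^ m)⁻¹) := (hb.mul hAF.inv).mul (hn₀.zpow m).inv
    have e : (c₁ / (c₂ * X.ϖ ^ b)) *
        (c₁ / (c₂ * (∏ P ∈ T, X.value P ^ P.ord f) * X.ϖ ^ (s - S)))⁻¹ *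
        ((c / X.ϖ ^ n₀) ^ m)⁻¹ = X.ϖ ^ (m * n₀ + (s - S) - b) := by
      have h1 : X.ϖ ^ b ≠ 0 := zpow_ne_zero _ hϖ
      have h2 : X.ϖ ^ (s - S) ≠ 0 := zpow_ne_zero _ hϖ
      have h4 : X.ϖ ^ (m * n₀) ≠ 0 := zpow_ne_zero _ hϖ
      have h5 : c ^ m ≠ 0 := zpow_ne_zero _ hc0
      have e1 : (c / X.ϖ ^ n₀) ^ m = c ^ m / X.ϖ ^ (m * n₀) := by
        rw [div_zpow, ← zpow_mul, mul_comm n₀ m]
      have e2 : X.ϖ ^ (m * n₀ + (s - S) - b) = X.ϖ ^ (m * n₀) * X.ϖ ^ (s - S) / X.ϖ ^ b := by
        rw [zpow_sub₀ hϖ, zpow_add₀ hϖ]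
      rw [← hcm, e1, e2]
      field_simp
    rwa [e] at h3
  have hexp := eq_zero_of_aunit_zpow X.ϖ_small hquot
  -- `S` is divisible by `m`
  have hSm : m ∣ S := Finset.dvd_sum fun P hP => hm P (hT1 P hP)
  obtain ⟨S', hS'⟩ := hSm
  refine ⟨S' - n₀, ?_⟩
  rw [mul_sub, ← hS']
  linarith

end Fermat.Agent.M43.SlopeMod8
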