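/-
Programme M43, chapter (LG-q), block [IGUSA-q] (helper9): **irreducibility of the Kummer
polynomial from a slope which is prime to `p`.**

Let `Q` be a place of a function field `Fb / k` and `a ∈ Fb` with `p ∤ ord_Q a`.  Then `a` is not a
`p`-th power, and for `p` odd `X ^ (p ^ n) − a` is irreducible over `Fb` (Mathlib's
`X_pow_sub_C_irreducible_of_prime_pow`).  In use `Fb` is the function field of one component of
the nodal reduction, `Q` the point of the component over the node `k`, and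
`a = red₁ (c₁ u)` the reduction of the normalised Kummer generator `u = ϑ ^ (p ^ n)`:
`SlopeMod8.slope_mod` gives `p ^ n ∣ ord_Q a − b` with `p ∤ b` (`b` = exponent of the Gauss sum
constant, `ThetaGauss8.exists_thetaExp_S_pow'`), hence `p ∤ ord_Q a`: the Kummer extension is
totally inert along both components ((M-IG) of the chapter plan).
-/
import Mathlib
import Fermat.Agent.M43.SlopeMod8

set_option autoImplicit false

open AlgebraicCurve Polynomial

namespace Fermat.Agent.M43.IgusaIrr9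

open Fermat.Agent.X0.FF

variable {k Fb : Type*} [Field k] [Field Fb] [Algebra k Fb]

/-- an element whose order at some place is prime to `p` is not a `p`-th power. -/
theorem not_pow_of_ord (Q : Place k Fb) {p : ℕ} {a : Fb} (h : ¬ (p : ℤ) ∣ Q.ord a) (g : Fb) :
    g ^ p ≠ a := by
  intro hg
  apply h
  rw [← hg, ord_pow]
  exact dvd_mul_right _ _

/-- the arithmetic step: `m ∣ s − b`, `p ∣ m`, `p ∤ b` give `p ∤ s`. -/
theorem not_dvd_of_dvd_sub {p m s b : ℤ} (hpm : p ∣ m) (hm : m ∣ s - b) (hb : ¬ p ∣ b) :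
    ¬ p ∣ s := by
  intro hs
  apply hb
  have h1 : p ∣ s - b := hpm.trans hm
  have h2 : b = s - (s - b) := by ring
  rw [h2]
  exact dvd_sub hs h1

/-- **Kummer irreducibility from one place**: `p` odd, `p ∤ ord_Q a` ⇒ `X ^ (p ^ n) − a`
irreducible. -/
theorem irreducible_X_pow_sub_C_of_ord (Q : Place k Fb) {p : ℕ} (hp : p.Prime) (hp2 : p ≠ 2)
    (n : ℕ) {a : Fb} (h : ¬ (p : ℤ) ∣ Q.ord a) :
    Irreducible (X ^ (p ^ n) - C a : Fb[X]) :=
  X_pow_sub_C_irreducible_of_prime_pow hp hp2 n (not_pow_of_ord Q h)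

/-- the form consumed by the chapter: the order is congruent mod `m` (with `p ∣ m`) to an integer
`b` prime to `p`. -/
theorem irreducible_X_pow_sub_C_of_slope (Q : Place k Fb) {p : ℕ} (hp : p.Prime) (hp2 : p ≠ 2)
    (n : ℕ) {a : Fb} {m b : ℤ} (hpm : (p : ℤ) ∣ m) (hm : m ∣ Q.ord a - b) (hb : ¬ (p : ℤ) ∣ b) :
    Irreducible (X ^ (p ^ n) - C a : Fb[X]) :=
  irreducible_X_pow_sub_C_of_ord Q hp hp2 n (not_dvd_of_dvd_sub hpm hm hb)

/-- the degree of the Kummer extension: for any root `ϑ` of `X ^ (p ^ n) − a` in an extension `L`,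
`[Fb(ϑ) : Fb] = p ^ n`. -/
theorem finrank_adjoin_root_of_ord (Q : Place k Fb) {p : ℕ} (hp : p.Prime) (hp2 : p ≠ 2)
    (n : ℕ) {a : Fb} (h : ¬ (p : ℤ) ∣ Q.ord a) {L : Type*} [Field L] [Algebra Fb L] {θ : L}
    (hθ : θ ^ (p ^ n) = algebraMap Fb L a) :
    Module.finrank Fb (IntermediateField.adjoin Fb {θ}) = p ^ n := by
  have hirr := irreducible_X_pow_sub_C_of_ord Q hp hp2 n h
  have hmonic : (X ^ (p ^ n) - C a : Fb[X]).Monic :=
    monic_X_pow_sub_C a (pow_ne_zero n hp.ne_zero)
  have hroot : aeval θ (X ^ (p ^ n) - C a : Fb[X]) = 0 := by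
    simp [hθ]
  have hmin : minpoly Fb θ = X ^ (p ^ n) - C a :=
    (minpoly.eq_of_irreducible_of_monic hirr hroot hmonic).symm
  have hint : IsIntegral Fb θ := ⟨_, hmonic, hroot⟩
  rw [IntermediateField.adjoin.finrank hint, hmin, natDegree_X_pow_sub_C]

end Fermat.Agent.M43.IgusaIrr9
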