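/-
Programme M43, chapter (LG-q), block [FIELD] (helper8), file 3: **cusp expansions and the Fricke
involution of `Fbar N` computed from analytic `q`-expansions; Gauss units of the two components of
T33 from primitive series.**

* `Rel.level_mul` : a `q_h`-expansion is a `q_{hk}`-expansion after `q ↦ q^k`;
* `cuspT_eq_of_rel` : `x ∈ Fbar N` the `q`-expansion of `U`, `a` the `q_N`-expansion of `U ∘ γ`
  ⟹ `(cuspData N).T γ x = a`;  `coe_frickeBar_eq_of_rel` (`γ = S`);
* `isGU_c1_of_isPrim` : an element of `Fbar (M' p)` whose series is `q^{-m} P`, `P` primitive over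
  `A`, is a Gauss unit of the component `C₁` of T33; `isGU_c2_iff` : Gauss units of `C₂` are the
  Fricke transforms of those of `C₁`.
-/
import Mathlib
import Fermat.Agent.M43.PrimSeries6
import Fermat.Agent.M48.FullLevelGen6
import Fermat.Agent.ES.N34.FrickeFK8
import Fermat.Agent.T33.NodalHalf4
import Fermat.Agent.U44.GaussRed3

set_option autoImplicit false
set_option linter.unusedSectionVars false
set_option linter.style.haveILetI false
set_option synthInstance.maxHeartbeats 400000

open UpperHalfPlane hiding I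
open ModularCurve
open scoped MatrixGroups

noncomputable section

namespace Fermat.Agent.M43.FrickeBridge8

open Fermat.Agent.X0 Fermat.Agent.M48.FullLevelGen6 Fermat.Agent.M43.PrimSeries6
open Fermat.Agent.ES.N34.FrickeFK8 Fermat.Agent.RED.LVL.FrickeExp17

/-! ### Part A: expansions -/

section Rel

variable {K : Type} [Field K] {ι : K →+* ℂ}

/-- Change of level in `Rel`. -/
theorem Rel.level_mul {h : ℕ} [NeZero h] {a : LaurentSeries K} {f : ℍ → ℂ} (hr : Rel ι h a f)
    (k : ℕ) [NeZero k] : haveI : NeZero (h * k) := ⟨Nat.mul_ne_zero (NeZero.ne h) (NeZero.ne k)⟩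
    Rel ι (h * k) (qExpand K k a) f := by
  obtain ⟨m, P, hP, e⟩ := hr
  refine ⟨m * k, _, hP.level_mul k, ?_⟩
  rw [← qExpand_laurentOf, e, Fermat.Agent.X0.CuspGood.coeffMap_qExpand]

end Rel

variable (N : ℕ) [NeZero N]

theorem rel_coe_Rsub (u : Rsub N) :
    Rel iotaK 1 (((u : FF N)) : LaurentSeries Kbar) ((realizeData N).Θ u) := by
  obtain ⟨m, P, hP, e⟩ := (realizeData N).isQExp u
  exact ⟨m, _, hP, by rw [e, Fermat.Agent.X0.coeffMap_laurentOf]⟩

theorem rel_T_Rsub (γ : SL(2, ℤ)) (u : Rsub N) :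
    Rel iotaK N ((cuspData N).T γ (u : FF N)) (compSL ((realizeData N).Θ u) γ) := by
  obtain ⟨m, P, hP, e⟩ := (cuspData N).spec γ u
  exact ⟨m, _, hP, by rw [e, Fermat.Agent.X0.coeffMap_laurentOf]⟩

/-- **The cusp expansion of `x ∈ Fbar N` from the analytic expansion.** -/
theorem cuspT_eq_of_rel (x : FF N) {U : ℍ → ℂ} (hx : Rel iotaK 1 ((x : LaurentSeries Kbar)) U)
    (γ : SL(2, ℤ)) {a : LaurentSeries Kbar} (ha : Rel iotaK N a (compSL U γ)) :
    (cuspData N).T γ x = a := by
  obtain ⟨u, s, hs, rfl⟩ := FracR.exists_div_ne_zero N x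
  have hs0 : ((s : FF N)) ≠ 0 := fun h => hs (Subtype.ext h)
  have hsS : (((s : FF N)) : LaurentSeries Kbar) ≠ 0 := fun h => hs0 (Subtype.ext h)
  -- `U * Θ s = Θ u`
  have h1 : Rel iotaK 1 (((u : FF N)) : LaurentSeries Kbar) (U * (realizeData N).Θ s) := by
    have := hx.mul (rel_coe_Rsub N s)
    have e : ((((u : FF N) / (s : FF N) : FF N)) : LaurentSeries Kbar) *
        (((s : FF N)) : LaurentSeries Kbar) = (((u : FF N)) : LaurentSeries Kbar) := by
      have : ((u : FF N) / (s : FF N)) * (s : FF N) = (u : FF N) := div_mul_cancel₀ _ hs0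
      exact congrArg (fun y : FF N => (y : LaurentSeries Kbar)) this
    rwa [e] at this
  have h2 : U * (realizeData N).Θ s = (realizeData N).Θ u := h1.right_unique (rel_coe_Rsub N u)
  have h3 : compSL U γ * compSL ((realizeData N).Θ s) γ = compSL ((realizeData N).Θ u) γ := by
    rw [← h2]
    rfl
  have h4 : Rel iotaK N (a * (cuspData N).T γ (s : FF N)) (compSL ((realizeData N).Θ u) γ) := by
    rw [← h3]
    exact ha.mul (rel_T_Rsub N γ s)
  have h5 : a * (cuspData N).T γ (s : FF N) = (cuspData N).T γ (u : FF N) :=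
    h4.left_unique (rel_T_Rsub N γ u)
  have hTs : (cuspData N).T γ (s : FF N) ≠ 0 := by
    rw [Ne, map_eq_zero]
    exact hs0
  rw [map_div₀, ← h5, mul_div_assoc, div_self hTs, mul_one]

/-- **The Fricke transform of `x ∈ Fbar N` from the analytic expansion of `U ∘ S`.** -/
theorem coe_frickeBar_eq_of_rel (x : FF N) {U : ℍ → ℂ}
    (hx : Rel iotaK 1 ((x : LaurentSeries Kbar)) U) {a : LaurentSeries Kbar}
    (ha : Rel iotaK N a (compSL U ModularGroup.S)) :
    ((frickeBar N x : FF N) : LaurentSeries Kbar) = a := by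
  rw [coe_frickeBar]
  exact cuspT_eq_of_rel N x hx ModularGroup.S ha

/-! ### Part B: Gauss units of the two components of T33 -/

section GaussUnits

open Fermat.Agent.T33.NodalHalf4 Fermat.Agent.U44.GaussRed3 Fermat.Agent.ES.RED
open Fermat.Agent.RED.Interface4

local notation "Qbar" => AlgebraicClosure ℚ

variable {p M' : ℕ} [NeZero M'] [NeZero p] {A : ValuationSubring Qbar}

/-- the `A`-model of a series with coefficients in `A`. -/
def seriesA (A : ValuationSubring Qbar) (P : PowerSeries Qbar)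
    (hP : ∀ k, A.valuation (PowerSeries.coeff k P) ≤ 1) : PowerSeries ↥A :=
  PowerSeries.mk fun k => ⟨PowerSeries.coeff k P, (A.valuation_le_one_iff _).1 (hP k)⟩

theorem map_seriesA (P : PowerSeries Qbar) (hP : ∀ k, A.valuation (PowerSeries.coeff k P) ≤ 1) :
    (seriesA A P hP).map A.subtype = P := by
  ext k
  rw [PowerSeries.coeff_map, seriesA, PowerSeries.coeff_mk]
  rfl

/-- **A series `q^{-m} P` with `P` primitive over `A` is a Gauss unit of `C₁`.** -/
theorem isGU_c1_of_isPrim (h : LevelHyp p M' A) (y : ↥(Fbar (M' * p))) {m : ℕ}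
    {P : PowerSeries Qbar} (hP : IsPrim A P)
    (hy : (y : LaurentSeries Qbar) = laurentOf m P) : IsGU (c1 h) y := by
  set PA := seriesA A P hP.1 with hPA
  have hY : coeffMap A.subtype (laurentOf m PA) = (y : LaurentSeries Qbar) := by
    rw [Fermat.Agent.X0.coeffMap_laurentOf, map_seriesA, hy]
  let g : ↥(Setup8.gaussA A (Fbar (M' * p))) := ⟨y, laurentOf m PA, hY⟩
  have hred : Setup8.redA A (Fbar (M' * p)) g ≠ 0 := by
    rw [Setup8.redA_eq A (Fbar (M' * p)) g hY, Fermat.Agent.X0.coeffMap_laurentOf, Ne,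
      laurentOf_eq_zero_iff]
    obtain ⟨k, hk⟩ := hP.2
    intro h0
    have h1 := congrArg (PowerSeries.coeff k) h0
    rw [PowerSeries.coeff_map, map_zero, hPA, seriesA, PowerSeries.coeff_mk,
      IsLocalRing.residue_eq_zero_iff, A.valuation_lt_one_iff] at h1
    exact absurd hk (ne_of_lt h1)
  have hmem : (y : ↥(Fbar (M' * p))) ∈ O1 h := gaussA_mem_O1 h g
  refine isGU_of_ρ_ne (R := c1 h) hmem ?_
  show rho1 h ⟨y, hmem⟩ ≠ 0
  have := rho1_gaussA h g
  rw [show (⟨(g : ↥(Fbar (M' * p))), gaussA_mem_O1 h g⟩ : ↥(O1 h)) = ⟨y, hmem⟩ from rfl] at this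
  rw [this]
  exact (redN_ne_zero_iff h g).2 hred

/-- Gauss units of `C₂` are the Fricke transforms of those of `C₁`. -/
theorem isGU_c2_iff (h : LevelHyp p M' A) (y : ↥(Fbar (M' * p))) :
    IsGU (c2 h) y ↔ IsGU (c1 h) (frickeBar (M' * p) y) := by
  constructor
  · intro hy
    have hm : frickeBar (M' * p) y ∈ O1 h := (mem_O2_iff h y).1 hy.mem
    exact isGU_of_ρ_ne (R := c1 h) hm hy.ρ_ne
  · intro hy
    have hm : y ∈ (c2 h).O := (mem_O2_iff h y).2 hy.mem
    exact isGU_of_ρ_ne (R := c2 h) hm hy.ρ_ne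

end GaussUnits

end Fermat.Agent.M43.FrickeBridge8
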