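/-
Programme M43, chapter (LG-q), block [IGUSA-q], Plan K (2) (helper8): **the valuation of the
`p^k`-th power of a Gauss sum of a character of order `p^k` modulo a prime `r` is PRIME TO `p`**
(elementary: no Stickelberger).

Setting: a field `K` with a valuation subring `A` of residue characteristic `r` (`(r : K)` is
`Small`), a primitive additive character `e` of `ZMod r` whose values are `≡ 1` modulo `𝔪_A`
(e.g. `AddChar.zmodChar r hζ`), a subfield `K₀ ⊆ K` ("the inertial field") in which every nonzero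
element is `r ^ n · unit`, and a multiplicative character `χ` of `ZMod r` with values in `K₀`.

* `small_gaussSum` : `g(χ) ∈ 𝔪_A` for `χ ≠ 1` (`g(χ) = ∑ χ(x)(e(x) − 1)`).
* `gauss_exponent_prime` : `orderOf χ = p` ⇒ `g(χ)^p = r^j · unit` with `0 < j < p`
  (`g(χ) g(χ⁻¹) = ± r`, both small).
* `gauss_exponent` : `orderOf χ = p^k`, `k ≥ 1` ⇒ `g(χ)^(p^k) = r^j · unit` with `p ∤ j`
  (induction: `g(χ)^p = g(χ^p) · ∏ J(χ, χ^i)`, the Jacobi sums lie in `K₀`).
-/
import Mathlib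
import Fermat.Agent.M43.SlopeMod8

set_option autoImplicit false

open IsLocalRing

namespace Fermat.Agent.M43.GaussVal8

open Fermat.Agent.U44.GaussRed3 Fermat.Agent.M43.SlopeMod8

variable {K : Type*} [Field K] {A : ValuationSubring K}

/-! ### generalities on `Small` and `AUnit` -/

theorem small_of_aunit_mul_zpow {ϖ : K} (hϖ : Small A ϖ) {u : K} (hu : AUnit A u) {n : ℤ}
    (hn : 0 < n) : Small A (u * ϖ ^ n) := by
  obtain ⟨m, rfl⟩ := Int.eq_ofNat_of_zero_le hn.le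
  rw [zpow_natCast]
  exact Small.mem_mul hu.1 (small_pow hϖ (by exact_mod_cast hn))

/-- the exponent of `ϖ` in a small element is positive. -/
theorem exponent_pos {ϖ : K} (hϖ : Small A ϖ) {t : K} (ht : Small A t) {n : ℤ}
    (h : AUnit A (t / ϖ ^ n)) : 0 < n := by
  by_contra hn
  have hn' : 0 ≤ -n := by omega
  obtain ⟨m, hm⟩ := Int.eq_ofNat_of_zero_le hn'
  have e : t / ϖ ^ n = t * ϖ ^ m := by
    rw [div_eq_mul_inv, ← zpow_neg, hm, zpow_natCast]
  rw [e] at h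
  exact h.not_small (Small.mul_mem ht (A.pow_mem hϖ.1 m))

/-- uniqueness of the exponent. -/
theorem exponent_unique {ϖ : K} (hϖ : Small A ϖ) (hϖ0 : ϖ ≠ 0) {t : K} (ht0 : t ≠ 0) {n n' : ℤ}
    (h : AUnit A (t / ϖ ^ n)) (h' : AUnit A (t / ϖ ^ n')) : n = n' := by
  have h1 : AUnit A (ϖ ^ (n - n')) := by
    have := h'.mul h.inv
    have e : t / ϖ ^ n' * (t / ϖ ^ n)⁻¹ = ϖ ^ (n - n') := by
      rw [zpow_sub₀ hϖ0]
      have h2 : ϖ ^ n ≠ 0 := zpow_ne_zero _ hϖ0
      have h3 : ϖ ^ n' ≠ 0 := zpow_ne_zero _ hϖ0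
      field_simp
    rwa [e] at this
  have := eq_zero_of_aunit_zpow hϖ h1
  omega

/-! ### roots of unity of order `r` are `≡ 1` -/

section Root

variable {r : ℕ} [hr : Fact r.Prime]

theorem mem_of_pow_eq_one {ζ : K} {n : ℕ} (hn : 0 < n) (hζ : ζ ^ n = 1) : ζ ∈ A := by
  rcases A.mem_or_inv_mem ζ with h | h
  · exact h
  · have h1 : ζ = (ζ⁻¹) ^ (n - 1) := by
      have hζ0 : ζ ≠ 0 := by
        rintro rfl
        rw [zero_pow hn.ne'] at hζ
        exact zero_ne_one hζ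
      have : ζ * ζ ^ (n - 1) = 1 := by
        rw [← pow_succ', Nat.sub_add_cancel hn]
        exact hζ
      rw [inv_pow]
      exact eq_inv_of_mul_eq_one_left this
    rw [h1]
    exact A.pow_mem h _

/-- **`ζ^r = 1` ⇒ `ζ ≡ 1` modulo `𝔪_A`** when `r ∈ 𝔪_A`. -/
theorem small_sub_one (hrA : Small A (r : K)) {ζ : K} (hζ : ζ ^ r = 1) : Small A (ζ - 1) := by
  have hr0 : 0 < r := hr.out.pos
  have hζA : ζ ∈ A := mem_of_pow_eq_one hr0 hζ
  have hxA : ζ - 1 ∈ A := A.sub_mem hζA A.one_mem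
  refine ⟨hxA, ?_⟩
  by_contra hcon
  push Not at hcon
  obtain ⟨hx0, hxinv⟩ := hcon
  -- `x = ζ - 1` is a unit of `A`; in the residue field `(1 + x̄)^r = 1 + x̄^r` gives `x̄^r = 0`
  let x : A := ⟨ζ - 1, hxA⟩
  have hxu : IsUnit x := by
    refine isUnit_iff_exists_inv.2 ⟨⟨(ζ - 1)⁻¹, hxinv⟩, ?_⟩
    apply Subtype.ext
    show (ζ - 1) * (ζ - 1)⁻¹ = 1
    exact mul_inv_cancel₀ hx0
  have hrmax : ((r : ℕ) : A) ∈ maximalIdeal A := by
    have := hrA.mem_max
    have e : (⟨(r : K), hrA.1⟩ : A) = ((r : ℕ) : A) := by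
      apply Subtype.ext
      simp
    rwa [e] at this
  have : CharP (ResidueField A) r := by
    have h0 : ((r : ℕ) : ResidueField A) = 0 := by
      have := (residue_eq_zero_iff ((r : ℕ) : A)).2 hrmax
      simpa using this
    exact (CharP.charP_iff_prime_eq_zero hr.out).2 h0
  have h1 : (residue A x + 1) ^ r = 1 := by
    have e : x + 1 = ⟨ζ, hζA⟩ := by
      apply Subtype.ext
      show ζ - 1 + 1 = ζ
      ring
    rw [← map_one (residue A), ← map_add, e, ← map_pow]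
    congr 1
    apply Subtype.ext
    exact hζ
  rw [add_pow_char] at h1
  have h2 : residue A x ^ r = 0 := by
    have : residue A x ^ r + 1 ^ r = 1 := h1
    rw [one_pow] at this
    exact add_eq_right.1 this
  have h3 : residue A x = 0 := pow_eq_zero_iff hr0.ne' |>.1 h2
  have h4 : x ∈ maximalIdeal A := (residue_eq_zero_iff x).1 h3
  exact (mem_maximalIdeal x).1 h4 hxu

theorem small_pow_sub_one (hrA : Small A (r : K)) {ζ : K} (hζ : ζ ^ r = 1) (m : ℕ) :
    Small A (ζ ^ m - 1) := by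
  apply small_sub_one hrA
  rw [← pow_mul, mul_comm, pow_mul, hζ, one_pow]

end Root

/-! ### Gauss sums -/

section Gauss

variable {r : ℕ} [hr : Fact r.Prime]

/-- the values of a multiplicative character of `ZMod r` lie in `A`. -/
theorem mulChar_mem (χ : MulChar (ZMod r) K) (x : ZMod r) : χ x ∈ A := by
  by_cases hx : IsUnit x
  · have h1 : χ x ^ (r - 1) = 1 := by
      have hx0 : x ≠ 0 := hx.ne_zero
      rw [← map_pow, ZMod.pow_card_sub_one_eq_one hx0, map_one]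
    exact mem_of_pow_eq_one (Nat.sub_pos_of_lt hr.out.one_lt) h1
  · rw [χ.map_nonunit hx]
    exact A.zero_mem

/-- **a Gauss sum of a nontrivial character is `≡ 0` modulo `𝔪_A`.** -/
theorem small_gaussSum {χ : MulChar (ZMod r) K} (hχ : χ ≠ 1) (e : AddChar (ZMod r) K)
    (he : ∀ x, Small A (e x - 1)) : Small A (gaussSum χ e) := by
  have h1 : gaussSum χ e = ∑ x : ZMod r, χ x * (e x - 1) := by
    rw [gaussSum]
    simp_rw [mul_sub, mul_one]
    rw [Finset.sum_sub_distrib, MulChar.sum_eq_zero_of_ne_one hχ, sub_zero]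
  rw [h1]
  classical
  have : ∀ s : Finset (ZMod r), Small A (∑ x ∈ s, χ x * (e x - 1)) := by
    intro s
    induction s using Finset.induction_on with
    | empty => rw [Finset.sum_empty]; exact small_zero
    | insert a s ha ih =>
      rw [Finset.sum_insert ha]
      exact (Small.mem_mul (mulChar_mem χ a) (he a)).add ih
  exact this _

variable (K₀ : Subfield K)

theorem jacobiSum_mem {χ φ : MulChar (ZMod r) K} (hχ : ∀ x, χ x ∈ K₀) (hφ : ∀ x, φ x ∈ K₀) :
    jacobiSum χ φ ∈ K₀ := by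
  rw [jacobiSum]
  exact K₀.sum_mem fun x _ => K₀.mul_mem (hχ x) (hφ (1 - x))

theorem pow_mem_values {χ : MulChar (ZMod r) K} (hχ : ∀ x, χ x ∈ K₀) (n : ℕ) (x : ZMod r) :
    (χ ^ n) x ∈ K₀ := by
  rcases Nat.eq_zero_or_pos n with rfl | hn
  · rw [pow_zero]
    by_cases hx : IsUnit x
    · rw [MulChar.one_apply hx]
      exact K₀.one_mem
    · rw [MulChar.map_nonunit _ hx]
      exact K₀.zero_mem
  · rw [MulChar.pow_apply' _ hn.ne']
    exact K₀.pow_mem (hχ x) n

variable {K₀}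
variable (hrA : Small A (r : K)) (hr0 : (r : K) ≠ 0)
  (hK₀ : ∀ c ∈ K₀, c ≠ 0 → ∃ n : ℤ, AUnit A (c / (r : K) ^ n))
  {e : AddChar (ZMod r) K} (he : e.IsPrimitive) (he1 : ∀ x, Small A (e x - 1))

include hr0 he in
theorem gaussSum_ne_zero' {χ : MulChar (ZMod r) K} (hχ : χ ≠ 1) : gaussSum χ e ≠ 0 := by
  intro h0
  have h1 := gaussSum_mul_gaussSum_eq_card hχ he
  rw [h0, zero_mul, ZMod.card] at h1
  exact hr0 h1.symm

include he in
/-- `g(χ)^{ord χ}` lies in the field of values. -/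
theorem gaussSum_pow_orderOf_mem {χ : MulChar (ZMod r) K} (hχv : ∀ x, χ x ∈ K₀)
    (hχ : 2 ≤ orderOf χ) : gaussSum χ e ^ orderOf χ ∈ K₀ := by
  rw [gaussSum_pow_eq_prod_jacobiSum hχ he]
  refine K₀.mul_mem (K₀.mul_mem (hχv _) (natCast_mem K₀ _)) (K₀.prod_mem fun i _ => ?_)
  exact jacobiSum_mem K₀ hχv (pow_mem_values K₀ hχv i)

include hrA hr0 hK₀ he he1 in
/-- **order `p`**: `g(χ)^p = r^j · unit` with `0 < j < p`. -/
theorem gauss_exponent_prime {p : ℕ} (hp : p.Prime) {χ : MulChar (ZMod r) K}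
    (hχv : ∀ x, χ x ∈ K₀) (hχp : orderOf χ = p) :
    ∃ j : ℤ, AUnit A (gaussSum χ e ^ p / (r : K) ^ j) ∧ 0 < j ∧ j < p := by
  have hχ1 : χ ≠ 1 := by
    intro h
    rw [h, orderOf_one] at hχp
    exact hp.one_lt.ne hχp
  have hg0 : gaussSum χ e ≠ 0 := gaussSum_ne_zero' hr0 he hχ1
  have hmem : gaussSum χ e ^ p ∈ K₀ := by
    have := gaussSum_pow_orderOf_mem he hχv (by rw [hχp]; exact hp.two_le)
    rwa [hχp] at this
  obtain ⟨j, hj⟩ := hK₀ _ hmem (pow_ne_zero _ hg0)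
  refine ⟨j, hj, ?_, ?_⟩
  · exact exponent_pos hrA (small_pow (small_gaussSum hχ1 e he1) hp.pos) hj
  · -- the conjugate Gauss sum
    have hχ1' : χ⁻¹ ≠ 1 := by
      intro h
      apply hχ1
      rw [← inv_inv χ, h, inv_one]
    have he1' : ∀ x, Small A (e⁻¹ x - 1) := by
      intro x
      rw [AddChar.inv_apply]
      exact he1 (-x)
    have hprod : gaussSum χ e * gaussSum χ⁻¹ e⁻¹ = (r : K) := by
      rw [gaussSum_mul_gaussSum_eq_card hχ1 he, ZMod.card]
    have hs : Small A (gaussSum χ⁻¹ e⁻¹ ^ p) :=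
      small_pow (small_gaussSum hχ1' e⁻¹ he1') hp.pos
    have hu : AUnit A (gaussSum χ⁻¹ e⁻¹ ^ p / (r : K) ^ ((p : ℤ) - j)) := by
      have e1 : gaussSum χ⁻¹ e⁻¹ ^ p / (r : K) ^ ((p : ℤ) - j) =
          (gaussSum χ e ^ p / (r : K) ^ j)⁻¹ := by
        have h1 : gaussSum χ⁻¹ e⁻¹ = (r : K) / gaussSum χ e := by
          rw [eq_div_iff hg0, mul_comm]
          exact hprod
        have h2 : (r : K) ^ j ≠ 0 := zpow_ne_zero _ hr0
        have h3 : gaussSum χ e ^ p ≠ 0 := pow_ne_zero _ hg0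
        rw [h1, div_pow, zpow_sub₀ hr0, zpow_natCast]
        field_simp
      rw [e1]
      exact hj.inv
    have := exponent_pos hrA hs hu
    omega

include hrA hr0 hK₀ he he1 in
/-- **order `p^k`**: `g(χ)^(p^k) = r^j · unit` with `p ∤ j`. -/
theorem gauss_exponent {p : ℕ} (hp : p.Prime) (k : ℕ) (hk : 1 ≤ k) :
    ∀ {χ : MulChar (ZMod r) K}, (∀ x, χ x ∈ K₀) → orderOf χ = p ^ k →
      ∃ j : ℤ, AUnit A (gaussSum χ e ^ (p ^ k) / (r : K) ^ j) ∧ ¬ (p : ℤ) ∣ j := by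
  induction k, hk using Nat.le_induction with
  | base =>
    intro χ hχv hχp
    rw [pow_one] at hχp
    obtain ⟨j, hj, h0, h1⟩ := gauss_exponent_prime hrA hr0 hK₀ he he1 hp hχv hχp
    refine ⟨j, by rwa [pow_one], ?_⟩
    intro hdvd
    have := Int.le_of_dvd h0 hdvd
    omega
  | succ k hk ih =>
    intro χ hχv hχp
    have hχ1 : χ ≠ 1 := by
      intro h
      rw [h, orderOf_one] at hχp
      have : 1 < p ^ (k + 1) := Nat.one_lt_pow (by omega) hp.one_lt
      omega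
    have hg0 : gaussSum χ e ≠ 0 := gaussSum_ne_zero' hr0 he hχ1
    -- the character `χ^p` of order `p^k`
    have hord' : orderOf (χ ^ p) = p ^ k := by
      rw [orderOf_pow' χ hp.ne_zero, hχp, pow_succ, Nat.gcd_mul_left_left,
        Nat.mul_div_cancel _ hp.pos]
    have hlt : p < orderOf χ := by
      rw [hχp, pow_succ]
      calc p = 1 * p := (one_mul p).symm
        _ < p ^ k * p := Nat.mul_lt_mul_of_lt_of_le (Nat.one_lt_pow (by omega) hp.one_lt)
            le_rfl hp.pos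
    have haux := gaussSum_pow_eq_prod_jacobiSum_aux χ e hp.pos hlt
    set JP : K := ∏ i ∈ Finset.Ico 1 p, jacobiSum χ (χ ^ i) with hJP
    have hJPmem : JP ∈ K₀ := K₀.prod_mem fun i _ =>
      jacobiSum_mem K₀ hχv (pow_mem_values K₀ hχv i)
    have hJP0 : JP ≠ 0 := by
      intro h0
      rw [h0, mul_zero] at haux
      exact pow_ne_zero _ hg0 haux
    obtain ⟨m, hm⟩ := hK₀ JP hJPmem hJP0
    obtain ⟨j', hj', hpj'⟩ := ih (pow_mem_values K₀ hχv p) hord'
    refine ⟨j' + (p ^ k : ℕ) * m, ?_, ?_⟩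
    · have e1 : gaussSum χ e ^ (p ^ (k + 1)) / (r : K) ^ (j' + (p ^ k : ℕ) * m) =
          (gaussSum (χ ^ p) e ^ (p ^ k) / (r : K) ^ j') * (JP / (r : K) ^ m) ^ (p ^ k) := by
        have hA : gaussSum χ e ^ (p ^ (k + 1)) =
            gaussSum (χ ^ p) e ^ (p ^ k) * JP ^ (p ^ k) := by
          rw [pow_succ, mul_comm (p ^ k) p, pow_mul, haux, mul_pow]
        have hB : (r : K) ^ (j' + ((p ^ k : ℕ) : ℤ) * m) =
            (r : K) ^ j' * ((r : K) ^ m) ^ (p ^ k) := by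
          rw [zpow_add₀ hr0, mul_comm ((p ^ k : ℕ) : ℤ) m, zpow_mul, zpow_natCast]
        have h2 : (r : K) ^ j' ≠ 0 := zpow_ne_zero _ hr0
        have h3 : ((r : K) ^ m) ^ (p ^ k) ≠ 0 := pow_ne_zero _ (zpow_ne_zero _ hr0)
        rw [hA, hB, div_pow]
        field_simp
      rw [e1]
      exact hj'.mul (hm.pow _)
    · intro hdvd
      apply hpj'
      have h1 : (p : ℤ) ∣ ((p ^ k : ℕ) : ℤ) * m := by
        refine Dvd.dvd.mul_right ?_ m
        rw [Nat.cast_pow]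
        exact dvd_pow_self _ (by omega)
      exact (Int.dvd_add_left h1).1 hdvd

include hrA hr0 hK₀ in
/-- **the form used with `EisPsi6.tau`**: `e = AddChar.zmodChar r _` for a primitive `r`-th root
of unity `ζ`. -/
theorem gauss_exponent_zmodChar {ζ : K} (hζ : IsPrimitiveRoot ζ r) {p : ℕ} (hp : p.Prime)
    (k : ℕ) (hk : 1 ≤ k) {χ : MulChar (ZMod r) K} (hχv : ∀ x, χ x ∈ K₀)
    (hχp : orderOf χ = p ^ k) :
    ∃ j : ℤ, AUnit A (gaussSum χ (AddChar.zmodChar r hζ.pow_eq_one) ^ (p ^ k) / (r : K) ^ j) ∧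
      ¬ (p : ℤ) ∣ j := by
  refine gauss_exponent hrA hr0 hK₀ ?_ ?_ hp k hk hχv hχp
  · exact AddChar.zmodChar_primitive_of_primitive_root r hζ
  · intro x
    rw [AddChar.zmodChar_apply]
    exact small_pow_sub_one hrA hζ.pow_eq_one _

end Gauss

end Fermat.Agent.M43.GaussVal8
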