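/-
Programme M43, chapter (LG-q), block [FIELD] (helper8), file 4: **the cusp-`0` expansion of
`θ_ψ^(p^k)` for `ψ` of order `p^k`: `q^{-r p^k} · w · r^b · Q`, `w` a unit of `A`, `Q` primitive
over `A`, and `p ∤ b`** (the prime-power generalisation of `EisPsiPack6.exists_thetaExp_S_pow`,
with `GaussVal8.gauss_exponent_zmodChar` in place of `GaussTau6`).

* `inertField A` : the subfield of `ℚbar` fixed by the inertia group of `A`;
  `exists_aunit_of_mem_inertField` : its nonzero elements are `r^n · unit`;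
* `exists_tau_pow` : `τ(ψ⁻¹)^(p^k) = r^j · unit`, `p ∤ j`;
* `exists_thetaExp_S_pow'`.
-/
import Mathlib
import Fermat.Agent.M43.GaussVal8
import Fermat.Agent.M43.EisPsiPack6

set_option autoImplicit false
set_option linter.unusedSectionVars false

open scoped MatrixGroups

noncomputable section

namespace Fermat.Agent.M43.ThetaGauss8

open Fermat.Agent.X0 Fermat.Agent.IG.AN.DeltaAffine11
open Fermat.Agent.M43.EisPsi6 Fermat.Agent.M43.EisPsiAlg6 Fermat.Agent.M43.EisPsiInf6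
open Fermat.Agent.M43.PrimSeries6 Fermat.Agent.M43.EisPsiPack6
open Fermat.Agent.U44.GaussRed3

local notation "Qbar" => AlgebraicClosure ℚ

variable {A : ValuationSubring Qbar} {r : ℕ} [Fact r.Prime]

/-- The inertial field: the subfield of `ℚbar` fixed by the inertia group of `A`. -/
def inertField (A : ValuationSubring Qbar) : Subfield Qbar :=
  (IntermediateField.fixedField (A.inertiaSubgroupIn ℚ)).toSubfield

theorem mem_inertField_iff {x : Qbar} :
    x ∈ inertField A ↔ ∀ σ ∈ A.inertiaSubgroupIn ℚ, σ x = x := by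
  show x ∈ IntermediateField.fixedField (A.inertiaSubgroupIn ℚ) ↔ _
  rw [IntermediateField.mem_fixedField_iff]

theorem aunit_of_valuation_eq_one {x : Qbar} (h : A.valuation x = 1) : AUnit A x := by
  have hx0 : x ≠ 0 := by
    rintro rfl
    rw [map_zero] at h
    exact zero_ne_one h
  refine ⟨(A.valuation_le_one_iff x).1 h.le, (A.valuation_le_one_iff _).1 ?_, hx0⟩
  rw [map_inv₀, h, inv_one]

theorem valuation_eq_one_of_aunit {x : Qbar} (h : AUnit A x) : A.valuation x = 1 := by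
  have h1 : A.valuation x ≤ 1 := (A.valuation_le_one_iff x).2 h.1
  have h2 : A.valuation x⁻¹ ≤ 1 := (A.valuation_le_one_iff _).2 h.2.1
  rw [map_inv₀] at h2
  have h3 : A.valuation x ≠ 0 := (map_ne_zero _).2 h.2.2
  have h4 : 1 ≤ A.valuation x := by
    have := (inv_le_one₀ (zero_lt_iff.2 h3)).1 h2
    exact this
  exact le_antisymm h1 h4

theorem exists_aunit_of_mem_inertField (hA : A.LiesOverPrime r) {c : Qbar}
    (hc : c ∈ inertField A) (hc0 : c ≠ 0) : ∃ n : ℤ, AUnit A (c / (r : Qbar) ^ n) := by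
  have hr : r.Prime := Fact.out
  obtain ⟨n, hn⟩ := valuation_eq_zpow_of_fixed hr hA hc0 (mem_inertField_iff.1 hc)
  refine ⟨n, aunit_of_valuation_eq_one ?_⟩
  have hr0 : (r : Qbar) ≠ 0 := Nat.cast_ne_zero.mpr hr.ne_zero
  have hv : A.valuation (r : Qbar) ^ n ≠ 0 := zpow_ne_zero _ ((map_ne_zero _).2 hr0)
  rw [map_div₀, map_zpow₀, hn, div_self hv]

theorem small_natCast (hA : A.LiesOverPrime r) : Small A (r : Qbar) := by
  have hr : r.Prime := Fact.out
  have hv : A.valuation (r : Qbar) < 1 := (ValuationSubring.mem_nonunits_iff (A := A)).mp hA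
  refine ⟨(A.valuation_le_one_iff _).1 hv.le, Or.inr fun hinv => ?_⟩
  have h2 : A.valuation ((r : Qbar))⁻¹ ≤ 1 := (A.valuation_le_one_iff _).2 hinv
  rw [map_inv₀] at h2
  have hr0 : (r : Qbar) ≠ 0 := Nat.cast_ne_zero.mpr hr.ne_zero
  have h3 : 0 < A.valuation (r : Qbar) := zero_lt_iff.2 ((map_ne_zero _).2 hr0)
  have := (inv_le_one₀ h3).1 h2
  exact absurd hv (not_lt.2 this)

/-- **`τ(ψ⁻¹)^(p^k) = r^j · unit` with `p ∤ j`, for `ψ` of order `p^k`.** -/
theorem exists_tau_pow (hA : A.LiesOverPrime r) {ζ : Qbar} (hprim : IsPrimitiveRoot ζ r)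
    {ψ : MulChar (ZMod r) Qbar} {p : ℕ} (hp : p.Prime) (k : ℕ) (hk : 1 ≤ k)
    (hord : orderOf ψ = p ^ k) :
    ∃ j : ℤ, AUnit A (tau hprim.pow_eq_one ψ ^ (p ^ k) / (r : Qbar) ^ j) ∧ ¬ (p : ℤ) ∣ j := by
  have hr : r.Prime := Fact.out
  have hr0 : (r : Qbar) ≠ 0 := Nat.cast_ne_zero.mpr hr.ne_zero
  have hord' : orderOf ψ⁻¹ = p ^ k := by rw [orderOf_inv, hord]
  exact Fermat.Agent.M43.GaussVal8.gauss_exponent_zmodChar (K₀ := inertField A)
    (small_natCast hA) hr0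
    (fun c hc hc0 => exists_aunit_of_mem_inertField hA hc hc0) hprim hp k hk
    (fun x => mem_inertField_iff.2 fun σ hσ => psi_fixed hA ψ⁻¹ hσ x) hord'

/-- **The cusp-`0` expansion of `u = θ_ψ^(p^k)`, `ψ` of order `p^k`: `q^{-r p^k} · w · r^b · Q`,
`w` a unit, `Q` primitive, `p ∤ b`.** -/
theorem exists_thetaExp_S_pow' (hA : A.LiesOverPrime r) (hr2 : r ≠ 2) {ζ : Qbar}
    (hprim : IsPrimitiveRoot ζ r) {ψ : MulChar (ZMod r) Qbar} (heven : ψ (-1) = 1)
    {p : ℕ} (hp : p.Prime) (k : ℕ) (hk : 1 ≤ k) (hord : orderOf ψ = p ^ k) :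
    ∃ (b : ℤ) (w : Qbar) (Q : PowerSeries Qbar), ¬ (p : ℤ) ∣ b ∧ AUnit A w ∧ IsPrim A Q ∧
      (thetaExp ζ ψ ModularGroup.S) ^ (p ^ k) =
        laurentOf (r * p ^ k) (PowerSeries.C (w * (r : Qbar) ^ b) * Q) := by
  have hr : r.Prime := Fact.out
  have hr0 : (r : Qbar) ≠ 0 := Nat.cast_ne_zero.mpr hr.ne_zero
  have hψ : ψ ≠ 1 := by
    rintro rfl
    rw [orderOf_one] at hord
    have : 1 < p ^ k := Nat.one_lt_pow (by omega) hp.one_lt
    omega
  obtain ⟨n, P, -, hPi, hPu, hB⟩ := exists_Bpsi_eq hA hr2 hprim hψ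
  obtain ⟨j, hj, hpj⟩ := exists_tau_pow hA hprim hp k hk hord
  set τ := tau hprim.pow_eq_one ψ with hτ
  set E := (etaUInv Qbar).expand r (NeZero.ne r) with hE
  set N := p ^ k with hN
  have hPE : IsPrim A (P * E) := IsPrim.mul ⟨hPi, hPu⟩ (isPrim_etaUInv_expand r _)
  refine ⟨j + N * (n - 12), τ ^ N / (r : Qbar) ^ j, (P * E) ^ N, ?_, hj, hPE.pow N, ?_⟩
  · intro hdvd
    have h2 : (p : ℤ) ∣ (N : ℤ) * (n - 12) := by
      refine Dvd.dvd.mul_right ?_ _
      rw [hN]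
      exact_mod_cast dvd_pow_self p (by omega : k ≠ 0)
    exact hpj ((dvd_add_left h2).mp hdvd)
  · rw [thetaExp_S hprim.pow_eq_one hψ heven, laurentOf_pow, hB]
    congr 1
    have e1 : (r : Qbar) ^ ((N : ℤ) * (n - 12)) = ((r : Qbar) ^ n / (r : Qbar) ^ 12) ^ N := by
      rw [mul_comm, zpow_mul, zpow_natCast, zpow_sub₀ hr0]
      norm_cast
    have hc : (((r : Qbar) ^ 12)⁻¹ * (τ * (r : Qbar) ^ n)) ^ N =
        τ ^ N / (r : Qbar) ^ j * (r : Qbar) ^ (j + (N : ℤ) * (n - 12)) := by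
      rw [zpow_add₀ hr0, e1]
      generalize (r : Qbar) ^ n = X
      have hrj : (r : Qbar) ^ j ≠ 0 := zpow_ne_zero _ hr0
      have hr12 : (r : Qbar) ^ 12 ≠ 0 := pow_ne_zero _ hr0
      rw [div_mul_eq_mul_div, mul_left_comm, mul_div_assoc, mul_div_cancel_left₀ _ hrj, ← mul_pow,
        ← div_eq_inv_mul]
    calc (PowerSeries.C ((r : Qbar) ^ 12)⁻¹ * (PowerSeries.C (τ * (r : Qbar) ^ n) * P) * E) ^ N
        = PowerSeries.C ((((r : Qbar) ^ 12)⁻¹ * (τ * (r : Qbar) ^ n)) ^ N) * (P * E) ^ N := by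
          simp only [map_pow, map_mul]
          ring
      _ = _ := by rw [hc]

end Fermat.Agent.M43.ThetaGauss8
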