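/-
Programme M43, chapter (LG-q), block [FIELD] (helper8), file 5: **the Kummer function
`u = θ_ψ^n ∈ Fbar (M' r)` and its Gauss data on the two components of the special fibre of
`X₀(M' r)` at `r`; the slopes of its reduction at the supersingular points.**
-/
import Mathlib
import Fermat.Agent.M43.FieldBridge8
import Fermat.Agent.M43.FrickeBridge8
import Fermat.Agent.M43.ThetaGauss8
import Fermat.Agent.M43.SlopeMod8
import Fermat.Agent.U44.AnnInst6
import Fermat.Agent.RED.TOP.FbarFacts20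

set_option autoImplicit false
set_option linter.unusedSectionVars false
set_option linter.style.haveILetI false
set_option linter.unusedVariables false
set_option synthInstance.maxHeartbeats 400000

open UpperHalfPlane hiding I
open ModularCurve AlgebraicCurve
open scoped MatrixGroups

noncomputable section

namespace Fermat.Agent.M43.IgusaSlope8

open Fermat.Agent.X0 Fermat.Agent.M48.FullLevelGen6 Fermat.Agent.IG.AN.DeltaAffine11
open Fermat.Agent.M43.EisPsi6 Fermat.Agent.M43.EisPsiAlg6 Fermat.Agent.M43.EisPsiInf6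
open Fermat.Agent.M43.PrimSeries6 Fermat.Agent.M43.EisPsiPack6
open Fermat.Agent.M43.FieldBridge8 Fermat.Agent.M43.FrickeBridge8 Fermat.Agent.M43.ThetaGauss8
open Fermat.Agent.T33.NodalHalf4 Fermat.Agent.U44.GaussRed3 Fermat.Agent.RED.Interface4
open Fermat.Agent.ES.N34.FrickeFK8 Fermat.Agent.T33.Psi3C Fermat.Agent.FF.InertiaWire8

local notation "Qbar" => AlgebraicClosure ℚ

variable {r M' : ℕ} [NeZero M'] [NeZero r] [Fact r.Prime] {A : ValuationSubring Qbar}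

/-- **The Kummer function `u = θ_ψ^n`** as an element of `Fbar (M' r)`. -/
def uTheta (M' : ℕ) {ψ : MulChar (ZMod r) Qbar} (heven : ψ (-1) = 1) {n : ℕ} (hn : ψ ^ n = 1) :
    ↥(Fbar (M' * r)) :=
  ⟨thetaInf ψ ^ n, thetaPow_mem_Fbar_mul heven hn M'⟩

theorem coe_uTheta (M' : ℕ) {ψ : MulChar (ZMod r) Qbar} (heven : ψ (-1) = 1) {n : ℕ}
    (hn : ψ ^ n = 1) :
    ((uTheta M' heven hn : ↥(Fbar (M' * r))) : LaurentSeries Qbar) =
      laurentOf (1 * n) ((Apsi ψ * etaUInv Qbar) ^ n) := by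
  show thetaInf ψ ^ n = _
  rw [thetaInf, laurentOf_pow]

theorem isPrim_Apsi (hA : A.LiesOverPrime r) (hr2 : r ≠ 2) (ψ : MulChar (ZMod r) Qbar) :
    IsPrim A (Apsi ψ) :=
  ⟨valuation_coeff_Apsi_le ψ, 1, valuation_coeff_one_Apsi hA hr2 ψ⟩

theorem isPrim_etaUInv : IsPrim A (etaUInv Qbar) :=
  isPrim_map_int ModularCurve.constantCoeff_dedekindEtaUnitInv

/-- **(c1) `u` is a Gauss unit at `∞`.** -/
theorem isGU_c1_uTheta (h : LevelHyp r M' A) {ψ : MulChar (ZMod r) Qbar} (heven : ψ (-1) = 1)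
    {n : ℕ} (hn : ψ ^ n = 1) : IsGU (c1 h) (uTheta M' heven hn) :=
  isGU_c1_of_isPrim h _ (((isPrim_Apsi h.liesOver h.ne_two ψ).mul isPrim_etaUInv).pow n)
    (coe_uTheta M' heven hn)

theorem uTheta_ne_zero (h : LevelHyp r M' A) {ψ : MulChar (ZMod r) Qbar} (heven : ψ (-1) = 1)
    {n : ℕ} (hn : ψ ^ n = 1) : uTheta M' heven hn ≠ 0 :=
  (isGU_c1_uTheta h heven hn).ne_zero

/-! ### the Fricke side -/

theorem iotaK_zetaK_eq : iotaK (zetaK r) = QExpAffine.zetaC r := by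
  rw [iotaK_zetaK]
  rfl

theorem rel_congr_level {K : Type} [Field K] {ι : K →+* ℂ} {n n' : ℕ} [NeZero n] [NeZero n']
    (e : n = n') {a : LaurentSeries K} {f : ℍ → ℂ} (hr : Rel ι n a f) : Rel ι n' a f := by
  subst e
  exact hr

/-- **The Fricke transform of `u`**: `W_{M' r} u = (θ_ψ ∘ S)^n` in the variable `q^{M'}`. -/
theorem coe_frickeBar_uTheta (M' : ℕ) [NeZero M'] {ψ : MulChar (ZMod r) Qbar}
    (heven : ψ (-1) = 1) {n : ℕ} (hn : ψ ^ n = 1) :
    ((frickeBar (M' * r) (uTheta M' heven hn) : ↥(Fbar (M' * r))) : LaurentSeries Qbar) =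
      qExpand Qbar M' ((thetaExp (zetaK r) ψ ModularGroup.S) ^ n) := by
  refine coe_frickeBar_eq_of_rel (M' * r) (uTheta M' heven hn)
    (U := thetaAn iotaK ψ ^ n) ?_ ?_
  · exact rel_pow (rel_thetaAn heven) n
  · have h1 := (rel_pow (rel_compSL_thetaAn (ι := iotaK) iotaK_zetaK_eq ψ ModularGroup.S) n)
    have h2 := FrickeBridge8.Rel.level_mul h1 M'
    exact rel_congr_level (Nat.mul_comm r M') h2

theorem coe_algebraMap_mul (N : ℕ) (c : Qbar) (x : ↥(Fbar N)) :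
    ((algebraMap Qbar ↥(Fbar N) c * x : ↥(Fbar N)) : LaurentSeries Qbar) =
      algebraMap Qbar (LaurentSeries Qbar) c * (x : LaurentSeries Qbar) := rfl

/-- **(c2) the Gauss unit on the Fricke side**: if `(θ_ψ ∘ S)^n = q^{-m} · c · Q` with `Q` primitive
over `A`, then `c⁻¹ u` is a Gauss unit of `C₂`. -/
theorem isGU_c2_uTheta (h : LevelHyp r M' A) {ψ : MulChar (ZMod r) Qbar} (heven : ψ (-1) = 1)
    {n : ℕ} (hn : ψ ^ n = 1) {m : ℕ} {c : Qbar} (hc : c ≠ 0) {Q : PowerSeries Qbar}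
    (hQ : IsPrim A Q)
    (hS : (thetaExp (zetaK r) ψ ModularGroup.S) ^ n = laurentOf m (PowerSeries.C c * Q)) :
    IsGU (c2 h) (algebraMap Qbar ↥(Fbar (M' * r)) c⁻¹ * uTheta M' heven hn) := by
  rw [isGU_c2_iff]
  refine isGU_c1_of_isPrim h _ (hQ.expand M' (NeZero.ne M')) (m := m * M') ?_
  have e1 : frickeBar (M' * r) (algebraMap Qbar ↥(Fbar (M' * r)) c⁻¹ * uTheta M' heven hn) =
      algebraMap Qbar ↥(Fbar (M' * r)) c⁻¹ * frickeBar (M' * r) (uTheta M' heven hn) := by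
    rw [map_mul, AlgHom.commutes]
  have e2 : PowerSeries.C c⁻¹ * (PowerSeries.expand M' (NeZero.ne M')) (PowerSeries.C c * Q) =
      PowerSeries.expand M' (NeZero.ne M') Q := by
    rw [map_mul, PowerSeries.expand_C, ← mul_assoc, ← map_mul PowerSeries.C, inv_mul_cancel₀ hc,
      map_one PowerSeries.C, one_mul]
  rw [e1, coe_algebraMap_mul, coe_frickeBar_uTheta, hS, qExpand_laurentOf,
    algebraMap_mul_laurentOf, e2]

/-! ### inertia -/

theorem map_Apsi (hA : A.LiesOverPrime r) (ψ : MulChar (ZMod r) Qbar) {σ : Qbar ≃ₐ[ℚ] Qbar}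
    (hσ : σ ∈ A.inertiaSubgroupIn ℚ) : (Apsi ψ).map (σ : Qbar →+* Qbar) = Apsi ψ := by
  ext N
  rw [PowerSeries.coeff_map, Apsi, PowerSeries.coeff_mk]
  split_ifs
  · exact map_zero _
  · simp only [RingHom.coe_coe, map_mul, map_sum, map_pow, map_natCast, map_ofNat,
      psi_fixed hA ψ⁻¹ hσ]

/-- **`u` is fixed by the inertia group of `A`.** -/
theorem gal_smul_uTheta (h : LevelHyp r M' A) {ψ : MulChar (ZMod r) Qbar} (heven : ψ (-1) = 1)
    {n : ℕ} (hn : ψ ^ n = 1) (σ : Iner A) :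
    gal (M' * r) (σ : Qbar ≃ₐ[ℚ] Qbar) • uTheta M' heven hn = uTheta M' heven hn := by
  apply Subtype.ext
  rw [coe_gal_smul]
  show coeffMap ((σ : Qbar ≃ₐ[ℚ] Qbar) : Qbar →+* Qbar) (thetaInf ψ ^ n) = thetaInf ψ ^ n
  rw [map_pow, thetaInf, Fermat.Agent.X0.coeffMap_laurentOf, map_mul, map_Apsi h.liesOver ψ σ.2,
    Fermat.Agent.IG.AN.DeltaAffine11.map_etaUInv]

/-! ### the slopes -/

/-- shortcut instance. -/
local instance (priority := high) algebraAFbarIn8 : Algebra ↥A ↥(Fbar (M' * r)) := inferInstance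

/-- shortcut instance. -/
local instance (priority := high) algebraKFbIn8 : Algebra (Fermat.Agent.ES.RED.Setup8.kA A) (Fb A M') :=
  inferInstance

open Fermat.Agent.T33.NodalInst4E (Nd Node)
open Fermat.Agent.T33.NodalInst4G (nodalRed compat)
open Fermat.Agent.U44.AnnInst6 Fermat.Agent.M43.SlopeMod8

set_option maxHeartbeats 1600000 in
/-- **THE SLOPES OF `red₁ (θ_ψ^(p^k))` AT THE SUPERSINGULAR POINTS.** For `ψ` of order `p^k` there is
an integer `b` PRIME TO `p` such that, for every modulus `m` and every node `nd` of the special fibre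
of `X₀(M' r)` such that `m` divides the order of `u = θ_ψ^(p^k)` at all places over the node, the
order of `red₁ u` at the branch `s1 nd` is `≡ b` modulo `m`. -/
theorem slope_uTheta (h : LevelHyp r M' A) {ψ : MulChar (ZMod r) Qbar} (heven : ψ (-1) = 1)
    {p : ℕ} (hp : p.Prime) (k : ℕ) (hk : 1 ≤ k) (hord : orderOf ψ = p ^ k)
    (hn : ψ ^ (p ^ k) = 1) :
    ∃ b : ℤ, ¬ (p : ℤ) ∣ b ∧ ∀ (m : ℤ) (nd : Node h),
      (∀ P : Place Qbar ↥(Fbar (M' * r)), (nodalRed h).RedToNode P nd →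
        m ∣ P.ord (uTheta M' heven hn)) →
      m ∣ ((Nd h).s1 nd).ord (red (c1 h) (uTheta M' heven hn)) - b := by
  have hr : r.Prime := Fact.out
  have hr0 : (r : Qbar) ≠ 0 := Nat.cast_ne_zero.mpr hr.ne_zero
  obtain ⟨b, w, Q, hpb, hw, hQ, hS⟩ := exists_thetaExp_S_pow' h.liesOver h.ne_two
    (isPrimitiveRoot_zetaK r) heven hp k hk hord
  refine ⟨b, hpb, fun m nd hm => ?_⟩
  set u := uTheta M' heven hn with hu
  have hc : w * (r : Qbar) ^ b ≠ 0 := mul_ne_zero hw.2.2 (zpow_ne_zero _ hr0)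
  haveI : HasPrincipalDivisors Qbar ↥(Fbar (M' * r)) :=
    Fermat.Agent.RED.TOP.FbarFacts20.hasPrincipalDivisors_bar (M' * r)
  obtain ⟨D, hD, -⟩ := HasPrincipalDivisors.exists_divisor (K := Qbar) u (uTheta_ne_zero h heven hn)
  have h₁ : IsGU (nodalRed h).c₁ (algebraMap Qbar ↥(Fbar (M' * r)) 1 * u) := by
    rw [map_one, one_mul]
    exact isGU_c1_uTheta h heven hn
  have h₂ : IsGU (nodalRed h).c₂ (algebraMap Qbar ↥(Fbar (M' * r)) (w * (r : Qbar) ^ b)⁻¹ * u) :=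
    isGU_c2_uTheta h heven hn hc hQ hS
  have hb : AUnit A (1 / ((w * (r : Qbar) ^ b)⁻¹ * (annCoord h nd).ϖ ^ b)) := by
    rw [annCoord_ϖ]
    have e : 1 / ((w * (r : Qbar) ^ b)⁻¹ * ((r : ℕ) : Qbar) ^ b) = w := by
      have hrb : (r : Qbar) ^ b ≠ 0 := zpow_ne_zero _ hr0
      field_simp
    rw [e]
    exact hw
  have hfix : ∀ c : Qbar, c ≠ 0 →
      (∀ σ : Iner A, SemilinearAut.baseAut (gal (M' * r) (σ : Qbar ≃ₐ[ℚ] Qbar)) c = c) →
      ∃ n : ℤ, AUnit A (c / (annCoord h nd).ϖ ^ n) := by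
    intro c hc0 hcf
    rw [annCoord_ϖ]
    refine exists_aunit_of_mem_inertField h.liesOver (mem_inertField_iff.2 fun σ hσ => ?_) hc0
    have := hcf ⟨σ, hσ⟩
    rwa [baseAut_arithmeticGalois] at this
  have key := slope_mod (compat h) (annCoord h nd) (annCoord_gal_smul_zp h nd) hfix
    (uTheta_ne_zero h heven hn) (gal_smul_uTheta h heven hn) D hD m hm h₁ h₂ b hb
  rwa [map_one, one_mul] at key

set_option maxHeartbeats 1600000 in
/-- **THE GAUSS DATA OF `u = θ_ψ^(p^k)` ON BOTH COMPONENTS AND ITS SLOPES AT BOTH BRANCHES.** There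
are an integer `b` prime to `p` and a constant `c = r^b · unit` such that `u` is a Gauss unit of `C₁`,
`c⁻¹ u` is a Gauss unit of `C₂`, and for every modulus `m` and every node `nd` over which `m`
divides the orders of `u`:  `ord_{s1 nd} red₁(u) ≡ b` and `ord_{s2 nd} red₂(c⁻¹ u) ≡ -b` mod `m`. -/
theorem slopes_uTheta (h : LevelHyp r M' A) {ψ : MulChar (ZMod r) Qbar} (heven : ψ (-1) = 1)
    {p : ℕ} (hp : p.Prime) (k : ℕ) (hk : 1 ≤ k) (hord : orderOf ψ = p ^ k)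
    (hn : ψ ^ (p ^ k) = 1) :
    ∃ (b : ℤ) (c : Qbar), ¬ (p : ℤ) ∣ b ∧ AUnit A (c / (r : Qbar) ^ b) ∧
      IsGU (c1 h) (uTheta M' heven hn) ∧
      IsGU (c2 h) (algebraMap Qbar ↥(Fbar (M' * r)) c⁻¹ * uTheta M' heven hn) ∧
      ∀ (m : ℤ) (nd : Node h),
        (∀ P : Place Qbar ↥(Fbar (M' * r)), (nodalRed h).RedToNode P nd →
          m ∣ P.ord (uTheta M' heven hn)) →
        m ∣ ((Nd h).s1 nd).ord (red (c1 h) (uTheta M' heven hn)) - b ∧
        m ∣ ((Nd h).s2 nd).ord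
          (red (c2 h) (algebraMap Qbar ↥(Fbar (M' * r)) c⁻¹ * uTheta M' heven hn)) + b := by
  classical
  have hr : r.Prime := Fact.out
  have hr0 : (r : Qbar) ≠ 0 := Nat.cast_ne_zero.mpr hr.ne_zero
  obtain ⟨b, w, Q, hpb, hw, hQ, hS⟩ := exists_thetaExp_S_pow' h.liesOver h.ne_two
    (isPrimitiveRoot_zetaK r) heven hp k hk hord
  have hrb : (r : Qbar) ^ b ≠ 0 := zpow_ne_zero _ hr0
  have hc : w * (r : Qbar) ^ b ≠ 0 := mul_ne_zero hw.2.2 hrb
  have hg₁ : IsGU (c1 h) (uTheta M' heven hn) := isGU_c1_uTheta h heven hn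
  have hg₂ : IsGU (c2 h)
      (algebraMap Qbar ↥(Fbar (M' * r)) (w * (r : Qbar) ^ b)⁻¹ * uTheta M' heven hn) :=
    isGU_c2_uTheta h heven hn hc hQ hS
  refine ⟨b, w * (r : Qbar) ^ b, hpb, ?_, hg₁, hg₂, fun m nd hm => ?_⟩
  · rw [mul_div_assoc, div_self hrb, mul_one]
    exact hw
  set u := uTheta M' heven hn with hu
  haveI : HasPrincipalDivisors Qbar ↥(Fbar (M' * r)) :=
    Fermat.Agent.RED.TOP.FbarFacts20.hasPrincipalDivisors_bar (M' * r)
  obtain ⟨D, hD, -⟩ := HasPrincipalDivisors.exists_divisor (K := Qbar) u (uTheta_ne_zero h heven hn)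
  have h₁ : IsGU (nodalRed h).c₁ (algebraMap Qbar ↥(Fbar (M' * r)) 1 * u) := by
    rw [map_one, one_mul]
    exact hg₁
  have h₂ : IsGU (nodalRed h).c₂ (algebraMap Qbar ↥(Fbar (M' * r)) (w * (r : Qbar) ^ b)⁻¹ * u) :=
    hg₂
  have hb : AUnit A (1 / ((w * (r : Qbar) ^ b)⁻¹ * (annCoord h nd).ϖ ^ b)) := by
    rw [annCoord_ϖ]
    have e : 1 / ((w * (r : Qbar) ^ b)⁻¹ * ((r : ℕ) : Qbar) ^ b) = w := by
      field_simp
    rw [e]
    exact hw
  have hfix : ∀ c : Qbar, c ≠ 0 →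
      (∀ σ : Iner A, SemilinearAut.baseAut (gal (M' * r) (σ : Qbar ≃ₐ[ℚ] Qbar)) c = c) →
      ∃ n : ℤ, AUnit A (c / (annCoord h nd).ϖ ^ n) := by
    intro c hc0 hcf
    rw [annCoord_ϖ]
    refine exists_aunit_of_mem_inertField h.liesOver (mem_inertField_iff.2 fun σ hσ => ?_) hc0
    have := hcf ⟨σ, hσ⟩
    rwa [baseAut_arithmeticGalois] at this
  have key := slope_mod (compat h) (annCoord h nd) (annCoord_gal_smul_zp h nd) hfix
    (uTheta_ne_zero h heven hn) (gal_smul_uTheta h heven hn) D hD m hm h₁ h₂ b hb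
  -- the second branch: node push-forward
  set T : Finset (Place Qbar ↥(Fbar (M' * r))) :=
    D.support.filter (fun P => (nodalRed h).RedToNode P nd) with hT
  have hTmem : ∀ P, P ∈ T ↔ P.ord u ≠ 0 ∧ (nodalRed h).RedToNode P nd := by
    intro P
    rw [hT, Finset.mem_filter, Finsupp.mem_support_iff, hD]
  have hnp := Fermat.Agent.U44.Annulus3.node_push (annCoord h nd) (annCoord_ord_y₂ h nd)
    (uTheta_ne_zero h heven hn) T (fun P hP => ((hTmem P).1 hP).2)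
    (fun P hP h0 => (hTmem P).2 ⟨h0, hP⟩) h₁ h₂
  have hsum : m ∣ ∑ P ∈ T, P.ord u :=
    Finset.dvd_sum fun P hP => hm P ((hTmem P).1 hP).2
  rw [map_one, one_mul] at key hnp
  refine ⟨key, ?_⟩
  have e : ((Nd h).s2 nd).ord
      (red (c2 h) (algebraMap Qbar ↥(Fbar (M' * r)) (w * (r : Qbar) ^ b)⁻¹ * u)) + b =
      (∑ P ∈ T, P.ord u) - (((Nd h).s1 nd).ord (red (c1 h) u) - b) := by
    have := hnp
    simp only [Fermat.Agent.T33.NodalInst4G.nodalRed_c₁,
      Fermat.Agent.T33.NodalInst4G.nodalRed_c₂] at this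
    linarith
  rw [e]
  exact dvd_sub hsum key

/-- an element whose order at some place is prime to `p` is not a `p`-th power. -/
theorem not_pow_of_ord {κ E : Type*} [Field κ] [Field E] [Algebra κ E] (Q : Place κ E) {x : E}
    {p : ℕ} {b : ℤ} (hpb : ¬ (p : ℤ) ∣ b) (hdvd : (p : ℤ) ∣ Q.ord x - b) :
    ¬ ∃ g : E, g ^ p = x := by
  rintro ⟨g, rfl⟩
  apply hpb
  have h1 : Q.ord (g ^ p) = (p : ℤ) * Q.ord g := by
    rw [← zpow_natCast, Place.ord_zpow]
  rw [h1] at hdvd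
  have h2 : (p : ℤ) ∣ (p : ℤ) * Q.ord g := dvd_mul_right _ _
  have := dvd_sub h2 hdvd
  rwa [sub_sub_cancel] at this

set_option maxHeartbeats 1600000 in
/-- **(M-IG), instance: the reductions of `u = θ_ψ^(p^k)` on the two components are NOT `p`-th
powers**, provided `p^k` divides the order of `u` at every place over ONE node (helper7's [ETALE]
gives it at all places). -/
theorem not_pow_uTheta (h : LevelHyp r M' A) {ψ : MulChar (ZMod r) Qbar} (heven : ψ (-1) = 1)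
    {p : ℕ} (hp : p.Prime) (k : ℕ) (hk : 1 ≤ k) (hord : orderOf ψ = p ^ k)
    (hn : ψ ^ (p ^ k) = 1) (nd : Node h)
    (hET : ∀ P : Place Qbar ↥(Fbar (M' * r)), (nodalRed h).RedToNode P nd →
      ((p ^ k : ℕ) : ℤ) ∣ P.ord (uTheta M' heven hn)) :
    ∃ (b : ℤ) (c : Qbar), ¬ (p : ℤ) ∣ b ∧ AUnit A (c / (r : Qbar) ^ b) ∧
      IsGU (c1 h) (uTheta M' heven hn) ∧
      IsGU (c2 h) (algebraMap Qbar ↥(Fbar (M' * r)) c⁻¹ * uTheta M' heven hn) ∧
      (¬ ∃ g : Fb A M', g ^ p = red (c1 h) (uTheta M' heven hn)) ∧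
      (¬ ∃ g : Fb A M', g ^ p =
        red (c2 h) (algebraMap Qbar ↥(Fbar (M' * r)) c⁻¹ * uTheta M' heven hn)) := by
  obtain ⟨b, c, hpb, hcb, hg₁, hg₂, hsl⟩ := slopes_uTheta h heven hp k hk hord hn
  obtain ⟨h1, h2⟩ := hsl ((p ^ k : ℕ) : ℤ) nd hET
  have hpk : (p : ℤ) ∣ ((p ^ k : ℕ) : ℤ) := by
    exact_mod_cast dvd_pow_self p (by omega : k ≠ 0)
  refine ⟨b, c, hpb, hcb, hg₁, hg₂, ?_, ?_⟩
  · exact not_pow_of_ord ((Nd h).s1 nd) hpb (hpk.trans h1)
  · have hpb' : ¬ (p : ℤ) ∣ -b := fun hd => hpb ((dvd_neg).1 hd)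
    refine not_pow_of_ord ((Nd h).s2 nd) hpb' ?_
    rw [sub_neg_eq_add]
    exact hpk.trans h2

end Fermat.Agent.M43.IgusaSlope8
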