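/-
Programme M43, chapter (LG-q), block [S1-B instance] (helper8): **(M-IG) for the Kummer function
`u = θ_ψ^(p^k)` of `X₀(M' r)`, UNCONDITIONALLY** (helper7's `EtaleDiv7` supplies the divisibility of
all orders of `u` by `p^k`).

* `igusa_data` : the Gauss data on both components, the slopes at BOTH branches of EVERY node
  (`≡ b`, resp. `≡ -b` modulo `p^k`, `p ∤ b`);
* `irreducible_red₁`, `irreducible_red₂` : `X^(p^k) − red_i` is irreducible over `Fb A M'` (`p` odd);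
* `isGU_of_pow` (a root of a Gauss unit is a Gauss unit), `not_pow_Fbar`, `irreducible_uTheta` :
  `X^(p^k) − u` is irreducible over `Fbar (M' r)`.
-/
import Mathlib
import Fermat.Agent.M43.IgusaSlope8
import Fermat.Agent.M43.EtaleDiv7
import Fermat.Agent.M43.IgusaIrr9

set_option autoImplicit false
set_option linter.unusedSectionVars false
set_option linter.style.haveILetI false
set_option linter.unusedVariables false
set_option synthInstance.maxHeartbeats 400000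

open ModularCurve AlgebraicCurve Polynomial

noncomputable section

namespace Fermat.Agent.M43.IgusaInst8

open Fermat.Agent.X0 Fermat.Agent.M43.IgusaSlope8 Fermat.Agent.M43.FieldBridge8
open Fermat.Agent.T33.NodalHalf4 Fermat.Agent.U44.GaussRed3 Fermat.Agent.RED.Interface4
open Fermat.Agent.T33.NodalInst4E (Nd Node)
open Fermat.Agent.T33.NodalInst4G (nodalRed)
open Fermat.Agent.T33.NodalCtx1

local notation "Qbar" => AlgebraicClosure ℚ

/-! ### roots of Gauss units -/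

section Roots

variable {K : Type*} [Field K] {A : ValuationSubring K} {F : Type*} [Field F] [Algebra K F]
  {Fb : Type*} [Field Fb] [Algebra (IsLocalRing.ResidueField A) Fb] {R : HalfRed A F Fb}

theorem aunit_of_pow {c : K} {n : ℕ} (hn : n ≠ 0) (h : AUnit A (c ^ n)) : AUnit A c := by
  have hc0 : c ≠ 0 := by
    rintro rfl
    exact h.2.2 (zero_pow hn)
  obtain ⟨m, rfl⟩ := Nat.exists_eq_succ_of_ne_zero hn
  rcases A.mem_or_inv_mem c with hc | hc
  · refine ⟨hc, ?_, hc0⟩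
    have e : c⁻¹ = c ^ m * (c ^ (m + 1))⁻¹ := by
      rw [pow_succ, mul_inv, ← mul_assoc, mul_inv_cancel₀ (pow_ne_zero m hc0), one_mul]
    rw [e]
    exact A.mul_mem _ _ (A.pow_mem hc m) h.2.1
  · refine ⟨?_, hc, hc0⟩
    have e : c = (c⁻¹) ^ m * c ^ (m + 1) := by
      rw [pow_succ, ← mul_assoc, inv_pow, inv_mul_cancel₀ (pow_ne_zero m hc0), one_mul]
    rw [e]
    exact A.mul_mem _ _ (A.pow_mem hc m) h.1

/-- **a root of a Gauss unit is a Gauss unit.** -/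
theorem isGU_of_pow {g : F} {n : ℕ} (hn : n ≠ 0) (h : IsGU R (g ^ n)) : IsGU R g := by
  have hg0 : g ≠ 0 := by
    rintro rfl
    exact h.ne_zero (zero_pow hn)
  obtain ⟨c, hc0, hm, hρ⟩ := R.gauss g hg0
  have hcg : IsGU R (algebraMap K F c * g) := isGU_of_ρ_ne hm hρ
  have h1 : IsGU R (algebraMap K F (c ^ n) * g ^ n) := by
    rw [map_pow, ← mul_pow]
    exact hcg.pow n
  have h2 : IsGU R (algebraMap K F 1 * g ^ n) := by
    rw [map_one, one_mul]
    exact h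
  have h3 : AUnit A (c ^ n / 1) := aunit_div_of_isGU h1 h2
  rw [div_one] at h3
  have hc : AUnit A c := aunit_of_pow hn h3
  have e : g = algebraMap K F c⁻¹ * (algebraMap K F c * g) := by
    rw [← mul_assoc, ← map_mul, inv_mul_cancel₀ hc0, map_one, one_mul]
  rw [e]
  exact (isGU_const hc.inv).mul hcg

theorem not_pow_of_red {u : F} (hu : IsGU R u) {p : ℕ} (hp : p ≠ 0)
    (h : ¬ ∃ g : Fb, g ^ p = red R u) : ¬ ∃ g : F, g ^ p = u := by
  rintro ⟨g, rfl⟩
  have hg : IsGU R g := isGU_of_pow hp hu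
  exact h ⟨red R g, (red_pow R hg.1 p).symm⟩

end Roots

variable {r M' : ℕ} [NeZero M'] [NeZero r] [Fact r.Prime] {A : ValuationSubring Qbar}

/-- shortcut instance. -/
local instance (priority := high) algebraAFbarIn8 : Algebra ↥A ↥(Fbar (M' * r)) := inferInstance

/-- shortcut instance. -/
local instance (priority := high) algebraKFbIn8 :
    Algebra (Fermat.Agent.ES.RED.Setup8.kA A) (Fb A M') := inferInstance

set_option maxHeartbeats 1600000 in
/-- **(M-IG) DATA, unconditional.** -/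
theorem igusa_data (h : LevelHyp r M' A) {ψ : MulChar (ZMod r) Qbar} (heven : ψ (-1) = 1)
    {p : ℕ} (hp : p.Prime) (k : ℕ) (hk : 1 ≤ k) (hord : orderOf ψ = p ^ k)
    (hn : ψ ^ (p ^ k) = 1) :
    ∃ (b : ℤ) (c : Qbar), ¬ (p : ℤ) ∣ b ∧ AUnit A (c / (r : Qbar) ^ b) ∧
      IsGU (c1 h) (uTheta M' heven hn) ∧
      IsGU (c2 h) (algebraMap Qbar ↥(Fbar (M' * r)) c⁻¹ * uTheta M' heven hn) ∧
      ∀ nd : Node h,
        ((p ^ k : ℕ) : ℤ) ∣ ((Nd h).s1 nd).ord (red (c1 h) (uTheta M' heven hn)) - b ∧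
        ((p ^ k : ℕ) : ℤ) ∣ ((Nd h).s2 nd).ord
          (red (c2 h) (algebraMap Qbar ↥(Fbar (M' * r)) c⁻¹ * uTheta M' heven hn)) + b := by
  obtain ⟨b, c, hpb, hcb, hg₁, hg₂, hsl⟩ := slopes_uTheta h heven hp k hk hord hn
  refine ⟨b, c, hpb, hcb, hg₁, hg₂, fun nd => hsl _ nd fun P _ => ?_⟩
  exact Fermat.Agent.M43.EtaleDiv7.dvd_ord_of_coe_eq heven (pow_ne_zero k hp.ne_zero) hn M'
    h.four_dvd (uTheta M' heven hn) rfl P

set_option maxHeartbeats 1600000 in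
/-- **(M-IG)**: the Kummer polynomials of the two reductions are irreducible. -/
theorem irreducible_red (h : LevelHyp r M' A) {ψ : MulChar (ZMod r) Qbar} (heven : ψ (-1) = 1)
    {p : ℕ} (hp : p.Prime) (hp2 : p ≠ 2) (k : ℕ) (hk : 1 ≤ k) (hord : orderOf ψ = p ^ k)
    (hn : ψ ^ (p ^ k) = 1) :
    ∃ (b : ℤ) (c : Qbar), ¬ (p : ℤ) ∣ b ∧ AUnit A (c / (r : Qbar) ^ b) ∧
      IsGU (c1 h) (uTheta M' heven hn) ∧
      IsGU (c2 h) (algebraMap Qbar ↥(Fbar (M' * r)) c⁻¹ * uTheta M' heven hn) ∧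
      Irreducible (X ^ (p ^ k) - C (red (c1 h) (uTheta M' heven hn)) : (Fb A M')[X]) ∧
      Irreducible (X ^ (p ^ k) - C (red (c2 h)
        (algebraMap Qbar ↥(Fbar (M' * r)) c⁻¹ * uTheta M' heven hn)) : (Fb A M')[X]) := by
  obtain ⟨b, c, hpb, hcb, hg₁, hg₂, hsl⟩ := igusa_data h heven hp k hk hord hn
  obtain ⟨nd⟩ := (inferInstance : Nonempty (Node h))
  obtain ⟨h1, h2⟩ := hsl nd
  have hpk : (p : ℤ) ∣ ((p ^ k : ℕ) : ℤ) := by
    exact_mod_cast dvd_pow_self p (by omega : k ≠ 0)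
  refine ⟨b, c, hpb, hcb, hg₁, hg₂, ?_, ?_⟩
  · exact Fermat.Agent.M43.IgusaIrr9.irreducible_X_pow_sub_C_of_slope ((Nd h).s1 nd) hp hp2 k
      hpk h1 hpb
  · have hpb' : ¬ (p : ℤ) ∣ -b := fun hd => hpb ((dvd_neg).1 hd)
    refine Fermat.Agent.M43.IgusaIrr9.irreducible_X_pow_sub_C_of_slope ((Nd h).s2 nd) hp hp2 k
      hpk ?_ hpb'
    rw [sub_neg_eq_add]
    exact h2

set_option maxHeartbeats 1600000 in
/-- **`u = θ_ψ^(p^k)` is not a `p`-th power in `Fbar (M' r)`.** -/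
theorem not_pow_Fbar (h : LevelHyp r M' A) {ψ : MulChar (ZMod r) Qbar} (heven : ψ (-1) = 1)
    {p : ℕ} (hp : p.Prime) (k : ℕ) (hk : 1 ≤ k) (hord : orderOf ψ = p ^ k)
    (hn : ψ ^ (p ^ k) = 1) (g : ↥(Fbar (M' * r))) : g ^ p ≠ uTheta M' heven hn := by
  obtain ⟨b, c, hpb, hcb, hg₁, hg₂, hsl⟩ := igusa_data h heven hp k hk hord hn
  obtain ⟨nd⟩ := (inferInstance : Nonempty (Node h))
  obtain ⟨h1, -⟩ := hsl nd
  have hpk : (p : ℤ) ∣ ((p ^ k : ℕ) : ℤ) := by
    exact_mod_cast dvd_pow_self p (by omega : k ≠ 0)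
  intro hg
  refine not_pow_of_red hg₁ hp.ne_zero ?_ ⟨g, hg⟩
  rintro ⟨g', hg'⟩
  exact Fermat.Agent.M43.IgusaIrr9.not_pow_of_ord ((Nd h).s1 nd)
    (Fermat.Agent.M43.IgusaIrr9.not_dvd_of_dvd_sub hpk h1 hpb) g' hg'

/-- **`X^(p^k) − u` is irreducible over `Fbar (M' r)`** (`p` odd): the cover `X_H → X₀(M' r)` cut
out by `ϑ^(p^k) = u` has degree `p^k`. -/
theorem irreducible_uTheta (h : LevelHyp r M' A) {ψ : MulChar (ZMod r) Qbar}
    (heven : ψ (-1) = 1) {p : ℕ} (hp : p.Prime) (hp2 : p ≠ 2) (k : ℕ) (hk : 1 ≤ k)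
    (hord : orderOf ψ = p ^ k) (hn : ψ ^ (p ^ k) = 1) :
    Irreducible (X ^ (p ^ k) - C (uTheta M' heven hn) : (↥(Fbar (M' * r)))[X]) :=
  X_pow_sub_C_irreducible_of_prime_pow hp hp2 k (not_pow_Fbar h heven hp k hk hord hn)

end Fermat.Agent.M43.IgusaInst8
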