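/-
Programme M43, chapter (LG-q), Stage 1, block [S1-A FIELD'] (helper8), file 1 (abstract, Mathlib
only): **the field `E(Θ)` generated over an intermediate field `E` of `Ω / L` by a root `Θ` of an
irreducible polynomial `P ∈ E[X]`, with its universal property in RING-HOM form.**

`adj E Θ : IntermediateField L Ω` is the field generated by `E` and `Θ`;
* `equivAR : AdjoinRoot P ≃+* adj E Θ`;
* `lift ι θ₂ h : adj E Θ →+* T` for every ring hom `ι : E →+* T` and every root `θ₂` of `ι(P)`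
  (used for the SECOND expansion map `iota2'` of the Kummer cover and for the deck transformations);
  `lift_incl`, `lift_theta`, `ringHom_ext`;
* `exists_repr` : every element of `adj E Θ` is `∑_{j < deg P} a_j Θ^j`, `a_j ∈ E`;
* `map_mem_adj` : a ring endomorphism of `Ω` (not necessarily `L`-linear) which maps `L`, `E` into
  themselves and `Θ` into `adj E Θ` maps `adj E Θ` into itself;
* Kummer case `P = X^n − u`: `rootMul ζ` (`Θ ↦ ζ Θ`, `ζ^n = 1`, `ζ ∈ L`) as a ring automorphism of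
  `adj E Θ`.
-/
import Mathlib

set_option autoImplicit false
set_option linter.unusedSectionVars false
set_option linter.style.haveILetI false
set_option linter.unusedVariables false

open Polynomial

noncomputable section

namespace Fermat.Agent.M43.KummerAdj8

variable {L Ω : Type*} [Field L] [Field Ω] [Algebra L Ω]
variable (E : IntermediateField L Ω) (Θ : Ω)

/-- the field generated by `E` and `Θ`. -/
def adj : IntermediateField L Ω := IntermediateField.adjoin L ((E : Set Ω) ∪ {Θ})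

theorem le_adj : E ≤ adj E Θ := fun _ hx =>
  IntermediateField.subset_adjoin L _ (Or.inl hx)

theorem theta_mem : Θ ∈ adj E Θ :=
  IntermediateField.subset_adjoin L _ (Or.inr rfl)

/-- the inclusion `E → E(Θ)`. -/
def incl : E →+* adj E Θ := (IntermediateField.inclusion (le_adj E Θ)).toRingHom

@[simp] theorem coe_incl (x : E) : ((incl E Θ x : adj E Θ) : Ω) = (x : Ω) := rfl

/-- `Θ` as an element of `E(Θ)`. -/
def thetaA : adj E Θ := ⟨Θ, theta_mem E Θ⟩

@[simp] theorem coe_thetaA : ((thetaA E Θ : adj E Θ) : Ω) = Θ := rfl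

variable {E Θ}
variable {P : E[X]} (hirr : Irreducible P) (hroot : eval₂ (algebraMap E Ω) Θ P = 0)

/-- `E[X]/(P) → Ω`, `X ↦ Θ`. -/
def toΩ : AdjoinRoot P →+* Ω := AdjoinRoot.lift (algebraMap E Ω) Θ hroot

@[simp] theorem toΩ_of (x : E) : toΩ hroot (AdjoinRoot.of P x) = (x : Ω) :=
  AdjoinRoot.lift_of hroot

@[simp] theorem toΩ_root : toΩ hroot (AdjoinRoot.root P) = Θ := AdjoinRoot.lift_root hroot

theorem toΩ_mk (g : E[X]) : toΩ hroot (AdjoinRoot.mk P g) = eval₂ (algebraMap E Ω) Θ g :=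
  AdjoinRoot.lift_mk hroot g

include hirr in
theorem toΩ_injective : Function.Injective (toΩ hroot) := by
  haveI : Fact (Irreducible P) := ⟨hirr⟩
  exact (toΩ hroot).injective

theorem toΩ_mem (y : AdjoinRoot P) : toΩ hroot y ∈ adj E Θ := by
  induction y using AdjoinRoot.induction_on with
  | ih g =>
    rw [toΩ_mk, eval₂_eq_sum_range]
    refine sum_mem fun i _ => mul_mem (le_adj E Θ (g.coeff i).2) (pow_mem (theta_mem E Θ) i)

include hirr in
theorem mem_range_toΩ {x : Ω} (hx : x ∈ adj E Θ) : x ∈ (toΩ hroot).range := by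
  haveI : Fact (Irreducible P) := ⟨hirr⟩
  -- the range is a subfield containing `L`, `E` and `Θ`
  let S : IntermediateField L Ω :=
    { (toΩ hroot).fieldRange with
      algebraMap_mem' := fun c => ⟨AdjoinRoot.of P (algebraMap L E c), by
        rw [toΩ_of]
        rfl⟩ }
  have hS : adj E Θ ≤ S := by
    rw [adj, IntermediateField.adjoin_le_iff]
    rintro y (hy | hy)
    · exact ⟨AdjoinRoot.of P ⟨y, hy⟩, toΩ_of hroot _⟩
    · rw [Set.mem_singleton_iff] at hy
      subst hy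
      exact ⟨AdjoinRoot.root P, toΩ_root hroot⟩
  obtain ⟨y, hy⟩ := hS hx
  exact ⟨y, hy⟩

/-- `E[X]/(P) → E(Θ)`. -/
def toAdj : AdjoinRoot P →+* adj E Θ := (toΩ hroot).codRestrict (adj E Θ).toSubfield
  (toΩ_mem hroot)

@[simp] theorem coe_toAdj (y : AdjoinRoot P) : ((toAdj hroot y : adj E Θ) : Ω) = toΩ hroot y := rfl

include hirr in
theorem toAdj_bijective : Function.Bijective (toAdj hroot) := by
  refine ⟨fun a b hab => toΩ_injective hirr hroot (congrArg Subtype.val hab), fun x => ?_⟩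
  obtain ⟨y, hy⟩ := mem_range_toΩ hirr hroot x.2
  exact ⟨y, Subtype.ext hy⟩

/-- **`E[X]/(P) ≃ E(Θ)`.** -/
def equivAR : AdjoinRoot P ≃+* adj E Θ := RingEquiv.ofBijective (toAdj hroot)
  (toAdj_bijective hirr hroot)

@[simp] theorem equivAR_of (x : E) : equivAR hirr hroot (AdjoinRoot.of P x) = incl E Θ x :=
  Subtype.ext (toΩ_of hroot x)

@[simp] theorem equivAR_root : equivAR hirr hroot (AdjoinRoot.root P) = thetaA E Θ :=
  Subtype.ext (toΩ_root hroot)

/-! ### the universal property -/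

variable {T : Type*} [CommRing T]

/-- **the ring hom `E(Θ) → T` extending `ι : E → T` with `Θ ↦ θ₂`**, `θ₂` a root of `ι(P)`. -/
def lift (ι : E →+* T) (θ₂ : T) (h : eval₂ ι θ₂ P = 0) : adj E Θ →+* T :=
  (AdjoinRoot.lift ι θ₂ h).comp (equivAR hirr hroot).symm.toRingHom

theorem lift_incl (ι : E →+* T) (θ₂ : T) (h : eval₂ ι θ₂ P = 0) (x : E) :
    lift hirr hroot ι θ₂ h (incl E Θ x) = ι x := by
  have : (equivAR hirr hroot).symm (incl E Θ x) = AdjoinRoot.of P x := by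
    rw [RingEquiv.symm_apply_eq, equivAR_of]
  show AdjoinRoot.lift ι θ₂ h ((equivAR hirr hroot).symm (incl E Θ x)) = ι x
  rw [this, AdjoinRoot.lift_of]

theorem lift_theta (ι : E →+* T) (θ₂ : T) (h : eval₂ ι θ₂ P = 0) :
    lift hirr hroot ι θ₂ h (thetaA E Θ) = θ₂ := by
  have : (equivAR hirr hroot).symm (thetaA E Θ) = AdjoinRoot.root P := by
    rw [RingEquiv.symm_apply_eq, equivAR_root]
  show AdjoinRoot.lift ι θ₂ h ((equivAR hirr hroot).symm (thetaA E Θ)) = θ₂
  rw [this, AdjoinRoot.lift_root]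

include hirr hroot in
/-- two ring homs on `E(Θ)` which agree on `E` and at `Θ` are equal. -/
theorem ringHom_ext {f g : adj E Θ →+* T} (hE : ∀ x : E, f (incl E Θ x) = g (incl E Θ x))
    (hΘ : f (thetaA E Θ) = g (thetaA E Θ)) : f = g := by
  have key : f.comp (equivAR hirr hroot).toRingHom = g.comp (equivAR hirr hroot).toRingHom := by
    apply AdjoinRoot.ringHom_ext
    · ext x
      show f (equivAR hirr hroot (AdjoinRoot.of P x)) = g (equivAR hirr hroot (AdjoinRoot.of P x))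
      rw [equivAR_of, hE]
    · show f (equivAR hirr hroot (AdjoinRoot.root P)) = g (equivAR hirr hroot (AdjoinRoot.root P))
      rw [equivAR_root, hΘ]
  ext x
  obtain ⟨y, rfl⟩ := (equivAR hirr hroot).surjective x
  exact RingHom.congr_fun key y

include hirr hroot in
/-- **normal form**: every element of `E(Θ)` is a polynomial in `Θ` of degree `< deg P` over `E`. -/
theorem exists_repr (hmonic : P.Monic) (x : adj E Θ) :
    ∃ a : ℕ → E, (x : Ω) = ∑ j ∈ Finset.range P.natDegree, (a j : Ω) * Θ ^ j := by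
  obtain ⟨y, rfl⟩ := (equivAR hirr hroot).surjective x
  obtain ⟨g, rfl⟩ := AdjoinRoot.mk_surjective y
  set ρ := g %ₘ P with hρ
  have hmk : AdjoinRoot.mk P g = AdjoinRoot.mk P ρ := by
    rw [AdjoinRoot.mk_eq_mk]
    exact ⟨g /ₘ P, by rw [hρ]; nth_rewrite 1 [← modByMonic_add_div g P]; ring⟩
  have hdeg : ρ.natDegree < P.natDegree := by
    have hP1 : P ≠ 1 := fun h1 => hirr.not_isUnit (h1 ▸ isUnit_one)
    exact natDegree_modByMonic_lt g hmonic hP1
  refine ⟨fun j => ρ.coeff j, ?_⟩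
  show toΩ hroot (AdjoinRoot.mk P g) = _
  rw [hmk, toΩ_mk, eval₂_eq_sum_range' (algebraMap E Ω) hdeg]
  rfl

/-! ### stability under ring endomorphisms of `Ω` -/

/-- a ring endomorphism of `Ω` mapping `L`, `E` into themselves and `Θ` into `E(Θ)` maps `E(Θ)`
into itself. -/
theorem map_mem_adj (s : Ω →+* Ω) (hsL : ∀ c : L, ∃ c' : L, s (algebraMap L Ω c) = algebraMap L Ω c')
    (hsE : ∀ x ∈ E, s x ∈ E) (hsΘ : s Θ ∈ adj E Θ) {x : Ω} (hx : x ∈ adj E Θ) :
    s x ∈ adj E Θ := by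
  have hx' : x ∈ Subfield.closure (Set.range (algebraMap L Ω) ∪ ((E : Set Ω) ∪ {Θ})) := by
    rw [adj, IntermediateField.adjoin] at hx
    exact hx
  clear hx
  induction hx' using Subfield.closure_induction with
  | mem y hy =>
    rcases hy with ⟨c, rfl⟩ | hy | hy
    · obtain ⟨c', hc'⟩ := hsL c
      rw [hc']
      exact (adj E Θ).algebraMap_mem c'
    · exact le_adj E Θ (hsE y hy)
    · rw [Set.mem_singleton_iff] at hy
      subst hy
      exact hsΘ
  | one => rw [map_one]; exact one_mem _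
  | add a b _ _ ha hb => rw [map_add]; exact add_mem ha hb
  | neg a _ ha => rw [map_neg]; exact neg_mem ha
  | inv a _ ha => rw [map_inv₀]; exact inv_mem ha
  | mul a b _ _ ha hb => rw [map_mul]; exact mul_mem ha hb

/-- **restriction of a ring automorphism of `Ω`** (e.g. a coefficientwise Galois action) to
`E(Θ)`. -/
def restrictAut (s : Ω ≃+* Ω)
    (hsL : ∀ c : L, ∃ c' : L, s (algebraMap L Ω c) = algebraMap L Ω c')
    (hsL' : ∀ c : L, ∃ c' : L, s.symm (algebraMap L Ω c) = algebraMap L Ω c')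
    (hsE : ∀ x ∈ E, s x ∈ E) (hsE' : ∀ x ∈ E, s.symm x ∈ E)
    (hsΘ : s Θ ∈ adj E Θ) (hsΘ' : s.symm Θ ∈ adj E Θ) : adj E Θ ≃+* adj E Θ where
  toFun x := ⟨s x, map_mem_adj (s : Ω →+* Ω) hsL hsE hsΘ x.2⟩
  invFun x := ⟨s.symm x, map_mem_adj (s.symm : Ω →+* Ω) hsL' hsE' hsΘ' x.2⟩
  left_inv x := Subtype.ext (s.symm_apply_apply _)
  right_inv x := Subtype.ext (s.apply_symm_apply _)
  map_mul' x y := Subtype.ext (map_mul s _ _)
  map_add' x y := Subtype.ext (map_add s _ _)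

@[simp] theorem coe_restrictAut (s : Ω ≃+* Ω)
    (hsL : ∀ c : L, ∃ c' : L, s (algebraMap L Ω c) = algebraMap L Ω c')
    (hsL' : ∀ c : L, ∃ c' : L, s.symm (algebraMap L Ω c) = algebraMap L Ω c')
    (hsE : ∀ x ∈ E, s x ∈ E) (hsE' : ∀ x ∈ E, s.symm x ∈ E)
    (hsΘ : s Θ ∈ adj E Θ) (hsΘ' : s.symm Θ ∈ adj E Θ) (x : adj E Θ) :
    ((restrictAut s hsL hsL' hsE hsE' hsΘ hsΘ' x : adj E Θ) : Ω) = s (x : Ω) := rfl

/-! ### the Kummer case `P = X^n − u` -/

section Kummer

variable {n : ℕ} {u : E} (hirrK : Irreducible (X ^ n - C u : E[X])) (hΘ : Θ ^ n = (u : Ω))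

include hΘ in
theorem hroot_kummer : eval₂ (algebraMap E Ω) Θ (X ^ n - C u : E[X]) = 0 := by
  rw [eval₂_sub, eval₂_pow, eval₂_X, eval₂_C, hΘ]
  exact sub_self _

include hΘ in
theorem thetaA_pow : thetaA E Θ ^ n = incl E Θ u := Subtype.ext hΘ

/-- the ring hom `E(Θ) → T` extending `ι` with `Θ ↦ θ₂`, `θ₂^n = ι u`. -/
def liftK (ι : E →+* T) (θ₂ : T) (h : θ₂ ^ n = ι u) : adj E Θ →+* T :=
  lift hirrK (hroot_kummer hΘ) ι θ₂ (by
    rw [eval₂_sub, eval₂_pow, eval₂_X, eval₂_C, h]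
    exact sub_self _)

theorem liftK_incl (ι : E →+* T) (θ₂ : T) (h : θ₂ ^ n = ι u) (x : E) :
    liftK hirrK hΘ ι θ₂ h (incl E Θ x) = ι x := lift_incl _ _ _ _ _ x

theorem liftK_theta (ι : E →+* T) (θ₂ : T) (h : θ₂ ^ n = ι u) :
    liftK hirrK hΘ ι θ₂ h (thetaA E Θ) = θ₂ := lift_theta _ _ _ _ _

/-- the endomorphism `Θ ↦ ζ Θ` (`ζ ∈ L`, `ζ^n = 1`), identity on `E`. -/
def rootMulHom (ζ : L) (hζ : ζ ^ n = 1) : adj E Θ →+* adj E Θ :=
  liftK hirrK hΘ (incl E Θ) (algebraMap L (adj E Θ) ζ * thetaA E Θ) (by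
    rw [mul_pow, ← map_pow, hζ, map_one, one_mul, thetaA_pow hΘ])

theorem rootMulHom_incl (ζ : L) (hζ : ζ ^ n = 1) (x : E) :
    rootMulHom hirrK hΘ ζ hζ (incl E Θ x) = incl E Θ x := liftK_incl _ _ _ _ _ x

theorem rootMulHom_theta (ζ : L) (hζ : ζ ^ n = 1) :
    rootMulHom hirrK hΘ ζ hζ (thetaA E Θ) = algebraMap L (adj E Θ) ζ * thetaA E Θ :=
  liftK_theta _ _ _ _ _

theorem rootMulHom_algebraMap (ζ : L) (hζ : ζ ^ n = 1) (c : L) :
    rootMulHom hirrK hΘ ζ hζ (algebraMap L (adj E Θ) c) = algebraMap L (adj E Θ) c := by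
  have : algebraMap L (adj E Θ) c = incl E Θ (algebraMap L E c) := rfl
  rw [this, rootMulHom_incl]

theorem rootMulHom_comp (ζ ζ' : L) (hζ : ζ ^ n = 1) (hζ' : ζ' ^ n = 1) :
    (rootMulHom hirrK hΘ ζ hζ).comp (rootMulHom hirrK hΘ ζ' hζ') =
      rootMulHom hirrK hΘ (ζ * ζ') (by rw [mul_pow, hζ, hζ', one_mul]) := by
  apply ringHom_ext hirrK (hroot_kummer hΘ)
  · intro x
    rw [RingHom.comp_apply, rootMulHom_incl, rootMulHom_incl, rootMulHom_incl]
  · rw [RingHom.comp_apply, rootMulHom_theta, map_mul, rootMulHom_algebraMap, rootMulHom_theta,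
      rootMulHom_theta, ← mul_assoc, ← map_mul, mul_comm ζ' ζ]

theorem rootMulHom_one : rootMulHom hirrK hΘ (1 : L) (one_pow n) = RingHom.id _ := by
  apply ringHom_ext hirrK (hroot_kummer hΘ)
  · intro x
    rw [rootMulHom_incl, RingHom.id_apply]
  · rw [rootMulHom_theta, map_one, one_mul, RingHom.id_apply]

/-- **the deck transformation `Θ ↦ ζ Θ`.** -/
def rootMul (ζ : L) (hζ : ζ ^ n = 1) : adj E Θ ≃+* adj E Θ :=
  have hn : n ≠ 0 := by
    rintro rfl
    have h1 : (X ^ 0 - C u : E[X]) = C (1 - u) := by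
      rw [pow_zero, map_sub, map_one]
    rw [h1] at hirrK
    exact Polynomial.not_irreducible_C _ hirrK
  have hζ0 : ζ ≠ 0 := by
    rintro rfl
    rw [zero_pow hn] at hζ
    exact zero_ne_one hζ
  have hζi : ζ⁻¹ ^ n = 1 := by rw [inv_pow, hζ, inv_one]
  RingEquiv.ofRingHom (rootMulHom hirrK hΘ ζ hζ) (rootMulHom hirrK hΘ ζ⁻¹ hζi)
    (by
      rw [rootMulHom_comp]
      simp only [mul_inv_cancel₀ hζ0]
      exact rootMulHom_one hirrK hΘ)
    (by
      rw [rootMulHom_comp]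
      simp only [inv_mul_cancel₀ hζ0]
      exact rootMulHom_one hirrK hΘ)

@[simp] theorem rootMul_incl (ζ : L) (hζ : ζ ^ n = 1) (x : E) :
    rootMul hirrK hΘ ζ hζ (incl E Θ x) = incl E Θ x := rootMulHom_incl hirrK hΘ ζ hζ x

@[simp] theorem rootMul_theta (ζ : L) (hζ : ζ ^ n = 1) :
    rootMul hirrK hΘ ζ hζ (thetaA E Θ) = algebraMap L (adj E Θ) ζ * thetaA E Θ :=
  rootMulHom_theta hirrK hΘ ζ hζ

end Kummer

end Fermat.Agent.M43.KummerAdj8
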