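/-
Programme M43, chapter (LG-q), Stage 1, block [S1-A FIELD'] (helper8), file 2: **the Kummer cover
over a number field `K ⊂ ℚbar`**: `F'_K = FK (M' r) K (Θ) ⊂ K((q))`, `Θ = thetaInfK ψ` the
`q`-expansion at `∞` of `θ_ψ` (`ψ` with values in `K`), `Θ^n = u_K ∈ FK (M' r) K`.

* generalities: `map_Apsi`, `map_Bpsi`, `map_tau'`, `map_c0psi'` (the series `A_ψ`, `B_ψ` and the
  constants `τ`, `c₀` commute with ring homs of the coefficient field);
* `thetaInfK ψ`, `coeffMap_thetaInfK`, `uK`, `baseChangeHom_uK`, `irreducible_uK`;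
* `FH K M' ψ = adj (FK (M' r) K) Θ`;
* `theta2K ζ ψ` (the series of `θ_ψ ∘ S` in the variable `q^{M'}`), `theta2K_pow : Θ₂^n = ι₂ u_K`;
* `iota2' : FH → K((q))` (second expansion), `iota2'_incl`, `iota2'_theta`.
-/
import Mathlib
import Fermat.Agent.M43.KummerAdj8
import Fermat.Agent.M43.IgusaInst8

set_option autoImplicit false
set_option linter.unusedSectionVars false
set_option linter.style.haveILetI false
set_option linter.unusedVariables false
set_option synthInstance.maxHeartbeats 400000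

open ModularCurve AlgebraicCurve Polynomial
open scoped MatrixGroups

noncomputable section

namespace Fermat.Agent.M43.ThetaFieldK8

open Fermat.Agent.X0 Fermat.Agent.IG.AN.DeltaAffine11
open Fermat.Agent.M43.EisPsi6 Fermat.Agent.M43.EisPsiInf6 Fermat.Agent.M43.FieldBridge8
open Fermat.Agent.M43.IgusaSlope8 Fermat.Agent.M43.IgusaInst8 Fermat.Agent.M43.KummerAdj8
open Fermat.Agent.RED.Interface4 Fermat.Agent.RED.DESC.PlaceExtend27
open Fermat.Agent.ES.N34.FrickeFK8 Fermat.Agent.M48.EisConst6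

/-! ### functoriality in the coefficient field -/

section Maps

variable {K L : Type} [Field K] [Field L] (φ : K →+* L) {r : ℕ} [Fact r.Prime]

theorem ringHomComp_inv_apply (ψ : MulChar (ZMod r) K) (a : ZMod r) :
    (ψ.ringHomComp φ)⁻¹ a = φ (ψ⁻¹ a) := by
  rw [MulChar.ringHomComp_inv, MulChar.ringHomComp_apply]

theorem map_Apsi (ψ : MulChar (ZMod r) K) : (Apsi ψ).map φ = Apsi (ψ.ringHomComp φ) := by
  ext N
  rw [PowerSeries.coeff_map, Apsi, Apsi, PowerSeries.coeff_mk, PowerSeries.coeff_mk]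
  split_ifs
  · exact map_zero φ
  · simp only [map_mul, map_sum, map_pow, map_natCast, map_ofNat, ringHomComp_inv_apply]

theorem map_tau' {ζ : K} (hζ : ζ ^ r = 1) (ψ : MulChar (ZMod r) K) :
    φ (tau hζ ψ) = tau (ζ := φ ζ) (by rw [← map_pow, hζ, map_one]) (ψ.ringHomComp φ) := by
  rw [tau_eq, tau_eq, map_sum]
  refine Finset.sum_congr rfl fun b _ => ?_
  rw [map_mul, map_pow, ringHomComp_inv_apply]

theorem map_c0psi' (ζ : K) (ψ : MulChar (ZMod r) K) :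
    φ (c0psi ζ ψ) = c0psi (φ ζ) (ψ.ringHomComp φ) := by
  unfold c0psi
  rw [map_sum]
  refine Finset.sum_congr rfl fun b _ => ?_
  rw [map_mul, map_liF, map_pow, ringHomComp_inv_apply]

theorem map_Bpsi {ζ : K} (hζ : ζ ^ r = 1) (ψ : MulChar (ZMod r) K) :
    (Bpsi hζ ψ).map φ =
      Bpsi (ζ := φ ζ) (by rw [← map_pow, hζ, map_one]) (ψ.ringHomComp φ) := by
  ext N
  rw [PowerSeries.coeff_map, Bpsi, Bpsi, PowerSeries.coeff_mk, PowerSeries.coeff_mk]
  split_ifs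
  · exact map_c0psi' φ ζ ψ
  · simp only [map_mul, map_sum, map_pow, map_natCast, map_ofNat, map_tau' φ hζ ψ,
      MulChar.ringHomComp_apply]

end Maps

/-! ### the Kummer function over `K` -/

section OverK

local notation "Qb" => AlgebraicClosure ℚ

variable (K : IntermediateField ℚ Qbar) {r : ℕ} [Fact r.Prime] [NeZero r]
variable (M' : ℕ) [NeZero M']

/-- the character with values in `ℚbar`. -/
abbrev psiBar (ψ : MulChar (ZMod r) ↥K) : MulChar (ZMod r) Qbar :=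
  ψ.ringHomComp (algebraMap ↥K Qbar)

/-- **`Θ`, the `q`-expansion at `∞` of `θ_ψ`, over `K`.** -/
def thetaInfK (ψ : MulChar (ZMod r) ↥K) : LaurentSeries ↥K :=
  laurentOf 1 (Apsi ψ * etaUInv ↥K)

theorem coeffMap_thetaInfK (ψ : MulChar (ZMod r) ↥K) :
    coeffMap (algebraMap ↥K Qbar) (thetaInfK K ψ) = thetaInf (psiBar K ψ) := by
  rw [thetaInfK, thetaInf, Fermat.Agent.X0.coeffMap_laurentOf, map_mul, map_Apsi, map_etaUInv]

variable {K}

theorem psiBar_even {ψ : MulChar (ZMod r) ↥K} (heven : ψ (-1) = 1) : psiBar K ψ (-1) = 1 := by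
  rw [MulChar.ringHomComp_apply, heven, map_one]

theorem psiBar_pow {ψ : MulChar (ZMod r) ↥K} {n : ℕ} (hn : ψ ^ n = 1) : psiBar K ψ ^ n = 1 := by
  rw [psiBar, MulChar.ringHomComp_pow, hn, MulChar.ringHomComp_one]

theorem orderOf_psiBar (ψ : MulChar (ZMod r) ↥K) : orderOf (psiBar K ψ) = orderOf ψ := by
  have hinj : Function.Injective
      (fun χ : MulChar (ZMod r) ↥K => χ.ringHomComp (algebraMap ↥K Qbar)) := by
    intro χ χ' h
    apply MulChar.ext'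
    intro a
    have := congrArg (fun χ'' : MulChar (ZMod r) Qbar => χ'' a) h
    simp only [MulChar.ringHomComp_apply] at this
    exact (algebraMap ↥K Qbar).injective this
  let f : MulChar (ZMod r) ↥K →* MulChar (ZMod r) Qbar :=
    { toFun := fun χ => χ.ringHomComp (algebraMap ↥K Qbar)
      map_one' := MulChar.ringHomComp_one _
      map_mul' := fun χ χ' => MulChar.ringHomComp_mul χ χ' _ }
  exact orderOf_injective f hinj ψ

theorem thetaPowK_mem {ψ : MulChar (ZMod r) ↥K} (heven : ψ (-1) = 1) {n : ℕ} (hn : ψ ^ n = 1) :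
    thetaInfK K ψ ^ n ∈ FK (M' * r) K := by
  refine Fermat.Agent.M43.DescentC8.mem_laurentBaseChange_of_coeffMap_mem (K := Qbar)
    (modularFunctionFieldFull (M' * r)) ?_
  rw [map_pow, coeffMap_thetaInfK]
  exact thetaPow_mem_Fbar_mul (psiBar_even heven) (psiBar_pow hn) M'

/-- **the Kummer function `u_K = Θ^n ∈ FK (M' r) K`.** -/
def uK {ψ : MulChar (ZMod r) ↥K} (heven : ψ (-1) = 1) {n : ℕ} (hn : ψ ^ n = 1) :
    ↥(FK (M' * r) K) :=
  ⟨thetaInfK K ψ ^ n, thetaPowK_mem M' heven hn⟩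

@[simp] theorem coe_uK {ψ : MulChar (ZMod r) ↥K} (heven : ψ (-1) = 1) {n : ℕ} (hn : ψ ^ n = 1) :
    ((uK M' heven hn : ↥(FK (M' * r) K)) : LaurentSeries ↥K) = thetaInfK K ψ ^ n := rfl

theorem baseChangeHom_uK {ψ : MulChar (ZMod r) ↥K} (heven : ψ (-1) = 1) {n : ℕ}
    (hn : ψ ^ n = 1) :
    baseChangeHom (M' * r) K (uK M' heven hn) =
      uTheta M' (psiBar_even heven) (psiBar_pow hn) := by
  apply Subtype.ext
  rw [coe_baseChangeHom, coe_uK, map_pow, coeffMap_thetaInfK]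
  rfl

/-- **`X^(p^k) − u_K` is irreducible over `FK (M' r) K`.** -/
theorem irreducible_uK {A : ValuationSubring Qbar}
    (h : Fermat.Agent.T33.NodalHalf4.LevelHyp r M' A) {ψ : MulChar (ZMod r) ↥K}
    (heven : ψ (-1) = 1) {p : ℕ} (hp : p.Prime) (hp2 : p ≠ 2) (k : ℕ) (hk : 1 ≤ k)
    (hord : orderOf ψ = p ^ k) (hn : ψ ^ (p ^ k) = 1) :
    Irreducible (X ^ (p ^ k) - C (uK M' heven hn) : (↥(FK (M' * r) K))[X]) := by
  have hmonic : (X ^ (p ^ k) - C (uK M' heven hn) : (↥(FK (M' * r) K))[X]).Monic :=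
    monic_X_pow_sub_C _ (pow_ne_zero k hp.ne_zero)
  refine hmonic.irreducible_of_irreducible_map (baseChangeHom (M' * r) K) _ ?_
  rw [Polynomial.map_sub, Polynomial.map_pow, Polynomial.map_X, Polynomial.map_C,
    baseChangeHom_uK]
  exact irreducible_uTheta h (psiBar_even heven) hp hp2 k hk
    ((orderOf_psiBar ψ).trans hord) (psiBar_pow hn)

end OverK

/-! ### the field `F'_K` and its second expansion -/

section FieldH

local notation "Qb" => AlgebraicClosure ℚ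

variable {K : IntermediateField ℚ Qbar} {r : ℕ} [Fact r.Prime] [NeZero r]
variable (M' : ℕ) [NeZero M']

/-- **`F'_K = FK (M' r) K (Θ) ⊂ K((q))`**, the function field of the Kummer cover over `K`. -/
abbrev FH (ψ : MulChar (ZMod r) ↥K) : IntermediateField ↥K (LaurentSeries ↥K) :=
  adj (FK (M' * r) K) (thetaInfK K ψ)

/-- the series of `θ_ψ ∘ S` in the variable `q^{M'}`, over `K` (`ζ ∈ K` an `r`-th root of unity). -/
def theta2K (ζ : ↥K) (ψ : MulChar (ZMod r) ↥K) : LaurentSeries ↥K :=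
  qExpand ↥K M' (thetaExp ζ ψ ModularGroup.S)

theorem coeffMap_thetaExp_S {ζ : ↥K} (hζ : ζ ^ r = 1) {ψ : MulChar (ZMod r) ↥K} (hψ : ψ ≠ 1)
    (heven : ψ (-1) = 1) :
    coeffMap (algebraMap ↥K Qbar) (thetaExp ζ ψ ModularGroup.S) =
      thetaExp (algebraMap ↥K Qbar ζ) (psiBar K ψ) ModularGroup.S := by
  have hζ' : (algebraMap ↥K Qbar ζ) ^ r = 1 := by rw [← map_pow, hζ, map_one]
  have hψ' : psiBar K ψ ≠ 1 := by
    intro h1
    apply hψ
    have h2 := orderOf_psiBar ψ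
    rw [h1, orderOf_one] at h2
    exact orderOf_eq_one_iff.1 h2.symm
  rw [thetaExp_S hζ hψ heven, thetaExp_S hζ' hψ' (psiBar_even heven),
    Fermat.Agent.X0.coeffMap_laurentOf]
  congr 1
  rw [map_mul, map_mul, PowerSeries.map_C, map_Bpsi, PowerSeries.map_expand, map_etaUInv,
    map_inv₀, map_pow, map_natCast]

theorem coeffMap_theta2K {ζ : ↥K} (hζ : ζ ^ r = 1) {ψ : MulChar (ZMod r) ↥K} (hψ : ψ ≠ 1)
    (heven : ψ (-1) = 1) :
    coeffMap (algebraMap ↥K Qbar) (theta2K M' ζ ψ) =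
      qExpand Qbar M' (thetaExp (algebraMap ↥K Qbar ζ) (psiBar K ψ) ModularGroup.S) := by
  rw [theta2K, Fermat.Agent.X0.CuspGood.coeffMap_qExpand, coeffMap_thetaExp_S hζ hψ heven]

/-- **`Θ₂^n = ι₂(u_K)`**: the `n`-th power of the Fricke series of `θ_ψ` is the Fricke expansion of
`u_K`. -/
theorem theta2K_pow {ζ : ↥K} (hζK : algebraMap ↥K Qbar ζ = zetaK r) {ψ : MulChar (ZMod r) ↥K}
    (hψ : ψ ≠ 1) (heven : ψ (-1) = 1) {n : ℕ} (hn : ψ ^ n = 1) :
    theta2K M' ζ ψ ^ n = iotaTwo (M' * r) K (uK M' heven hn) := by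
  have hζ : ζ ^ r = 1 := by
    apply (algebraMap ↥K Qbar).injective
    rw [map_pow, hζK, map_one]
    exact zetaK_pow_self r
  apply Fermat.Agent.RED.DESC.CoeffDescent1.coeffMap_injective (algebraMap ↥K Qbar)
  rw [map_pow, coeffMap_theta2K M' hζ hψ heven, coeffMap_iotaTwo, baseChangeHom_uK, hζK,
    ← map_pow, ← coe_frickeBar_uTheta M' (psiBar_even heven) (psiBar_pow hn)]
  rfl

/-- **the second expansion `ι₂' : F'_K → K((q))`**: the Fricke expansion on `FK (M' r) K`, and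
`Θ ↦ Θ₂`. -/
def iota2' {ψ : MulChar (ZMod r) ↥K} {n : ℕ} {heven : ψ (-1) = 1} {hn : ψ ^ n = 1}
    (hirr : Irreducible (X ^ n - C (uK M' heven hn) : (↥(FK (M' * r) K))[X]))
    {ζ : ↥K} (hζK : algebraMap ↥K Qbar ζ = zetaK r) (hψ : ψ ≠ 1) :
    ↥(FH M' ψ) →+* LaurentSeries ↥K :=
  liftK hirr (coe_uK M' heven hn).symm (iotaTwo (M' * r) K) (theta2K M' ζ ψ)
    (theta2K_pow M' hζK hψ heven hn)

theorem iota2'_incl {ψ : MulChar (ZMod r) ↥K} {n : ℕ} {heven : ψ (-1) = 1} {hn : ψ ^ n = 1}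
    (hirr : Irreducible (X ^ n - C (uK M' heven hn) : (↥(FK (M' * r) K))[X]))
    {ζ : ↥K} (hζK : algebraMap ↥K Qbar ζ = zetaK r) (hψ : ψ ≠ 1) (x : ↥(FK (M' * r) K)) :
    iota2' M' hirr hζK hψ (incl (FK (M' * r) K) (thetaInfK K ψ) x) = iotaTwo (M' * r) K x :=
  liftK_incl _ _ _ _ _ x

theorem iota2'_theta {ψ : MulChar (ZMod r) ↥K} {n : ℕ} {heven : ψ (-1) = 1} {hn : ψ ^ n = 1}
    (hirr : Irreducible (X ^ n - C (uK M' heven hn) : (↥(FK (M' * r) K))[X]))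
    {ζ : ↥K} (hζK : algebraMap ↥K Qbar ζ = zetaK r) (hψ : ψ ≠ 1) :
    iota2' M' hirr hζK hψ (thetaA (FK (M' * r) K) (thetaInfK K ψ)) = theta2K M' ζ ψ :=
  liftK_theta _ _ _ _ _

end FieldH

/-! ### the Galois action -/

section Galois

variable {K : IntermediateField ℚ Qbar} {r : ℕ} [Fact r.Prime] [NeZero r]
variable (M' : ℕ) [NeZero M']

/-- the coefficientwise action of `s ∈ Aut(K/ℚ)` on `K((q))`, as a ring automorphism. -/
def coeffEquiv (s : ↥K ≃ₐ[ℚ] ↥K) : LaurentSeries ↥K ≃+* LaurentSeries ↥K :=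
  RingEquiv.ofRingHom (coeffMap (s : ↥K →+* ↥K)) (coeffMap (s.symm : ↥K →+* ↥K))
    (by
      ext x : 1
      show coeffMap (s : ↥K →+* ↥K) (coeffMap (s.symm : ↥K →+* ↥K) x) = x
      rw [coeffMap_coeffMap,
        coeffMap_congr (g := RingHom.id ↥K) (RingHom.ext fun a => s.apply_symm_apply a) x,
        coeffMap_id])
    (by
      ext x : 1
      show coeffMap (s.symm : ↥K →+* ↥K) (coeffMap (s : ↥K →+* ↥K) x) = x
      rw [coeffMap_coeffMap,
        coeffMap_congr (g := RingHom.id ↥K) (RingHom.ext fun a => s.symm_apply_apply a) x,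
        coeffMap_id])

@[simp] theorem coeffEquiv_apply (s : ↥K ≃ₐ[ℚ] ↥K) (x : LaurentSeries ↥K) :
    coeffEquiv s x = coeffMap (s : ↥K →+* ↥K) x := rfl

@[simp] theorem coeffEquiv_symm_apply (s : ↥K ≃ₐ[ℚ] ↥K) (x : LaurentSeries ↥K) :
    (coeffEquiv s).symm x = coeffMap (s.symm : ↥K →+* ↥K) x := rfl

theorem ringHomComp_of_fixed {ψ : MulChar (ZMod r) ↥K} (s : ↥K →+* ↥K)
    (hs : ∀ a, s (ψ a) = ψ a) : ψ.ringHomComp s = ψ :=
  MulChar.ext' fun a => by rw [MulChar.ringHomComp_apply, hs]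

/-- `Θ` is fixed by the automorphisms fixing the values of `ψ`. -/
theorem coeffMap_thetaInfK_of_fixed {ψ : MulChar (ZMod r) ↥K} (s : ↥K →+* ↥K)
    (hs : ∀ a, s (ψ a) = ψ a) : coeffMap s (thetaInfK K ψ) = thetaInfK K ψ := by
  rw [thetaInfK, Fermat.Agent.X0.coeffMap_laurentOf, map_mul, map_Apsi, map_etaUInv,
    ringHomComp_of_fixed s hs]

theorem symm_fixed {ψ : MulChar (ZMod r) ↥K} (s : ↥K ≃ₐ[ℚ] ↥K) (hs : ∀ a, s (ψ a) = ψ a) (a : ZMod r) :
    s.symm (ψ a) = ψ a := by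
  rw [AlgEquiv.symm_apply_eq, hs]

/-- **the coefficientwise action of `s` on `F'_K`** (`s` fixing the values of `ψ`). -/
def galFH {ψ : MulChar (ZMod r) ↥K} (s : ↥K ≃ₐ[ℚ] ↥K) (hs : ∀ a, s (ψ a) = ψ a) :
    ↥(FH M' ψ) ≃+* ↥(FH M' ψ) :=
  restrictAut (E := FK (M' * r) K) (Θ := thetaInfK K ψ) (coeffEquiv s)
    (fun c => ⟨s c, coeffMap_algebraMap (s : ↥K →+* ↥K) c⟩)
    (fun c => ⟨s.symm c, coeffMap_algebraMap (s.symm : ↥K →+* ↥K) c⟩)
    (fun x hx => coeffMap_mem_laurentBaseChange s hx)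
    (fun x hx => coeffMap_mem_laurentBaseChange s.symm hx)
    (by
      rw [coeffEquiv_apply, coeffMap_thetaInfK_of_fixed _ hs]
      exact theta_mem _ _)
    (by
      rw [coeffEquiv_symm_apply, coeffMap_thetaInfK_of_fixed _ (symm_fixed s hs)]
      exact theta_mem _ _)

@[simp] theorem coe_galFH {ψ : MulChar (ZMod r) ↥K} (s : ↥K ≃ₐ[ℚ] ↥K) (hs : ∀ a, s (ψ a) = ψ a)
    (x : ↥(FH M' ψ)) :
    ((galFH M' s hs x : ↥(FH M' ψ)) : LaurentSeries ↥K) =
      coeffMap (s : ↥K →+* ↥K) (x : LaurentSeries ↥K) := rfl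

theorem galFH_incl {ψ : MulChar (ZMod r) ↥K} (s : ↥K ≃ₐ[ℚ] ↥K) (hs : ∀ a, s (ψ a) = ψ a)
    (x : ↥(FK (M' * r) K)) :
    galFH M' s hs (incl (FK (M' * r) K) (thetaInfK K ψ) x) =
      incl (FK (M' * r) K) (thetaInfK K ψ)
        (arithmeticRingAut (modularFunctionFieldFull (M' * r)) s x) := by
  apply Subtype.ext
  rw [coe_galFH, coe_incl, coe_incl, coe_arithmeticRingAut_apply]

theorem galFH_theta {ψ : MulChar (ZMod r) ↥K} (s : ↥K ≃ₐ[ℚ] ↥K) (hs : ∀ a, s (ψ a) = ψ a) :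
    galFH M' s hs (thetaA (FK (M' * r) K) (thetaInfK K ψ)) =
      thetaA (FK (M' * r) K) (thetaInfK K ψ) :=
  Subtype.ext (coeffMap_thetaInfK_of_fixed _ hs)

/-- **the Galois twist of `B_ψ`**: `s ζ = ζ^t`, `s` fixing the values of `ψ` ⇒ `s(B_ψ) = ψ(t) B_ψ`. -/
theorem map_Bpsi_of_fixed {ζ : ↥K} (hζ : ζ ^ r = 1) {ψ : MulChar (ZMod r) ↥K} (hψ : ψ ≠ 1)
    (s : ↥K →+* ↥K) (hs : ∀ a, s (ψ a) = ψ a) (t : ℕ) (ht : (t : ZMod r) ≠ 0)
    (hst : s ζ = ζ ^ t) :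
    (Bpsi hζ ψ).map s = PowerSeries.C (ψ (t : ZMod r)) * Bpsi hζ ψ := by
  refine PowerSeries.ext fun N => ?_
  rw [PowerSeries.coeff_map, PowerSeries.coeff_C_mul, Bpsi, PowerSeries.coeff_mk]
  split_ifs
  · exact Fermat.Agent.M43.EisPsiAlg6.map_c0psi hζ s hs t ht hst
  · simp only [map_mul, map_sum, map_pow, map_natCast, map_ofNat, hs,
      Fermat.Agent.M43.EisPsiAlg6.map_tau hζ hψ s hs t hst]
    ring

/-- **the Galois twist of `Θ₂`**: `s(Θ₂) = ψ(t) Θ₂`. -/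
theorem coeffMap_theta2K_of_fixed {ζ : ↥K} (hζ : ζ ^ r = 1) {ψ : MulChar (ZMod r) ↥K}
    (hψ : ψ ≠ 1) (heven : ψ (-1) = 1)
    (s : ↥K →+* ↥K) (hs : ∀ a, s (ψ a) = ψ a) (t : ℕ) (ht : (t : ZMod r) ≠ 0)
    (hst : s ζ = ζ ^ t) :
    coeffMap s (theta2K M' ζ ψ) =
      algebraMap ↥K (LaurentSeries ↥K) (ψ (t : ZMod r)) * theta2K M' ζ ψ := by
  rw [theta2K, Fermat.Agent.X0.CuspGood.coeffMap_qExpand, thetaExp_S hζ hψ heven,
    Fermat.Agent.X0.coeffMap_laurentOf, map_mul, map_mul, PowerSeries.map_C,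
    map_Bpsi_of_fixed hζ hψ s hs t ht hst, PowerSeries.map_expand, map_etaUInv, map_inv₀, map_pow,
    map_natCast]
  have e : PowerSeries.C (((r : ↥K) ^ 12)⁻¹) * (PowerSeries.C (ψ (t : ZMod r)) * Bpsi hζ ψ) *
      (PowerSeries.expand r (NeZero.ne r)) (etaUInv ↥K) =
      PowerSeries.C (ψ (t : ZMod r)) * (PowerSeries.C (((r : ↥K) ^ 12)⁻¹) * Bpsi hζ ψ *
      (PowerSeries.expand r (NeZero.ne r)) (etaUInv ↥K)) := by ring
  rw [e, ← algebraMap_mul_laurentOf]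
  have hq : algebraMap ↥K (LaurentSeries ↥K) (ψ (t : ZMod r)) =
      qExpand ↥K M' (algebraMap ↥K (LaurentSeries ↥K) (ψ (t : ZMod r))) := by
    rw [algebraMap_laurentSeries_eq_single, qExpand_single, mul_zero]
  rw [map_mul, ← hq]

theorem psi_pow_eq_one {ψ : MulChar (ZMod r) ↥K} {n : ℕ} (hn : ψ ^ n = 1) {a : ZMod r}
    (ha : a ≠ 0) : ψ a ^ n = 1 := by
  obtain ⟨u, rfl⟩ := isUnit_iff_ne_zero.2 ha
  rw [← MulChar.pow_apply_coe, hn, MulChar.one_apply_coe]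

/-- **THE RULE `σ̃ ∘ ι₂' = ι₂' ∘ (δ σ̃)`**: for `s ∈ Aut(K/ℚ)` fixing the values of `ψ` with
`s ζ_r = ζ_r^t`, the coefficientwise action of `s` on the SECOND expansion of `x ∈ F'_K` is the
second expansion of `δ_{ψ(t)} (σ̃ x)`, `δ_c : Θ ↦ c Θ` the deck transformation. -/
theorem iota2'_gal {ψ : MulChar (ZMod r) ↥K} {n : ℕ} {heven : ψ (-1) = 1} {hn : ψ ^ n = 1}
    (hirr : Irreducible (X ^ n - C (uK M' heven hn) : (↥(FK (M' * r) K))[X]))
    {ζ : ↥K} (hζK : algebraMap ↥K Qbar ζ = zetaK r) (hψ : ψ ≠ 1)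
    (s : ↥K ≃ₐ[ℚ] ↥K) (hs : ∀ a, s (ψ a) = ψ a) (t : ℕ) (ht : (t : ZMod r) ≠ 0)
    (hst : s ζ = ζ ^ t) (x : ↥(FH M' ψ)) :
    coeffMap (s : ↥K →+* ↥K) (iota2' M' hirr hζK hψ x) =
      iota2' M' hirr hζK hψ
        (rootMul hirr (coe_uK M' heven hn).symm (ψ (t : ZMod r)) (psi_pow_eq_one hn ht)
          (galFH M' s hs x)) := by
  have hζ : ζ ^ r = 1 := by
    apply (algebraMap ↥K Qbar).injective
    rw [map_pow, hζK, map_one]
    exact zetaK_pow_self r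
  set δ := rootMul hirr (coe_uK M' heven hn).symm (ψ (t : ZMod r)) (psi_pow_eq_one hn ht) with hδ
  have key : (coeffMap (s : ↥K →+* ↥K)).comp (iota2' M' hirr hζK hψ) =
      (iota2' M' hirr hζK hψ).comp ((δ : ↥(FH M' ψ) →+* ↥(FH M' ψ)).comp
        (galFH M' s hs : ↥(FH M' ψ) →+* ↥(FH M' ψ))) := by
    apply ringHom_ext hirr (hroot_kummer (coe_uK M' heven hn).symm)
    · intro y
      show coeffMap (s : ↥K →+* ↥K) (iota2' M' hirr hζK hψ (incl _ _ y)) =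
        iota2' M' hirr hζK hψ (δ (galFH M' s hs (incl _ _ y)))
      rw [iota2'_incl, galFH_incl, hδ, rootMul_incl, iota2'_incl, iotaTwo_apply, iotaTwo_apply,
        frickeFK_arithmeticRingAut, coe_arithmeticRingAut_apply]
    · show coeffMap (s : ↥K →+* ↥K) (iota2' M' hirr hζK hψ (thetaA _ _)) =
        iota2' M' hirr hζK hψ (δ (galFH M' s hs (thetaA _ _)))
      rw [iota2'_theta, galFH_theta, hδ, rootMul_theta, map_mul, iota2'_theta,
        coeffMap_theta2K_of_fixed M' hζ hψ heven _ hs t ht hst]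
      congr 1
      have : algebraMap ↥K ↥(FH M' ψ) (ψ (t : ZMod r)) =
          incl (FK (M' * r) K) (thetaInfK K ψ) (algebraMap ↥K ↥(FK (M' * r) K) (ψ (t : ZMod r))) :=
        rfl
      rw [this, iota2'_incl, iotaTwo_algebraMap, HahnSeries.C_apply,
        algebraMap_laurentSeries_eq_single]
  exact RingHom.congr_fun key x

end Galois

end Fermat.Agent.M43.ThetaFieldK8
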