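/-
Programme M43, chapter (LG-q), Stage 1, block [S1-B] (helper8), file 1: **the Gauss data of the
Kummer function `u_K = θ_ψ^(p^k) ∈ FK (M' r) K` in N34's vocabulary** (`ModelDefs9.O1`, `O2`,
`GaussGen8.gaussRing`), over EVERY intermediate field `K` of `ℚbar / ℚ` containing the values of
`ψ` (no root of unity `ζ_r` needed: e.g. the inertial field `K₀`).

* `unit_of_isPrim` : an element of `FK N K` whose series over `ℚbar` is `q^{-m} P`, `P` primitive
  over `A`, is a unit of the Gauss ring of `AK A K` (bridge from the `A`-integral vocabulary of T33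
  / M43 to N34's Gauss rings: `ChartIntegralA1.exists_embK_of_baseChangeHom`);
* `uK_mem_O1`, `uK_inv_mem_O1` : `u_K ∈ O1^×`;
* `exists_const_O2` : there are `c₂ ∈ K^×` and `b : ℤ` PRIME TO `p` with `c₂ / r^b` a unit of `A`
  and `c₂⁻¹ u_K ∈ O2^×`.
-/
import Mathlib
import Fermat.Agent.M43.ThetaFieldK8
import Fermat.Agent.ES.N34.ModelDefs9
import Fermat.Agent.ES.RED.ChartIntegralA1
import Fermat.Agent.ES.RED.GaussUnit25

set_option autoImplicit false
set_option linter.unusedSectionVars false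
set_option linter.style.haveILetI false
set_option linter.unusedVariables false
set_option synthInstance.maxHeartbeats 400000

open ModularCurve AlgebraicCurve Polynomial

noncomputable section

namespace Fermat.Agent.M43.GaussDataK8

local notation "Qbar" => AlgebraicClosure ℚ

open Fermat.Agent.X0 Fermat.Agent.RED.Interface4 Fermat.Agent.RED.DESC.PlaceExtend27
open Fermat.Agent.RED.DESC.NumberFieldDVR27
open Fermat.Agent.RED.PUR.GaussGen8 Fermat.Agent.ES.RED Fermat.Agent.ES.N34.ModelDefs9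
open Fermat.Agent.ES.N34.FrickeFK8
open Fermat.Agent.M43.PrimSeries6 Fermat.Agent.M43.FrickeBridge8 Fermat.Agent.M43.EisPsi6
open Fermat.Agent.M43.EisPsiPack6 Fermat.Agent.M43.ThetaGauss8 Fermat.Agent.M43.IgusaSlope8
open Fermat.Agent.M43.ThetaFieldK8 Fermat.Agent.T33.NodalHalf4 Fermat.Agent.U44.GaussRed3

variable {K : IntermediateField ℚ Qbar} (A : ValuationSubring Qbar)

/-! ### the bridge: primitive series over `A` give units of N34's Gauss ring -/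

/-- **an element of `FK N K` whose series over `ℚbar` is `q^{-m} P` with `P` primitive over `A`
lies in the Gauss ring of `AK A K` and its Gauss reduction is nonzero.** -/
theorem unit_of_isPrim (N : ℕ) [NeZero N] (x : ↥(FK N K)) {m : ℕ} {P : PowerSeries Qbar}
    (hP : IsPrim A P)
    (hx : coeffMap (algebraMap ↥K Qbar) ((x : ↥(FK N K)) : LaurentSeries ↥K) = laurentOf m P) :
    ∃ hmem : ((x : ↥(FK N K)) : LaurentSeries ↥K) ∈ gaussRing (AK A K),
      gaussRed (AK A K) ⟨_, hmem⟩ ≠ 0 := by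
  set PA := seriesA A P hP.1 with hPA
  have hY : coeffMap A.subtype (laurentOf m PA) =
      ((baseChangeHom N K x : Fbar N) : LaurentSeries Qbar) := by
    rw [Fermat.Agent.X0.coeffMap_laurentOf, map_seriesA, coe_baseChangeHom, hx]
  obtain ⟨Y₀, hY₀, hYY⟩ := ChartIntegralA1.exists_embK_of_baseChangeHom A N K x (laurentOf m PA) hY
  have hmem : ((x : ↥(FK N K)) : LaurentSeries ↥K) ∈ gaussRing (AK A K) := by
    rw [← hY₀]
    exact embK_mem (AK A K) Y₀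
  refine ⟨hmem, ?_⟩
  have e : (⟨((x : ↥(FK N K)) : LaurentSeries ↥K), hmem⟩ : gaussRing (AK A K)) =
      ⟨embK (AK A K) Y₀, embK_mem (AK A K) Y₀⟩ := Subtype.ext hY₀.symm
  rw [e, gaussRed_embK]
  intro h0
  have h1 := GaussUnit25.coeffMap_residue_incl A K Y₀
  rw [h0, map_zero, hYY, Fermat.Agent.X0.coeffMap_laurentOf, laurentOf_eq_zero_iff] at h1
  obtain ⟨k, hk⟩ := hP.2
  have h2 := congrArg (PowerSeries.coeff k) h1
  rw [PowerSeries.coeff_map, map_zero, hPA, seriesA, PowerSeries.coeff_mk,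
    IsLocalRing.residue_eq_zero_iff, A.valuation_lt_one_iff] at h2
  exact absurd hk (ne_of_lt h2)

/-- the same, as membership of `x` and `x⁻¹` in the Gauss ring. -/
theorem mem_and_inv_mem_of_isPrim (N : ℕ) [NeZero N] (x : ↥(FK N K)) {m : ℕ}
    {P : PowerSeries Qbar} (hP : IsPrim A P)
    (hx : coeffMap (algebraMap ↥K Qbar) ((x : ↥(FK N K)) : LaurentSeries ↥K) = laurentOf m P) :
    ((x : ↥(FK N K)) : LaurentSeries ↥K) ∈ gaussRing (AK A K) ∧
      ((x⁻¹ : ↥(FK N K)) : LaurentSeries ↥K) ∈ gaussRing (AK A K) := by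
  obtain ⟨hmem, hne⟩ := unit_of_isPrim A N x hP hx
  refine ⟨hmem, ?_⟩
  have := inv_mem_of_gaussRed_ne_zero (AK A K) ⟨_, hmem⟩ hne
  exact this

/-! ### the Kummer function -/

variable {A}
variable {r M' : ℕ} [NeZero M'] [NeZero r] [Fact r.Prime]

/-- the series of `u_K` over `ℚbar`. -/
theorem coeffMap_uK {ψ : MulChar (ZMod r) ↥K} (heven : ψ (-1) = 1) {n : ℕ} (hn : ψ ^ n = 1) :
    coeffMap (algebraMap ↥K Qbar) ((uK M' heven hn : ↥(FK (M' * r) K)) : LaurentSeries ↥K) =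
      laurentOf (1 * n) ((EisPsiInf6.Apsi (psiBar K ψ) *
        Fermat.Agent.IG.AN.DeltaAffine11.etaUInv Qbar) ^ n) := by
  rw [← coe_baseChangeHom, baseChangeHom_uK, coe_uTheta]

/-- **`u_K ∈ O1`.** -/
theorem uK_mem_O1 (h : LevelHyp r M' A) {π : ↥(AK A K)} (hπ : IsUnif (AK A K) π)
    (hE : FK (M' * r) K ≤ fracField (AK A K)) {ψ : MulChar (ZMod r) ↥K} (heven : ψ (-1) = 1)
    {n : ℕ} (hn : ψ ^ n = 1) : uK M' heven hn ∈ O1 M' r hπ hE := by
  rw [mem_O1_iff]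
  exact (mem_and_inv_mem_of_isPrim A (M' * r) (uK M' heven hn)
    (((isPrim_Apsi h.liesOver h.ne_two (psiBar K ψ)).mul isPrim_etaUInv).pow n)
    (coeffMap_uK heven hn)).1

/-- **`u_K⁻¹ ∈ O1`.** -/
theorem uK_inv_mem_O1 (h : LevelHyp r M' A) {π : ↥(AK A K)} (hπ : IsUnif (AK A K) π)
    (hE : FK (M' * r) K ≤ fracField (AK A K)) {ψ : MulChar (ZMod r) ↥K} (heven : ψ (-1) = 1)
    {n : ℕ} (hn : ψ ^ n = 1) : (uK M' heven hn)⁻¹ ∈ O1 M' r hπ hE := by
  rw [mem_O1_iff]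
  exact (mem_and_inv_mem_of_isPrim A (M' * r) (uK M' heven hn)
    (((isPrim_Apsi h.liesOver h.ne_two (psiBar K ψ)).mul isPrim_etaUInv).pow n)
    (coeffMap_uK heven hn)).2

/-- the series over `ℚbar` of the Fricke expansion of `u_K`. -/
theorem coeffMap_iota2_uK {ψ : MulChar (ZMod r) ↥K} (heven : ψ (-1) = 1) {n : ℕ}
    (hn : ψ ^ n = 1) :
    coeffMap (algebraMap ↥K Qbar) (iota2 K M' r (uK M' heven hn)) =
      qExpand Qbar M' ((thetaExp (zetaK r) (psiBar K ψ) ModularGroup.S) ^ n) := by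
  show coeffMap (algebraMap ↥K Qbar) (iotaTwo (M' * r) K (uK M' heven hn)) = _
  rw [coeffMap_iotaTwo, baseChangeHom_uK, ← coe_frickeBar,
    coe_frickeBar_uTheta M' (psiBar_even heven) (psiBar_pow hn)]

set_option maxHeartbeats 1600000 in
/-- **the constant of `u_K` on the Fricke side**: there are `c₂ ∈ K^×` and an integer `b` PRIME TO
`p` such that `c₂ / r^b` is a unit of `A` and `c₂⁻¹ u_K` is a unit of `O2`. -/
theorem exists_const_O2 (h : LevelHyp r M' A) {π : ↥(AK A K)} (hπ : IsUnif (AK A K) π)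
    (hE : FK (M' * r) K ≤ fracField (AK A K)) {ψ : MulChar (ZMod r) ↥K} (heven : ψ (-1) = 1)
    {p : ℕ} (hp : p.Prime) (k : ℕ) (hk : 1 ≤ k) (hord : orderOf ψ = p ^ k)
    (hn : ψ ^ (p ^ k) = 1) :
    ∃ (c₂ : ↥K) (b : ℤ), c₂ ≠ 0 ∧ ¬ (p : ℤ) ∣ b ∧
      AUnit A ((algebraMap ↥K Qbar c₂) / (r : Qbar) ^ b) ∧
      algebraMap ↥K ↥(FK (M' * r) K) c₂⁻¹ * uK M' heven hn ∈ O2 M' r hπ hE ∧
      (algebraMap ↥K ↥(FK (M' * r) K) c₂⁻¹ * uK M' heven hn)⁻¹ ∈ O2 M' r hπ hE := by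
  have hr : r.Prime := Fact.out
  have hr0 : (r : Qbar) ≠ 0 := Nat.cast_ne_zero.mpr hr.ne_zero
  obtain ⟨b, w, Q, hpb, hw, hQ, hS⟩ := exists_thetaExp_S_pow' h.liesOver h.ne_two
    (isPrimitiveRoot_zetaK r) (psiBar_even heven) hp k hk ((orderOf_psiBar ψ).trans hord)
  have hrb : (r : Qbar) ^ b ≠ 0 := zpow_ne_zero _ hr0
  set Q' := PowerSeries.expand M' (NeZero.ne M') Q with hQ'
  have hQ'p : IsPrim A Q' := hQ.expand M' (NeZero.ne M')
  obtain ⟨k₀, hk₀⟩ := hQ'p.2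
  set m' : ℕ := r * p ^ k * M' with hm'
  -- the series of `ι₂ u_K`
  have hser : coeffMap (algebraMap ↥K Qbar) (iota2 K M' r (uK M' heven hn)) =
      laurentOf m' (PowerSeries.C (w * (r : Qbar) ^ b) * Q') := by
    rw [coeffMap_iota2_uK heven hn, hS, qExpand_laurentOf, map_mul, PowerSeries.expand_C]
  -- the constant
  set j : ℤ := (k₀ : ℤ) - (m' : ℤ) with hj
  set c₂ : ↥K := (iota2 K M' r (uK M' heven hn)).coeff j with hc₂
  have hq0 : PowerSeries.coeff k₀ Q' ≠ 0 := by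
    intro h0
    rw [h0, map_zero] at hk₀
    exact zero_ne_one hk₀
  have hc₂Q : algebraMap ↥K Qbar c₂ = w * (r : Qbar) ^ b * PowerSeries.coeff k₀ Q' := by
    have h1 := congrArg (fun z => HahnSeries.coeff z j) hser
    simp only [coeffMap_coeff] at h1
    rw [hc₂]
    refine h1.trans ?_
    rw [Fermat.Agent.X0.laurentOf_coeff, if_pos (by rw [hj]; omega)]
    have : (j + (m' : ℤ)).toNat = k₀ := by rw [hj]; omega
    rw [this, PowerSeries.coeff_C_mul]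
  have hcQ0 : algebraMap ↥K Qbar c₂ ≠ 0 := by
    rw [hc₂Q]
    exact mul_ne_zero (mul_ne_zero hw.2.2 hrb) hq0
  have hc₂0 : c₂ ≠ 0 := fun h0 => hcQ0 (by rw [h0, map_zero])
  have hqu : AUnit A (PowerSeries.coeff k₀ Q') := aunit_of_valuation_eq_one hk₀
  refine ⟨c₂, b, hc₂0, hpb, ?_, ?_⟩
  · rw [hc₂Q]
    have : w * (r : Qbar) ^ b * PowerSeries.coeff k₀ Q' / (r : Qbar) ^ b =
        w * PowerSeries.coeff k₀ Q' := by
      field_simp
    rw [this]
    exact hw.mul hqu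
  -- the Fricke transform of `c₂⁻¹ u_K`
  set x₂ : ↥(FK (M' * r) K) := algebraMap ↥K ↥(FK (M' * r) K) c₂⁻¹ * uK M' heven hn with hx₂
  have hP : IsPrim A (PowerSeries.C (PowerSeries.coeff k₀ Q')⁻¹ * Q') :=
    hQ'p.C_mul (by rw [map_inv₀, hk₀, inv_one])
  have hy : coeffMap (algebraMap ↥K Qbar)
      ((wN K M' r x₂ : ↥(FK (M' * r) K)) : LaurentSeries ↥K) =
      laurentOf m' (PowerSeries.C (PowerSeries.coeff k₀ Q')⁻¹ * Q') := by
    rw [← iota2_apply, hx₂]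
    show coeffMap (algebraMap ↥K Qbar) (iotaTwo (M' * r) K (_ * _)) = _
    rw [map_mul, iotaTwo_algebraMap, map_mul]
    have h2 : coeffMap (algebraMap ↥K Qbar) (HahnSeries.C c₂⁻¹ : LaurentSeries ↥K) =
        HahnSeries.C (algebraMap ↥K Qbar c₂)⁻¹ := by
      rw [Fermat.Agent.RED.PUR.GaussGen8.coeffMap_C, map_inv₀]
    have h3 : coeffMap (algebraMap ↥K Qbar) (iotaTwo (M' * r) K (uK M' heven hn)) =
        laurentOf m' (PowerSeries.C (w * (r : Qbar) ^ b) * Q') := hser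
    rw [h2, h3, hc₂Q]
    have h4 : (HahnSeries.C (w * (r : Qbar) ^ b * PowerSeries.coeff k₀ Q')⁻¹ : LaurentSeries Qbar) =
        algebraMap Qbar (LaurentSeries Qbar) (w * (r : Qbar) ^ b * PowerSeries.coeff k₀ Q')⁻¹ := by
      rw [Fermat.Agent.RED.PUR.GaussGen8.algebraMap_eq_C]
    rw [h4, algebraMap_mul_laurentOf, ← mul_assoc, ← map_mul PowerSeries.C]
    congr 3
    have hw0 : w ≠ 0 := hw.2.2
    field_simp
  have hres := mem_and_inv_mem_of_isPrim A (M' * r) (wN K M' r x₂) hP hy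
  constructor
  · rw [mem_O2_iff_wN_mem_O1, mem_O1_iff]
    exact hres.1
  · rw [mem_O2_iff_wN_mem_O1, mem_O1_iff, map_inv₀]
    exact hres.2

set_option maxHeartbeats 1600000 in
/-- the same with the constant written `c₂ = ε r^b`, `ε` a unit of `AK A K`. -/
theorem exists_const_O2' (h : LevelHyp r M' A) {π : ↥(AK A K)} (hπ : IsUnif (AK A K) π)
    (hE : FK (M' * r) K ≤ fracField (AK A K)) {ψ : MulChar (ZMod r) ↥K} (heven : ψ (-1) = 1)
    {p : ℕ} (hp : p.Prime) (k : ℕ) (hk : 1 ≤ k) (hord : orderOf ψ = p ^ k)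
    (hn : ψ ^ (p ^ k) = 1) :
    ∃ (ε : ↥K) (b : ℤ), ε ≠ 0 ∧ ε ∈ AK A K ∧ ε⁻¹ ∈ AK A K ∧ ¬ (p : ℤ) ∣ b ∧
      algebraMap ↥K ↥(FK (M' * r) K) (ε * (r : ↥K) ^ b)⁻¹ * uK M' heven hn ∈ O2 M' r hπ hE ∧
      (algebraMap ↥K ↥(FK (M' * r) K) (ε * (r : ↥K) ^ b)⁻¹ * uK M' heven hn)⁻¹ ∈
        O2 M' r hπ hE := by
  have hr : r.Prime := Fact.out
  have hr0 : (r : ↥K) ≠ 0 := Nat.cast_ne_zero.mpr hr.ne_zero
  obtain ⟨c₂, b, hc0, hpb, hu, h1, h2⟩ := exists_const_O2 h hπ hE heven hp k hk hord hn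
  have hrb : (r : ↥K) ^ b ≠ 0 := zpow_ne_zero _ hr0
  have hcast : algebraMap ↥K Qbar (c₂ / (r : ↥K) ^ b) =
      algebraMap ↥K Qbar c₂ / (r : Qbar) ^ b := by
    rw [map_div₀, map_zpow₀, map_natCast]
  have e : (c₂ / (r : ↥K) ^ b) * (r : ↥K) ^ b = c₂ := div_mul_cancel₀ _ hrb
  refine ⟨c₂ / (r : ↥K) ^ b, b, div_ne_zero hc0 hrb, ?_, ?_, hpb, ?_, ?_⟩
  · rw [mem_AK_iff]
    show algebraMap ↥K Qbar (c₂ / (r : ↥K) ^ b) ∈ A
    rw [hcast]
    exact hu.1
  · rw [mem_AK_iff]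
    show algebraMap ↥K Qbar (c₂ / (r : ↥K) ^ b)⁻¹ ∈ A
    rw [map_inv₀, hcast]
    exact hu.2.1
  · rw [e]; exact h1
  · rw [e]; exact h2

end Fermat.Agent.M43.GaussDataK8
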