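/-
Programme M43, chapter (LG-q), Stage 1, block [S1-B] (helper8), file 2: **the two Gauss valuation
rings `O1'`, `O2'` of the Kummer cover `F'_K = FH M' ψ`** (N34 vocabulary, base ring `R = AK A K`),
with the inputs (EXT_j), (UNR_j) of helper9's `KLift9.glueOut_lift`.

* `gaussUnit_of_isPrim` : a series over `K` whose image over `ℚbar` is `q^{-m} P`, `P` primitive
  over `A`, is a unit of the Gauss ring of `AK A K`;
* `thetaInfK_unit` : `Θ` is a unit of the Gauss ring; `exists_theta2_const` : `Θ₂ = γ · (unit of the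
  Gauss ring)`, `γ ∈ K^×`;
* `FH_le_fracField`, `iota2'_mem_fracField`;
* `O1' := gaussVS hπ (FH M' ψ) _`, `O2' := {x | ι₂' x ∈ gaussRing}` (valuation subrings of `F'_K`),
  `iota1Alg`, `iota2Alg` (the two expansions as `K`-algebra maps), `isGaussPullback_O1'/_O2'`;
* (EXT_j) `algebraMap_mem_O1'_iff`, `algebraMap_mem_O2'_iff`;
* (UNR_j) `unr_O1'`, `unr_O2'`.
-/
import Mathlib
import Fermat.Agent.M43.GaussDataK8
import Fermat.Agent.M43.ThetaDeltaK8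
import Fermat.Agent.ES.N34.GaussEmb22

set_option autoImplicit false
set_option linter.unusedSectionVars false
set_option linter.style.haveILetI false
set_option linter.unusedVariables false
set_option synthInstance.maxHeartbeats 400000

open ModularCurve AlgebraicCurve Polynomial

noncomputable section

namespace Fermat.Agent.M43.GaussUp8

local notation "Qbar" => AlgebraicClosure ℚ

open Fermat.Agent.X0 Fermat.Agent.RED.Interface4 Fermat.Agent.RED.DESC.PlaceExtend27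
open Fermat.Agent.RED.DESC.NumberFieldDVR27
open Fermat.Agent.RED.PUR.GaussGen8 Fermat.Agent.ES.RED Fermat.Agent.ES.N34.ModelDefs9
open Fermat.Agent.ES.N34.FrickeFK8 Fermat.Agent.ES.N34.GaussEmb22
open Fermat.Agent.M43.PrimSeries6 Fermat.Agent.M43.FrickeBridge8 Fermat.Agent.M43.EisPsi6
open Fermat.Agent.M43.EisPsiAlg6 Fermat.Agent.M43.EisPsiInf6
open Fermat.Agent.M43.EisPsiPack6 Fermat.Agent.M43.ThetaGauss8 Fermat.Agent.M43.IgusaSlope8
open Fermat.Agent.M43.FieldBridge8 Fermat.Agent.IG.AN.DeltaAffine11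
open Fermat.Agent.M43.KummerAdj8 Fermat.Agent.M43.KummerGal8
open Fermat.Agent.M43.ThetaFieldK8 Fermat.Agent.M43.ThetaDeltaK8 Fermat.Agent.M43.GaussDataK8
open Fermat.Agent.T33.NodalHalf4 Fermat.Agent.U44.GaussRed3

variable {K : IntermediateField ℚ Qbar} (A : ValuationSubring Qbar)

/-! ### primitive series are units of the Gauss ring -/

/-- **a series over `K` whose image over `ℚbar` is `q^{-m} P`, `P` primitive over `A`, is a unit of
the Gauss ring of `AK A K`.** -/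
theorem gaussUnit_of_isPrim (f : LaurentSeries ↥K) {m : ℕ} {P : PowerSeries Qbar}
    (hP : IsPrim A P) (hf : coeffMap (algebraMap ↥K Qbar) f = laurentOf m P) :
    ∃ hmem : f ∈ gaussRing (AK A K), gaussRed (AK A K) ⟨f, hmem⟩ ≠ 0 := by
  set PA := seriesA A P hP.1 with hPA
  have hc : ∀ n : ℤ, f.coeff n ∈ Set.range ((AK A K).subtype : ↥(AK A K) →+* ↥K) := by
    intro n
    refine ⟨⟨f.coeff n, ?_⟩, rfl⟩
    rw [mem_AK_iff]
    have h1 := congrArg (fun z => HahnSeries.coeff z n) hf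
    simp only [coeffMap_coeff] at h1
    show algebraMap ↥K Qbar (f.coeff n) ∈ A
    rw [h1, Fermat.Agent.X0.laurentOf_coeff]
    split_ifs
    · exact (A.valuation_le_one_iff _).1 (hP.1 _)
    · exact A.zero_mem
  obtain ⟨Y₀, hY₀⟩ := Fermat.Agent.RED.DESC.UnifDescent14.exists_coeffMap_eq
    ((AK A K).subtype : ↥(AK A K) →+* ↥K) Subtype.val_injective f hc
  have hY₀' : embK (AK A K) Y₀ = f := hY₀
  have hYY : coeffMap (incl A K) Y₀ = laurentOf m PA := by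
    apply ChartIntegralA1.coeffMap_subtype_injective A
    rw [GaussUnit25.coeffMap_subtype_incl, hY₀', hf, Fermat.Agent.X0.coeffMap_laurentOf,
      map_seriesA]
  have hmem : f ∈ gaussRing (AK A K) := by
    rw [← hY₀']
    exact embK_mem (AK A K) Y₀
  refine ⟨hmem, ?_⟩
  have e : (⟨f, hmem⟩ : gaussRing (AK A K)) =
      ⟨embK (AK A K) Y₀, embK_mem (AK A K) Y₀⟩ := Subtype.ext hY₀'.symm
  rw [e, gaussRed_embK]
  intro h0
  have h1 := GaussUnit25.coeffMap_residue_incl A K Y₀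
  rw [h0, map_zero, hYY, Fermat.Agent.X0.coeffMap_laurentOf, laurentOf_eq_zero_iff] at h1
  obtain ⟨k, hk⟩ := hP.2
  have h2 := congrArg (PowerSeries.coeff k) h1
  rw [PowerSeries.coeff_map, map_zero, hPA, seriesA, PowerSeries.coeff_mk,
    IsLocalRing.residue_eq_zero_iff, A.valuation_lt_one_iff] at h2
  exact absurd hk (ne_of_lt h2)

theorem mem_and_inv_mem_of_isPrim' (f : LaurentSeries ↥K) {m : ℕ} {P : PowerSeries Qbar}
    (hP : IsPrim A P) (hf : coeffMap (algebraMap ↥K Qbar) f = laurentOf m P) :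
    f ∈ gaussRing (AK A K) ∧ f⁻¹ ∈ gaussRing (AK A K) := by
  obtain ⟨hmem, hne⟩ := gaussUnit_of_isPrim A f hP hf
  exact ⟨hmem, inv_mem_of_gaussRed_ne_zero (AK A K) ⟨_, hmem⟩ hne⟩

variable {A}
variable {r M' : ℕ} [NeZero M'] [NeZero r] [Fact r.Prime]

/-- **`Θ` is a unit of the Gauss ring.** -/
theorem thetaInfK_unit (hA : A.LiesOverPrime r) (hr2 : r ≠ 2) (ψ : MulChar (ZMod r) ↥K) :
    ∃ hmem : thetaInfK K ψ ∈ gaussRing (AK A K), gaussRed (AK A K) ⟨_, hmem⟩ ≠ 0 :=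
  gaussUnit_of_isPrim A (thetaInfK K ψ)
    ((isPrim_Apsi hA hr2 (psiBar K ψ)).mul isPrim_etaUInv)
    (by rw [coeffMap_thetaInfK]; rfl)

set_option maxHeartbeats 1600000 in
/-- **`Θ₂ = γ · (unit of the Gauss ring)`, `γ ∈ K^×`.** -/
theorem exists_theta2_const (hA : A.LiesOverPrime r) (hr2 : r ≠ 2) (M' : ℕ) [NeZero M'] {ζ : ↥K}
    (hζK : algebraMap ↥K Qbar ζ = zetaK r) {ψ : MulChar (ZMod r) ↥K} (hψ : ψ ≠ 1)
    (heven : ψ (-1) = 1) :
    ∃ γ : ↥K, γ ≠ 0 ∧ ∃ hmem : HahnSeries.C γ⁻¹ * theta2K M' ζ ψ ∈ gaussRing (AK A K),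
      gaussRed (AK A K) ⟨_, hmem⟩ ≠ 0 := by
  have hr : r.Prime := Fact.out
  have hr0 : (r : Qbar) ≠ 0 := Nat.cast_ne_zero.mpr hr.ne_zero
  have hζ : ζ ^ r = 1 := by
    apply (algebraMap ↥K Qbar).injective
    rw [map_pow, hζK, map_one]
    exact zetaK_pow_self r
  have hψ' : psiBar K ψ ≠ 1 := by
    intro h1
    apply hψ
    have h2 := orderOf_psiBar ψ
    rw [h1, orderOf_one] at h2
    exact orderOf_eq_one_iff.1 h2.symm
  have hprim := isPrimitiveRoot_zetaK r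
  obtain ⟨n', P, -, hPi, hPu, hB⟩ := exists_Bpsi_eq hA hr2 hprim hψ'
  set τ := tau hprim.pow_eq_one (psiBar K ψ) with hτ
  have hτ0 : τ ≠ 0 := tau_ne_zero hprim hψ'
  set E := (etaUInv Qbar).expand r (NeZero.ne r) with hE
  have hPE : IsPrim A (P * E) := IsPrim.mul ⟨hPi, hPu⟩ (isPrim_etaUInv_expand r _)
  set Q' := PowerSeries.expand M' (NeZero.ne M') (P * E) with hQ'
  have hQ'p : IsPrim A Q' := hPE.expand M' (NeZero.ne M')
  obtain ⟨k₀, hk₀⟩ := hQ'p.2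
  set γ₀ : Qbar := ((r : Qbar) ^ 12)⁻¹ * (τ * (r : Qbar) ^ n') with hγ₀
  have hγ₀0 : γ₀ ≠ 0 :=
    mul_ne_zero (inv_ne_zero (pow_ne_zero _ hr0)) (mul_ne_zero hτ0 (zpow_ne_zero _ hr0))
  set m' : ℕ := r * M' with hm'
  have hser : coeffMap (algebraMap ↥K Qbar) (theta2K M' ζ ψ) =
      laurentOf m' (PowerSeries.C γ₀ * Q') := by
    rw [coeffMap_theta2K M' hζ hψ heven, hζK, thetaExp_S hprim.pow_eq_one hψ' (psiBar_even heven),
      hB, qExpand_laurentOf]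
    congr 1
    rw [hQ', hγ₀]
    simp only [map_mul, PowerSeries.expand_C]
    ring
  set j : ℤ := (k₀ : ℤ) - (m' : ℤ) with hj
  set γ : ↥K := (theta2K M' ζ ψ).coeff j with hγ
  have hq0 : PowerSeries.coeff k₀ Q' ≠ 0 := by
    intro h0
    rw [h0, map_zero] at hk₀
    exact zero_ne_one hk₀
  have hγQ : algebraMap ↥K Qbar γ = γ₀ * PowerSeries.coeff k₀ Q' := by
    have h1 := congrArg (fun z => HahnSeries.coeff z j) hser
    simp only [coeffMap_coeff] at h1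
    rw [hγ]
    refine h1.trans ?_
    rw [Fermat.Agent.X0.laurentOf_coeff, if_pos (by rw [hj]; omega)]
    have : (j + (m' : ℤ)).toNat = k₀ := by rw [hj]; omega
    rw [this, PowerSeries.coeff_C_mul]
  have hγQ0 : algebraMap ↥K Qbar γ ≠ 0 := by
    rw [hγQ]; exact mul_ne_zero hγ₀0 hq0
  have hγ0 : γ ≠ 0 := fun h0 => hγQ0 (by rw [h0, map_zero])
  refine ⟨γ, hγ0, ?_⟩
  have hP' : IsPrim A (PowerSeries.C (PowerSeries.coeff k₀ Q')⁻¹ * Q') :=
    hQ'p.C_mul (by rw [map_inv₀, hk₀, inv_one])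
  refine gaussUnit_of_isPrim A _ hP' (m := m') ?_
  rw [map_mul, Fermat.Agent.RED.PUR.GaussGen8.coeffMap_C, map_inv₀, hser, hγQ]
  have h4 : (HahnSeries.C (γ₀ * PowerSeries.coeff k₀ Q')⁻¹ : LaurentSeries Qbar) =
      algebraMap Qbar (LaurentSeries Qbar) (γ₀ * PowerSeries.coeff k₀ Q')⁻¹ := by
    rw [Fermat.Agent.RED.PUR.GaussGen8.algebraMap_eq_C]
  rw [h4, algebraMap_mul_laurentOf, ← mul_assoc, ← map_mul PowerSeries.C]
  congr 3
  field_simp

/-! ### `F'_K` inside `Frac O((q))` -/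

/-- `E(Θ) ≤ S` as soon as `E ≤ S` and `Θ ∈ S`. -/
theorem adj_le {L Ω : Type*} [Field L] [Field Ω] [Algebra L Ω] {E S : IntermediateField L Ω}
    {Θ : Ω} (hE : E ≤ S) (hΘ : Θ ∈ S) : adj E Θ ≤ S := by
  rw [adj, IntermediateField.adjoin_le_iff]
  rintro x (hx | hx)
  · exact hE hx
  · rw [Set.mem_singleton_iff] at hx
    rw [hx]
    exact hΘ

/-- **`F'_K ⊂ Frac O((q))`.** -/
theorem FH_le_fracField (hA : A.LiesOverPrime r) (hr2 : r ≠ 2) (M' : ℕ) [NeZero M']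
    (hE : FK (M' * r) K ≤ fracField (AK A K)) (ψ : MulChar (ZMod r) ↥K) :
    FH M' ψ ≤ fracField (AK A K) := by
  obtain ⟨hmem, -⟩ := thetaInfK_unit (A := A) hA hr2 ψ
  exact adj_le hE (gaussRing_le_fracField (AK A K) hmem)

variable {ψ : MulChar (ZMod r) ↥K} {n : ℕ} {heven : ψ (-1) = 1} {hn : ψ ^ n = 1}

/-- `Θ₂ ∈ Frac O((q))`. -/
theorem theta2K_mem_fracField (hA : A.LiesOverPrime r) (hr2 : r ≠ 2) (M' : ℕ) [NeZero M'] {ζ : ↥K}
    (hζK : algebraMap ↥K Qbar ζ = zetaK r) (hψ : ψ ≠ 1) (heven : ψ (-1) = 1) :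
    theta2K M' ζ ψ ∈ fracField (AK A K) := by
  obtain ⟨γ, hγ0, hmem, -⟩ := exists_theta2_const (A := A) hA hr2 M' hζK hψ heven
  have h1 : HahnSeries.C γ⁻¹ * theta2K M' ζ ψ ∈ fracField (AK A K) :=
    gaussRing_le_fracField (AK A K) hmem
  have h2 : (HahnSeries.C γ : LaurentSeries ↥K) ∈ fracField (AK A K) := by
    rw [← Fermat.Agent.RED.PUR.GaussGen8.algebraMap_eq_C]
    exact (fracField (AK A K)).algebraMap_mem γ
  have h3 := (fracField (AK A K)).mul_mem h2 h1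
  rwa [← mul_assoc, ← map_mul, mul_inv_cancel₀ hγ0, map_one, one_mul] at h3

/-- **`ι₂'(F'_K) ⊂ Frac O((q))`.** -/
theorem iota2'_mem_fracField (hA : A.LiesOverPrime r) (hr2 : r ≠ 2) (M' : ℕ) [NeZero M']
    (hE : FK (M' * r) K ≤ fracField (AK A K))
    (hirr : Irreducible (X ^ n - C (uK M' heven hn) : (↥(FK (M' * r) K))[X]))
    {ζ : ↥K} (hζK : algebraMap ↥K Qbar ζ = zetaK r) (hψ : ψ ≠ 1) (x : ↥(FH M' ψ)) :
    iota2' M' hirr hζK hψ x ∈ fracField (AK A K) := by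
  obtain ⟨a, ha⟩ := exists_repr_kummer hirr (coe_uK M' heven hn).symm x
  rw [ha, map_sum]
  refine Subring.sum_mem (fracField (AK A K)).toSubring fun j _ => ?_
  rw [map_mul, map_pow, iota2'_incl, iota2'_theta]
  refine (fracField (AK A K)).mul_mem ?_ ((fracField (AK A K)).pow_mem
    (theta2K_mem_fracField (A := A) hA hr2 M' hζK hψ heven) j)
  rw [iotaTwo_apply]
  exact hE (frickeFK (M' * r) K (a j)).2

/-! ### the two Gauss valuation rings of `F'_K` -/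

/-- **`O1'`**: the Gauss valuation ring of the expansion at `∞` of `F'_K`. -/
def O1' (hA : A.LiesOverPrime r) (hr2 : r ≠ 2) (M' : ℕ) [NeZero M'] {π : ↥(AK A K)}
    (hπ : IsUnif (AK A K) π) (hE : FK (M' * r) K ≤ fracField (AK A K))
    (ψ : MulChar (ZMod r) ↥K) : ValuationSubring ↥(FH M' ψ) :=
  gaussVS hπ (FH M' ψ) (FH_le_fracField hA hr2 M' hE ψ)

theorem mem_O1'_iff (hA : A.LiesOverPrime r) (hr2 : r ≠ 2) (M' : ℕ) [NeZero M'] {π : ↥(AK A K)}
    (hπ : IsUnif (AK A K) π) (hE : FK (M' * r) K ≤ fracField (AK A K))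
    (ψ : MulChar (ZMod r) ↥K) (x : ↥(FH M' ψ)) :
    x ∈ O1' hA hr2 M' hπ hE ψ ↔ ((x : ↥(FH M' ψ)) : LaurentSeries ↥K) ∈ gaussRing (AK A K) :=
  Iff.rfl

/-- **`O2'`**: the Gauss valuation ring of the Fricke expansion `ι₂'` of `F'_K`. -/
def O2' (hA : A.LiesOverPrime r) (hr2 : r ≠ 2) (M' : ℕ) [NeZero M'] {π : ↥(AK A K)}
    (hπ : IsUnif (AK A K) π) (hE : FK (M' * r) K ≤ fracField (AK A K))
    (hirr : Irreducible (X ^ n - C (uK M' heven hn) : (↥(FK (M' * r) K))[X]))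
    {ζ : ↥K} (hζK : algebraMap ↥K Qbar ζ = zetaK r) (hψ : ψ ≠ 1) :
    ValuationSubring ↥(FH M' ψ) where
  carrier := {x | iota2' M' hirr hζK hψ x ∈ gaussRing (AK A K)}
  mul_mem' := fun {a b} ha hb => by
    show iota2' M' hirr hζK hψ (a * b) ∈ gaussRing (AK A K)
    rw [map_mul]
    exact mul_mem ha hb
  one_mem' := by
    show iota2' M' hirr hζK hψ 1 ∈ gaussRing (AK A K)
    rw [map_one]
    exact one_mem _
  add_mem' := fun {a b} ha hb => by
    show iota2' M' hirr hζK hψ (a + b) ∈ gaussRing (AK A K)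
    rw [map_add]
    exact add_mem ha hb
  zero_mem' := by
    show iota2' M' hirr hζK hψ 0 ∈ gaussRing (AK A K)
    rw [map_zero]
    exact zero_mem _
  neg_mem' := fun {a} ha => by
    show iota2' M' hirr hζK hψ (-a) ∈ gaussRing (AK A K)
    rw [map_neg]
    exact neg_mem ha
  mem_or_inv_mem' := fun x => by
    have := mem_or_inv_mem hπ (iota2'_mem_fracField (A := A) hA hr2 M' hE hirr hζK hψ x)
    rcases this with h | h
    · exact Or.inl h
    · right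
      show iota2' M' hirr hζK hψ x⁻¹ ∈ gaussRing (AK A K)
      rw [map_inv₀]
      exact h

theorem mem_O2'_iff (hA : A.LiesOverPrime r) (hr2 : r ≠ 2) (M' : ℕ) [NeZero M'] {π : ↥(AK A K)}
    (hπ : IsUnif (AK A K) π) (hE : FK (M' * r) K ≤ fracField (AK A K))
    (hirr : Irreducible (X ^ n - C (uK M' heven hn) : (↥(FK (M' * r) K))[X]))
    {ζ : ↥K} (hζK : algebraMap ↥K Qbar ζ = zetaK r) (hψ : ψ ≠ 1) (x : ↥(FH M' ψ)) :
    x ∈ O2' hA hr2 M' hπ hE hirr hζK hψ ↔ iota2' M' hirr hζK hψ x ∈ gaussRing (AK A K) :=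
  Iff.rfl

/-- the expansion at `∞` of `F'_K` as a `K`-algebra map. -/
def iota1Alg (M' : ℕ) [NeZero M'] (ψ : MulChar (ZMod r) ↥K) :
    ↥(FH M' ψ) →ₐ[↥K] LaurentSeries ↥K := (FH M' ψ).val

/-- the Fricke expansion of `F'_K` as a `K`-algebra map. -/
def iota2Alg (M' : ℕ) [NeZero M']
    (hirr : Irreducible (X ^ n - C (uK M' heven hn) : (↥(FK (M' * r) K))[X]))
    {ζ : ↥K} (hζK : algebraMap ↥K Qbar ζ = zetaK r) (hψ : ψ ≠ 1) :
    ↥(FH M' ψ) →ₐ[↥K] LaurentSeries ↥K :=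
  { iota2' M' hirr hζK hψ with
    commutes' := fun c => by
      show iota2' M' hirr hζK hψ (incl (FK (M' * r) K) (thetaInfK K ψ)
        (algebraMap ↥K ↥(FK (M' * r) K) c)) = algebraMap ↥K (LaurentSeries ↥K) c
      rw [iota2'_incl, iotaTwo_algebraMap, Fermat.Agent.RED.PUR.GaussGen8.algebraMap_eq_C] }

@[simp] theorem iota2Alg_apply (M' : ℕ) [NeZero M']
    (hirr : Irreducible (X ^ n - C (uK M' heven hn) : (↥(FK (M' * r) K))[X]))
    {ζ : ↥K} (hζK : algebraMap ↥K Qbar ζ = zetaK r) (hψ : ψ ≠ 1) (x : ↥(FH M' ψ)) :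
    iota2Alg M' hirr hζK hψ x = iota2' M' hirr hζK hψ x := rfl

theorem isGaussPullback_O1' (hA : A.LiesOverPrime r) (hr2 : r ≠ 2) (M' : ℕ) [NeZero M']
    {π : ↥(AK A K)} (hπ : IsUnif (AK A K) π) (hE : FK (M' * r) K ≤ fracField (AK A K))
    (ψ : MulChar (ZMod r) ↥K) :
    IsGaussPullback (AK A K) (iota1Alg M' ψ) (O1' hA hr2 M' hπ hE ψ) := fun _ => Iff.rfl

theorem isGaussPullback_O2' (hA : A.LiesOverPrime r) (hr2 : r ≠ 2) (M' : ℕ) [NeZero M']
    {π : ↥(AK A K)} (hπ : IsUnif (AK A K) π) (hE : FK (M' * r) K ≤ fracField (AK A K))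
    (hirr : Irreducible (X ^ n - C (uK M' heven hn) : (↥(FK (M' * r) K))[X]))
    {ζ : ↥K} (hζK : algebraMap ↥K Qbar ζ = zetaK r) (hψ : ψ ≠ 1) :
    IsGaussPullback (AK A K) (iota2Alg M' hirr hζK hψ) (O2' hA hr2 M' hπ hE hirr hζK hψ) :=
  fun _ => Iff.rfl

/-! ### (EXT) -/

/-- **(EXT₁)** `O1' ∩ F_K = O1`. -/
theorem algebraMap_mem_O1'_iff (hA : A.LiesOverPrime r) (hr2 : r ≠ 2) (M' : ℕ) [NeZero M']
    {π : ↥(AK A K)} (hπ : IsUnif (AK A K) π) (hE : FK (M' * r) K ≤ fracField (AK A K))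
    (ψ : MulChar (ZMod r) ↥K) (f : ↥(FK (M' * r) K)) :
    algebraMap ↥(FK (M' * r) K) ↥(FH M' ψ) f ∈ O1' hA hr2 M' hπ hE ψ ↔ f ∈ O1 M' r hπ hE := by
  rw [mem_O1'_iff, mem_O1_iff, KummerGal8.coe_algebraMap]

/-- **(EXT₂)** `O2' ∩ F_K = O2`. -/
theorem algebraMap_mem_O2'_iff (hA : A.LiesOverPrime r) (hr2 : r ≠ 2) (M' : ℕ) [NeZero M']
    {π : ↥(AK A K)} (hπ : IsUnif (AK A K) π) (hE : FK (M' * r) K ≤ fracField (AK A K))
    (hirr : Irreducible (X ^ n - C (uK M' heven hn) : (↥(FK (M' * r) K))[X]))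
    {ζ : ↥K} (hζK : algebraMap ↥K Qbar ζ = zetaK r) (hψ : ψ ≠ 1) (f : ↥(FK (M' * r) K)) :
    algebraMap ↥(FK (M' * r) K) ↥(FH M' ψ) f ∈ O2' hA hr2 M' hπ hE hirr hζK hψ ↔
      f ∈ O2 M' r hπ hE := by
  rw [mem_O2'_iff, mem_O2_iff]
  show iota2' M' hirr hζK hψ (incl (FK (M' * r) K) (thetaInfK K ψ) f) ∈ _ ↔ _
  rw [iota2'_incl]
  rfl

/-! ### (UNR) -/

/-- abstract form: in a Gauss pullback, `π` generates the maximal ideal. -/
theorem unr_of_isGaussPullback [IsDiscreteValuationRing ↥(AK A K)] {F' : Type*} [Field F']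
    [Algebra ↥K F'] {ι : F' →ₐ[↥K] LaurentSeries ↥K} {V : ValuationSubring F'}
    (hV : IsGaussPullback (AK A K) ι V) {π : ↥(AK A K)} (hπ : Irreducible π) (x : F')
    (hx : V.valuation x < 1) :
    V.valuation x ≤ V.valuation (algebraMap ↥K F' (π : ↥K)) := by
  have hxV : x ∈ V := (V.valuation_le_one_iff x).1 hx.le
  by_cases hx0 : x = 0
  · rw [hx0, map_zero]
    exact zero_le
  have hinv : x⁻¹ ∉ V := by
    rw [Fermat.Agent.RED.PUR.UniqueExt20.val_lt_one_iff] at hx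
    exact hx.resolve_left hx0
  obtain ⟨c, hc, hxc⟩ := unif hV hπ x hxV hinv
  rw [hxc, map_mul]
  exact mul_le_of_le_one_right' ((V.valuation_le_one_iff c).2 hc)

theorem algebraMap_AK_eq (M' : ℕ) [NeZero M'] (ψ : MulChar (ZMod r) ↥K) (c : ↥(AK A K)) :
    algebraMap ↥(AK A K) ↥(FH M' ψ) c = algebraMap ↥K ↥(FH M' ψ) (c : ↥K) := rfl

/-- **(UNR₁)** `π` generates the maximal ideal of `O1'`. -/
theorem unr_O1' [IsDiscreteValuationRing ↥(AK A K)] (hA : A.LiesOverPrime r) (hr2 : r ≠ 2)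
    (M' : ℕ) [NeZero M'] {π : ↥(AK A K)} (hπ : IsUnif (AK A K) π) (hπi : Irreducible π)
    (hE : FK (M' * r) K ≤ fracField (AK A K)) (ψ : MulChar (ZMod r) ↥K) (x : ↥(FH M' ψ))
    (hx : (O1' hA hr2 M' hπ hE ψ).valuation x < 1) :
    (O1' hA hr2 M' hπ hE ψ).valuation x ≤
      (O1' hA hr2 M' hπ hE ψ).valuation (algebraMap ↥(AK A K) ↥(FH M' ψ) π) := by
  rw [algebraMap_AK_eq]
  exact unr_of_isGaussPullback (isGaussPullback_O1' hA hr2 M' hπ hE ψ) hπi x hx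

/-- **(UNR₂)** `π` generates the maximal ideal of `O2'`. -/
theorem unr_O2' [IsDiscreteValuationRing ↥(AK A K)] (hA : A.LiesOverPrime r) (hr2 : r ≠ 2)
    (M' : ℕ) [NeZero M'] {π : ↥(AK A K)} (hπ : IsUnif (AK A K) π) (hπi : Irreducible π)
    (hE : FK (M' * r) K ≤ fracField (AK A K))
    (hirr : Irreducible (X ^ n - C (uK M' heven hn) : (↥(FK (M' * r) K))[X]))
    {ζ : ↥K} (hζK : algebraMap ↥K Qbar ζ = zetaK r) (hψ : ψ ≠ 1) (x : ↥(FH M' ψ))
    (hx : (O2' hA hr2 M' hπ hE hirr hζK hψ).valuation x < 1) :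
    (O2' hA hr2 M' hπ hE hirr hζK hψ).valuation x ≤
      (O2' hA hr2 M' hπ hE hirr hζK hψ).valuation (algebraMap ↥(AK A K) ↥(FH M' ψ) π) := by
  rw [algebraMap_AK_eq]
  exact unr_of_isGaussPullback (isGaussPullback_O2' hA hr2 M' hπ hE hirr hζK hψ) hπi x hx

end Fermat.Agent.M43.GaussUp8
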