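/-
Programme M43, chapter (LG-q), Stage 1, block [S1-F] (helper9), part 1: **(U1) for a MIXED pair of
automorphisms.**

In Program N (S34) the inertia automorphism `σ` is `GalGauss21.IsInertial` for BOTH Gauss valuation
rings.  On the Kummer cover `F' = F(ϑ)` the lift `g = σ̃` is inertial only for `O1'` (it is
coefficientwise at `∞`) and `g' = δ^{∓1} σ̃` only for `O2'` (coefficientwise at the cusp `0`); each of
them merely PRESERVES the other ring.  Since `g g' = g' g`, the second difference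
`secondDiff g g' f = g'(g f / f) / (g f / f)` is symmetric in `(g, g')` and is still
`≡ 1 mod π (O1 ⊓ O2)`.

* `IsPres O p g` : `g O ⊆ O`, `g⁻¹ O ⊆ O`, `g p = p · unit`;
* `IsPres.ratio_mem` : `g f / f ∈ O^×`;
* `secondDiff_sub_one_pres` : `g` preserving, `g'` inertial ⇒ `secondDiff g g' f ≡ 1 mod p O`;
* `secondDiff_comm` : symmetry for commuting automorphisms;
* `secondDiff_sub_one_mixed` : **(U1)** `PiO π O1 O2 (secondDiff g g' f - 1)` for a mixed pair.
-/
import Mathlib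
import Fermat.Agent.ES.N34.GalGauss21

set_option autoImplicit false
set_option linter.unusedSectionVars false

namespace Fermat.Agent.M43.MixGauss9

open Fermat.Agent.ES.N34.GalGauss21

variable {F : Type*} [Field F]

/-- `g` preserves the discrete valuation subring `O` with uniformiser `p`. -/
structure IsPres (O : ValuationSubring F) (p : F) (g : F ≃+* F) : Prop where
  map_mem : ∀ x ∈ O, g x ∈ O
  symm_mem : ∀ x ∈ O, g.symm x ∈ O
  map_p : ∃ ε : F, ε ∈ O ∧ ε⁻¹ ∈ O ∧ g p = p * ε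

variable {O : ValuationSubring F} {p : F}

theorem isPres_of_isInertial {g : F ≃+* F} (hg : IsInertial O p g) : IsPres O p g :=
  ⟨hg.map_mem, hg.symm_mem, hg.map_p⟩

theorem IsPres.map_inv_mem {g : F ≃+* F} (hg : IsPres O p g) {x : F} (hx : x⁻¹ ∈ O) :
    (g x)⁻¹ ∈ O := by
  rw [← map_inv₀]
  exact hg.map_mem _ hx

/-- `g f / f` is a unit of `O`. -/
theorem IsPres.ratio_mem {g : F ≃+* F} (hg : IsPres O p g) (hp0 : p ≠ 0)
    (unif : ∀ x ∈ O, x⁻¹ ∉ O → ∃ c ∈ O, x = p * c)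
    (arch : ∀ x : F, ∃ k : ℕ, p ^ k * x ∈ O) {f : F} (hf : f ≠ 0) :
    g f / f ∈ O ∧ (g f / f)⁻¹ ∈ O := by
  obtain ⟨a, f', hf', hf'inv, rfl⟩ := exists_zpow_mul_unit O p hp0 unif arch hf
  obtain ⟨ε, hε, hεinv, hgp⟩ := hg.map_p
  have hf'0 : f' ≠ 0 := right_ne_zero_of_mul hf
  have hε0 : ε ≠ 0 := by
    rintro rfl
    rw [mul_zero] at hgp
    exact hp0 ((map_eq_zero_iff g g.injective).mp hgp)
  have e : g (p ^ a * f') / (p ^ a * f') = ε ^ a * (g f' * f'⁻¹) := by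
    rw [map_mul, map_zpow₀, hgp, mul_zpow]
    have : p ^ a ≠ 0 := zpow_ne_zero a hp0
    field_simp
  have hεa : ∀ a : ℤ, ε ^ a ∈ O := by
    intro a
    rcases Int.eq_nat_or_neg a with ⟨n, rfl | rfl⟩
    · rw [zpow_natCast]; exact pow_mem hε n
    · rw [zpow_neg, zpow_natCast, ← inv_pow]; exact pow_mem hεinv n
  rw [e]
  constructor
  · exact O.mul_mem _ _ (hεa a) (O.mul_mem _ _ (hg.map_mem _ hf') hf'inv)
  · rw [mul_inv, mul_inv, inv_inv, ← zpow_neg]
    exact O.mul_mem _ _ (hεa (-a)) (O.mul_mem _ _ (hg.map_inv_mem hf'inv) hf')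

/-- **(U1), one valuation, mixed**: `g` preserving and `g'` inertial. -/
theorem secondDiff_sub_one_pres {g g' : F ≃+* F} (hg : IsPres O p g) (hg' : IsInertial O p g')
    (hp0 : p ≠ 0) (unif : ∀ x ∈ O, x⁻¹ ∉ O → ∃ c ∈ O, x = p * c)
    (arch : ∀ x : F, ∃ k : ℕ, p ^ k * x ∈ O) {f : F} (hf : f ≠ 0) :
    ∃ c ∈ O, secondDiff g g' f - 1 = p * c := by
  obtain ⟨h1, h2⟩ := hg.ratio_mem hp0 unif arch hf
  have h0 : g f / f ≠ 0 := div_ne_zero ((map_ne_zero_iff g g.injective).mpr hf) hf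
  exact hg'.ratio_sub_one h0 h1 h2

/-- the second difference is symmetric for commuting automorphisms. -/
theorem secondDiff_comm (g g' : F ≃+* F) (hcomm : ∀ x : F, g (g' x) = g' (g x)) {f : F}
    (hf : f ≠ 0) : secondDiff g g' f = secondDiff g' g f := by
  have h1 : g f ≠ 0 := (map_ne_zero_iff g g.injective).mpr hf
  have h2 : g' f ≠ 0 := (map_ne_zero_iff g' g'.injective).mpr hf
  unfold secondDiff
  rw [map_div₀, map_div₀, hcomm f]
  field_simp

/-- `secondDiff g g' f · (g f · g' f) = g'(g f) · f`. -/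
theorem secondDiff_mul_eq (g g' : F ≃+* F) {f : F} (hf : f ≠ 0) :
    secondDiff g g' f * (g f * g' f) = g' (g f) * f := by
  have h1 : g f ≠ 0 := (map_ne_zero_iff g g.injective).mpr hf
  have h2 : g' f ≠ 0 := (map_ne_zero_iff g' g'.injective).mpr hf
  unfold secondDiff
  rw [map_div₀]
  field_simp

/-- **(U1) for a mixed pair**, in the literal shape `NodalCore13.PiO π O1 O2 (u - 1)`. -/
theorem secondDiff_sub_one_mixed {R : Type*} [CommRing R] [Algebra R F] (π : R)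
    (O1 O2 : ValuationSubring F) {g g' : F ≃+* F}
    (hg1 : IsInertial O1 (algebraMap R F π) g) (hg2 : IsPres O2 (algebraMap R F π) g)
    (hg1' : IsPres O1 (algebraMap R F π) g') (hg2' : IsInertial O2 (algebraMap R F π) g')
    (hcomm : ∀ x : F, g (g' x) = g' (g x))
    (pi_ne : algebraMap R F π ≠ 0)
    (unif1 : ∀ x ∈ O1, x⁻¹ ∉ O1 → ∃ c ∈ O1, x = algebraMap R F π * c)
    (unif2 : ∀ x ∈ O2, x⁻¹ ∉ O2 → ∃ c ∈ O2, x = algebraMap R F π * c)
    (arch1 : ∀ x : F, ∃ k : ℕ, algebraMap R F π ^ k * x ∈ O1)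
    (arch2 : ∀ x : F, ∃ k : ℕ, algebraMap R F π ^ k * x ∈ O2) {f : F} (hf : f ≠ 0) :
    ∃ c : F, c ∈ O1 ∧ c ∈ O2 ∧ secondDiff g g' f - 1 = algebraMap R F π * c := by
  obtain ⟨c1, hc1, h1⟩ := secondDiff_sub_one_pres hg1' hg1 pi_ne unif1 arch1 hf
  rw [← secondDiff_comm g g' hcomm hf] at h1
  obtain ⟨c2, hc2, h2⟩ := secondDiff_sub_one_pres hg2 hg2' pi_ne unif2 arch2 hf
  have : c1 = c2 := mul_left_cancel₀ pi_ne (h1.symm.trans h2)
  subst this
  exact ⟨c1, hc1, hc2, h1⟩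

end Fermat.Agent.M43.MixGauss9
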