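/-
Programme M43, chapter (LG-q), Stage 1, block [S1-F] (helper9), part 2: **(U3) at a two-branch point
for a MIXED pair of automorphisms** — the mixed versions of Program N's `NodeAsm6.nodeDatum_of_places`,
`NodeGlue6.nodeDatum_of_sections`, `NodeSec10.nodeDatum_of_rational`.

`σ` is inertial for `O1` and preserves `O2`; `σ'` is inertial for `O2` and preserves `O1`;
`σ σ' = σ' σ`.  Every prime `𝔪 ∋ π` of the chart lying on BOTH branches is stable under `σ` and `σ'`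
(`sigmaB_mem_iff_of_on`), and the dichotomy "Lemma-A element / fixed place" of Program N does not use
inertness at all, so it applies to `σ` and to `σ'` separately.
-/
import Mathlib
import Fermat.Agent.M43.MixGauss9
import Fermat.Agent.ES.N34.NodeSec10

set_option autoImplicit false
set_option linter.unusedSectionVars false
set_option linter.unusedVariables false

namespace Fermat.Agent.M43.MixNode9

open AlgebraicCurve Fermat.Agent.X0.FF Fermat.Agent.ES.N34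
open Fermat.Agent.ES.N34.NodalCore13 Fermat.Agent.ES.N34.NodalStart13
  Fermat.Agent.ES.N34.NodalCL13 Fermat.Agent.ES.N34.HorizPlace13
  Fermat.Agent.ES.N34.GalGauss21 Fermat.Agent.ES.N34.NodeAsm6 Fermat.Agent.ES.N34.SigmaRes15
  Fermat.Agent.ES.N34.PlaceSec10 Fermat.Agent.ES.N34.LocNodePlace6
  Fermat.Agent.M43.MixGauss9

section Stable

variable {R F : Type*} [CommRing R] [Field F] [Algebra R F]

/-- **`σ 𝔪 = 𝔪`** for a prime on the branch `O` on which `σ` is inertial. -/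
theorem sigmaB_mem_iff_of_on (π : R) (B : Subalgebra R F) (O : ValuationSubring F)
    (leO : ∀ x ∈ B, x ∈ O) (σ : F ≃+* F) (hB : ∀ x : F, x ∈ B ↔ σ x ∈ B)
    (hsub : ∀ x ∈ O, ∃ c ∈ O, σ x - x = algebraMap R F π * c)
    (𝔪 : Ideal B) (hon : ∀ b : B, (∃ c ∈ O, (b : F) = algebraMap R F π * c) → b ∈ 𝔪) (b : B) :
    sigmaB B σ hB b ∈ 𝔪 ↔ b ∈ 𝔪 := by
  have h : sigmaB B σ hB b - b ∈ 𝔪 := by
    obtain ⟨c, hc, e⟩ := hsub b (leO _ b.2)
    exact hon _ ⟨c, hc, e⟩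
  constructor
  · intro hb
    have := 𝔪.sub_mem hb h
    rwa [sub_sub_cancel] at this
  · intro hb
    have := 𝔪.add_mem h hb
    rwa [sub_add_cancel] at this

end Stable

variable {R K F : Type*} [CommRing R] [Field K] [Field F] [Algebra R K] [Algebra K F]
  [Algebra R F] [IsScalarTower R K F]

/-- the two second differences agree (mixed pair). -/
theorem secondDiff_eq_gal (σ σ' : SemilinearAut K F) {y : F} (hy : y ≠ 0) :
    SecondDiff6.secondDiff σ σ' y =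
      GalGauss21.secondDiff (SemilinearAut.toRingAut σ) (SemilinearAut.toRingAut σ') y := by
  rw [SecondDiff6.secondDiff_eq σ σ' hy]
  rfl

/-- **L4, mixed: the node assembly.** -/
theorem nodeDatum_of_places_mixed (π : R) (t : F) (B : Subalgebra R F)
    (O1 O2 : ValuationSubring F)
    (ht : t ∈ B) (noethB : IsNoetherianRing B) (fracR : IsFractionRing R K)
    (dvrR : ∀ r : R, r ≠ 0 → ∃ (k : ℕ) (v : Rˣ), r = π ^ k * v)
    (pi_ne : algebraMap R F π ≠ 0)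
    (intcl : ∀ x : F, IsIntegral B x → x ∈ B)
    (int0 : ∀ x ∈ B, IsIntegral (Algebra.adjoin R {t}) x)
    (frac : ∀ x : F, ∃ a ∈ B, ∃ b ∈ B, b ≠ 0 ∧ x * b = a)
    (leO1 : ∀ x ∈ B, x ∈ O1) (leO2 : ∀ x ∈ B, x ∈ O2)
    (unif1 : ∀ x ∈ O1, x⁻¹ ∉ O1 → ∃ c ∈ O1, x = algebraMap R F π * c)
    (unif2 : ∀ x ∈ O2, x⁻¹ ∉ O2 → ∃ c ∈ O2, x = algebraMap R F π * c)
    (arch1 : ∀ x : F, ∃ k : ℕ, algebraMap R F π ^ k * x ∈ O1)
    (arch2 : ∀ x : F, ∃ k : ℕ, algebraMap R F π ^ k * x ∈ O2)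
    (sat : ∀ b ∈ B, ∀ c : F, c ∈ O1 → c ∈ O2 → b = algebraMap R F π * c → c ∈ B)
    (𝔪 : Ideal B) [h𝔪 : 𝔪.IsPrime]
    (σ σ' : SemilinearAut K F)
    (hσ1 : IsInertial O1 (algebraMap R F π) (SemilinearAut.toRingAut σ))
    (hσ2 : IsPres O2 (algebraMap R F π) (SemilinearAut.toRingAut σ))
    (hσ1' : IsPres O1 (algebraMap R F π) (SemilinearAut.toRingAut σ'))
    (hσ2' : IsInertial O2 (algebraMap R F π) (SemilinearAut.toRingAut σ'))
    (hcomm : ∀ x : F, SemilinearAut.toRingAut σ (SemilinearAut.toRingAut σ' x) =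
      SemilinearAut.toRingAut σ' (SemilinearAut.toRingAut σ x))
    (hσ𝔪 : ∀ v : Place K F, Thr B 𝔪 v → Thr B 𝔪 (σ⁻¹ • v))
    (hσ'𝔪 : ∀ v : Place K F, Thr B 𝔪 v → Thr B 𝔪 (σ'⁻¹ • v))
    (m : ℕ) (hm : 0 < m) (f : F) (hf : f ≠ 0) (hmf : ∀ v : Place K F, (m : ℤ) ∣ v.ord f)
    (hfin : {v : Place K F | Thr B 𝔪 v ∧ v.ord f ≠ 0}.Finite)
    (H : ∀ v : Place K F, Thr B 𝔪 v → v.ord f ≠ 0 →
      (∃ ξ : F, ξ ≠ 0 ∧ v.ord ξ = 1 ∧
        ∀ w : Place K F, Thr B 𝔪 w → w ≠ v → w.ord ξ = 0) ∨ (σ • v = v ∧ σ' • v = v)) :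
    NodeDatum π B O1 O2 m
      (GalGauss21.secondDiff (SemilinearAut.toRingAut σ) (SemilinearAut.toRingAut σ') f) 𝔪 := by
  classical
  set g0 : F ≃+* F := SemilinearAut.toRingAut σ with hg0
  set g0' : F ≃+* F := SemilinearAut.toRingAut σ' with hg0'
  -- the good places
  let Good : Place K F → Prop := fun v => Thr B 𝔪 v ∧
    ∃ ξ : F, ξ ≠ 0 ∧ v.ord ξ = 1 ∧ ∀ w : Place K F, Thr B 𝔪 w → w ≠ v → w.ord ξ = 0
  let S : Finset (Place K F) := hfin.toFinset.filter Good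
  let ξ : Place K F → F := fun v => if h : Good v then Classical.choose h.2 else 1
  have hξspec : ∀ v, Good v → ξ v ≠ 0 ∧ v.ord (ξ v) = 1 ∧
      ∀ w : Place K F, Thr B 𝔪 w → w ≠ v → w.ord (ξ v) = 0 := by
    intro v hv
    have : ξ v = Classical.choose hv.2 := dif_pos hv
    rw [this]
    exact Classical.choose_spec hv.2
  have hSgood : ∀ v ∈ S, Good v := fun v hv => (Finset.mem_filter.1 hv).2
  let n : Place K F → ℤ := fun v => v.ord f / (m : ℤ)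
  have hn : ∀ v : Place K F, v.ord f = (m : ℤ) * n v := fun v =>
    (Int.mul_ediv_cancel' (hmf v)).symm
  -- divisor step
  have hdiv := SecondDiff6.ord_secondDiff_corrected_eq_zero {v : Place K F | Thr B 𝔪 v} σ σ'
    (fun v hv => hσ𝔪 v hv) (fun v hv => hσ'𝔪 v hv) f hf m n (fun v _ => hn v) S ξ
    (fun v hv => (hξspec v (hSgood v hv)).1)
    (fun v hv => (hξspec v (hSgood v hv)).2.1)
    (fun v hv w hw hwv => (hξspec v (hSgood v hv)).2.2 w hw hwv)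
    (by
      intro v hv hvS hnv
      have hord : v.ord f ≠ 0 := by
        intro h0
        apply hnv
        have := hn v
        rw [h0] at this
        have hm0 : (m : ℤ) ≠ 0 := by exact_mod_cast hm.ne'
        rcases mul_eq_zero.1 this.symm with h | h
        · exact absurd h hm0
        · exact h
      have hnot : ¬ Good v := by
        intro hg
        apply hvS
        exact Finset.mem_filter.2 ⟨hfin.mem_toFinset.2 ⟨hv, hord⟩, hg⟩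
      rcases H v hv hord with hgood | hfix
      · exact absurd ⟨hv, hgood⟩ hnot
      · exact hfix)
  -- the generator `G`
  set Ξ : F := ∏ v ∈ S, (ξ v) ^ (- n v) with hΞ
  have hΞ0 : Ξ ≠ 0 := Finset.prod_ne_zero_iff.2 fun v hv =>
    zpow_ne_zero _ (hξspec v (hSgood v hv)).1
  set G : F := GalGauss21.secondDiff g0 g0' Ξ with hG
  have hGeq : G = ∏ v ∈ S, (SecondDiff6.secondDiff σ σ' (ξ v)) ^ (- n v) := by
    rw [hG, hΞ, NodeAsm6.secondDiff_prod]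
    refine Finset.prod_congr rfl fun v hv => ?_
    rw [NodeAsm6.secondDiff_zpow, secondDiff_eq_gal σ σ' (hξspec v (hSgood v hv)).1]
  set u : F := GalGauss21.secondDiff g0 g0' f with hu
  have hueq : u = SecondDiff6.secondDiff σ σ' f := (secondDiff_eq_gal σ σ' hf).symm
  -- congruences
  have hGpi : PiO π O1 O2 (G - 1) :=
    secondDiff_sub_one_mixed π O1 O2 hσ1 hσ2 hσ1' hσ2' hcomm pi_ne unif1 unif2 arch1 arch2 hΞ0
  have hupi : PiO π O1 O2 (u - 1) :=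
    secondDiff_sub_one_mixed π O1 O2 hσ1 hσ2 hσ1' hσ2' hcomm pi_ne unif1 unif2 arch1 arch2 hf
  have hpiB : algebraMap R F π ∈ B := B.algebraMap_mem π
  have memO : ∀ (z : F), PiO π O1 O2 (z - 1) → z ∈ O1 ∧ z ∈ O2 := by
    rintro z ⟨c, hc1, hc2, hc⟩
    have : z = 1 + algebraMap R F π * c := by rw [← hc]; ring
    rw [this]
    exact ⟨O1.add_mem _ _ O1.one_mem (O1.mul_mem _ _ (leO1 _ hpiB) hc1),
      O2.add_mem _ _ O2.one_mem (O2.mul_mem _ _ (leO2 _ hpiB) hc2)⟩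
  set ε : F := G ^ m * u with hε
  have hεO1 : ε ∈ O1 := O1.mul_mem _ _ (pow_mem (memO G hGpi).1 m) (memO u hupi).1
  have hεO2 : ε ∈ O2 := O2.mul_mem _ _ (pow_mem (memO G hGpi).2 m) (memO u hupi).2
  -- horizontal primes
  have hhor := hhor_of_places (K := K) π t B ht noethB fracR dvrR pi_ne intcl int0 frac 𝔪 ε
    (by
      intro v hv1 hv2
      have h0 := hdiv v ⟨hv1, hv2⟩
      rw [← hGeq, ← hueq] at h0
      exact mem_of_ord_nonneg v (le_of_eq h0.symm))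
  obtain ⟨a, d, hd, had⟩ := exists_den_of_horizontal π B O1 O2 leO1 leO2 arch1 arch2 sat frac 𝔪 ε
    hhor (Or.inl hεO1) (Or.inl hεO2)
  exact ⟨G, hGpi, 0, a, d, hd, by rw [pow_zero, one_mul]; exact had⟩

variable [IsDomain R] [IsDiscreteValuationRing R]

/-- **L4 (final form), mixed: `NodeDatum` from `NodeCoords`, the two automorphisms and the sections of
the places in the support of `f`.** -/
theorem nodeDatum_of_sections_mixed (π : R) (hπ : Irreducible π) (t : F) (B : Subalgebra R F)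
    (O1 O2 : ValuationSubring F)
    (ht : t ∈ B) (noethB : IsNoetherianRing B) (fracR : IsFractionRing R K)
    (dvrR : ∀ r : R, r ≠ 0 → ∃ (k : ℕ) (v : Rˣ), r = π ^ k * v)
    (pi_ne : algebraMap R F π ≠ 0)
    (intcl : ∀ x : F, IsIntegral B x → x ∈ B)
    (int0 : ∀ x ∈ B, IsIntegral (Algebra.adjoin R {t}) x)
    (frac : ∀ x : F, ∃ a ∈ B, ∃ b ∈ B, b ≠ 0 ∧ x * b = a)
    (leO1 : ∀ x ∈ B, x ∈ O1) (leO2 : ∀ x ∈ B, x ∈ O2)
    (unif1 : ∀ x ∈ O1, x⁻¹ ∉ O1 → ∃ c ∈ O1, x = algebraMap R F π * c)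
    (unif2 : ∀ x ∈ O2, x⁻¹ ∉ O2 → ∃ c ∈ O2, x = algebraMap R F π * c)
    (arch1 : ∀ x : F, ∃ k : ℕ, algebraMap R F π ^ k * x ∈ O1)
    (arch2 : ∀ x : F, ∃ k : ℕ, algebraMap R F π ^ k * x ∈ O2)
    (sat : ∀ b ∈ B, ∀ c : F, c ∈ O1 → c ∈ O2 → b = algebraMap R F π * c → c ∈ B)
    (𝔪 : Ideal B) [h𝔪p : 𝔪.IsPrime]
    (x₀ y₀ w₀ d₀ : B) (hx₀ : x₀ ∈ 𝔪) (hy₀ : y₀ ∈ 𝔪)
    (hgen₀ : ∀ b ∈ 𝔪, ∃ d, d ∉ 𝔪 ∧ d * b ∈ Ideal.span {algebraMap R B π, x₀, y₀})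
    (hd₀ : d₀ ∉ 𝔪) (hmul₀ : d₀ * (x₀ * y₀) = algebraMap R B π * w₀)
    (σ σ' : SemilinearAut K F)
    (hσ1 : IsInertial O1 (algebraMap R F π) (SemilinearAut.toRingAut σ))
    (hσ2 : IsPres O2 (algebraMap R F π) (SemilinearAut.toRingAut σ))
    (hσ1' : IsPres O1 (algebraMap R F π) (SemilinearAut.toRingAut σ'))
    (hσ2' : IsInertial O2 (algebraMap R F π) (SemilinearAut.toRingAut σ'))
    (hcomm : ∀ x : F, SemilinearAut.toRingAut σ (SemilinearAut.toRingAut σ' x) =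
      SemilinearAut.toRingAut σ' (SemilinearAut.toRingAut σ x))
    (σR : R ≃+* R) (σB : B ≃+* B)
    (hσ : ∀ r : R, σB (algebraMap R B r) = algebraMap R B (σR r))
    (ε : Rˣ) (hπσ : σR π = π * ε) (hσ𝔪 : ∀ b, σB b ∈ 𝔪 ↔ b ∈ 𝔪)
    (hthr : ∀ v : Place K F, Thr B 𝔪 v → Thr B 𝔪 (σ⁻¹ • v))
    (htrans : ∀ (v : Place K F) (ev : B →ₐ[R] R), IsPointOf B ev v →
      IsPointOf B (Fermat.Agent.ES.N34.NodeGal11.conj σR σB hσ ev) (σ • v))
    (σR' : R ≃+* R) (σB' : B ≃+* B)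
    (hσ' : ∀ r : R, σB' (algebraMap R B r) = algebraMap R B (σR' r))
    (ε' : Rˣ) (hπσ' : σR' π = π * ε') (hσ'𝔪 : ∀ b, σB' b ∈ 𝔪 ↔ b ∈ 𝔪)
    (hthr' : ∀ v : Place K F, Thr B 𝔪 v → Thr B 𝔪 (σ'⁻¹ • v))
    (htrans' : ∀ (v : Place K F) (ev : B →ₐ[R] R), IsPointOf B ev v →
      IsPointOf B (Fermat.Agent.ES.N34.NodeGal11.conj σR' σB' hσ' ev) (σ' • v))
    (hinj : ∀ (v w : Place K F) (ev : B →ₐ[R] R), IsPointOf B ev v → IsPointOf B ev w → v = w)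
    (m : ℕ) (hm : 0 < m) (f : F) (hf : f ≠ 0) (hmf : ∀ v : Place K F, (m : ℤ) ∣ v.ord f)
    (hfin : {v : Place K F | Thr B 𝔪 v ∧ v.ord f ≠ 0}.Finite)
    (hsec : ∀ v : Place K F, Thr B 𝔪 v → v.ord f ≠ 0 →
      ∃ ev : B →ₐ[R] R, IsPointOf B ev v ∧ ∀ b, b ∈ 𝔪 ↔ π ∣ ev b) :
    NodeDatum π B O1 O2 m
      (GalGauss21.secondDiff (SemilinearAut.toRingAut σ) (SemilinearAut.toRingAut σ') f) 𝔪 := by
  have hπK : algebraMap R K π ≠ 0 := by
    intro h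
    apply pi_ne
    rw [IsScalarTower.algebraMap_apply R K F, h, map_zero]
  have frac' : ∀ z : F, ∃ a b : B, b ≠ 0 ∧ z * (b : F) = (a : F) := by
    intro z
    obtain ⟨a, ha, b, hb, hb0, hab⟩ := frac z
    exact ⟨⟨a, ha⟩, ⟨b, hb⟩, fun h => hb0 (congrArg Subtype.val h), hab⟩
  have := noethB
  refine nodeDatum_of_places_mixed π t B O1 O2 ht noethB fracR dvrR pi_ne intcl int0 frac leO1 leO2
    unif1 unif2 arch1 arch2 sat 𝔪 σ σ' hσ1 hσ2 hσ1' hσ2' hcomm hthr hthr' m hm f hf hmf hfin ?_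
  intro v hv hord
  obtain ⟨ev, hev, h𝔪⟩ := hsec v hv hord
  rcases Fermat.Agent.ES.N34.NodeGlue6.node_hyp_of_sections π hπ hπK B frac' 𝔪 x₀ y₀ w₀ d₀ hx₀ hy₀
    hgen₀ hd₀ hmul₀ σ σR σB hσ ε hπσ hσ𝔪 htrans hinj v ev hev h𝔪 with h1 | h1
  · exact Or.inl h1
  · rcases Fermat.Agent.ES.N34.NodeGlue6.node_hyp_of_sections π hπ hπK B frac' 𝔪 x₀ y₀ w₀ d₀ hx₀
      hy₀ hgen₀ hd₀ hmul₀ σ' σR' σB' hσ' ε' hπσ' hσ'𝔪 htrans' hinj v ev hev h𝔪 with h2 | h2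
    · exact Or.inl h2
    · exact Or.inr ⟨h1, h2⟩

/-- **(U3) at a node, from rationality, mixed pair.**  `𝔪` lies on both branches (`hon1`, `hon2`). -/
theorem nodeDatum_of_rational_mixed (π : R) (hπ : Irreducible π) (t : F) (B : Subalgebra R F)
    (O1 O2 : ValuationSubring F)
    (ht : t ∈ B) (noethB : IsNoetherianRing B) (fracR : IsFractionRing R K)
    (dvrR : ∀ r : R, r ≠ 0 → ∃ (k : ℕ) (v : Rˣ), r = π ^ k * v)
    (pi_ne : algebraMap R F π ≠ 0)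
    (pi_nonunit1 : (algebraMap R F π)⁻¹ ∉ O1) (pi_nonunit2 : (algebraMap R F π)⁻¹ ∉ O2)
    (intcl : ∀ x : F, IsIntegral B x → x ∈ B)
    (int0 : ∀ x ∈ B, IsIntegral (Algebra.adjoin R {t}) x)
    (frac : ∀ x : F, ∃ a ∈ B, ∃ b ∈ B, b ≠ 0 ∧ x * b = a)
    (leO1 : ∀ x ∈ B, x ∈ O1) (leO2 : ∀ x ∈ B, x ∈ O2)
    (unif1 : ∀ x ∈ O1, x⁻¹ ∉ O1 → ∃ c ∈ O1, x = algebraMap R F π * c)
    (unif2 : ∀ x ∈ O2, x⁻¹ ∉ O2 → ∃ c ∈ O2, x = algebraMap R F π * c)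
    (arch1 : ∀ x : F, ∃ k : ℕ, algebraMap R F π ^ k * x ∈ O1)
    (arch2 : ∀ x : F, ∃ k : ℕ, algebraMap R F π ^ k * x ∈ O2)
    (sat : ∀ b ∈ B, ∀ c : F, c ∈ O1 → c ∈ O2 → b = algebraMap R F π * c → c ∈ B)
    (𝔪 : Ideal B) [h𝔪p : 𝔪.IsPrime] (hπ𝔪 : algebraMap R B π ∈ 𝔪)
    (hon1 : ∀ b : B, (∃ c ∈ O1, (b : F) = algebraMap R F π * c) → b ∈ 𝔪)
    (hon2 : ∀ b : B, (∃ c ∈ O2, (b : F) = algebraMap R F π * c) → b ∈ 𝔪)
    (x₀ y₀ w₀ d₀ : B) (hx₀ : x₀ ∈ 𝔪) (hy₀ : y₀ ∈ 𝔪)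
    (hgen₀ : ∀ b ∈ 𝔪, ∃ d, d ∉ 𝔪 ∧ d * b ∈ Ideal.span {algebraMap R B π, x₀, y₀})
    (hd₀ : d₀ ∉ 𝔪) (hmul₀ : d₀ * (x₀ * y₀) = algebraMap R B π * w₀)
    (σ σ' : SemilinearAut K F)
    (hσ1 : IsInertial O1 (algebraMap R F π) (SemilinearAut.toRingAut σ))
    (hσ2 : IsPres O2 (algebraMap R F π) (SemilinearAut.toRingAut σ))
    (hσ1' : IsPres O1 (algebraMap R F π) (SemilinearAut.toRingAut σ'))
    (hσ2' : IsInertial O2 (algebraMap R F π) (SemilinearAut.toRingAut σ'))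
    (hcomm : ∀ x : F, SemilinearAut.toRingAut σ (SemilinearAut.toRingAut σ' x) =
      SemilinearAut.toRingAut σ' (SemilinearAut.toRingAut σ x))
    (hB : ∀ x : F, x ∈ B ↔ SemilinearAut.toRingAut σ x ∈ B)
    (hsemi : ∀ r : R, ∃ r' : R,
      SemilinearAut.toRingAut σ (algebraMap R F r) = algebraMap R F r')
    (hsemi_symm : ∀ r : R, ∃ r' : R,
      (SemilinearAut.toRingAut σ).symm (algebraMap R F r) = algebraMap R F r')
    (hB' : ∀ x : F, x ∈ B ↔ SemilinearAut.toRingAut σ' x ∈ B)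
    (hsemi' : ∀ r : R, ∃ r' : R,
      SemilinearAut.toRingAut σ' (algebraMap R F r) = algebraMap R F r')
    (hsemi_symm' : ∀ r : R, ∃ r' : R,
      (SemilinearAut.toRingAut σ').symm (algebraMap R F r) = algebraMap R F r')
    (m : ℕ) (hm : 0 < m) (f : F) (hf : f ≠ 0) (hmf : ∀ v : Place K F, (m : ℤ) ∣ v.ord f)
    (hfin : {v : Place K F | Thr B 𝔪 v ∧ v.ord f ≠ 0}.Finite)
    (hrat : ∀ v : Place K F, Thr B 𝔪 v → v.ord f ≠ 0 →
      Function.Surjective (algebraMap K v.ResidueField)) :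
    NodeDatum π B O1 O2 m
      (GalGauss21.secondDiff (SemilinearAut.toRingAut σ) (SemilinearAut.toRingAut σ') f) 𝔪 := by
  have hinjRF : Function.Injective (algebraMap R F) := by
    rw [IsScalarTower.algebraMap_eq R K F]
    exact (algebraMap K F).injective.comp (IsFractionRing.injective R K)
  set s : F ≃+* F := SemilinearAut.toRingAut σ with hs
  set s' : F ≃+* F := SemilinearAut.toRingAut σ' with hs'
  set σB : B ≃+* B := sigmaB B s hB with hσB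
  set σR : R ≃+* R := sigmaR s hinjRF hsemi hsemi_symm with hσR
  set σB' : B ≃+* B := sigmaB B s' hB' with hσB'
  set σR' : R ≃+* R := sigmaR s' hinjRF hsemi' hsemi_symm' with hσR'
  have hσ : ∀ r : R, σB (algebraMap R B r) = algebraMap R B (σR r) :=
    sigmaB_algebraMap B s hB hinjRF hsemi hsemi_symm
  have hσ' : ∀ r : R, σB' (algebraMap R B r) = algebraMap R B (σR' r) :=
    sigmaB_algebraMap B s' hB' hinjRF hsemi' hsemi_symm'
  obtain ⟨ε, hε⟩ := sigmaR_pi' π O1 (fun r => leO1 _ (B.algebraMap_mem r)) pi_nonunit1 dvrR s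
    hinjRF hsemi hsemi_symm hσ1.map_p
  obtain ⟨ε', hε'⟩ := sigmaR_pi' π O2 (fun r => leO2 _ (B.algebraMap_mem r)) pi_nonunit2 dvrR s'
    hinjRF hsemi' hsemi_symm' hσ2'.map_p
  have hσ𝔪 : ∀ b, σB b ∈ 𝔪 ↔ b ∈ 𝔪 :=
    sigmaB_mem_iff_of_on π B O1 leO1 s hB hσ1.sub_mem 𝔪 hon1
  have hσ'𝔪 : ∀ b, σB' b ∈ 𝔪 ↔ b ∈ 𝔪 :=
    sigmaB_mem_iff_of_on π B O2 leO2 s' hB' hσ2'.sub_mem 𝔪 hon2
  have hcoe : ∀ b : B, ((σB b : B) : F) = σ • (b : F) := fun _ => rfl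
  have hcoe' : ∀ b : B, ((σB' b : B) : F) = σ' • (b : F) := fun _ => rfl
  exact nodeDatum_of_sections_mixed π hπ t B O1 O2 ht noethB fracR dvrR pi_ne intcl int0 frac
    leO1 leO2 unif1 unif2 arch1 arch2 sat 𝔪 x₀ y₀ w₀ d₀ hx₀ hy₀ hgen₀ hd₀ hmul₀ σ σ' hσ1 hσ2 hσ1'
    hσ2' hcomm σR σB hσ ε hε hσ𝔪
    (fun v hv => thr_inv_smul B 𝔪 σ σB hcoe hσ𝔪 v hv)
    (fun v ev hev => isPointOf_conj B σ σR σB hσ hcoe v ev hev)
    σR' σB' hσ' ε' hε' hσ'𝔪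
    (fun v hv => thr_inv_smul B 𝔪 σ' σB' hcoe' hσ'𝔪 v hv)
    (fun v ev hev => isPointOf_conj B σ' σR' σB' hσ' hcoe' v ev hev)
    (fun v w ev hv hw => place_eq_of_isPointOf π t B ht noethB fracR dvrR pi_ne intcl int0 frac
      v w ev hv hw)
    m hm f hf hmf hfin
    (fun v hv hord => exists_section_of_rational π hπ t B ht fracR int0 𝔪 h𝔪p.ne_top hπ𝔪 v
      (hrat v hv hord) hv)

end Fermat.Agent.M43.MixNode9
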