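/-
Programme M43, chapter (LG-q), Stage 1, block [S1-F] (helper9), part 3: **abstract NUM for a MIXED
pair** — the mixed version of Program N's `NumAbs13.num_abs` / `NumGlue13.num_of_model`.

`MixData π t O1 O2 σ σ'` : both automorphisms are semilinear over `R`, fix the Hauptmodul `t`;
`σ` is inertial for `O1` and preserves `O2`, `σ'` is inertial for `O2` and preserves `O1`;
`σ σ' = σ' σ`.

`num_of_model_mixed` : for a nodal two-chart model (`NumData13.NodalNumData`), `m` invertible in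
`R`, `f ≠ 0` with `m ∣ ord_v f` everywhere and finite RATIONAL support:

  `s ^ m * (σ f * σ' f) = c • (σ' (σ f) * f)`     (`c ∈ K^×`),

i.e. the mixed second difference of `f` is an `m`-th power up to a constant.
-/
import Mathlib
import Fermat.Agent.M43.MixNode9
import Fermat.Agent.ES.N34.NumGlue13

set_option autoImplicit false
set_option linter.unusedSectionVars false
set_option linter.unusedVariables false

namespace Fermat.Agent.M43.MixNum9

open AlgebraicCurve Fermat.Agent.ES.N34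
open Fermat.Agent.ES.N34.NodalCore13 Fermat.Agent.ES.N34.NodalCL13 Fermat.Agent.ES.N34.NumData13
  Fermat.Agent.ES.N34.GalGauss21 Fermat.Agent.ES.N34.GalChart21 Fermat.Agent.ES.N34.GalPlaces1
  Fermat.Agent.M43.MixGauss9 Fermat.Agent.M43.MixNode9

section Data

variable {R F : Type*} [CommRing R] [Field F] [Algebra R F]

/-- the data of a mixed pair of automorphisms relative to a nodal two-chart model. -/
structure MixData (π : R) (t : F) (O1 O2 : ValuationSubring F) (σ σ' : F ≃+* F) : Prop where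
  semilin : ∀ r : R, ∃ r' : R, σ (algebraMap R F r) = algebraMap R F r'
  semilin_symm : ∀ r : R, ∃ r' : R, σ.symm (algebraMap R F r) = algebraMap R F r'
  semilin' : ∀ r : R, ∃ r' : R, σ' (algebraMap R F r) = algebraMap R F r'
  semilin_symm' : ∀ r : R, ∃ r' : R, σ'.symm (algebraMap R F r) = algebraMap R F r'
  map_t : σ t = t
  map_t' : σ' t = t
  inert1 : IsInertial O1 (algebraMap R F π) σ
  pres2 : IsPres O2 (algebraMap R F π) σ
  pres1' : IsPres O1 (algebraMap R F π) σ'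
  inert2' : IsInertial O2 (algebraMap R F π) σ'
  comm : ∀ x : F, σ (σ' x) = σ' (σ x)

variable {π : R} {t : F} {B0 B1 : Subalgebra R F} {O1 O2 : ValuationSubring F} {σ σ' : F ≃+* F}

theorem symm_map_of_map {τ : F ≃+* F} {x : F} (h : τ x = x) : τ.symm x = x := by
  rw [RingEquiv.symm_apply_eq, h]

variable (M : NodalTwoChartModel R F π t B0 B1 O1 O2)
include M

theorem mem_B0_iff_of {τ : F ≃+* F}
    (h1 : ∀ r : R, ∃ r' : R, τ (algebraMap R F r) = algebraMap R F r')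
    (h2 : ∀ r : R, ∃ r' : R, τ.symm (algebraMap R F r) = algebraMap R F r') (ht : τ t = t)
    (x : F) : x ∈ B0 ↔ τ x ∈ B0 :=
  ⟨fun hx => map_mem_chart B0 M.t_mem M.intcl0 M.int0 τ h1 ht hx, fun hx => by
    have := map_mem_chart B0 M.t_mem M.intcl0 M.int0 τ.symm h2 (symm_map_of_map ht) hx
    simpa using this⟩

theorem mem_B1_iff_of {τ : F ≃+* F}
    (h1 : ∀ r : R, ∃ r' : R, τ (algebraMap R F r) = algebraMap R F r')
    (h2 : ∀ r : R, ∃ r' : R, τ.symm (algebraMap R F r) = algebraMap R F r') (ht : τ t = t)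
    (x : F) : x ∈ B1 ↔ τ x ∈ B1 := by
  have ht' : τ t⁻¹ = t⁻¹ := by rw [map_inv₀, ht]
  exact ⟨fun hx => map_mem_chart B1 M.tinv_mem M.intcl1 M.int1 τ h1 ht' hx, fun hx => by
    have := map_mem_chart B1 M.tinv_mem M.intcl1 M.int1 τ.symm h2 (symm_map_of_map ht') hx
    simpa using this⟩

end Data

section Num

variable {R K F : Type*} [CommRing R] [Field K] [Field F] [Algebra R K] [Algebra K F]
  [Algebra R F] [IsScalarTower R K F]

/-- **Abstract NUM, mixed pair.** -/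
theorem num_abs_mixed {π : R} {t : F} {B0 B1 : Subalgebra R F} {O1 O2 : ValuationSubring F}
    (D : NodalNumData R K F π t B0 B1 O1 O2) (g g' : SemilinearAut K F)
    (hg1 : IsInertial O1 (algebraMap R F π) (SemilinearAut.toRingAut g))
    (hg2 : IsPres O2 (algebraMap R F π) (SemilinearAut.toRingAut g))
    (hg1' : IsPres O1 (algebraMap R F π) (SemilinearAut.toRingAut g'))
    (hg2' : IsInertial O2 (algebraMap R F π) (SemilinearAut.toRingAut g'))
    (hcomm : ∀ x : F, SemilinearAut.toRingAut g (SemilinearAut.toRingAut g' x) =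
      SemilinearAut.toRingAut g' (SemilinearAut.toRingAut g x))
    (m : ℕ) (hm : 0 < m) (minv : R) (hminv : (m : R) * minv = 1) (f : F) (hf : f ≠ 0)
    (hord : ∀ v : Place K F, (m : ℤ) ∣ v.ord f)
    (hU3_0 : ∀ 𝔪 : Ideal B0, 𝔪.IsMaximal → algebraMap R B0 π ∈ 𝔪 →
      ¬ OffBranch π B0 O1 𝔪 → ¬ OffBranch π B0 O2 𝔪 → NodeCoords π B0 𝔪 →
        NodeDatum π B0 O1 O2 m
          (secondDiff (SemilinearAut.toRingAut g) (SemilinearAut.toRingAut g') f) 𝔪)
    (hU3_1 : ∀ 𝔪 : Ideal B1, 𝔪.IsMaximal → algebraMap R B1 π ∈ 𝔪 →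
      ¬ OffBranch π B1 O1 𝔪 → ¬ OffBranch π B1 O2 𝔪 → NodeCoords π B1 𝔪 →
        NodeDatum π B1 O1 O2 m
          (secondDiff (SemilinearAut.toRingAut g) (SemilinearAut.toRingAut g') f) 𝔪) :
    ∃ (c : K) (s : F), c ≠ 0 ∧
      s ^ m * (SemilinearAut.toRingAut g f * SemilinearAut.toRingAut g' f) =
        c • (SemilinearAut.toRingAut g' (SemilinearAut.toRingAut g f) * f) := by
  set σ := SemilinearAut.toRingAut g with hσ
  set σ' := SemilinearAut.toRingAut g' with hσ'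
  have M := D.model
  -- (U1)
  have hu1 : PiO π O1 O2 (secondDiff σ σ' f - 1) :=
    secondDiff_sub_one_mixed π O1 O2 hg1 hg2 hg1' hg2' hcomm M.pi_ne M.unif1 M.unif2 M.arch1
      M.arch2 hf
  -- (U2)
  have hu2 : ∀ v : Place K F, (m : ℤ) ∣ v.ord (secondDiff σ σ' f) := fun v =>
    dvd_ord_sd g g' (m : ℤ) hf hord v
  obtain ⟨s, hs0, c, hc0, hsc⟩ := D.cl m hm minv hminv (secondDiff σ σ' f) hu1 hu2 hU3_0 hU3_1
  refine ⟨c, s, hc0, ?_⟩
  rw [hsc, Algebra.smul_def, mul_assoc, secondDiff_mul_eq σ σ' hf]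

variable [IsDomain R] [IsDiscreteValuationRing R]

/-- **NUM from MODEL + the mixed pair** (rational support). -/
theorem num_of_model_mixed {π : R} {t : F} {B0 B1 : Subalgebra R F} {O1 O2 : ValuationSubring F}
    (D : NodalNumData R K F π t B0 B1 O1 O2) (hπ : Irreducible π)
    (g g' : SemilinearAut K F)
    (hσ : MixData π t O1 O2 (SemilinearAut.toRingAut g) (SemilinearAut.toRingAut g'))
    (m : ℕ) (hm : 0 < m) (minv : R) (hminv : (m : R) * minv = 1) (f : F) (hf : f ≠ 0)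
    (hord : ∀ v : Place K F, (m : ℤ) ∣ v.ord f)
    (hfin : {v : Place K F | v.ord f ≠ 0}.Finite)
    (hrat : ∀ v : Place K F, v.ord f ≠ 0 → Function.Surjective (algebraMap K v.ResidueField)) :
    ∃ (c : K) (s : F), c ≠ 0 ∧
      s ^ m * (SemilinearAut.toRingAut g f * SemilinearAut.toRingAut g' f) =
        c • (SemilinearAut.toRingAut g' (SemilinearAut.toRingAut g f) * f) := by
  have M := D.model
  have honOf : ∀ {B : Subalgebra R F} {O : ValuationSubring F} {𝔪 : Ideal B},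
      ¬ OffBranch π B O 𝔪 → ∀ b : B, (∃ c ∈ O, (b : F) = algebraMap R F π * c) → b ∈ 𝔪 := by
    intro B O 𝔪 h b hb
    by_contra hb𝔪
    exact h ⟨b, hb𝔪, hb⟩
  refine num_abs_mixed D g g' hσ.inert1 hσ.pres2 hσ.pres1' hσ.inert2' hσ.comm m hm minv hminv f hf
    hord ?_ ?_
  · intro 𝔪 h𝔪 hπ𝔪 h1 h2 hnc
    have := h𝔪.isPrime
    obtain ⟨x₀, y₀, hx₀, hy₀, ⟨d₀, hd₀, w₀, hmul₀⟩, hgen₀⟩ := hnc
    exact nodeDatum_of_rational_mixed (K := K) π hπ t B0 O1 O2 M.t_mem D.noeth0 D.fracR D.dvrR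
      M.pi_ne M.pi_nonunit1 M.pi_nonunit2 M.intcl0 M.int0 D.frac0 M.le_O1_0 M.le_O2_0 M.unif1
      M.unif2 M.arch1 M.arch2 M.sat0 𝔪 hπ𝔪 (honOf h1) (honOf h2) x₀ y₀ w₀ d₀ hx₀ hy₀ hgen₀ hd₀ hmul₀
      g g' hσ.inert1 hσ.pres2 hσ.pres1' hσ.inert2' hσ.comm
      (mem_B0_iff_of M hσ.semilin hσ.semilin_symm hσ.map_t) hσ.semilin hσ.semilin_symm
      (mem_B0_iff_of M hσ.semilin' hσ.semilin_symm' hσ.map_t') hσ.semilin' hσ.semilin_symm'
      m hm f hf hord (hfin.subset fun v hv => hv.2) (fun v _ hv => hrat v hv)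
  · intro 𝔪 h𝔪 hπ𝔪 h1 h2 hnc
    have := h𝔪.isPrime
    obtain ⟨x₀, y₀, hx₀, hy₀, ⟨d₀, hd₀, w₀, hmul₀⟩, hgen₀⟩ := hnc
    exact nodeDatum_of_rational_mixed (K := K) π hπ t⁻¹ B1 O1 O2 M.tinv_mem D.noeth1 D.fracR
      D.dvrR M.pi_ne M.pi_nonunit1 M.pi_nonunit2 M.intcl1 M.int1 D.frac1 M.le_O1_1 M.le_O2_1
      M.unif1 M.unif2 M.arch1 M.arch2 M.sat1 𝔪 hπ𝔪 (honOf h1) (honOf h2) x₀ y₀ w₀ d₀ hx₀ hy₀ hgen₀
      hd₀ hmul₀ g g' hσ.inert1 hσ.pres2 hσ.pres1' hσ.inert2' hσ.comm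
      (mem_B1_iff_of M hσ.semilin hσ.semilin_symm hσ.map_t) hσ.semilin hσ.semilin_symm
      (mem_B1_iff_of M hσ.semilin' hσ.semilin_symm' hσ.map_t') hσ.semilin' hσ.semilin_symm'
      m hm f hf hord (hfin.subset fun v hv => hv.2) (fun v _ hv => hrat v hv)

end Num

end Fermat.Agent.M43.MixNum9
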