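/-
Programme M43, chapter (LG-q), Stage 1, block [S1-E GAL'] (lead): **the `MixNum9.MixData` of the
mixed pair `(σ̃, δ_{ψ(t)} σ̃)` on the Kummer cover `F'_K = FH M' ψ`**, base ring `R = AK A K`.

`σ = τ|_K` (`τ ∈ I_A` fixing the values of `ψ`, `τ ζ_r = ζ_r^t`), `σ̃ = galFH` the coefficientwise
action on `F'_K ⊂ K((q))`, `δ_c : Θ ↦ c Θ` the deck transformation (`rootMul` / `deltaK`).

* `mem_iff_of_uniq` : (EXT) + (UNIQ) ⇒ every `F`-automorphism of `F'` preserves `O'`;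
* `galFH'`, `galFH_rootMul_comm` (`σ̃ δ_c = δ_c σ̃` when `σ c = c`);
* `inert1_galFH` : `σ̃` is `IsInertial` for `O1'` (expansion at `∞` is equivariant);
* `inert2_galFH'` : `δ_{ψ(t)} σ̃` is `IsInertial` for `O2'` (`ThetaFieldK8.iota2'_gal`);
* **`mixData_gal`**, `mixData_gal_tq` : the `MixData` (inputs: the two (UNIQ_j) of
  `KLift9.glueOut_lift`, i.e. the deliverable of `GaussUniq8`);
* `gFH`, `deltaKK`, `gFH'` : the pair as `SemilinearAut ↥K ↥(FH M' ψ)`; `mixData_gFH`;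
  `mixData_of_eq` : the same for ANY pair of semilinear automorphisms with these underlying maps.
-/
import Mathlib
import Fermat.Agent.M43.GaussUp8
import Fermat.Agent.M43.MixNum9
import Fermat.Agent.ES.N34.GalConc21

set_option autoImplicit false
set_option linter.unusedSectionVars false
set_option linter.style.haveILetI false
set_option linter.unusedVariables false
set_option synthInstance.maxHeartbeats 400000

open ModularCurve AlgebraicCurve Polynomial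

noncomputable section

namespace Fermat.Agent.M43.GalMix0

local notation "Qbar" => AlgebraicClosure ℚ

open Fermat.Agent.X0 Fermat.Agent.RED.Interface4 Fermat.Agent.RED.DESC
open Fermat.Agent.RED.PUR.GaussGen8 Fermat.Agent.ES.N34.ModelDefs9
open Fermat.Agent.ES.N34.FrickeFK8 Fermat.Agent.ES.N34.GaussEmb22
open Fermat.Agent.ES.N34.GalBase21 Fermat.Agent.ES.N34.GalGauss21
open Fermat.Agent.ES.N34.GalGaussInst21
open Fermat.Agent.M43.KummerAdj8 Fermat.Agent.M43.KummerGal8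
open Fermat.Agent.M43.ThetaFieldK8 Fermat.Agent.M43.ThetaDeltaK8 Fermat.Agent.M43.GaussUp8
open Fermat.Agent.M43.MixGauss9 Fermat.Agent.M43.MixNum9

/-! ### generic: an automorphism over `F` preserves a uniquely extended valuation ring -/

section Generic

variable {F F' : Type*} [Field F] [Field F'] [Algebra F F']

/-- **(UNIQ) + (EXT) ⇒ every `F`-automorphism preserves `O'`.** -/
theorem mem_iff_of_uniq {O : ValuationSubring F} {O' : ValuationSubring F'}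
    (hext : ∀ f : F, algebraMap F F' f ∈ O' ↔ f ∈ O)
    (huniq : ∀ V : ValuationSubring F', (∀ f : F, algebraMap F F' f ∈ V ↔ f ∈ O) → V = O')
    (δ : F' ≃ₐ[F] F') (x : F') : δ x ∈ O' ↔ x ∈ O' := by
  have h := huniq (O'.comap (δ : F' →+* F')) fun f => by
    rw [ValuationSubring.mem_comap]
    show δ (algebraMap F F' f) ∈ O' ↔ _
    rw [δ.commutes]
    exact hext f
  constructor
  · intro hx
    rw [← h]
    exact hx
  · intro hx
    rw [← h] at hx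
    exact hx

end Generic

/-! ### the two automorphisms of `F'_K` -/

section Concrete

variable {A : ValuationSubring Qbar} {K : IntermediateField ℚ Qbar}
variable {r : ℕ} [Fact r.Prime] [NeZero r] (M' : ℕ) [NeZero M']
variable {ψ : MulChar (ZMod r) ↥K} {n : ℕ} {heven : ψ (-1) = 1} {hn : ψ ^ n = 1}
variable (hirr : Irreducible (X ^ n - C (uK M' heven hn) : (↥(FK (M' * r) K))[X]))

/-- the second automorphism `g' = δ_c ∘ σ̃` (`δ_c : Θ ↦ c Θ`). -/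
def galFH' (s : ↥K ≃ₐ[ℚ] ↥K) (hs : ∀ a, s (ψ a) = ψ a) (c : ↥K) (hc : c ^ n = 1) :
    ↥(FH M' ψ) ≃+* ↥(FH M' ψ) :=
  (galFH M' s hs).trans (rootMul hirr (coe_uK M' heven hn).symm c hc)

theorem galFH'_apply (s : ↥K ≃ₐ[ℚ] ↥K) (hs : ∀ a, s (ψ a) = ψ a) (c : ↥K) (hc : c ^ n = 1)
    (x : ↥(FH M' ψ)) :
    galFH' M' hirr s hs c hc x =
      rootMul hirr (coe_uK M' heven hn).symm c hc (galFH M' s hs x) := rfl

theorem galFH'_symm_apply (s : ↥K ≃ₐ[ℚ] ↥K) (hs : ∀ a, s (ψ a) = ψ a) (c : ↥K) (hc : c ^ n = 1)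
    (x : ↥(FH M' ψ)) :
    (galFH' M' hirr s hs c hc).symm x =
      (galFH M' s hs).symm ((rootMul hirr (coe_uK M' heven hn).symm c hc).symm x) := rfl

theorem galFH_algebraMap (s : ↥K ≃ₐ[ℚ] ↥K) (hs : ∀ a, s (ψ a) = ψ a) (c : ↥K) :
    galFH M' s hs (algebraMap ↥K ↥(FH M' ψ) c) = algebraMap ↥K ↥(FH M' ψ) (s c) := by
  apply Subtype.ext
  rw [coe_galFH]
  exact coeffMap_algebraMap (s : ↥K →+* ↥K) c

theorem galFH_symm_apply (s : ↥K ≃ₐ[ℚ] ↥K) (hs : ∀ a, s (ψ a) = ψ a) (x : ↥(FH M' ψ)) :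
    (galFH M' s hs).symm x = galFH M' s.symm (symm_fixed s hs) x := rfl

theorem rootMul_algebraMap (c : ↥K) (hc : c ^ n = 1) (a : ↥K) :
    rootMul hirr (coe_uK M' heven hn).symm c hc (algebraMap ↥K ↥(FH M' ψ) a) =
      algebraMap ↥K ↥(FH M' ψ) a :=
  rootMul_incl hirr (coe_uK M' heven hn).symm c hc (algebraMap ↥K ↥(FK (M' * r) K) a)

theorem rootMul_symm_algebraMap (c : ↥K) (hc : c ^ n = 1) (a : ↥K) :
    (rootMul hirr (coe_uK M' heven hn).symm c hc).symm (algebraMap ↥K ↥(FH M' ψ) a) =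
      algebraMap ↥K ↥(FH M' ψ) a := by
  rw [RingEquiv.symm_apply_eq, rootMul_algebraMap]

/-- `σ̃` commutes with `δ_c` when `s c = c`. -/
theorem galFH_rootMul_comm (s : ↥K ≃ₐ[ℚ] ↥K) (hs : ∀ a, s (ψ a) = ψ a) (c : ↥K)
    (hc : c ^ n = 1) (hsc : s c = c) (x : ↥(FH M' ψ)) :
    galFH M' s hs (rootMul hirr (coe_uK M' heven hn).symm c hc x) =
      rootMul hirr (coe_uK M' heven hn).symm c hc (galFH M' s hs x) := by
  set δ := rootMul hirr (coe_uK M' heven hn).symm c hc with hδ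
  have key : ((galFH M' s hs : ↥(FH M' ψ) →+* ↥(FH M' ψ))).comp
      (δ : ↥(FH M' ψ) →+* ↥(FH M' ψ)) =
      ((δ : ↥(FH M' ψ) →+* ↥(FH M' ψ))).comp (galFH M' s hs : ↥(FH M' ψ) →+* ↥(FH M' ψ)) := by
    apply ringHom_ext hirr (hroot_kummer (coe_uK M' heven hn).symm)
    · intro y
      show galFH M' s hs (δ (incl _ _ y)) = δ (galFH M' s hs (incl _ _ y))
      rw [hδ, rootMul_incl, galFH_incl, rootMul_incl]
    · show galFH M' s hs (δ (thetaA _ _)) = δ (galFH M' s hs (thetaA _ _))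
      rw [hδ, rootMul_theta, map_mul, galFH_theta, rootMul_theta, galFH_algebraMap, hsc]
  exact RingHom.congr_fun key x

end Concrete

/-! ### inertia -/

section Main

variable {A : ValuationSubring Qbar} {K : IntermediateField ℚ Qbar} [Normal ℚ K]
variable {r : ℕ} [Fact r.Prime] [NeZero r] (M' : ℕ) [NeZero M']
variable {ψ : MulChar (ZMod r) ↥K} {n : ℕ} {heven : ψ (-1) = 1} {hn : ψ ^ n = 1}
variable (hirr : Irreducible (X ^ n - C (uK M' heven hn) : (↥(FK (M' * r) K))[X]))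

/-- **`σ̃` is inertial for `O1'`** (the expansion at `∞` is Galois equivariant). -/
theorem inert1_galFH (hA : A.LiesOverPrime r) (hr2 : r ≠ 2) {π : ↥(AK A K)}
    (hπ : IsUnif (AK A K) π) (hE : FK (M' * r) K ≤ fracField (AK A K))
    {τ : Qbar ≃ₐ[ℚ] Qbar} (hτ : τ ∈ A.inertiaSubgroupIn ℚ)
    (hs : ∀ a, resK K τ (ψ a) = ψ a) :
    IsInertial (O1' hA hr2 M' hπ hE ψ) (algebraMap ↥(AK A K) ↥(FH M' ψ) π)
      (galFH M' (resK K τ) hs) := by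
  refine isInertial_of_expansion hπ (isInertialBase_resK A K hτ hπ) (FH M' ψ).val.toRingHom _
    (fun x => rfl) _ (fun x => mem_O1'_iff hA hr2 M' hπ hE ψ x) _ ?_
  show algebraMap ↥K (LaurentSeries ↥K) (π : ↥K) = _
  rw [algebraMap_eq_C]

/-- **`δ_{ψ(t)} σ̃` is inertial for `O2'`** (`ι₂' ∘ (δ σ̃) = σ ∘ ι₂'`). -/
theorem inert2_galFH' (hA : A.LiesOverPrime r) (hr2 : r ≠ 2) {π : ↥(AK A K)}
    (hπ : IsUnif (AK A K) π) (hE : FK (M' * r) K ≤ fracField (AK A K))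
    {ζ : ↥K} (hζK : algebraMap ↥K Qbar ζ = zetaK r) (hψ : ψ ≠ 1)
    {τ : Qbar ≃ₐ[ℚ] Qbar} (hτ : τ ∈ A.inertiaSubgroupIn ℚ)
    (hs : ∀ a, resK K τ (ψ a) = ψ a) (t : ℕ) (ht : (t : ZMod r) ≠ 0)
    (hst : resK K τ ζ = ζ ^ t) :
    IsInertial (O2' hA hr2 M' hπ hE hirr hζK hψ) (algebraMap ↥(AK A K) ↥(FH M' ψ) π)
      (galFH' M' hirr (resK K τ) hs (ψ (t : ZMod r)) (psi_pow_eq_one hn ht)) := by
  refine isInertial_of_expansion hπ (isInertialBase_resK A K hτ hπ) (iota2' M' hirr hζK hψ) _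
    (fun x => (iota2'_gal M' hirr hζK hψ (resK K τ) hs t ht hst x).symm) _
    (fun x => mem_O2'_iff hA hr2 M' hπ hE hirr hζK hψ x) _ ?_
  show iota2' M' hirr hζK hψ (incl (FK (M' * r) K) (thetaInfK K ψ)
    (algebraMap ↥K ↥(FK (M' * r) K) (π : ↥K))) = _
  rw [iota2'_incl, iotaTwo_algebraMap]

/-- `δ_c` preserves a valuation ring of `F'_K` which is the unique extension of its trace on
`F_K`. -/
theorem rootMul_mem_iff {O : ValuationSubring ↥(FK (M' * r) K)}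
    {O' : ValuationSubring ↥(FH M' ψ)}
    (hext : ∀ f : ↥(FK (M' * r) K), algebraMap ↥(FK (M' * r) K) ↥(FH M' ψ) f ∈ O' ↔ f ∈ O)
    (huniq : ∀ V : ValuationSubring ↥(FH M' ψ),
      (∀ f : ↥(FK (M' * r) K), algebraMap ↥(FK (M' * r) K) ↥(FH M' ψ) f ∈ V ↔ f ∈ O) → V = O')
    (c : ↥K) (hc : c ^ n = 1) (x : ↥(FH M' ψ)) :
    rootMul hirr (coe_uK M' heven hn).symm c hc x ∈ O' ↔ x ∈ O' :=
  mem_iff_of_uniq hext huniq (deltaK M' hirr c hc) x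

/-- **GAL'**: the `MixData` of the pair `(σ̃, δ_{ψ(t)} σ̃)` on `F'_K`, `σ = τ|_K`, `τ ∈ I_A` fixing
the values of `ψ`, `τ ζ_r = ζ_r^t`. -/
theorem mixData_gal (hA : A.LiesOverPrime r) (hr2 : r ≠ 2) {π : ↥(AK A K)}
    (hπ : IsUnif (AK A K) π) (hE : FK (M' * r) K ≤ fracField (AK A K))
    {ζ : ↥K} (hζK : algebraMap ↥K Qbar ζ = zetaK r) (hψ : ψ ≠ 1)
    (huniq1 : ∀ V : ValuationSubring ↥(FH M' ψ),
      (∀ f : ↥(FK (M' * r) K),
        algebraMap ↥(FK (M' * r) K) ↥(FH M' ψ) f ∈ V ↔ f ∈ O1 M' r hπ hE) →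
      V = O1' hA hr2 M' hπ hE ψ)
    (huniq2 : ∀ V : ValuationSubring ↥(FH M' ψ),
      (∀ f : ↥(FK (M' * r) K),
        algebraMap ↥(FK (M' * r) K) ↥(FH M' ψ) f ∈ V ↔ f ∈ O2 M' r hπ hE) →
      V = O2' hA hr2 M' hπ hE hirr hζK hψ)
    {τ : Qbar ≃ₐ[ℚ] Qbar} (hτ : τ ∈ A.inertiaSubgroupIn ℚ)
    (hs : ∀ a, resK K τ (ψ a) = ψ a) (t : ℕ) (ht : (t : ZMod r) ≠ 0)
    (hst : resK K τ ζ = ζ ^ t)
    (tH : ↥(FK (M' * r) K))
    (htH : arithmeticRingAut (modularFunctionFieldFull (M' * r)) (resK K τ) tH = tH) :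
    MixData π (algebraMap ↥(FK (M' * r) K) ↥(FH M' ψ) tH) (O1' hA hr2 M' hπ hE ψ)
      (O2' hA hr2 M' hπ hE hirr hζK hψ) (galFH M' (resK K τ) hs)
      (galFH' M' hirr (resK K τ) hs (ψ (t : ZMod r)) (psi_pow_eq_one hn ht)) := by
  set s := resK K τ with hsdef
  set c := ψ (t : ZMod r) with hcdef
  have hc : c ^ n = 1 := psi_pow_eq_one hn ht
  set δ := rootMul hirr (coe_uK M' heven hn).symm c hc with hδ
  have hi1 := inert1_galFH M' hA hr2 hπ hE hτ hs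
  have hi2 := inert2_galFH' M' hirr hA hr2 hπ hE hζK hψ hτ hs t ht hst
  have hδ1 : ∀ x, δ x ∈ O1' hA hr2 M' hπ hE ψ ↔ x ∈ O1' hA hr2 M' hπ hE ψ :=
    rootMul_mem_iff M' hirr (algebraMap_mem_O1'_iff hA hr2 M' hπ hE ψ) huniq1 c hc
  have hδ2 : ∀ x, δ x ∈ O2' hA hr2 M' hπ hE hirr hζK hψ ↔
      x ∈ O2' hA hr2 M' hπ hE hirr hζK hψ :=
    rootMul_mem_iff M' hirr (algebraMap_mem_O2'_iff hA hr2 M' hπ hE hirr hζK hψ) huniq2 c hc
  have hdec : τ ∈ A.decompositionSubgroup ℚ := mem_decomposition_of_mem_inertia A hτ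
  have hdeci : τ⁻¹ ∈ A.decompositionSubgroup ℚ :=
    mem_decomposition_of_mem_inertia A (inv_mem hτ)
  have hsc : s c = c := hs _
  -- `g p = g' p`
  have hgp : galFH' M' hirr s hs c hc (algebraMap ↥(AK A K) ↥(FH M' ψ) π) =
      galFH M' s hs (algebraMap ↥(AK A K) ↥(FH M' ψ) π) := by
    rw [galFH'_apply, algebraMap_AK_eq, galFH_algebraMap, rootMul_algebraMap]
  refine ⟨fun a => ?_, fun a => ?_, fun a => ?_, fun a => ?_, ?_, ?_, hi1, ⟨?_, ?_, ?_⟩,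
    ⟨?_, ?_, ?_⟩, hi2, fun x => ?_⟩
  · exact ⟨⟨s (a : ↥K), resK_mem_AK A K hdec a.2⟩, by
      rw [algebraMap_AK_eq, galFH_algebraMap]; rfl⟩
  · refine ⟨⟨s.symm (a : ↥K), ?_⟩, ?_⟩
    · have h := resK_mem_AK A K hdeci a.2
      rw [resK_inv] at h
      exact h
    · rw [galFH_symm_apply, algebraMap_AK_eq, galFH_algebraMap]; rfl
  · exact ⟨⟨s (a : ↥K), resK_mem_AK A K hdec a.2⟩, by
      rw [galFH'_apply, algebraMap_AK_eq, galFH_algebraMap, rootMul_algebraMap]; rfl⟩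
  · refine ⟨⟨s.symm (a : ↥K), ?_⟩, ?_⟩
    · have h := resK_mem_AK A K hdeci a.2
      rw [resK_inv] at h
      exact h
    · rw [galFH'_symm_apply, algebraMap_AK_eq, rootMul_symm_algebraMap, galFH_symm_apply,
        galFH_algebraMap]; rfl
  · -- map_t
    show galFH M' s hs (incl _ _ tH) = incl _ _ tH
    rw [galFH_incl, htH]
  · show galFH' M' hirr s hs c hc (incl _ _ tH) = incl _ _ tH
    rw [galFH'_apply, galFH_incl, htH, rootMul_incl]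
  · -- pres2 : `g = δ⁻¹ g'`
    intro x hx
    have h := hi2.map_mem x hx
    rw [galFH'_apply] at h
    exact (hδ2 _).1 h
  · intro x hx
    have h := hi2.symm_mem (δ x) ((hδ2 x).2 hx)
    rw [galFH'_symm_apply, RingEquiv.symm_apply_apply] at h
    exact h
  · obtain ⟨ε, h1, h2, h3⟩ := hi2.map_p
    exact ⟨ε, h1, h2, by rw [← hgp]; exact h3⟩
  · -- pres1' : `g' = δ g`
    intro x hx
    rw [galFH'_apply]
    exact (hδ1 _).2 (hi1.map_mem x hx)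
  · intro x hx
    rw [galFH'_symm_apply]
    refine hi1.symm_mem _ ?_
    rw [← hδ1, RingEquiv.apply_symm_apply]
    exact hx
  · obtain ⟨ε, h1, h2, h3⟩ := hi1.map_p
    exact ⟨ε, h1, h2, by rw [hgp]; exact h3⟩
  · -- comm
    exact galFH_rootMul_comm M' hirr s hs c hc hsc (galFH M' s hs x)

/-- the same with the Hauptmodul given by its integral `q`-expansion `tq`. -/
theorem mixData_gal_tq (hA : A.LiesOverPrime r) (hr2 : r ≠ 2) {π : ↥(AK A K)}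
    (hπ : IsUnif (AK A K) π) (hE : FK (M' * r) K ≤ fracField (AK A K))
    {ζ : ↥K} (hζK : algebraMap ↥K Qbar ζ = zetaK r) (hψ : ψ ≠ 1)
    (huniq1 : ∀ V : ValuationSubring ↥(FH M' ψ),
      (∀ f : ↥(FK (M' * r) K),
        algebraMap ↥(FK (M' * r) K) ↥(FH M' ψ) f ∈ V ↔ f ∈ O1 M' r hπ hE) →
      V = O1' hA hr2 M' hπ hE ψ)
    (huniq2 : ∀ V : ValuationSubring ↥(FH M' ψ),
      (∀ f : ↥(FK (M' * r) K),
        algebraMap ↥(FK (M' * r) K) ↥(FH M' ψ) f ∈ V ↔ f ∈ O2 M' r hπ hE) →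
      V = O2' hA hr2 M' hπ hE hirr hζK hψ)
    {τ : Qbar ≃ₐ[ℚ] Qbar} (hτ : τ ∈ A.inertiaSubgroupIn ℚ)
    (hs : ∀ a, resK K τ (ψ a) = ψ a) (t : ℕ) (ht : (t : ZMod r) ≠ 0)
    (hst : resK K τ ζ = ζ ^ t)
    (n₀ e₀ : ℕ) [NeZero n₀] (tH : ↥(FK (M' * r) K))
    (htH : (tH : LaurentSeries ↥K) = Fermat.Agent.RED.BASE.EtaQuot12.tq ↥K n₀ e₀) :
    MixData π (algebraMap ↥(FK (M' * r) K) ↥(FH M' ψ) tH) (O1' hA hr2 M' hπ hE ψ)
      (O2' hA hr2 M' hπ hE hirr hζK hψ) (galFH M' (resK K τ) hs)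
      (galFH' M' hirr (resK K τ) hs (ψ (t : ZMod r)) (psi_pow_eq_one hn ht)) :=
  mixData_gal M' hirr hA hr2 hπ hE hζK hψ huniq1 huniq2 hτ hs t ht hst tH
    (Fermat.Agent.ES.N34.GalConc21.galK_tq K (M' * r) τ n₀ e₀ tH htH)

end Main

/-! ### the pair as semilinear automorphisms of `F'_K / K` -/

section Semilinear

variable {K : IntermediateField ℚ Qbar}
variable {r : ℕ} [Fact r.Prime] [NeZero r] (M' : ℕ) [NeZero M']
variable {ψ : MulChar (ZMod r) ↥K} {n : ℕ} {heven : ψ (-1) = 1} {hn : ψ ^ n = 1}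
variable (hirr : Irreducible (X ^ n - C (uK M' heven hn) : (↥(FK (M' * r) K))[X]))

/-- `σ̃` as a semilinear automorphism of `F'_K / K`. -/
def gFH (s : ↥K ≃ₐ[ℚ] ↥K) (hs : ∀ a, s (ψ a) = ψ a) : SemilinearAut ↥K ↥(FH M' ψ) :=
  ⟨(galFH M' s hs, (s : ↥K ≃+* ↥K)), fun a => galFH_algebraMap M' s hs a⟩

@[simp] theorem toRingAut_gFH (s : ↥K ≃ₐ[ℚ] ↥K) (hs : ∀ a, s (ψ a) = ψ a) :
    SemilinearAut.toRingAut (gFH M' s hs) = galFH M' s hs := rfl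

@[simp] theorem baseAut_gFH (s : ↥K ≃ₐ[ℚ] ↥K) (hs : ∀ a, s (ψ a) = ψ a) :
    SemilinearAut.baseAut (gFH M' s hs) = (s : ↥K ≃+* ↥K) := rfl

/-- the deck transformation `δ_c : Θ ↦ c Θ` as a `K`-algebra automorphism. -/
def deltaKK (c : ↥K) (hc : c ^ n = 1) : ↥(FH M' ψ) ≃ₐ[↥K] ↥(FH M' ψ) :=
  AlgEquiv.ofRingEquiv (f := rootMul hirr (coe_uK M' heven hn).symm c hc)
    (rootMul_algebraMap M' hirr c hc)

@[simp] theorem deltaKK_apply (c : ↥K) (hc : c ^ n = 1) (x : ↥(FH M' ψ)) :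
    deltaKK M' hirr c hc x = deltaK M' hirr c hc x := rfl

/-- `δ_c σ̃` as a semilinear automorphism of `F'_K / K`. -/
def gFH' (s : ↥K ≃ₐ[ℚ] ↥K) (hs : ∀ a, s (ψ a) = ψ a) (c : ↥K) (hc : c ^ n = 1) :
    SemilinearAut ↥K ↥(FH M' ψ) :=
  SemilinearAut.ofAlgAut (deltaKK M' hirr c hc) * gFH M' s hs

@[simp] theorem toRingAut_gFH' (s : ↥K ≃ₐ[ℚ] ↥K) (hs : ∀ a, s (ψ a) = ψ a) (c : ↥K)
    (hc : c ^ n = 1) :
    SemilinearAut.toRingAut (gFH' M' hirr s hs c hc) = galFH' M' hirr s hs c hc := rfl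

@[simp] theorem baseAut_gFH' (s : ↥K ≃ₐ[ℚ] ↥K) (hs : ∀ a, s (ψ a) = ψ a) (c : ↥K)
    (hc : c ^ n = 1) :
    SemilinearAut.baseAut (gFH' M' hirr s hs c hc) = (s : ↥K ≃+* ↥K) := by
  show (1 : ↥K ≃+* ↥K) * (s : ↥K ≃+* ↥K) = _
  rw [one_mul]

end Semilinear

/-! ### GAL' in the form consumed by `MixChain9.MixReadyAt` -/

section Final

variable {A : ValuationSubring Qbar} {K : IntermediateField ℚ Qbar} [Normal ℚ K]
variable {r : ℕ} [Fact r.Prime] [NeZero r] (M' : ℕ) [NeZero M']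
variable {ψ : MulChar (ZMod r) ↥K} {n : ℕ} {heven : ψ (-1) = 1} {hn : ψ ^ n = 1}
variable (hirr : Irreducible (X ^ n - C (uK M' heven hn) : (↥(FK (M' * r) K))[X]))

/-- **GAL' for any pair of semilinear automorphisms with the right underlying maps.** -/
theorem mixData_of_eq (hA : A.LiesOverPrime r) (hr2 : r ≠ 2) {π : ↥(AK A K)}
    (hπ : IsUnif (AK A K) π) (hE : FK (M' * r) K ≤ fracField (AK A K))
    {ζ : ↥K} (hζK : algebraMap ↥K Qbar ζ = zetaK r) (hψ : ψ ≠ 1)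
    (huniq1 : ∀ V : ValuationSubring ↥(FH M' ψ),
      (∀ f : ↥(FK (M' * r) K),
        algebraMap ↥(FK (M' * r) K) ↥(FH M' ψ) f ∈ V ↔ f ∈ O1 M' r hπ hE) →
      V = O1' hA hr2 M' hπ hE ψ)
    (huniq2 : ∀ V : ValuationSubring ↥(FH M' ψ),
      (∀ f : ↥(FK (M' * r) K),
        algebraMap ↥(FK (M' * r) K) ↥(FH M' ψ) f ∈ V ↔ f ∈ O2 M' r hπ hE) →
      V = O2' hA hr2 M' hπ hE hirr hζK hψ)
    {τ : Qbar ≃ₐ[ℚ] Qbar} (hτ : τ ∈ A.inertiaSubgroupIn ℚ)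
    (hs : ∀ a, resK K τ (ψ a) = ψ a) (t : ℕ) (ht : (t : ZMod r) ≠ 0)
    (hst : resK K τ ζ = ζ ^ t)
    (n₀ e₀ : ℕ) [NeZero n₀] (tH : ↥(FK (M' * r) K))
    (htH : (tH : LaurentSeries ↥K) = Fermat.Agent.RED.BASE.EtaQuot12.tq ↥K n₀ e₀)
    (g g' : SemilinearAut ↥K ↥(FH M' ψ))
    (hg : ∀ x, SemilinearAut.toRingAut g x = galFH M' (resK K τ) hs x)
    (hg' : ∀ x, SemilinearAut.toRingAut g' x =
      deltaK M' hirr (ψ (t : ZMod r)) (psi_pow_eq_one hn ht) (galFH M' (resK K τ) hs x)) :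
    MixData π (algebraMap ↥(FK (M' * r) K) ↥(FH M' ψ) tH) (O1' hA hr2 M' hπ hE ψ)
      (O2' hA hr2 M' hπ hE hirr hζK hψ) (SemilinearAut.toRingAut g)
      (SemilinearAut.toRingAut g') := by
  have e1 : SemilinearAut.toRingAut g = galFH M' (resK K τ) hs := RingEquiv.ext hg
  have e2 : SemilinearAut.toRingAut g' =
      galFH' M' hirr (resK K τ) hs (ψ (t : ZMod r)) (psi_pow_eq_one hn ht) := RingEquiv.ext hg'
  rw [e1, e2]
  exact mixData_gal_tq M' hirr hA hr2 hπ hE hζK hψ huniq1 huniq2 hτ hs t ht hst n₀ e₀ tH htH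

/-- **GAL' for the pair `(gFH, gFH')`.** -/
theorem mixData_gFH (hA : A.LiesOverPrime r) (hr2 : r ≠ 2) {π : ↥(AK A K)}
    (hπ : IsUnif (AK A K) π) (hE : FK (M' * r) K ≤ fracField (AK A K))
    {ζ : ↥K} (hζK : algebraMap ↥K Qbar ζ = zetaK r) (hψ : ψ ≠ 1)
    (huniq1 : ∀ V : ValuationSubring ↥(FH M' ψ),
      (∀ f : ↥(FK (M' * r) K),
        algebraMap ↥(FK (M' * r) K) ↥(FH M' ψ) f ∈ V ↔ f ∈ O1 M' r hπ hE) →
      V = O1' hA hr2 M' hπ hE ψ)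
    (huniq2 : ∀ V : ValuationSubring ↥(FH M' ψ),
      (∀ f : ↥(FK (M' * r) K),
        algebraMap ↥(FK (M' * r) K) ↥(FH M' ψ) f ∈ V ↔ f ∈ O2 M' r hπ hE) →
      V = O2' hA hr2 M' hπ hE hirr hζK hψ)
    {τ : Qbar ≃ₐ[ℚ] Qbar} (hτ : τ ∈ A.inertiaSubgroupIn ℚ)
    (hs : ∀ a, resK K τ (ψ a) = ψ a) (t : ℕ) (ht : (t : ZMod r) ≠ 0)
    (hst : resK K τ ζ = ζ ^ t)
    (n₀ e₀ : ℕ) [NeZero n₀] (tH : ↥(FK (M' * r) K))
    (htH : (tH : LaurentSeries ↥K) = Fermat.Agent.RED.BASE.EtaQuot12.tq ↥K n₀ e₀) :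
    MixData π (algebraMap ↥(FK (M' * r) K) ↥(FH M' ψ) tH) (O1' hA hr2 M' hπ hE ψ)
      (O2' hA hr2 M' hπ hE hirr hζK hψ)
      (SemilinearAut.toRingAut (gFH M' (resK K τ) hs))
      (SemilinearAut.toRingAut
        (gFH' M' hirr (resK K τ) hs (ψ (t : ZMod r)) (psi_pow_eq_one hn ht))) :=
  mixData_gal_tq M' hirr hA hr2 hπ hE hζK hψ huniq1 huniq2 hτ hs t ht hst n₀ e₀ tH htH

end Final

end Fermat.Agent.M43.GalMix0
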