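/-
Programme M43, chapter (LG-q), Stage 1, block [S1-B] (helper8), file 3: **the bridge between N34's
Gauss ring over a number field `K` and T33's Gauss ring over `ℚbar`** (first component).

For `x ∈ FK (M' r) K` whose series lies in `gaussRing (AK A K)`:
`baseChangeHom x ∈ O1 h` (T33) and the series of `rho1 h (baseChangeHom x) ∈ Fb A M'` is the image of
`gaussRed (AK A K) x` under the coefficient map `resMap A K : Res (AK A K) → kA A`.
(The representation `x = a / s` of N34 uses ARBITRARY integral series `a`, `s`; T33's `O1 h` wants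
modular ones: the Gauss property `gauss1` of T33 and a reduction argument bridge the two.)
-/
import Mathlib
import Fermat.Agent.M43.GaussDataK8

set_option autoImplicit false
set_option linter.unusedSectionVars false
set_option linter.style.haveILetI false
set_option linter.unusedVariables false
set_option synthInstance.maxHeartbeats 400000

open ModularCurve AlgebraicCurve Polynomial

noncomputable section

namespace Fermat.Agent.M43.GaussBridgeK8

local notation "Qbar" => AlgebraicClosure ℚ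

open Fermat.Agent.X0 Fermat.Agent.RED.Interface4 Fermat.Agent.RED.DESC.PlaceExtend27
open Fermat.Agent.RED.DESC.NumberFieldDVR27
open Fermat.Agent.RED.PUR.GaussGen8 Fermat.Agent.ES.RED
open Fermat.Agent.T33.NodalHalf4 Fermat.Agent.FF.GaussOv1

variable {K : IntermediateField ℚ Qbar} {A : ValuationSubring Qbar}
variable {r M' : ℕ} [NeZero M'] [NeZero r]

/-- the `A`-series of an integral series over `AK A K`. -/
abbrev toA (a : LaurentSeries ↥(AK A K)) : LaurentSeries ↥A := coeffMap (incl A K) a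

theorem sub_toA (a : LaurentSeries ↥(AK A K)) :
    coeffMap A.subtype (toA (A := A) a) = coeffMap (algebraMap ↥K Qbar) (embK (AK A K) a) :=
  GaussUnit25.coeffMap_subtype_incl A K a

theorem res_toA (a : LaurentSeries ↥(AK A K)) :
    coeffMap (IsLocalRing.residue ↥A) (toA (A := A) a) =
      coeffMap (resMap A K) (redL (AK A K) a) :=
  GaussUnit25.coeffMap_residue_incl A K a

theorem coeffMap_resMap_injective :
    Function.Injective (coeffMap (resMap A K) :
      LaurentSeries (Res (AK A K)) → LaurentSeries (Setup8.kA A)) := by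
  intro x y hxy
  ext n
  have := congrArg (fun z => HahnSeries.coeff z n) hxy
  simp only [coeffMap_coeff] at this
  exact (resMap A K).injective this

set_option maxHeartbeats 3200000 in
/-- **THE BRIDGE (first component).** -/
theorem bridge_c1 (h : LevelHyp r M' A) (x : ↥(FK (M' * r) K))
    (hx : ((x : ↥(FK (M' * r) K)) : LaurentSeries ↥K) ∈ gaussRing (AK A K)) :
    ∃ hm : baseChangeHom (M' * r) K x ∈ O1 h,
      ((rho1 h ⟨_, hm⟩ : Fb A M') : LaurentSeries (Setup8.kA A)) =
        coeffMap (resMap A K) (gaussRed (AK A K) ⟨_, hx⟩) := by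
  by_cases hx0 : x = 0
  · subst hx0
    have hm : baseChangeHom (M' * r) K 0 ∈ O1 h := by rw [map_zero]; exact (O1 h).zero_mem
    refine ⟨hm, ?_⟩
    have e1 : (⟨baseChangeHom (M' * r) K 0, hm⟩ : ↥(O1 h)) = 0 := Subtype.ext (map_zero _)
    have e2 : (⟨((0 : ↥(FK (M' * r) K)) : LaurentSeries ↥K), hx⟩ : gaussRing (AK A K)) = 0 :=
      Subtype.ext rfl
    rw [e1, e2, map_zero, map_zero, map_zero]
    rfl
  obtain ⟨a, s, hs, has⟩ := hx
  set X := baseChangeHom (M' * r) K x with hX
  have hX0 : X ≠ 0 := by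
    intro h0
    apply hx0
    exact (baseChangeHom (M' * r) K).injective (by rw [← hX, h0, map_zero])
  obtain ⟨c, hc0, hm, hρ⟩ := gauss1 h X hX0
  obtain ⟨a', b', hb', hrel, hρe⟩ := exists_num_den _ (redN h)
    (⟨algebraMap Qbar ↥(Fbar (M' * r)) c * X, hm⟩ : ↥(O1 h))
  have hρe' : rho1 h ⟨algebraMap Qbar ↥(Fbar (M' * r)) c * X, hm⟩ = redN h a' / redN h b' := hρe
  have ha'0 : redN h a' ≠ 0 := by
    intro h0
    apply hρ
    rw [hρe', h0, zero_div]
  -- the `A`-series
  set A' := Setup8.liftA A (Fbar (M' * r)) a' with hA'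
  set B' := Setup8.liftA A (Fbar (M' * r)) b' with hB'
  have hA's : coeffMap A.subtype A' = ((a' : ↥(Fbar (M' * r))) : LaurentSeries Qbar) :=
    Setup8.coeffMap_liftA A _ a'
  have hB's : coeffMap A.subtype B' = ((b' : ↥(Fbar (M' * r))) : LaurentSeries Qbar) :=
    Setup8.coeffMap_liftA A _ b'
  have hrA' : ((redN h a' : Fb A M') : LaurentSeries (Setup8.kA A)) =
      coeffMap (IsLocalRing.residue ↥A) A' := by
    rw [coe_redN]; exact Setup8.redA_eq A _ a' hA's
  have hrB' : ((redN h b' : Fb A M') : LaurentSeries (Setup8.kA A)) =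
      coeffMap (IsLocalRing.residue ↥A) B' := by
    rw [coe_redN]; exact Setup8.redA_eq A _ b' hB's
  have hrA'0 : coeffMap (IsLocalRing.residue ↥A) A' ≠ 0 := by
    rw [← hrA']
    intro h0
    exact ha'0 (Subtype.ext h0)
  have hrB'0 : coeffMap (IsLocalRing.residue ↥A) B' ≠ 0 := by
    rw [← hrB']
    intro h0
    exact hb' (Subtype.ext h0)
  have hrs0 : coeffMap (IsLocalRing.residue ↥A) (toA (A := A) s) ≠ 0 := by
    rw [res_toA]
    intro h0
    apply hs
    apply coeffMap_resMap_injective (A := A) (K := K)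
    rw [h0, map_zero]
  -- the identities over `Qbar`
  set Xs : LaurentSeries Qbar := ((X : ↥(Fbar (M' * r))) : LaurentSeries Qbar) with hXs
  have I1 : Xs * coeffMap A.subtype (toA (A := A) s) = coeffMap A.subtype (toA (A := A) a) := by
    rw [sub_toA, sub_toA, hXs, hX, coe_baseChangeHom, ← map_mul, has]
  have I2 : algebraMap Qbar (LaurentSeries Qbar) c * Xs * coeffMap A.subtype B' =
      coeffMap A.subtype A' := by
    rw [hA's, hB's, ← hrel]
    rfl
  have I3 : algebraMap Qbar (LaurentSeries Qbar) c * coeffMap A.subtype (toA (A := A) a) *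
      coeffMap A.subtype B' = coeffMap A.subtype A' * coeffMap A.subtype (toA (A := A) s) := by
    rw [← I2, ← I1]
    ring
  -- `c⁻¹ ∈ A`
  have hcinv : c⁻¹ ∈ A := by
    by_contra hni
    have hcA : c ∈ A := by
      have := (A.mem_or_inv_mem c⁻¹).resolve_left hni
      rwa [inv_inv] at this
    have hres : IsLocalRing.residue ↥A ⟨c, hcA⟩ = 0 := by
      rw [IsLocalRing.residue_eq_zero_iff, IsLocalRing.mem_maximalIdeal, mem_nonunits_iff]
      intro hu
      apply hni
      obtain ⟨u, hu'⟩ := hu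
      have h1 : ((u⁻¹ : (↥A)ˣ) : ↥A) * ⟨c, hcA⟩ = 1 := by rw [← hu']; exact u.inv_mul
      have h2 : (((u⁻¹ : (↥A)ˣ) : ↥A) : Qbar) * c = 1 := congrArg Subtype.val h1
      have h3 : c⁻¹ = (((u⁻¹ : (↥A)ˣ) : ↥A) : Qbar) := by
        rw [eq_comm, ← mul_eq_one_iff_eq_inv₀ hc0]; exact h2
      rw [h3]
      exact ((u⁻¹ : (↥A)ˣ) : ↥A).2
    have hC : coeffMap A.subtype (HahnSeries.C (⟨c, hcA⟩ : ↥A)) =
        algebraMap Qbar (LaurentSeries Qbar) c := by
      rw [Fermat.Agent.RED.PUR.GaussGen8.coeffMap_C,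
        Fermat.Agent.RED.PUR.GaussGen8.algebraMap_eq_C]
      rfl
    have I4 : HahnSeries.C (⟨c, hcA⟩ : ↥A) * toA (A := A) a * B' = A' * toA (A := A) s := by
      apply Setup8.coeffMap_subtype_injective A
      rw [map_mul, map_mul, map_mul, hC]
      exact I3
    have I5 := congrArg (coeffMap (IsLocalRing.residue ↥A)) I4
    rw [map_mul, map_mul, map_mul, Fermat.Agent.RED.PUR.GaussGen8.coeffMap_C, hres, map_zero,
      zero_mul, zero_mul] at I5
    exact mul_ne_zero hrA'0 hrs0 I5.symm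
  set dA : ↥A := ⟨c⁻¹, hcinv⟩ with hdA
  have hC : coeffMap A.subtype (HahnSeries.C dA) =
      algebraMap Qbar (LaurentSeries Qbar) c⁻¹ := by
    rw [Fermat.Agent.RED.PUR.GaussGen8.coeffMap_C,
      Fermat.Agent.RED.PUR.GaussGen8.algebraMap_eq_C]
    rfl
  have I4 : toA (A := A) a * B' = HahnSeries.C dA * A' * toA (A := A) s := by
    apply Setup8.coeffMap_subtype_injective A
    rw [map_mul, map_mul, map_mul, hC]
    have hcc : algebraMap Qbar (LaurentSeries Qbar) c⁻¹ * algebraMap Qbar (LaurentSeries Qbar) c =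
        1 := by rw [← map_mul, inv_mul_cancel₀ hc0, map_one]
    calc coeffMap A.subtype (toA (A := A) a) * coeffMap A.subtype B'
        = (algebraMap Qbar (LaurentSeries Qbar) c⁻¹ * algebraMap Qbar (LaurentSeries Qbar) c) *
            (coeffMap A.subtype (toA (A := A) a) * coeffMap A.subtype B') := by
          rw [hcc, one_mul]
      _ = algebraMap Qbar (LaurentSeries Qbar) c⁻¹ *
            (algebraMap Qbar (LaurentSeries Qbar) c * coeffMap A.subtype (toA (A := A) a) *
              coeffMap A.subtype B') := by ring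
      _ = _ := by rw [I3]; ring
  have I5 := congrArg (coeffMap (IsLocalRing.residue ↥A)) I4
  rw [map_mul, map_mul, map_mul, Fermat.Agent.RED.PUR.GaussGen8.coeffMap_C] at I5
  -- membership
  have hXeq : algebraMap Qbar ↥(Fbar (M' * r)) (dA : Qbar) *
      (algebraMap Qbar ↥(Fbar (M' * r)) c * X) = X := by
    rw [← mul_assoc, ← map_mul]
    show algebraMap Qbar ↥(Fbar (M' * r)) (c⁻¹ * c) * X = X
    rw [inv_mul_cancel₀ hc0, map_one, one_mul]
  have hmX : X ∈ O1 h := by
    have := smul_mem_O1 h dA hm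
    rwa [hXeq] at this
  refine ⟨hmX, ?_⟩
  have hρX : rho1 h ⟨X, hmX⟩ =
      algebraMap (Setup8.kA A) (Fb A M') (IsLocalRing.residue ↥A dA) *
        (redN h a' / redN h b') := by
    have h1 := rho1_smul h dA ⟨_, hm⟩
    rw [hρe'] at h1
    rw [← h1]
    congr 1
    exact Subtype.ext hXeq.symm
  rw [hρX]
  have hg : gaussRed (AK A K) ⟨((x : ↥(FK (M' * r) K)) : LaurentSeries ↥K), ⟨a, s, hs, has⟩⟩ =
      redL (AK A K) a / redL (AK A K) s := gaussRed_eq (AK A K) ⟨hs, has⟩
  rw [hg, map_div₀, ← res_toA, ← res_toA]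
  have hcoe : ((algebraMap (Setup8.kA A) (Fb A M') (IsLocalRing.residue ↥A dA) *
      (redN h a' / redN h b') : Fb A M') : LaurentSeries (Setup8.kA A)) =
      HahnSeries.C (IsLocalRing.residue ↥A dA) *
        (coeffMap (IsLocalRing.residue ↥A) A' / coeffMap (IsLocalRing.residue ↥A) B') := by
    rw [← hrA', ← hrB', ← Fermat.Agent.RED.PUR.GaussGen8.algebraMap_eq_C]
    rfl
  rw [hcoe, eq_div_iff hrs0, mul_div_assoc', div_mul_eq_mul_div, div_eq_iff hrB'0, I5]

open Fermat.Agent.ES.N34.ModelDefs9 Fermat.Agent.ES.N34.FrickeFK8 Fermat.Agent.U44.GaussRed3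

/-- **THE BRIDGE (second component).** -/
theorem bridge_c2 (h : LevelHyp r M' A) (x : ↥(FK (M' * r) K))
    (hx : iota2 K M' r x ∈ gaussRing (AK A K)) :
    ∃ hm : baseChangeHom (M' * r) K x ∈ O2 h,
      ((rho2 h ⟨_, hm⟩ : Fb A M') : LaurentSeries (Setup8.kA A)) =
        coeffMap (resMap A K) (gaussRed (AK A K) ⟨_, hx⟩) := by
  have hx' : ((wN K M' r x : ↥(FK (M' * r) K)) : LaurentSeries ↥K) ∈ gaussRing (AK A K) := by
    rw [← iota2_apply]; exact hx
  obtain ⟨hm, hρ⟩ := bridge_c1 h (wN K M' r x) hx'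
  have e : baseChangeHom (M' * r) K (wN K M' r x) =
      frickeBar (M' * r) (baseChangeHom (M' * r) K x) := baseChangeHom_frickeFK (M' * r) K x
  have hm2 : baseChangeHom (M' * r) K x ∈ O2 h := by
    rw [Fermat.Agent.T33.NodalHalf4.mem_O2_iff, ← e]; exact hm
  refine ⟨hm2, ?_⟩
  rw [rho2_apply]
  have e2 : (⟨frickeBar (M' * r) (baseChangeHom (M' * r) K x), (Fermat.Agent.T33.NodalHalf4.mem_O2_iff h _).1 hm2⟩ : ↥(Fermat.Agent.T33.NodalHalf4.O1 h)) =
      ⟨baseChangeHom (M' * r) K (wN K M' r x), hm⟩ := Subtype.ext e.symm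
  rw [e2, hρ]
  rfl

/-- `red`-form of the first bridge. -/
theorem red_c1_baseChange (h : LevelHyp r M' A) (x : ↥(FK (M' * r) K))
    (hx : ((x : ↥(FK (M' * r) K)) : LaurentSeries ↥K) ∈ gaussRing (AK A K)) :
    ((red (c1 h) (baseChangeHom (M' * r) K x) : Fb A M') : LaurentSeries (Setup8.kA A)) =
      coeffMap (resMap A K) (gaussRed (AK A K) ⟨_, hx⟩) := by
  obtain ⟨hm, hρ⟩ := bridge_c1 h x hx
  rw [red_of_mem (c1 h) (show baseChangeHom (M' * r) K x ∈ (c1 h).O from hm)]
  exact hρ

/-- `red`-form of the second bridge. -/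
theorem red_c2_baseChange (h : LevelHyp r M' A) (x : ↥(FK (M' * r) K))
    (hx : iota2 K M' r x ∈ gaussRing (AK A K)) :
    ((red (c2 h) (baseChangeHom (M' * r) K x) : Fb A M') : LaurentSeries (Setup8.kA A)) =
      coeffMap (resMap A K) (gaussRed (AK A K) ⟨_, hx⟩) := by
  obtain ⟨hm, hρ⟩ := bridge_c2 h x hx
  rw [red_of_mem (c2 h) (show baseChangeHom (M' * r) K x ∈ (c2 h).O from hm)]
  exact hρ

end Fermat.Agent.M43.GaussBridgeK8
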