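/-
Programme M43, chapter (LG-q), Stage 1, block [S1-B] (helper8), file 4: **(UNIQ): `O1'`, `O2'` are
the UNIQUE valuation subrings of `F'_K = FH M' ψ` over `O1`, `O2`** (inputs `huniq1`, `huniq2` of
helper9's `KLift9.glueOut_lift`).

Route: `UniqueExt20.eq_of_residue_independent` with the elements `ϑ_j^i`, `i < p^k`, whose residues
are linearly independent over the residue field `κ_F = resField (AK A K) (FK (M' r) K)` because
`X^(p^k) − ū_j` is irreducible over `κ_F`: `ū_j` is not a `p`-th power in `κ_F`, since its image under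
the coefficient map `Res (AK A K) → kA A` is `red (c_j h) (u_j)`, which is not a `p`-th power in
`Fb A M'` (the slopes, `IgusaInst8.igusa_data`), and the bridge `GaussBridgeK8` maps `κ_F` into
`Fb A M'`.

* `not_pow_red_c1`, `not_pow_red_c2` (over `ℚbar`, any normalising constant);
* `not_pow_resField_one`, `not_pow_resField_two`;
* `linearIndependent_pow_of_not_pow`, `uniq_of_kummer` (abstract (UNIQ) for a Kummer generator);
* the instances `uniq_O1'`, `uniq_O2'`, `algEquiv_mem_O1'`, `algEquiv_mem_O2'` are in `GaussUniqK8`.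
-/
import Mathlib
import Fermat.Agent.M43.GaussBridgeK8
import Fermat.Agent.M43.GaussUp8

set_option autoImplicit false
set_option linter.unusedSectionVars false
set_option linter.style.haveILetI false
set_option linter.unusedVariables false
set_option synthInstance.maxHeartbeats 400000

open ModularCurve AlgebraicCurve Polynomial

noncomputable section

namespace Fermat.Agent.M43.GaussUniq8

local notation "Qbar" => AlgebraicClosure ℚ

open Fermat.Agent.X0 Fermat.Agent.RED.Interface4 Fermat.Agent.RED.DESC.PlaceExtend27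
open Fermat.Agent.RED.DESC.NumberFieldDVR27
open Fermat.Agent.RED.PUR.GaussGen8 Fermat.Agent.RED.PUR.GaussBridge10 Fermat.Agent.ES.RED
open Fermat.Agent.ES.N34.ModelDefs9 Fermat.Agent.ES.N34.FrickeFK8 Fermat.Agent.ES.N34.GaussEmb22
open Fermat.Agent.M43.IgusaSlope8 Fermat.Agent.M43.IgusaInst8
open Fermat.Agent.M43.KummerAdj8 Fermat.Agent.M43.KummerGal8
open Fermat.Agent.M43.ThetaFieldK8 Fermat.Agent.M43.ThetaDeltaK8 Fermat.Agent.M43.GaussDataK8
open Fermat.Agent.M43.GaussUp8 Fermat.Agent.M43.GaussBridgeK8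
open Fermat.Agent.T33.NodalHalf4 Fermat.Agent.U44.GaussRed3
open Fermat.Agent.T33.NodalInst4E (Nd Node)
open Fermat.Agent.T33.NodalInst4G (nodalRed)
open Fermat.Agent.T33.NodalCtx1

variable {A : ValuationSubring Qbar}
variable {r M' : ℕ} [NeZero M'] [NeZero r] [Fact r.Prime]

/-- shortcut instance. -/
local instance (priority := high) algebraAFbarUq8 : Algebra ↥A ↥(Fbar (M' * r)) := inferInstance

/-- shortcut instance. -/
local instance (priority := high) algebraKFbUq8 :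
    Algebra (Fermat.Agent.ES.RED.Setup8.kA A) (Fb A M') := inferInstance

/-! ### over `ℚbar` -/

set_option maxHeartbeats 1600000 in
/-- `red₁ u` is not a `p`-th power in `Fb A M'`. -/
theorem not_pow_red_c1 (h : LevelHyp r M' A) {ψ : MulChar (ZMod r) Qbar} (heven : ψ (-1) = 1)
    {p : ℕ} (hp : p.Prime) (k : ℕ) (hk : 1 ≤ k) (hord : orderOf ψ = p ^ k)
    (hn : ψ ^ (p ^ k) = 1) (G : Fb A M') : G ^ p ≠ red (c1 h) (uTheta M' heven hn) := by
  obtain ⟨b, c, hpb, hcb, hg₁, hg₂, hsl⟩ := igusa_data h heven hp k hk hord hn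
  obtain ⟨nd⟩ := (inferInstance : Nonempty (Node h))
  obtain ⟨h1, -⟩ := hsl nd
  have hpk : (p : ℤ) ∣ ((p ^ k : ℕ) : ℤ) := by
    exact_mod_cast dvd_pow_self p (by omega : k ≠ 0)
  exact Fermat.Agent.M43.IgusaIrr9.not_pow_of_ord ((Nd h).s1 nd)
    (Fermat.Agent.M43.IgusaIrr9.not_dvd_of_dvd_sub hpk h1 hpb) G

set_option maxHeartbeats 1600000 in
/-- `red₂ (c'⁻¹ u)` is not a `p`-th power in `Fb A M'`, for EVERY constant `c'` making `c'⁻¹ u` a
Gauss unit of `C₂`. -/
theorem not_pow_red_c2 (h : LevelHyp r M' A) {ψ : MulChar (ZMod r) Qbar} (heven : ψ (-1) = 1)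
    {p : ℕ} (hp : p.Prime) (k : ℕ) (hk : 1 ≤ k) (hord : orderOf ψ = p ^ k)
    (hn : ψ ^ (p ^ k) = 1) {c' : Qbar}
    (hc' : IsGU (c2 h) (algebraMap Qbar ↥(Fbar (M' * r)) c'⁻¹ * uTheta M' heven hn))
    (G : Fb A M') :
    G ^ p ≠ red (c2 h) (algebraMap Qbar ↥(Fbar (M' * r)) c'⁻¹ * uTheta M' heven hn) := by
  obtain ⟨b, c, hpb, hcb, hg₁, hg₂, hsl⟩ := igusa_data h heven hp k hk hord hn
  obtain ⟨nd⟩ := (inferInstance : Nonempty (Node h))
  obtain ⟨-, h2⟩ := hsl nd
  have hpk : (p : ℤ) ∣ ((p ^ k : ℕ) : ℤ) := by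
    exact_mod_cast dvd_pow_self p (by omega : k ≠ 0)
  set u := uTheta M' heven hn with hu
  -- the ratio of the constants is a unit
  have hε : AUnit A (c'⁻¹ / c⁻¹) := aunit_div_of_isGU hc' hg₂
  have e : algebraMap Qbar ↥(Fbar (M' * r)) c'⁻¹ * u =
      algebraMap Qbar ↥(Fbar (M' * r)) (c'⁻¹ / c⁻¹) *
        (algebraMap Qbar ↥(Fbar (M' * r)) c⁻¹ * u) := by
    have hc0 : c⁻¹ ≠ 0 := fun h0 => hg₂.ne_zero (by rw [h0, map_zero, zero_mul])
    rw [← mul_assoc, ← map_mul, div_mul_cancel₀ _ hc0]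
  rw [e, red_mul (c2 h) (const_mem (c2 h) hε.1) hg₂.mem, red_const (c2 h) hε.1]
  set ē := IsLocalRing.residue ↥A ⟨c'⁻¹ / c⁻¹, hε.1⟩ with hē
  have hē0 : ē ≠ 0 := by
    have := (isGU_const (R := c2 h) hε).2
    rw [red_const (c2 h) hε.1] at this
    intro h0
    apply this
    rw [← hē, h0, map_zero]
  have hord2 : ((Nd h).s2 nd).ord
      (algebraMap (Fermat.Agent.ES.RED.Setup8.kA A) (Fb A M') ē *
        red (c2 h) (algebraMap Qbar ↥(Fbar (M' * r)) c⁻¹ * u)) =
      ((Nd h).s2 nd).ord (red (c2 h) (algebraMap Qbar ↥(Fbar (M' * r)) c⁻¹ * u)) := by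
    have hē' : algebraMap (Fermat.Agent.ES.RED.Setup8.kA A) (Fb A M') ē ≠ 0 := by
      rwa [ne_eq, _root_.map_eq_zero]
    rw [((Nd h).s2 nd).ord_mul hē' hg₂.2, Fermat.Agent.X0.FF.ord_algebraMap, zero_add]
  have hpb' : ¬ (p : ℤ) ∣ -b := fun hd => hpb ((dvd_neg).1 hd)
  refine Fermat.Agent.M43.IgusaIrr9.not_pow_of_ord ((Nd h).s2 nd) ?_ G
  rw [hord2]
  refine Fermat.Agent.M43.IgusaIrr9.not_dvd_of_dvd_sub hpk ?_ hpb'
  rw [sub_neg_eq_add]
  exact h2

/-! ### abstract: linear independence of the powers of a Kummer generator -/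

/-- if `θ^(p^k)` lies in a subfield `κE` but is not a `p`-th power there (`p` odd), the powers
`θ^i`, `i < p^k`, are linearly independent over `κE`. -/
theorem linearIndependent_pow_of_not_pow {κ : Type*} [Field κ] (κE : Subfield κ) {p : ℕ}
    (hp : p.Prime) (hp2 : p ≠ 2) (k : ℕ) (θ : κ) (hθ : θ ^ (p ^ k) ∈ κE)
    (hnp : ∀ y ∈ κE, y ^ p ≠ θ ^ (p ^ k)) :
    LinearIndependent κE (fun i : Fin (p ^ k) => θ ^ (i : ℕ)) := by
  set ū : κE := ⟨θ ^ (p ^ k), hθ⟩ with hū
  have hirr : Irreducible (X ^ (p ^ k) - C ū : κE[X]) := by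
    refine X_pow_sub_C_irreducible_of_prime_pow hp hp2 k fun b hb => ?_
    exact hnp (b : κ) b.2 (by
      have := congrArg (fun z : κE => (z : κ)) hb
      simpa using this)
  have hmonic : (X ^ (p ^ k) - C ū : κE[X]).Monic :=
    monic_X_pow_sub_C _ (pow_ne_zero k hp.ne_zero)
  have heval : aeval θ (X ^ (p ^ k) - C ū : κE[X]) = 0 := by
    rw [map_sub, map_pow, aeval_X, aeval_C]
    show θ ^ (p ^ k) - (ū : κ) = 0
    rw [hū, sub_self]
  have hmin : (X ^ (p ^ k) - C ū : κE[X]) = minpoly κE θ :=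
    minpoly.eq_of_irreducible_of_monic hirr heval hmonic
  have hdeg : (minpoly κE θ).natDegree = p ^ k := by
    rw [← hmin, natDegree_X_pow_sub_C]
  have hli := linearIndependent_pow (K := κE) θ
  have := hli.comp (Fin.cast hdeg.symm) (Fin.cast_injective _)
  exact this

/-- **abstract (UNIQ) for a Kummer generator**: `F' / F` of degree `≤ p^k`, `O₁` a valuation subring
of `F'` with a residue map `red` into a field `κ`, `κE ⊂ κ` a subfield containing the residues of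
`O₁ ∩ F`, `ϑ ∈ O₁` with `red ϑ ^ (p^k) ∈ κE` not a `p`-th power in `κE` (`p` odd). Then every valuation
subring `V` of `F'` with `V ∩ F = O₁ ∩ F` equals `O₁`. -/
theorem uniq_of_kummer {F F' : Type*} [Field F] [Field F'] [Algebra F F'] [FiniteDimensional F F']
    {p : ℕ} (hp : p.Prime) (hp2 : p ≠ 2) (k : ℕ) (hfin : Module.finrank F F' ≤ p ^ k)
    (O₁ V : ValuationSubring F')
    (hcomap : ∀ f : F, algebraMap F F' f ∈ O₁ ↔ algebraMap F F' f ∈ V)
    {κ : Type*} [Field κ] (red : O₁ →+* κ)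
    (hker : ∀ x : O₁, red x = 0 ↔ O₁.valuation (x : F') < 1)
    (κE : Subfield κ) (hκE : ∀ (a : F) (ha : algebraMap F F' a ∈ O₁), red ⟨_, ha⟩ ∈ κE)
    (ϑ : O₁) (hϑ : red ϑ ^ (p ^ k) ∈ κE) (hnp : ∀ y ∈ κE, y ^ p ≠ red ϑ ^ (p ^ k)) :
    V = O₁ := by
  have hli := linearIndependent_pow_of_not_pow κE hp hp2 k (red ϑ) hϑ hnp
  refine Fermat.Agent.RED.PUR.UniqueExt20.eq_of_residue_independent (n := p ^ k) hfin O₁ V ?_
    red hker κE hκE (fun i => ϑ ^ (i : ℕ)) ?_
  · ext f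
    rw [ValuationSubring.mem_comap, ValuationSubring.mem_comap]
    exact hcomap f
  · have e : (fun i : Fin (p ^ k) => red (ϑ ^ (i : ℕ))) = fun i : Fin (p ^ k) => red ϑ ^ (i : ℕ) := by
      funext i
      rw [map_pow]
    rw [e]
    exact hli

/-! ### over `K` -/

variable {K : IntermediateField ℚ Qbar}

set_option maxHeartbeats 1600000 in
/-- **`ū₁ = red (u_K)` is not a `p`-th power in the residue field of `O1`.** -/
theorem not_pow_resField_one (h : LevelHyp r M' A) {ψ : MulChar (ZMod r) ↥K} (heven : ψ (-1) = 1)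
    {p : ℕ} (hp : p.Prime) (k : ℕ) (hk : 1 ≤ k) (hord : orderOf ψ = p ^ k)
    (hn : ψ ^ (p ^ k) = 1)
    (huK : ((uK M' heven hn : ↥(FK (M' * r) K)) : LaurentSeries ↥K) ∈ gaussRing (AK A K))
    {y : LaurentSeries (Res (AK A K))} (hy : y ∈ resField (AK A K) (FK (M' * r) K)) :
    y ^ p ≠ gaussRed (AK A K) ⟨_, huK⟩ := by
  obtain ⟨f, hf, hfE, rfl⟩ := hy
  intro hpow
  set x : ↥(FK (M' * r) K) := ⟨f, hfE⟩ with hx
  have h1 := red_c1_baseChange h x hf
  have h2 := red_c1_baseChange h (uK M' heven hn) huK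
  rw [baseChangeHom_uK] at h2
  refine not_pow_red_c1 h (psiBar_even heven) hp k hk ((orderOf_psiBar ψ).trans hord)
    (psiBar_pow hn) (red (c1 h) (baseChangeHom (M' * r) K x)) ?_
  apply Subtype.ext
  rw [SubmonoidClass.coe_pow, h1, h2, ← hpow, map_pow]

set_option maxHeartbeats 1600000 in
/-- **`ū₂ = red (ι₂ (c⁻¹ u_K))` is not a `p`-th power in the residue field of `O2`** (which is the
same subfield of `κ((q))` as that of `O1`), for every constant `c ∈ K^×` making `ι₂ (c⁻¹ u_K)` a unit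
of the Gauss ring. -/
theorem not_pow_resField_two (h : LevelHyp r M' A) {ψ : MulChar (ZMod r) ↥K} (heven : ψ (-1) = 1)
    {p : ℕ} (hp : p.Prime) (k : ℕ) (hk : 1 ≤ k) (hord : orderOf ψ = p ^ k)
    (hn : ψ ^ (p ^ k) = 1) {c : ↥K} (hc : c ≠ 0)
    (hx₂ : iota2 K M' r (algebraMap ↥K ↥(FK (M' * r) K) c⁻¹ * uK M' heven hn) ∈
      gaussRing (AK A K))
    (hne : gaussRed (AK A K) ⟨_, hx₂⟩ ≠ 0)
    {y : LaurentSeries (Res (AK A K))} (hy : y ∈ resField (AK A K) (FK (M' * r) K)) :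
    y ^ p ≠ gaussRed (AK A K) ⟨_, hx₂⟩ := by
  obtain ⟨f, hf, hfE, rfl⟩ := hy
  intro hpow
  set x' : ↥(FK (M' * r) K) := ⟨f, hfE⟩ with hx'
  set x : ↥(FK (M' * r) K) := wN K M' r x' with hx
  have hix : iota2 K M' r x = f := by
    rw [iota2_apply, hx, wN_wN]
  have hxm : iota2 K M' r x ∈ gaussRing (AK A K) := by rw [hix]; exact hf
  have h1 := red_c2_baseChange h x hxm
  have e1 : (⟨iota2 K M' r x, hxm⟩ : gaussRing (AK A K)) = ⟨f, hf⟩ := Subtype.ext hix
  rw [e1] at h1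
  obtain ⟨hm2, hρ2⟩ := bridge_c2 h _ hx₂
  have h2 := red_c2_baseChange h _ hx₂
  have hbc : baseChangeHom (M' * r) K (algebraMap ↥K ↥(FK (M' * r) K) c⁻¹ * uK M' heven hn) =
      algebraMap Qbar ↥(Fbar (M' * r)) (algebraMap ↥K Qbar c)⁻¹ *
        uTheta M' (psiBar_even heven) (psiBar_pow hn) := by
    rw [map_mul, baseChangeHom_algebraMap, baseChangeHom_uK]
    congr 2
  rw [hbc] at h2 hm2
  have hgu : IsGU (c2 h) (algebraMap Qbar ↥(Fbar (M' * r)) (algebraMap ↥K Qbar c)⁻¹ *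
      uTheta M' (psiBar_even heven) (psiBar_pow hn)) := by
    refine ⟨hm2, ?_⟩
    intro h0
    apply hne
    apply coeffMap_resMap_injective (A := A) (K := K)
    rw [← h2, h0, map_zero]
    rfl
  refine not_pow_red_c2 h (psiBar_even heven) hp k hk ((orderOf_psiBar ψ).trans hord)
    (psiBar_pow hn) hgu (red (c2 h) (baseChangeHom (M' * r) K x)) ?_
  apply Subtype.ext
  rw [SubmonoidClass.coe_pow, h1, h2, ← hpow, map_pow]

/-! ### (UNIQ) -/

end Fermat.Agent.M43.GaussUniq8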