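/-
Programme M43, chapter (LG-q), Stage 1, block [S1-B] (helper8), file 5: **(UNIQ₁), (UNIQ₂) for
`F'_K = FH M' ψ`** = the inputs `huniq1`, `huniq2` of helper9's `KLift9.glueOut_lift`, and
`δ O_j' ⊆ O_j'`.
-/
import Mathlib
import Fermat.Agent.M43.GaussUniq8

set_option autoImplicit false
set_option linter.unusedSectionVars false
set_option linter.style.haveILetI false
set_option linter.unusedVariables false
set_option synthInstance.maxHeartbeats 400000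

open ModularCurve AlgebraicCurve Polynomial

noncomputable section

namespace Fermat.Agent.M43.GaussUniqK8

local notation "Qbar" => AlgebraicClosure ℚ

open Fermat.Agent.X0 Fermat.Agent.RED.Interface4 Fermat.Agent.RED.DESC.PlaceExtend27
open Fermat.Agent.RED.DESC.NumberFieldDVR27
open Fermat.Agent.RED.PUR.GaussGen8 Fermat.Agent.RED.PUR.GaussBridge10 Fermat.Agent.ES.RED
open Fermat.Agent.ES.N34.ModelDefs9 Fermat.Agent.ES.N34.FrickeFK8 Fermat.Agent.ES.N34.GaussEmb22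
open Fermat.Agent.M43.KummerAdj8 Fermat.Agent.M43.KummerGal8
open Fermat.Agent.M43.ThetaFieldK8 Fermat.Agent.M43.ThetaDeltaK8 Fermat.Agent.M43.GaussDataK8
open Fermat.Agent.M43.GaussUp8 Fermat.Agent.M43.GaussBridgeK8 Fermat.Agent.M43.GaussUniq8
open Fermat.Agent.T33.NodalHalf4

variable {A : ValuationSubring Qbar}
variable {r M' : ℕ} [NeZero M'] [NeZero r] [Fact r.Prime]
variable {K : IntermediateField ℚ Qbar}

set_option maxHeartbeats 1600000 in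
/-- **(UNIQ₁): `O1'` is the unique valuation subring of `F'_K` over `O1`.** -/
theorem uniq_O1' (h : LevelHyp r M' A) {π : ↥(AK A K)} (hπ : IsUnif (AK A K) π)
    (hE : FK (M' * r) K ≤ fracField (AK A K)) {ψ : MulChar (ZMod r) ↥K} (heven : ψ (-1) = 1)
    {p : ℕ} (hp : p.Prime) (hp2 : p ≠ 2) (k : ℕ) (hk : 1 ≤ k) (hord : orderOf ψ = p ^ k)
    (hn : ψ ^ (p ^ k) = 1) (V : ValuationSubring ↥(FH M' ψ))
    (hV : ∀ f : ↥(FK (M' * r) K),
      algebraMap ↥(FK (M' * r) K) ↥(FH M' ψ) f ∈ V ↔ f ∈ O1 M' r hπ hE) :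
    V = O1' h.liesOver h.ne_two M' hπ hE ψ := by
  have hirr := irreducible_uK M' h heven hp hp2 k hk hord hn
  haveI := finiteDimensional_FH M' hirr
  have hGP := isGaussPullback_O1' h.liesOver h.ne_two M' hπ hE ψ
  obtain ⟨hΘ, hΘne⟩ := thetaInfK_unit (A := A) (K := K) h.liesOver h.ne_two ψ
  have huK : ((uK M' heven hn : ↥(FK (M' * r) K)) : LaurentSeries ↥K) ∈ gaussRing (AK A K) := by
    rw [coe_uK]; exact pow_mem hΘ _
  have hϑmem : thetaK M' ψ ∈ O1' h.liesOver h.ne_two M' hπ hE ψ := hΘ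
  have hred : redOf hGP ⟨thetaK M' ψ, hϑmem⟩ ^ (p ^ k) = gaussRed (AK A K) ⟨_, huK⟩ := by
    rw [redOf_apply, ← map_pow]
    congr 1
  have hmemκ : ∀ y, y ∈ (resField (AK A K) (FK (M' * r) K)).toSubfield ↔
      y ∈ resField (AK A K) (FK (M' * r) K) := fun y => Iff.rfl
  refine uniq_of_kummer (F := ↥(FK (M' * r) K)) (F' := ↥(FH M' ψ))
    (κ := LaurentSeries (Res (AK A K))) hp hp2 k (finrank_FH M' hirr).le (O1' h.liesOver h.ne_two M' hπ hE ψ) V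
    (fun f => (algebraMap_mem_O1'_iff h.liesOver h.ne_two M' hπ hE ψ f).trans (hV f).symm)
    (redOf hGP) (redOf_eq_zero_iff hGP) (resField (AK A K) (FK (M' * r) K)).toSubfield
    ?_ ⟨thetaK M' ψ, hϑmem⟩ ?_ ?_
  · intro a ha
    rw [hmemκ]
    have hmem : ((a : ↥(FK (M' * r) K)) : LaurentSeries ↥K) ∈ gaussRing (AK A K) :=
      (algebraMap_mem_O1'_iff h.liesOver h.ne_two M' hπ hE ψ a).1 ha
    refine ⟨((a : ↥(FK (M' * r) K)) : LaurentSeries ↥K), hmem, a.2, ?_⟩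
    rw [redOf_apply]
    congr 1
  · rw [hred, hmemκ]
    exact ⟨_, huK, (uK M' heven hn).2, rfl⟩
  · intro y hy
    rw [hred]
    exact not_pow_resField_one h heven hp k hk hord hn huK ((hmemκ y).1 hy)

theorem psi_ne_one {ψ : MulChar (ZMod r) ↥K} {p : ℕ} (hp : p.Prime) {k : ℕ} (hk : 1 ≤ k)
    (hord : orderOf ψ = p ^ k) : ψ ≠ 1 := by
  rintro rfl
  rw [orderOf_one] at hord
  have : 1 < p ^ k := Nat.one_lt_pow (by omega) hp.one_lt
  omega

/-- `ι₂'` on constants. -/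
theorem iota2'_algebraMap {ψ : MulChar (ZMod r) ↥K} {n : ℕ} {heven : ψ (-1) = 1}
    {hn : ψ ^ n = 1}
    (hirr : Irreducible (X ^ n - C (uK M' heven hn) : (↥(FK (M' * r) K))[X]))
    {ζ : ↥K} (hζK : algebraMap ↥K Qbar ζ = zetaK r) (hψ : ψ ≠ 1) (c : ↥K) :
    iota2' M' hirr hζK hψ (algebraMap ↥K ↥(FH M' ψ) c) = HahnSeries.C c := by
  show iota2' M' hirr hζK hψ (incl (FK (M' * r) K) (thetaInfK K ψ)
    (algebraMap ↥K ↥(FK (M' * r) K) c)) = _
  rw [iota2'_incl, iotaTwo_algebraMap]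

set_option maxHeartbeats 1600000 in
/-- **(UNIQ₂): `O2'` is the unique valuation subring of `F'_K` over `O2`.** -/
theorem uniq_O2' (h : LevelHyp r M' A) {π : ↥(AK A K)} (hπ : IsUnif (AK A K) π)
    (hE : FK (M' * r) K ≤ fracField (AK A K)) {ψ : MulChar (ZMod r) ↥K} (heven : ψ (-1) = 1)
    {p : ℕ} (hp : p.Prime) (hp2 : p ≠ 2) (k : ℕ) (hk : 1 ≤ k) (hord : orderOf ψ = p ^ k)
    (hn : ψ ^ (p ^ k) = 1) {ζ : ↥K} (hζK : algebraMap ↥K Qbar ζ = zetaK r)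
    (V : ValuationSubring ↥(FH M' ψ))
    (hV : ∀ f : ↥(FK (M' * r) K),
      algebraMap ↥(FK (M' * r) K) ↥(FH M' ψ) f ∈ V ↔ f ∈ O2 M' r hπ hE) :
    V = O2' h.liesOver h.ne_two M' hπ hE (irreducible_uK M' h heven hp hp2 k hk hord hn) hζK
      (psi_ne_one hp hk hord) := by
  have hψ := psi_ne_one hp hk hord
  have hirr := irreducible_uK M' h heven hp hp2 k hk hord hn
  haveI := finiteDimensional_FH M' hirr
  have hGP := isGaussPullback_O2' h.liesOver h.ne_two M' hπ hE hirr hζK hψ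
  obtain ⟨γ, hγ0, hΘ₂, hΘ₂ne⟩ := exists_theta2_const (A := A) h.liesOver h.ne_two M' hζK hψ heven
  set c : ↥K := γ ^ (p ^ k) with hc
  have hc0 : c ≠ 0 := pow_ne_zero _ hγ0
  -- the normalised Kummer generator
  set ϑ₂ : ↥(FH M' ψ) := algebraMap ↥K ↥(FH M' ψ) γ⁻¹ * thetaK M' ψ with hϑ₂
  have hιϑ₂ : iota2' M' hirr hζK hψ ϑ₂ = HahnSeries.C γ⁻¹ * theta2K M' ζ ψ := by
    rw [hϑ₂, map_mul, iota2'_algebraMap, iota2'_theta]
  have hϑmem : ϑ₂ ∈ O2' h.liesOver h.ne_two M' hπ hE hirr hζK hψ := by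
    rw [mem_O2'_iff, hιϑ₂]; exact hΘ₂
  -- `ι₂ (c⁻¹ u_K) = (γ⁻¹ Θ₂)^(p^k)`
  have hιu : iota2 K M' r (algebraMap ↥K ↥(FK (M' * r) K) c⁻¹ * uK M' heven hn) =
      (HahnSeries.C γ⁻¹ * theta2K M' ζ ψ) ^ (p ^ k) := by
    show iotaTwo (M' * r) K (_ * _) = _
    rw [map_mul, iotaTwo_algebraMap, ← theta2K_pow M' hζK hψ heven hn, mul_pow, ← map_pow, hc,
      inv_pow]
  have hx₂ : iota2 K M' r (algebraMap ↥K ↥(FK (M' * r) K) c⁻¹ * uK M' heven hn) ∈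
      gaussRing (AK A K) := by
    rw [hιu]; exact pow_mem hΘ₂ _
  have hred : redOf hGP ⟨ϑ₂, hϑmem⟩ ^ (p ^ k) = gaussRed (AK A K) ⟨_, hx₂⟩ := by
    rw [redOf_apply, ← map_pow]
    congr 1
    apply Subtype.ext
    rw [SubmonoidClass.coe_pow, coe_toGauss]
    show iota2' M' hirr hζK hψ ϑ₂ ^ (p ^ k) =
      iota2 K M' r (algebraMap ↥K ↥(FK (M' * r) K) c⁻¹ * uK M' heven hn)
    rw [hιu, hιϑ₂]
  have hne : gaussRed (AK A K) ⟨_, hx₂⟩ ≠ 0 := by
    rw [← hred, redOf_apply]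
    refine pow_ne_zero _ ?_
    have e : toGauss hGP ⟨ϑ₂, hϑmem⟩ = ⟨_, hΘ₂⟩ := Subtype.ext hιϑ₂
    rw [e]
    exact hΘ₂ne
  have hmemκ : ∀ y, y ∈ (resField (AK A K) (FK (M' * r) K)).toSubfield ↔
      y ∈ resField (AK A K) (FK (M' * r) K) := fun y => Iff.rfl
  refine uniq_of_kummer (F := ↥(FK (M' * r) K)) (F' := ↥(FH M' ψ))
    (κ := LaurentSeries (Res (AK A K))) hp hp2 k (finrank_FH M' hirr).le
    (O2' h.liesOver h.ne_two M' hπ hE hirr hζK hψ) V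
    (fun f => (algebraMap_mem_O2'_iff h.liesOver h.ne_two M' hπ hE hirr hζK hψ f).trans
      (hV f).symm)
    (redOf hGP) (redOf_eq_zero_iff hGP) (resField (AK A K) (FK (M' * r) K)).toSubfield
    ?_ ⟨ϑ₂, hϑmem⟩ ?_ ?_
  · intro a ha
    rw [hmemκ]
    have hmem2 : a ∈ O2 M' r hπ hE :=
      (algebraMap_mem_O2'_iff h.liesOver h.ne_two M' hπ hE hirr hζK hψ a).1 ha
    have hmem : ((wN K M' r a : ↥(FK (M' * r) K)) : LaurentSeries ↥K) ∈ gaussRing (AK A K) := by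
      rw [← iota2_apply]; exact (mem_O2_iff M' r hπ hE a).1 hmem2
    refine ⟨((wN K M' r a : ↥(FK (M' * r) K)) : LaurentSeries ↥K), hmem, (wN K M' r a).2, ?_⟩
    rw [redOf_apply]
    congr 1
    apply Subtype.ext
    rw [coe_toGauss]
    show _ = iota2' M' hirr hζK hψ (incl (FK (M' * r) K) (thetaInfK K ψ) a)
    rw [iota2'_incl, iotaTwo_apply]
    rfl
  · rw [hred, hmemκ]
    refine ⟨_, hx₂, ?_, rfl⟩
    rw [iota2_apply]
    exact (wN K M' r _).2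
  · intro y hy
    rw [hred]
    exact not_pow_resField_two h heven hp k hk hord hn hc0 hx₂ hne ((hmemκ y).1 hy)

/-! ### `δ` preserves `O1'` and `O2'` -/

set_option maxHeartbeats 1600000 in
/-- every `F_K`-automorphism of `F'_K` maps `O1'` into itself. -/
theorem algEquiv_mem_O1' (h : LevelHyp r M' A) {π : ↥(AK A K)} (hπ : IsUnif (AK A K) π)
    (hE : FK (M' * r) K ≤ fracField (AK A K)) {ψ : MulChar (ZMod r) ↥K} (heven : ψ (-1) = 1)
    {p : ℕ} (hp : p.Prime) (hp2 : p ≠ 2) (k : ℕ) (hk : 1 ≤ k) (hord : orderOf ψ = p ^ k)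
    (hn : ψ ^ (p ^ k) = 1) (δ : ↥(FH M' ψ) ≃ₐ[↥(FK (M' * r) K)] ↥(FH M' ψ))
    {x : ↥(FH M' ψ)} (hx : x ∈ O1' h.liesOver h.ne_two M' hπ hE ψ) :
    δ x ∈ O1' h.liesOver h.ne_two M' hπ hE ψ := by
  set V : ValuationSubring ↥(FH M' ψ) :=
    (O1' h.liesOver h.ne_two M' hπ hE ψ).comap (δ : ↥(FH M' ψ) →+* ↥(FH M' ψ)) with hVdef
  have hV : V = O1' h.liesOver h.ne_two M' hπ hE ψ := by
    refine uniq_O1' h hπ hE heven hp hp2 k hk hord hn V fun f => ?_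
    rw [hVdef, ValuationSubring.mem_comap]
    show δ (algebraMap ↥(FK (M' * r) K) ↥(FH M' ψ) f) ∈ _ ↔ _
    rw [δ.commutes]
    exact algebraMap_mem_O1'_iff h.liesOver h.ne_two M' hπ hE ψ f
  have hxV : x ∈ V := by rw [hV]; exact hx
  exact hxV

set_option maxHeartbeats 1600000 in
/-- every `F_K`-automorphism of `F'_K` maps `O2'` into itself. -/
theorem algEquiv_mem_O2' (h : LevelHyp r M' A) {π : ↥(AK A K)} (hπ : IsUnif (AK A K) π)
    (hE : FK (M' * r) K ≤ fracField (AK A K)) {ψ : MulChar (ZMod r) ↥K} (heven : ψ (-1) = 1)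
    {p : ℕ} (hp : p.Prime) (hp2 : p ≠ 2) (k : ℕ) (hk : 1 ≤ k) (hord : orderOf ψ = p ^ k)
    (hn : ψ ^ (p ^ k) = 1) {ζ : ↥K} (hζK : algebraMap ↥K Qbar ζ = zetaK r)
    (δ : ↥(FH M' ψ) ≃ₐ[↥(FK (M' * r) K)] ↥(FH M' ψ)) {x : ↥(FH M' ψ)}
    (hx : x ∈ O2' h.liesOver h.ne_two M' hπ hE (irreducible_uK M' h heven hp hp2 k hk hord hn) hζK
      (psi_ne_one hp hk hord)) :
    δ x ∈ O2' h.liesOver h.ne_two M' hπ hE (irreducible_uK M' h heven hp hp2 k hk hord hn) hζK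
      (psi_ne_one hp hk hord) := by
  set O := O2' h.liesOver h.ne_two M' hπ hE (irreducible_uK M' h heven hp hp2 k hk hord hn) hζK
      (psi_ne_one hp hk hord) with hO
  set V : ValuationSubring ↥(FH M' ψ) := O.comap (δ : ↥(FH M' ψ) →+* ↥(FH M' ψ)) with hVdef
  have hV : V = O := by
    refine uniq_O2' h hπ hE heven hp hp2 k hk hord hn hζK V fun f => ?_
    rw [hVdef, ValuationSubring.mem_comap]
    show δ (algebraMap ↥(FK (M' * r) K) ↥(FH M' ψ) f) ∈ _ ↔ _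
    rw [δ.commutes]
    exact algebraMap_mem_O2'_iff h.liesOver h.ne_two M' hπ hE _ hζK _ f
  have hxV : x ∈ V := by rw [hV]; exact hx
  exact hxV

end Fermat.Agent.M43.GaussUniqK8
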