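/-
Programme M43, chapter (LG-q), Stage 1, block [S1-E GAL'] (lead), file 2: **GAL' closed**: the
`MixNum9.MixData` of the mixed pair `(σ̃, δ_{ψ(t)} σ̃)` on `F'_K = FH M' ψ` with the two (UNIQ_j)
supplied by `GaussUniqK8.uniq_O1'`, `GaussUniqK8.uniq_O2'` (`ψ` of order `p^k`, `p` odd).

* **`mixData_closed`** : for the pair `(gFH, gFH')` of `GalMix0`;
* **`mixData_closed_of_eq`** : for ANY pair of semilinear automorphisms with these underlying maps.
-/
import Mathlib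
import Fermat.Agent.M43.GalMix0
import Fermat.Agent.M43.GaussUniqK8

set_option autoImplicit false
set_option linter.unusedSectionVars false
set_option linter.style.haveILetI false
set_option linter.unusedVariables false
set_option synthInstance.maxHeartbeats 400000

open ModularCurve AlgebraicCurve Polynomial

noncomputable section

namespace Fermat.Agent.M43.GalMixU0

local notation "Qbar" => AlgebraicClosure ℚ

open Fermat.Agent.X0 Fermat.Agent.RED.Interface4 Fermat.Agent.RED.DESC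
open Fermat.Agent.RED.PUR.GaussGen8 Fermat.Agent.ES.N34.ModelDefs9
open Fermat.Agent.ES.N34.GalBase21
open Fermat.Agent.T33.NodalHalf4
open Fermat.Agent.M43.KummerAdj8 Fermat.Agent.M43.KummerGal8
open Fermat.Agent.M43.ThetaFieldK8 Fermat.Agent.M43.ThetaDeltaK8 Fermat.Agent.M43.GaussUp8
open Fermat.Agent.M43.GaussUniqK8 Fermat.Agent.M43.MixNum9 Fermat.Agent.M43.GalMix0

variable {A : ValuationSubring Qbar} {K : IntermediateField ℚ Qbar} [Normal ℚ K]
variable {r : ℕ} [Fact r.Prime] [NeZero r] {M' : ℕ} [NeZero M']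

/-- **GAL' closed, for the pair `(gFH, gFH')`.** -/
theorem mixData_closed (h : LevelHyp r M' A) {π : ↥(AK A K)} (hπ : IsUnif (AK A K) π)
    (hE : FK (M' * r) K ≤ fracField (AK A K)) {ψ : MulChar (ZMod r) ↥K} (heven : ψ (-1) = 1)
    {p : ℕ} (hp : p.Prime) (hp2 : p ≠ 2) (k : ℕ) (hk : 1 ≤ k) (hord : orderOf ψ = p ^ k)
    (hn : ψ ^ (p ^ k) = 1) {ζ : ↥K} (hζK : algebraMap ↥K Qbar ζ = zetaK r)
    {τ : Qbar ≃ₐ[ℚ] Qbar} (hτ : τ ∈ A.inertiaSubgroupIn ℚ)
    (hs : ∀ a, resK K τ (ψ a) = ψ a) (t : ℕ) (ht : (t : ZMod r) ≠ 0)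
    (hst : resK K τ ζ = ζ ^ t)
    (n₀ e₀ : ℕ) [NeZero n₀] (tH : ↥(FK (M' * r) K))
    (htH : (tH : LaurentSeries ↥K) = Fermat.Agent.RED.BASE.EtaQuot12.tq ↥K n₀ e₀) :
    MixData π (algebraMap ↥(FK (M' * r) K) ↥(FH M' ψ) tH)
      (O1' h.liesOver h.ne_two M' hπ hE ψ)
      (O2' h.liesOver h.ne_two M' hπ hE (irreducible_uK M' h heven hp hp2 k hk hord hn) hζK
        (psi_ne_one hp hk hord))
      (SemilinearAut.toRingAut (gFH M' (resK K τ) hs))
      (SemilinearAut.toRingAut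
        (gFH' M' (irreducible_uK M' h heven hp hp2 k hk hord hn) (resK K τ) hs
          (ψ (t : ZMod r)) (psi_pow_eq_one hn ht))) :=
  mixData_gFH M' (irreducible_uK M' h heven hp hp2 k hk hord hn) h.liesOver h.ne_two hπ hE hζK
    (psi_ne_one hp hk hord)
    (uniq_O1' h hπ hE heven hp hp2 k hk hord hn)
    (uniq_O2' h hπ hE heven hp hp2 k hk hord hn hζK) hτ hs t ht hst n₀ e₀ tH htH

/-- **GAL' closed, for any pair of semilinear automorphisms with the right underlying maps.** -/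
theorem mixData_closed_of_eq (h : LevelHyp r M' A) {π : ↥(AK A K)} (hπ : IsUnif (AK A K) π)
    (hE : FK (M' * r) K ≤ fracField (AK A K)) {ψ : MulChar (ZMod r) ↥K} (heven : ψ (-1) = 1)
    {p : ℕ} (hp : p.Prime) (hp2 : p ≠ 2) (k : ℕ) (hk : 1 ≤ k) (hord : orderOf ψ = p ^ k)
    (hn : ψ ^ (p ^ k) = 1) {ζ : ↥K} (hζK : algebraMap ↥K Qbar ζ = zetaK r)
    {τ : Qbar ≃ₐ[ℚ] Qbar} (hτ : τ ∈ A.inertiaSubgroupIn ℚ)
    (hs : ∀ a, resK K τ (ψ a) = ψ a) (t : ℕ) (ht : (t : ZMod r) ≠ 0)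
    (hst : resK K τ ζ = ζ ^ t)
    (n₀ e₀ : ℕ) [NeZero n₀] (tH : ↥(FK (M' * r) K))
    (htH : (tH : LaurentSeries ↥K) = Fermat.Agent.RED.BASE.EtaQuot12.tq ↥K n₀ e₀)
    (g g' : SemilinearAut ↥K ↥(FH M' ψ))
    (hg : ∀ x, SemilinearAut.toRingAut g x = galFH M' (resK K τ) hs x)
    (hg' : ∀ x, SemilinearAut.toRingAut g' x =
      deltaK M' (irreducible_uK M' h heven hp hp2 k hk hord hn) (ψ (t : ZMod r))
        (psi_pow_eq_one hn ht) (galFH M' (resK K τ) hs x)) :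
    MixData π (algebraMap ↥(FK (M' * r) K) ↥(FH M' ψ) tH)
      (O1' h.liesOver h.ne_two M' hπ hE ψ)
      (O2' h.liesOver h.ne_two M' hπ hE (irreducible_uK M' h heven hp hp2 k hk hord hn) hζK
        (psi_ne_one hp hk hord))
      (SemilinearAut.toRingAut g) (SemilinearAut.toRingAut g') :=
  mixData_of_eq M' (irreducible_uK M' h heven hp hp2 k hk hord hn) h.liesOver h.ne_two hπ hE hζK
    (psi_ne_one hp hk hord)
    (uniq_O1' h hπ hE heven hp hp2 k hk hord hn)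
    (uniq_O2' h hπ hE heven hp hp2 k hk hord hn hζK) hτ hs t ht hst n₀ e₀ tH htH g g' hg hg'

end Fermat.Agent.M43.GalMixU0
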