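/-
Programme M43, chapter (LG-q), Stage 1, block [S1-E GAL'] (lead), file 3: **GAL' with the cyclotomic
character**: the exponent `t` of `GalMixU0.mixData_closed` is `(cycloM r τ).val`, i.e. the second
automorphism of the mixed pair is `δ_{ψ(χ_r(τ))} ∘ σ̃`.

* `apply_root_eq_pow` : `τ ζ = ζ ^ (cycloM r τ).val` for EVERY `r`-th root of unity `ζ ∈ ℚbar`;
* `resK_zeta` : the same for `ζ ∈ K` (`K` normal) and `τ|_K`;
* `natCast_val_cycloM_ne_zero`, `natCast_val_cycloM`;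
* **`mixData_cyclo`**, **`mixData_cyclo_of_eq`**.
-/
import Mathlib
import Fermat.Agent.M43.GalMixU0
import Fermat.Agent.M48.DirCharGal8

set_option autoImplicit false
set_option linter.unusedSectionVars false
set_option linter.style.haveILetI false
set_option linter.unusedVariables false
set_option synthInstance.maxHeartbeats 400000

open ModularCurve AlgebraicCurve Polynomial

noncomputable section

namespace Fermat.Agent.M43.GalMixCyc0

local notation "Qbar" => AlgebraicClosure ℚ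

open Fermat.Agent.X0 Fermat.Agent.RED.Interface4 Fermat.Agent.RED.DESC
open Fermat.Agent.RED.PUR.GaussGen8 Fermat.Agent.ES.N34.ModelDefs9
open Fermat.Agent.ES.N34.GalBase21
open Fermat.Agent.T33.NodalHalf4
open Fermat.Agent.M48.DirCharGal8
open Fermat.Agent.M43.KummerAdj8 Fermat.Agent.M43.KummerGal8
open Fermat.Agent.M43.ThetaFieldK8 Fermat.Agent.M43.ThetaDeltaK8 Fermat.Agent.M43.GaussUp8
open Fermat.Agent.M43.GaussUniqK8 Fermat.Agent.M43.MixNum9 Fermat.Agent.M43.GalMix0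
open Fermat.Agent.M43.GalMixU0

/-- **`τ ζ = ζ ^ χ_r(τ)` for every `r`-th root of unity `ζ` of `ℚbar`.** -/
theorem apply_root_eq_pow (r : ℕ) [NeZero r] (τ : Qbar ≃ₐ[ℚ] Qbar) {ζ : Qbar} (hζ : ζ ^ r = 1) :
    τ ζ = ζ ^ ((cycloM r τ : (ZMod r)ˣ) : ZMod r).val := by
  obtain ⟨k, -, rfl⟩ := (zetaM_spec r).eq_pow_of_pow_eq_one hζ
  rw [map_pow, cycloM_spec, ← pow_mul, ← pow_mul, mul_comm]

variable {K : IntermediateField ℚ Qbar} [Normal ℚ K]

/-- the same for `ζ ∈ K` and `τ|_K`. -/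
theorem resK_zeta (r : ℕ) [NeZero r] (τ : Qbar ≃ₐ[ℚ] Qbar) {ζ : ↥K}
    (hζK : algebraMap ↥K Qbar ζ = zetaK r) :
    resK K τ ζ = ζ ^ ((cycloM r τ : (ZMod r)ˣ) : ZMod r).val := by
  apply (algebraMap ↥K Qbar).injective
  rw [map_pow]
  show ((resK K τ ζ : ↥K) : Qbar) = _
  rw [coe_resK]
  show τ (algebraMap ↥K Qbar ζ) = _
  rw [hζK]
  exact apply_root_eq_pow r τ (zetaK_pow_self r)

theorem natCast_val_cycloM (r : ℕ) [NeZero r] (τ : Qbar ≃ₐ[ℚ] Qbar) :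
    ((((cycloM r τ : (ZMod r)ˣ) : ZMod r).val : ℕ) : ZMod r) = ((cycloM r τ : (ZMod r)ˣ) : ZMod r) :=
  ZMod.natCast_zmod_val _

theorem natCast_val_cycloM_ne_zero (r : ℕ) [NeZero r] [Fact r.Prime] (τ : Qbar ≃ₐ[ℚ] Qbar) :
    ((((cycloM r τ : (ZMod r)ˣ) : ZMod r).val : ℕ) : ZMod r) ≠ 0 := by
  rw [natCast_val_cycloM]
  exact (cycloM r τ).ne_zero

variable {A : ValuationSubring Qbar}
variable {r : ℕ} [Fact r.Prime] [NeZero r] {M' : ℕ} [NeZero M']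

/-- **GAL' closed, cyclotomic form, for the pair `(gFH, gFH')`.** -/
theorem mixData_cyclo (h : LevelHyp r M' A) {π : ↥(AK A K)} (hπ : IsUnif (AK A K) π)
    (hE : FK (M' * r) K ≤ fracField (AK A K)) {ψ : MulChar (ZMod r) ↥K} (heven : ψ (-1) = 1)
    {p : ℕ} (hp : p.Prime) (hp2 : p ≠ 2) (k : ℕ) (hk : 1 ≤ k) (hord : orderOf ψ = p ^ k)
    (hn : ψ ^ (p ^ k) = 1) {ζ : ↥K} (hζK : algebraMap ↥K Qbar ζ = zetaK r)
    {τ : Qbar ≃ₐ[ℚ] Qbar} (hτ : τ ∈ A.inertiaSubgroupIn ℚ)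
    (hs : ∀ a, resK K τ (ψ a) = ψ a)
    (n₀ e₀ : ℕ) [NeZero n₀] (tH : ↥(FK (M' * r) K))
    (htH : (tH : LaurentSeries ↥K) = Fermat.Agent.RED.BASE.EtaQuot12.tq ↥K n₀ e₀) :
    MixData π (algebraMap ↥(FK (M' * r) K) ↥(FH M' ψ) tH)
      (O1' h.liesOver h.ne_two M' hπ hE ψ)
      (O2' h.liesOver h.ne_two M' hπ hE (irreducible_uK M' h heven hp hp2 k hk hord hn) hζK
        (psi_ne_one hp hk hord))
      (SemilinearAut.toRingAut (gFH M' (resK K τ) hs))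
      (SemilinearAut.toRingAut
        (gFH' M' (irreducible_uK M' h heven hp hp2 k hk hord hn) (resK K τ) hs
          (ψ ((((cycloM r τ : (ZMod r)ˣ) : ZMod r).val : ℕ) : ZMod r))
          (psi_pow_eq_one hn (natCast_val_cycloM_ne_zero r τ)))) :=
  mixData_closed h hπ hE heven hp hp2 k hk hord hn hζK hτ hs _
    (natCast_val_cycloM_ne_zero r τ) (resK_zeta r τ hζK) n₀ e₀ tH htH

/-- **GAL' closed, cyclotomic form, for any pair with the right underlying maps**: the second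
automorphism is `δ_c ∘ σ̃` with `c = ψ(χ_r(τ))`. -/
theorem mixData_cyclo_of_eq (h : LevelHyp r M' A) {π : ↥(AK A K)} (hπ : IsUnif (AK A K) π)
    (hE : FK (M' * r) K ≤ fracField (AK A K)) {ψ : MulChar (ZMod r) ↥K} (heven : ψ (-1) = 1)
    {p : ℕ} (hp : p.Prime) (hp2 : p ≠ 2) (k : ℕ) (hk : 1 ≤ k) (hord : orderOf ψ = p ^ k)
    (hn : ψ ^ (p ^ k) = 1) {ζ : ↥K} (hζK : algebraMap ↥K Qbar ζ = zetaK r)
    {τ : Qbar ≃ₐ[ℚ] Qbar} (hτ : τ ∈ A.inertiaSubgroupIn ℚ)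
    (hs : ∀ a, resK K τ (ψ a) = ψ a)
    (n₀ e₀ : ℕ) [NeZero n₀] (tH : ↥(FK (M' * r) K))
    (htH : (tH : LaurentSeries ↥K) = Fermat.Agent.RED.BASE.EtaQuot12.tq ↥K n₀ e₀)
    (c : ↥K) (hc : c ^ (p ^ k) = 1)
    (hcψ : c = ψ ((cycloM r τ : (ZMod r)ˣ) : ZMod r))
    (g g' : SemilinearAut ↥K ↥(FH M' ψ))
    (hg : ∀ x, SemilinearAut.toRingAut g x = galFH M' (resK K τ) hs x)
    (hg' : ∀ x, SemilinearAut.toRingAut g' x =
      deltaK M' (irreducible_uK M' h heven hp hp2 k hk hord hn) c hc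
        (galFH M' (resK K τ) hs x)) :
    MixData π (algebraMap ↥(FK (M' * r) K) ↥(FH M' ψ) tH)
      (O1' h.liesOver h.ne_two M' hπ hE ψ)
      (O2' h.liesOver h.ne_two M' hπ hE (irreducible_uK M' h heven hp hp2 k hk hord hn) hζK
        (psi_ne_one hp hk hord))
      (SemilinearAut.toRingAut g) (SemilinearAut.toRingAut g') := by
  have hc' : c = ψ ((((cycloM r τ : (ZMod r)ˣ) : ZMod r).val : ℕ) : ZMod r) := by
    rw [natCast_val_cycloM]; exact hcψ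
  subst hc'
  exact mixData_closed_of_eq h hπ hE heven hp hp2 k hk hord hn hζK hτ hs _
    (natCast_val_cycloM_ne_zero r τ) (resK_zeta r τ hζK) n₀ e₀ tH htH g g' hg hg'

end Fermat.Agent.M43.GalMixCyc0
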