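/-
M43 (helper9) [LG-q / S1-F TOP'] MixTop9: **the Kummer ⇄ `Pic⁰` bridge for a MIXED pair**, generic.

`K` a field, `F / K` a function field, `g, g' : SemilinearAut K F` (no commutation needed here).
`UBarMixed g g' m` : for every nonzero `f` with `m ∣ ord_v f` at all places, the mixed second
difference `g'(g f) · f / (g f · g' f)` is an `m`-th power.  Then for every `y ∈ Pic⁰(F)` with
`m • y = 0`:  `g' • g • y + y = g • y + g' • y`, i.e. `(g' − 1)(g − 1) y = 0`.

Proof (re-run of `ES/N34/TorsionInertia12` with two automorphisms): `y = [D]`, `m • D = div f`,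
`div (g f) = g • div f`, so `m • (g'gD + D − gD − g'D) = div (s^m) = m • div s`; divisors are
torsion free.
-/
import Mathlib
import Fermat.Prelude.Def_AlgebraicCurve_BaseChangeGalois

set_option autoImplicit false

open AlgebraicCurve

noncomputable section

namespace Fermat.Agent.M43.MixTop9

variable {K F : Type*} [Field K] [Field F] [Algebra K F]

/-- **(U) for a mixed pair, Kummer form** (over an algebraically closed constant field in the
application). -/
def UBarMixed (g g' : SemilinearAut K F) (m : ℕ) : Prop :=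
  ∀ f : F, f ≠ 0 → (∀ v : Place K F, (m : ℤ) ∣ v.ord f) →
    ∃ s : F, s ^ m * (g • f * g' • f) = g' • g • f * f

theorem smul_ne_zero9 {g : SemilinearAut K F} {f : F} (hf : f ≠ 0) : g • f ≠ 0 := by
  rw [SemilinearAut.smul_def]
  exact (map_ne_zero_iff _ (SemilinearAut.toRingAut g).injective).mpr hf

/-- `ord_v (g f) = ord_{g⁻¹ v} f`. -/
theorem ord_smul_eq9 (g : SemilinearAut K F) (v : Place K F) (f : F) :
    v.ord (g • f) = (g⁻¹ • v).ord f := by
  have h := SemilinearAut.ord_smul g (g⁻¹ • v) f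
  rwa [smul_inv_smul] at h

/-- the order of `s` in `s^m (g f · g' f) = g'(g f) · f`. -/
theorem ord_of_uBarMixed_eq (g g' : SemilinearAut K F) {m : ℕ} (hm0 : m ≠ 0) {f s : F}
    (hf : f ≠ 0) (hs : s ^ m * (g • f * g' • f) = g' • g • f * f) (v : Place K F) :
    (m : ℤ) * v.ord s =
      (g⁻¹ • g'⁻¹ • v).ord f + v.ord f - (g⁻¹ • v).ord f - (g'⁻¹ • v).ord f := by
  have hgf : g • f ≠ 0 := smul_ne_zero9 hf
  have hg'f : g' • f ≠ 0 := smul_ne_zero9 hf
  have hggf : g' • g • f ≠ 0 := smul_ne_zero9 hgf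
  have hs0 : s ≠ 0 := by
    intro h0
    rw [h0, zero_pow hm0, zero_mul] at hs
    exact mul_ne_zero hggf hf hs.symm
  have h1 := congrArg v.ord hs
  rw [v.ord_mul (pow_ne_zero m hs0) (mul_ne_zero hgf hg'f), v.ord_mul hgf hg'f,
    v.ord_mul hggf hf, ← zpow_natCast s m, v.ord_zpow, ord_smul_eq9, ord_smul_eq9,
    ord_smul_eq9, ord_smul_eq9] at h1
  linarith

/-- **TOP' (generic).**  `UBarMixed g g' m` gives `(g' − 1)(g − 1) = 0` on `Pic⁰(F)[m]`. -/
theorem top_mixed (g g' : SemilinearAut K F) {m : ℕ} (hm0 : m ≠ 0) (h : UBarMixed g g' m)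
    (y : Pic0 K F) (hy : m • y = 0) :
    g' • g • y + y = g • y + g' • y := by
  obtain ⟨⟨D, hD⟩, rfl⟩ := Pic0.mk_surjective y
  have hmZ : (m : ℤ) ≠ 0 := by exact_mod_cast hm0
  -- `m • D` is principal
  have hmD : m • D ∈ Divisor.principal (K := K) (F := F) := by
    have h1 : Pic0.mk (m • (⟨D, hD⟩ : Divisor.degZero (K := K) (F := F))) = 0 := by
      rw [← hy]; rfl
    have h2 := (QuotientAddGroup.eq_zero_iff _).mp h1
    rw [AddSubgroup.mem_addSubgroupOf] at h2
    simpa using h2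
  obtain ⟨f, hf0, hfD⟩ := hmD
  have hfD' : ∀ v : Place K F, (m : ℤ) * D v = v.ord f := by
    intro v
    rw [← hfD v]
    simp
  obtain ⟨s, hs⟩ := h f hf0 (fun v => ⟨D v, (hfD' v).symm⟩)
  have hs0 : s ≠ 0 := by
    intro h0
    rw [h0, zero_pow hm0, zero_mul] at hs
    exact mul_ne_zero (smul_ne_zero9 (smul_ne_zero9 hf0)) hf0 hs.symm
  rw [SemilinearAut.pic0_smul_mk, SemilinearAut.pic0_smul_mk, SemilinearAut.pic0_smul_mk,
    ← Pic0.mk_add, ← Pic0.mk_add]
  symm
  refine (QuotientAddGroup.eq).mpr ?_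
  rw [AddSubgroup.mem_addSubgroupOf]
  refine ⟨s, hs0, fun v => ?_⟩
  apply mul_left_cancel₀ hmZ
  rw [ord_of_uBarMixed_eq g g' hm0 hf0 hs v, ← hfD', ← hfD', ← hfD', ← hfD']
  simp only [AddSubgroup.coe_add, AddSubgroup.coe_neg, Finsupp.coe_add, Finsupp.coe_neg,
    Pi.add_apply, Pi.neg_apply, SemilinearAut.coe_degZeroSMulHom, SemilinearAut.divisor_smul_apply]
  ring

/-- the same in the form `(g' − 1)((g − 1) y) = 0`. -/
theorem top_mixed_sub (g g' : SemilinearAut K F) {m : ℕ} (hm0 : m ≠ 0) (h : UBarMixed g g' m)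
    (y : Pic0 K F) (hy : m • y = 0) :
    g' • (g • y - y) - (g • y - y) = 0 := by
  have h1 := top_mixed g g' hm0 h y hy
  rw [smul_sub, sub_sub, sub_eq_zero]
  have h2 : g' • g • y = g • y + g' • y - y := by rw [← h1]; abel
  rw [h2]
  abel

end Fermat.Agent.M43.MixTop9
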