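/-
M43 (helper9) [LG-q / S1-F DESC'] MixDesc9: **descent from `ℚ̄` to number fields with rational
support, for a FAMILY of function fields inside Laurent series**, generic (re-run of helper1's
`ES/N34/GalDescent1` + `DescN1` without any reference to the modular function fields).

* `coeffRingAut`, `coeffSemilinear` : the coefficientwise action of an automorphism `σ` of `L` on a
  subfield `E ⊂ L((q))` stable under `σ` and `σ⁻¹`, as a `SemilinearAut L E`;
* `DescFamily K₀` : `E ⊂ ℚ̄((q))`, `EK K ⊂ K((q))` for the number fields `K ⊇ K₀`, with base change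
  (`bc_mem`), monotonicity (`mono`), exhaustion (`exh`), stability of `E` under the coefficientwise
  action of `Gal(ℚ̄/K₀)` (`gal_mem`) and a transcendental generator fixed by it (`gen`);
* `bcHom`, `galE`, `galE_bcHom` ;
* `hasLevel_elt'`, `hasLevel_place'` : elements and places of `E` are fixed by open subgroups;
* `exists_place_above'`, `finite_support_ord_EK` ;
* `exists_rational_descent'` : a nonzero `f ∈ E` with `m ∣ ord_v f` everywhere descends to a finite
  normal `K ⊇ K₁` with `m ∣ ord_w f_K` everywhere and rational support;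
* `UNumMixed`, `descStep_mixed` : `UNumMixed` over all large finite normal `K` (with base-change
  compatible pairs) gives `MixTop9.UBarMixed` over `ℚ̄`.
-/
import Mathlib
import Fermat.Agent.M43.MixTop9
import Fermat.Agent.ES.N34.GalRational1
import Fermat.Agent.ES.GAL.OpenStab12
import Fermat.Agent.RED.DESC.PlaceExtend27
import Fermat.Agent.RED.DESC.CoeffDescent1
import Fermat.Agent.RED.DESC.NumberFieldDVR27
import Fermat.Agent.X0.FFGenus6

set_option autoImplicit false
set_option linter.unusedSectionVars false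
set_option synthInstance.maxHeartbeats 400000

noncomputable section

namespace Fermat.Agent.M43.MixDesc9

open AlgebraicCurve ModularCurve HahnSeries
open Fermat.Agent.X0 Fermat.Agent.RED.Interface4 Fermat.Agent.RED.DESC
open Fermat.Agent.ES.N34.GalRational1

/-! ### Coefficientwise automorphisms of a stable subfield of `L((q))` -/

section CoeffAut

variable {L : Type*} [Field L] (E : IntermediateField L (LaurentSeries L))

/-- the coefficientwise action of `σ` on a subfield `E ⊂ L((q))` stable under `σ` and `σ⁻¹`. -/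
def coeffRingAut (σ : L ≃+* L) (h : ∀ x ∈ E, coeffMap (σ : L →+* L) x ∈ E)
    (h' : ∀ x ∈ E, coeffMap (σ.symm : L →+* L) x ∈ E) : E ≃+* E where
  toFun x := ⟨coeffMap (σ : L →+* L) (x : LaurentSeries L), h _ x.2⟩
  invFun x := ⟨coeffMap (σ.symm : L →+* L) (x : LaurentSeries L), h' _ x.2⟩
  left_inv x := Subtype.ext <| by
    show coeffMap (σ.symm : L →+* L) (coeffMap (σ : L →+* L) (x : LaurentSeries L))
      = (x : LaurentSeries L)
    rw [coeffMap_coeffMap,
      coeffMap_congr (g := RingHom.id L) (RingHom.ext fun a => σ.symm_apply_apply a)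
        (x : LaurentSeries L),
      coeffMap_id]
  right_inv x := Subtype.ext <| by
    show coeffMap (σ : L →+* L) (coeffMap (σ.symm : L →+* L) (x : LaurentSeries L))
      = (x : LaurentSeries L)
    rw [coeffMap_coeffMap,
      coeffMap_congr (g := RingHom.id L) (RingHom.ext fun a => σ.apply_symm_apply a)
        (x : LaurentSeries L),
      coeffMap_id]
  map_mul' x y :=
    Subtype.ext (map_mul (coeffMap (σ : L →+* L)) (x : LaurentSeries L) (y : LaurentSeries L))
  map_add' x y :=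
    Subtype.ext (map_add (coeffMap (σ : L →+* L)) (x : LaurentSeries L) (y : LaurentSeries L))

theorem coeffRingAut_algebraMap (σ : L ≃+* L) (h : ∀ x ∈ E, coeffMap (σ : L →+* L) x ∈ E)
    (h' : ∀ x ∈ E, coeffMap (σ.symm : L →+* L) x ∈ E) (a : L) :
    coeffRingAut E σ h h' (algebraMap L E a) = algebraMap L E (σ a) :=
  Subtype.ext (coeffMap_algebraMap (σ : L →+* L) a)

/-- the same as a semilinear automorphism of `E / L`. -/
def coeffSemilinear (σ : L ≃+* L) (h : ∀ x ∈ E, coeffMap (σ : L →+* L) x ∈ E)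
    (h' : ∀ x ∈ E, coeffMap (σ.symm : L →+* L) x ∈ E) : SemilinearAut L E :=
  ⟨(coeffRingAut E σ h h', σ), fun a => coeffRingAut_algebraMap E σ h h' a⟩

@[simp] theorem coe_coeffSemilinear_smul (σ : L ≃+* L)
    (h : ∀ x ∈ E, coeffMap (σ : L →+* L) x ∈ E)
    (h' : ∀ x ∈ E, coeffMap (σ.symm : L →+* L) x ∈ E) (x : E) :
    ((coeffSemilinear E σ h h' • x : E) : LaurentSeries L) =
      coeffMap (σ : L →+* L) (x : LaurentSeries L) := rfl

@[simp] theorem baseAut_coeffSemilinear (σ : L ≃+* L)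
    (h : ∀ x ∈ E, coeffMap (σ : L →+* L) x ∈ E)
    (h' : ∀ x ∈ E, coeffMap (σ.symm : L →+* L) x ∈ E) :
    SemilinearAut.baseAut (coeffSemilinear E σ h h') = σ := rfl

end CoeffAut

/-! ### Families of function fields -/

/-- **A family of function fields inside Laurent series**: `E ⊂ ℚ̄((q))` and `EK K ⊂ K((q))` for the
subfields `K ⊇ K₀` of `ℚ̄` (junk for the other `K`). -/
structure DescFamily (K₀ : IntermediateField ℚ Qbar) where
  /-- the field over `ℚ̄` -/
  E : IntermediateField Qbar (LaurentSeries Qbar)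
  /-- the field over `K` -/
  EK : ∀ K : IntermediateField ℚ Qbar, IntermediateField K (LaurentSeries K)
  bc_mem : ∀ K : IntermediateField ℚ Qbar, K₀ ≤ K → ∀ x : LaurentSeries K, x ∈ EK K →
    coeffMap (algebraMap K Qbar) x ∈ E
  mono : ∀ (K K' : IntermediateField ℚ Qbar) (h : K ≤ K'), K₀ ≤ K → ∀ x : LaurentSeries K,
    x ∈ EK K → coeffMap (CoeffDescent1.inclRingHom h) x ∈ EK K'
  exh : ∀ x : LaurentSeries Qbar, x ∈ E → ∃ K : IntermediateField ℚ Qbar, K₀ ≤ K ∧
    FiniteDimensional ℚ K ∧ ∃ x' : LaurentSeries K, x' ∈ EK K ∧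
      coeffMap (algebraMap K Qbar) x' = x
  gal_mem : ∀ σ : Qbar ≃ₐ[ℚ] Qbar, (∀ a ∈ K₀, σ a = a) → ∀ x : LaurentSeries Qbar, x ∈ E →
    coeffMap ((σ : Qbar ≃+* Qbar) : Qbar →+* Qbar) x ∈ E
  /-- a transcendental generator with Galois-fixed coefficients (the formal `j`) -/
  gen : E
  isGen : FF.IsGen Qbar gen
  gen_fixed : ∀ σ : Qbar ≃ₐ[ℚ] Qbar, (∀ a ∈ K₀, σ a = a) →
    coeffMap ((σ : Qbar ≃+* Qbar) : Qbar →+* Qbar) (gen : LaurentSeries Qbar) = gen

namespace DescFamily

variable {K₀ : IntermediateField ℚ Qbar} (S : DescFamily K₀)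

theorem fixes_symm {σ : Qbar ≃ₐ[ℚ] Qbar} (h : ∀ a ∈ K₀, σ a = a) : ∀ a ∈ K₀, σ.symm a = a :=
  fun a ha => by
    conv_lhs => rw [← h a ha]
    exact σ.symm_apply_apply a

/-- base change `EK K → E`. -/
def bcHom (K : IntermediateField ℚ Qbar) (hK : K₀ ≤ K) : S.EK K →+* S.E :=
  RingHom.codRestrict ((coeffMap (algebraMap K Qbar)).comp (S.EK K).val.toRingHom) S.E
    (fun f => S.bc_mem K hK _ f.2)

@[simp] theorem coe_bcHom (K : IntermediateField ℚ Qbar) (hK : K₀ ≤ K) (f : S.EK K) :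
    ((S.bcHom K hK f : S.E) : LaurentSeries Qbar) =
      coeffMap (algebraMap K Qbar) (f : LaurentSeries K) := rfl

theorem bcHom_algebraMap (K : IntermediateField ℚ Qbar) (hK : K₀ ≤ K) (c : K) :
    S.bcHom K hK (algebraMap K (S.EK K) c) = algebraMap Qbar S.E (algebraMap K Qbar c) := by
  apply Subtype.ext
  rw [coe_bcHom]
  exact CoeffDescent1.coeffMap_algebraMap_of_ringHom (algebraMap K Qbar) c

theorem bcHom_injective (K : IntermediateField ℚ Qbar) (hK : K₀ ≤ K) :
    Function.Injective (S.bcHom K hK) :=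
  (S.bcHom K hK).injective

open Classical in
/-- the coefficientwise Galois action on `E` (trivial for `σ` not fixing `K₀`). -/
def galE (σ : Qbar ≃ₐ[ℚ] Qbar) : SemilinearAut Qbar S.E :=
  if h : ∀ a ∈ K₀, σ a = a then
    coeffSemilinear S.E (σ : Qbar ≃+* Qbar) (S.gal_mem σ h) (S.gal_mem σ.symm (fixes_symm h))
  else 1

theorem coe_galE_smul {σ : Qbar ≃ₐ[ℚ] Qbar} (h : ∀ a ∈ K₀, σ a = a) (x : S.E) :
    ((S.galE σ • x : S.E) : LaurentSeries Qbar) =
      coeffMap ((σ : Qbar ≃+* Qbar) : Qbar →+* Qbar) (x : LaurentSeries Qbar) := by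
  rw [galE, dif_pos h]
  rfl

theorem baseAut_galE {σ : Qbar ≃ₐ[ℚ] Qbar} (h : ∀ a ∈ K₀, σ a = a) :
    SemilinearAut.baseAut (S.galE σ) = (σ : Qbar ≃+* Qbar) := by
  rw [galE, dif_pos h]
  rfl

/-- base-changed elements are fixed by `Gal(ℚ̄/K)`. -/
theorem galE_bcHom (K : IntermediateField ℚ Qbar) (hK : K₀ ≤ K) {σ : Qbar ≃ₐ[ℚ] Qbar}
    (hσ : ∀ a ∈ K, σ a = a) (f : S.EK K) : S.galE σ • S.bcHom K hK f = S.bcHom K hK f := by
  apply Subtype.ext
  rw [S.coe_galE_smul (fun a ha => hσ a (hK ha)), coe_bcHom, coeffMap_coeffMap]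
  exact coeffMap_congr (RingHom.ext fun a => hσ _ a.2) _

theorem galE_gen {σ : Qbar ≃ₐ[ℚ] Qbar} (h : ∀ a ∈ K₀, σ a = a) : S.galE σ • S.gen = S.gen := by
  apply Subtype.ext
  rw [S.coe_galE_smul h]
  exact S.gen_fixed σ h


/-! ### Open stabilisers -/

open Fermat.Agent.ES.GAL.OpenStab12 Fermat.Agent.ES.RED.SpecialFibre13
  Fermat.Agent.ES.RED.PlaceValue13 Fermat.Agent.X0.FF

/-- every element of `E` is fixed by an open subgroup. -/
theorem hasLevel_elt' (b : S.E) : HasLevel (fun σ => S.galE σ • b = b) := by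
  obtain ⟨K, hK, hfin, b', hb', hbb'⟩ := S.exh b b.2
  refine ⟨K, hfin, fun σ hσ => ?_⟩
  have h1 := S.galE_bcHom K hK hσ ⟨b', hb'⟩
  have e : S.bcHom K hK ⟨b', hb'⟩ = b := Subtype.ext hbb'
  rwa [e] at h1

/-- **every place of `E` is fixed by an open subgroup of `Gal(ℚ̄/ℚ)`.** -/
theorem hasLevel_place' [FiniteDimensional ℚ K₀] (P : Place Qbar S.E) :
    HasLevel (fun σ => S.galE σ • P = P) := by
  -- a Galois-fixed generator in the valuation ring of `P`
  obtain ⟨x, hx, hgx, hP⟩ : ∃ x : S.E, IsGen Qbar x ∧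
      (∀ σ : Qbar ≃ₐ[ℚ] Qbar, (∀ a ∈ K₀, σ a = a) → S.galE σ • x = x) ∧
      x ∈ P.toValuationSubring := by
    rcases mem_or_inv_mem (x := S.gen) P with h | h
    · exact ⟨_, S.isGen, fun σ hσ => S.galE_gen hσ, h⟩
    · refine ⟨_, isGen_inv S.isGen, fun σ hσ => ?_, h⟩
      rw [smul_inv'', S.galE_gen hσ]
  have := finite_intRing hx
  obtain ⟨T, hT⟩ := (Module.finite_def.1 (finite_intRing hx) :
    (⊤ : Submodule (polyRing Qbar x) (intRing Qbar x)).FG)
  have h0 : HasLevel (fun σ => ∀ a ∈ K₀, σ a = a) := ⟨K₀, inferInstance, fun σ hσ => hσ⟩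
  have h1 := hasLevel_forall_finset T
    (fun b σ => S.galE σ • ((b : intRing Qbar x) : S.E) = b) (fun b _ => S.hasLevel_elt' b)
  have h2 := hasLevel_forall_finset T
    (fun b σ => σ (chartPoint hx P hP b) = chartPoint hx P hP b)
    (fun b _ => hasLevel_const _)
  have h3 := hasLevel_const (chartPoint hx P hP (genB Qbar x))
  refine (((h1.and h2).and h3).and h0).mono ?_
  rintro σ ⟨⟨⟨hσ1, hσ2⟩, hσ3⟩, hσ0⟩
  refine smul_place_eq hx _ (hgx σ hσ0) P hP T hT hσ1 ?_ ?_
  · rw [S.baseAut_galE hσ0]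
    exact hσ3
  · intro b hb
    rw [S.baseAut_galE hσ0]
    exact hσ2 b hb

/-! ### Places above, finite supports -/

theorem isAlgebraic_Qbar_over' (K : IntermediateField ℚ Qbar) : Algebra.IsAlgebraic K Qbar :=
  PlaceExtend27.isAlgebraic_Qbar_over K

set_option maxHeartbeats 1600000 in
/-- every place of `EK K / K` extends to a place of `E / ℚ̄`. -/
theorem exists_place_above' (K : IntermediateField ℚ Qbar) (hK : K₀ ≤ K) (w : Place K (S.EK K)) :
    ∃ (v : Place Qbar S.E) (e : ℕ), 0 < e ∧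
      (∀ f : S.EK K, v.ord (S.bcHom K hK f) = (e : ℤ) * w.ord f) ∧
      ∀ f : S.EK K, S.bcHom K hK f ∈ v.toValuationSubring ↔ f ∈ w.toValuationSubring := by
  have h1 := isAlgebraic_Qbar_over' K
  obtain ⟨v, e, he, hord⟩ := PlaceExtend27.exists_place_above_abstract (K := K) (L := Qbar)
    (FK := S.EK K) (FL := S.E) (S.bcHom K hK) (S.bcHom_algebraMap K hK) (x := S.gen) S.isGen w
  refine ⟨v, e, he, hord, fun f => ?_⟩
  rw [ffp_mem_iff_ord_nonneg, ffp_mem_iff_ord_nonneg, hord]
  have he' : (0 : ℤ) < (e : ℤ) := by exact_mod_cast he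
  constructor
  · intro h
    by_contra hneg
    rw [not_le] at hneg
    have := mul_neg_of_pos_of_neg he' hneg
    omega
  · intro h
    exact mul_nonneg he'.le h

/-- a chosen place of `E` above a place of `EK K`. -/
def above (K : IntermediateField ℚ Qbar) (hK : K₀ ≤ K) (w : Place K (S.EK K)) : Place Qbar S.E :=
  (S.exists_place_above' K hK w).choose

theorem above_spec (K : IntermediateField ℚ Qbar) (hK : K₀ ≤ K) (w : Place K (S.EK K)) :
    ∃ e : ℕ, 0 < e ∧ (∀ f : S.EK K, (S.above K hK w).ord (S.bcHom K hK f) = (e : ℤ) * w.ord f) ∧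
      ∀ f : S.EK K, S.bcHom K hK f ∈ (S.above K hK w).toValuationSubring ↔
        f ∈ w.toValuationSubring :=
  (S.exists_place_above' K hK w).choose_spec

theorem above_injective (K : IntermediateField ℚ Qbar) (hK : K₀ ≤ K) :
    Function.Injective (S.above K hK) := by
  intro w w' h
  obtain ⟨-, -, -, h1⟩ := S.above_spec K hK w
  obtain ⟨-, -, -, h2⟩ := S.above_spec K hK w'
  apply Place.ext
  ext f
  rw [← h1 f, h, h2 f]

/-- **principal divisors of `EK K / K` have finite support.** -/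
theorem finite_support_ord_EK (K : IntermediateField ℚ Qbar) (hK : K₀ ≤ K) {f : S.EK K}
    (hf : f ≠ 0) : {w : Place K (S.EK K) | w.ord f ≠ 0}.Finite := by
  have hbc : S.bcHom K hK f ≠ 0 := (map_ne_zero_iff _ (S.bcHom_injective K hK)).mpr hf
  have hfin : {v : Place Qbar S.E | v.ord (S.bcHom K hK f) ≠ 0}.Finite :=
    finite_support_ord S.isGen hbc
  refine (hfin.preimage ((S.above_injective K hK).injOn)).subset ?_
  intro w hw
  obtain ⟨e, he, hord, -⟩ := S.above_spec K hK w
  show (S.above K hK w).ord (S.bcHom K hK f) ≠ 0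
  rw [hord f]
  exact mul_ne_zero (by exact_mod_cast he.ne') hw


/-! ### Rationality by Galois descent -/

theorem valueHom_congr_place' {F : Type*} [Field F] [Algebra Qbar F] {x : F} (hx : IsGen Qbar x)
    {v v' : Place Qbar F} (h : v' = v) (y : F) (hy : y ∈ v.toValuationSubring)
    (hy' : y ∈ v'.toValuationSubring) :
    valueHom hx v' ⟨y, hy'⟩ = valueHom hx v ⟨y, hy⟩ := by
  subst h
  rfl

/-- **rationality by Galois descent.**  A place of `EK K` below a `Gal(ℚ̄/K)`-fixed place of `E` is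
rational. -/
theorem isRational_of_fixed' (K : IntermediateField ℚ Qbar) (hK : K₀ ≤ K) (w : Place K (S.EK K))
    (v : Place Qbar S.E)
    (hmem : ∀ f : S.EK K, S.bcHom K hK f ∈ v.toValuationSubring ↔ f ∈ w.toValuationSubring)
    (hfix : ∀ σ : Qbar ≃ₐ[ℚ] Qbar, (∀ a ∈ K, σ a = a) → S.galE σ • v = v) :
    IsRational w := by
  have hx := S.isGen
  refine isRational_of_values (S.bcHom K hK) (S.bcHom_algebraMap K hK) hx w v hmem fun f => ?_
  have hKmem : valueHom hx v ⟨S.bcHom K hK f, (hmem f).2 f.2⟩ ∈ K := by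
    refine mem_of_fixed K _ fun σ hσ => ?_
    have hσ₀ : ∀ a ∈ K₀, σ a = a := fun a ha => hσ a (hK ha)
    have h1 := valueHom_smul' hx (S.galE σ) v ((hmem f).2 f.2)
    rw [S.baseAut_galE hσ₀] at h1
    show (σ : Qbar ≃+* Qbar) _ = _
    rw [← h1]
    have h2 := S.galE_bcHom K hK hσ f
    have h3 : valueHom hx (S.galE σ • v)
        ⟨S.galE σ • S.bcHom K hK f, smul_mem_smul _ v ((hmem f).2 f.2)⟩ =
        valueHom hx (S.galE σ • v)
        ⟨S.bcHom K hK f, by
          have := smul_mem_smul (S.galE σ) v ((hmem f).2 f.2)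
          rwa [h2] at this⟩ := by
      congr 1
      exact Subtype.ext h2
    rw [h3]
    exact valueHom_congr_place' hx (hfix σ hσ) _ _ _
  exact ⟨⟨_, hKmem⟩, rfl⟩

/-! ### Common descent -/

/-- enlarging the field of definition. -/
theorem exists_lift_of_le' {K K' : IntermediateField ℚ Qbar} (h : K ≤ K') (hK : K₀ ≤ K)
    {x' : LaurentSeries K} (hx' : x' ∈ S.EK K) :
    ∃ x'' : LaurentSeries K', x'' ∈ S.EK K' ∧
      coeffMap (algebraMap K' Qbar) x'' = coeffMap (algebraMap K Qbar) x' := by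
  refine ⟨coeffMap (CoeffDescent1.inclRingHom h) x', S.mono K K' h hK x' hx', ?_⟩
  rw [coeffMap_coeffMap]
  exact coeffMap_congr (RingHom.ext fun c => rfl) x'

/-- a finite family of elements of `E` descends to a common number field. -/
theorem exists_common_descent' (K₁ : IntermediateField ℚ Qbar) [FiniteDimensional ℚ K₁]
    (hK₁ : K₀ ≤ K₁) (T : Finset (LaurentSeries Qbar)) (hT : ∀ x ∈ T, x ∈ S.E) :
    ∃ K : IntermediateField ℚ Qbar, K₁ ≤ K ∧ FiniteDimensional ℚ K ∧
      ∀ x ∈ T, ∃ x' : LaurentSeries K, x' ∈ S.EK K ∧ coeffMap (algebraMap K Qbar) x' = x := by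
  classical
  induction T using Finset.induction_on with
  | empty => exact ⟨K₁, le_rfl, inferInstance, fun x hx => absurd hx (Finset.notMem_empty x)⟩
  | insert a T _ ih =>
    obtain ⟨K, hK₁K, hfin, hK⟩ := ih (fun x hx => hT x (Finset.mem_insert_of_mem hx))
    have := hfin
    obtain ⟨Ka, hKa, hfina, a', ha', haa'⟩ := S.exh a (hT a (Finset.mem_insert_self a T))
    have := hfina
    refine ⟨K ⊔ Ka, hK₁K.trans le_sup_left, inferInstance, ?_⟩
    intro x hx
    rcases Finset.mem_insert.mp hx with rfl | hx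
    · obtain ⟨x'', hx'', h''⟩ := S.exists_lift_of_le' (le_sup_right : Ka ≤ K ⊔ Ka) hKa ha'
      exact ⟨x'', hx'', h''.trans haa'⟩
    · obtain ⟨x', hx', hxx'⟩ := hK x hx
      obtain ⟨x'', hx'', h''⟩ :=
        S.exists_lift_of_le' (le_sup_left : K ≤ K ⊔ Ka) (hK₁.trans hK₁K) hx'
      exact ⟨x'', hx'', h''.trans hxx'⟩

/-! ### The descent package -/

set_option maxHeartbeats 3200000 in
/-- **The descent package**: a nonzero `f ∈ E` with `m ∣ ord_v f` at all places descends to a finite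
NORMAL number field `K ⊇ K₁` such that `m ∣ ord_w f_K` at all places of `EK K` and every place in
the support of `div f_K` is rational. -/
theorem exists_rational_descent' [FiniteDimensional ℚ K₀] (K₁ : IntermediateField ℚ Qbar)
    [FiniteDimensional ℚ K₁] {f : S.E} (hf : f ≠ 0) (m : ℕ)
    (hord : ∀ v : Place Qbar S.E, (m : ℤ) ∣ v.ord f) :
    ∃ (K : IntermediateField ℚ Qbar) (hK : K₀ ≤ K), FiniteDimensional ℚ K ∧ Normal ℚ K ∧ K₁ ≤ K ∧
      ∃ fK : S.EK K, S.bcHom K hK fK = f ∧ fK ≠ 0 ∧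
        (∀ w : Place K (S.EK K), (m : ℤ) ∣ w.ord fK) ∧
        ∀ w : Place K (S.EK K), w.ord fK ≠ 0 → IsRational w := by
  classical
  -- the support of `div f`
  let Sf : Finset (Place Qbar S.E) := (finite_support_ord S.isGen hf).toFinset
  have hS : ∀ v, v ∉ Sf → v.ord f = 0 := by
    intro v hv
    simp only [Sf, Set.Finite.mem_toFinset, Set.mem_ofPred_eq, not_not] at hv
    exact hv
  -- a field of definition of the places of the support
  obtain ⟨L₁, hL₁, hfixS⟩ := hasLevel_forall_finset Sf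
    (fun v σ => S.galE σ • v = v) (fun v _ => S.hasLevel_place' v)
  have := hL₁
  -- uniformisers
  let unif : Place Qbar S.E → S.E := fun v =>
    (((ffp_exists_irreducible v).choose : v.toValuationSubring) : S.E)
  have hunif : ∀ v : Place Qbar S.E, v.ord (unif v) = 1 := by
    intro v
    exact v.ord_coe_irreducible (ffp_exists_irreducible v).choose_spec
  let T : Finset (LaurentSeries Qbar) :=
    insert (f : LaurentSeries Qbar) (Sf.image (fun v => ((unif v : S.E) : LaurentSeries Qbar)))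
  have hT : ∀ x ∈ T, x ∈ S.E := by
    intro x hx
    simp only [T, Finset.mem_insert, Finset.mem_image] at hx
    rcases hx with rfl | ⟨v, -, rfl⟩
    · exact f.2
    · exact (unif v).2
  obtain ⟨K₂, hK₂, hfin₂, hdesc₂⟩ := S.exists_common_descent' (K₀ ⊔ K₁ ⊔ L₁)
    (le_sup_left.trans le_sup_left) T hT
  have := hfin₂
  -- the normal closure
  have hgal : IsGalois ℚ Qbar := Fermat.Agent.Lib.FrobeniusExists.isGalois_Qbar
  have hnorQ : Normal ℚ Qbar := hgal.to_normal
  have halgQ : Algebra.IsAlgebraic ℚ Qbar := NumberFieldDVR27.isAlgebraic_Qbar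
  let K : IntermediateField ℚ Qbar := IntermediateField.normalClosure ℚ K₂ Qbar
  have hK₂K : K₂ ≤ K := IntermediateField.le_normalClosure K₂
  have hfinK : FiniteDimensional ℚ K := normalClosure.is_finiteDimensional ℚ K₂ Qbar
  have hnorK : Normal ℚ K := normalClosure.normal ℚ K₂ Qbar
  have hK₀K₂ : K₀ ≤ K₂ := ((le_sup_left.trans le_sup_left).trans hK₂)
  have hK₀K : K₀ ≤ K := hK₀K₂.trans hK₂K
  have hK₁K : K₁ ≤ K := ((le_sup_right.trans le_sup_left).trans hK₂).trans hK₂K
  have hL₁K : L₁ ≤ K := (le_sup_right.trans hK₂).trans hK₂K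
  have hdesc : ∀ x ∈ T, ∃ x' : S.EK K,
      ((S.bcHom K hK₀K x' : S.E) : LaurentSeries Qbar) = x := by
    intro x hx
    obtain ⟨x₁, hx₁, hxx₁⟩ := hdesc₂ x hx
    obtain ⟨x₂, hx₂, hxx₂⟩ := S.exists_lift_of_le' hK₂K hK₀K₂ hx₁
    exact ⟨⟨x₂, hx₂⟩, hxx₂.trans hxx₁⟩
  obtain ⟨fK, hfK⟩ := hdesc (f : LaurentSeries Qbar) (by simp [T])
  have hbf : S.bcHom K hK₀K fK = f := Subtype.ext hfK
  have hfK0 : fK ≠ 0 := by
    rintro rfl
    rw [map_zero] at hbf
    exact hf hbf.symm
  -- places of `EK K` in the support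
  have hplace : ∀ w : Place K (S.EK K), w.ord fK ≠ 0 →
      ∃ v ∈ Sf, (∀ x : S.EK K, v.ord (S.bcHom K hK₀K x) = w.ord x) ∧
        ∀ x : S.EK K, S.bcHom K hK₀K x ∈ v.toValuationSubring ↔
          x ∈ w.toValuationSubring := by
    intro w hw
    obtain ⟨v, e, he, hve, hmem⟩ := S.exists_place_above' K hK₀K w
    have he' : (e : ℤ) ≠ 0 := by exact_mod_cast he.ne'
    have hvS : v ∈ Sf := by
      by_contra hv
      have h1 := hve fK
      rw [hbf, hS v hv] at h1
      exact hw ((mul_eq_zero.mp h1.symm).resolve_left he')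
    obtain ⟨xu, hxu⟩ := hdesc ((unif v : S.E) : LaurentSeries Qbar) (by
      simp only [T, Finset.mem_insert, Finset.mem_image]
      exact Or.inr ⟨v, hvS, rfl⟩)
    have h3 := hve xu
    have h4 : S.bcHom K hK₀K xu = unif v := Subtype.ext hxu
    rw [h4, hunif v] at h3
    have he1 : (e : ℤ) = 1 := Int.eq_one_of_mul_eq_one_right (by positivity) h3.symm
    refine ⟨v, hvS, fun x => ?_, hmem⟩
    rw [hve x, he1, one_mul]
  refine ⟨K, hK₀K, hfinK, hnorK, hK₁K, fK, hbf, hfK0, ?_, ?_⟩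
  · intro w
    by_cases hw : w.ord fK = 0
    · rw [hw]
      exact dvd_zero _
    · obtain ⟨v, -, hve, -⟩ := hplace w hw
      rw [← hve fK, hbf]
      exact hord v
  · intro w hw
    obtain ⟨v, hvS, -, hmem⟩ := hplace w hw
    exact S.isRational_of_fixed' K hK₀K w v hmem
      (fun σ hσ => hfixS σ (fun a ha => hσ a (hL₁K ha)) v hvS)

end DescFamily

/-! ### DESC' -/

/-- **(U) for a mixed pair over a number field**: conclusion up to a nonzero constant; the support
of `div f` consists of rational places. -/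
def UNumMixed {K F : Type*} [Field K] [Field F] [Algebra K F] (g g' : SemilinearAut K F) (m : ℕ) :
    Prop :=
  ∀ f : F, f ≠ 0 → (∀ v : Place K F, (m : ℤ) ∣ v.ord f) →
    (∀ v : Place K F, v.ord f ≠ 0 → Function.Surjective (algebraMap K v.ResidueField)) →
    ∃ (c : K) (s : F), c ≠ 0 ∧ s ^ m * (g • f * g' • f) = c • (g' • g • f * f)

set_option maxHeartbeats 3200000 in
/-- **DESC' (generic).**  If over every large finite normal `K` there is a pair `(gK, gK')` of
semilinear automorphisms of `EK K` compatible with `(gb, gb')` under base change and satisfying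
`UNumMixed`, then `(gb, gb')` satisfies `MixTop9.UBarMixed` on `E`. -/
theorem descStep_mixed {K₀ : IntermediateField ℚ Qbar} [FiniteDimensional ℚ K₀]
    (S : DescFamily K₀) (gb gb' : SemilinearAut Qbar S.E) {m : ℕ} (hm0 : 0 < m)
    (K₁ : IntermediateField ℚ Qbar) [FiniteDimensional ℚ K₁]
    (hnum : ∀ (K : IntermediateField ℚ Qbar) (hK : K₀ ≤ K), FiniteDimensional ℚ K → Normal ℚ K →
      K₁ ≤ K → ∃ gK gK' : SemilinearAut K (S.EK K),
        (∀ x : S.EK K, S.bcHom K hK (gK • x) = gb • S.bcHom K hK x) ∧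
        (∀ x : S.EK K, S.bcHom K hK (gK' • x) = gb' • S.bcHom K hK x) ∧
        UNumMixed gK gK' m) :
    MixTop9.UBarMixed gb gb' m := by
  intro f hf hord
  obtain ⟨K, hK, hfinK, hnorK, hK₁K, fK, hbf, hfK0, hdiv, hrat⟩ :=
    S.exists_rational_descent' K₁ hf m hord
  obtain ⟨gK, gK', hg, hg', hU⟩ := hnum K hK hfinK hnorK hK₁K
  obtain ⟨c, s, hc, hs⟩ := hU fK hfK0 hdiv hrat
  -- an `m`-th root of the constant
  have hcQ : ((c : K) : Qbar) ≠ 0 := fun h => hc (Subtype.ext h)
  obtain ⟨d, hd⟩ := IsAlgClosed.exists_pow_nat_eq (((c : K) : Qbar)) hm0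
  have hd0 : d ≠ 0 := by
    rintro rfl
    rw [zero_pow hm0.ne'] at hd
    exact hcQ hd.symm
  have hdF : algebraMap Qbar S.E d ≠ 0 := (map_ne_zero _).mpr hd0
  have h5 := congrArg (S.bcHom K hK) hs
  rw [Algebra.smul_def, map_mul, map_mul, map_mul, map_mul, map_pow, hg, hg', hg', hg, hbf,
    S.bcHom_algebraMap] at h5
  have hd' : algebraMap Qbar S.E (algebraMap K Qbar c) = (algebraMap Qbar S.E d) ^ m := by
    rw [← map_pow, hd]
    rfl
  rw [hd'] at h5
  refine ⟨(algebraMap Qbar S.E d)⁻¹ * S.bcHom K hK s, ?_⟩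
  rw [mul_pow, inv_pow, mul_assoc, h5, ← mul_assoc, inv_mul_cancel₀ (pow_ne_zero m hdF), one_mul]

end Fermat.Agent.M43.MixDesc9
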