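/-
M43 (helper9) [LG-q / S1-F spine] MixChain9: **the abstract spine of (LG-q)**:

  MODEL' (`NumData13.NodalNumData` for `EK K` over `A ∩ K`) + GAL' (`MixNum9.MixData` for a pair
  `(gK, gK')` compatible with `(gb, gb')` under base change), over all large finite normal `K`
    ⟹ (NUM') `MixDesc9.UNumMixed gK gK' m`            (`MixNum9.num_of_model_mixed`)
    ⟹ (DESC') `MixTop9.UBarMixed gb gb' m`             (`MixDesc9.descStep_mixed`)
    ⟹ (TOP') `gb' • gb • y + y = gb • y + gb' • y` on `Pic⁰(E)[m]`, `q ∤ m`  (`MixTop9.top_mixed`).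

* `MixReadyAt O E g g'` : the deliverables of MODEL' and GAL' over `(O, E)`;
* `uNumMixed_of_ready` ; `uBarMixed_of_ready` ; `pic0_of_ready`.
-/
import Mathlib
import Fermat.Agent.M43.MixNum9
import Fermat.Agent.M43.MixDesc9
import Fermat.Agent.RED.NumInst4
import Fermat.Agent.RED.DESC.NumberFieldDVR27

set_option autoImplicit false
set_option synthInstance.maxHeartbeats 400000
set_option linter.unusedSectionVars false

open HahnSeries AlgebraicCurve ModularCurve

noncomputable section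

namespace Fermat.Agent.M43.MixChain9

open Fermat.Agent.ES.N34.NumData13 Fermat.Agent.M43.MixNum9 Fermat.Agent.M43.MixDesc9
  Fermat.Agent.M43.MixTop9 Fermat.Agent.RED.Interface4 Fermat.Agent.RED.DESC

section Generic

variable {Kt : Type*} [Field Kt]
variable (O : ValuationSubring Kt) (E : IntermediateField Kt (LaurentSeries Kt))

/-- **Everything NUM' needs over `(O, E)`**: the nodal model and the data of the mixed pair. -/
def MixReadyAt (g g' : SemilinearAut Kt E) : Prop :=
  ∃ (π : O) (t : E) (B0 B1 : Subalgebra ↥O ↥E) (O1 O2 : ValuationSubring ↥E),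
    Irreducible π ∧
    (haveI := Fermat.Agent.RED.NumInst4.isScalarTower_OE O E
     NodalNumData ↥O Kt ↥E π t B0 B1 O1 O2) ∧
    MixData π t O1 O2 (SemilinearAut.toRingAut g) (SemilinearAut.toRingAut g')

variable {O E}

/-- **(NUM') from the bundle.** -/
theorem uNumMixed_of_ready [IsDiscreteValuationRing O] {g g' : SemilinearAut Kt E} {m : ℕ}
    (hm0 : 0 < m) (hinv : ∃ minv : O, (m : O) * minv = 1)
    (hfin : ∀ f : E, f ≠ 0 → {v : Place Kt E | v.ord f ≠ 0}.Finite)
    (h : MixReadyAt O E g g') : UNumMixed g g' m := by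
  obtain ⟨π, t, B0, B1, O1, O2, hπ, D, hG⟩ := h
  intro f hf hord hrat
  obtain ⟨minv, hminv⟩ := hinv
  have := Fermat.Agent.RED.NumInst4.isScalarTower_OE O E
  exact num_of_model_mixed D hπ g g' hG m hm0 minv hminv f hf hord (hfin f hf) hrat

end Generic

variable {K₀ : IntermediateField ℚ Qbar} [FiniteDimensional ℚ K₀] (S : DescFamily K₀)

/-- **(DESC') from the bundles over all large finite normal `K`.** -/
theorem uBarMixed_of_ready {q : ℕ} (hq : q.Prime) {A : ValuationSubring Qbar}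
    (hA : A.LiesOverPrime q) (gb gb' : SemilinearAut Qbar S.E)
    (K₁ : IntermediateField ℚ Qbar) [FiniteDimensional ℚ K₁]
    (hready : ∀ (K : IntermediateField ℚ Qbar) (hK : K₀ ≤ K), FiniteDimensional ℚ K →
      Normal ℚ K → K₁ ≤ K → ∃ gK gK' : SemilinearAut K (S.EK K),
        (∀ x : S.EK K, S.bcHom K hK (gK • x) = gb • S.bcHom K hK x) ∧
        (∀ x : S.EK K, S.bcHom K hK (gK' • x) = gb' • S.bcHom K hK x) ∧
        MixReadyAt (AK A K) (S.EK K) gK gK')
    {m : ℕ} (hm : ¬ q ∣ m) : UBarMixed gb gb' m := by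
  have hm0 : 0 < m := Nat.pos_of_ne_zero fun h => hm (h ▸ dvd_zero q)
  refine descStep_mixed S gb gb' hm0 K₁ fun K hK hfin hnor hK₁ => ?_
  obtain ⟨gK, gK', h1, h2, h3⟩ := hready K hK hfin hnor hK₁
  refine ⟨gK, gK', h1, h2, ?_⟩
  have hdvr : IsDiscreteValuationRing ↥(AK A K) :=
    NumberFieldDVR27.isDiscreteValuationRing_AK A K hq.ne_zero hA
  exact uNumMixed_of_ready hm0 (Fermat.Agent.RED.NumInst4.exists_inv_of_not_dvd hq hA K m hm)
    (fun f hf => S.finite_support_ord_EK K hK hf) h3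

/-- **The spine of (LG-q)**: `(gb' − 1)(gb − 1) = 0` on the prime-to-`q` torsion of `Pic⁰(E)`. -/
theorem pic0_of_ready {q : ℕ} (hq : q.Prime) {A : ValuationSubring Qbar}
    (hA : A.LiesOverPrime q) (gb gb' : SemilinearAut Qbar S.E)
    (K₁ : IntermediateField ℚ Qbar) [FiniteDimensional ℚ K₁]
    (hready : ∀ (K : IntermediateField ℚ Qbar) (hK : K₀ ≤ K), FiniteDimensional ℚ K →
      Normal ℚ K → K₁ ≤ K → ∃ gK gK' : SemilinearAut K (S.EK K),
        (∀ x : S.EK K, S.bcHom K hK (gK • x) = gb • S.bcHom K hK x) ∧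
        (∀ x : S.EK K, S.bcHom K hK (gK' • x) = gb' • S.bcHom K hK x) ∧
        MixReadyAt (AK A K) (S.EK K) gK gK')
    {m : ℕ} (hm : ¬ q ∣ m) (y : Pic0 Qbar S.E) (hy : m • y = 0) :
    gb' • gb • y + y = gb • y + gb' • y :=
  top_mixed gb gb' (fun h => hm (by rw [h]; exact dvd_zero q))
    (uBarMixed_of_ready S hq hA gb gb' K₁ hready hm) y hy

end Fermat.Agent.M43.MixChain9
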