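/-
Programme M43, chapter (LG-q), K-level wiring (lead): **transport of `MixChain9.MixReadyAt` along an
equality of intermediate fields** `E = E' ⊂ Kt((q))` (used for `S.EK K = FH M' ψ_K`).

* `semilinearAut_ext` : a semilinear automorphism is determined by its action on `F`;
* `mixReadyAt_congr` : same field, automorphisms with the same action;
* **`mixReadyAt_of_eq`** : `E = E'`, automorphisms with the same action on underlying series.
-/
import Mathlib
import Fermat.Agent.M43.MixChain9

set_option autoImplicit false
set_option linter.unusedSectionVars false
set_option linter.unusedVariables false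
set_option synthInstance.maxHeartbeats 400000

open HahnSeries AlgebraicCurve

noncomputable section

namespace Fermat.Agent.M43.MixTransport0

open Fermat.Agent.M43.MixChain9

/-- a semilinear automorphism is determined by its action on `F`. -/
theorem semilinearAut_ext {K F : Type*} [Field K] [Field F] [Algebra K F]
    {g G : SemilinearAut K F} (h : ∀ x : F, g • x = G • x) : g = G := by
  apply Subtype.ext
  apply Prod.ext
  · exact RingEquiv.ext h
  · refine RingEquiv.ext fun a => ?_
    apply (algebraMap K F).injective
    have h1 := SemilinearAut.smul_algebraMap g a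
    have h2 := SemilinearAut.smul_algebraMap G a
    exact h1.symm.trans ((h _).trans h2)

variable {Kt : Type*} [Field Kt]
variable (O : ValuationSubring Kt)

theorem mixReadyAt_congr {E : IntermediateField Kt (LaurentSeries Kt)}
    {g g' G G' : SemilinearAut Kt E} (hg : ∀ x : E, g • x = G • x)
    (hg' : ∀ x : E, g' • x = G' • x) (h : MixReadyAt O E g g') : MixReadyAt O E G G' := by
  rw [← semilinearAut_ext hg, ← semilinearAut_ext hg']
  exact h

/-- **transport along `E = E'`.** -/
theorem mixReadyAt_of_eq {E E' : IntermediateField Kt (LaurentSeries Kt)} (hE : E = E')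
    {g g' : SemilinearAut Kt E} {G G' : SemilinearAut Kt E'}
    (hg : ∀ (x : E) (y : E'), (x : LaurentSeries Kt) = (y : LaurentSeries Kt) →
      ((g • x : E) : LaurentSeries Kt) = ((G • y : E') : LaurentSeries Kt))
    (hg' : ∀ (x : E) (y : E'), (x : LaurentSeries Kt) = (y : LaurentSeries Kt) →
      ((g' • x : E) : LaurentSeries Kt) = ((G' • y : E') : LaurentSeries Kt))
    (h : MixReadyAt O E g g') : MixReadyAt O E' G G' := by
  subst hE
  exact mixReadyAt_congr O (fun x => Subtype.ext (hg x x rfl)) (fun x => Subtype.ext (hg' x x rfl)) h

end Fermat.Agent.M43.MixTransport0
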