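/-
M43, chapter (LN) (helper7): **constant field extensions are unramified.**

Abstract form: `K ⊆ L` algebraic, characteristic `0`; `FK / K`, `FL / L` fields with places
`w`, `v`; `ι : FK → FL` compatible with `K → L`, `FL` generated as a field by `L` and `ι FK`,
and `ord_v ∘ ι = e · ord_w` with `e ≥ 1`.  Then `e = 1`.

Proof: for `θ ∈ L` and `P ∈ O_w[X]`, `e ∣ ord_v (P^ι(θ))` by induction on the order (the minimal
polynomial of `θ` over `K` stays separable over the residue field of `w`); every element of
`L[ι FK]` is of the form `P^ι(θ)` by the primitive element theorem; apply to a uniformiser of `v`.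

Concrete form: `ramification_eq_one` for `baseChangeHom M K : FK M K → Fbar M`, and the corollary
`ord_baseChangeHom` : `v.ord (baseChangeHom M K f) = w.ord f`.
-/
import Mathlib
import Fermat.Prelude.Def_AlgebraicCurve_DivisorClassGroup
import Fermat.Agent.X0.FFPlace
import Fermat.Agent.RED.DESC.PlaceExtend27

set_option autoImplicit false
set_option linter.unusedSectionVars false
set_option linter.style.haveILetI false

namespace Fermat.Agent.M43.ConstExt7

open AlgebraicCurve IsLocalRing Polynomial
open Fermat.Agent.X0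

noncomputable section

section FieldLemma

variable {k k' : Type*} [Field k] [Field k']

/-- Pure field theory: if `x` is a root of a separable polynomial `m` over `k`, there is a
cofactor `n₁` with `n₁(x) ≠ 0` such that `P(x) = 0` implies `m ∣ P n₁`. -/
theorem exists_cofactor (φ : k →+* k') (x : k') (m : k[X]) (hm : m.Separable)
    (hmx : m.eval₂ φ x = 0) :
    ∃ n₁ : k[X], n₁.eval₂ φ x ≠ 0 ∧
      ∀ P : k[X], P.eval₂ φ x = 0 → ∃ Q : k[X], P * n₁ = m * Q := by
  letI : Algebra k k' := φ.toAlgebra
  have hmx' : aeval x m = 0 := hmx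
  obtain ⟨n₁, hn₁⟩ := minpoly.dvd k x hmx'
  have hcop : IsCoprime (minpoly k x) n₁ := by
    rw [hn₁] at hm
    exact hm.isCoprime
  refine ⟨n₁, ?_, ?_⟩
  · obtain ⟨a, b, hab⟩ := hcop
    intro h0
    have h0' : aeval x n₁ = 0 := h0
    have h1 := congrArg (aeval x) hab
    simp only [map_add, map_mul, minpoly.aeval, mul_zero, h0', map_one, add_zero] at h1
    exact zero_ne_one h1
  · intro P hP
    have hP' : aeval x P = 0 := hP
    obtain ⟨Q, hQ⟩ := minpoly.dvd k x hP'
    exact ⟨Q, by rw [hQ, hn₁]; ring⟩

end FieldLemma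

section LiftLemma

variable {R : Type*} [CommRing R] [IsLocalRing R]

/-- A polynomial over a local ring with principal maximal ideal `(t)` which reduces to zero is
divisible by `t`. -/
theorem exists_C_mul_of_map_residue_eq_zero {t : R} (ht : maximalIdeal R = Ideal.span {t})
    (P : R[X]) (hP : P.map (residue R) = 0) : ∃ C₁ : R[X], P = C t * C₁ := by
  have h : C t ∣ P := by
    rw [Polynomial.C_dvd_iff_dvd_coeff]
    intro i
    have h1 : residue R (P.coeff i) = 0 := by
      have := congrArg (fun q => q.coeff i) hP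
      simpa [Polynomial.coeff_map] using this
    rw [residue_eq_zero_iff, ht, Ideal.mem_span_singleton] at h1
    exact h1
  exact h

end LiftLemma

section Abstract

variable {K L FK FL : Type*} [Field K] [Field L] [Field FK] [Field FL]
  [Algebra K FK] [Algebra L FL] [Algebra K L]
  (ι : FK →+* FL) (hι : ∀ c : K, ι (algebraMap K FK c) = algebraMap L FL (algebraMap K L c))
  (w : Place K FK) (v : Place L FL)

/-- The induced map on valuation rings. -/
def ringMap (hmem : ∀ a : w.toValuationSubring, ι (a : FK) ∈ v.toValuationSubring) :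
    w.toValuationSubring →+* v.toValuationSubring :=
  (ι.comp w.toValuationSubring.subtype).codRestrict v.toValuationSubring.toSubring hmem

@[simp] theorem coe_ringMap (hmem : ∀ a : w.toValuationSubring, ι (a : FK) ∈ v.toValuationSubring)
    (a : w.toValuationSubring) : ((ringMap ι w v hmem a : v.toValuationSubring) : FL) = ι (a : FK) :=
  rfl

variable (e : ℕ) (he : 0 < e) (hord : ∀ f : FK, v.ord (ι f) = (e : ℤ) * w.ord f)

include hord in
theorem map_mem (a : w.toValuationSubring) : ι (a : FK) ∈ v.toValuationSubring := by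
  rw [FF.ffp_mem_iff_ord_nonneg, hord]
  exact mul_nonneg (Int.natCast_nonneg e) (FF.ffp_ord_nonneg_of_mem w a.2)

include he hord in
theorem isLocalHom_ringMap : IsLocalHom (ringMap ι w v (map_mem ι w v e hord)) := by
  constructor
  intro a ha
  by_contra hna
  have ha0 : a ≠ 0 := by
    rintro rfl
    rw [map_zero] at ha
    exact not_isUnit_zero ha
  have h1 : a ∈ maximalIdeal w.toValuationSubring := by
    rwa [mem_maximalIdeal, mem_nonunits_iff]
  rw [FF.ffp_mem_maximalIdeal_iff w a ha0] at h1
  have h2 := FF.ffp_ord_eq_zero_of_isUnit v ha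
  rw [coe_ringMap, hord] at h2
  have he' : (0 : ℤ) < (e : ℤ) := by exact_mod_cast he
  have := mul_pos he' h1
  omega

end Abstract

section Main

variable {K L FK FL : Type*} [Field K] [Field L] [Field FK] [Field FL]
  [Algebra K FK] [Algebra L FL] [Algebra K L] [CharZero K] [Algebra.IsAlgebraic K L]
  (ι : FK →+* FL) (hι : ∀ c : K, ι (algebraMap K FK c) = algebraMap L FL (algebraMap K L c))
  (w : Place K FK) (v : Place L FL)
  (e : ℕ) (he : 0 < e) (hord : ∀ f : FK, v.ord (ι f) = (e : ℤ) * w.ord f)

/-- Evaluation of polynomials over `O_w` at the constant `θ`. -/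
def evO (θ : L) : Polynomial w.toValuationSubring →+* v.toValuationSubring :=
  Polynomial.eval₂RingHom (ringMap ι w v (map_mem ι w v e hord))
    (algebraMap L v.toValuationSubring θ)

theorem coe_evO (θ : L) (P : Polynomial w.toValuationSubring) :
    ((evO ι w v e hord θ P : v.toValuationSubring) : FL) =
      P.eval₂ (ι.comp w.toValuationSubring.subtype) (algebraMap L FL θ) :=
  Polynomial.hom_eval₂ P (ringMap ι w v (map_mem ι w v e hord)) v.toValuationSubring.subtype
    (algebraMap L v.toValuationSubring θ)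

include hι he in
/-- **Key claim.**  `e` divides the order of every nonzero `P^ι(θ)`, `P ∈ O_w[X]`. -/
theorem dvd_ord_evO (θ : L) : ∀ (k : ℕ) (P : Polynomial w.toValuationSubring),
    evO ι w v e hord θ P ≠ 0 →
    v.ord ((evO ι w v e hord θ P : v.toValuationSubring) : FL) = k → (e : ℤ) ∣ k := by
  classical
  haveI := isLocalHom_ringMap ι w v e he hord
  let ιO := ringMap ι w v (map_mem ι w v e hord)
  let ρ : w.ResidueField →+* v.ResidueField := ResidueField.map ιO
  let θv : v.toValuationSubring := algebraMap L v.toValuationSubring θ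
  let θb : v.ResidueField := residue _ θv
  have hred : ∀ P : Polynomial w.toValuationSubring,
      residue _ (evO ι w v e hord θ P) = (P.map (residue _)).eval₂ ρ θb := by
    intro P
    show residue _ (P.eval₂ ιO θv) = _
    rw [Polynomial.hom_eval₂, Polynomial.eval₂_map]
    congr 1
  -- the minimal polynomial
  have hθint : IsIntegral K θ := (Algebra.IsAlgebraic.isAlgebraic θ).isIntegral
  have hmsep : (minpoly K θ).Separable := (minpoly.irreducible hθint).separable
  let mO : Polynomial w.toValuationSubring := (minpoly K θ).map (algebraMap K w.toValuationSubring)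
  let mb : Polynomial w.ResidueField := mO.map (residue _)
  have hmbsep : mb.Separable := by
    show (((minpoly K θ).map _).map _).Separable
    rw [Polynomial.map_map]
    exact hmsep.map
  have hevm : evO ι w v e hord θ mO = 0 := by
    apply Subtype.ext
    rw [coe_evO, Polynomial.eval₂_map]
    have h2 : (ι.comp w.toValuationSubring.subtype).comp (algebraMap K w.toValuationSubring) =
        (algebraMap L FL).comp (algebraMap K L) := by
      ext c
      exact hι c
    rw [h2, ← Polynomial.hom_eval₂]
    have h3 : (minpoly K θ).eval₂ (algebraMap K L) θ = 0 := minpoly.aeval K θ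
    rw [h3, map_zero]
    rfl
  have hmb0 : mb.eval₂ ρ θb = 0 := by
    rw [← hred, hevm, map_zero]
  obtain ⟨n₁, hn₁, hdiv⟩ := exists_cofactor ρ θb mb hmbsep hmb0
  obtain ⟨N₁, hN₁⟩ := Polynomial.map_surjective (residue w.toValuationSubring)
    residue_surjective n₁
  obtain ⟨t, ht⟩ := FF.ffp_exists_irreducible w
  have htmax := ht.maximalIdeal_eq
  have hN₁unit : IsUnit (evO ι w v e hord θ N₁) := by
    rw [← residue_ne_zero_iff_isUnit, hred, hN₁]
    exact hn₁
  have hN₁ord : v.ord ((evO ι w v e hord θ N₁ : v.toValuationSubring) : FL) = 0 :=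
    FF.ffp_ord_eq_zero_of_isUnit v hN₁unit
  have ht0 : (t : FK) ≠ 0 := by
    simpa [ne_eq, ZeroMemClass.coe_eq_zero] using ht.ne_zero
  have htord : v.ord (ι (t : FK)) = e := by
    rw [hord, w.ord_coe_irreducible ht, mul_one]
  intro k
  induction k using Nat.strong_induction_on with
  | _ k ih =>
    intro P hP hk
    by_cases hres : residue _ (evO ι w v e hord θ P) = 0
    · rw [hred] at hres
      obtain ⟨Q₀, hQ₀⟩ := hdiv _ hres
      obtain ⟨Q, hQ⟩ := Polynomial.map_surjective (residue w.toValuationSubring)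
        residue_surjective Q₀
      have hzero : (P * N₁ - mO * Q).map (residue _) = 0 := by
        rw [Polynomial.map_sub, Polynomial.map_mul, Polynomial.map_mul, hN₁, hQ, hQ₀]
        exact sub_self _
      obtain ⟨C₁, hC₁⟩ := exists_C_mul_of_map_residue_eq_zero htmax _ hzero
      have hev : evO ι w v e hord θ P * evO ι w v e hord θ N₁ =
          ιO t * evO ι w v e hord θ C₁ := by
        have h1 := congrArg (evO ι w v e hord θ) hC₁
        rw [map_sub, map_mul, map_mul, hevm, zero_mul, sub_zero, map_mul] at h1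
        rw [h1]
        congr 1
        exact Polynomial.eval₂_C _ _
      have hevF : ((evO ι w v e hord θ P : v.toValuationSubring) : FL) *
          ((evO ι w v e hord θ N₁ : v.toValuationSubring) : FL) =
          ι (t : FK) * ((evO ι w v e hord θ C₁ : v.toValuationSubring) : FL) := by
        have h1 := congrArg (fun z : v.toValuationSubring => (z : FL)) hev
        simp only [MulMemClass.coe_mul] at h1
        exact h1
      have hPF : ((evO ι w v e hord θ P : v.toValuationSubring) : FL) ≠ 0 := by
        simpa [ne_eq, ZeroMemClass.coe_eq_zero] using hP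
      have hNF : ((evO ι w v e hord θ N₁ : v.toValuationSubring) : FL) ≠ 0 := by
        simpa [ne_eq, ZeroMemClass.coe_eq_zero] using hN₁unit.ne_zero
      have htF : ι (t : FK) ≠ 0 := (map_ne_zero ι).mpr ht0
      have hCF : ((evO ι w v e hord θ C₁ : v.toValuationSubring) : FL) ≠ 0 := by
        intro h0
        rw [h0, mul_zero] at hevF
        exact mul_ne_zero hPF hNF hevF
      have hC0 : evO ι w v e hord θ C₁ ≠ 0 := by
        intro h0
        apply hCF
        rw [h0]
        rfl
      have h5 := congrArg v.ord hevF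
      rw [v.ord_mul hPF hNF, v.ord_mul htF hCF, hN₁ord, htord, add_zero, hk] at h5
      have h6 : 0 ≤ v.ord ((evO ι w v e hord θ C₁ : v.toValuationSubring) : FL) :=
        FF.ffp_ord_nonneg_of_mem v (evO ι w v e hord θ C₁).2
      obtain ⟨k', hk'⟩ := Int.eq_ofNat_of_zero_le h6
      have hlt : k' < k := by
        have : (k : ℤ) = e + k' := by rw [h5, hk']
        omega
      have h7 := ih k' hlt C₁ hC0 hk'
      rw [h5, hk']
      exact dvd_add (dvd_refl _) h7
    · have hu : IsUnit (evO ι w v e hord θ P) := (residue_ne_zero_iff_isUnit _).mp hres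
      have h0 := FF.ffp_ord_eq_zero_of_isUnit v hu
      rw [hk] at h0
      rw [h0]
      exact dvd_zero _

end Main

section Gen

variable {K L FK FL : Type*} [Field K] [Field L] [Field FK] [Field FL]
  [Algebra K FK] [Algebra L FL] [Algebra K L] [CharZero K] [Algebra.IsAlgebraic K L]
  (ι : FK →+* FL) (hι : ∀ c : K, ι (algebraMap K FK c) = algebraMap L FL (algebraMap K L c))
  (w : Place K FK) (v : Place L FL)
  (e : ℕ) (he : 0 < e) (hord : ∀ f : FK, v.ord (ι f) = (e : ℤ) * w.ord f)

include hι he hord in
/-- `e` divides the order of every nonzero `P^ι(θ)`, `P ∈ FK[X]`. -/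
theorem dvd_ord_evF (θ : L) (P : FK[X]) (hP : P.eval₂ ι (algebraMap L FL θ) ≠ 0) :
    (e : ℤ) ∣ v.ord (P.eval₂ ι (algebraMap L FL θ)) := by
  obtain ⟨b, hbM, hb⟩ := IsLocalization.integerNormalization_spec
    (nonZeroDivisors w.toValuationSubring) P
  have hb0 : ((b : w.toValuationSubring) : FK) ≠ 0 := by
    have := nonZeroDivisors.ne_zero hbM
    simpa [ne_eq, ZeroMemClass.coe_eq_zero] using this
  have h1 : ((evO ι w v e hord θ
      (IsLocalization.integerNormalization (nonZeroDivisors w.toValuationSubring) P) :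
        v.toValuationSubring) : FL) =
      ι ((b : w.toValuationSubring) : FK) * P.eval₂ ι (algebraMap L FL θ) := by
    rw [coe_evO, ← Polynomial.eval₂_map]
    have h2 : (IsLocalization.integerNormalization (nonZeroDivisors w.toValuationSubring) P).map
        w.toValuationSubring.subtype = C ((b : w.toValuationSubring) : FK) * P := by
      rw [← Polynomial.smul_eq_C_mul]
      refine Eq.trans hb ?_
      ext i
      simp [Algebra.smul_def]
    rw [h2, Polynomial.eval₂_mul, Polynomial.eval₂_C]
  have hιb : ι ((b : w.toValuationSubring) : FK) ≠ 0 := (map_ne_zero ι).mpr hb0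
  have h3 : ((evO ι w v e hord θ
      (IsLocalization.integerNormalization (nonZeroDivisors w.toValuationSubring) P) :
        v.toValuationSubring) : FL) ≠ 0 := by
    rw [h1]
    exact mul_ne_zero hιb hP
  have h4 : evO ι w v e hord θ
      (IsLocalization.integerNormalization (nonZeroDivisors w.toValuationSubring) P) ≠ 0 := by
    intro h0
    apply h3
    rw [h0]
    rfl
  have h5 := FF.ffp_ord_nonneg_of_mem v (evO ι w v e hord θ
      (IsLocalization.integerNormalization (nonZeroDivisors w.toValuationSubring) P)).2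
  obtain ⟨k, hk⟩ := Int.eq_ofNat_of_zero_le h5
  have h6 := dvd_ord_evO ι hι w v e he hord θ k _ h4 hk
  rw [← hk, h1, v.ord_mul hιb hP, hord] at h6
  exact (Int.dvd_add_right (dvd_mul_right _ _)).mp h6

variable (L) in
/-- Values of polynomials over `FK` at constants of `L`. -/
def IsPolyVal (A : FL) : Prop :=
  ∃ θ : L, ∃ P : FK[X], A = P.eval₂ ι (algebraMap L FL θ)

include hι in
theorem evF_map (γ : L) (p : K[X]) :
    (p.map (algebraMap K FK)).eval₂ ι (algebraMap L FL γ) = algebraMap L FL (aeval γ p) := by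
  rw [Polynomial.eval₂_map]
  have h2 : ι.comp (algebraMap K FK) = (algebraMap L FL).comp (algebraMap K L) := by
    ext c
    exact hι c
  rw [h2, ← Polynomial.hom_eval₂]
  rfl

include hι in
theorem exists_change (θ γ : L) (hθ : θ ∈ IntermediateField.adjoin K {γ}) (P : FK[X]) :
    ∃ P' : FK[X], P.eval₂ ι (algebraMap L FL θ) = P'.eval₂ ι (algebraMap L FL γ) := by
  have hγ : IsAlgebraic K γ := Algebra.IsAlgebraic.isAlgebraic γ
  have h1 : θ ∈ (IntermediateField.adjoin K {γ}).toSubalgebra := hθ
  rw [IntermediateField.adjoin_simple_toSubalgebra_of_isAlgebraic hγ,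
    Algebra.adjoin_singleton_eq_range_aeval] at h1
  obtain ⟨p, hp⟩ := h1
  refine ⟨P.comp (p.map (algebraMap K FK)), ?_⟩
  rw [Polynomial.eval₂_comp, evF_map ι hι, ← hp]
  rfl

include hι in
theorem exists_common {A₁ A₂ : FL} (h₁ : IsPolyVal L ι A₁) (h₂ : IsPolyVal L ι A₂) :
    ∃ (γ : L) (P₁ P₂ : FK[X]), A₁ = P₁.eval₂ ι (algebraMap L FL γ) ∧
      A₂ = P₂.eval₂ ι (algebraMap L FL γ) := by
  obtain ⟨θ₁, P₁, rfl⟩ := h₁
  obtain ⟨θ₂, P₂, rfl⟩ := h₂
  obtain ⟨γ, hγ⟩ := Field.primitive_element_inf_aux K θ₁ θ₂
  have hm₁ : θ₁ ∈ IntermediateField.adjoin K {γ} := by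
    rw [← hγ]
    exact IntermediateField.subset_adjoin K _ (Set.mem_insert _ _)
  have hm₂ : θ₂ ∈ IntermediateField.adjoin K {γ} := by
    rw [← hγ]
    exact IntermediateField.subset_adjoin K _ (Set.mem_insert_of_mem _ rfl)
  obtain ⟨P₁', h1⟩ := exists_change ι hι θ₁ γ hm₁ P₁
  obtain ⟨P₂', h2⟩ := exists_change ι hι θ₂ γ hm₂ P₂
  exact ⟨γ, P₁', P₂', h1, h2⟩

include hι in
theorem isPolyVal_of_mem_adjoin {A : FL} (hA : A ∈ Algebra.adjoin L (Set.range ι)) :
    IsPolyVal L ι A := by
  induction hA using Algebra.adjoin_induction with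
  | mem x hx =>
    obtain ⟨f, rfl⟩ := hx
    exact ⟨0, C f, by rw [Polynomial.eval₂_C]⟩
  | algebraMap c => exact ⟨c, X, by rw [Polynomial.eval₂_X]⟩
  | add x y _ _ hx hy =>
    obtain ⟨γ, P₁, P₂, rfl, rfl⟩ := exists_common ι hι hx hy
    exact ⟨γ, P₁ + P₂, by rw [Polynomial.eval₂_add]⟩
  | mul x y _ _ hx hy =>
    obtain ⟨γ, P₁, P₂, rfl, rfl⟩ := exists_common ι hι hx hy
    exact ⟨γ, P₁ * P₂, by rw [Polynomial.eval₂_mul]⟩

include hι he hord in
theorem dvd_ord_of_mem_adjoin {A : FL} (hA : A ∈ Algebra.adjoin L (Set.range ι)) (hA0 : A ≠ 0) :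
    (e : ℤ) ∣ v.ord A := by
  obtain ⟨θ, P, rfl⟩ := isPolyVal_of_mem_adjoin ι hι hA
  exact dvd_ord_evF ι hι w v e he hord θ P hA0

include hι he hord in
/-- **Constant field extensions are unramified (abstract form).** -/
theorem ramification_eq_one_abstract
    (hgen : IntermediateField.adjoin L (Set.range ι) = ⊤) : e = 1 := by
  obtain ⟨π, hπ⟩ := FF.ffp_exists_irreducible v
  have hπ0 : (π : FL) ≠ 0 := by
    simpa [ne_eq, ZeroMemClass.coe_eq_zero] using hπ.ne_zero
  have hmem : (π : FL) ∈ IntermediateField.adjoin L (Set.range ι) := by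
    rw [hgen]
    exact IntermediateField.mem_top
  rw [IntermediateField.mem_adjoin_iff_div] at hmem
  obtain ⟨r, hr, s, hs, hrs⟩ := hmem
  have hs0 : s ≠ 0 := by
    rintro rfl
    rw [div_zero] at hrs
    exact hπ0 hrs
  have hr0 : r ≠ 0 := by
    rintro rfl
    rw [zero_div] at hrs
    exact hπ0 hrs
  have h1 := dvd_ord_of_mem_adjoin ι hι w v e he hord hr hr0
  have h2 := dvd_ord_of_mem_adjoin ι hι w v e he hord hs hs0
  have h3 : v.ord (π : FL) = v.ord r - v.ord s := by
    rw [hrs, div_eq_mul_inv, v.ord_mul hr0 (inv_ne_zero hs0), v.ord_inv]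
    ring
  rw [v.ord_coe_irreducible hπ] at h3
  have h4 : (e : ℤ) ∣ 1 := by
    rw [h3]
    exact dvd_sub h1 h2
  have h5 : e ∣ 1 := by exact_mod_cast h4
  exact Nat.dvd_one.mp h5

end Gen

section Concrete

open Fermat.Agent.RED.Interface4 Fermat.Agent.RED.DESC.PlaceExtend27 ModularCurve

variable (M : ℕ) (K : IntermediateField ℚ Qbar)

set_option synthInstance.maxHeartbeats 400000
set_option maxHeartbeats 1600000

/-- `ℚ̄·F_M` is generated over `ℚ̄` by the image of `K·F_M`. -/
theorem adjoin_range_baseChangeHom :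
    IntermediateField.adjoin Qbar (Set.range (baseChangeHom M K)) = ⊤ := by
  apply IntermediateField.map_injective (Fbar M).val
  rw [IntermediateField.adjoin_map, ← AlgHom.fieldRange_eq_map, IntermediateField.fieldRange_val]
  apply le_antisymm
  · rw [IntermediateField.adjoin_le_iff]
    rintro _ ⟨_, ⟨f, rfl⟩, rfl⟩
    exact (baseChangeHom M K f).2
  · show laurentBaseChange Qbar (modularFunctionFieldFull M) ≤ _
    unfold laurentBaseChange
    apply IntermediateField.adjoin.mono
    rintro _ ⟨z, hz, rfl⟩
    refine ⟨baseChangeHom M K ⟨coeffEmb K z, coeffEmb_mem_laurentBaseChange K hz⟩, ⟨_, rfl⟩, ?_⟩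
    show coeffMap (algebraMap K Qbar) (coeffEmb K z) = coeffEmb Qbar z
    exact Fermat.Agent.RED.DESC.CoeffDescent1.coeffMap_coeffEmb_of_algHom
      (algebraMap K Qbar) z

/-- **Constant field extensions are unramified**: the ramification index in (EXT) is `1`. -/
theorem ramification_eq_one (w : Place K (FK M K)) (v : Place Qbar (Fbar M)) (e : ℕ)
    (he : 0 < e) (hord : ∀ f : FK M K, v.ord (baseChangeHom M K f) = (e : ℤ) * w.ord f) :
    e = 1 := by
  haveI := isAlgebraic_Qbar_over K
  exact ramification_eq_one_abstract (baseChangeHom M K) (baseChangeHom_algebraMap M K) w v e he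
    hord (adjoin_range_baseChangeHom M K)

/-- **(EXT), sharp form.**  Every place `w` of `K·F_M / K` has a place `v` of `ℚ̄·F_M / ℚ̄`
above it with `ord_v ∘ bc = ord_w`. -/
theorem exists_place_above_ord [NeZero M] (w : Place K (FK M K)) :
    ∃ v : Place Qbar (Fbar M), ∀ f : FK M K, v.ord (baseChangeHom M K f) = w.ord f := by
  obtain ⟨v, e, he, hord⟩ := exists_place_above M K w
  have h1 := ramification_eq_one M K w v e he hord
  subst h1
  exact ⟨v, fun f => by rw [hord]; simp⟩

/-- Divisibility of all orders descends from `ℚ̄` to every `K`. -/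
theorem dvd_ord_of_dvd_ord_baseChange [NeZero M] (n : ℤ) (f : FK M K)
    (h : ∀ v : Place Qbar (Fbar M), n ∣ v.ord (baseChangeHom M K f)) (w : Place K (FK M K)) :
    n ∣ w.ord f := by
  obtain ⟨v, hv⟩ := exists_place_above_ord M K w
  rw [← hv]
  exact h v

end Concrete

end

end Fermat.Agent.M43.ConstExt7
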