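/-
M43, chapter (LN) (helper7): **[ETALE] over every number field `K ⊂ ℚbar`.**

Every order of the Kummer function `u_K = θ_ψ ^ n ∈ FK (M' r) K` (`4 ∣ M'`) at a place of
`FK (M' r) K / K` is divisible by `n` — with NO largeness hypothesis on `K`
(`ConstExt7`: constant field extensions are unramified, + `EtaleDiv7` over `ℚbar`).
-/
import Mathlib
import Fermat.Agent.M43.ConstExt7
import Fermat.Agent.M43.EtaleDiv7
import Fermat.Agent.M43.ThetaFieldK8

set_option autoImplicit false
set_option linter.unusedSectionVars false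
set_option synthInstance.maxHeartbeats 400000

namespace Fermat.Agent.M43.EtaleK7

open AlgebraicCurve ModularCurve
open Fermat.Agent.RED.Interface4 Fermat.Agent.RED.DESC.PlaceExtend27
open Fermat.Agent.M43.ThetaFieldK8 Fermat.Agent.M43.IgusaSlope8

variable (K : IntermediateField ℚ Qbar) {r : ℕ} [Fact r.Prime] [NeZero r]
variable (M' : ℕ) [NeZero M']

/-- **[ETALE] over `K`**: `n ∣ ord_w (u_K)` for every place `w` of `FK (M' r) K`. -/
theorem dvd_ord_uK (h4 : 4 ∣ M') {ψ : MulChar (ZMod r) ↥K} (heven : ψ (-1) = 1) {n : ℕ}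
    (hn0 : n ≠ 0) (hn : ψ ^ n = 1) (w : Place K (FK (M' * r) K)) :
    (n : ℤ) ∣ w.ord (uK M' heven hn) := by
  refine Fermat.Agent.M43.ConstExt7.dvd_ord_of_dvd_ord_baseChange (M' * r) K n _ (fun v => ?_) w
  rw [baseChangeHom_uK]
  exact Fermat.Agent.M43.EtaleDiv7.dvd_ord_of_coe_eq (psiBar_even heven) hn0 (psiBar_pow hn) M' h4
    (uTheta M' (psiBar_even heven) (psiBar_pow hn)) rfl v

end Fermat.Agent.M43.EtaleK7
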