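/-
Programme M43, chapter (LG-q), Stage 1, block (LS) (helper8; piece handed over by helper7):
**the CONCRETE smooth normal forms (LS0), (LS1)** = the hypotheses `LS0`, `LS1` of
`KLift9.nodalNumData_lift` for the Kummer function `u_K = θ_ψ^(p^k) ∈ FK (M' r) K` on N34's nodal
model `(B0 A r ht, B1 A r ht, O1, O2)` over `R = AK A K`.

* `uK_ne_zero`;
* `ls_four` : Kummer part abstract (`F' ⊇ F_K` any field, `θ ^ n = u_K`, `δ` fixing `F_K`,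
  `δ θ = ζ θ`), `ρ ∈ K` with `ρ ^ n = r`: `KLift9.LSAt` at every maximal ideal `𝔪 ∋ π` of both
  charts missing one component.  Constants: `c₁ = 1` on `O1` (`GaussDataK8.uK_mem_O1`), `c₂ = ρ ^ b`
  on `O2` (`GaussDataK8.exists_const_O2'`), (U2) `= EtaleK7.dvd_ord_uK`;
* `zeta_mem_AK` : roots of unity of `K` lie in `AK A K`;
* `ls_FH` : the instance `F' = FH M' ψ`, `θ = thetaK M' ψ`, `δ = deltaK M' hirr ζ _`.
-/
import Mathlib
import Fermat.Agent.M43.LSAbs8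
import Fermat.Agent.M43.GaussUp8
import Fermat.Agent.M43.EtaleK7

set_option autoImplicit false
set_option linter.unusedSectionVars false
set_option linter.style.haveILetI false
set_option linter.unusedVariables false
set_option synthInstance.maxHeartbeats 400000

open ModularCurve AlgebraicCurve Polynomial

noncomputable section

namespace Fermat.Agent.M43.LSInst8

local notation "Qbar" => AlgebraicClosure ℚ

open Fermat.Agent.X0 Fermat.Agent.RED.Interface4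
open Fermat.Agent.RED.DESC.NumberFieldDVR27
open Fermat.Agent.RED.PUR.GaussGen8 Fermat.Agent.ES.RED Fermat.Agent.ES.N34.ModelDefs9
open Fermat.Agent.ES.N34.NodalCore13 Fermat.Agent.ES.N34.NodalCL13 Fermat.Agent.ES.N34.NumData13
open Fermat.Agent.M43.KLift9 Fermat.Agent.M43.LSAbs8
open Fermat.Agent.M43.KummerAdj8 Fermat.Agent.M43.KummerGal8
open Fermat.Agent.M43.ThetaFieldK8 Fermat.Agent.M43.ThetaDeltaK8 Fermat.Agent.M43.GaussDataK8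
open Fermat.Agent.M43.GaussUp8 Fermat.Agent.T33.NodalHalf4 Fermat.Agent.RED.BASE.EtaQuot12

variable {A : ValuationSubring Qbar}
variable {r M' : ℕ} [NeZero M'] [NeZero r] [Fact r.Prime]
variable {K : IntermediateField ℚ Qbar}

/-- `u_K ≠ 0`. -/
theorem uK_ne_zero (hA : A.LiesOverPrime r) (hr2 : r ≠ 2) {ψ : MulChar (ZMod r) ↥K}
    (heven : ψ (-1) = 1) {n : ℕ} (hn : ψ ^ n = 1) : uK M' heven hn ≠ 0 := by
  obtain ⟨hΘ, hΘne⟩ := thetaInfK_unit (A := A) (K := K) hA hr2 ψ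
  intro h0
  have h1 : thetaInfK K ψ ^ n = 0 := by
    rw [← coe_uK M' heven hn, h0]
    rfl
  have h2 : thetaInfK K ψ = 0 := eq_zero_of_pow_eq_zero h1
  apply hΘne
  have e : (⟨thetaInfK K ψ, hΘ⟩ : gaussRing (AK A K)) = 0 := Subtype.ext h2
  rw [e, map_zero]

set_option maxHeartbeats 1600000 in
/-- **(LS0) + (LS1), Kummer part abstract.** -/
theorem ls_four {nH eH : ℕ} [NeZero nH] (h : LevelHyp r M' A) (h4 : 4 ∣ M')
    {π : ↥(AK A K)} (hπ : IsUnif (AK A K) π) (hE : FK (M' * r) K ≤ fracField (AK A K))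
    (ht : tq (↥K) nH eH ∈ FK M' K)
    (hD : NodalNumData ↥(AK A K) ↥K ↥(FK (M' * r) K) π (tN r ht) (B0 A r ht) (B1 A r ht)
      (O1 M' r hπ hE) (O2 M' r hπ hE))
    {ψ : MulChar (ZMod r) ↥K} (heven : ψ (-1) = 1) {p : ℕ} (hp : p.Prime) (k : ℕ) (hk : 1 ≤ k)
    (hord : orderOf ψ = p ^ k) (hn : ψ ^ (p ^ k) = 1)
    (ρ : ↥K) (hρ : ρ ^ (p ^ k) = (r : ↥K))
    {F' : Type*} [Field F'] [Algebra ↥(FK (M' * r) K) F'] [Algebra ↥(AK A K) F']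
    [IsScalarTower ↥(AK A K) ↥(FK (M' * r) K) F']
    (θ : F') (hθ : θ ^ (p ^ k) = algebraMap ↥(FK (M' * r) K) F' (uK M' heven hn))
    (δ : F' →+* F')
    (hδF : ∀ f : ↥(FK (M' * r) K),
      δ (algebraMap ↥(FK (M' * r) K) F' f) = algebraMap ↥(FK (M' * r) K) F' f)
    (ζ : ↥(AK A K)) (hζ : IsPrimitiveRoot (algebraMap ↥(AK A K) F' ζ) (p ^ k))
    (hδθ : δ θ = algebraMap ↥(AK A K) F' ζ * θ) :
    (∀ 𝔪 : Ideal ↥(B0 A r ht), 𝔪.IsMaximal → algebraMap ↥(AK A K) ↥(B0 A r ht) π ∈ 𝔪 →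
      OffBranch π (B0 A r ht) (O1 M' r hπ hE) 𝔪 ∨ OffBranch π (B0 A r ht) (O2 M' r hπ hE) 𝔪 →
        LSAt (F' := F') (B0 A r ht) 𝔪 δ (p ^ k)) ∧
    (∀ 𝔪 : Ideal ↥(B1 A r ht), 𝔪.IsMaximal → algebraMap ↥(AK A K) ↥(B1 A r ht) π ∈ 𝔪 →
      OffBranch π (B1 A r ht) (O1 M' r hπ hE) 𝔪 ∨ OffBranch π (B1 A r ht) (O2 M' r hπ hE) 𝔪 →
        LSAt (F' := F') (B1 A r ht) 𝔪 δ (p ^ k)) := by
  have hr : r.Prime := Fact.out
  have hr0 : (r : ↥K) ≠ 0 := Nat.cast_ne_zero.mpr hr.ne_zero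
  have hn0 : p ^ k ≠ 0 := pow_ne_zero k hp.ne_zero
  obtain ⟨ε, b, hε0, hε, hεi, -, hu2, hu2'⟩ := exists_const_O2' h hπ hE heven hp k hk hord hn
  have hρ0 : ρ ≠ 0 := by
    rintro rfl
    rw [zero_pow hn0] at hρ
    exact hr0 hρ.symm
  have hρb : (ρ ^ b) ^ (p ^ k) = (r : ↥K) ^ b := by
    rw [← zpow_natCast, ← zpow_mul, mul_comm, zpow_mul, zpow_natCast, hρ]
  have hrb : (r : ↥K) ^ b ≠ 0 := zpow_ne_zero _ hr0
  have hu0 : uK M' heven hn ≠ 0 := uK_ne_zero h.liesOver h.ne_two heven hn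
  -- constants of `AK A K` lie in `O2`
  have hRO2 : ∀ x : ↥K, x ∈ AK A K →
      algebraMap ↥K ↥(FK (M' * r) K) x ∈ O2 M' r hπ hE := by
    intro x hx
    have h1 := hD.model.le_O2_0 _ (Subalgebra.algebraMap_mem (B0 A r ht) ⟨x, hx⟩)
    rw [IsScalarTower.algebraMap_apply ↥(AK A K) ↥K ↥(FK (M' * r) K)] at h1
    exact h1
  have e2 : uK M' heven hn / algebraMap ↥K ↥(FK (M' * r) K) (ρ ^ b) ^ (p ^ k) =
      algebraMap ↥K ↥(FK (M' * r) K) ε *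
        (algebraMap ↥K ↥(FK (M' * r) K) (ε * (r : ↥K) ^ b)⁻¹ * uK M' heven hn) := by
    rw [← map_pow, hρb, ← mul_assoc, ← map_mul, mul_inv, ← mul_assoc, mul_inv_cancel₀ hε0,
      one_mul, map_inv₀, div_eq_inv_mul]
  have e2' : (uK M' heven hn / algebraMap ↥K ↥(FK (M' * r) K) (ρ ^ b) ^ (p ^ k))⁻¹ =
      algebraMap ↥K ↥(FK (M' * r) K) ε⁻¹ *
        (algebraMap ↥K ↥(FK (M' * r) K) (ε * (r : ↥K) ^ b)⁻¹ * uK M' heven hn)⁻¹ := by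
    rw [e2, mul_inv, ← map_inv₀ (algebraMap ↥K ↥(FK (M' * r) K)) ε]
  refine lsAt_of_numData (K := ↥K) hD (p ^ k) hn0 (uK M' heven hn) hu0 1 (ρ ^ b) one_ne_zero
    (zpow_ne_zero b hρ0) ?_ ?_ ?_ ?_
    (fun v => Fermat.Agent.M43.EtaleK7.dvd_ord_uK K M' h4 heven hn0 hn v) θ hθ δ hδF ζ hζ hδθ
  · rw [map_one, one_pow, div_one]
    exact uK_mem_O1 h hπ hE heven hn
  · rw [map_one, one_pow, div_one]
    exact uK_inv_mem_O1 h hπ hE heven hn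
  · rw [e2]
    exact (O2 M' r hπ hE).mul_mem _ _ (hRO2 ε hε) hu2
  · rw [e2']
    exact (O2 M' r hπ hE).mul_mem _ _ (hRO2 ε⁻¹ hεi) hu2'

/-- roots of unity of `K` lie in `AK A K`. -/
theorem zeta_mem_AK (A : ValuationSubring Qbar) {ζ : ↥K} {n : ℕ} (hn0 : n ≠ 0)
    (hζ : ζ ^ n = 1) : ζ ∈ AK A K := by
  rcases (AK A K).mem_or_inv_mem ζ with h | h
  · exact h
  · obtain ⟨m, rfl⟩ : ∃ m, n = m + 1 := Nat.exists_eq_succ_of_ne_zero hn0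
    have h1 : ζ⁻¹ ^ m = ζ := by
      rw [inv_pow]
      exact inv_eq_of_mul_eq_one_right (by rw [← pow_succ]; exact hζ)
    rw [← h1]
    exact pow_mem h m

set_option maxHeartbeats 1600000 in
/-- **(LS0) + (LS1) for `F'_K = FH M' ψ`, `θ = ϑ`, `δ = deltaK`.** -/
theorem ls_FH {nH eH : ℕ} [NeZero nH] (h : LevelHyp r M' A) (h4 : 4 ∣ M')
    {π : ↥(AK A K)} (hπ : IsUnif (AK A K) π) (hE : FK (M' * r) K ≤ fracField (AK A K))
    (ht : tq (↥K) nH eH ∈ FK M' K)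
    (hD : NodalNumData ↥(AK A K) ↥K ↥(FK (M' * r) K) π (tN r ht) (B0 A r ht) (B1 A r ht)
      (O1 M' r hπ hE) (O2 M' r hπ hE))
    {ψ : MulChar (ZMod r) ↥K} (heven : ψ (-1) = 1) {p : ℕ} (hp : p.Prime) (hp2 : p ≠ 2) (k : ℕ)
    (hk : 1 ≤ k) (hord : orderOf ψ = p ^ k) (hn : ψ ^ (p ^ k) = 1)
    (ρ : ↥K) (hρ : ρ ^ (p ^ k) = (r : ↥K)) {ζ : ↥K} (hζ : IsPrimitiveRoot ζ (p ^ k)) :
    (∀ 𝔪 : Ideal ↥(B0 A r ht), 𝔪.IsMaximal → algebraMap ↥(AK A K) ↥(B0 A r ht) π ∈ 𝔪 →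
      OffBranch π (B0 A r ht) (O1 M' r hπ hE) 𝔪 ∨ OffBranch π (B0 A r ht) (O2 M' r hπ hE) 𝔪 →
        LSAt (F' := ↥(FH M' ψ)) (B0 A r ht) 𝔪
          (deltaK M' (irreducible_uK M' h heven hp hp2 k hk hord hn) ζ hζ.pow_eq_one :
            ↥(FH M' ψ) →+* ↥(FH M' ψ)) (p ^ k)) ∧
    (∀ 𝔪 : Ideal ↥(B1 A r ht), 𝔪.IsMaximal → algebraMap ↥(AK A K) ↥(B1 A r ht) π ∈ 𝔪 →
      OffBranch π (B1 A r ht) (O1 M' r hπ hE) 𝔪 ∨ OffBranch π (B1 A r ht) (O2 M' r hπ hE) 𝔪 →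
        LSAt (F' := ↥(FH M' ψ)) (B1 A r ht) 𝔪
          (deltaK M' (irreducible_uK M' h heven hp hp2 k hk hord hn) ζ hζ.pow_eq_one :
            ↥(FH M' ψ) →+* ↥(FH M' ψ)) (p ^ k)) := by
  have hirr := irreducible_uK M' h heven hp hp2 k hk hord hn
  have hn0 : p ^ k ≠ 0 := pow_ne_zero k hp.ne_zero
  have hζA : ζ ∈ AK A K := zeta_mem_AK A hn0 hζ.pow_eq_one
  refine ls_four h h4 hπ hE ht hD heven hp k hk hord hn ρ hρ (thetaK M' ψ)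
    (thetaK_pow M' (heven := heven) (hn := hn)) _
    (fun f => deltaK_algebraMap M' hirr ζ hζ.pow_eq_one f) ⟨ζ, hζA⟩ ?_ ?_
  · rw [algebraMap_AK_eq]
    exact hζ.map_of_injective (algebraMap ↥K ↥(FH M' ψ)).injective
  · rw [algebraMap_AK_eq]
    exact deltaK_theta' M' hirr ζ hζ.pow_eq_one

end Fermat.Agent.M43.LSInst8
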