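/-
Programme M43, chapter (LG-q), Stage 1 (helper8): **MODEL' for `F'_K = FH M' ψ`** = the concrete
instance of helper9's `LGqUp9.nodalNumData_up` at `F' = FH M' ψ`, `δ = deltaK`, with the node normal
forms (LN0), (LN1) as the ONLY remaining hypotheses, and the bundle `MixChain9.MixReadyAt`.

* `finiteDimensional_adjoin_map` (abstract): `[F : K(t)] < ∞`, `[F' : F] < ∞` ⟹ `[F' : K(t)] < ∞`;
* `nodalNumData_FH` : downstairs data (`LGqDown9.exists_down` at `K`), `ζ_r`, `ζ_{p^k}`,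
  `ρ = r^{1/p^k} ∈ K`, (LN0), (LN1) ⟹ `NodalDataAt (AK A K) (FH M' ψ) π t' (chart t') (chart t'⁻¹)
  O1' O2'`  [(EXT), (UNR) `GaussUp8`; (UNIQ) `GaussUniqK8`; `δ`-fields `ThetaDeltaK8`; (LS)
  `LSInst8.ls_FH`];
* `mixReadyAt_FH` : with `GalMixU0.mixData_closed`, the bundle
  `MixReadyAt (AK A K) (FH M' ψ) (gFH ..) (gFH' ..)`.
-/
import Mathlib
import Fermat.Agent.M43.LGqDown9
import Fermat.Agent.M43.LSInst8
import Fermat.Agent.M43.GalMixU0
import Fermat.Agent.M43.MixChain9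

set_option autoImplicit false
set_option linter.unusedSectionVars false
set_option linter.style.haveILetI false
set_option linter.unusedVariables false
set_option synthInstance.maxHeartbeats 400000

open ModularCurve AlgebraicCurve Polynomial

noncomputable section

namespace Fermat.Agent.M43.ModelFH8

local notation "Qbar" => AlgebraicClosure ℚ

/-- **finiteness over `K(t)` passes to a finite extension.** -/
theorem finiteDimensional_adjoin_map {K F F' : Type*} [Field K] [Field F] [Field F']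
    [Algebra K F] [Algebra F F'] [Algebra K F'] [IsScalarTower K F F'] (t : F)
    [FiniteDimensional (IntermediateField.adjoin K {t}) F] [FiniteDimensional F F'] :
    FiniteDimensional (IntermediateField.adjoin K {algebraMap F F' t}) F' := by
  have hmem : ∀ x : IntermediateField.adjoin K {t},
      algebraMap F F' (x : F) ∈ IntermediateField.adjoin K {algebraMap F F' t} := by
    intro x
    have h1 : (IsScalarTower.toAlgHom K F F') (x : F) ∈
        (IntermediateField.adjoin K {t}).map (IsScalarTower.toAlgHom K F F') := ⟨x, x.2, rfl⟩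
    rw [IntermediateField.adjoin_map, Set.image_singleton] at h1
    exact h1
  let φ : IntermediateField.adjoin K {t} →+* IntermediateField.adjoin K {algebraMap F F' t} :=
    RingHom.codRestrict ((algebraMap F F').comp (algebraMap (IntermediateField.adjoin K {t}) F))
      (IntermediateField.adjoin K {algebraMap F F' t}) hmem
  letI : Algebra (IntermediateField.adjoin K {t})
      (IntermediateField.adjoin K {algebraMap F F' t}) := φ.toAlgebra
  haveI : IsScalarTower (IntermediateField.adjoin K {t})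
      (IntermediateField.adjoin K {algebraMap F F' t}) F' :=
    IsScalarTower.of_algebraMap_eq fun x => rfl
  haveI : Module.Finite (IntermediateField.adjoin K {t}) F' :=
    Module.Finite.trans F F'
  exact Module.Finite.of_restrictScalars_finite (IntermediateField.adjoin K {t})
    (IntermediateField.adjoin K {algebraMap F F' t}) F'

open Fermat.Agent.X0 Fermat.Agent.RED.Interface4 Fermat.Agent.RED.DESC
open Fermat.Agent.RED.DESC.NumberFieldDVR27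
open Fermat.Agent.RED.PUR.GaussGen8 Fermat.Agent.RED.PUR.ChartGeneric22
open Fermat.Agent.ES.RED Fermat.Agent.ES.N34.ModelDefs9 Fermat.Agent.ES.N34.ModelInput13
open Fermat.Agent.ES.N34.NodalCore13 Fermat.Agent.ES.N34.NodalCL13 Fermat.Agent.ES.N34.NumData13
open Fermat.Agent.ES.N34.TwoGlue20 Fermat.Agent.ES.N34.GalBase21
open Fermat.Agent.M43.KLift9 Fermat.Agent.M43.KNode9 Fermat.Agent.M43.LGqUp9
open Fermat.Agent.M43.KummerAdj8 Fermat.Agent.M43.KummerGal8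
open Fermat.Agent.M43.ThetaFieldK8 Fermat.Agent.M43.ThetaDeltaK8 Fermat.Agent.M43.GaussDataK8
open Fermat.Agent.M43.GaussUp8 Fermat.Agent.M43.GaussUniqK8 Fermat.Agent.M43.LSInst8
open Fermat.Agent.T33.NodalHalf4 Fermat.Agent.RED.BASE.EtaQuot12

variable {A : ValuationSubring Qbar}
variable {r M' : ℕ} [NeZero M'] [NeZero r] [Fact r.Prime]
variable {K : IntermediateField ℚ Qbar}

set_option maxHeartbeats 3200000 in
/-- **MODEL' for `F'_K = FH M' ψ`**, modulo the node normal forms (LN0), (LN1). -/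
theorem nodalNumData_FH [FiniteDimensional ℚ K] {nH eH : ℕ} [NeZero nH] (h : LevelHyp r M' A) (h4 : 4 ∣ M')
    {π : ↥(AK A K)} (hπ : IsUnif (AK A K) π) (hE : FK (M' * r) K ≤ fracField (AK A K))
    (ht : tq (↥K) nH eH ∈ FK M' K)
    (hD : NodalDataAt (AK A K) (FK (M' * r) K) π (tN r ht) (B0 A r ht) (B1 A r ht)
      (O1 M' r hπ hE) (O2 M' r hπ hE))
    (gout : GlueOut (↥K) π (tN r ht) (O1 M' r hπ hE) (O2 M' r hπ hE))
    (gin : GlueIn (↥K) π (tN r ht) (O1 M' r hπ hE) (O2 M' r hπ hE))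
    (hfd : FiniteDimensional ↥(IntermediateField.adjoin ↥K {tN r ht}) ↥(FK (M' * r) K))
    {ψ : MulChar (ZMod r) ↥K} (heven : ψ (-1) = 1) {p : ℕ} (hp : p.Prime) (hp2 : p ≠ 2)
    (hpr : p ≠ r) (k : ℕ) (hk : 1 ≤ k) (hord : orderOf ψ = p ^ k) (hn : ψ ^ (p ^ k) = 1)
    {ζr : ↥K} (hζK : algebraMap ↥K Qbar ζr = zetaK r)
    (ρ : ↥K) (hρ : ρ ^ (p ^ k) = (r : ↥K)) {ζ : ↥K} (hζ : IsPrimitiveRoot ζ (p ^ k))
    (LN0 : ∀ 𝔪 : Ideal ↥(B0 A r ht), 𝔪.IsMaximal → algebraMap ↥(AK A K) ↥(B0 A r ht) π ∈ 𝔪 →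
      ¬ OffBranch π (B0 A r ht) (O1 M' r hπ hE) 𝔪 → ¬ OffBranch π (B0 A r ht) (O2 M' r hπ hE) 𝔪 →
        Nonempty (KNodeDatum (F' := ↥(FH M' ψ)) π (B0 A r ht) (O1 M' r hπ hE) (O2 M' r hπ hE) 𝔪
          (deltaK M' (irreducible_uK M' h heven hp hp2 k hk hord hn) ζ hζ.pow_eq_one :
            ↥(FH M' ψ) →+* ↥(FH M' ψ)) (p ^ k)))
    (LN1 : ∀ 𝔪 : Ideal ↥(B1 A r ht), 𝔪.IsMaximal → algebraMap ↥(AK A K) ↥(B1 A r ht) π ∈ 𝔪 →
      ¬ OffBranch π (B1 A r ht) (O1 M' r hπ hE) 𝔪 → ¬ OffBranch π (B1 A r ht) (O2 M' r hπ hE) 𝔪 →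
        Nonempty (KNodeDatum (F' := ↥(FH M' ψ)) π (B1 A r ht) (O1 M' r hπ hE) (O2 M' r hπ hE) 𝔪
          (deltaK M' (irreducible_uK M' h heven hp hp2 k hk hord hn) ζ hζ.pow_eq_one :
            ↥(FH M' ψ) →+* ↥(FH M' ψ)) (p ^ k))) :
    NodalDataAt (AK A K) (FH M' ψ) π
      (algebraMap ↥(FK (M' * r) K) ↥(FH M' ψ) (tN r ht))
      (chart ↥(AK A K) (algebraMap ↥(FK (M' * r) K) ↥(FH M' ψ) (tN r ht)))
      (chart ↥(AK A K) (algebraMap ↥(FK (M' * r) K) ↥(FH M' ψ) (tN r ht))⁻¹)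
      (O1' h.liesOver h.ne_two M' hπ hE ψ)
      (O2' h.liesOver h.ne_two M' hπ hE (irreducible_uK M' h heven hp hp2 k hk hord hn) hζK
        (psi_ne_one hp hk hord)) := by
  have hr : r.Prime := Fact.out
  have hirr := irreducible_uK M' h heven hp hp2 k hk hord hn
  have hψ := psi_ne_one hp hk hord
  haveI hdvr : IsDiscreteValuationRing ↥(AK A K) :=
    isDiscreteValuationRing_AK A K hr.ne_zero h.liesOver
  have hπi : Irreducible π := (IsDiscreteValuationRing.irreducible_iff_uniformizer π).mpr hπ.max_eq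
  haveI := Fermat.Agent.RED.NumInst4.isScalarTower_OE (AK A K) (FK (M' * r) K)
  haveI := Fermat.Agent.RED.NumInst4.isScalarTower_OE (AK A K) (FH M' ψ)
  haveI := finiteDimensional_FH M' hirr
  haveI := hfd
  haveI : FiniteDimensional
      ↥(IntermediateField.adjoin ↥K {algebraMap ↥(FK (M' * r) K) ↥(FH M' ψ) (tN r ht)})
      ↥(FH M' ψ) := finiteDimensional_adjoin_map (tN r ht)
  have hn0 : p ^ k ≠ 0 := pow_ne_zero k hp.ne_zero
  have hpr' : ¬ r ∣ p ^ k := fun hd =>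
    hpr ((Nat.prime_dvd_prime_iff_eq hr hp).1 (hr.dvd_of_dvd_pow hd)).symm
  have hD' : NodalNumData ↥(AK A K) ↥K ↥(FK (M' * r) K) π (tN r ht) (B0 A r ht) (B1 A r ht)
      (O1 M' r hπ hE) (O2 M' r hπ hE) := hD
  obtain ⟨LS0, LS1⟩ := ls_FH h h4 hπ hE ht hD' heven hp hp2 k hk hord hn ρ hρ hζ
  exact nodalNumData_up (K := ↥K) hπi.prime hD' gout gin hD'.dvrR
    (fun y hy => by
      obtain ⟨c, hc⟩ := exists_algebraMap_of_isAlgebraic M' ψ hy
      exact ⟨c, hc.symm⟩)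
    (algebraMap_mem_O1'_iff h.liesOver h.ne_two M' hπ hE ψ)
    (algebraMap_mem_O2'_iff h.liesOver h.ne_two M' hπ hE hirr hζK hψ)
    (uniq_O1' h hπ hE heven hp hp2 k hk hord hn)
    (uniq_O2' h hπ hE heven hp hp2 k hk hord hn hζK)
    (unr_O1' h.liesOver h.ne_two M' hπ hπi hE ψ)
    (unr_O2' h.liesOver h.ne_two M' hπ hπi hE hirr hζK hψ)
    (deltaK_algebraMap M' hirr ζ hζ.pow_eq_one)
    (fun z hz => exists_algebraMap_of_deltaK_eq M' hirr hζ hz)
    (deltaK_iterate_self M' hirr ζ hζ.pow_eq_one) (Nat.pos_of_ne_zero hn0)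
    (Fermat.Agent.RED.NumInst4.exists_inv_of_not_dvd hr h.liesOver K (p ^ k) hpr')
    LS0 LN0 LS1 LN1

set_option maxHeartbeats 3200000 in
/-- **MODEL' + GAL' over `K`**: the bundle `MixReadyAt` for the mixed pair `(σ̃, δ_{ψ(t)} σ̃)` on
`F'_K = FH M' ψ`, modulo (LN0), (LN1). -/
theorem mixReadyAt_FH [Normal ℚ K] [FiniteDimensional ℚ K] {nH eH : ℕ} [NeZero nH]
    (h : LevelHyp r M' A) (h4 : 4 ∣ M')
    {π : ↥(AK A K)} (hπ : IsUnif (AK A K) π) (hE : FK (M' * r) K ≤ fracField (AK A K))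
    (ht : tq (↥K) nH eH ∈ FK M' K)
    (hD : NodalDataAt (AK A K) (FK (M' * r) K) π (tN r ht) (B0 A r ht) (B1 A r ht)
      (O1 M' r hπ hE) (O2 M' r hπ hE))
    (gout : GlueOut (↥K) π (tN r ht) (O1 M' r hπ hE) (O2 M' r hπ hE))
    (gin : GlueIn (↥K) π (tN r ht) (O1 M' r hπ hE) (O2 M' r hπ hE))
    (hfd : FiniteDimensional ↥(IntermediateField.adjoin ↥K {tN r ht}) ↥(FK (M' * r) K))
    {ψ : MulChar (ZMod r) ↥K} (heven : ψ (-1) = 1) {p : ℕ} (hp : p.Prime) (hp2 : p ≠ 2)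
    (hpr : p ≠ r) (k : ℕ) (hk : 1 ≤ k) (hord : orderOf ψ = p ^ k) (hn : ψ ^ (p ^ k) = 1)
    {ζr : ↥K} (hζK : algebraMap ↥K Qbar ζr = zetaK r)
    (ρ : ↥K) (hρ : ρ ^ (p ^ k) = (r : ↥K)) {ζ : ↥K} (hζ : IsPrimitiveRoot ζ (p ^ k))
    (LN0 : ∀ 𝔪 : Ideal ↥(B0 A r ht), 𝔪.IsMaximal → algebraMap ↥(AK A K) ↥(B0 A r ht) π ∈ 𝔪 →
      ¬ OffBranch π (B0 A r ht) (O1 M' r hπ hE) 𝔪 → ¬ OffBranch π (B0 A r ht) (O2 M' r hπ hE) 𝔪 →
        Nonempty (KNodeDatum (F' := ↥(FH M' ψ)) π (B0 A r ht) (O1 M' r hπ hE) (O2 M' r hπ hE) 𝔪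
          (deltaK M' (irreducible_uK M' h heven hp hp2 k hk hord hn) ζ hζ.pow_eq_one :
            ↥(FH M' ψ) →+* ↥(FH M' ψ)) (p ^ k)))
    (LN1 : ∀ 𝔪 : Ideal ↥(B1 A r ht), 𝔪.IsMaximal → algebraMap ↥(AK A K) ↥(B1 A r ht) π ∈ 𝔪 →
      ¬ OffBranch π (B1 A r ht) (O1 M' r hπ hE) 𝔪 → ¬ OffBranch π (B1 A r ht) (O2 M' r hπ hE) 𝔪 →
        Nonempty (KNodeDatum (F' := ↥(FH M' ψ)) π (B1 A r ht) (O1 M' r hπ hE) (O2 M' r hπ hE) 𝔪
          (deltaK M' (irreducible_uK M' h heven hp hp2 k hk hord hn) ζ hζ.pow_eq_one :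
            ↥(FH M' ψ) →+* ↥(FH M' ψ)) (p ^ k)))
    {τ : Qbar ≃ₐ[ℚ] Qbar} (hτ : τ ∈ A.inertiaSubgroupIn ℚ)
    (hs : ∀ a, resK K τ (ψ a) = ψ a) (t : ℕ) (htz : (t : ZMod r) ≠ 0)
    (hst : resK K τ ζr = ζr ^ t) :
    Fermat.Agent.M43.MixChain9.MixReadyAt (AK A K) (FH M' ψ)
      (Fermat.Agent.M43.GalMix0.gFH M' (resK K τ) hs)
      (Fermat.Agent.M43.GalMix0.gFH' M' (irreducible_uK M' h heven hp hp2 k hk hord hn)
        (resK K τ) hs (ψ (t : ZMod r)) (psi_pow_eq_one hn htz)) := by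
  have hr : r.Prime := Fact.out
  haveI hdvr : IsDiscreteValuationRing ↥(AK A K) :=
    isDiscreteValuationRing_AK A K hr.ne_zero h.liesOver
  have hπi : Irreducible π := (IsDiscreteValuationRing.irreducible_iff_uniformizer π).mpr hπ.max_eq
  have hN := nodalNumData_FH h h4 hπ hE ht hD gout gin hfd heven hp hp2 hpr k hk hord hn hζK ρ hρ
    hζ LN0 LN1
  have hG := Fermat.Agent.M43.GalMixU0.mixData_closed h hπ hE heven hp hp2 k hk hord hn hζK hτ hs t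
    htz hst nH eH (tN r ht) (coe_tN r ht)
  exact ⟨π, _, _, _, _, _, hπi, hN, hG⟩

end Fermat.Agent.M43.ModelFH8
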