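/-
Programme M43, chapter (LG-q), Stage 1, block [S1-A FIELD'] (helper8), file 3 (abstract, Mathlib
only, continues `KummerAdj8`): **the Kummer extension `E(Θ) / E`, `Θ^n = u`, `X^n − u` irreducible,
as a cyclic extension with the generator `δ : Θ ↦ ζ Θ` of its group**, in the form consumed by
`KLocal9.KSetup`:

* `algAdj : Algebra E (adj E Θ)` (instance; `algebraMap = incl`), `IsScalarTower L E (adj E Θ)`,
  `IsScalarTower R E (adj E Θ)` for every base ring `R → L`;
* `equivARAlg : AdjoinRoot P ≃ₐ[E] adj E Θ`, `finiteDimensional_adj`, `finrank_adj` (`= deg P`);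
* `eval₂_eq_zero_iff` (`g(Θ) = 0 ↔ P ∣ g`), `coeff_eq_zero_of_sum_eq_zero` (the powers `Θ^j`,
  `j < deg P`, are linearly independent over `E`);
* Kummer case: `rootMulAlg ζ hζ : adj E Θ ≃ₐ[E] adj E Θ`, `rootMulAlg_theta` (`δ ϑ = ζ ϑ`),
  `rootMul_iterate` (`δ^[i] = (Θ ↦ ζ^i Θ)`), `rootMul_iterate_self` (`δ^[n] = id`),
  **`exists_incl_of_rootMul_eq`** (`ζ` a primitive `n`-th root of unity: the fixed points of `δ` are
  the elements of `E`), `finrank_kummer` (`= n`), `thetaA_ne_zero`.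
-/
import Mathlib
import Fermat.Agent.M43.KummerAdj8

set_option autoImplicit false
set_option linter.unusedSectionVars false
set_option linter.style.haveILetI false
set_option linter.unusedVariables false

open Polynomial

noncomputable section

namespace Fermat.Agent.M43.KummerGal8

open Fermat.Agent.M43.KummerAdj8

variable {L Ω : Type*} [Field L] [Field Ω] [Algebra L Ω]
variable (E : IntermediateField L Ω) (Θ : Ω)

/-- `E(Θ)` as an `E`-algebra. -/
instance algAdj : Algebra E (adj E Θ) := (incl E Θ).toAlgebra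

theorem algebraMap_eq_incl : algebraMap E (adj E Θ) = incl E Θ := rfl

@[simp] theorem coe_algebraMap (x : E) : ((algebraMap E (adj E Θ) x : adj E Θ) : Ω) = (x : Ω) := rfl

instance isScalarTower_adj : IsScalarTower L E (adj E Θ) :=
  IsScalarTower.of_algebraMap_eq fun _ => rfl

/-- the tower over a base ring `R → L` (e.g. a valuation subring of `L`). -/
instance isScalarTower_adj_base {R : Type*} [CommSemiring R] [Algebra R L] [Algebra R Ω]
    [IsScalarTower R L Ω] : IsScalarTower R E (adj E Θ) :=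
  IsScalarTower.of_algebraMap_eq fun _ => rfl

variable {E Θ}
variable {P : E[X]} (hirr : Irreducible P) (hroot : eval₂ (algebraMap E Ω) Θ P = 0)

/-- `E[X]/(P) ≃ E(Θ)` as `E`-algebras. -/
def equivARAlg : AdjoinRoot P ≃ₐ[E] adj E Θ :=
  AlgEquiv.ofRingEquiv (f := equivAR hirr hroot) fun x => by
    rw [AdjoinRoot.algebraMap_eq]
    exact equivAR_of hirr hroot x

include hirr hroot in
theorem finiteDimensional_adj : FiniteDimensional E (adj E Θ) := by
  haveI : FiniteDimensional E (AdjoinRoot P) := (AdjoinRoot.powerBasis hirr.ne_zero).finite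
  exact Module.Finite.equiv (equivARAlg hirr hroot).toLinearEquiv

include hirr hroot in
theorem finrank_adj : Module.finrank E (adj E Θ) = P.natDegree := by
  rw [← (equivARAlg hirr hroot).toLinearEquiv.finrank_eq,
    (AdjoinRoot.powerBasis hirr.ne_zero).finrank, AdjoinRoot.powerBasis_dim]

include hirr hroot in
/-- `g(Θ) = 0 ↔ P ∣ g`. -/
theorem eval₂_eq_zero_iff (g : E[X]) : eval₂ (algebraMap E Ω) Θ g = 0 ↔ P ∣ g := by
  haveI : Fact (Irreducible P) := ⟨hirr⟩
  rw [← toΩ_mk hroot g, ← AdjoinRoot.mk_eq_zero]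
  constructor
  · intro h
    exact toΩ_injective hirr hroot (by rw [h, map_zero])
  · intro h
    rw [h, map_zero]

include hirr hroot in
/-- the powers `Θ^j`, `j < deg P`, are linearly independent over `E`. -/
theorem coeff_eq_zero_of_sum_eq_zero {a : ℕ → E}
    (h : ∑ j ∈ Finset.range P.natDegree, (a j : Ω) * Θ ^ j = 0) {j : ℕ} (hj : j < P.natDegree) :
    a j = 0 := by
  classical
  set g : E[X] := ∑ i ∈ Finset.range P.natDegree, C (a i) * X ^ i with hg
  have hev : eval₂ (algebraMap E Ω) Θ g = 0 := by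
    rw [hg, eval₂_finsetSum, ← h]
    refine Finset.sum_congr rfl fun i _ => ?_
    rw [eval₂_mul, eval₂_C, eval₂_pow, eval₂_X]
    rfl
  have hdvd : P ∣ g := (eval₂_eq_zero_iff hirr hroot g).1 hev
  have hdeg : g.degree < P.degree := by
    rw [hg]
    refine lt_of_le_of_lt (degree_sum_le _ _) ?_
    rw [Finset.sup_lt_iff (bot_lt_iff_ne_bot.2 (degree_ne_bot.2 hirr.ne_zero))]
    intro i hi
    refine lt_of_le_of_lt (degree_C_mul_X_pow_le i (a i)) ?_
    rw [degree_eq_natDegree hirr.ne_zero]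
    exact_mod_cast Finset.mem_range.1 hi
  have hg0 : g = 0 := by
    by_contra hne
    exact absurd (degree_le_of_dvd hdvd hne) (not_le.2 hdeg)
  have hc : g.coeff j = a j := by
    rw [hg, finsetSum_coeff]
    simp only [coeff_C_mul, coeff_X_pow]
    rw [Finset.sum_eq_single j]
    · rw [if_pos rfl, mul_one]
    · intro i _ hij
      rw [if_neg (Ne.symm hij), mul_zero]
    · intro hj'
      exact absurd (Finset.mem_range.2 hj) hj'
  rw [← hc, hg0, coeff_zero]

/-! ### the Kummer case -/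

section Kummer

variable {n : ℕ} {u : E} (hirrK : Irreducible (X ^ n - C u : E[X])) (hΘ : Θ ^ n = (u : Ω))

include hirrK in
theorem n_ne_zero : n ≠ 0 := by
  rintro rfl
  have h1 : (X ^ 0 - C u : E[X]) = C (1 - u) := by
    rw [pow_zero, map_sub, map_one]
  rw [h1] at hirrK
  exact Polynomial.not_irreducible_C _ hirrK

include hirrK in
theorem natDegree_kummer : (X ^ n - C u : E[X]).natDegree = n :=
  natDegree_X_pow_sub_C

include hirrK hΘ in
theorem finrank_kummer : Module.finrank E (adj E Θ) = n := by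
  rw [finrank_adj hirrK (hroot_kummer hΘ), natDegree_X_pow_sub_C]

include hirrK hΘ in
theorem finiteDimensional_kummer : FiniteDimensional E (adj E Θ) :=
  finiteDimensional_adj hirrK (hroot_kummer hΘ)

/-- **the generator `δ : Θ ↦ ζ Θ` of the group of `E(Θ) / E`**, as an `E`-algebra automorphism. -/
def rootMulAlg (ζ : L) (hζ : ζ ^ n = 1) : adj E Θ ≃ₐ[E] adj E Θ :=
  AlgEquiv.ofRingEquiv (f := rootMul hirrK hΘ ζ hζ) fun x => rootMul_incl hirrK hΘ ζ hζ x

@[simp] theorem rootMulAlg_apply (ζ : L) (hζ : ζ ^ n = 1) (z : adj E Θ) :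
    rootMulAlg hirrK hΘ ζ hζ z = rootMul hirrK hΘ ζ hζ z := rfl

theorem rootMulAlg_theta (ζ : L) (hζ : ζ ^ n = 1) :
    rootMulAlg hirrK hΘ ζ hζ (thetaA E Θ) = algebraMap L (adj E Θ) ζ * thetaA E Θ :=
  rootMul_theta hirrK hΘ ζ hζ

theorem rootMulAlg_theta_smul (ζ : L) (hζ : ζ ^ n = 1) :
    rootMulAlg hirrK hΘ ζ hζ (thetaA E Θ) = ζ • thetaA E Θ := by
  rw [rootMulAlg_theta, Algebra.smul_def]

theorem rootMul_algebraMap (ζ : L) (hζ : ζ ^ n = 1) (c : L) :
    rootMul hirrK hΘ ζ hζ (algebraMap L (adj E Θ) c) = algebraMap L (adj E Θ) c :=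
  rootMulHom_algebraMap hirrK hΘ ζ hζ c

/-- the iterates of `δ`. -/
theorem rootMul_iterate (ζ : L) (hζ : ζ ^ n = 1) (i : ℕ) (z : adj E Θ) :
    ((rootMul hirrK hΘ ζ hζ)^[i]) z =
      rootMul hirrK hΘ (ζ ^ i) (by rw [← pow_mul, mul_comm, pow_mul, hζ, one_pow]) z := by
  induction i generalizing z with
  | zero =>
    rw [Function.iterate_zero, id_eq]
    have := RingHom.congr_fun (rootMulHom_one hirrK hΘ) z
    simp only [pow_zero]
    exact this.symm
  | succ i ih =>
    rw [Function.iterate_succ_apply', ih]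
    have := RingHom.congr_fun (rootMulHom_comp hirrK hΘ ζ (ζ ^ i) hζ
      (by rw [← pow_mul, mul_comm, pow_mul, hζ, one_pow])) z
    rw [RingHom.comp_apply] at this
    have e : ζ * ζ ^ i = ζ ^ (i + 1) := by rw [pow_succ, mul_comm]
    simp only [e] at this
    exact this

/-- `δ^n = id`. -/
theorem rootMul_iterate_self (ζ : L) (hζ : ζ ^ n = 1) (z : adj E Θ) :
    ((rootMul hirrK hΘ ζ hζ)^[n]) z = z := by
  rw [rootMul_iterate]
  have := RingHom.congr_fun (rootMulHom_one hirrK hΘ) z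
  simp only [hζ]
  exact this

include hΘ in
theorem theta_ne_zero (hn : n ≠ 0) (hu : u ≠ 0) : Θ ≠ 0 := by
  rintro rfl
  rw [zero_pow hn] at hΘ
  exact hu (Subtype.ext hΘ.symm)

include hirrK hΘ in
/-- `z = ∑_{j<n} a_j ϑ^j` inside `E(Θ)`. -/
theorem exists_repr_kummer (z : adj E Θ) :
    ∃ a : ℕ → E, z = ∑ j ∈ Finset.range n, incl E Θ (a j) * thetaA E Θ ^ j := by
  have hn := n_ne_zero hirrK
  obtain ⟨a, ha⟩ := exists_repr hirrK (hroot_kummer hΘ) (monic_X_pow_sub_C u hn) z
  rw [natDegree_X_pow_sub_C] at ha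
  refine ⟨a, Subtype.ext ?_⟩
  rw [ha]
  push_cast
  rfl

/-- **the fixed points of `δ : Θ ↦ ζ Θ` (`ζ` a primitive `n`-th root of unity) are the elements of
`E`.** -/
theorem exists_incl_of_rootMul_eq {ζ : L} (hζ : IsPrimitiveRoot ζ n) {z : adj E Θ}
    (hz : rootMul hirrK hΘ ζ hζ.pow_eq_one z = z) : ∃ x : E, incl E Θ x = z := by
  have hn := n_ne_zero hirrK
  obtain ⟨a, ha⟩ := exists_repr_kummer hirrK hΘ z
  -- the image under `δ`
  have hδ : rootMul hirrK hΘ ζ hζ.pow_eq_one z =
      ∑ j ∈ Finset.range n, incl E Θ (algebraMap L E (ζ ^ j) * a j) * thetaA E Θ ^ j := by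
    conv_lhs => rw [ha]
    rw [map_sum]
    refine Finset.sum_congr rfl fun j _ => ?_
    rw [map_mul, map_pow, rootMul_incl, rootMul_theta, mul_pow, map_mul, ← map_pow]
    have : incl E Θ (algebraMap L E (ζ ^ j)) = algebraMap L (adj E Θ) (ζ ^ j) := rfl
    rw [this]
    ring
  -- the difference
  have hdiff : ∑ j ∈ Finset.range (X ^ n - C u : E[X]).natDegree,
      (((algebraMap L E (ζ ^ j) - 1) * a j : E) : Ω) * Θ ^ j = 0 := by
    rw [natDegree_X_pow_sub_C]
    have h0 : (∑ j ∈ Finset.range n, incl E Θ (algebraMap L E (ζ ^ j) * a j) * thetaA E Θ ^ j) -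
        ∑ j ∈ Finset.range n, incl E Θ (a j) * thetaA E Θ ^ j = 0 := by
      rw [← hδ, ← ha, hz, sub_self]
    rw [← Finset.sum_sub_distrib] at h0
    have h1 : ((∑ j ∈ Finset.range n, (incl E Θ (algebraMap L E (ζ ^ j) * a j) * thetaA E Θ ^ j -
        incl E Θ (a j) * thetaA E Θ ^ j) : adj E Θ) : Ω) = 0 := by rw [h0]; rfl
    rw [← h1]
    push_cast
    refine Finset.sum_congr rfl fun j _ => ?_
    simp only [coe_incl, coe_thetaA]
    push_cast
    ring
  have hzero : ∀ j, j < n → j ≠ 0 → a j = 0 := by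
    intro j hj hj0
    have h2 := coeff_eq_zero_of_sum_eq_zero hirrK (hroot_kummer hΘ) hdiff
      (j := j) (by rw [natDegree_X_pow_sub_C]; exact hj)
    rcases mul_eq_zero.1 h2 with h3 | h3
    · exfalso
      have h4 : algebraMap L E (ζ ^ j) = algebraMap L E 1 := by
        rw [map_one]; exact sub_eq_zero.1 h3
      have h5 : ζ ^ j = 1 := (algebraMap L E).injective h4
      exact hj0 (Nat.eq_zero_of_dvd_of_lt ((hζ.pow_eq_one_iff_dvd j).1 h5) hj)
    · exact h3
  refine ⟨a 0, ?_⟩
  rw [ha, Finset.sum_eq_single 0]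
  · rw [pow_zero, mul_one]
  · intro j hj hj0
    rw [hzero j (Finset.mem_range.1 hj) hj0, map_zero, zero_mul]
  · intro h0
    exact absurd (Finset.mem_range.2 (Nat.pos_of_ne_zero hn)) h0

/-- the same for the `E`-algebra automorphism. -/
theorem exists_algebraMap_of_rootMulAlg_eq {ζ : L} (hζ : IsPrimitiveRoot ζ n) {z : adj E Θ}
    (hz : rootMulAlg hirrK hΘ ζ hζ.pow_eq_one z = z) : ∃ x : E, algebraMap E (adj E Θ) x = z :=
  exists_incl_of_rootMul_eq hirrK hΘ hζ hz

end Kummer

end Fermat.Agent.M43.KummerGal8
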