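/-
Programme M43, chapter (LG-q), Stage 1, block [S1-A FIELD'] (helper8), file 4: **the cyclic
extension `F'_K / F_K`**, `F_K = FK (M' r) K`, `F'_K = FH M' ψ = F_K(Θ) ⊂ K((q))`, in the form
consumed by helper9's `KLocal9.KSetup` (`F := ↥(FK (M' * r) K)`, `F' := ↥(FH M' ψ)`,
`Algebra F F'` = `KummerGal8.algAdj`):

* `deltaK M' hirr ζ hζ : ↥(FH M' ψ) ≃ₐ[↥(FK (M' * r) K)] ↥(FH M' ψ)` (`ζ ∈ K`, `ζ^n = 1`),
  `deltaK_theta : δ ϑ = ζ • ϑ`, `deltaK_algebraMap` (δ_fix), `deltaK_iterate_self` (δ_pow),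
  `exists_algebraMap_of_deltaK_eq` (fix_δ; `ζ` primitive), `deltaK_eq_rootMul`;
* `finiteDimensional_FH`, `finrank_FH` (`= n`);
* `algClosedIn_FH` (`K` is algebraically closed in `F'_K`);
* `thetaK_pow`;
* base ring `R = AK A K`: shortcut instances `algAKFK`, `algAKFH`, and `isScalarTower_AK`
  (`IsScalarTower R F_K F'_K`).
-/
import Mathlib
import Fermat.Agent.M43.ThetaFieldK8
import Fermat.Agent.M43.KummerGal8
import Fermat.Agent.RED.PUR.AlgClosedIn10

set_option autoImplicit false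
set_option linter.unusedSectionVars false
set_option linter.style.haveILetI false
set_option linter.unusedVariables false
set_option synthInstance.maxHeartbeats 400000

open Polynomial

noncomputable section

namespace Fermat.Agent.M43.ThetaDeltaK8

open ModularCurve AlgebraicCurve
open Fermat.Agent.X0 Fermat.Agent.RED.Interface4
open Fermat.Agent.M43.KummerAdj8 Fermat.Agent.M43.KummerGal8 Fermat.Agent.M43.ThetaFieldK8

variable {K : IntermediateField ℚ Qbar} {r : ℕ} [Fact r.Prime] [NeZero r]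
variable (M' : ℕ) [NeZero M']
variable {ψ : MulChar (ZMod r) ↥K} {n : ℕ} {heven : ψ (-1) = 1} {hn : ψ ^ n = 1}
variable (hirr : Irreducible (X ^ n - C (uK M' heven hn) : (↥(FK (M' * r) K))[X]))

/-- `ϑ`, the Kummer generator, as an element of `F'_K`. -/
abbrev thetaK (ψ : MulChar (ZMod r) ↥K) : ↥(FH M' ψ) := thetaA (FK (M' * r) K) (thetaInfK K ψ)

theorem thetaK_pow : thetaK M' ψ ^ n = algebraMap ↥(FK (M' * r) K) ↥(FH M' ψ) (uK M' heven hn) :=
  thetaA_pow (coe_uK M' heven hn).symm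

/-- **the generator `δ : ϑ ↦ ζ ϑ` of `Gal(F'_K / F_K)`.** -/
def deltaK (ζ : ↥K) (hζ : ζ ^ n = 1) : ↥(FH M' ψ) ≃ₐ[↥(FK (M' * r) K)] ↥(FH M' ψ) :=
  rootMulAlg hirr (coe_uK M' heven hn).symm ζ hζ

theorem deltaK_eq_rootMul (ζ : ↥K) (hζ : ζ ^ n = 1) (z : ↥(FH M' ψ)) :
    deltaK M' hirr ζ hζ z = rootMul hirr (coe_uK M' heven hn).symm ζ hζ z := rfl

theorem deltaK_theta (ζ : ↥K) (hζ : ζ ^ n = 1) :
    deltaK M' hirr ζ hζ (thetaK M' ψ) = ζ • thetaK M' ψ :=
  rootMulAlg_theta_smul hirr (coe_uK M' heven hn).symm ζ hζ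

theorem deltaK_theta' (ζ : ↥K) (hζ : ζ ^ n = 1) :
    deltaK M' hirr ζ hζ (thetaK M' ψ) = algebraMap ↥K ↥(FH M' ψ) ζ * thetaK M' ψ :=
  rootMulAlg_theta hirr (coe_uK M' heven hn).symm ζ hζ

/-- (δ_fix) -/
theorem deltaK_algebraMap (ζ : ↥K) (hζ : ζ ^ n = 1) (x : ↥(FK (M' * r) K)) :
    deltaK M' hirr ζ hζ (algebraMap ↥(FK (M' * r) K) ↥(FH M' ψ) x) =
      algebraMap ↥(FK (M' * r) K) ↥(FH M' ψ) x :=
  (deltaK M' hirr ζ hζ).commutes x

/-- (δ_pow) -/
theorem deltaK_iterate_self (ζ : ↥K) (hζ : ζ ^ n = 1) (z : ↥(FH M' ψ)) :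
    ((deltaK M' hirr ζ hζ)^[n]) z = z :=
  rootMul_iterate_self hirr (coe_uK M' heven hn).symm ζ hζ z

/-- (fix_δ) **the fixed field of `δ` is `F_K`.** -/
theorem exists_algebraMap_of_deltaK_eq {ζ : ↥K} (hζ : IsPrimitiveRoot ζ n) {z : ↥(FH M' ψ)}
    (hz : deltaK M' hirr ζ hζ.pow_eq_one z = z) :
    ∃ x : ↥(FK (M' * r) K), algebraMap ↥(FK (M' * r) K) ↥(FH M' ψ) x = z :=
  exists_algebraMap_of_rootMulAlg_eq hirr (coe_uK M' heven hn).symm hζ hz

include hirr in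
theorem finiteDimensional_FH : FiniteDimensional ↥(FK (M' * r) K) ↥(FH M' ψ) :=
  finiteDimensional_kummer hirr (coe_uK M' heven hn).symm

include hirr in
theorem finrank_FH : Module.finrank ↥(FK (M' * r) K) ↥(FH M' ψ) = n :=
  finrank_kummer hirr (coe_uK M' heven hn).symm

/-- **`K` is algebraically closed in `F'_K`.** -/
theorem algClosedIn_FH (ψ : MulChar (ZMod r) ↥K) :
    Fermat.Agent.RED.NumInst4.AlgClosedIn (FH M' ψ) :=
  Fermat.Agent.RED.PUR.AlgClosedIn10.algClosedIn (FH M' ψ)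

theorem exists_algebraMap_of_isAlgebraic (ψ : MulChar (ZMod r) ↥K) {y : ↥(FH M' ψ)}
    (hy : IsAlgebraic ↥K y) : ∃ c : ↥K, y = algebraMap ↥K ↥(FH M' ψ) c :=
  Fermat.Agent.RED.PUR.GaussBridge10.exists_algebraMap_eq_of_isAlgebraic (FH M' ψ) hy

/-! ### the base ring `R = AK A K` (N34's vocabulary) -/

section Base

variable (A : ValuationSubring Qbar)

/-- shortcut instance (the instance found by unification, with high priority). -/
instance (priority := high) algAKFK (N : ℕ) : Algebra ↥(AK A K) ↥(FK N K) :=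
  Algebra.ofSubsemiring (AK A K)

/-- shortcut instance (the instance found by unification, with high priority). -/
instance (priority := high) algAKFH (ψ : MulChar (ZMod r) ↥K) : Algebra ↥(AK A K) ↥(FH M' ψ) :=
  Algebra.ofSubsemiring (AK A K)

set_option maxHeartbeats 1600000 in
theorem algebraMap_AK_FH (ψ : MulChar (ZMod r) ↥K) (x : ↥(AK A K)) :
    algebraMap ↥(AK A K) ↥(FH M' ψ) x =
      algebraMap ↥(FK (M' * r) K) ↥(FH M' ψ) (algebraMap ↥(AK A K) ↥(FK (M' * r) K) x) := by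
  apply Subtype.ext
  rfl

set_option maxHeartbeats 1600000 in
/-- the tower `R → F_K → F'_K` required by `KLocal9.KSetup`. -/
instance isScalarTower_AK (ψ : MulChar (ZMod r) ↥K) :
    IsScalarTower ↥(AK A K) ↥(FK (M' * r) K) ↥(FH M' ψ) :=
  IsScalarTower.of_algebraMap_eq (algebraMap_AK_FH M' A ψ)

end Base

end Fermat.Agent.M43.ThetaDeltaK8
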