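/-
M43 (helper1) [LG-q / S1-A FIELD'] ThetaFam1: **the family of Kummer covers as a
`MixDesc9.DescFamily`**, with the Galois actions and the deck transformations on it.

`K₀ ⊂ ℚ̄` a number field, `ψ₀ : MulChar (ZMod r) K₀` even with `ψ₀ ^ n = 1`, `n ≠ 0`.
* generic: `map_mem_adj'` (ring homs between two `adj`), `relfinrank_adj_ne_zero`, `isGen_adj`;
* `psiFam ψ₀ K : MulChar (ZMod r) K` (`ψ₀` with values in `K ⊇ K₀`, trivial otherwise), `psiFam_eq`,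
  `psiFam_self`, `psiBar_psiFam`, `ringHomComp_psiFam`, `psiFam_even`, `psiFam_pow`, `orderOf_psiFam`,
  `psiFam_ne_one`, `psiFam_fixed`;
* `EBar M' ψ₀ = adj (Fbar (M' r)) Θ̄`, `EKfam M' ψ₀ K = FH M' (psiFam ψ₀ K)` (literally, no
  transport: every theorem about `FH M' ψ` applies with `ψ := psiFam ψ₀ K`);
* **`thetaFam M' ψ₀ heven hn0 hn : DescFamily K₀`** (`bc_mem_fam`, `mono_fam`, `exh_fam`,
  `gal_mem_fam`, `jE`, `isGen_jE`, `jE_fixed`), `thetaFam_E`, `thetaFam_EK`, `bcFam`, `thetaFam_bcHom`;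
* `gK hK hσ : SemilinearAut K (FH M' (psiFam ψ₀ K))` (coefficientwise `σ|K`, `K ⊇ K₀` normal, `σ`
  fixing `K₀`; ring part = helper8's `galFH`), **`bcHom_gK`** : base change intertwines it with `galE σ`;
* `deltaBar ζ : E ≃ₐ[ℚ̄] E` (`Θ̄ ↦ ζ Θ̄`), `deltaBar_theta`, `deltaBar_incl`, `deltaBar_mul`,
  `exists_incl_of_deltaBar_eq`, `irreducible_uK_fam`, **`bcHom_deltaK`** : base change intertwines
  helper8's `deltaK` with `deltaBar`; `deltaKK`, **`bcHom_delta_mul_gK`** (the mixed pair).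
-/
import Mathlib
import Fermat.Agent.M43.MixDesc9
import Fermat.Agent.M43.ThetaDeltaK8
import Fermat.Agent.ES.RED.SpecialGen25

set_option autoImplicit false
set_option linter.unusedSectionVars false
set_option linter.style.haveILetI false

open Polynomial IntermediateField

noncomputable section

namespace Fermat.Agent.M43.ThetaFam1

open Fermat.Agent.M43.KummerAdj8 Fermat.Agent.X0

section Generic

variable {L Ω L' Ω' : Type*} [Field L] [Field Ω] [Algebra L Ω] [Field L'] [Field Ω']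
  [Algebra L' Ω']

/-- a ring homomorphism `Ω → Ω'` which maps the constants and `Θ` into `E'(Θ')` and `E` into `E'`
maps `E(Θ)` into `E'(Θ')`. -/
theorem map_mem_adj' (E : IntermediateField L Ω) (Θ : Ω) (E' : IntermediateField L' Ω') (Θ' : Ω')
    (s : Ω →+* Ω') (hsL : ∀ c : L, s (algebraMap L Ω c) ∈ adj E' Θ')
    (hsE : ∀ x ∈ E, s x ∈ E') (hsΘ : s Θ ∈ adj E' Θ') {x : Ω} (hx : x ∈ adj E Θ) :
    s x ∈ adj E' Θ' := by
  have hx' : x ∈ Subfield.closure (Set.range (algebraMap L Ω) ∪ ((E : Set Ω) ∪ {Θ})) := by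
    rw [adj, IntermediateField.adjoin] at hx
    exact hx
  clear hx
  induction hx' using Subfield.closure_induction with
  | mem y hy =>
    rcases hy with ⟨c, rfl⟩ | hy | hy
    · exact hsL c
    · exact le_adj E' Θ' (hsE y hy)
    · rw [Set.mem_singleton_iff] at hy
      subst hy
      exact hsΘ
  | one => rw [map_one]; exact one_mem _
  | add a b _ _ ha hb => rw [map_add]; exact add_mem ha hb
  | neg a _ ha => rw [map_neg]; exact neg_mem ha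
  | inv a _ ha => rw [map_inv₀]; exact inv_mem ha
  | mul a b _ _ ha hb => rw [map_mul]; exact mul_mem ha hb

/-- `E(Θ)` is finite over `E` when a power of `Θ` lies in `E`. -/
theorem relfinrank_adj_ne_zero (E : IntermediateField L Ω) (Θ : Ω) {n : ℕ} (hn : n ≠ 0)
    (hΘ : Θ ^ n ∈ E) : relfinrank E (adj E Θ) ≠ 0 := by
  rw [relfinrank_eq_finrank_of_le (le_adj E Θ)]
  have hint : IsIntegral E Θ := by
    refine ⟨X ^ n - C (⟨Θ ^ n, hΘ⟩ : E), monic_X_pow_sub_C _ hn, ?_⟩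
    rw [eval₂_sub, eval₂_pow, eval₂_X, eval₂_C]
    exact sub_self _
  have heq : extendScalars (le_adj E Θ) = (E⟮Θ⟯ : IntermediateField E Ω) := by
    apply restrictScalars_injective L
    rw [extendScalars_restrictScalars, restrictScalars_adjoin]
    rfl
  rw [heq]
  haveI : FiniteDimensional E (E⟮Θ⟯ : IntermediateField E Ω) := adjoin.finiteDimensional hint
  exact (Module.finrank_pos).ne'

/-- a transcendental generator of `E` is a transcendental generator of `E(Θ)` when a power of `Θ`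
lies in `E`. -/
theorem isGen_adj (E : IntermediateField L Ω) (Θ : Ω) {n : ℕ} (hn : n ≠ 0) (hΘ : Θ ^ n ∈ E)
    (x : E) (hx : FF.IsGen L x) : FF.IsGen L (⟨(x : Ω), le_adj E Θ x.2⟩ : adj E Θ) := by
  have htr : Transcendental L (x : Ω) := by
    intro halg
    apply hx.transcendental
    exact (isAlgebraic_algebraMap_iff (algebraMap E Ω).injective).1 halg
  refine Fermat.Agent.ES.RED.SpecialGen25.isGen_of_relfinrank_ne_zero (adj E Θ)
    (⟨(x : Ω), le_adj E Θ x.2⟩ : adj E Θ) htr ?_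
  have h1 : L⟮(x : Ω)⟯ ≤ E := adjoin_simple_le_iff.mpr x.2
  rw [← relfinrank_mul_relfinrank h1 (le_adj E Θ)]
  refine mul_ne_zero ?_ (relfinrank_adj_ne_zero E Θ hn hΘ)
  rw [← Fermat.Agent.ES.RED.SpecialGen25.finrank_adjoin_simple_eq_relfinrank E x]
  haveI := hx.finite
  exact (Module.finrank_pos).ne'

end Generic

/-! ### The family of characters -/

section Characters

open Fermat.Agent.RED.Interface4 Fermat.Agent.RED.DESC Fermat.Agent.M43.ThetaFieldK8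
  Fermat.Agent.M43.FieldBridge8 Fermat.Agent.M43.EisPsiInf6 Fermat.Agent.IG.AN.DeltaAffine11
  ModularCurve

variable {r : ℕ} [Fact r.Prime] [NeZero r]

/-- `Θ` commutes with ring homomorphisms of the coefficient fields (number field level). -/
theorem coeffMap_thetaInfK_ringHomComp {K K' : IntermediateField ℚ Qbar} (f : ↥K →+* ↥K')
    (ψ : MulChar (ZMod r) ↥K) :
    coeffMap f (thetaInfK K ψ) = thetaInfK K' (ψ.ringHomComp f) := by
  rw [thetaInfK, thetaInfK, Fermat.Agent.X0.coeffMap_laurentOf, map_mul, map_Apsi, map_etaUInv]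

/-- `Θ` commutes with ring homomorphisms of the coefficient field (`ℚ̄` level). -/
theorem coeffMap_thetaInf_ringHomComp (f : Qbar →+* Qbar) (ψ : MulChar (ZMod r) Qbar) :
    coeffMap f (thetaInf ψ) = thetaInf (ψ.ringHomComp f) := by
  rw [thetaInf, thetaInf, Fermat.Agent.X0.coeffMap_laurentOf, map_mul, map_Apsi, map_etaUInv]

variable {K₀ : IntermediateField ℚ Qbar} (ψ₀ : MulChar (ZMod r) ↥K₀)

open Classical in
/-- **the character `ψ₀` with values in `K ⊇ K₀`** (trivial for the other `K`). -/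
def psiFam (K : IntermediateField ℚ Qbar) : MulChar (ZMod r) ↥K :=
  if h : K₀ ≤ K then ψ₀.ringHomComp (CoeffDescent1.inclRingHom h) else 1

theorem psiFam_eq {K : IntermediateField ℚ Qbar} (h : K₀ ≤ K) :
    psiFam ψ₀ K = ψ₀.ringHomComp (CoeffDescent1.inclRingHom h) := dif_pos h

theorem psiFam_apply {K : IntermediateField ℚ Qbar} (h : K₀ ≤ K) (a : ZMod r) :
    ((psiFam ψ₀ K a : ↥K) : Qbar) = ((ψ₀ a : ↥K₀) : Qbar) := by
  rw [psiFam_eq ψ₀ h, MulChar.ringHomComp_apply]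
  rfl

theorem psiFam_self : psiFam ψ₀ K₀ = ψ₀ := by
  apply MulChar.ext'
  intro a
  exact Subtype.ext (psiFam_apply ψ₀ le_rfl a)

theorem psiBar_psiFam {K : IntermediateField ℚ Qbar} (h : K₀ ≤ K) :
    psiBar K (psiFam ψ₀ K) = psiBar K₀ ψ₀ := by
  apply MulChar.ext'
  intro a
  rw [MulChar.ringHomComp_apply, MulChar.ringHomComp_apply]
  exact psiFam_apply ψ₀ h a

theorem ringHomComp_psiFam {K K' : IntermediateField ℚ Qbar} (h : K ≤ K') (hK : K₀ ≤ K) :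
    (psiFam ψ₀ K).ringHomComp (CoeffDescent1.inclRingHom h) = psiFam ψ₀ K' := by
  apply MulChar.ext'
  intro a
  apply Subtype.ext
  rw [MulChar.ringHomComp_apply, CoeffDescent1.coe_inclRingHom, psiFam_apply ψ₀ hK,
    psiFam_apply ψ₀ (hK.trans h)]

theorem psiFam_even {K : IntermediateField ℚ Qbar} (h : K₀ ≤ K) (heven : ψ₀ (-1) = 1) :
    psiFam ψ₀ K (-1) = 1 := by
  rw [psiFam_eq ψ₀ h, MulChar.ringHomComp_apply, heven, map_one]

theorem psiFam_pow {K : IntermediateField ℚ Qbar} (h : K₀ ≤ K) {n : ℕ} (hn : ψ₀ ^ n = 1) :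
    psiFam ψ₀ K ^ n = 1 := by
  rw [psiFam_eq ψ₀ h, MulChar.ringHomComp_pow, hn, MulChar.ringHomComp_one]

theorem orderOf_psiFam {K : IntermediateField ℚ Qbar} (h : K₀ ≤ K) :
    orderOf (psiFam ψ₀ K) = orderOf ψ₀ := by
  rw [← orderOf_psiBar (psiFam ψ₀ K), psiBar_psiFam ψ₀ h, orderOf_psiBar]

theorem psiFam_ne_one {K : IntermediateField ℚ Qbar} (h : K₀ ≤ K) (hψ : ψ₀ ≠ 1) :
    psiFam ψ₀ K ≠ 1 := by
  intro h1
  apply hψ
  have h2 := orderOf_psiFam ψ₀ h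
  rw [h1, orderOf_one] at h2
  exact orderOf_eq_one_iff.1 h2.symm

/-- the values of `psiFam` are fixed by the automorphisms fixing `K₀`. -/
theorem psiFam_fixed {K : IntermediateField ℚ Qbar} (h : K₀ ≤ K) [Normal ℚ ↥K]
    {σ : Qbar ≃ₐ[ℚ] Qbar} (hσ : ∀ a ∈ K₀, σ a = a) (a : ZMod r) :
    σ.restrictNormal ↥K (psiFam ψ₀ K a) = psiFam ψ₀ K a := by
  apply Subtype.ext
  have h1 := AlgEquiv.restrictNormal_commutes σ ↥K (psiFam ψ₀ K a)
  have h2 : algebraMap ↥K Qbar (psiFam ψ₀ K a) = ((ψ₀ a : ↥K₀) : Qbar) := psiFam_apply ψ₀ h a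
  rw [h2, hσ _ (ψ₀ a).2] at h1
  exact h1.trans h2.symm

end Characters

/-! ### The family -/

section Family

open Fermat.Agent.RED.Interface4 Fermat.Agent.RED.DESC Fermat.Agent.M43.ThetaFieldK8
  Fermat.Agent.M43.FieldBridge8 Fermat.Agent.M43.EisPsiInf6 Fermat.Agent.M43.IgusaSlope8
  Fermat.Agent.M43.MixDesc9 ModularCurve

variable {r : ℕ} [Fact r.Prime] [NeZero r] (M' : ℕ) [NeZero M']
variable {K₀ : IntermediateField ℚ Qbar} (ψ₀ : MulChar (ZMod r) ↥K₀)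

/-- **the Kummer cover over `ℚ̄`**: `E = ℚ̄·F_{M' r}(Θ̄) ⊂ ℚ̄((q))`. -/
abbrev EBar : IntermediateField Qbar (LaurentSeries Qbar) :=
  adj (Fbar (M' * r)) (thetaInf (psiBar K₀ ψ₀))

/-- **the Kummer cover over `K`**: `F'_K = FH M' ψ_K ⊂ K((q))`, `ψ_K = psiFam ψ₀ K`. -/
abbrev EKfam (K : IntermediateField ℚ Qbar) : IntermediateField ↥K (LaurentSeries ↥K) :=
  FH M' (psiFam ψ₀ K)

/-- (bc) -/
theorem bc_mem_fam (K : IntermediateField ℚ Qbar) (hK : K₀ ≤ K) (x : LaurentSeries ↥K)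
    (hx : x ∈ EKfam M' ψ₀ K) : coeffMap (algebraMap ↥K Qbar) x ∈ EBar M' ψ₀ := by
  refine map_mem_adj' (FK (M' * r) K) (thetaInfK K (psiFam ψ₀ K)) (Fbar (M' * r))
    (thetaInf (psiBar K₀ ψ₀)) (coeffMap (algebraMap ↥K Qbar)) ?_ ?_ ?_ hx
  · intro c
    rw [CoeffDescent1.coeffMap_algebraMap_of_ringHom]
    exact (adj _ _).algebraMap_mem _
  · intro y hy
    exact CoeffDescent1.coeffMap_mem_laurentBaseChange_of_algHom (algebraMap ↥K Qbar) _ hy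
  · rw [coeffMap_thetaInfK, psiBar_psiFam ψ₀ hK]
    exact theta_mem _ _

/-- (mono) -/
theorem mono_fam (K K' : IntermediateField ℚ Qbar) (h : K ≤ K') (hK : K₀ ≤ K)
    (x : LaurentSeries ↥K) (hx : x ∈ EKfam M' ψ₀ K) :
    coeffMap (CoeffDescent1.inclRingHom h) x ∈ EKfam M' ψ₀ K' := by
  refine map_mem_adj' (FK (M' * r) K) (thetaInfK K (psiFam ψ₀ K)) (FK (M' * r) K')
    (thetaInfK K' (psiFam ψ₀ K')) (coeffMap (CoeffDescent1.inclRingHom h)) ?_ ?_ ?_ hx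
  · intro c
    rw [CoeffDescent1.coeffMap_algebraMap_of_ringHom]
    exact (adj _ _).algebraMap_mem _
  · intro y hy
    exact CoeffDescent1.coeffMap_mem_laurentBaseChange_of_algHom (CoeffDescent1.inclRingHom h) _ hy
  · rw [coeffMap_thetaInfK_ringHomComp, ringHomComp_psiFam ψ₀ h hK]
    exact theta_mem _ _

/-- the descent property. -/
def Desc (x : LaurentSeries Qbar) : Prop :=
  ∃ K : IntermediateField ℚ Qbar, K₀ ≤ K ∧ FiniteDimensional ℚ ↥K ∧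
    ∃ x' : LaurentSeries ↥K, x' ∈ EKfam M' ψ₀ K ∧ coeffMap (algebraMap ↥K Qbar) x' = x

theorem exists_lift_fam {K K' : IntermediateField ℚ Qbar} (h : K ≤ K') (hK : K₀ ≤ K)
    {x' : LaurentSeries ↥K} (hx' : x' ∈ EKfam M' ψ₀ K) :
    ∃ x'' : LaurentSeries ↥K', x'' ∈ EKfam M' ψ₀ K' ∧
      coeffMap (algebraMap ↥K' Qbar) x'' = coeffMap (algebraMap ↥K Qbar) x' := by
  refine ⟨coeffMap (CoeffDescent1.inclRingHom h) x', mono_fam M' ψ₀ K K' h hK x' hx', ?_⟩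
  rw [coeffMap_coeffMap]
  exact coeffMap_congr (RingHom.ext fun c => rfl) x'

theorem desc_binary {x y : LaurentSeries Qbar} (hx : Desc M' ψ₀ x) (hy : Desc M' ψ₀ y) :
    ∃ K : IntermediateField ℚ Qbar, K₀ ≤ K ∧ FiniteDimensional ℚ ↥K ∧
      ∃ x' y' : LaurentSeries ↥K, x' ∈ EKfam M' ψ₀ K ∧ y' ∈ EKfam M' ψ₀ K ∧
        coeffMap (algebraMap ↥K Qbar) x' = x ∧ coeffMap (algebraMap ↥K Qbar) y' = y := by
  obtain ⟨K₁, h₁, hfin₁, x', hx', rfl⟩ := hx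
  haveI := hfin₁
  obtain ⟨K₂, h₂, hfin₂, y', hy', rfl⟩ := hy
  haveI := hfin₂
  obtain ⟨x'', hx'', ex⟩ := exists_lift_fam M' ψ₀ (le_sup_left : K₁ ≤ K₁ ⊔ K₂) h₁ hx'
  obtain ⟨y'', hy'', ey⟩ := exists_lift_fam M' ψ₀ (le_sup_right : K₂ ≤ K₁ ⊔ K₂) h₂ hy'
  exact ⟨K₁ ⊔ K₂, h₁.trans le_sup_left, inferInstance, x'', y'', hx'', hy'', ex, ey⟩

/-- (exh) -/
theorem exh_fam [FiniteDimensional ℚ ↥K₀] (x : LaurentSeries Qbar) (hx : x ∈ EBar M' ψ₀) :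
    Desc M' ψ₀ x := by
  haveI : Algebra.IsAlgebraic ℚ Qbar := NumberFieldDVR27.isAlgebraic_Qbar
  have hx' : x ∈ Subfield.closure (Set.range (algebraMap Qbar (LaurentSeries Qbar)) ∪
      (((Fbar (M' * r) : IntermediateField Qbar (LaurentSeries Qbar)) : Set (LaurentSeries Qbar)) ∪
        {thetaInf (psiBar K₀ ψ₀)})) := by
    rw [EBar, adj, IntermediateField.adjoin] at hx
    exact hx
  clear hx
  induction hx' using Subfield.closure_induction with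
  | mem y hy =>
    rcases hy with ⟨a, rfl⟩ | hy | hy
    · -- a constant
      haveI : FiniteDimensional ℚ ℚ⟮a⟯ :=
        adjoin.finiteDimensional (Algebra.IsIntegral.isIntegral a)
      refine ⟨K₀ ⊔ ℚ⟮a⟯, le_sup_left, inferInstance,
        algebraMap _ _ (⟨a, le_sup_right (a := K₀) (mem_adjoin_simple_self ℚ a)⟩ :
          ↥(K₀ ⊔ ℚ⟮a⟯)), (EKfam M' ψ₀ _).algebraMap_mem _, ?_⟩
      rw [CoeffDescent1.coeffMap_algebraMap_of_ringHom]
      rfl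
    · obtain ⟨K, hK, hfin, y', hy', hyy'⟩ :=
        CoeffDescent1.exists_finite_descent (F₀ := modularFunctionFieldFull (M' * r)) K₀ hy
      exact ⟨K, hK, hfin, y', le_adj _ _ hy', hyy'⟩
    · rw [Set.mem_singleton_iff] at hy
      subst hy
      refine ⟨K₀, le_rfl, inferInstance, thetaInfK K₀ (psiFam ψ₀ K₀), theta_mem _ _, ?_⟩
      rw [coeffMap_thetaInfK, psiBar_psiFam ψ₀ le_rfl]
  | one =>
    exact ⟨K₀, le_rfl, inferInstance, 1, one_mem _, map_one _⟩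
  | add a b _ _ ha hb =>
    obtain ⟨K, hK, hfin, a', b', ha', hb', rfl, rfl⟩ := desc_binary M' ψ₀ ha hb
    exact ⟨K, hK, hfin, a' + b', add_mem ha' hb', map_add _ _ _⟩
  | neg a _ ha =>
    obtain ⟨K, hK, hfin, a', ha', rfl⟩ := ha
    exact ⟨K, hK, hfin, -a', neg_mem ha', map_neg _ _⟩
  | inv a _ ha =>
    obtain ⟨K, hK, hfin, a', ha', rfl⟩ := ha
    exact ⟨K, hK, hfin, a'⁻¹, inv_mem ha', map_inv₀ _ _⟩
  | mul a b _ _ ha hb =>
    obtain ⟨K, hK, hfin, a', b', ha', hb', rfl, rfl⟩ := desc_binary M' ψ₀ ha hb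
    exact ⟨K, hK, hfin, a' * b', mul_mem ha' hb', map_mul _ _ _⟩

/-- `Θ̄` is fixed by the automorphisms fixing `K₀`. -/
theorem coeffMap_thetaBar_of_fixed (σ : Qbar ≃ₐ[ℚ] Qbar) (hσ : ∀ a ∈ K₀, σ a = a) :
    coeffMap ((σ : Qbar ≃+* Qbar) : Qbar →+* Qbar) (thetaInf (psiBar K₀ ψ₀)) =
      thetaInf (psiBar K₀ ψ₀) := by
  rw [coeffMap_thetaInf_ringHomComp]
  congr 1
  apply MulChar.ext'
  intro a
  rw [MulChar.ringHomComp_apply, MulChar.ringHomComp_apply]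
  exact hσ _ (ψ₀ a).2

/-- (gal) -/
theorem gal_mem_fam (σ : Qbar ≃ₐ[ℚ] Qbar) (hσ : ∀ a ∈ K₀, σ a = a) (x : LaurentSeries Qbar)
    (hx : x ∈ EBar M' ψ₀) :
    coeffMap ((σ : Qbar ≃+* Qbar) : Qbar →+* Qbar) x ∈ EBar M' ψ₀ := by
  refine map_mem_adj (coeffMap ((σ : Qbar ≃+* Qbar) : Qbar →+* Qbar)) ?_ ?_ ?_ hx
  · intro c
    exact ⟨σ c, CoeffDescent1.coeffMap_algebraMap_of_ringHom _ c⟩
  · intro y hy
    exact CoeffDescent1.coeffMap_mem_laurentBaseChange_of_algHom _ _ hy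
  · rw [coeffMap_thetaBar_of_fixed ψ₀ σ hσ]
    exact theta_mem _ _

/-- the formal `j` as an element of `E`. -/
def jE : ↥(EBar M' ψ₀) :=
  ⟨((Fermat.Agent.X0.jF (M' * r) : ↥(Fbar (M' * r))) : LaurentSeries Qbar),
    le_adj _ _ (Fermat.Agent.X0.jF (M' * r)).2⟩

theorem isGen_jE (heven : ψ₀ (-1) = 1) {n : ℕ} (hn0 : n ≠ 0) (hn : ψ₀ ^ n = 1) :
    FF.IsGen Qbar (jE M' ψ₀) :=
  isGen_adj (Fbar (M' * r)) (thetaInf (psiBar K₀ ψ₀)) hn0
    (thetaPow_mem_Fbar_mul (psiBar_even heven) (psiBar_pow hn) M')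
    (Fermat.Agent.X0.jF (M' * r)) (Fermat.Agent.RED.TOP.FbarFacts20.isGen_j (M' * r))

theorem jE_fixed (σ : Qbar ≃ₐ[ℚ] Qbar) :
    coeffMap ((σ : Qbar ≃+* Qbar) : Qbar →+* Qbar) ((jE M' ψ₀ : ↥(EBar M' ψ₀)) :
      LaurentSeries Qbar) = (jE M' ψ₀ : ↥(EBar M' ψ₀)) :=
  CoeffDescent1.coeffMap_coeffEmb_of_algHom _ _

/-- **FIELD': the family of Kummer covers** `E = ℚ̄·F_{M' r}(Θ̄)`, `EK K = FH M' (psiFam ψ₀ K)`. -/
def thetaFam [FiniteDimensional ℚ ↥K₀] (heven : ψ₀ (-1) = 1) {n : ℕ} (hn0 : n ≠ 0)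
    (hn : ψ₀ ^ n = 1) : DescFamily K₀ where
  E := EBar M' ψ₀
  EK := EKfam M' ψ₀
  bc_mem := bc_mem_fam M' ψ₀
  mono := mono_fam M' ψ₀
  exh := exh_fam M' ψ₀
  gal_mem := gal_mem_fam M' ψ₀
  gen := jE M' ψ₀
  isGen := isGen_jE M' ψ₀ heven hn0 hn
  gen_fixed := fun σ _ => jE_fixed M' ψ₀ σ

/-- **base change `F'_K → E`** (the `bcHom` of the family with the concrete types). -/
def bcFam {K : IntermediateField ℚ Qbar} (hK : K₀ ≤ K) :
    ↥(FH M' (psiFam ψ₀ K)) →+* ↥(EBar M' ψ₀) :=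
  RingHom.codRestrict ((coeffMap (algebraMap ↥K Qbar)).comp (FH M' (psiFam ψ₀ K)).val.toRingHom)
    (EBar M' ψ₀) (fun f => bc_mem_fam M' ψ₀ K hK _ f.2)

@[simp] theorem coe_bcFam {K : IntermediateField ℚ Qbar} (hK : K₀ ≤ K)
    (f : ↥(FH M' (psiFam ψ₀ K))) :
    ((bcFam M' ψ₀ hK f : ↥(EBar M' ψ₀)) : LaurentSeries Qbar) =
      coeffMap (algebraMap ↥K Qbar) (f : LaurentSeries ↥K) := rfl

theorem thetaFam_bcHom [FiniteDimensional ℚ ↥K₀] (heven : ψ₀ (-1) = 1) {n : ℕ} (hn0 : n ≠ 0)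
    (hn : ψ₀ ^ n = 1) {K : IntermediateField ℚ Qbar} (hK : K₀ ≤ K) :
    (thetaFam M' ψ₀ heven hn0 hn).bcHom K hK = bcFam M' ψ₀ hK := rfl

theorem bcFam_algebraMap {K : IntermediateField ℚ Qbar} (hK : K₀ ≤ K) (c : ↥K) :
    bcFam M' ψ₀ hK (algebraMap ↥K ↥(FH M' (psiFam ψ₀ K)) c) =
      algebraMap Qbar ↥(EBar M' ψ₀) (algebraMap ↥K Qbar c) := by
  apply Subtype.ext
  rw [coe_bcFam]
  exact CoeffDescent1.coeffMap_algebraMap_of_ringHom (algebraMap ↥K Qbar) c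

end Family

/-! ### The Galois action and the deck transformation on the family -/

section Actions

open Fermat.Agent.RED.Interface4 Fermat.Agent.RED.DESC Fermat.Agent.M43.ThetaFieldK8
  Fermat.Agent.M43.FieldBridge8 Fermat.Agent.M43.EisPsiInf6 Fermat.Agent.M43.IgusaSlope8
  Fermat.Agent.M43.MixDesc9 Fermat.Agent.M43.KummerGal8 Fermat.Agent.M43.ThetaDeltaK8
  ModularCurve AlgebraicCurve

variable {r : ℕ} [Fact r.Prime] [NeZero r] (M' : ℕ) [NeZero M']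
variable {K₀ : IntermediateField ℚ Qbar} (ψ₀ : MulChar (ZMod r) ↥K₀)

section Gal

theorem thetaFam_E [FiniteDimensional ℚ ↥K₀] (heven : ψ₀ (-1) = 1) {n : ℕ} (hn0 : n ≠ 0)
    (hn : ψ₀ ^ n = 1) : (thetaFam M' ψ₀ heven hn0 hn).E = EBar M' ψ₀ := rfl

theorem thetaFam_EK [FiniteDimensional ℚ ↥K₀] (heven : ψ₀ (-1) = 1) {n : ℕ} (hn0 : n ≠ 0)
    (hn : ψ₀ ^ n = 1) (K : IntermediateField ℚ Qbar) :
    (thetaFam M' ψ₀ heven hn0 hn).EK K = FH M' (psiFam ψ₀ K) := rfl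

variable {K : IntermediateField ℚ Qbar} [Normal ℚ ↥K]

/-- the coefficientwise action of `σ|K` maps `F'_K` into itself. -/
theorem coeffMap_restrictNormal_mem (hK : K₀ ≤ K) {σ : Qbar ≃ₐ[ℚ] Qbar} (hσ : ∀ a ∈ K₀, σ a = a)
    (x : LaurentSeries ↥K) (hx : x ∈ FH M' (psiFam ψ₀ K)) :
    coeffMap (((σ.restrictNormal ↥K : ↥K ≃ₐ[ℚ] ↥K) : ↥K ≃+* ↥K) : ↥K →+* ↥K) x ∈
      FH M' (psiFam ψ₀ K) :=
  (galFH M' (σ.restrictNormal ↥K) (psiFam_fixed ψ₀ hK hσ) ⟨x, hx⟩).2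

theorem symm_fixes {σ : Qbar ≃ₐ[ℚ] Qbar} (hσ : ∀ a ∈ K₀, σ a = a) : ∀ a ∈ K₀, σ.symm a = a :=
  fun a ha => by
    conv_lhs => rw [← hσ a ha]
    exact σ.symm_apply_apply a

/-- **the coefficientwise action of `σ|K` on `F'_K = EK K`** (`σ` fixing `K₀`, `K ⊇ K₀` normal),
as a semilinear automorphism. -/
def gK (hK : K₀ ≤ K) {σ : Qbar ≃ₐ[ℚ] Qbar} (hσ : ∀ a ∈ K₀, σ a = a) :
    SemilinearAut ↥K ↥(FH M' (psiFam ψ₀ K)) :=
  coeffSemilinear (FH M' (psiFam ψ₀ K)) ((σ.restrictNormal ↥K : ↥K ≃ₐ[ℚ] ↥K) : ↥K ≃+* ↥K)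
    (coeffMap_restrictNormal_mem M' ψ₀ hK hσ)
    (fun x hx => by
      have h := coeffMap_restrictNormal_mem M' ψ₀ hK (symm_fixes hσ) x hx
      have e : (σ.symm.restrictNormal ↥K) = (σ.restrictNormal ↥K).symm := by
        apply AlgEquiv.ext
        intro a
        apply (algebraMap ↥K Qbar).injective
        rw [AlgEquiv.restrictNormal_commutes, AlgEquiv.symm_apply_eq,
          ← AlgEquiv.restrictNormal_commutes, AlgEquiv.apply_symm_apply]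
      rw [e] at h
      exact h)

@[simp] theorem coe_gK_smul (hK : K₀ ≤ K) {σ : Qbar ≃ₐ[ℚ] Qbar} (hσ : ∀ a ∈ K₀, σ a = a)
    (x : ↥(FH M' (psiFam ψ₀ K))) :
    ((gK M' ψ₀ hK hσ • x : ↥(FH M' (psiFam ψ₀ K))) : LaurentSeries ↥K) =
      coeffMap (((σ.restrictNormal ↥K : ↥K ≃ₐ[ℚ] ↥K) : ↥K ≃+* ↥K) : ↥K →+* ↥K)
        (x : LaurentSeries ↥K) := rfl

theorem toRingAut_gK (hK : K₀ ≤ K) {σ : Qbar ≃ₐ[ℚ] Qbar} (hσ : ∀ a ∈ K₀, σ a = a)
    (x : ↥(FH M' (psiFam ψ₀ K))) :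
    SemilinearAut.toRingAut (gK M' ψ₀ hK hσ) x =
      galFH M' (σ.restrictNormal ↥K) (psiFam_fixed ψ₀ hK hσ) x := rfl

theorem baseAut_gK (hK : K₀ ≤ K) {σ : Qbar ≃ₐ[ℚ] Qbar} (hσ : ∀ a ∈ K₀, σ a = a) :
    SemilinearAut.baseAut (gK M' ψ₀ hK hσ) =
      ((σ.restrictNormal ↥K : ↥K ≃ₐ[ℚ] ↥K) : ↥K ≃+* ↥K) := rfl

/-- **base change is equivariant for the Galois actions.** -/
theorem bcFam_gK (hK : K₀ ≤ K) {σ : Qbar ≃ₐ[ℚ] Qbar} (hσ : ∀ a ∈ K₀, σ a = a)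
    (x : ↥(FH M' (psiFam ψ₀ K))) :
    ((bcFam M' ψ₀ hK (gK M' ψ₀ hK hσ • x) : ↥(EBar M' ψ₀)) : LaurentSeries Qbar) =
      coeffMap ((σ : Qbar ≃+* Qbar) : Qbar →+* Qbar)
        ((bcFam M' ψ₀ hK x : ↥(EBar M' ψ₀)) : LaurentSeries Qbar) := by
  rw [coe_bcFam, coe_bcFam, coe_gK_smul, coeffMap_coeffMap, coeffMap_coeffMap]
  refine coeffMap_congr (RingHom.ext fun a => ?_) _
  exact AlgEquiv.restrictNormal_commutes σ ↥K a

variable [FiniteDimensional ℚ ↥K₀] (heven : ψ₀ (-1) = 1) {n : ℕ} (hn0 : n ≠ 0)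
  (hn : ψ₀ ^ n = 1)

/-- **base change is equivariant for the Galois actions** (in the vocabulary of the family). -/
theorem bcHom_gK (hK : K₀ ≤ K) {σ : Qbar ≃ₐ[ℚ] Qbar} (hσ : ∀ a ∈ K₀, σ a = a)
    (x : ↥(FH M' (psiFam ψ₀ K))) :
    (thetaFam M' ψ₀ heven hn0 hn).bcHom K hK (gK M' ψ₀ hK hσ • x) =
      (thetaFam M' ψ₀ heven hn0 hn).galE σ • (thetaFam M' ψ₀ heven hn0 hn).bcHom K hK x := by
  apply Subtype.ext
  rw [DescFamily.coe_galE_smul _ hσ]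
  exact bcFam_gK M' ψ₀ hK hσ x

end Gal

section Delta

open Fermat.Agent.RED.DESC.PlaceExtend27

variable (heven : ψ₀ (-1) = 1) {n : ℕ} (hn : ψ₀ ^ n = 1)

/-- `Θ̄` as an element of `E`. -/
abbrev thetaE : ↥(EBar M' ψ₀) := thetaA (Fbar (M' * r)) (thetaInf (psiBar K₀ ψ₀))

theorem thetaBar_pow :
    thetaInf (psiBar K₀ ψ₀) ^ n =
      ((uTheta M' (psiBar_even heven) (psiBar_pow hn) : ↥(Fbar (M' * r))) :
        LaurentSeries Qbar) := rfl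

/-- the Kummer functions over `K` base change to the Kummer function over `ℚ̄`. -/
theorem baseChangeHom_uK_fam {K : IntermediateField ℚ Qbar} (hK : K₀ ≤ K) :
    baseChangeHom (M' * r) K (uK M' (psiFam_even ψ₀ hK heven) (psiFam_pow ψ₀ hK hn)) =
      uTheta M' (psiBar_even heven) (psiBar_pow hn) := by
  apply Subtype.ext
  rw [coe_baseChangeHom, coe_uK, map_pow, coeffMap_thetaInfK, psiBar_psiFam ψ₀ hK]
  rfl

variable (hirrb : Irreducible (X ^ n - C (uTheta M' (psiBar_even heven) (psiBar_pow hn)) :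
  (↥(Fbar (M' * r)))[X]))

include hirrb in
/-- the Kummer polynomial is irreducible over every `K ⊇ K₀` as soon as it is over `ℚ̄`. -/
theorem irreducible_uK_fam {K : IntermediateField ℚ Qbar} (hK : K₀ ≤ K) :
    Irreducible (X ^ n - C (uK M' (psiFam_even ψ₀ hK heven) (psiFam_pow ψ₀ hK hn)) :
      (↥(FK (M' * r) K))[X]) := by
  have hn0 : n ≠ 0 := n_ne_zero hirrb
  have hmonic : (X ^ n - C (uK M' (psiFam_even ψ₀ hK heven) (psiFam_pow ψ₀ hK hn)) :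
      (↥(FK (M' * r) K))[X]).Monic := monic_X_pow_sub_C _ hn0
  refine hmonic.irreducible_of_irreducible_map (baseChangeHom (M' * r) K) _ ?_
  rw [Polynomial.map_sub, Polynomial.map_pow, Polynomial.map_X, Polynomial.map_C,
    baseChangeHom_uK_fam M' ψ₀ heven hn hK]
  exact hirrb

/-- **the deck transformation `Θ̄ ↦ ζ Θ̄` of `E` over `ℚ̄·F_{M' r}`**, as a `ℚ̄`-algebra
automorphism. -/
def deltaBar (ζ : Qbar) (hζ : ζ ^ n = 1) : ↥(EBar M' ψ₀) ≃ₐ[Qbar] ↥(EBar M' ψ₀) :=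
  (rootMulAlg hirrb (thetaBar_pow M' ψ₀ heven hn) ζ hζ).restrictScalars Qbar

theorem deltaBar_apply (ζ : Qbar) (hζ : ζ ^ n = 1) (z : ↥(EBar M' ψ₀)) :
    deltaBar M' ψ₀ heven hn hirrb ζ hζ z =
      rootMul hirrb (thetaBar_pow M' ψ₀ heven hn) ζ hζ z := rfl

theorem deltaBar_theta (ζ : Qbar) (hζ : ζ ^ n = 1) :
    deltaBar M' ψ₀ heven hn hirrb ζ hζ (thetaE M' ψ₀) =
      algebraMap Qbar ↥(EBar M' ψ₀) ζ * thetaE M' ψ₀ :=
  rootMul_theta hirrb (thetaBar_pow M' ψ₀ heven hn) ζ hζ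

theorem deltaBar_incl (ζ : Qbar) (hζ : ζ ^ n = 1) (x : ↥(Fbar (M' * r))) :
    deltaBar M' ψ₀ heven hn hirrb ζ hζ (incl (Fbar (M' * r)) (thetaInf (psiBar K₀ ψ₀)) x) =
      incl (Fbar (M' * r)) (thetaInf (psiBar K₀ ψ₀)) x :=
  rootMul_incl hirrb (thetaBar_pow M' ψ₀ heven hn) ζ hζ x

/-- the fixed field of `δ̄` (`ζ` primitive) is `ℚ̄·F_{M' r}`. -/
theorem exists_incl_of_deltaBar_eq {ζ : Qbar} (hζ : IsPrimitiveRoot ζ n) {z : ↥(EBar M' ψ₀)}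
    (hz : deltaBar M' ψ₀ heven hn hirrb ζ hζ.pow_eq_one z = z) :
    ∃ x : ↥(Fbar (M' * r)), incl (Fbar (M' * r)) (thetaInf (psiBar K₀ ψ₀)) x = z :=
  exists_incl_of_rootMul_eq hirrb (thetaBar_pow M' ψ₀ heven hn) hζ hz

theorem deltaBar_mul (ζ ζ' : Qbar) (hζ : ζ ^ n = 1) (hζ' : ζ' ^ n = 1) (z : ↥(EBar M' ψ₀)) :
    deltaBar M' ψ₀ heven hn hirrb ζ hζ (deltaBar M' ψ₀ heven hn hirrb ζ' hζ' z) =
      deltaBar M' ψ₀ heven hn hirrb (ζ * ζ') (by rw [mul_pow, hζ, hζ', one_mul]) z :=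
  RingHom.congr_fun (rootMulHom_comp hirrb (thetaBar_pow M' ψ₀ heven hn) ζ ζ' hζ hζ') z

theorem bcFam_incl {K : IntermediateField ℚ Qbar} (hK : K₀ ≤ K) (y : ↥(FK (M' * r) K)) :
    bcFam M' ψ₀ hK (incl (FK (M' * r) K) (thetaInfK K (psiFam ψ₀ K)) y) =
      incl (Fbar (M' * r)) (thetaInf (psiBar K₀ ψ₀)) (baseChangeHom (M' * r) K y) := by
  apply Subtype.ext
  rw [coe_bcFam, coe_incl, coe_incl, coe_baseChangeHom]

theorem bcFam_thetaK {K : IntermediateField ℚ Qbar} (hK : K₀ ≤ K) :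
    bcFam M' ψ₀ hK (thetaK M' (psiFam ψ₀ K)) = thetaE M' ψ₀ := by
  apply Subtype.ext
  rw [coe_bcFam]
  show coeffMap (algebraMap ↥K Qbar) (thetaInfK K (psiFam ψ₀ K)) = thetaInf (psiBar K₀ ψ₀)
  rw [coeffMap_thetaInfK, psiBar_psiFam ψ₀ hK]

/-- **base change is equivariant for the deck transformations.** -/
theorem bcFam_deltaK {K : IntermediateField ℚ Qbar} (hK : K₀ ≤ K)
    (hirrK : Irreducible (X ^ n - C (uK M' (psiFam_even ψ₀ hK heven) (psiFam_pow ψ₀ hK hn)) :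
      (↥(FK (M' * r) K))[X]))
    (ζ : ↥K) (hζ : ζ ^ n = 1) (x : ↥(FH M' (psiFam ψ₀ K))) :
    bcFam M' ψ₀ hK (deltaK M' hirrK ζ hζ x) =
      deltaBar M' ψ₀ heven hn hirrb (algebraMap ↥K Qbar ζ) (by rw [← map_pow, hζ, map_one])
        (bcFam M' ψ₀ hK x) := by
  have hζ' : (algebraMap ↥K Qbar ζ) ^ n = 1 := by rw [← map_pow, hζ, map_one]
  have key : (bcFam M' ψ₀ hK).comp ((deltaK M' hirrK ζ hζ : ↥(FH M' (psiFam ψ₀ K)) ≃+*
      ↥(FH M' (psiFam ψ₀ K))) : ↥(FH M' (psiFam ψ₀ K)) →+* ↥(FH M' (psiFam ψ₀ K))) =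
      ((deltaBar M' ψ₀ heven hn hirrb (algebraMap ↥K Qbar ζ) hζ' : ↥(EBar M' ψ₀) ≃+*
        ↥(EBar M' ψ₀)) : ↥(EBar M' ψ₀) →+* ↥(EBar M' ψ₀)).comp (bcFam M' ψ₀ hK) := by
    refine KummerAdj8.ringHom_ext hirrK
      (hroot_kummer (coe_uK M' (psiFam_even ψ₀ hK heven) (psiFam_pow ψ₀ hK hn)).symm) ?_ ?_
    · intro y
      show bcFam M' ψ₀ hK (deltaK M' hirrK ζ hζ (incl _ _ y)) =
        deltaBar M' ψ₀ heven hn hirrb _ hζ' (bcFam M' ψ₀ hK (incl _ _ y))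
      have h1 : deltaK M' hirrK ζ hζ (incl _ _ y) = incl _ _ y := deltaK_algebraMap M' hirrK ζ hζ y
      rw [h1, bcFam_incl, deltaBar_incl]
    · show bcFam M' ψ₀ hK (deltaK M' hirrK ζ hζ (thetaK M' (psiFam ψ₀ K))) =
        deltaBar M' ψ₀ heven hn hirrb _ hζ' (bcFam M' ψ₀ hK (thetaK M' (psiFam ψ₀ K)))
      rw [deltaK_theta', map_mul, bcFam_thetaK, deltaBar_theta, bcFam_algebraMap]
  exact RingHom.congr_fun key x

/-- the deck transformation of `F'_K` as a `K`-algebra automorphism. -/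
def deltaKK {K : IntermediateField ℚ Qbar} (hK : K₀ ≤ K)
    (hirrK : Irreducible (X ^ n - C (uK M' (psiFam_even ψ₀ hK heven) (psiFam_pow ψ₀ hK hn)) :
      (↥(FK (M' * r) K))[X]))
    (ζ : ↥K) (hζ : ζ ^ n = 1) : ↥(FH M' (psiFam ψ₀ K)) ≃ₐ[↥K] ↥(FH M' (psiFam ψ₀ K)) :=
  (deltaK M' hirrK ζ hζ).restrictScalars ↥K

theorem deltaKK_apply {K : IntermediateField ℚ Qbar} (hK : K₀ ≤ K)
    (hirrK : Irreducible (X ^ n - C (uK M' (psiFam_even ψ₀ hK heven) (psiFam_pow ψ₀ hK hn)) :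
      (↥(FK (M' * r) K))[X]))
    (ζ : ↥K) (hζ : ζ ^ n = 1) (x : ↥(FH M' (psiFam ψ₀ K))) :
    deltaKK M' ψ₀ heven hn hK hirrK ζ hζ x = deltaK M' hirrK ζ hζ x := rfl

variable [FiniteDimensional ℚ ↥K₀] (hn0 : n ≠ 0)

/-- **base change is equivariant for the deck transformations** (in the vocabulary of the
family). -/
theorem bcHom_deltaK {K : IntermediateField ℚ Qbar} (hK : K₀ ≤ K)
    (hirrK : Irreducible (X ^ n - C (uK M' (psiFam_even ψ₀ hK heven) (psiFam_pow ψ₀ hK hn)) :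
      (↥(FK (M' * r) K))[X]))
    (ζ : ↥K) (hζ : ζ ^ n = 1) (x : ↥(FH M' (psiFam ψ₀ K))) :
    (thetaFam M' ψ₀ heven hn0 hn).bcHom K hK (deltaK M' hirrK ζ hζ x) =
      deltaBar M' ψ₀ heven hn hirrb (algebraMap ↥K Qbar ζ) (by rw [← map_pow, hζ, map_one])
        ((thetaFam M' ψ₀ heven hn0 hn).bcHom K hK x) :=
  bcFam_deltaK M' ψ₀ heven hn hirrb hK hirrK ζ hζ x

/-- **the mixed pair**: base change intertwines `δ_K ∘ σ|K` on `F'_K` with `δ̄ ∘ σ` on `E`. -/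
theorem bcHom_delta_mul_gK {K : IntermediateField ℚ Qbar} [Normal ℚ ↥K] (hK : K₀ ≤ K)
    {σ : Qbar ≃ₐ[ℚ] Qbar} (hσ : ∀ a ∈ K₀, σ a = a)
    (hirrK : Irreducible (X ^ n - C (uK M' (psiFam_even ψ₀ hK heven) (psiFam_pow ψ₀ hK hn)) :
      (↥(FK (M' * r) K))[X]))
    (ζ : ↥K) (hζ : ζ ^ n = 1) (x : ↥(FH M' (psiFam ψ₀ K))) :
    (thetaFam M' ψ₀ heven hn0 hn).bcHom K hK
        ((SemilinearAut.ofAlgAut (deltaKK M' ψ₀ heven hn hK hirrK ζ hζ) * gK M' ψ₀ hK hσ) • x) =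
      ((SemilinearAut.ofAlgAut (deltaBar M' ψ₀ heven hn hirrb (algebraMap ↥K Qbar ζ)
          (by rw [← map_pow, hζ, map_one])) :
          SemilinearAut Qbar ↥((thetaFam M' ψ₀ heven hn0 hn).E)) *
        (thetaFam M' ψ₀ heven hn0 hn).galE σ) •
        (thetaFam M' ψ₀ heven hn0 hn).bcHom K hK x := by
  rw [mul_smul, mul_smul, SemilinearAut.ofAlgAut_smul, SemilinearAut.ofAlgAut_smul, deltaKK_apply,
    bcHom_deltaK M' ψ₀ heven hn hirrb hn0 hK hirrK ζ hζ, bcHom_gK M' ψ₀ heven hn0 hn hK hσ]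
  rfl

end Delta

end Actions

end Fermat.Agent.M43.ThetaFam1
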