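/-
M43 (helper1) [LG-q / END at the level of `Pic⁰(E)`] MixEnd1: **the spine of (LG-q) for the concrete
Kummer cover**, with the node normal forms (LN) over all large number fields as the ONLY named
hypothesis.

`r` an odd prime, `M'` with `LevelHyp r M' A` (`4 ∣ M'`, `r ∤ M'`, `A` over `r`), `p ≠ r` an odd
prime, `k ≥ 1`, `K₀ ⊂ ℚ̄` a number field fixed pointwise by the inertia group of `A`,
`ψ₀ : MulChar (ZMod r) K₀` even of order `p^k`, `ψ = psiBar K₀ ψ₀`,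
`E = ℚ̄·F_{M' r}(Θ̄) = adj (Fbar (M' r)) (thetaInf ψ)`.

* `LNLarge r M' A p k` : (LN0) ∧ (LN1) (the binders of `ModelFH8.mixReadyAt_FH`) over all large
  finite normal `K`;
* `gK_eq_gFH`, `deltaKK_eq`, `gK'_eq_gFH'` : the automorphisms of `ThetaFam1` are those of `GalMix0`;
* `exists_ready` : the hypothesis `hready` of `MixChain9.pic0_of_ready` for the family
  `ThetaFam1.thetaFam`, `gb = galE σ`, `gb' = δ̄_c ∘ galE σ`, `c = ψ(χ_r(σ))`, `σ` in the inertia group;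
* **`spine_concrete`** : for `σ` in the inertia group of `A` there are `g` (coefficientwise `σ` on `E`)
  and `dE` (the deck transformation `Θ̄ ↦ ψ⁻¹((χ_{M' r}(σ))⁻¹ mod r) Θ̄`) with
  `(dE g) g z + z = g z + (dE g) z` on the prime-to-`r` torsion of `Pic⁰(E)`.
-/
import Mathlib
import Fermat.Agent.M43.ThetaFam1
import Fermat.Agent.M43.ModelFH8
import Fermat.Agent.M43.GalMixCyc0
import Fermat.Agent.M43.MixTransport0
import Fermat.Agent.M43.BridgeChar3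

set_option autoImplicit false
set_option linter.unusedSectionVars false
set_option linter.style.haveILetI false
set_option linter.unusedVariables false
set_option synthInstance.maxHeartbeats 400000

open ModularCurve AlgebraicCurve Polynomial

noncomputable section

namespace Fermat.Agent.M43.MixEnd1

open Fermat.Agent.X0 Fermat.Agent.RED.Interface4 Fermat.Agent.RED.DESC
open Fermat.Agent.RED.DESC.NumberFieldDVR27
open Fermat.Agent.RED.PUR.GaussGen8 Fermat.Agent.RED.PUR.ChartGeneric22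
open Fermat.Agent.ES.RED Fermat.Agent.ES.N34.ModelDefs9 Fermat.Agent.ES.N34.ModelInput13
open Fermat.Agent.ES.N34.NodalCore13 Fermat.Agent.ES.N34.NodalCL13 Fermat.Agent.ES.N34.NumData13
open Fermat.Agent.ES.N34.TwoGlue20 Fermat.Agent.ES.N34.GalBase21
open Fermat.Agent.M43.KLift9 Fermat.Agent.M43.KNode9 Fermat.Agent.M43.LGqUp9
open Fermat.Agent.M43.KummerAdj8 Fermat.Agent.M43.KummerGal8
open Fermat.Agent.M43.ThetaFieldK8 Fermat.Agent.M43.ThetaDeltaK8 Fermat.Agent.M43.GaussDataK8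
open Fermat.Agent.M43.GaussUp8 Fermat.Agent.M43.GaussUniqK8 Fermat.Agent.M43.LSInst8
open Fermat.Agent.T33.NodalHalf4 Fermat.Agent.RED.BASE.EtaQuot12
open Fermat.Agent.M43.FieldBridge8 Fermat.Agent.M43.EisPsiInf6 Fermat.Agent.M43.IgusaSlope8
open Fermat.Agent.M43.IgusaInst8 Fermat.Agent.M43.MixDesc9 Fermat.Agent.M43.MixChain9
open Fermat.Agent.M43.ThetaFam1 Fermat.Agent.M43.GalMix0 Fermat.Agent.M43.GalMixCyc0
open Fermat.Agent.M48.DirCharGal8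

variable {A : ValuationSubring Qbar}
variable {r M' : ℕ} [NeZero M'] [NeZero r] [Fact r.Prime]

/-- **(LN) over all large finite normal `K`**: the node normal forms (LN0), (LN1) consumed by
`ModelFH8.mixReadyAt_FH`. -/
def LNLarge (r M' : ℕ) [NeZero M'] [NeZero r] [Fact r.Prime] (A : ValuationSubring Qbar)
    (p k : ℕ) : Prop :=
  ∀ (h : LevelHyp r M' A) (hp : p.Prime) (hp2 : p ≠ 2) (hpr : p ≠ r) (hk : 1 ≤ k),
  ∃ K₂ : IntermediateField ℚ Qbar, FiniteDimensional ℚ ↥K₂ ∧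
    ∀ (K : IntermediateField ℚ Qbar) [Normal ℚ ↥K] [FiniteDimensional ℚ ↥K], K₂ ≤ K →
    ∀ (ht : tq (↥K) 4 8 ∈ FK M' K)
      (hE : FK (M' * r) K ≤ fracField (AK A K)) (π : ↥(AK A K)) (hπ : IsUnif (AK A K) π)
      (ψ : MulChar (ZMod r) ↥K) (heven : ψ (-1) = 1)
      (hord : orderOf ψ = p ^ k) (hn : ψ ^ (p ^ k) = 1) (ζ : ↥K) (hζ : IsPrimitiveRoot ζ (p ^ k)),
      (∀ 𝔪 : Ideal ↥(B0 A r ht), 𝔪.IsMaximal → algebraMap ↥(AK A K) ↥(B0 A r ht) π ∈ 𝔪 →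
        ¬ OffBranch π (B0 A r ht) (O1 M' r hπ hE) 𝔪 →
        ¬ OffBranch π (B0 A r ht) (O2 M' r hπ hE) 𝔪 →
          Nonempty (KNodeDatum (F' := ↥(FH M' ψ)) π (B0 A r ht) (O1 M' r hπ hE) (O2 M' r hπ hE) 𝔪
            (deltaK M' (irreducible_uK M' h heven hp hp2 k hk hord hn) ζ hζ.pow_eq_one :
              ↥(FH M' ψ) →+* ↥(FH M' ψ)) (p ^ k))) ∧
      (∀ 𝔪 : Ideal ↥(B1 A r ht), 𝔪.IsMaximal → algebraMap ↥(AK A K) ↥(B1 A r ht) π ∈ 𝔪 →
        ¬ OffBranch π (B1 A r ht) (O1 M' r hπ hE) 𝔪 →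
        ¬ OffBranch π (B1 A r ht) (O2 M' r hπ hE) 𝔪 →
          Nonempty (KNodeDatum (F' := ↥(FH M' ψ)) π (B1 A r ht) (O1 M' r hπ hE) (O2 M' r hπ hE) 𝔪
            (deltaK M' (irreducible_uK M' h heven hp hp2 k hk hord hn) ζ hζ.pow_eq_one :
              ↥(FH M' ψ) →+* ↥(FH M' ψ)) (p ^ k)))


/-! ### The automorphisms of `ThetaFam1` are those of `GalMix0` -/

section Identify

variable {K₀ : IntermediateField ℚ Qbar} (ψ₀ : MulChar (ZMod r) ↥K₀)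
variable {K : IntermediateField ℚ Qbar} [Normal ℚ ↥K]

theorem gK_eq_gFH (hK : K₀ ≤ K) {σ : Qbar ≃ₐ[ℚ] Qbar} (hσ : ∀ a ∈ K₀, σ a = a) :
    gK M' ψ₀ hK hσ = gFH M' (resK K σ) (psiFam_fixed ψ₀ hK hσ) :=
  MixTransport0.semilinearAut_ext fun x => Subtype.ext rfl

variable (heven : ψ₀ (-1) = 1) {n : ℕ} (hn : ψ₀ ^ n = 1)

theorem deltaKK_eq (hK : K₀ ≤ K)
    (hirrK : Irreducible (X ^ n - C (uK M' (psiFam_even ψ₀ hK heven) (psiFam_pow ψ₀ hK hn)) :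
      (↥(FK (M' * r) K))[X]))
    (ζ : ↥K) (hζ : ζ ^ n = 1) :
    ThetaFam1.deltaKK M' ψ₀ heven hn hK hirrK ζ hζ = GalMix0.deltaKK M' hirrK ζ hζ :=
  AlgEquiv.ext fun x => rfl

theorem gK'_eq_gFH' (hK : K₀ ≤ K) {σ : Qbar ≃ₐ[ℚ] Qbar} (hσ : ∀ a ∈ K₀, σ a = a)
    (hirrK : Irreducible (X ^ n - C (uK M' (psiFam_even ψ₀ hK heven) (psiFam_pow ψ₀ hK hn)) :
      (↥(FK (M' * r) K))[X]))
    (ζ : ↥K) (hζ : ζ ^ n = 1) :
    SemilinearAut.ofAlgAut (ThetaFam1.deltaKK M' ψ₀ heven hn hK hirrK ζ hζ) * gK M' ψ₀ hK hσ =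
      gFH' M' hirrK (resK K σ) (psiFam_fixed ψ₀ hK hσ) ζ hζ := by
  rw [deltaKK_eq, gK_eq_gFH ψ₀ hK hσ]
  rfl

end Identify


/-! ### The hypothesis `hready` of `pic0_of_ready` -/

section Ready

variable {K₀ : IntermediateField ℚ Qbar} [FiniteDimensional ℚ ↥K₀] (ψ₀ : MulChar (ZMod r) ↥K₀)

theorem deltaBar_congr (heven : ψ₀ (-1) = 1) {n : ℕ} (hn : ψ₀ ^ n = 1)
    (hirrb : Irreducible (X ^ n - C (uTheta M' (psiBar_even heven) (psiBar_pow hn)) :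
      (↥(Fbar (M' * r)))[X]))
    {ζ ζ' : Qbar} (hζ : ζ ^ n = 1) (h : ζ = ζ') :
    deltaBar M' ψ₀ heven hn hirrb ζ hζ = deltaBar M' ψ₀ heven hn hirrb ζ' (h ▸ hζ) := by
  subst h
  rfl

/-- the constant `c̄ = ψ(χ_r(σ)) ∈ ℚ̄` of the deck transformation attached to `σ`. -/
def cBar (σ : Qbar ≃ₐ[ℚ] Qbar) : Qbar :=
  psiBar K₀ ψ₀ ((cycloM r σ : (ZMod r)ˣ) : ZMod r)

theorem cBar_pow {n : ℕ} (hn : ψ₀ ^ n = 1) (σ : Qbar ≃ₐ[ℚ] Qbar) : cBar ψ₀ σ ^ n = 1 := by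
  rw [cBar, ← MulChar.pow_apply_coe, psiBar_pow hn, MulChar.one_apply_coe]

set_option maxHeartbeats 3200000 in
/-- **the hypothesis `hready` of `MixChain9.pic0_of_ready`** for the family of Kummer covers. -/
theorem exists_ready (h : LevelHyp r M' A) {p : ℕ} (hp : p.Prime) (hp2 : p ≠ 2) (hpr : p ≠ r)
    (k : ℕ) (hk : 1 ≤ k) (hLN : LNLarge r M' A p k)
    (heven : ψ₀ (-1) = 1) (hord : orderOf ψ₀ = p ^ k) (hn : ψ₀ ^ (p ^ k) = 1)
    (hirrb : Irreducible (X ^ (p ^ k) - C (uTheta M' (psiBar_even heven) (psiBar_pow hn)) :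
      (↥(Fbar (M' * r)))[X]))
    {σ : Qbar ≃ₐ[ℚ] Qbar} (hσA : σ ∈ A.inertiaSubgroupIn ℚ) (hσ : ∀ a ∈ K₀, σ a = a) :
    ∃ K₁ : IntermediateField ℚ Qbar, FiniteDimensional ℚ ↥K₁ ∧
      ∀ (K : IntermediateField ℚ Qbar) (hK : K₀ ≤ K), FiniteDimensional ℚ ↥K → Normal ℚ ↥K →
        K₁ ≤ K →
        ∃ gK gK' : SemilinearAut ↥K
            ↥((thetaFam M' ψ₀ heven (pow_ne_zero k hp.ne_zero) hn).EK K),
          (∀ x, (thetaFam M' ψ₀ heven (pow_ne_zero k hp.ne_zero) hn).bcHom K hK (gK • x) =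
            (thetaFam M' ψ₀ heven (pow_ne_zero k hp.ne_zero) hn).galE σ •
              (thetaFam M' ψ₀ heven (pow_ne_zero k hp.ne_zero) hn).bcHom K hK x) ∧
          (∀ x, (thetaFam M' ψ₀ heven (pow_ne_zero k hp.ne_zero) hn).bcHom K hK (gK' • x) =
            ((SemilinearAut.ofAlgAut (deltaBar M' ψ₀ heven hn hirrb (cBar ψ₀ σ)
                (cBar_pow ψ₀ hn σ)) :
                SemilinearAut Qbar ↥((thetaFam M' ψ₀ heven (pow_ne_zero k hp.ne_zero) hn).E)) *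
              (thetaFam M' ψ₀ heven (pow_ne_zero k hp.ne_zero) hn).galE σ) •
              (thetaFam M' ψ₀ heven (pow_ne_zero k hp.ne_zero) hn).bcHom K hK x) ∧
          MixReadyAt (AK A K) ((thetaFam M' ψ₀ heven (pow_ne_zero k hp.ne_zero) hn).EK K)
            gK gK' := by
  classical
  have hr : r.Prime := Fact.out
  have hn0 : p ^ k ≠ 0 := pow_ne_zero k hp.ne_zero
  haveI : NeZero (p ^ k) := ⟨hn0⟩
  -- the auxiliary fields
  obtain ⟨Kd, hKd, hdown⟩ :=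
    Fermat.Agent.M43.LGqDown9.exists_down r M' A hr h.not_dvd h.ne_two h.four_dvd h.liesOver
  obtain ⟨K₂, hK₂, hLN'⟩ := hLN h hp hp2 hpr hk
  obtain ⟨ρ, hρ⟩ := IsAlgClosed.exists_pow_nat_eq ((r : ℕ) : Qbar) (Nat.pos_of_ne_zero hn0)
  have halg : Algebra.IsAlgebraic ℚ Qbar := NumberFieldDVR27.isAlgebraic_Qbar
  haveI : FiniteDimensional ℚ ↥(IntermediateField.adjoin ℚ {zetaK r}) :=
    IntermediateField.adjoin.finiteDimensional (Algebra.IsIntegral.isIntegral (zetaK r))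
  haveI : FiniteDimensional ℚ ↥(IntermediateField.adjoin ℚ {zetaM (p ^ k)}) :=
    IntermediateField.adjoin.finiteDimensional (Algebra.IsIntegral.isIntegral (zetaM (p ^ k)))
  haveI : FiniteDimensional ℚ ↥(IntermediateField.adjoin ℚ {ρ}) :=
    IntermediateField.adjoin.finiteDimensional (Algebra.IsIntegral.isIntegral ρ)
  haveI := hKd
  haveI := hK₂
  refine ⟨Kd ⊔ K₂ ⊔ IntermediateField.adjoin ℚ {zetaK r} ⊔
    IntermediateField.adjoin ℚ {zetaM (p ^ k)} ⊔ IntermediateField.adjoin ℚ {ρ}, inferInstance,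
    fun K hK hfdK hnorK hK₁ => ?_⟩
  haveI := hfdK
  haveI := hnorK
  have hle_d : Kd ≤ K :=
    ((((le_sup_left.trans le_sup_left).trans le_sup_left).trans le_sup_left)).trans hK₁
  have hle_2 : K₂ ≤ K :=
    ((((le_sup_right.trans le_sup_left).trans le_sup_left).trans le_sup_left)).trans hK₁
  have hle_3 : IntermediateField.adjoin ℚ {zetaK r} ≤ K :=
    ((le_sup_right.trans le_sup_left).trans le_sup_left).trans hK₁
  have hle_4 : IntermediateField.adjoin ℚ {zetaM (p ^ k)} ≤ K :=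
    (le_sup_right.trans le_sup_left).trans hK₁
  have hle_5 : IntermediateField.adjoin ℚ {ρ} ≤ K := le_sup_right.trans hK₁
  have hζr_mem : zetaK r ∈ K := hle_3 (IntermediateField.mem_adjoin_simple_self ℚ (zetaK r))
  have hζp_mem : zetaM (p ^ k) ∈ K :=
    hle_4 (IntermediateField.mem_adjoin_simple_self ℚ (zetaM (p ^ k)))
  have hρ_mem : ρ ∈ K := hle_5 (IntermediateField.mem_adjoin_simple_self ℚ ρ)
  -- downstairs data
  obtain ⟨ht, hE, hdata⟩ := hdown K hfdK hle_d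
  haveI hdvr : IsDiscreteValuationRing ↥(AK A K) :=
    isDiscreteValuationRing_AK A K hr.ne_zero h.liesOver
  obtain ⟨π, hπirr⟩ := IsDiscreteValuationRing.exists_irreducible ↥(AK A K)
  have hπ : IsUnif (AK A K) π := isUnif_of_irreducible (AK A K) hπirr
  obtain ⟨hD, gout, gin, hfdF⟩ := hdata π hπ
  -- the data over `K`
  have hevenK := psiFam_even ψ₀ hK heven
  have hordK : orderOf (psiFam ψ₀ K) = p ^ k := (orderOf_psiFam ψ₀ hK).trans hord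
  have hnK := psiFam_pow ψ₀ hK hn
  set ζr : ↥K := ⟨zetaK r, hζr_mem⟩ with hζr
  have hζK : algebraMap ↥K Qbar ζr = zetaK r := rfl
  set ρK : ↥K := ⟨ρ, hρ_mem⟩ with hρK
  have hρK' : ρK ^ (p ^ k) = ((r : ℕ) : ↥K) := by
    apply Subtype.ext
    show ρ ^ (p ^ k) = _
    rw [hρ]
    simp
  set ζp : ↥K := ⟨zetaM (p ^ k), hζp_mem⟩ with hζp
  have hζp' : IsPrimitiveRoot ζp (p ^ k) := by
    refine IsPrimitiveRoot.of_map_of_injective (f := algebraMap ↥K Qbar) ?_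
      (algebraMap ↥K Qbar).injective
    exact zetaM_spec (p ^ k)
  obtain ⟨LN0, LN1⟩ := hLN' K hle_2 ht hE π hπ (psiFam ψ₀ K) hevenK hordK hnK ζp hζp'
  have hs := psiFam_fixed ψ₀ hK hσ
  have hready := Fermat.Agent.M43.ModelFH8.mixReadyAt_FH (nH := 4) (eH := 8) h h.four_dvd hπ hE
    ht hD gout gin hfdF hevenK hp hp2 hpr k hk hordK hnK hζK ρK hρK' hζp' LN0 LN1 hσA hs
    ((cycloM r σ : (ZMod r)ˣ) : ZMod r).val (natCast_val_cycloM_ne_zero r σ) (resK_zeta r σ hζK)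
  have hirrK := irreducible_uK M' h hevenK hp hp2 k hk hordK hnK
  set c : ↥K := psiFam ψ₀ K ((((cycloM r σ : (ZMod r)ˣ) : ZMod r).val : ℕ) : ZMod r) with hc
  have hcn : c ^ (p ^ k) = 1 := psi_pow_eq_one hnK (natCast_val_cycloM_ne_zero r σ)
  have hcbar : algebraMap ↥K Qbar c = cBar ψ₀ σ := by
    rw [hc, natCast_val_cycloM]
    exact psiFam_apply ψ₀ hK _
  refine ⟨gFH M' (resK K σ) hs, gFH' M' hirrK (resK K σ) hs c hcn, ?_, ?_, hready⟩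
  · intro x
    have h1 := bcHom_gK M' ψ₀ heven hn0 hn hK hσ x
    rw [gK_eq_gFH ψ₀ hK hσ] at h1
    exact h1
  · intro x
    have h1 := bcHom_delta_mul_gK M' ψ₀ heven hn hirrb hn0 hK hσ hirrK c hcn x
    rw [gK'_eq_gFH' ψ₀ heven hn hK hσ hirrK c hcn,
      deltaBar_congr ψ₀ heven hn hirrb _ hcbar] at h1
    exact h1

end Ready


/-! ### The spine -/

section Spine

set_option maxHeartbeats 3200000 in
/-- **The spine of (LG-q) for the concrete Kummer cover** (modulo (LN)): for `σ` in the inertia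
group of `A` (over `r`), with `g` the coefficientwise action of `σ` on `E = ℚ̄·F_{M' r}(Θ̄)` and `dE`
the deck transformation `Θ̄ ↦ ψ(χ_r(σ)) Θ̄`, `(dE g) g z + z = g z + (dE g) z` on the prime-to-`r`
torsion of `Pic⁰(E)`. -/
theorem spine_concrete' (h : LevelHyp r M' A) {p : ℕ} (hp : p.Prime) (hp2 : p ≠ 2) (hpr : p ≠ r)
    (k : ℕ) (hk : 1 ≤ k) (hLN : LNLarge r M' A p k)
    (K₀ : IntermediateField ℚ Qbar) [FiniteDimensional ℚ ↥K₀]
    (hK₀ : ∀ σ ∈ A.inertiaSubgroupIn ℚ, ∀ x ∈ K₀, σ x = x)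
    (ψ₀ : MulChar (ZMod r) ↥K₀) (heven : ψ₀ (-1) = 1) (hord : orderOf ψ₀ = p ^ k)
    (σ : Qbar ≃ₐ[ℚ] Qbar) (hσ : σ ∈ A.inertiaSubgroupIn ℚ) :
    ∃ (g : SemilinearAut Qbar ↥(EBar M' ψ₀)) (dE : ↥(EBar M' ψ₀) ≃ₐ[Qbar] ↥(EBar M' ψ₀)),
      (∀ x : ↥(EBar M' ψ₀), ((g • x : ↥(EBar M' ψ₀)) : LaurentSeries Qbar) =
        coeffMap ((σ : Qbar ≃+* Qbar) : Qbar →+* Qbar) (x : LaurentSeries Qbar)) ∧
      (∀ x : ↥(EBar M' ψ₀), (x : LaurentSeries Qbar) ∈ Fbar (M' * r) → dE x = x) ∧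
      (∀ x : ↥(EBar M' ψ₀), (x : LaurentSeries Qbar) = thetaInf (psiBar K₀ ψ₀) →
        ((dE x : ↥(EBar M' ψ₀)) : LaurentSeries Qbar) =
          algebraMap Qbar (LaurentSeries Qbar)
            (psiBar K₀ ψ₀ ((cycloM r σ : (ZMod r)ˣ) : ZMod r)) * thetaInf (psiBar K₀ ψ₀)) ∧
      ∀ m : ℕ, ¬ r ∣ m → ∀ z : Pic0 Qbar ↥(EBar M' ψ₀), m • z = 0 →
        (SemilinearAut.ofAlgAut dE * g) • g • z + z =
          g • z + (SemilinearAut.ofAlgAut dE * g) • z := by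
  have hr : r.Prime := Fact.out
  have hn0 : p ^ k ≠ 0 := pow_ne_zero k hp.ne_zero
  have hn : ψ₀ ^ (p ^ k) = 1 := by
    rw [← hord]
    exact pow_orderOf_eq_one ψ₀
  have hirrb := irreducible_uTheta h (psiBar_even heven) hp hp2 k hk
    ((orderOf_psiBar ψ₀).trans hord) (psiBar_pow hn)
  have hσ₀ : ∀ a ∈ K₀, σ a = a := hK₀ σ hσ
  refine ⟨(thetaFam M' ψ₀ heven hn0 hn).galE σ,
    deltaBar M' ψ₀ heven hn hirrb (cBar ψ₀ σ) (cBar_pow ψ₀ hn σ), ?_, ?_, ?_, ?_⟩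
  · intro x
    exact DescFamily.coe_galE_smul (thetaFam M' ψ₀ heven hn0 hn) hσ₀ x
  · intro x hx
    have e : x = incl (Fbar (M' * r)) (thetaInf (psiBar K₀ ψ₀)) ⟨(x : LaurentSeries Qbar), hx⟩ :=
      Subtype.ext rfl
    rw [e, deltaBar_incl]
  · intro x hx
    have e : x = thetaE M' ψ₀ := Subtype.ext hx
    rw [e, deltaBar_theta]
    rfl
  · intro m hm z hz
    obtain ⟨K₁, hK₁, hready⟩ :=
      exists_ready ψ₀ h hp hp2 hpr k hk hLN heven hord hn hirrb hσ hσ₀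
    haveI := hK₁
    exact pic0_of_ready (thetaFam M' ψ₀ heven hn0 hn) hr h.liesOver
      ((thetaFam M' ψ₀ heven hn0 hn).galE σ)
      ((SemilinearAut.ofAlgAut (deltaBar M' ψ₀ heven hn hirrb (cBar ψ₀ σ) (cBar_pow ψ₀ hn σ)) :
        SemilinearAut Qbar ↥((thetaFam M' ψ₀ heven hn0 hn).E)) *
        (thetaFam M' ψ₀ heven hn0 hn).galE σ) K₁ hready hm z hz

/-- `ψ⁻¹((χ_{M' r}(σ))⁻¹ mod r) = ψ(χ_r(σ))`. -/
theorem inv_castHom_cycloM_inv [NeZero (M' * r)] (ψ : MulChar (ZMod r) Qbar)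
    (σ : Qbar ≃ₐ[ℚ] Qbar) :
    ψ⁻¹ (ZMod.castHom (Dvd.intro_left M' rfl : r ∣ M' * r) (ZMod r)
        (((cycloM (M' * r) σ)⁻¹ : (ZMod (M' * r))ˣ) : ZMod (M' * r))) =
      ψ ((cycloM r σ : (ZMod r)ˣ) : ZMod r) := by
  have h1 := Fermat.Agent.M43.BridgeChar3.unitsMap_cycloM
    (Dvd.intro_left M' rfl : r ∣ M' * r) σ
  have h2 : ZMod.castHom (Dvd.intro_left M' rfl : r ∣ M' * r) (ZMod r)
      (((cycloM (M' * r) σ)⁻¹ : (ZMod (M' * r))ˣ) : ZMod (M' * r)) =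
      (((cycloM r σ)⁻¹ : (ZMod r)ˣ) : ZMod r) := by
    rw [← h1, ← map_inv]
    rfl
  rw [h2, MulChar.inv_apply', Units.val_inv_eq_inv_val, inv_inv]

set_option maxHeartbeats 3200000 in
/-- **The spine of (LG-q) for the concrete Kummer cover** (modulo (LN)), in the literal consumed by
`NormConcMain4.lgq_norm` / `BridgeClose3`: `dE Θ̄ = ψ⁻¹((χ_{M' r}(σ))⁻¹ mod r) Θ̄`. -/
theorem spine_concrete [NeZero (M' * r)] (h : LevelHyp r M' A) {p : ℕ} (hp : p.Prime)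
    (hp2 : p ≠ 2) (hpr : p ≠ r) (k : ℕ) (hk : 1 ≤ k)
    (K₀ : IntermediateField ℚ Qbar) [FiniteDimensional ℚ ↥K₀]
    (hK₀ : ∀ σ ∈ A.inertiaSubgroupIn ℚ, ∀ x ∈ K₀, σ x = x)
    (ψ₀ : MulChar (ZMod r) ↥K₀) (heven : ψ₀ (-1) = 1) (hord : orderOf ψ₀ = p ^ k)
    (σ : Qbar ≃ₐ[ℚ] Qbar) (hσ : σ ∈ A.inertiaSubgroupIn ℚ) (hLN : LNLarge r M' A p k) :
    ∃ (g : SemilinearAut Qbar ↥(adj (Fbar (M' * r)) (thetaInf (psiBar K₀ ψ₀))))
      (dE : ↥(adj (Fbar (M' * r)) (thetaInf (psiBar K₀ ψ₀))) ≃ₐ[Qbar]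
        ↥(adj (Fbar (M' * r)) (thetaInf (psiBar K₀ ψ₀)))),
      (∀ x : ↥(adj (Fbar (M' * r)) (thetaInf (psiBar K₀ ψ₀))),
        ((g • x : ↥(adj (Fbar (M' * r)) (thetaInf (psiBar K₀ ψ₀)))) : LaurentSeries Qbar) =
          coeffMap ((σ : Qbar ≃+* Qbar) : Qbar →+* Qbar) (x : LaurentSeries Qbar)) ∧
      (∀ x : ↥(adj (Fbar (M' * r)) (thetaInf (psiBar K₀ ψ₀))),
        (x : LaurentSeries Qbar) ∈ Fbar (M' * r) → dE x = x) ∧
      (∀ x : ↥(adj (Fbar (M' * r)) (thetaInf (psiBar K₀ ψ₀))),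
        (x : LaurentSeries Qbar) = thetaInf (psiBar K₀ ψ₀) →
        ((dE x : ↥(adj (Fbar (M' * r)) (thetaInf (psiBar K₀ ψ₀)))) : LaurentSeries Qbar) =
          algebraMap Qbar (LaurentSeries Qbar)
            ((psiBar K₀ ψ₀)⁻¹ (ZMod.castHom (Dvd.intro_left M' rfl : r ∣ M' * r) (ZMod r)
              (((cycloM (M' * r) σ)⁻¹ : (ZMod (M' * r))ˣ) : ZMod (M' * r)))) *
            thetaInf (psiBar K₀ ψ₀)) ∧
      ∀ m : ℕ, ¬ r ∣ m →
        ∀ z : Pic0 Qbar ↥(adj (Fbar (M' * r)) (thetaInf (psiBar K₀ ψ₀))), m • z = 0 →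
          (SemilinearAut.ofAlgAut dE * g) • g • z + z =
            g • z + (SemilinearAut.ofAlgAut dE * g) • z := by
  obtain ⟨g, dE, hg, h1, h2, hsp⟩ :=
    spine_concrete' h hp hp2 hpr k hk hLN K₀ hK₀ ψ₀ heven hord σ hσ
  refine ⟨g, dE, hg, h1, fun x hx => ?_, hsp⟩
  rw [inv_castHom_cycloM_inv]
  exact h2 x hx

end Spine

end Fermat.Agent.M43.MixEnd1
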