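/-
M43, chapter (LN) (helper7): **the NODE normal form of the Kummer function over an inertial field.**

* `isPUnit_zpow`, `isPUnit_of_associated` : bookkeeping for `UnitPow15.IsPUnit`;
* `ufd_node_pow` (abstract): `C` a UFD with `Frac C = F ⊇ K`, `x y : C` non-associated primes, every
  prime dividing `d₀` is associated to `x` or `y`, `K ⊂ C[1/d₀]`; `u ∈ F` a `y`-unit with `u / x ^ b`
  an `x`-unit and `n ∣ ord_v u` at all places of `F / K`  ⟹  `u = ε x ^ b f ^ n`, `ε ∈ Cˣ`;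
* `ufd_node_pow'` : with `s b = 1 + m n` :  `u ^ s = ε ^ s · x · (x ^ m f ^ s) ^ n`;
* **`node_normal_form`** (N34 vocabulary, at a regular node `𝔪` of a chart `B` — the conclusion of
  `NodeRegAt10.NodeRegAt`): `u ∈ O1ˣ`, `(ε₀ π ^ b)⁻¹ u ∈ O2ˣ`, `n ∣ ord_v u` for all places, and
  `s b = 1 + m n`  ⟹  `u ^ s d = x h ^ n a` with `a d ∈ B ∖ 𝔪`, `h ≠ 0`.
-/
import Mathlib
import Fermat.Agent.ES.N34.NodalSmooth13
import Fermat.Agent.ES.P36.NodeParam10
import Fermat.Agent.RED.CORE.LocalStep15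
import Fermat.Agent.RED.CORE.PrimePlace15

set_option autoImplicit false
set_option linter.unusedSectionVars false
set_option linter.style.haveILetI false

namespace Fermat.Agent.M43.NodeNF7

open AlgebraicCurve Fermat.Agent.RED.CORE Fermat.Agent.RED.CORE.UnitPow15
  Fermat.Agent.RED.CORE.PrimePlace15 Fermat.Agent.ES.N34.NodalCore13
  Fermat.Agent.ES.N34.NodalSmooth13

section Abstract

variable {C : Type*} [CommRing C] [IsDomain C] {F : Type*} [Field F] [Algebra C F]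
  [IsFractionRing C F]

theorem isPUnit_one {p : C} (hp : Prime p) : IsPUnit F p (1 : F) := by
  have := isPUnit_algebraMap (F := F) (p := p) (c := 1) hp.not_dvd_one hp.not_dvd_one
  rwa [map_one] at this

theorem isPUnit_pow {p : C} (hp : Prime p) {w : F} (hw : IsPUnit F p w) (k : ℕ) :
    IsPUnit F p (w ^ k) := by
  induction k with
  | zero => rw [pow_zero]; exact isPUnit_one hp
  | succ k ih => rw [pow_succ]; exact ih.mul hp hw

theorem isPUnit_zpow {p : C} (hp : Prime p) {w : F} (hw : IsPUnit F p w) (b : ℤ) :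
    IsPUnit F p (w ^ b) := by
  rcases b with k | k
  · rw [Int.ofNat_eq_natCast, zpow_natCast]
    exact isPUnit_pow hp hw k
  · rw [zpow_negSucc]
    exact (isPUnit_pow hp hw (k + 1)).inv

theorem isPUnit_of_associated {p p' : C} (h : Associated p' p) {w : F} (hw : IsPUnit F p w) :
    IsPUnit F p' w := by
  obtain ⟨a, b, ha, hb, hab⟩ := hw
  exact ⟨a, b, fun h' => ha (h.symm.dvd.trans h'), fun h' => hb (h.symm.dvd.trans h'), hab⟩

variable [UniqueFactorizationMonoid C] (K : Type*) [Field K] [Algebra K F]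

/-- **Factorisation at a node** (two vertical primes `x`, `y`; `u` has `x`-order `b`). -/
theorem ufd_node_pow {x y : C} (hx : Prime x) (hy : Prime y) (hyx : ¬ y ∣ x)
    (d₀ : C) (hd₀ : ∀ p : C, Prime p → p ∣ d₀ → Associated p x ∨ Associated p y)
    (hK : ∀ a : K, ∃ (c : C) (k : ℕ), algebraMap K F a * algebraMap C F d₀ ^ k = algebraMap C F c)
    (n : ℕ) (hn : n ≠ 0) (u : F) (hu : u ≠ 0) (b : ℤ)
    (Uy : IsPUnit F y u) (Ux : IsPUnit F x (u / algebraMap C F x ^ b))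
    (U2 : ∀ v : Place K F, (n : ℤ) ∣ v.ord u) :
    ∃ (ε : Cˣ) (f : F), f ≠ 0 ∧
      u = algebraMap C F (ε : C) * algebraMap C F x ^ b * f ^ n := by
  have hxF : algebraMap C F x ≠ 0 := by
    rw [Ne, map_eq_zero_iff _ (FaithfulSMul.algebraMap_injective C F)]
    exact hx.ne_zero
  have hxb : algebraMap C F x ^ b ≠ 0 := zpow_ne_zero _ hxF
  have hU0 : u / algebraMap C F x ^ b ≠ 0 := div_ne_zero hu hxb
  obtain ⟨ε, f, hf0, hεf⟩ := exists_unit_mul_pow (C := C) n hn (u / algebraMap C F x ^ b) hU0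
    (fun p hp => by
      by_cases hpx : Associated p x
      · exact ⟨1, one_ne_zero, by rw [one_pow, div_one]; exact isPUnit_of_associated hpx Ux⟩
      by_cases hpy : Associated p y
      · refine ⟨1, one_ne_zero, ?_⟩
        rw [one_pow, div_one, div_eq_mul_inv]
        have h1 : IsPUnit F y (algebraMap C F x) := isPUnit_algebraMap hyx hy.not_dvd_one
        exact isPUnit_of_associated hpy (Uy.mul hy (isPUnit_zpow hy h1 b).inv)
      · have hpd : ¬ p ∣ d₀ := fun h => (hd₀ p hp h).elim hpx hpy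
        have hKp : ∀ a : K, algebraMap K F a ∈ primeVS F p hp := by
          intro a
          obtain ⟨c, k, hc⟩ := hK a
          exact ⟨c, d₀ ^ k, fun h => hpd (hp.dvd_of_dvd_pow h), by rw [map_pow]; exact hc⟩
        have hpx' : ¬ p ∣ x := fun h => hpx ((hp.dvd_prime_iff_associated hx).mp h)
        have h1 : IsPUnit F p (algebraMap C F x) := isPUnit_algebraMap hpx' hp.not_dvd_one
        have h2 : (primePlace hp K hKp).ord (algebraMap C F x) = 0 := ord_of_isPUnit hp hKp h1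
        refine exists_isPUnit_div_pow_of_dvd_ord hp hKp _ hU0 n ?_
        rw [div_eq_mul_inv, (primePlace hp K hKp).ord_mul hu (inv_ne_zero hxb),
          (primePlace hp K hKp).ord_inv, (primePlace hp K hKp).ord_zpow, h2, mul_zero, neg_zero,
          add_zero]
        exact U2 _)
  refine ⟨ε, f, hf0, ?_⟩
  rw [div_eq_iff hxb] at hεf
  rw [hεf]
  ring

/-- the same with the exponent `s`, `s b = 1 + m n`: `u ^ s = ε ^ s · x · (x ^ m f ^ s) ^ n`. -/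
theorem ufd_node_pow' {x y : C} (hx : Prime x) (hy : Prime y) (hyx : ¬ y ∣ x)
    (d₀ : C) (hd₀ : ∀ p : C, Prime p → p ∣ d₀ → Associated p x ∨ Associated p y)
    (hK : ∀ a : K, ∃ (c : C) (k : ℕ), algebraMap K F a * algebraMap C F d₀ ^ k = algebraMap C F c)
    (n : ℕ) (hn : n ≠ 0) (u : F) (hu : u ≠ 0) (b : ℤ)
    (Uy : IsPUnit F y u) (Ux : IsPUnit F x (u / algebraMap C F x ^ b))
    (U2 : ∀ v : Place K F, (n : ℤ) ∣ v.ord u) (s : ℕ) (m : ℤ) (hs : (s : ℤ) * b = 1 + m * n) :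
    ∃ (ε : Cˣ) (h : F), h ≠ 0 ∧
      u ^ s = algebraMap C F (ε : C) * algebraMap C F x * h ^ n := by
  obtain ⟨ε, f, hf0, hεf⟩ := ufd_node_pow K hx hy hyx d₀ hd₀ hK n hn u hu b Uy Ux U2
  have hxF : algebraMap C F x ≠ 0 := by
    rw [Ne, map_eq_zero_iff _ (FaithfulSMul.algebraMap_injective C F)]
    exact hx.ne_zero
  refine ⟨ε ^ s, algebraMap C F x ^ m * f ^ s, mul_ne_zero (zpow_ne_zero _ hxF)
    (pow_ne_zero _ hf0), ?_⟩
  have h1 : (algebraMap C F x ^ b) ^ s = algebraMap C F x * (algebraMap C F x ^ m) ^ n := by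
    rw [← zpow_natCast, ← zpow_mul, mul_comm b, hs, zpow_add₀ hxF, zpow_one, zpow_mul,
      zpow_natCast]
  rw [hεf, mul_pow, mul_pow, h1, Units.val_pow_eq_pow_val, map_pow, mul_pow, ← pow_mul,
    ← pow_mul, mul_comm s n]
  ring

end Abstract

section Node

variable {R K F : Type*} [CommRing R] [Field K] [Field F] [Algebra R K] [Algebra K F]
  [Algebra R F] [IsScalarTower R K F]

/-- units of `B_𝔪` are quotients of elements of `B ∖ 𝔪`. -/
theorem exists_frac_of_isUnit (B : Subalgebra R F) (𝔪 : Ideal B) [h𝔪 : 𝔪.IsPrime]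
    (z : ↥(locSub B 𝔪)) (hz : IsUnit z) :
    ∃ a d : B, a ∉ 𝔪 ∧ d ∉ 𝔪 ∧ (z : F) * (d : F) = (a : F) := by
  obtain ⟨a, d, hd, had⟩ := z.2
  refine ⟨a, d, fun ha => ?_, hd, had⟩
  have h1 : algebraMap ↥B ↥(locSub B 𝔪) a = z * algebraMap ↥B ↥(locSub B 𝔪) d :=
    Subtype.ext had.symm
  have h2 : IsUnit (algebraMap ↥B ↥(locSub B 𝔪) a) := by
    rw [h1]
    exact hz.mul ((IsLocalization.AtPrime.isUnit_to_map_iff ↥(locSub B 𝔪) 𝔪 d).mpr hd)
  exact not_isUnit_of_mem B 𝔪 ha h2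

/-- **The NODE normal form** at a regular node `𝔪` of the chart `B` (the hypotheses on `x y e` are
the conclusion of `NodeRegAt10.NodeRegAt` at `𝔪`). -/
theorem node_normal_form (π : R) (B : Subalgebra R F) (O1 O2 : ValuationSubring F)
    (noethB : IsNoetherianRing B) (fracR : IsFractionRing R K)
    (dvrR : ∀ r : R, r ≠ 0 → ∃ (k : ℕ) (v : Rˣ), r = π ^ k * v)
    (frac : ∀ x : F, ∃ a ∈ B, ∃ b ∈ B, b ≠ 0 ∧ x * b = a)
    (pi_nonunit1 : (algebraMap R F π)⁻¹ ∉ O1) (pi_nonunit2 : (algebraMap R F π)⁻¹ ∉ O2)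
    (unif1 : ∀ x ∈ O1, x⁻¹ ∉ O1 → ∃ c ∈ O1, x = algebraMap R F π * c)
    (unif2 : ∀ x ∈ O2, x⁻¹ ∉ O2 → ∃ c ∈ O2, x = algebraMap R F π * c)
    (𝔪 : Ideal B) [h𝔪 : 𝔪.IsPrime]
    (x y e : B) (hxy : x * y = algebraMap R B π * e) (he : e ∉ 𝔪)
    (hC1 : ∀ c ∈ locSub B 𝔪, c ∈ O1) (hC2 : ∀ c ∈ locSub B 𝔪, c ∈ O2)
    (hmax : IsLocalRing.maximalIdeal ↥(locSub B 𝔪) =
      Ideal.span {algebraMap ↥B ↥(locSub B 𝔪) x, algebraMap ↥B ↥(locSub B 𝔪) y})
    (hx : Prime (algebraMap ↥B ↥(locSub B 𝔪) x)) (hy : Prime (algebraMap ↥B ↥(locSub B 𝔪) y))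
    (hxy' : ¬ algebraMap ↥B ↥(locSub B 𝔪) x ∣ algebraMap ↥B ↥(locSub B 𝔪) y)
    (hyx' : ¬ algebraMap ↥B ↥(locSub B 𝔪) y ∣ algebraMap ↥B ↥(locSub B 𝔪) x)
    (hO2 : ∀ c : ↥(locSub B 𝔪), (∃ o ∈ O2, (c : F) = algebraMap R F π * o) ↔
      algebraMap ↥B ↥(locSub B 𝔪) x ∣ c)
    (hO1 : ∀ c : ↥(locSub B 𝔪), (∃ o ∈ O1, (c : F) = algebraMap R F π * o) ↔
      algebraMap ↥B ↥(locSub B 𝔪) y ∣ c)
    (n : ℕ) (hn : n ≠ 0) (u : F) (hu0 : u ≠ 0) (hu1 : u ∈ O1) (hu1' : u⁻¹ ∈ O1)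
    (ε₀ : Rˣ) (b : ℤ)
    (hu2 : (algebraMap R F (ε₀ : R) * algebraMap R F π ^ b)⁻¹ * u ∈ O2)
    (hu2' : ((algebraMap R F (ε₀ : R) * algebraMap R F π ^ b)⁻¹ * u)⁻¹ ∈ O2)
    (U2 : ∀ v : Place K F, (n : ℤ) ∣ v.ord u) (s : ℕ) (m : ℤ) (hs : (s : ℤ) * b = 1 + m * n) :
    ∃ (h : F) (a d : B), h ≠ 0 ∧ a ∉ 𝔪 ∧ d ∉ 𝔪 ∧
      u ^ s * (d : F) = (x : F) * h ^ n * (a : F) := by
  classical
  haveI : IsFractionRing R K := fracR
  haveI hnoethC : IsNoetherianRing ↥(locSub B 𝔪) :=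
    IsLocalization.isNoetherianRing 𝔪.primeCompl _ noethB
  haveI hfracC : IsFractionRing ↥(locSub B 𝔪) F := by
    refine IsFractionRing.of_field ↥(locSub B 𝔪) F fun z => ?_
    obtain ⟨a, ha, b, hb, hb0, hab⟩ := frac z
    refine ⟨⟨a, le_locSub B 𝔪 ha⟩, ⟨b, le_locSub B 𝔪 hb⟩, ?_⟩
    show z = a / b
    rw [eq_div_iff hb0, hab]
  haveI hufd : UniqueFactorizationMonoid ↥(locSub B 𝔪) :=
    Fermat.Agent.ES.P36.NodeParam10.ufd hx hmax
  have hπ0 : algebraMap R F π ≠ 0 := by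
    intro h0
    apply pi_nonunit1
    rw [h0, inv_zero]
    exact O1.zero_mem
  have hxF : (x : F) ≠ 0 := by
    intro h0
    apply hx.ne_zero
    exact Subtype.ext h0
  have hyF : (y : F) ≠ 0 := by
    intro h0
    apply hy.ne_zero
    exact Subtype.ext h0
  have heF : (e : F) ≠ 0 := coe_ne_zero_of_notMem B 𝔪 he
  have hxyF : (x : F) * (y : F) = algebraMap R F π * (e : F) := by
    have := congrArg (fun z : ↥B => (z : F)) hxy
    simpa using this
  have heu : IsUnit (algebraMap ↥B ↥(locSub B 𝔪) e) :=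
    (IsLocalization.AtPrime.isUnit_to_map_iff ↥(locSub B 𝔪) 𝔪 e).mpr he
  -- the two Gauss rings are the local rings of the two vertical primes
  have hO1eq : O1 = primeVS F (algebraMap ↥B ↥(locSub B 𝔪) y) hy := by
    refine LocalStep15.eq_primeVS hy O1 (fun c => hC1 _ c.2) (fun c hc => ?_) ?_
    · by_contra hcon
      obtain ⟨o, ho, hco⟩ := unif1 _ (hC1 _ c.2) hcon
      exact hc ((hO1 c).mp ⟨o, ho, hco⟩)
    · intro hcon
      obtain ⟨o, ho, hyo⟩ := (hO1 (algebraMap ↥B ↥(locSub B 𝔪) y)).mpr (dvd_refl _)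
      have hyo' : (y : F) = algebraMap R F π * o := hyo
      apply pi_nonunit1
      have : (algebraMap R F π)⁻¹ = o * (y : F)⁻¹ := by
        rw [hyo'] at hyF ⊢
        have ho0 : o ≠ 0 := right_ne_zero_of_mul hyF
        field_simp
      rw [this]
      exact O1.mul_mem _ _ ho hcon
  have hO2eq : O2 = primeVS F (algebraMap ↥B ↥(locSub B 𝔪) x) hx := by
    refine LocalStep15.eq_primeVS hx O2 (fun c => hC2 _ c.2) (fun c hc => ?_) ?_
    · by_contra hcon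
      obtain ⟨o, ho, hco⟩ := unif2 _ (hC2 _ c.2) hcon
      exact hc ((hO2 c).mp ⟨o, ho, hco⟩)
    · intro hcon
      obtain ⟨o, ho, hxo⟩ := (hO2 (algebraMap ↥B ↥(locSub B 𝔪) x)).mpr (dvd_refl _)
      have hxo' : (x : F) = algebraMap R F π * o := hxo
      apply pi_nonunit2
      have : (algebraMap R F π)⁻¹ = o * (x : F)⁻¹ := by
        rw [hxo'] at hxF ⊢
        have ho0 : o ≠ 0 := right_ne_zero_of_mul hxF
        field_simp
      rw [this]
      exact O2.mul_mem _ _ ho hcon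
  -- (U1) at `y`
  have Uy : IsPUnit F (algebraMap ↥B ↥(locSub B 𝔪) y) u := by
    refine (isPUnit_iff_mem_and_inv_mem hy hu0).mpr ⟨?_, ?_⟩
    · rw [← hO1eq]; exact hu1
    · rw [← hO1eq]; exact hu1'
  -- (U1) at `x`
  have hε₀F : algebraMap R F (ε₀ : R) ≠ 0 := by
    intro h0
    have h1 : algebraMap R F (ε₀ : R) * algebraMap R F ((ε₀⁻¹ : Rˣ) : R) = 1 := by
      rw [← map_mul, Units.mul_inv, map_one]
    rw [h0, zero_mul] at h1
    exact zero_ne_one h1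
  have hc₂ : algebraMap R F (ε₀ : R) * algebraMap R F π ^ b ≠ 0 :=
    mul_ne_zero hε₀F (zpow_ne_zero _ hπ0)
  have hw0 : (algebraMap R F (ε₀ : R) * algebraMap R F π ^ b)⁻¹ * u ≠ 0 :=
    mul_ne_zero (inv_ne_zero hc₂) hu0
  have Uw : IsPUnit F (algebraMap ↥B ↥(locSub B 𝔪) x)
      ((algebraMap R F (ε₀ : R) * algebraMap R F π ^ b)⁻¹ * u) := by
    refine (isPUnit_iff_mem_and_inv_mem hx hw0).mpr ⟨?_, ?_⟩
    · rw [← hO2eq]; exact hu2
    · rw [← hO2eq]; exact hu2'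
  have hunit_not_dvd : ∀ {p z : ↥(locSub B 𝔪)}, Prime p → IsUnit z → ¬ p ∣ z :=
    fun hp hz h => hp.not_isUnit (isUnit_of_dvd_unit h hz)
  have Ux : IsPUnit F (algebraMap ↥B ↥(locSub B 𝔪) x)
      (u / algebraMap ↥(locSub B 𝔪) F (algebraMap ↥B ↥(locSub B 𝔪) x) ^ b) := by
    have hε₀C : IsUnit (algebraMap R ↥(locSub B 𝔪) (ε₀ : R)) := (ε₀.isUnit).map _
    have h1 : IsPUnit F (algebraMap ↥B ↥(locSub B 𝔪) x)
        (algebraMap ↥(locSub B 𝔪) F (algebraMap R ↥(locSub B 𝔪) (ε₀ : R))) :=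
      isPUnit_algebraMap (hunit_not_dvd hx hε₀C) hx.not_dvd_one
    have h2 : IsPUnit F (algebraMap ↥B ↥(locSub B 𝔪) x)
        (algebraMap ↥(locSub B 𝔪) F (algebraMap ↥B ↥(locSub B 𝔪) y)) :=
      isPUnit_algebraMap hxy' hx.not_dvd_one
    have h3 : IsPUnit F (algebraMap ↥B ↥(locSub B 𝔪) x)
        (algebraMap ↥(locSub B 𝔪) F (algebraMap ↥B ↥(locSub B 𝔪) e)) :=
      isPUnit_algebraMap (hunit_not_dvd hx heu) hx.not_dvd_one
    have h4 := (h1.mul hx (isPUnit_zpow hx (h2.mul hx h3.inv) b)).mul hx Uw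
    have e1 : u / algebraMap ↥(locSub B 𝔪) F (algebraMap ↥B ↥(locSub B 𝔪) x) ^ b =
        algebraMap ↥(locSub B 𝔪) F (algebraMap R ↥(locSub B 𝔪) (ε₀ : R)) *
          (algebraMap ↥(locSub B 𝔪) F (algebraMap ↥B ↥(locSub B 𝔪) y) *
            (algebraMap ↥(locSub B 𝔪) F (algebraMap ↥B ↥(locSub B 𝔪) e))⁻¹) ^ b *
          ((algebraMap R F (ε₀ : R) * algebraMap R F π ^ b)⁻¹ * u) := by
      show u / (x : F) ^ b = algebraMap R F (ε₀ : R) * ((y : F) * (e : F)⁻¹) ^ b *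
          ((algebraMap R F (ε₀ : R) * algebraMap R F π ^ b)⁻¹ * u)
      have hπ : algebraMap R F π = (x : F) * ((y : F) * (e : F)⁻¹) := by
        field_simp
        rw [hxyF]
      have hye : (y : F) * (e : F)⁻¹ ≠ 0 := mul_ne_zero hyF (inv_ne_zero heF)
      have hxb : (x : F) ^ b ≠ 0 := zpow_ne_zero _ hxF
      have hyeb : ((y : F) * (e : F)⁻¹) ^ b ≠ 0 := zpow_ne_zero _ hye
      have hπb : algebraMap R F π ^ b = (x : F) ^ b * ((y : F) * (e : F)⁻¹) ^ b := by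
        rw [hπ, mul_zpow]
      rw [hπb, div_eq_iff hxb]
      generalize (x : F) ^ b = X at hxb ⊢
      generalize ((y : F) * (e : F)⁻¹) ^ b = Y at hyeb ⊢
      field_simp
    rw [e1]
    exact h4
  -- vertical primes
  have hd₀ : ∀ p : ↥(locSub B 𝔪), Prime p → p ∣ algebraMap R ↥(locSub B 𝔪) π →
      Associated p (algebraMap ↥B ↥(locSub B 𝔪) x) ∨
        Associated p (algebraMap ↥B ↥(locSub B 𝔪) y) := by
    intro p hp hpd
    have h1 : algebraMap ↥B ↥(locSub B 𝔪) x * algebraMap ↥B ↥(locSub B 𝔪) y =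
        algebraMap R ↥(locSub B 𝔪) π * algebraMap ↥B ↥(locSub B 𝔪) e := by
      apply Subtype.ext
      exact hxyF
    have h2 : p ∣ algebraMap ↥B ↥(locSub B 𝔪) x * algebraMap ↥B ↥(locSub B 𝔪) y := by
      rw [h1]
      exact Dvd.dvd.mul_right hpd _
    rcases hp.dvd_or_dvd h2 with h | h
    · exact Or.inl ((hp.dvd_prime_iff_associated hx).mp h)
    · exact Or.inr ((hp.dvd_prime_iff_associated hy).mp h)
  have hK : ∀ a : K, ∃ (c : ↥(locSub B 𝔪)) (k : ℕ),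
      algebraMap K F a * algebraMap ↥(locSub B 𝔪) F (algebraMap R ↥(locSub B 𝔪) π) ^ k =
        algebraMap ↥(locSub B 𝔪) F c :=
    fun a => LocalStep15.hK_of_dvr (C := ↥(locSub B 𝔪)) π dvrR a
  obtain ⟨ε, h, hh0, hεh⟩ := ufd_node_pow' K hx hy hyx' (algebraMap R ↥(locSub B 𝔪) π) hd₀ hK n hn
    u hu0 b Uy Ux U2 s m hs
  obtain ⟨a, d, ha, hd, had⟩ := exists_frac_of_isUnit B 𝔪 (ε : ↥(locSub B 𝔪)) ε.isUnit
  refine ⟨h, a, d, hh0, ha, hd, ?_⟩
  have hεh' : u ^ s = ((ε : ↥(locSub B 𝔪)) : F) * (x : F) * h ^ n := hεh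
  rw [hεh', ← had]
  ring

end Node

end Fermat.Agent.M43.NodeNF7
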