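/-
M43, chapter (LN) (helper7): **wiring the node normal form over the inertial field `K₀` to the
node datum `KNode9.KNodeDatum` over a ramified `K ⊇ K₀`.**

Two levels: `(R₀, F₀, π₀, B₀, O1₀, O2₀)` (inertial: regular nodes of thickness one) and
`(R, F, π, B, O1, O2)` with a ring hom `ι : F₀ → F`, `ι B₀ ⊆ B`, `ι Oj₀ ⊆ Oj`,
`ι π₀ = π ^ (n T) η` (`η ∈ Rˣ`) and the GST corollary `B = ι B₀ + π B`.

* `comap_isMaximal` : `𝔪₀ = 𝔪 ∩ B₀` is maximal; `pi_mem_comap`; `not_offBranch_comap`;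
* `kNodeDatum_of_base` : node data `x₀ y₀ = π₀ e₀` at `𝔪₀` + the normal form
  `u₀ ^ s d₀ = x₀ h ^ n a₀` + a Kummer generator `ϑ ^ n = ι u₀`, `δ ϑ = ζ ϑ`
  ⟹ `Nonempty (KNodeDatum π B O1 O2 𝔪 δ n)`.
-/
import Mathlib
import Fermat.Agent.M43.KNode9
import Fermat.Agent.M43.NodeNF7
import Fermat.Agent.ES.P36.NodeRegAt10

set_option autoImplicit false
set_option linter.unusedSectionVars false
set_option linter.unusedVariables false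
set_option linter.style.haveILetI false

namespace Fermat.Agent.M43.NodeWire7

open Fermat.Agent.M43.KNode9 Fermat.Agent.ES.N34.NodalCore13 Fermat.Agent.ES.N34.NodalSmooth13

section Wire

variable {R₀ F₀ R F F' : Type*} [CommRing R₀] [Field F₀] [Algebra R₀ F₀]
  [CommRing R] [Field F] [Field F'] [Algebra R F] [Algebra F F'] [Algebra R F']
  [IsScalarTower R F F']
  (ι : F₀ →+* F) (B₀ : Subalgebra R₀ F₀) (B : Subalgebra R F)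
  (hιB : ∀ f ∈ B₀, ι f ∈ B)

/-- the restriction `B₀ → B` of `ι`. -/
def jB : ↥B₀ →+* ↥B :=
  (ι.comp B₀.toSubring.subtype).codRestrict B.toSubring (fun f => hιB f f.2)

@[simp] theorem coe_jB (f : ↥B₀) : ((jB ι B₀ B hιB f : ↥B) : F) = ι (f : F₀) := rfl

variable (π₀ : R₀) (π : R)
  (gst : ∀ z ∈ B, ∃ φ₀ ∈ B₀, ∃ w ∈ B, z = ι φ₀ + algebraMap R F π * w)

include gst in
/-- **`𝔪 ∩ B₀` is maximal** (GST: `B₀ → B ⧸ 𝔪` is onto when `π ∈ 𝔪`). -/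
theorem comap_isMaximal (𝔪 : Ideal ↥B) [h𝔪 : 𝔪.IsMaximal] (hπ𝔪 : algebraMap R ↥B π ∈ 𝔪) :
    (𝔪.comap (jB ι B₀ B hιB)).IsMaximal := by
  have hsurj : Function.Surjective ((Ideal.Quotient.mk 𝔪).comp (jB ι B₀ B hιB)) := by
    intro z
    obtain ⟨z, rfl⟩ := Ideal.Quotient.mk_surjective z
    obtain ⟨φ₀, hφ₀, w, hw, hz⟩ := gst z z.2
    refine ⟨⟨φ₀, hφ₀⟩, ?_⟩
    rw [RingHom.comp_apply, Ideal.Quotient.eq]
    have h1 : jB ι B₀ B hιB ⟨φ₀, hφ₀⟩ - z = -(algebraMap R ↥B π * ⟨w, hw⟩) := by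
      apply Subtype.ext
      show ι φ₀ - (z : F) = -(algebraMap R F π * w)
      rw [hz]
      ring
    rw [h1]
    exact 𝔪.neg_mem (𝔪.mul_mem_right _ hπ𝔪)
  haveI : (⊥ : Ideal (↥B ⧸ 𝔪)).IsMaximal := (Ideal.bot_quotient_isMaximal_iff 𝔪).mpr h𝔪
  have h2 := Ideal.comap_isMaximal_of_surjective _ hsurj (K := (⊥ : Ideal (↥B ⧸ 𝔪)))
  rwa [← Ideal.comap_comap, ← RingHom.ker_eq_comap_bot, Ideal.mk_ker] at h2

variable (O1₀ O2₀ : ValuationSubring F₀) (O1 O2 : ValuationSubring F)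
  (n T : ℕ) (η : Rˣ)
  (hπ : ι (algebraMap R₀ F₀ π₀) = algebraMap R F π ^ (n * T) * algebraMap R F (η : R))

include hπ in
/-- `π₀ ∈ 𝔪 ∩ B₀`. -/
theorem pi_mem_comap (hnT : 0 < n * T) (𝔪 : Ideal ↥B) (hπ𝔪 : algebraMap R ↥B π ∈ 𝔪) :
    algebraMap R₀ ↥B₀ π₀ ∈ 𝔪.comap (jB ι B₀ B hιB) := by
  rw [Ideal.mem_comap]
  have h1 : jB ι B₀ B hιB (algebraMap R₀ ↥B₀ π₀) =
      algebraMap R ↥B π ^ (n * T) * algebraMap R ↥B (η : R) := by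
    apply Subtype.ext
    exact hπ
  rw [h1]
  exact 𝔪.mul_mem_right _ (Ideal.pow_mem_of_mem _ hπ𝔪 _ hnT)

include hπ in
/-- `OffBranch` below gives `OffBranch` above. -/
theorem offBranch_of_comap (hnT : 0 < n * T) (leO : ∀ x ∈ B, x ∈ O1)
    (hιO : ∀ f ∈ O1₀, ι f ∈ O1) (𝔪 : Ideal ↥B)
    (h : OffBranch π₀ B₀ O1₀ (𝔪.comap (jB ι B₀ B hιB))) : OffBranch π B O1 𝔪 := by
  obtain ⟨e₀, he₀, c₀, hc₀, hec⟩ := h
  obtain ⟨k, hk⟩ : ∃ k, n * T = k + 1 := ⟨n * T - 1, by omega⟩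
  refine ⟨jB ι B₀ B hιB e₀, fun hh => he₀ (Ideal.mem_comap.mpr hh),
    algebraMap R F π ^ k * algebraMap R F (η : R) * ι c₀, ?_, ?_⟩
  · exact O1.mul_mem _ _ (O1.mul_mem _ _ (pow_mem (leO _ (B.algebraMap_mem π)) k)
      (leO _ (B.algebraMap_mem _))) (hιO _ hc₀)
  · rw [coe_jB, hec, map_mul, hπ, hk, pow_succ]
    ring

include hπ gst in
/-- **the node datum over `K` from the node normal form over `K₀`.** -/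
theorem kNodeDatum_of_base (hn : 0 < n) (hT : 0 < T)
    (leO1 : ∀ x ∈ B, x ∈ O1) (leO2 : ∀ x ∈ B, x ∈ O2)
    (hιO1 : ∀ f ∈ O1₀, ι f ∈ O1) (hιO2 : ∀ f ∈ O2₀, ι f ∈ O2)
    (𝔪 : Ideal ↥B) [h𝔪 : 𝔪.IsPrime] (hπ𝔪 : algebraMap R ↥B π ∈ 𝔪)
    (x₀ y₀ e₀ : ↥B₀) (hxy₀ : x₀ * y₀ = algebraMap R₀ ↥B₀ π₀ * e₀)
    (he₀ : e₀ ∉ 𝔪.comap (jB ι B₀ B hιB))
    (hx₀𝔪 : x₀ ∈ 𝔪.comap (jB ι B₀ B hιB)) (hy₀𝔪 : y₀ ∈ 𝔪.comap (jB ι B₀ B hιB))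
    (hspan₀ : ∀ f ∈ 𝔪.comap (jB ι B₀ B hιB), ∃ d : ↥B₀, d ∉ 𝔪.comap (jB ι B₀ B hιB) ∧
      ∃ b c : ↥B₀, d * f = b * x₀ + c * y₀)
    (hx₀O2 : ∃ o ∈ O2₀, (x₀ : F₀) = algebraMap R₀ F₀ π₀ * o)
    (hy₀O1 : ∃ o ∈ O1₀, (y₀ : F₀) = algebraMap R₀ F₀ π₀ * o)
    (u₀ : F₀) (s : ℕ) (h : F₀) (a₀ d₀ : ↥B₀) (hh : h ≠ 0)
    (ha₀ : a₀ ∉ 𝔪.comap (jB ι B₀ B hιB)) (hd₀ : d₀ ∉ 𝔪.comap (jB ι B₀ B hιB))
    (hnf : u₀ ^ s * (d₀ : F₀) = (x₀ : F₀) * h ^ n * (a₀ : F₀))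
    (δ : F' →+* F') (ϑ : F') (hϑ : ϑ ^ n = algebraMap F F' (ι u₀)) (ζ : R)
    (hζ : IsPrimitiveRoot (algebraMap R F' ζ) n)
    (hδϑ : δ ϑ = algebraMap R F' ζ * ϑ)
    (hδF : ∀ f : F, δ (algebraMap F F' f) = algebraMap F F' f) (hs : Nat.Coprime s n) :
    Nonempty (KNodeDatum (F' := F') π B O1 O2 𝔪 δ n) := by
  classical
  set j := jB ι B₀ B hιB with hj
  have hnT : 0 < n * T := Nat.mul_pos hn hT
  obtain ⟨k, hk⟩ : ∃ k, n * T = k + 1 := ⟨n * T - 1, by omega⟩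
  have hπB1 : algebraMap R F π ∈ O1 := leO1 _ (B.algebraMap_mem π)
  have hηB1 : algebraMap R F (η : R) ∈ O1 := leO1 _ (B.algebraMap_mem _)
  have hηB2 : algebraMap R F (η : R) ∈ O2 := leO2 _ (B.algebraMap_mem _)
  have h1𝔪 : (1 : ↥B) ∉ 𝔪 := fun h1 => h𝔪.ne_top ((Ideal.eq_top_iff_one 𝔪).mpr h1)
  have hηu : IsUnit (algebraMap R ↥B (η : R)) := η.isUnit.map _
  have hη𝔪 : algebraMap R ↥B (η : R) ∉ 𝔪 := fun hh' =>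
    h𝔪.ne_top (Ideal.eq_top_of_isUnit_mem _ hh' hηu)
  have hd₀F : (d₀ : F₀) ≠ 0 := by
    intro h0
    apply hd₀
    have : d₀ = 0 := Subtype.ext h0
    rw [this]
    exact Ideal.zero_mem _
  have hιd₀ : ι (d₀ : F₀) ≠ 0 := (map_ne_zero ι).mpr hd₀F
  have hιh : ι h ≠ 0 := (map_ne_zero ι).mpr hh
  -- decomposition of the elements of `𝔪`
  have hdec : ∀ f ∈ 𝔪, ∃ d b c : ↥B₀, d ∉ 𝔪.comap j ∧ ∃ w ∈ B,
      ι (d : F₀) * (f : F) =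
        ι (b : F₀) * ι (x₀ : F₀) + ι (c : F₀) * ι (y₀ : F₀) + algebraMap R F π * (ι (d : F₀) * w) := by
    intro f hf
    obtain ⟨φ₀, hφ₀, w, hw, hz⟩ := gst f f.2
    have hφ𝔪 : (⟨φ₀, hφ₀⟩ : ↥B₀) ∈ 𝔪.comap j := by
      rw [Ideal.mem_comap]
      have h1 : j ⟨φ₀, hφ₀⟩ = f - algebraMap R ↥B π * ⟨w, hw⟩ := by
        apply Subtype.ext
        show ι φ₀ = (f : F) - algebraMap R F π * w
        rw [hz]
        ring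
      rw [h1]
      exact 𝔪.sub_mem hf (𝔪.mul_mem_right _ hπ𝔪)
    obtain ⟨d, hd, b, c, hdbc⟩ := hspan₀ _ hφ𝔪
    refine ⟨d, b, c, hd, w, hw, ?_⟩
    have h2 : (d : F₀) * φ₀ = (b : F₀) * (x₀ : F₀) + (c : F₀) * (y₀ : F₀) := by
      have := congrArg (fun z : ↥B₀ => (z : F₀)) hdbc
      simpa using this
    have h3 := congrArg ι h2
    simp only [map_mul, map_add] at h3
    rw [hz, mul_add, h3]
    ring
  obtain ⟨o₁, ho₁, hy₀o⟩ := hy₀O1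
  obtain ⟨o₂, ho₂, hx₀o⟩ := hx₀O2
  have hιy₀ : ι (y₀ : F₀) =
      algebraMap R F π * (algebraMap R F π ^ k * algebraMap R F (η : R) * ι o₁) := by
    rw [hy₀o, map_mul, hπ, hk, pow_succ]
    ring
  refine ⟨{
    x := j x₀
    y := j y₀
    a := algebraMap R ↥B (η : R) * j e₀
    d := 1
    T := T
    ζ := ζ ^ s
    v := ϑ ^ s * (algebraMap F F' (ι h))⁻¹
    w := ι (a₀ : F₀) * (ι (d₀ : F₀))⁻¹
    a' := j a₀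
    d' := j d₀
    T_pos := hT
    x_mem := Ideal.mem_comap.mp hx₀𝔪
    y_mem := Ideal.mem_comap.mp hy₀𝔪
    a_nmem := fun hh' => (h𝔪.mem_or_mem hh').elim hη𝔪 (fun h' => he₀ (Ideal.mem_comap.mpr h'))
    d_nmem := h1𝔪
    thick := ?_
    x_O2 := ?_
    gen1 := ?_
    genxy := ?_
    ζ_prim := ?_
    δ_v := ?_
    v_pow := ?_
    a'_nmem := fun h' => ha₀ (Ideal.mem_comap.mpr h')
    d'_nmem := fun h' => hd₀ (Ideal.mem_comap.mpr h')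
    w_eq := ?_ }⟩
  · -- thick
    show ι (x₀ : F₀) * ι (y₀ : F₀) * ((1 : ↥B) : F) =
      algebraMap R F π ^ (n * T) * (algebraMap R F (η : R) * ι (e₀ : F₀))
    have h1 : (x₀ : F₀) * (y₀ : F₀) = algebraMap R₀ F₀ π₀ * (e₀ : F₀) := by
      have := congrArg (fun z : ↥B₀ => (z : F₀)) hxy₀
      simpa using this
    have h2 := congrArg ι h1
    rw [map_mul, map_mul, hπ] at h2
    rw [h2]
    simp
    ring
  · -- x_O2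
    refine ⟨algebraMap R F (η : R) * ι o₂, O2.mul_mem _ _ hηB2 (hιO2 _ ho₂), ?_⟩
    show ι (x₀ : F₀) = _
    rw [hx₀o, map_mul, hπ]
    ring
  · -- gen1
    intro f hf
    obtain ⟨d, b, c, hd, w, hw, hdec'⟩ := hdec f hf
    refine ⟨j d, fun h' => hd (Ideal.mem_comap.mpr h'), j b,
      ι (c : F₀) * (algebraMap R F π ^ k * algebraMap R F (η : R) * ι o₁) + ι (d : F₀) * w, ?_, ?_⟩
    · refine O1.add_mem _ _ (O1.mul_mem _ _ (leO1 _ (hιB _ c.2)) (O1.mul_mem _ _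
        (O1.mul_mem _ _ (pow_mem hπB1 k) hηB1) (hιO1 _ ho₁))) (O1.mul_mem _ _
        (leO1 _ (hιB _ d.2)) (leO1 _ hw))
    · show ι (d : F₀) * (f : F) - ι (b : F₀) * ι (x₀ : F₀) = _
      rw [hdec', hιy₀]
      ring
  · -- genxy
    intro f hf
    obtain ⟨d, b, c, hd, w, hw, hdec'⟩ := hdec f hf
    refine ⟨j d, fun h' => hd (Ideal.mem_comap.mpr h'), ?_⟩
    have h1 : j d * f = j b * j x₀ + j c * j y₀ + algebraMap R ↥B π * (j d * ⟨w, hw⟩) := by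
      apply Subtype.ext
      exact hdec'
    rw [h1]
    refine Ideal.add_mem _ (Ideal.add_mem _ ?_ ?_) ?_
    · exact Ideal.mul_mem_left _ _ (Ideal.subset_span (by simp))
    · exact Ideal.mul_mem_left _ _ (Ideal.subset_span (by simp))
    · exact Ideal.mul_mem_right _ _ (Ideal.subset_span (by simp))
  · -- ζ_prim
    rw [map_pow]
    exact hζ.pow_of_coprime s hs
  · -- δ_v
    rw [map_mul, map_pow, map_inv₀, hδF, hδϑ, map_pow, mul_pow]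
    ring
  · -- v_pow
    show (ϑ ^ s * (algebraMap F F' (ι h))⁻¹) ^ n =
      algebraMap F F' (ι (a₀ : F₀) * (ι (d₀ : F₀))⁻¹ * ι (x₀ : F₀))
    have h1 := congrArg ι hnf
    simp only [map_mul, map_pow] at h1
    have h2 : ι (a₀ : F₀) * (ι (d₀ : F₀))⁻¹ * ι (x₀ : F₀) = ι u₀ ^ s * (ι h ^ n)⁻¹ := by
      have hhn : ι h ^ n ≠ 0 := pow_ne_zero _ hιh
      field_simp
      linear_combination (-1 : F) * h1
    rw [h2, mul_pow, ← pow_mul, mul_comm s n, pow_mul, hϑ, map_mul, map_pow, map_inv₀, map_pow,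
      inv_pow]
  · -- w_eq
    show ι (a₀ : F₀) * (ι (d₀ : F₀))⁻¹ * ι (d₀ : F₀) = ι (a₀ : F₀)
    field_simp

end Wire

section Main

open Fermat.Agent.ES.P36.NodeRegAt10 AlgebraicCurve

variable {R₀ K₀ F₀ R F F' : Type*} [CommRing R₀] [Field K₀] [Field F₀] [Algebra R₀ K₀]
  [Algebra K₀ F₀] [Algebra R₀ F₀] [IsScalarTower R₀ K₀ F₀]
  [CommRing R] [Field F] [Field F'] [Algebra R F] [Algebra F F'] [Algebra R F']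
  [IsScalarTower R F F']

/-- **(LN), abstract two-level form**: regular nodes over the inertial level (`NodeRegAt`), the
GST corollary and the Gauss data of `u₀` give the node datum at EVERY two-branch closed point of
the chart `B` over the ramified level. -/
theorem kNodeDatum_of_nodeRegAt
    (ι : F₀ →+* F) (B₀ : Subalgebra R₀ F₀) (B : Subalgebra R F) (hιB : ∀ f ∈ B₀, ι f ∈ B)
    (π₀ : R₀) (π : R)
    (gst : ∀ z ∈ B, ∃ φ₀ ∈ B₀, ∃ w ∈ B, z = ι φ₀ + algebraMap R F π * w)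
    (O1₀ O2₀ : ValuationSubring F₀) (O1 O2 : ValuationSubring F) (n T : ℕ) (η : Rˣ)
    (hπ : ι (algebraMap R₀ F₀ π₀) = algebraMap R F π ^ (n * T) * algebraMap R F (η : R))
    (hn : 0 < n) (hT : 0 < T)
    (leO1 : ∀ x ∈ B, x ∈ O1) (leO2 : ∀ x ∈ B, x ∈ O2)
    (hιO1 : ∀ f ∈ O1₀, ι f ∈ O1) (hιO2 : ∀ f ∈ O2₀, ι f ∈ O2)
    -- the inertial level
    (noethB₀ : IsNoetherianRing B₀) (fracR₀ : IsFractionRing R₀ K₀)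
    (dvrR₀ : ∀ r : R₀, r ≠ 0 → ∃ (k : ℕ) (v : R₀ˣ), r = π₀ ^ k * v)
    (frac₀ : ∀ x : F₀, ∃ a ∈ B₀, ∃ b ∈ B₀, b ≠ 0 ∧ x * b = a)
    (pi_nonunit1 : (algebraMap R₀ F₀ π₀)⁻¹ ∉ O1₀) (pi_nonunit2 : (algebraMap R₀ F₀ π₀)⁻¹ ∉ O2₀)
    (unif1 : ∀ x ∈ O1₀, x⁻¹ ∉ O1₀ → ∃ c ∈ O1₀, x = algebraMap R₀ F₀ π₀ * c)
    (unif2 : ∀ x ∈ O2₀, x⁻¹ ∉ O2₀ → ∃ c ∈ O2₀, x = algebraMap R₀ F₀ π₀ * c)
    (hreg : NodeRegAt π₀ B₀ O1₀ O2₀)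
    -- the Kummer function
    (u₀ : F₀) (hu0 : u₀ ≠ 0) (hu1 : u₀ ∈ O1₀) (hu1' : u₀⁻¹ ∈ O1₀) (ε₀ : R₀ˣ) (b : ℤ)
    (hu2 : (algebraMap R₀ F₀ (ε₀ : R₀) * algebraMap R₀ F₀ π₀ ^ b)⁻¹ * u₀ ∈ O2₀)
    (hu2' : ((algebraMap R₀ F₀ (ε₀ : R₀) * algebraMap R₀ F₀ π₀ ^ b)⁻¹ * u₀)⁻¹ ∈ O2₀)
    (U2 : ∀ v : Place K₀ F₀, (n : ℤ) ∣ v.ord u₀) (s : ℕ) (m : ℤ)
    (hs : (s : ℤ) * b = 1 + m * n)
    (δ : F' →+* F') (ϑ : F') (hϑ : ϑ ^ n = algebraMap F F' (ι u₀)) (ζ : R)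
    (hζ : IsPrimitiveRoot (algebraMap R F' ζ) n)
    (hδϑ : δ ϑ = algebraMap R F' ζ * ϑ)
    (hδF : ∀ f : F, δ (algebraMap F F' f) = algebraMap F F' f)
    (𝔪 : Ideal ↥B) (h𝔪 : 𝔪.IsMaximal) (hπ𝔪 : algebraMap R ↥B π ∈ 𝔪)
    (h1 : ¬ OffBranch π B O1 𝔪) (h2 : ¬ OffBranch π B O2 𝔪) :
    Nonempty (KNodeDatum (F' := F') π B O1 O2 𝔪 δ n) := by
  classical
  haveI := h𝔪
  haveI h𝔪p : 𝔪.IsPrime := h𝔪.isPrime
  have hnT : 0 < n * T := Nat.mul_pos hn hT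
  have hmax₀ : (𝔪.comap (jB ι B₀ B hιB)).IsMaximal := comap_isMaximal ι B₀ B hιB π gst 𝔪 hπ𝔪
  haveI hp₀ : (𝔪.comap (jB ι B₀ B hιB)).IsPrime := hmax₀.isPrime
  have hπ₀𝔪 := pi_mem_comap ι B₀ B hιB π₀ π n T η hπ hnT 𝔪 hπ𝔪
  have h1₀ : ¬ OffBranch π₀ B₀ O1₀ (𝔪.comap (jB ι B₀ B hιB)) := fun h =>
    h1 (offBranch_of_comap ι B₀ B hιB π₀ π O1₀ O1 n T η hπ hnT leO1 hιO1 𝔪 h)
  have h2₀ : ¬ OffBranch π₀ B₀ O2₀ (𝔪.comap (jB ι B₀ B hιB)) := fun h =>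
    h2 (offBranch_of_comap ι B₀ B hιB π₀ π O2₀ O2 n T η hπ hnT leO2 hιO2 𝔪 h)
  obtain ⟨x, y, e, hxy, hC1, hC2, hmaxC, hx, hy, hxy', hyx', hO2, hO1, he⟩ :=
    hreg _ hmax₀ hπ₀𝔪 h1₀ h2₀
  have hsn : Nat.Coprime s n := by
    rw [← Nat.isCoprime_iff_coprime]
    exact ⟨b, -m, by linear_combination hs⟩
  obtain ⟨h, a, d, hh0, ha, hd, hnf⟩ := Fermat.Agent.M43.NodeNF7.node_normal_form (K := K₀)
    π₀ B₀ O1₀ O2₀ noethB₀ fracR₀ dvrR₀ frac₀ pi_nonunit1 pi_nonunit2 unif1 unif2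
    (𝔪.comap (jB ι B₀ B hιB)) x y e hxy he hC1 hC2 hmaxC hx hy hxy' hyx' hO2 hO1 n hn.ne' u₀ hu0
    hu1 hu1' ε₀ b hu2 hu2' U2 s m hs
  -- `x, y ∈ 𝔪₀`
  have hmem_of_prime : ∀ z : ↥B₀,
      Prime (algebraMap ↥B₀ ↥(locSub B₀ (𝔪.comap (jB ι B₀ B hιB))) z) →
        z ∈ 𝔪.comap (jB ι B₀ B hιB) := by
    intro z hz
    by_contra hcon
    exact hz.not_isUnit ((IsLocalization.AtPrime.isUnit_to_map_iff
      ↥(locSub B₀ (𝔪.comap (jB ι B₀ B hιB))) (𝔪.comap (jB ι B₀ B hιB)) z).mpr hcon)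
  -- spanning
  have hspan₀ : ∀ f ∈ 𝔪.comap (jB ι B₀ B hιB), ∃ d : ↥B₀, d ∉ 𝔪.comap (jB ι B₀ B hιB) ∧
      ∃ b c : ↥B₀, d * f = b * x + c * y := by
    intro f hf
    have hfm : algebraMap ↥B₀ ↥(locSub B₀ (𝔪.comap (jB ι B₀ B hιB))) f ∈
        IsLocalRing.maximalIdeal ↥(locSub B₀ (𝔪.comap (jB ι B₀ B hιB))) := by
      rw [IsLocalRing.mem_maximalIdeal, mem_nonunits_iff]
      exact not_isUnit_of_mem B₀ _ hf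
    rw [hmaxC, Ideal.mem_span_pair] at hfm
    obtain ⟨α, β, hαβ⟩ := hfm
    obtain ⟨a₁, d₁, hd₁, hα⟩ := α.2
    obtain ⟨a₂, d₂, hd₂, hβ⟩ := β.2
    refine ⟨d₁ * d₂, fun hh' => (hp₀.mem_or_mem hh').elim hd₁ hd₂, a₁ * d₂, a₂ * d₁, ?_⟩
    apply Subtype.ext
    have h3 : ((α : ↥(locSub B₀ (𝔪.comap (jB ι B₀ B hιB)))) : F₀) * (x : F₀) +
        ((β : ↥(locSub B₀ (𝔪.comap (jB ι B₀ B hιB)))) : F₀) * (y : F₀) = (f : F₀) := by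
      have := congrArg (fun z : ↥(locSub B₀ (𝔪.comap (jB ι B₀ B hιB))) => (z : F₀)) hαβ
      exact this
    show (d₁ : F₀) * (d₂ : F₀) * (f : F₀) =
      (a₁ : F₀) * (d₂ : F₀) * (x : F₀) + (a₂ : F₀) * (d₁ : F₀) * (y : F₀)
    rw [← h3, ← hα, ← hβ]
    ring
  exact kNodeDatum_of_base ι B₀ B hιB π₀ π gst O1₀ O2₀ O1 O2 n T η hπ hn hT leO1 leO2 hιO1 hιO2
    𝔪 hπ𝔪 x y e hxy he (hmem_of_prime x hx) (hmem_of_prime y hy) hspan₀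
    ((hO2 _).mpr (dvd_refl _)) ((hO1 _).mpr (dvd_refl _)) u₀ s h a d hh0 ha hd hnf δ ϑ hϑ ζ hζ hδϑ
    hδF hsn

end Main

end Fermat.Agent.M43.NodeWire7
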