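/-
M43, chapter (LN) (helper7): **the CONCRETE (LN)**: the node datum `KNode9.KNodeDatum` at every
two-branch closed point of the two charts `B0 A r ht`, `B1 A r ht` of the level-`M' r` model over
EVERY normal number field `K ∋ ζ_{M'}, r^{1/n}` (`n = p^k` the order of `ψ`), for the Kummer
function `u = ι (u_{K₀})`, `K₀ = inertiaPart A K` (`ψ₀` with values in `K₀`).

Inputs: helper4's (GST) (`BaseChMain4.gst_four`, `gst_B0_mod_pi`, `gst_B1_mod_pi`), helper8's Gauss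
data over `K₀` (`GaussDataK8`), R3 over the inertial field (`EisFinal4.nodeRegItems_four`,
`RegDone21.twoGenItems_four`), `EtaleK7.dvd_ord_uK`, and the abstract `NodeWire7`.  The Kummer
extension `F'`, its generator `ϑ` and the automorphism `δ` are parameters.
-/
import Mathlib
import Fermat.Agent.M43.NodeWire7
import Fermat.Agent.M43.EtaleK7
import Fermat.Agent.M43.GaussDataK8
import Fermat.Agent.M43.BaseChMain4
import Fermat.Agent.ES.P36.EisFinal4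
import Fermat.Agent.ES.P36.RegNode21
import Fermat.Agent.ES.P36.RegDone21

set_option autoImplicit false
set_option linter.unusedSectionVars false
set_option linter.unusedVariables false
set_option linter.style.haveILetI false
set_option synthInstance.maxHeartbeats 400000
set_option maxHeartbeats 1600000

noncomputable section

open HahnSeries ModularCurve AlgebraicCurve

namespace Fermat.Agent.M43.NodeInst7

open Fermat.Agent.RED.Interface4 Fermat.Agent.RED.PUR.GaussGen8 Fermat.Agent.RED.DESC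
  Fermat.Agent.RED.DESC.PlaceExtend27 Fermat.Agent.RED.BASE.EtaQuot12
  Fermat.Agent.ES.N34.ModelDefs9 Fermat.Agent.ES.N34.NodalCore13 Fermat.Agent.ES.N34.NumData13
  Fermat.Agent.ES.P36.InertField27 Fermat.Agent.ES.P36.ModelInert4
  Fermat.Agent.M43.BaseChInert4 Fermat.Agent.M43.BaseChField4 Fermat.Agent.M43.BaseChGauss4
  Fermat.Agent.M43.BaseChMain4 Fermat.Agent.M43.ThetaFieldK8 Fermat.Agent.M43.GaussDataK8
  Fermat.Agent.M43.KNode9 Fermat.Agent.T33.NodalHalf4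

/-- fast path for instance search. -/
local instance (priority := 5000) instAlgAKFK7 (A : ValuationSubring Qbar)
    (L : IntermediateField ℚ Qbar) (N : ℕ) : Algebra ↥(AK A L) ↥(FK N L) :=
  Algebra.ofSubsemiring (AK A L)

local instance (priority := 5000) instTowerAKFK7 (A : ValuationSubring Qbar)
    (L : IntermediateField ℚ Qbar) (N : ℕ) : IsScalarTower ↥(AK A L) ↥L ↥(FK N L) :=
  Fermat.Agent.RED.NumInst4.isScalarTower_OE (AK A L) (FK N L)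

section Arith

/-- the exponent `s` with `s b ≡ 1 mod n`. -/
theorem exists_exponent {p : ℕ} (hp : p.Prime) (k : ℕ) (b : ℤ) (hpb : ¬ (p : ℤ) ∣ b) :
    ∃ (s : ℕ) (m : ℤ), (s : ℤ) * b = 1 + m * ((p ^ k : ℕ) : ℤ) := by
  have hcop : IsCoprime b ((p ^ k : ℕ) : ℤ) := by
    push_cast
    apply IsCoprime.pow_right
    rw [isCoprime_comm]
    exact (Prime.coprime_iff_not_dvd (Nat.prime_iff_prime_int.mp hp)).mpr hpb
  obtain ⟨x, y, hxy⟩ := hcop
  have hn : (0 : ℤ) < ((p ^ k : ℕ) : ℤ) := by exact_mod_cast pow_pos hp.pos k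
  refine ⟨(x % ((p ^ k : ℕ) : ℤ)).toNat, -y - (x / ((p ^ k : ℕ) : ℤ)) * b, ?_⟩
  rw [Int.toNat_of_nonneg (Int.emod_nonneg _ hn.ne')]
  have h1 := Int.emod_add_mul_ediv x ((p ^ k : ℕ) : ℤ)
  linear_combination hxy + b * h1

variable {A : ValuationSubring Qbar} {K : IntermediateField ℚ Qbar}

/-- `r = π ^ (n T) η` in `A ∩ K` as soon as `r` is an `n`-th power in `K`. -/
theorem exists_T [FiniteDimensional ℚ K] {r : ℕ} (hr : r ≠ 0) (hA : A.LiesOverPrime r) (π : ↥(AK A K))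
    (hπ : IsUnif (AK A K) π) (n : ℕ) (hn : 0 < n) (ρ : ↥K) (hρ : ρ ^ n = (r : ↥K)) :
    ∃ (T : ℕ) (η : (↥(AK A K))ˣ), 0 < T ∧ ((r : ℕ) : ↥(AK A K)) = π ^ (n * T) * (η : ↥(AK A K)) := by
  haveI hdvr : IsDiscreteValuationRing ↥(AK A K) :=
    NumberFieldDVR27.isDiscreteValuationRing_AK A K hr hA
  have hirr : Irreducible π := (IsDiscreteValuationRing.irreducible_iff_uniformizer π).mpr hπ.max_eq
  have hρmem : ρ ∈ AK A K := by
    apply vs_root (AK A K) n hn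
    rw [hρ]
    exact (Nat.cast r : ↥(AK A K)).2
  have hr0 : (r : ↥K) ≠ 0 := Nat.cast_ne_zero.mpr hr
  have hρ0 : (⟨ρ, hρmem⟩ : ↥(AK A K)) ≠ 0 := by
    intro h0
    have : ρ = 0 := congrArg Subtype.val h0
    rw [this, zero_pow hn.ne'] at hρ
    exact hr0 hρ.symm
  obtain ⟨T, u, hu⟩ := IsDiscreteValuationRing.eq_unit_mul_pow_irreducible hρ0 hirr
  have hrpow : ((r : ℕ) : ↥(AK A K)) = (⟨ρ, hρmem⟩ : ↥(AK A K)) ^ n := by
    apply Subtype.ext
    show ((r : ℕ) : ↥K) = ρ ^ n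
    rw [hρ]
  refine ⟨T, u ^ n, ?_, ?_⟩
  · rcases Nat.eq_zero_or_pos T with hT0 | hT
    · exfalso
      rw [hT0, pow_zero, mul_one] at hu
      have h1 : IsUnit ((r : ℕ) : ↥(AK A K)) := by
        rw [hrpow, hu]
        exact (u.isUnit).pow n
      have h2 := NumberFieldDVR27.natCast_mem_maximalIdeal A K hA
      rw [IsLocalRing.mem_maximalIdeal, mem_nonunits_iff] at h2
      exact h2 h1
    · exact hT
  · rw [hrpow, hu, mul_pow, ← pow_mul, Units.val_pow_eq_pow_val, mul_comm T n]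
    ring

end Arith

section Main

variable {A : ValuationSubring Qbar} {r M' : ℕ} [NeZero M'] [NeZero r] [Fact r.Prime]

/-- **(LN), concrete**: the node datum at every two-branch closed point of both charts of the
level-`M' r` model over `K`. -/
theorem kNodeDatum_charts (h : LevelHyp r M' A)
    (K : IntermediateField ℚ Qbar) [Normal ℚ K] [FiniteDimensional ℚ K]
    (hζM : Fermat.Agent.X0.zetaK M' ∈ K)
    {ψ₀ : MulChar (ZMod r) ↥(inertiaPart A K)} (heven : ψ₀ (-1) = 1)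
    {p : ℕ} (hp : p.Prime) (k : ℕ) (hk : 1 ≤ k) (hord : orderOf ψ₀ = p ^ k)
    (hn : ψ₀ ^ (p ^ k) = 1)
    (π : ↥(AK A K)) (hπ : IsUnif (AK A K) π) (hE : FK (M' * r) K ≤ fracField (AK A K))
    (ht : tq ↥K 4 8 ∈ FK M' K)
    (MK : NodalTwoChartModel ↥(AK A K) ↥(FK (M' * r) K) π (tN r ht) (B0 A r ht) (B1 A r ht)
      (O1 M' r hπ hE) (O2 M' r hπ hE))
    (ρ : ↥K) (hρ : ρ ^ (p ^ k) = (r : ↥K))
    {F' : Type*} [Field F'] [Algebra ↥(FK (M' * r) K) F'] [Algebra ↥(AK A K) F']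
    [IsScalarTower ↥(AK A K) ↥(FK (M' * r) K) F']
    (δ : F' →+* F') (ϑ : F')
    (hϑ : ϑ ^ (p ^ k) = algebraMap ↥(FK (M' * r) K) F'
      (iotaK (inertiaPart_le K) (M' * r) (uK M' heven hn)))
    (ζ : ↥(AK A K)) (hζ : IsPrimitiveRoot (algebraMap ↥(AK A K) F' ζ) (p ^ k))
    (hδϑ : δ ϑ = algebraMap ↥(AK A K) F' ζ * ϑ)
    (hδF : ∀ f : ↥(FK (M' * r) K),
      δ (algebraMap ↥(FK (M' * r) K) F' f) = algebraMap ↥(FK (M' * r) K) F' f) :
    (∀ 𝔪 : Ideal ↥(B0 A r ht), 𝔪.IsMaximal → algebraMap ↥(AK A K) ↥(B0 A r ht) π ∈ 𝔪 →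
      ¬ OffBranch π (B0 A r ht) (O1 M' r hπ hE) 𝔪 →
      ¬ OffBranch π (B0 A r ht) (O2 M' r hπ hE) 𝔪 →
        Nonempty (KNodeDatum (F' := F') π (B0 A r ht) (O1 M' r hπ hE) (O2 M' r hπ hE) 𝔪 δ
          (p ^ k))) ∧
    (∀ 𝔪 : Ideal ↥(B1 A r ht), 𝔪.IsMaximal → algebraMap ↥(AK A K) ↥(B1 A r ht) π ∈ 𝔪 →
      ¬ OffBranch π (B1 A r ht) (O1 M' r hπ hE) 𝔪 →
      ¬ OffBranch π (B1 A r ht) (O2 M' r hπ hE) 𝔪 →
        Nonempty (KNodeDatum (F' := F') π (B1 A r ht) (O1 M' r hπ hE) (O2 M' r hπ hE) 𝔪 δ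
          (p ^ k))) := by
  classical
  have hr : r.Prime := h.prime
  obtain ⟨hin, fd₀, hζ₀, ht₀, hE₀, hπ₀, M₀, -⟩ :=
    gst_four h.prime h.ne_two h.not_dvd h.four_dvd h.liesOver K hζM
  haveI := fd₀
  obtain ⟨e, D⟩ := inertData A K h.prime h.liesOver π hπ
  -- R3 over the inertial field
  have hKfix : ∀ τ ∈ A.inertiaSubgroupIn ℚ, ∀ x ∈ inertiaPart A K, τ x = x :=
    fun τ hτ x hx => (mem_inertiaPart.mp hx).2 τ hτ
  have hF := frobInvAt_of_isInertial hin h.prime h.liesOver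
  have hnode := Fermat.Agent.ES.P36.EisFinal4.nodeRegItems_four h.prime h.ne_two h.not_dvd
    h.four_dvd h.liesOver hin hζ₀
    (Fermat.Agent.ES.P36.RegNode21.twoGenItems10_of
      (Fermat.Agent.ES.P36.RegDone21.twoGenItems_four h.prime h.ne_two h.not_dvd h.four_dvd
        h.liesOver hζ₀ hF hKfix))
  obtain ⟨hreg0, hreg1⟩ := hnode ht₀ hE₀ _ hπ₀
  -- `T`, `η`
  have hn0 : 0 < p ^ k := pow_pos hp.pos k
  obtain ⟨T, η, hT, hrT⟩ := exists_T hr.ne_zero h.liesOver π hπ (p ^ k) hn0 ρ hρ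
  -- the Gauss data of `u₀`
  have hu0 : uK M' heven hn ≠ 0 := by
    intro h0
    have h1 := baseChangeHom_uK M' heven hn
    rw [h0, map_zero] at h1
    exact Fermat.Agent.M43.IgusaSlope8.uTheta_ne_zero h (psiBar_even heven) (psiBar_pow hn) h1.symm
  have hu1 := uK_mem_O1 h hπ₀ hE₀ heven hn
  have hu1' := uK_inv_mem_O1 h hπ₀ hE₀ heven hn
  obtain ⟨ε, b, hε0, hεA, hεA', hpb, hu2, hu2'⟩ :=
    exists_const_O2' h hπ₀ hE₀ heven hp k hk hord hn
  let ε₀ : (↥(AK A (inertiaPart A K)))ˣ :=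
    ⟨⟨ε, hεA⟩, ⟨ε⁻¹, hεA'⟩, Subtype.ext (mul_inv_cancel₀ hε0), Subtype.ext (inv_mul_cancel₀ hε0)⟩
  have hconst : algebraMap ↥(inertiaPart A K) ↥(FK (M' * r) (inertiaPart A K))
      (ε * (r : ↥(inertiaPart A K)) ^ b) =
      algebraMap ↥(AK A (inertiaPart A K)) ↥(FK (M' * r) (inertiaPart A K))
        ((ε₀ : ↥(AK A (inertiaPart A K)))) *
      algebraMap ↥(AK A (inertiaPart A K)) ↥(FK (M' * r) (inertiaPart A K))
        ((r : ℕ) : ↥(AK A (inertiaPart A K))) ^ b := by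
    rw [map_mul, map_zpow₀, map_natCast, map_natCast]
    rfl
  rw [map_inv₀, hconst] at hu2 hu2'
  obtain ⟨s, m, hs⟩ := exists_exponent hp k b hpb
  have U2 : ∀ v : Place ↥(inertiaPart A K) ↥(FK (M' * r) (inertiaPart A K)),
      ((p ^ k : ℕ) : ℤ) ∣ v.ord (uK M' heven hn) := fun v =>
    Fermat.Agent.M43.EtaleK7.dvd_ord_uK (inertiaPart A K) M' h.four_dvd heven hn0.ne' hn v
  have hπι : iotaK (inertiaPart_le K) (M' * r)
      (algebraMap ↥(AK A (inertiaPart A K)) ↥(FK (M' * r) (inertiaPart A K))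
        ((r : ℕ) : ↥(AK A (inertiaPart A K)))) =
      algebraMap ↥(AK A K) ↥(FK (M' * r) K) π ^ (p ^ k * T) *
        algebraMap ↥(AK A K) ↥(FK (M' * r) K) (η : ↥(AK A K)) := by
    rw [map_natCast, map_natCast, ← map_pow, ← map_mul, ← hrT, map_natCast]
  refine ⟨fun 𝔪 h𝔪 hπ𝔪 h1 h2 => ?_, fun 𝔪 h𝔪 hπ𝔪 h1 h2 => ?_⟩
  · exact Fermat.Agent.M43.NodeWire7.kNodeDatum_of_nodeRegAt (K₀ := ↥(inertiaPart A K))
      (iotaK (inertiaPart_le K) (M' * r)) (B0 A r ht₀) (B0 A r ht)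
      (fun f hf => iotaK_mem_B0 ht₀ ht hf) ((r : ℕ) : ↥(AK A (inertiaPart A K))) π
      (fun z hz => gst_B0_mod_pi D hπ₀ hE₀ hπ hE ht₀ ht M₀ MK hz)
      (O1 M' r hπ₀ hE₀) (O2 M' r hπ₀ hE₀) (O1 M' r hπ hE) (O2 M' r hπ hE) (p ^ k) T η hπι hn0 hT
      MK.le_O1_0 MK.le_O2_0
      (fun f hf => iotaK_mem_O1 (inertiaPart_le K) M' r hπ₀ hE₀ hπ hE hf)
      (fun f hf => iotaK_mem_O2 (inertiaPart_le K) M' r hπ₀ hE₀ hπ hE hf)
      M₀.noeth0 M₀.fracR M₀.dvrR M₀.frac0 M₀.model.pi_nonunit1 M₀.model.pi_nonunit2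
      M₀.model.unif1 M₀.model.unif2 hreg0
      (uK M' heven hn) hu0 hu1 hu1' ε₀ b hu2 hu2' U2 s m hs δ ϑ hϑ ζ hζ hδϑ hδF 𝔪 h𝔪 hπ𝔪 h1 h2
  · exact Fermat.Agent.M43.NodeWire7.kNodeDatum_of_nodeRegAt (K₀ := ↥(inertiaPart A K))
      (iotaK (inertiaPart_le K) (M' * r)) (B1 A r ht₀) (B1 A r ht)
      (fun f hf => iotaK_mem_B1 ht₀ ht hf) ((r : ℕ) : ↥(AK A (inertiaPart A K))) π
      (fun z hz => gst_B1_mod_pi D hπ₀ hE₀ hπ hE ht₀ ht M₀ MK hz)
      (O1 M' r hπ₀ hE₀) (O2 M' r hπ₀ hE₀) (O1 M' r hπ hE) (O2 M' r hπ hE) (p ^ k) T η hπι hn0 hT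
      MK.le_O1_1 MK.le_O2_1
      (fun f hf => iotaK_mem_O1 (inertiaPart_le K) M' r hπ₀ hE₀ hπ hE hf)
      (fun f hf => iotaK_mem_O2 (inertiaPart_le K) M' r hπ₀ hE₀ hπ hE hf)
      M₀.noeth1 M₀.fracR M₀.dvrR M₀.frac1 M₀.model.pi_nonunit1 M₀.model.pi_nonunit2
      M₀.model.unif1 M₀.model.unif2 hreg1
      (uK M' heven hn) hu0 hu1 hu1' ε₀ b hu2 hu2' U2 s m hs δ ϑ hϑ ζ hζ hδϑ hδF 𝔪 h𝔪 hπ𝔪 h1 h2

end Main

section Compat

open Fermat.Agent.M43.EisPsiInf6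

variable {r M' : ℕ} [NeZero M'] [NeZero r] [Fact r.Prime]

/-- `Θ` commutes with the extension of the coefficient field. -/
theorem coeffMap_thetaInfK_inclK {K₀ K : IntermediateField ℚ Qbar} (hle : K₀ ≤ K)
    (ψ₀ : MulChar (ZMod r) ↥K₀) :
    coeffMap (inclK hle) (thetaInfK K₀ ψ₀) = thetaInfK K (ψ₀.ringHomComp (inclK hle)) := by
  rw [thetaInfK, thetaInfK, Fermat.Agent.X0.coeffMap_laurentOf, map_mul, map_Apsi,
    Fermat.Agent.IG.AN.DeltaAffine11.map_etaUInv]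

/-- **`u_K = ι (u_{K₀})`**: the Kummer function commutes with the extension of the coefficient
field (`ψ_K := ψ₀.ringHomComp (inclK hle)`). -/
theorem iotaK_uK {K₀ K : IntermediateField ℚ Qbar} (hle : K₀ ≤ K)
    {ψ₀ : MulChar (ZMod r) ↥K₀} (heven : ψ₀ (-1) = 1) {n : ℕ} (hn : ψ₀ ^ n = 1)
    (heven' : (ψ₀.ringHomComp (inclK hle)) (-1) = 1)
    (hn' : (ψ₀.ringHomComp (inclK hle)) ^ n = 1) :
    iotaK hle (M' * r) (uK M' heven hn) = uK M' heven' hn' := by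
  apply iotaK_eq_of_coe
  rw [coe_uK, coe_uK, map_pow, coeffMap_thetaInfK_inclK]

end Compat

end Fermat.Agent.M43.NodeInst7
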