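/-
M43, chapter (LN) (helper7): **`MixEnd1.LNLarge` is a theorem** — the node normal forms (LN0), (LN1)
over all large finite normal `K ⊂ ℚ̄`, the last named input of helper1's `MixEnd1.spine_concrete`.

Pure instantiation of `NodeInst7.kNodeDatum_charts`:
* `K₂` := a number field containing `ζ_{M'}`, a `p^k`-th root of `r` (`LargeK8.exists_K1`) and the
  field of `LGqDown9.exists_down` (the nodal two-chart model of level `M' r` over every larger `K`);
* `ψ` (of order `p^k ∣ r - 1`, so prime to `r`) has values fixed by the inertia group at `A | r`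
  (`ZetaUnr26.inertia_fixes_rootOfUnity`), so `ψ = ψ₀.ringHomComp (inclK _)` with `ψ₀` valued in
  `inertiaPart A K` (`exists_psi_inert`);
* the Kummer part is `F' = FH M' ψ`, `ϑ = thetaK M' ψ`, `δ = deltaK` (`ThetaDeltaK8`), and
  `u_K = ι (u_{K₀})` (`NodeInst7.iotaK_uK`).
-/
import Mathlib
import Fermat.Agent.M43.NodeInst7
import Fermat.Agent.M43.MixEnd1
import Fermat.Agent.M43.LargeK8
import Fermat.Agent.M43.LGqDown9
import Fermat.Agent.ES.P36.ZetaUnr26

set_option autoImplicit false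
set_option linter.unusedSectionVars false
set_option linter.style.haveILetI false
set_option linter.unusedVariables false
set_option synthInstance.maxHeartbeats 400000
set_option maxHeartbeats 1600000

open ModularCurve AlgebraicCurve Polynomial

noncomputable section

namespace Fermat.Agent.M43.LNLarge7

open Fermat.Agent.X0 Fermat.Agent.RED.Interface4 Fermat.Agent.RED.DESC
open Fermat.Agent.RED.DESC.NumberFieldDVR27
open Fermat.Agent.RED.PUR.GaussGen8 Fermat.Agent.RED.PUR.ChartGeneric22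
open Fermat.Agent.ES.RED Fermat.Agent.ES.N34.ModelDefs9 Fermat.Agent.ES.N34.ModelInput13
open Fermat.Agent.ES.N34.NodalCore13 Fermat.Agent.ES.N34.NodalCL13 Fermat.Agent.ES.N34.NumData13
open Fermat.Agent.M43.KLift9 Fermat.Agent.M43.KNode9
open Fermat.Agent.M43.KummerAdj8 Fermat.Agent.M43.KummerGal8
open Fermat.Agent.M43.ThetaFieldK8 Fermat.Agent.M43.ThetaDeltaK8 Fermat.Agent.M43.GaussDataK8
open Fermat.Agent.T33.NodalHalf4 Fermat.Agent.RED.BASE.EtaQuot12
open Fermat.Agent.ES.P36.InertField27 Fermat.Agent.M43.BaseChField4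
open Fermat.Agent.M43.MixEnd1

section PsiDown

variable {A : ValuationSubring Qbar} {r : ℕ} [NeZero r] [Fact r.Prime]
variable {K : IntermediateField ℚ Qbar}

/-- the values of a character of order prime to `r` are fixed by the inertia group at `A | r`. -/
theorem psi_coe_mem (hr : r.Prime) (hA : A.LiesOverPrime r) (ψ : MulChar (ZMod r) ↥K) {n : ℕ}
    (hn : ψ ^ n = 1) (hnr : ¬ r ∣ n) (a : ZMod r) :
    ((ψ a : ↥K) : Qbar) ∈ inertiaPart A K := by
  rw [mem_inertiaPart]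
  refine ⟨(ψ a).2, fun τ hτ => ?_⟩
  have hn0 : n ≠ 0 := fun h0 => hnr (h0 ▸ dvd_zero r)
  by_cases ha : IsUnit a
  · have h1 : ψ a ^ n = 1 := by
      rw [← MulChar.pow_apply' ψ hn0 a, hn, MulChar.one_apply ha]
    have h2 : ((ψ a : ↥K) : Qbar) ^ n = 1 := by
      have := congrArg (algebraMap ↥K Qbar) h1
      rwa [map_pow, map_one] at this
    exact Fermat.Agent.ES.P36.ZetaUnr26.inertia_fixes_rootOfUnity hr hA hnr h2 hτ
  · rw [ψ.map_nonunit ha]
    simp

/-- the character with values in the inertial subfield. -/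
def psiInert (ψ : MulChar (ZMod r) ↥K) (hmem : ∀ a, ((ψ a : ↥K) : Qbar) ∈ inertiaPart A K) :
    MulChar (ZMod r) ↥(inertiaPart A K) :=
  { toFun := fun a => ⟨((ψ a : ↥K) : Qbar), hmem a⟩
    map_one' := Subtype.ext (by simp)
    map_mul' := fun a b => Subtype.ext (by simp)
    map_nonunit' := fun a ha => Subtype.ext (by simp [ψ.map_nonunit ha]) }

theorem psiInert_comp (ψ : MulChar (ZMod r) ↥K)
    (hmem : ∀ a, ((ψ a : ↥K) : Qbar) ∈ inertiaPart A K) :
    (psiInert ψ hmem).ringHomComp (inclK (inertiaPart_le K)) = ψ := by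
  apply MulChar.ext'
  intro a
  apply Subtype.ext
  rfl

theorem inclK_injective {K₀ K : IntermediateField ℚ Qbar} (hle : K₀ ≤ K) :
    Function.Injective (inclK hle) := (inclK hle).injective

/-- **descent of `ψ` to the inertial subfield** (`ψ^n = 1`, `r ∤ n`). -/
theorem exists_psi_inert (hr : r.Prime) (hA : A.LiesOverPrime r) (ψ : MulChar (ZMod r) ↥K) {n : ℕ}
    (hn : ψ ^ n = 1) (hnr : ¬ r ∣ n) :
    ∃ ψ₀ : MulChar (ZMod r) ↥(inertiaPart A K),
      ψ₀.ringHomComp (inclK (inertiaPart_le K)) = ψ ∧ ψ₀ ^ n = 1 ∧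
      (ψ (-1) = 1 → ψ₀ (-1) = 1) ∧ orderOf ψ₀ = orderOf ψ := by
  have hmem := psi_coe_mem hr hA ψ hn hnr
  have hinj := MulChar.injective_ringHomComp (R := ZMod r)
    (inclK_injective (inertiaPart_le (A := A) K))
  refine ⟨psiInert ψ hmem, psiInert_comp ψ hmem, ?_, ?_, ?_⟩
  · apply hinj
    show (psiInert ψ hmem ^ n).ringHomComp _ = (1 : MulChar (ZMod r) _).ringHomComp _
    rw [← MulChar.ringHomComp_pow, psiInert_comp, hn, MulChar.ringHomComp_one]
  · intro h1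
    apply Subtype.ext
    show ((ψ (-1) : ↥K) : Qbar) = _
    rw [h1]
    rfl
  · let f : MulChar (ZMod r) ↥(inertiaPart A K) →* MulChar (ZMod r) ↥K :=
      MulChar.ringHomCompHom (inclK (inertiaPart_le K))
    have := orderOf_injective f hinj (psiInert ψ hmem)
    rw [← this]
    show orderOf ((psiInert ψ hmem).ringHomComp _) = _
    rw [psiInert_comp]

/-- the order `p^k` of a character of `(ℤ/r)ˣ` is prime to `r`. -/
theorem not_dvd_order (ψ : MulChar (ZMod r) ↥K) {n : ℕ} (hord : orderOf ψ = n) : ¬ r ∣ n := by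
  have hr : r.Prime := Fact.out
  have h1 : orderOf ψ ∣ Fintype.card (ZMod r) - 1 := MulChar.orderOf_dvd_card_sub_one (χ := ψ)
  rw [ZMod.card, hord] at h1
  intro h2
  have h3 : r ∣ r - 1 := h2.trans h1
  have h4 := hr.two_le
  have h5 := Nat.le_of_dvd (by omega) h3
  omega

end PsiDown

section Main

variable {A : ValuationSubring Qbar} {r M' : ℕ} [NeZero M'] [NeZero r] [Fact r.Prime]

/-- (LN0) ∧ (LN1) over one `K` with a model, `ζ_{M'}` and `r^{1/p^k}`. -/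
theorem ln_of_model (h : LevelHyp r M' A)
    (K : IntermediateField ℚ Qbar) [Normal ℚ ↥K] [FiniteDimensional ℚ ↥K]
    (hζM : zetaK M' ∈ K) {p : ℕ} (hp : p.Prime) (hp2 : p ≠ 2) (k : ℕ) (hk : 1 ≤ k)
    (π : ↥(AK A K)) (hπ : IsUnif (AK A K) π) (hE : FK (M' * r) K ≤ fracField (AK A K))
    (ht : tq ↥K 4 8 ∈ FK M' K)
    (MK : NodalTwoChartModel ↥(AK A K) ↥(FK (M' * r) K) π (tN r ht) (B0 A r ht) (B1 A r ht)
      (O1 M' r hπ hE) (O2 M' r hπ hE))
    (ρ : ↥K) (hρ : ρ ^ (p ^ k) = (r : ↥K))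
    (ψ : MulChar (ZMod r) ↥K) (heven : ψ (-1) = 1) (hord : orderOf ψ = p ^ k)
    (hn : ψ ^ (p ^ k) = 1) (ζ : ↥K) (hζ : IsPrimitiveRoot ζ (p ^ k)) :
    (∀ 𝔪 : Ideal ↥(B0 A r ht), 𝔪.IsMaximal → algebraMap ↥(AK A K) ↥(B0 A r ht) π ∈ 𝔪 →
      ¬ OffBranch π (B0 A r ht) (O1 M' r hπ hE) 𝔪 →
      ¬ OffBranch π (B0 A r ht) (O2 M' r hπ hE) 𝔪 →
        Nonempty (KNodeDatum (F' := ↥(FH M' ψ)) π (B0 A r ht) (O1 M' r hπ hE) (O2 M' r hπ hE) 𝔪
          (deltaK M' (irreducible_uK M' h heven hp hp2 k hk hord hn) ζ hζ.pow_eq_one :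
            ↥(FH M' ψ) →+* ↥(FH M' ψ)) (p ^ k))) ∧
    (∀ 𝔪 : Ideal ↥(B1 A r ht), 𝔪.IsMaximal → algebraMap ↥(AK A K) ↥(B1 A r ht) π ∈ 𝔪 →
      ¬ OffBranch π (B1 A r ht) (O1 M' r hπ hE) 𝔪 →
      ¬ OffBranch π (B1 A r ht) (O2 M' r hπ hE) 𝔪 →
        Nonempty (KNodeDatum (F' := ↥(FH M' ψ)) π (B1 A r ht) (O1 M' r hπ hE) (O2 M' r hπ hE) 𝔪
          (deltaK M' (irreducible_uK M' h heven hp hp2 k hk hord hn) ζ hζ.pow_eq_one :
            ↥(FH M' ψ) →+* ↥(FH M' ψ)) (p ^ k))) := by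
  have hnr := not_dvd_order ψ hord
  obtain ⟨ψ₀, hψ, hn₀, heven₀, hord₀⟩ := exists_psi_inert h.prime h.liesOver ψ hn hnr
  subst hψ
  have heven₀' := heven₀ heven
  have hirr := irreducible_uK M' h heven hp hp2 k hk hord hn
  have hϑ : thetaK M' (ψ₀.ringHomComp (inclK (inertiaPart_le K))) ^ (p ^ k) =
      algebraMap ↥(FK (M' * r) K) ↥(FH M' (ψ₀.ringHomComp (inclK (inertiaPart_le K))))
        (iotaK (inertiaPart_le K) (M' * r) (uK M' heven₀' hn₀)) := by
    rw [Fermat.Agent.M43.NodeInst7.iotaK_uK (inertiaPart_le K) heven₀' hn₀ heven hn]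
    exact thetaK_pow M'
  have hζmem : ζ ∈ AK A K := by
    apply vs_root (AK A K) (p ^ k) (pow_pos hp.pos k)
    rw [hζ.pow_eq_one]
    exact (AK A K).one_mem
  have hζR : IsPrimitiveRoot (algebraMap ↥(AK A K)
      ↥(FH M' (ψ₀.ringHomComp (inclK (inertiaPart_le K)))) ⟨ζ, hζmem⟩) (p ^ k) :=
    hζ.map_of_injective
      (algebraMap ↥K ↥(FH M' (ψ₀.ringHomComp (inclK (inertiaPart_le K))))).injective
  exact Fermat.Agent.M43.NodeInst7.kNodeDatum_charts h K hζM heven₀' hp k hk (hord₀.trans hord) hn₀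
    π hπ hE ht MK ρ hρ
    (F' := ↥(FH M' (ψ₀.ringHomComp (inclK (inertiaPart_le K)))))
    (deltaK M' hirr ζ hζ.pow_eq_one :
      ↥(FH M' (ψ₀.ringHomComp (inclK (inertiaPart_le K)))) →+*
        ↥(FH M' (ψ₀.ringHomComp (inclK (inertiaPart_le K)))))
    (thetaK M' (ψ₀.ringHomComp (inclK (inertiaPart_le K)))) hϑ ⟨ζ, hζmem⟩ hζR
    (deltaK_theta' M' hirr ζ hζ.pow_eq_one)
    (deltaK_algebraMap M' hirr ζ hζ.pow_eq_one)

/-- **`MixEnd1.LNLarge` holds.** -/
theorem lnLarge (r M' : ℕ) [NeZero M'] [NeZero r] [Fact r.Prime] (A : ValuationSubring Qbar)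
    (p k : ℕ) : LNLarge r M' A p k := by
  intro h hp hp2 hpr hk
  have hpk : p ^ k ≠ 0 := (pow_pos hp.pos k).ne'
  obtain ⟨K₁, hK₁, h1⟩ := Fermat.Agent.M43.LargeK8.exists_K1 r M' (p ^ k) hpk
  obtain ⟨K₀, hK₀, h0⟩ := Fermat.Agent.M43.LGqDown9.exists_down r M' A h.prime h.not_dvd h.ne_two
    h.four_dvd h.liesOver
  haveI := hK₁
  haveI := hK₀
  refine ⟨K₁ ⊔ K₀, inferInstance,
    fun K _ _ hle ht hE π hπ ψ heven hord hn ζ hζ => ?_⟩
  obtain ⟨-, -, ⟨ρ, hρ⟩, hζM⟩ := h1 K (le_sup_left.trans hle)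
  obtain ⟨ht', hE', hall⟩ := h0 K inferInstance (le_sup_right.trans hle)
  have MK : NodalTwoChartModel ↥(AK A K) ↥(FK (M' * r) K) π (tN r ht) (B0 A r ht) (B1 A r ht)
      (O1 M' r hπ hE) (O2 M' r hπ hE) := ((hall π hπ).1).model
  exact ln_of_model h K hζM hp hp2 k hk π hπ hE ht MK ρ hρ ψ heven hord hn ζ hζ

end Main

end Fermat.Agent.M43.LNLarge7
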