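/-
Programme M43, chapter (LG-q), Stage 1, block [S1-G concrete] (lead, for helper4's `NormConc*4`):
**the Kummer generator `Θ = thetaInf ψ` lives on `X₁(M' r)` and the diamond operators act on it
through `ψ⁻¹`.**

* `coe_eq_coeffMap_of_realMer_eq` : series identification for an arbitrary analytic model
  (`DictIface4.AnModel`);
* `thetaH`, `compSLHom_thetaH` (`θ_ψ ∘ σ = ψ(σ₀₀) θ_ψ`, `σ ∈ Γ₀(M)`, `r ∣ M`), `thetaH_mem_algA`
  (`θ_ψ ∈ 𝒜(Γ₁(M))`), `exists_realMer_eq_thetaH`, `exists_FKC_thetaInf`;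
* **(E1) `thetaInf_mem_FK1`** : `thetaInf ψ ∈ J1Defs8.FK ℚbar (M' * r) 1`;
* `diaC_theta` : over `ℂ`, `f ↦ f ∘ σ` multiplies the realisation of `θ_ψ` by `ψ(σ₀₀)`;
* **(E5) `diamond_thetaInf`** : for every diamond automorphism `δ` of `FK ℚbar (M' * r) 1` at `d`:
  `δ Θ = ψ⁻¹(d mod r) · Θ`.
-/
import Mathlib
import Fermat.Agent.M43.FieldBridge8
import Fermat.Agent.M48.DiamondAut5
import Fermat.Agent.M48.G10Model4

set_option autoImplicit false
set_option linter.unusedSectionVars false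
set_option linter.style.haveILetI false
set_option linter.unusedVariables false
set_option synthInstance.maxHeartbeats 400000

open UpperHalfPlane hiding I
open ModularCurve AlgebraicCurve CongruenceSubgroup
open scoped MatrixGroups

noncomputable section

namespace Fermat.Agent.M43.ThetaDia0

open Fermat.Agent.X0 Fermat.Agent.X0.Analytic Fermat.Agent.X0.SurjPoint
open Fermat.Agent.ES.KUM
open Fermat.Agent.M48.FullLevelGen6
open Fermat.Agent.M48.DictIface4 Fermat.Agent.M48.AnReal4 Fermat.Agent.M48.AnRatio4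
open Fermat.Agent.M48.DiamondAut5 Fermat.Agent.M48.J1Defs8
open Fermat.Agent.M43.EisPsi6 Fermat.Agent.M43.EisPsiInf6 Fermat.Agent.M43.ThetaAlgA8
open Fermat.Agent.M43.FieldBridge8

/-! ### series identification for an arbitrary analytic model -/

section Model

variable {Γ : Subgroup SL(2, ℤ)} {N : ℕ} {F₀ : IntermediateField ℚ (LaurentSeries ℚ)}
  (A : AnModel Γ N F₀) [NeZero N]

/-- **Series identification**: `f ∈ F` realised by the holomorphic function `U` whose `q`-expansion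
is `X`. -/
theorem coe_eq_coeffMap_of_realMer_eq {K : Type} [Field K] (ι : K →+* ℂ)
    (f : A.F) (U : HolH) (X : LaurentSeries K)
    (hf : realMer A f = algebraMap HolH MerH U) (hX : Rel ι 1 X (U : ℍ → ℂ)) :
    ((f : A.F) : LaurentSeries ℂ) = coeffMap ι X := by
  obtain ⟨a, s, hs, rfl⟩ := exists_div_ne_zero A f
  have hs' : A.Θ s ≠ 0 := fun h => hs (Θ_injective A (h.trans (map_zero _).symm))
  have hsM : algebraMap HolH MerH (A.Θ s) ≠ 0 := fun h =>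
    hs' ((IsFractionRing.injective HolH MerH) (h.trans (map_zero _).symm))
  rw [map_div₀, Fermat.Agent.M48.AnReal4.realMer_coe A, Fermat.Agent.M48.AnReal4.realMer_coe A, div_eq_iff hsM, ← map_mul] at hf
  have hf' : A.Θ a = U * A.Θ s := IsFractionRing.injective HolH MerH hf
  obtain ⟨m, P, hP, e1⟩ := hX
  obtain ⟨ma, Pa, hPa, ea⟩ := (A.qexp a).exists_isQExp
  obtain ⟨ms, Ps, hPs, es⟩ := (A.qexp s).exists_isQExp
  have h1 : IsQExp 1 (((U * A.Θ s : HolH)) : ℍ → ℂ) (m + ms) (P * Ps) := hP.mul hPs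
  rw [← hf'] at h1
  have h2 := hPa.unique h1
  rw [laurentOf_mul, ← ea, ← es, e1] at h2
  have hs0 : (((s : A.R) : A.F) : LaurentSeries ℂ) ≠ 0 := fun h => hs (Subtype.ext (Subtype.ext h))
  have h3 : (((((a : A.R) : A.F) / ((s : A.R) : A.F) : A.F)) : LaurentSeries ℂ) =
      (((a : A.R) : A.F) : LaurentSeries ℂ) / (((s : A.R) : A.F) : LaurentSeries ℂ) := rfl
  rw [h3, h2, mul_div_assoc, div_self hs0, mul_one]

end Model

/-! ### `θ_ψ` in the algebra `𝒜(Γ₁(M))`, `r ∣ M` -/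

section Theta

variable {K : Type} [Field K] (ι : K →+* ℂ) {r : ℕ} [Fact r.Prime]

/-- `θ_ψ` as a holomorphic function. -/
def thetaH (ψ : MulChar (ZMod r) K) : HolH := ⟨thetaAn ι ψ, thetaAn_mem_HolH ι ψ⟩

@[simp] theorem coe_thetaH (ψ : MulChar (ZMod r) K) :
    ((thetaH ι ψ : HolH) : ℍ → ℂ) = thetaAn ι ψ := rfl

theorem intCast_zmod_eq_of_dvd {r M : ℕ} (h : r ∣ M) {x y : ℤ}
    (hxy : (x : ZMod M) = (y : ZMod M)) : (x : ZMod r) = (y : ZMod r) := by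
  rw [ZMod.intCast_eq_intCast_iff_dvd_sub] at hxy ⊢
  exact (Int.natCast_dvd_natCast.2 h).trans hxy

theorem Gamma0_le_of_dvd {r M : ℕ} (h : r ∣ M) : Gamma0 M ≤ Gamma0 r := by
  intro γ hγ
  rw [Gamma0_mem] at hγ ⊢
  have := intCast_zmod_eq_of_dvd h (x := γ 1 0) (y := 0) (by rw [hγ, Int.cast_zero])
  rw [this, Int.cast_zero]

/-- **`θ_ψ ∘ σ = ψ(σ₀₀) θ_ψ` for `σ ∈ Γ₀(M)`, `r ∣ M`.** -/
theorem compSLHom_thetaH {M : ℕ} (hrM : r ∣ M) (ψ : MulChar (ZMod r) K) {σ : SL(2, ℤ)}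
    (hσ : σ ∈ Gamma0 M) :
    compSLHom σ (thetaH ι ψ) = algebraMap ℂ HolH (ι (ψ ((σ 0 0 : ℤ) : ZMod r))) * thetaH ι ψ := by
  apply Subtype.ext
  funext z
  exact thetaAn_smul_of_mem_Gamma0 ι ψ (Gamma0_le_of_dvd hrM hσ) z

/-- **`θ_ψ ∈ 𝒜(Γ₁(M))` for `r ∣ M`.** -/
theorem thetaH_mem_algA {M : ℕ} [NeZero M] (hrM : r ∣ M) (ψ : MulChar (ZMod r) K) :
    thetaH ι ψ ∈ algA (Gamma10 M (M * 1)) := by
  refine ⟨fun γ hγ => ?_, 1, fun γ => bdd_compSL_thetaAn ι ψ γ⟩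
  rw [gamma10_mul_one] at hγ
  have h0 : γ ∈ Gamma0 r := Gamma0_le_of_dvd hrM (Gamma1_in_Gamma0 M hγ)
  rw [Gamma1_mem] at hγ
  have h1 : ((γ 0 0 : ℤ) : ZMod r) = 1 := by
    have := intCast_zmod_eq_of_dvd hrM (x := γ 0 0) (y := 1) (by rw [hγ.1, Int.cast_one])
    rw [this, Int.cast_one]
  funext z
  show thetaAn ι ψ (γ • z) = thetaAn ι ψ z
  rw [thetaAn_smul_of_mem_Gamma0 ι ψ h0, h1, map_one, map_one, one_mul]

/-- `θ_ψ` is realised in every model of `Γ₁(M)`, `r ∣ M`. -/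
theorem exists_realMer_eq_thetaH {M : ℕ} [NeZero M] (hrM : r ∣ M)
    (A : AnModel (Gamma10 M (M * 1)) (M * 1) (fieldG10 M 1)) (ψ : MulChar (ZMod r) K) :
    ∃ f : A.F, realMer A f = algebraMap HolH MerH (thetaH ι ψ) :=
  exists_realMer_eq_of_mem_fracA A
    (Fermat.Agent.M48.AnRatio4.algebraMap_mem_fracA _ (thetaH_mem_algA ι hrM ψ))

end Theta

/-! ### (E1): `Θ ∈ ℚbar(X₁(M' r))` -/

section E1

variable {r : ℕ} [Fact r.Prime]

theorem two_le_mul (M' : ℕ) [NeZero M'] : 2 ≤ M' * r := by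
  have hr : 2 ≤ r := (Fact.out : r.Prime).two_le
  have hM' : 1 ≤ M' := Nat.one_le_iff_ne_zero.2 (NeZero.ne M')
  calc 2 = 1 * 2 := by norm_num
    _ ≤ M' * r := Nat.mul_le_mul hM' hr

instance neZero_mul (M' : ℕ) [NeZero M'] : NeZero (M' * r) :=
  ⟨Nat.mul_ne_zero (NeZero.ne M') (Fact.out : r.Prime).ne_zero⟩

/-- the element of `ℂ(X₁(M' r))` realised by `θ_ψ`, with its series. -/
theorem exists_FKC_thetaInf (M' : ℕ) [NeZero M'] (ψ : MulChar (ZMod r) Kbar)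
    (heven : ψ (-1) = 1)
    (A : AnModel (Gamma10 (M' * r) (M' * r * 1)) (M' * r * 1) (fieldG10 (M' * r) 1)) :
    ∃ f : A.F, realMer A f = algebraMap HolH MerH (thetaH iotaK ψ) ∧
      ((f : A.F) : LaurentSeries ℂ) = coeffMap iotaK (thetaInf ψ) := by
  obtain ⟨f, hf⟩ := exists_realMer_eq_thetaH iotaK (Dvd.intro_left M' rfl) A ψ
  exact ⟨f, hf, coe_eq_coeffMap_of_realMer_eq A iotaK f (thetaH iotaK ψ) (thetaInf ψ) hf
    (rel_thetaAn heven)⟩

/-- **(E1)** `Θ = thetaInf ψ ∈ FK ℚbar (M' r) 1`. -/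
theorem thetaInf_mem_FK1 (M' : ℕ) [NeZero M'] (ψ : MulChar (ZMod r) Kbar)
    (heven : ψ (-1) = 1) : thetaInf ψ ∈ FK Kbar (M' * r) 1 := by
  obtain ⟨A, -, -⟩ := Fermat.Agent.M48.G10Model4.g10ModelStmt (M' * r) 1 (two_le_mul M')
  obtain ⟨f, -, hf⟩ := exists_FKC_thetaInf M' ψ heven A
  letI : Algebra Kbar ℂ := iotaK.toAlgebra
  have h2 : coeffMap (algebraMap Kbar ℂ) (thetaInf ψ) ∈
      laurentBaseChange ℂ (fieldG10 (M' * r) 1) := by
    have : coeffMap (algebraMap Kbar ℂ) (thetaInf ψ) = (f : LaurentSeries ℂ) := hf.symm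
    rw [this]
    exact f.2
  exact Fermat.Agent.M43.DescentC8.mem_laurentBaseChange_of_coeffMap_mem
    (fieldG10 (M' * r) 1) h2

end E1

/-! ### (E5): the diamond automorphisms act on `Θ` through `ψ⁻¹` -/

section E5

open Fermat.Agent.M48.Diamond1

variable {r : ℕ} [Fact r.Prime]

/-- for `σ ∈ Γ₀(M)`, `r ∣ M`: `σ₀₀ σ₁₁ ≡ 1 (mod r)`. -/
theorem intCast_mul_eq_one {M : ℕ} (hrM : r ∣ M) {σ : SL(2, ℤ)} (hσ : σ ∈ Gamma0 M) :
    ((σ 0 0 : ℤ) : ZMod r) * ((σ 1 1 : ℤ) : ZMod r) = 1 := by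
  have hσ' := Gamma0_le_of_dvd hrM hσ
  have hdet : σ 0 0 * σ 1 1 - σ 0 1 * σ 1 0 = 1 := by
    have := σ.det_coe
    rw [Matrix.det_fin_two] at this
    exact this
  have h10 : ((σ 1 0 : ℤ) : ZMod r) = 0 := by
    rw [Gamma0_mem] at hσ'
    exact hσ'
  have := congrArg (fun x : ℤ => (x : ZMod r)) hdet
  simp only [Int.cast_sub, Int.cast_mul, Int.cast_one, h10, mul_zero, sub_zero] at this
  exact this

/-- the diamond automorphism over `ℂ` on the realisation of `θ_ψ`. -/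
theorem diaC_theta {K : Type} [Field K] (ι : K →+* ℂ) {M : ℕ} [NeZero M] (hrM : r ∣ M)
    (A : AnModel (Gamma10 M (M * 1)) (M * 1) (fieldG10 M 1)) (ψ : MulChar (ZMod r) K)
    (σ : SL(2, ℤ)) (hσ : σ ∈ Gamma0 M) (f : A.F)
    (hf : realMer A f = algebraMap HolH MerH (thetaH ι ψ)) :
    diaC A σ hσ f = algebraMap ℂ A.F (ι (ψ ((σ 0 0 : ℤ) : ZMod r))) * f := by
  apply realMer_injective A
  rw [realMer_diaC, hf, slMer_algebraMap, compSLHom_thetaH ι hrM ψ hσ, map_mul, map_mul, hf,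
    Fermat.Agent.M48.AnReal4.realMer_algebraMap A]

/-- **(E5)** `δ_d Θ = ψ⁻¹(d mod r) Θ` for the diamond automorphism `δ_d` of `FK ℚbar (M' r) 1`. -/
theorem diamond_thetaInf (M' : ℕ) [NeZero M'] (ψ : MulChar (ZMod r) Kbar) (heven : ψ (-1) = 1)
    (d : (ZMod (M' * r))ˣ) (δ : FK Kbar (M' * r) 1 ≃ₐ[Kbar] FK Kbar (M' * r) 1)
    (hδ : IsDiamondAut Kbar (M' * r) d δ) (x : FK Kbar (M' * r) 1)
    (hx : (x : LaurentSeries Kbar) = thetaInf ψ) :
    ((δ x : FK Kbar (M' * r) 1) : LaurentSeries Kbar) =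
      algebraMap Kbar (LaurentSeries Kbar)
        (ψ⁻¹ (ZMod.castHom (Dvd.intro_left M' rfl : r ∣ M' * r) (ZMod r)
          (d : ZMod (M' * r)))) * thetaInf ψ := by
  have hrM : r ∣ M' * r := Dvd.intro_left M' rfl
  obtain ⟨A, hj, hg⟩ := Fermat.Agent.M48.G10Model4.g10ModelStmt (M' * r) 1 (two_le_mul M')
  obtain ⟨f, hf, hfs⟩ := exists_FKC_thetaInf M' ψ heven A
  obtain ⟨σ, hσd⟩ := exists_Gamma0_map_eq d
  have hd : ((σ.1 1 1 : ℤ) : ZMod (M' * r)) = (d : ZMod (M' * r)) := by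
    rw [← hσd]
    rfl
  have hδC := isDiamondAut_diaC A hj hg σ.1 σ.2 d hd
  have hδeq : δ = descAut (ι := iotaK) hδC := diaAut_unique hδ (isDiamondAut_descAut hδC)
  -- `inclC x = f`
  have hxf : inclC iotaK x = f := by
    apply Subtype.ext
    rw [coe_inclC, hx, hfs]
  -- the constant
  have hc : ψ (((σ.1 0 0 : ℤ) : ZMod r)) =
      ψ⁻¹ (ZMod.castHom hrM (ZMod r) (d : ZMod (M' * r))) := by
    have h1 := intCast_mul_eq_one hrM σ.2
    have h2 : ZMod.castHom hrM (ZMod r) (d : ZMod (M' * r)) = ((σ.1 1 1 : ℤ) : ZMod r) := by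
      rw [← hd, map_intCast]
    rw [h2, MulChar.inv_apply_eq_inv]
    have h3 : ψ (((σ.1 0 0 : ℤ) : ZMod r)) * ψ (((σ.1 1 1 : ℤ) : ZMod r)) = 1 := by
      rw [← map_mul, h1, map_one]
    rw [Ring.inverse_eq_inv']
    exact eq_inv_of_mul_eq_one_left h3
  apply coeffMap_injective' iotaK
  have h4 : coeffMap iotaK ((δ x : FK Kbar (M' * r) 1) : LaurentSeries Kbar) =
      ((diaC A σ.1 σ.2 f : FK ℂ (M' * r) 1) : LaurentSeries ℂ) := by
    rw [hδeq, ← coe_inclC, inclC_descAut, hxf]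
  rw [h4, diaC_theta iotaK hrM A ψ σ.1 σ.2 f hf, map_mul, coeffMap_algebraMap', ← hc, ← hfs]
  rfl

end E5

end Fermat.Agent.M43.ThetaDia0
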