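/-
M43 (helper4) [(LG-q) S1-G concrete, (E2)] NormConcAlong4: **the Kummer cover `E = Fbar M (Θ)` inside
`F₁ = FK ℚbar M 1`, `M = M' r`, and the `Along` inputs of the norm descent.**

* `EH M' ψ := adj (Fbar (M' r)) (thetaInf ψ)`, `EH_le : EH ≤ FK ℚbar (M' r) 1` (`ThetaDia0`),
  `inclE : EH →ₐ[ℚbar] FK ℚbar (M' r) 1`;
* `jE`, `isGen_jE` (`j` generates `EH`), `finiteAlong_inclE`, `inclE_isIntegral`,
  `fundamentalIdentityAlong_inclE`, `normFormulaAlong_inclE`.
-/
import Mathlib
import Fermat.Agent.M43.NormConcFix4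
import Fermat.Agent.M43.ThetaDia0
import Fermat.Agent.M43.KummerAdj8
import Fermat.Agent.ES.HECKE.AlongDegree25
import Fermat.Agent.ES.HECKE.FundIdentity19
import Fermat.Agent.ES.HECKE.NormFormula15

set_option autoImplicit false
set_option linter.unusedSectionVars false
set_option linter.style.haveILetI false
set_option synthInstance.maxHeartbeats 400000

open AlgebraicCurve ModularCurve IntermediateField HahnSeries

noncomputable section

namespace Fermat.Agent.M43.NormConcAlong4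

open Fermat.Agent.M48.J1Defs8 Fermat.Agent.M48.DictIface4 Fermat.Agent.M48.G10Degree2
  Fermat.Agent.M43.NormConcDia4 Fermat.Agent.M43.NormConcFix4 Fermat.Agent.M43.ThetaDia0
  Fermat.Agent.M43.FieldBridge8 Fermat.Agent.M43.KummerAdj8 Fermat.Agent.X0
  Fermat.Agent.ES.RED.SpecialGen25 Fermat.Agent.ES.HECKE.AlongDegree25

local notation "Qb" => AlgebraicClosure ℚ

variable (M' : ℕ) [NeZero M'] {r : ℕ} [Fact r.Prime] (ψ : MulChar (ZMod r) Qb)

/-- **the Kummer cover** `E = Fbar (M' r) (Θ) ⊂ ℚbar((q))`. -/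
abbrev EH : IntermediateField Qb (LaurentSeries Qb) :=
  adj (modularFunctionFieldBar (M' * r)) (thetaInf ψ)

variable {ψ}

theorem EH_le (heven : ψ (-1) = 1) : EH M' ψ ≤ FK Qb (M' * r) 1 := by
  rw [EH, adj, IntermediateField.adjoin_le_iff]
  rintro x (hx | hx)
  · exact Fbar_le_FK1 (M' * r) hx
  · rw [Set.mem_singleton_iff] at hx
    rw [hx]
    exact thetaInf_mem_FK1 M' ψ heven

/-- the inclusion `E → F₁`. -/
def inclE (heven : ψ (-1) = 1) : EH M' ψ →ₐ[Qb] FK Qb (M' * r) 1 :=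
  IntermediateField.inclusion (EH_le M' heven)

@[simp] theorem coe_inclE (heven : ψ (-1) = 1) (x : EH M' ψ) :
    ((inclE M' heven x : FK Qb (M' * r) 1) : LaurentSeries Qb) = (x : LaurentSeries Qb) :=
  IntermediateField.coe_inclusion _ x

theorem Fbar_le_EH : modularFunctionFieldBar (M' * r) ≤ EH M' ψ := le_adj _ _

theorem simple_le_EH : Qb⟮jqModC Qb⟯ ≤ EH M' ψ :=
  (simple_le_Fbar (M' * r)).trans (Fbar_le_EH M')

theorem relfinrank_FK1_ne_zero : relfinrank Qb⟮jqModC Qb⟯ (FK Qb (M' * r) 1) ≠ 0 := by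
  rw [relfinrank_FK1 (two_le_mul M')]
  exact index_pm_ne_zero (two_le_mul M')

theorem relfinrank_mul_EH (heven : ψ (-1) = 1) :
    relfinrank Qb⟮jqModC Qb⟯ (EH M' ψ) * relfinrank (EH M' ψ) (FK Qb (M' * r) 1) =
      relfinrank Qb⟮jqModC Qb⟯ (FK Qb (M' * r) 1) :=
  relfinrank_mul_relfinrank (simple_le_EH M') (EH_le M' heven)

theorem relfinrank_simple_EH_ne_zero (heven : ψ (-1) = 1) :
    relfinrank Qb⟮jqModC Qb⟯ (EH M' ψ) ≠ 0 := by
  intro h0
  have := relfinrank_mul_EH M' heven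
  rw [h0, zero_mul] at this
  exact relfinrank_FK1_ne_zero M' this.symm

theorem relfinrank_EH_FK1_ne_zero (heven : ψ (-1) = 1) :
    relfinrank (EH M' ψ) (FK Qb (M' * r) 1) ≠ 0 := by
  intro h0
  have := relfinrank_mul_EH M' heven
  rw [h0, mul_zero] at this
  exact relfinrank_FK1_ne_zero M' this.symm

/-- `j` as an element of `E`. -/
def jE : EH M' ψ := ⟨jqModC Qb, simple_le_EH M' (mem_adjoin_simple_self Qb _)⟩

@[simp] theorem coe_jE : ((jE M' : EH M' ψ) : LaurentSeries Qb) = jqModC Qb := rfl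

/-- **`j` is a transcendental generator of `E / ℚbar`.** -/
theorem isGen_jE (heven : ψ (-1) = 1) : FF.IsGen Qb (jE M' : EH M' ψ) := by
  refine isGen_of_relfinrank_ne_zero _ _
    (Fermat.Agent.IG.VAL.OvBasics22.transcendental_jqModC Qb) ?_
  rw [coe_jE]
  exact relfinrank_simple_EH_ne_zero M' heven

theorem finrankAlong_inclE (heven : ψ (-1) = 1) :
    finrankAlong Qb (inclE M' heven) = relfinrank (EH M' ψ) (FK Qb (M' * r) 1) := by
  rw [finrankAlong_eq_relfinrank _ _ (inclE M' heven) (AlgHom.id Qb (LaurentSeries Qb))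
    (fun a => by rw [coe_inclE]; rfl), IntermediateField.map_id]

theorem finiteAlong_inclE (heven : ψ (-1) = 1) : FiniteAlong Qb (inclE M' heven) :=
  finiteAlong_of_finrankAlong_pos _ (by
    rw [finrankAlong_inclE M' heven]
    exact Nat.pos_of_ne_zero (relfinrank_EH_FK1_ne_zero M' heven))

theorem inclE_isIntegral (heven : ψ (-1) = 1) : (inclE M' heven).toRingHom.IsIntegral :=
  isIntegral_of_finiteAlong _ (finiteAlong_inclE M' heven)

instance hasPrincipalDivisors_FK1 : HasPrincipalDivisors Qb ↥(FK Qb (M' * r) 1) :=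
  hasPrincipalDivisors_FK (M' * r) 1 (two_le_mul M') Qb

theorem fundamentalIdentityAlong_inclE (heven : ψ (-1) = 1) :
    FundamentalIdentityAlong Qb (inclE M' heven) (inclE_isIntegral M' heven) :=
  Fermat.Agent.ES.HECKE.FundIdentity19.fundamentalIdentityAlong (inclE M' heven)
    (inclE_isIntegral M' heven) (finiteAlong_inclE M' heven) (isGen_jE M' heven)
    (isGen_jK (M' * r) 1 (two_le_mul M') Qb)

theorem normFormulaAlong_inclE (heven : ψ (-1) = 1) :
    NormFormulaAlong Qb (inclE M' heven) (finiteAlong_inclE M' heven) :=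
  Fermat.Agent.ES.HECKE.NormFormula15.normFormulaAlong_of_isGen (inclE M' heven)
    (finiteAlong_inclE M' heven) (isGen_jK (M' * r) 1 (two_le_mul M') Qb)

end Fermat.Agent.M43.NormConcAlong4
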