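/-
M43 (helper4) [(LG-q) S1-G concrete] NormConcIso4: **isotypic decomposition along a Kummer
generator** (abstract, Mathlib only).

A finite group `G` acts on a field `F ⊇ K` (`char K = 0`) through `ρ : G →* (F ≃ₐ[K] F)`;
`Θ ≠ 0` is an eigenvector, `ρ g Θ = χ(g) Θ` for a character `χ : G →* Kˣ` with `χ^n = 1`.
Then every `f ∈ F` fixed by `ker χ` is `∑_{j<n} a_j Θ^j` with all `a_j` fixed by `G`.
-/
import Mathlib

set_option autoImplicit false

open scoped BigOperators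

namespace Fermat.Agent.M43.NormConcIso4

variable {K F : Type*} [Field K] [CharZero K] [Field F] [Algebra K F]
  {G : Type*} [Group G] [Fintype G]

omit [CharZero K] in
/-- `∑_{j<n} ω^j = 0` for `ω^n = 1`, `ω ≠ 1`. -/
theorem geom_sum_eq_zero_of_pow_eq_one {ω : K} {n : ℕ} (hω : ω ^ n = 1) (hω1 : ω ≠ 1) :
    ∑ j ∈ Finset.range n, ω ^ j = 0 := by
  have h := geom_sum_mul ω n
  rw [hω, sub_self] at h
  rcases mul_eq_zero.mp h with h | h
  · exact h
  · exact absurd (sub_eq_zero.mp h) hω1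

/-- the `j`-th isotypic component (not normalised). -/
noncomputable def comp (ρ : G →* (F ≃ₐ[K] F)) (χ : G →* Kˣ) (f : F) (j : ℕ) : F :=
  ∑ g : G, (((χ g)⁻¹ ^ j : Kˣ) : K) • ρ g f

omit [CharZero K] in
theorem map_comp (ρ : G →* (F ≃ₐ[K] F)) (χ : G →* Kˣ) (f : F) (j : ℕ) (h : G) :
    ρ h (comp ρ χ f j) = ((χ h ^ j : Kˣ) : K) • comp ρ χ f j := by
  unfold comp
  rw [map_sum, Finset.smul_sum]
  rw [← Equiv.sum_comp (Equiv.mulLeft h)
    (fun g => ((χ h ^ j : Kˣ) : K) • ((((χ g)⁻¹ ^ j : Kˣ) : K) • ρ g f))]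
  refine Finset.sum_congr rfl fun g _ => ?_
  show ρ h ((((χ g)⁻¹ ^ j : Kˣ) : K) • ρ g f) =
    ((χ h ^ j : Kˣ) : K) • ((((χ (h * g))⁻¹ ^ j : Kˣ) : K) • ρ (h * g) f)
  rw [map_smul, map_mul ρ, AlgEquiv.mul_apply, smul_smul, ← Units.val_mul]
  congr 2
  rw [map_mul, mul_inv, mul_pow, ← mul_assoc, ← mul_pow, mul_inv_cancel, one_pow, one_mul]

omit [CharZero K] in
/-- the sum of the first `n` components. -/
theorem sum_comp [DecidableEq Kˣ] (ρ : G →* (F ≃ₐ[K] F)) (χ : G →* Kˣ) {n : ℕ}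
    (hχn : ∀ g, χ g ^ n = 1) (f : F) (hf : ∀ g, χ g = 1 → ρ g f = f) :
    ∑ j ∈ Finset.range n, comp ρ χ f j =
      ((n * (Finset.univ.filter fun g : G => χ g = 1).card : ℕ) : K) • f := by
  unfold comp
  rw [Finset.sum_comm]
  have h1 : ∀ g : G, ∑ j ∈ Finset.range n, (((χ g)⁻¹ ^ j : Kˣ) : K) • ρ g f =
      if χ g = 1 then (n : K) • f else 0 := by
    intro g
    rw [← Finset.sum_smul]
    split_ifs with hg
    · rw [hf g hg, hg]
      simp
    · have hω : (((χ g)⁻¹ : Kˣ) : K) ^ n = 1 := by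
        rw [← Units.val_pow_eq_pow_val, inv_pow, hχn g, inv_one, Units.val_one]
      have hω1 : (((χ g)⁻¹ : Kˣ) : K) ≠ 1 := by
        intro h
        apply hg
        have : (χ g)⁻¹ = 1 := Units.ext h
        rwa [inv_eq_one] at this
      have := geom_sum_eq_zero_of_pow_eq_one hω hω1
      simp only [Units.val_pow_eq_pow_val]
      rw [this, zero_smul]
  rw [Finset.sum_congr rfl (fun g _ => h1 g), ← Finset.sum_filter, Finset.sum_const,
    Nat.cast_mul, mul_comm, mul_smul]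
  exact (Nat.cast_smul_eq_nsmul K _ _).symm

/-- **Isotypic decomposition.** -/
theorem exists_decomp (ρ : G →* (F ≃ₐ[K] F)) (χ : G →* Kˣ) (Θ : F) (hΘ0 : Θ ≠ 0)
    (hΘ : ∀ g, ρ g Θ = ((χ g : Kˣ) : K) • Θ) {n : ℕ} (hn : n ≠ 0) (hχn : ∀ g, χ g ^ n = 1)
    (f : F) (hf : ∀ g, χ g = 1 → ρ g f = f) :
    ∃ a : ℕ → F, (∀ j g, ρ g (a j) = a j) ∧ f = ∑ j ∈ Finset.range n, a j * Θ ^ j := by
  classical
  set c : ℕ := n * (Finset.univ.filter fun g : G => χ g = 1).card with hc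
  have hc0 : (c : K) ≠ 0 := by
    rw [hc, Nat.cast_ne_zero]
    refine Nat.mul_ne_zero hn (Finset.card_ne_zero.mpr ⟨1, ?_⟩)
    rw [Finset.mem_filter]
    exact ⟨Finset.mem_univ _, map_one χ⟩
  refine ⟨fun j => (c : K)⁻¹ • (comp ρ χ f j / Θ ^ j), fun j g => ?_, ?_⟩
  · show ρ g ((c : K)⁻¹ • (comp ρ χ f j / Θ ^ j)) = (c : K)⁻¹ • (comp ρ χ f j / Θ ^ j)
    rw [map_smul, map_div₀, map_pow, map_comp, hΘ]
    congr 1
    have hu : (((χ g : Kˣ) : K)) ≠ 0 := (χ g).ne_zero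
    rw [smul_pow, Units.val_pow_eq_pow_val, Algebra.smul_def, Algebra.smul_def]
    have h2 : algebraMap K F (((χ g : Kˣ) : K) ^ j) ≠ 0 := by
      rw [Ne, map_eq_zero]
      exact pow_ne_zero j hu
    rw [mul_div_mul_left _ _ h2]
  · have h3 : ∀ j ∈ Finset.range n, (c : K)⁻¹ • (comp ρ χ f j / Θ ^ j) * Θ ^ j =
        (c : K)⁻¹ • comp ρ χ f j := by
      intro j _
      rw [smul_mul_assoc, div_mul_cancel₀ _ (pow_ne_zero j hΘ0)]
    rw [Finset.sum_congr rfl h3, ← Finset.smul_sum, sum_comp ρ χ hχn f hf, smul_smul,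
      inv_mul_cancel₀ hc0, one_smul]

end Fermat.Agent.M43.NormConcIso4
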