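/-
M43 (helper4) [(LG-q) S1-G concrete, (E3)(E4)(E6) + assembly] NormConcMain4: **norm descent of the
mixed relation from the Kummer cover `E = Fbar M (Θ)` to `J₁(M)`, `M = M' r`.**

* `chi M' ψ : (ZMod M)ˣ →* ℚbarˣ`, `d ↦ ψ⁻¹(d mod r)`; `GamH M' ψ` = the diamonds of `ker chi`
  (a finite subgroup of `Aut (FK ℚbar M 1)`), `cGam M' ψ = #GamH`, `cGam_ne_zero`;
* `dia_thetaF1` (`⟨d⟩ Θ = chi(d) Θ`, from `ThetaDia0.diamond_thetaInf`);
* `ringHom_ext_EH`, `inclE_dE` (an automorphism of `E` fixing `Fbar M` with `Θ ↦ chi(d) Θ` is the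
  restriction of `⟨d⟩`), `gamH_inclE` (the diamonds of `ker chi` fix `E`);
* **`mem_range_inclE_of_fixed`** : `(FK ℚbar M 1)^{GamH} = E` (isotypic decomposition +
  `NormConcFix4.mem_Fbar_of_dia_fixed`);
* **`lgq_norm`** : the spine on `Pic⁰(E)[m]` gives
  `c • (⟨d⟩ σ σ x + x) = c • (σ x + ⟨d⟩ σ x)` on the `ker chi`-invariant `m`-torsion of `J₁(M)`.
-/
import Mathlib
import Fermat.Agent.M43.NormConcAlong4
import Fermat.Agent.M43.NormConcIso4
import Fermat.Agent.M43.MixNorm9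

set_option autoImplicit false
set_option linter.unusedSectionVars false
set_option linter.style.haveILetI false
set_option synthInstance.maxHeartbeats 400000

open AlgebraicCurve ModularCurve IntermediateField HahnSeries

noncomputable section

namespace Fermat.Agent.M43.NormConcMain4

open Fermat.Agent.M48.J1Defs8 Fermat.Agent.M48.DictIface4 Fermat.Agent.M48.DiamondAut5
  Fermat.Agent.M43.NormConcDia4 Fermat.Agent.M43.NormConcFix4 Fermat.Agent.M43.ThetaDia0
  Fermat.Agent.M43.FieldBridge8 Fermat.Agent.M43.KummerAdj8 Fermat.Agent.M43.NormConcAlong4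
  Fermat.Agent.M43.EisPsiInf6 Fermat.Agent.IG.AN.DeltaAffine11

local notation "Qb" => AlgebraicClosure ℚ

variable (M' : ℕ) [NeZero M'] {r : ℕ} [Fact r.Prime] (ψ : MulChar (ZMod r) Qb)

theorem r_dvd : r ∣ M' * r := Dvd.intro_left M' rfl

/-! ### the character `d ↦ ψ⁻¹(d mod r)` -/

/-- `d ↦ ψ⁻¹(d mod r)`. -/
def chi : (ZMod (M' * r))ˣ →* Qbˣ := (ψ⁻¹).toUnitHom.comp (ZMod.unitsMap (r_dvd M'))

theorem coe_chi (d : (ZMod (M' * r))ˣ) :
    ((chi M' ψ d : Qbˣ) : Qb) =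
      ψ⁻¹ (ZMod.castHom (r_dvd M') (ZMod r) (d : ZMod (M' * r))) := by
  rw [chi, MonoidHom.comp_apply, MulChar.coe_toUnitHom]
  rfl

theorem chi_pow (d : (ZMod (M' * r))ˣ) : chi M' ψ d ^ (r - 1) = 1 := by
  rw [chi, MonoidHom.comp_apply, ← map_pow, ZMod.units_pow_card_sub_one_eq_one, map_one]

theorem chi_eq_one_iff (d : (ZMod (M' * r))ˣ) :
    chi M' ψ d = 1 ↔ ψ (ZMod.castHom (r_dvd M') (ZMod r) (d : ZMod (M' * r))) = 1 := by
  rw [← Units.val_inj, coe_chi, Units.val_one, MulChar.inv_apply_eq_inv', inv_eq_one]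

/-! ### the group `Γ` -/

/-- the diamonds of `ker (ψ ∘ mod r)`. -/
def GamH : Subgroup (FK Qb (M' * r) 1 ≃ₐ[Qb] FK Qb (M' * r) 1) :=
  (chi M' ψ).ker.map (diaHom (two_le_mul M'))

instance finite_GamH : Finite (GamH M' ψ) := by
  have h : (GamH M' ψ : Set (FK Qb (M' * r) 1 ≃ₐ[Qb] FK Qb (M' * r) 1)).Finite := by
    rw [GamH, Subgroup.coe_map]
    exact (Set.toFinite _).image _
  exact h.to_subtype

/-- the constant of the norm descent. -/
def cGam : ℕ := Nat.card (GamH M' ψ)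

theorem cGam_ne_zero : cGam M' ψ ≠ 0 := Nat.card_pos.ne'

theorem mem_GamH {γ : FK Qb (M' * r) 1 ≃ₐ[Qb] FK Qb (M' * r) 1} :
    γ ∈ GamH M' ψ ↔ ∃ d : (ZMod (M' * r))ˣ, chi M' ψ d = 1 ∧ dia (two_le_mul M') d = γ := by
  rw [GamH, Subgroup.mem_map]
  constructor
  · rintro ⟨d, hd, rfl⟩
    exact ⟨d, MonoidHom.mem_ker.mp hd, rfl⟩
  · rintro ⟨d, hd, rfl⟩
    exact ⟨d, MonoidHom.mem_ker.mpr hd, rfl⟩

/-! ### `Θ` -/

variable {ψ}

theorem thetaInf_ne_zero : thetaInf ψ ≠ 0 := by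
  rw [thetaInf, Fermat.Agent.X0.laurentOf]
  have h1 : Apsi ψ ≠ 0 := by
    intro h0
    have := coeff_one_Apsi ψ
    rw [h0, map_zero] at this
    exact two_ne_zero this.symm
  have h2 : etaUInv Qb ≠ 0 := by
    intro h0
    have : PowerSeries.constantCoeff (etaUInv Qb) = 1 := by
      rw [etaUInv, ← PowerSeries.coeff_zero_eq_constantCoeff_apply, PowerSeries.coeff_map,
        PowerSeries.coeff_zero_eq_constantCoeff_apply, constantCoeff_dedekindEtaUnitInv]
      simp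
    rw [h0, map_zero] at this
    exact zero_ne_one this
  refine mul_ne_zero (HahnSeries.single_ne_zero one_ne_zero) ?_
  intro h0
  have : Apsi ψ * etaUInv Qb = 0 :=
    HahnSeries.ofPowerSeries_injective (h0.trans (map_zero _).symm)
  exact mul_ne_zero h1 h2 this

/-- `Θ` as an element of `FK ℚbar (M' r) 1`. -/
def thetaF1 (heven : ψ (-1) = 1) : FK Qb (M' * r) 1 := ⟨thetaInf ψ, thetaInf_mem_FK1 M' ψ heven⟩

@[simp] theorem coe_thetaF1 (heven : ψ (-1) = 1) :
    ((thetaF1 M' heven : FK Qb (M' * r) 1) : LaurentSeries Qb) = thetaInf ψ := rfl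

theorem thetaF1_ne_zero (heven : ψ (-1) = 1) : thetaF1 M' heven ≠ 0 := by
  intro h0
  exact thetaInf_ne_zero (congrArg Subtype.val h0)

/-- **`⟨d⟩ Θ = chi(d) Θ`.** -/
theorem dia_thetaF1 (heven : ψ (-1) = 1) (d : (ZMod (M' * r))ˣ) :
    dia (two_le_mul M') d (thetaF1 M' heven) = ((chi M' ψ d : Qbˣ) : Qb) • thetaF1 M' heven := by
  apply Subtype.ext
  rw [diamond_thetaInf M' ψ heven d _ (isDiamondAut_dia (two_le_mul M') d) (thetaF1 M' heven) rfl,
    coe_chi, IntermediateField.coe_smul, Algebra.smul_def, coe_thetaF1]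

/-! ### ring homomorphisms out of `E` -/

/-- two ring homomorphisms out of `E` which agree on the constants, on `Fbar M` and at `Θ` are
equal. -/
theorem ringHom_ext_EH {T : Type*} [DivisionRing T] {f g : EH M' ψ →+* T}
    (hc : ∀ c : Qb, f (algebraMap Qb (EH M' ψ) c) = g (algebraMap Qb (EH M' ψ) c))
    (hF : ∀ x : EH M' ψ, (x : LaurentSeries Qb) ∈ modularFunctionFieldBar (M' * r) → f x = g x)
    (hΘ : f (thetaA _ (thetaInf ψ)) = g (thetaA _ (thetaInf ψ))) : f = g := by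
  refine Fermat.Agent.M48.DiamondRed3.ringHom_ext_adjoin (F := Qb)
    (S := ((modularFunctionFieldBar (M' * r) : Set (LaurentSeries Qb)) ∪ {thetaInf ψ}))
    (f := f) (g := g) hc ?_
  rintro s (hs | hs)
  · exact hF _ hs
  · rw [Set.mem_singleton_iff] at hs
    subst hs
    exact hΘ

/-- **an automorphism of `F₁` fixing `Fbar M` and `Θ` fixes `E`.** -/
theorem apply_inclE_of_fixes (heven : ψ (-1) = 1)
    (δ : FK Qb (M' * r) 1 ≃ₐ[Qb] FK Qb (M' * r) 1)
    (hδF : ∀ x : FK Qb (M' * r) 1,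
      (x : LaurentSeries Qb) ∈ modularFunctionFieldBar (M' * r) → δ x = x)
    (hδΘ : δ (thetaF1 M' heven) = thetaF1 M' heven) (a : EH M' ψ) :
    δ (inclE M' heven a) = inclE M' heven a := by
  have h : ((δ : FK Qb (M' * r) 1 ≃+* FK Qb (M' * r) 1) : FK Qb (M' * r) 1 →+* _).comp
      (inclE M' heven).toRingHom = (inclE M' heven).toRingHom := by
    apply ringHom_ext_EH M'
    · intro c
      show δ (inclE M' heven (algebraMap Qb _ c)) = inclE M' heven (algebraMap Qb _ c)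
      rw [AlgHom.commutes, AlgEquiv.commutes]
    · intro x hx
      exact hδF _ hx
    · exact hδΘ
  exact RingHom.congr_fun h a

/-- **the diamonds of `ker chi` fix `E` pointwise.** -/
theorem gamH_inclE (heven : ψ (-1) = 1) {γ : FK Qb (M' * r) 1 ≃ₐ[Qb] FK Qb (M' * r) 1}
    (hγ : γ ∈ GamH M' ψ) (a : EH M' ψ) : γ (inclE M' heven a) = inclE M' heven a := by
  obtain ⟨d, hd, rfl⟩ := (mem_GamH M' ψ).mp hγ
  refine apply_inclE_of_fixes M' heven _ (fun x hx => dia_apply_of_mem_Fbar _ d x hx) ?_ a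
  rw [dia_thetaF1, hd, Units.val_one, one_smul]

/-- **an automorphism `dE` of `E` fixing `Fbar M` with `dE Θ = chi(d) Θ` is the restriction of
`⟨d⟩`.** -/
theorem inclE_dE (heven : ψ (-1) = 1) (d : (ZMod (M' * r))ˣ) (dE : EH M' ψ ≃ₐ[Qb] EH M' ψ)
    (hdE1 : ∀ x : EH M' ψ, (x : LaurentSeries Qb) ∈ modularFunctionFieldBar (M' * r) → dE x = x)
    (hdE2 : ((dE (thetaA _ (thetaInf ψ)) : EH M' ψ) : LaurentSeries Qb) =
      algebraMap Qb (LaurentSeries Qb) ((chi M' ψ d : Qbˣ) : Qb) * thetaInf ψ)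
    (a : EH M' ψ) : inclE M' heven (dE a) = dia (two_le_mul M') d (inclE M' heven a) := by
  have h : (inclE M' heven).toRingHom.comp
      ((dE : EH M' ψ ≃+* EH M' ψ) : EH M' ψ →+* EH M' ψ) =
      ((dia (two_le_mul M') d : FK Qb (M' * r) 1 ≃+* FK Qb (M' * r) 1) :
        FK Qb (M' * r) 1 →+* _).comp (inclE M' heven).toRingHom := by
    apply ringHom_ext_EH M'
    · intro c
      show inclE M' heven (dE (algebraMap Qb _ c)) =
        dia (two_le_mul M') d (inclE M' heven (algebraMap Qb _ c))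
      rw [AlgEquiv.commutes, AlgHom.commutes, AlgEquiv.commutes]
    · intro x hx
      show inclE M' heven (dE x) = dia (two_le_mul M') d (inclE M' heven x)
      rw [hdE1 x hx]
      exact (dia_apply_of_mem_Fbar _ d _ hx).symm
    · show inclE M' heven (dE (thetaA _ (thetaInf ψ))) =
        dia (two_le_mul M') d (inclE M' heven (thetaA _ (thetaInf ψ)))
      have e : inclE M' heven (thetaA _ (thetaInf ψ)) = thetaF1 M' heven := Subtype.ext rfl
      rw [e, dia_thetaF1]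
      apply Subtype.ext
      rw [coe_inclE, hdE2, IntermediateField.coe_smul, Algebra.smul_def, coe_thetaF1]
  exact RingHom.congr_fun h a

/-! ### the fixed field of `Γ` -/

/-- **`(FK ℚbar M 1)^Γ = E`.** -/
theorem mem_range_inclE_of_fixed (heven : ψ (-1) = 1) (f : FK Qb (M' * r) 1)
    (hf : ∀ γ ∈ GamH M' ψ, γ f = f) : f ∈ (inclE M' heven).range := by
  have hr : r - 1 ≠ 0 := Nat.sub_ne_zero_of_lt (Fact.out : r.Prime).one_lt
  obtain ⟨a, ha, hsum⟩ := Fermat.Agent.M43.NormConcIso4.exists_decomp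
    (diaHom (two_le_mul M')) (chi M' ψ) (thetaF1 M' heven) (thetaF1_ne_zero M' heven)
    (fun d => dia_thetaF1 M' heven d) hr (chi_pow M' ψ) f
    (fun d hd => hf _ ((mem_GamH M' ψ).mpr ⟨d, hd, rfl⟩))
  have hmem : (f : LaurentSeries Qb) ∈ EH M' ψ := by
    rw [hsum]
    push_cast
    refine sum_mem fun j _ => mul_mem ?_ (pow_mem (theta_mem _ _) j)
    exact Fbar_le_EH M' (mem_Fbar_of_dia_fixed (two_le_mul M') (a j) (fun d => ha j d))
  exact ⟨⟨_, hmem⟩, Subtype.ext rfl⟩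

/-! ### the norm descent -/

local notation "GQ" => (Qb ≃ₐ[ℚ] Qb)

/-- `⟨d⟩` on `J₁(M)` is the action of the chosen diamond automorphism. -/
theorem dia1_apply (d : (ZMod (M' * r))ˣ) (y : J1 (M' * r)) :
    dia1 Qb (M' * r) d y = SemilinearAut.ofAlgAut (dia (two_le_mul M') d) • y := by
  rw [dia1_eq (isDiamondAut_dia (two_le_mul M') d)]
  rfl

set_option maxHeartbeats 1000000 in
/-- **(LG-q), norm descent**: the mixed relation on `Pic⁰(E)[m]` (the spine) descends to the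
`ker (ψ ∘ mod r)`-invariant `m`-torsion of `J₁(M' r)`. -/
theorem lgq_norm (heven : ψ (-1) = 1) (σ : GQ) (d : (ZMod (M' * r))ˣ)
    (g : SemilinearAut Qb (EH M' ψ))
    (hg : ∀ x : EH M' ψ, ((g • x : EH M' ψ) : LaurentSeries Qb) =
      coeffMap ((σ : Qb ≃+* Qb) : Qb →+* Qb) (x : LaurentSeries Qb))
    (dE : EH M' ψ ≃ₐ[Qb] EH M' ψ)
    (hdE1 : ∀ x : EH M' ψ, (x : LaurentSeries Qb) ∈ modularFunctionFieldBar (M' * r) → dE x = x)
    (hdE2 : ∀ x : EH M' ψ, (x : LaurentSeries Qb) = thetaInf ψ →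
      ((dE x : EH M' ψ) : LaurentSeries Qb) = algebraMap Qb (LaurentSeries Qb)
        (ψ⁻¹ (ZMod.castHom (r_dvd M') (ZMod r) (d : ZMod (M' * r)))) * thetaInf ψ)
    (m : ℕ)
    (hspine : ∀ z : Pic0 Qb (EH M' ψ), m • z = 0 →
      (SemilinearAut.ofAlgAut dE * g) • g • z + z = g • z + (SemilinearAut.ofAlgAut dE * g) • z)
    (x : J1 (M' * r)) (hx : m • x = 0)
    (hinv : ∀ h : (ZMod (M' * r))ˣ,
      ψ (ZMod.castHom (r_dvd M') (ZMod r) (h : ZMod (M' * r))) = 1 → dia1 Qb (M' * r) h x = x) :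
    cGam M' ψ • (dia1 Qb (M' * r) d (σ • (σ • x)) + x) =
      cGam M' ψ • (σ • x + dia1 Qb (M' * r) d (σ • x)) := by
  classical
  haveI : Fintype (GamH M' ψ) := Fintype.ofFinite _
  have hgG : ∀ f : EH M' ψ, inclE M' heven (g • f) =
      arithmeticGalois (fieldG10 (M' * r) 1) σ • inclE M' heven f := by
    intro f
    apply Subtype.ext
    rw [coe_inclE, hg, coe_arithmeticGalois_smul, coe_inclE]
    rfl
  have hgG' : ∀ f : EH M' ψ, inclE M' heven ((SemilinearAut.ofAlgAut dE * g) • f) =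
      (SemilinearAut.ofAlgAut (dia (two_le_mul M') d) *
        arithmeticGalois (fieldG10 (M' * r) 1) σ) • inclE M' heven f := by
    intro f
    rw [mul_smul, mul_smul, SemilinearAut.ofAlgAut_smul, SemilinearAut.ofAlgAut_smul,
      inclE_dE M' heven d dE hdE1 (by rw [hdE2 _ rfl, coe_chi]), hgG]
  have hinv' : ∀ γ ∈ GamH M' ψ,
      SemilinearAut.ofAlgAut (γ : FK Qb (M' * r) 1 ≃ₐ[Qb] FK Qb (M' * r) 1) • x = x := by
    intro γ hγ
    obtain ⟨h, hh, hγ'⟩ := (mem_GamH M' ψ).mp hγ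
    rw [← hγ', ← dia1_apply]
    exact hinv h ((chi_eq_one_iff M' ψ h).mp hh)
  have key := Fermat.Agent.M43.MixNorm9.norm_descent_mixed (inclE M' heven)
    (inclE_isIntegral M' heven) (fundamentalIdentityAlong_inclE M' heven)
    (finiteAlong_inclE M' heven) (normFormulaAlong_inclE M' heven) (GamH M' ψ)
    (fun γ hγ a => gamH_inclE M' heven hγ a)
    (fun f hf => mem_range_inclE_of_fixed M' heven f hf)
    g (SemilinearAut.ofAlgAut dE * g) (arithmeticGalois (fieldG10 (M' * r) 1) σ)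
    (SemilinearAut.ofAlgAut (dia (two_le_mul M') d) * arithmeticGalois (fieldG10 (M' * r) 1) σ)
    hgG hgG' m hspine x hx hinv'
  rw [← Nat.card_eq_fintype_card] at key
  rw [mul_smul, mul_smul, ← dia1_apply, ← dia1_apply] at key
  exact key

end Fermat.Agent.M43.NormConcMain4
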