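/-
M43 (helper3) [(6d) / block (α)] DatumAlg3: **the full local Hecke algebra
`T = (𝒪 ⊗_ℤ 𝕋)_𝔪` of level `N`** (`𝕋 = CuspForm.heckeAlgebra N 2 S`, `𝔪` the kernel of
`𝒪 ⊗ 𝕋 → k`, `c ⊗ t ↦ c̄ θ(t)`), with all the algebra of a Prelude `HeckeGaloisRepDatum`.

* `BB`, `thetaB`, `maxId`, `TLoc := Localization.AtPrime (maxId N S 𝒪 θ)`, `piT : 𝕋 →+* TLoc`;
* instances for `TLoc` (`𝒪` a complete DVR): finite and free over `𝒪`, noetherian, complete,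
  `𝒪 → TLoc` local;
* `surjective_algebraMap` (`𝒪 ⊗ 𝕋 → TLoc` is onto), `residue_algebraMap`, `residue_piT`,
  `adjoin_range_piT`, `residue_surjective`, `finite_residueField`, `isReduced`;
* `exists_lift` : **the universal property** - any ring homomorphism `φ : 𝕋 →+* E` into a local
  `𝒪`-algebra `E` (structure map local) lifting `θ` factors through a unique-by-generation
  `𝒪`-algebra homomorphism `TLoc →ₐ[𝒪] E`; `exists_point` is the case `E = 𝒪`.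
-/
import Mathlib
import Fermat.Agent.M43.LocalHecke3
import Fermat.Agent.S22
import Fermat.Agent.S32x.Reduced4
import Fermat.Agent.ES.PET.PetFinal21

set_option autoImplicit false
set_option linter.style.haveILetI false
set_option linter.unusedSectionVars false

namespace Fermat.Agent.M43.DatumAlg3

open IsLocalRing CuspForm
open scoped TensorProduct

section Defs

variable (N : ℕ) [NeZero N] (S : Finset ℕ) (𝒪 : Type) [CommRing 𝒪] [IsLocalRing 𝒪]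
  (θ : heckeAlgebra N 2 (↑S : Set ℕ) →+* ResidueField 𝒪)

/-- `𝒪 ⊗_ℤ 𝕋` (a `def`, with its instances transported once and for all: the instances of the
tensor product are expensive to unfold). -/
def BB : Type := 𝒪 ⊗[ℤ] heckeAlgebra N 2 (↑S : Set ℕ)

noncomputable instance instCommRingBB : CommRing (BB N S 𝒪) :=
  inferInstanceAs (CommRing (𝒪 ⊗[ℤ] heckeAlgebra N 2 (↑S : Set ℕ)))

noncomputable instance instAlgebraBB : Algebra 𝒪 (BB N S 𝒪) :=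
  inferInstanceAs (Algebra 𝒪 (𝒪 ⊗[ℤ] heckeAlgebra N 2 (↑S : Set ℕ)))

/-- `c ⊗ t`. -/
def tm (c : 𝒪) (t : heckeAlgebra N 2 (↑S : Set ℕ)) : BB N S 𝒪 := c ⊗ₜ[ℤ] t

variable {N S 𝒪} in
theorem BB_induction {P : BB N S 𝒪 → Prop} (b : BB N S 𝒪) (h0 : P 0)
    (h1 : ∀ c t, P (tm N S 𝒪 c t)) (h2 : ∀ x y, P x → P y → P (x + y)) : P b :=
  TensorProduct.induction_on (motive := P) b h0 h1 h2

theorem tm_eq_smul (c : 𝒪) (t : heckeAlgebra N 2 (↑S : Set ℕ)) :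
    tm N S 𝒪 c t = c • tm N S 𝒪 1 t := by
  show (c ⊗ₜ[ℤ] t : 𝒪 ⊗[ℤ] heckeAlgebra N 2 (↑S : Set ℕ)) = c • ((1 : 𝒪) ⊗ₜ[ℤ] t)
  rw [TensorProduct.smul_tmul', smul_eq_mul, mul_one]

/-- `𝕋 → 𝒪 ⊗ 𝕋`. -/
noncomputable def inclT : heckeAlgebra N 2 (↑S : Set ℕ) →+* BB N S 𝒪 :=
  (Algebra.TensorProduct.includeRight :
    heckeAlgebra N 2 (↑S : Set ℕ) →ₐ[ℤ] 𝒪 ⊗[ℤ] heckeAlgebra N 2 (↑S : Set ℕ)).toRingHom

theorem inclT_apply (t : heckeAlgebra N 2 (↑S : Set ℕ)) : inclT N S 𝒪 t = tm N S 𝒪 1 t := rfl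

/-- `𝒪 ⊗ 𝕋 → E`, `c ⊗ t ↦ c • φ(t)`. -/
noncomputable def liftBB (E : Type) [CommRing E] [Algebra 𝒪 E]
    (φ : heckeAlgebra N 2 (↑S : Set ℕ) →+* E) : BB N S 𝒪 →ₐ[𝒪] E :=
  (Algebra.TensorProduct.lift (Algebra.ofId 𝒪 E) φ.toIntAlgHom (fun _ _ => Commute.all _ _) :
    𝒪 ⊗[ℤ] heckeAlgebra N 2 (↑S : Set ℕ) →ₐ[𝒪] E)

theorem liftBB_tm (E : Type) [CommRing E] [Algebra 𝒪 E]
    (φ : heckeAlgebra N 2 (↑S : Set ℕ) →+* E) (c : 𝒪) (t : heckeAlgebra N 2 (↑S : Set ℕ)) :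
    liftBB N S 𝒪 E φ (tm N S 𝒪 c t) = algebraMap 𝒪 E c * φ t := by
  show (Algebra.TensorProduct.lift (Algebra.ofId 𝒪 E) φ.toIntAlgHom
    (fun _ _ => Commute.all _ _)) (c ⊗ₜ[ℤ] t) = _
  rw [Algebra.TensorProduct.lift_tmul]
  rfl

/-- `𝒪 ⊗ 𝕋 → k`, `c ⊗ t ↦ c̄ θ(t)`. -/
noncomputable def thetaB : BB N S 𝒪 →ₐ[𝒪] ResidueField 𝒪 := liftBB N S 𝒪 (ResidueField 𝒪) θ

theorem thetaB_tmul (c : 𝒪) (t : heckeAlgebra N 2 (↑S : Set ℕ)) :
    thetaB N S 𝒪 θ (tm N S 𝒪 c t) = residue 𝒪 c * θ t := by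
  rw [thetaB, liftBB_tm]
  rfl

theorem thetaB_surjective : Function.Surjective (thetaB N S 𝒪 θ) := by
  intro y
  obtain ⟨c, rfl⟩ := residue_surjective y
  exact ⟨tm N S 𝒪 c 1, by rw [thetaB_tmul, map_one, mul_one]⟩

/-- the maximal ideal of `𝒪 ⊗ 𝕋` attached to `θ`. -/
noncomputable def maxId : Ideal (BB N S 𝒪) := RingHom.ker (thetaB N S 𝒪 θ)

instance maxId_isMaximal : (maxId N S 𝒪 θ).IsMaximal :=
  RingHom.ker_isMaximal_of_surjective _ (thetaB_surjective N S 𝒪 θ)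

theorem mem_maxId (b : BB N S 𝒪) : b ∈ maxId N S 𝒪 θ ↔ thetaB N S 𝒪 θ b = 0 := RingHom.mem_ker

/-- **the full local Hecke algebra.** -/
abbrev TLoc : Type := Localization.AtPrime (maxId N S 𝒪 θ)

/-- the structure map `𝕋 → T`. -/
noncomputable def piT : heckeAlgebra N 2 (↑S : Set ℕ) →+* TLoc N S 𝒪 θ :=
  (algebraMap (BB N S 𝒪) (TLoc N S 𝒪 θ)).comp (inclT N S 𝒪)

theorem piT_apply (t : heckeAlgebra N 2 (↑S : Set ℕ)) :
    piT N S 𝒪 θ t = algebraMap (BB N S 𝒪) (TLoc N S 𝒪 θ) (tm N S 𝒪 1 t) := rfl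

instance finite_BB : Module.Finite 𝒪 (BB N S 𝒪) := by
  haveI : Module.Finite ℤ (heckeAlgebra N 2 (↑S : Set ℕ)) := Fermat.Agent.S22.result N 2 _
  exact inferInstanceAs (Module.Finite 𝒪 (𝒪 ⊗[ℤ] heckeAlgebra N 2 (↑S : Set ℕ)))

instance free_BB : Module.Free 𝒪 (BB N S 𝒪) := by
  haveI : Module.Finite ℤ (heckeAlgebra N 2 (↑S : Set ℕ)) := Fermat.Agent.S22.result N 2 _
  exact inferInstanceAs (Module.Free 𝒪 (𝒪 ⊗[ℤ] heckeAlgebra N 2 (↑S : Set ℕ)))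

end Defs

section Complete

variable (N : ℕ) [NeZero N] (S : Finset ℕ) (𝒪 : Type) [CommRing 𝒪] [IsLocalRing 𝒪]
  [IsNoetherianRing 𝒪] [IsAdicComplete (maximalIdeal 𝒪) 𝒪]
  (θ : heckeAlgebra N 2 (↑S : Set ℕ) →+* ResidueField 𝒪)

instance finite_TLoc : Module.Finite 𝒪 (TLoc N S 𝒪 θ) :=
  LocalHecke3.finite_localization 𝒪 (BB N S 𝒪) (maxId N S 𝒪 θ)

instance isNoetherianRing_TLoc : IsNoetherianRing (TLoc N S 𝒪 θ) :=
  LocalHecke3.isNoetherianRing_localization 𝒪 (BB N S 𝒪) (maxId N S 𝒪 θ)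

instance isAdicComplete_TLoc :
    IsAdicComplete (maximalIdeal (TLoc N S 𝒪 θ)) (TLoc N S 𝒪 θ) :=
  LocalHecke3.isAdicComplete_localization 𝒪 (BB N S 𝒪) (maxId N S 𝒪 θ)

instance isLocalHom_TLoc : IsLocalHom (algebraMap 𝒪 (TLoc N S 𝒪 θ)) :=
  LocalHecke3.isLocalHom_algebraMap_of_finite _

/-- `𝒪 ⊗ 𝕋 → T` is surjective. -/
theorem surjective_algebraMap :
    Function.Surjective (algebraMap (BB N S 𝒪) (TLoc N S 𝒪 θ)) :=
  LocalHecke3.surjective_algebraMap_localization 𝒪 (BB N S 𝒪) (maxId N S 𝒪 θ)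

/-- the residue field of `T` is `k`, compatibly with `thetaB`. -/
theorem residue_algebraMap (b : BB N S 𝒪) :
    residue (TLoc N S 𝒪 θ) (algebraMap (BB N S 𝒪) (TLoc N S 𝒪 θ) b) =
      ResidueField.map (algebraMap 𝒪 (TLoc N S 𝒪 θ)) (thetaB N S 𝒪 θ b) := by
  obtain ⟨c, hc⟩ := residue_surjective (thetaB N S 𝒪 θ b)
  have h1 : b - algebraMap 𝒪 (BB N S 𝒪) c ∈ maxId N S 𝒪 θ := by
    rw [mem_maxId, map_sub, AlgHom.commutes, ← hc, sub_eq_zero]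
    rfl
  have h2 := (IsLocalization.AtPrime.to_map_mem_maximal_iff (TLoc N S 𝒪 θ) (maxId N S 𝒪 θ)
    (b - algebraMap 𝒪 (BB N S 𝒪) c)).mpr h1
  rw [← residue_eq_zero_iff, map_sub, map_sub, sub_eq_zero] at h2
  rw [h2, ← hc, ResidueField.map_residue, ← IsScalarTower.algebraMap_apply]

theorem residue_piT (t : heckeAlgebra N 2 (↑S : Set ℕ)) :
    residue (TLoc N S 𝒪 θ) (piT N S 𝒪 θ t) =
      ResidueField.map (algebraMap 𝒪 (TLoc N S 𝒪 θ)) (θ t) := by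
  rw [piT_apply, residue_algebraMap, thetaB_tmul, map_one, one_mul]

theorem residue_surjective' :
    Function.Surjective (residue (TLoc N S 𝒪 θ) ∘ algebraMap 𝒪 (TLoc N S 𝒪 θ)) := by
  intro y
  obtain ⟨x, rfl⟩ := residue_surjective y
  obtain ⟨b, rfl⟩ := surjective_algebraMap N S 𝒪 θ x
  obtain ⟨c, hc⟩ := residue_surjective (thetaB N S 𝒪 θ b)
  refine ⟨c, ?_⟩
  rw [Function.comp_apply, residue_algebraMap, ← hc, ResidueField.map_residue]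

theorem finite_residueField [Finite (ResidueField 𝒪)] :
    Finite (ResidueField (TLoc N S 𝒪 θ)) := by
  have h : Function.Surjective (ResidueField.map (algebraMap 𝒪 (TLoc N S 𝒪 θ))) := by
    intro y
    obtain ⟨c, hc⟩ := residue_surjective' N S 𝒪 θ y
    exact ⟨residue 𝒪 c, by rw [ResidueField.map_residue]; exact hc⟩
  exact Finite.of_surjective _ h

/-- `T` is generated over `𝒪` by the image of `𝕋`. -/
theorem adjoin_range_piT : Algebra.adjoin 𝒪 (Set.range (piT N S 𝒪 θ)) = ⊤ := by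
  rw [eq_top_iff]
  intro x _
  obtain ⟨b, rfl⟩ := surjective_algebraMap N S 𝒪 θ x
  induction b using BB_induction with
  | h0 => rw [map_zero]; exact Subalgebra.zero_mem _
  | h1 c t =>
    rw [tm_eq_smul, Algebra.smul_def, map_mul, ← IsScalarTower.algebraMap_apply,
      ← Algebra.smul_def]
    have hmem : algebraMap (BB N S 𝒪) (TLoc N S 𝒪 θ) (tm N S 𝒪 1 t) ∈
        Algebra.adjoin 𝒪 (Set.range (piT N S 𝒪 θ)) := Algebra.subset_adjoin ⟨t, rfl⟩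
    exact Subalgebra.smul_mem _ hmem c
  | h2 x y hx hy =>
    rw [map_add]
    exact Subalgebra.add_mem _ (hx Algebra.mem_top) (hy Algebra.mem_top)

/-- **The universal property of `T`.** -/
theorem exists_lift (E : Type) [CommRing E] [IsLocalRing E] [Algebra 𝒪 E]
    [IsLocalHom (algebraMap 𝒪 E)] (φ : heckeAlgebra N 2 (↑S : Set ℕ) →+* E)
    (hφ : ∀ t, residue E (φ t) = ResidueField.map (algebraMap 𝒪 E) (θ t)) :
    ∃ f : TLoc N S 𝒪 θ →ₐ[𝒪] E, ∀ t, f (piT N S 𝒪 θ t) = φ t := by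
  let Φ : BB N S 𝒪 →ₐ[𝒪] E := liftBB N S 𝒪 E φ
  have hΦ : ∀ (c : 𝒪) (t : heckeAlgebra N 2 (↑S : Set ℕ)),
      Φ (tm N S 𝒪 c t) = algebraMap 𝒪 E c * φ t := fun c t => liftBB_tm N S 𝒪 E φ c t
  have hres : ∀ b : BB N S 𝒪,
      residue E (Φ b) = ResidueField.map (algebraMap 𝒪 E) (thetaB N S 𝒪 θ b) := by
    intro b
    induction b using BB_induction with
    | h0 => simp only [map_zero]
    | h1 c t =>
      rw [hΦ, thetaB_tmul, map_mul, map_mul, hφ, ResidueField.map_residue]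
    | h2 x y hx hy => simp only [map_add, hx, hy]
  have hunit : ∀ y : (maxId N S 𝒪 θ).primeCompl, IsUnit (Φ y) := by
    intro y
    have hy : thetaB N S 𝒪 θ (y : BB N S 𝒪) ≠ 0 := fun h => y.2 ((mem_maxId N S 𝒪 θ _).mpr h)
    by_contra hnu
    have h1 : Φ (y : BB N S 𝒪) ∈ maximalIdeal E := (mem_maximalIdeal _).mpr hnu
    rw [← residue_eq_zero_iff, hres] at h1
    exact hy ((map_eq_zero _).mp h1)
  refine ⟨IsLocalization.liftAlgHom (M := (maxId N S 𝒪 θ).primeCompl) (f := Φ) hunit, fun t => ?_⟩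
  rw [piT_apply, IsLocalization.liftAlgHom_apply, IsLocalization.lift_eq]
  show Φ (tm N S 𝒪 1 t) = φ t
  rw [hΦ, map_one, one_mul]

/-- the points of `T` with values in `𝒪`. -/
theorem exists_point (χ : heckeAlgebra N 2 (↑S : Set ℕ) →+* 𝒪)
    (hχ : ∀ t, residue 𝒪 (χ t) = θ t) :
    ∃ ψ : TLoc N S 𝒪 θ →ₐ[𝒪] 𝒪, ∀ t, ψ (piT N S 𝒪 θ t) = χ t := by
  refine exists_lift N S 𝒪 θ 𝒪 χ fun t => ?_
  rw [hχ]
  obtain ⟨c, hc⟩ := residue_surjective (θ t)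
  rw [← hc, ResidueField.map_residue]
  rfl

end Complete

section DVR

variable (N : ℕ) [NeZero N] (S : Finset ℕ) (𝒪 : Type) [CommRing 𝒪] [IsDomain 𝒪]
  [IsDiscreteValuationRing 𝒪] [IsAdicComplete (maximalIdeal 𝒪) 𝒪]
  (θ : heckeAlgebra N 2 (↑S : Set ℕ) →+* ResidueField 𝒪)

theorem smul_eq_zero_TLoc (a : 𝒪) (x : TLoc N S 𝒪 θ) (h : a • x = 0) : a = 0 ∨ x = 0 := by
  refine LocalHecke3.smul_eq_zero_localization (BB N S 𝒪) (maxId N S 𝒪 θ) ?_ a x h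
  intro a x h
  haveI : Module.IsTorsionFree 𝒪 (BB N S 𝒪) := inferInstance
  exact smul_eq_zero.mp h

instance isTorsionFree_TLoc : Module.IsTorsionFree 𝒪 (TLoc N S 𝒪 θ) := by
  haveI : NoZeroSMulDivisors 𝒪 (TLoc N S 𝒪 θ) := ⟨fun {a x} h => smul_eq_zero_TLoc N S 𝒪 θ a x h⟩
  infer_instance

instance free_TLoc : Module.Free 𝒪 (TLoc N S 𝒪 θ) := inferInstance

/-- `T` is reduced. -/
theorem isReduced_TLoc [CharZero 𝒪] (hNS : ∀ q : ℕ, q.Prime → q ∣ N → q ∈ S) :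
    IsReduced (TLoc N S 𝒪 θ) := by
  haveI : IsReduced (heckeAlgebra N 2 (↑S : Set ℕ)) :=
    Fermat.Agent.ES.PET.PetFinal21.isReduced_heckeAlgebra N (↑S : Set ℕ)
      (fun q hq hqN => Finset.mem_coe.2 (hNS q hq hqN))
  haveI : Module.Finite ℤ (heckeAlgebra N 2 (↑S : Set ℕ)) := Fermat.Agent.S22.result N 2 _
  exact Fermat.Agent.S32x.Reduced4.isReduced_of_adjoin (piT N S 𝒪 θ)
    (fun h => IsIntegral.of_finite ℤ h) (adjoin_range_piT N S 𝒪 θ)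

end DVR

end Fermat.Agent.M43.DatumAlg3
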