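/-
M43 (helper1) [(6d') BRIDGE] HeckeBridge1: **the action of `BB = 𝒪 ⊗ 𝕋` on
`Y0 = parabolicHoms 𝒪 (Gamma0 N) 𝒪`.**

`𝕋 = heckeAlgebra N 2 S` acts on `Λ = parabolicHoms ℤ (Gamma0 N) ℤ` (`FaithFinal26.heckeLam`, `T_ℓ ↦`
the double coset operator `tdcPar hℓN ℤ ℤ`), and `Y0 ≃ 𝒪 ⊗ Λ` (`M48/ParTensor3.tensorEquiv`).  Hence

* `actT : 𝕋 →ₐ[ℤ] Module.End 𝒪 Y0`, `actT_T : actT (T_ℓ) = tdcPar hℓN 𝒪 𝒪`;
* `actY : BB N S 𝒪 →ₐ[𝒪] Module.End 𝒪 Y0`, `actY_tm : actY (c ⊗ t) = c • actT t`,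
  `actY_T : actY (1 ⊗ T_ℓ) = tdcPar hℓN 𝒪 𝒪`;
* `commute_tdcPar`: the double coset operators `T_ℓ`, `T_ℓ'` (`ℓ, ℓ' ∉ S`) commute on `Y0`.
-/
import Mathlib
import Fermat.Agent.M43.DatumAlg3
import Fermat.Agent.M48.ParTensor3
import Fermat.Agent.ES.HEQ.FaithFinal26

set_option autoImplicit false
set_option linter.unusedSectionVars false

noncomputable section

namespace Fermat.Agent.M43.HeckeBridge1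

open CuspForm CongruenceSubgroup ModularCurve.Period TensorProduct
open Fermat.Agent.M43.DatumAlg3 Fermat.Agent.ES.HEQ Fermat.Agent.ES.HEQ.DoubleCosetPar27
  Fermat.Agent.ES.HEQ.DoubleCoset27 Fermat.Agent.ES.HEQ.FaithFinal26 Fermat.Agent.ES.HEQ.FaithInst26
  Fermat.Agent.M48

variable (N : ℕ) [NeZero N] (S : Finset ℕ)
  (hNS : ∀ q : ℕ, q.Prime → q ∣ N → q ∈ (↑S : Set ℕ))
  (𝒪 : Type) [CommRing 𝒪] [IsAddTorsionFree 𝒪]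

/-- the lattice `Y0 = Hom_par(Γ₀(N), 𝒪)`. -/
abbrev Y0 : Type := ↥(parabolicHoms 𝒪 (Gamma0 N) 𝒪)

/-- the action of the anemic Hecke algebra on `Y0`. -/
def actT : heckeAlgebra N 2 (↑S : Set ℕ) →ₐ[ℤ] Module.End 𝒪 (Y0 N 𝒪) :=
  ((ParTensor3.tensorEquiv (Gamma0 N) 𝒪).conjAlgEquiv ℤ).toAlgHom.comp
    ((Module.End.baseChangeHom ℤ 𝒪 ↥(Lam N)).comp (heckeLam (↑S : Set ℕ) hNS))

theorem actT_apply (t : heckeAlgebra N 2 (↑S : Set ℕ)) (x : 𝒪 ⊗[ℤ] ↥(Lam N)) :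
    actT N S hNS 𝒪 t (ParTensor3.tensorEquiv (Gamma0 N) 𝒪 x) =
      ParTensor3.tensorEquiv (Gamma0 N) 𝒪 ((heckeLam (↑S : Set ℕ) hNS t).baseChange 𝒪 x) := by
  show (ParTensor3.tensorEquiv (Gamma0 N) 𝒪) (((heckeLam (↑S : Set ℕ) hNS t).baseChange 𝒪)
    ((ParTensor3.tensorEquiv (Gamma0 N) 𝒪).symm (ParTensor3.tensorEquiv (Gamma0 N) 𝒪 x))) = _
  rw [LinearEquiv.symm_apply_apply]

/-- the double coset operator commutes with the scalar extension `Λ → Y0`. -/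
theorem tdcPar_castPar {ℓ : ℕ} [Fact ℓ.Prime] (hℓN : ¬ ℓ ∣ N) (φ : ↥(Lam N)) :
    tdcPar hℓN 𝒪 𝒪 (ParLattice11.castPar (Gamma0 N) 𝒪 φ) =
      ParLattice11.castPar (Gamma0 N) 𝒪 (tdcPar hℓN ℤ ℤ φ) := by
  apply Subtype.ext
  exact tdcAdd_comp hℓN (Int.castAddHom 𝒪) (φ : Additive (Gamma0 N) →+ ℤ)

/-- **`T_ℓ` acts on `Y0` as the double coset operator.** -/
theorem actT_T {ℓ : ℕ} [Fact ℓ.Prime] (hℓ : ℓ.Prime) (hℓN : ¬ ℓ ∣ N)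
    (hℓS : ℓ ∉ (↑S : Set ℕ)) :
    actT N S hNS 𝒪 (heckeAlgebra.T hℓ hℓN hℓS) = tdcPar hℓN 𝒪 𝒪 := by
  apply LinearMap.ext
  intro y
  obtain ⟨x, rfl⟩ := (ParTensor3.tensorEquiv (Gamma0 N) 𝒪).surjective y
  rw [actT_apply, heckeLam_T (↑S : Set ℕ) hNS ℓ hℓ hℓN hℓS]
  induction x using TensorProduct.induction_on with
  | zero => simp
  | tmul c φ =>
    rw [LinearMap.baseChange_tmul, ParTensor3.tensorEquiv_tmul, ParTensor3.tensorEquiv_tmul,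
      map_smul, tdcPar_castPar]
  | add x y hx hy => rw [map_add, map_add, hx, hy, map_add, map_add]

/-- the action of `𝒪 ⊗ 𝕋` on `Y0`. -/
def actY : BB N S 𝒪 →ₐ[𝒪] Module.End 𝒪 (Y0 N 𝒪) :=
  (Algebra.TensorProduct.lift (Algebra.ofId 𝒪 (Module.End 𝒪 (Y0 N 𝒪))) (actT N S hNS 𝒪)
    (fun c _ => Algebra.commutes c _) :
    𝒪 ⊗[ℤ] heckeAlgebra N 2 (↑S : Set ℕ) →ₐ[𝒪] Module.End 𝒪 (Y0 N 𝒪))

theorem actY_tm (c : 𝒪) (t : heckeAlgebra N 2 (↑S : Set ℕ)) :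
    actY N S hNS 𝒪 (tm N S 𝒪 c t) = c • actT N S hNS 𝒪 t := by
  show (Algebra.TensorProduct.lift (Algebra.ofId 𝒪 (Module.End 𝒪 (Y0 N 𝒪))) (actT N S hNS 𝒪)
    (fun c _ => Algebra.commutes c _)) (c ⊗ₜ[ℤ] t) = _
  rw [Algebra.TensorProduct.lift_tmul, Algebra.ofId_apply, Algebra.algebraMap_eq_smul_one,
    smul_mul_assoc, one_mul]

/-- **`1 ⊗ T_ℓ` acts on `Y0` as the double coset operator.** -/
theorem actY_T {ℓ : ℕ} [Fact ℓ.Prime] (hℓ : ℓ.Prime) (hℓN : ¬ ℓ ∣ N)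
    (hℓS : ℓ ∉ (↑S : Set ℕ)) :
    actY N S hNS 𝒪 (tm N S 𝒪 1 (heckeAlgebra.T hℓ hℓN hℓS)) = tdcPar hℓN 𝒪 𝒪 := by
  rw [actY_tm, one_smul, actT_T]

include hNS in
/-- the double coset operators commute on `Y0`. -/
theorem commute_tdcPar {ℓ ℓ' : ℕ} [Fact ℓ.Prime] [Fact ℓ'.Prime] (hℓN : ¬ ℓ ∣ N)
    (hℓ'N : ¬ ℓ' ∣ N) (hℓS : ℓ ∉ (↑S : Set ℕ)) (hℓ'S : ℓ' ∉ (↑S : Set ℕ)) :
    Commute (tdcPar hℓN 𝒪 𝒪) (tdcPar hℓ'N 𝒪 𝒪) := by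
  have hℓ : ℓ.Prime := Fact.out
  have hℓ' : ℓ'.Prime := Fact.out
  rw [← actY_T N S hNS 𝒪 hℓ hℓN hℓS, ← actY_T N S hNS 𝒪 hℓ' hℓ'N hℓ'S]
  unfold Commute SemiconjBy
  rw [← map_mul, ← map_mul, mul_comm]

end Fermat.Agent.M43.HeckeBridge1
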