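/-
M43 (lead) [P-CAR] CarFinal0: a Galois representation over the Hecke algebra from the
representations at its points (Chebotarev + Hensel + Carayol), in consumer form.

`T` complete local, `ψ i : T →+* O i` (finitely many, jointly injective, local, inducing the adic
topology of `T`), one member `i0` is the residue field (`ψ i0` surjective onto a field),
`ρ i : GaloisRepAdic (O i)` with characteristic polynomial `X² - ψ i (τ ℓ) X + ℓ` at the
Frobenius elements outside `S`.  If `ρ i0` has an element `g1` with two distinct eigenvalues in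
the residue field and no invariant line, then there is `ρT : GaloisRepAdic T` with
`ρT ⊗ O i ≃ ρ i` for all `i` and characteristic polynomial `X² - τ ℓ X + ℓ` at Frobenius elements.
-/
import Mathlib
import Fermat.Agent.M43.CarCheb0
import Fermat.Agent.M43.CarRep0

set_option autoImplicit false

namespace Fermat.Agent.M43.CarFinal0

open Fermat.Agent.S53 Fermat.Agent.S53.MatrixModel Fermat.Agent.M43.CarRep0
  Fermat.Agent.M43.CarMat0 Fermat.Agent.M43.CarCheb0 IsLocalRing Polynomial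

section Aux

variable {A : Type} [CommRing A] [IsLocalRing A]

theorem charpoly_eq_of_trace_det (ρ : GaloisRepAdic A) (σ : GQ) (t d : A)
    (ht : ρ.trace σ = t) (hd : LinearMap.det (ρ.ρ σ) = d) :
    LinearMap.charpoly (ρ.ρ σ) = X ^ 2 - C t * X + C d := by
  classical
  let b := someBasis ρ
  rw [← LinearMap.charpoly_toMatrix _ b, Matrix.charpoly_fin_two]
  have h1 : (LinearMap.toMatrix b b (ρ.ρ σ)).trace = t := by
    rw [← ht]; unfold GaloisRepAdic.trace; rw [LinearMap.trace_eq_matrix_trace A b]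
  have h2 : (LinearMap.toMatrix b b (ρ.ρ σ)).det = d := by
    rw [← hd, LinearMap.det_toMatrix]
  rw [h1, h2]

theorem det_baseChangeAlong {B : Type} [CommRing B] [IsLocalRing B] (φ : A →+* B)
    (hφ : IsLocalHom φ) (ρ : GaloisRepAdic A) (σ : GQ) :
    LinearMap.det ((ρ.baseChangeAlong φ hφ).ρ σ) = φ (LinearMap.det (ρ.ρ σ)) := by
  let _ : Algebra A B := φ.toAlgebra
  exact LinearMap.det_baseChange (ρ.ρ σ)

end Aux

section Main

variable {T : Type} [CommRing T] [IsLocalRing T] [IsAdicComplete (maximalIdeal T) T]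
  {ι : Type} [Finite ι] {O : ι → Type} [∀ i, CommRing (O i)] [∀ i, IsLocalRing (O i)]
  [∀ i, IsNoetherianRing (O i)]

/-- **A Galois representation over `T` from its points.** -/
theorem exists_galoisRepAdic_of_frobenius
    (ψ : ∀ i, T →+* O i) (hloc : ∀ i, IsLocalHom (ψ i))
    (hinj : ∀ x : T, (∀ i, ψ i x = 0) → x = 0)
    (htop : ∀ n : ℕ, ∃ N : ℕ, ∀ x : T,
      (∀ i, ψ i x ∈ maximalIdeal (O i) ^ N) → x ∈ maximalIdeal T ^ n)
    (ρ : ∀ i, GaloisRepAdic (O i)) (S : Finset ℕ) (τ : ℕ → T)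
    (hfrob : ∀ i, ∀ ℓ : ℕ, ℓ.Prime → ℓ ∉ S → ∀ A : ValuationSubring (AlgebraicClosure ℚ),
      A.LiesOverPrime ℓ → ∀ φ : GQ, A.IsFrobeniusAt φ ℓ →
        LinearMap.charpoly ((ρ i).ρ φ) = X ^ 2 - C (ψ i (τ ℓ)) * X + C ((ℓ : O i)))
    (i0 : ι) (hsurj : Function.Surjective (ψ i0)) (hfield : IsField (O i0))
    (g1 : GQ) (a b : O i0) (hab : a ≠ b) (htr1 : (ρ i0).trace g1 = a + b)
    (hdet1 : LinearMap.det ((ρ i0).ρ g1) = a * b)
    (hirr : ∀ v : (ρ i0).V, v ≠ 0 → ¬ ∀ σ : GQ, ∃ c : O i0, (ρ i0).ρ σ v = c • v) :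
    ∃ ρT : GaloisRepAdic T, (∀ i, (ρT.baseChangeAlong (ψ i) (hloc i)).IsEquiv (ρ i)) ∧
      ∀ ℓ : ℕ, ℓ.Prime → ℓ ∉ S → ∀ A : ValuationSubring (AlgebraicClosure ℚ),
        A.LiesOverPrime ℓ → ∀ φ : GQ, A.IsFrobeniusAt φ ℓ →
          LinearMap.charpoly (ρT.ρ φ) = X ^ 2 - C (τ ℓ) * X + C ((ℓ : T)) := by
  classical
  obtain ⟨t, d, ht, hd⟩ := exists_trace_det_function ψ hloc htop ρ S τ hfrob
  -- the kernel of `ψ i0` is the maximal ideal
  have hker : ∀ x : T, ψ i0 x = 0 ↔ x ∈ maximalIdeal T := by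
    intro x
    constructor
    · intro hx
      rw [mem_maximalIdeal]
      intro hu
      have h0 := hu.map (ψ i0)
      rw [hx] at h0
      have hnt : Nontrivial (O i0) := hfield.nontrivial
      exact not_isUnit_zero h0
    · intro hx
      by_contra hne
      obtain ⟨y, hy⟩ := hfield.mul_inv_cancel hne
      obtain ⟨z, rfl⟩ := hsurj y
      have h1 : ψ i0 (x * z) = 1 := by rw [map_mul, hy]
      have h2 : IsUnit (x * z) := by
        have := hloc i0
        exact (isUnit_map_iff (ψ i0) _).mp (h1 ▸ isUnit_one)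
      exact (mem_maximalIdeal _).mp hx (isUnit_of_mul_isUnit_left h2)
  have hunit_of : ∀ x : T, ψ i0 x ≠ 0 → IsUnit x := by
    intro x hx
    by_contra hnu
    exact hx ((hker x).mpr ((mem_maximalIdeal _).mpr hnu))
  -- Hensel: the eigenvalues of `g1` in `T`
  obtain ⟨a₀, ha₀⟩ := hsurj a
  let f : T[X] := X ^ 2 - C (t g1) * X + C (d g1)
  have hfmonic : f.Monic := by
    have : f = X ^ 2 - (C (t g1) * X - C (d g1)) := by simp only [f]; ring
    rw [this]
    apply Polynomial.monic_X_pow_sub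
    refine lt_of_le_of_lt (Polynomial.degree_sub_le _ _) ?_
    refine max_lt ?_ ?_
    · exact lt_of_le_of_lt (Polynomial.degree_C_mul_X_le _) (by norm_num)
    · exact lt_of_le_of_lt Polynomial.degree_C_le (by norm_num)
  have hψt : ψ i0 (t g1) = a + b := by rw [ht, htr1]
  have hψd : ψ i0 (d g1) = a * b := by rw [hd, hdet1]
  have hf0 : f.eval a₀ ∈ maximalIdeal T := by
    rw [← hker]
    simp only [f, eval_add, eval_sub, eval_pow, eval_X, eval_mul, eval_C, map_add, map_sub,
      map_pow, map_mul, ha₀, hψt, hψd]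
    ring
  have hf' : IsUnit (Ideal.Quotient.mk (maximalIdeal T) (f.derivative.eval a₀)) := by
    apply IsUnit.map
    apply hunit_of
    have hder : f.derivative.eval a₀ = 2 * a₀ - t g1 := by
      simp only [f]
      simp
      ring
    rw [hder, map_sub, map_mul, ha₀, hψt, map_ofNat]
    intro h
    apply hab
    linear_combination h
  obtain ⟨α, hα, hαa⟩ := HenselianRing.is_henselian (I := maximalIdeal T) f hfmonic a₀ hf0 hf'
  have hψα : ψ i0 α = a := by
    have : ψ i0 (α - a₀) = 0 := (hker _).mpr hαa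
    rw [map_sub, ha₀, sub_eq_zero] at this
    exact this
  set β : T := t g1 - α with hβ
  have hαβ : α * β = d g1 := by
    have h := hα
    simp only [IsRoot.def, f, eval_add, eval_sub, eval_pow, eval_X, eval_mul, eval_C] at h
    rw [hβ]; linear_combination -h
  have hψβ : ψ i0 β = b := by rw [hβ, map_sub, hψt, hψα]; ring
  have hdiffu : IsUnit (α - β) := by
    apply hunit_of
    rw [map_sub, hψα, hψβ]
    exact sub_ne_zero.mpr hab
  obtain ⟨u, hu⟩ := hdiffu
  -- preliminary trace data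
  let D0 : TraceData GQ T :=
    { t := t, g1 := g1, α := α, β := β, δ := ((u⁻¹ : Tˣ) : T)
      hδ := by rw [← hu]; exact u.mul_inv
      g0 := 1, h0 := 1, v := 0 }
  -- a diagonalised model of the residual member
  obtain ⟨r0, hr0, he0⟩ := exists_isEquiv_ofMatrix (ρ i0)
  have htr0 : ∀ σ, ψ i0 (t σ) = (r0 σ).trace := fun σ => by
    rw [ht, trace_eq_of_isEquiv he0, trace_ofMatrix]
  have hunit0 : IsUnit (ψ i0 α - ψ i0 β) := by
    rw [hψα, hψβ]
    exact (hfield.mul_inv_cancel (sub_ne_zero.mpr hab)).elim fun y hy => IsUnit.of_mul_eq_one _ hy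
  have htrM : (r0 g1).trace = ψ i0 α + ψ i0 β := by rw [← htr0, hψt, hψα, hψβ]
  have hdetM : (r0 g1).det = ψ i0 α * ψ i0 β := by
    rw [← det_ofMatrix r0 hr0, ← det_eq_of_isEquiv he0, hdet1, hψα, hψβ]
  obtain ⟨g, g', hgg', hg'g, hdiag⟩ :=
    exists_conj_diagonal (r0 g1) (ψ i0 α) (ψ i0 β) hunit0 htrM hdetM
  set r1 := conj r0 g g' hg'g with hr1def
  have hr1 : MatCont r1 := matCont_conj hr0 g g' hg'g
  have he1 : (ρ i0).IsEquiv (ofMatrix r1 hr1) := isEquiv_trans he0 (isEquiv_conj hr0 g g' hg'g)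
  have hg1m : r1 g1 = !![ψ i0 α, 0; 0, ψ i0 β] := by rw [hr1def, conj_apply, hdiag]
  have hD1 : IsDiagonalized (ψ i0) D0 r1 :=
    { trace_eq := fun σ => by rw [hr1def, trace_conj]; exact htr0 σ
      g1_00 := by rw [hg1m]; rfl
      g1_01 := by rw [hg1m]; rfl
      g1_10 := by rw [hg1m]; rfl
      g1_11 := by rw [hg1m]; rfl }
  -- irreducibility in the matrix model
  obtain ⟨e1⟩ := he1
  have hline : ∀ w : Fin 2 → O i0, w ≠ 0 → ¬ ∀ σ : GQ, ∃ c : O i0, (r1 σ).mulVec w = c • w := by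
    intro w hw hall
    apply hirr (e1.toLinearEquiv.symm w)
      (fun h => hw (by
        have h' := congrArg e1.toLinearEquiv h
        rwa [LinearEquiv.apply_symm_apply, map_zero] at h'))
    intro σ
    obtain ⟨c, hc⟩ := hall σ
    refine ⟨c, ?_⟩
    apply e1.toLinearEquiv.injective
    rw [e1.map_apply, LinearEquiv.apply_symm_apply, map_smul, LinearEquiv.apply_symm_apply]
    exact hc
  have hex01 : ∃ g0 : GQ, r1 g0 0 1 ≠ 0 := by
    by_contra hcon
    rw [not_exists] at hcon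
    apply hline ![0, 1] (by intro h; simpa using congrFun h 1)
    intro σ
    refine ⟨r1 σ 1 1, ?_⟩
    have h01 : r1 σ 0 1 = 0 := not_not.mp (hcon σ)
    ext k
    fin_cases k <;> simp [Matrix.mulVec, dotProduct, Fin.sum_univ_two, h01]
  have hex10 : ∃ h0 : GQ, r1 h0 1 0 ≠ 0 := by
    by_contra hcon
    rw [not_exists] at hcon
    apply hline ![1, 0] (by intro h; simpa using congrFun h 0)
    intro σ
    refine ⟨r1 σ 0 0, ?_⟩
    have h10 : r1 σ 1 0 = 0 := not_not.mp (hcon σ)
    ext k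
    fin_cases k <;> simp [Matrix.mulVec, dotProduct, Fin.sum_univ_two, h10]
  obtain ⟨g0, hg0⟩ := hex01
  obtain ⟨h0, hh0⟩ := hex10
  have hxunit : IsUnit (D0.x g0 h0) := by
    apply hunit_of
    rw [hD1.map_x]
    have : IsDomain (O i0) := hfield.isDomain
    exact mul_ne_zero hg0 hh0
  obtain ⟨w, hw⟩ := hxunit
  -- the final trace data
  let D : TraceData GQ T :=
    { t := t, g1 := g1, α := α, β := β, δ := ((u⁻¹ : Tˣ) : T)
      hδ := by rw [← hu]; exact u.mul_inv
      g0 := g0, h0 := h0, v := ((w⁻¹ : Tˣ) : T) }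
  have hDx : D.x D.g0 D.h0 = D0.x g0 h0 := rfl
  have hv : D.x D.g0 D.h0 * D.v = 1 := by
    rw [hDx, ← hw]; exact w.mul_inv
  have ht1 : D.t D.g1 = D.α + D.β := by
    show t g1 = α + (t g1 - α)
    ring
  have hdetall : ∀ i, LinearMap.det ((ρ i).ρ D.g1) = ψ i (D.α * D.β) := by
    intro i
    show LinearMap.det ((ρ i).ρ g1) = ψ i (α * β)
    rw [hαβ, hd]
  obtain ⟨ρT, htrT, heT⟩ :=
    exists_galoisRepAdic_of_traces ψ hloc hinj htop ρ D (fun i σ => ht i σ) ht1 hdetall hv
  refine ⟨ρT, heT, fun ℓ hℓ hℓS A hA φ hφ => ?_⟩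
  apply charpoly_eq_of_trace_det
  · -- trace
    rw [htrT]
    show t φ = τ ℓ
    have : t φ - τ ℓ = 0 := by
      apply hinj
      intro i
      have h1 := hfrob i ℓ hℓ hℓS A hA φ hφ
      have h2 := charpoly_eq_of_trace_det (ρ i) φ _ _ rfl rfl
      rw [h2] at h1
      have h3 := congrArg (fun f => Polynomial.coeff f 1) h1
      simp only [coeff_add, coeff_sub, coeff_X_pow, coeff_C_mul, coeff_X_one, coeff_C] at h3
      norm_num at h3
      rw [map_sub, ht, h3, sub_self]
    exact sub_eq_zero.mp this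
  · -- determinant
    have : LinearMap.det (ρT.ρ φ) - (ℓ : T) = 0 := by
      apply hinj
      intro i
      have h1 := hfrob i ℓ hℓ hℓS A hA φ hφ
      have h2 := charpoly_eq_of_trace_det (ρ i) φ _ _ rfl rfl
      rw [h2] at h1
      have h3 := congrArg (fun f => Polynomial.coeff f 0) h1
      simp only [coeff_add, coeff_sub, coeff_X_pow, coeff_C_mul, coeff_X_zero, coeff_C_zero] at h3
      norm_num at h3
      rw [map_sub, ← det_baseChangeAlong (ψ i) (hloc i), det_eq_of_isEquiv (heT i), h3,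
        map_natCast, sub_self]
    exact sub_eq_zero.mp this

end Main

end Fermat.Agent.M43.CarFinal0
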