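import Mathlib

/-!
# M43 / P-PATCH: ultrafilter limits in finite sets and limits of algebra homomorphisms
-/

namespace Fermat.Agent.M43.Thread2

open Filter

/-! ### Ultrafilter limits of sequences in finite sets -/

theorem ge_mem_hyper (N : ℕ) : ∀ᶠ n in (hyperfilter ℕ : Filter ℕ), N ≤ n :=
  Nat.hyperfilter_le_atTop (Filter.eventually_ge_atTop N)

theorem exists_ulim {Y : Type*} [Finite Y] (f : ℕ → Y) :
    ∃ y, ∀ᶠ n in (hyperfilter ℕ : Filter ℕ), f n = y := by
  obtain ⟨y, hy⟩ := Ultrafilter.eq_pure_of_finite ((hyperfilter ℕ).map f)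
  refine ⟨y, ?_⟩
  have h1 : ({y} : Set Y) ∈ ((hyperfilter ℕ).map f : Filter Y) := by
    rw [hy]; exact Filter.mem_pure.2 rfl
  exact h1

/-- The limit of a sequence in a finite set along the fixed non-principal ultrafilter. -/
noncomputable def ulim {Y : Type*} [Finite Y] (f : ℕ → Y) : Y := (exists_ulim f).choose

theorem ulim_spec {Y : Type*} [Finite Y] (f : ℕ → Y) :
    ∀ᶠ n in (hyperfilter ℕ : Filter ℕ), f n = ulim f :=
  (exists_ulim f).choose_spec

/-! ### Limits of algebra homomorphisms -/

universe u v w

variable {O : Type*} [CommRing O]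

/-- `A` is the limit of the tower `A' N`. -/
structure IsLim {A : Type u} [Ring A] [Algebra O A] {A' : ℕ → Type v} [∀ N, Ring (A' N)]
    [∀ N, Algebra O (A' N)] (π : ∀ N, A →ₐ[O] A' N) (τ : ∀ N, A' (N + 1) →ₐ[O] A' N) : Prop where
  compat : ∀ N a, τ N (π (N + 1) a) = π N a
  sep : ∀ a b : A, (∀ N, π N a = π N b) → a = b
  complete : ∀ t : ∀ N, A' N, (∀ N, τ N (t (N + 1)) = t N) → ∃ a : A, ∀ N, π N a = t N

namespace IsLim

variable {A : Type u} [Ring A] [Algebra O A] {A' : ℕ → Type v} [∀ N, Ring (A' N)]
    [∀ N, Algebra O (A' N)] {π : ∀ N, A →ₐ[O] A' N} {τ : ∀ N, A' (N + 1) →ₐ[O] A' N}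

/-- A compatible family of algebra homs into the tower comes from an algebra hom into the limit. -/
theorem exists_hom (h : IsLim π τ) {B : Type w} [Ring B] [Algebra O B] (b : ∀ N, B →ₐ[O] A' N)
    (hb : ∀ N x, τ N (b (N + 1) x) = b N x) :
    ∃ β : B →ₐ[O] A, ∀ N x, π N (β x) = b N x := by
  choose f hf using fun x : B => h.complete (fun N => b N x) (fun N => hb N x)
  refine ⟨{ toFun := f
            map_one' := ?_
            map_mul' := ?_
            map_zero' := ?_
            map_add' := ?_
            commutes' := ?_ }, fun N x => hf x N⟩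
  · exact h.sep _ _ fun N => by rw [hf, map_one, map_one]
  · intro x y
    exact h.sep _ _ fun N => by rw [hf, map_mul, map_mul, hf, hf]
  · exact h.sep _ _ fun N => by rw [hf, map_zero, map_zero]
  · intro x y
    exact h.sep _ _ fun N => by rw [hf, map_add, map_add, hf, hf]
  · intro c
    exact h.sep _ _ fun N => by rw [hf, AlgHom.commutes, AlgHom.commutes]

/-- Entrywise limits: matrices over a limit are the limit of the matrices. -/
theorem matrix (h : IsLim π τ) (d : ℕ) :
    IsLim (fun N => (π N).mapMatrix (m := Fin d)) (fun N => (τ N).mapMatrix (m := Fin d)) where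
  compat N a := by
    ext i j
    simp only [AlgHom.mapMatrix_apply, Matrix.map_apply]
    exact h.compat N (a i j)
  sep a b hab := by
    ext i j
    refine h.sep _ _ fun N => ?_
    have := congrFun (congrFun (hab N) i) j
    simpa [AlgHom.mapMatrix_apply, Matrix.map_apply] using this
  complete t ht := by
    choose f hf using fun i j => h.complete (fun N => t N i j) (fun N => by
      have := congrFun (congrFun (ht N) i) j
      simpa [AlgHom.mapMatrix_apply, Matrix.map_apply] using this)
    refine ⟨Matrix.of f, fun N => ?_⟩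
    ext i j
    simp only [AlgHom.mapMatrix_apply, Matrix.map_apply, Matrix.of_apply]
    exact hf i j N

end IsLim

end Fermat.Agent.M43.Thread2
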