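/-
M43 (helper3) [P-GLOB / (6d)] Chev3: **Chevalley's lemma** and the topology condition `htop` of
`CarFinal0.exists_galoisRepAdic_of_frobenius`.

`T` a complete noetherian local ring with FINITE residue field.
* `exists_le_pow` : an antitone sequence of ideals `J N` of `T` with `⨅ N, J N = ⊥` is cofinal with
  the powers of the maximal ideal: `∀ n, ∃ N, J N ≤ 𝔪 ^ n`  (ultrafilter limit in the finite rings
  `T ⧸ 𝔪 ^ m` + completeness + closedness of ideals).
* `htop_of_hinj` : for ANY jointly injective family of ring homomorphisms `ψ i : T →+* O i` into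
  noetherian local rings: `∀ n, ∃ N, ∀ x, (∀ i, ψ i x ∈ 𝔪_i ^ N) → x ∈ 𝔪_T ^ n`.
So the hypothesis `htop` of the lead's P-CAR theorems is automatic in the Hecke situation.
-/
import Mathlib
import Fermat.Agent.M43.Thread2

set_option autoImplicit false

namespace Fermat.Agent.M43.Chev3

open IsLocalRing Filter Fermat.Agent.M43.Thread2

section Closed

variable {T : Type*} [CommRing T] [IsLocalRing T] [IsNoetherianRing T]

/-- Ideals of a noetherian local ring are closed for the `𝔪`-adic topology. -/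
theorem mem_of_forall_mem_sup_pow' (J : Ideal T) (x : T)
    (h : ∀ k : ℕ, x ∈ J ⊔ maximalIdeal T ^ k) : x ∈ J := by
  have hkrull := Ideal.iInf_pow_smul_eq_bot_of_isLocalRing (R := T) (M := T ⧸ J)
    (maximalIdeal T) Ideal.IsPrime.ne_top'
  have hmem : (Ideal.Quotient.mk J x : T ⧸ J) ∈
      (⨅ i : ℕ, maximalIdeal T ^ i • (⊤ : Submodule T (T ⧸ J))) := by
    rw [Submodule.mem_iInf]
    intro k
    obtain ⟨y, hy, z, hz, hyz⟩ := Submodule.mem_sup.mp (h k)
    have e : (Ideal.Quotient.mk J x : T ⧸ J) = z • (Ideal.Quotient.mk J 1 : T ⧸ J) := by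
      rw [← hyz, map_add, Ideal.Quotient.eq_zero_iff_mem.mpr hy, zero_add]
      show _ = Ideal.Quotient.mk J (z • (1 : T))
      rw [smul_eq_mul, mul_one]
    rw [e]
    exact Submodule.smul_mem_smul hz Submodule.mem_top
  rw [hkrull, Submodule.mem_bot] at hmem
  exact Ideal.Quotient.eq_zero_iff_mem.mp hmem

end Closed

section Chevalley

variable {T : Type*} [CommRing T] [IsLocalRing T] [IsNoetherianRing T]
  [IsAdicComplete (maximalIdeal T) T] [Finite (ResidueField T)]

theorem finite_quotient_pow (m : ℕ) : Finite (T ⧸ maximalIdeal T ^ m) := by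
  haveI : Finite (T ⧸ maximalIdeal T) := ‹Finite (ResidueField T)›
  exact Ideal.finite_quotient_pow (IsNoetherian.noetherian _) m

/-- **Chevalley's lemma.** -/
theorem exists_le_pow (J : ℕ → Ideal T) (hJ : Antitone J) (hbot : ⨅ N, J N = ⊥) (n : ℕ) :
    ∃ N, J N ≤ maximalIdeal T ^ n := by
  classical
  by_contra hcon
  push Not at hcon
  have hex : ∀ N, ∃ y ∈ J N, y ∉ maximalIdeal T ^ n := fun N => Set.not_subset.mp (hcon N)
  choose y hyJ hyn using hex
  set 𝔪 := maximalIdeal T with h𝔪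
  haveI : ∀ m, Finite (T ⧸ 𝔪 ^ m) := fun m => finite_quotient_pow m
  -- the thread
  let t : ∀ m, T ⧸ 𝔪 ^ m := fun m => ulim fun N => Ideal.Quotient.mk (𝔪 ^ m) (y N)
  have ht : ∀ m, ∀ᶠ N in (hyperfilter ℕ : Filter ℕ), Ideal.Quotient.mk (𝔪 ^ m) (y N) = t m :=
    fun m => ulim_spec _
  -- representatives
  have hz : ∀ m, ∃ z : T, Ideal.Quotient.mk (𝔪 ^ m) z = t m :=
    fun m => Ideal.Quotient.mk_surjective _
  choose z hzt using hz
  -- `z m` is congruent to `y N` for suitable large `N`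
  have hzy : ∀ m N0, ∃ N, N0 ≤ N ∧ z m - y N ∈ 𝔪 ^ m := by
    intro m N0
    obtain ⟨N, h1, h2⟩ := ((ht m).and (ge_mem_hyper N0)).exists
    refine ⟨N, h2, ?_⟩
    rw [← Ideal.Quotient.eq, hzt, h1]
  -- the sequence is Cauchy
  have hcauchy : ∀ {m m' : ℕ}, m ≤ m' → z m ≡ z m' [SMOD (𝔪 ^ m • ⊤ : Submodule T T)] := by
    intro m m' hmm'
    rw [SModEq.sub_mem, smul_eq_mul, Ideal.mul_top]
    obtain ⟨N, h1, h2⟩ := ((ht m).and (ht m')).exists
    have e1 : z m - y N ∈ 𝔪 ^ m := by rw [← Ideal.Quotient.eq, hzt, h1]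
    have e2 : z m' - y N ∈ 𝔪 ^ m := by
      have : z m' - y N ∈ 𝔪 ^ m' := by rw [← Ideal.Quotient.eq, hzt, h2]
      exact Ideal.pow_le_pow_right hmm' this
    have := Ideal.sub_mem _ e1 e2
    rwa [sub_sub_sub_cancel_right] at this
  obtain ⟨x, hx⟩ := IsPrecomplete.prec (IsAdicComplete.toIsPrecomplete (I := 𝔪) (M := T)) hcauchy
  have hx' : ∀ m, z m - x ∈ 𝔪 ^ m := by
    intro m
    have := hx m
    rwa [SModEq.sub_mem, smul_eq_mul, Ideal.mul_top] at this
  -- `x ∉ 𝔪 ^ n`
  have hxn : x ∉ 𝔪 ^ n := by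
    intro hxmem
    obtain ⟨N, -, hN⟩ := hzy n 0
    have h1 : z n ∈ 𝔪 ^ n := by
      have := Ideal.add_mem _ (hx' n) hxmem
      rwa [sub_add_cancel] at this
    have h2 : y N ∈ 𝔪 ^ n := by
      have := Ideal.sub_mem _ h1 hN
      rwa [sub_sub_cancel] at this
    exact hyn N h2
  -- `x ∈ J N0` for all `N0`
  have hxJ : ∀ N0, x ∈ J N0 := by
    intro N0
    apply mem_of_forall_mem_sup_pow'
    intro k
    obtain ⟨N, hN0, hN⟩ := hzy k N0
    have h1 : x - y N ∈ 𝔪 ^ k := by
      have := Ideal.sub_mem _ hN (hx' k)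
      rwa [sub_sub_sub_cancel_left] at this
    have h2 : x = y N + (x - y N) := by ring
    rw [h2]
    exact Submodule.add_mem_sup (hJ hN0 (hyJ N)) h1
  have hx0 : x ∈ ⨅ N, J N := by
    rw [Ideal.mem_iInf]; exact hxJ
  rw [hbot, Ideal.mem_bot] at hx0
  exact hxn (hx0 ▸ Ideal.zero_mem _)

/-- **The topology condition of P-CAR is automatic**: a jointly injective family of ring
homomorphisms from a complete noetherian local ring with finite residue field into noetherian
local rings induces the adic topology. -/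
theorem htop_of_hinj {ι : Type*} {O : ι → Type*} [∀ i, CommRing (O i)] [∀ i, IsLocalRing (O i)]
    [∀ i, IsNoetherianRing (O i)] (ψ : ∀ i, T →+* O i)
    (hinj : ∀ x : T, (∀ i, ψ i x = 0) → x = 0) (n : ℕ) :
    ∃ N : ℕ, ∀ x : T, (∀ i, ψ i x ∈ maximalIdeal (O i) ^ N) → x ∈ maximalIdeal T ^ n := by
  let J : ℕ → Ideal T := fun N => ⨅ i, (maximalIdeal (O i) ^ N).comap (ψ i)
  have hJ : Antitone J := by
    intro N N' hNN' x hx
    rw [Ideal.mem_iInf] at hx ⊢
    intro i
    exact Ideal.pow_le_pow_right hNN' (hx i)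
  have hbot : ⨅ N, J N = ⊥ := by
    rw [eq_bot_iff]
    intro x hx
    rw [Ideal.mem_iInf] at hx
    rw [Ideal.mem_bot]
    apply hinj
    intro i
    have h1 : ψ i x ∈ ⨅ N, maximalIdeal (O i) ^ N := by
      rw [Ideal.mem_iInf]
      intro N
      have := hx N
      rw [Ideal.mem_iInf] at this
      exact this i
    rw [Ideal.iInf_pow_eq_bot_of_isLocalRing _ (Ideal.IsMaximal.ne_top inferInstance)] at h1
    exact h1
  obtain ⟨N, hN⟩ := exists_le_pow J hJ hbot n
  refine ⟨N, fun x hx => hN ?_⟩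
  rw [Ideal.mem_iInf]
  exact hx

end Chevalley

end Fermat.Agent.M43.Chev3
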