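/-
M43 (helper3) [(6d) / block (α)] DatumRep3: **P-CAR in the form used for a local Hecke algebra.**

`T` a complete noetherian local ring with finite residue field, a FINITE jointly injective family of
local homomorphisms `ψ i : T →+* O i` into noetherian local rings with representations `ρ i` over
`O i`, and a representation `ρ0` over the RESIDUE FIELD of `T`, all with characteristic polynomials
`X² - (image of τ ℓ) X + ℓ` at the Frobenius elements outside `S`; `ρ0` has an element with two
distinct eigenvalues in the residue field and no invariant line.  Then there is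
`ρT : GaloisRepAdic T` with characteristic polynomials `X² - τ ℓ X + ℓ`
(`exists_galoisRepAdic_of_points`: `CarFinal0.exists_galoisRepAdic_of_frobenius` for the family
indexed by `Option ι`, the topology condition from `Chev3.htop_of_hinj`).
-/
import Mathlib
import Fermat.Agent.M43.CarFinal0
import Fermat.Agent.M43.Chev3

set_option autoImplicit false

namespace Fermat.Agent.M43.DatumRep3

open IsLocalRing Polynomial

local notation "Qb" => AlgebraicClosure ℚ
local notation "GQ" => (AlgebraicClosure ℚ ≃ₐ[ℚ] AlgebraicClosure ℚ)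

/-- the family `O` extended by one more member `R` at `none`. -/
def optFam (R : Type) {ι : Type} (O : ι → Type) : Option ι → Type
  | none => R
  | some i => O i

section Inst

variable (R : Type) {ι : Type} (O : ι → Type)

instance optFam.instCommRing [CommRing R] [∀ i, CommRing (O i)] :
    ∀ o, CommRing (optFam R O o)
  | none => (inferInstance : CommRing R)
  | some i => (inferInstance : CommRing (O i))

instance optFam.instIsLocalRing [CommRing R] [∀ i, CommRing (O i)] [IsLocalRing R]
    [∀ i, IsLocalRing (O i)] : ∀ o, IsLocalRing (optFam R O o)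
  | none => (inferInstance : IsLocalRing R)
  | some i => (inferInstance : IsLocalRing (O i))

instance optFam.instIsNoetherianRing [CommRing R] [∀ i, CommRing (O i)] [IsNoetherianRing R]
    [∀ i, IsNoetherianRing (O i)] : ∀ o, IsNoetherianRing (optFam R O o)
  | none => (inferInstance : IsNoetherianRing R)
  | some i => (inferInstance : IsNoetherianRing (O i))

end Inst

section Main

variable {T : Type} [CommRing T] [IsLocalRing T] [IsNoetherianRing T]
  [IsAdicComplete (maximalIdeal T) T] [Finite (ResidueField T)]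
  {ι : Type} [Finite ι] {O : ι → Type} [∀ i, CommRing (O i)] [∀ i, IsLocalRing (O i)]
  [∀ i, IsNoetherianRing (O i)]

/-- **A Galois representation over `T` from its points and its residual representation.** -/
theorem exists_galoisRepAdic_of_points
    (ψ : ∀ i, T →+* O i) (hloc : ∀ i, IsLocalHom (ψ i))
    (hinj : ∀ x : T, (∀ i, ψ i x = 0) → x = 0)
    (ρ : ∀ i, GaloisRepAdic (O i)) (S : Finset ℕ) (τ : ℕ → T)
    (hfrob : ∀ i, ∀ ℓ : ℕ, ℓ.Prime → ℓ ∉ S → ∀ A : ValuationSubring Qb,
      A.LiesOverPrime ℓ → ∀ φ : GQ, A.IsFrobeniusAt φ ℓ →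
        LinearMap.charpoly ((ρ i).ρ φ) = X ^ 2 - C (ψ i (τ ℓ)) * X + C ((ℓ : O i)))
    (ρ0 : GaloisRepAdic (ResidueField T))
    (hfrob0 : ∀ ℓ : ℕ, ℓ.Prime → ℓ ∉ S → ∀ A : ValuationSubring Qb,
      A.LiesOverPrime ℓ → ∀ φ : GQ, A.IsFrobeniusAt φ ℓ →
        LinearMap.charpoly (ρ0.ρ φ) =
          X ^ 2 - C (residue T (τ ℓ)) * X + C ((ℓ : ResidueField T)))
    (g1 : GQ) (a b : ResidueField T) (hab : a ≠ b) (htr1 : ρ0.trace g1 = a + b)
    (hdet1 : LinearMap.det (ρ0.ρ g1) = a * b)
    (hirr : ∀ v : ρ0.V, v ≠ 0 → ¬ ∀ σ : GQ, ∃ c : ResidueField T, ρ0.ρ σ v = c • v) :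
    ∃ ρT : GaloisRepAdic T,
      ∀ ℓ : ℕ, ℓ.Prime → ℓ ∉ S → ∀ A : ValuationSubring Qb,
        A.LiesOverPrime ℓ → ∀ φ : GQ, A.IsFrobeniusAt φ ℓ →
          LinearMap.charpoly (ρT.ρ φ) = X ^ 2 - C (τ ℓ) * X + C ((ℓ : T)) := by
  classical
  let ψ' : ∀ o : Option ι, T →+* optFam (ResidueField T) O o := fun o =>
    match o with
    | none => residue T
    | some i => ψ i
  let ρ' : ∀ o : Option ι, GaloisRepAdic (optFam (ResidueField T) O o) := fun o =>
    match o with
    | none => ρ0
    | some i => ρ i
  have hloc' : ∀ o, IsLocalHom (ψ' o) := by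
    intro o
    cases o with
    | none => exact (inferInstance : IsLocalHom (residue T))
    | some i => exact hloc i
  have hinj' : ∀ x : T, (∀ o, ψ' o x = 0) → x = 0 := fun x hx => hinj x fun i => hx (some i)
  have htop := Chev3.htop_of_hinj ψ' hinj'
  obtain ⟨ρT, -, hT⟩ := CarFinal0.exists_galoisRepAdic_of_frobenius ψ' hloc' hinj' htop ρ' S τ
    (by
      intro o
      cases o with
      | none => exact hfrob0
      | some i => exact hfrob i)
    none (residue_surjective : Function.Surjective (residue T))
    (Field.toIsField (ResidueField T)) g1 a b hab htr1 hdet1 hirr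
  exact ⟨ρT, hT⟩

end Main

end Fermat.Agent.M43.DatumRep3
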