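/-
M43 (helper3) [P-GLOB / (6d-GAL)] GlobBN3: **Brauer–Nesbitt for two-dimensional residual
representations, from the lead's P-CAR.**

Two representations `ρ₁, ρ₂ : GaloisRepAdic k` over a FIELD `k` with the same characteristic
polynomials `X² - τ_ℓ X + ℓ` at the Frobenius elements outside a finite set, `ρ₁` having an
element with two distinct eigenvalues in `k` and no invariant line, are equivalent
(`isEquiv_of_charpoly_frob`: `CarFinal0.exists_galoisRepAdic_of_frobenius` with `T = O₁ = O₂ = k`).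
`residual_isEquiv_of_charpoly_frob` is the same for `ResidualGaloisRep k`, with the element taken to
be complex conjugation (`p` odd, `det ρ̄ = ε̄`) and 'no invariant line' from irreducibility.
Consumer: the hypothesis `_hlift` of `GlobFinal3.exists_tw_generators_loc` for a Hecke algebra.
-/
import Mathlib
import Fermat.Agent.M43.CarFinal0
import Fermat.Agent.W56.Ad0Facts9

set_option autoImplicit false
set_option linter.unusedSectionVars false

namespace Fermat.Agent.M43.GlobBN3

open IsLocalRing Polynomial Fermat.Agent.M43.CarRep0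
open scoped TensorProduct

local notation "Qb" => AlgebraicClosure ℚ
local notation "GQ" => (AlgebraicClosure ℚ ≃ₐ[ℚ] AlgebraicClosure ℚ)

section Field

variable {k : Type} [Field k]

theorem isAdicComplete_field : IsAdicComplete (maximalIdeal k) k := by
  rw [IsLocalRing.maximalIdeal_eq_bot]
  infer_instance

/-- base change along the identity is an equivalence. -/
theorem isEquiv_baseChangeAlong_id {A : Type} [CommRing A] [IsLocalRing A] (ρ : GaloisRepAdic A)
    (h : IsLocalHom (RingHom.id A)) :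
    (ρ.baseChangeAlong (RingHom.id A) h).IsEquiv ρ := by
  letI : Algebra A A := (RingHom.id A).toAlgebra
  refine ⟨⟨TensorProduct.lid A ρ.V, fun σ x => ?_⟩⟩
  show TensorProduct.lid A ρ.V ((ρ.ρ σ).baseChange A x) = ρ.ρ σ (TensorProduct.lid A ρ.V x)
  induction x using TensorProduct.induction_on with
  | zero => simp only [map_zero]
  | tmul b v =>
    rw [LinearMap.baseChange_tmul, TensorProduct.lid_tmul, TensorProduct.lid_tmul, map_smul]
  | add x y hx hy => simp only [map_add, hx, hy]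

/-- **Brauer–Nesbitt** over a field, Frobenius form. -/
theorem isEquiv_of_charpoly_frob (ρ₁ ρ₂ : GaloisRepAdic k) (S : Finset ℕ) (τ : ℕ → k)
    (h₁ : ∀ ℓ : ℕ, ℓ.Prime → ℓ ∉ S → ∀ A : ValuationSubring Qb, A.LiesOverPrime ℓ →
      ∀ φ : GQ, A.IsFrobeniusAt φ ℓ →
        LinearMap.charpoly (ρ₁.ρ φ) = X ^ 2 - C (τ ℓ) * X + C ((ℓ : k)))
    (h₂ : ∀ ℓ : ℕ, ℓ.Prime → ℓ ∉ S → ∀ A : ValuationSubring Qb, A.LiesOverPrime ℓ →
      ∀ φ : GQ, A.IsFrobeniusAt φ ℓ →
        LinearMap.charpoly (ρ₂.ρ φ) = X ^ 2 - C (τ ℓ) * X + C ((ℓ : k)))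
    (g1 : GQ) (a b : k) (hab : a ≠ b) (htr1 : ρ₁.trace g1 = a + b)
    (hdet1 : LinearMap.det (ρ₁.ρ g1) = a * b)
    (hirr : ∀ v : ρ₁.V, v ≠ 0 → ¬ ∀ σ : GQ, ∃ c : k, ρ₁.ρ σ v = c • v) :
    ρ₁.IsEquiv ρ₂ := by
  classical
  haveI : IsAdicComplete (maximalIdeal k) k := isAdicComplete_field
  let O : Fin 2 → Type := fun _ => k
  let ψ : ∀ i : Fin 2, k →+* O i := fun _ => RingHom.id k
  have hloc : ∀ i, IsLocalHom (ψ i) := fun _ => ⟨fun _ h => h⟩
  let ρ : ∀ i : Fin 2, GaloisRepAdic (O i) := fun i => if i = 0 then ρ₁ else ρ₂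
  have hρ0 : ρ 0 = ρ₁ := rfl
  have hρ1 : ρ 1 = ρ₂ := rfl
  obtain ⟨ρT, hT, -⟩ := CarFinal0.exists_galoisRepAdic_of_frobenius (T := k) (O := O) ψ hloc
    (fun x hx => hx 0)
    (fun n => ⟨n, fun x hx => hx 0⟩) ρ S τ
    (fun i ℓ hℓ hℓS A hA φ hφ => by
      fin_cases i
      · exact h₁ ℓ hℓ hℓS A hA φ hφ
      · exact h₂ ℓ hℓ hℓS A hA φ hφ)
    0 (fun x => ⟨x, rfl⟩) (Field.toIsField k) g1 a b hab htr1 hdet1 hirr
  have e0 := hT 0
  have e1 := hT 1
  have hid := isEquiv_baseChangeAlong_id ρT (hloc 0)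
  exact isEquiv_trans (isEquiv_trans (isEquiv_symm e0) hid)
    (isEquiv_trans (isEquiv_symm hid) e1)

end Field

section Residual

variable {k : Type} [Field k]

/-- from `GaloisRepAdic.IsEquiv` of the associated adic representations. -/
theorem residual_isEquiv_of_isEquiv {ρ₁ ρ₂ : ResidualGaloisRep k}
    (h : (GaloisRepAdic.ofResidualGaloisRep ρ₁).IsEquiv (GaloisRepAdic.ofResidualGaloisRep ρ₂)) :
    ρ₁.IsEquiv ρ₂ := by
  obtain ⟨e⟩ := h
  exact ⟨⟨e.toLinearEquiv, e.map_apply⟩⟩

/-- an irreducible representation has no invariant line. -/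
theorem no_invariant_line_of_isIrreducible (ρ : ResidualGaloisRep k) (h : ρ.IsIrreducible)
    (v : ρ.V) (hv : v ≠ 0) : ¬ ∀ σ : GQ, ∃ c : k, ρ.ρ σ v = c • v := by
  intro hall
  rcases h (Submodule.span k {v}) (fun σ x hx => by
    obtain ⟨c, hc⟩ := hall σ
    obtain ⟨d, rfl⟩ := Submodule.mem_span_singleton.mp hx
    rw [map_smul, hc, smul_smul]
    exact Submodule.mem_span_singleton.mpr ⟨_, rfl⟩) with h0 | h1
  · exact hv ((Submodule.span_singleton_eq_bot).mp h0)
  · have hfin : Module.finrank k ρ.V = 2 := ρ.finrank_eq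
    have : Module.finrank k (Submodule.span k {v}) = 1 := finrank_span_singleton hv
    rw [h1, finrank_top, hfin] at this
    omega

/-- an absolutely irreducible representation has no invariant line. -/
theorem no_invariant_line_of_isAbsolutelyIrreducible (ρ : ResidualGaloisRep k)
    (h : ρ.IsAbsolutelyIrreducible) (v : ρ.V) (hv : v ≠ 0) :
    ¬ ∀ σ : GQ, ∃ c : k, ρ.ρ σ v = c • v := by
  classical
  intro hall
  set K := AlgebraicClosure k with hK
  set x : K ⊗[k] ρ.V := (1 : K) ⊗ₜ[k] v with hx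
  have hx0 : x ≠ 0 := Fermat.Agent.S53.one_tmul_ne_zero ρ K hv
  rcases h (Submodule.span K {x}) (fun σ y hy => by
    obtain ⟨c, hc⟩ := hall σ
    obtain ⟨d, rfl⟩ := Submodule.mem_span_singleton.mp hy
    rw [map_smul]
    have e : (ρ.baseChange K).ρ σ x = (algebraMap k K c) • x := by
      show (ρ.ρ σ).baseChange K ((1 : K) ⊗ₜ[k] v) = _
      rw [LinearMap.baseChange_tmul, hc, TensorProduct.tmul_smul, algebraMap_smul]
    rw [e, smul_smul]
    exact Submodule.mem_span_singleton.mpr ⟨_, rfl⟩) with h0 | h1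
  · exact hx0 ((Submodule.span_singleton_eq_bot).mp h0)
  · have hfin : Module.finrank K (K ⊗[k] ρ.V) = 2 := by
      rw [Module.finrank_baseChange, ρ.finrank_eq]
    have h1' : Module.finrank K (Submodule.span K {x}) = 1 := finrank_span_singleton hx0
    rw [h1, finrank_top] at h1'
    rw [hfin] at h1'
    omega

variable (p : ℕ) [Fact p.Prime] [CharP k p]

/-- **Brauer–Nesbitt for residual representations** (`p` odd, cyclotomic determinant,
irreducible). -/
theorem residual_isEquiv_of_charpoly_frob (hp2 : p ≠ 2) (ρ₁ ρ₂ : ResidualGaloisRep k)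
    (hdet : (GaloisRepAdic.ofResidualGaloisRep ρ₁).DetIsCyclotomic p)
    (hirr : ∀ v : ρ₁.V, v ≠ 0 → ¬ ∀ σ : GQ, ∃ c : k, ρ₁.ρ σ v = c • v)
    (S : Finset ℕ) (τ : ℕ → k)
    (h₁ : ∀ ℓ : ℕ, ℓ.Prime → ℓ ∉ S → ∀ A : ValuationSubring Qb, A.LiesOverPrime ℓ →
      ∀ φ : GQ, A.IsFrobeniusAt φ ℓ →
        LinearMap.charpoly (ρ₁.ρ φ) = X ^ 2 - C (τ ℓ) * X + C ((ℓ : k)))
    (h₂ : ∀ ℓ : ℕ, ℓ.Prime → ℓ ∉ S → ∀ A : ValuationSubring Qb, A.LiesOverPrime ℓ →
      ∀ φ : GQ, A.IsFrobeniusAt φ ℓ →
        LinearMap.charpoly (ρ₂.ρ φ) = X ^ 2 - C (τ ℓ) * X + C ((ℓ : k))) :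
    ρ₁.IsEquiv ρ₂ := by
  classical
  apply residual_isEquiv_of_isEquiv
  set R₁ := GaloisRepAdic.ofResidualGaloisRep ρ₁ with hR₁
  have hd : LinearMap.det (R₁.ρ complexConjugation) = -1 :=
    Fermat.Agent.W56.Ad0Facts9.det_complexConjugation ρ₁ p hdet
  -- the trace of complex conjugation vanishes
  have ht : R₁.trace complexConjugation = 0 := by
    set M := R₁.ρ complexConjugation with hM
    have hMM : M * M = 1 := by
      rw [hM, ← map_mul, complexConjugation_mul_self, map_one]
    have hcp := CarFinal0.charpoly_eq_of_trace_det R₁ complexConjugation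
      (R₁.trace complexConjugation) (-1) rfl hd
    have hCH := LinearMap.aeval_self_charpoly M
    rw [hcp] at hCH
    simp only [map_add, map_sub, map_pow, aeval_X, map_mul, aeval_C, map_neg, map_one] at hCH
    rw [sq, hMM] at hCH
    have h2 : algebraMap k (Module.End k R₁.V) (R₁.trace complexConjugation) * M = 0 := by
      have : (1 : Module.End k R₁.V) -
          algebraMap k (Module.End k R₁.V) (R₁.trace complexConjugation) * M + -1 = 0 := hCH
      have h3 : algebraMap k (Module.End k R₁.V) (R₁.trace complexConjugation) * M =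
          (1 : Module.End k R₁.V) + -1 - ((1 : Module.End k R₁.V) -
          algebraMap k (Module.End k R₁.V) (R₁.trace complexConjugation) * M + -1) := by abel
      rw [h3, this]; abel
    have h4 : algebraMap k (Module.End k R₁.V) (R₁.trace complexConjugation) = 0 := by
      have := congrArg (· * M) h2
      simp only [mul_assoc, hMM, mul_one, zero_mul] at this
      exact this
    have hnt : Nontrivial R₁.V := by
      have : Module.finrank k R₁.V = 2 := R₁.finrank_eq
      exact Module.nontrivial_of_finrank_pos (R := k) (by omega)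
    exact (FaithfulSMul.algebraMap_injective k (Module.End k R₁.V))
      (by rw [h4, map_zero])
  have hne : (1 : k) ≠ -1 := by
    intro h
    have h2 : (2 : k) = 0 := by
      have : (1 : k) + 1 = 0 := by nth_rewrite 2 [h]; ring
      rw [← this]; norm_num
    have h2' : ((2 : ℕ) : k) = 0 := by exact_mod_cast h2
    rw [CharP.cast_eq_zero_iff k p] at h2'
    have hp : p.Prime := Fact.out
    exact hp2 ((Nat.prime_dvd_prime_iff_eq hp Nat.prime_two).mp h2')
  refine isEquiv_of_charpoly_frob R₁ (GaloisRepAdic.ofResidualGaloisRep ρ₂) S τ h₁ h₂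
    complexConjugation 1 (-1) hne ?_ ?_
    hirr
  · rw [ht]; ring
  · rw [hd]; ring

end Residual

end Fermat.Agent.M43.GlobBN3
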