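/-
M43 (helper3) [P-GLOB / (6d-GAL)] GlobDet3: **the determinant of a representation with
`det ρ(Frob_ℓ) = ℓ` at almost all primes is the `p`-adic cyclotomic character**, in the Prelude's
form `GaloisRepAdic.DetIsCyclotomic p`.

`T` noetherian local with `p ∈ 𝔪_T`, `ρ : GaloisRepAdic T`, `S` a finite set of primes containing
`p`, `det ρ(φ) = ℓ` for every Frobenius element `φ` at a prime `ℓ ∉ S`.  Then
`ρ.DetIsCyclotomic p`: if `σ` acts on `μ_{p^n}` by `μ ↦ μ^a` then `det ρ(σ) - a ∈ (p^n)`.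
(Density of Frobenius powers `ChebQbar23.exists_frobenius_inv_mul_pow_fixes`, continuity of `ρ`,
Krull's intersection theorem for `T ⧸ (p^n)`.)  Consumers: the Hecke side of M43 (the `ρ` over a
Hecke algebra produced by `CarFinal0.exists_galoisRepAdic_of_frobenius` has
`charpoly = X² - τ_ℓ X + ℓ` at Frobenius elements).
-/
import Mathlib
import Fermat.Prelude.Def_GaloisRep_LocalConditions
import Fermat.Agent.ES.J.CycloChar8
import Fermat.Agent.ES.GAL.ChebQbar23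
import Fermat.Agent.ES.N34.TraceTwo12
import Fermat.Agent.ES.ALG31.Lucas15

set_option autoImplicit false
set_option linter.unusedSectionVars false

namespace Fermat.Agent.M43.GlobDet3

open IsLocalRing Fermat.Agent.ES.ALG.RelDense9 Fermat.Agent.ES.J.CycloChar8
  Fermat.Agent.ES.N34.TraceTwo12 Fermat.Agent.ES.ALG31.Lucas15

local notation "Qb" => AlgebraicClosure ℚ
local notation "GQ" => (AlgebraicClosure ℚ ≃ₐ[ℚ] AlgebraicClosure ℚ)

section Closed

variable {T : Type*} [CommRing T] [IsLocalRing T] [IsNoetherianRing T]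

/-- Ideals of a noetherian local ring are closed for the `𝔪`-adic topology. -/
theorem mem_of_forall_mem_sup_pow (J : Ideal T) (x : T)
    (h : ∀ k : ℕ, x ∈ J ⊔ maximalIdeal T ^ k) : x ∈ J := by
  have hkrull := Ideal.iInf_pow_smul_eq_bot_of_isLocalRing (R := T) (M := T ⧸ J)
    (maximalIdeal T) Ideal.IsPrime.ne_top'
  have hmem : (Ideal.Quotient.mk J x : T ⧸ J) ∈
      (⨅ i : ℕ, maximalIdeal T ^ i • (⊤ : Submodule T (T ⧸ J))) := by
    rw [Submodule.mem_iInf]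
    intro k
    obtain ⟨y, hy, z, hz, hyz⟩ := Submodule.mem_sup.mp (h k)
    have e : (Ideal.Quotient.mk J x : T ⧸ J) = z • (Ideal.Quotient.mk J 1 : T ⧸ J) := by
      rw [← hyz, map_add, Ideal.Quotient.eq_zero_iff_mem.mpr hy, zero_add]
      show _ = Ideal.Quotient.mk J (z • (1 : T))
      rw [smul_eq_mul, mul_one]
    rw [e]
    exact Submodule.smul_mem_smul hz Submodule.mem_top
  rw [hkrull, Submodule.mem_bot] at hmem
  exact Ideal.Quotient.eq_zero_iff_mem.mp hmem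

end Closed

section Main

variable {T : Type} [CommRing T] [IsLocalRing T] [IsNoetherianRing T]

/-- **The determinant is cyclotomic**, from the determinants of the Frobenius elements. -/
theorem detIsCyclotomic_of_frobenius (p : ℕ) [hp : Fact p.Prime]
    (hpT : (p : T) ∈ maximalIdeal T) (ρ : GaloisRepAdic T) (S : Finset ℕ) (hpS : p ∈ S)
    (hfrob : ∀ ℓ : ℕ, ℓ.Prime → ℓ ∉ S → ∀ A : ValuationSubring Qb, A.LiesOverPrime ℓ →
      ∀ φ : GQ, A.IsFrobeniusAt φ ℓ → LinearMap.det (ρ.ρ φ) = (ℓ : T)) :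
    ρ.DetIsCyclotomic p := by
  classical
  refine ⟨hpT, fun n σ a ha => ?_⟩
  apply mem_of_forall_mem_sup_pow
  intro k
  set 𝔪 := maximalIdeal T with h𝔪
  obtain ⟨L₁, hL₁, h1⟩ := ρ.isAdicContinuous k
  obtain ⟨ζ, hζ⟩ := exists_primitiveRoot p n
  have hpn : p ^ n ≠ 0 := pow_ne_zero _ hp.out.ne_zero
  have hζint : IsIntegral ℚ ζ := by
    refine IsIntegral.of_pow (Nat.pos_of_ne_zero hpn) ?_
    rw [hζ.pow_eq_one]
    exact isIntegral_one
  set L₃ : IntermediateField ℚ Qb := IntermediateField.adjoin ℚ {ζ} with hL₃def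
  have hL₃ : FiniteDimensional ℚ L₃ := IntermediateField.adjoin.finiteDimensional hζint
  have hζL : ζ ∈ L₃ := IntermediateField.subset_adjoin ℚ {ζ} (Set.mem_singleton ζ)
  have := hL₁
  obtain ⟨ℓ, A, φ, j, hℓ, hℓS, hA, hφ, hj⟩ :=
    Fermat.Agent.ES.GAL.ChebQbar23.exists_frobenius_inv_mul_pow_fixes (L₁ ⊔ L₃) σ S
  have hℓp : ℓ ≠ p := fun h => hℓS (h ▸ hpS)
  obtain ⟨h, hh⟩ : ∃ h : GQ, h = σ⁻¹ * φ ^ j := ⟨_, rfl⟩
  rw [← hh] at hj
  have hφj : φ ^ j = σ * h := by rw [hh, mul_inv_cancel_left]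
  -- `ρ h ≡ 1`
  have hcongr : EndCongr (𝔪 ^ k) (ρ.ρ h) 1 := by
    intro v
    rw [Module.End.one_apply]
    exact h1 _ (fun x hx => hj x (le_sup_left (a := L₁) (b := L₃) hx)) v
  have h7 : LinearMap.det (ρ.ρ h) - 1 ∈ 𝔪 ^ k := by
    have := det_sub_mem_of_endCongr hcongr
    rwa [show LinearMap.det (1 : Module.End T ρ.V) = 1 from map_one _] at this
  -- the determinants
  have hdetφ : LinearMap.det (ρ.ρ φ) = (ℓ : T) := hfrob ℓ hℓ hℓS A hA φ hφ
  have e1 : LinearMap.det (ρ.ρ σ) * LinearMap.det (ρ.ρ h) = (ℓ : T) ^ j := by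
    have e0 : ρ.ρ (φ ^ j) = ρ.ρ σ * ρ.ρ h := by rw [← map_mul, ← hφj]
    have e00 : LinearMap.det (ρ.ρ (φ ^ j)) = (ℓ : T) ^ j := by
      rw [map_pow, map_pow, hdetφ]
    rw [← e00, e0, Module.End.mul_eq_comp, LinearMap.det_comp]
  -- the action on `ζ`
  have hhζ : h ζ = ζ := hj ζ (le_sup_right (a := L₁) (b := L₃) hζL)
  have hφjζ : (φ ^ j) ζ = ζ ^ a := by
    rw [hφj, AlgEquiv.mul_apply, hhζ]
    exact ha ζ hζ.pow_eq_one
  have hcyc : ((cyclo p (φ ^ j) : ℤ_[p]ˣ) : ℤ_[p]) = ((ℓ ^ j : ℕ) : ℤ_[p]) := by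
    rw [map_pow, Units.val_pow_eq_pow_val, cyclo_of_isFrobeniusAt p hℓ hℓp A hA hφ, Nat.cast_pow]
  have hmod : ((ℓ ^ j : ℕ) : ZMod (p ^ n)) = (a : ZMod (p ^ n)) := by
    have h2 := toZModPow_cyclo p hζ hφjζ
    rw [hcyc, map_natCast] at h2
    exact h2
  have hdvd : ((ℓ ^ j : ℕ) : T) - (a : T) ∈ Ideal.span {((p ^ n : ℕ) : T)} := by
    have h3 : ((p ^ n : ℕ) : ℤ) ∣ ((ℓ ^ j : ℕ) : ℤ) - (a : ℤ) := by
      have h4 := (ZMod.natCast_eq_natCast_iff _ _ _).mp hmod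
      exact Int.modEq_iff_dvd.mp (Int.natCast_modEq_iff.mpr h4.symm)
    obtain ⟨c, hc⟩ := h3
    rw [Ideal.mem_span_singleton]
    refine ⟨(c : T), ?_⟩
    have := congrArg (fun z : ℤ => (z : T)) hc
    simpa using this
  -- assemble
  have e : LinearMap.det (ρ.ρ σ) - (a : T) =
      (((ℓ ^ j : ℕ) : T) - (a : T)) + (- LinearMap.det (ρ.ρ σ)) * (LinearMap.det (ρ.ρ h) - 1) := by
    have : ((ℓ ^ j : ℕ) : T) = LinearMap.det (ρ.ρ σ) * LinearMap.det (ρ.ρ h) := by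
      rw [e1, Nat.cast_pow]
    rw [this]
    ring
  rw [e]
  exact Submodule.add_mem_sup hdvd (Ideal.mul_mem_left _ _ h7)

/-- The same, from the characteristic polynomials `X² - τ_ℓ X + ℓ` at the Frobenius elements (the
output form of `CarFinal0.exists_galoisRepAdic_of_frobenius` and the Prelude's
`HeckeGaloisRepDatum.charpoly_frob`). -/
theorem detIsCyclotomic_of_charpoly (p : ℕ) [hp : Fact p.Prime]
    (hpT : (p : T) ∈ maximalIdeal T) (ρ : GaloisRepAdic T) (S : Finset ℕ) (hpS : p ∈ S)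
    (τ : ℕ → T)
    (hfrob : ∀ ℓ : ℕ, ℓ.Prime → ℓ ∉ S → ∀ A : ValuationSubring Qb, A.LiesOverPrime ℓ →
      ∀ φ : GQ, A.IsFrobeniusAt φ ℓ →
        LinearMap.charpoly (ρ.ρ φ) = Polynomial.X ^ 2 - Polynomial.C (τ ℓ) * Polynomial.X +
          Polynomial.C ((ℓ : T))) :
    ρ.DetIsCyclotomic p := by
  refine detIsCyclotomic_of_frobenius p hpT ρ S hpS fun ℓ hℓ hℓS A hA φ hφ => ?_
  exact (trace_det_of_charpoly ρ.finrank_eq _ (hfrob ℓ hℓ hℓS A hA φ hφ)).2

end Main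

end Fermat.Agent.M43.GlobDet3
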