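/-
M43 (helper3) [P-GLOB / (6d-GAL)] GlobHecke3: **the per-`(A, ρ_A)` hypotheses of the P-GLOB END
THEOREM (`GlobFinal3.exists_tw_generators_loc`) for a quotient of a Hecke algebra.**

* `hlift_of_charpoly` : `ρ_A.residual ≃ ρ̄ ⊗ k_A` from the characteristic polynomials at Frobenius
  elements (Brauer–Nesbitt `GlobBN3`), for ANY local `𝒪`-algebra `A` with residue field `k`.
* `adjoin_trace_eq_top` : a Prelude datum `H : HeckeGaloisRepDatum N S 𝒪 θ T` (primes of `N` in `S`)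
  has `T = 𝒪[traces of H.ρ]`.
* `datum_properties` : for `p ∤ N` odd, `H.ρ` has cyclotomic determinant (`GlobDet3`), is flat at `p`
  (banked S32), unramified outside `S` (banked S31), unipotent on inertia at `q ∥ N`, `q ≠ p`
  (banked S34).
* **`hyps_of_datum`** : for a surjective `𝒪`-algebra homomorphism `f : T → A` onto a local ring,
  `ρ_A := H.ρ ⊗_T A` satisfies `_hres`, `_hlift`, `_hD`, `_hflat`, `_hU`, `_hunip`, `_htr`.
-/
import Mathlib
import Fermat.Agent.S31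
import Fermat.Agent.S32
import Fermat.Agent.S34
import Fermat.Agent.W56.BaseChange9
import Fermat.Agent.W56.FlatBC9
import Fermat.Agent.Lib.FrobeniusExists
import Fermat.Agent.M43.GlobDet3
import Fermat.Agent.M43.GlobBN3
import Fermat.Agent.M43.GlobTrace3

set_option autoImplicit false
set_option linter.unusedSectionVars false
set_option linter.style.haveILetI false

namespace Fermat.Agent.M43.GlobHecke3

open IsLocalRing Polynomial
open scoped TensorProduct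

local notation "Qb" => AlgebraicClosure ℚ
local notation "GQ" => (AlgebraicClosure ℚ ≃ₐ[ℚ] AlgebraicClosure ℚ)

/-! ### The residual representation -/

section Lift

variable {𝒪 : Type} [CommRing 𝒪] [IsLocalRing 𝒪]
  {A : Type} [CommRing A] [IsLocalRing A] [Algebra 𝒪 A] [IsLocalHom (algebraMap 𝒪 A)]

/-- `1 ⊗ v = 0` only for `v = 0`, in a base change along a field homomorphism. -/
theorem one_tmul_eq_zero_iff {k k' : Type} [Field k] [Field k'] (ψ : k →+* k')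
    (ρ : ResidualGaloisRep k) (v : ρ.V) :
    letI : Algebra k k' := ψ.toAlgebra
    ((1 : k') ⊗ₜ[k] v : k' ⊗[k] ρ.V) = 0 ↔ v = 0 := by
  letI : Algebra k k' := ψ.toAlgebra
  constructor
  · intro h
    by_contra hv
    exact Fermat.Agent.S53.one_tmul_ne_zero ρ k' hv h
  · rintro rfl
    exact TensorProduct.tmul_zero _ _

/-- no invariant line survives a base change along a SURJECTIVE field homomorphism. -/
theorem no_invariant_line_baseChangeAlong {k k' : Type} [Field k] [Field k'] (ψ : k →+* k')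
    (hψ : Function.Surjective ψ) (ρ : ResidualGaloisRep k)
    (h : ∀ v : ρ.V, v ≠ 0 → ¬ ∀ σ : GQ, ∃ c : k, ρ.ρ σ v = c • v)
    (x : (ρ.baseChangeAlong ψ).V) (hx : x ≠ 0) :
    ¬ ∀ σ : GQ, ∃ c : k', (ρ.baseChangeAlong ψ).ρ σ x = c • x := by
  letI : Algebra k k' := ψ.toAlgebra
  -- every element is `1 ⊗ v`
  have hform : ∀ y : k' ⊗[k] ρ.V, ∃ v : ρ.V, y = (1 : k') ⊗ₜ[k] v := by
    intro y
    induction y using TensorProduct.induction_on with
    | zero => exact ⟨0, (TensorProduct.tmul_zero _ _).symm⟩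
    | tmul b v =>
      obtain ⟨a, rfl⟩ := hψ b
      refine ⟨a • v, ?_⟩
      rw [TensorProduct.tmul_smul, TensorProduct.smul_tmul', Algebra.smul_def, mul_one]
      rfl
    | add y z hy hz =>
      obtain ⟨v, rfl⟩ := hy
      obtain ⟨w, rfl⟩ := hz
      exact ⟨v + w, (TensorProduct.tmul_add _ _ _).symm⟩
  obtain ⟨v, rfl⟩ := hform x
  have hv : v ≠ 0 := by
    rintro rfl
    exact hx (TensorProduct.tmul_zero _ _)
  intro hall
  refine h v hv fun σ => ?_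
  obtain ⟨c', hc'⟩ := hall σ
  obtain ⟨c, rfl⟩ := hψ c'
  refine ⟨c, ?_⟩
  have e1 : (ρ.baseChangeAlong ψ).ρ σ ((1 : k') ⊗ₜ[k] v) = (1 : k') ⊗ₜ[k] (ρ.ρ σ v) :=
    LinearMap.baseChange_tmul _ _ _
  have e2 : (ψ c) • ((1 : k') ⊗ₜ[k] v : k' ⊗[k] ρ.V) = (1 : k') ⊗ₜ[k] (c • v) := by
    rw [TensorProduct.tmul_smul, TensorProduct.smul_tmul', TensorProduct.smul_tmul']
    congr 1
  have hc'' : ((1 : k') ⊗ₜ[k] (ρ.ρ σ v) : k' ⊗[k] ρ.V) = (1 : k') ⊗ₜ[k] (c • v) :=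
    e1.symm.trans (hc'.trans e2)
  have h0 : ((1 : k') ⊗ₜ[k] (ρ.ρ σ v - c • v) : k' ⊗[k] ρ.V) = 0 := by
    rw [TensorProduct.tmul_sub, hc'', sub_self]
  exact sub_eq_zero.mp ((one_tmul_eq_zero_iff ψ ρ _).mp h0)

/-- the determinant condition survives a base change of residual representations. -/
theorem detIsCyclotomic_residual_baseChangeAlong {k k' : Type} [Field k] [Field k']
    (ψ : k →+* k') (ρ : ResidualGaloisRep k) (p : ℕ)
    (h : (GaloisRepAdic.ofResidualGaloisRep ρ).DetIsCyclotomic p) :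
    (GaloisRepAdic.ofResidualGaloisRep (ρ.baseChangeAlong ψ)).DetIsCyclotomic p := by
  letI : Algebra k k' := ψ.toAlgebra
  have hloc : IsLocalHom ψ := ⟨fun a ha => by
    rw [isUnit_iff_ne_zero] at ha ⊢
    intro h0
    exact ha (by rw [h0, map_zero])⟩
  exact Fermat.Agent.W56.BaseChange9.detIsCyclotomic_baseChangeAlong ψ hloc
    (GaloisRepAdic.ofResidualGaloisRep ρ) h

/-- **The residual representation of `ρ_A` is `ρ̄`**, from the Frobenius characteristic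
polynomials. -/
theorem hlift_of_charpoly (p : ℕ) [Fact p.Prime] (hp2 : p ≠ 2) [CharP (ResidueField 𝒪) p]
    (ρbar : ResidualGaloisRep (ResidueField 𝒪)) (habs : ρbar.IsAbsolutelyIrreducible)
    (hdet : (GaloisRepAdic.ofResidualGaloisRep ρbar).DetIsCyclotomic p)
    (hres : Function.Surjective (residue A ∘ algebraMap 𝒪 A))
    (ρA : GaloisRepAdic A) (S : Finset ℕ) (t : ℕ → ResidueField 𝒪) (τ : ℕ → A)
    (hτ : ∀ ℓ : ℕ, ℓ.Prime → ℓ ∉ S →
      residue A (τ ℓ) = ResidueField.map (algebraMap 𝒪 A) (t ℓ))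
    (hbar : ∀ ℓ : ℕ, ℓ.Prime → ℓ ∉ S → ∀ P : ValuationSubring Qb, P.LiesOverPrime ℓ →
      ∀ φ : GQ, P.IsFrobeniusAt φ ℓ →
        LinearMap.charpoly (ρbar.ρ φ) = X ^ 2 - C (t ℓ) * X + C ((ℓ : ResidueField 𝒪)))
    (hA : ∀ ℓ : ℕ, ℓ.Prime → ℓ ∉ S → ∀ P : ValuationSubring Qb, P.LiesOverPrime ℓ →
      ∀ φ : GQ, P.IsFrobeniusAt φ ℓ →
        LinearMap.charpoly (ρA.ρ φ) = X ^ 2 - C (τ ℓ) * X + C ((ℓ : A))) :
    ρA.residual.IsEquiv (ρbar.baseChangeAlong (ResidueField.map (algebraMap 𝒪 A))) := by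
  classical
  set ψ : ResidueField 𝒪 →+* ResidueField A := ResidueField.map (algebraMap 𝒪 A) with hψ
  have hψsurj : Function.Surjective ψ := by
    intro y
    obtain ⟨x, hx⟩ := hres y
    exact ⟨residue 𝒪 x, by rw [hψ, ResidueField.map_residue]; exact hx⟩
  haveI : CharP (ResidueField A) p := charP_of_injective_ringHom ψ.injective p
  letI : Algebra (ResidueField 𝒪) (ResidueField A) := ψ.toAlgebra
  have key : (ρbar.baseChangeAlong ψ).IsEquiv ρA.residual := by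
    refine GlobBN3.residual_isEquiv_of_charpoly_frob p hp2 (ρbar.baseChangeAlong ψ) ρA.residual
      (detIsCyclotomic_residual_baseChangeAlong ψ ρbar p hdet)
      (no_invariant_line_baseChangeAlong ψ hψsurj ρbar
        (GlobBN3.no_invariant_line_of_isAbsolutelyIrreducible ρbar habs))
      S (fun ℓ => ψ (t ℓ)) ?_ ?_
    · intro ℓ hℓ hℓS P hP φ hφ
      show LinearMap.charpoly ((ρbar.ρ φ).baseChange (ResidueField A)) = _
      rw [LinearMap.charpoly_baseChange, hbar ℓ hℓ hℓS P hP φ hφ]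
      simp only [Polynomial.map_add, Polynomial.map_sub, Polynomial.map_pow, Polynomial.map_X,
        Polynomial.map_mul, Polynomial.map_C]
      rw [map_natCast]
      rfl
    · intro ℓ hℓ hℓS P hP φ hφ
      show LinearMap.charpoly ((ρA.ρ φ).baseChange (ResidueField A)) = _
      rw [LinearMap.charpoly_baseChange, hA ℓ hℓ hℓS P hP φ hφ]
      simp only [Polynomial.map_add, Polynomial.map_sub, Polynomial.map_pow, Polynomial.map_X,
        Polynomial.map_mul, Polynomial.map_C]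
      rw [map_natCast, ← hτ ℓ hℓ hℓS]
      rfl
  obtain ⟨e⟩ := key
  exact ⟨e.symm⟩

end Lift

/-! ### A Prelude datum -/

section Datum

variable {p : ℕ} {N : ℕ} [NeZero N] {S : Finset ℕ}
  {𝒪 : Type} [CommRing 𝒪] [IsDomain 𝒪] [IsDiscreteValuationRing 𝒪]
  [IsAdicComplete (maximalIdeal 𝒪) 𝒪]
  {θ : CuspForm.heckeAlgebra N 2 (↑S : Set ℕ) →+* ResidueField 𝒪}
  {T : Type} [CommRing T] [IsLocalRing T] [IsNoetherianRing T]
  [IsAdicComplete (maximalIdeal T) T] [Algebra 𝒪 T] [IsLocalHom (algebraMap 𝒪 T)]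
  [Module.Finite 𝒪 T] [Module.Free 𝒪 T]

/-- the trace of a Frobenius element is the Hecke operator. -/
theorem trace_frob (H : CuspForm.HeckeGaloisRepDatum N (↑S : Set ℕ) 𝒪 θ T)
    {ℓ : ℕ} (hℓ : ℓ.Prime) (hℓN : ¬ ℓ ∣ N) (hℓS : ℓ ∉ (↑S : Set ℕ))
    (P : ValuationSubring Qb) (hP : P.LiesOverPrime ℓ) (φ : GQ) (hφ : P.IsFrobeniusAt φ ℓ) :
    LinearMap.trace T H.ρ.V (H.ρ.ρ φ) = H.π (CuspForm.heckeAlgebra.T hℓ hℓN hℓS) :=
  (Fermat.Agent.ES.ALG31.Lucas15.trace_det_of_charpoly H.ρ.finrank_eq _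
    (H.charpoly_frob ℓ hℓ hℓN hℓS P hP φ hφ)).1

/-- **`T` is generated over `𝒪` by the traces of `H.ρ`.** -/
theorem adjoin_trace_eq_top (hNS : ∀ q : ℕ, q.Prime → q ∣ N → q ∈ S)
    (H : CuspForm.HeckeGaloisRepDatum N (↑S : Set ℕ) 𝒪 θ T) :
    Algebra.adjoin 𝒪 (Set.range fun σ : GQ => LinearMap.trace T H.ρ.V (H.ρ.ρ σ)) = ⊤ := by
  set B := Algebra.adjoin 𝒪 (Set.range fun σ : GQ => LinearMap.trace T H.ρ.V (H.ρ.ρ σ)) with hB
  rw [eq_top_iff, ← H.adjoin_range_π]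
  apply Algebra.adjoin_le
  rintro _ ⟨t, rfl⟩
  obtain ⟨x, hx⟩ := t
  show H.π ⟨x, hx⟩ ∈ B
  induction hx using Algebra.adjoin_induction with
  | mem x hx =>
    rcases hx with ⟨ℓ, hℓ, hℓN, hℓS, rfl⟩ | ⟨q, hqN, hq, hqS, rfl⟩
    · obtain ⟨P, φ, hP, hφ⟩ := Fermat.Agent.Lib.exists_isFrobeniusAt ℓ hℓ
      have := trace_frob H hℓ hℓN hℓS P hP φ hφ
      have hmem : LinearMap.trace T H.ρ.V (H.ρ.ρ φ) ∈ B :=
        Algebra.subset_adjoin ⟨φ, rfl⟩
      rw [this] at hmem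
      exact hmem
    · exact absurd (hNS q hq hqN) (by simpa using hqS)
  | algebraMap r =>
    have : H.π ⟨algebraMap ℤ _ r, Subalgebra.algebraMap_mem _ r⟩ = (r : T) := by
      have h1 : (⟨algebraMap ℤ _ r, Subalgebra.algebraMap_mem _ r⟩ :
          CuspForm.heckeAlgebra N 2 (↑S : Set ℕ)) = (r : CuspForm.heckeAlgebra N 2 (↑S : Set ℕ)) := by
        apply Subtype.ext
        simp
      rw [h1, map_intCast]
    rw [this]
    exact intCast_mem B r
  | add x y hx hy ihx ihy =>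
    have : H.π ⟨x + y, add_mem hx hy⟩ = H.π ⟨x, hx⟩ + H.π ⟨y, hy⟩ := by
      rw [← map_add]; rfl
    rw [this]
    exact add_mem ihx ihy
  | mul x y hx hy ihx ihy =>
    have : H.π ⟨x * y, mul_mem hx hy⟩ = H.π ⟨x, hx⟩ * H.π ⟨y, hy⟩ := by
      rw [← map_mul]; rfl
    rw [this]
    exact mul_mem ihx ihy

theorem natCast_mem_maximalIdeal (hp𝒪 : (p : 𝒪) ∈ maximalIdeal 𝒪) : (p : T) ∈ maximalIdeal T := by
  have := map_nonunit (algebraMap 𝒪 T) (p : 𝒪) hp𝒪
  rwa [map_natCast] at this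

/-- **The Galois-side properties of a Prelude datum of level prime to `p`.** -/
theorem datum_properties [Finite (ResidueField 𝒪)] [CharZero 𝒪] [hp : Fact p.Prime]
    (hp2 : p ≠ 2) (hp𝒪 : (p : 𝒪) ∈ maximalIdeal 𝒪) (hpN : ¬ p ∣ N) (hpS : p ∈ S)
    (hNS : ∀ q : ℕ, q.Prime → q ∣ N → q ∈ S)
    (H : CuspForm.HeckeGaloisRepDatum N (↑S : Set ℕ) 𝒪 θ T) :
    H.ρ.DetIsCyclotomic p ∧ H.ρ.IsFlatAt p ∧
      (∀ q : ℕ, q.Prime → q ∉ S → H.ρ.IsUnramifiedAt q) ∧
      (∀ q : ℕ, q.Prime → q ≠ p → q ∣ N → ¬ q ^ 2 ∣ N → H.ρ.IsUnipotentOnInertiaAt q) := by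
  refine ⟨?_, ?_, ?_, ?_⟩
  · refine GlobDet3.detIsCyclotomic_of_charpoly p (natCast_mem_maximalIdeal hp𝒪) H.ρ S hpS
      (fun ℓ => if h : ℓ.Prime ∧ ¬ ℓ ∣ N ∧ ℓ ∉ (↑S : Set ℕ) then
        H.π (CuspForm.heckeAlgebra.T h.1 h.2.1 h.2.2) else 0) ?_
    intro ℓ hℓ hℓS P hP φ hφ
    have hℓN : ¬ ℓ ∣ N := fun hd => hℓS (hNS ℓ hℓ hd)
    have hℓS' : ℓ ∉ (↑S : Set ℕ) := by simpa using hℓS
    rw [dif_pos ⟨hℓ, hℓN, hℓS'⟩]
    exact H.charpoly_frob ℓ hℓ hℓN hℓS' P hP φ hφ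
  · exact Fermat.Agent.S32.result hp.out hp2 hp𝒪 hpN hpS hNS H
  · intro q hq hqS
    exact Fermat.Agent.S31.result hp.out hp𝒪 hpS hNS H q hq hqS
  · intro q hq hqp hqN hq2
    exact Fermat.Agent.S34.result hp.out hp𝒪 hpS hNS H q hq hqp hqN hq2

variable {A : Type} [CommRing A] [IsLocalRing A] [Algebra 𝒪 A] [IsLocalHom (algebraMap 𝒪 A)]

/-- **The per-`(A, ρ_A)` hypotheses of the P-GLOB END THEOREM for a quotient `A` of the Hecke
algebra of a Prelude datum**, `ρ_A := H.ρ ⊗_T A`. -/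
theorem hyps_of_datum [Finite (ResidueField 𝒪)] [CharZero 𝒪] [hp : Fact p.Prime]
    [CharP (ResidueField 𝒪) p]
    (hp2 : p ≠ 2) (hp𝒪 : (p : 𝒪) ∈ maximalIdeal 𝒪) (hpN : ¬ p ∣ N) (hpS : p ∈ S)
    (hNS : ∀ q : ℕ, q.Prime → q ∣ N → q ∈ S)
    (H : CuspForm.HeckeGaloisRepDatum N (↑S : Set ℕ) 𝒪 θ T)
    (ρbar : ResidualGaloisRep (ResidueField 𝒪)) (habs : ρbar.IsAbsolutelyIrreducible)
    (hdet : (GaloisRepAdic.ofResidualGaloisRep ρbar).DetIsCyclotomic p)
    (hθ : ∀ (ℓ : ℕ) (hℓ : ℓ.Prime) (hℓN : ¬ ℓ ∣ N) (hℓS : ℓ ∉ (↑S : Set ℕ)),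
      ∀ P : ValuationSubring Qb, P.LiesOverPrime ℓ → ∀ φ : GQ, P.IsFrobeniusAt φ ℓ →
        LinearMap.charpoly (ρbar.ρ φ) =
          X ^ 2 - C (θ (CuspForm.heckeAlgebra.T hℓ hℓN hℓS)) * X + C ((ℓ : ResidueField 𝒪)))
    (f : T →ₐ[𝒪] A) (hf : Function.Surjective f) :
    ∃ hloc : IsLocalHom (f : T →+* A),
      Function.Surjective (residue A ∘ algebraMap 𝒪 A) ∧
      ((H.ρ.baseChangeAlong (f : T →+* A) hloc).residual.IsEquiv
        (ρbar.baseChangeAlong (ResidueField.map (algebraMap 𝒪 A)))) ∧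
      (H.ρ.baseChangeAlong (f : T →+* A) hloc).DetIsCyclotomic p ∧
      (H.ρ.baseChangeAlong (f : T →+* A) hloc).IsFlatAt p ∧
      (∀ q : ℕ, q.Prime → q ∉ S → (H.ρ.baseChangeAlong (f : T →+* A) hloc).IsUnramifiedAt q) ∧
      (∀ q : ℕ, q.Prime → q ≠ p → q ∣ N → ¬ q ^ 2 ∣ N →
        (H.ρ.baseChangeAlong (f : T →+* A) hloc).IsUnipotentOnInertiaAt q) ∧
      Algebra.adjoin 𝒪 (Set.range fun σ : GQ =>
        LinearMap.trace A (H.ρ.baseChangeAlong (f : T →+* A) hloc).V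
          ((H.ρ.baseChangeAlong (f : T →+* A) hloc).ρ σ)) = ⊤ := by
  classical
  have hfs : Function.Surjective (f : T →+* A) := hf
  have hloc : IsLocalHom (f : T →+* A) := IsLocalHom.of_surjective _ hfs
  obtain ⟨hD, hflat, hU, hunip⟩ := datum_properties hp2 hp𝒪 hpN hpS hNS H
  have hres : Function.Surjective (residue A ∘ algebraMap 𝒪 A) := by
    intro y
    obtain ⟨a, rfl⟩ := residue_surjective y
    obtain ⟨t, rfl⟩ := hf a
    obtain ⟨x, hx⟩ := H.residue_surjective (residue T t)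
    refine ⟨x, ?_⟩
    have hx' : residue T (algebraMap 𝒪 T x) = residue T t := hx
    have h1 : algebraMap 𝒪 T x - t ∈ maximalIdeal T := by
      rw [← residue_eq_zero_iff, map_sub, hx', sub_self]
    have h2 : f (algebraMap 𝒪 T x - t) ∈ maximalIdeal A :=
      haveI := hloc
      map_nonunit (f : T →+* A) _ h1
    rw [map_sub, AlgHom.commutes, ← residue_eq_zero_iff, map_sub, sub_eq_zero] at h2
    exact h2
  refine ⟨hloc, hres, ?_, ?_, ?_, ?_, ?_, ?_⟩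
  · -- the residual representation
    refine hlift_of_charpoly p hp2 ρbar habs hdet hres _ S
      (fun ℓ => if h : ℓ.Prime ∧ ¬ ℓ ∣ N ∧ ℓ ∉ (↑S : Set ℕ) then
        θ (CuspForm.heckeAlgebra.T h.1 h.2.1 h.2.2) else 0)
      (fun ℓ => if h : ℓ.Prime ∧ ¬ ℓ ∣ N ∧ ℓ ∉ (↑S : Set ℕ) then
        f (H.π (CuspForm.heckeAlgebra.T h.1 h.2.1 h.2.2)) else 0) ?_ ?_ ?_
    · intro ℓ hℓ hℓS
      have hℓN : ¬ ℓ ∣ N := fun hd => hℓS (hNS ℓ hℓ hd)
      have hℓS' : ℓ ∉ (↑S : Set ℕ) := by simpa using hℓS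
      rw [dif_pos ⟨hℓ, hℓN, hℓS'⟩, dif_pos ⟨hℓ, hℓN, hℓS'⟩]
      -- `residue_A ∘ f = map f ∘ residue_T`
      have h1 : residue A (f (H.π (CuspForm.heckeAlgebra.T hℓ hℓN hℓS'))) =
          (haveI := hloc; ResidueField.map (f : T →+* A))
            (residue T (H.π (CuspForm.heckeAlgebra.T hℓ hℓN hℓS'))) := by
        haveI := hloc
        rw [ResidueField.map_residue]
        rfl
      rw [h1, H.residue_π]
      haveI := hloc
      -- composition of the residue field maps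
      have h2 : ∀ z : ResidueField 𝒪,
          ResidueField.map (f : T →+* A) (ResidueField.map (algebraMap 𝒪 T) z) =
            ResidueField.map (algebraMap 𝒪 A) z := by
        intro z
        obtain ⟨x, rfl⟩ := residue_surjective z
        rw [ResidueField.map_residue, ResidueField.map_residue, ResidueField.map_residue]
        congr 1
        exact f.commutes x
      exact h2 _
    · intro ℓ hℓ hℓS P hP φ hφ
      have hℓN : ¬ ℓ ∣ N := fun hd => hℓS (hNS ℓ hℓ hd)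
      have hℓS' : ℓ ∉ (↑S : Set ℕ) := by simpa using hℓS
      rw [dif_pos ⟨hℓ, hℓN, hℓS'⟩]
      exact hθ ℓ hℓ hℓN hℓS' P hP φ hφ
    · intro ℓ hℓ hℓS P hP φ hφ
      have hℓN : ¬ ℓ ∣ N := fun hd => hℓS (hNS ℓ hℓ hd)
      have hℓS' : ℓ ∉ (↑S : Set ℕ) := by simpa using hℓS
      rw [dif_pos ⟨hℓ, hℓN, hℓS'⟩]
      letI : Algebra T A := (f : T →+* A).toAlgebra
      show LinearMap.charpoly ((H.ρ.ρ φ).baseChange A) = _
      rw [LinearMap.charpoly_baseChange, H.charpoly_frob ℓ hℓ hℓN hℓS' P hP φ hφ]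
      simp only [Polynomial.map_add, Polynomial.map_sub, Polynomial.map_pow, Polynomial.map_X,
        Polynomial.map_mul, Polynomial.map_C]
      rw [map_natCast]
      rfl
  · exact Fermat.Agent.W56.BaseChange9.detIsCyclotomic_baseChangeAlong _ hloc H.ρ hD
  · exact Fermat.Agent.W56.FlatBC9.isFlatAt_baseChangeAlong_of_surjective H.ρ _ hloc hfs p hflat
  · intro q hq hqS
    exact Fermat.Agent.W56.BaseChange9.isUnramifiedAt_baseChangeAlong _ hloc H.ρ (hU q hq hqS)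
  · intro q hq hqp hqN hq2
    exact Fermat.Agent.W56.BaseChange9.isUnipotentOnInertiaAt_baseChangeAlong _ hloc H.ρ
      (hunip q hq hqp hqN hq2)
  · -- traces
    have htop := adjoin_trace_eq_top hNS H
    have hrange : (Set.range fun σ : GQ =>
        LinearMap.trace A (H.ρ.baseChangeAlong (f : T →+* A) hloc).V
          ((H.ρ.baseChangeAlong (f : T →+* A) hloc).ρ σ)) =
        f '' (Set.range fun σ : GQ => LinearMap.trace T H.ρ.V (H.ρ.ρ σ)) := by
      ext y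
      constructor
      · rintro ⟨σ, rfl⟩
        exact ⟨_, ⟨σ, rfl⟩, (GlobTrace3.trace_baseChangeAlong _ hloc H.ρ σ).symm⟩
      · rintro ⟨_, ⟨σ, rfl⟩, rfl⟩
        exact ⟨σ, GlobTrace3.trace_baseChangeAlong _ hloc H.ρ σ⟩
    rw [hrange, ← AlgHom.map_adjoin, htop, Algebra.map_top, AlgHom.range_eq_top]
    exact hf

end Datum

end Fermat.Agent.M43.GlobHecke3
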