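/-
M43 (helper3) [(6d) / block (α)] DatumExists3: **EXISTENCE of a Prelude `HeckeGaloisRepDatum` for
the FULL local Hecke algebra of level `N`.**

`𝒪` a complete DVR of characteristic `0` with finite residue field `k` of characteristic `p` odd,
`S ∋ p` a finite set of primes containing the primes of `N`, `θ : 𝕋 = heckeAlgebra N 2 S →+* k`,
`ρ̄ : ResidualGaloisRep k` absolutely irreducible with cyclotomic determinant and characteristic
polynomials `X² - θ(T_ℓ) X + ℓ` at the Frobenius elements outside `S`.  Then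
`T := DatumAlg3.TLoc N S 𝒪 θ = (𝒪 ⊗ 𝕋)_𝔪` carries a `CuspForm.HeckeGaloisRepDatum N S 𝒪 θ T`
with `π = DatumAlg3.piT` (`nonempty_datum`):

* points: `LocalHecke3.exists_points` (one complete DVR for each minimal prime of `T`);
* representations at the points: banked `S30`;
* gluing: `DatumRep3.exists_galoisRepAdic_of_points` (the lead's P-CAR, topology condition from
  Chevalley's lemma), complex conjugation as the element with distinct eigenvalues;
* `residual_absIrr`: `GlobHecke3.hlift_of_charpoly` (Brauer–Nesbitt) + `AbsIrr3`.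
-/
import Mathlib
import Fermat.Agent.M43.DatumAlg3
import Fermat.Agent.M43.DatumRep3
import Fermat.Agent.M43.AbsIrr3
import Fermat.Agent.M43.GlobHecke3
import Fermat.Agent.S30

set_option autoImplicit false
set_option linter.style.haveILetI false
set_option linter.unusedSectionVars false

namespace Fermat.Agent.M43.DatumExists3

open IsLocalRing CuspForm Polynomial Fermat.Agent.M43.DatumAlg3
open scoped TensorProduct

local notation "Qb" => AlgebraicClosure ℚ
local notation "GQ" => (AlgebraicClosure ℚ ≃ₐ[ℚ] AlgebraicClosure ℚ)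

section Conj

variable {k : Type} [Field k] (p : ℕ) [Fact p.Prime] [CharP k p]

/-- trace and determinant of complex conjugation (`det ρ̄` cyclotomic). -/
theorem trace_det_complexConjugation (ρ₁ : ResidualGaloisRep k)
    (hdet : (GaloisRepAdic.ofResidualGaloisRep ρ₁).DetIsCyclotomic p) :
    (GaloisRepAdic.ofResidualGaloisRep ρ₁).trace complexConjugation = 0 ∧
      LinearMap.det ((GaloisRepAdic.ofResidualGaloisRep ρ₁).ρ complexConjugation) = -1 := by
  set R₁ := GaloisRepAdic.ofResidualGaloisRep ρ₁ with hR₁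
  have hd : LinearMap.det (R₁.ρ complexConjugation) = -1 :=
    Fermat.Agent.W56.Ad0Facts9.det_complexConjugation ρ₁ p hdet
  refine ⟨?_, hd⟩
  set M := R₁.ρ complexConjugation with hM
  have hMM : M * M = 1 := by
    rw [hM, ← map_mul, complexConjugation_mul_self, map_one]
  have hcp := CarFinal0.charpoly_eq_of_trace_det R₁ complexConjugation
    (R₁.trace complexConjugation) (-1) rfl hd
  have hCH := LinearMap.aeval_self_charpoly M
  rw [hcp] at hCH
  simp only [map_add, map_sub, map_pow, aeval_X, map_mul, aeval_C, map_neg, map_one] at hCH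
  rw [sq, hMM] at hCH
  have h2 : algebraMap k (Module.End k R₁.V) (R₁.trace complexConjugation) * M = 0 := by
    have : (1 : Module.End k R₁.V) -
        algebraMap k (Module.End k R₁.V) (R₁.trace complexConjugation) * M + -1 = 0 := hCH
    have h3 : algebraMap k (Module.End k R₁.V) (R₁.trace complexConjugation) * M =
        (1 : Module.End k R₁.V) + -1 - ((1 : Module.End k R₁.V) -
        algebraMap k (Module.End k R₁.V) (R₁.trace complexConjugation) * M + -1) := by abel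
    rw [h3, this]; abel
  have h4 : algebraMap k (Module.End k R₁.V) (R₁.trace complexConjugation) = 0 := by
    have := congrArg (· * M) h2
    simp only [mul_assoc, hMM, mul_one, zero_mul] at this
    exact this
  have hnt : Nontrivial R₁.V := by
    have : Module.finrank k R₁.V = 2 := R₁.finrank_eq
    exact Module.nontrivial_of_finrank_pos (R := k) (by omega)
  exact (FaithfulSMul.algebraMap_injective k (Module.End k R₁.V))
    (by rw [h4, map_zero])

include p in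
theorem one_ne_neg_one (hp2 : p ≠ 2) : (1 : k) ≠ -1 := by
  intro h
  have h2 : (2 : k) = 0 := by
    have : (1 : k) + 1 = 0 := by nth_rewrite 2 [h]; ring
    rw [← this]; norm_num
  have h2' : ((2 : ℕ) : k) = 0 := by exact_mod_cast h2
  rw [CharP.cast_eq_zero_iff k p] at h2'
  have hp : p.Prime := Fact.out
  exact hp2 ((Nat.prime_dvd_prime_iff_eq hp Nat.prime_two).mp h2')

end Conj

section Main

variable (p : ℕ) [hp : Fact p.Prime] (N : ℕ) [NeZero N] (S : Finset ℕ)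
  (𝒪 : Type) [CommRing 𝒪] [IsDomain 𝒪] [IsDiscreteValuationRing 𝒪]
  [IsAdicComplete (maximalIdeal 𝒪) 𝒪] [Finite (ResidueField 𝒪)] [CharZero 𝒪]
  [CharP (ResidueField 𝒪) p]
  (θ : heckeAlgebra N 2 (↑S : Set ℕ) →+* ResidueField 𝒪)

/-- **Existence of the Hecke–Galois datum of the full local Hecke algebra.** -/
theorem nonempty_datum (hp2 : p ≠ 2) (hp𝒪 : (p : 𝒪) ∈ maximalIdeal 𝒪) (hpS : p ∈ S)
    (hNS : ∀ q : ℕ, q.Prime → q ∣ N → q ∈ S)
    (ρbar : ResidualGaloisRep (ResidueField 𝒪)) (habs : ρbar.IsAbsolutelyIrreducible)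
    (hdet : (GaloisRepAdic.ofResidualGaloisRep ρbar).DetIsCyclotomic p)
    (hθ : ∀ (ℓ : ℕ) (hℓ : ℓ.Prime) (hℓN : ¬ ℓ ∣ N) (hℓS : ℓ ∉ (↑S : Set ℕ)),
      ∀ P : ValuationSubring Qb, P.LiesOverPrime ℓ → ∀ φ : GQ, P.IsFrobeniusAt φ ℓ →
        LinearMap.charpoly (ρbar.ρ φ) =
          X ^ 2 - C (θ (heckeAlgebra.T hℓ hℓN hℓS)) * X + C ((ℓ : ResidueField 𝒪))) :
    Nonempty (HeckeGaloisRepDatum N (↑S : Set ℕ) 𝒪 θ (TLoc N S 𝒪 θ)) := by
  classical
  haveI : IsReduced (TLoc N S 𝒪 θ) := isReduced_TLoc N S 𝒪 θ hNS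
  haveI : Finite (ResidueField (TLoc N S 𝒪 θ)) := finite_residueField N S 𝒪 θ
  obtain ⟨ι, hι, O, i1, i2, i3, i4, i5, i6, ψ, hloc, hinj⟩ :=
    LocalHecke3.exists_points 𝒪 (TLoc N S 𝒪 θ) (smul_eq_zero_TLoc N S 𝒪 θ)
  have hpT : (p : TLoc N S 𝒪 θ) ∈ maximalIdeal (TLoc N S 𝒪 θ) :=
    GlobHecke3.natCast_mem_maximalIdeal hp𝒪
  have hpO : ∀ i, (p : O i) ∈ maximalIdeal (O i) := by
    intro i
    haveI := hloc i
    have := map_nonunit (ψ i) (p : TLoc N S 𝒪 θ) hpT
    rwa [map_natCast] at this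
  -- the representations at the points
  have key := fun i => Fermat.Agent.S30.result p N S hpS hNS (O i) (hpO i)
    ((ψ i).comp (piT N S 𝒪 θ))
  choose O'' j1 j2 j3 j4 j5 j6 j7 j8 j9 hinjalg ρ hρ hunr using key
  haveI : ∀ i, IsLocalRing (O'' i) := fun i => inferInstance
  haveI : ∀ i, IsNoetherianRing (O'' i) := fun i => inferInstance
  let ψ'' : ∀ i, TLoc N S 𝒪 θ →+* O'' i := fun i => (algebraMap (O i) (O'' i)).comp (ψ i)
  have hloc'' : ∀ i, IsLocalHom (ψ'' i) := by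
    intro i
    haveI := hloc i
    haveI := j9 i
    exact RingHom.isLocalHom_comp _ _
  have hinj'' : ∀ x : TLoc N S 𝒪 θ, (∀ i, ψ'' i x = 0) → x = 0 := by
    intro x hx
    refine hinj x fun i => ?_
    have h1 := hx i
    rw [RingHom.comp_apply] at h1
    exact hinjalg i (h1.trans (map_zero _).symm)
  -- the Hecke operators
  let τ : ℕ → TLoc N S 𝒪 θ := fun ℓ =>
    if h : ℓ.Prime ∧ ¬ ℓ ∣ N ∧ ℓ ∉ (↑S : Set ℕ) then
      piT N S 𝒪 θ (heckeAlgebra.T h.1 h.2.1 h.2.2) else 0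
  let t : ℕ → ResidueField 𝒪 := fun ℓ =>
    if h : ℓ.Prime ∧ ¬ ℓ ∣ N ∧ ℓ ∉ (↑S : Set ℕ) then
      θ (heckeAlgebra.T h.1 h.2.1 h.2.2) else 0
  have hfrob : ∀ i, ∀ ℓ : ℕ, ℓ.Prime → ℓ ∉ S → ∀ A : ValuationSubring Qb,
      A.LiesOverPrime ℓ → ∀ φ : GQ, A.IsFrobeniusAt φ ℓ →
        LinearMap.charpoly ((ρ i).ρ φ) = X ^ 2 - C (ψ'' i (τ ℓ)) * X + C ((ℓ : O'' i)) := by
    intro i ℓ hℓ hℓS A hA φ hφ
    have hℓN : ¬ ℓ ∣ N := fun hd => hℓS (hNS ℓ hℓ hd)
    have hℓS' : ℓ ∉ (↑S : Set ℕ) := by simpa using hℓS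
    simp only [τ]
    rw [dif_pos ⟨hℓ, hℓN, hℓS'⟩]
    exact hρ i ℓ hℓ hℓN hℓS' A hA φ hφ
  -- the residual representation over the residue field of `T`
  set ψ0 : ResidueField 𝒪 →+* ResidueField (TLoc N S 𝒪 θ) :=
    ResidueField.map (algebraMap 𝒪 (TLoc N S 𝒪 θ)) with hψ0
  have hψ0surj : Function.Surjective ψ0 := by
    intro y
    obtain ⟨c, hc⟩ := residue_surjective' N S 𝒪 θ y
    exact ⟨residue 𝒪 c, by rw [hψ0, ResidueField.map_residue]; exact hc⟩
  haveI : CharP (ResidueField (TLoc N S 𝒪 θ)) p := charP_of_injective_ringHom ψ0.injective p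
  have hτt : ∀ ℓ : ℕ, ℓ.Prime → ℓ ∉ S → residue (TLoc N S 𝒪 θ) (τ ℓ) = ψ0 (t ℓ) := by
    intro ℓ hℓ hℓS
    have hℓN : ¬ ℓ ∣ N := fun hd => hℓS (hNS ℓ hℓ hd)
    have hℓS' : ℓ ∉ (↑S : Set ℕ) := by simpa using hℓS
    simp only [τ, t]
    rw [dif_pos ⟨hℓ, hℓN, hℓS'⟩, dif_pos ⟨hℓ, hℓN, hℓS'⟩]
    exact residue_piT N S 𝒪 θ _
  have hbar : ∀ ℓ : ℕ, ℓ.Prime → ℓ ∉ S → ∀ P : ValuationSubring Qb, P.LiesOverPrime ℓ →
      ∀ φ : GQ, P.IsFrobeniusAt φ ℓ →
        LinearMap.charpoly (ρbar.ρ φ) = X ^ 2 - C (t ℓ) * X + C ((ℓ : ResidueField 𝒪)) := by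
    intro ℓ hℓ hℓS P hP φ hφ
    have hℓN : ¬ ℓ ∣ N := fun hd => hℓS (hNS ℓ hℓ hd)
    have hℓS' : ℓ ∉ (↑S : Set ℕ) := by simpa using hℓS
    simp only [t]
    rw [dif_pos ⟨hℓ, hℓN, hℓS'⟩]
    exact hθ ℓ hℓ hℓN hℓS' P hP φ hφ
  set ρ0 : GaloisRepAdic (ResidueField (TLoc N S 𝒪 θ)) :=
    GaloisRepAdic.ofResidualGaloisRep (ρbar.baseChangeAlong ψ0) with hρ0
  have hdet0 : ρ0.DetIsCyclotomic p :=
    GlobHecke3.detIsCyclotomic_residual_baseChangeAlong ψ0 ρbar p hdet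
  have hfrob0 : ∀ ℓ : ℕ, ℓ.Prime → ℓ ∉ S → ∀ A : ValuationSubring Qb,
      A.LiesOverPrime ℓ → ∀ φ : GQ, A.IsFrobeniusAt φ ℓ →
        LinearMap.charpoly (ρ0.ρ φ) =
          X ^ 2 - C (residue (TLoc N S 𝒪 θ) (τ ℓ)) * X +
            C ((ℓ : ResidueField (TLoc N S 𝒪 θ))) := by
    intro ℓ hℓ hℓS A hA φ hφ
    letI : Algebra (ResidueField 𝒪) (ResidueField (TLoc N S 𝒪 θ)) := ψ0.toAlgebra
    show LinearMap.charpoly ((ρbar.ρ φ).baseChange (ResidueField (TLoc N S 𝒪 θ))) = _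
    rw [LinearMap.charpoly_baseChange, hbar ℓ hℓ hℓS A hA φ hφ, hτt ℓ hℓ hℓS]
    simp only [Polynomial.map_add, Polynomial.map_sub, Polynomial.map_pow, Polynomial.map_X,
      Polynomial.map_mul, Polynomial.map_C]
    rw [map_natCast]
    rfl
  obtain ⟨htr0, hd0⟩ := trace_det_complexConjugation p (ρbar.baseChangeAlong ψ0) hdet0
  have hirr0 : ∀ v : ρ0.V, v ≠ 0 →
      ¬ ∀ σ : GQ, ∃ c : ResidueField (TLoc N S 𝒪 θ), ρ0.ρ σ v = c • v :=
    GlobHecke3.no_invariant_line_baseChangeAlong ψ0 hψ0surj ρbar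
      (GlobBN3.no_invariant_line_of_isAbsolutelyIrreducible ρbar habs)
  obtain ⟨ρT, hT⟩ := DatumRep3.exists_galoisRepAdic_of_points ψ'' hloc'' hinj'' ρ S τ hfrob ρ0
    hfrob0 complexConjugation 1 (-1) (one_ne_neg_one p hp2) (by rw [htr0]; ring)
    (by rw [hd0]; ring) hirr0
  -- the residual representation of `ρT`
  have hlift := GlobHecke3.hlift_of_charpoly p hp2 ρbar habs hdet (residue_surjective' N S 𝒪 θ)
    ρT S t τ hτt hbar hT
  have habsT : ρT.residual.IsAbsolutelyIrreducible := by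
    obtain ⟨e⟩ := hlift
    exact AbsIrr3.isAbsolutelyIrreducible_of_isEquiv ⟨e.symm⟩
      (AbsIrr3.isAbsolutelyIrreducible_baseChangeAlong ψ0 ρbar habs)
  exact ⟨{
    π := piT N S 𝒪 θ
    residue_π := residue_piT N S 𝒪 θ
    adjoin_range_π := adjoin_range_piT N S 𝒪 θ
    exists_point := fun χ hχ => exists_point N S 𝒪 θ χ hχ
    residue_surjective := residue_surjective' N S 𝒪 θ
    ρ := ρT
    charpoly_frob := by
      intro ℓ hℓ hℓN hℓS A hA σ hσ
      have hℓS' : ℓ ∉ S := by simpa using hℓS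
      have := hT ℓ hℓ hℓS' A hA σ hσ
      simp only [τ] at this
      rw [dif_pos ⟨hℓ, hℓN, hℓS⟩] at this
      exact this
    residual_absIrr := habsT }⟩

end Main

end Fermat.Agent.M43.DatumExists3
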