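/-
M43 (helper1) [(6d') support] HeckeInd1: induction principle for the anemic Hecke algebra
`heckeAlgebra N 2 S` when `S` contains the primes of `N`: it is generated as a ring by the `T_ℓ`,
`ℓ ∤ N`, `ℓ ∉ S`.  Consequences: extensionality of ring homomorphisms, and membership of the image
in a subring.
-/
import Mathlib
import Fermat.Prelude.Def_CuspForm_HeckeAlgebra

set_option autoImplicit false

namespace Fermat.Agent.M43.HeckeInd1

open CuspForm

variable {N : ℕ} [NeZero N] {S : Set ℕ}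

/-- **Induction on the anemic Hecke algebra.** -/
theorem hecke_induction (hNS : ∀ q : ℕ, q.Prime → q ∣ N → q ∈ S)
    {P : heckeAlgebra N 2 S → Prop}
    (hT : ∀ (ℓ : ℕ) (hℓ : ℓ.Prime) (hℓN : ¬ ℓ ∣ N) (hℓS : ℓ ∉ S), P (heckeAlgebra.T hℓ hℓN hℓS))
    (hint : ∀ r : ℤ, P (r : heckeAlgebra N 2 S))
    (hadd : ∀ x y, P x → P y → P (x + y)) (hmul : ∀ x y, P x → P y → P (x * y))
    (t : heckeAlgebra N 2 S) : P t := by
  obtain ⟨x, hx⟩ := t
  induction hx using Algebra.adjoin_induction with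
  | mem x hx =>
    rcases hx with ⟨ℓ, hℓ, hℓN, hℓS, rfl⟩ | ⟨q, hqN, hq, hqS, rfl⟩
    · exact hT ℓ hℓ hℓN hℓS
    · exact absurd (hNS q hq hqN) hqS
  | algebraMap r =>
    have h1 : (⟨algebraMap ℤ _ r, Subalgebra.algebraMap_mem _ r⟩ : heckeAlgebra N 2 S) =
        (r : heckeAlgebra N 2 S) := by
      apply Subtype.ext
      simp
    rw [h1]
    exact hint r
  | add x y hx hy ihx ihy => exact hadd ⟨x, hx⟩ ⟨y, hy⟩ ihx ihy
  | mul x y hx hy ihx ihy => exact hmul ⟨x, hx⟩ ⟨y, hy⟩ ihx ihy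

/-- two ring homomorphisms which agree on the `T_ℓ` are equal. -/
theorem ringHom_ext (hNS : ∀ q : ℕ, q.Prime → q ∣ N → q ∈ S) {R : Type*} [Ring R]
    (f g : heckeAlgebra N 2 S →+* R)
    (h : ∀ (ℓ : ℕ) (hℓ : ℓ.Prime) (hℓN : ¬ ℓ ∣ N) (hℓS : ℓ ∉ S),
      f (heckeAlgebra.T hℓ hℓN hℓS) = g (heckeAlgebra.T hℓ hℓN hℓS)) : f = g := by
  ext t
  induction t using hecke_induction hNS with
  | hT ℓ hℓ hℓN hℓS => exact h ℓ hℓ hℓN hℓS
  | hint r => rw [map_intCast, map_intCast]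
  | hadd x y hx hy => rw [map_add, map_add, hx, hy]
  | hmul x y hx hy => rw [map_mul, map_mul, hx, hy]

/-- the image of a ring homomorphism lies in every subring containing the images of the `T_ℓ`. -/
theorem map_mem_subring (hNS : ∀ q : ℕ, q.Prime → q ∣ N → q ∈ S) {R : Type*} [Ring R]
    (f : heckeAlgebra N 2 S →+* R) (B : Subring R)
    (h : ∀ (ℓ : ℕ) (hℓ : ℓ.Prime) (hℓN : ¬ ℓ ∣ N) (hℓS : ℓ ∉ S),
      f (heckeAlgebra.T hℓ hℓN hℓS) ∈ B) (t : heckeAlgebra N 2 S) : f t ∈ B := by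
  induction t using hecke_induction hNS with
  | hT ℓ hℓ hℓN hℓS => exact h ℓ hℓ hℓN hℓS
  | hint r => rw [map_intCast]; exact intCast_mem B r
  | hadd x y hx hy => rw [map_add]; exact add_mem hx hy
  | hmul x y hx hy => rw [map_mul]; exact mul_mem hx hy

end Fermat.Agent.M43.HeckeInd1
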