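/-
M43 (helper1) [(6d') (ii)] HeckeGen1: **the local Hecke algebra is generated by the Hecke operators
away from any finite set `Q`.**

* `exists_pow_le_map`, `mem_of_forall_exists_sub_mem_pow`: in a local ring `T` finite over a
  noetherian local ring `𝒪`, every `𝒪`-submodule is closed for the `𝔪_T`-adic topology.
* `trace_mem_subalgebra`: if the characteristic polynomials of `ρT : GaloisRepAdic T` at the
  Frobenius elements outside a finite set `S'` are `X² - τ_ℓ X + ℓ` and `τ_ℓ ∈ B` (an `𝒪`-subalgebra)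
  for all `ℓ ∉ S'`, then ALL traces of `ρT` lie in `B` (Chebotarev in the generator form of
  `ES/GAL/ChebQbar23` + power sums as in the lead's `CarCheb0`).
* `adjoin_pi_away_eq_top`: for a Prelude `HeckeGaloisRepDatum` over `T` the `H.π (T_ℓ)`, `ℓ ∉ S ∪ Q`,
  generate `T` over `𝒪`.
-/
import Mathlib
import Fermat.Agent.M43.HeckeInd1
import Fermat.Agent.M43.CarCheb0
import Fermat.Agent.M43.GlobHecke3

set_option autoImplicit false
set_option linter.style.haveILetI false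
set_option linter.unusedSectionVars false

namespace Fermat.Agent.M43.HeckeGen1

open IsLocalRing CuspForm Polynomial
open Fermat.Agent.S53 Fermat.Agent.S53.MatrixModel Fermat.Agent.M43.CarRep0
  Fermat.Agent.M43.CarCheb0

local notation "Qb" => AlgebraicClosure ℚ

section Closed

variable {𝒪 : Type*} [CommRing 𝒪] [IsLocalRing 𝒪] [IsNoetherianRing 𝒪]
  {T : Type*} [CommRing T] [IsLocalRing T] [Algebra 𝒪 T] [Module.Finite 𝒪 T]

/-- a power of the maximal ideal of `T` lies in `𝔪_𝒪 T`. -/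
theorem exists_pow_le_map :
    ∃ e : ℕ, maximalIdeal T ^ e ≤ (maximalIdeal 𝒪).map (algebraMap 𝒪 T) := by
  have : IsNoetherianRing T := IsNoetherianRing.of_finite 𝒪 T
  have : Algebra.IsIntegral 𝒪 T := inferInstance
  apply Ideal.exists_pow_le_of_le_radical_of_fg _ (IsNoetherian.noetherian _)
  rw [Ideal.radical_eq_sInf]
  apply le_sInf
  rintro J ⟨hJ, hJprime⟩
  haveI := hJprime
  have h1 : maximalIdeal 𝒪 ≤ J.comap (algebraMap 𝒪 T) := Ideal.map_le_iff_le_comap.mp hJ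
  have h2 : (J.comap (algebraMap 𝒪 T)).IsPrime := inferInstance
  have h3 : maximalIdeal 𝒪 = J.comap (algebraMap 𝒪 T) :=
    (maximalIdeal.isMaximal 𝒪).eq_of_le h2.ne_top h1
  have h4 : (J.comap (algebraMap 𝒪 T)).IsMaximal := h3 ▸ maximalIdeal.isMaximal 𝒪
  have h5 : J.IsMaximal := Ideal.isMaximal_of_isIntegral_of_isMaximal_comap (R := 𝒪) J h4
  rw [IsLocalRing.eq_maximalIdeal h5]

/-- **`𝒪`-submodules of `T` are closed for the `𝔪_T`-adic topology.** -/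
theorem mem_of_forall_exists_sub_mem_pow (A : Submodule 𝒪 T) (x : T)
    (h : ∀ n : ℕ, ∃ a ∈ A, x - a ∈ maximalIdeal T ^ n) : x ∈ A := by
  obtain ⟨e, he⟩ := exists_pow_le_map (𝒪 := 𝒪) (T := T)
  have hkrull := Ideal.iInf_pow_smul_eq_bot_of_isLocalRing (R := 𝒪) (M := T ⧸ A)
    (maximalIdeal 𝒪) Ideal.IsPrime.ne_top'
  have hmem : A.mkQ x ∈ (⨅ i : ℕ, maximalIdeal 𝒪 ^ i • (⊤ : Submodule 𝒪 (T ⧸ A))) := by
    rw [Submodule.mem_iInf]
    intro n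
    obtain ⟨a, ha, hxa⟩ := h (e * n)
    have h1 : x - a ∈ ((maximalIdeal 𝒪) ^ n).map (algebraMap 𝒪 T) := by
      rw [Ideal.map_pow]
      rw [pow_mul] at hxa
      exact Ideal.pow_right_mono he n hxa
    have h2 : x - a ∈ ((maximalIdeal 𝒪) ^ n • ⊤ : Submodule 𝒪 T) := by
      rw [Ideal.smul_top_eq_map]
      exact h1
    have h3 : A.mkQ (x - a) ∈ (maximalIdeal 𝒪 ^ n • (⊤ : Submodule 𝒪 T)).map A.mkQ :=
      Submodule.mem_map_of_mem h2
    rw [Submodule.map_smul''] at h3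
    have h4 : A.mkQ (x - a) = A.mkQ x := by
      rw [map_sub, Submodule.mkQ_apply, Submodule.mkQ_apply,
        (Submodule.Quotient.mk_eq_zero A).mpr ha, sub_zero]
    rw [← h4]
    exact Submodule.smul_mono le_rfl le_top h3
  rw [hkrull, Submodule.mem_bot] at hmem
  exact (Submodule.Quotient.mk_eq_zero A).mp hmem

end Closed

section PowerSums

variable {𝒪 : Type*} [CommRing 𝒪] {T : Type*} [CommRing T] [Algebra 𝒪 T]

theorem psum_mem (B : Subalgebra 𝒪 T) {t d : T} (ht : t ∈ B) (hd : d ∈ B) (n : ℕ) :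
    psum t d n ∈ B := by
  induction n using Nat.strong_induction_on with
  | _ n ih =>
    match n with
    | 0 => simp only [psum]; exact ofNat_mem B 2
    | 1 => simp only [psum]; exact ht
    | (k + 2) =>
      simp only [psum]
      exact sub_mem (mul_mem ht (ih (k + 1) (by omega))) (mul_mem hd (ih k (by omega)))

end PowerSums

section Traces

variable {𝒪 : Type} [CommRing 𝒪] [IsLocalRing 𝒪] [IsNoetherianRing 𝒪]
  {T : Type} [CommRing T] [IsLocalRing T] [Algebra 𝒪 T] [Module.Finite 𝒪 T]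

/-- **All traces lie in the subalgebra generated by the Frobenius traces away from `S'`.** -/
theorem trace_mem_subalgebra (ρT : GaloisRepAdic T) (S' : Finset ℕ) (τ : ℕ → T)
    (hfrob : ∀ ℓ : ℕ, ℓ.Prime → ℓ ∉ S' → ∀ A : ValuationSubring Qb, A.LiesOverPrime ℓ →
      ∀ φ : GQ, A.IsFrobeniusAt φ ℓ →
        LinearMap.charpoly (ρT.ρ φ) = X ^ 2 - C (τ ℓ) * X + C ((ℓ : T)))
    (B : Subalgebra 𝒪 T) (hB : ∀ ℓ : ℕ, ℓ.Prime → ℓ ∉ S' → τ ℓ ∈ B) (σ : GQ) :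
    ρT.trace σ ∈ B := by
  classical
  obtain ⟨r, hr, he⟩ := exists_isEquiv_ofMatrix ρT
  have htr : ∀ σ, ρT.trace σ = (r σ).trace := fun σ => by
    rw [trace_eq_of_isEquiv he, trace_ofMatrix]
  have hcp : ∀ σ : GQ, LinearMap.charpoly (ρT.ρ σ) = (r σ).charpoly := by
    intro σ
    obtain ⟨e⟩ := he
    have h1 : (ofMatrix r hr).ρ σ = e.toLinearEquiv.conj (ρT.ρ σ) := by
      ext x
      rw [LinearEquiv.conj_apply, LinearMap.comp_apply, LinearMap.comp_apply,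
        LinearEquiv.coe_coe, LinearEquiv.coe_coe, e.map_apply, LinearEquiv.apply_symm_apply]
    have h2 : LinearMap.charpoly ((ofMatrix r hr).ρ σ) = (r σ).charpoly := by
      rw [← LinearMap.charpoly_toMatrix _ (stdBasis r hr), ← matrixOf_apply,
        matrixOf_ofMatrix]
    rw [← h2, h1, LinearEquiv.charpoly_conj]
  rw [htr]
  refine mem_of_forall_exists_sub_mem_pow (𝒪 := 𝒪) (Subalgebra.toSubmodule B) _ fun n => ?_
  obtain ⟨L, hLfin, hL⟩ := hr n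
  haveI := hLfin
  obtain ⟨ℓ, A, φ, j, hℓ, hℓS, hA, hφ, hfix⟩ :=
    Fermat.Agent.ES.GAL.ChebQbar23.exists_frobenius_inv_mul_pow_fixes L σ S'
  have hkey : (r φ).trace = τ ℓ ∧ (r φ).det = (ℓ : T) := by
    have hcharp := hfrob ℓ hℓ hℓS A hA φ hφ
    rw [hcp] at hcharp
    exact trace_det_of_charpoly (r φ) _ _ hcharp
  have h3 : ∀ a b, (r (σ⁻¹ * φ ^ j) - 1) a b ∈ maximalIdeal T ^ n :=
    hL (σ⁻¹ * φ ^ j) hfix
  have hfac : r (φ ^ j) = r σ * r (σ⁻¹ * φ ^ j) := by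
    rw [← map_mul, mul_inv_cancel_left]
  refine ⟨psum (τ ℓ) (ℓ : T) j, ?_, ?_⟩
  · exact psum_mem B (hB ℓ hℓ hℓS) (natCast_mem B ℓ) j
  · have h1 : psum (τ ℓ) (ℓ : T) j = (r (φ ^ j)).trace := by
      rw [map_pow, trace_pow_eq_psum, hkey.1, hkey.2]
    rw [h1]
    have h2 : r σ - r (φ ^ j) = - (r σ * (r (σ⁻¹ * φ ^ j) - 1)) := by
      rw [mul_sub, mul_one, ← hfac]; abel
    rw [← Matrix.trace_sub, h2, Matrix.trace_neg, Matrix.trace_fin_two, Matrix.mul_apply,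
      Matrix.mul_apply]
    exact Ideal.neg_mem_iff _ |>.mpr (Ideal.add_mem _
      (Ideal.sum_mem _ fun k _ => Ideal.mul_mem_left _ _ (h3 k 0))
      (Ideal.sum_mem _ fun k _ => Ideal.mul_mem_left _ _ (h3 k 1)))

end Traces

section Datum

variable {N : ℕ} [NeZero N] {S : Finset ℕ}
  {𝒪 : Type} [CommRing 𝒪] [IsDomain 𝒪] [IsDiscreteValuationRing 𝒪]
  [IsAdicComplete (maximalIdeal 𝒪) 𝒪]
  {θ : CuspForm.heckeAlgebra N 2 (↑S : Set ℕ) →+* ResidueField 𝒪}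
  {T : Type} [CommRing T] [IsLocalRing T] [IsNoetherianRing T]
  [IsAdicComplete (maximalIdeal T) T] [Algebra 𝒪 T] [IsLocalHom (algebraMap 𝒪 T)]
  [Module.Finite 𝒪 T] [Module.Free 𝒪 T]

/-- **(6d') (ii): `T` is generated over `𝒪` by the Hecke operators away from `Q`.** -/
theorem adjoin_pi_away_eq_top (hNS : ∀ q : ℕ, q.Prime → q ∣ N → q ∈ S)
    (H : CuspForm.HeckeGaloisRepDatum N (↑S : Set ℕ) 𝒪 θ T) (Q : Finset ℕ) :
    Algebra.adjoin 𝒪 {x : T | ∃ (ℓ : ℕ) (hℓ : ℓ.Prime) (hℓN : ¬ ℓ ∣ N) (hℓS : ℓ ∉ (↑S : Set ℕ)),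
      ℓ ∉ Q ∧ x = H.π (heckeAlgebra.T hℓ hℓN hℓS)} = ⊤ := by
  classical
  set B := Algebra.adjoin 𝒪 {x : T | ∃ (ℓ : ℕ) (hℓ : ℓ.Prime) (hℓN : ¬ ℓ ∣ N)
    (hℓS : ℓ ∉ (↑S : Set ℕ)), ℓ ∉ Q ∧ x = H.π (heckeAlgebra.T hℓ hℓN hℓS)} with hB
  have hNS' : ∀ q : ℕ, q.Prime → q ∣ N → q ∈ (↑S : Set ℕ) :=
    fun q hq hqN => Finset.mem_coe.2 (hNS q hq hqN)
  let τ : ℕ → T := fun ℓ =>
    if h : ℓ.Prime ∧ ¬ ℓ ∣ N ∧ ℓ ∉ (↑S : Set ℕ) then
      H.π (heckeAlgebra.T h.1 h.2.1 h.2.2) else 0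
  have hfrob : ∀ ℓ : ℕ, ℓ.Prime → ℓ ∉ S ∪ Q → ∀ A : ValuationSubring Qb, A.LiesOverPrime ℓ →
      ∀ φ : GQ, A.IsFrobeniusAt φ ℓ →
        LinearMap.charpoly (H.ρ.ρ φ) = X ^ 2 - C (τ ℓ) * X + C ((ℓ : T)) := by
    intro ℓ hℓ hℓSQ A hA φ hφ
    have hℓS : ℓ ∉ S := fun h => hℓSQ (Finset.mem_union_left _ h)
    have hℓN : ¬ ℓ ∣ N := fun hd => hℓS (hNS ℓ hℓ hd)
    have hℓS' : ℓ ∉ (↑S : Set ℕ) := by simpa using hℓS
    simp only [τ]
    rw [dif_pos ⟨hℓ, hℓN, hℓS'⟩]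
    exact H.charpoly_frob ℓ hℓ hℓN hℓS' A hA φ hφ
  have hτB : ∀ ℓ : ℕ, ℓ.Prime → ℓ ∉ S ∪ Q → τ ℓ ∈ B := by
    intro ℓ hℓ hℓSQ
    have hℓS : ℓ ∉ S := fun h => hℓSQ (Finset.mem_union_left _ h)
    have hℓQ : ℓ ∉ Q := fun h => hℓSQ (Finset.mem_union_right _ h)
    have hℓN : ¬ ℓ ∣ N := fun hd => hℓS (hNS ℓ hℓ hd)
    have hℓS' : ℓ ∉ (↑S : Set ℕ) := by simpa using hℓS
    simp only [τ]
    rw [dif_pos ⟨hℓ, hℓN, hℓS'⟩]
    exact Algebra.subset_adjoin ⟨ℓ, hℓ, hℓN, hℓS', hℓQ, rfl⟩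
  have htrace : ∀ σ : GQ, H.ρ.trace σ ∈ B :=
    trace_mem_subalgebra (𝒪 := 𝒪) H.ρ (S ∪ Q) τ hfrob B hτB
  have hπ : ∀ t, H.π t ∈ B := by
    intro t
    refine HeckeInd1.map_mem_subring hNS' H.π B.toSubring ?_ t
    intro ℓ hℓ hℓN hℓS
    obtain ⟨P, φ, hP, hφ⟩ := Fermat.Agent.Lib.exists_isFrobeniusAt ℓ hℓ
    have h1 := GlobHecke3.trace_frob H hℓ hℓN hℓS P hP φ hφ
    have h2 := htrace φ
    show H.π (heckeAlgebra.T hℓ hℓN hℓS) ∈ B
    rw [← h1]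
    exact h2
  rw [eq_top_iff, ← H.adjoin_range_π]
  apply Algebra.adjoin_le
  rintro _ ⟨t, rfl⟩
  exact hπ t

end Datum

end Fermat.Agent.M43.HeckeGen1
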