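/-
M43 (helper1) [(6d') (G)] HeckeUniq1: **uniqueness of the maximal ideal of the Hecke algebra above
the eigensystem of `ρ̄` away from a finite set `Q`.**

Frame of `DatumExists3.nonempty_datum`: `𝒪` a complete DVR of characteristic `0` with finite residue
field `k` of characteristic `p` odd, `S ∋ p` a finite set of primes containing the primes of `N`,
`θ : 𝕋 = heckeAlgebra N 2 S →+* k`, `ρ̄ : ResidualGaloisRep k` absolutely irreducible with cyclotomic
determinant and characteristic polynomials `X² - θ(T_ℓ) X + ℓ` at the Frobenius elements outside `S`.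

`maximal_eq_maxId`: a maximal ideal `𝔫` of `BB = 𝒪 ⊗ 𝕋` which contains `1 ⊗ T_ℓ - c` (`c` a lift of
`θ(T_ℓ)`) for all `ℓ ∉ S ∪ Q` is `maxId θ = ker (𝒪 ⊗ 𝕋 → k)`.
Proof: a characteristic zero point of `BB_𝔫` (`LocalHecke3.exists_points`), its Galois representation
(banked `S30`), Brauer–Nesbitt (`GlobBN3`) with the exceptional set `S ∪ Q`, and then the traces at
the Frobenius elements of the primes of `Q`.
-/
import Mathlib
import Fermat.Agent.M43.HeckeInd1
import Fermat.Agent.M43.DatumAlg3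
import Fermat.Agent.M43.LocalHecke3
import Fermat.Agent.M43.GlobBN3
import Fermat.Agent.M43.GlobHecke3
import Fermat.Agent.M43.AbsIrr3
import Fermat.Agent.S30

set_option autoImplicit false
set_option linter.style.haveILetI false
set_option linter.unusedSectionVars false

namespace Fermat.Agent.M43.HeckeUniq1

open IsLocalRing CuspForm Polynomial Fermat.Agent.M43.DatumAlg3
open scoped TensorProduct

local notation "Qb" => AlgebraicClosure ℚ
local notation "GQ" => (AlgebraicClosure ℚ ≃ₐ[ℚ] AlgebraicClosure ℚ)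

section Equiv

variable {k : Type} [Field k]

/-- equivalent residual representations have the same characteristic polynomials. -/
theorem charpoly_eq_of_isEquiv {ρ₁ ρ₂ : ResidualGaloisRep k} (h : ρ₁.IsEquiv ρ₂) (σ : GQ) :
    LinearMap.charpoly (ρ₂.ρ σ) = LinearMap.charpoly (ρ₁.ρ σ) := by
  obtain ⟨e⟩ := h
  have h1 : ρ₂.ρ σ = e.toLinearEquiv.conj (ρ₁.ρ σ) := by
    ext x
    rw [LinearEquiv.conj_apply, LinearMap.comp_apply, LinearMap.comp_apply,
      LinearEquiv.coe_coe, LinearEquiv.coe_coe, e.map_apply, LinearEquiv.apply_symm_apply]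
  rw [h1, LinearEquiv.charpoly_conj]

/-- comparing the coefficients of `X`. -/
theorem coeff_one_eq {R : Type*} [CommRing R] {a b c d : R}
    (h : (X ^ 2 - C a * X + C b : R[X]) = X ^ 2 - C c * X + C d) : a = c := by
  have := congrArg (fun f => Polynomial.coeff f 1) h
  simp only [coeff_add, coeff_sub, coeff_X_pow, coeff_C_mul, coeff_X_one, coeff_C] at this
  norm_num at this
  exact this

end Equiv

section Main

variable (p : ℕ) [hp : Fact p.Prime] (N : ℕ) [NeZero N] (S : Finset ℕ)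
  (𝒪 : Type) [CommRing 𝒪] [IsDomain 𝒪] [IsDiscreteValuationRing 𝒪]
  [IsAdicComplete (maximalIdeal 𝒪) 𝒪] [Finite (ResidueField 𝒪)] [CharZero 𝒪]
  [CharP (ResidueField 𝒪) p]
  (θ : heckeAlgebra N 2 (↑S : Set ℕ) →+* ResidueField 𝒪)

/-- **(6d') (G): the maximal ideal above the eigensystem of `ρ̄` away from `Q` is unique.** -/
theorem maximal_eq_maxId (hp2 : p ≠ 2) (hp𝒪 : (p : 𝒪) ∈ maximalIdeal 𝒪) (hpS : p ∈ S)
    (hNS : ∀ q : ℕ, q.Prime → q ∣ N → q ∈ S)
    (ρbar : ResidualGaloisRep (ResidueField 𝒪)) (habs : ρbar.IsAbsolutelyIrreducible)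
    (hdet : (GaloisRepAdic.ofResidualGaloisRep ρbar).DetIsCyclotomic p)
    (hθ : ∀ (ℓ : ℕ) (hℓ : ℓ.Prime) (hℓN : ¬ ℓ ∣ N) (hℓS : ℓ ∉ (↑S : Set ℕ)),
      ∀ P : ValuationSubring Qb, P.LiesOverPrime ℓ → ∀ φ : GQ, P.IsFrobeniusAt φ ℓ →
        LinearMap.charpoly (ρbar.ρ φ) =
          X ^ 2 - C (θ (heckeAlgebra.T hℓ hℓN hℓS)) * X + C ((ℓ : ResidueField 𝒪)))
    (Q : Finset ℕ) (𝔫 : Ideal (BB N S 𝒪)) [h𝔫max : 𝔫.IsMaximal]
    (h𝔫 : ∀ (ℓ : ℕ) (hℓ : ℓ.Prime) (hℓN : ¬ ℓ ∣ N) (hℓS : ℓ ∉ (↑S : Set ℕ)), ℓ ∉ Q →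
      ∀ c : 𝒪, residue 𝒪 c = θ (heckeAlgebra.T hℓ hℓN hℓS) →
        tm N S 𝒪 1 (heckeAlgebra.T hℓ hℓN hℓS) - algebraMap 𝒪 (BB N S 𝒪) c ∈ 𝔫) :
    𝔫 = maxId N S 𝒪 θ := by
  classical
  have hNS' : ∀ q : ℕ, q.Prime → q ∣ N → q ∈ (↑S : Set ℕ) :=
    fun q hq hqN => Finset.mem_coe.2 (hNS q hq hqN)
  -- the local ring `T' = BB_𝔫`
  set T' := Localization.AtPrime 𝔫 with hT'
  haveI : Module.Finite 𝒪 T' := LocalHecke3.finite_localization 𝒪 (BB N S 𝒪) 𝔫
  have htf : ∀ (a : 𝒪) (x : T'), a • x = 0 → a = 0 ∨ x = 0 := by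
    refine LocalHecke3.smul_eq_zero_localization (BB N S 𝒪) 𝔫 ?_
    intro a x h
    haveI : Module.IsTorsionFree 𝒪 (BB N S 𝒪) := inferInstance
    exact smul_eq_zero.mp h
  haveI : Module.IsTorsionFree 𝒪 T' := by
    haveI : NoZeroSMulDivisors 𝒪 T' := ⟨fun {a x} h => htf a x h⟩
    infer_instance
  haveI : Module.Free 𝒪 T' := inferInstance
  haveI hlocT' : IsLocalHom (algebraMap 𝒪 T') := LocalHecke3.isLocalHom_algebraMap_of_finite _
  have hsurj : Function.Surjective (algebraMap (BB N S 𝒪) T') :=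
    LocalHecke3.surjective_algebraMap_localization 𝒪 (BB N S 𝒪) 𝔫
  set π' : heckeAlgebra N 2 (↑S : Set ℕ) →+* T' :=
    (algebraMap (BB N S 𝒪) T').comp (inclT N S 𝒪) with hπ'
  have hadj : Algebra.adjoin 𝒪 (Set.range π') = ⊤ := by
    rw [eq_top_iff]
    intro x _
    obtain ⟨b, rfl⟩ := hsurj x
    induction b using BB_induction with
    | h0 => rw [map_zero]; exact Subalgebra.zero_mem _
    | h1 c t =>
      rw [tm_eq_smul, Algebra.smul_def, map_mul, ← IsScalarTower.algebraMap_apply,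
        ← Algebra.smul_def]
      have hmem : algebraMap (BB N S 𝒪) T' (tm N S 𝒪 1 t) ∈ Algebra.adjoin 𝒪 (Set.range π') :=
        Algebra.subset_adjoin ⟨t, rfl⟩
      exact Subalgebra.smul_mem _ hmem c
    | h2 x y hx hy =>
      rw [map_add]
      exact Subalgebra.add_mem _ (hx Algebra.mem_top) (hy Algebra.mem_top)
  haveI : IsReduced T' := by
    haveI : IsReduced (heckeAlgebra N 2 (↑S : Set ℕ)) :=
      Fermat.Agent.ES.PET.PetFinal21.isReduced_heckeAlgebra N (↑S : Set ℕ) hNS'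
    haveI : Module.Finite ℤ (heckeAlgebra N 2 (↑S : Set ℕ)) := Fermat.Agent.S22.result N 2 _
    exact Fermat.Agent.S32x.Reduced4.isReduced_of_adjoin π'
      (fun h => IsIntegral.of_finite ℤ h) hadj
  -- the characteristic zero points
  obtain ⟨ι, hι, O, i1, i2, i3, i4, i5, i6, ψ, hloc, hinj⟩ := LocalHecke3.exists_points 𝒪 T' htf
  have hne : Nonempty ι := by
    by_contra hemp
    rw [not_nonempty_iff] at hemp
    have : (1 : T') = 0 := hinj 1 fun i => (hemp.false i).elim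
    exact one_ne_zero this
  obtain ⟨i⟩ := hne
  haveI := hloc i
  have hpT : (p : T') ∈ maximalIdeal T' := by
    have := map_nonunit (algebraMap 𝒪 T') (p : 𝒪) hp𝒪
    rwa [map_natCast] at this
  have hpO : (p : O i) ∈ maximalIdeal (O i) := by
    have := map_nonunit (ψ i) (p : T') hpT
    rwa [map_natCast] at this
  -- the representation at the point
  obtain ⟨O'', j1, j2, j3, j4, j5, j6, j7, j8, j9, hinjalg, ρ, hρ, -⟩ :=
    Fermat.Agent.S30.result p N S hpS hNS (O i) hpO ((ψ i).comp π')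
  -- the homomorphism to the residue field of `O''`
  set f0 : 𝒪 →+* O'' := (algebraMap (O i) O'').comp ((ψ i).comp (algebraMap 𝒪 T')) with hf0
  haveI hf0loc : IsLocalHom f0 := by
    haveI : IsLocalHom ((ψ i).comp (algebraMap 𝒪 T')) := RingHom.isLocalHom_comp _ _
    exact RingHom.isLocalHom_comp _ _
  set ψ0 : ResidueField 𝒪 →+* ResidueField O'' := ResidueField.map f0 with hψ0
  haveI : CharP (ResidueField O'') p := charP_of_injective_ringHom ψ0.injective p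
  set Ψ : BB N S 𝒪 →+* ResidueField O'' :=
    (residue O'').comp ((algebraMap (O i) O'').comp ((ψ i).comp (algebraMap (BB N S 𝒪) T')))
    with hΨ
  have hΨalg : ∀ c : 𝒪, Ψ (algebraMap 𝒪 (BB N S 𝒪) c) = ψ0 (residue 𝒪 c) := by
    intro c
    rw [hψ0, ResidueField.map_residue]
    simp only [hΨ, hf0, RingHom.comp_apply]
    rw [← IsScalarTower.algebraMap_apply 𝒪 (BB N S 𝒪) T']
  have hle : 𝔫 ≤ RingHom.ker Ψ := by
    intro b hb
    rw [RingHom.mem_ker]
    have h1 : algebraMap (BB N S 𝒪) T' b ∈ maximalIdeal T' :=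
      (IsLocalization.AtPrime.to_map_mem_maximal_iff T' 𝔫 b).mpr hb
    have h2 : ψ i (algebraMap (BB N S 𝒪) T' b) ∈ maximalIdeal (O i) := map_nonunit (ψ i) _ h1
    have h3 : algebraMap (O i) O'' (ψ i (algebraMap (BB N S 𝒪) T' b)) ∈ maximalIdeal O'' :=
      map_nonunit (algebraMap (O i) O'') _ h2
    simp only [hΨ, RingHom.comp_apply]
    exact (residue_eq_zero_iff _).mpr h3
  have hker : 𝔫 = RingHom.ker Ψ :=
    h𝔫max.eq_of_le (RingHom.ker_ne_top Ψ) hle
  -- the eigenvalues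
  let t : ℕ → ResidueField 𝒪 := fun ℓ =>
    if h : ℓ.Prime ∧ ¬ ℓ ∣ N ∧ ℓ ∉ (↑S : Set ℕ) then
      θ (heckeAlgebra.T h.1 h.2.1 h.2.2) else 0
  have hbar : ∀ ℓ : ℕ, ℓ.Prime → ℓ ∉ S → ∀ P : ValuationSubring Qb, P.LiesOverPrime ℓ →
      ∀ φ : GQ, P.IsFrobeniusAt φ ℓ →
        LinearMap.charpoly ((ρbar.baseChangeAlong ψ0).ρ φ) =
          X ^ 2 - C (ψ0 (t ℓ)) * X + C ((ℓ : ResidueField O'')) := by
    intro ℓ hℓ hℓS P hP φ hφ
    have hℓN : ¬ ℓ ∣ N := fun hd => hℓS (hNS ℓ hℓ hd)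
    have hℓS' : ℓ ∉ (↑S : Set ℕ) := by simpa using hℓS
    letI : Algebra (ResidueField 𝒪) (ResidueField O'') := ψ0.toAlgebra
    show LinearMap.charpoly ((ρbar.ρ φ).baseChange (ResidueField O'')) = _
    rw [LinearMap.charpoly_baseChange, hθ ℓ hℓ hℓN hℓS' P hP φ hφ]
    simp only [Polynomial.map_add, Polynomial.map_sub, Polynomial.map_pow, Polynomial.map_X,
      Polynomial.map_mul, Polynomial.map_C]
    rw [map_natCast]
    simp only [t]
    rw [dif_pos ⟨hℓ, hℓN, hℓS'⟩]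
    rfl
  have hres : ∀ (ℓ : ℕ) (hℓ : ℓ.Prime) (hℓN : ¬ ℓ ∣ N) (hℓS : ℓ ∉ (↑S : Set ℕ)),
      ∀ P : ValuationSubring Qb, P.LiesOverPrime ℓ → ∀ φ : GQ, P.IsFrobeniusAt φ ℓ →
        LinearMap.charpoly (ρ.residual.ρ φ) =
          X ^ 2 - C (Ψ (tm N S 𝒪 1 (heckeAlgebra.T hℓ hℓN hℓS))) * X +
            C ((ℓ : ResidueField O'')) := by
    intro ℓ hℓ hℓN hℓS P hP φ hφ
    show LinearMap.charpoly ((ρ.ρ φ).baseChange (ResidueField O'')) = _
    rw [LinearMap.charpoly_baseChange, hρ ℓ hℓ hℓN hℓS P hP φ hφ]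
    simp only [Polynomial.map_add, Polynomial.map_sub, Polynomial.map_pow, Polynomial.map_X,
      Polynomial.map_mul, Polynomial.map_C]
    rw [map_natCast]
    rfl
  -- Brauer–Nesbitt with the exceptional set `S ∪ Q`
  have hBN : (ρbar.baseChangeAlong ψ0).IsEquiv ρ.residual := by
    refine GlobBN3.residual_isEquiv_of_charpoly_frob p hp2 (ρbar.baseChangeAlong ψ0) ρ.residual
      (GlobHecke3.detIsCyclotomic_residual_baseChangeAlong ψ0 ρbar p hdet)
      (GlobBN3.no_invariant_line_of_isAbsolutelyIrreducible _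
        (AbsIrr3.isAbsolutelyIrreducible_baseChangeAlong ψ0 ρbar habs))
      (S ∪ Q) (fun ℓ => ψ0 (t ℓ)) ?_ ?_
    · intro ℓ hℓ hℓSQ P hP φ hφ
      have hℓS : ℓ ∉ S := fun h => hℓSQ (Finset.mem_union_left _ h)
      exact hbar ℓ hℓ hℓS P hP φ hφ
    · intro ℓ hℓ hℓSQ P hP φ hφ
      have hℓS : ℓ ∉ S := fun h => hℓSQ (Finset.mem_union_left _ h)
      have hℓQ : ℓ ∉ Q := fun h => hℓSQ (Finset.mem_union_right _ h)
      have hℓN : ¬ ℓ ∣ N := fun hd => hℓS (hNS ℓ hℓ hd)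
      have hℓS' : ℓ ∉ (↑S : Set ℕ) := by simpa using hℓS
      rw [hres ℓ hℓ hℓN hℓS' P hP φ hφ]
      obtain ⟨c, hc⟩ := residue_surjective (θ (heckeAlgebra.T hℓ hℓN hℓS'))
      have h1 := hle (h𝔫 ℓ hℓ hℓN hℓS' hℓQ c hc)
      rw [RingHom.mem_ker, map_sub, sub_eq_zero, hΨalg, hc] at h1
      rw [h1]
      simp only [t]
      rw [dif_pos ⟨hℓ, hℓN, hℓS'⟩]
  -- the two homomorphisms `𝕋 → k''` agree
  have hagree : Ψ.comp (inclT N S 𝒪) = ψ0.comp θ := by
    apply HeckeInd1.ringHom_ext hNS'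
    intro ℓ hℓ hℓN hℓS'
    have hℓS : ℓ ∉ S := by simpa using hℓS'
    obtain ⟨P, φ, hP, hφ⟩ := Fermat.Agent.Lib.exists_isFrobeniusAt ℓ hℓ
    have h1 := charpoly_eq_of_isEquiv hBN φ
    rw [hres ℓ hℓ hℓN hℓS' P hP φ hφ, hbar ℓ hℓ hℓS P hP φ hφ] at h1
    have h2 := coeff_one_eq h1
    simp only [t] at h2
    rw [dif_pos ⟨hℓ, hℓN, hℓS'⟩] at h2
    rw [RingHom.comp_apply, RingHom.comp_apply, inclT_apply]
    exact h2
  have hΨθ : ∀ b : BB N S 𝒪, Ψ b = ψ0 (thetaB N S 𝒪 θ b) := by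
    intro b
    induction b using BB_induction with
    | h0 => simp only [map_zero]
    | h1 c t' =>
      rw [thetaB_tmul, tm_eq_smul, Algebra.smul_def, map_mul, hΨalg, map_mul]
      congr 1
      have := congrArg (fun g => g t') hagree
      simpa [RingHom.comp_apply, inclT_apply] using this
    | h2 x y hx hy => simp only [map_add, hx, hy]
  -- conclusion
  have hle2 : maxId N S 𝒪 θ ≤ 𝔫 := by
    intro b hb
    rw [hker, RingHom.mem_ker, hΨθ, (mem_maxId N S 𝒪 θ b).mp hb, map_zero]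
  exact ((maxId_isMaximal N S 𝒪 θ).eq_of_le h𝔫max.ne_top hle2).symm

end Main

end Fermat.Agent.M43.HeckeUniq1
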