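/-
M43 (helper1) [(6d') (i)] HeckeLoc1: **the elements of `BB ∖ maxId θ` become invertible after
inverting the Hecke operators away from `Q` which are not in `maxId θ`** (witness form).

`BQ N S 𝒪 Q ≤ BB N S 𝒪` is the `𝒪`-subalgebra generated by the `1 ⊗ T_ℓ`, `ℓ ∉ S ∪ Q`.
`exists_mul_eq`: for `b ∉ maxId θ` there are `g : BB` and `s ∈ BQ`, `s ∉ maxId θ`, with `b * g = s`.
So on every `BB`-module localised at `(maxId θ ∩ BQ).primeCompl` the element `b` acts bijectively: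
`maxId θ` is the only maximal ideal of `BB` above `maxId θ ∩ BQ` (`HeckeUniq1.maximal_eq_maxId`),
then Nakayama over `BQ`.
-/
import Mathlib
import Fermat.Agent.M43.HeckeUniq1

set_option autoImplicit false
set_option linter.style.haveILetI false
set_option linter.unusedSectionVars false

namespace Fermat.Agent.M43.HeckeLoc1

open IsLocalRing CuspForm Polynomial Fermat.Agent.M43.DatumAlg3
open scoped TensorProduct Pointwise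

local notation "Qb" => AlgebraicClosure ℚ
local notation "GQ" => (AlgebraicClosure ℚ ≃ₐ[ℚ] AlgebraicClosure ℚ)

section Defs

variable (N : ℕ) [NeZero N] (S : Finset ℕ) (𝒪 : Type) [CommRing 𝒪] [IsLocalRing 𝒪]

/-- the generators `1 ⊗ T_ℓ`, `ℓ ∉ S ∪ Q`. -/
def genQ (Q : Finset ℕ) : Set (BB N S 𝒪) :=
  {x | ∃ (ℓ : ℕ) (hℓ : ℓ.Prime) (hℓN : ¬ ℓ ∣ N) (hℓS : ℓ ∉ (↑S : Set ℕ)), ℓ ∉ Q ∧
    x = tm N S 𝒪 1 (heckeAlgebra.T hℓ hℓN hℓS)}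

/-- the `𝒪`-subalgebra of `𝒪 ⊗ 𝕋` generated by the Hecke operators away from `Q`. -/
noncomputable def BQ (Q : Finset ℕ) : Subalgebra 𝒪 (BB N S 𝒪) := Algebra.adjoin 𝒪 (genQ N S 𝒪 Q)

theorem tm_T_mem_BQ (Q : Finset ℕ) {ℓ : ℕ} (hℓ : ℓ.Prime) (hℓN : ¬ ℓ ∣ N)
    (hℓS : ℓ ∉ (↑S : Set ℕ)) (hℓQ : ℓ ∉ Q) :
    tm N S 𝒪 1 (heckeAlgebra.T hℓ hℓN hℓS) ∈ BQ N S 𝒪 Q :=
  Algebra.subset_adjoin ⟨ℓ, hℓ, hℓN, hℓS, hℓQ, rfl⟩

end Defs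

section Main

variable (p : ℕ) [hp : Fact p.Prime] (N : ℕ) [NeZero N] (S : Finset ℕ)
  (𝒪 : Type) [CommRing 𝒪] [IsDomain 𝒪] [IsDiscreteValuationRing 𝒪]
  [IsAdicComplete (maximalIdeal 𝒪) 𝒪] [Finite (ResidueField 𝒪)] [CharZero 𝒪]
  [CharP (ResidueField 𝒪) p]
  (θ : heckeAlgebra N 2 (↑S : Set ℕ) →+* ResidueField 𝒪)

/-- **(6d') (i), witness form.** -/
theorem exists_mul_eq (hp2 : p ≠ 2) (hp𝒪 : (p : 𝒪) ∈ maximalIdeal 𝒪) (hpS : p ∈ S)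
    (hNS : ∀ q : ℕ, q.Prime → q ∣ N → q ∈ S)
    (ρbar : ResidualGaloisRep (ResidueField 𝒪)) (habs : ρbar.IsAbsolutelyIrreducible)
    (hdet : (GaloisRepAdic.ofResidualGaloisRep ρbar).DetIsCyclotomic p)
    (hθ : ∀ (ℓ : ℕ) (hℓ : ℓ.Prime) (hℓN : ¬ ℓ ∣ N) (hℓS : ℓ ∉ (↑S : Set ℕ)),
      ∀ P : ValuationSubring Qb, P.LiesOverPrime ℓ → ∀ φ : GQ, P.IsFrobeniusAt φ ℓ →
        LinearMap.charpoly (ρbar.ρ φ) =
          X ^ 2 - C (θ (heckeAlgebra.T hℓ hℓN hℓS)) * X + C ((ℓ : ResidueField 𝒪)))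
    (Q : Finset ℕ) (b : BB N S 𝒪) (hb : b ∉ maxId N S 𝒪 θ) :
    ∃ g : BB N S 𝒪, ∃ s ∈ BQ N S 𝒪 Q, s ∉ maxId N S 𝒪 θ ∧ b * g = s := by
  classical
  set R := BQ N S 𝒪 Q with hR
  set I : Ideal R := (maxId N S 𝒪 θ).comap (algebraMap R (BB N S 𝒪)) with hI
  -- the ideal generated by `b` and `I`
  set J : Ideal (BB N S 𝒪) := Ideal.span {b} ⊔ I.map (algebraMap R (BB N S 𝒪)) with hJ
  have hJtop : J = ⊤ := by
    by_contra hne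
    obtain ⟨𝔫, h𝔫max, hJ𝔫⟩ := Ideal.exists_le_maximal J hne
    haveI := h𝔫max
    have h𝔫 : ∀ (ℓ : ℕ) (hℓ : ℓ.Prime) (hℓN : ¬ ℓ ∣ N) (hℓS : ℓ ∉ (↑S : Set ℕ)), ℓ ∉ Q →
        ∀ c : 𝒪, residue 𝒪 c = θ (heckeAlgebra.T hℓ hℓN hℓS) →
          tm N S 𝒪 1 (heckeAlgebra.T hℓ hℓN hℓS) - algebraMap 𝒪 (BB N S 𝒪) c ∈ 𝔫 := by
      intro ℓ hℓ hℓN hℓS hℓQ c hc
      apply hJ𝔫
      apply Ideal.mem_sup_right
      have hx : tm N S 𝒪 1 (heckeAlgebra.T hℓ hℓN hℓS) - algebraMap 𝒪 (BB N S 𝒪) c ∈ R :=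
        Subalgebra.sub_mem _ (tm_T_mem_BQ N S 𝒪 Q hℓ hℓN hℓS hℓQ) (Subalgebra.algebraMap_mem _ c)
      have hxI : (⟨_, hx⟩ : R) ∈ I := by
        rw [hI, Ideal.mem_comap]
        show tm N S 𝒪 1 (heckeAlgebra.T hℓ hℓN hℓS) - algebraMap 𝒪 (BB N S 𝒪) c ∈
          maxId N S 𝒪 θ
        rw [mem_maxId, map_sub, thetaB_tmul, AlgHom.commutes, map_one, one_mul, ← hc, sub_eq_zero]
        rfl
      exact Ideal.mem_map_of_mem (algebraMap R (BB N S 𝒪)) hxI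
    have := HeckeUniq1.maximal_eq_maxId p N S 𝒪 θ hp2 hp𝒪 hpS hNS ρbar habs hdet hθ Q 𝔫 h𝔫
    apply hb
    rw [← this]
    exact hJ𝔫 (Ideal.mem_sup_left (Ideal.subset_span rfl))
  -- Nakayama
  haveI : Module.Finite R (BB N S 𝒪) := Module.Finite.of_restrictScalars_finite 𝒪 R (BB N S 𝒪)
  have hfg : (⊤ : Submodule R (BB N S 𝒪)).FG := Module.finite_def.mp inferInstance
  have hsup : (⊤ : Submodule R (BB N S 𝒪)) ≤
      (Ideal.span {b}).restrictScalars R ⊔ I • (⊤ : Submodule R (BB N S 𝒪)) := by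
    intro y _
    have hy : y ∈ J := by rw [hJtop]; trivial
    obtain ⟨u, hu, v, hv, rfl⟩ := Submodule.mem_sup.mp hy
    refine Submodule.mem_sup.mpr ⟨u, hu, v, ?_, rfl⟩
    rw [Ideal.smul_top_eq_map]
    exact hv
  obtain ⟨r, hr1, hr⟩ := Submodule.exists_sub_one_mem_and_smul_le_of_fg_of_le_sup
    (I := I) hfg le_rfl hsup
  have h1 : r • (1 : BB N S 𝒪) ∈ (Ideal.span {b}).restrictScalars R :=
    hr (Submodule.smul_mem_pointwise_smul _ _ _ Submodule.mem_top)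
  have h2 : (r : BB N S 𝒪) ∈ Ideal.span {b} := by
    have : r • (1 : BB N S 𝒪) = (r : BB N S 𝒪) := by
      rw [Algebra.smul_def, mul_one]; rfl
    rw [← this]
    exact h1
  obtain ⟨g, hg⟩ := Ideal.mem_span_singleton'.mp h2
  refine ⟨g, (r : BB N S 𝒪), r.2, ?_, by rw [mul_comm]; exact hg⟩
  intro hmem
  have h3 : ((r - 1 : R) : BB N S 𝒪) ∈ maxId N S 𝒪 θ := hr1
  have h4 : (1 : BB N S 𝒪) ∈ maxId N S 𝒪 θ := by
    have : (1 : BB N S 𝒪) = (r : BB N S 𝒪) - ((r - 1 : R) : BB N S 𝒪) := by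
      push_cast; ring
    rw [this]
    exact Ideal.sub_mem _ hmem h3
  exact (maxId_isMaximal N S 𝒪 θ).ne_top ((Ideal.eq_top_iff_one _).mpr h4)

end Main

end Fermat.Agent.M43.HeckeLoc1
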