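/-
M43 (helper1) [(6d') (ii), instance] HeckeGenT1: **(6d') (ii) for `TLoc N S 𝒪 θ` and `piT`.**

* `exists_datum_piT`: helper3's `DatumExists3.nonempty_datum` with `π = piT` recorded (same proof).
* `adjoin_piT_away_eq_top`: `TLoc` is generated over `𝒪` by the `piT (T_ℓ)`, `ℓ ∉ S ∪ Q`.
* `exists_mem_BQ_eq`: witness form in `BB = 𝒪 ⊗ 𝕋`: every `b : BB` agrees in `TLoc` with some
  `b' ∈ BQ`; `exists_smul_sub_eq_zero`: `∃ b' ∈ BQ, ∃ s ∈ BQ, s ∉ maxId θ ∧ s * (b - b') = 0`.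
-/
import Mathlib
import Fermat.Agent.M43.DatumExists3
import Fermat.Agent.M43.HeckeGen1
import Fermat.Agent.M43.HeckeLoc1

set_option autoImplicit false
set_option linter.style.haveILetI false
set_option linter.unusedSectionVars false

namespace Fermat.Agent.M43.HeckeGenT1

open IsLocalRing CuspForm Polynomial Fermat.Agent.M43.DatumAlg3 Fermat.Agent.M43.HeckeLoc1
open scoped TensorProduct

local notation "Qb" => AlgebraicClosure ℚ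
local notation "GQ" => (AlgebraicClosure ℚ ≃ₐ[ℚ] AlgebraicClosure ℚ)

section Main

variable (p : ℕ) [hp : Fact p.Prime] (N : ℕ) [NeZero N] (S : Finset ℕ)
  (𝒪 : Type) [CommRing 𝒪] [IsDomain 𝒪] [IsDiscreteValuationRing 𝒪]
  [IsAdicComplete (maximalIdeal 𝒪) 𝒪] [Finite (ResidueField 𝒪)] [CharZero 𝒪]
  [CharP (ResidueField 𝒪) p]
  (θ : heckeAlgebra N 2 (↑S : Set ℕ) →+* ResidueField 𝒪)

/-- **Existence of the Hecke–Galois datum of the full local Hecke algebra, with `π = piT`**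
(`DatumExists3.nonempty_datum` with the structure map recorded). -/
theorem exists_datum_piT (hp2 : p ≠ 2) (hp𝒪 : (p : 𝒪) ∈ maximalIdeal 𝒪) (hpS : p ∈ S)
    (hNS : ∀ q : ℕ, q.Prime → q ∣ N → q ∈ S)
    (ρbar : ResidualGaloisRep (ResidueField 𝒪)) (habs : ρbar.IsAbsolutelyIrreducible)
    (hdet : (GaloisRepAdic.ofResidualGaloisRep ρbar).DetIsCyclotomic p)
    (hθ : ∀ (ℓ : ℕ) (hℓ : ℓ.Prime) (hℓN : ¬ ℓ ∣ N) (hℓS : ℓ ∉ (↑S : Set ℕ)),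
      ∀ P : ValuationSubring Qb, P.LiesOverPrime ℓ → ∀ φ : GQ, P.IsFrobeniusAt φ ℓ →
        LinearMap.charpoly (ρbar.ρ φ) =
          X ^ 2 - C (θ (heckeAlgebra.T hℓ hℓN hℓS)) * X + C ((ℓ : ResidueField 𝒪))) :
    ∃ H : HeckeGaloisRepDatum N (↑S : Set ℕ) 𝒪 θ (TLoc N S 𝒪 θ), H.π = piT N S 𝒪 θ := by
  classical
  haveI : IsReduced (TLoc N S 𝒪 θ) := isReduced_TLoc N S 𝒪 θ hNS
  haveI : Finite (ResidueField (TLoc N S 𝒪 θ)) := finite_residueField N S 𝒪 θ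
  obtain ⟨ι, hι, O, i1, i2, i3, i4, i5, i6, ψ, hloc, hinj⟩ :=
    LocalHecke3.exists_points 𝒪 (TLoc N S 𝒪 θ) (smul_eq_zero_TLoc N S 𝒪 θ)
  have hpT : (p : TLoc N S 𝒪 θ) ∈ maximalIdeal (TLoc N S 𝒪 θ) :=
    GlobHecke3.natCast_mem_maximalIdeal hp𝒪
  have hpO : ∀ i, (p : O i) ∈ maximalIdeal (O i) := by
    intro i
    haveI := hloc i
    have := map_nonunit (ψ i) (p : TLoc N S 𝒪 θ) hpT
    rwa [map_natCast] at this
  -- the representations at the points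
  have key := fun i => Fermat.Agent.S30.result p N S hpS hNS (O i) (hpO i)
    ((ψ i).comp (piT N S 𝒪 θ))
  choose O'' j1 j2 j3 j4 j5 j6 j7 j8 j9 hinjalg ρ hρ hunr using key
  haveI : ∀ i, IsLocalRing (O'' i) := fun i => inferInstance
  haveI : ∀ i, IsNoetherianRing (O'' i) := fun i => inferInstance
  let ψ'' : ∀ i, TLoc N S 𝒪 θ →+* O'' i := fun i => (algebraMap (O i) (O'' i)).comp (ψ i)
  have hloc'' : ∀ i, IsLocalHom (ψ'' i) := by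
    intro i
    haveI := hloc i
    haveI := j9 i
    exact RingHom.isLocalHom_comp _ _
  have hinj'' : ∀ x : TLoc N S 𝒪 θ, (∀ i, ψ'' i x = 0) → x = 0 := by
    intro x hx
    refine hinj x fun i => ?_
    have h1 := hx i
    rw [RingHom.comp_apply] at h1
    exact hinjalg i (h1.trans (map_zero _).symm)
  -- the Hecke operators
  let τ : ℕ → TLoc N S 𝒪 θ := fun ℓ =>
    if h : ℓ.Prime ∧ ¬ ℓ ∣ N ∧ ℓ ∉ (↑S : Set ℕ) then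
      piT N S 𝒪 θ (heckeAlgebra.T h.1 h.2.1 h.2.2) else 0
  let t : ℕ → ResidueField 𝒪 := fun ℓ =>
    if h : ℓ.Prime ∧ ¬ ℓ ∣ N ∧ ℓ ∉ (↑S : Set ℕ) then
      θ (heckeAlgebra.T h.1 h.2.1 h.2.2) else 0
  have hfrob : ∀ i, ∀ ℓ : ℕ, ℓ.Prime → ℓ ∉ S → ∀ A : ValuationSubring Qb,
      A.LiesOverPrime ℓ → ∀ φ : GQ, A.IsFrobeniusAt φ ℓ →
        LinearMap.charpoly ((ρ i).ρ φ) = X ^ 2 - C (ψ'' i (τ ℓ)) * X + C ((ℓ : O'' i)) := by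
    intro i ℓ hℓ hℓS A hA φ hφ
    have hℓN : ¬ ℓ ∣ N := fun hd => hℓS (hNS ℓ hℓ hd)
    have hℓS' : ℓ ∉ (↑S : Set ℕ) := by simpa using hℓS
    simp only [τ]
    rw [dif_pos ⟨hℓ, hℓN, hℓS'⟩]
    exact hρ i ℓ hℓ hℓN hℓS' A hA φ hφ
  -- the residual representation over the residue field of `T`
  set ψ0 : ResidueField 𝒪 →+* ResidueField (TLoc N S 𝒪 θ) :=
    ResidueField.map (algebraMap 𝒪 (TLoc N S 𝒪 θ)) with hψ0
  have hψ0surj : Function.Surjective ψ0 := by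
    intro y
    obtain ⟨c, hc⟩ := residue_surjective' N S 𝒪 θ y
    exact ⟨residue 𝒪 c, by rw [hψ0, ResidueField.map_residue]; exact hc⟩
  haveI : CharP (ResidueField (TLoc N S 𝒪 θ)) p := charP_of_injective_ringHom ψ0.injective p
  have hτt : ∀ ℓ : ℕ, ℓ.Prime → ℓ ∉ S → residue (TLoc N S 𝒪 θ) (τ ℓ) = ψ0 (t ℓ) := by
    intro ℓ hℓ hℓS
    have hℓN : ¬ ℓ ∣ N := fun hd => hℓS (hNS ℓ hℓ hd)
    have hℓS' : ℓ ∉ (↑S : Set ℕ) := by simpa using hℓS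
    simp only [τ, t]
    rw [dif_pos ⟨hℓ, hℓN, hℓS'⟩, dif_pos ⟨hℓ, hℓN, hℓS'⟩]
    exact residue_piT N S 𝒪 θ _
  have hbar : ∀ ℓ : ℕ, ℓ.Prime → ℓ ∉ S → ∀ P : ValuationSubring Qb, P.LiesOverPrime ℓ →
      ∀ φ : GQ, P.IsFrobeniusAt φ ℓ →
        LinearMap.charpoly (ρbar.ρ φ) = X ^ 2 - C (t ℓ) * X + C ((ℓ : ResidueField 𝒪)) := by
    intro ℓ hℓ hℓS P hP φ hφ
    have hℓN : ¬ ℓ ∣ N := fun hd => hℓS (hNS ℓ hℓ hd)
    have hℓS' : ℓ ∉ (↑S : Set ℕ) := by simpa using hℓS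
    simp only [t]
    rw [dif_pos ⟨hℓ, hℓN, hℓS'⟩]
    exact hθ ℓ hℓ hℓN hℓS' P hP φ hφ
  set ρ0 : GaloisRepAdic (ResidueField (TLoc N S 𝒪 θ)) :=
    GaloisRepAdic.ofResidualGaloisRep (ρbar.baseChangeAlong ψ0) with hρ0
  have hdet0 : ρ0.DetIsCyclotomic p :=
    GlobHecke3.detIsCyclotomic_residual_baseChangeAlong ψ0 ρbar p hdet
  have hfrob0 : ∀ ℓ : ℕ, ℓ.Prime → ℓ ∉ S → ∀ A : ValuationSubring Qb,
      A.LiesOverPrime ℓ → ∀ φ : GQ, A.IsFrobeniusAt φ ℓ →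
        LinearMap.charpoly (ρ0.ρ φ) =
          X ^ 2 - C (residue (TLoc N S 𝒪 θ) (τ ℓ)) * X +
            C ((ℓ : ResidueField (TLoc N S 𝒪 θ))) := by
    intro ℓ hℓ hℓS A hA φ hφ
    letI : Algebra (ResidueField 𝒪) (ResidueField (TLoc N S 𝒪 θ)) := ψ0.toAlgebra
    show LinearMap.charpoly ((ρbar.ρ φ).baseChange (ResidueField (TLoc N S 𝒪 θ))) = _
    rw [LinearMap.charpoly_baseChange, hbar ℓ hℓ hℓS A hA φ hφ, hτt ℓ hℓ hℓS]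
    simp only [Polynomial.map_add, Polynomial.map_sub, Polynomial.map_pow, Polynomial.map_X,
      Polynomial.map_mul, Polynomial.map_C]
    rw [map_natCast]
    rfl
  obtain ⟨htr0, hd0⟩ := DatumExists3.trace_det_complexConjugation p (ρbar.baseChangeAlong ψ0) hdet0
  have hirr0 : ∀ v : ρ0.V, v ≠ 0 →
      ¬ ∀ σ : GQ, ∃ c : ResidueField (TLoc N S 𝒪 θ), ρ0.ρ σ v = c • v :=
    GlobHecke3.no_invariant_line_baseChangeAlong ψ0 hψ0surj ρbar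
      (GlobBN3.no_invariant_line_of_isAbsolutelyIrreducible ρbar habs)
  obtain ⟨ρT, hT⟩ := DatumRep3.exists_galoisRepAdic_of_points ψ'' hloc'' hinj'' ρ S τ hfrob ρ0
    hfrob0 complexConjugation 1 (-1) (DatumExists3.one_ne_neg_one p hp2) (by rw [htr0]; ring)
    (by rw [hd0]; ring) hirr0
  -- the residual representation of `ρT`
  have hlift := GlobHecke3.hlift_of_charpoly p hp2 ρbar habs hdet (residue_surjective' N S 𝒪 θ)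
    ρT S t τ hτt hbar hT
  have habsT : ρT.residual.IsAbsolutelyIrreducible := by
    obtain ⟨e⟩ := hlift
    exact AbsIrr3.isAbsolutelyIrreducible_of_isEquiv ⟨e.symm⟩
      (AbsIrr3.isAbsolutelyIrreducible_baseChangeAlong ψ0 ρbar habs)
  exact ⟨{
    π := piT N S 𝒪 θ
    residue_π := residue_piT N S 𝒪 θ
    adjoin_range_π := adjoin_range_piT N S 𝒪 θ
    exists_point := fun χ hχ => exists_point N S 𝒪 θ χ hχ
    residue_surjective := residue_surjective' N S 𝒪 θ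
    ρ := ρT
    charpoly_frob := by
      intro ℓ hℓ hℓN hℓS A hA σ hσ
      have hℓS' : ℓ ∉ S := by simpa using hℓS
      have := hT ℓ hℓ hℓS' A hA σ hσ
      simp only [τ] at this
      rw [dif_pos ⟨hℓ, hℓN, hℓS⟩] at this
      exact this
    residual_absIrr := habsT }, rfl⟩


/-- **(6d') (ii) for `TLoc`.** -/
theorem adjoin_piT_away_eq_top (hp2 : p ≠ 2) (hp𝒪 : (p : 𝒪) ∈ maximalIdeal 𝒪) (hpS : p ∈ S)
    (hNS : ∀ q : ℕ, q.Prime → q ∣ N → q ∈ S)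
    (ρbar : ResidualGaloisRep (ResidueField 𝒪)) (habs : ρbar.IsAbsolutelyIrreducible)
    (hdet : (GaloisRepAdic.ofResidualGaloisRep ρbar).DetIsCyclotomic p)
    (hθ : ∀ (ℓ : ℕ) (hℓ : ℓ.Prime) (hℓN : ¬ ℓ ∣ N) (hℓS : ℓ ∉ (↑S : Set ℕ)),
      ∀ P : ValuationSubring Qb, P.LiesOverPrime ℓ → ∀ φ : GQ, P.IsFrobeniusAt φ ℓ →
        LinearMap.charpoly (ρbar.ρ φ) =
          X ^ 2 - C (θ (heckeAlgebra.T hℓ hℓN hℓS)) * X + C ((ℓ : ResidueField 𝒪)))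
    (Q : Finset ℕ) :
    Algebra.adjoin 𝒪 {x : TLoc N S 𝒪 θ | ∃ (ℓ : ℕ) (hℓ : ℓ.Prime) (hℓN : ¬ ℓ ∣ N)
      (hℓS : ℓ ∉ (↑S : Set ℕ)), ℓ ∉ Q ∧ x = piT N S 𝒪 θ (heckeAlgebra.T hℓ hℓN hℓS)} = ⊤ := by
  obtain ⟨H, hH⟩ := exists_datum_piT p N S 𝒪 θ hp2 hp𝒪 hpS hNS ρbar habs hdet hθ
  have := HeckeGen1.adjoin_pi_away_eq_top hNS H Q
  rw [hH] at this
  exact this

/-- the image of `BQ` in `TLoc` is everything. -/
theorem exists_mem_BQ_eq (hp2 : p ≠ 2) (hp𝒪 : (p : 𝒪) ∈ maximalIdeal 𝒪) (hpS : p ∈ S)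
    (hNS : ∀ q : ℕ, q.Prime → q ∣ N → q ∈ S)
    (ρbar : ResidualGaloisRep (ResidueField 𝒪)) (habs : ρbar.IsAbsolutelyIrreducible)
    (hdet : (GaloisRepAdic.ofResidualGaloisRep ρbar).DetIsCyclotomic p)
    (hθ : ∀ (ℓ : ℕ) (hℓ : ℓ.Prime) (hℓN : ¬ ℓ ∣ N) (hℓS : ℓ ∉ (↑S : Set ℕ)),
      ∀ P : ValuationSubring Qb, P.LiesOverPrime ℓ → ∀ φ : GQ, P.IsFrobeniusAt φ ℓ →
        LinearMap.charpoly (ρbar.ρ φ) =
          X ^ 2 - C (θ (heckeAlgebra.T hℓ hℓN hℓS)) * X + C ((ℓ : ResidueField 𝒪)))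
    (Q : Finset ℕ) (x : TLoc N S 𝒪 θ) :
    ∃ b' ∈ BQ N S 𝒪 Q, algebraMap (BB N S 𝒪) (TLoc N S 𝒪 θ) b' = x := by
  have htop := adjoin_piT_away_eq_top p N S 𝒪 θ hp2 hp𝒪 hpS hNS ρbar habs hdet hθ Q
  let F : BB N S 𝒪 →ₐ[𝒪] TLoc N S 𝒪 θ := IsScalarTower.toAlgHom 𝒪 (BB N S 𝒪) (TLoc N S 𝒪 θ)
  have himg : (BQ N S 𝒪 Q).map F = ⊤ := by
    rw [BQ, AlgHom.map_adjoin, ← htop]
    congr 1
    ext y
    constructor
    · rintro ⟨x, ⟨ℓ, hℓ, hℓN, hℓS, hℓQ, rfl⟩, rfl⟩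
      exact ⟨ℓ, hℓ, hℓN, hℓS, hℓQ, rfl⟩
    · rintro ⟨ℓ, hℓ, hℓN, hℓS, hℓQ, rfl⟩
      exact ⟨_, ⟨ℓ, hℓ, hℓN, hℓS, hℓQ, rfl⟩, rfl⟩
  have hx : x ∈ (BQ N S 𝒪 Q).map F := by rw [himg]; trivial
  obtain ⟨b', hb', rfl⟩ := hx
  exact ⟨b', hb', rfl⟩

/-- **(6d') (ii), witness form in `BB`.** -/
theorem exists_smul_sub_eq_zero (hp2 : p ≠ 2) (hp𝒪 : (p : 𝒪) ∈ maximalIdeal 𝒪) (hpS : p ∈ S)
    (hNS : ∀ q : ℕ, q.Prime → q ∣ N → q ∈ S)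
    (ρbar : ResidualGaloisRep (ResidueField 𝒪)) (habs : ρbar.IsAbsolutelyIrreducible)
    (hdet : (GaloisRepAdic.ofResidualGaloisRep ρbar).DetIsCyclotomic p)
    (hθ : ∀ (ℓ : ℕ) (hℓ : ℓ.Prime) (hℓN : ¬ ℓ ∣ N) (hℓS : ℓ ∉ (↑S : Set ℕ)),
      ∀ P : ValuationSubring Qb, P.LiesOverPrime ℓ → ∀ φ : GQ, P.IsFrobeniusAt φ ℓ →
        LinearMap.charpoly (ρbar.ρ φ) =
          X ^ 2 - C (θ (heckeAlgebra.T hℓ hℓN hℓS)) * X + C ((ℓ : ResidueField 𝒪)))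
    (Q : Finset ℕ) (b : BB N S 𝒪) :
    ∃ b' ∈ BQ N S 𝒪 Q, ∃ s ∈ BQ N S 𝒪 Q, s ∉ maxId N S 𝒪 θ ∧ s * (b - b') = 0 := by
  obtain ⟨b', hb', hbb'⟩ := exists_mem_BQ_eq p N S 𝒪 θ hp2 hp𝒪 hpS hNS ρbar habs hdet hθ Q
    (algebraMap (BB N S 𝒪) (TLoc N S 𝒪 θ) b)
  obtain ⟨c, hc⟩ := (IsLocalization.eq_iff_exists (maxId N S 𝒪 θ).primeCompl
    (TLoc N S 𝒪 θ)).mp hbb'
  have hcm : (c : BB N S 𝒪) ∉ maxId N S 𝒪 θ := c.2
  obtain ⟨g, s, hs, hsm, hcg⟩ := exists_mul_eq p N S 𝒪 θ hp2 hp𝒪 hpS hNS ρbar habs hdet hθ Q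
    (c : BB N S 𝒪) hcm
  refine ⟨b', hb', s, hs, hsm, ?_⟩
  rw [← hcg, mul_sub, mul_comm (c : BB N S 𝒪) g, mul_assoc, mul_assoc, hc, sub_self]

end Main

end Fermat.Agent.M43.HeckeGenT1
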