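/-
M43 / chapter U-CUT (lead), file 2: the abstract algebra of the `U`-cut.

* `act τ P` : the action of a `2 × 2` matrix of polynomials `P` on `W × W` through an operator `τ`
  of `W` (`act_mul`, `act_one`, `act_smul_one`, `act_intertwine`, `commute_act`);
* the matrices `Mmat c = [[X, c], [-1, 0]]` (the matrix of `U_q` on the old part), `Msq1 c = M² − 1`,
  `Cmat c = [[c+1, X], [X, c+1]]` (the matrix of `(t₁, t₂) ∘ (i₁ + i₂)`), both of determinant
  `δP c = (c+1)² − X²`;
* `Stage` : the data `(A, B, M, M', D, D')` of one stage of the cut, and `Stage.step` : the stage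
  above, on `W × W`.
-/
import Mathlib

set_option autoImplicit false
set_option linter.unusedSectionVars false
set_option linter.unusedVariables false

open Polynomial

namespace Fermat.Agent.M43.UCutA0

variable {O : Type} [CommRing O]

/-! ### The block action -/

section Act

variable {W : Type} [AddCommGroup W] [Module O W]

/-- the action of a `2 × 2` matrix of polynomials on `W × W` through `τ`. -/
noncomputable def act (τ : Module.End O W) (P : Matrix (Fin 2) (Fin 2) O[X]) :
    Module.End O (W × W) :=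
  LinearMap.prod ((aeval τ (P 0 0)).coprod (aeval τ (P 0 1)))
    ((aeval τ (P 1 0)).coprod (aeval τ (P 1 1)))

theorem act_apply (τ : Module.End O W) (P : Matrix (Fin 2) (Fin 2) O[X]) (w : W × W) :
    act τ P w = (aeval τ (P 0 0) w.1 + aeval τ (P 0 1) w.2,
      aeval τ (P 1 0) w.1 + aeval τ (P 1 1) w.2) := rfl

theorem act_mul (τ : Module.End O W) (P Q : Matrix (Fin 2) (Fin 2) O[X]) :
    act τ (P * Q) = act τ P * act τ Q := by
  apply LinearMap.ext
  rintro ⟨w1, w2⟩
  rw [Module.End.mul_apply, act_apply, act_apply, act_apply]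
  simp only [Matrix.mul_apply, Fin.sum_univ_two, map_add, map_mul, Module.End.mul_apply,
    LinearMap.add_apply]
  refine Prod.ext ?_ ?_ <;> dsimp only <;> abel

theorem act_smul_one (τ : Module.End O W) (p : O[X]) :
    act τ (p • (1 : Matrix (Fin 2) (Fin 2) O[X])) = (aeval τ p).prodMap (aeval τ p) := by
  apply LinearMap.ext
  rintro ⟨w1, w2⟩
  rw [act_apply]
  simp

/-- polynomials in intertwined operators are intertwined. -/
theorem aeval_intertwine {X : Type} [AddCommGroup X] [Module O X] (f : W →ₗ[O] X)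
    (τ : Module.End O W) (T : Module.End O X) (h : ∀ w, T (f w) = f (τ w)) (p : O[X]) (w : W) :
    aeval T p (f w) = f (aeval τ p w) := by
  have hpow : ∀ (n : ℕ) (w : W), (T ^ n) (f w) = f ((τ ^ n) w) := by
    intro n
    induction n with
    | zero => intro w; simp
    | succ n ih =>
      intro w
      rw [pow_succ, pow_succ, Module.End.mul_apply, Module.End.mul_apply, h, ih]
  induction p using Polynomial.induction_on' generalizing w with
  | add p r hp hr => rw [map_add, map_add, LinearMap.add_apply, LinearMap.add_apply, hp, hr, map_add]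
  | monomial n a =>
    rw [aeval_monomial, aeval_monomial]
    simp only [Module.End.mul_apply, Module.algebraMap_end_apply, hpow, map_smul]

theorem act_intertwine {X : Type} [AddCommGroup X] [Module O X] (f : W →ₗ[O] X)
    (τ : Module.End O W) (T : Module.End O X) (h : ∀ w, T (f w) = f (τ w))
    (P : Matrix (Fin 2) (Fin 2) O[X]) (w : W × W) :
    act T P (f w.1, f w.2) = (f (act τ P w).1, f (act τ P w).2) := by
  rw [act_apply, act_apply]
  simp only [aeval_intertwine f τ T h, map_add]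

/-- an operator commuting with `τ` commutes with the polynomials in `τ`. -/
theorem commute_aeval (τ E : Module.End O W) (h : Commute E τ) (p : O[X]) :
    Commute E (aeval τ p) := by
  have : ∀ w, aeval τ p (E w) = E (aeval τ p w) :=
    fun w => aeval_intertwine E τ τ (fun w => by
      have := congrArg (fun g => g w) h.eq
      simpa [Module.End.mul_apply] using this.symm) p w
  apply LinearMap.ext
  intro w
  rw [Module.End.mul_apply, Module.End.mul_apply, this]

theorem commute_act (τ E : Module.End O W) (h : Commute E τ) (P : Matrix (Fin 2) (Fin 2) O[X]) :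
    Commute (E.prodMap E) (act τ P) := by
  have hc : ∀ (p : O[X]) (w : W), E (aeval τ p w) = aeval τ p (E w) := by
    intro p w
    have := congrArg (fun g => g w) (commute_aeval τ E h p).eq
    simpa [Module.End.mul_apply] using this
  apply LinearMap.ext
  rintro ⟨w1, w2⟩
  rw [Module.End.mul_apply, Module.End.mul_apply, act_apply, act_apply]
  simp only [LinearMap.prodMap_apply, map_add, hc]

theorem act_one (τ : Module.End O W) : act τ (1 : Matrix (Fin 2) (Fin 2) O[X]) = 1 := by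
  apply LinearMap.ext
  rintro ⟨w1, w2⟩
  rw [act_apply]
  simp

theorem act_sub (τ : Module.End O W) (P Q : Matrix (Fin 2) (Fin 2) O[X]) :
    act τ (P - Q) = act τ P - act τ Q := by
  apply LinearMap.ext
  rintro ⟨w1, w2⟩
  rw [LinearMap.sub_apply, act_apply, act_apply, act_apply]
  simp only [Matrix.sub_apply, map_sub, LinearMap.sub_apply]
  refine Prod.ext ?_ ?_ <;> simp only [Prod.fst_sub, Prod.snd_sub] <;> abel

end Act

/-! ### The matrices -/

section Mats

variable (c : O)

/-- the matrix of `U_q` on the old part. -/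
noncomputable def Mmat : Matrix (Fin 2) (Fin 2) O[X] := !![X, C c; -1, 0]

/-- the matrix of `U_q² − 1` on the old part. -/
noncomputable def Msq1 : Matrix (Fin 2) (Fin 2) O[X] := Mmat c * Mmat c - 1

/-- the matrix of `(t₁, t₂) ∘ (i₁ + i₂)`. -/
noncomputable def Cmat : Matrix (Fin 2) (Fin 2) O[X] := !![C c + 1, X; X, C c + 1]

/-- the common determinant `(c + 1)² − X²`. -/
noncomputable def δP : O[X] := (C c + 1) ^ 2 - X ^ 2

theorem det_Msq1 : (Msq1 c).det = δP c := by
  rw [Msq1, Mmat, Matrix.det_fin_two]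
  simp only [Matrix.sub_apply, Matrix.mul_apply, Fin.sum_univ_two, Matrix.of_apply,
    Matrix.cons_val', Matrix.cons_val_zero, Matrix.cons_val_one, Matrix.cons_val_fin_one,
    Matrix.one_apply_eq, Matrix.one_apply_ne, ne_eq, one_ne_zero, zero_ne_one, not_false_eq_true,
    δP]
  ring

theorem det_Cmat : (Cmat c).det = δP c := by
  rw [Cmat, Matrix.det_fin_two]
  simp only [Matrix.of_apply, Matrix.cons_val', Matrix.cons_val_zero, Matrix.cons_val_one,
    Matrix.cons_val_fin_one, δP]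
  ring

theorem Msq1_mul_adj : Msq1 c * (Msq1 c).adjugate = δP c • 1 := by
  rw [Matrix.mul_adjugate, det_Msq1]

theorem adj_mul_Msq1 : (Msq1 c).adjugate * Msq1 c = δP c • 1 := by
  rw [Matrix.adjugate_mul, det_Msq1]

theorem adj_mul_Cmat : (Cmat c).adjugate * Cmat c = δP c • 1 := by
  rw [Matrix.adjugate_mul, det_Cmat]

variable {W : Type} [AddCommGroup W] [Module O W]

theorem aeval_δP (τ : Module.End O W) :
    aeval τ (δP c) = algebraMap O (Module.End O W) ((c + 1) ^ 2) - τ * τ := by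
  simp [δP, pow_two]

theorem act_Mmat_apply (τ : Module.End O W) (w : W × W) :
    act τ (Mmat c) w = (τ w.1 + c • w.2, -w.1) := by
  rw [act_apply]
  simp [Mmat]

theorem act_Cmat_apply (τ : Module.End O W) (w : W × W) :
    act τ (Cmat c) w = ((c + 1) • w.1 + τ w.2, τ w.1 + (c + 1) • w.2) := by
  rw [act_apply]
  simp [Cmat, add_smul]

end Mats

/-! ### Stages -/

section Stage

variable {Y W X X' : Type} [AddCommGroup Y] [Module O Y] [AddCommGroup W] [Module O W]
  [AddCommGroup X] [Module O X] [AddCommGroup X'] [Module O X']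

/-- the diagonal embedding into the endomorphisms of `W × W`. -/
noncomputable def dgProd (dg : Module.End O Y →ₐ[O] Module.End O W) :
    Module.End O Y →ₐ[O] Module.End O (W × W) :=
  (LinearMap.prodMapAlgHom O W W).comp (AlgHom.prod dg dg)

theorem dgProd_apply (dg : Module.End O Y →ₐ[O] Module.End O W) (E : Module.End O Y) :
    dgProd dg E = (dg E).prodMap (dg E) := rfl

/-- **one stage of the cut**: `A : W → X` from the "diagonal" module `W` (a power of `Y`),
`x ∘ A = A ∘ M`, `x X ⊆ A W`, `B ∘ A = D`, and `M`, `D` are invertible up to the diagonal operator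
`Δ`; `M, M', D, D'` commute with every diagonal operator commuting with the set `𝒯`. -/
structure Stage (Y W X : Type) [AddCommGroup Y] [Module O Y] [AddCommGroup W] [Module O W]
    [AddCommGroup X] [Module O X] (dg : Module.End O Y →ₐ[O] Module.End O W)
    (𝒯 : Set (Module.End O Y)) (x : Module.End O X) (Δ : Module.End O Y) where
  A : W →ₗ[O] X
  B : X →ₗ[O] W
  M : Module.End O W
  M' : Module.End O W
  D : Module.End O W
  D' : Module.End O W
  hxA : ∀ w, x (A w) = A (M w)
  hrange : ∀ φ, ∃ w, x φ = A w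
  hBA : ∀ w, B (A w) = D w
  hMM' : M * M' = dg Δ
  hM'M : M' * M = dg Δ
  hD'D : D' * D = dg Δ
  hcomm : ∀ E : Module.End O Y, (∀ T ∈ 𝒯, Commute E T) →
    Commute (dg E) M ∧ Commute (dg E) M' ∧ Commute (dg E) D ∧ Commute (dg E) D'

variable {dg : Module.End O Y →ₐ[O] Module.End O W} {𝒯 : Set (Module.End O Y)}
  {x : Module.End O X} {Δ : Module.End O Y}

/-- the new determinant factor `(c+1)² − T₀²`. -/
noncomputable def δE (c : O) (T0 : Module.End O Y) : Module.End O Y :=
  algebraMap O (Module.End O Y) ((c + 1) ^ 2) - T0 * T0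

theorem aeval_dg_δP (c : O) (T0 : Module.End O Y) : aeval (dg T0) (δP c) = dg (δE c T0) := by
  rw [aeval_δP, δE, map_sub, map_mul, AlgHom.commutes]

theorem commute_δE {c : O} {T0 E : Module.End O Y} (h : Commute E T0) : Commute E (δE c T0) := by
  unfold δE
  exact (Algebra.commute_algebraMap_right _ E).sub_right (h.mul_right h)

theorem commute_prodMap {E F : Module.End O W} (h : Commute E F) :
    Commute (E.prodMap E) (F.prodMap F) := by
  show _ * _ = _ * _
  rw [LinearMap.prodMap_mul, LinearMap.prodMap_mul, h.eq]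

/-- **the stage above.** -/
noncomputable def Stage.step (S : Stage Y W X dg 𝒯 x Δ)
    (i1 i2 : X →ₗ[O] X') (t1 t2 : X' →ₗ[O] X) (U : Module.End O X') (T : Module.End O X)
    (T0 : Module.End O Y) (c : O) (xt : Module.End O X')
    (ha1 : ∀ y, U (i1 y) = i1 (T y) - i2 y) (ha2 : ∀ y, U (i2 y) = c • i1 y)
    (hb : ∀ φ, ∃ y1 y2, U (U φ) - φ = i1 y1 + i2 y2)
    (h11 : ∀ y, t1 (i1 y) = (c + 1) • y) (h22 : ∀ y, t2 (i2 y) = (c + 1) • y)
    (h12 : ∀ y, t1 (i2 y) = T y) (h21 : ∀ y, t2 (i1 y) = T y)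
    (hTA : ∀ w, T (S.A w) = S.A (dg T0 w))
    (hxt1 : ∀ y, xt (i1 y) = i1 (x y)) (hxt2 : ∀ y, xt (i2 y) = i2 (x y))
    (hT0 : ∀ T' ∈ 𝒯, Commute T0 T') (hΔ : Commute Δ T0) :
    Stage Y (W × W) X' (dgProd dg) (insert T0 𝒯) (xt * (U * U - 1)) (Δ * δE c T0) where
  A := (i1 ∘ₗ S.A).coprod (i2 ∘ₗ S.A)
  B := (S.B ∘ₗ t1).prod (S.B ∘ₗ t2)
  M := (S.M.prodMap S.M) * act (dg T0) (Msq1 c)
  M' := act (dg T0) (Msq1 c).adjugate * (S.M'.prodMap S.M')
  D := (S.D.prodMap S.D) * act (dg T0) (Cmat c)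
  D' := act (dg T0) (Cmat c).adjugate * (S.D'.prodMap S.D')
  hxA := by
    rintro ⟨w1, w2⟩
    -- `U ∘ α = α ∘ act_T Mmat`
    have hU : ∀ y : X × X, U (i1 y.1 + i2 y.2)
        = i1 (act T (Mmat c) y).1 + i2 (act T (Mmat c) y).2 := by
      intro y
      rw [act_Mmat_apply, map_add, ha1, ha2, map_add, map_neg, map_smul]
      abel
    have hUU : ∀ y : X × X, U (U (i1 y.1 + i2 y.2)) - (i1 y.1 + i2 y.2)
        = i1 (act T (Msq1 c) y).1 + i2 (act T (Msq1 c) y).2 := by
      intro y
      rw [hU, hU, Msq1, act_sub, act_mul, act_one, LinearMap.sub_apply, Module.End.mul_apply,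
        Module.End.one_apply, Prod.fst_sub, Prod.snd_sub, map_sub, map_sub]
      abel
    have hint := act_intertwine S.A (dg T0) T hTA (Msq1 c) (w1, w2)
    simp only [Module.End.mul_apply, LinearMap.sub_apply, Module.End.one_apply,
      LinearMap.coprod_apply, LinearMap.comp_apply, LinearMap.prodMap_apply]
    have h1 := hUU (S.A w1, S.A w2)
    simp only [hint] at h1
    rw [h1, map_add, hxt1, hxt2, S.hxA, S.hxA]
  hrange := by
    intro φ
    obtain ⟨y1, y2, hy⟩ := hb φ
    obtain ⟨w1, hw1⟩ := S.hrange y1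
    obtain ⟨w2, hw2⟩ := S.hrange y2
    refine ⟨(w1, w2), ?_⟩
    simp only [Module.End.mul_apply, LinearMap.sub_apply, Module.End.one_apply,
      LinearMap.coprod_apply, LinearMap.comp_apply]
    rw [hy, map_add, hxt1, hxt2, hw1, hw2]
  hBA := by
    rintro ⟨w1, w2⟩
    have e1 : t1 (i1 (S.A w1) + i2 (S.A w2)) = S.A ((c + 1) • w1 + dg T0 w2) := by
      rw [map_add, h11, h12, hTA, map_add, map_smul]
    have e2 : t2 (i1 (S.A w1) + i2 (S.A w2)) = S.A (dg T0 w1 + (c + 1) • w2) := by
      rw [map_add, h21, h22, hTA, map_add, map_smul]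
    show (S.B (t1 (i1 (S.A w1) + i2 (S.A w2))), S.B (t2 (i1 (S.A w1) + i2 (S.A w2)))) = _
    rw [e1, e2, S.hBA, S.hBA, Module.End.mul_apply, act_Cmat_apply, LinearMap.prodMap_apply]
  hMM' := by
    have hδ : Commute (dg (δE c T0)) S.M :=
      (S.hcomm (δE c T0) (fun T' hT' => (commute_δE (hT0 T' hT').symm).symm)).1
    have key : S.M * dg (δE c T0) * S.M' = dg (Δ * δE c T0) := by
      rw [← hδ.eq, mul_assoc, S.hMM', ← map_mul, (commute_δE hΔ).eq]
    calc (S.M.prodMap S.M) * act (dg T0) (Msq1 c)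
          * (act (dg T0) (Msq1 c).adjugate * (S.M'.prodMap S.M'))
        = (S.M.prodMap S.M) * (act (dg T0) (Msq1 c) * act (dg T0) (Msq1 c).adjugate)
          * (S.M'.prodMap S.M') := by simp only [mul_assoc]
      _ = (S.M.prodMap S.M) * ((dg (δE c T0)).prodMap (dg (δE c T0)))
          * (S.M'.prodMap S.M') := by
          rw [← act_mul, Msq1_mul_adj, act_smul_one, aeval_dg_δP]
      _ = dgProd dg (Δ * δE c T0) := by
          rw [LinearMap.prodMap_mul, LinearMap.prodMap_mul, key, dgProd_apply]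
  hM'M := by
    have hc : Commute ((dg Δ).prodMap (dg Δ)) (act (dg T0) (Msq1 c).adjugate) :=
      commute_act (dg T0) (dg Δ) (hΔ.map dg) _
    calc act (dg T0) (Msq1 c).adjugate * (S.M'.prodMap S.M')
          * ((S.M.prodMap S.M) * act (dg T0) (Msq1 c))
        = act (dg T0) (Msq1 c).adjugate * ((S.M'.prodMap S.M') * (S.M.prodMap S.M))
          * act (dg T0) (Msq1 c) := by simp only [mul_assoc]
      _ = (dg Δ).prodMap (dg Δ)
          * (act (dg T0) (Msq1 c).adjugate * act (dg T0) (Msq1 c)) := by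
          rw [LinearMap.prodMap_mul, S.hM'M, ← hc.eq, mul_assoc]
      _ = dgProd dg (Δ * δE c T0) := by
          rw [← act_mul, adj_mul_Msq1, act_smul_one, aeval_dg_δP, LinearMap.prodMap_mul,
            ← map_mul, dgProd_apply]
  hD'D := by
    have hc : Commute ((dg Δ).prodMap (dg Δ)) (act (dg T0) (Cmat c).adjugate) :=
      commute_act (dg T0) (dg Δ) (hΔ.map dg) _
    calc act (dg T0) (Cmat c).adjugate * (S.D'.prodMap S.D')
          * ((S.D.prodMap S.D) * act (dg T0) (Cmat c))
        = act (dg T0) (Cmat c).adjugate * ((S.D'.prodMap S.D') * (S.D.prodMap S.D))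
          * act (dg T0) (Cmat c) := by simp only [mul_assoc]
      _ = (dg Δ).prodMap (dg Δ)
          * (act (dg T0) (Cmat c).adjugate * act (dg T0) (Cmat c)) := by
          rw [LinearMap.prodMap_mul, S.hD'D, ← hc.eq, mul_assoc]
      _ = dgProd dg (Δ * δE c T0) := by
          rw [← act_mul, adj_mul_Cmat, act_smul_one, aeval_dg_δP, LinearMap.prodMap_mul,
            ← map_mul, dgProd_apply]
  hcomm := by
    intro E h
    have hE0 : Commute E T0 := h T0 (Set.mem_insert _ _)
    obtain ⟨h1, h2, h3, h4⟩ := S.hcomm E (fun T' hT' => h T' (Set.mem_insert_of_mem _ hT'))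
    have hact : ∀ P, Commute ((dg E).prodMap (dg E)) (act (dg T0) P) :=
      commute_act (dg T0) (dg E) (hE0.map dg)
    rw [dgProd_apply]
    exact ⟨(commute_prodMap h1).mul_right (hact _), (hact _).mul_right (commute_prodMap h2),
      (commute_prodMap h3).mul_right (hact _), (hact _).mul_right (commute_prodMap h4)⟩

/-- the `A` of the stage above. -/
theorem Stage.step_A_apply (S : Stage Y W X dg 𝒯 x Δ)
    (i1 i2 : X →ₗ[O] X') (t1 t2 : X' →ₗ[O] X) (U : Module.End O X') (T : Module.End O X)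
    (T0 : Module.End O Y) (c : O) (xt : Module.End O X')
    (ha1 : ∀ y, U (i1 y) = i1 (T y) - i2 y) (ha2 : ∀ y, U (i2 y) = c • i1 y)
    (hb : ∀ φ, ∃ y1 y2, U (U φ) - φ = i1 y1 + i2 y2)
    (h11 : ∀ y, t1 (i1 y) = (c + 1) • y) (h22 : ∀ y, t2 (i2 y) = (c + 1) • y)
    (h12 : ∀ y, t1 (i2 y) = T y) (h21 : ∀ y, t2 (i1 y) = T y)
    (hTA : ∀ w, T (S.A w) = S.A (dg T0 w))
    (hxt1 : ∀ y, xt (i1 y) = i1 (x y)) (hxt2 : ∀ y, xt (i2 y) = i2 (x y))
    (hT0 : ∀ T' ∈ 𝒯, Commute T0 T') (hΔ : Commute Δ T0) (w : W × W) :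
    (S.step i1 i2 t1 t2 U T T0 c xt ha1 ha2 hb h11 h22 h12 h21 hTA hxt1 hxt2 hT0 hΔ).A w
      = i1 (S.A w.1) + i2 (S.A w.2) := rfl

/-- equivariance of the `A` of the stage above. -/
theorem Stage.step_equivariant (S : Stage Y W X dg 𝒯 x Δ)
    (i1 i2 : X →ₗ[O] X') (t1 t2 : X' →ₗ[O] X) (U : Module.End O X') (T : Module.End O X)
    (T0 : Module.End O Y) (c : O) (xt : Module.End O X')
    (ha1 : ∀ y, U (i1 y) = i1 (T y) - i2 y) (ha2 : ∀ y, U (i2 y) = c • i1 y)
    (hb : ∀ φ, ∃ y1 y2, U (U φ) - φ = i1 y1 + i2 y2)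
    (h11 : ∀ y, t1 (i1 y) = (c + 1) • y) (h22 : ∀ y, t2 (i2 y) = (c + 1) • y)
    (h12 : ∀ y, t1 (i2 y) = T y) (h21 : ∀ y, t2 (i1 y) = T y)
    (hTA : ∀ w, T (S.A w) = S.A (dg T0 w))
    (hxt1 : ∀ y, xt (i1 y) = i1 (x y)) (hxt2 : ∀ y, xt (i2 y) = i2 (x y))
    (hT0 : ∀ T' ∈ 𝒯, Commute T0 T') (hΔ : Commute Δ T0)
    (EX' : Module.End O X') (EX : Module.End O X) (EY : Module.End O Y)
    (h1 : ∀ y, EX' (i1 y) = i1 (EX y)) (h2 : ∀ y, EX' (i2 y) = i2 (EX y))
    (hA : ∀ w, EX (S.A w) = S.A (dg EY w)) (w : W × W) :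
    EX' ((S.step i1 i2 t1 t2 U T T0 c xt ha1 ha2 hb h11 h22 h12 h21 hTA hxt1 hxt2 hT0 hΔ).A w)
      = (S.step i1 i2 t1 t2 U T T0 c xt ha1 ha2 hb h11 h22 h12 h21 hTA hxt1 hxt2 hT0 hΔ).A
          (dgProd dg EY w) := by
  rw [Stage.step_A_apply, Stage.step_A_apply, map_add, h1, h2, hA, hA, dgProd_apply,
    LinearMap.prodMap_apply]

/-- the bottom stage. -/
noncomputable def Stage.base (Y : Type) [AddCommGroup Y] [Module O Y] :
    Stage Y Y Y (AlgHom.id O (Module.End O Y)) ∅ 1 1 where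
  A := LinearMap.id
  B := LinearMap.id
  M := 1
  M' := 1
  D := 1
  D' := 1
  hxA := fun _ => rfl
  hrange := fun φ => ⟨φ, rfl⟩
  hBA := fun _ => rfl
  hMM' := by simp
  hM'M := by simp
  hD'D := by simp
  hcomm := fun E _ => ⟨Commute.one_right _, Commute.one_right _, Commute.one_right _,
    Commute.one_right _⟩

variable {W2 : Type} [AddCommGroup W2] [Module O W2]

/-- transport of a stage along a linear equivalence of the diagonal module. -/
noncomputable def Stage.transport (S : Stage Y W X dg 𝒯 x Δ) (e : W ≃ₗ[O] W2)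
    (dg2 : Module.End O Y →ₐ[O] Module.End O W2)
    (h : ∀ E w, dg2 E (e w) = e (dg E w)) : Stage Y W2 X dg2 𝒯 x Δ :=
  have hdg : ∀ E, dg2 E = LinearEquiv.conjAlgEquiv O e (dg E) := by
    intro E
    apply LinearMap.ext
    intro w2
    obtain ⟨w, rfl⟩ := e.surjective w2
    rw [h, LinearEquiv.conjAlgEquiv_apply]
    simp
  { A := S.A ∘ₗ e.symm.toLinearMap
    B := e.toLinearMap ∘ₗ S.B
    M := LinearEquiv.conjAlgEquiv O e S.M
    M' := LinearEquiv.conjAlgEquiv O e S.M'
    D := LinearEquiv.conjAlgEquiv O e S.D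
    D' := LinearEquiv.conjAlgEquiv O e S.D'
    hxA := by
      intro w2
      rw [LinearEquiv.conjAlgEquiv_apply]
      simp [S.hxA]
    hrange := by
      intro φ
      obtain ⟨w, hw⟩ := S.hrange φ
      exact ⟨e w, by simp [hw]⟩
    hBA := by
      intro w2
      rw [LinearEquiv.conjAlgEquiv_apply]
      simp [S.hBA]
    hMM' := by rw [← map_mul, S.hMM', hdg]
    hM'M := by rw [← map_mul, S.hM'M, hdg]
    hD'D := by rw [← map_mul, S.hD'D, hdg]
    hcomm := by
      intro E hE
      obtain ⟨h1, h2, h3, h4⟩ := S.hcomm E hE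
      rw [hdg]
      exact ⟨h1.map _, h2.map _, h3.map _, h4.map _⟩ }

theorem Stage.transport_A_apply (S : Stage Y W X dg 𝒯 x Δ) (e : W ≃ₗ[O] W2)
    (dg2 : Module.End O Y →ₐ[O] Module.End O W2)
    (h : ∀ E w, dg2 E (e w) = e (dg E w)) (w : W) :
    (S.transport e dg2 h).A (e w) = S.A w := by
  show S.A (e.symm (e w)) = S.A w
  rw [LinearEquiv.symm_apply_apply]

theorem Stage.transport_equivariant (S : Stage Y W X dg 𝒯 x Δ) (e : W ≃ₗ[O] W2)
    (dg2 : Module.End O Y →ₐ[O] Module.End O W2)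
    (h : ∀ E w, dg2 E (e w) = e (dg E w)) (EX : Module.End O X) (EY : Module.End O Y)
    (hA : ∀ w, EX (S.A w) = S.A (dg EY w)) (w2 : W2) :
    EX ((S.transport e dg2 h).A w2) = (S.transport e dg2 h).A (dg2 EY w2) := by
  obtain ⟨w, rfl⟩ := e.surjective w2
  rw [Stage.transport_A_apply, h, Stage.transport_A_apply, hA]

/-- a stage for a bigger set of operators is a stage for a smaller one, and `x`, `Δ` may be
replaced by equal ones. -/
def Stage.cast (S : Stage Y W X dg 𝒯 x Δ) {𝒯' : Set (Module.End O Y)} (h𝒯 : 𝒯 ⊆ 𝒯')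
    {x' : Module.End O X} (hx : x = x') {Δ' : Module.End O Y} (hΔ : Δ = Δ') :
    Stage Y W X dg 𝒯' x' Δ' where
  A := S.A
  B := S.B
  M := S.M
  M' := S.M'
  D := S.D
  D' := S.D'
  hxA := hx ▸ S.hxA
  hrange := hx ▸ S.hrange
  hBA := S.hBA
  hMM' := hΔ ▸ S.hMM'
  hM'M := hΔ ▸ S.hM'M
  hD'D := hΔ ▸ S.hD'D
  hcomm := fun E hE => S.hcomm E (fun T hT => hE T (h𝒯 hT))

end Stage

/-! ### Powers of `Y` indexed by a type -/

section Pi

variable (Y : Type) [AddCommGroup Y] [Module O Y]

/-- the diagonal embedding `E ↦ E ∘ ·` into the endomorphisms of `κ → Y`. -/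
noncomputable def dgPi (κ : Type) : Module.End O Y →ₐ[O] Module.End O (κ → Y) where
  toFun E := E.compLeft κ
  map_one' := rfl
  map_mul' _ _ := rfl
  map_zero' := rfl
  map_add' _ _ := rfl
  commutes' _ := rfl

variable {Y}

@[simp] theorem dgPi_apply (κ : Type) (E : Module.End O Y) (w : κ → Y) (k : κ) :
    dgPi (O := O) Y κ E w k = E (w k) := rfl

/-- `(κ → Y) × (κ → Y) ≃ (κ ⊕ κ → Y)`. -/
noncomputable def sumEquiv (κ : Type) : ((κ → Y) × (κ → Y)) ≃ₗ[O] (κ ⊕ κ → Y) :=
  (LinearEquiv.sumArrowLequivProdArrow κ κ O Y).symm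

theorem dgPi_sumEquiv (κ : Type) (E : Module.End O Y) (w : (κ → Y) × (κ → Y)) :
    dgPi (O := O) Y (κ ⊕ κ) E (sumEquiv (O := O) κ w)
      = sumEquiv (O := O) κ (dgProd (dgPi (O := O) Y κ) E w) := by
  funext k
  rcases k with k | k <;> rfl

/-- `(PUnit → Y) ≃ Y`. -/
noncomputable def unitEquiv : Y ≃ₗ[O] (PUnit.{1} → Y) :=
  (LinearEquiv.funUnique PUnit.{1} O Y).symm

theorem dgPi_unitEquiv (E : Module.End O Y) (y : Y) :
    dgPi (O := O) Y PUnit.{1} E (unitEquiv (O := O) y)
      = unitEquiv (O := O) (AlgHom.id O (Module.End O Y) E y) := by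
  funext k
  rfl

end Pi

end Fermat.Agent.M43.UCutA0
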