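/-
M43 / chapter U-CUT (lead), file 1: the `Γ₀`-level identities between `U_q`, `T_q` and the two
degeneracy maps (LR vocabulary of `ES/LR`: `i1`, `i2`, `t1`, `t2`, `UqAdd`, `tdcAdd`).

For a prime `q ∤ N`:
* `Uq_i1` : `U_q ∘ i₁ = i₁ ∘ T_q − i₂`;
* `Uq_i2` : `U_q ∘ i₂ = q • i₁`;
* `Uq_sq_sub` : `U_q² x − x = i₁ (T_q (t₂ x) − t₁ x) − i₂ (t₂ x)` for EVERY `x`
  (so `(U_q² − 1) X ⊆ i₁ Y + i₂ Y`);
for a prime `q' ∣ N` (any `q`):
* `UqOld_i1`, `UqOld_i2` : `U_{q'} ∘ i_k = i_k ∘ U_{q'}`.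
All of them on `Hom(Γ₀(·), A)` for an arbitrary abelian group `A`, and on `parabolicHoms`.
-/
import Mathlib
import Fermat.Agent.ES.LR.UqKer19
import Fermat.Agent.ES.LR.DegRel28
import Fermat.Agent.ES.LR.DegHeckeLam5

set_option autoImplicit false
set_option linter.unusedSectionVars false
set_option linter.unusedVariables false

open Matrix CongruenceSubgroup ModularCurve.Period
open scoped MatrixGroups

namespace Fermat.Agent.M43.UCutC0

open Fermat.Agent.ES.HEQ.DoubleCoset27 Fermat.Agent.ES.HEQ.DoubleCosetPar27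
open Fermat.Agent.ES.LR.Degeneracy27 Fermat.Agent.ES.LR.DegeneracyPar27
open Fermat.Agent.ES.LR.UqOp28 Fermat.Agent.ES.LR.DegRel28

/-! ### `U_q ∘ i₁` and `U_q ∘ i₂` -/

section New

variable {q : ℕ} [hq : Fact q.Prime] [NeZero q] {N : ℕ} [NeZero N] (hqN : ¬ q ∣ N)
  (hqM : q ∣ N * q) {A : Type*} [AddCommGroup A]

/-- **`U_q ∘ i₁ = i₁ ∘ T_q − i₂`**. -/
theorem Uq_i1 (φ : Additive (Gamma0 N) →+ A) :
    UqAdd hqM (i1 N q φ) = i1 N q (tdcAdd hqN φ) - i2 N q φ := by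
  apply AddMonoidHom.ext
  intro γ
  obtain ⟨γ, rfl⟩ := Additive.ofMul.surjective γ
  rw [AddMonoidHom.sub_apply, UqAdd_apply, i1_apply, i2_apply, tdcAdd_apply, Fintype.sum_option,
    ← twistH_eq_cocG hqN γ, add_sub_cancel_left]
  refine Finset.sum_congr rfl fun j _ => ?_
  rw [i1_apply]
  congr 2

/-- the translation `T^k` in `Γ₀(N)`. -/
def tG (N : ℕ) (k : ℤ) : Gamma0 N :=
  ⟨Fermat.Agent.ES.LR.UqKer19.tr k, Fermat.Agent.ES.LR.UqKer19.tr_mem_Gamma0 N k⟩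

/-- `μ (cocU γ j) μ⁻¹ = T^j γ T^{-j'}`. -/
theorem twistH_cocU (γ : Gamma0 (N * q)) (j : ZMod q) :
    twistH N q (cocU hqM γ j)
      = tG N (j.val : ℤ) * inclH N q γ * (tG N ((permU γ j).val : ℤ))⁻¹ := by
  rw [eq_mul_inv_iff_mul_eq]
  apply Subtype.ext
  apply Subtype.ext
  apply Fermat.Agent.ES.LR.UqKer19.smul_cancel (q := q)
  have h1 := Fermat.Agent.ES.LR.UqKer19.mu_mul_coe (N := N) (q := q) (cocU hqM γ j)
  have h2 := beta_some_mul hqM γ j
  have h3 := Fermat.Agent.ES.LR.UqKer19.mu_mul_beta_some (q := q) j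
  have h4 := Fermat.Agent.ES.LR.UqKer19.mu_mul_beta_some (q := q) (permU γ j)
  -- `μ β_j γ` computed in two ways
  have e1 : beta q none * (beta q (some j) * ((γ : SL(2, ℤ)) : Matrix (Fin 2) (Fin 2) ℤ))
      = (q : ℤ) • ((((twistH N q (cocU hqM γ j) : Gamma0 N) : SL(2, ℤ)) :
          Matrix (Fin 2) (Fin 2) ℤ)
        * ((Fermat.Agent.ES.LR.UqKer19.tr ((permU γ j).val : ℤ) : SL(2, ℤ)) :
          Matrix (Fin 2) (Fin 2) ℤ)) := by
    rw [h2, ← Matrix.mul_assoc, h1, Matrix.mul_assoc, h4, Matrix.mul_smul]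
  have e2 : beta q none * (beta q (some j) * ((γ : SL(2, ℤ)) : Matrix (Fin 2) (Fin 2) ℤ))
      = (q : ℤ) • (((Fermat.Agent.ES.LR.UqKer19.tr (j.val : ℤ) : SL(2, ℤ)) :
          Matrix (Fin 2) (Fin 2) ℤ) * ((γ : SL(2, ℤ)) : Matrix (Fin 2) (Fin 2) ℤ)) := by
    rw [← Matrix.mul_assoc, h3, Matrix.smul_mul]
  rw [e1] at e2
  simpa [tG] using e2

/-- **`U_q ∘ i₂ = q • i₁`**. -/
theorem Uq_i2 (φ : Additive (Gamma0 N) →+ A) :
    UqAdd hqM (i2 N q φ) = q • i1 N q φ := by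
  apply AddMonoidHom.ext
  intro γ
  obtain ⟨γ, rfl⟩ := Additive.ofMul.surjective γ
  rw [UqAdd_apply, AddMonoidHom.smul_apply, i1_apply]
  have key : ∀ j : ZMod q, i2 N q φ (Additive.ofMul (cocU hqM γ j))
      = φ (Additive.ofMul (tG N (j.val : ℤ))) + φ (Additive.ofMul (inclH N q γ))
        - φ (Additive.ofMul (tG N ((permU γ j).val : ℤ))) := by
    intro j
    rw [i2_apply, twistH_cocU hqM γ j, ofMul_mul, ofMul_mul, ofMul_inv, map_add, map_add, map_neg,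
      sub_eq_add_neg]
  simp only [key]
  rw [Finset.sum_sub_distrib, Finset.sum_add_distrib, Finset.sum_const, Finset.card_univ,
    ZMod.card]
  have h2 := Equiv.sum_comp (permU γ)
    (fun j : ZMod q => φ (Additive.ofMul (tG N (j.val : ℤ))))
  rw [h2]
  abel

/-- **`U_q² − 1` maps everything into the old part**: an explicit formula. -/
theorem Uq_sq_sub (x : Additive (Gamma0 (N * q)) →+ A) :
    UqAdd hqM (UqAdd hqM x) - x
      = i1 N q (tdcAdd hqN (t2 N q x) - t1 N q x) - i2 N q (t2 N q x) := by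
  obtain ⟨u, v, huv⟩ := Fermat.Agent.ES.LR.UqKer19.exists_bezout (q := q) hqN
  have e1 := Fermat.Agent.ES.LR.UqKer19.i1_t1 (A := A) huv hqN hqM
  have e2 := Fermat.Agent.ES.LR.UqKer19.i2_t2 huv hqN hqM x
  have ew := Fermat.Agent.ES.LR.UqKer19.resAdd_wConj_wConj (A := A) huv
  -- `U x = w (i₂ t₂ x − x)`
  have hU : UqAdd hqM x
      = resAdd (Fermat.Agent.ES.LR.UqKer19.wConj huv) (i2 N q (t2 N q x) - x) := by
    rw [e2, add_sub_cancel_left, ew]
  have e3 := e1 (i2 N q (t2 N q x) - x)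
  -- `U w z = i₁ t₁ z − z`
  have hUw : UqAdd hqM (resAdd (Fermat.Agent.ES.LR.UqKer19.wConj huv) (i2 N q (t2 N q x) - x))
      = i1 N q (t1 N q (i2 N q (t2 N q x) - x)) - (i2 N q (t2 N q x) - x) := by
    rw [e3, add_sub_cancel_left]
  rw [hU, hUw, map_sub (t1 N q), t1_i2 hqN, map_sub (i1 N q)]
  abel

end New

/-! ### `U_{q'}` (`q' ∣ N`) commutes with the degeneracy maps -/

section Old

variable {q' : ℕ} [hq' : Fact q'.Prime] (N q : ℕ) [NeZero q] [NeZero N] (hq'N : q' ∣ N)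
  (hq'M : q' ∣ N * q) {A : Type*} [AddCommGroup A]

/-- `U_{q'} ∘ i₁ = i₁ ∘ U_{q'}`. -/
theorem UqOld_i1 (φ : Additive (Gamma0 N) →+ A) :
    UqAdd hq'M (i1 N q φ) = i1 N q (UqAdd hq'N φ) := by
  apply AddMonoidHom.ext
  intro γ
  obtain ⟨γ, rfl⟩ := Additive.ofMul.surjective γ
  rw [UqAdd_apply, i1_apply, UqAdd_apply]
  refine Finset.sum_congr rfl fun j _ => ?_
  rw [i1_apply]
  congr 2

open Fermat.Agent.ES.LR.DegHecke5 in
/-- `U_{q'} ∘ i₂ = i₂ ∘ U_{q'}` (`q' ∤ q`). -/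
theorem UqOld_i2 (hq'q : ¬ q' ∣ q) (φ : Additive (Gamma0 N) →+ A) :
    UqAdd hq'M (i2 N q φ) = i2 N q (UqAdd hq'N φ) := by
  have hq0 : q ≠ 0 := NeZero.ne q
  apply AddMonoidHom.ext
  intro γ
  obtain ⟨γ, rfl⟩ := Additive.ofMul.surjective γ
  rw [UqAdd_apply, i2_apply, UqAdd_apply]
  let tK : ℤ → Gamma0 N := fun k => ⟨tr k, tr_mem_Gamma0 N k⟩
  -- the reindexing `j ↦ q j`
  let e : ZMod q' ≃ ZMod q' :=
    Units.mulLeft (ZMod.unitOfCoprime q ((Nat.Prime.coprime_iff_not_dvd hq'.out).mpr hq'q).symm)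
  have he : ∀ j : ZMod q', e j = (q : ZMod q') * j := fun j => by simp [e]
  have key : ∀ j : ZMod q', cocU hq'N (twistH N q γ) ((q : ZMod q') * j)
      = (tK (kk q (some j)))⁻¹ * twistH N q (cocU hq'M γ j)
        * tK (kk q (some (permU γ j))) := by
    intro j
    apply Subtype.ext
    have h := (perm_coc_twist (l := q') hq0 (γ := (γ : SL(2, ℤ)))
      (γ' := ((twistH N q γ : Gamma0 N) : SL(2, ℤ)))
      (c' := ((twistH N q (cocU hq'M γ j) : Gamma0 N) : SL(2, ℤ))) (some j)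
      (Fermat.Agent.ES.LR.DegHeckeLam5.mu_mul_eq_twistH_mul N q γ)
      (Fermat.Agent.ES.LR.DegHeckeLam5.mu_mul_eq_twistH_mul N q (cocU hq'M γ j))).2
    rw [← some_permU hq'M] at h
    exact h
  have hR : ∑ j : ZMod q', φ (Additive.ofMul (cocU hq'N (twistH N q γ) j))
      = ∑ j : ZMod q', φ (Additive.ofMul (cocU hq'N (twistH N q γ) ((q : ZMod q') * j))) := by
    rw [← Equiv.sum_comp e]
    simp only [he]
  rw [hR]
  simp only [key, i2_apply, ofMul_mul, ofMul_inv, map_add, map_neg]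
  rw [Finset.sum_add_distrib, Finset.sum_add_distrib, Finset.sum_neg_distrib]
  have h2 := Equiv.sum_comp (permU (q := q') γ)
    (fun j : ZMod q' => φ (Additive.ofMul (tK (kk q (some j)))))
  rw [h2]
  abel

end Old

/-! ### The same on parabolic homomorphisms -/

section Par

variable (R : Type*) [Ring R] (A : Type*) [AddCommGroup A] [Module R A]

section New

variable {q : ℕ} [hq : Fact q.Prime] [NeZero q] {N : ℕ} [NeZero N] (hqN : ¬ q ∣ N)
  (hqM : q ∣ N * q)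

theorem UqPar_i1Par (φ : parabolicHoms R (Gamma0 N) A) :
    UqPar hqM R A (i1Par N q R A φ)
      = i1Par N q R A (tdcPar hqN R A φ) - i2Par N q R A φ :=
  Subtype.ext (Uq_i1 hqN hqM φ.1)

theorem UqPar_i2Par (φ : parabolicHoms R (Gamma0 N) A) :
    UqPar hqM R A (i2Par N q R A φ) = q • i1Par N q R A φ :=
  Subtype.ext (Uq_i2 hqM φ.1)

theorem UqPar_sq_sub (x : parabolicHoms R (Gamma0 (N * q)) A) :
    UqPar hqM R A (UqPar hqM R A x) - x
      = i1Par N q R A (tdcPar hqN R A (t2Par N q R A x) - t1Par N q R A x)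
        - i2Par N q R A (t2Par N q R A x) :=
  Subtype.ext (Uq_sq_sub hqN hqM x.1)

end New

section Old

variable {q' : ℕ} [hq' : Fact q'.Prime] (N q : ℕ) [NeZero q] [NeZero N] (hq'N : q' ∣ N)
  (hq'M : q' ∣ N * q)

theorem UqOldPar_i1Par (φ : parabolicHoms R (Gamma0 N) A) :
    UqPar hq'M R A (i1Par N q R A φ) = i1Par N q R A (UqPar hq'N R A φ) :=
  Subtype.ext (UqOld_i1 N q hq'N hq'M φ.1)

theorem UqOldPar_i2Par (hq'q : ¬ q' ∣ q) (φ : parabolicHoms R (Gamma0 N) A) :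
    UqPar hq'M R A (i2Par N q R A φ) = i2Par N q R A (UqPar hq'N R A φ) :=
  Subtype.ext (UqOld_i2 N q hq'N hq'M hq'q φ.1)

end Old

end Par

end Fermat.Agent.M43.UCutC0
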