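/-
M43 / chapter U-CUT (lead), file 3: the iteration of the `U`-cut over the levels
`lev 0 = N₀`, `lev (j+1) = lev j * q j` (`q j` distinct primes not dividing `N₀`).

`exists_stage` : for every `j ≤ r` there is a finite type `κ` with `2^j` elements and a
`UCutA0.Stage` from `κ → Par N₀` to `Par (lev j)` for the operator
`xw j = ∏_{i<j} (U_{q i}² − 1)`, whose `A` intertwines the `T_ℓ` (`ℓ ∤ lev j`) with the diagonal
`T_ℓ` of level `N₀`.  The only commutativity used is that of the `T_{q i}` at level `N₀`.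
-/
import Mathlib
import Fermat.Agent.M43.UCutA0
import Fermat.Agent.M43.UCutC0

set_option autoImplicit false
set_option linter.unusedSectionVars false
set_option linter.unusedVariables false

open Matrix CongruenceSubgroup ModularCurve.Period
open scoped MatrixGroups

namespace Fermat.Agent.M43.UCutI0

open Fermat.Agent.ES.HEQ.DoubleCoset27 Fermat.Agent.ES.HEQ.DoubleCosetPar27
open Fermat.Agent.ES.LR.Degeneracy27 Fermat.Agent.ES.LR.DegeneracyPar27
open Fermat.Agent.ES.LR.UqOp28 Fermat.Agent.ES.LR.DegRel28 Fermat.Agent.ES.LR.DegHeckeLam5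
open Fermat.Agent.M43.UCutA0 Fermat.Agent.M43.UCutC0

/-! ### Levels and operators -/

/-- the levels `N₀, N₀ q₀, N₀ q₀ q₁, …`. -/
def lev (N0 : ℕ) (q : ℕ → ℕ) : ℕ → ℕ
  | 0 => N0
  | (j + 1) => lev N0 q j * q j

theorem lev_ne_zero (N0 : ℕ) (q : ℕ → ℕ) (hN0 : N0 ≠ 0) (hq : ∀ i, (q i).Prime) (j : ℕ) :
    lev N0 q j ≠ 0 := by
  induction j with
  | zero => exact hN0
  | succ j ih => exact Nat.mul_ne_zero ih (hq j).ne_zero

theorem dvd_lev (N0 : ℕ) (q : ℕ → ℕ) {i j : ℕ} (h : i < j) : q i ∣ lev N0 q j := by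
  induction j with
  | zero => exact absurd h (Nat.not_lt_zero _)
  | succ j ih =>
    rcases Nat.lt_succ_iff_lt_or_eq.mp h with h' | rfl
    · exact Dvd.dvd.mul_right (ih h') _
    · exact Dvd.intro_left _ rfl

theorem lev_dvd_lev (N0 : ℕ) (q : ℕ → ℕ) (j : ℕ) : lev N0 q j ∣ lev N0 q (j + 1) :=
  Dvd.intro _ rfl

theorem lev_eq_prod (N0 : ℕ) (q : ℕ → ℕ) (j : ℕ) :
    lev N0 q j = N0 * ∏ i ∈ Finset.range j, q i := by
  induction j with
  | zero => simp [lev]
  | succ j ih => rw [lev, ih, Finset.prod_range_succ, mul_assoc]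

variable (O : Type) [CommRing O]

/-- the parabolic lattice of level `M` with coefficients in `O`. -/
abbrev Par (M : ℕ) : Type := ↥(parabolicHoms O (Gamma0 M) O)

/-- `T_ℓ` at level `M` (zero unless `ℓ` is a prime not dividing `M`). -/
noncomputable def Top (M ℓ : ℕ) : Module.End O (Par O M) :=
  if h : ℓ.Prime ∧ ¬ ℓ ∣ M then (haveI : Fact ℓ.Prime := ⟨h.1⟩; tdcPar h.2 O O) else 0

/-- `U_p` at level `M` (zero unless `p` is a prime dividing `M`). -/
noncomputable def Uop (M p : ℕ) : Module.End O (Par O M) :=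
  if h : p.Prime ∧ p ∣ M then (haveI : Fact p.Prime := ⟨h.1⟩; UqPar h.2 O O) else 0

theorem Top_eq {M ℓ : ℕ} [hℓ : Fact ℓ.Prime] (h : ¬ ℓ ∣ M) : Top O M ℓ = tdcPar h O O := by
  unfold Top
  rw [dif_pos ⟨hℓ.out, h⟩]

theorem Uop_eq {M p : ℕ} [hp : Fact p.Prime] (h : p ∣ M) : Uop O M p = UqPar h O O := by
  unfold Uop
  rw [dif_pos ⟨hp.out, h⟩]

/-- the word `∏_{i<j} (U_{q i}² − 1)` at level `M`. -/
noncomputable def xw (q : ℕ → ℕ) (M : ℕ) : ℕ → Module.End O (Par O M)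
  | 0 => 1
  | (j + 1) => xw q M j * (Uop O M (q j) * Uop O M (q j) - 1)

/-- the set of the `T_{q i}`, `i < j`, at level `N₀`. -/
def TT (N0 : ℕ) (q : ℕ → ℕ) (j : ℕ) : Set (Module.End O (Par O N0)) :=
  (fun i => Top O N0 (q i)) '' {i | i < j}

/-- `∏_{i<j} ((q i + 1)² − T_{q i}²)` at level `N₀`. -/
noncomputable def Del (N0 : ℕ) (q : ℕ → ℕ) : ℕ → Module.End O (Par O N0)
  | 0 => 1
  | (j + 1) => Del N0 q j * δE ((q j : ℕ) : O) (Top O N0 (q j))

theorem commute_Del (N0 : ℕ) (q : ℕ → ℕ) (E : Module.End O (Par O N0)) (j : ℕ)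
    (h : ∀ i < j, Commute (Top O N0 (q i)) E) : Commute (Del O N0 q j) E := by
  induction j with
  | zero => exact Commute.one_left _
  | succ j ih =>
    refine Commute.mul_left (ih fun i hi => h i (Nat.lt_succ_of_lt hi)) ?_
    exact (commute_δE (h j (Nat.lt_succ_self j)).symm).symm

/-! ### The word commutes with the degeneracy maps -/

theorem xw_i1Par (N p : ℕ) [NeZero N] [NeZero p] (q : ℕ → ℕ) (j : ℕ)
    (h : ∀ i < j, (q i).Prime ∧ q i ∣ N) (y : Par O N) :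
    xw O q (N * p) j (i1Par N p O O y) = i1Par N p O O (xw O q N j y) := by
  induction j generalizing y with
  | zero => rfl
  | succ j ih =>
    obtain ⟨hp, hd⟩ := h j (Nat.lt_succ_self j)
    haveI : Fact (q j).Prime := ⟨hp⟩
    have hd' : q j ∣ N * p := Dvd.dvd.mul_right hd p
    have hU : ∀ z, Uop O (N * p) (q j) (i1Par N p O O z) = i1Par N p O O (Uop O N (q j) z) := by
      intro z
      rw [Uop_eq O hd', Uop_eq O hd]
      exact UqOldPar_i1Par O O N p hd hd' z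
    show xw O q (N * p) j ((Uop O (N * p) (q j) * Uop O (N * p) (q j) - 1) (i1Par N p O O y)) = _
    rw [LinearMap.sub_apply, Module.End.mul_apply, Module.End.one_apply, hU, hU, ← map_sub,
      ih (fun i hi => h i (Nat.lt_succ_of_lt hi))]
    rfl

theorem xw_i2Par (N p : ℕ) [NeZero N] [NeZero p] (q : ℕ → ℕ) (j : ℕ)
    (h : ∀ i < j, (q i).Prime ∧ q i ∣ N ∧ ¬ q i ∣ p) (y : Par O N) :
    xw O q (N * p) j (i2Par N p O O y) = i2Par N p O O (xw O q N j y) := by
  induction j generalizing y with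
  | zero => rfl
  | succ j ih =>
    obtain ⟨hp, hd, hnp⟩ := h j (Nat.lt_succ_self j)
    haveI : Fact (q j).Prime := ⟨hp⟩
    have hd' : q j ∣ N * p := Dvd.dvd.mul_right hd p
    have hU : ∀ z, Uop O (N * p) (q j) (i2Par N p O O z) = i2Par N p O O (Uop O N (q j) z) := by
      intro z
      rw [Uop_eq O hd', Uop_eq O hd]
      exact UqOldPar_i2Par O O N p hd hd' hnp z
    show xw O q (N * p) j ((Uop O (N * p) (q j) * Uop O (N * p) (q j) - 1) (i2Par N p O O y)) = _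
    rw [LinearMap.sub_apply, Module.End.mul_apply, Module.End.one_apply, hU, hU, ← map_sub,
      ih (fun i hi => h i (Nat.lt_succ_of_lt hi))]
    rfl

/-! ### The iteration -/

theorem TT_succ (N0 : ℕ) (q : ℕ → ℕ) (j : ℕ) :
    insert (Top O N0 (q j)) (TT O N0 q j) ⊆ TT O N0 q (j + 1) := by
  intro T hT
  rcases Set.mem_insert_iff.mp hT with rfl | ⟨i, hi, rfl⟩
  · exact ⟨j, Nat.lt_succ_self j, rfl⟩
  · exact ⟨i, Nat.lt_succ_of_lt hi, rfl⟩

/-- **the iterated `U`-cut.** -/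
theorem exists_stage (N0 : ℕ) [NeZero N0] (q : ℕ → ℕ) (r : ℕ) (hq : ∀ i, (q i).Prime)
    (hnd : ∀ i < r, ¬ q i ∣ lev N0 q i)
    (hcomm0 : ∀ i i', i < r → i' < r → Commute (Top O N0 (q i)) (Top O N0 (q i'))) :
    ∀ j ≤ r, ∃ (κ : Type) (_ : Fintype κ), Fintype.card κ = 2 ^ j ∧
      ∃ S : Stage (Par O N0) (κ → Par O N0) (Par O (lev N0 q j)) (dgPi (Par O N0) κ)
        (TT O N0 q j) (xw O q (lev N0 q j) j) (Del O N0 q j),
        ∀ ℓ : ℕ, ℓ.Prime → ¬ ℓ ∣ lev N0 q j → ∀ w,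
          Top O (lev N0 q j) ℓ (S.A w) = S.A (dgPi (Par O N0) κ (Top O N0 ℓ) w) := by
  intro j
  induction j with
  | zero =>
    intro _
    refine ⟨PUnit.{1}, inferInstance, by simp, ?_⟩
    let S0 : Stage (Par O N0) (PUnit.{1} → Par O N0) (Par O N0) (dgPi (Par O N0) PUnit.{1})
        ∅ 1 1 :=
      (Stage.base (O := O) (Par O N0)).transport unitEquiv (dgPi (Par O N0) PUnit.{1})
        (fun E w => dgPi_unitEquiv E w)
    refine ⟨S0.cast (Set.empty_subset _) rfl rfl, ?_⟩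
    intro ℓ hℓ hℓN w
    exact Stage.transport_equivariant (Stage.base (O := O) (Par O N0)) unitEquiv
      (dgPi (Par O N0) PUnit.{1}) (fun E w => dgPi_unitEquiv E w) (Top O N0 ℓ) (Top O N0 ℓ)
      (fun _ => rfl) w
  | succ j ih =>
    intro hj
    have hjr : j < r := hj
    obtain ⟨κ, hκ, hcard, S, hS⟩ := ih (le_of_lt hjr)
    haveI : Fact (q j).Prime := ⟨hq j⟩
    haveI : NeZero (q j) := ⟨(hq j).ne_zero⟩
    haveI : NeZero (lev N0 q j) := ⟨lev_ne_zero N0 q (NeZero.ne N0) hq j⟩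
    have hqN : ¬ q j ∣ lev N0 q j := hnd j hjr
    have hqM : q j ∣ lev N0 q j * q j := Dvd.intro_left _ rfl
    have hU : Uop O (lev N0 q j * q j) (q j) = UqPar hqM O O := Uop_eq O hqM
    have hT : Top O (lev N0 q j) (q j) = tdcPar hqN O O := Top_eq O hqN
    have hcast : ∀ z : Par O (lev N0 q j * q j), (q j) • z = ((q j : ℕ) : O) • z :=
      fun z => (Nat.cast_smul_eq_nsmul O (q j) z).symm
    have hcast1 : ∀ z : Par O (lev N0 q j), (q j + 1) • z = (((q j : ℕ) : O) + 1) • z := by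
      intro z
      rw [← Nat.cast_smul_eq_nsmul O (q j + 1) z]
      push_cast
      rfl
    have ha1 : ∀ y, Uop O (lev N0 q j * q j) (q j) (i1Par (lev N0 q j) (q j) O O y)
        = i1Par (lev N0 q j) (q j) O O (Top O (lev N0 q j) (q j) y)
          - i2Par (lev N0 q j) (q j) O O y := by
      intro y
      rw [hU, hT]
      exact UqPar_i1Par O O hqN hqM y
    have ha2 : ∀ y, Uop O (lev N0 q j * q j) (q j) (i2Par (lev N0 q j) (q j) O O y)
        = ((q j : ℕ) : O) • i1Par (lev N0 q j) (q j) O O y := by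
      intro y
      rw [hU, UqPar_i2Par O O hqM y, hcast]
    have hb : ∀ φ : Par O (lev N0 q j * q j), ∃ y1 y2,
        Uop O (lev N0 q j * q j) (q j) (Uop O (lev N0 q j * q j) (q j) φ) - φ
          = i1Par (lev N0 q j) (q j) O O y1 + i2Par (lev N0 q j) (q j) O O y2 := by
      intro φ
      rw [hU]
      refine ⟨tdcPar hqN O O (t2Par (lev N0 q j) (q j) O O φ) - t1Par (lev N0 q j) (q j) O O φ,
        -(t2Par (lev N0 q j) (q j) O O φ), ?_⟩
      rw [UqPar_sq_sub O O hqN hqM φ, map_neg, sub_eq_add_neg]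
    have h11 : ∀ y, t1Par (lev N0 q j) (q j) O O (i1Par (lev N0 q j) (q j) O O y)
        = (((q j : ℕ) : O) + 1) • y := fun y => by rw [t1Par_i1Par hqN O y, hcast1]
    have h22 : ∀ y, t2Par (lev N0 q j) (q j) O O (i2Par (lev N0 q j) (q j) O O y)
        = (((q j : ℕ) : O) + 1) • y := fun y => by rw [t2Par_i2Par hqN O y, hcast1]
    have h12 : ∀ y, t1Par (lev N0 q j) (q j) O O (i2Par (lev N0 q j) (q j) O O y)
        = Top O (lev N0 q j) (q j) y := fun y => by rw [hT]; exact t1Par_i2Par hqN O y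
    have h21 : ∀ y, t2Par (lev N0 q j) (q j) O O (i1Par (lev N0 q j) (q j) O O y)
        = Top O (lev N0 q j) (q j) y := fun y => by rw [hT]; exact t2Par_i1Par hqN O y
    have hTA := hS (q j) (hq j) hqN
    have hdiv : ∀ i < j, (q i).Prime ∧ q i ∣ lev N0 q j ∧ ¬ q i ∣ q j := by
      intro i hi
      refine ⟨hq i, dvd_lev N0 q hi, fun hdvd => hqN ?_⟩
      rw [← (Nat.prime_dvd_prime_iff_eq (hq i) (hq j)).mp hdvd]
      exact dvd_lev N0 q hi
    have hxt1 := xw_i1Par O (lev N0 q j) (q j) q j (fun i hi => ⟨(hdiv i hi).1, (hdiv i hi).2.1⟩)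
    have hxt2 := xw_i2Par O (lev N0 q j) (q j) q j hdiv
    have hT0 : ∀ T' ∈ TT O N0 q j, Commute (Top O N0 (q j)) T' := by
      rintro _ ⟨i, hi, rfl⟩
      exact hcomm0 j i hjr (lt_trans hi hjr)
    have hΔ : Commute (Del O N0 q j) (Top O N0 (q j)) :=
      commute_Del O N0 q _ j (fun i hi => hcomm0 i j (lt_trans hi hjr) hjr)
    let S1 := S.step (i1Par (lev N0 q j) (q j) O O) (i2Par (lev N0 q j) (q j) O O)
      (t1Par (lev N0 q j) (q j) O O) (t2Par (lev N0 q j) (q j) O O)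
      (Uop O (lev N0 q j * q j) (q j)) (Top O (lev N0 q j) (q j)) (Top O N0 (q j))
      ((q j : ℕ) : O) (xw O q (lev N0 q j * q j) j) ha1 ha2 hb h11 h22 h12 h21 hTA hxt1 hxt2
      hT0 hΔ
    let S2 := S1.transport (sumEquiv (O := O) κ) (dgPi (Par O N0) (κ ⊕ κ))
      (fun E w => dgPi_sumEquiv κ E w)
    refine ⟨κ ⊕ κ, inferInstance, ?_, S2.cast (TT_succ O N0 q j) rfl rfl, ?_⟩
    · rw [Fintype.card_sum, hcard, pow_succ]
      ring
    · intro ℓ hℓ hℓN w
      haveI : Fact ℓ.Prime := ⟨hℓ⟩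
      have hℓN' : ¬ ℓ ∣ lev N0 q j * q j := hℓN
      have hℓj : ¬ ℓ ∣ lev N0 q j := fun h => hℓN' (Dvd.dvd.mul_right h _)
      have e1 : ∀ y, Top O (lev N0 q j * q j) ℓ (i1Par (lev N0 q j) (q j) O O y)
          = i1Par (lev N0 q j) (q j) O O (Top O (lev N0 q j) ℓ y) := by
        intro y
        rw [Top_eq O hℓN', Top_eq O hℓj]
        exact (i1Par_tdcPar (lev N0 q j) (q j) hℓj hℓN' O O y).symm
      have e2 : ∀ y, Top O (lev N0 q j * q j) ℓ (i2Par (lev N0 q j) (q j) O O y)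
          = i2Par (lev N0 q j) (q j) O O (Top O (lev N0 q j) ℓ y) := by
        intro y
        rw [Top_eq O hℓN', Top_eq O hℓj]
        exact (i2Par_tdcPar (lev N0 q j) (q j) hℓj hℓN' O O y).symm
      have hA1 : ∀ w, Top O (lev N0 q j * q j) ℓ (S1.A w)
          = S1.A (dgProd (dgPi (Par O N0) κ) (Top O N0 ℓ) w) :=
        Stage.step_equivariant S _ _ _ _ _ _ _ _ _ ha1 ha2 hb h11 h22 h12 h21 hTA hxt1 hxt2 hT0 hΔ
          (Top O (lev N0 q j * q j) ℓ) (Top O (lev N0 q j) ℓ) (Top O N0 ℓ) e1 e2 (hS ℓ hℓ hℓj)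
      exact Stage.transport_equivariant S1 (sumEquiv (O := O) κ) (dgPi (Par O N0) (κ ⊕ κ))
        (fun E w => dgPi_sumEquiv κ E w) (Top O (lev N0 q j * q j) ℓ) (Top O N0 ℓ) hA1 w

end Fermat.Agent.M43.UCutI0
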