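/-
M43 (helper1) [(6d') consumer form] HeckePoly1: **(6d') (i), (ii) in the vocabulary of the Hecke
assembly** (`UCutI0.Top`, `UCutI0.Del`, `PolyMod5.polyAct`).

`Y0 = Par 𝒪 N = parabolicHoms 𝒪 (Gamma0 N) 𝒪`; `ℓ : ι → ℕ` a family of primes outside `S` containing
all primes outside `S ∪ Q`; `τ i = UCutI0.Top 𝒪 N (ℓ i)`; `polyAct τ hτ : MvPolynomial ι 𝒪 →ₐ[𝒪] End Y0`;
`tθ θ ℓ' = θ (T_ℓ')`.

* `tB ℓ' : BB` (`= 1 ⊗ T_ℓ'`), `actY_tB : actY (tB ℓ') = UCutI0.Top 𝒪 N ℓ'` (`ℓ' ∉ S`), `commute_Top`;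
* `aevalBB : MvPolynomial ι 𝒪 →ₐ[𝒪] BB`, `actY_aevalBB : actY (aevalBB s) = polyAct τ hτ s`,
  `thetaB_aevalBB`, `BQ_le_range`;
* `exists_poly_mul_eq` ((i)): `b ∉ maxId θ` ⇒ `∃ g : BB, ∃ s, aeval (tθ ∘ ℓ) s ≠ 0 ∧ b * g = aevalBB s`;
* `exists_poly_smul_sub_eq_zero` ((ii)): `∀ b : BB, ∃ b' s, aeval (tθ ∘ ℓ) s ≠ 0 ∧
  aevalBB s * (b - aevalBB b') = 0`;
* `DelB`, `actY_DelB : actY (DelB q j) = Del 𝒪 N q j`, **`exists_Del_witness`** ((TWU)):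
  `∃ g s, aeval (tθ ∘ ℓ) s ≠ 0 ∧ Del 𝒪 N q j * g = polyAct τ hτ s ∧ g * Del 𝒪 N q j = polyAct τ hτ s
   ∧ ∀ ℓ' ∉ S, Commute g (UCutI0.Top 𝒪 N ℓ')` when `θ(T_{q i})² ≠ (q i + 1)²` for `i < j`.
-/
import Mathlib
import Fermat.Agent.M43.HeckeBridge1
import Fermat.Agent.M43.HeckeGenT1
import Fermat.Agent.M43.UCutI0
import Fermat.Agent.M43.PolyMod5

set_option autoImplicit false
set_option linter.style.haveILetI false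
set_option linter.unusedSectionVars false

noncomputable section

namespace Fermat.Agent.M43.HeckePoly1

open IsLocalRing CuspForm Polynomial CongruenceSubgroup ModularCurve.Period
open Fermat.Agent.M43.DatumAlg3 Fermat.Agent.M43.HeckeLoc1 Fermat.Agent.M43.HeckeBridge1
  Fermat.Agent.M43.UCutI0 Fermat.Agent.M43.UCutA0 Fermat.Agent.M43.PolyMod5
  Fermat.Agent.ES.HEQ.DoubleCosetPar27

local notation "Qb" => AlgebraicClosure ℚ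
local notation "GQ" => (AlgebraicClosure ℚ ≃ₐ[ℚ] AlgebraicClosure ℚ)

section Defs

variable (N : ℕ) [NeZero N] (S : Finset ℕ) (𝒪 : Type) [CommRing 𝒪]

/-- `1 ⊗ T_ℓ` (zero unless `ℓ` is a prime not dividing `N` and not in `S`). -/
def tB (ℓ : ℕ) : BB N S 𝒪 :=
  if h : ℓ.Prime ∧ ¬ ℓ ∣ N ∧ ℓ ∉ (↑S : Set ℕ) then
    tm N S 𝒪 1 (heckeAlgebra.T h.1 h.2.1 h.2.2) else 0

theorem tB_eq {ℓ : ℕ} (hℓ : ℓ.Prime) (hℓN : ¬ ℓ ∣ N) (hℓS : ℓ ∉ (↑S : Set ℕ)) :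
    tB N S 𝒪 ℓ = tm N S 𝒪 1 (heckeAlgebra.T hℓ hℓN hℓS) := by
  unfold tB
  rw [dif_pos ⟨hℓ, hℓN, hℓS⟩]

/-- the element `(q + 1)² - T_q²` of `𝒪 ⊗ 𝕋`. -/
def delB (q : ℕ) : BB N S 𝒪 :=
  algebraMap 𝒪 (BB N S 𝒪) (((q : 𝒪) + 1) ^ 2) - tB N S 𝒪 q * tB N S 𝒪 q

/-- `∏_{i<j} ((q i + 1)² - T_{q i}²)` in `𝒪 ⊗ 𝕋`. -/
def DelB (q : ℕ → ℕ) : ℕ → BB N S 𝒪
  | 0 => 1
  | (j + 1) => DelB q j * delB N S 𝒪 (q j)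

variable {ι : Type*} (ℓ : ι → ℕ)

/-- `MvPolynomial ι 𝒪 → 𝒪 ⊗ 𝕋`, `X i ↦ 1 ⊗ T_{ℓ i}`. -/
def aevalBB : MvPolynomial ι 𝒪 →ₐ[𝒪] BB N S 𝒪 := MvPolynomial.aeval fun i => tB N S 𝒪 (ℓ i)

@[simp] theorem aevalBB_X (i : ι) : aevalBB N S 𝒪 ℓ (MvPolynomial.X i) = tB N S 𝒪 (ℓ i) := by
  rw [aevalBB, MvPolynomial.aeval_X]

/-- the generators away from `Q` are in the range of `aevalBB`. -/
theorem BQ_le_range (Q : Finset ℕ)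
    (hcov : ∀ ℓ' : ℕ, ℓ'.Prime → ℓ' ∉ S → ℓ' ∉ Q → ∃ i, ℓ i = ℓ') :
    BQ N S 𝒪 Q ≤ (aevalBB N S 𝒪 ℓ).range := by
  apply Algebra.adjoin_le
  rintro _ ⟨ℓ', hℓ', hℓ'N, hℓ'S, hℓ'Q, rfl⟩
  obtain ⟨i, rfl⟩ := hcov ℓ' hℓ' (by simpa using hℓ'S) hℓ'Q
  refine ⟨MvPolynomial.X i, ?_⟩
  show aevalBB N S 𝒪 ℓ (MvPolynomial.X i) = _
  rw [aevalBB_X, tB_eq N S 𝒪 hℓ' hℓ'N hℓ'S]

end Defs

section Theta

variable (N : ℕ) [NeZero N] (S : Finset ℕ) (𝒪 : Type) [CommRing 𝒪] [IsLocalRing 𝒪]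
  (θ : heckeAlgebra N 2 (↑S : Set ℕ) →+* ResidueField 𝒪)

/-- the residual eigenvalue `θ (T_ℓ)` (zero unless `ℓ` is a prime not dividing `N`, not in `S`). -/
def tθ (ℓ : ℕ) : ResidueField 𝒪 :=
  if h : ℓ.Prime ∧ ¬ ℓ ∣ N ∧ ℓ ∉ (↑S : Set ℕ) then θ (heckeAlgebra.T h.1 h.2.1 h.2.2) else 0

theorem tθ_eq {ℓ : ℕ} (hℓ : ℓ.Prime) (hℓN : ¬ ℓ ∣ N) (hℓS : ℓ ∉ (↑S : Set ℕ)) :
    tθ N S 𝒪 θ ℓ = θ (heckeAlgebra.T hℓ hℓN hℓS) := by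
  unfold tθ
  rw [dif_pos ⟨hℓ, hℓN, hℓS⟩]

theorem thetaB_tB (ℓ : ℕ) : thetaB N S 𝒪 θ (tB N S 𝒪 ℓ) = tθ N S 𝒪 θ ℓ := by
  unfold tB tθ
  split_ifs with h
  · rw [thetaB_tmul, map_one, one_mul]
  · rw [map_zero]

theorem thetaB_delB (q : ℕ) :
    thetaB N S 𝒪 θ (delB N S 𝒪 q) = ((q : ResidueField 𝒪) + 1) ^ 2 - tθ N S 𝒪 θ q ^ 2 := by
  unfold delB
  rw [map_sub, map_mul, thetaB_tB, AlgHom.commutes, map_pow, map_add, map_one, map_natCast, sq,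
    sq]

theorem DelB_notMem (q : ℕ → ℕ) (j : ℕ)
    (h : ∀ i < j, tθ N S 𝒪 θ (q i) ^ 2 ≠ ((q i : ResidueField 𝒪) + 1) ^ 2) :
    DelB N S 𝒪 q j ∉ maxId N S 𝒪 θ := by
  induction j with
  | zero => exact fun h1 => (maxId_isMaximal N S 𝒪 θ).ne_top ((Ideal.eq_top_iff_one _).mpr h1)
  | succ j ih =>
    intro hmem
    rcases (maxId_isMaximal N S 𝒪 θ).isPrime.mem_or_mem hmem with h1 | h1
    · exact ih (fun i hi => h i (Nat.lt_succ_of_lt hi)) h1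
    · rw [mem_maxId, thetaB_delB, sub_eq_zero] at h1
      exact h j (Nat.lt_succ_self j) h1.symm

variable {ι : Type*} (ℓ : ι → ℕ)

theorem thetaB_aevalBB (s : MvPolynomial ι 𝒪) :
    thetaB N S 𝒪 θ (aevalBB N S 𝒪 ℓ s) = MvPolynomial.aeval (fun i => tθ N S 𝒪 θ (ℓ i)) s := by
  have : (thetaB N S 𝒪 θ).comp (aevalBB N S 𝒪 ℓ) =
      MvPolynomial.aeval (fun i => tθ N S 𝒪 θ (ℓ i)) := by
    apply MvPolynomial.algHom_ext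
    intro i
    rw [AlgHom.comp_apply, aevalBB_X, thetaB_tB, MvPolynomial.aeval_X]
  exact congrArg (fun f => f s) this

end Theta

section Act

variable (N : ℕ) [NeZero N] (S : Finset ℕ)
  (hNS : ∀ q : ℕ, q.Prime → q ∣ N → q ∈ (↑S : Set ℕ))
  (𝒪 : Type) [CommRing 𝒪] [IsAddTorsionFree 𝒪]

/-- **`1 ⊗ T_ℓ` acts on `Y0` as `Top 𝒪 N ℓ`** (`ℓ ∉ S`). -/
theorem actY_tB (ℓ : ℕ) (hℓS : ℓ ∉ S) : actY N S hNS 𝒪 (tB N S 𝒪 ℓ) = UCutI0.Top 𝒪 N ℓ := by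
  have hℓS' : ℓ ∉ (↑S : Set ℕ) := by simpa using hℓS
  by_cases h : ℓ.Prime ∧ ¬ ℓ ∣ N
  · haveI : Fact ℓ.Prime := ⟨h.1⟩
    rw [tB_eq N S 𝒪 h.1 h.2 hℓS', Top_eq 𝒪 h.2, actY_T]
  · have h' : ¬ (ℓ.Prime ∧ ¬ ℓ ∣ N ∧ ℓ ∉ (↑S : Set ℕ)) := fun h3 => h ⟨h3.1, h3.2.1⟩
    unfold tB UCutI0.Top
    rw [dif_neg h', dif_neg h, map_zero]

include hNS in
/-- the `T_ℓ`, `ℓ ∉ S`, commute on `Y0`. -/
theorem commute_Top (ℓ ℓ' : ℕ) (hℓS : ℓ ∉ S) (hℓ'S : ℓ' ∉ S) :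
    Commute (UCutI0.Top 𝒪 N ℓ) (UCutI0.Top 𝒪 N ℓ') := by
  rw [← actY_tB N S hNS 𝒪 ℓ hℓS, ← actY_tB N S hNS 𝒪 ℓ' hℓ'S]
  unfold Commute SemiconjBy
  rw [← map_mul, ← map_mul, mul_comm]

theorem actY_delB (q : ℕ) (hqS : q ∉ S) :
    actY N S hNS 𝒪 (delB N S 𝒪 q) = δE ((q : ℕ) : 𝒪) (UCutI0.Top 𝒪 N q) := by
  unfold delB δE
  rw [map_sub, map_mul, actY_tB N S hNS 𝒪 q hqS, AlgHom.commutes]

theorem actY_DelB (q : ℕ → ℕ) (j : ℕ) (hq : ∀ i < j, q i ∉ S) :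
    actY N S hNS 𝒪 (DelB N S 𝒪 q j) = Del 𝒪 N q j := by
  induction j with
  | zero => simp only [DelB, Del, map_one]
  | succ j ih =>
    simp only [DelB, Del, map_mul]
    rw [ih fun i hi => hq i (Nat.lt_succ_of_lt hi), actY_delB N S hNS 𝒪 (q j)
      (hq j (Nat.lt_succ_self j))]

variable {ι : Type*} (ℓ : ι → ℕ) (hℓS : ∀ i, ℓ i ∉ S)

/-- the action of the polynomial ring through `Top` is the action through `𝒪 ⊗ 𝕋`. -/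
theorem actY_aevalBB (s : MvPolynomial ι 𝒪) :
    actY N S hNS 𝒪 (aevalBB N S 𝒪 ℓ s) =
      polyAct (fun i => UCutI0.Top 𝒪 N (ℓ i))
        (fun i i' => commute_Top N S hNS 𝒪 (ℓ i) (ℓ i') (hℓS i) (hℓS i')) s := by
  have : (actY N S hNS 𝒪).comp (aevalBB N S 𝒪 ℓ) =
      polyAct (fun i => UCutI0.Top 𝒪 N (ℓ i))
        (fun i i' => commute_Top N S hNS 𝒪 (ℓ i) (ℓ i') (hℓS i) (hℓS i')) := by
    apply MvPolynomial.algHom_ext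
    intro i
    rw [AlgHom.comp_apply, aevalBB_X, actY_tB N S hNS 𝒪 (ℓ i) (hℓS i), polyAct_X]
  exact congrArg (fun f => f s) this

end Act

section Main

variable (p : ℕ) [hp : Fact p.Prime] (N : ℕ) [NeZero N] (S : Finset ℕ)
  (𝒪 : Type) [CommRing 𝒪] [IsDomain 𝒪] [IsDiscreteValuationRing 𝒪]
  [IsAdicComplete (maximalIdeal 𝒪) 𝒪] [Finite (ResidueField 𝒪)] [CharZero 𝒪]
  [CharP (ResidueField 𝒪) p]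
  (θ : heckeAlgebra N 2 (↑S : Set ℕ) →+* ResidueField 𝒪)

/-- **(6d') (i), polynomial witness form.** -/
theorem exists_poly_mul_eq (hp2 : p ≠ 2) (hp𝒪 : (p : 𝒪) ∈ maximalIdeal 𝒪) (hpS : p ∈ S)
    (hNS : ∀ q : ℕ, q.Prime → q ∣ N → q ∈ S)
    (ρbar : ResidualGaloisRep (ResidueField 𝒪)) (habs : ρbar.IsAbsolutelyIrreducible)
    (hdet : (GaloisRepAdic.ofResidualGaloisRep ρbar).DetIsCyclotomic p)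
    (hθ : ∀ (ℓ : ℕ) (hℓ : ℓ.Prime) (hℓN : ¬ ℓ ∣ N) (hℓS : ℓ ∉ (↑S : Set ℕ)),
      ∀ P : ValuationSubring Qb, P.LiesOverPrime ℓ → ∀ φ : GQ, P.IsFrobeniusAt φ ℓ →
        LinearMap.charpoly (ρbar.ρ φ) =
          X ^ 2 - C (θ (heckeAlgebra.T hℓ hℓN hℓS)) * X + C ((ℓ : ResidueField 𝒪)))
    (Q : Finset ℕ) {ι : Type*} (ℓ : ι → ℕ)
    (hcov : ∀ ℓ' : ℕ, ℓ'.Prime → ℓ' ∉ S → ℓ' ∉ Q → ∃ i, ℓ i = ℓ')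
    (b : BB N S 𝒪) (hb : b ∉ maxId N S 𝒪 θ) :
    ∃ g : BB N S 𝒪, ∃ s : MvPolynomial ι 𝒪,
      MvPolynomial.aeval (fun i => tθ N S 𝒪 θ (ℓ i)) s ≠ 0 ∧ b * g = aevalBB N S 𝒪 ℓ s := by
  obtain ⟨g, s, hs, hsm, hbg⟩ :=
    exists_mul_eq p N S 𝒪 θ hp2 hp𝒪 hpS hNS ρbar habs hdet hθ Q b hb
  obtain ⟨s', rfl⟩ := BQ_le_range N S 𝒪 ℓ Q hcov hs
  refine ⟨g, s', ?_, hbg⟩
  intro h0
  apply hsm
  rw [mem_maxId]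
  exact (thetaB_aevalBB N S 𝒪 θ ℓ s').trans h0

/-- **(6d') (ii), polynomial witness form.** -/
theorem exists_poly_smul_sub_eq_zero (hp2 : p ≠ 2) (hp𝒪 : (p : 𝒪) ∈ maximalIdeal 𝒪)
    (hpS : p ∈ S) (hNS : ∀ q : ℕ, q.Prime → q ∣ N → q ∈ S)
    (ρbar : ResidualGaloisRep (ResidueField 𝒪)) (habs : ρbar.IsAbsolutelyIrreducible)
    (hdet : (GaloisRepAdic.ofResidualGaloisRep ρbar).DetIsCyclotomic p)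
    (hθ : ∀ (ℓ : ℕ) (hℓ : ℓ.Prime) (hℓN : ¬ ℓ ∣ N) (hℓS : ℓ ∉ (↑S : Set ℕ)),
      ∀ P : ValuationSubring Qb, P.LiesOverPrime ℓ → ∀ φ : GQ, P.IsFrobeniusAt φ ℓ →
        LinearMap.charpoly (ρbar.ρ φ) =
          X ^ 2 - C (θ (heckeAlgebra.T hℓ hℓN hℓS)) * X + C ((ℓ : ResidueField 𝒪)))
    (Q : Finset ℕ) {ι : Type*} (ℓ : ι → ℕ)
    (hcov : ∀ ℓ' : ℕ, ℓ'.Prime → ℓ' ∉ S → ℓ' ∉ Q → ∃ i, ℓ i = ℓ')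
    (b : BB N S 𝒪) :
    ∃ b' s : MvPolynomial ι 𝒪, MvPolynomial.aeval (fun i => tθ N S 𝒪 θ (ℓ i)) s ≠ 0 ∧
      aevalBB N S 𝒪 ℓ s * (b - aevalBB N S 𝒪 ℓ b') = 0 := by
  obtain ⟨b', hb', s, hs, hsm, h0⟩ :=
    HeckeGenT1.exists_smul_sub_eq_zero p N S 𝒪 θ hp2 hp𝒪 hpS hNS ρbar habs hdet hθ Q b
  obtain ⟨b'', rfl⟩ := BQ_le_range N S 𝒪 ℓ Q hcov hb'
  obtain ⟨s', rfl⟩ := BQ_le_range N S 𝒪 ℓ Q hcov hs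
  refine ⟨b'', s', ?_, h0⟩
  intro h1
  apply hsm
  rw [mem_maxId]
  exact (thetaB_aevalBB N S 𝒪 θ ℓ s').trans h1

/-- **(TWU): `Del = ∏ ((q i + 1)² - T_{q i}²)` is invertible after localisation at the Hecke
operators away from `Q`.** -/
theorem exists_Del_witness (hp2 : p ≠ 2) (hp𝒪 : (p : 𝒪) ∈ maximalIdeal 𝒪)
    (hpS : p ∈ S) (hNS : ∀ q : ℕ, q.Prime → q ∣ N → q ∈ S)
    (ρbar : ResidualGaloisRep (ResidueField 𝒪)) (habs : ρbar.IsAbsolutelyIrreducible)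
    (hdet : (GaloisRepAdic.ofResidualGaloisRep ρbar).DetIsCyclotomic p)
    (hθ : ∀ (ℓ : ℕ) (hℓ : ℓ.Prime) (hℓN : ¬ ℓ ∣ N) (hℓS : ℓ ∉ (↑S : Set ℕ)),
      ∀ P : ValuationSubring Qb, P.LiesOverPrime ℓ → ∀ φ : GQ, P.IsFrobeniusAt φ ℓ →
        LinearMap.charpoly (ρbar.ρ φ) =
          X ^ 2 - C (θ (heckeAlgebra.T hℓ hℓN hℓS)) * X + C ((ℓ : ResidueField 𝒪)))
    (Q : Finset ℕ) {ι : Type*} (ℓ : ι → ℕ) (hℓS : ∀ i, ℓ i ∉ S)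
    (hcov : ∀ ℓ' : ℕ, ℓ'.Prime → ℓ' ∉ S → ℓ' ∉ Q → ∃ i, ℓ i = ℓ')
    (q : ℕ → ℕ) (j : ℕ) (hq : ∀ i < j, q i ∉ S)
    (hθq : ∀ i < j, tθ N S 𝒪 θ (q i) ^ 2 ≠ ((q i : ResidueField 𝒪) + 1) ^ 2) :
    have hNS' : ∀ q : ℕ, q.Prime → q ∣ N → q ∈ (↑S : Set ℕ) :=
      fun q hq hqN => Finset.mem_coe.2 (hNS q hq hqN)
    ∃ (g : Module.End 𝒪 (Par 𝒪 N)) (s : MvPolynomial ι 𝒪),
      MvPolynomial.aeval (fun i => tθ N S 𝒪 θ (ℓ i)) s ≠ 0 ∧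
      Del 𝒪 N q j * g = polyAct (fun i => UCutI0.Top 𝒪 N (ℓ i))
        (fun i i' => commute_Top N S hNS' 𝒪 (ℓ i) (ℓ i') (hℓS i) (hℓS i')) s ∧
      g * Del 𝒪 N q j = polyAct (fun i => UCutI0.Top 𝒪 N (ℓ i))
        (fun i i' => commute_Top N S hNS' 𝒪 (ℓ i) (ℓ i') (hℓS i) (hℓS i')) s ∧
      ∀ ℓ' : ℕ, ℓ' ∉ S → Commute g (UCutI0.Top 𝒪 N ℓ') := by
  intro hNS'
  obtain ⟨g, s, hs, hbg⟩ := exists_poly_mul_eq p N S 𝒪 θ hp2 hp𝒪 hpS hNS ρbar habs hdet hθ Q ℓ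
    hcov (DelB N S 𝒪 q j) (DelB_notMem N S 𝒪 θ q j hθq)
  refine ⟨actY N S hNS' 𝒪 g, s, hs, ?_, ?_, ?_⟩
  · rw [← actY_DelB N S hNS' 𝒪 q j hq, ← map_mul, hbg, actY_aevalBB N S hNS' 𝒪 ℓ hℓS]
  · rw [← actY_DelB N S hNS' 𝒪 q j hq, ← map_mul, mul_comm, hbg,
      actY_aevalBB N S hNS' 𝒪 ℓ hℓS]
  · intro ℓ' hℓ'S
    rw [← actY_tB N S hNS' 𝒪 ℓ' hℓ'S]
    unfold Commute SemiconjBy
    rw [← map_mul, ← map_mul, mul_comm]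

end Main

end Fermat.Agent.M43.HeckePoly1
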