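/-
M43 (helper1) [(6d') consumer form, TW primes] HeckeTW1: **the hypothesis of `(TWU)` at
Taylor–Wiles primes.**

If `q ∉ S` is a prime with `q = 1` in `k` and `ρ̄(Frob_q)` has two DISTINCT eigenvalues `α ≠ β` in `k`
(the Taylor–Wiles hypothesis of `Iface2.PatchOutputStmt`), then
`θ(T_q)² - (q + 1)² = (α - β)² ≠ 0` (`tθ_sq_ne`); `natCast_eq_one_of_dvd` gives `q = 1` in `k` from
`p ^ (n + 1) ∣ q - 1`.  `exists_Del_witness_TW` is `HeckePoly1.exists_Del_witness` with these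
hypotheses.
-/
import Mathlib
import Fermat.Agent.M43.HeckePoly1

set_option autoImplicit false
set_option linter.style.haveILetI false
set_option linter.unusedSectionVars false

noncomputable section

namespace Fermat.Agent.M43.HeckeTW1

open IsLocalRing CuspForm Polynomial CongruenceSubgroup ModularCurve.Period
open Fermat.Agent.M43.DatumAlg3 Fermat.Agent.M43.HeckeLoc1 Fermat.Agent.M43.HeckeBridge1
  Fermat.Agent.M43.UCutI0 Fermat.Agent.M43.UCutA0 Fermat.Agent.M43.PolyMod5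
  Fermat.Agent.M43.HeckePoly1

local notation "Qb" => AlgebraicClosure ℚ
local notation "GQ" => (AlgebraicClosure ℚ ≃ₐ[ℚ] AlgebraicClosure ℚ)

section Cast

variable {k : Type*} [Field k] (p : ℕ) [CharP k p]

/-- `q = 1` in `k` when `p ^ (n + 1)` divides `q - 1`. -/
theorem natCast_eq_one_of_dvd {q n : ℕ} (hq : 0 < q) (h : p ^ (n + 1) ∣ q - 1) : (q : k) = 1 := by
  have h1 : p ∣ q - 1 := dvd_trans (dvd_pow_self p (Nat.succ_ne_zero n)) h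
  have h2 : ((q - 1 : ℕ) : k) = 0 := (CharP.cast_eq_zero_iff k p _).mpr h1
  have h3 : q = (q - 1) + 1 := by omega
  rw [h3, Nat.cast_add, h2, zero_add, Nat.cast_one]

end Cast

section Main

variable (p : ℕ) [hp : Fact p.Prime] (N : ℕ) [NeZero N] (S : Finset ℕ)
  (𝒪 : Type) [CommRing 𝒪] [IsDomain 𝒪] [IsDiscreteValuationRing 𝒪]
  [IsAdicComplete (maximalIdeal 𝒪) 𝒪] [Finite (ResidueField 𝒪)] [CharZero 𝒪]
  [CharP (ResidueField 𝒪) p]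
  (θ : heckeAlgebra N 2 (↑S : Set ℕ) →+* ResidueField 𝒪)

/-- **`θ(T_q)² ≠ (q + 1)²` at a Taylor–Wiles prime.** -/
theorem tθ_sq_ne (hNS : ∀ q : ℕ, q.Prime → q ∣ N → q ∈ S)
    (ρbar : ResidualGaloisRep (ResidueField 𝒪))
    (hθ : ∀ (ℓ : ℕ) (hℓ : ℓ.Prime) (hℓN : ¬ ℓ ∣ N) (hℓS : ℓ ∉ (↑S : Set ℕ)),
      ∀ P : ValuationSubring Qb, P.LiesOverPrime ℓ → ∀ φ : GQ, P.IsFrobeniusAt φ ℓ →
        LinearMap.charpoly (ρbar.ρ φ) =
          X ^ 2 - C (θ (heckeAlgebra.T hℓ hℓN hℓS)) * X + C ((ℓ : ResidueField 𝒪)))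
    (q : ℕ) (hq : q.Prime) (hqS : q ∉ S) (hq1 : (q : ResidueField 𝒪) = 1)
    (hTW : ∀ P : ValuationSubring Qb, P.LiesOverPrime q → ∀ φ : GQ, P.IsFrobeniusAt φ q →
      ∃ α β : ResidueField 𝒪, α ≠ β ∧
        LinearMap.charpoly (ρbar.ρ φ) = (X - C α) * (X - C β)) :
    tθ N S 𝒪 θ q ^ 2 ≠ ((q : ResidueField 𝒪) + 1) ^ 2 := by
  have hqN : ¬ q ∣ N := fun hd => hqS (hNS q hq hd)
  have hqS' : q ∉ (↑S : Set ℕ) := by simpa using hqS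
  obtain ⟨P, φ, hP, hφ⟩ := Fermat.Agent.Lib.exists_isFrobeniusAt q hq
  obtain ⟨α, β, hαβ, hcp⟩ := hTW P hP φ hφ
  rw [hθ q hq hqN hqS' P hP φ hφ] at hcp
  rw [tθ_eq N S 𝒪 θ hq hqN hqS']
  set t := θ (heckeAlgebra.T hq hqN hqS') with ht
  have h1 : t = α + β := by
    have := congrArg (fun f => Polynomial.coeff f 1) hcp
    simp only [coeff_add, coeff_sub, coeff_X_pow, coeff_X_one, coeff_C,
      mul_sub, sub_mul, coeff_mul_C, coeff_mul_X] at this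
    norm_num at this
    linear_combination (-1 : ResidueField 𝒪) * this
  have h0 : (q : ResidueField 𝒪) = α * β := by
    have := congrArg (fun f => Polynomial.coeff f 0) hcp
    simp only [coeff_add, coeff_sub, coeff_X_pow, coeff_X_zero, coeff_C_zero,
      mul_sub, sub_mul, mul_coeff_zero, coeff_C_zero] at this
    norm_num at this
    linear_combination this
  intro h
  have h2 : (α - β) ^ 2 = 0 := by
    have e : (α - β) ^ 2 = (α + β) ^ 2 - 4 * (α * β) := by ring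
    rw [e, ← h1, h, ← h0, hq1]
    ring
  exact hαβ (sub_eq_zero.mp ((pow_eq_zero_iff two_ne_zero).mp h2))

/-- **(TWU) at Taylor–Wiles primes.** -/
theorem exists_Del_witness_TW (hp2 : p ≠ 2) (hp𝒪 : (p : 𝒪) ∈ maximalIdeal 𝒪)
    (hpS : p ∈ S) (hNS : ∀ q : ℕ, q.Prime → q ∣ N → q ∈ S)
    (ρbar : ResidualGaloisRep (ResidueField 𝒪)) (habs : ρbar.IsAbsolutelyIrreducible)
    (hdet : (GaloisRepAdic.ofResidualGaloisRep ρbar).DetIsCyclotomic p)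
    (hθ : ∀ (ℓ : ℕ) (hℓ : ℓ.Prime) (hℓN : ¬ ℓ ∣ N) (hℓS : ℓ ∉ (↑S : Set ℕ)),
      ∀ P : ValuationSubring Qb, P.LiesOverPrime ℓ → ∀ φ : GQ, P.IsFrobeniusAt φ ℓ →
        LinearMap.charpoly (ρbar.ρ φ) =
          X ^ 2 - C (θ (heckeAlgebra.T hℓ hℓN hℓS)) * X + C ((ℓ : ResidueField 𝒪)))
    (Q : Finset ℕ) {ι : Type*} (ℓ : ι → ℕ) (hℓS : ∀ i, ℓ i ∉ S)
    (hcov : ∀ ℓ' : ℕ, ℓ'.Prime → ℓ' ∉ S → ℓ' ∉ Q → ∃ i, ℓ i = ℓ')
    (q : ℕ → ℕ) (j : ℕ) (hq : ∀ i < j, (q i).Prime ∧ q i ∉ S ∧ (q i : ResidueField 𝒪) = 1)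
    (hTW : ∀ i < j, ∀ P : ValuationSubring Qb, P.LiesOverPrime (q i) → ∀ φ : GQ,
      P.IsFrobeniusAt φ (q i) → ∃ α β : ResidueField 𝒪, α ≠ β ∧
        LinearMap.charpoly (ρbar.ρ φ) = (X - C α) * (X - C β)) :
    have hNS' : ∀ q : ℕ, q.Prime → q ∣ N → q ∈ (↑S : Set ℕ) :=
      fun q hq hqN => Finset.mem_coe.2 (hNS q hq hqN)
    ∃ (g : Module.End 𝒪 (Par 𝒪 N)) (s : MvPolynomial ι 𝒪),
      MvPolynomial.aeval (fun i => tθ N S 𝒪 θ (ℓ i)) s ≠ 0 ∧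
      Del 𝒪 N q j * g = polyAct (fun i => UCutI0.Top 𝒪 N (ℓ i))
        (fun i i' => commute_Top N S hNS' 𝒪 (ℓ i) (ℓ i') (hℓS i) (hℓS i')) s ∧
      g * Del 𝒪 N q j = polyAct (fun i => UCutI0.Top 𝒪 N (ℓ i))
        (fun i i' => commute_Top N S hNS' 𝒪 (ℓ i) (ℓ i') (hℓS i) (hℓS i')) s ∧
      ∀ ℓ' : ℕ, ℓ' ∉ S → Commute g (UCutI0.Top 𝒪 N ℓ') :=
  exists_Del_witness p N S 𝒪 θ hp2 hp𝒪 hpS hNS ρbar habs hdet hθ Q ℓ hℓS hcov q j
    (fun i hi => (hq i hi).2.1)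
    (fun i hi => tθ_sq_ne N S 𝒪 θ hNS ρbar hθ (q i) (hq i hi).1 (hq i hi).2.1 (hq i hi).2.2
      (hTW i hi))

end Main

end Fermat.Agent.M43.HeckeTW1
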