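/-
M43 / chapter CTRL (lead), file 3: generic lemmas for the assembly of the control statement.

* `bijective_map_of_witness` : an endomorphism `D` with `D G = G D = s •` (`s` in the localising
  submonoid) is bijective on the localisation;
* `polyAct_rename` : `polyAct τ (rename g s) = polyAct (τ ∘ g) s`;
* `polyAct_eq_of_X` : two families which agree after composition with algebra endomorphisms;
* `exists_eq_add_X_mul` : `s = ψ s + X a * r` for an algebra endomorphism `ψ` of a polynomial ring
  killing `X a` and fixing the other variables;
* `smul_eq_of_localized` : two scalars acting in the same way on a module act in the same way on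
  its localisation.
-/
import Mathlib
import Fermat.Agent.M43.PolyMod5

set_option autoImplicit false
set_option linter.unusedSectionVars false

namespace Fermat.Agent.M43.CtrlGen0

open Fermat.Agent.M43.PolyMod5

section Loc

variable {R : Type*} [CommRing R] (S : Submonoid R) {M L : Type*} [AddCommGroup M] [Module R M]
  [AddCommGroup L] [Module R L] (f : M →ₗ[R] L) [IsLocalizedModule S f]

/-- an endomorphism `D` with `D G = G D = s •`, `s ∈ S`, is bijective on the localisation at `S`. -/
theorem bijective_map_of_witness (D G : Module.End R M) (s : R) (hs : s ∈ S)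
    (h1 : ∀ m, D (G m) = s • m) (h2 : ∀ m, G (D m) = s • m) :
    Function.Bijective (IsLocalizedModule.map S f f D) := by
  have hsb : Function.Bijective fun z : L => s • z :=
    (Module.End.isUnit_iff _).mp (IsLocalizedModule.map_units (S := S) f (⟨s, hs⟩ : S))
  have e1 : ∀ z, IsLocalizedModule.map S f f D (IsLocalizedModule.map S f f G z) = s • z := by
    intro z
    have : (IsLocalizedModule.map S f f D) ∘ₗ (IsLocalizedModule.map S f f G) =
        s • (LinearMap.id : L →ₗ[R] L) := by
      apply IsLocalizedModule.linearMap_ext S f f
      apply LinearMap.ext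
      intro m
      rw [LinearMap.comp_apply, LinearMap.comp_apply, IsLocalizedModule.map_apply,
        IsLocalizedModule.map_apply, h1, LinearMap.comp_apply, LinearMap.smul_apply,
        LinearMap.id_apply, map_smul]
    exact LinearMap.congr_fun this z
  have e2 : ∀ z, IsLocalizedModule.map S f f G (IsLocalizedModule.map S f f D z) = s • z := by
    intro z
    have : (IsLocalizedModule.map S f f G) ∘ₗ (IsLocalizedModule.map S f f D) =
        s • (LinearMap.id : L →ₗ[R] L) := by
      apply IsLocalizedModule.linearMap_ext S f f
      apply LinearMap.ext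
      intro m
      rw [LinearMap.comp_apply, LinearMap.comp_apply, IsLocalizedModule.map_apply,
        IsLocalizedModule.map_apply, h2, LinearMap.comp_apply, LinearMap.smul_apply,
        LinearMap.id_apply, map_smul]
    exact LinearMap.congr_fun this z
  constructor
  · intro z z' h
    apply hsb.1
    show s • z = s • z'
    rw [← e2, ← e2, h]
  · intro z
    obtain ⟨z', hz'⟩ := hsb.2 z
    exact ⟨IsLocalizedModule.map S f f G z', (e1 z').trans hz'⟩

include S f in
/-- two scalars acting in the same way on a module act in the same way on its localisation. -/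
theorem smul_eq_of_localized (a b : R) (h : ∀ m : M, a • m = b • m) (z : L) : a • z = b • z := by
  have : a • (LinearMap.id : L →ₗ[R] L) = b • (LinearMap.id : L →ₗ[R] L) := by
    apply IsLocalizedModule.linearMap_ext S f f
    apply LinearMap.ext
    intro m
    rw [LinearMap.comp_apply, LinearMap.comp_apply, LinearMap.smul_apply, LinearMap.smul_apply,
      LinearMap.id_apply, ← map_smul, ← map_smul, h]
  exact LinearMap.congr_fun this z

end Loc

section Poly

variable {O : Type*} [CommRing O] {ι ι' : Type*} {P : Type*} [AddCommGroup P] [Module O P]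
  (τ : ι' → Module.End O P) (hτ : ∀ i j, Commute (τ i) (τ j))

/-- the polynomial action through a renaming of the variables. -/
theorem polyAct_rename (g : ι → ι') (s : MvPolynomial ι O) :
    polyAct τ hτ (MvPolynomial.rename g s) =
      polyAct (fun i => τ (g i)) (fun i j => hτ (g i) (g j)) s := by
  have : (polyAct τ hτ).comp (MvPolynomial.rename g) =
      polyAct (fun i => τ (g i)) (fun i j => hτ (g i) (g j)) := by
    apply MvPolynomial.algHom_ext
    intro i
    rw [AlgHom.comp_apply, MvPolynomial.rename_X, polyAct_X, polyAct_X]
  exact congrArg (fun F => F s) this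

/-- two algebra endomorphisms of the polynomial ring whose values on the variables act in the same
way act in the same way. -/
theorem polyAct_eq_of_X (ψ ψ' : MvPolynomial ι' O →ₐ[O] MvPolynomial ι' O)
    (h : ∀ a, polyAct τ hτ (ψ (MvPolynomial.X a)) = polyAct τ hτ (ψ' (MvPolynomial.X a)))
    (s : MvPolynomial ι' O) : polyAct τ hτ (ψ s) = polyAct τ hτ (ψ' s) := by
  have : (polyAct τ hτ).comp ψ = (polyAct τ hτ).comp ψ' := by
    apply MvPolynomial.algHom_ext
    intro a
    rw [AlgHom.comp_apply, AlgHom.comp_apply, h]
  exact congrArg (fun F => F s) this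

/-- `s = ψ s + X a * r` for an algebra endomorphism `ψ` killing `X a` and fixing the other
variables. -/
theorem exists_eq_add_X_mul (a : ι') (ψ : MvPolynomial ι' O →ₐ[O] MvPolynomial ι' O)
    (hψa : ψ (MvPolynomial.X a) = 0) (hψ : ∀ b, b ≠ a → ψ (MvPolynomial.X b) = MvPolynomial.X b)
    (s : MvPolynomial ι' O) : ∃ r : MvPolynomial ι' O, s = ψ s + MvPolynomial.X a * r := by
  classical
  let J : Ideal (MvPolynomial ι' O) := Ideal.span {MvPolynomial.X a}
  have hXa : (MvPolynomial.X a : MvPolynomial ι' O) ∈ J := Ideal.subset_span rfl
  have h1 : (Ideal.Quotient.mkₐ O J).comp ψ = Ideal.Quotient.mkₐ O J := by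
    apply MvPolynomial.algHom_ext
    intro b
    rw [AlgHom.comp_apply]
    by_cases hb : b = a
    · subst hb
      rw [hψa, map_zero]
      exact ((Ideal.Quotient.eq_zero_iff_mem).mpr hXa).symm
    · rw [hψ b hb]
  have h2 : Ideal.Quotient.mk J (s - ψ s) = 0 := by
    have := congrArg (fun F => F s) h1
    simp only [AlgHom.comp_apply, Ideal.Quotient.mkₐ_eq_mk] at this
    rw [map_sub, this, sub_self]
  obtain ⟨r, hr⟩ := Ideal.mem_span_singleton'.mp ((Ideal.Quotient.eq_zero_iff_mem).mp h2)
  refine ⟨r, ?_⟩
  rw [mul_comm, hr]
  ring

end Poly

end Fermat.Agent.M43.CtrlGen0
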