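/-
M43 / chapter U-CUT (lead), file 5: the bridge between the `Γ₀`-level vocabulary of `ES/LR`
(`tdcAdd`, `UqAdd` on `Hom(Γ₀(N), A)`) and the coset operators on `GH N ⊤` (`heckeH`, `heckeUH`).

* `hecke0_addHom` : `(hecke0 hpN σ).addHom = tdcAdd hpN` on `Hom(Γ₀(N), A)`;
* `topEquiv N R : parabolicHoms R (Gamma0 N) R ≃ₗ[R] parabolicHoms R (GH N ⊤) R` (restriction; the
  two groups are equal), `topEquiv_tdcPar`, `topEquiv_UqPar` : it intertwines `T_ℓ`, `U_q` with
  `parOp (heckeH .. ⊤)`, `parOp (heckeUH .. ⊤)`.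
-/
import Mathlib
import Fermat.Agent.M43.HeckeU0
import Fermat.Agent.ES.LR.UqOp28

set_option autoImplicit false
set_option linter.unusedSectionVars false
set_option linter.unusedVariables false

open Matrix CongruenceSubgroup ModularCurve.Period
open scoped MatrixGroups

namespace Fermat.Agent.M43.UCutT0

open Fermat.Agent.M48.ESInv3 Fermat.Agent.M48.CosetOp3 Fermat.Agent.M48.G1Reps3
open Fermat.Agent.ES.HEQ Fermat.Agent.ES.HEQ.DoubleCoset27 Fermat.Agent.ES.HEQ.DoubleCosetPar27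
open Fermat.Agent.ES.LR.UqOp28
open Fermat.Agent.M43.HeckeH0 Fermat.Agent.M43.HeckeU0

section Hecke0

variable {N p : ℕ} [hp : Fact p.Prime]

/-- **the master operator is the double coset operator of `ES/HEQ`.** -/
theorem hecke0_addHom {A : Type*} [AddCommGroup A] (hpN : ¬ p ∣ N) (σ : Gamma0 N)
    (φ : Additive (Gamma0 N) →+ A) : (hecke0 hpN σ).addHom φ = tdcAdd hpN φ := by
  refine AddMonoidHom.ext fun γ' => ?_
  obtain ⟨γ, rfl⟩ := Additive.ofMul.surjective γ'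
  rw [CosetOp.addHom_apply, tdcAdd_apply]
  have key : ∀ i : Option (ZMod p), φ (Additive.ofMul ((hecke0 hpN σ).coc γ i))
      = φ (Additive.ofMul (tw σ i)) + φ (Additive.ofMul (cocG hpN γ i))
        - φ (Additive.ofMul (tw σ (permG γ i))) := by
    intro i
    rw [hecke0_coc, coc0, ofMul_mul, ofMul_mul, ofMul_inv, map_add, map_add, map_neg,
      sub_eq_add_neg]
    rfl
  show ∑ i : Option (ZMod p), φ (Additive.ofMul ((hecke0 hpN σ).coc γ i)) = _
  simp only [key]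
  rw [Finset.sum_sub_distrib, Finset.sum_add_distrib]
  have h2 := Equiv.sum_comp (permG (p := p) γ)
    (fun i : Option (ZMod p) => φ (Additive.ofMul (tw σ i)))
  rw [h2]
  abel

end Hecke0

/-! ### The equivalence `Par (Γ₀(N)) ≃ Par (GH N ⊤)` -/

section Top

variable (N : ℕ) (R : Type*) [CommRing R]

/-- the inclusion `Γ₀(N) → GH N ⊤` (an equality of subgroups). -/
def toTop : Gamma0 N →* GH N (⊤ : Subgroup (ZMod N)ˣ) :=
  Subgroup.inclusion (le_of_eq (GH_top (N := N)).symm)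

theorem toTop_inclusion (γ : GH N (⊤ : Subgroup (ZMod N)ˣ)) :
    toTop N (Subgroup.inclusion (GH_le_Gamma0 ⊤) γ) = γ := Subtype.ext rfl

theorem inclusion_toTop (γ : Gamma0 N) :
    Subgroup.inclusion (GH_le_Gamma0 (⊤ : Subgroup (ZMod N)ˣ)) (toTop N γ) = γ := Subtype.ext rfl

/-- restriction to `GH N ⊤`, on parabolic homomorphisms. -/
def topEquiv : parabolicHoms R (Gamma0 N) R ≃ₗ[R]
    parabolicHoms R (GH N (⊤ : Subgroup (ZMod N)ˣ)) R where
  toFun φ := ⟨resHom (GH_le_Gamma0 ⊤) φ.1, fun γ hγ => φ.2 (Subgroup.inclusion _ γ) hγ⟩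
  map_add' _ _ := rfl
  map_smul' _ _ := rfl
  invFun ψ := ⟨ψ.1.comp (MonoidHom.toAdditive (toTop N)), fun γ hγ => ψ.2 (toTop N γ) hγ⟩
  left_inv φ := by
    apply Subtype.ext
    refine AddMonoidHom.ext fun γ' => ?_
    obtain ⟨γ, rfl⟩ := Additive.ofMul.surjective γ'
    show φ.1 (Additive.ofMul (Subgroup.inclusion (GH_le_Gamma0 ⊤) (toTop N γ))) = _
    rw [inclusion_toTop]
  right_inv ψ := by
    apply Subtype.ext
    refine AddMonoidHom.ext fun γ' => ?_
    obtain ⟨γ, rfl⟩ := Additive.ofMul.surjective γ'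
    show ψ.1 (Additive.ofMul (toTop N (Subgroup.inclusion (GH_le_Gamma0 ⊤) γ))) = _
    rw [toTop_inclusion]

@[simp] theorem coe_topEquiv (φ : parabolicHoms R (Gamma0 N) R) :
    ((topEquiv N R φ : parabolicHoms R (GH N (⊤ : Subgroup (ZMod N)ˣ)) R) :
      Additive (GH N (⊤ : Subgroup (ZMod N)ˣ)) →+ R) = resHom (GH_le_Gamma0 ⊤) φ.1 := rfl

variable {N}

/-- `topEquiv` intertwines `T_ℓ`. -/
theorem topEquiv_tdcPar {ℓ : ℕ} [Fact ℓ.Prime] (hℓN : ¬ ℓ ∣ N) (σ : Gamma0 N)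
    (hσ : Gamma0Map N σ = (ℓ : ZMod N)) (φ : parabolicHoms R (Gamma0 N) R) :
    topEquiv N R (tdcPar hℓN R R φ) = parOp (heckeH hℓN σ hσ ⊤) R R (topEquiv N R φ) := by
  apply Subtype.ext
  rw [coe_topEquiv, coe_tdcPar, coe_parOp, coe_topEquiv, heckeH_addHom_res, hecke0_addHom]

/-- `topEquiv` intertwines `U_q`. -/
theorem topEquiv_UqPar {q : ℕ} [Fact q.Prime] (hqN : q ∣ N)
    (φ : parabolicHoms R (Gamma0 N) R) :
    topEquiv N R (UqPar hqN R R φ) = parOp (heckeUH hqN ⊤) R R (topEquiv N R φ) := by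
  apply Subtype.ext
  rw [coe_topEquiv, coe_UqPar, coe_parOp, coe_topEquiv, heckeUH_resHom]

end Top

end Fermat.Agent.M43.UCutT0
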