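/-
M43 / chapter CTRL (lead), file 2: the bridge between the `Γ₀`-level lattices of the `U`-cut
(`UCutI0.Par O M`, `Top`, `Uop`, `xw`) and the level-`0` lattice of the concrete chain
(`ChainMod5.Par O (F.sub 0)`, `F.tau O 0`).

* `qx F : ℕ → ℕ` : the sequence of the `U`-primes of the frame, extended by `2`;
* `lvlEquiv O hM H hH : UCutI0.Par O M ≃ₗ[O] ChainMod5.Par O H` (`M = N`, `H = ⊤`);
  `lvlEquiv_Top`, `lvlEquiv_Uop` : it intertwines `Top`/`tPar`, `Uop`/`uPar`;
* `xw_eq_prod` : the word `xw` is the ordered product of its factors;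
* `frameEquiv O F hM : UCutI0.Par O M ≃ₗ[O] ChainMod5.Par O (F.sub 0)`, `frameEquiv_some`,
  `frameEquiv_none` : it intertwines `Top O M (F.ℓ i)`, `xw O (qx F) M F.r` with the operators
  `F.tau O 0 (inl (some i))`, `F.tau O 0 (inl none)`; `tau_inr_zero` : the diamonds are trivial at
  level `0`.
-/
import Mathlib
import Fermat.Agent.M43.UCutI0
import Fermat.Agent.M43.UCutT0
import Fermat.Agent.M43.ChainMod5

set_option autoImplicit false
set_option linter.unusedSectionVars false
set_option linter.unusedVariables false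
set_option linter.style.haveILetI false

open scoped MatrixGroups
open CongruenceSubgroup ModularCurve.Period

noncomputable section

namespace Fermat.Agent.M43.CtrlLvl0

open Fermat.Agent.M48.ESInv3 Fermat.Agent.M48.CosetOp3 Fermat.Agent.M43.HeckeH0
  Fermat.Agent.M43.HeckeU0 Fermat.Agent.M43.UCutI0 Fermat.Agent.M43.UCutT0
  Fermat.Agent.M43.ChainMod5 Fermat.Agent.M43.ChainGrp5 Fermat.Agent.M43.ExtCyc0
  Fermat.Agent.M43.CycInst0 Fermat.Agent.M48.Diamond1

/-! ### the sequence of the `U`-primes -/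

section Seq

variable {N : ℕ}

/-- the `U`-primes of the frame, as a sequence (extended by `2`). -/
def qx (F : Frame N) : ℕ → ℕ := fun i => if h : i < F.r then F.q ⟨i, h⟩ else 2

theorem qx_fin (F : Frame N) (i : Fin F.r) : qx F i = F.q i := by
  unfold qx
  rw [dif_pos i.2]

theorem qx_prime (F : Frame N) (i : ℕ) : (qx F i).Prime := by
  unfold qx
  split_ifs with h
  · exact F.qprime _
  · exact Nat.prime_two

end Seq

/-! ### the word is the ordered product of its factors -/

section Word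

variable (O : Type) [CommRing O]

theorem xw_eq_prod (q : ℕ → ℕ) (M r : ℕ) :
    xw O q M r = (List.ofFn fun i : Fin r => Uop O M (q i) * Uop O M (q i) - 1).prod := by
  induction r with
  | zero => simp [xw]
  | succ r ih =>
    rw [List.ofFn_succ', List.concat_eq_append, List.prod_append, List.prod_singleton]
    show xw O q M r * _ = _
    rw [ih]
    rfl

end Word

/-! ### the level equivalence -/

section Equiv

variable (O : Type) [CommRing O]

/-- the identification of the `Γ₀(M)`-lattice with the `Γ_H(N)`-lattice for `M = N`, `H = ⊤`. -/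
def lvlEquiv {M N : ℕ} [NeZero N] (hM : M = N) (H : Subgroup (ZMod N)ˣ) (hH : H = ⊤) :
    UCutI0.Par O M ≃ₗ[O] ChainMod5.Par O H := by
  subst hM
  subst hH
  exact topEquiv M O

theorem lvlEquiv_Top {M N : ℕ} [NeZero N] (hM : M = N) (H : Subgroup (ZMod N)ˣ) (hH : H = ⊤)
    {ℓ : ℕ} (hℓ : ℓ.Prime) (hℓN : ¬ ℓ ∣ N) (y : UCutI0.Par O M) :
    lvlEquiv O hM H hH (Top O M ℓ y) = tPar O hℓ hℓN H (lvlEquiv O hM H hH y) := by
  subst hM
  subst hH
  haveI := Fact.mk hℓ
  rw [Top_eq O hℓN]
  exact topEquiv_tdcPar O hℓN (sigma (unitL hℓ hℓN)) (Gamma0Map_sigma_unitL hℓ hℓN) y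

theorem lvlEquiv_Uop {M N : ℕ} [NeZero N] (hM : M = N) (H : Subgroup (ZMod N)ˣ) (hH : H = ⊤)
    {q : ℕ} (hq : q.Prime) (hqN : q ∣ N) (y : UCutI0.Par O M) :
    lvlEquiv O hM H hH (Uop O M q y) = uPar O hq hqN H (lvlEquiv O hM H hH y) := by
  subst hM
  subst hH
  haveI := Fact.mk hq
  rw [Uop_eq O hqN]
  exact topEquiv_UqPar O hqN y

end Equiv

/-! ### the frame at level `0` -/

section Frame

variable (O : Type) [CommRing O] {M N : ℕ} [NeZero N] (F : Frame N) (hM : M = N)

/-- the identification of the `Γ₀(M)`-lattice with the level-`0` lattice of the frame. -/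
def frameEquiv : UCutI0.Par O M ≃ₗ[O] ChainMod5.Par O (F.sub 0) :=
  lvlEquiv O hM (F.sub 0) F.c.sub_zero

theorem mem_sub_zero (d : (ZMod N)ˣ) : d ∈ F.sub 0 := by
  show d ∈ F.c.sub 0
  rw [F.c.sub_zero]
  exact Subgroup.mem_top d

/-- the diamonds are trivial at level `0`. -/
theorem tau_inr_zero (d : (ZMod N)ˣ) : F.tau O 0 (Sum.inr d) = 1 :=
  dPar_of_mem (F.sub 0) (mem_sub_zero F d)

theorem frameEquiv_some (i : F.ι) (y : UCutI0.Par O M) :
    frameEquiv O F hM (Top O M (F.ℓ i) y) =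
      F.tau O 0 (Sum.inl (some i)) (frameEquiv O F hM y) := by
  show _ = F.tauL O 0 i (frameEquiv O F hM y)
  unfold Frame.tauL
  rw [dPar_of_mem (F.sub 0) (mem_sub_zero F _), mul_one]
  exact lvlEquiv_Top O hM (F.sub 0) F.c.sub_zero (F.prime i) (F.ndvd i) y

theorem frameEquiv_none (y : UCutI0.Par O M) :
    frameEquiv O F hM (xw O (qx F) M F.r y) =
      F.tau O 0 (Sum.inl none) (frameEquiv O F hM y) := by
  show _ = F.xOp O 0 (frameEquiv O F hM y)
  rw [xw_eq_prod]
  unfold Frame.xOp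
  refine ofFn_prod_intertwine ((frameEquiv O F hM : UCutI0.Par O M ≃ₗ[O] _) :
    UCutI0.Par O M →ₗ[O] ChainMod5.Par O (F.sub 0)) _ _ ?_ y
  intro i z
  show frameEquiv O F hM ((Uop O M (qx F i) * Uop O M (qx F i) - 1) z) =
    F.xFac O 0 i (frameEquiv O F hM z)
  unfold Frame.xFac
  rw [qx_fin, LinearMap.sub_apply, LinearMap.sub_apply, Module.End.mul_apply,
    Module.End.one_apply, Module.End.one_apply, pow_two, Module.End.mul_apply, map_sub]
  unfold frameEquiv
  rw [lvlEquiv_Uop O hM (F.sub 0) F.c.sub_zero (F.qprime i) (F.qdvd i),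
    lvlEquiv_Uop O hM (F.sub 0) F.c.sub_zero (F.qprime i) (F.qdvd i)]

end Frame

end Fermat.Agent.M43.CtrlLvl0
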