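/-
M43 / chapter CTRL (lead), file 4: the decomposition hypothesis of `AlgFit5.ker_eq_of_bijective`
at level `0` of the concrete chain.

At level `0` the diamonds act trivially; hence every element `s` of the big Hecke ring outside
`m2 θ` is of the form `s₁ + x r` with `s₁` acting on `L1 θ 0` as an element of the trace Hecke ring
outside `m0 θ`, in particular bijectively (`hdec_zero`).
-/
import Mathlib
import Fermat.Agent.M43.CtrlGen0
import Fermat.Agent.M43.CtrlLvl0
import Fermat.Agent.M43.ChainMain5

set_option autoImplicit false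
set_option linter.unusedSectionVars false
set_option linter.unusedVariables false
set_option linter.style.haveILetI false

open IsLocalRing

noncomputable section

namespace Fermat.Agent.M43.CtrlDec0

open Fermat.Agent.M43.PolyMod5 Fermat.Agent.M43.ChainMod5 Fermat.Agent.M43.ChainMain5
  Fermat.Agent.M43.LocMod5 Fermat.Agent.M43.CtrlGen0 Fermat.Agent.M43.CtrlLvl0

section Subst

variable {N : ℕ} (O : Type) [CommRing O] [IsLocalRing O] (F : Frame N)

/-- the substitution `x ↦ 0` on the variables. -/
def killX : F.Var → Hk O F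
  | Sum.inl (some i) => MvPolynomial.X (Sum.inl (some i))
  | Sum.inl none => 0
  | Sum.inr d => MvPolynomial.X (Sum.inr d)

/-- the substitution `x ↦ 0`, diamonds `↦ 1` on the variables. -/
def toHk0 : F.Var → Hk0 O F
  | Sum.inl (some i) => MvPolynomial.X i
  | Sum.inl none => 0
  | Sum.inr _ => 1

/-- the substitution `x ↦ 0`. -/
def psi0 : Hk O F →ₐ[O] Hk O F := MvPolynomial.aeval (killX O F)

/-- the substitution `x ↦ 0`, diamonds `↦ 1`. -/
def psi1 : Hk O F →ₐ[O] Hk0 O F := MvPolynomial.aeval (toHk0 O F)

theorem psi0_X (a : F.Var) : psi0 O F (MvPolynomial.X a) = killX O F a := by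
  rw [psi0, MvPolynomial.aeval_X]

theorem psi1_X (a : F.Var) : psi1 O F (MvPolynomial.X a) = toHk0 O F a := by
  rw [psi1, MvPolynomial.aeval_X]

theorem emb_X (i : F.ι) :
    emb O F (MvPolynomial.X i) = MvPolynomial.X (Sum.inl (some i)) := by
  rw [emb, MvPolynomial.rename_X]

variable {O F}

theorem theta0_psi1 (θ : F.ι → ResidueField O) (s : Hk O F) :
    theta0 θ (psi1 O F s) = theta2 θ s := by
  have : (theta0 θ).comp (psi1 O F) = theta2 θ := by
    apply MvPolynomial.algHom_ext
    intro a
    rw [AlgHom.comp_apply, psi1_X, theta2, MvPolynomial.aeval_X]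
    rcases a with (_ | i) | d
    · show theta0 θ 0 = _
      rw [map_zero]
      rfl
    · show theta0 θ (MvPolynomial.X i) = _
      rw [theta0, MvPolynomial.aeval_X]
      rfl
    · show theta0 θ 1 = _
      rw [map_one]
      rfl
  exact congrArg (fun G => G s) this

end Subst

section Dec

variable {N : ℕ} [NeZero N] {O : Type} [CommRing O] [IsDomain O] [IsDiscreteValuationRing O]
  [IsAdicComplete (maximalIdeal O) O] [CharZero O] (F : Frame N) (θ : F.ι → ResidueField O)

/-- at level `0`, `ψ₀ s` and the image of `ψ₁ s` act in the same way on the lattice. -/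
theorem psi0_smul (s : Hk O F) (y : F.P O 0) : psi0 O F s • y = emb O F (psi1 O F s) • y := by
  have h := polyAct_eq_of_X (F.tau O 0) (F.tau_comm 0) (psi0 O F) ((emb O F).comp (psi1 O F))
    (fun a => by
      rw [AlgHom.comp_apply, psi0_X, psi1_X]
      rcases a with (_ | i) | d
      · show polyAct _ _ 0 = polyAct _ _ (emb O F 0)
        rw [map_zero, map_zero, map_zero]
      · show polyAct _ _ (MvPolynomial.X (Sum.inl (some i))) =
          polyAct _ _ (emb O F (MvPolynomial.X i))
        rw [emb_X]
      · show polyAct _ _ (MvPolynomial.X (Sum.inr d)) = polyAct _ _ (emb O F 1)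
        rw [map_one, polyAct_X, tau_inr_zero, map_one]) s
  rw [PolyMod.smul_def, PolyMod.smul_def, h]
  rfl

/-- at level `0`, `ψ₀ s` and the image of `ψ₁ s` act in the same way on the localisation. -/
theorem psi0_smul_L1 (s : Hk O F) (z : L1 θ 0) : psi0 O F s • z = emb O F (psi1 O F s) • z :=
  smul_eq_of_localized (S1 θ) (f1 θ 0) _ _ (psi0_smul F s) z

/-- **the decomposition hypothesis at level `0`.** -/
theorem hdec_zero (s : Hk O F) (hs : s ∉ m2 θ) :
    ∃ s₁ r : Hk O F, s = s₁ + MvPolynomial.X (Sum.inl none) * r ∧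
      Function.Bijective fun z : L1 θ 0 => s₁ • z := by
  obtain ⟨r, hr⟩ := exists_eq_add_X_mul (Sum.inl none : F.Var) (psi0 O F)
    (by rw [psi0_X]; rfl)
    (fun b hb => by
      rw [psi0_X]
      rcases b with (_ | i) | d
      · exact absurd rfl hb
      · rfl
      · rfl) s
  refine ⟨psi0 O F s, r, hr, ?_⟩
  have hmem : emb O F (psi1 O F s) ∈ S1 θ := by
    refine ⟨psi1 O F s, ?_, rfl⟩
    show psi1 O F s ∉ m0 θ
    intro hmem
    apply hs
    rw [m0, RingHom.mem_ker] at hmem
    rw [m2, RingHom.mem_ker]
    exact (theta0_psi1 θ s).symm.trans hmem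
  have hb : Function.Bijective fun z : L1 θ 0 => emb O F (psi1 O F s) • z :=
    (Module.End.isUnit_iff _).mp
      (IsLocalizedModule.map_units (S := S1 θ) (f1 θ 0) (⟨_, hmem⟩ : S1 θ))
  have : (fun z : L1 θ 0 => psi0 O F s • z) = fun z : L1 θ 0 => emb O F (psi1 O F s) • z :=
    funext (psi0_smul_L1 F θ s)
  rw [this]
  exact hb

end Dec

end Fermat.Agent.M43.CtrlDec0
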