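/-
M43 / chapter CTRL (lead), file 1: the fixed level-`N₀` module of the Hecke side.

* `YB N S hNS 𝒪` : the lattice `Y0 = parabolicHoms 𝒪 (Gamma0 N) 𝒪` as a module over
  `BB N S 𝒪 = 𝒪 ⊗ 𝕋` through `HeckeBridge1.actY`; `YB.of`, `smul_of`;
* `Y0L N S hNS 𝒪 θ` : its localisation at the maximal ideal `maxId N S 𝒪 θ`, a module over
  `TLoc N S 𝒪 θ`, over `BB N S 𝒪` and over `𝒪` (finite free over `𝒪`); `Y0L.mk : YB → Y0L` the
  localisation map; `algebraMap_smul_Y0L`, `smul_mk`;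
* `isLocalizedModule_of_le` : a localisation at `T` is a localisation at any `S ≤ T` such that every
  element of `T` has a multiple in `S`.
-/
import Mathlib
import Fermat.Agent.M43.HeckePoly1
import Fermat.Agent.M43.AlgLoc5

set_option autoImplicit false
set_option linter.unusedSectionVars false
set_option linter.style.haveILetI false

noncomputable section

namespace Fermat.Agent.M43.CtrlMod0

open IsLocalRing CuspForm CongruenceSubgroup ModularCurve.Period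
open Fermat.Agent.M43.DatumAlg3 Fermat.Agent.M43.HeckeBridge1 Fermat.Agent.M43.HeckePoly1

/-! ### a generic lemma on localisations -/

section Gen

variable {R : Type*} [CommRing R] {M N : Type*} [AddCommGroup M] [Module R M] [AddCommGroup N]
  [Module R N]

/-- a localisation at `T` is a localisation at any `S ≤ T` such that every element of `T` has a
multiple in `S`. -/
theorem isLocalizedModule_of_le (S T : Submonoid R) (h : S ≤ T)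
    (h' : ∀ x ∈ T, ∃ m : R, m * x ∈ S) (f : M →ₗ[R] N) [IsLocalizedModule T f] :
    IsLocalizedModule S f where
  map_units x := IsLocalizedModule.map_units f (⟨x, h x.2⟩ : T)
  surj y := by
    obtain ⟨⟨x, t⟩, e⟩ := IsLocalizedModule.surj T f y
    obtain ⟨m, hm⟩ := h' t t.2
    refine ⟨⟨m • x, ⟨m * t, hm⟩⟩, ?_⟩
    show (m * (t : R)) • y = f (m • x)
    rw [mul_smul, map_smul]
    exact congrArg (fun z => m • z) e
  exists_of_eq {x₁ x₂} e := by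
    obtain ⟨c, hc⟩ := IsLocalizedModule.exists_of_eq (S := T) (f := f) e
    obtain ⟨m, hm⟩ := h' c c.2
    refine ⟨⟨m * c, hm⟩, ?_⟩
    show (m * (c : R)) • x₁ = (m * (c : R)) • x₂
    rw [mul_smul, mul_smul]
    exact congrArg (fun z => m • z) hc

end Gen

/-! ### `Y0` as a module over `𝒪 ⊗ 𝕋` -/

section YB

/-- `Y0 = parabolicHoms 𝒪 (Gamma0 N) 𝒪` as a module over `BB N S 𝒪 = 𝒪 ⊗ 𝕋`. -/
@[nolint unusedArguments]
def YB (N : ℕ) [NeZero N] (S : Finset ℕ)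
    (_hNS : ∀ q : ℕ, q.Prime → q ∣ N → q ∈ (↑S : Set ℕ)) (𝒪 : Type) [CommRing 𝒪] : Type :=
  Y0 N 𝒪

variable (N : ℕ) [NeZero N] (S : Finset ℕ)
  (hNS : ∀ q : ℕ, q.Prime → q ∣ N → q ∈ (↑S : Set ℕ))
  (𝒪 : Type) [CommRing 𝒪] [IsAddTorsionFree 𝒪]

instance : AddCommGroup (YB N S hNS 𝒪) := inferInstanceAs (AddCommGroup (Y0 N 𝒪))

instance : Module 𝒪 (YB N S hNS 𝒪) := inferInstanceAs (Module 𝒪 (Y0 N 𝒪))

/-- the identity `Y0 ≃ YB`. -/
def YB.of : Y0 N 𝒪 ≃ₗ[𝒪] YB N S hNS 𝒪 := LinearEquiv.refl 𝒪 (Y0 N 𝒪)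

instance : Module (BB N S 𝒪) (YB N S hNS 𝒪) :=
  Module.compHom (Y0 N 𝒪) (actY N S hNS 𝒪 : BB N S 𝒪 →+* Module.End 𝒪 (Y0 N 𝒪))

theorem smul_of (b : BB N S 𝒪) (y : Y0 N 𝒪) :
    b • YB.of N S hNS 𝒪 y = YB.of N S hNS 𝒪 (actY N S hNS 𝒪 b y) := rfl

theorem smul_def (b : BB N S 𝒪) (y : YB N S hNS 𝒪) :
    b • y = YB.of N S hNS 𝒪 (actY N S hNS 𝒪 b ((YB.of N S hNS 𝒪).symm y)) := rfl

instance : IsScalarTower 𝒪 (BB N S 𝒪) (YB N S hNS 𝒪) :=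
  ⟨fun c b y => by
    rw [smul_def, smul_def, map_smul, LinearMap.smul_apply, map_smul]⟩

end YB

/-! ### the localisation at the maximal ideal -/

section Loc

/-- **the fixed module of the Hecke side**: the localisation of `Y0` at the maximal ideal of
`𝒪 ⊗ 𝕋` attached to `θ`. -/
def Y0L (N : ℕ) [NeZero N] (S : Finset ℕ)
    (hNS : ∀ q : ℕ, q.Prime → q ∣ N → q ∈ (↑S : Set ℕ))
    (𝒪 : Type) [CommRing 𝒪] [IsLocalRing 𝒪] [IsAddTorsionFree 𝒪]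
    (θ : heckeAlgebra N 2 (↑S : Set ℕ) →+* ResidueField 𝒪) : Type :=
  LocalizedModule (maxId N S 𝒪 θ).primeCompl (YB N S hNS 𝒪)

variable (N : ℕ) [NeZero N] (S : Finset ℕ)
  (hNS : ∀ q : ℕ, q.Prime → q ∣ N → q ∈ (↑S : Set ℕ))
  (𝒪 : Type) [CommRing 𝒪] [IsLocalRing 𝒪] [IsAddTorsionFree 𝒪]
  (θ : heckeAlgebra N 2 (↑S : Set ℕ) →+* ResidueField 𝒪)

instance : AddCommGroup (Y0L N S hNS 𝒪 θ) :=
  inferInstanceAs (AddCommGroup (LocalizedModule (maxId N S 𝒪 θ).primeCompl (YB N S hNS 𝒪)))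

instance : Module (BB N S 𝒪) (Y0L N S hNS 𝒪 θ) :=
  inferInstanceAs (Module (BB N S 𝒪)
    (LocalizedModule (maxId N S 𝒪 θ).primeCompl (YB N S hNS 𝒪)))

instance : Module (TLoc N S 𝒪 θ) (Y0L N S hNS 𝒪 θ) :=
  inferInstanceAs (Module (Localization (maxId N S 𝒪 θ).primeCompl)
    (LocalizedModule (maxId N S 𝒪 θ).primeCompl (YB N S hNS 𝒪)))

instance : IsScalarTower (BB N S 𝒪) (TLoc N S 𝒪 θ) (Y0L N S hNS 𝒪 θ) :=
  inferInstanceAs (IsScalarTower (BB N S 𝒪) (Localization (maxId N S 𝒪 θ).primeCompl)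
    (LocalizedModule (maxId N S 𝒪 θ).primeCompl (YB N S hNS 𝒪)))

instance : Module 𝒪 (Y0L N S hNS 𝒪 θ) :=
  Module.compHom (Y0L N S hNS 𝒪 θ) (algebraMap 𝒪 (BB N S 𝒪))

instance : IsScalarTower 𝒪 (BB N S 𝒪) (Y0L N S hNS 𝒪 θ) :=
  ⟨fun c b x => by
    show (c • b) • x = algebraMap 𝒪 (BB N S 𝒪) c • (b • x)
    rw [Algebra.smul_def, mul_smul]⟩

/-- the elements of `𝒪 ⊗ 𝕋` act on the localisation through `TLoc`. -/
theorem algebraMap_smul_Y0L (b : BB N S 𝒪) (z : Y0L N S hNS 𝒪 θ) :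
    algebraMap (BB N S 𝒪) (TLoc N S 𝒪 θ) b • z = b • z := by
  rw [Algebra.algebraMap_eq_smul_one, smul_assoc, one_smul]

instance : IsScalarTower 𝒪 (TLoc N S 𝒪 θ) (Y0L N S hNS 𝒪 θ) :=
  ⟨fun c t x => by
    show (c • t) • x = algebraMap 𝒪 (BB N S 𝒪) c • (t • x)
    rw [Algebra.smul_def, mul_smul, IsScalarTower.algebraMap_apply 𝒪 (BB N S 𝒪) (TLoc N S 𝒪 θ),
      algebraMap_smul_Y0L]⟩

/-- the localisation map. -/
def Y0L.mk : YB N S hNS 𝒪 →ₗ[BB N S 𝒪] Y0L N S hNS 𝒪 θ :=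
  LocalizedModule.mkLinearMap (maxId N S 𝒪 θ).primeCompl (YB N S hNS 𝒪)

instance : IsLocalizedModule (maxId N S 𝒪 θ).primeCompl (Y0L.mk N S hNS 𝒪 θ) :=
  inferInstanceAs (IsLocalizedModule (maxId N S 𝒪 θ).primeCompl
    (LocalizedModule.mkLinearMap (maxId N S 𝒪 θ).primeCompl (YB N S hNS 𝒪)))

end Loc

/-! ### finiteness and freeness -/

section Free

variable (N : ℕ) [NeZero N] (S : Finset ℕ)
  (hNS : ∀ q : ℕ, q.Prime → q ∣ N → q ∈ (↑S : Set ℕ))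
  (𝒪 : Type) [CommRing 𝒪] [IsDomain 𝒪] [CharZero 𝒪]

instance finite_YB : Module.Finite 𝒪 (YB N S hNS 𝒪) :=
  Module.Finite.equiv
    (Fermat.Agent.ES.HEQ.ParLattice11.evalEquiv 𝒪 𝒪
      (Fermat.Agent.S22.fg_of_finiteIndex (Gamma0 N))).symm

instance free_YB : Module.Free 𝒪 (YB N S hNS 𝒪) :=
  Module.Free.of_equiv
    (Fermat.Agent.ES.HEQ.ParLattice11.evalEquiv 𝒪 𝒪
      (Fermat.Agent.S22.fg_of_finiteIndex (Gamma0 N))).symm

variable [IsDiscreteValuationRing 𝒪] [IsAdicComplete (maximalIdeal 𝒪) 𝒪]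
  (θ : heckeAlgebra N 2 (↑S : Set ℕ) →+* ResidueField 𝒪)

instance finite_Y0L : Module.Finite 𝒪 (Y0L N S hNS 𝒪 θ) :=
  AlgLoc5.finite_of_finite 𝒪 (maxId N S 𝒪 θ) (Y0L.mk N S hNS 𝒪 θ)

instance free_Y0L : Module.Free 𝒪 (Y0L N S hNS 𝒪 θ) :=
  AlgLoc5.free_of_free 𝒪 (maxId N S 𝒪 θ) (Y0L.mk N S hNS 𝒪 θ)

end Free

end Fermat.Agent.M43.CtrlMod0
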