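/-
M43 / chapter U-CUT (lead), file 4: the abstract localisation lemma.

`𝔓` a commutative ring, `S ≤ 𝔓` a submonoid, `A : W → X`, `x : X → X`, `M, M', Δ : W → W`
`𝔓`-linear with `x ∘ A = A ∘ M`, `x X ⊆ A W`, `M M' = Δ = M' M`, `A w = 0 → Δ w = 0`.  If `Δ` is
bijective on the localisation `LW` of `W` then, on the localisations: `L A` is injective,
`(L x) LX ⊆ range (L A)`, `L M` is bijective and `L x ∘ L A = L A ∘ L M`; hence
`I := range (L A) ≅ LW` is an `L x`-stable submodule on which `L x` is bijective and which contains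
`(L x) LX` (`exists_cut`).
-/
import Mathlib

set_option autoImplicit false
set_option linter.unusedSectionVars false

namespace Fermat.Agent.M43.UCutL0

open IsLocalizedModule

variable {𝔓 : Type*} [CommRing 𝔓] (S : Submonoid 𝔓)
  {X W LX LW : Type*} [AddCommGroup X] [Module 𝔓 X] [AddCommGroup W] [Module 𝔓 W]
  [AddCommGroup LX] [Module 𝔓 LX] [AddCommGroup LW] [Module 𝔓 LW]
  (fX : X →ₗ[𝔓] LX) [IsLocalizedModule S fX] (fW : W →ₗ[𝔓] LW) [IsLocalizedModule S fW]

/-- functoriality of the localisation of linear maps, pointwise. -/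
theorem map_map {W' LW' : Type*} [AddCommGroup W'] [Module 𝔓 W'] [AddCommGroup LW']
    [Module 𝔓 LW'] (fW' : W' →ₗ[𝔓] LW') [IsLocalizedModule S fW']
    (g : W →ₗ[𝔓] W') (h : W' →ₗ[𝔓] X) (k : W →ₗ[𝔓] X) (hk : ∀ w, h (g w) = k w) (z : LW) :
    map S fW' fX h (map S fW fW' g z) = map S fW fX k z := by
  have : (map S fW' fX h) ∘ₗ (map S fW fW' g) = map S fW fX k := by
    apply linearMap_ext S fW fX
    apply LinearMap.ext
    intro w
    simp only [LinearMap.comp_apply, map_apply, hk]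
  exact congrArg (fun F => F z) this

variable (A : W →ₗ[𝔓] X) (x : X →ₗ[𝔓] X) (M M' Δ : W →ₗ[𝔓] W)
  (hxA : ∀ w, x (A w) = A (M w)) (hrange : ∀ φ, ∃ w, x φ = A w)
  (hMM' : ∀ w, M (M' w) = Δ w) (hM'M : ∀ w, M' (M w) = Δ w)
  (hker : ∀ w, A w = 0 → Δ w = 0)
  (hΔ : Function.Bijective (map S fW fW Δ))

include hMM' hM'M hΔ in
theorem bijective_map_M : Function.Bijective (map S fW fW M) := by
  have h1 : ∀ z, map S fW fW M (map S fW fW M' z) = map S fW fW Δ z :=
    map_map S fW fW fW M' M Δ hMM'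
  have h2 : ∀ z, map S fW fW M' (map S fW fW M z) = map S fW fW Δ z :=
    map_map S fW fW fW M M' Δ hM'M
  constructor
  · intro z z' h
    apply hΔ.1
    rw [← h2, ← h2, h]
  · intro z
    obtain ⟨u, hu⟩ := hΔ.2 z
    exact ⟨map S fW fW M' u, by rw [h1, hu]⟩

include hxA in
theorem map_x_map_A (z : LW) :
    map S fX fX x (map S fW fX A z) = map S fW fX A (map S fW fW M z) := by
  rw [map_map S fX fW fX A x (x ∘ₗ A) (fun _ => rfl),
    map_map S fX fW fW M A (x ∘ₗ A) (fun w => (hxA w).symm)]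

/-- multiplication by an element of `S` is injective on a localised module. -/
theorem smul_inj' {Y LY : Type*} [AddCommGroup Y] [Module 𝔓 Y] [AddCommGroup LY] [Module 𝔓 LY]
    (fY : Y →ₗ[𝔓] LY) [IsLocalizedModule S fY] (s : S) {a b : LY}
    (h : (s : 𝔓) • a = (s : 𝔓) • b) : a = b :=
  smul_injective fY s (by simpa only [Submonoid.smul_def] using h)

include hker hΔ in
theorem injective_map_A : Function.Injective (map S fW fX A) := by
  rw [injective_iff_map_eq_zero]
  intro z hz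
  obtain ⟨⟨w, s⟩, hs⟩ := surj S fW z
  have hs' : (s : 𝔓) • z = fW w := by simpa only [Submonoid.smul_def] using hs
  have h1 : fX (A w) = 0 := by
    rw [← map_apply S fW fX A w, ← hs', map_smul, hz, smul_zero]
  obtain ⟨t, ht⟩ := (eq_zero_iff S fX).mp h1
  have ht' : (t : 𝔓) • A w = 0 := by simpa only [Submonoid.smul_def] using ht
  have h2 : Δ ((t : 𝔓) • w) = 0 := hker _ (by rw [map_smul]; exact ht')
  have h3 : fW ((t : 𝔓) • w) = 0 := by
    apply hΔ.1
    rw [map_apply, h2, map_zero, map_zero]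
  have h4 : fW w = 0 := by
    rw [map_smul] at h3
    exact smul_inj' S fW t (by rw [h3, smul_zero])
  exact smul_inj' S fW s (by rw [smul_zero, hs', h4])

include hrange in
theorem map_x_mem_range (z : LX) : map S fX fX x z ∈ LinearMap.range (map S fW fX A) := by
  obtain ⟨⟨φ, s⟩, hs⟩ := surj S fX z
  have hs' : (s : 𝔓) • z = fX φ := by simpa only [Submonoid.smul_def] using hs
  obtain ⟨w, hw⟩ := hrange φ
  refine ⟨mk' fW w s, ?_⟩
  apply smul_inj' S fX s
  rw [← map_smul, ← map_smul, hs', map_apply, hw]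
  have : (s : 𝔓) • mk' fW w s = fW w := by
    rw [← mk'_smul, ← Submonoid.smul_def, mk'_cancel]
  rw [this, map_apply]

include hxA hrange hMM' hM'M hker hΔ in
/-- **the cut**: `I := range (L A)` is isomorphic to `LW`, contains `(L x) LX`, and `L x` is bijective
on it. -/
theorem exists_cut :
    ∃ (I : Submodule 𝔓 LX) (κ : LW ≃ₗ[𝔓] I),
      (∀ z, (κ z : LX) = map S fW fX A z) ∧
      (∀ z, map S fX fX x z ∈ I) ∧
      (∀ z ∈ I, ∃ z' ∈ I, map S fX fX x z' = z) ∧
      (∀ z ∈ I, map S fX fX x z = 0 → z = 0) := by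
  have hinj := injective_map_A S fX fW A Δ hker hΔ
  have hbij := bijective_map_M S fW M M' Δ hMM' hM'M hΔ
  refine ⟨LinearMap.range (map S fW fX A), LinearEquiv.ofInjective _ hinj, fun z => rfl,
    map_x_mem_range S fX fW A x hrange, ?_, ?_⟩
  · rintro _ ⟨u, rfl⟩
    obtain ⟨u', rfl⟩ := hbij.2 u
    exact ⟨map S fW fX A u', ⟨u', rfl⟩, map_x_map_A S fX fW A x M hxA u'⟩
  · rintro _ ⟨u, rfl⟩ h0
    rw [map_x_map_A S fX fW A x M hxA u] at h0
    have : map S fW fW M u = 0 := hinj (by rw [h0, map_zero])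
    have hu : u = 0 := hbij.1 (by rw [this, map_zero])
    rw [hu, map_zero]

/-- equivariance: operators intertwined by `A` are intertwined by `L A`. -/
theorem map_equivariant (EX : X →ₗ[𝔓] X) (EW : W →ₗ[𝔓] W) (h : ∀ w, EX (A w) = A (EW w))
    (z : LW) :
    map S fX fX EX (map S fW fX A z) = map S fW fX A (map S fW fW EW z) := by
  rw [map_map S fX fW fX A EX (EX ∘ₗ A) (fun _ => rfl),
    map_map S fX fW fW EW A (EX ∘ₗ A) (fun w => (h w).symm)]

end Fermat.Agent.M43.UCutL0
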