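/-
M43 / chapter U-CUT (lead), file 6: the control statement in the `PolyMod5` vocabulary.

`ι` an index type of Hecke variables, `ℓ : ι → ℕ` primes not dividing `lev r`; the lattices
`Par (lev r)` and `Par N₀` are modules over `𝔓 = MvPolynomial ι O` through `X_i ↦ T_{ℓ i}`
(`PolyMod5.PolyMod`).  For any submonoid `S ≤ 𝔓` and any localisations `fX`, `fY` at `S`: if
`Del = ∏ ((q i + 1)² − T_{q i}²)` is bijective on the localisation of `Par N₀`, then the
localisation of `Par (lev r)` contains a `𝔓`-submodule `I ≅ (κ → L(Par N₀))`, `card κ = 2^r`,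
which contains the image of `x = ∏ (U_{q i}² − 1)` and on which `x` is bijective.
-/
import Mathlib
import Fermat.Agent.M43.UCutI0
import Fermat.Agent.M43.UCutL0
import Fermat.Agent.M43.PolyMod5

set_option autoImplicit false
set_option linter.unusedSectionVars false
set_option linter.unusedVariables false

namespace Fermat.Agent.M43.UCutP0

open Fermat.Agent.M43.UCutA0 Fermat.Agent.M43.UCutI0 Fermat.Agent.M43.UCutL0
  Fermat.Agent.M43.PolyMod5

section General

variable {O : Type} [CommRing O] {ι : Type} {P : Type} [AddCommGroup P] [Module O P]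
  (τ : ι → Module.End O P) (hτ : ∀ i j, Commute (τ i) (τ j))

/-- an operator commuting with the generators commutes with the whole polynomial action. -/
theorem commute_polyAct (T : Module.End O P) (hT : ∀ i, Commute (τ i) T) (s : MvPolynomial ι O) :
    Commute (polyAct τ hτ s) T := by
  apply LinearMap.ext
  intro x
  rw [Module.End.mul_apply, Module.End.mul_apply]
  exact (polyAct_intertwine τ hτ τ hτ T (fun i x => by
    have := congrArg (fun g : Module.End O P => g x) (hT i).eq
    exact this.symm) s x).symm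

/-- the polynomial action through the diagonal family is the diagonal of the polynomial action. -/
theorem polyAct_dgPi (κ : Type) (s : MvPolynomial ι O) :
    polyAct (fun i => dgPi P κ (τ i)) (fun i j => (hτ i j).map (dgPi P κ)) s
      = dgPi P κ (polyAct τ hτ s) := by
  have : polyAct (fun i => dgPi P κ (τ i)) (fun i j => (hτ i j).map (dgPi P κ))
      = (dgPi (O := O) P κ).comp (polyAct τ hτ) := by
    apply MvPolynomial.algHom_ext
    intro i
    rw [polyAct_X, AlgHom.comp_apply, polyAct_X]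
  rw [this, AlgHom.comp_apply]

/-- the identity `PolyMod (dgPi ∘ τ) ≃ (κ → PolyMod τ)`, linear over the polynomial ring. -/
noncomputable def piEquiv (κ : Type) :
    PolyMod (fun i => dgPi P κ (τ i)) (fun i j => (hτ i j).map (dgPi P κ))
      ≃ₗ[MvPolynomial ι O] (κ → PolyMod τ hτ) where
  toFun w := fun k => PolyMod.of τ hτ ((PolyMod.of _ _).symm w k)
  invFun v := PolyMod.of _ _ (fun k => (PolyMod.of τ hτ).symm (v k))
  left_inv w := rfl
  right_inv v := rfl
  map_add' w w' := rfl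
  map_smul' s w := by
    funext k
    rw [RingHom.id_apply, Pi.smul_apply, PolyMod.smul_def, LinearEquiv.symm_apply_apply,
      polyAct_dgPi, PolyMod.smul_of]
    rfl

theorem piEquiv_of (κ : Type) (w : κ → P) (k : κ) :
    piEquiv τ hτ κ (PolyMod.of _ _ w) k = PolyMod.of τ hτ (w k) := rfl

end General

section Main

variable (O : Type) [CommRing O] (N0 : ℕ) [NeZero N0] (q : ℕ → ℕ) (r : ℕ)
  {ι : Type} (ℓ : ι → ℕ)

/-- **the control statement of the `U`-cut**, in the `PolyMod5` vocabulary. -/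
theorem exists_ctrl (hq : ∀ i, (q i).Prime) (hnd : ∀ i < r, ¬ q i ∣ lev N0 q i)
    (hℓ : ∀ i, (ℓ i).Prime ∧ ¬ ℓ i ∣ lev N0 q r)
    (hτX : ∀ i j, Commute (Top O (lev N0 q r) (ℓ i)) (Top O (lev N0 q r) (ℓ j)))
    (hτY : ∀ i j, Commute (Top O N0 (ℓ i)) (Top O N0 (ℓ j)))
    (hqq : ∀ i i', i < r → i' < r → Commute (Top O N0 (q i)) (Top O N0 (q i')))
    (hℓq : ∀ i, ∀ j < r, Commute (Top O N0 (ℓ i)) (Top O N0 (q j)))
    (hx : ∀ i, Commute (xw O q (lev N0 q r) r) (Top O (lev N0 q r) (ℓ i)))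
    (hDel : ∀ i, Commute (Del O N0 q r) (Top O N0 (ℓ i)))
    (S : Submonoid (MvPolynomial ι O))
    {LX LY : Type} [AddCommGroup LX] [Module (MvPolynomial ι O) LX] [AddCommGroup LY]
    [Module (MvPolynomial ι O) LY]
    (fX : PolyMod (fun i => Top O (lev N0 q r) (ℓ i)) hτX →ₗ[MvPolynomial ι O] LX)
    [IsLocalizedModule S fX]
    (fY : PolyMod (fun i => Top O N0 (ℓ i)) hτY →ₗ[MvPolynomial ι O] LY) [IsLocalizedModule S fY]
    (hΔ : Function.Bijective (IsLocalizedModule.map S fY fY
      (PolyMod.endo (hτ := hτY) (Del O N0 q r) hDel))) :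
    ∃ (κ : Type) (_ : Fintype κ), Fintype.card κ = 2 ^ r ∧
      ∃ (I : Submodule (MvPolynomial ι O) LX) (_ : (κ → LY) ≃ₗ[MvPolynomial ι O] I),
        (∀ z, IsLocalizedModule.map S fX fX
          (PolyMod.endo (hτ := hτX) (xw O q (lev N0 q r) r) hx) z ∈ I) ∧
        (∀ z ∈ I, ∃ z' ∈ I, IsLocalizedModule.map S fX fX
          (PolyMod.endo (hτ := hτX) (xw O q (lev N0 q r) r) hx) z' = z) ∧
        (∀ z ∈ I, IsLocalizedModule.map S fX fX
          (PolyMod.endo (hτ := hτX) (xw O q (lev N0 q r) r) hx) z = 0 → z = 0) := by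
  classical
  obtain ⟨κ, hκ, hcard, St, hSt⟩ := exists_stage O N0 q r hq hnd hqq r le_rfl
  haveI : Finite κ := Finite.of_fintype κ
  refine ⟨κ, hκ, hcard, ?_⟩
  -- the families
  set τX : ι → Module.End O (Par O (lev N0 q r)) := fun i => Top O (lev N0 q r) (ℓ i) with hτXdef
  set τY : ι → Module.End O (Par O N0) := fun i => Top O N0 (ℓ i) with hτYdef
  let τW : ι → Module.End O (κ → Par O N0) := fun i => dgPi (Par O N0) κ (τY i)
  have hτW : ∀ i j, Commute (τW i) (τW j) := fun i j => (hτY i j).map (dgPi (Par O N0) κ)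
  -- commutations with the stage operators
  have hTT : ∀ i, ∀ T ∈ TT O N0 q r, Commute (τY i) T := by
    rintro i _ ⟨j, hj, rfl⟩
    exact hℓq i j hj
  have hM : ∀ i, Commute St.M (τW i) := fun i => (St.hcomm (τY i) (hTT i)).1.symm
  have hM' : ∀ i, Commute St.M' (τW i) := fun i => (St.hcomm (τY i) (hTT i)).2.1.symm
  have hΔW : ∀ i, Commute (dgPi (Par O N0) κ (Del O N0 q r)) (τW i) :=
    fun i => (hDel i).map (dgPi (Par O N0) κ)
  have hfA : ∀ i w, St.A (τW i w) = τX i (St.A w) :=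
    fun i w => (hSt (ℓ i) (hℓ i).1 (hℓ i).2 w).symm
  -- the localisation of the diagonal module
  let fW0 : (κ → PolyMod τY hτY) →ₗ[MvPolynomial ι O] (κ → LY) :=
    LinearMap.pi fun k => fY ∘ₗ LinearMap.proj k
  haveI : IsLocalizedModule S fW0 := IsLocalizedModule.pi S (fun _ : κ => fY)
  let eW := piEquiv τY hτY κ
  let fW : PolyMod τW hτW →ₗ[MvPolynomial ι O] (κ → LY) := fW0 ∘ₗ (eW : _ →ₗ[MvPolynomial ι O] _)
  haveI : IsLocalizedModule S fW := IsLocalizedModule.of_linearEquiv_right S fW0 eW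
  -- the `𝔓`-linear maps
  let A𝔓 : PolyMod τW hτW →ₗ[MvPolynomial ι O] PolyMod τX hτX := PolyMod.map St.A hfA
  let x𝔓 : Module.End (MvPolynomial ι O) (PolyMod τX hτX) :=
    PolyMod.endo (xw O q (lev N0 q r) r) hx
  let M𝔓 : Module.End (MvPolynomial ι O) (PolyMod τW hτW) := PolyMod.endo St.M hM
  let M'𝔓 : Module.End (MvPolynomial ι O) (PolyMod τW hτW) := PolyMod.endo St.M' hM'
  let Δ𝔓 : Module.End (MvPolynomial ι O) (PolyMod τW hτW) :=
    PolyMod.endo (dgPi (Par O N0) κ (Del O N0 q r)) hΔW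
  have hxA : ∀ w, x𝔓 (A𝔓 w) = A𝔓 (M𝔓 w) := fun w =>
    congrArg (PolyMod.of τX hτX) (St.hxA ((PolyMod.of τW hτW).symm w))
  have hrange : ∀ φ, ∃ w, x𝔓 φ = A𝔓 w := by
    intro φ
    obtain ⟨w, hw⟩ := St.hrange ((PolyMod.of τX hτX).symm φ)
    exact ⟨PolyMod.of τW hτW w, congrArg (PolyMod.of τX hτX) hw⟩
  have hMM' : ∀ w, M𝔓 (M'𝔓 w) = Δ𝔓 w := by
    intro w
    have := congrArg (fun F : Module.End O (κ → Par O N0) => F ((PolyMod.of τW hτW).symm w))
      St.hMM'
    exact congrArg (PolyMod.of τW hτW) this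
  have hM'M : ∀ w, M'𝔓 (M𝔓 w) = Δ𝔓 w := by
    intro w
    have := congrArg (fun F : Module.End O (κ → Par O N0) => F ((PolyMod.of τW hτW).symm w))
      St.hM'M
    exact congrArg (PolyMod.of τW hτW) this
  have hker : ∀ w, A𝔓 w = 0 → Δ𝔓 w = 0 := by
    intro w hw
    have h0 : St.A ((PolyMod.of τW hτW).symm w) = 0 := hw
    have h1 : St.D ((PolyMod.of τW hτW).symm w) = 0 := by rw [← St.hBA, h0, map_zero]
    have h2 := congrArg (fun F : Module.End O (κ → Par O N0) => F ((PolyMod.of τW hτW).symm w))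
      St.hD'D
    simp only [Module.End.mul_apply, h1, map_zero] at h2
    exact congrArg (PolyMod.of τW hτW) h2.symm
  -- bijectivity of `Δ` on the localisation of the diagonal module
  have hΔW' : Function.Bijective (IsLocalizedModule.map S fW fW Δ𝔓) := by
    let g := IsLocalizedModule.map S fY fY (PolyMod.endo (hτ := hτY) (Del O N0 q r) hDel)
    let G : (κ → LY) →ₗ[MvPolynomial ι O] (κ → LY) := LinearMap.pi fun k => g ∘ₗ LinearMap.proj k
    have hG : IsLocalizedModule.map S fW fW Δ𝔓 = G := by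
      apply IsLocalizedModule.linearMap_ext S fW fW
      apply LinearMap.ext
      intro w
      rw [LinearMap.comp_apply, IsLocalizedModule.map_apply, LinearMap.comp_apply]
      funext k
      show fY (eW (Δ𝔓 w) k) = g (fY (eW w k))
      rw [IsLocalizedModule.map_apply]
      rfl
    rw [hG]
    constructor
    · intro z z' h
      funext k
      exact hΔ.1 (congrFun h k)
    · intro z
      choose u hu using fun k => hΔ.2 (z k)
      exact ⟨u, funext hu⟩
  obtain ⟨I, e, -, h1, h2, h3⟩ :=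
    exists_cut S fX fW A𝔓 x𝔓 M𝔓 M'𝔓 Δ𝔓 hxA hrange hMM' hM'M hker hΔW'
  exact ⟨I, e, h1, h2, h3⟩

end Main

end Fermat.Agent.M43.UCutP0
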