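/-
M43 / chapter CTRL (lead), file 5: **the control statement (CTRL+6d')(b) of the Hecke assembly.**

Frame: `O` a complete discrete valuation ring of characteristic `0` with finite residue field of
characteristic `p` odd, `N₀`, `S ⊇ {p} ∪ primes(N₀)`, `θ : heckeAlgebra N₀ 2 S →+* k` the residual
eigensystem of an absolutely irreducible `ρ̄` with cyclotomic determinant; `F : ChainMod5.Frame N`
a frame at the level `N = N₀ ∏ F.q i`, the `F.q i` distinct primes outside `S` with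
`θ(T_q)² ≠ (q + 1)²`, the `F.ℓ i` primes outside `S` covering all primes outside `S ∪ {F.q i}`.

* `exists_unit_sub` : inside `L1 θ' 0` (`θ' i = θ(T_{ℓ i})`), an `O`-submodule `W ≃ (κ → Y0L)`,
  `card κ = 2 ^ F.r`, which contains `x L1`, on which `x` is bijective, the equivalence
  intertwining `T_{ℓ i}` on `Y0L` with `X (inl (some i))`;
* **`exists_unit_equiv`** : `ker (locU θ' 0) ≃ₗ[O] (Fin (2 ^ F.r) → Y0L N₀ S hNS O θ)`,
  intertwining `X (inl (some i))` with `piT (T_{ℓ i}) = algebraMap (tB (ℓ i))`.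

Ingredients: `UCutP0.exists_ctrl` (the `U`-cut), `HeckePoly1.exists_poly_mul_eq`,
`HeckePoly1.exists_Del_witness` ((6d') (i), (TWU)), `AlgFit5.ker_eq_of_bijective` ((F2')),
`CtrlDec0.hdec_zero`, `CtrlLvl0.frameEquiv`, `CtrlMod0.Y0L`.
-/
import Mathlib
import Fermat.Agent.M43.CtrlGen0
import Fermat.Agent.M43.CtrlLvl0
import Fermat.Agent.M43.CtrlMod0
import Fermat.Agent.M43.CtrlDec0
import Fermat.Agent.M43.UCutP0
import Fermat.Agent.M43.ChainMain5

set_option autoImplicit false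
set_option linter.unusedSectionVars false
set_option linter.unusedVariables false
set_option linter.style.haveILetI false

open IsLocalRing CuspForm Polynomial

noncomputable section

namespace Fermat.Agent.M43.CtrlMain0

open Fermat.Agent.M43.PolyMod5 Fermat.Agent.M43.ChainMod5 Fermat.Agent.M43.ChainMain5
  Fermat.Agent.M43.LocMod5 Fermat.Agent.M43.CtrlGen0 Fermat.Agent.M43.CtrlLvl0
  Fermat.Agent.M43.CtrlMod0 Fermat.Agent.M43.CtrlDec0 Fermat.Agent.M43.UCutI0
  Fermat.Agent.M43.UCutA0 Fermat.Agent.M43.UCutP0 Fermat.Agent.M43.DatumAlg3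
  Fermat.Agent.M43.HeckeBridge1 Fermat.Agent.M43.HeckePoly1

local notation "Qb" => AlgebraicClosure ℚ
local notation "GQ" => (AlgebraicClosure ℚ ≃ₐ[ℚ] AlgebraicClosure ℚ)

section Arith

variable {N : ℕ} (F : Frame N) (N0 : ℕ)

theorem lev_eq (hN : N = N0 * ∏ i, F.q i) : lev N0 (qx F) F.r = N := by
  rw [lev_eq_prod, Finset.prod_range]
  refine Eq.trans ?_ hN.symm
  congr 1
  exact Finset.prod_congr rfl fun i _ => qx_fin F i

theorem not_dvd_lev (S : Finset ℕ) (hNS : ∀ q : ℕ, q.Prime → q ∣ N0 → q ∈ S)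
    (hqinj : Function.Injective F.q) (hqS : ∀ i, F.q i ∉ S) (i : ℕ) (hi : i < F.r) :
    ¬ qx F i ∣ lev N0 (qx F) i := by
  intro hdvd
  have hp : (qx F i).Prime := qx_prime F i
  rw [lev_eq_prod] at hdvd
  rcases (Nat.Prime.dvd_mul hp).mp hdvd with h | h
  · have := hNS _ hp h
    rw [show qx F i = F.q ⟨i, hi⟩ from qx_fin F ⟨i, hi⟩] at this
    exact hqS _ this
  · obtain ⟨j, hj, hjd⟩ := (Prime.dvd_finsetProd_iff (Nat.Prime.prime hp) _).mp h
    have hj' : j < i := Finset.mem_range.mp hj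
    have hjr : j < F.r := lt_trans hj' hi
    have heq : qx F i = qx F j := (Nat.prime_dvd_prime_iff_eq hp (qx_prime F j)).mp hjd
    rw [show qx F i = F.q ⟨i, hi⟩ from qx_fin F ⟨i, hi⟩,
      show qx F j = F.q ⟨j, hjr⟩ from qx_fin F ⟨j, hjr⟩] at heq
    have := congrArg Fin.val (hqinj heq)
    simp only at this
    omega

end Arith

section Main

variable (p : ℕ) [hp : Fact p.Prime] (N0 : ℕ) [NeZero N0] (S : Finset ℕ)
  (O : Type) [CommRing O] [IsDomain O] [IsDiscreteValuationRing O]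
  [IsAdicComplete (maximalIdeal O) O] [Finite (ResidueField O)] [CharZero O]
  [CharP (ResidueField O) p]
  (θ : heckeAlgebra N0 2 (↑S : Set ℕ) →+* ResidueField O)

set_option maxHeartbeats 1600000 in
/-- **the control statement inside `L1 θ 0`.** -/
theorem exists_unit_sub (hp2 : p ≠ 2) (hpO : (p : O) ∈ maximalIdeal O) (hpS : p ∈ S)
    (hNS : ∀ q : ℕ, q.Prime → q ∣ N0 → q ∈ (↑S : Set ℕ))
    (ρbar : ResidualGaloisRep (ResidueField O)) (habs : ρbar.IsAbsolutelyIrreducible)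
    (hdet : (GaloisRepAdic.ofResidualGaloisRep ρbar).DetIsCyclotomic p)
    (hθ : ∀ (ℓ : ℕ) (hℓ : ℓ.Prime) (hℓN : ¬ ℓ ∣ N0) (hℓS : ℓ ∉ (↑S : Set ℕ)),
      ∀ P : ValuationSubring Qb, P.LiesOverPrime ℓ → ∀ φ : GQ, P.IsFrobeniusAt φ ℓ →
        LinearMap.charpoly (ρbar.ρ φ) =
          X ^ 2 - C (θ (heckeAlgebra.T hℓ hℓN hℓS)) * X + C ((ℓ : ResidueField O)))
    {N : ℕ} [NeZero N] (F : Frame N) (hN : N = N0 * ∏ i, F.q i)
    (hqinj : Function.Injective F.q) (hqS : ∀ i, F.q i ∉ S) (hℓS : ∀ i, F.ℓ i ∉ S)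
    (hcov : ∀ ℓ' : ℕ, ℓ'.Prime → ℓ' ∉ S → (∀ i, F.q i ≠ ℓ') → ∃ i, F.ℓ i = ℓ')
    (hTW : ∀ i, tθ N0 S O θ (F.q i) ^ 2 ≠ ((F.q i : ResidueField O) + 1) ^ 2) :
    ∃ (κ : Type) (_ : Fintype κ), Fintype.card κ = 2 ^ F.r ∧
      ∃ (W : Submodule O (L1 (fun i => tθ N0 S O θ (F.ℓ i)) 0))
        (e : (κ → Y0L N0 S hNS O θ) ≃ₗ[O] W),
        (∀ z, (MvPolynomial.X (Sum.inl none) : Hk O F) • z ∈ W) ∧
        (∀ z ∈ W, ∃ z' ∈ W, (MvPolynomial.X (Sum.inl none) : Hk O F) • z' = z) ∧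
        (∀ z ∈ W, (MvPolynomial.X (Sum.inl none) : Hk O F) • z = 0 → z = 0) ∧
        ∀ (i : F.ι) (v : κ → Y0L N0 S hNS O θ),
          ((e (fun k => algebraMap (BB N0 S O) (TLoc N0 S O θ) (tB N0 S O (F.ℓ i)) • v k) : W) :
            L1 (fun i => tθ N0 S O θ (F.ℓ i)) 0) =
            (MvPolynomial.X (Sum.inl (some i)) : Hk O F) • ((e v : W) :
              L1 (fun i => tθ N0 S O θ (F.ℓ i)) 0) := by
  classical
  have hNS' : ∀ q : ℕ, q.Prime → q ∣ N0 → q ∈ S := fun q hq hqN => Finset.mem_coe.1 (hNS q hq hqN)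
  -- notation
  set θ' : F.ι → ResidueField O := fun i => tθ N0 S O θ (F.ℓ i) with hθ'
  set q : ℕ → ℕ := qx F with hq
  have hqp : ∀ i, (q i).Prime := qx_prime F
  have hM : lev N0 q F.r = N := lev_eq F N0 hN
  have hnd : ∀ i < F.r, ¬ q i ∣ lev N0 q i := not_dvd_lev F N0 S hNS' hqinj hqS
  have hℓ : ∀ i, (F.ℓ i).Prime ∧ ¬ F.ℓ i ∣ lev N0 q F.r := fun i => ⟨F.prime i, by
    rw [hM]; exact F.ndvd i⟩
  have hqS' : ∀ i < F.r, q i ∉ S := fun i hi => by
    rw [show q i = F.q ⟨i, hi⟩ from qx_fin F ⟨i, hi⟩]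
    exact hqS _
  have hτY : ∀ i j, Commute (Top O N0 (F.ℓ i)) (Top O N0 (F.ℓ j)) :=
    fun i j => commute_Top N0 S hNS O (F.ℓ i) (F.ℓ j) (hℓS i) (hℓS j)
  have hqq : ∀ i i', i < F.r → i' < F.r → Commute (Top O N0 (q i)) (Top O N0 (q i')) :=
    fun i i' hi hi' => commute_Top N0 S hNS O (q i) (q i') (hqS' i hi) (hqS' i' hi')
  have hℓq : ∀ i, ∀ j < F.r, Commute (Top O N0 (F.ℓ i)) (Top O N0 (q j)) :=
    fun i j hj => commute_Top N0 S hNS O (F.ℓ i) (q j) (hℓS i) (hqS' j hj)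
  have hDel : ∀ i, Commute (Del O N0 q F.r) (Top O N0 (F.ℓ i)) :=
    fun i => commute_Del O N0 q _ F.r (fun j hj => (hℓq i j hj).symm)
  -- the level equivalence
  let E := frameEquiv O F hM
  have hE1 : ∀ i y, E (Top O (lev N0 q F.r) (F.ℓ i) y) = F.tau O 0 (Sum.inl (some i)) (E y) :=
    frameEquiv_some O F hM
  have hE2 : ∀ y, E (xw O q (lev N0 q F.r) F.r y) = F.tau O 0 (Sum.inl none) (E y) :=
    frameEquiv_none O F hM
  have hτX : ∀ i j, Commute (Top O (lev N0 q F.r) (F.ℓ i)) (Top O (lev N0 q F.r) (F.ℓ j)) := by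
    intro i j
    apply LinearMap.ext
    intro y
    apply E.injective
    show E (Top O _ (F.ℓ i) (Top O _ (F.ℓ j) y)) = E (Top O _ (F.ℓ j) (Top O _ (F.ℓ i) y))
    rw [hE1, hE1, hE1, hE1]
    exact LinearMap.congr_fun (F.tau_comm 0 (Sum.inl (some i)) (Sum.inl (some j))).eq (E y)
  have hx : ∀ i, Commute (xw O q (lev N0 q F.r) F.r) (Top O (lev N0 q F.r) (F.ℓ i)) := by
    intro i
    apply LinearMap.ext
    intro y
    apply E.injective
    show E (xw O q _ F.r (Top O _ (F.ℓ i) y)) = E (Top O _ (F.ℓ i) (xw O q _ F.r y))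
    rw [hE2, hE1, hE1, hE2]
    exact LinearMap.congr_fun (F.tau_comm 0 (Sum.inl none) (Sum.inl (some i))).eq (E y)
  -- the module structures over the trace Hecke ring
  letI algP : Algebra (Hk0 O F) (Hk O F) := (emb O F).toRingHom.toAlgebra
  letI modP : Module (Hk0 O F) (F.P O 0) :=
    Module.compHom (F.P O 0) (algebraMap (Hk0 O F) (Hk O F))
  letI modL : Module (Hk0 O F) (L1 θ' 0) :=
    Module.compHom (L1 θ' 0) (algebraMap (Hk0 O F) (Hk O F))
  haveI towP : IsScalarTower (Hk0 O F) (Hk O F) (F.P O 0) := ⟨fun a b x => by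
    show (algebraMap (Hk0 O F) (Hk O F) a * b) • x = algebraMap (Hk0 O F) (Hk O F) a • (b • x)
    rw [mul_smul]⟩
  haveI towL : IsScalarTower (Hk0 O F) (Hk O F) (L1 θ' 0) := ⟨fun a b x => by
    show (algebraMap (Hk0 O F) (Hk O F) a * b) • x = algebraMap (Hk0 O F) (Hk O F) a • (b • x)
    rw [mul_smul]⟩
  have hsmulP : ∀ (s : Hk0 O F) (y : F.P O 0), s • y = emb O F s • y := fun s y => rfl
  have hsmulL : ∀ (s : Hk0 O F) (z : L1 θ' 0), s • z = emb O F s • z := fun s z => rfl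
  haveI towOL : IsScalarTower O (Hk0 O F) (L1 θ' 0) := ⟨fun c s z => by
    rw [hsmulL, hsmulL, map_smul, smul_assoc]⟩
  have hS : Algebra.algebraMapSubmonoid (Hk O F) (m0 θ').primeCompl = S1 θ' := rfl
  haveI hloc1 : IsLocalizedModule (Algebra.algebraMapSubmonoid (Hk O F) (m0 θ').primeCompl)
      (f1 θ' 0) := by
    rw [hS]
    infer_instance
  haveI hloc2 : IsLocalizedModule (m0 θ').primeCompl ((f1 θ' 0).restrictScalars (Hk0 O F)) :=
    IsLocalizedModule.restrictScalars (m0 θ').primeCompl (f1 θ' 0)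
  -- the lattice of level `lev r` as a module over the trace Hecke ring
  let Ef : PolyMod (fun i => Top O (lev N0 q F.r) (F.ℓ i)) hτX →ₗ[Hk0 O F] F.P O 0 :=
    { toFun := fun y => PolyMod.of (F.tau O 0) (F.tau_comm 0) (E ((PolyMod.of _ hτX).symm y))
      map_add' := fun y y' => by rw [map_add, map_add, map_add]
      map_smul' := fun s y => by
        rw [RingHom.id_apply, hsmulP, PolyMod.smul_def, PolyMod.smul_def,
          LinearEquiv.symm_apply_apply, LinearEquiv.symm_apply_apply]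
        have h1 : polyAct (F.tau O 0) (F.tau_comm 0) (emb O F s) =
            polyAct (fun i => F.tau O 0 (Sum.inl (some i)))
              (fun i j => F.tau_comm 0 (Sum.inl (some i)) (Sum.inl (some j))) s :=
          polyAct_rename (F.tau O 0) (F.tau_comm 0) (fun i => Sum.inl (some i)) s
        rw [h1]
        have h2 := polyAct_intertwine (fun i => Top O (lev N0 q F.r) (F.ℓ i)) hτX
          (fun i => F.tau O 0 (Sum.inl (some i)))
          (fun i j => F.tau_comm 0 (Sum.inl (some i)) (Sum.inl (some j))) E.toLinearMap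
          (fun i x => hE1 i x) s ((PolyMod.of _ hτX).symm y)
        exact congrArg (PolyMod.of (F.tau O 0) (F.tau_comm 0)) h2 }
  have hEf : Function.Bijective Ef := by
    constructor
    · intro y y' h
      have h' : E ((PolyMod.of _ hτX).symm y) = E ((PolyMod.of _ hτX).symm y') :=
        (PolyMod.of (F.tau O 0) (F.tau_comm 0)).injective h
      exact (PolyMod.of _ hτX).symm.injective (E.injective h')
    · intro z
      obtain ⟨y, hy⟩ := E.surjective ((PolyMod.of (F.tau O 0) (F.tau_comm 0)).symm z)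
      refine ⟨PolyMod.of _ hτX y, ?_⟩
      show PolyMod.of (F.tau O 0) (F.tau_comm 0) (E ((PolyMod.of _ hτX).symm (PolyMod.of _ hτX y)))
        = z
      rw [LinearEquiv.symm_apply_apply, hy, LinearEquiv.apply_symm_apply]
  let E𝔓 := LinearEquiv.ofBijective Ef hEf
  let fX : PolyMod (fun i => Top O (lev N0 q F.r) (F.ℓ i)) hτX →ₗ[Hk0 O F] L1 θ' 0 :=
    ((f1 θ' 0).restrictScalars (Hk0 O F)) ∘ₗ (E𝔓 : _ →ₗ[Hk0 O F] _)
  haveI hlocX : IsLocalizedModule (m0 θ').primeCompl fX :=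
    IsLocalizedModule.of_linearEquiv_right (m0 θ').primeCompl
      ((f1 θ' 0).restrictScalars (Hk0 O F)) E𝔓
  -- the lattice of level `N₀` as a module over the trace Hecke ring
  letI algB : Algebra (Hk0 O F) (BB N0 S O) := (aevalBB N0 S O F.ℓ).toRingHom.toAlgebra
  letI modYB : Module (Hk0 O F) (YB N0 S hNS O) :=
    Module.compHom (YB N0 S hNS O) (algebraMap (Hk0 O F) (BB N0 S O))
  letI modYL : Module (Hk0 O F) (Y0L N0 S hNS O θ) :=
    Module.compHom (Y0L N0 S hNS O θ) (algebraMap (Hk0 O F) (BB N0 S O))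
  haveI towYB : IsScalarTower (Hk0 O F) (BB N0 S O) (YB N0 S hNS O) := ⟨fun a b x => by
    show (algebraMap (Hk0 O F) (BB N0 S O) a * b) • x =
      algebraMap (Hk0 O F) (BB N0 S O) a • (b • x)
    rw [mul_smul]⟩
  haveI towYL : IsScalarTower (Hk0 O F) (BB N0 S O) (Y0L N0 S hNS O θ) := ⟨fun a b x => by
    show (algebraMap (Hk0 O F) (BB N0 S O) a * b) • x =
      algebraMap (Hk0 O F) (BB N0 S O) a • (b • x)
    rw [mul_smul]⟩
  have hsmulYB : ∀ (s : Hk0 O F) (y : YB N0 S hNS O), s • y = aevalBB N0 S O F.ℓ s • y :=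
    fun s y => rfl
  have hsmulYL : ∀ (s : Hk0 O F) (z : Y0L N0 S hNS O θ), s • z = aevalBB N0 S O F.ℓ s • z :=
    fun s z => rfl
  haveI towOYL : IsScalarTower O (Hk0 O F) (Y0L N0 S hNS O θ) := ⟨fun c s z => by
    rw [hsmulYL, hsmulYL, map_smul, smul_assoc]⟩
  -- `m0`-complement versus `maxId`-complement
  have hmem0 : ∀ s : Hk0 O F, s ∉ m0 θ' ↔ MvPolynomial.aeval θ' s ≠ 0 := fun s => by
    rw [m0, RingHom.mem_ker]
    rfl
  have hle : Algebra.algebraMapSubmonoid (BB N0 S O) (m0 θ').primeCompl ≤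
      (maxId N0 S O θ).primeCompl := by
    rintro _ ⟨s, hs, rfl⟩
    show aevalBB N0 S O F.ℓ s ∉ maxId N0 S O θ
    rw [mem_maxId, thetaB_aevalBB]
    exact (hmem0 s).mp hs
  have hcov' : ∀ ℓ' : ℕ, ℓ'.Prime → ℓ' ∉ S → ℓ' ∉ Finset.univ.image F.q → ∃ i, F.ℓ i = ℓ' := by
    intro ℓ' hℓ' hℓ'S hℓ'Q
    refine hcov ℓ' hℓ' hℓ'S fun i hi => hℓ'Q ?_
    exact Finset.mem_image.mpr ⟨i, Finset.mem_univ i, hi⟩
  have hmul : ∀ x ∈ (maxId N0 S O θ).primeCompl, ∃ m : BB N0 S O,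
      m * x ∈ Algebra.algebraMapSubmonoid (BB N0 S O) (m0 θ').primeCompl := by
    intro b hb
    obtain ⟨g, s, hs, hbg⟩ := exists_poly_mul_eq p N0 S O θ hp2 hpO hpS hNS' ρbar habs hdet hθ
      (Finset.univ.image F.q) F.ℓ hcov' b hb
    refine ⟨g, s, (hmem0 s).mpr hs, ?_⟩
    rw [mul_comm, hbg]
    rfl
  haveI hlocY1 : IsLocalizedModule (Algebra.algebraMapSubmonoid (BB N0 S O) (m0 θ').primeCompl)
      (Y0L.mk N0 S hNS O θ) :=
    isLocalizedModule_of_le _ (maxId N0 S O θ).primeCompl hle hmul (Y0L.mk N0 S hNS O θ)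
  haveI hlocY2 : IsLocalizedModule (m0 θ').primeCompl
      ((Y0L.mk N0 S hNS O θ).restrictScalars (Hk0 O F)) :=
    IsLocalizedModule.restrictScalars (m0 θ').primeCompl (Y0L.mk N0 S hNS O θ)
  let EYf : PolyMod (fun i => Top O N0 (F.ℓ i)) hτY →ₗ[Hk0 O F] YB N0 S hNS O :=
    { toFun := fun y => YB.of N0 S hNS O ((PolyMod.of _ hτY).symm y)
      map_add' := fun y y' => by rw [map_add, map_add]
      map_smul' := fun s y => by
        rw [RingHom.id_apply, hsmulYB, PolyMod.smul_def, LinearEquiv.symm_apply_apply, smul_of,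
          actY_aevalBB N0 S hNS O F.ℓ hℓS] }
  have hEYf : Function.Bijective EYf := by
    constructor
    · intro y y' h
      exact (PolyMod.of _ hτY).symm.injective ((YB.of N0 S hNS O).injective h)
    · intro z
      refine ⟨PolyMod.of _ hτY ((YB.of N0 S hNS O).symm z), ?_⟩
      show YB.of N0 S hNS O ((PolyMod.of _ hτY).symm (PolyMod.of _ hτY ((YB.of N0 S hNS O).symm z)))
        = z
      rw [LinearEquiv.symm_apply_apply, LinearEquiv.apply_symm_apply]
  let EY := LinearEquiv.ofBijective EYf hEYf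
  let fY : PolyMod (fun i => Top O N0 (F.ℓ i)) hτY →ₗ[Hk0 O F] Y0L N0 S hNS O θ :=
    ((Y0L.mk N0 S hNS O θ).restrictScalars (Hk0 O F)) ∘ₗ (EY : _ →ₗ[Hk0 O F] _)
  haveI hlocY : IsLocalizedModule (m0 θ').primeCompl fY :=
    IsLocalizedModule.of_linearEquiv_right (m0 θ').primeCompl
      ((Y0L.mk N0 S hNS O θ).restrictScalars (Hk0 O F)) EY
  -- (TWU): `Del` is bijective on the localisation of level `N₀`
  have hΔ : Function.Bijective (IsLocalizedModule.map (m0 θ').primeCompl fY fY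
      (PolyMod.endo (hτ := hτY) (Del O N0 q F.r) hDel)) := by
    obtain ⟨g, s, hs, hDg, hgD, hgc⟩ := exists_Del_witness p N0 S O θ hp2 hpO hpS hNS' ρbar habs
      hdet hθ (Finset.univ.image F.q) F.ℓ hℓS hcov' q F.r hqS'
      (fun i hi => by
        rw [show q i = F.q ⟨i, hi⟩ from qx_fin F ⟨i, hi⟩]
        exact hTW _)
    have hgτ : ∀ i, Commute g (Top O N0 (F.ℓ i)) := fun i => hgc (F.ℓ i) (hℓS i)
    refine bijective_map_of_witness (m0 θ').primeCompl fY
      (PolyMod.endo (hτ := hτY) (Del O N0 q F.r) hDel) (PolyMod.endo (hτ := hτY) g hgτ) s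
      ((hmem0 s).mpr hs) ?_ ?_
    · intro m
      obtain ⟨y, rfl⟩ := (PolyMod.of _ hτY).surjective m
      have hy : Del O N0 q F.r (g y) = polyAct _ hτY s y := LinearMap.congr_fun hDg y
      show PolyMod.of _ hτY (Del O N0 q F.r (g y)) = PolyMod.of _ hτY (polyAct _ hτY s y)
      rw [hy]
    · intro m
      obtain ⟨y, rfl⟩ := (PolyMod.of _ hτY).surjective m
      have hy : g (Del O N0 q F.r y) = polyAct _ hτY s y := LinearMap.congr_fun hgD y
      show PolyMod.of _ hτY (g (Del O N0 q F.r y)) = PolyMod.of _ hτY (polyAct _ hτY s y)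
      rw [hy]
  obtain ⟨κ, hκ, hcard, I, e, h1, h2, h3⟩ := exists_ctrl O N0 q F.r F.ℓ hqp hnd hℓ hτX hτY hqq hℓq
    hx hDel (m0 θ').primeCompl fX fY hΔ
  -- the localised `x` is the scalar `X none`
  let Xl : L1 θ' 0 →ₗ[Hk0 O F] L1 θ' 0 :=
    { toFun := fun z => (MvPolynomial.X (Sum.inl none) : Hk O F) • z
      map_add' := fun z z' => smul_add _ _ _
      map_smul' := fun s z => by
        rw [RingHom.id_apply, hsmulL, hsmulL, smul_comm] }
  have hmapx : IsLocalizedModule.map (m0 θ').primeCompl fX fX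
      (PolyMod.endo (hτ := hτX) (xw O q (lev N0 q F.r) F.r) hx) = Xl := by
    apply IsLocalizedModule.linearMap_ext (m0 θ').primeCompl fX fX
    apply LinearMap.ext
    intro y
    show (IsLocalizedModule.map (m0 θ').primeCompl fX fX
      (PolyMod.endo (hτ := hτX) (xw O q (lev N0 q F.r) F.r) hx)) (fX y) = Xl (fX y)
    rw [IsLocalizedModule.map_apply]
    obtain ⟨y', rfl⟩ := (PolyMod.of _ hτX).surjective y
    show f1 θ' 0 (PolyMod.of _ _ (E (xw O q _ F.r y'))) =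
      (MvPolynomial.X (Sum.inl none) : Hk O F) • f1 θ' 0 (PolyMod.of _ _ (E y'))
    rw [hE2, ← map_smul, Frame.X_smul_of]
  have hx1 : ∀ z, (MvPolynomial.X (Sum.inl none) : Hk O F) • z ∈ I := fun z => by
    have := h1 z
    rw [hmapx] at this
    exact this
  have hx2 : ∀ z ∈ I, ∃ z' ∈ I, (MvPolynomial.X (Sum.inl none) : Hk O F) • z' = z := by
    intro z hz
    obtain ⟨z', hz', hzz'⟩ := h2 z hz
    rw [hmapx] at hzz'
    exact ⟨z', hz', hzz'⟩
  have hx3 : ∀ z ∈ I, (MvPolynomial.X (Sum.inl none) : Hk O F) • z = 0 → z = 0 := by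
    intro z hz h0
    apply h3 z hz
    rw [hmapx]
    exact h0
  -- the `O`-linear form of the equivalence
  let e0 : (κ → Y0L N0 S hNS O θ) →ₗ[O] ↥(I.restrictScalars O) :=
    { toFun := fun v => ⟨((e v : I) : L1 θ' 0), (e v).2⟩
      map_add' := fun v v' => Subtype.ext (by
        show ((e (v + v') : I) : L1 θ' 0) = ((e v : I) : L1 θ' 0) + ((e v' : I) : L1 θ' 0)
        rw [map_add, Submodule.coe_add])
      map_smul' := fun c v => Subtype.ext (by
        show ((e (c • v) : I) : L1 θ' 0) = c • ((e v : I) : L1 θ' 0)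
        rw [← algebraMap_smul (Hk0 O F) c v, map_smul, Submodule.coe_smul, algebraMap_smul]) }
  have he0 : Function.Bijective e0 := by
    constructor
    · intro v v' h
      apply e.injective
      apply Subtype.ext
      exact congrArg Subtype.val h
    · rintro ⟨z, hz⟩
      obtain ⟨v, hv⟩ := e.surjective ⟨z, hz⟩
      refine ⟨v, Subtype.ext ?_⟩
      show ((e v : I) : L1 θ' 0) = z
      rw [hv]
  refine ⟨κ, hκ, hcard, I.restrictScalars O, LinearEquiv.ofBijective e0 he0, hx1, hx2, hx3, ?_⟩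
  intro i v
  have hv : (fun k => algebraMap (BB N0 S O) (TLoc N0 S O θ) (tB N0 S O (F.ℓ i)) • v k) =
      (MvPolynomial.X i : Hk0 O F) • v := by
    funext k
    rw [Pi.smul_apply, hsmulYL, aevalBB_X, algebraMap_smul_Y0L]
  show ((e (fun k => algebraMap (BB N0 S O) (TLoc N0 S O θ) (tB N0 S O (F.ℓ i)) • v k) : I) :
    L1 θ' 0) = (MvPolynomial.X (Sum.inl (some i)) : Hk O F) • ((e v : I) : L1 θ' 0)
  rw [hv, map_smul, Submodule.coe_smul, hsmulL, emb_X]

set_option maxHeartbeats 800000 in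
/-- **(CTRL+6d')(b): the unit part of `L1 θ 0` is `2^r` copies of the fixed module `Y0L`,
compatibly with the Hecke operators away from the level.** -/
theorem exists_unit_equiv (hp2 : p ≠ 2) (hpO : (p : O) ∈ maximalIdeal O) (hpS : p ∈ S)
    (hNS : ∀ q : ℕ, q.Prime → q ∣ N0 → q ∈ (↑S : Set ℕ))
    (ρbar : ResidualGaloisRep (ResidueField O)) (habs : ρbar.IsAbsolutelyIrreducible)
    (hdet : (GaloisRepAdic.ofResidualGaloisRep ρbar).DetIsCyclotomic p)
    (hθ : ∀ (ℓ : ℕ) (hℓ : ℓ.Prime) (hℓN : ¬ ℓ ∣ N0) (hℓS : ℓ ∉ (↑S : Set ℕ)),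
      ∀ P : ValuationSubring Qb, P.LiesOverPrime ℓ → ∀ φ : GQ, P.IsFrobeniusAt φ ℓ →
        LinearMap.charpoly (ρbar.ρ φ) =
          X ^ 2 - C (θ (heckeAlgebra.T hℓ hℓN hℓS)) * X + C ((ℓ : ResidueField O)))
    {N : ℕ} [NeZero N] (F : Frame N) (hN : N = N0 * ∏ i, F.q i)
    (hqinj : Function.Injective F.q) (hqS : ∀ i, F.q i ∉ S) (hℓS : ∀ i, F.ℓ i ∉ S)
    (hcov : ∀ ℓ' : ℕ, ℓ'.Prime → ℓ' ∉ S → (∀ i, F.q i ≠ ℓ') → ∃ i, F.ℓ i = ℓ')
    (hTW : ∀ i, tθ N0 S O θ (F.q i) ^ 2 ≠ ((F.q i : ResidueField O) + 1) ^ 2) :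
    ∃ κ : ↥(LinearMap.ker (locU (fun i => tθ N0 S O θ (F.ℓ i)) 0)) ≃ₗ[O]
        (Fin (2 ^ F.r) → Y0L N0 S hNS O θ),
      ∀ (i : F.ι) (y : ↥(LinearMap.ker (locU (fun i => tθ N0 S O θ (F.ℓ i)) 0))),
        κ ((MvPolynomial.X (Sum.inl (some i)) : Hk O F) • y) =
          algebraMap (BB N0 S O) (TLoc N0 S O θ) (tB N0 S O (F.ℓ i)) • κ y := by
  classical
  let θ' : F.ι → ResidueField O := fun i => tθ N0 S O θ (F.ℓ i)
  obtain ⟨κ, hκ, hcard, W, e, hx1, hx2, hx3, heq⟩ : ∃ (κ : Type) (_ : Fintype κ),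
      Fintype.card κ = 2 ^ F.r ∧ ∃ (W : Submodule O (L1 θ' 0))
        (e : (κ → Y0L N0 S hNS O θ) ≃ₗ[O] W),
        (∀ z, (MvPolynomial.X (Sum.inl none) : Hk O F) • z ∈ W) ∧
        (∀ z ∈ W, ∃ z' ∈ W, (MvPolynomial.X (Sum.inl none) : Hk O F) • z' = z) ∧
        (∀ z ∈ W, (MvPolynomial.X (Sum.inl none) : Hk O F) • z = 0 → z = 0) ∧
        ∀ (i : F.ι) (v : κ → Y0L N0 S hNS O θ),
          ((e (fun k => algebraMap (BB N0 S O) (TLoc N0 S O θ) (tB N0 S O (F.ℓ i)) • v k) : W) :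
            L1 θ' 0) =
            (MvPolynomial.X (Sum.inl (some i)) : Hk O F) • ((e v : W) : L1 θ' 0) :=
    exists_unit_sub p N0 S O θ hp2 hpO hpS hNS ρbar habs hdet hθ F hN hqinj hqS hℓS hcov hTW
  haveI : Module.Free O W := Module.Free.of_equiv e
  haveI : Module.Finite O W := Module.Finite.equiv e
  haveI : IsLocalizedModule (m2 θ').primeCompl (locU θ' 0) := by
    unfold locU
    infer_instance
  -- the operator `x` on `W`
  let xL : Module.End O (L1 θ' 0) :=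
    { toFun := fun z => (MvPolynomial.X (Sum.inl none) : Hk O F) • z
      map_add' := fun z z' => smul_add _ _ _
      map_smul' := fun c z => by
        rw [RingHom.id_apply, smul_comm] }
  let xW : Module.End O W := xL.restrict (p := W) (q := W) (fun z _ => hx1 z)
  have hxW : ∀ w : W, ((xW w : W) : L1 θ' 0) =
      (MvPolynomial.X (Sum.inl none) : Hk O F) • (w : L1 θ' 0) := fun w => rfl
  have hbij : Function.Bijective xW := by
    constructor
    · intro w w' h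
      have h' : (MvPolynomial.X (Sum.inl none) : Hk O F) • ((w : L1 θ' 0) - (w' : L1 θ' 0)) = 0 := by
        rw [smul_sub, ← hxW, ← hxW, h, sub_self]
      have := hx3 _ (W.sub_mem w.2 w'.2) h'
      exact Subtype.ext (sub_eq_zero.mp this)
    · rintro ⟨z, hz⟩
      obtain ⟨z', hz', hzz'⟩ := hx2 z hz
      exact ⟨⟨z', hz'⟩, Subtype.ext hzz'⟩
  have hXm : (MvPolynomial.X (Sum.inl none) : Hk O F) ∈ m2 θ' := by
    rw [m2, RingHom.mem_ker]
    show theta2 θ' (MvPolynomial.X (Sum.inl none)) = 0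
    rw [theta2, MvPolynomial.aeval_X]
    rfl
  have hker : ∀ y : L1 θ' 0, locU θ' 0 y = 0 ↔ y ∈ W := fun y =>
    AlgFit5.ker_eq_of_bijective (m2 θ') (MvPolynomial.X (Sum.inl none)) (locU θ' 0) hXm
      (hdec_zero F θ') W xW hxW hbij hx1 y
  -- the equivalence `ker ≃ W`
  let k0 : ↥(LinearMap.ker (locU θ' 0)) →ₗ[O] W :=
    { toFun := fun y => ⟨y.1, (hker y.1).mp (LinearMap.mem_ker.mp y.2)⟩
      map_add' := fun _ _ => rfl
      map_smul' := fun _ _ => rfl }
  have hk0 : Function.Bijective k0 := by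
    constructor
    · intro y y' h
      have h' : ((k0 y : W) : L1 θ' 0) = ((k0 y' : W) : L1 θ' 0) := congrArg Subtype.val h
      exact Subtype.ext h'
    · rintro ⟨z, hz⟩
      exact ⟨⟨z, LinearMap.mem_ker.mpr ((hker z).mpr hz)⟩, rfl⟩
  let K0 := LinearEquiv.ofBijective k0 hk0
  let σ : κ ≃ Fin (2 ^ F.r) := Fintype.equivFinOfCardEq hcard
  refine ⟨K0 ≪≫ₗ e.symm ≪≫ₗ LinearEquiv.funCongrLeft O (Y0L N0 S hNS O θ) σ.symm, ?_⟩
  intro i y
  have h1 : e (fun k => algebraMap (BB N0 S O) (TLoc N0 S O θ) (tB N0 S O (F.ℓ i)) •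
      (e.symm (K0 y)) k) = K0 ((MvPolynomial.X (Sum.inl (some i)) : Hk O F) • y) := by
    apply Subtype.ext
    rw [heq i (e.symm (K0 y)), LinearEquiv.apply_symm_apply]
    rfl
  have h2 : e.symm (K0 ((MvPolynomial.X (Sum.inl (some i)) : Hk O F) • y)) =
      fun k => algebraMap (BB N0 S O) (TLoc N0 S O θ) (tB N0 S O (F.ℓ i)) • (e.symm (K0 y)) k := by
    rw [← h1, LinearEquiv.symm_apply_apply]
  funext j
  show (e.symm (K0 ((MvPolynomial.X (Sum.inl (some i)) : Hk O F) • y))) (σ.symm j) =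
    algebraMap (BB N0 S O) (TLoc N0 S O θ) (tB N0 S O (F.ℓ i)) • (e.symm (K0 y)) (σ.symm j)
  rw [h2]

end Main

end Fermat.Agent.M43.CtrlMain0
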