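/-
M43 (helper1) [(6d') BRIDGE, faithfulness] HeckeFaith1: **`BB = 𝒪 ⊗ 𝕋` acts faithfully on
`Y0 = parabolicHoms 𝒪 (Gamma0 N) 𝒪`** (`𝒪` flat over `ℤ`).

`actY = (conjugation by tensorEquiv) ∘ Ψ ∘ (𝒪 ⊗ heckeLam)` with
`Ψ : 𝒪 ⊗ End_ℤ Λ ≃ End_𝒪 (𝒪 ⊗ Λ)` (Mathlib's `IsBaseChange.end`, `Λ` finite free) and `𝒪 ⊗ heckeLam`
injective (`heckeLam_injective`, flatness).

* `actY_injective`; `finite_Y0`;
* `algebraMap_eq_zero_of_forall`: **`TLoc = BB_𝔪` acts faithfully on the localisation of `Y0` at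
  `𝔪`**, witness form: if for every `y : Y0` some `s ∉ maxId θ` has `(s * b) y = 0`, then `b = 0` in
  `TLoc`.
-/
import Mathlib
import Fermat.Agent.M43.HeckeBridge1

set_option autoImplicit false
set_option linter.unusedSectionVars false
set_option linter.style.haveILetI false

noncomputable section

namespace Fermat.Agent.M43.HeckeFaith1

open CuspForm CongruenceSubgroup ModularCurve.Period TensorProduct
open Fermat.Agent.M43.DatumAlg3 Fermat.Agent.ES.HEQ Fermat.Agent.ES.HEQ.DoubleCosetPar27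
  Fermat.Agent.ES.HEQ.DoubleCoset27 Fermat.Agent.ES.HEQ.FaithFinal26 Fermat.Agent.ES.HEQ.FaithInst26
  Fermat.Agent.M48 Fermat.Agent.M43.HeckeBridge1

variable (N : ℕ) [NeZero N] (S : Finset ℕ)
  (hNS : ∀ q : ℕ, q.Prime → q ∣ N → q ∈ (↑S : Set ℕ))
  (𝒪 : Type) [CommRing 𝒪] [IsAddTorsionFree 𝒪] [Module.Flat ℤ 𝒪]

/-- the base change map `End_ℤ Λ → End_𝒪 (𝒪 ⊗ Λ)` of Mathlib is `f ↦ f.baseChange 𝒪`. -/
theorem endHom_eq_baseChange {Λ : Type*} [AddCommGroup Λ] [Module ℤ Λ] (f : Module.End ℤ Λ) :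
    IsBaseChange.endHom (TensorProduct.isBaseChange ℤ Λ 𝒪) f = f.baseChange 𝒪 := by
  apply LinearMap.ext
  intro x
  induction x using TensorProduct.induction_on with
  | zero => simp
  | tmul c m =>
    have h1 : (c ⊗ₜ[ℤ] m : 𝒪 ⊗[ℤ] Λ) = c • (TensorProduct.mk ℤ 𝒪 Λ 1 m) := by
      rw [TensorProduct.mk_apply, TensorProduct.smul_tmul', smul_eq_mul, mul_one]
    rw [h1, map_smul, IsBaseChange.endHom_comp_apply, map_smul]
    simp only [TensorProduct.mk_apply, LinearMap.baseChange_tmul]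
  | add x y hx hy => rw [map_add, map_add, hx, hy]

/-- **`𝒪 ⊗ 𝕋` acts faithfully on `Y0`.** -/
theorem actY_injective : Function.Injective (actY N S hNS 𝒪) := by
  haveI : Module.Finite ℤ ↥(Lam N) := ParTensor3.finite_lam (Gamma0 N)
  haveI : Module.Free ℤ ↥(Lam N) := ParTensor3.free_lam (Gamma0 N)
  let j := TensorProduct.isBaseChange ℤ ↥(Lam N) 𝒪
  let Ψ : 𝒪 ⊗[ℤ] Module.End ℤ ↥(Lam N) ≃ₗ[𝒪] Module.End 𝒪 (𝒪 ⊗[ℤ] ↥(Lam N)) :=
    (IsBaseChange.end j).equiv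
  let L : 𝒪 ⊗[ℤ] heckeAlgebra N 2 (↑S : Set ℕ) →ₗ[ℤ] 𝒪 ⊗[ℤ] Module.End ℤ ↥(Lam N) :=
    (heckeLam (↑S : Set ℕ) hNS).toLinearMap.lTensor 𝒪
  have hL : Function.Injective L :=
    Module.Flat.lTensor_preserves_injective_linearMap _ (heckeLam_injective (↑S : Set ℕ) hNS)
  let E := (ParTensor3.tensorEquiv (Gamma0 N) 𝒪).conjAlgEquiv ℤ
  let Lb : BB N S 𝒪 →+ 𝒪 ⊗[ℤ] Module.End ℤ ↥(Lam N) := L.toAddMonoidHom
  have hLb : Function.Injective Lb := hL
  have hadd : ∀ x y : BB N S 𝒪, actY N S hNS 𝒪 x = E (Ψ (Lb x)) →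
      actY N S hNS 𝒪 y = E (Ψ (Lb y)) → actY N S hNS 𝒪 (x + y) = E (Ψ (Lb (x + y))) := by
    intro x y hx hy
    rw [map_add, hx, hy, map_add, map_add, map_add]
  have key : ∀ b : BB N S 𝒪, actY N S hNS 𝒪 b = E (Ψ (Lb b)) := by
    intro b
    refine TensorProduct.induction_on
      (motive := fun b : BB N S 𝒪 => actY N S hNS 𝒪 b = E (Ψ (Lb b))) b ?_ ?_ ?_
    · show actY N S hNS 𝒪 (0 : BB N S 𝒪) = E (Ψ (Lb (0 : BB N S 𝒪)))
      rw [map_zero, map_zero, map_zero, map_zero]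
    · intro c t
      show actY N S hNS 𝒪 (tm N S 𝒪 c t) = E (Ψ (Lb (tm N S 𝒪 c t)))
      have h1 := actY_tm N S hNS 𝒪 c t
      have h2 : Ψ (Lb (tm N S 𝒪 c t)) = c • (heckeLam (↑S : Set ℕ) hNS t).baseChange 𝒪 := by
        show (IsBaseChange.end j).equiv (c ⊗ₜ[ℤ] (heckeLam (↑S : Set ℕ) hNS t)) = _
        rw [IsBaseChange.equiv_tmul, endHom_eq_baseChange]
      rw [h1, h2]
      apply LinearMap.ext
      intro y
      obtain ⟨x, rfl⟩ := (ParTensor3.tensorEquiv (Gamma0 N) 𝒪).surjective y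
      rw [LinearMap.smul_apply, actT_apply]
      show _ = (ParTensor3.tensorEquiv (Gamma0 N) 𝒪)
        ((c • (heckeLam (↑S : Set ℕ) hNS t).baseChange 𝒪)
          ((ParTensor3.tensorEquiv (Gamma0 N) 𝒪).symm
            (ParTensor3.tensorEquiv (Gamma0 N) 𝒪 x)))
      rw [LinearEquiv.symm_apply_apply, LinearMap.smul_apply, map_smul]
    · exact fun x y hx hy => hadd x y hx hy
  intro b b' hbb'
  have h1 : E (Ψ (Lb b)) = E (Ψ (Lb b')) := by rw [← key b, ← key b']; exact hbb'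
  exact hLb (Ψ.injective (E.injective h1))

/-- `Y0` is a finite `𝒪`-module. -/
theorem finite_Y0 : Module.Finite 𝒪 (Y0 N 𝒪) := by
  haveI : Module.Finite ℤ ↥(Lam N) := ParTensor3.finite_lam (Gamma0 N)
  exact Module.Finite.equiv (ParTensor3.tensorEquiv (Gamma0 N) 𝒪)

section Loc

variable [IsLocalRing 𝒪] (θ : heckeAlgebra N 2 (↑S : Set ℕ) →+* IsLocalRing.ResidueField 𝒪)

/-- **the local Hecke algebra `TLoc = BB_𝔪` acts faithfully on the localisation of `Y0` at `𝔪`**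
(witness form): if for every `y : Y0` some `s ∉ 𝔪` kills `b y`, then `b = 0` in `TLoc`. -/
theorem algebraMap_eq_zero_of_forall (b : BB N S 𝒪)
    (h : ∀ y : Y0 N 𝒪, ∃ s : BB N S 𝒪, s ∉ maxId N S 𝒪 θ ∧ actY N S hNS 𝒪 (s * b) y = 0) :
    algebraMap (BB N S 𝒪) (TLoc N S 𝒪 θ) b = 0 := by
  classical
  haveI := finite_Y0 N 𝒪
  obtain ⟨G, hG⟩ := (Module.finite_def.mp (inferInstance : Module.Finite 𝒪 (Y0 N 𝒪)))
  choose s hs hsb using h
  set σ : BB N S 𝒪 := ∏ y ∈ G, s y with hσ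
  have hσm : σ ∉ maxId N S 𝒪 θ := by
    intro hmem
    obtain ⟨y, -, hy⟩ := ((maxId_isMaximal N S 𝒪 θ).isPrime.prod_mem_iff).mp hmem
    exact hs y hy
  have hkill : ∀ y ∈ G, actY N S hNS 𝒪 (σ * b) y = 0 := by
    intro y hy
    have e : σ * b = (∏ y' ∈ G.erase y, s y') * (s y * b) := by
      rw [hσ, ← Finset.mul_prod_erase G s hy]; ring
    rw [e, map_mul, Module.End.mul_apply, hsb y, map_zero]
  have hzero : actY N S hNS 𝒪 (σ * b) = 0 := by
    apply LinearMap.ext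
    intro y
    have hy : y ∈ Submodule.span 𝒪 (G : Set (Y0 N 𝒪)) := by rw [hG]; trivial
    induction hy using Submodule.span_induction with
    | mem y hy => rw [hkill y hy, LinearMap.zero_apply]
    | zero => rw [map_zero, map_zero]
    | add x y _ _ hx hy => rw [map_add, hx, hy, map_add]
    | smul c x _ hx => rw [map_smul, hx, map_smul]
  have hσb : σ * b = 0 := actY_injective N S hNS 𝒪 (hzero.trans (map_zero _).symm)
  exact (IsLocalization.map_eq_zero_iff (maxId N S 𝒪 θ).primeCompl (TLoc N S 𝒪 θ) b).mpr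
    ⟨⟨σ, hσm⟩, hσb⟩

end Loc

end Fermat.Agent.M43.HeckeFaith1
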