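/-
M43 (helper1) [(6d') level-0 objects] HeckeBase1: **the FIXED level-`0` module of the Hecke side.**

* `YB N S hNS 𝒪` : `Y0 = parabolicHoms 𝒪 (Gamma0 N) 𝒪` as a module over `BB = 𝒪 ⊗ 𝕋` (through
  `HeckeBridge1.actY`; `1 ⊗ T_ℓ` acts as the double coset operator), finite free over `𝒪`.
* `LY0 N S hNS 𝒪 θ` : its localisation at `maxId θ` (`LocMod5.LocMod`), a module over
  `TLoc N S 𝒪 θ`, finite free over `𝒪` (`finite_LY0`, `free_LY0`); `mkY : Y0 →ₗ[𝒪] LY0` onto;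
  **`faithful_LY0` : `TLoc` acts faithfully on `LY0`**; `actL : BB →ₐ[𝒪] End_𝒪 LY0`,
  `actT0 : TLoc →ₐ[𝒪] End_𝒪 LY0` (injective).
* **`isLocalizedModule_fY`** (= `L_{𝔪_Q}(Y0) = L_𝔪(Y0)`): for every family `ℓ : ι → ℕ` of primes outside
  `S` containing all primes outside `S ∪ Q`, the map
  `fY ℓ : PolyMod (Top ∘ ℓ on Y0) →ₗ[MvPolynomial ι 𝒪] PolyMod (T_{ℓ i} on LY0)` is a localisation at
  the complement of the kernel of the residual eigensystem `MvPolynomial ι 𝒪 → k`.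
* `tl ℓ i : TLoc` (the image of `1 ⊗ T_{ℓ i}`), `tl_eq` (`= piT (T_{ℓ i})`), `X_smul_PL` (`X i` acts
  on `LY0` as `tl i`), `tauL_eq`, **`adjoin_range_tl`** ((6d') (ii): the `tl i` generate `TLoc`).
-/
import Mathlib
import Fermat.Agent.M43.HeckeFaith1
import Fermat.Agent.M43.HeckePoly1
import Fermat.Agent.M43.LocMod5

set_option autoImplicit false
set_option linter.style.haveILetI false
set_option linter.unusedSectionVars false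

noncomputable section

namespace Fermat.Agent.M43.HeckeBase1

open IsLocalRing CuspForm Polynomial CongruenceSubgroup ModularCurve.Period
open Fermat.Agent.M43.DatumAlg3 Fermat.Agent.M43.HeckeLoc1 Fermat.Agent.M43.HeckeBridge1
  Fermat.Agent.M43.HeckeFaith1 Fermat.Agent.M43.HeckePoly1 Fermat.Agent.M43.UCutI0
  Fermat.Agent.M43.PolyMod5 Fermat.Agent.M43.LocMod5 Fermat.Agent.M43.AlgLoc5
  Fermat.Agent.ES.HEQ.FaithInst26 Fermat.Agent.M48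

local notation "Qb" => AlgebraicClosure ℚ
local notation "GQ" => (AlgebraicClosure ℚ ≃ₐ[ℚ] AlgebraicClosure ℚ)

section YBsec

variable (N : ℕ) [NeZero N] (S : Finset ℕ)
  (hNS : ∀ q : ℕ, q.Prime → q ∣ N → q ∈ (↑S : Set ℕ))
  (𝒪 : Type) [CommRing 𝒪] [IsAddTorsionFree 𝒪]

/-- `Y0` as a module over `𝒪 ⊗ 𝕋`. -/
@[nolint unusedArguments]
def YB (_hNS : ∀ q : ℕ, q.Prime → q ∣ N → q ∈ (↑S : Set ℕ)) (𝒪 : Type) [CommRing 𝒪] : Type :=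
  Y0 N 𝒪

instance : AddCommGroup (YB N S hNS 𝒪) := inferInstanceAs (AddCommGroup (Y0 N 𝒪))

instance : Module 𝒪 (YB N S hNS 𝒪) := inferInstanceAs (Module 𝒪 (Y0 N 𝒪))

/-- the identity `Y0 ≃ YB`. -/
def YB.of : Y0 N 𝒪 ≃ₗ[𝒪] YB N S hNS 𝒪 := LinearEquiv.refl 𝒪 (Y0 N 𝒪)

instance : Module (BB N S 𝒪) (YB N S hNS 𝒪) :=
  Module.compHom (Y0 N 𝒪) (actY N S hNS 𝒪 : BB N S 𝒪 →+* Module.End 𝒪 (Y0 N 𝒪))

theorem smul_of (b : BB N S 𝒪) (y : Y0 N 𝒪) :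
    b • YB.of N S hNS 𝒪 y = YB.of N S hNS 𝒪 (actY N S hNS 𝒪 b y) := rfl

theorem smul_def (b : BB N S 𝒪) (y : YB N S hNS 𝒪) :
    b • y = YB.of N S hNS 𝒪 (actY N S hNS 𝒪 b ((YB.of N S hNS 𝒪).symm y)) := rfl

instance : IsScalarTower 𝒪 (BB N S 𝒪) (YB N S hNS 𝒪) :=
  ⟨fun c b y => by
    rw [smul_def, smul_def, map_smul, LinearMap.smul_apply, map_smul]⟩

instance : Module.Finite 𝒪 (YB N S hNS 𝒪) := finite_Y0 N 𝒪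

instance : Module.Free 𝒪 (YB N S hNS 𝒪) := by
  haveI : Module.Finite ℤ ↥(Lam N) := ParTensor3.finite_lam (Gamma0 N)
  haveI : Module.Free ℤ ↥(Lam N) := ParTensor3.free_lam (Gamma0 N)
  exact Module.Free.of_equiv (ParTensor3.tensorEquiv (Gamma0 N) 𝒪)

end YBsec

section Loc

variable (N : ℕ) [NeZero N] (S : Finset ℕ)
  (hNS : ∀ q : ℕ, q.Prime → q ∣ N → q ∈ (↑S : Set ℕ))
  (𝒪 : Type) [CommRing 𝒪] [IsDomain 𝒪] [IsDiscreteValuationRing 𝒪]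
  [IsAdicComplete (maximalIdeal 𝒪) 𝒪] [CharZero 𝒪]
  (θ : heckeAlgebra N 2 (↑S : Set ℕ) →+* ResidueField 𝒪)

/-- **the level-`0` module**: the localisation of `Y0` at the maximal ideal of `θ`. -/
abbrev LY0 : Type := LocMod 𝒪 (maxId N S 𝒪 θ).primeCompl (YB N S hNS 𝒪)

/-- the localisation map. -/
abbrev f0 : YB N S hNS 𝒪 →ₗ[BB N S 𝒪] LY0 N S hNS 𝒪 θ :=
  LocMod.mk 𝒪 (maxId N S 𝒪 θ).primeCompl (YB N S hNS 𝒪)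

instance : Module (TLoc N S 𝒪 θ) (LY0 N S hNS 𝒪 θ) :=
  inferInstanceAs (Module (Localization (maxId N S 𝒪 θ).primeCompl)
    (LocalizedModule (maxId N S 𝒪 θ).primeCompl (YB N S hNS 𝒪)))

instance : IsScalarTower (BB N S 𝒪) (TLoc N S 𝒪 θ) (LY0 N S hNS 𝒪 θ) :=
  inferInstanceAs (IsScalarTower (BB N S 𝒪) (Localization (maxId N S 𝒪 θ).primeCompl)
    (LocalizedModule (maxId N S 𝒪 θ).primeCompl (YB N S hNS 𝒪)))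

instance : IsScalarTower 𝒪 (TLoc N S 𝒪 θ) (LY0 N S hNS 𝒪 θ) :=
  ⟨fun c t z => by
    rw [← algebraMap_smul (BB N S 𝒪) c t, smul_assoc, algebraMap_smul]⟩

instance finite_LY0 : Module.Finite 𝒪 (LY0 N S hNS 𝒪 θ) :=
  finite_of_finite 𝒪 (maxId N S 𝒪 θ) (f0 N S hNS 𝒪 θ)

instance free_LY0 : Module.Free 𝒪 (LY0 N S hNS 𝒪 θ) :=
  free_of_free 𝒪 (maxId N S 𝒪 θ) (f0 N S hNS 𝒪 θ)

/-- `Y0 → LY0`. -/
def mkY : Y0 N 𝒪 →ₗ[𝒪] LY0 N S hNS 𝒪 θ :=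
  ((f0 N S hNS 𝒪 θ).restrictScalars 𝒪).comp (YB.of N S hNS 𝒪 : Y0 N 𝒪 →ₗ[𝒪] YB N S hNS 𝒪)

theorem mkY_surjective : Function.Surjective (mkY N S hNS 𝒪 θ) := by
  intro z
  obtain ⟨y, rfl⟩ := surjective_of_finite 𝒪 (maxId N S 𝒪 θ) (f0 N S hNS 𝒪 θ) z
  exact ⟨(YB.of N S hNS 𝒪).symm y, rfl⟩

theorem smul_mkY (b : BB N S 𝒪) (y : Y0 N 𝒪) :
    b • mkY N S hNS 𝒪 θ y = mkY N S hNS 𝒪 θ (actY N S hNS 𝒪 b y) := by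
  show b • f0 N S hNS 𝒪 θ (YB.of N S hNS 𝒪 y) = f0 N S hNS 𝒪 θ (YB.of N S hNS 𝒪 _)
  rw [← map_smul, smul_of]
  rfl

theorem algebraMap_smul_mkY (b : BB N S 𝒪) (y : Y0 N 𝒪) :
    algebraMap (BB N S 𝒪) (TLoc N S 𝒪 θ) b • mkY N S hNS 𝒪 θ y =
      mkY N S hNS 𝒪 θ (actY N S hNS 𝒪 b y) := by
  rw [algebraMap_smul, smul_mkY]

theorem mkY_eq_zero_iff (y : Y0 N 𝒪) :
    mkY N S hNS 𝒪 θ y = 0 ↔ ∃ s : BB N S 𝒪, s ∉ maxId N S 𝒪 θ ∧ actY N S hNS 𝒪 s y = 0 := by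
  have h := IsLocalizedModule.eq_zero_iff (S := (maxId N S 𝒪 θ).primeCompl) (f0 N S hNS 𝒪 θ)
    (m := YB.of N S hNS 𝒪 y)
  constructor
  · intro h0
    obtain ⟨s, hs⟩ := h.mp h0
    exact ⟨s.1, s.2, hs⟩
  · rintro ⟨s, hs, h0⟩
    exact h.mpr ⟨⟨s, hs⟩, h0⟩

/-- **`TLoc` acts faithfully on `LY0`.** -/
theorem faithful_LY0 (t : TLoc N S 𝒪 θ) (ht : ∀ z : LY0 N S hNS 𝒪 θ, t • z = 0) : t = 0 := by
  obtain ⟨b, rfl⟩ := surjective_algebraMap N S 𝒪 θ t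
  refine algebraMap_eq_zero_of_forall N S hNS 𝒪 θ b fun y => ?_
  have h1 := ht (mkY N S hNS 𝒪 θ y)
  rw [algebraMap_smul_mkY, mkY_eq_zero_iff] at h1
  obtain ⟨s, hs, h0⟩ := h1
  refine ⟨s, hs, ?_⟩
  rw [map_mul, Module.End.mul_apply]
  exact h0

/-- the action of `𝒪 ⊗ 𝕋` on `LY0`. -/
def actL : BB N S 𝒪 →ₐ[𝒪] Module.End 𝒪 (LY0 N S hNS 𝒪 θ) :=
  Algebra.lsmul 𝒪 𝒪 (LY0 N S hNS 𝒪 θ)

@[simp] theorem actL_apply (b : BB N S 𝒪) (z : LY0 N S hNS 𝒪 θ) :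
    actL N S hNS 𝒪 θ b z = b • z := rfl

/-- the action of `TLoc` on `LY0`. -/
def actT0 : TLoc N S 𝒪 θ →ₐ[𝒪] Module.End 𝒪 (LY0 N S hNS 𝒪 θ) :=
  Algebra.lsmul 𝒪 𝒪 (LY0 N S hNS 𝒪 θ)

@[simp] theorem actT0_apply (t : TLoc N S 𝒪 θ) (z : LY0 N S hNS 𝒪 θ) :
    actT0 N S hNS 𝒪 θ t z = t • z := rfl

theorem actT0_injective : Function.Injective (actT0 N S hNS 𝒪 θ) := by
  rw [injective_iff_map_eq_zero]
  intro t ht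
  refine faithful_LY0 N S hNS 𝒪 θ t fun z => ?_
  rw [← actT0_apply, ht, LinearMap.zero_apply]

theorem actT0_algebraMap (b : BB N S 𝒪) :
    actT0 N S hNS 𝒪 θ (algebraMap (BB N S 𝒪) (TLoc N S 𝒪 θ) b) = actL N S hNS 𝒪 θ b := by
  apply LinearMap.ext
  intro z
  rw [actT0_apply, actL_apply, algebraMap_smul]

end Loc

section Ident

variable (p : ℕ) [hp : Fact p.Prime] (N : ℕ) [NeZero N] (S : Finset ℕ)
  (hNS : ∀ q : ℕ, q.Prime → q ∣ N → q ∈ (↑S : Set ℕ))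
  (𝒪 : Type) [CommRing 𝒪] [IsDomain 𝒪] [IsDiscreteValuationRing 𝒪]
  [IsAdicComplete (maximalIdeal 𝒪) 𝒪] [Finite (ResidueField 𝒪)] [CharZero 𝒪]
  [CharP (ResidueField 𝒪) p]
  (θ : heckeAlgebra N 2 (↑S : Set ℕ) →+* ResidueField 𝒪)
  {ι : Type*} (ℓ : ι → ℕ) (hℓS : ∀ i, ℓ i ∉ S)

/-- the operators `T_{ℓ i}` on `LY0`. -/
def tauL (i : ι) : Module.End 𝒪 (LY0 N S hNS 𝒪 θ) := actL N S hNS 𝒪 θ (tB N S 𝒪 (ℓ i))

theorem commute_tauL (i i' : ι) :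
    Commute (tauL N S hNS 𝒪 θ ℓ i) (tauL N S hNS 𝒪 θ ℓ i') := by
  unfold tauL Commute SemiconjBy
  rw [← map_mul, ← map_mul, mul_comm]

theorem polyAct_tauL (s : MvPolynomial ι 𝒪) :
    polyAct (tauL N S hNS 𝒪 θ ℓ) (commute_tauL N S hNS 𝒪 θ ℓ) s =
      actL N S hNS 𝒪 θ (aevalBB N S 𝒪 ℓ s) := by
  have : polyAct (tauL N S hNS 𝒪 θ ℓ) (commute_tauL N S hNS 𝒪 θ ℓ) =
      (actL N S hNS 𝒪 θ).comp (aevalBB N S 𝒪 ℓ) := by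
    apply MvPolynomial.algHom_ext
    intro i
    rw [polyAct_X, AlgHom.comp_apply, aevalBB_X]
    rfl
  exact congrArg (fun f => f s) this

/-- the level-`0` lattice as a module over the polynomial ring of the family `ℓ`. -/
abbrev PY : Type := PolyMod (fun i => UCutI0.Top 𝒪 N (ℓ i))
  (fun i i' => commute_Top N S hNS 𝒪 (ℓ i) (ℓ i') (hℓS i) (hℓS i'))

/-- the level-`0` module `LY0` as a module over the polynomial ring of the family `ℓ`. -/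
abbrev PL : Type := PolyMod (tauL N S hNS 𝒪 θ ℓ) (commute_tauL N S hNS 𝒪 θ ℓ)

include hℓS in
theorem mkY_Top (i : ι) (y : Y0 N 𝒪) :
    mkY N S hNS 𝒪 θ (UCutI0.Top 𝒪 N (ℓ i) y) = tauL N S hNS 𝒪 θ ℓ i (mkY N S hNS 𝒪 θ y) := by
  rw [tauL, actL_apply, smul_mkY, actY_tB N S hNS 𝒪 (ℓ i) (hℓS i)]

/-- **the localisation map, linear over the polynomial ring.** -/
def fY : PY N S hNS 𝒪 ℓ hℓS →ₗ[MvPolynomial ι 𝒪] PL N S hNS 𝒪 θ ℓ :=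
  PolyMod.map (mkY N S hNS 𝒪 θ) (mkY_Top N S hNS 𝒪 θ ℓ hℓS)

theorem smul_PL (s : MvPolynomial ι 𝒪) (z : PL N S hNS 𝒪 θ ℓ) :
    s • z = PolyMod.of _ _ (aevalBB N S 𝒪 ℓ s •
      ((PolyMod.of (tauL N S hNS 𝒪 θ ℓ) (commute_tauL N S hNS 𝒪 θ ℓ)).symm z)) := by
  rw [PolyMod.smul_def, polyAct_tauL, actL_apply]

theorem smul_PY (s : MvPolynomial ι 𝒪) (y : PY N S hNS 𝒪 ℓ hℓS) :
    s • y = PolyMod.of _ _ (actY N S hNS 𝒪 (aevalBB N S 𝒪 ℓ s) ((PolyMod.of _ _).symm y)) := by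
  rw [PolyMod.smul_def, actY_aevalBB N S hNS 𝒪 ℓ hℓS]

/-- **`L_{𝔪_Q}(Y0) = L_𝔪(Y0)`**: `LY0` is the localisation of `Y0` at the complement of the kernel of
the residual eigensystem on the polynomial ring of ANY family of primes outside `S` containing
all primes outside `S ∪ Q`. -/
theorem isLocalizedModule_fY (hp2 : p ≠ 2) (hp𝒪 : (p : 𝒪) ∈ maximalIdeal 𝒪) (hpS : p ∈ S)
    (ρbar : ResidualGaloisRep (ResidueField 𝒪)) (habs : ρbar.IsAbsolutelyIrreducible)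
    (hdet : (GaloisRepAdic.ofResidualGaloisRep ρbar).DetIsCyclotomic p)
    (hθ : ∀ (ℓ : ℕ) (hℓ : ℓ.Prime) (hℓN : ¬ ℓ ∣ N) (hℓS : ℓ ∉ (↑S : Set ℕ)),
      ∀ P : ValuationSubring Qb, P.LiesOverPrime ℓ → ∀ φ : GQ, P.IsFrobeniusAt φ ℓ →
        LinearMap.charpoly (ρbar.ρ φ) =
          X ^ 2 - C (θ (heckeAlgebra.T hℓ hℓN hℓS)) * X + C ((ℓ : ResidueField 𝒪)))
    (Q : Finset ℕ) (hcov : ∀ ℓ' : ℕ, ℓ'.Prime → ℓ' ∉ S → ℓ' ∉ Q → ∃ i, ℓ i = ℓ')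
    (Sm : Submonoid (MvPolynomial ι 𝒪))
    (hSm : ∀ s, s ∈ Sm ↔ MvPolynomial.aeval (fun i => tθ N S 𝒪 θ (ℓ i)) s ≠ 0) :
    IsLocalizedModule Sm (fY N S hNS 𝒪 θ ℓ hℓS) := by
  have hNS0 : ∀ q : ℕ, q.Prime → q ∣ N → q ∈ S := fun q hq hqN => Finset.mem_coe.1 (hNS q hq hqN)
  have hmem : ∀ s, s ∈ Sm → aevalBB N S 𝒪 ℓ s ∉ maxId N S 𝒪 θ := by
    intro s hs hmem
    rw [mem_maxId, thetaB_aevalBB] at hmem
    exact (hSm s).mp hs hmem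
  have hwit : ∀ σ : BB N S 𝒪, σ ∉ maxId N S 𝒪 θ → ∃ g : BB N S 𝒪, ∃ s ∈ Sm,
      σ * g = aevalBB N S 𝒪 ℓ s := by
    intro σ hσ
    obtain ⟨g, s, hs, hg⟩ := exists_poly_mul_eq p N S 𝒪 θ hp2 hp𝒪 hpS hNS0 ρbar habs hdet hθ Q ℓ
      hcov σ hσ
    exact ⟨g, s, (hSm s).mpr hs, hg⟩
  refine ⟨?_, ?_, ?_⟩
  · -- units
    intro s
    rw [Module.End.isUnit_iff]
    have hbij := bijective_smul (maxId N S 𝒪 θ) (f0 N S hNS 𝒪 θ) (aevalBB N S 𝒪 ℓ s.1)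
      (hmem s.1 s.2)
    have heq : ⇑(algebraMap (MvPolynomial ι 𝒪)
        (Module.End (MvPolynomial ι 𝒪) (PL N S hNS 𝒪 θ ℓ)) s.1) =
        fun z : LY0 N S hNS 𝒪 θ => aevalBB N S 𝒪 ℓ s.1 • z := by
      funext z
      rw [Module.algebraMap_end_apply]
      exact smul_PL N S hNS 𝒪 θ ℓ s.1 z
    rw [heq]
    exact hbij
  · -- surjectivity
    intro z
    obtain ⟨⟨y, σ⟩, hσ⟩ := IsLocalizedModule.surj (maxId N S 𝒪 θ).primeCompl (f0 N S hNS 𝒪 θ)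
      ((PolyMod.of (tauL N S hNS 𝒪 θ ℓ) (commute_tauL N S hNS 𝒪 θ ℓ)).symm z)
    obtain ⟨g, s, hs, hg⟩ := hwit σ.1 σ.2
    refine ⟨⟨PolyMod.of _ _ (actY N S hNS 𝒪 g ((YB.of N S hNS 𝒪).symm y)), ⟨s, hs⟩⟩, ?_⟩
    show s • z = _
    rw [smul_PL, ← hg, mul_comm, mul_smul]
    have h1 : (σ.1 : BB N S 𝒪) • (PolyMod.of (tauL N S hNS 𝒪 θ ℓ)
        (commute_tauL N S hNS 𝒪 θ ℓ)).symm z = f0 N S hNS 𝒪 θ y := hσ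
    rw [h1, ← map_smul]
    rfl
  · -- injectivity up to `Sm`
    intro x₁ x₂ h
    set y₁ : Y0 N 𝒪 := (PolyMod.of _ _).symm x₁ with hy₁
    set y₂ : Y0 N 𝒪 := (PolyMod.of _ _).symm x₂ with hy₂
    have h' : mkY N S hNS 𝒪 θ y₁ = mkY N S hNS 𝒪 θ y₂ := h
    have h0 : mkY N S hNS 𝒪 θ (y₁ - y₂) = 0 := by rw [map_sub, h', sub_self]
    obtain ⟨σ, hσ, hσ0⟩ := (mkY_eq_zero_iff N S hNS 𝒪 θ _).mp h0
    obtain ⟨g, s, hs, hg⟩ := hwit σ hσ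
    refine ⟨⟨s, hs⟩, ?_⟩
    show s • x₁ = s • x₂
    rw [smul_PY, smul_PY, ← hy₁, ← hy₂]
    congr 1
    rw [← sub_eq_zero, ← map_sub, ← hg, mul_comm, map_mul, Module.End.mul_apply, hσ0, map_zero]

/-- the Hecke operators of the family `ℓ` in `TLoc`. -/
def tl (i : ι) : TLoc N S 𝒪 θ := algebraMap (BB N S 𝒪) (TLoc N S 𝒪 θ) (tB N S 𝒪 (ℓ i))

theorem tl_eq {i : ι} (hℓ : (ℓ i).Prime) (hℓN : ¬ ℓ i ∣ N) (hℓS' : ℓ i ∉ (↑S : Set ℕ)) :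
    tl N S 𝒪 θ ℓ i = piT N S 𝒪 θ (heckeAlgebra.T hℓ hℓN hℓS') := by
  rw [tl, tB_eq N S 𝒪 hℓ hℓN hℓS', piT_apply]

theorem tauL_eq (i : ι) : tauL N S hNS 𝒪 θ ℓ i = actT0 N S hNS 𝒪 θ (tl N S 𝒪 θ ℓ i) := by
  rw [tl, actT0_algebraMap, tauL]

/-- `X i` acts on `LY0` as `tl i`. -/
theorem X_smul_PL (i : ι) (z : PL N S hNS 𝒪 θ ℓ) :
    (MvPolynomial.X i : MvPolynomial ι 𝒪) • z = PolyMod.of _ _ (tl N S 𝒪 θ ℓ i •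
      ((PolyMod.of (tauL N S hNS 𝒪 θ ℓ) (commute_tauL N S hNS 𝒪 θ ℓ)).symm z)) := by
  rw [smul_PL, aevalBB_X, tl, algebraMap_smul]

include hNS in
/-- **(6d') (ii) for the family `ℓ`**: `TLoc` is generated over `𝒪` by the `tl i`. -/
theorem adjoin_range_tl (hp2 : p ≠ 2) (hp𝒪 : (p : 𝒪) ∈ maximalIdeal 𝒪) (hpS : p ∈ S)
    (ρbar : ResidualGaloisRep (ResidueField 𝒪)) (habs : ρbar.IsAbsolutelyIrreducible)
    (hdet : (GaloisRepAdic.ofResidualGaloisRep ρbar).DetIsCyclotomic p)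
    (hθ : ∀ (ℓ : ℕ) (hℓ : ℓ.Prime) (hℓN : ¬ ℓ ∣ N) (hℓS : ℓ ∉ (↑S : Set ℕ)),
      ∀ P : ValuationSubring Qb, P.LiesOverPrime ℓ → ∀ φ : GQ, P.IsFrobeniusAt φ ℓ →
        LinearMap.charpoly (ρbar.ρ φ) =
          X ^ 2 - C (θ (heckeAlgebra.T hℓ hℓN hℓS)) * X + C ((ℓ : ResidueField 𝒪)))
    (Q : Finset ℕ) (hcov : ∀ ℓ' : ℕ, ℓ'.Prime → ℓ' ∉ S → ℓ' ∉ Q → ∃ i, ℓ i = ℓ') :
    Algebra.adjoin 𝒪 (Set.range (tl N S 𝒪 θ ℓ)) = ⊤ := by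
  have hNS0 : ∀ q : ℕ, q.Prime → q ∣ N → q ∈ S := fun q hq hqN => Finset.mem_coe.1 (hNS q hq hqN)
  rw [eq_top_iff, ← HeckeGenT1.adjoin_piT_away_eq_top p N S 𝒪 θ hp2 hp𝒪 hpS hNS0 ρbar habs hdet
    hθ Q]
  apply Algebra.adjoin_mono
  rintro _ ⟨ℓ', hℓ', hℓ'N, hℓ'S, hℓ'Q, rfl⟩
  obtain ⟨i, rfl⟩ := hcov ℓ' hℓ' (by simpa using hℓ'S) hℓ'Q
  exact ⟨i, tl_eq N S 𝒪 θ ℓ hℓ' hℓ'N hℓ'S⟩

end Ident

end Fermat.Agent.M43.HeckeBase1
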