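/-
Programme M43 (target S43), Hecke assembly, Galois-side input **(CHEB)** (helper1):
**an auxiliary prime `ℓ₀ ≡ 1 (mod N)` outside any finite set at which `T_ℓ₀ - ℓ₀ - 1` is a unit.**

`ρbar : ResidualGaloisRep k` absolutely irreducible with cyclotomic determinant.  For every `N > 0`
and every finite set `S'` there is a prime `ℓ₀ ∉ S'`, `ℓ₀ ≡ 1 (mod N)`, such that
`tr ρbar(φ) ≠ ℓ₀ + 1` for every Frobenius element `φ` at every place over `ℓ₀`.

* `exists_no_fixed` (group theory): `H ≤ G_ℚ` containing all commutators ⟹ some `h ∈ H` has no nonzero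
  fixed vector.  (Otherwise every element of the derived subgroup `D ≤ H` is unipotent [`det = 1` on
  `D`]; Kolchin-lite gives `v ≠ 0` fixed by `D`; `D` is normal, so the `D`-fixed vectors are
  `G_ℚ`-stable; no invariant line ⟹ `D` acts trivially ⟹ the image is abelian ⟹ scalar by Schur.)
* `frob_apply_root` : a Frobenius element at `ℓ ∤ N` raises the `N`-th roots of unity to the `ℓ`-th power;
* `exists_cheb_prime` : **(CHEB)** (Chebotarev in generator form, `ChebQbar23`, at a finite Galois level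
  containing the level of `ρbar` and `ℚ(ζ_N)`; 'no nonzero fixed vector' is invariant under change of
  generator and conjugation).
-/
import Mathlib
import Fermat.Agent.W56.TwCheb5
import Fermat.Agent.ES.P36.KolchinLite9
import Fermat.Agent.S53.ResidualCore
import Fermat.Agent.M43.GlobBN3
import Fermat.Agent.W56.Ad0Facts9

set_option autoImplicit false
set_option linter.unusedSectionVars false
set_option linter.unusedVariables false
set_option linter.style.haveILetI false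

noncomputable section

namespace Fermat.Agent.M43.HeckeCheb1

open Polynomial Module

local notation "Qb" => AlgebraicClosure ℚ
local notation "GQ" => (AlgebraicClosure ℚ ≃ₐ[ℚ] AlgebraicClosure ℚ)

attribute [local instance] Fermat.Agent.Lib.FrobeniusExists.isGalois_Qbar
  Fermat.Agent.Lib.FrobeniusExists.isIntegral_Qbar

/-! ### linear algebra in rank two -/

section LinAlg

variable {k : Type*} [Field k] {V : Type*} [AddCommGroup V] [Module k V] [Module.Finite k V]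

theorem charpoly_two (h2 : finrank k V = 2) (f : End k V) :
    f.charpoly = X ^ 2 - C (LinearMap.trace k V f) * X + C (LinearMap.det f) := by
  set b := Module.finBasisOfFinrankEq k V h2 with hb
  rw [← LinearMap.charpoly_toMatrix f b, Matrix.charpoly_fin_two,
    ← LinearMap.trace_eq_matrix_trace k b, LinearMap.det_toMatrix b]

/-- no nonzero fixed vector ⟹ `tr f ≠ 1 + det f`. -/
theorem trace_ne_of_no_fixed (h2 : finrank k V = 2) (f : End k V)
    (hf : ∀ v : V, f v = v → v = 0) : LinearMap.trace k V f ≠ 1 + LinearMap.det f := by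
  intro h
  have hroot : f.charpoly.IsRoot 1 := by
    rw [charpoly_two h2 f, Polynomial.IsRoot.def]
    simp only [eval_add, eval_sub, eval_pow, eval_X, eval_mul, eval_C, one_pow, mul_one]
    rw [h]
    ring
  have hev := (Module.End.hasEigenvalue_iff_isRoot_charpoly f 1).mpr hroot
  obtain ⟨v, hv⟩ := hev.exists_hasEigenvector
  have h1 := hv.apply_eq_smul
  rw [one_smul] at h1
  exact hv.2 (hf v h1)

/-- a nonzero fixed vector and `det f = 1` ⟹ `(f - 1)² = 0`. -/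
theorem sq_zero_of_fixed (h2 : finrank k V = 2) (f : End k V) {v : V} (hv0 : v ≠ 0)
    (hv : f v = v) (hdet : LinearMap.det f = 1) : (f - 1) * (f - 1) = 0 := by
  have hvec : f.HasEigenvector 1 v :=
    ⟨Module.End.mem_eigenspace_iff.mpr (by rw [hv, one_smul]), hv0⟩
  have hroot := (Module.End.hasEigenvalue_iff_isRoot_charpoly f 1).mp
    (Module.End.hasEigenvalue_of_hasEigenvector hvec)
  rw [charpoly_two h2 f, Polynomial.IsRoot.def] at hroot
  simp only [eval_add, eval_sub, eval_pow, eval_X, eval_mul, eval_C, one_pow, mul_one,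
    hdet] at hroot
  have htr : LinearMap.trace k V f = 2 := by linear_combination -hroot
  have hCH := LinearMap.aeval_self_charpoly f
  rw [charpoly_two h2 f, htr, hdet] at hCH
  simp only [map_add, map_sub, map_pow, aeval_X, map_mul, aeval_C, map_one] at hCH
  have e : (f - 1) * (f - 1) = f ^ 2 - (algebraMap k (End k V)) 2 * f + 1 := by
    rw [map_ofNat]
    noncomm_ring
  rw [e, hCH]

end LinAlg

/-! ### the group-theoretic core -/

section Core

variable {k : Type} [Field k] (ρbar : ResidualGaloisRep k)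

/-- **a subgroup containing all commutators has an element without nonzero fixed vectors.** -/
theorem exists_no_fixed (habs : ρbar.IsAbsolutelyIrreducible) (H : Subgroup GQ)
    (hH : ∀ g g' : GQ, g * g' * g⁻¹ * g'⁻¹ ∈ H) :
    ∃ h ∈ H, ∀ v : ρbar.V, ρbar.ρ h v = v → v = 0 := by
  classical
  by_contra hcon
  push Not at hcon
  have h2 : finrank k ρbar.V = 2 := ρbar.finrank_eq
  haveI : Nontrivial ρbar.V := Fermat.Agent.S53.residual_nontrivial ρbar
  set D : Subgroup GQ := commutator GQ with hD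
  have hDH : D ≤ H := by
    rw [hD, commutator_def, Subgroup.commutator_le]
    intro g₁ _ g₂ _
    rw [commutatorElement_def]
    exact hH g₁ g₂
  have hdet1 : ∀ x ∈ D, LinearMap.det (ρbar.ρ x) = 1 := by
    intro x hx
    have h1 := Abelianization.commutator_subset_ker
      (GaloisRepAdic.ofResidualGaloisRep ρbar).det hx
    rw [MonoidHom.mem_ker] at h1
    have h3 := congrArg Units.val h1
    exact h3
  have hsq : ∀ x ∈ D, (ρbar.ρ x - 1) * (ρbar.ρ x - 1) = 0 := by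
    intro x hx
    obtain ⟨v, hv, hv0⟩ := hcon x (hDH hx)
    exact sq_zero_of_fixed h2 (ρbar.ρ x) hv0 hv (hdet1 x hx)
  obtain ⟨v, hv0, hv⟩ :=
    Fermat.Agent.ES.P36.KolchinLite9.exists_fixed_of_sq_zero ρbar.ρ D hsq
  have hnoline := Fermat.Agent.M43.GlobBN3.no_invariant_line_of_isAbsolutelyIrreducible ρbar habs
  -- the translates of `v` are fixed by `D`
  have hDn : D.Normal := by
    rw [hD]
    infer_instance
  have hgv : ∀ (g : GQ), ∀ x ∈ D, ρbar.ρ x (ρbar.ρ g v) = ρbar.ρ g v := by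
    intro g x hx
    have h1 : g⁻¹ * x * g ∈ D := by
      have := hDn.conj_mem x hx g⁻¹
      rwa [inv_inv] at this
    have h3 := hv _ h1
    rw [map_mul, map_mul, Module.End.mul_apply, Module.End.mul_apply] at h3
    have h4 := congrArg (ρbar.ρ g) h3
    rw [← Module.End.mul_apply, ← map_mul, mul_inv_cancel, map_one, Module.End.one_apply] at h4
    exact h4
  -- some translate is not on the line of `v`
  obtain ⟨g₀, hg₀⟩ : ∃ g₀ : GQ, ∀ c : k, ρbar.ρ g₀ v ≠ c • v := by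
    by_contra hno
    push Not at hno
    exact hnoline v hv0 hno
  -- `D` acts trivially
  have hli : LinearIndependent k ![v, ρbar.ρ g₀ v] := by
    rw [LinearIndependent.pair_iff]
    intro s t hst
    by_cases ht : t = 0
    · subst ht
      rw [zero_smul, add_zero] at hst
      exact ⟨(smul_eq_zero.mp hst).resolve_right hv0, rfl⟩
    · exfalso
      apply hg₀ (-(t⁻¹ * s))
      have h1 : t • ρbar.ρ g₀ v = -(s • v) := eq_neg_of_add_eq_zero_right hst
      have h3 := congrArg (fun z => t⁻¹ • z) h1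
      simp only [smul_smul, inv_mul_cancel₀ ht, one_smul, smul_neg] at h3
      rw [h3, neg_smul]
  have hspan : Submodule.span k (Set.range ![v, ρbar.ρ g₀ v]) = ⊤ :=
    hli.span_eq_top_of_card_eq_finrank' (by rw [h2]; rfl)
  have hDtriv : ∀ x ∈ D, ρbar.ρ x = 1 := by
    intro x hx
    apply LinearMap.ext_on_range hspan
    intro i
    fin_cases i
    · exact hv x hx
    · exact hgv g₀ x hx
  -- the image is abelian
  have hcomm : ∀ g g' : GQ, ρbar.ρ g * ρbar.ρ g' = ρbar.ρ g' * ρbar.ρ g := by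
    intro g g'
    have h1 : g * g' * g⁻¹ * g'⁻¹ ∈ D := by
      rw [hD, commutator_def]
      have := Subgroup.commutator_mem_commutator (Subgroup.mem_top g) (Subgroup.mem_top g')
      rwa [commutatorElement_def] at this
    have h3 := hDtriv _ h1
    have h4 : g * g' = (g * g' * g⁻¹ * g'⁻¹) * (g' * g) := by group
    rw [← map_mul, h4, map_mul, h3, one_mul, map_mul]
  -- Schur: everything is scalar, so `v` spans an invariant line
  refine hnoline v hv0 (fun σ => ?_)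
  obtain ⟨c, hc⟩ := Fermat.Agent.S53.schur_end ρbar habs (ρbar.ρ σ) (fun τ => hcomm σ τ)
  exact ⟨c, by rw [hc, LinearMap.smul_apply, Module.End.one_apply]⟩

end Core

/-! ### roots of unity -/

section Roots

open Fermat.Agent.ES.J.CycloChar8

/-- a Frobenius element at `ℓ ∤ N` acts on the `N`-th roots of unity as the `ℓ`-th power. -/
theorem frob_apply_root {ℓ N : ℕ} (hℓ : ℓ.Prime) (hℓN : ¬ ℓ ∣ N) (A : ValuationSubring Qb)
    (hA : A.LiesOverPrime ℓ) {σ : GQ} (hσ : A.IsFrobeniusAt σ ℓ) {ζ : Qb} (hζ : ζ ^ N = 1) :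
    σ ζ = ζ ^ ℓ := by
  have hN0 : N ≠ 0 := fun h0 => hℓN (h0 ▸ dvd_zero ℓ)
  have hζ0 : ζ ≠ 0 := by
    rintro rfl
    rw [zero_pow hN0] at hζ
    exact zero_ne_one hζ
  have hζA : ζ ∈ A := mem_of_pow_eq_one hN0 hζ
  have h1 := frob_apply_sub_pow_mem_nonunits hσ hζA
  have hσζ : (σ ζ) ^ N = 1 := by rw [← map_pow, hζ, map_one]
  have hη : (σ ζ * (ζ ^ ℓ)⁻¹) ^ N = 1 := by
    rw [mul_pow, hσζ, inv_pow, ← pow_mul, mul_comm ℓ, pow_mul, hζ, one_pow, inv_one, mul_one]
  have hvinv : A.valuation ((ζ ^ ℓ)⁻¹) = 1 := by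
    rw [map_inv₀, map_pow, valuation_eq_one_of_pow_eq_one hN0 hζ, one_pow, inv_one]
  have hη1 : σ ζ * (ζ ^ ℓ)⁻¹ - 1 ∈ A.nonunits := by
    have e : σ ζ * (ζ ^ ℓ)⁻¹ - 1 = (σ ζ - ζ ^ ℓ) * (ζ ^ ℓ)⁻¹ := by
      rw [sub_mul, mul_inv_cancel₀ (pow_ne_zero _ hζ0)]
    rw [e, ValuationSubring.mem_nonunits_iff, map_mul, hvinv, mul_one]
    exact (ValuationSubring.mem_nonunits_iff (A := A)).mp h1
  have h3 := eq_one_of_sub_one_mem_nonunits hℓ hA hℓN hη hη1
  have := congrArg (· * ζ ^ ℓ) h3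
  simpa [mul_assoc, inv_mul_cancel₀ (pow_ne_zero ℓ hζ0)] using this

/-- the subgroup of `G_ℚ` fixing the `N`-th roots of unity. -/
def fixRoots (N : ℕ) : Subgroup GQ where
  carrier := {σ | ∀ μ : Qb, μ ^ N = 1 → σ μ = μ}
  one_mem' := fun μ _ => rfl
  mul_mem' := fun {a b} ha hb μ hμ => by
    rw [AlgEquiv.mul_apply, hb μ hμ, ha μ hμ]
  inv_mem' := fun {a} ha μ hμ => by
    have h1 := ha μ hμ
    have : a⁻¹ (a μ) = μ := a.symm_apply_apply μ
    rw [h1] at this
    exact this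

theorem mem_fixRoots {N : ℕ} {σ : GQ} : σ ∈ fixRoots N ↔ ∀ μ : Qb, μ ^ N = 1 → σ μ = μ :=
  Iff.rfl

/-- every automorphism raises the `N`-th roots of unity to a fixed power. -/
theorem exists_pow_of_root {N : ℕ} (hN : 0 < N) (σ : GQ) :
    ∃ a : ℕ, ∀ μ : Qb, μ ^ N = 1 → σ μ = μ ^ a := by
  haveI : NeZero ((N : ℕ) : Qb) := ⟨by exact_mod_cast hN.ne'⟩
  obtain ⟨ζ, hζ⟩ := HasEnoughRootsOfUnity.exists_primitiveRoot Qb N
  haveI : NeZero N := ⟨hN.ne'⟩
  have hσζ : (σ ζ) ^ N = 1 := by rw [← map_pow, hζ.pow_eq_one, map_one]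
  obtain ⟨a, -, ha⟩ := hζ.eq_pow_of_pow_eq_one hσζ
  refine ⟨a, fun μ hμ => ?_⟩
  obtain ⟨i, -, hi⟩ := hζ.eq_pow_of_pow_eq_one hμ
  rw [← hi, map_pow, ← ha, ← pow_mul, ← pow_mul, mul_comm]

/-- commutators fix the roots of unity. -/
theorem commutator_mem_fixRoots {N : ℕ} (hN : 0 < N) (g g' : GQ) :
    g * g' * g⁻¹ * g'⁻¹ ∈ fixRoots N := by
  intro μ hμ
  obtain ⟨a, ha⟩ := exists_pow_of_root hN g
  obtain ⟨b, hb⟩ := exists_pow_of_root hN g'
  -- `g g' = g' g` on the roots of unity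
  have hsw : ∀ ν : Qb, ν ^ N = 1 → g (g' ν) = g' (g ν) := by
    intro ν hν
    have h1 : (ν ^ b) ^ N = 1 := by rw [← pow_mul, mul_comm, pow_mul, hν, one_pow]
    have h3 : (ν ^ a) ^ N = 1 := by rw [← pow_mul, mul_comm, pow_mul, hν, one_pow]
    rw [hb ν hν, ha _ h1, ha ν hν, hb _ h3, ← pow_mul, ← pow_mul, mul_comm]
  have hinv : ∀ (τ : GQ) (ν : Qb), ν ^ N = 1 → (τ⁻¹ ν) ^ N = 1 := by
    intro τ ν hν
    rw [← map_pow, hν, map_one]
  set ν := g⁻¹ (g'⁻¹ μ) with hν
  have hνN : ν ^ N = 1 := hinv g _ (hinv g' μ hμ)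
  show (g * g' * g⁻¹ * g'⁻¹) μ = μ
  have e : (g * g' * g⁻¹ * g'⁻¹) μ = g (g' ν) := rfl
  rw [e, hsw ν hνN, hν]
  have h1 : g (g⁻¹ (g'⁻¹ μ)) = g'⁻¹ μ := g.apply_symm_apply _
  rw [h1]
  exact g'.apply_symm_apply μ

/-- a finite level through which `fixRoots N` is detected. -/
theorem exists_level_fixRoots {N : ℕ} (hN : 0 < N) :
    ∃ L : IntermediateField ℚ Qb, FiniteDimensional ℚ L ∧
      ∀ σ : GQ, (∀ x ∈ L, σ x = x) → σ ∈ fixRoots N := by
  haveI : NeZero ((N : ℕ) : Qb) := ⟨by exact_mod_cast hN.ne'⟩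
  obtain ⟨ζ, hζ⟩ := HasEnoughRootsOfUnity.exists_primitiveRoot Qb N
  haveI : NeZero N := ⟨hN.ne'⟩
  have hint : IsIntegral ℚ ζ := by
    refine IsIntegral.of_pow hN ?_
    rw [hζ.pow_eq_one]
    exact isIntegral_one
  refine ⟨IntermediateField.adjoin ℚ {ζ}, IntermediateField.adjoin.finiteDimensional hint,
    fun σ hσ μ hμ => ?_⟩
  obtain ⟨i, -, hi⟩ := hζ.eq_pow_of_pow_eq_one hμ
  have h1 : σ ζ = ζ := hσ ζ (IntermediateField.mem_adjoin_simple_self ℚ ζ)
  rw [← hi, map_pow, h1]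

/-- a Frobenius element at `ℓ ∤ N` fixing the `N`-th roots of unity: `ℓ ≡ 1 (mod N)`. -/
theorem natCast_eq_one_of_frobenius_mem_fixRoots {ℓ N : ℕ} (hN : 0 < N) (hℓ : ℓ.Prime)
    (hℓN : ¬ ℓ ∣ N) (A : ValuationSubring Qb) (hA : A.LiesOverPrime ℓ) {σ : GQ}
    (hσ : A.IsFrobeniusAt σ ℓ) (hfix : σ ∈ fixRoots N) : (ℓ : ZMod N) = 1 := by
  haveI : NeZero ((N : ℕ) : Qb) := ⟨by exact_mod_cast hN.ne'⟩
  obtain ⟨ζ, hζ⟩ := HasEnoughRootsOfUnity.exists_primitiveRoot Qb N
  have h1 := frob_apply_root hℓ hℓN A hA hσ hζ.pow_eq_one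
  rw [hfix ζ hζ.pow_eq_one] at h1
  have h3 : ζ ^ 1 = ζ ^ ℓ := by rw [pow_one]; exact h1
  have h4 := modEq_of_pow_eq_pow hζ hN.ne' h3
  have h5 := (ZMod.natCast_eq_natCast_iff _ _ _).mpr h4
  rw [← h5, Nat.cast_one]

end Roots

/-! ### (CHEB) -/

section Main

open Fermat.Agent.W56.TwCheb5 Fermat.Agent.W56.TwLevel5

variable {k : Type} [Field k] (p : ℕ) [Fact p.Prime] [CharP k p]

/-- **(CHEB)**: an auxiliary prime `ℓ₀ ≡ 1 (mod N)` outside `S'` with `tr ρbar(Frob_ℓ₀) ≠ ℓ₀ + 1`. -/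
theorem exists_cheb_prime (ρbar : ResidualGaloisRep k) (habs : ρbar.IsAbsolutelyIrreducible)
    (hdet : (GaloisRepAdic.ofResidualGaloisRep ρbar).DetIsCyclotomic p)
    (N : ℕ) (hN : 0 < N) (S' : Finset ℕ) :
    ∃ ℓ₀ : ℕ, ℓ₀.Prime ∧ ℓ₀ ∉ S' ∧ (ℓ₀ : ZMod N) = 1 ∧
      ∀ P : ValuationSubring Qb, P.LiesOverPrime ℓ₀ → ∀ φ : GQ, P.IsFrobeniusAt φ ℓ₀ →
        LinearMap.trace k ρbar.V (ρbar.ρ φ) ≠ (ℓ₀ : k) + 1 := by
  classical
  have hp : p.Prime := Fact.out
  have h2 : finrank k ρbar.V = 2 := ρbar.finrank_eq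
  -- the element
  obtain ⟨g, hgH, hgfix⟩ := exists_no_fixed ρbar habs (fixRoots N)
    (fun g g' => commutator_mem_fixRoots hN g g')
  -- the level
  obtain ⟨L₁, hL₁fin, hL₁⟩ := ρbar.factorsThroughFiniteLevel
  obtain ⟨L₃, hL₃fin, hL₃⟩ := exists_level_fixRoots hN
  have := hL₁fin
  have := hL₃fin
  have : FiniteDimensional ℚ (L₁ ⊔ L₃ : IntermediateField ℚ Qb) :=
    IntermediateField.finiteDimensional_sup L₁ L₃
  obtain ⟨M, hLM, hMfin, hMgal, T, hT⟩ := exists_galois_level (L₁ ⊔ L₃)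
  have hL₁M : L₁ ≤ M := le_trans le_sup_left hLM
  have hL₃M : L₃ ≤ M := le_trans le_sup_right hLM
  have : Normal ℚ M := hMgal.to_normal
  have hρ1 : ∀ σ : GQ, AlgEquiv.restrictNormalHom M σ = 1 → ρbar.ρ σ = 1 := fun σ hσ =>
    hL₁ σ (fun x hx => fixes_of_restrict_eq_one M hσ x (hL₁M hx))
  have hχ1 : ∀ σ : GQ, AlgEquiv.restrictNormalHom M σ = 1 → σ ∈ fixRoots N := fun σ hσ =>
    hL₃ σ (fun x hx => fixes_of_restrict_eq_one M hσ x (hL₃M hx))
  have hρeq : ∀ σ τ : GQ, AlgEquiv.restrictNormalHom M σ = AlgEquiv.restrictNormalHom M τ →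
      ρbar.ρ σ = ρbar.ρ τ := by
    intro σ τ hστ
    have h1 := hρ1 _ (restrict_inv_mul_eq_one M hστ)
    have h4 : ρbar.ρ σ = ρbar.ρ τ * ρbar.ρ (τ⁻¹ * σ) := by
      rw [← map_mul, mul_inv_cancel_left]
    rw [h4, h1, mul_one]
  have hχeq : ∀ σ τ : GQ, AlgEquiv.restrictNormalHom M σ = AlgEquiv.restrictNormalHom M τ →
      τ ∈ fixRoots N → σ ∈ fixRoots N := by
    intro σ τ hστ hτ
    have h1 := hχ1 _ (restrict_inv_mul_eq_one M hστ)
    have h4 : σ = τ * (τ⁻¹ * σ) := by rw [mul_inv_cancel_left]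
    rw [h4]
    exact (fixRoots N).mul_mem hτ h1
  -- Chebotarev
  obtain ⟨q, A₀, φ₀, hq, hqT, hA₀, hφ₀, hgen⟩ :=
    Fermat.Agent.ES.GAL.ChebQbar23.exists_frobenius_zpowers_eq M
      (AlgEquiv.restrictNormalHom M g) (T ∪ S' ∪ {p} ∪ N.primeFactors)
  have hqT' : q ∉ T := fun hm => hqT (Finset.mem_union_left _ (Finset.mem_union_left _
    (Finset.mem_union_left _ hm)))
  have hqS : q ∉ S' := fun hm => hqT (Finset.mem_union_left _ (Finset.mem_union_left _
    (Finset.mem_union_right _ hm)))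
  have hqp : q ≠ p := fun hm => hqT (Finset.mem_union_left _ (Finset.mem_union_right _
    (Finset.mem_singleton.2 hm)))
  have hqN : ¬ q ∣ N := fun hd => hqT (Finset.mem_union_right _
    (Nat.mem_primeFactors.mpr ⟨hq, hd, hN.ne'⟩))
  -- the two generators are powers of each other
  obtain ⟨i, hi⟩ : ∃ i : ℕ, AlgEquiv.restrictNormalHom M (φ₀ ^ i) =
      AlgEquiv.restrictNormalHom M g := by
    have hmem : AlgEquiv.restrictNormalHom M g ∈
        Subgroup.zpowers (AlgEquiv.restrictNormalHom M φ₀) := by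
      rw [hgen]
      exact Subgroup.mem_zpowers _
    rw [← mem_powers_iff_mem_zpowers] at hmem
    obtain ⟨i, hi⟩ := hmem
    exact ⟨i, by rw [map_pow]; exact hi⟩
  obtain ⟨j, hj⟩ : ∃ j : ℕ, AlgEquiv.restrictNormalHom M (g ^ j) =
      AlgEquiv.restrictNormalHom M φ₀ := by
    have hmem : AlgEquiv.restrictNormalHom M φ₀ ∈
        Subgroup.zpowers (AlgEquiv.restrictNormalHom M g) := by
      rw [← hgen]
      exact Subgroup.mem_zpowers _
    rw [← mem_powers_iff_mem_zpowers] at hmem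
    obtain ⟨j, hj⟩ := hmem
    exact ⟨j, by rw [map_pow]; exact hj⟩
  have hρg : ρbar.ρ φ₀ ^ i = ρbar.ρ g := by rw [← map_pow]; exact hρeq _ _ hi
  have hφ₀H : φ₀ ∈ fixRoots N := hχeq _ _ hj.symm ((fixRoots N).pow_mem hgH j)
  -- `ρbar φ₀` has no nonzero fixed vector
  have hφ₀fix : ∀ v : ρbar.V, ρbar.ρ φ₀ v = v → v = 0 := by
    intro v hv
    apply hgfix v
    rw [← hρg]
    clear hρg hi
    induction i with
    | zero => rw [pow_zero, Module.End.one_apply]
    | succ i ih => rw [pow_succ, Module.End.mul_apply, hv, ih]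
  refine ⟨q, hq, hqS, natCast_eq_one_of_frobenius_mem_fixRoots hN hq hqN A₀ hA₀ hφ₀ hφ₀H, ?_⟩
  intro P hP φ hφ
  -- all places over `q` are conjugate
  obtain ⟨τ, hτ⟩ := Fermat.Agent.W56.InertiaConj8.exists_smul_eq hq hA₀ hP
  have hh : P.IsFrobeniusAt (τ * φ₀ * τ⁻¹) q := by
    have := Fermat.Agent.W56.FrobGen8.isFrobeniusAt_smul hφ₀ τ
    rwa [hτ] at this
  have hin := Fermat.Agent.ES.FROB.FrobFacts12.mul_inv_mem_inertiaSubgroupIn P hh hφ
  have hfix : ∀ x ∈ M, (φ * (τ * φ₀ * τ⁻¹)⁻¹) x = x := hT q hq hqT' P hP _ hin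
  have hres : AlgEquiv.restrictNormalHom M φ = AlgEquiv.restrictNormalHom M (τ * φ₀ * τ⁻¹) := by
    have h1 := restrict_eq_one_of_fixes M hfix
    rw [map_mul, map_inv, mul_inv_eq_one] at h1
    exact h1
  have hρφ : ρbar.ρ φ = ρbar.ρ τ * ρbar.ρ φ₀ * ρbar.ρ τ⁻¹ := by
    rw [hρeq _ _ hres, map_mul, map_mul]
  -- `ρbar φ` has no nonzero fixed vector
  have hττ : ρbar.ρ τ⁻¹ * ρbar.ρ τ = 1 := by rw [← map_mul, inv_mul_cancel, map_one]
  have hττ' : ρbar.ρ τ * ρbar.ρ τ⁻¹ = 1 := by rw [← map_mul, mul_inv_cancel, map_one]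
  have hφfix : ∀ v : ρbar.V, ρbar.ρ φ v = v → v = 0 := by
    intro v hv
    rw [hρφ, Module.End.mul_apply, Module.End.mul_apply] at hv
    have h1 := congrArg (ρbar.ρ τ⁻¹) hv
    rw [← Module.End.mul_apply (ρbar.ρ τ⁻¹) (ρbar.ρ τ), hττ, Module.End.one_apply] at h1
    have h3 := hφ₀fix _ h1
    have h4 := congrArg (ρbar.ρ τ) h3
    rw [← Module.End.mul_apply, hττ', Module.End.one_apply, map_zero] at h4
    exact h4
  -- the determinant
  have hdetφ : LinearMap.det (ρbar.ρ φ) = (q : k) :=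
    Fermat.Agent.W56.Ad0Facts9.det_eq_natCast ρbar p hdet φ q
      (fun μ hμ => Fermat.Agent.W56.TwCyclo5.frobenius_apply_root p hq hqp P hP hφ μ hμ)
  have h := trace_ne_of_no_fixed h2 (ρbar.ρ φ) hφfix
  rw [hdetφ, add_comm] at h
  exact h

end Main

end Fermat.Agent.M43.HeckeCheb1
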