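/-
M43 (helper1) [(6d') faithfulness, lead's literal] HeckeFaithL1: **`TLoc N S 𝒪 θ` acts faithfully on
the lead's fixed level-`0` module `CtrlMod0.Y0L N S hNS 𝒪 θ`** (`faithful_Y0L`), for every local ring
`𝒪` flat over `ℤ` (no completeness needed).  From `HeckeFaith1.algebraMap_eq_zero_of_forall`
(injectivity of `actY` + finite generation of `Y0`).
Also `actY0L_injective` : `TLoc →ₐ[𝒪] Module.End 𝒪 Y0L` (`Algebra.lsmul`) is injective.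
-/
import Mathlib
import Fermat.Agent.M43.HeckeFaith1
import Fermat.Agent.M43.CtrlMod0

set_option autoImplicit false
set_option linter.style.haveILetI false
set_option linter.unusedSectionVars false

noncomputable section

namespace Fermat.Agent.M43.HeckeFaithL1

open IsLocalRing CuspForm CongruenceSubgroup ModularCurve.Period
open Fermat.Agent.M43.DatumAlg3 Fermat.Agent.M43.HeckeBridge1 Fermat.Agent.M43.HeckeFaith1
  Fermat.Agent.M43.CtrlMod0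

variable (N : ℕ) [NeZero N] (S : Finset ℕ)
  (hNS : ∀ q : ℕ, q.Prime → q ∣ N → q ∈ (↑S : Set ℕ))
  (𝒪 : Type) [CommRing 𝒪] [IsLocalRing 𝒪] [IsAddTorsionFree 𝒪] [Module.Flat ℤ 𝒪]
  (θ : heckeAlgebra N 2 (↑S : Set ℕ) →+* ResidueField 𝒪)

theorem smul_mk (b : BB N S 𝒪) (y : Y0 N 𝒪) :
    b • Y0L.mk N S hNS 𝒪 θ (YB.of N S hNS 𝒪 y) =
      Y0L.mk N S hNS 𝒪 θ (YB.of N S hNS 𝒪 (actY N S hNS 𝒪 b y)) := by
  rw [← map_smul, smul_of]

theorem mk_eq_zero_iff (y : Y0 N 𝒪) :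
    Y0L.mk N S hNS 𝒪 θ (YB.of N S hNS 𝒪 y) = 0 ↔
      ∃ s : BB N S 𝒪, s ∉ maxId N S 𝒪 θ ∧ actY N S hNS 𝒪 s y = 0 := by
  have h := IsLocalizedModule.eq_zero_iff (S := (maxId N S 𝒪 θ).primeCompl)
    (Y0L.mk N S hNS 𝒪 θ) (m := YB.of N S hNS 𝒪 y)
  constructor
  · intro h0
    obtain ⟨s, hs⟩ := h.mp h0
    exact ⟨s.1, s.2, hs⟩
  · rintro ⟨s, hs, h0⟩
    exact h.mpr ⟨⟨s, hs⟩, h0⟩

/-- **`TLoc` acts faithfully on `Y0L`.** -/
theorem faithful_Y0L (t : TLoc N S 𝒪 θ) (ht : ∀ z : Y0L N S hNS 𝒪 θ, t • z = 0) : t = 0 := by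
  obtain ⟨b, s, rfl⟩ := IsLocalization.exists_mk'_eq (maxId N S 𝒪 θ).primeCompl t
  have hb : algebraMap (BB N S 𝒪) (TLoc N S 𝒪 θ) b = 0 := by
    refine algebraMap_eq_zero_of_forall N S hNS 𝒪 θ b fun y => ?_
    have h1 := ht (Y0L.mk N S hNS 𝒪 θ (YB.of N S hNS 𝒪 y))
    have h2 : algebraMap (BB N S 𝒪) (TLoc N S 𝒪 θ) b •
        Y0L.mk N S hNS 𝒪 θ (YB.of N S hNS 𝒪 y) = 0 := by
      rw [← IsLocalization.mk'_spec (TLoc N S 𝒪 θ) b s, mul_comm, mul_smul, h1, smul_zero]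
    rw [algebraMap_smul_Y0L, smul_mk, mk_eq_zero_iff] at h2
    obtain ⟨σ, hσ, h0⟩ := h2
    refine ⟨σ, hσ, ?_⟩
    rw [map_mul, Module.End.mul_apply]
    exact h0
  rw [IsLocalization.mk'_eq_iff_eq_mul, hb, zero_mul]

/-- the action of `TLoc` on `Y0L` as an algebra homomorphism. -/
def actY0L : TLoc N S 𝒪 θ →ₐ[𝒪] Module.End 𝒪 (Y0L N S hNS 𝒪 θ) :=
  Algebra.lsmul 𝒪 𝒪 (Y0L N S hNS 𝒪 θ)

@[simp] theorem actY0L_apply (t : TLoc N S 𝒪 θ) (z : Y0L N S hNS 𝒪 θ) :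
    actY0L N S hNS 𝒪 θ t z = t • z := rfl

theorem actY0L_injective : Function.Injective (actY0L N S hNS 𝒪 θ) := by
  rw [injective_iff_map_eq_zero]
  intro t ht
  refine faithful_Y0L N S hNS 𝒪 θ t fun z => ?_
  rw [← actY0L_apply, ht, LinearMap.zero_apply]

end Fermat.Agent.M43.HeckeFaithL1
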