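import Mathlib
import Fermat.Agent.M43.Iface2

/-!
# M43 / glue: from the module form of the Hecke side to the matrix form of `Iface2.HeckeLevel`

`R` a commutative `O`-algebra (in use: the group ring `GR O ι r p n`), `M` a free `R`-module with
basis `e : Fin d → M`, `A` a commutative `O`-algebra acting `R`-linearly on `M`.

* `actOf e ρ : A →ₐ[O] Matrix (Fin d) (Fin d) R` : the matrices of the action in the basis `e`;
  `actOf_apply`, `actOf_scalar` (an element acting as the scalar `z : R` has matrix `scalar z`).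
* `toMatrix_map_aug` / `actOf_map_aug` : **control in matrix form.**  If `aug : R →ₐ[O] O`,
  `M0` is a free `O`-module with basis `e0`, `pr : M → M0` is `aug`-semilinear with
  `pr (e i) = e0 i` and intertwines `f` with `f0`, then `(toMatrix e e f).map aug = toMatrix e0 e0 f0`.
-/

set_option autoImplicit false

namespace Fermat.Agent.M43.ConvMat2

variable {O R : Type*} [CommRing O] [CommRing R] [Algebra O R]
  {M : Type*} [AddCommGroup M] [Module R M] [Module O M] [IsScalarTower O R M]
  {d : ℕ}

omit [IsScalarTower O R M] in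
/-- **control in matrix form.** -/
theorem toMatrix_map_aug (aug : R →ₐ[O] O) {M0 : Type*} [AddCommGroup M0] [Module O M0]
    (e : Module.Basis (Fin d) R M) (e0 : Module.Basis (Fin d) O M0) (pr : M →ₗ[O] M0)
    (hpr : ∀ (z : R) (m : M), pr (z • m) = aug z • pr m) (hpe : ∀ i, pr (e i) = e0 i)
    (f : M →ₗ[R] M) (f0 : M0 →ₗ[O] M0) (hf : ∀ m, pr (f m) = f0 (pr m)) :
    (LinearMap.toMatrix e e f).map aug = LinearMap.toMatrix e0 e0 f0 := by
  ext i j
  rw [Matrix.map_apply, LinearMap.toMatrix_apply, LinearMap.toMatrix_apply]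
  have h1 : f0 (e0 j) = ∑ k, aug (e.repr (f (e j)) k) • e0 k := by
    rw [← hpe j, ← hf, ← e.sum_repr (f (e j)), map_sum]
    refine Finset.sum_congr rfl fun k _ => ?_
    rw [hpr, hpe, e.sum_repr]
  rw [h1, map_sum, Finset.sum_apply']
  simp [Finsupp.single_apply]

/-- the matrices of an `R`-linear action of `A` in the basis `e`. -/
noncomputable def actOf {A : Type*} [CommRing A] [Algebra O A] (e : Module.Basis (Fin d) R M)
    (ρ : A →ₐ[O] Module.End R M) : A →ₐ[O] Matrix (Fin d) (Fin d) R :=
  (((LinearMap.toMatrixAlgEquiv e).restrictScalars O : Module.End R M ≃ₐ[O] _) :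
    Module.End R M →ₐ[O] Matrix (Fin d) (Fin d) R).comp ρ

theorem actOf_apply {A : Type*} [CommRing A] [Algebra O A] (e : Module.Basis (Fin d) R M)
    (ρ : A →ₐ[O] Module.End R M) (a : A) :
    actOf e ρ a = LinearMap.toMatrix e e (ρ a) := rfl

/-- an element acting as a scalar of `R` has a scalar matrix. -/
theorem actOf_scalar {A : Type*} [CommRing A] [Algebra O A] (e : Module.Basis (Fin d) R M)
    (ρ : A →ₐ[O] Module.End R M) (a : A) (z : R) (h : ∀ m, ρ a m = z • m) :
    actOf e ρ a = Matrix.scalar (Fin d) z := by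
  have h1 : ρ a = z • (1 : Module.End R M) := by
    ext m
    rw [h, LinearMap.smul_apply, Module.End.one_apply]
  rw [actOf_apply, h1, map_smul, LinearMap.toMatrix_one]
  ext i j
  rw [Matrix.smul_apply, Matrix.scalar_apply, Matrix.diagonal_apply, Matrix.one_apply]
  split_ifs <;> simp

/-- control in matrix form, for `actOf`. -/
theorem actOf_map_aug {A : Type*} [CommRing A] [Algebra O A] (aug : R →ₐ[O] O)
    {M0 : Type*} [AddCommGroup M0] [Module O M0]
    (e : Module.Basis (Fin d) R M) (e0 : Module.Basis (Fin d) O M0) (pr : M →ₗ[O] M0)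
    (hpr : ∀ (z : R) (m : M), pr (z • m) = aug z • pr m) (hpe : ∀ i, pr (e i) = e0 i)
    (ρ : A →ₐ[O] Module.End R M) (a : A) (f0 : M0 →ₗ[O] M0)
    (hf : ∀ m, pr (ρ a m) = f0 (pr m)) :
    (actOf e ρ a).map aug = LinearMap.toMatrix e0 e0 f0 :=
  toMatrix_map_aug aug e e0 pr hpr hpe (ρ a) f0 hf

end Fermat.Agent.M43.ConvMat2
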