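import Mathlib
import Fermat.Agent.M43.ChainLevel5
import Fermat.Agent.M43.LevelGrp5
import Fermat.Agent.M43.ConvMat2

/-!
# M43 / Hecke side: the assembly of `Iface2.HeckeLevel`

Pure wiring: from the module form (`ChainLevel5.exists_level`), the group data (`LevelGrp5`) and the
NAMED INPUTS of the other chapters

* (CTRL) `κ : H0 θ ≃ₗ[O] M0` with `κ (X_i • y) = tl i • κ y`, `M0` a faithful module over the
  level-`0` Hecke algebra `T0` which is generated by the `tl i`;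
* (6d) `ρ : GaloisRepAdic (An θ)` with its local properties;
* (BRIDGE) the traces of inertia at the Taylor–Wiles primes and at the bad primes act on the unit
  part as `⟨d⟩ + ⟨d⁻¹⟩`;
* (Carayol) the base change of `ρ` along any `π` with `π (X_i) = tl i` is equivalent to `ρ0`;

to `Nonempty (Iface2.HeckeLevel …)`.

* `repG_eq_smul`, `repH_eq_smul` : the group `G` acts on the unit part through the diamond variables
  of the big Hecke ring;
* `kappa_emb_smul`, `piHom`, `piHom_mk`, `piHom_surjective`, `kappa_pr_actH`;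
* `act0Of e0 : T0 →ₐ[O] Matrix (Fin d) (Fin d) O`;
* `nonempty_heckeLevel`.
-/

set_option autoImplicit false
set_option linter.unusedSectionVars false
set_option linter.style.haveILetI false

open IsLocalRing

noncomputable section

namespace Fermat.Agent.M43.LevelAsm5

open Fermat.Agent.M43.ChainGrp5 Fermat.Agent.M43.PolyMod5 Fermat.Agent.M43.ChainMod5
  Fermat.Agent.M43.AlgStep5 Fermat.Agent.M43.AlgTower5 Fermat.Agent.M43.ChainTower5
  Fermat.Agent.M43.ChainUnit5 Fermat.Agent.M43.LocMod5 Fermat.Agent.M43.AlgLoc5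
  Fermat.Agent.M43.ChainMain5 Fermat.Agent.M43.GrpBasis5 Fermat.Agent.M43.AlgHecke5
  Fermat.Agent.M43.ChainLevel5 Fermat.Agent.M43.LevelGrp5 Fermat.Agent.M43.Iface2
  Fermat.Agent.M43.ConvMat2

variable {N : ℕ} [NeZero N] {O : Type} [CommRing O] [IsDomain O] [IsDiscreteValuationRing O]
  [IsAdicComplete (maximalIdeal O) O] [CharZero O] {F : Frame N} (θ : F.ι → ResidueField O)

/-! ### the group acts through the diamond variables -/

section Ops

variable (F) {G : Type} [CommGroup G] [Fintype G] (ψ : G →* (ZMod N)ˣ ⧸ F.c.sub F.s)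

theorem repG_eq_smul {u : G} {d : (ZMod N)ˣ} (h : ψ u = QuotientGroup.mk d) (y : L1 θ F.s) :
    repG F θ ψ u y = (MvPolynomial.X (Sum.inr d) : Hk O F) • y := by
  rw [repG_apply, diaG_of_mk F ψ h]
  have key : mapEnd (S1 θ) (f1 θ F.s) (F.dia O F.s d) =
      (LinearMap.lsmul (Hk O F) (L1 θ F.s) (MvPolynomial.X (Sum.inr d))) := by
    apply IsLocalizedModule.ext (S1 θ) (f1 θ F.s)
      (IsLocalizedModule.map_units (S := S1 θ) (f1 θ F.s))
    apply LinearMap.ext
    intro x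
    rw [LinearMap.comp_apply, LinearMap.comp_apply, mapEnd_apply, LinearMap.lsmul_apply,
      ← map_smul]
    congr 1
    obtain ⟨φ, rfl⟩ := (PolyMod.of _ _).surjective x
    rw [F.X_smul_of]
    rfl
  rw [key, LinearMap.lsmul_apply]

theorem repH_eq_smul {u : G} {d : (ZMod N)ˣ} (h : ψ u = QuotientGroup.mk d) (w : Hn θ) :
    repH F θ ψ u w = (MvPolynomial.X (Sum.inr d) : Hk O F) • w := by
  apply Subtype.ext
  rw [coe_repH, repG_eq_smul F θ ψ h]
  rfl

end Ops

/-! ### the map to the level-`0` Hecke algebra -/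

section Pi

variable {T0 : Type} [CommRing T0] [Algebra O T0] {M0 : Type} [AddCommGroup M0] [Module O M0]
  [Module T0 M0] [IsScalarTower O T0 M0]
  (tl : F.ι → T0) (κ : H0 θ ≃ₗ[O] M0)
  (hκ : ∀ (i : F.ι) (y : H0 θ),
    κ ((MvPolynomial.X (Sum.inl (some i)) : Hk O F) • y) = tl i • κ y)

include hκ in
/-- the control isomorphism is equivariant for the whole trace Hecke ring. -/
theorem kappa_emb_smul (s : Hk0 O F) (y : H0 θ) :
    κ (emb O F s • y) = MvPolynomial.aeval tl s • κ y := by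
  induction s using MvPolynomial.induction_on generalizing y with
  | C a =>
    rw [emb, MvPolynomial.algHom_C, MvPolynomial.algHom_C, MvPolynomial.algebraMap_eq,
      ← MvPolynomial.algebraMap_eq, algebraMap_smul, map_smul, algebraMap_smul]
  | add f g hf hg => rw [map_add, map_add, add_smul, add_smul, map_add, hf, hg]
  | mul_X f i hf =>
    rw [map_mul, map_mul, mul_smul, mul_smul, hf, emb, MvPolynomial.rename_X, hκ,
      MvPolynomial.aeval_X]

variable (hfaith : ∀ t : T0, (∀ z : M0, t • z = 0) → t = 0)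
  (pr : Hn θ →ₗ[O] H0 θ) (hprs : Function.Surjective pr)
  (hpra : ∀ (a : Hk O F) (w : Hn θ), pr (a • w) = a • pr w)

include hκ hfaith hprs hpra in
theorem aeval_eq_zero_of_mem_annL (s : Hk0 O F) (hs : s ∈ annL O (Hk0 O F) (HnMod θ)) :
    MvPolynomial.aeval tl s = 0 := by
  apply hfaith
  intro z
  obtain ⟨y, rfl⟩ := κ.surjective z
  obtain ⟨w, rfl⟩ := hprs y
  rw [← kappa_emb_smul θ tl κ hκ, ← hpra]
  have h0 : emb O F s • w = 0 := by
    have := (mem_annL O (Hk0 O F) (HnMod θ) s).mp hs (PolyMod.of (tauH θ) (tauH_comm θ) w)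
    rw [smul_of] at this
    exact (PolyMod.of (tauH θ) (tauH_comm θ)).injective (this.trans (map_zero _).symm)
  rw [h0, map_zero, map_zero]

/-- **the map `π : A_n → T0`**, `X_i ↦ tl i`. -/
def piHom : An θ →ₐ[O] T0 :=
  Ideal.Quotient.liftₐ (annL O (Hk0 O F) (HnMod θ)) (MvPolynomial.aeval tl)
    (aeval_eq_zero_of_mem_annL θ tl κ hκ hfaith pr hprs hpra)

theorem piHom_mk (s : Hk0 O F) :
    piHom θ tl κ hκ hfaith pr hprs hpra (Ideal.Quotient.mk _ s) = MvPolynomial.aeval tl s := rfl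

theorem piHom_surjective (htl : Algebra.adjoin O (Set.range tl) = ⊤) :
    Function.Surjective (piHom θ tl κ hκ hfaith pr hprs hpra) := by
  rw [← AlgHom.range_eq_top, eq_top_iff, ← htl, Algebra.adjoin_le_iff]
  rintro _ ⟨i, rfl⟩
  exact ⟨Ideal.Quotient.mk _ (MvPolynomial.X i),
    (piHom_mk θ tl κ hκ hfaith pr hprs hpra (MvPolynomial.X i)).trans (MvPolynomial.aeval_X tl i)⟩

/-- **control**: `κ ∘ pr` intertwines the action of `A_n` on the unit part with the action of `T0`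
through `π`. -/
theorem kappa_pr_actH (a : An θ) (w : Hn θ) :
    κ (pr (actH θ a w)) = piHom θ tl κ hκ hfaith pr hprs hpra a • κ (pr w) := by
  obtain ⟨s, rfl⟩ := Ideal.Quotient.mk_surjective a
  rw [actH_mk, hpra, kappa_emb_smul θ tl κ hκ, piHom_mk]

end Pi

/-! ### the level-`0` action in matrix form, the augmentation -/

section Act0

variable {T0 : Type} [CommRing T0] [Algebra O T0] {M0 : Type} [AddCommGroup M0] [Module O M0]
  [Module T0 M0] [IsScalarTower O T0 M0] {d : ℕ}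

/-- the matrices of the action of `T0` on `M0` in the basis `e0`. -/
def act0Of (e0 : Module.Basis (Fin d) O M0) : T0 →ₐ[O] Matrix (Fin d) (Fin d) O :=
  ((LinearMap.toMatrixAlgEquiv e0 : Module.End O M0 ≃ₐ[O] Matrix (Fin d) (Fin d) O) :
    Module.End O M0 →ₐ[O] Matrix (Fin d) (Fin d) O).comp (Algebra.lsmul O O M0)

theorem act0Of_apply (e0 : Module.Basis (Fin d) O M0) (t : T0) :
    act0Of e0 t = LinearMap.toMatrix e0 e0 (Algebra.lsmul O O M0 t) := rfl

/-- the augmentation of `𝒪[Δ_Z × Δ_n]` is the augmentation of `𝒪[Δ_n]` after the specialisation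
along the trivial character. -/
theorem augD_comp_spec (Z : Type) (r p n : ℕ) :
    (augD : MonoidAlgebra O (Dn r p n) →ₐ[O] O).comp (spec (1 : DZ Z p →* O)) =
      augG O (DZ Z p × Dn r p n) := by
  refine MonoidAlgebra.algHom_ext (fun g => ?_) (Subsingleton.elim _ _)
  rw [AlgHom.comp_apply, spec, augG, MonoidAlgebra.lift_single, one_smul,
    MonoidAlgebra.lift_single, one_smul, MonoidHom.one_apply, specHom, MonoidHom.mul_apply,
    MonoidHom.comp_apply, MonoidHom.comp_apply, MonoidHom.one_apply, map_mul]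
  simp [augD]

end Act0

/-! ### powers of the level-`0` module -/

section Fix

variable {T0 : Type} [CommRing T0] {Y : Type} [AddCommGroup Y] [Module T0 Y]

/-- a faithful module has faithful non-empty powers. -/
theorem pi_faithful (hY : ∀ t : T0, (∀ y : Y, t • y = 0) → t = 0) {k : ℕ} (hk : 0 < k)
    (t : T0) (ht : ∀ z : Fin k → Y, t • z = 0) : t = 0 := by
  apply hY
  intro y
  have := congrFun (ht (fun _ => y)) ⟨0, hk⟩
  exact this

variable [Module O Y]

/-- the basis of a power of a free module, indexed by `Fin (k * m)`. -/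
def piBasis {m : ℕ} (b : Module.Basis (Fin m) O Y) (k : ℕ) :
    Module.Basis (Fin (k * m)) O (Fin k → Y) :=
  ((Pi.basis (fun _ : Fin k => b)).reindex (Equiv.sigmaEquivProd (Fin k) (Fin m))).reindex
    finProdFinEquiv

end Fix

/-! ### the assembly -/

section Main

open CategoryTheory ExtCitation Polynomial
open Fermat.Agent.W56.Defs9 Fermat.Agent.M43.GlobFinal3 Fermat.Agent.M43.GlobTame3
  Fermat.Agent.PT.PRO Fermat.Agent.PT.BR

local notation "Γ" => (AlgebraicClosure ℚ ≃ₐ[ℚ] AlgebraicClosure ℚ)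

/-- **the Hecke side at level `n`: assembly** (general frame `F`, the group `Δ_Z × Δ_n` mapping to
`(ZMod N)ˣ ⧸ H_n` through `ψ`). -/
theorem nonempty_heckeLevel [Invertible (2 : O)] [Invertible (3 : O)] {p : ℕ} [Fact p.Prime]
    (hpO : (p : O) ∈ maximalIdeal O)
    (ρbar : ResidualGaloisRep (ResidueField O)) (T Zs : Finset ℕ)
    (s : ∀ q : Nat.Primes, ↥((primeLocalPlace q).inertiaSubgroupIn ℚ))
    -- the group data
    {n r : ℕ} (qv : Fin r → ℕ)
    (ψ : DZ ↥(primesOf Zs) p × Dn r p n →* (ZMod N)ˣ ⧸ F.c.sub F.s)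
    (hmp : ∀ i, ∃ k : ℕ, F.c.m i = p ^ k)
    (g : Fin F.s → DZ ↥(primesOf Zs) p × Dn r p n)
    (hψg : ∀ i, ψ (g i) = QuotientGroup.mk (F.c.d i))
    (hgen : Subgroup.closure (Set.range g) = ⊤)
    (hcard : Fintype.card (DZ ↥(primesOf Zs) p × Dn r p n) = ∏ i, F.c.m i)
    (dZ : ↥(primesOf Zs) → (ZMod N)ˣ) (dq : Fin r → (ZMod N)ˣ)
    (hψZ : ∀ z, ψ (gZ p z, 1) = QuotientGroup.mk (dZ z))
    (hψq : ∀ i, ψ (1, gn p n i) = QuotientGroup.mk (dq i))
    -- Chebotarev
    (i₀ : F.ι) (h₀ : ((F.ℓ i₀ : ℕ) : ZMod N) = 1) (hθ₀ : θ i₀ ≠ (F.ℓ i₀ : ResidueField O) + 1)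
    -- level `0`
    {T0 : Type} [CommRing T0] [IsLocalRing T0] [Algebra O T0] (ρ0 : GaloisRepAdic T0)
    {M0 : Type} [AddCommGroup M0] [Module O M0] [Module T0 M0] [IsScalarTower O T0 M0]
    {d : ℕ} (e0 : Module.Basis (Fin d) O M0)
    (hfaith : ∀ t : T0, (∀ z : M0, t • z = 0) → t = 0)
    (tl : F.ι → T0) (htl : Algebra.adjoin O (Set.range tl) = ⊤)
    (κ : H0 θ ≃ₗ[O] M0)
    (hκ : ∀ (i : F.ι) (y : H0 θ),
      κ ((MvPolynomial.X (Sum.inl (some i)) : Hk O F) • y) = tl i • κ y)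
    -- (6d)
    [IsLocalRing (An θ)] [IsLocalHom (algebraMap O (An θ))]
    (ρ : GaloisRepAdic (An θ))
    (hres : Function.Surjective (residue (An θ) ∘ algebraMap O (An θ)))
    (hlift : ρ.residual.IsEquiv (ρbar.baseChangeAlong
      (ResidueField.map (algebraMap O (An θ)))))
    (hD : ρ.DetIsCyclotomic p) (hflat : ρ.IsFlatAt p)
    (hU : ∀ q : ℕ, q.Prime → q ∉ T ∪ Finset.univ.image qv → ρ.IsUnramifiedAt q)
    (hunip : ∀ q ∈ T, q.Prime → q ≠ p → q ∉ Zs → ρ.IsUnipotentOnInertiaAt q)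
    (htr : Algebra.adjoin O (Set.range fun σ : Γ =>
      LinearMap.trace (An θ) ρ.V (ρ.ρ σ)) = ⊤)
    -- BRIDGE
    (hTW : ∀ i : Fin r, ∃ a : An θ, ∀ w : Hn θ, actH θ a w =
        (MvPolynomial.X (Sum.inr (dq i)) : Hk O F) • w +
        (MvPolynomial.X (Sum.inr (dq i)⁻¹) : Hk O F) • w)
    (hZ : ∀ z : ↥(primesOf Zs), ∀ w : Hn θ,
      actH θ (LinearMap.trace (An θ) ρ.V (ρ.ρ (s z.1 : Γ))) w =
        (MvPolynomial.X (Sum.inr (dZ z)) : Hk O F) • w +
        (MvPolynomial.X (Sum.inr (dZ z)⁻¹) : Hk O F) • w)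
    -- Carayol
    (hρ0 : ∀ (π : An θ →ₐ[O] T0) (hloc : IsLocalHom (π : An θ →+* T0)),
      (∀ i, π (Ideal.Quotient.mk _ (MvPolynomial.X i)) = tl i) →
        (ρ.baseChangeAlong (π : An θ →+* T0) hloc).IsEquiv ρ0) :
    Nonempty (HeckeLevel O p ρbar T Zs s d T0 ρ0 (act0Of e0) n qv) := by
  -- the module form
  obtain ⟨B, pr, hprs, hprinv, hpra, hprB⟩ :=
    exists_level F θ ψ (Fact.out : p.Prime) hpO hmp i₀ h₀ hθ₀ g hψg hgen hcard (e0.map κ.symm)
  -- the map to level `0`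
  let π : An θ →ₐ[O] T0 := piHom θ tl κ hκ hfaith pr hprs hpra
  have hπs : Function.Surjective π := piHom_surjective θ tl κ hκ hfaith pr hprs hpra htl
  have hπloc : IsLocalHom (π : An θ →+* T0) := IsLocalHom.of_surjective _ hπs
  have hπX : ∀ i, π (Ideal.Quotient.mk _ (MvPolynomial.X i)) = tl i := fun i =>
    (piHom_mk θ tl κ hκ hfaith pr hprs hpra (MvPolynomial.X i)).trans (MvPolynomial.aeval_X tl i)
  -- scalars
  have hscal : ∀ (a : An θ) (u : DZ ↥(primesOf Zs) p × Dn r p n) (dd : (ZMod N)ˣ),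
      ψ u = QuotientGroup.mk dd →
      (∀ w : Hn θ, actH θ a w = (MvPolynomial.X (Sum.inr dd) : Hk O F) • w +
        (MvPolynomial.X (Sum.inr dd⁻¹) : Hk O F) • w) →
      actOf B (actR F θ ψ) a = Matrix.scalar (Fin d)
        (MonoidAlgebra.of O _ u + MonoidAlgebra.of O _ u⁻¹) := by
    intro a u dd hu ha
    apply actOf_scalar
    intro m
    apply (repH F θ ψ).asModuleEquiv.injective
    have hu' : ψ u⁻¹ = QuotientGroup.mk dd⁻¹ := by rw [map_inv, hu]; rfl
    rw [asModuleEquiv_actR, Representation.asModuleEquiv_map_smul, map_add,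
      LinearMap.add_apply, MonoidAlgebra.of_apply, MonoidAlgebra.of_apply,
      Representation.asAlgebraHom_single, Representation.asAlgebraHom_single, one_smul, one_smul,
      repH_eq_smul F θ ψ hu, repH_eq_smul F θ ψ hu', ha]
  refine ⟨{
    A := An θ
    ρ := ρ
    hres := hres
    hlift := hlift
    hD := hD
    hflat := hflat
    hU := hU
    hunip := hunip
    htr := htr
    act := actOf B (actR F θ ψ)
    trTW := ?_
    trZ := ?_
    π := π
    hπ := hπs
    hπloc := hπloc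
    hρ0 := hρ0 π hπloc hπX
    ctrl := ?_ }⟩
  · intro i
    obtain ⟨a, ha⟩ := hTW i
    refine ⟨a, ?_⟩
    have := hscal a (1, gn p n i) (dq i) (hψq i) ha
    rw [this, Prod.inv_mk, inv_one]
  · intro z
    have := hscal _ (gZ p z, 1) (dZ z) (hψZ z) (hZ z)
    rw [this, Prod.inv_mk, inv_one]
  · intro a
    rw [AlgHom.mapMatrix_apply, Matrix.map_map, act0Of_apply]
    have haug : (⇑(augD : MonoidAlgebra O (Dn r p n) →ₐ[O] O) ∘
        ⇑(spec (1 : DZ ↥(primesOf Zs) p →* O))) =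
        ⇑(augG O (DZ ↥(primesOf Zs) p × Dn r p n)) := by
      rw [← augD_comp_spec]
      rfl
    rw [haug]
    let pr' : (repH F θ ψ).asModule →ₗ[O] M0 :=
      (κ.toLinearMap ∘ₗ pr) ∘ₗ (repH F θ ψ).asModuleEquiv.toLinearMap
    refine actOf_map_aug (augG O (DZ ↥(primesOf Zs) p × Dn r p n)) B e0 pr' ?_ ?_
      (actR F θ ψ) a (Algebra.lsmul O O M0 (π a)) ?_
    · intro z m
      exact map_smul_aug (repH F θ ψ) (κ.toLinearMap ∘ₗ pr)
        (fun g y => by
          show κ (pr (repH F θ ψ g y)) = κ (pr y)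
          rw [hprinv]) z m
    · intro i
      show κ (pr ((repH F θ ψ).asModuleEquiv (B i))) = e0 i
      rw [hprB, Module.Basis.map_apply, LinearEquiv.apply_symm_apply]
    · intro m
      show κ (pr ((repH F θ ψ).asModuleEquiv (actR F θ ψ a m))) =
        π a • κ (pr ((repH F θ ψ).asModuleEquiv m))
      rw [asModuleEquiv_actR]
      exact kappa_pr_actH θ tl κ hκ hfaith pr hprs hpra a _

/-- **the Hecke side at level `n`: assembly**, for the frame of `LevelGrp5` (the frame is a variable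
`F` with `hF : F = L.frame …`, to keep the types of the inputs light). -/
theorem nonempty_heckeLevel_lvl [Invertible (2 : O)] [Invertible (3 : O)] {p : ℕ} [Fact p.Prime]
    (hpO : (p : O) ∈ maximalIdeal O)
    (ρbar : ResidualGaloisRep (ResidueField O)) (T Zs : Finset ℕ)
    (s : ∀ q : Nat.Primes, ↥((primeLocalPlace q).inertiaSubgroupIn ℚ))
    {n r : ℕ} (qv : Fin r → ℕ) (L : Lvl N p n ↥(primesOf Zs) r)
    (ι : Type) (ℓ : ι → ℕ) (hℓ : ∀ i, (ℓ i).Prime) (hℓN : ∀ i, ¬ ℓ i ∣ N) (e : ℕ)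
    (F : Frame N) (hF : F = L.frame ι ℓ hℓ hℓN e)
    (θ : F.ι → ResidueField O)
    (i₀ : F.ι) (h₀ : ((F.ℓ i₀ : ℕ) : ZMod N) = 1) (hθ₀ : θ i₀ ≠ (F.ℓ i₀ : ResidueField O) + 1)
    {T0 : Type} [CommRing T0] [IsLocalRing T0] [Algebra O T0] (ρ0 : GaloisRepAdic T0)
    {M0 : Type} [AddCommGroup M0] [Module O M0] [Module T0 M0] [IsScalarTower O T0 M0]
    {d : ℕ} (e0 : Module.Basis (Fin d) O M0)
    (hfaith : ∀ t : T0, (∀ z : M0, t • z = 0) → t = 0)
    (tl : F.ι → T0) (htl : Algebra.adjoin O (Set.range tl) = ⊤)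
    (κ : H0 θ ≃ₗ[O] M0)
    (hκ : ∀ (i : F.ι) (y : H0 θ),
      κ ((MvPolynomial.X (Sum.inl (some i)) : Hk O F) • y) = tl i • κ y)
    [IsLocalRing (An θ)] [IsLocalHom (algebraMap O (An θ))]
    (ρ : GaloisRepAdic (An θ))
    (hres : Function.Surjective (residue (An θ) ∘ algebraMap O (An θ)))
    (hlift : ρ.residual.IsEquiv (ρbar.baseChangeAlong
      (ResidueField.map (algebraMap O (An θ)))))
    (hD : ρ.DetIsCyclotomic p) (hflat : ρ.IsFlatAt p)
    (hU : ∀ q : ℕ, q.Prime → q ∉ T ∪ Finset.univ.image qv → ρ.IsUnramifiedAt q)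
    (hunip : ∀ q ∈ T, q.Prime → q ≠ p → q ∉ Zs → ρ.IsUnipotentOnInertiaAt q)
    (htr : Algebra.adjoin O (Set.range fun σ : Γ =>
      LinearMap.trace (An θ) ρ.V (ρ.ρ σ)) = ⊤)
    (hTW : ∀ i : Fin r, ∃ a : An θ, ∀ w : Hn θ, actH θ a w =
        (MvPolynomial.X (Sum.inr (L.d (Sum.inr i))) : Hk O F) • w +
        (MvPolynomial.X (Sum.inr (L.d (Sum.inr i))⁻¹) : Hk O F) • w)
    (hZ : ∀ z : ↥(primesOf Zs), ∀ w : Hn θ,
      actH θ (LinearMap.trace (An θ) ρ.V (ρ.ρ (s z.1 : Γ))) w =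
        (MvPolynomial.X (Sum.inr (L.d (Sum.inl z))) : Hk O F) • w +
        (MvPolynomial.X (Sum.inr (L.d (Sum.inl z))⁻¹) : Hk O F) • w)
    (hρ0 : ∀ (π : An θ →ₐ[O] T0) (hloc : IsLocalHom (π : An θ →+* T0)),
      (∀ i, π (Ideal.Quotient.mk _ (MvPolynomial.X i)) = tl i) →
        (ρ.baseChangeAlong (π : An θ →+* T0) hloc).IsEquiv ρ0) :
    Nonempty (HeckeLevel O p ρbar T Zs s d T0 ρ0 (act0Of e0) n qv) := by
  subst hF
  exact nonempty_heckeLevel θ hpO ρbar T Zs s qv L.psi (L.exists_pow p n)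
    (fun i => Lvl.g p n (en ↥(primesOf Zs) r i)) (fun i => L.psi_g_en i)
    (closure_g_en p n) (card_G_eq p n L) (fun z => L.d (Sum.inl z)) (fun i => L.d (Sum.inr i))
    L.psi_gZ L.psi_gn i₀ h₀ hθ₀ ρ0 e0 hfaith tl htl κ hκ ρ hres hlift hD hflat hU hunip htr hTW hZ
    hρ0

/-- the unit part of the top level is non-zero as soon as the unit part of the bottom level has a
non-empty basis. -/
theorem nontrivial_Hn_lvl [Invertible (2 : O)] [Invertible (3 : O)] {p : ℕ} [Fact p.Prime]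
    (hpO : (p : O) ∈ maximalIdeal O) {Z : Type} [Fintype Z] [DecidableEq Z]
    {n r : ℕ} (L : Lvl N p n Z r)
    (ι : Type) (ℓ : ι → ℕ) (hℓ : ∀ i, (ℓ i).Prime) (hℓN : ∀ i, ¬ ℓ i ∣ N) (e : ℕ)
    (F : Frame N) (hF : F = L.frame ι ℓ hℓ hℓN e)
    (θ : F.ι → ResidueField O)
    (i₀ : F.ι) (h₀ : ((F.ℓ i₀ : ℕ) : ZMod N) = 1) (hθ₀ : θ i₀ ≠ (F.ℓ i₀ : ResidueField O) + 1)
    {k : ℕ} (hk : 0 < k) (b : Module.Basis (Fin k) O (H0 θ)) : Nontrivial (Hn θ) := by
  subst hF
  obtain ⟨B, pr, hprs, -, -, hprB⟩ :=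
    exists_level (L.frame ι ℓ hℓ hℓN e) θ L.psi (Fact.out : p.Prime) hpO (L.exists_pow p n)
      i₀ h₀ hθ₀ (fun i => Lvl.g p n (en Z r i)) (fun i => L.psi_g_en i)
      (closure_g_en p n) (card_G_eq p n L) b
  have h1 : b ⟨0, hk⟩ ≠ 0 := b.ne_zero _
  refine ⟨⟨(repH (L.frame ι ℓ hℓ hℓN e) θ L.psi).asModuleEquiv (B ⟨0, hk⟩), 0, fun h => h1 ?_⟩⟩
  rw [← hprB, h, map_zero]

end Main

end Fermat.Agent.M43.LevelAsm5
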