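import Mathlib
import Fermat.Agent.M43.LevelAsm5
import Fermat.Agent.M43.LevelSetup5
import Fermat.Agent.M43.CtrlMain0
import Fermat.Agent.M43.HeckeFaithL1
import Fermat.Agent.M43.HeckeBase1
import Fermat.Agent.M43.HeckeCheb1

/-!
# M43 / Hecke side: the fixed level-`0` objects and the reduction of `HeckeLevel` to (6d) + BRIDGE

Top frame: `p`, `N0`, `S ⊇ {p} ∪ primes(N0)`, `O`, `θ : heckeAlgebra N0 2 S →+* k`, `ρbar`.

* `M0 r := Fin (2 ^ r) → CtrlMod0.Y0L N0 S hNS O θ`, `d0 r`, `e0 r`, `act0 r`, `d0_pos`,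
  `faithful_M0` : **the fixed objects** (`d`, `act0` of `TopMain2.HeckeSideStmt`);
* `thetaF D`, `tlF D` : the residual eigensystem and the level-`0` Hecke operators of the frame
  `D.frame` of a `LevelSetup5.Setup`;
* `exists_cheb` : the Chebotarev prime, as an index of the frame;
* `heckeLevel_of_rep` : **the reduction**: a representation over `An (thetaF D)` with the local
  properties ((6d)), the traces of the inertia elements `D.sig a` acting as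
  `⟨D.d a⟩ + ⟨D.d a⟩⁻¹` (BRIDGE) and Carayol's uniqueness give
  `Nonempty (Iface2.HeckeLevel O p ρbar T (Zs N0) D.s (d0 r) (TLoc N0 S O θ) ρ0 (act0 r) n D.qv)`.
-/

set_option autoImplicit false
set_option linter.unusedSectionVars false
set_option linter.unusedVariables false
set_option linter.style.haveILetI false

open IsLocalRing CuspForm Polynomial

noncomputable section

namespace Fermat.Agent.M43.LevelTop5

open CategoryTheory ExtCitation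
open Fermat.Agent.M43.ChainGrp5 Fermat.Agent.M43.PolyMod5 Fermat.Agent.M43.ChainMod5
  Fermat.Agent.M43.ChainMain5 Fermat.Agent.M43.AlgHecke5 Fermat.Agent.M43.ChainLevel5
  Fermat.Agent.M43.LevelGrp5 Fermat.Agent.M43.LevelAsm5 Fermat.Agent.M43.LevelSetup5
  Fermat.Agent.M43.Iface2 Fermat.Agent.M43.CtrlMod0 Fermat.Agent.M43.DatumAlg3
  Fermat.Agent.M43.HeckeBridge1 Fermat.Agent.M43.HeckePoly1
  Fermat.Agent.W56.Defs9 Fermat.Agent.M43.GlobFinal3 Fermat.Agent.M43.GlobTame3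
  Fermat.Agent.PT.PRO Fermat.Agent.PT.BR

local notation "Γ" => (AlgebraicClosure ℚ ≃ₐ[ℚ] AlgebraicClosure ℚ)
local notation "Qbar" => AlgebraicClosure ℚ

variable (p : ℕ) [hp : Fact p.Prime] (N0 : ℕ) [NeZero N0] (S : Finset ℕ)
  (hNS : ∀ q : ℕ, q.Prime → q ∣ N0 → q ∈ (↑S : Set ℕ))
  (O : Type) [CommRing O] [IsDomain O] [IsDiscreteValuationRing O]
  [IsAdicComplete (maximalIdeal O) O] [Finite (ResidueField O)] [CharZero O]
  [CharP (ResidueField O) p]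
  (θ : heckeAlgebra N0 2 (↑S : Set ℕ) →+* ResidueField O)

/-! ### the fixed objects -/

/-- the fixed level-`0` module. -/
abbrev M0 (r : ℕ) : Type := Fin (2 ^ r) → Y0L N0 S hNS O θ

/-- the rank. -/
def d0 (r : ℕ) : ℕ := 2 ^ r * Module.finrank O (Y0L N0 S hNS O θ)

/-- the basis of the fixed module. -/
def e0 (r : ℕ) : Module.Basis (Fin (d0 N0 S hNS O θ r)) O (M0 N0 S hNS O θ r) :=
  piBasis (Module.finBasis O (Y0L N0 S hNS O θ)) (2 ^ r)

/-- **the action of the level-`0` Hecke algebra in matrix form.** -/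
def act0 (r : ℕ) :
    TLoc N0 S O θ →ₐ[O] Matrix (Fin (d0 N0 S hNS O θ r)) (Fin (d0 N0 S hNS O θ r)) O :=
  act0Of (e0 N0 S hNS O θ r)

theorem faithful_M0 (r : ℕ) (t : TLoc N0 S O θ) (ht : ∀ z : M0 N0 S hNS O θ r, t • z = 0) :
    t = 0 :=
  pi_faithful (HeckeFaithL1.faithful_Y0L N0 S hNS O θ) (Nat.pos_of_ne_zero (by positivity)) t ht

theorem d0_pos (r : ℕ) : 0 < d0 N0 S hNS O θ r := by
  haveI : Nontrivial (Y0L N0 S hNS O θ) := by
    by_contra h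
    rw [not_nontrivial_iff_subsingleton] at h
    have : (1 : TLoc N0 S O θ) = 0 :=
      HeckeFaithL1.faithful_Y0L N0 S hNS O θ 1 (fun z => Subsingleton.elim _ _)
    exact one_ne_zero this
  exact Nat.mul_pos (by positivity) Module.finrank_pos

/-! ### the frame of a level -/

section Level

variable {p N0 S} {N : ℕ} [NeZero N] {n r : ℕ}

/-- the residual eigensystem of the frame. -/
def thetaF (D : Setup p N0 S N n r) : D.frame.ι → ResidueField O :=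
  fun i => tθ N0 S O θ (D.frame.ℓ i)

/-- the level-`0` Hecke operators of the frame. -/
def tlF (D : Setup p N0 S N n r) : D.frame.ι → TLoc N0 S O θ :=
  fun i => algebraMap (BB N0 S O) (TLoc N0 S O θ) (tB N0 S O (D.frame.ℓ i))

include hNS in
/-- **the Chebotarev prime of the frame.** -/
theorem exists_cheb (ρbar : ResidualGaloisRep (ResidueField O))
    (habs : ρbar.IsAbsolutelyIrreducible)
    (hdet : (GaloisRepAdic.ofResidualGaloisRep ρbar).DetIsCyclotomic p)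
    (hθ : ∀ (ℓ : ℕ) (hℓ : ℓ.Prime) (hℓN : ¬ ℓ ∣ N0) (hℓS : ℓ ∉ (↑S : Set ℕ)),
      ∀ P : ValuationSubring Qbar, P.LiesOverPrime ℓ → ∀ φ : Γ, P.IsFrobeniusAt φ ℓ →
        LinearMap.charpoly (ρbar.ρ φ) =
          X ^ 2 - C (θ (heckeAlgebra.T hℓ hℓN hℓS)) * X + C ((ℓ : ResidueField O)))
    (D : Setup p N0 S N n r) :
    ∃ i₀ : D.frame.ι, ((D.frame.ℓ i₀ : ℕ) : ZMod N) = 1 ∧
      thetaF O θ D i₀ ≠ (D.frame.ℓ i₀ : ResidueField O) + 1 := by
  classical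
  obtain ⟨ℓ₀, hℓ₀, hS', h1, htr⟩ := HeckeCheb1.exists_cheb_prime p ρbar habs hdet N
    (Nat.pos_of_ne_zero (NeZero.ne N)) (S ∪ Finset.univ.image D.qv)
  have hS : ℓ₀ ∉ S := fun h => hS' (Finset.mem_union_left _ h)
  have hq : ∀ i, D.qv i ≠ ℓ₀ := fun i h =>
    hS' (Finset.mem_union_right _ (Finset.mem_image.mpr ⟨i, Finset.mem_univ i, h⟩))
  have hℓN : ¬ ℓ₀ ∣ N0 := fun h => hS (by simpa using hNS ℓ₀ hℓ₀ h)
  have hℓS : ℓ₀ ∉ (↑S : Set ℕ) := by simpa using hS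
  refine ⟨⟨ℓ₀, hℓ₀, hS, hq⟩, h1, ?_⟩
  show tθ N0 S O θ ℓ₀ ≠ (ℓ₀ : ResidueField O) + 1
  rw [tθ_eq N0 S O θ hℓ₀ hℓN hℓS]
  obtain ⟨P, φ, hP, hφ⟩ := Fermat.Agent.Lib.exists_isFrobeniusAt ℓ₀ hℓ₀
  have hcp := hθ ℓ₀ hℓ₀ hℓN hℓS P hP φ hφ
  rw [HeckeCheb1.charpoly_two ρbar.finrank_eq] at hcp
  have h2 : LinearMap.trace (ResidueField O) ρbar.V (ρbar.ρ φ) =
      θ (heckeAlgebra.T hℓ₀ hℓN hℓS) := by
    have := congrArg (fun f => Polynomial.coeff f 1) hcp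
    simp only [coeff_add, coeff_sub, coeff_X_pow, coeff_C, coeff_mul_X] at this
    norm_num at this
    exact this
  rw [← h2]
  exact htr P hP φ hφ

include hNS in
/-- the unit part of the top level of the frame is non-zero. -/
theorem nontrivial_Hn [Invertible (2 : O)] [Invertible (3 : O)] (hp2 : p ≠ 2)
    (hpO : (p : O) ∈ maximalIdeal O) (hpS : p ∈ S)
    (ρbar : ResidualGaloisRep (ResidueField O))
    (habs : ρbar.IsAbsolutelyIrreducible)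
    (hdet : (GaloisRepAdic.ofResidualGaloisRep ρbar).DetIsCyclotomic p)
    (hθ : ∀ (ℓ : ℕ) (hℓ : ℓ.Prime) (hℓN : ¬ ℓ ∣ N0) (hℓS : ℓ ∉ (↑S : Set ℕ)),
      ∀ P : ValuationSubring Qbar, P.LiesOverPrime ℓ → ∀ φ : Γ, P.IsFrobeniusAt φ ℓ →
        LinearMap.charpoly (ρbar.ρ φ) =
          X ^ 2 - C (θ (heckeAlgebra.T hℓ hℓN hℓS)) * X + C ((ℓ : ResidueField O)))
    (D : Setup p N0 S N n r)
    (hTWθ : ∀ i, tθ N0 S O θ (D.qv i) ^ 2 ≠ ((D.qv i : ResidueField O) + 1) ^ 2) :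
    Nontrivial (Hn (thetaF O θ D)) := by
  obtain ⟨i₀, h₀, hθ₀⟩ := exists_cheb hNS O θ ρbar habs hdet hθ D
  obtain ⟨κ, -⟩ := CtrlMain0.exists_unit_equiv p N0 S O θ hp2 hpO hpS hNS ρbar habs hdet hθ
    D.frame D.frame_hN D.frame_qinj D.frame_qS D.frame_ℓS D.frame_cov hTWθ
  exact nontrivial_Hn_lvl hpO D.lvl (Setup.Good S D.qv) (fun ℓ => ℓ.1) (fun ℓ => ℓ.2.1)
    D.good_not_dvd D.e D.frame D.frame_eq (thetaF O θ D) i₀ h₀ hθ₀ (d0_pos N0 S hNS O θ r)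
    ((e0 N0 S hNS O θ r).map κ.symm)

include hNS in
/-- the Hecke algebra of level `(n, qv)` is local. -/
theorem isLocalRing_An [Invertible (2 : O)] [Invertible (3 : O)] (hp2 : p ≠ 2)
    (hpO : (p : O) ∈ maximalIdeal O) (hpS : p ∈ S)
    (ρbar : ResidualGaloisRep (ResidueField O))
    (habs : ρbar.IsAbsolutelyIrreducible)
    (hdet : (GaloisRepAdic.ofResidualGaloisRep ρbar).DetIsCyclotomic p)
    (hθ : ∀ (ℓ : ℕ) (hℓ : ℓ.Prime) (hℓN : ¬ ℓ ∣ N0) (hℓS : ℓ ∉ (↑S : Set ℕ)),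
      ∀ P : ValuationSubring Qbar, P.LiesOverPrime ℓ → ∀ φ : Γ, P.IsFrobeniusAt φ ℓ →
        LinearMap.charpoly (ρbar.ρ φ) =
          X ^ 2 - C (θ (heckeAlgebra.T hℓ hℓN hℓS)) * X + C ((ℓ : ResidueField O)))
    (D : Setup p N0 S N n r)
    (hTWθ : ∀ i, tθ N0 S O θ (D.qv i) ^ 2 ≠ ((D.qv i : ResidueField O) + 1) ^ 2) :
    IsLocalRing (An (thetaF O θ D)) := by
  haveI := nontrivial_Hn hNS O θ hp2 hpO hpS ρbar habs hdet hθ D hTWθ
  exact ChainLevel5.isLocalRing_An (thetaF O θ D)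

include hNS in
/-- the structure map of the Hecke algebra of level `(n, qv)` is local. -/
theorem isLocalHom_An [Invertible (2 : O)] [Invertible (3 : O)] (hp2 : p ≠ 2)
    (hpO : (p : O) ∈ maximalIdeal O) (hpS : p ∈ S)
    (ρbar : ResidualGaloisRep (ResidueField O))
    (habs : ρbar.IsAbsolutelyIrreducible)
    (hdet : (GaloisRepAdic.ofResidualGaloisRep ρbar).DetIsCyclotomic p)
    (hθ : ∀ (ℓ : ℕ) (hℓ : ℓ.Prime) (hℓN : ¬ ℓ ∣ N0) (hℓS : ℓ ∉ (↑S : Set ℕ)),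
      ∀ P : ValuationSubring Qbar, P.LiesOverPrime ℓ → ∀ φ : Γ, P.IsFrobeniusAt φ ℓ →
        LinearMap.charpoly (ρbar.ρ φ) =
          X ^ 2 - C (θ (heckeAlgebra.T hℓ hℓN hℓS)) * X + C ((ℓ : ResidueField O)))
    (D : Setup p N0 S N n r)
    (hTWθ : ∀ i, tθ N0 S O θ (D.qv i) ^ 2 ≠ ((D.qv i : ResidueField O) + 1) ^ 2)
    [IsLocalRing (An (thetaF O θ D))] :
    IsLocalHom (algebraMap O (An (thetaF O θ D))) := by
  haveI := nontrivial_Hn hNS O θ hp2 hpO hpS ρbar habs hdet hθ D hTWθ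
  exact ChainLevel5.isLocalHom_An (thetaF O θ D)

/-- **the reduction of the Hecke side at level `(n, qv)` to (6d) + BRIDGE + Carayol.** -/
theorem heckeLevel_of_rep [Invertible (2 : O)] [Invertible (3 : O)] (hp2 : p ≠ 2)
    (hpO : (p : O) ∈ maximalIdeal O) (hpS : p ∈ S)
    (ρbar : ResidualGaloisRep (ResidueField O))
    (habs : ρbar.IsAbsolutelyIrreducible)
    (hdet : (GaloisRepAdic.ofResidualGaloisRep ρbar).DetIsCyclotomic p)
    (hθ : ∀ (ℓ : ℕ) (hℓ : ℓ.Prime) (hℓN : ¬ ℓ ∣ N0) (hℓS : ℓ ∉ (↑S : Set ℕ)),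
      ∀ P : ValuationSubring Qbar, P.LiesOverPrime ℓ → ∀ φ : Γ, P.IsFrobeniusAt φ ℓ →
        LinearMap.charpoly (ρbar.ρ φ) =
          X ^ 2 - C (θ (heckeAlgebra.T hℓ hℓN hℓS)) * X + C ((ℓ : ResidueField O)))
    (Tt : Finset ℕ) (D : Setup p N0 S N n r)
    (hTWθ : ∀ i, tθ N0 S O θ (D.qv i) ^ 2 ≠ ((D.qv i : ResidueField O) + 1) ^ 2)
    (ρ0 : GaloisRepAdic (TLoc N0 S O θ))
    -- (6d)
    [IsLocalRing (An (thetaF O θ D))] [IsLocalHom (algebraMap O (An (thetaF O θ D)))]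
    (ρ : GaloisRepAdic (An (thetaF O θ D)))
    (hres : Function.Surjective (residue (An (thetaF O θ D)) ∘ algebraMap O (An (thetaF O θ D))))
    (hlift : ρ.residual.IsEquiv (ρbar.baseChangeAlong
      (ResidueField.map (algebraMap O (An (thetaF O θ D))))))
    (hD : ρ.DetIsCyclotomic p) (hflat : ρ.IsFlatAt p)
    (hU : ∀ q : ℕ, q.Prime → q ∉ Tt ∪ Finset.univ.image D.qv → ρ.IsUnramifiedAt q)
    (hunip : ∀ q ∈ Tt, q.Prime → q ≠ p → q ∉ Zs N0 → ρ.IsUnipotentOnInertiaAt q)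
    (htr : Algebra.adjoin O (Set.range fun σ : Γ =>
      LinearMap.trace (An (thetaF O θ D)) ρ.V (ρ.ρ σ)) = ⊤)
    -- BRIDGE
    (hTW : ∀ i : Fin r, ∃ a : An (thetaF O θ D), ∀ w : Hn (thetaF O θ D),
      actH (thetaF O θ D) a w =
        (MvPolynomial.X (Sum.inr (D.d (Sum.inr i))) : Hk O D.frame) • w +
        (MvPolynomial.X (Sum.inr (D.d (Sum.inr i))⁻¹) : Hk O D.frame) • w)
    (hZ : ∀ z : ↥(primesOf (Zs N0)), ∀ w : Hn (thetaF O θ D),
      actH (thetaF O θ D)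
        (LinearMap.trace (An (thetaF O θ D)) ρ.V (ρ.ρ (D.s z.1 : Γ))) w =
        (MvPolynomial.X (Sum.inr (D.d (Sum.inl z))) : Hk O D.frame) • w +
        (MvPolynomial.X (Sum.inr (D.d (Sum.inl z))⁻¹) : Hk O D.frame) • w)
    -- Carayol
    (hρ0 : ∀ (π : An (thetaF O θ D) →ₐ[O] TLoc N0 S O θ)
      (hloc : IsLocalHom (π : An (thetaF O θ D) →+* TLoc N0 S O θ)),
      (∀ i, π (Ideal.Quotient.mk _ (MvPolynomial.X i)) = tlF O θ D i) →
        (ρ.baseChangeAlong (π : An (thetaF O θ D) →+* TLoc N0 S O θ) hloc).IsEquiv ρ0) :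
    Nonempty (HeckeLevel O p ρbar Tt (Zs N0) D.s (d0 N0 S hNS O θ r) (TLoc N0 S O θ) ρ0
      (act0 N0 S hNS O θ r) n D.qv) := by
  obtain ⟨i₀, h₀, hθ₀⟩ := exists_cheb hNS O θ ρbar habs hdet hθ D
  obtain ⟨κ, hκ⟩ := CtrlMain0.exists_unit_equiv p N0 S O θ hp2 hpO hpS hNS ρbar habs hdet hθ
    D.frame D.frame_hN D.frame_qinj D.frame_qS D.frame_ℓS D.frame_cov hTWθ
  have htl : Algebra.adjoin O (Set.range (tlF O θ D)) = ⊤ :=
    HeckeBase1.adjoin_range_tl p N0 S hNS O θ D.frame.ℓ hp2 hpO hpS ρbar habs hdet hθ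
      (Finset.univ.image D.qv) (fun ℓ' hℓ' hS hQ => D.frame_cov ℓ' hℓ' hS (fun i h =>
        hQ (Finset.mem_image.mpr ⟨i, Finset.mem_univ i, h⟩)))
  exact nonempty_heckeLevel_lvl hpO ρbar Tt (Zs N0) D.s D.qv D.lvl (Setup.Good S D.qv)
    (fun ℓ => ℓ.1) (fun ℓ => ℓ.2.1) D.good_not_dvd D.e D.frame D.frame_eq (thetaF O θ D)
    i₀ h₀ hθ₀ ρ0 (e0 N0 S hNS O θ r) (faithful_M0 N0 S hNS O θ r) (tlF O θ D) htl κ hκ
    ρ hres hlift hD hflat hU hunip htr hTW hZ hρ0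

end Level

end Fermat.Agent.M43.LevelTop5
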