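import Mathlib
import Fermat.Agent.M43.LevelTop5
import Fermat.Agent.M43.HeckeTW1

/-!
# M43 / Hecke side: wiring lemmas for the final assembly of `TopMain2.HeckeSideStmt`

* `Setup.ofTop` : the `LevelSetup5.Setup` of the binders of `HeckeSideStmt` (the inertia elements
  `τ i` at the Taylor–Wiles primes are chosen by `LevelSetup5.exists_tau`); `ofTop_qv`, `ofTop_s` (rfl);
* `charpoly_thetaF` : the Frobenius charpolys of `ρbar` in terms of `thetaF` (the hypothesis `hθ` of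
  (6d) for the frame);
* `tθ_sq_ne_setup` : the hypothesis `hTWθ` of `LevelTop5.heckeLevel_of_rep`;
* `tlF_eq` : `tlF D i = piT (T_{ℓ i})`.
-/

set_option autoImplicit false
set_option linter.unusedSectionVars false
set_option linter.unusedVariables false
set_option linter.style.haveILetI false

open IsLocalRing CuspForm Polynomial

noncomputable section

namespace Fermat.Agent.M43.LevelWire5

open CategoryTheory ExtCitation
open Fermat.Agent.M43.ChainMod5 Fermat.Agent.M43.ChainMain5 Fermat.Agent.M43.ChainLevel5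
  Fermat.Agent.M43.LevelGrp5 Fermat.Agent.M43.LevelSetup5 Fermat.Agent.M43.LevelTop5
  Fermat.Agent.M43.DatumAlg3 Fermat.Agent.M43.HeckeBridge1 Fermat.Agent.M43.HeckePoly1
  Fermat.Agent.M48.DirCharGal8
  Fermat.Agent.W56.Defs9 Fermat.Agent.M43.GlobTame3 Fermat.Agent.PT.PRO Fermat.Agent.PT.BR

local notation "Γ" => (AlgebraicClosure ℚ ≃ₐ[ℚ] AlgebraicClosure ℚ)
local notation "Qbar" => AlgebraicClosure ℚ

/-! ### the setup of the top frame -/

section OfTop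

variable {p N0 : ℕ} (S : Finset ℕ) {N : ℕ} [NeZero N] {n r : ℕ} (qv : Fin r → ℕ)
  (hN : N = N0 * ∏ i, qv i) (hp : p.Prime) (hp2 : p ≠ 2) (hsq : Squarefree N0)
  (hNS : ∀ q : ℕ, q.Prime → q ∣ N0 → q ∈ S)
  (hZ1 : ∀ q ∈ primesOf (Zs N0), p ∣ (q : ℕ) - 1)
  (qinj : Function.Injective qv)
  (hqv : ∀ i, (qv i).Prime ∧ qv i ∉ S ∧ p ^ (n + 1) ∣ qv i - 1)
  (s : ∀ q : Nat.Primes, ↥((primeLocalPlace q).inertiaSubgroupIn ℚ))
  (hs : ∀ q ∈ primesOf (Zs N0), ∀ {H : Type} [Group H]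
    (f : ↥((primeLocalPlace q).inertiaSubgroupIn ℚ) →* H), ContI f →
      (∀ σ, ∃ a : ℕ, f σ ^ p ^ a = 1) → ∀ σ, f σ ∈ Subgroup.zpowers (f (s q)))

include hN in
theorem qv_dvd (i : Fin r) : qv i ∣ N :=
  (Dvd.dvd.mul_left (Finset.dvd_prod_of_mem qv (Finset.mem_univ i)) N0).trans
    (dvd_of_eq hN.symm)

/-- **the setup of the binders of `HeckeSideStmt`.** -/
def ofTop : Setup p N0 S N n r where
  qv := qv
  hN := hN
  hp := hp
  hp2 := hp2
  hsq := hsq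
  hNS := hNS
  hZ1 := hZ1
  qinj := qinj
  qprime := fun i => (hqv i).1
  qS := fun i => (hqv i).2.1
  qdvd := fun i => (hqv i).2.2
  s := s
  hs := hs
  τ := fun i => Classical.choose (exists_tau (N := N) (hqv i).1 (qv_dvd qv hN i))
  hτ := fun i => (Classical.choose_spec (exists_tau (N := N) (hqv i).1 (qv_dvd qv hN i))).1
  hτgen := fun i _ x =>
    (Classical.choose_spec (exists_tau (N := N) (hqv i).1 (qv_dvd qv hN i))).2 x

@[simp] theorem ofTop_qv : (ofTop S qv hN hp hp2 hsq hNS hZ1 qinj hqv s hs).qv = qv := rfl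

@[simp] theorem ofTop_s : (ofTop S qv hN hp hp2 hsq hNS hZ1 qinj hqv s hs).s = s := rfl

end OfTop

/-! ### the hypotheses on `θ` for the frame -/

section Theta

variable (p : ℕ) [hp : Fact p.Prime] (N0 : ℕ) [NeZero N0] (S : Finset ℕ)
  (hNS : ∀ q : ℕ, q.Prime → q ∣ N0 → q ∈ (↑S : Set ℕ))
  (O : Type) [CommRing O] [IsDomain O] [IsDiscreteValuationRing O]
  [IsAdicComplete (maximalIdeal O) O] [Finite (ResidueField O)] [CharZero O]
  [CharP (ResidueField O) p]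
  (θ : heckeAlgebra N0 2 (↑S : Set ℕ) →+* ResidueField O)
  {N : ℕ} [NeZero N] {n r : ℕ}

theorem frame_not_dvd_N0 (D : Setup p N0 S N n r) (i : D.frame.ι) : ¬ D.frame.ℓ i ∣ N0 :=
  fun h => i.2.2.1 (D.hNS _ i.2.1 h)

theorem frame_not_mem (D : Setup p N0 S N n r) (i : D.frame.ι) :
    D.frame.ℓ i ∉ (↑S : Set ℕ) :=
  fun h => i.2.2.1 (Finset.mem_coe.mp h)

theorem thetaF_eq (D : Setup p N0 S N n r) (i : D.frame.ι) :
    thetaF O θ D i = θ (heckeAlgebra.T (D.frame.prime i) (frame_not_dvd_N0 p N0 S D i)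
      (frame_not_mem p N0 S D i)) :=
  tθ_eq N0 S O θ _ _ _

theorem tlF_eq (D : Setup p N0 S N n r) (i : D.frame.ι) :
    tlF O θ D i = piT N0 S O θ (heckeAlgebra.T (D.frame.prime i) (frame_not_dvd_N0 p N0 S D i)
      (frame_not_mem p N0 S D i)) :=
  HeckeBase1.tl_eq N0 S O θ D.frame.ℓ _ _ _

/-- **the Frobenius charpolys of `ρbar` in terms of `thetaF`.** -/
theorem charpoly_thetaF (ρbar : ResidualGaloisRep (ResidueField O))
    (hθ : ∀ (ℓ : ℕ) (hℓ : ℓ.Prime) (hℓN : ¬ ℓ ∣ N0) (hℓS : ℓ ∉ (↑S : Set ℕ)),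
      ∀ P : ValuationSubring Qbar, P.LiesOverPrime ℓ → ∀ φ : Γ, P.IsFrobeniusAt φ ℓ →
        LinearMap.charpoly (ρbar.ρ φ) =
          X ^ 2 - C (θ (heckeAlgebra.T hℓ hℓN hℓS)) * X + C ((ℓ : ResidueField O)))
    (D : Setup p N0 S N n r) (i : D.frame.ι) (P : ValuationSubring Qbar)
    (hP : P.LiesOverPrime (D.frame.ℓ i)) (φ : Γ) (hφ : P.IsFrobeniusAt φ (D.frame.ℓ i)) :
    LinearMap.charpoly (ρbar.ρ φ) =
      X ^ 2 - C (thetaF O θ D i) * X + C ((D.frame.ℓ i : ResidueField O)) := by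
  rw [thetaF_eq p N0 S O θ D i]
  exact hθ _ _ _ _ P hP φ hφ

/-- **the hypothesis `hTWθ`**: distinct Frobenius eigenvalues at the Taylor–Wiles primes. -/
theorem tθ_sq_ne_setup (ρbar : ResidualGaloisRep (ResidueField O))
    (hθ : ∀ (ℓ : ℕ) (hℓ : ℓ.Prime) (hℓN : ¬ ℓ ∣ N0) (hℓS : ℓ ∉ (↑S : Set ℕ)),
      ∀ P : ValuationSubring Qbar, P.LiesOverPrime ℓ → ∀ φ : Γ, P.IsFrobeniusAt φ ℓ →
        LinearMap.charpoly (ρbar.ρ φ) =
          X ^ 2 - C (θ (heckeAlgebra.T hℓ hℓN hℓS)) * X + C ((ℓ : ResidueField O)))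
    (D : Setup p N0 S N n r)
    (hTWq : ∀ i, ∀ P : ValuationSubring Qbar, P.LiesOverPrime (D.qv i) →
      ∀ φ : Γ, P.IsFrobeniusAt φ (D.qv i) →
        ∃ α β : ResidueField O, α ≠ β ∧
          LinearMap.charpoly (ρbar.ρ φ) = (X - C α) * (X - C β)) (i : Fin r) :
    tθ N0 S O θ (D.qv i) ^ 2 ≠ ((D.qv i : ResidueField O) + 1) ^ 2 :=
  HeckeTW1.tθ_sq_ne N0 S O θ D.hNS ρbar hθ (D.qv i) (D.qprime i) (D.qS i)
    (HeckeTW1.natCast_eq_one_of_dvd p (D.qprime i).pos (D.qdvd i)) (hTWq i)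

end Theta

end Fermat.Agent.M43.LevelWire5
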