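import Mathlib
import Fermat.Agent.M43.Iface2

/-!
# M43 / glue: auxiliary lemmas for the final assembly

* `mem_of_forall_dvd` : a finitely generated submodule of `Mat_d(O)` is closed for the `lam`-adic
  topology (`O` noetherian local, `lam` in the maximal ideal); `eq_of_forall_dvd`.
* `exists_sqrt_unit` : in a complete discrete valuation ring of odd residue characteristic an
  element `q ≡ 1` has a square root `s₀`, with the sign chosen such that `s₀ + h` is a unit of a
  given local algebra.
* the characters of `Δ_Z` : `chi_pow`, `dvd_one_sub_chi`, `chi_ne_inv`.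
-/

set_option autoImplicit false

namespace Fermat.Agent.M43.GlueAux2

open IsLocalRing Fermat.Agent.M43.Iface2

section Closed

variable {O : Type*} [CommRing O] [IsLocalRing O] [IsNoetherianRing O] {d : ℕ}

/-- Krull: an element of `O` divisible by all powers of `lam` vanishes. -/
theorem eq_zero_of_forall_dvd {lam : O} (hlam : lam ∈ maximalIdeal O) {a : O}
    (h : ∀ N : ℕ, lam ^ N ∣ a) : a = 0 := by
  have h1 : a ∈ ⨅ N : ℕ, maximalIdeal O ^ N := by
    rw [Ideal.mem_iInf]
    intro N
    obtain ⟨c, rfl⟩ := h N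
    exact Ideal.mul_mem_right _ _ (Ideal.pow_mem_pow hlam N)
  rwa [Ideal.iInf_pow_eq_bot_of_isLocalRing _ (maximalIdeal.isMaximal O).ne_top,
    Ideal.mem_bot] at h1

/-- a submodule of `Mat_d(O)` is `lam`-adically closed. -/
theorem mem_of_forall_dvd {lam : O} (hlam : lam ∈ maximalIdeal O)
    (R : Submodule O (Matrix (Fin d) (Fin d) O)) (m : Matrix (Fin d) (Fin d) O)
    (h : ∀ N : ℕ, ∃ m' ∈ R, ∀ i j, lam ^ N ∣ m i j - m' i j) : m ∈ R := by
  have hK := Ideal.iInf_pow_smul_eq_bot_of_isLocalRing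
    (M := Matrix (Fin d) (Fin d) O ⧸ R) (maximalIdeal O) (maximalIdeal.isMaximal O).ne_top
  have h1 : R.mkQ m ∈ ⨅ i : ℕ, maximalIdeal O ^ i • (⊤ : Submodule O (Matrix (Fin d) (Fin d) O ⧸ R)) := by
    rw [Submodule.mem_iInf]
    intro N
    obtain ⟨m', hm', hdvd⟩ := h N
    choose z hz using hdvd
    have e : m = m' + lam ^ N • Matrix.of z := by
      ext i j
      rw [Matrix.add_apply, Matrix.smul_apply, Matrix.of_apply, smul_eq_mul, ← hz i j]
      ring
    have hm0 : R.mkQ m' = 0 := (Submodule.Quotient.mk_eq_zero R).2 hm'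
    rw [e, map_add, hm0, zero_add, map_smul]
    exact Submodule.smul_mem_smul (Ideal.pow_mem_pow hlam N) Submodule.mem_top
  rw [hK, Submodule.mem_bot] at h1
  exact (Submodule.Quotient.mk_eq_zero R).1 h1

/-- entrywise Krull. -/
theorem eq_of_forall_dvd {lam : O} (hlam : lam ∈ maximalIdeal O)
    (m m0 : Matrix (Fin d) (Fin d) O) (h : ∀ N : ℕ, ∀ i j, lam ^ N ∣ m i j - m0 i j) : m = m0 := by
  ext i j
  exact sub_eq_zero.1 (eq_zero_of_forall_dvd hlam fun N => h N i j)

end Closed

section Sqrt

variable {O : Type*} [CommRing O] [IsLocalRing O] [IsAdicComplete (maximalIdeal O) O]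
  {T0 : Type*} [CommRing T0] [IsLocalRing T0] [Algebra O T0]

/-- a square root of `q ≡ 1`, with the sign adapted to `h`. -/
theorem exists_sqrt_unit (h2 : IsUnit (2 : O)) (q : O) (hq : q - 1 ∈ maximalIdeal O) (h : T0) :
    ∃ s0 : O, s0 ^ 2 = q ∧ IsUnit (2 * s0) ∧ IsUnit (algebraMap O T0 s0 + h) := by
  have hH : HenselianRing O (maximalIdeal O) := IsAdicComplete.henselianRing O (maximalIdeal O)
  let f : Polynomial O := Polynomial.X ^ 2 - Polynomial.C q
  have hf : f.Monic := Polynomial.monic_X_pow_sub_C _ two_ne_zero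
  have h1 : f.eval 1 ∈ maximalIdeal O := by
    have : f.eval 1 = -(q - 1) := by
      simp only [f, Polynomial.eval_sub, Polynomial.eval_pow, Polynomial.eval_X,
        Polynomial.eval_C]
      ring
    rw [this]
    exact Ideal.neg_mem_iff _ |>.2 hq
  have h2' : IsUnit (Ideal.Quotient.mk (maximalIdeal O) (f.derivative.eval 1)) := by
    have : f.derivative.eval 1 = 2 := by
      simp only [f, Polynomial.derivative_sub, Polynomial.derivative_X_pow, Polynomial.derivative_C,
        sub_zero, Polynomial.eval_mul, Polynomial.eval_C, Polynomial.eval_pow, Polynomial.eval_X]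
      norm_num
    rw [this]
    exact h2.map _
  obtain ⟨a, ha, haI⟩ := hH.is_henselian f hf 1 h1 h2'
  have ha2 : a ^ 2 = q := by
    have : f.eval a = 0 := ha
    simp only [f, Polynomial.eval_sub, Polynomial.eval_pow, Polynomial.eval_X,
      Polynomial.eval_C] at this
    exact sub_eq_zero.1 this
  have hau : IsUnit a := by
    by_contra hc
    have h3 : a ∈ maximalIdeal O := (mem_maximalIdeal a).2 hc
    have h4 : (1 : O) ∈ maximalIdeal O := by
      have : (1 : O) = a - (a - 1) := by ring
      rw [this]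
      exact Ideal.sub_mem _ h3 haI
    exact (maximalIdeal.isMaximal O).ne_top ((Ideal.eq_top_iff_one _).2 h4)
  have h2a : IsUnit (2 * a) := h2.mul hau
  by_cases hu : IsUnit (algebraMap O T0 a + h)
  · exact ⟨a, ha2, h2a, hu⟩
  · refine ⟨-a, by rw [neg_sq, ha2], by rw [mul_neg]; exact h2a.neg, ?_⟩
    have h5 : algebraMap O T0 a + h ∈ maximalIdeal T0 := (mem_maximalIdeal _).2 hu
    have h6 : IsUnit (algebraMap O T0 (2 * a)) := h2a.map _
    by_contra hc
    have h7 : algebraMap O T0 (-a) + h ∈ maximalIdeal T0 := (mem_maximalIdeal _).2 hc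
    have h8 : algebraMap O T0 (2 * a) ∈ maximalIdeal T0 := by
      have : algebraMap O T0 (2 * a) = (algebraMap O T0 a + h) - (algebraMap O T0 (-a) + h) := by
        rw [map_mul, map_neg, map_ofNat]
        ring
      rw [this]
      exact Ideal.sub_mem _ h5 h7
    exact (mem_maximalIdeal _).1 h8 h6

end Sqrt

section Chi

variable {O : Type} [CommRing O] [IsLocalRing O] {ι : Type} (p : ℕ) [Fact p.Prime]

theorem dz_pow (h : DZ ι p) : h ^ p = 1 := by
  apply Multiplicative.toAdd.injective
  rw [toAdd_pow, toAdd_one]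
  ext i
  rw [Pi.smul_apply, Pi.zero_apply, nsmul_eq_mul, CharP.cast_eq_zero, zero_mul]

omit [IsLocalRing O] in
theorem chi_pow (χ : DZ ι p →* O) (h : DZ ι p) : χ h ^ p = 1 := by
  rw [← map_pow, dz_pow, map_one]

/-- the values of a character of `Δ_Z` are congruent to `1`. -/
theorem one_sub_chi_mem [CharP (ResidueField O) p] (χ : DZ ι p →* O) (h : DZ ι p) :
    1 - χ h ∈ maximalIdeal O := by
  rw [← residue_eq_zero_iff, map_sub, map_one]
  have h1 : (residue O (χ h)) ^ p = 1 := by rw [← map_pow, chi_pow, map_one]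
  have h2 : (residue O (χ h) - 1) ^ p = 0 := by
    rw [sub_pow_char, h1, one_pow, sub_self]
  have h3 := pow_eq_zero_iff (Fact.out : p.Prime).ne_zero |>.1 h2
  rw [sub_eq_zero] at h3
  rw [h3, sub_self]

omit [IsLocalRing O] in
/-- for `p` odd, a nontrivial value of a character of `Δ_Z` differs from its inverse. -/
theorem chi_ne_inv (hp2 : p ≠ 2) (χ : DZ ι p →* O) (h : DZ ι p) (hne : χ h ≠ 1) :
    χ h ≠ χ h⁻¹ := by
  intro he
  have h1 : χ h ^ 2 = 1 := by
    rw [pow_two]
    nth_rewrite 2 [he]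
    rw [← map_mul, mul_inv_cancel, map_one]
  have h2 : χ h ^ (p.gcd 2) = 1 := pow_gcd_eq_one.2 ⟨chi_pow (O := O) p χ h, h1⟩
  have h3 : p.gcd 2 = 1 := by
    have hp := (Fact.out : p.Prime)
    exact (Nat.coprime_primes hp Nat.prime_two).2 hp2
  rw [h3, pow_one] at h2
  exact hne h2

end Chi

end Fermat.Agent.M43.GlueAux2
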