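import Mathlib
import Fermat.Agent.S53.MatrixModel

/-!
# M43 / glue: lifting a basis along a surjection of coefficient rings

`exists_basis_lift`: `π : A → T0` a surjective local homomorphism, `ρ_A ⊗_π T0 ≃ ρ0`, `b0` a basis of
`ρ0.V`; then `ρ_A.V` has a basis `b` in which the matrices of `ρ_A` map entrywise to the matrices of
`ρ0` in `b0`.
-/

set_option autoImplicit false

open scoped TensorProduct

namespace Fermat.Agent.M43.GlueBasis2

open Fermat.Agent.S53 Fermat.Agent.S53.MatrixModel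

variable {A T0 : Type} [CommRing A] [IsLocalRing A] [CommRing T0] [IsLocalRing T0]

theorem exists_basis_lift (π : A →+* T0) (hπ : Function.Surjective π) (hloc : IsLocalHom π)
    (ρ : GaloisRepAdic A) (ρ0 : GaloisRepAdic T0)
    (e : (ρ.baseChangeAlong π hloc).IsEquiv ρ0) (b0 : Module.Basis (Fin 2) T0 ρ0.V) :
    ∃ b : Module.Basis (Fin 2) A ρ.V, ∀ (g : GQ) (i j : Fin 2),
      π (matrixOf ρ b g i j) = matrixOf ρ0 b0 g i j := by
  classical
  let _ : Algebra A T0 := π.toAlgebra
  obtain ⟨E⟩ := e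
  -- `E.toLinearEquiv : T0 ⊗[A] ρ.V ≃ₗ[T0] ρ0.V`
  let EL : (T0 ⊗[A] ρ.V) ≃ₗ[T0] ρ0.V := E.toLinearEquiv
  have hEL : ∀ (g : GQ) (x : T0 ⊗[A] ρ.V), EL ((ρ.ρ g).baseChange T0 x) = ρ0.ρ g (EL x) :=
    fun g x => E.map_apply g x
  let c : Module.Basis (Fin 2) A ρ.V := Module.finBasisOfFinrankEq A ρ.V ρ.finrank_eq
  let c' : Module.Basis (Fin 2) T0 (T0 ⊗[A] ρ.V) := Algebra.TensorProduct.basis T0 c
  let b0' : Module.Basis (Fin 2) T0 (T0 ⊗[A] ρ.V) := b0.map EL.symm
  let N : Matrix (Fin 2) (Fin 2) T0 := c'.toMatrix b0'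
  choose M hM using fun i j => hπ (N i j)
  let MM : Matrix (Fin 2) (Fin 2) A := Matrix.of M
  have hMN : MM.map π = N := by
    ext i j
    exact hM i j
  have hdet : IsUnit MM.det := by
    have h1 : π MM.det = N.det := by
      rw [RingHom.map_det, RingHom.mapMatrix_apply, hMN]
    have h2 : IsUnit N.det := by
      have : Invertible N := c'.invertibleToMatrix b0'
      exact (Matrix.isUnit_iff_isUnit_det N).1 (isUnit_of_invertible N)
    rw [← h1] at h2
    exact hloc.map_nonunit _ h2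
  let b : Module.Basis (Fin 2) A ρ.V := c.map (Matrix.toLinearEquiv c MM hdet)
  have hb : ∀ j, b j = ∑ i, MM i j • c i := by
    intro j
    show Matrix.toLinearEquiv c MM hdet (c j) = _
    rw [Matrix.toLinearEquiv_apply, Matrix.toLin_self]
  -- the base change of `b` is `b0'`
  have hb' : ∀ j, (1 : T0) ⊗ₜ[A] b j = b0' j := by
    intro j
    rw [hb, TensorProduct.tmul_sum, ← c'.sum_toMatrix_smul_self b0' j]
    refine Finset.sum_congr rfl fun i _ => ?_
    rw [TensorProduct.tmul_smul]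
    change M i j • ((1 : T0) ⊗ₜ[A] c i) = N i j • c' i
    rw [← hM i j, Algebra.TensorProduct.basis_apply, TensorProduct.smul_tmul',
      TensorProduct.smul_tmul', Algebra.smul_def, smul_eq_mul]
    rfl
  let bT : Module.Basis (Fin 2) T0 (T0 ⊗[A] ρ.V) := Algebra.TensorProduct.basis T0 b
  have hbT : bT = b0' := by
    apply Module.Basis.eq_of_apply_eq
    intro j
    rw [Algebra.TensorProduct.basis_apply, hb']
  refine ⟨b, fun g i j => ?_⟩
  rw [matrixOf_apply, matrixOf_apply]
  have h1 : (LinearMap.toMatrix b b (ρ.ρ g)).map π =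
      LinearMap.toMatrix bT bT ((ρ.ρ g).baseChange T0) :=
    (LinearMap.toMatrix_baseChange T0 (ρ.ρ g) b b).symm
  have h2 : LinearMap.toMatrix bT bT ((ρ.ρ g).baseChange T0) = LinearMap.toMatrix b0 b0 (ρ0.ρ g) := by
    rw [hbT]
    ext i j
    rw [LinearMap.toMatrix_apply, LinearMap.toMatrix_apply, Module.Basis.map_apply,
      Module.Basis.map_repr]
    show b0.repr (EL.symm.symm ((ρ.ρ g).baseChange T0 (EL.symm (b0 j)))) i = _
    rw [LinearEquiv.symm_symm, hEL, LinearEquiv.apply_symm_apply]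
  have h3 := congrFun (congrFun (h1.trans h2) i) j
  rw [Matrix.map_apply] at h3
  exact h3

end Fermat.Agent.M43.GlueBasis2
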