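import Fermat.Agent.M43.PSPatch2
import Fermat.Agent.M43.Iface2

/-!
# M43 / glue: the group rings and the Taylor–Wiles quotients of the power series ring

* `algHom_ext_of_finite` : two `O`-algebra homomorphisms from a power series ring to a finite ring
  that agree on the variables are equal.
* `psi` : `O[Δ_n] → S ⧸ twChain n`, `w_i ↦ (1 + X_i) / (1 - X_i)`; `psi_of_gn`;
  `psi_trace_formula` : `ψ(w_i + w_i⁻¹) - 2 = X_i ^ 2 (ψ(w_i + w_i⁻¹) + 2)` and the second factor
  is a unit; `augQ_psi` : modulo `lam ^ n` the augmentation of `S` induces the augmentation of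
  `O[Δ_n]`.
* `spec_sub_spec` : two specialisations along characters congruent modulo `lam` are congruent
  modulo `lam`.
-/

namespace Fermat.Agent.M43.GlueAlg2

open MvPowerSeries IsLocalRing PSLim2 PSInst2 PSEven2 PSChain2 Iface2

/-! ### Homomorphisms from power series rings to finite rings -/

section Ext

variable {O : Type*} [CommRing O] [IsLocalRing O] [IsNoetherianRing O] {σ : Type*} [Finite σ]

theorem algHom_ext_of_finite {B : Type*} [Ring B] [Algebra O B] [Finite B]
    (φ1 φ2 : MvPowerSeries σ O →ₐ[O] B) (h : ∀ i, φ1 (X i) = φ2 (X i)) : φ1 = φ2 := by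
  ext f
  set c := Nat.card B with hc
  have h1 := Cont2.pow_card_le_ker (φ1 : MvPowerSeries σ O →+* B)
  have h2 := Cont2.pow_card_le_ker (φ2 : MvPowerSeries σ O →+* B)
  have hmem : f - (truncTotal c f : MvPolynomial σ O) ∈ maximalIdeal (MvPowerSeries σ O) ^ c :=
    Ideal.pow_right_mono varI_le_maximalIdeal c
      (Fermat.Agent.S53.sub_truncTotal_mem_pow_span_X c f)
  have e1 := h1 hmem
  have e2 := h2 hmem
  rw [RingHom.mem_ker, RingHom.coe_coe, map_sub, sub_eq_zero] at e1 e2
  rw [e1, e2]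
  have h3 : φ1.comp (MvPolynomial.coeToMvPowerSeries.algHom O) =
      φ2.comp (MvPolynomial.coeToMvPowerSeries.algHom O) := by
    apply MvPolynomial.algHom_ext
    intro i
    simpa using h i
  exact DFunLike.congr_fun h3 (truncTotal c f)

end Ext

/-! ### The group ring of `Δ_n` -/

section Psi

variable {O : Type} [CommRing O] {B : Type*} [CommRing B] [Algebra O B] {r p n : ℕ}

/-- the homomorphism `Δ_n → Bˣ` attached to units of order dividing `p ^ n`. -/
noncomputable def unitHom [NeZero (p ^ n)] (U : Fin r → Bˣ) (hU : ∀ i, U i ^ (p ^ n) = 1) :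
    Dn r p n →* Bˣ where
  toFun δ := ∏ i, U i ^ ((Multiplicative.toAdd δ i).val)
  map_one' := by simp
  map_mul' δ δ' := by
    rw [← Finset.prod_mul_distrib]
    refine Finset.prod_congr rfl fun i _ => ?_
    rw [← pow_add, toAdd_mul, Pi.add_apply, ZMod.val_add, ← pow_eq_pow_mod _ (hU i)]

theorem unitHom_gn [NeZero (p ^ n)] (U : Fin r → Bˣ) (hU : ∀ i, U i ^ (p ^ n) = 1) (i : Fin r) :
    unitHom U hU (gn p n i) = U i := by
  classical
  show ∏ j, U j ^ ((Multiplicative.toAdd (gn p n i) j).val) = U i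
  rw [Finset.prod_eq_single i]
  · have : Multiplicative.toAdd (gn p n i) i = (1 : ZMod (p ^ n)) := by
      simp [gn]
    rw [this, ZMod.val_one_eq_one_mod, ← pow_eq_pow_mod _ (hU i), pow_one]
  · intro j _ hj
    have : Multiplicative.toAdd (gn p n i) j = (0 : ZMod (p ^ n)) := by
      simp [gn, hj]
    rw [this, ZMod.val_zero, pow_zero]
  · intro h
    exact absurd (Finset.mem_univ _) h

/-- the algebra homomorphism `O[Δ_n] → B`. -/
noncomputable def psiOf [NeZero (p ^ n)] (U : Fin r → Bˣ) (hU : ∀ i, U i ^ (p ^ n) = 1) :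
    MonoidAlgebra O (Dn r p n) →ₐ[O] B :=
  MonoidAlgebra.lift O B _ ((Units.coeHom B).comp (unitHom U hU))

theorem psiOf_of [NeZero (p ^ n)] (U : Fin r → Bˣ) (hU : ∀ i, U i ^ (p ^ n) = 1) (δ : Dn r p n) :
    psiOf (O := O) U hU (MonoidAlgebra.of O _ δ) = (unitHom U hU δ : B) := by
  rw [psiOf, MonoidAlgebra.lift_of]
  rfl

/-- an algebra homomorphism killing `U_i - 1` composes with `psiOf` to the augmentation. -/
theorem comp_psiOf [NeZero (p ^ n)] (U : Fin r → Bˣ) (hU : ∀ i, U i ^ (p ^ n) = 1)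
    {C : Type*} [CommRing C] [Algebra O C] (ε : B →ₐ[O] C) (hε : ∀ i, ε (U i : B) = 1)
    (z : MonoidAlgebra O (Dn r p n)) :
    ε (psiOf (O := O) U hU z) = algebraMap O C (augD z) := by
  have h1 : ε.comp (psiOf (O := O) U hU) = (Algebra.ofId O C).comp augD := by
    apply (MonoidAlgebra.lift O C (Dn r p n)).symm.injective
    refine MonoidHom.ext fun δ => ?_
    rw [MonoidAlgebra.lift_symm_apply, MonoidAlgebra.lift_symm_apply, AlgHom.comp_apply,
      AlgHom.comp_apply, ← MonoidAlgebra.of_apply, psiOf_of, augD, MonoidAlgebra.lift_of]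
    show ε ((∏ i, U i ^ ((Multiplicative.toAdd δ i).val) : Bˣ) : B) = _
    rw [Units.coe_prod, map_prod]
    simp [hε]
  exact DFunLike.congr_fun h1 z

end Psi

/-! ### Specialisations -/

section Spec

variable {O : Type} [CommRing O] {ι : Type} {r p n : ℕ}

theorem spec_of (χ : DZ ι p →* O) (h : DZ ι p) (δ : Dn r p n) :
    spec (r := r) (n := n) χ (MonoidAlgebra.of O _ (h, δ)) = χ h • MonoidAlgebra.of O _ δ := by
  rw [spec, MonoidAlgebra.lift_of, specHom]
  simp [Algebra.smul_def]

/-- specialisations along characters congruent modulo `lam` are congruent modulo `lam`. -/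
theorem spec_sub_spec (lam : O) (χ χ' : DZ ι p →* O) (hχ : ∀ h, lam ∣ χ h - χ' h)
    (z : GR O ι r p n) : ∃ y : MonoidAlgebra O (Dn r p n), spec χ z - spec χ' z = lam • y := by
  induction z using MonoidAlgebra.induction_on with
  | of g =>
    obtain ⟨h, δ⟩ := g
    obtain ⟨c, hc⟩ := hχ h
    refine ⟨c • MonoidAlgebra.of O _ δ, ?_⟩
    rw [spec_of, spec_of, ← sub_smul, hc, mul_smul]
  | add a b ha hb =>
    obtain ⟨y, hy⟩ := ha
    obtain ⟨y', hy'⟩ := hb
    refine ⟨y + y', ?_⟩
    rw [map_add, map_add, smul_add, ← hy, ← hy']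
    abel
  | smul c a ha =>
    obtain ⟨y, hy⟩ := ha
    refine ⟨c • y, ?_⟩
    rw [map_smul, map_smul, ← smul_sub, hy, smul_comm]

end Spec

/-! ### The Taylor–Wiles quotients -/

section TW

variable {O : Type} [CommRing O] (lam : O) (p : ℕ) [NeZero p] {r : ℕ} (n : ℕ)

/-- the quotient `S ⧸ twChain n`. -/
abbrev Bn : Type := MvPowerSeries (Fin r) O ⧸ twChain (O := O) (σ := Fin r) lam p n

theorem isUnit_one_add_X (i : Fin r) : IsUnit (1 + X i : MvPowerSeries (Fin r) O) := by
  rw [MvPowerSeries.isUnit_iff_constantCoeff]; simp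

theorem isUnit_one_sub_X (i : Fin r) : IsUnit (1 - X i : MvPowerSeries (Fin r) O) := by
  rw [MvPowerSeries.isUnit_iff_constantCoeff]; simp

/-- the class of `1 + X_i`, as a unit. -/
noncomputable def uU (i : Fin r) : (Bn (r := r) lam p n)ˣ :=
  Units.map (Ideal.Quotient.mk (twChain (O := O) (σ := Fin r) lam p n)).toMonoidHom
    (isUnit_one_add_X i).unit

/-- the class of `1 - X_i`, as a unit. -/
noncomputable def vU (i : Fin r) : (Bn (r := r) lam p n)ˣ :=
  Units.map (Ideal.Quotient.mk (twChain (O := O) (σ := Fin r) lam p n)).toMonoidHom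
    (isUnit_one_sub_X i).unit

omit [NeZero p] in
theorem coe_uU (i : Fin r) : (uU lam p n i : Bn (r := r) lam p n) =
    Ideal.Quotient.mk _ (1 + X i) := rfl

omit [NeZero p] in
theorem coe_vU (i : Fin r) : (vU lam p n i : Bn (r := r) lam p n) =
    Ideal.Quotient.mk _ (1 - X i) := rfl

/-- the class of `w_i = (1 + X_i) / (1 - X_i)`. -/
noncomputable def wU (i : Fin r) : (Bn (r := r) lam p n)ˣ := uU lam p n i * (vU lam p n i)⁻¹

omit [NeZero p] in
theorem wU_pow (i : Fin r) : wU lam p n i ^ (p ^ n) = 1 := by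
  have h1 : uU lam p n i ^ (p ^ n) = vU lam p n i ^ (p ^ n) := by
    ext
    rw [Units.val_pow_eq_pow_val, Units.val_pow_eq_pow_val, coe_uU, coe_vU, ← map_pow, ← map_pow,
      Ideal.Quotient.eq]
    exact twGen_mem_twChain lam p n i
  have h2 : wU lam p n i ^ (p ^ n) = uU lam p n i ^ (p ^ n) * ((vU lam p n i)⁻¹) ^ (p ^ n) :=
    mul_pow (uU lam p n i) ((vU lam p n i)⁻¹) (p ^ n)
  rw [h2, h1, inv_pow, mul_inv_cancel]

/-- **`ψ_n : O[Δ_n] → S ⧸ twChain n`**, `w_i ↦ (1 + X_i) / (1 - X_i)`. -/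
noncomputable def psi : MonoidAlgebra O (Dn r p n) →ₐ[O] Bn (r := r) lam p n :=
  psiOf (wU lam p n) (wU_pow lam p n)

/-- the class of `w_i` in `S ⧸ twChain n`. -/
noncomputable def wB (i : Fin r) : Bn (r := r) lam p n := (wU lam p n i : Bn (r := r) lam p n)

/-- the class of `w_i⁻¹` in `S ⧸ twChain n`. -/
noncomputable def wB' (i : Fin r) : Bn (r := r) lam p n :=
  (((wU lam p n i)⁻¹ : (Bn (r := r) lam p n)ˣ) : Bn (r := r) lam p n)

theorem psi_of_gn (i : Fin r) :
    psi lam p n (MonoidAlgebra.of O _ (gn p n i)) = wB lam p n i := by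
  rw [psi, psiOf_of, unitHom_gn]
  rfl

theorem psi_of_gn_inv (i : Fin r) :
    psi lam p n (MonoidAlgebra.of O _ (gn p n i)⁻¹) = wB' lam p n i := by
  rw [psi, psiOf_of, map_inv, unitHom_gn]
  rfl

omit [NeZero p] in
theorem wB_mul (i : Fin r) :
    wB lam p n i * ((uU lam p n i : Bn (r := r) lam p n) * (vU lam p n i : Bn (r := r) lam p n)) =
      (uU lam p n i : Bn (r := r) lam p n) * uU lam p n i := by
  have h : (((vU lam p n i)⁻¹ : (Bn (r := r) lam p n)ˣ) : Bn (r := r) lam p n) *
      (vU lam p n i : Bn (r := r) lam p n) = 1 := Units.inv_mul _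
  rw [wB, wU, Units.val_mul]
  linear_combination ((uU lam p n i : Bn (r := r) lam p n) * uU lam p n i) * h

omit [NeZero p] in
theorem wB'_mul (i : Fin r) :
    wB' lam p n i * ((uU lam p n i : Bn (r := r) lam p n) * (vU lam p n i : Bn (r := r) lam p n)) =
      (vU lam p n i : Bn (r := r) lam p n) * vU lam p n i := by
  have h : (((uU lam p n i)⁻¹ : (Bn (r := r) lam p n)ˣ) : Bn (r := r) lam p n) *
      (uU lam p n i : Bn (r := r) lam p n) = 1 := Units.inv_mul _
  rw [wB', wU, mul_inv_rev, inv_inv, Units.val_mul]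
  linear_combination ((vU lam p n i : Bn (r := r) lam p n) * vU lam p n i) * h

omit [NeZero p] in
theorem uU_add_vU (i : Fin r) :
    (uU lam p n i : Bn (r := r) lam p n) + (vU lam p n i : Bn (r := r) lam p n) = 2 := by
  rw [coe_uU, coe_vU, ← map_add]
  have : (1 + X i + (1 - X i) : MvPowerSeries (Fin r) O) = 2 := by ring
  rw [this, map_ofNat]

omit [NeZero p] in
theorem uU_sub_vU (i : Fin r) :
    (uU lam p n i : Bn (r := r) lam p n) - (vU lam p n i : Bn (r := r) lam p n) =
      2 * Ideal.Quotient.mk _ (X i) := by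
  rw [coe_uU, coe_vU, ← map_sub]
  have : (1 + X i - (1 - X i) : MvPowerSeries (Fin r) O) = 2 * X i := by ring
  rw [this, map_mul, map_ofNat]

omit [NeZero p] in
/-- the trace formula: `w + w⁻¹ - 2 = X ^ 2 (w + w⁻¹ + 2)`. -/
theorem trace_formula (i : Fin r) :
    wB lam p n i + wB' lam p n i - 2 =
      Ideal.Quotient.mk _ (X i ^ 2) * (wB lam p n i + wB' lam p n i + 2) := by
  have hunit : IsUnit ((uU lam p n i : Bn (r := r) lam p n) * (vU lam p n i : Bn (r := r) lam p n)) :=
    (uU lam p n i * vU lam p n i).isUnit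
  apply hunit.mul_left_injective
  show (wB lam p n i + wB' lam p n i - 2) * _ = (_ * (wB lam p n i + wB' lam p n i + 2)) * _
  have h1 := wB_mul lam p n i
  have h2 := wB'_mul lam p n i
  have h3 := uU_add_vU lam p n i
  have h4 := uU_sub_vU lam p n i
  rw [map_pow]
  linear_combination (1 - (Ideal.Quotient.mk _ (X i)) ^ 2) * h1 +
    (1 - (Ideal.Quotient.mk _ (X i)) ^ 2) * h2 +
    ((uU lam p n i : Bn (r := r) lam p n) - vU lam p n i + 2 * Ideal.Quotient.mk _ (X i)) * h4 -
    (Ideal.Quotient.mk _ (X i)) ^ 2 *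
      ((uU lam p n i : Bn (r := r) lam p n) + vU lam p n i + 2) * h3

omit [NeZero p] in
theorem isUnit_trace_add_two (h2 : IsUnit (2 : O)) (i : Fin r) :
    IsUnit (wB lam p n i + wB' lam p n i + 2) := by
  have h2B : IsUnit (2 : Bn (r := r) lam p n) := by
    have := h2.map (algebraMap O (Bn (r := r) lam p n))
    rwa [map_ofNat] at this
  have key : (wB lam p n i + wB' lam p n i + 2) *
      ((uU lam p n i : Bn (r := r) lam p n) * (vU lam p n i : Bn (r := r) lam p n)) = 2 ^ 2 := by
    have h1 := wB_mul lam p n i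
    have h2' := wB'_mul lam p n i
    have h3 := uU_add_vU lam p n i
    linear_combination h1 + h2' + ((uU lam p n i : Bn (r := r) lam p n) + vU lam p n i + 2) * h3
  have h4 : IsUnit ((2 : Bn (r := r) lam p n) ^ 2) := h2B.pow 2
  rw [← key] at h4
  exact isUnit_of_mul_isUnit_left h4

/-- the augmentation modulo `lam ^ n`. -/
noncomputable def augQ : Bn (r := r) lam p n →ₐ[O] O ⧸ Ideal.span {lam ^ n} :=
  Ideal.Quotient.liftₐ (twChain (O := O) (σ := Fin r) lam p n)
    ((Ideal.Quotient.mkₐ O (Ideal.span {lam ^ n})).comp (augS (Fin r) O)) (fun a ha => by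
      rw [AlgHom.comp_apply, Ideal.Quotient.mkₐ_eq_mk, Ideal.Quotient.eq_zero_iff_mem,
        Ideal.mem_span_singleton]
      exact dvd_augS_of_mem_twChain lam p n a ha)

omit [NeZero p] in
theorem augQ_mk (a : MvPowerSeries (Fin r) O) :
    augQ lam p n (Ideal.Quotient.mk _ a) = Ideal.Quotient.mk _ (augS (Fin r) O a) := rfl

theorem augQ_psi (z : MonoidAlgebra O (Dn r p n)) :
    augQ lam p n (psi lam p n z) = Ideal.Quotient.mk _ (augD z) := by
  refine comp_psiOf (wU lam p n) (wU_pow lam p n) (augQ lam p n) (fun i => ?_) z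
  have h1 : augQ lam p n (uU lam p n i : Bn (r := r) lam p n) = 1 := by
    rw [coe_uU, augQ_mk, augS_apply]; simp
  have h2 : augQ lam p n (vU lam p n i : Bn (r := r) lam p n) = 1 := by
    rw [coe_vU, augQ_mk, augS_apply]; simp
  have h3 : (wU lam p n i : Bn (r := r) lam p n) * (vU lam p n i : Bn (r := r) lam p n) =
      uU lam p n i := by
    rw [wU, Units.val_mul, mul_assoc, Units.inv_mul, mul_one]
  have h4 := congrArg (augQ lam p n) h3
  rwa [map_mul, h1, h2, mul_one] at h4

end TW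

end Fermat.Agent.M43.GlueAlg2
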