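/-
Programme M43 (target S43), pillar (P-GLOB), helper3: **from generators of the maximal ideal to
surjectivity onto ARTINIAN quotients, in subalgebra form** (the shape consumed by (P-PATCH), whose
targets are finite rings).

`A` a local `𝒪`-algebra with residue field generated by `𝒪`, `𝔪_A = (G) + 𝔪_𝒪 A` with `G ⊆ 𝔪_A`;
`π : A → B` a surjective `𝒪`-algebra homomorphism killing `𝔪_A ^ N`.  Then every `𝒪`-subalgebra
`C` of `B` containing `π(G)` is all of `B` (`subalgebra_eq_top_of_generators`); in particular an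
`𝒪`-algebra homomorphism `γ : P → B` from ANY `𝒪`-algebra `P` whose range contains `π(G)` is
surjective (`surjective_of_generators_quot`).  No topology, no evaluation of power series.
-/
import Mathlib

set_option autoImplicit false
set_option linter.unusedSectionVars false

namespace Fermat.Agent.M43.GlobQuot3

open IsLocalRing

variable {𝒪 : Type*} [CommRing 𝒪] [IsLocalRing 𝒪]
  {A : Type*} [CommRing A] [IsLocalRing A] [Algebra 𝒪 A]
  {B : Type*} [CommRing B] [Algebra 𝒪 B]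

/-- **Subalgebra form.** -/
theorem subalgebra_eq_top_of_generators (hloc : IsLocalHom (algebraMap 𝒪 A))
    (hsurj : Function.Surjective (residue A ∘ algebraMap 𝒪 A))
    (G : Set A) (hG : G ⊆ (maximalIdeal A : Set A))
    (hle : maximalIdeal A ≤ Ideal.span G ⊔ (maximalIdeal 𝒪).map (algebraMap 𝒪 A))
    (π : A →ₐ[𝒪] B) (hπ : Function.Surjective π) (N : ℕ)
    (hN : ∀ x ∈ maximalIdeal A ^ N, π x = 0)
    (C : Subalgebra 𝒪 B) (hC : ∀ g ∈ G, π g ∈ C) : C = ⊤ := by
  classical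
  -- the generators of the image of the maximal ideal, all lying in `C`
  set S : Set B := π '' G ∪ (algebraMap 𝒪 B) '' (maximalIdeal 𝒪 : Set 𝒪) with hS
  have hSC : ∀ s ∈ S, s ∈ C := by
    rintro s (⟨g, hg, rfl⟩ | ⟨c, -, rfl⟩)
    · exact hC g hg
    · exact C.algebraMap_mem c
  set 𝔫 : Ideal B := Ideal.span S with h𝔫
  -- the image of the maximal ideal is `𝔫`
  have hmap : (maximalIdeal A).map (π : A →+* B) ≤ 𝔫 := by
    refine (Ideal.map_mono hle).trans ?_
    rw [Ideal.map_sup, Ideal.map_span, Ideal.map_map, sup_le_iff]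
    constructor
    · exact Ideal.span_mono Set.subset_union_left
    · have h1 : (π : A →+* B).comp (algebraMap 𝒪 A) = algebraMap 𝒪 B :=
        RingHom.ext fun c => π.commutes c
      rw [h1, Ideal.map_le_iff_le_comap]
      intro c hc
      exact Ideal.subset_span (Or.inr ⟨c, hc, rfl⟩)
  have h𝔫le : 𝔫 ≤ (maximalIdeal A).map (π : A →+* B) := by
    rw [h𝔫, Ideal.span_le]
    rintro s (⟨g, hg, rfl⟩ | ⟨c, hc, rfl⟩)
    · exact Ideal.mem_map_of_mem _ (hG hg)
    · have h1 : algebraMap 𝒪 A c ∈ maximalIdeal A := by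
        rw [mem_maximalIdeal, mem_nonunits_iff]
        intro hu
        have := hloc
        exact (mem_maximalIdeal c).mp hc (isUnit_of_map_unit (algebraMap 𝒪 A) c hu)
      have h2 := Ideal.mem_map_of_mem (π : A →+* B) h1
      have h3 : (π : A →+* B) (algebraMap 𝒪 A c) = algebraMap 𝒪 B c := π.commutes c
      rwa [h3] at h2
  have hnil : 𝔫 ^ N = ⊥ := by
    rw [eq_bot_iff]
    refine (Ideal.pow_right_mono h𝔫le N).trans ?_
    rw [← Ideal.map_pow, Ideal.map_le_iff_le_comap]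
    intro x hx
    rw [Ideal.mem_comap, Ideal.mem_bot]
    exact hN x hx
  -- `B = C + 𝔫`
  have hP1 : ∀ b : B, ∃ c ∈ C, b - c ∈ 𝔫 := by
    intro b
    obtain ⟨a, rfl⟩ := hπ b
    obtain ⟨c0, hc0⟩ := hsurj (residue A a)
    have hm : a - algebraMap 𝒪 A c0 ∈ maximalIdeal A := by
      rw [← residue_eq_zero_iff, map_sub, sub_eq_zero]
      exact hc0.symm
    refine ⟨algebraMap 𝒪 B c0, C.algebraMap_mem c0, ?_⟩
    have h2 := hmap (Ideal.mem_map_of_mem (π : A →+* B) hm)
    have h3 : (π : A →+* B) (a - algebraMap 𝒪 A c0) = π a - algebraMap 𝒪 B c0 := by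
      rw [map_sub]
      congr 1
      exact π.commutes c0
    rwa [h3] at h2
  -- `𝔫 ⊆ (C ∩ 𝔫) + 𝔫²`
  have hR : ∀ z ∈ 𝔫, ∃ d ∈ C, d ∈ 𝔫 ∧ z - d ∈ 𝔫 ^ 2 := by
    intro z hz
    refine Submodule.span_induction (p := fun z _ => ∃ d ∈ C, d ∈ 𝔫 ∧ z - d ∈ 𝔫 ^ 2)
      ?_ ?_ ?_ ?_ hz
    · intro s hs
      exact ⟨s, hSC s hs, Ideal.subset_span hs, by rw [sub_self]; exact Ideal.zero_mem _⟩
    · exact ⟨0, C.zero_mem, Ideal.zero_mem _, by rw [sub_self]; exact Ideal.zero_mem _⟩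
    · rintro x y _ _ ⟨d, hd, hd𝔫, hxd⟩ ⟨d', hd', hd'𝔫, hyd⟩
      refine ⟨d + d', C.add_mem hd hd', Ideal.add_mem _ hd𝔫 hd'𝔫, ?_⟩
      have : x + y - (d + d') = (x - d) + (y - d') := by ring
      rw [this]
      exact Ideal.add_mem _ hxd hyd
    · rintro b x _ ⟨d, hd, hd𝔫, hxd⟩
      obtain ⟨c, hc, hbc⟩ := hP1 b
      refine ⟨c * d, C.mul_mem hc hd, Ideal.mul_mem_left _ _ hd𝔫, ?_⟩
      have : b • x - c * d = (b - c) * d + b * (x - d) := by
        rw [smul_eq_mul]; ring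
      rw [this, pow_two]
      refine Ideal.add_mem _ (Ideal.mul_mem_mul hbc hd𝔫) ?_
      rw [← pow_two]
      exact Ideal.mul_mem_left _ _ hxd
  -- `𝔫 ^ j ⊆ (C ∩ 𝔫 ^ j) + 𝔫 ^ (j + 1)`
  have hQ : ∀ j : ℕ, ∀ x ∈ 𝔫 ^ j, ∃ c ∈ C, c ∈ 𝔫 ^ j ∧ x - c ∈ 𝔫 ^ (j + 1) := by
    intro j
    induction j with
    | zero =>
      intro x _
      obtain ⟨c, hc, hxc⟩ := hP1 x
      refine ⟨c, hc, by rw [pow_zero, Ideal.one_eq_top]; trivial, ?_⟩
      rwa [zero_add, pow_one]
    | succ j ih =>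
      intro x hx
      rw [pow_succ] at hx
      refine Submodule.mul_induction_on hx ?_ ?_
      · intro y hy z hz
        obtain ⟨c, hc, hc𝔫, hyc⟩ := ih y hy
        obtain ⟨d, hd, hd𝔫, hzd⟩ := hR z hz
        refine ⟨c * d, C.mul_mem hc hd, ?_, ?_⟩
        · rw [pow_succ]
          exact Ideal.mul_mem_mul hc𝔫 hd𝔫
        · have : y * z - c * d = (y - c) * z + c * (z - d) := by ring
          rw [this]
          refine Ideal.add_mem _ ?_ ?_
          · rw [pow_succ (n := j + 1)]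
            exact Ideal.mul_mem_mul hyc hz
          · have h1 : c * (z - d) ∈ 𝔫 ^ j * 𝔫 ^ 2 := Ideal.mul_mem_mul hc𝔫 hzd
            rwa [← pow_add] at h1
      · rintro x y ⟨c, hc, hc𝔫, hxc⟩ ⟨d, hd, hd𝔫, hyd⟩
        refine ⟨c + d, C.add_mem hc hd, Ideal.add_mem _ hc𝔫 hd𝔫, ?_⟩
        have : x + y - (c + d) = (x - c) + (y - d) := by ring
        rw [this]
        exact Ideal.add_mem _ hxc hyd
  -- `B = C + 𝔫 ^ j` for all `j`
  have hP : ∀ j : ℕ, ∀ b : B, ∃ c ∈ C, b - c ∈ 𝔫 ^ j := by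
    intro j
    induction j with
    | zero =>
      intro b
      exact ⟨0, C.zero_mem, by rw [pow_zero, Ideal.one_eq_top]; trivial⟩
    | succ j ih =>
      intro b
      obtain ⟨c, hc, hbc⟩ := ih b
      obtain ⟨c', hc', -, hbc'⟩ := hQ j (b - c) hbc
      refine ⟨c + c', C.add_mem hc hc', ?_⟩
      have : b - (c + c') = b - c - c' := by ring
      rwa [this]
  rw [eq_top_iff]
  intro b _
  obtain ⟨c, hc, hbc⟩ := hP N b
  rw [hnil, Ideal.mem_bot, sub_eq_zero] at hbc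
  rw [hbc]
  exact hc

/-- **Surjectivity form**: an `𝒪`-algebra homomorphism into `B` whose range contains the images of
the generators is surjective. -/
theorem surjective_of_generators_quot (hloc : IsLocalHom (algebraMap 𝒪 A))
    (hsurj : Function.Surjective (residue A ∘ algebraMap 𝒪 A))
    (G : Set A) (hG : G ⊆ (maximalIdeal A : Set A))
    (hle : maximalIdeal A ≤ Ideal.span G ⊔ (maximalIdeal 𝒪).map (algebraMap 𝒪 A))
    (π : A →ₐ[𝒪] B) (hπ : Function.Surjective π) (N : ℕ)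
    (hN : ∀ x ∈ maximalIdeal A ^ N, π x = 0)
    {P : Type*} [CommRing P] [Algebra 𝒪 P] (γ : P →ₐ[𝒪] B)
    (hγ : ∀ g ∈ G, ∃ x : P, γ x = π g) : Function.Surjective γ := by
  have h := subalgebra_eq_top_of_generators hloc hsurj G hG hle π hπ N hN γ.range
    (fun g hg => hγ g hg)
  intro b
  have hb : b ∈ γ.range := h ▸ Algebra.mem_top
  exact hb

end Fermat.Agent.M43.GlobQuot3
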