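/-
Programme M43 (target S43), pillar (P-LOC), helper1: **the explicit local rings at the bad primes —
shared definitions.**

`ι` = the (finite) set of bad primes `q_i ≡ 1 (p)` with scalar Frobenius, `m` = number of free
variables.  In helper5's coordinates (report 190): at each `i` the traceless parts
`X_i = [[x₀, x₁], [x₂, -x₀]]` of Frobenius and `Y_i = [[y₀, y₁], [y₂, -y₀]]` of the inertia generator,
`q(Y) = y₀² + y₁ y₂ = - det Y`.

* `Var ι m` : the index type of the variables (`x`-block, `y`-block, free block);
* `PS O ι m = MvPowerSeries (Var ι m) O`;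
* `minor i k l = x i k * y i l - x i l * y i k`  (the relation `[X_i, Y_i] = 0`);
* `quad c i = y i 0 ^ 2 + y i 1 * y i 2 - C (c i)`  (`q(Y_i) = c_i`, `c_i = (ζ_i - ζ_i⁻¹)² / 4` on the
  `χ`-side, `c_i = 0` on the special fibre);
* `chiIdeal c`, `ChiRing c = PS ⧸ chiIdeal c` : the `χ`-side local ring with `m` free variables;
* `Var' L m`, `PS'`, `rv`, `yv'`, `wv'`, `quad'`, `quadIdeal'`, `QRing c = PS' ⧸ quadIdeal' c` : the target of
  the Rees embedding `x i k ↦ ρ_i * y i k`, i.e. `C_r[[ρ, w]]` with `C_r` the iterated double cover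
  `y₀² = c_i - y₁ y₂`.

Mathlib only.
-/
import Mathlib

set_option autoImplicit false

namespace Fermat.Agent.M43.LocDefs1

open MvPowerSeries

/-- the variables: `x i k`, `y i k` (`i : ι`, `k : Fin 3`) and `w j` (`j : Fin m`). -/
abbrev Var (ι : Type) (m : ℕ) : Type := ((ι × Fin 3) ⊕ (ι × Fin 3)) ⊕ Fin m

/-- the ambient power series ring. -/
abbrev PS (O : Type*) [CommRing O] (ι : Type) (m : ℕ) : Type _ := MvPowerSeries (Var ι m) O

section

variable (O : Type*) [CommRing O] {ι : Type} (m : ℕ)

/-- the variable `x i k` (traceless part of Frobenius at `i`). -/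
noncomputable def xv (i : ι) (k : Fin 3) : PS O ι m := X (Sum.inl (Sum.inl (i, k)))

/-- the variable `y i k` (traceless part of the inertia generator at `i`). -/
noncomputable def yv (i : ι) (k : Fin 3) : PS O ι m := X (Sum.inl (Sum.inr (i, k)))

/-- the free variable `w j`. -/
noncomputable def wv (j : Fin m) : PS O ι m := X (Sum.inr j)

/-- the `2 × 2` minor `x_k y_l - x_l y_k` at the prime `i`. -/
noncomputable def minor (i : ι) (k l : Fin 3) : PS O ι m :=
  xv O m i k * yv O m i l - xv O m i l * yv O m i k

/-- the quadric `y₀² + y₁ y₂ - c_i` at the prime `i`. -/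
noncomputable def quad (c : ι → O) (i : ι) : PS O ι m :=
  yv O m i 0 ^ 2 + yv O m i 1 * yv O m i 2 - C (c i)

/-- the set of all minors. -/
def minorSet : Set (PS O ι m) := {f | ∃ (i : ι) (k l : Fin 3), f = minor O m i k l}

/-- the set of all quadrics. -/
def quadSet (c : ι → O) : Set (PS O ι m) := {f | ∃ i : ι, f = quad O m c i}

/-- the ideal of the minors. -/
noncomputable def minorIdeal : Ideal (PS O ι m) := Ideal.span (minorSet O (ι := ι) m)

/-- the ideal of the `χ`-side local ring. -/
noncomputable def chiIdeal (c : ι → O) : Ideal (PS O ι m) :=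
  Ideal.span (minorSet O (ι := ι) m ∪ quadSet O m c)

/-- the `χ`-side local ring at the bad primes, with `m` free variables. -/
abbrev ChiRing (c : ι → O) : Type _ := PS O ι m ⧸ chiIdeal O m c

end

/-! ### The target of the Rees embedding -/

/-- the variables of the target: `ρ j`, `y j k` (`j : L`, `k : Fin 3`) and `w`. -/
abbrev Var' (L : Type) (m : ℕ) : Type := (L ⊕ (L × Fin 3)) ⊕ Fin m

/-- the ambient power series ring of the target. -/
abbrev PS' (O : Type*) [CommRing O] (L : Type) (m : ℕ) : Type _ := MvPowerSeries (Var' L m) O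

section

variable (O : Type*) [CommRing O] {L : Type} (m : ℕ)

/-- the variable `ρ j`. -/
noncomputable def rv (j : L) : PS' O L m := X (Sum.inl (Sum.inl j))

/-- the variable `y j k` of the target. -/
noncomputable def yv' (j : L) (k : Fin 3) : PS' O L m := X (Sum.inl (Sum.inr (j, k)))

/-- the free variable `w j` of the target. -/
noncomputable def wv' (j : Fin m) : PS' O L m := X (Sum.inr j)

/-- the quadric `y₀² + y₁ y₂ - c_j` in the target. -/
noncomputable def quad' (c : L → O) (j : L) : PS' O L m :=
  yv' O m j 0 ^ 2 + yv' O m j 1 * yv' O m j 2 - C (c j)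

/-- the set of all quadrics of the target. -/
def quadSet' (c : L → O) : Set (PS' O L m) := {f | ∃ j : L, f = quad' O m c j}

/-- the ideal of the quadrics in the target. -/
noncomputable def quadIdeal' (c : L → O) : Ideal (PS' O L m) := Ideal.span (quadSet' O m c)

/-- `C_r[[ρ, w]]`: the target of the Rees embedding. -/
abbrev QRing (c : L → O) : Type _ := PS' O L m ⧸ quadIdeal' O m c

end

end Fermat.Agent.M43.LocDefs1
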