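import Mathlib
import Fermat.Agent.M43.LocDefs1

/-!
# M43 / P-LOC (LOC-5): the dimension of the `χ`-side local ring

`ringKrullDim (ChiRing O m c) ≤ 1 + 3 * card ι + m` for a noetherian local ring `O` whose
maximal ideal is generated by `lam`, with all `c i` in the maximal ideal: the elements
`lam`, `w j`, `x i 0`, `x i 1 - y i 2`, `x i 2 - y i 1` form a system of parameters (modulo them
`y i 0 ^ 3 = y i 1 ^ 3 = y i 2 ^ 3 = 0`).
-/

namespace Fermat.Agent.M43.LocDim5

open MvPowerSeries
open Fermat.Agent.M43.LocDefs1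

section SpanX

variable {σ R : Type*} [CommRing R]

/-- A power series in finitely many variables without constant term lies in the ideal generated
by the variables. -/
theorem mem_span_X_of_constantCoeff_eq_zero [Finite σ] (f : MvPowerSeries σ R)
    (hf : constantCoeff f = 0) : f ∈ Ideal.span (Set.range (X : σ → MvPowerSeries σ R)) := by
  classical
  cases nonempty_fintype σ
  -- choose a variable in the support of every monomial
  let pick : (σ →₀ ℕ) → Option σ := fun e =>
    if h : e = 0 then none else some (Finsupp.support_nonempty_iff.2 h).choose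
  have hpick_mem : ∀ e s, pick e = some s → s ∈ e.support := by
    intro e s h
    by_cases he : e = 0
    · have : pick e = none := dif_pos he
      rw [this] at h
      exact absurd h (by simp)
    · have : pick e = some (Finsupp.support_nonempty_iff.2 he).choose := dif_neg he
      rw [this] at h
      rw [← Option.some.inj h]
      exact (Finsupp.support_nonempty_iff.2 he).choose_spec
  have hpick_ne : ∀ e, e ≠ 0 → ∃ s, pick e = some s := by
    intro e he
    exact ⟨_, dif_neg he⟩
  let g : σ → MvPowerSeries σ R := fun s e' =>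
    if pick (e' + Finsupp.single s 1) = some s then coeff (e' + Finsupp.single s 1) f else 0
  have hsum : f = ∑ s, X s * g s := by
    ext e
    rw [map_sum]
    have hterm : ∀ s, coeff e (X s * g s) = if pick e = some s then coeff e f else 0 := by
      intro s
      rw [X_def, coeff_monomial_mul, one_mul]
      by_cases hs : Finsupp.single s 1 ≤ e
      · rw [if_pos hs]
        have he : e - Finsupp.single s 1 + Finsupp.single s 1 = e := tsub_add_cancel_of_le hs
        show (if pick (e - Finsupp.single s 1 + Finsupp.single s 1) = some s then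
          coeff (e - Finsupp.single s 1 + Finsupp.single s 1) f else 0) = _
        rw [he]
      · rw [if_neg hs]
        have : pick e ≠ some s := by
          intro h
          apply hs
          have hm := hpick_mem e s h
          rw [Finsupp.mem_support_iff] at hm
          intro t
          by_cases hts : t = s
          · subst hts
            simp only [Finsupp.single_eq_same]
            omega
          · rw [Finsupp.single_eq_of_ne hts]; exact Nat.zero_le _
        rw [if_neg this]
    simp_rw [hterm]
    by_cases he : e = 0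
    · subst he
      rw [Finset.sum_eq_zero]
      · exact hf
      · intro s _
        rw [if_neg]
        intro h
        have := hpick_mem 0 s h
        simp at this
    · obtain ⟨s0, hs0⟩ := hpick_ne e he
      rw [Finset.sum_eq_single s0]
      · rw [if_pos hs0]
      · intro s _ hs
        rw [if_neg]
        rw [hs0]
        intro h
        exact hs (Option.some.inj h).symm
      · intro h; exact absurd (Finset.mem_univ _) h
  rw [hsum]
  exact Ideal.sum_mem _ fun s _ => Ideal.mul_mem_right _ _ (Ideal.subset_span ⟨s, rfl⟩)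

/-- A prime of `O[[σ]]` containing a generator `lam` of the maximal ideal of the local ring `O`
and all variables is the maximal ideal. -/
theorem eq_maximalIdeal_of_mem [Finite σ] [IsLocalRing R] (lam : R)
    (hlam : IsLocalRing.maximalIdeal R = Ideal.span {lam})
    (p : Ideal (MvPowerSeries σ R)) (hp : p.IsPrime) (h1 : (C lam : MvPowerSeries σ R) ∈ p)
    (h2 : ∀ s, (X s : MvPowerSeries σ R) ∈ p) :
    p = IsLocalRing.maximalIdeal (MvPowerSeries σ R) := by
  refine le_antisymm (IsLocalRing.le_maximalIdeal hp.ne_top) ?_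
  intro f hf
  have hnu : ¬ IsUnit (constantCoeff f) := by
    intro h
    exact (IsLocalRing.mem_maximalIdeal _).1 hf (isUnit_iff_constantCoeff.2 h)
  have hm : constantCoeff f ∈ IsLocalRing.maximalIdeal R := (IsLocalRing.mem_maximalIdeal _).2 hnu
  rw [hlam] at hm
  obtain ⟨u, hu⟩ := Ideal.mem_span_singleton'.1 hm
  have hX : f - C (constantCoeff f) ∈ p := by
    have h0 : constantCoeff (f - C (constantCoeff f)) = 0 := by simp
    have := mem_span_X_of_constantCoeff_eq_zero _ h0
    refine (Ideal.span_le.2 ?_) this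
    rintro _ ⟨s, rfl⟩
    exact h2 s
  have hC : (C (constantCoeff f) : MvPowerSeries σ R) ∈ p := by
    rw [← hu, map_mul]
    exact p.mul_mem_left _ h1
  have : f = (f - C (constantCoeff f)) + C (constantCoeff f) := by ring
  rw [this]
  exact p.add_mem hX hC

end SpanX

section Dim

variable {O : Type*} [CommRing O] {ι : Type} {m : ℕ}

/-- **The parameters.**  A prime of `PS` containing the ideal of the `χ`-side ring (with all
`c i ∈ (lam)`), `lam`, the free variables and `x i 0`, `x i 1 - y i 2`, `x i 2 - y i 1` contains all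
variables. -/
theorem X_mem_of_params (c : ι → O) (lam : O) (hc : ∀ i, c i ∈ Ideal.span {lam})
    (p : Ideal (PS O ι m)) (hp : p.IsPrime) (hchi : chiIdeal O m c ≤ p)
    (hlam : (C lam : PS O ι m) ∈ p) (hw : ∀ j, wv O m j ∈ p)
    (h0 : ∀ i, xv O m i 0 ∈ p) (h1 : ∀ i, xv O m i 1 - yv O m i 2 ∈ p)
    (h2 : ∀ i, xv O m i 2 - yv O m i 1 ∈ p) (s : Var ι m) : (X s : PS O ι m) ∈ p := by
  have hmin : ∀ i k l, minor O m i k l ∈ p := fun i k l =>
    hchi (Ideal.subset_span (Or.inl ⟨i, k, l, rfl⟩))
  have hquad : ∀ i, yv O m i 0 ^ 2 + yv O m i 1 * yv O m i 2 ∈ p := by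
    intro i
    have hq : quad O m c i ∈ p := hchi (Ideal.subset_span (Or.inr ⟨i, rfl⟩))
    have hci : (C (c i) : PS O ι m) ∈ p := by
      obtain ⟨u, hu⟩ := Ideal.mem_span_singleton'.1 (hc i)
      rw [← hu, map_mul]
      exact p.mul_mem_left _ hlam
    have e : yv O m i 0 ^ 2 + yv O m i 1 * yv O m i 2 = quad O m c i + C (c i) := by
      simp only [quad]; ring
    rw [e]
    exact p.add_mem hq hci
  have hy : ∀ i, yv O m i 0 ∈ p ∧ yv O m i 1 ∈ p ∧ yv O m i 2 ∈ p := by
    intro i
    -- `y₀ y₂`, `y₀ y₁`, `y₂² - y₁²` lie in `p`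
    have a1 : yv O m i 0 * yv O m i 2 ∈ p := by
      have e : yv O m i 0 * yv O m i 2 = xv O m i 0 * yv O m i 1 - minor O m i 0 1 -
          (xv O m i 1 - yv O m i 2) * yv O m i 0 := by
        simp only [minor]; ring
      rw [e]
      exact p.sub_mem (p.sub_mem (p.mul_mem_right _ (h0 i)) (hmin i 0 1))
        (p.mul_mem_right _ (h1 i))
    have a2 : yv O m i 0 * yv O m i 1 ∈ p := by
      have e : yv O m i 0 * yv O m i 1 = xv O m i 0 * yv O m i 2 - minor O m i 0 2 -
          (xv O m i 2 - yv O m i 1) * yv O m i 0 := by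
        simp only [minor]; ring
      rw [e]
      exact p.sub_mem (p.sub_mem (p.mul_mem_right _ (h0 i)) (hmin i 0 2))
        (p.mul_mem_right _ (h2 i))
    have a3 : yv O m i 2 ^ 2 - yv O m i 1 ^ 2 ∈ p := by
      have e : yv O m i 2 ^ 2 - yv O m i 1 ^ 2 = minor O m i 1 2 -
          (xv O m i 1 - yv O m i 2) * yv O m i 2 + (xv O m i 2 - yv O m i 1) * yv O m i 1 := by
        simp only [minor]; ring
      rw [e]
      exact p.add_mem (p.sub_mem (hmin i 1 2) (p.mul_mem_right _ (h1 i)))
        (p.mul_mem_right _ (h2 i))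
    have b0 : yv O m i 0 ∈ p := by
      have h3 : yv O m i 0 ^ 3 ∈ p := by
        have e : yv O m i 0 ^ 3 = yv O m i 0 * (yv O m i 0 ^ 2 + yv O m i 1 * yv O m i 2) -
            yv O m i 1 * (yv O m i 0 * yv O m i 2) := by ring
        rw [e]
        exact p.sub_mem (p.mul_mem_left _ (hquad i)) (p.mul_mem_left _ a1)
      exact hp.mem_of_pow_mem 3 h3
    have b12 : yv O m i 1 * yv O m i 2 ∈ p := by
      have e : yv O m i 1 * yv O m i 2 = (yv O m i 0 ^ 2 + yv O m i 1 * yv O m i 2) -
          yv O m i 0 * yv O m i 0 := by ring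
      rw [e]
      exact p.sub_mem (hquad i) (p.mul_mem_left _ b0)
    rcases hp.mem_or_mem b12 with h | h
    · refine ⟨b0, h, ?_⟩
      have : yv O m i 2 ^ 2 ∈ p := by
        have e : yv O m i 2 ^ 2 = (yv O m i 2 ^ 2 - yv O m i 1 ^ 2) + yv O m i 1 * yv O m i 1 := by
          ring
        rw [e]
        exact p.add_mem a3 (p.mul_mem_left _ h)
      exact hp.mem_of_pow_mem 2 this
    · refine ⟨b0, ?_, h⟩
      have : yv O m i 1 ^ 2 ∈ p := by
        have e : yv O m i 1 ^ 2 = yv O m i 2 * yv O m i 2 - (yv O m i 2 ^ 2 - yv O m i 1 ^ 2) := by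
          ring
        rw [e]
        exact p.sub_mem (p.mul_mem_left _ h) a3
      exact hp.mem_of_pow_mem 2 this
  rcases s with (⟨i, k⟩ | ⟨i, k⟩) | j
  · obtain ⟨hy0, hy1, hy2⟩ := hy i
    fin_cases k
    · exact h0 i
    · have e : (X (Sum.inl (Sum.inl (i, (1 : Fin 3)))) : PS O ι m) =
          (xv O m i 1 - yv O m i 2) + yv O m i 2 := by simp only [xv]; ring
      show (X (Sum.inl (Sum.inl (i, (1 : Fin 3)))) : PS O ι m) ∈ p
      rw [e]
      exact p.add_mem (h1 i) hy2
    · have e : (X (Sum.inl (Sum.inl (i, (2 : Fin 3)))) : PS O ι m) =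
          (xv O m i 2 - yv O m i 1) + yv O m i 1 := by simp only [xv]; ring
      show (X (Sum.inl (Sum.inl (i, (2 : Fin 3)))) : PS O ι m) ∈ p
      rw [e]
      exact p.add_mem (h2 i) hy1
  · obtain ⟨hy0, hy1, hy2⟩ := hy i
    fin_cases k
    · exact hy0
    · exact hy1
    · exact hy2
  · exact hw j

/-- the ideal of the `χ`-side ring is proper when all `c i` are non-units of the local ring. -/
theorem chiIdeal_le_maximalIdeal [IsLocalRing O] (c : ι → O)
    (hc : ∀ i, c i ∈ IsLocalRing.maximalIdeal O) :
    chiIdeal O m c ≤ IsLocalRing.maximalIdeal (PS O ι m) := by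
  refine Ideal.span_le.2 ?_
  rintro f (⟨i, k, l, rfl⟩ | ⟨i, rfl⟩)
  · refine (IsLocalRing.mem_maximalIdeal _).2 fun h => ?_
    have h' := isUnit_iff_constantCoeff.1 h
    have : constantCoeff (minor O m i k l) = 0 := by simp [minor, xv, yv]
    rw [this] at h'
    exact not_isUnit_zero h'
  · refine (IsLocalRing.mem_maximalIdeal _).2 fun h => ?_
    have h' := isUnit_iff_constantCoeff.1 h
    have : constantCoeff (quad O m c i) = -c i := by simp [quad, yv]
    rw [this, IsUnit.neg_iff] at h'
    exact (IsLocalRing.mem_maximalIdeal _).1 (hc i) h'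

/-- the system of parameters of the `χ`-side ring. -/
noncomputable def params (O : Type*) [CommRing O] (ι : Type) (m : ℕ) (lam : O) :
    (Unit ⊕ (ι × Fin 3)) ⊕ Fin m → PS O ι m
  | Sum.inl (Sum.inl _) => C lam
  | Sum.inl (Sum.inr (i, k)) =>
      ![xv O m i 0, xv O m i 1 - yv O m i 2, xv O m i 2 - yv O m i 1] k
  | Sum.inr j => wv O m j

/-- **(LOC-5).**  The `χ`-side local ring has dimension at most `1 + 3 * card ι + m`. -/
theorem ringKrullDim_chiRing_le [Finite ι] [IsLocalRing O] [IsNoetherianRing O] (c : ι → O)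
    (lam : O) (hlam : IsLocalRing.maximalIdeal O = Ideal.span {lam})
    (hc : ∀ i, c i ∈ Ideal.span {lam}) :
    ringKrullDim (ChiRing O m c) ≤ ((1 + 3 * Nat.card ι + m : ℕ) : WithBot ℕ∞) := by
  classical
  cases nonempty_fintype ι
  have hc' : ∀ i, c i ∈ IsLocalRing.maximalIdeal O := fun i => hlam ▸ hc i
  have hle := chiIdeal_le_maximalIdeal (m := m) c hc'
  have hne : chiIdeal O m c ≠ ⊤ := fun h =>
    (IsLocalRing.maximalIdeal.isMaximal (PS O ι m)).ne_top (top_le_iff.1 (h ▸ hle))
  have : Nontrivial (ChiRing O m c) := Ideal.Quotient.nontrivial_iff.2 hne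
  let mkR : PS O ι m →+* ChiRing O m c := Ideal.Quotient.mk _
  have hmkR : Function.Surjective mkR := Ideal.Quotient.mk_surjective
  have : IsLocalRing (ChiRing O m c) := IsLocalRing.of_surjective' mkR hmkR
  have hlamM : (C lam : PS O ι m) ∈ IsLocalRing.maximalIdeal (PS O ι m) := by
    refine (IsLocalRing.mem_maximalIdeal _).2 fun h => ?_
    have h' := isUnit_iff_constantCoeff.1 h
    rw [constantCoeff_C] at h'
    have : lam ∈ IsLocalRing.maximalIdeal O := hlam ▸ Ideal.subset_span rfl
    exact (IsLocalRing.mem_maximalIdeal _).1 this h'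
  have hXM : ∀ s : Var ι m, (X s : PS O ι m) ∈ IsLocalRing.maximalIdeal (PS O ι m) := by
    intro s
    refine (IsLocalRing.mem_maximalIdeal _).2 fun h => ?_
    have h' := isUnit_iff_constantCoeff.1 h
    rw [constantCoeff_X] at h'
    exact not_isUnit_zero h'
  have hparM : ∀ t, params O ι m lam t ∈ IsLocalRing.maximalIdeal (PS O ι m) := by
    rintro ((_ | ⟨i, k⟩) | j)
    · exact hlamM
    · fin_cases k
      · exact hXM _
      · exact Ideal.sub_mem _ (hXM _) (hXM _)
      · exact Ideal.sub_mem _ (hXM _) (hXM _)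
    · exact hXM _
  let s : Finset (ChiRing O m c) := Finset.univ.image fun t => mkR (params O ι m lam t)
  have hs : (s : Set (ChiRing O m c)) ⊆ Ring.jacobson (ChiRing O m c) := by
    rw [IsLocalRing.ringJacobson_eq_maximalIdeal]
    intro x hx
    simp only [s, Finset.coe_image, Finset.coe_univ, Set.image_univ, Set.mem_range] at hx
    obtain ⟨t, rfl⟩ := hx
    refine (IsLocalRing.mem_maximalIdeal _).2 fun hu => ?_
    obtain ⟨y, hy⟩ := hu.exists_right_inv
    obtain ⟨y', rfl⟩ := hmkR y
    have h1 : params O ι m lam t * y' - 1 ∈ chiIdeal O m c := by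
      rw [← Ideal.Quotient.eq_zero_iff_mem, map_sub, map_mul, map_one]
      exact sub_eq_zero.2 hy
    have h2 : params O ι m lam t * y' ∈ IsLocalRing.maximalIdeal (PS O ι m) :=
      Ideal.mul_mem_right _ _ (hparM t)
    have h3 : (1 : PS O ι m) ∈ IsLocalRing.maximalIdeal (PS O ι m) := by
      have e : (1 : PS O ι m) = params O ι m lam t * y' - (params O ι m lam t * y' - 1) := by
        ring
      rw [e]
      exact Ideal.sub_mem _ h2 (hle h1)
    exact (IsLocalRing.maximalIdeal.isMaximal (PS O ι m)).ne_top
      ((Ideal.eq_top_iff_one _).2 h3)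
  have hmain := ringKrullDim_le_ringKrullDim_quotient_add_card s hs
  -- the quotient has dimension `≤ 0`
  have hzero : ringKrullDim (ChiRing O m c ⧸ Ideal.span (s : Set (ChiRing O m c))) ≤ 0 := by
    have : Ring.KrullDimLE 0 (ChiRing O m c ⧸ Ideal.span (s : Set (ChiRing O m c))) := by
      refine Ring.KrullDimLE.mk₀ fun P hP => ?_
      let π : PS O ι m →+* ChiRing O m c ⧸ Ideal.span (s : Set (ChiRing O m c)) :=
        (Ideal.Quotient.mk _).comp mkR
      have hπ : Function.Surjective π := Ideal.Quotient.mk_surjective.comp hmkR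
      have hpar : ∀ t, params O ι m lam t ∈ P.comap π := by
        intro t
        rw [Ideal.mem_comap]
        have : π (params O ι m lam t) = 0 := by
          show Ideal.Quotient.mk _ (mkR (params O ι m lam t)) = 0
          rw [Ideal.Quotient.eq_zero_iff_mem]
          exact Ideal.subset_span (Finset.mem_coe.2 (Finset.mem_image_of_mem _ (Finset.mem_univ t)))
        rw [this]; exact P.zero_mem
      have hchi : chiIdeal O m c ≤ P.comap π := by
        intro f hf
        rw [Ideal.mem_comap]
        have : π f = 0 := by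
          show Ideal.Quotient.mk _ (mkR f) = 0
          rw [(Ideal.Quotient.eq_zero_iff_mem (I := chiIdeal O m c)).2 hf, map_zero]
        rw [this]; exact P.zero_mem
      have hprime : (P.comap π).IsPrime := Ideal.comap_isPrime π P
      have hX : ∀ v : Var ι m, (X v : PS O ι m) ∈ P.comap π :=
        X_mem_of_params c lam hc (P.comap π) hprime hchi (hpar (Sum.inl (Sum.inl ())))
          (fun j => hpar (Sum.inr j)) (fun i => hpar (Sum.inl (Sum.inr (i, 0))))
          (fun i => hpar (Sum.inl (Sum.inr (i, 1)))) (fun i => hpar (Sum.inl (Sum.inr (i, 2))))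
      have hmax : P.comap π = IsLocalRing.maximalIdeal (PS O ι m) :=
        eq_maximalIdeal_of_mem lam hlam _ hprime (hpar (Sum.inl (Sum.inl ()))) hX
      have hPmap : P = (P.comap π).map π := (Ideal.map_comap_of_surjective π hπ P).symm
      have hM : (P.comap π).IsMaximal := hmax ▸ IsLocalRing.maximalIdeal.isMaximal _
      rcases Ideal.map_eq_top_or_isMaximal_of_surjective π hπ hM with h | h
      · exact absurd (hPmap.trans h) hP.ne_top
      · rw [hPmap]; exact h
    exact Ring.krullDimLE_iff.1 this
  have hcard : s.card ≤ 1 + 3 * Nat.card ι + m := by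
    refine le_trans Finset.card_image_le ?_
    rw [Finset.card_univ, Nat.card_eq_fintype_card]
    simp only [Fintype.card_sum, Fintype.card_prod, Fintype.card_fin, Fintype.card_unit]
    omega
  calc ringKrullDim (ChiRing O m c)
      ≤ ringKrullDim (ChiRing O m c ⧸ Ideal.span (s : Set (ChiRing O m c))) + s.card := hmain
    _ ≤ 0 + s.card := by gcongr
    _ = (s.card : WithBot ℕ∞) := zero_add _
    _ ≤ ((1 + 3 * Nat.card ι + m : ℕ) : WithBot ℕ∞) := by exact_mod_cast hcard

end Dim

end Fermat.Agent.M43.LocDim5
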