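import Mathlib
import Fermat.Agent.M43.GlobQuot3
import Fermat.Agent.M43.LocDim5
import Fermat.Agent.S53.EvalNilp

/-!
# M43 / glue: the presentation `γ : O[[τ]] → A ⧸ 𝔪_A ^ N`

`A` a local `O`-algebra, `uv : τ → 𝔪_A`.

* `gam uv huv N` : the `O`-algebra homomorphism `O[[τ]] → A ⧸ 𝔪_A ^ N`, `X v ↦ uv v`;
* `gam_surjective` : it is surjective as soon as `𝔪_A = (uv) + 𝔪_O A` and the residue field of `A`
  is that of `O`;
* `gam_sub_const_mem` : `γ f ≡ f(0)` modulo `𝔪_A`;
* `mem_maximalIdeal_of_gam_mem` : a `γ`-preimage of an element of `𝔪_A` lies in the maximal ideal of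
  `O[[τ]]`;
* `isUnit_add_of_map` : a unit criterion through a local homomorphism.
-/

set_option autoImplicit false

namespace Fermat.Agent.M43.GlueGamma2

open MvPowerSeries IsLocalRing Fermat.Agent.S53

variable {O : Type*} [CommRing O] [IsLocalRing O] {A : Type*} [CommRing A] [IsLocalRing A]
  [Algebra O A] {τ : Type*} [Finite τ]

omit [IsLocalRing O] [Algebra O A] [Finite τ] in
/-- the images of elements of `𝔪_A` in `A ⧸ 𝔪_A ^ N` generate a nilpotent ideal. -/
theorem span_pow_eq_bot (uv : τ → A) (huv : ∀ v, uv v ∈ maximalIdeal A) (N : ℕ) :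
    Ideal.span (Set.range fun v => Ideal.Quotient.mk (maximalIdeal A ^ N) (uv v)) ^ N = ⊥ := by
  have h1 : Ideal.span (Set.range fun v => Ideal.Quotient.mk (maximalIdeal A ^ N) (uv v)) ≤
      (maximalIdeal A).map (Ideal.Quotient.mk (maximalIdeal A ^ N)) := by
    rw [Ideal.span_le]
    rintro _ ⟨v, rfl⟩
    exact Ideal.mem_map_of_mem _ (huv v)
  rw [eq_bot_iff]
  refine (Ideal.pow_right_mono h1 N).trans ?_
  rw [← Ideal.map_pow, Ideal.map_quotient_self]

/-- **the presentation** `O[[τ]] → A ⧸ 𝔪_A ^ N`, `X v ↦ uv v`. -/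
noncomputable def gam (uv : τ → A) (huv : ∀ v, uv v ∈ maximalIdeal A) (N : ℕ) :
    MvPowerSeries τ O →ₐ[O] A ⧸ maximalIdeal A ^ N :=
  evalNilp (fun v => Ideal.Quotient.mk (maximalIdeal A ^ N) (uv v)) N (span_pow_eq_bot uv huv N)

omit [IsLocalRing O] in
theorem gam_X (uv : τ → A) (huv : ∀ v, uv v ∈ maximalIdeal A) (N : ℕ) (v : τ) :
    gam (O := O) uv huv N (X v) = Ideal.Quotient.mk (maximalIdeal A ^ N) (uv v) :=
  evalNilp_X _ N _ v

theorem gam_surjective [IsLocalHom (algebraMap O A)]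
    (hres : Function.Surjective (residue A ∘ algebraMap O A))
    (uv : τ → A) (huv : ∀ v, uv v ∈ maximalIdeal A)
    (hgen : maximalIdeal A ≤ Ideal.span (Set.range uv) ⊔ (maximalIdeal O).map (algebraMap O A))
    (N : ℕ) : Function.Surjective (gam (O := O) uv huv N) := by
  refine GlobQuot3.surjective_of_generators_quot inferInstance hres (Set.range uv) ?_ hgen
    (Ideal.Quotient.mkₐ O (maximalIdeal A ^ N)) Ideal.Quotient.mk_surjective N ?_
    (gam (O := O) uv huv N) ?_
  · rintro _ ⟨v, rfl⟩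
    exact huv v
  · intro x hx
    exact Ideal.Quotient.eq_zero_iff_mem.2 hx
  · rintro _ ⟨v, rfl⟩
    exact ⟨X v, gam_X uv huv N v⟩

omit [IsLocalRing O] in
/-- `γ f ≡ f(0)` modulo `𝔪_A`. -/
theorem gam_sub_const_mem (uv : τ → A) (huv : ∀ v, uv v ∈ maximalIdeal A) (N : ℕ)
    (f : MvPowerSeries τ O) :
    gam (O := O) uv huv N f - algebraMap O (A ⧸ maximalIdeal A ^ N) (constantCoeff f) ∈
      (maximalIdeal A).map (Ideal.Quotient.mk (maximalIdeal A ^ N)) := by
  have h0 : constantCoeff (f - C (constantCoeff f)) = 0 := by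
    rw [map_sub, constantCoeff_C, sub_self]
  have h1 := LocDim5.mem_span_X_of_constantCoeff_eq_zero _ h0
  have h2 : Ideal.span (Set.range (X : τ → MvPowerSeries τ O)) ≤
      ((maximalIdeal A).map (Ideal.Quotient.mk (maximalIdeal A ^ N))).comap
        (gam (O := O) uv huv N : MvPowerSeries τ O →+* A ⧸ maximalIdeal A ^ N) := by
    rw [Ideal.span_le]
    rintro _ ⟨v, rfl⟩
    show gam (O := O) uv huv N (X v) ∈
      (maximalIdeal A).map (Ideal.Quotient.mk (maximalIdeal A ^ N))
    rw [gam_X]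
    exact Ideal.mem_map_of_mem _ (huv v)
  have h3 := h2 h1
  rw [Ideal.mem_comap] at h3
  have h4 : (gam (O := O) uv huv N : MvPowerSeries τ O →+* A ⧸ maximalIdeal A ^ N)
      (f - C (constantCoeff f)) =
      gam (O := O) uv huv N f - algebraMap O (A ⧸ maximalIdeal A ^ N) (constantCoeff f) := by
    show gam (O := O) uv huv N (f - C (constantCoeff f)) = _
    rw [map_sub, c_eq_algebraMap, AlgHom.commutes]
  rwa [h4] at h3

omit [IsLocalRing O] [Algebra O A] [Finite τ] in
/-- membership in the image of `𝔪_A` in `A ⧸ 𝔪_A ^ N`, `N ≥ 1`. -/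
theorem mem_of_mk_mem {N : ℕ} (hN : 0 < N) {a : A}
    (h : Ideal.Quotient.mk (maximalIdeal A ^ N) a ∈
      (maximalIdeal A).map (Ideal.Quotient.mk (maximalIdeal A ^ N))) : a ∈ maximalIdeal A := by
  rw [Ideal.mem_map_iff_of_surjective _ Ideal.Quotient.mk_surjective] at h
  obtain ⟨b, hb, hab⟩ := h
  have h1 : b - a ∈ maximalIdeal A ^ N := Ideal.Quotient.eq.1 hab
  have h2 : maximalIdeal A ^ N ≤ maximalIdeal A := Ideal.pow_le_self hN.ne'
  have h3 : a = b - (b - a) := by ring
  rw [h3]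
  exact Ideal.sub_mem _ hb (h2 h1)

/-- a `γ`-preimage of (the class of) an element of `𝔪_A` lies in the maximal ideal. -/
theorem mem_maximalIdeal_of_gam_eq [IsLocalHom (algebraMap O A)]
    (uv : τ → A) (huv : ∀ v, uv v ∈ maximalIdeal A) {N : ℕ} (hN : 0 < N)
    (f : MvPowerSeries τ O) (a : A) (ha : a ∈ maximalIdeal A)
    (h : gam (O := O) uv huv N f = Ideal.Quotient.mk (maximalIdeal A ^ N) a) :
    f ∈ maximalIdeal (MvPowerSeries τ O) := by
  have h1 := gam_sub_const_mem (O := O) uv huv N f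
  rw [h] at h1
  have h2 : Ideal.Quotient.mk (maximalIdeal A ^ N) (algebraMap O A (constantCoeff f)) ∈
      (maximalIdeal A).map (Ideal.Quotient.mk (maximalIdeal A ^ N)) := by
    have h3 : Ideal.Quotient.mk (maximalIdeal A ^ N) (algebraMap O A (constantCoeff f)) =
        Ideal.Quotient.mk (maximalIdeal A ^ N) a -
          (Ideal.Quotient.mk (maximalIdeal A ^ N) a -
            algebraMap O (A ⧸ maximalIdeal A ^ N) (constantCoeff f)) := by
      rw [sub_sub_cancel]
      rfl
    rw [h3]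
    exact Ideal.sub_mem _ (Ideal.mem_map_of_mem _ ha) h1
  have h4 := mem_of_mk_mem hN h2
  have h5 : constantCoeff f ∈ maximalIdeal O := by
    rw [mem_maximalIdeal, mem_nonunits_iff] at h4 ⊢
    exact fun hu => h4 (hu.map _)
  rw [mem_maximalIdeal, mem_nonunits_iff, MvPowerSeries.isUnit_iff_constantCoeff]
  exact (mem_maximalIdeal _).1 h5

omit [IsLocalRing O] [Algebra O A] [Finite τ] in
/-- a unit criterion through a local homomorphism. -/
theorem isUnit_add_of_map {T0 : Type*} [CommRing T0] (π : A →+* T0) (hπ : IsLocalHom π)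
    (a m : A) (hm : m ∈ maximalIdeal A) (h : IsUnit (π a)) : IsUnit (a + m) := by
  have ha : IsUnit a := hπ.map_nonunit a h
  by_contra hc
  have h1 : a + m ∈ maximalIdeal A := (mem_maximalIdeal _).2 hc
  have h2 : a ∈ maximalIdeal A := by
    have : a = a + m - m := by ring
    rw [this]
    exact Ideal.sub_mem _ h1 hm
  exact (mem_maximalIdeal _).1 h2 ha

end Fermat.Agent.M43.GlueGamma2
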