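import Mathlib
import Fermat.Agent.M43.LocDefs1

/-!
# M43 / P-LOC (L-1): the one-sided identity (Mathlib only)

Let `Φ = !![a, β; γ, d]` and let `N = !![x, y; z, -x]` be traceless with `det N = 0`, i.e.
`x ^ 2 + y * z = 0`.  Write `E = Φ N - q N Φ`; the relation `E = 0` says
`Φ (1 + N) = (1 + N) ^ q Φ` (as `N ^ 2 = 0`).  With
`P' = q (tr Φ) ^ 2 - (1 + q) ^ 2 det Φ` one has the polynomial identity `pdisc_mul_sq`

`- P' x ^ 2 = (a - q d) (d - q a) (x ^ 2 + y z) - (d - q a) z E₁₂ - (1 + q) β x E₂₁`,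

and consequently a prime ideal containing the relations and not containing `P'` contains
`x, y, z` (`mem_of_pdisc_notMem`): where `P'` is invertible the unipotent lift is unramified.
-/

namespace Fermat.Agent.M43.OneSide5

section Identity

variable {R : Type*} [CommRing R]

/-- `(Φ N - q N Φ)₁₁` for `Φ = !![a, β; γ, d]`, `N = !![x, y; z, -x]`. -/
def e11 (q a β γ x y z : R) : R := (1 - q) * a * x + β * z - q * γ * y

/-- `(Φ N - q N Φ)₁₂`. -/
def e12 (q a β d x y : R) : R := (a - q * d) * y - (1 + q) * β * x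

/-- `(Φ N - q N Φ)₂₁`. -/
def e21 (q a γ d x z : R) : R := (d - q * a) * z + (1 + q) * γ * x

/-- `(Φ N - q N Φ)₂₂`. -/
def e22 (q β γ d x y z : R) : R := (q - 1) * d * x + γ * y - q * β * z

/-- `P' = q (tr Φ) ^ 2 - (1 + q) ^ 2 det Φ`. -/
def pdisc (q a β γ d : R) : R := q * (a + d) ^ 2 - (1 + q) ^ 2 * (a * d - β * γ)

/-- The four expressions are the entries of `Φ N - q N Φ`. -/
theorem matrix_eq (q a β γ d x y z : R) :
    !![a, β; γ, d] * !![x, y; z, -x] - q • (!![x, y; z, -x] * !![a, β; γ, d]) =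
      !![e11 q a β γ x y z, e12 q a β d x y; e21 q a γ d x z, e22 q β γ d x y z] := by
  ext i j
  fin_cases i <;> fin_cases j <;>
    simp [e11, e12, e21, e22] <;> ring

/-- **The one-sided identity.** -/
theorem pdisc_mul_sq (q a β γ d x y z : R) :
    -(pdisc q a β γ d * x ^ 2) =
      (a - q * d) * (d - q * a) * (x ^ 2 + y * z) - (d - q * a) * z * e12 q a β d x y -
        (1 + q) * β * x * e21 q a γ d x z := by
  unfold pdisc e12 e21
  ring

/-- **(L-1), local form.**  A prime ideal containing `det N`, the entries of `Φ N - q N Φ` and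
not `P'` contains the entries of `N`. -/
theorem mem_of_pdisc_notMem (Q : Ideal R) [Q.IsPrime] (q a β γ d x y z : R)
    (hdet : x ^ 2 + y * z ∈ Q) (h11 : e11 q a β γ x y z ∈ Q) (h12 : e12 q a β d x y ∈ Q)
    (h21 : e21 q a γ d x z ∈ Q) (h22 : e22 q β γ d x y z ∈ Q)
    (hP : pdisc q a β γ d ∉ Q) : x ∈ Q ∧ y ∈ Q ∧ z ∈ Q := by
  have hx2 : pdisc q a β γ d * x ^ 2 ∈ Q := by
    have h := pdisc_mul_sq q a β γ d x y z
    have h' : (a - q * d) * (d - q * a) * (x ^ 2 + y * z) - (d - q * a) * z * e12 q a β d x y -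
        (1 + q) * β * x * e21 q a γ d x z ∈ Q :=
      Q.sub_mem (Q.sub_mem (Q.mul_mem_left _ hdet) (Q.mul_mem_left _ h12)) (Q.mul_mem_left _ h21)
    rw [← h] at h'
    simpa using Q.neg_mem h'
  have hx : x ∈ Q := by
    rcases Ideal.IsPrime.mem_or_mem ‹_› hx2 with h | h
    · exact absurd h hP
    · exact Ideal.IsPrime.mem_of_pow_mem ‹_› 2 h
  have hyz : y * z ∈ Q := by
    have : x ^ 2 + y * z - x * x ∈ Q := Q.sub_mem hdet (Q.mul_mem_left _ hx)
    have e : x ^ 2 + y * z - x * x = y * z := by ring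
    rwa [e] at this
  -- the entries modulo `x`
  have h12' : (a - q * d) * y ∈ Q := by
    have : e12 q a β d x y + (1 + q) * β * x ∈ Q := Q.add_mem h12 (Q.mul_mem_left _ hx)
    have e : e12 q a β d x y + (1 + q) * β * x = (a - q * d) * y := by unfold e12; ring
    rwa [e] at this
  have h21' : (d - q * a) * z ∈ Q := by
    have : e21 q a γ d x z - (1 + q) * γ * x ∈ Q := Q.sub_mem h21 (Q.mul_mem_left _ hx)
    have e : e21 q a γ d x z - (1 + q) * γ * x = (d - q * a) * z := by unfold e21; ring
    rwa [e] at this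
  have h11' : β * z - q * γ * y ∈ Q := by
    have : e11 q a β γ x y z - (1 - q) * a * x ∈ Q := Q.sub_mem h11 (Q.mul_mem_left _ hx)
    have e : e11 q a β γ x y z - (1 - q) * a * x = β * z - q * γ * y := by unfold e11; ring
    rwa [e] at this
  have h22' : γ * y - q * β * z ∈ Q := by
    have : e22 q β γ d x y z - (q - 1) * d * x ∈ Q := Q.sub_mem h22 (Q.mul_mem_left _ hx)
    have e : e22 q β γ d x y z - (q - 1) * d * x = γ * y - q * β * z := by unfold e22; ring
    rwa [e] at this
  refine ⟨hx, ?_, ?_⟩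
  · -- `y ∈ Q`
    by_contra hy
    have hz : z ∈ Q := (Ideal.IsPrime.mem_or_mem ‹_› hyz).resolve_left hy
    have had : a - q * d ∈ Q := (Ideal.IsPrime.mem_or_mem ‹_› h12').resolve_right hy
    have hγy : γ * y ∈ Q := by
      have : γ * y - q * β * z + q * β * z ∈ Q := Q.add_mem h22' (Q.mul_mem_left _ hz)
      simpa using this
    have hγ : γ ∈ Q := (Ideal.IsPrime.mem_or_mem ‹_› hγy).resolve_right hy
    apply hP
    have e : pdisc q a β γ d =
        (q * (a + d + (1 + q) * d) - (1 + q) ^ 2 * d) * (a - q * d) + (1 + q) ^ 2 * β * γ := by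
      unfold pdisc; ring
    rw [e]
    exact Q.add_mem (Q.mul_mem_left _ had) (Q.mul_mem_left _ hγ)
  · -- `z ∈ Q`
    by_contra hz
    have hy : y ∈ Q := (Ideal.IsPrime.mem_or_mem ‹_› hyz).resolve_right hz
    have hda : d - q * a ∈ Q := (Ideal.IsPrime.mem_or_mem ‹_› h21').resolve_right hz
    have hβz : β * z ∈ Q := by
      have : β * z - q * γ * y + q * γ * y ∈ Q := Q.add_mem h11' (Q.mul_mem_left _ hy)
      simpa using this
    have hβ : β ∈ Q := (Ideal.IsPrime.mem_or_mem ‹_› hβz).resolve_right hz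
    apply hP
    have e : pdisc q a β γ d =
        (q * (a + d + (1 + q) * a) - (1 + q) ^ 2 * a) * (d - q * a) + (1 + q) ^ 2 * γ * β := by
      unfold pdisc; ring
    rw [e]
    exact Q.add_mem (Q.mul_mem_left _ hda) (Q.mul_mem_left _ hβ)

end Identity

/-! ### The `1`-side ideal in the coordinates of `LocDefs1` -/

section Ideals

open MvPowerSeries
open Fermat.Agent.M43.LocDefs1

variable (O : Type*) [CommRing O] {ι : Type} (m : ℕ)

/-- The five relations of the `1`-side at the prime `i`: the entries of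
`Φ_i N_i - q_i N_i Φ_i` with `Φ_i = t_i + X_i`, `N_i = Y_i`, and `q(Y_i) = - det N_i`.
Here `t_i` is the half trace of `Φ_i` (a power series with `t_i ^ 2 = det Φ_i + q(X_i)`). -/
noncomputable def oneGen (q : ι → O) (t : ι → PS O ι m) (i : ι) : Fin 5 → PS O ι m :=
  ![e11 (C (q i)) (t i + xv O m i 0) (xv O m i 1) (xv O m i 2)
      (yv O m i 0) (yv O m i 1) (yv O m i 2),
    e12 (C (q i)) (t i + xv O m i 0) (xv O m i 1) (t i - xv O m i 0) (yv O m i 0) (yv O m i 1),
    e21 (C (q i)) (t i + xv O m i 0) (xv O m i 2) (t i - xv O m i 0) (yv O m i 0) (yv O m i 2),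
    e22 (C (q i)) (xv O m i 1) (xv O m i 2) (t i - xv O m i 0)
      (yv O m i 0) (yv O m i 1) (yv O m i 2),
    quad O m (0 : ι → O) i]

/-- the set of all relations of the `1`-side. -/
def oneSet (q : ι → O) (t : ι → PS O ι m) : Set (PS O ι m) :=
  {f | ∃ (i : ι) (j : Fin 5), f = oneGen O m q t i j}

/-- the ideal of the `1`-side local ring. -/
noncomputable def oneIdeal (q : ι → O) (t : ι → PS O ι m) : Ideal (PS O ι m) :=
  Ideal.span (oneSet O m q t)

/-- the `1`-side local ring at the bad primes, with `m` free variables. -/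
abbrev OneRing (q : ι → O) (t : ι → PS O ι m) : Type _ := PS O ι m ⧸ oneIdeal O m q t

/-- the entries of the `N_i`. -/
def nilSet : Set (PS O ι m) := {f | ∃ (i : ι) (k : Fin 3), f = yv O m i k}

/-- the ideal of the unramified locus `N_i = 0` for all `i`. -/
noncomputable def nilIdeal : Ideal (PS O ι m) := Ideal.span (nilSet O (ι := ι) m)

/-- `P'_i = q_i (tr Φ_i) ^ 2 - (1 + q_i) ^ 2 det Φ_i`. -/
noncomputable def pd (q : ι → O) (t : ι → PS O ι m) (i : ι) : PS O ι m :=
  pdisc (C (q i)) (t i + xv O m i 0) (xv O m i 1) (xv O m i 2) (t i - xv O m i 0)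

/-- the product of the `P'_i`. -/
noncomputable def pdProd [Fintype ι] (q : ι → O) (t : ι → PS O ι m) : PS O ι m :=
  ∏ i, pd O m q t i

variable {O m}

theorem oneGen_mem_oneIdeal (q : ι → O) (t : ι → PS O ι m) (i : ι) (j : Fin 5) :
    oneGen O m q t i j ∈ oneIdeal O m q t :=
  Ideal.subset_span ⟨i, j, rfl⟩

/-- **(L-1).**  A prime of the `1`-side ring not containing `∏ P'_i` contains all `N_i`. -/
theorem nilIdeal_le_of_pdProd_notMem [Fintype ι] (q : ι → O) (t : ι → PS O ι m)
    (Q : Ideal (PS O ι m)) (hQ : Q.IsPrime) (h1 : oneIdeal O m q t ≤ Q)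
    (hP : pdProd O m q t ∉ Q) : nilIdeal O m ≤ Q := by
  have hmem : ∀ i, yv O m i 0 ∈ Q ∧ yv O m i 1 ∈ Q ∧ yv O m i 2 ∈ Q := by
    intro i
    have hPi : pd O m q t i ∉ Q := fun h =>
      hP (Q.mem_of_dvd (Finset.dvd_prod_of_mem _ (Finset.mem_univ i)) h)
    have g := fun j => h1 (oneGen_mem_oneIdeal q t i j)
    refine mem_of_pdisc_notMem Q (C (q i)) (t i + xv O m i 0) (xv O m i 1) (xv O m i 2)
      (t i - xv O m i 0) (yv O m i 0) (yv O m i 1) (yv O m i 2) ?_ (g 0) (g 1) (g 2) (g 3) hPi
    have h4 := g 4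
    simpa [oneGen, quad] using h4
  refine Ideal.span_le.2 ?_
  rintro f ⟨i, k, rfl⟩
  obtain ⟨h0, h1', h2⟩ := hmem i
  fin_cases k
  · exact h0
  · exact h1'
  · exact h2

/-- **(L-sp).**  The `1`-side and the `χ`-side agree modulo `lam`, as soon as `q_i ≡ 1` and
`c_i ≡ 0` modulo `lam` and `2` is invertible. -/
theorem oneIdeal_sup_eq_chiIdeal_sup (q c : ι → O) (t : ι → PS O ι m) (lam : O)
    (hq : ∀ i, q i - 1 ∈ Ideal.span {lam}) (hc : ∀ i, c i ∈ Ideal.span {lam})
    (h2 : IsUnit (2 : O)) :
    oneIdeal O m q t ⊔ Ideal.span {C lam} = chiIdeal O m c ⊔ Ideal.span {C lam} := by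
  have hC : ∀ (J : Ideal (PS O ι m)), Ideal.span {C lam} ≤ J → ∀ r ∈ Ideal.span {lam},
      (C r : PS O ι m) ∈ J := by
    intro J hJ r hr
    obtain ⟨u, rfl⟩ := Ideal.mem_span_singleton'.1 hr
    rw [map_mul]
    exact J.mul_mem_left _ (hJ (Ideal.subset_span rfl))
  have hq1 : ∀ (J : Ideal (PS O ι m)), Ideal.span {C lam} ≤ J → ∀ i,
      (1 - C (q i) : PS O ι m) ∈ J := by
    intro J hJ i
    have := hC J hJ _ (hq i)
    rw [map_sub, map_one] at this
    have e : (1 - C (q i) : PS O ι m) = -(C (q i) - 1) := by ring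
    rw [e]
    exact J.neg_mem this
  refine le_antisymm (sup_le (Ideal.span_le.2 ?_) le_sup_right)
    (sup_le (Ideal.span_le.2 ?_) le_sup_right)
  · -- the relations of the `1`-side are combinations of minors, quadrics and `lam`
    set J := chiIdeal O m c ⊔ Ideal.span {C lam} with hJ
    have hlamJ : Ideal.span {C lam} ≤ J := le_sup_right
    have hmin : ∀ i k l, minor O m i k l ∈ J := fun i k l =>
      le_sup_left (a := chiIdeal O m c) (Ideal.subset_span (Or.inl ⟨i, k, l, rfl⟩))
    have hquad : ∀ i, quad O m c i ∈ J := fun i =>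
      le_sup_left (a := chiIdeal O m c) (Ideal.subset_span (Or.inr ⟨i, rfl⟩))
    rintro f ⟨i, j, rfl⟩
    have hq1i := hq1 J hlamJ i
    fin_cases j
    · have e : oneGen O m q t i 0 = minor O m i 1 2 +
          (1 - C (q i)) * ((t i + xv O m i 0) * yv O m i 0 + xv O m i 2 * yv O m i 1) := by
        simp only [oneGen, Matrix.cons_val_zero, e11, minor]; ring
      show oneGen O m q t i 0 ∈ J
      rw [e]
      exact J.add_mem (hmin i 1 2) (J.mul_mem_right _ hq1i)
    · have e : oneGen O m q t i 1 = (1 + C (q i)) * minor O m i 0 1 +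
          (1 - C (q i)) * (t i * yv O m i 1) := by
        simp only [oneGen, Matrix.cons_val_one, Matrix.cons_val_zero, e12, minor]; ring
      show oneGen O m q t i 1 ∈ J
      rw [e]
      exact J.add_mem (J.mul_mem_left _ (hmin i 0 1)) (J.mul_mem_right _ hq1i)
    · have e : oneGen O m q t i 2 = (1 + C (q i)) * minor O m i 2 0 +
          (1 - C (q i)) * (t i * yv O m i 2) := by
        simp only [oneGen, Matrix.cons_val, e21, minor]; ring
      show oneGen O m q t i 2 ∈ J
      rw [e]
      exact J.add_mem (J.mul_mem_left _ (hmin i 2 0)) (J.mul_mem_right _ hq1i)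
    · have e : oneGen O m q t i 3 = -minor O m i 1 2 +
          (1 - C (q i)) * (xv O m i 1 * yv O m i 2 - (t i - xv O m i 0) * yv O m i 0) := by
        simp only [oneGen, Matrix.cons_val, e22, minor]; ring
      show oneGen O m q t i 3 ∈ J
      rw [e]
      exact J.add_mem (J.neg_mem (hmin i 1 2)) (J.mul_mem_right _ hq1i)
    · have e : oneGen O m q t i 4 = quad O m c i + C (c i) := by
        simp only [oneGen, Matrix.cons_val, quad, Pi.zero_apply, map_zero]; ring
      show oneGen O m q t i 4 ∈ J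
      rw [e]
      exact J.add_mem (hquad i) (hC J hlamJ _ (hc i))
  · -- the minors and quadrics are combinations of the relations of the `1`-side and `lam`
    set J := oneIdeal O m q t ⊔ Ideal.span {C lam} with hJ
    have hlamJ : Ideal.span {C lam} ≤ J := le_sup_right
    have hg : ∀ i j, oneGen O m q t i j ∈ J := fun i j =>
      le_sup_left (a := oneIdeal O m q t) (oneGen_mem_oneIdeal q t i j)
    obtain ⟨half, hhalf⟩ := h2.exists_left_inv
    have htwo : ∀ f : PS O ι m, 2 * f ∈ J → f ∈ J := by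
      intro f hf
      have e : f = C half * (2 * f) := by
        have : (C half : PS O ι m) * 2 = 1 := by
          rw [← map_ofNat (C (σ := Var ι m) (R := O)) 2, ← map_mul, hhalf, map_one]
        rw [← mul_assoc, this, one_mul]
      rw [e]
      exact J.mul_mem_left _ hf
    have h12 : ∀ i, minor O m i 1 2 ∈ J := by
      intro i
      have hq1i := hq1 J hlamJ i
      have e : minor O m i 1 2 = oneGen O m q t i 0 -
          (1 - C (q i)) * ((t i + xv O m i 0) * yv O m i 0 + xv O m i 2 * yv O m i 1) := by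
        simp only [oneGen, Matrix.cons_val_zero, e11, minor]; ring
      rw [e]
      exact J.sub_mem (hg i 0) (J.mul_mem_right _ hq1i)
    have h01 : ∀ i, minor O m i 0 1 ∈ J := by
      intro i
      have hq1i := hq1 J hlamJ i
      apply htwo
      have e : 2 * minor O m i 0 1 = oneGen O m q t i 1 -
          (1 - C (q i)) * (t i * yv O m i 1 - minor O m i 0 1) := by
        simp only [oneGen, Matrix.cons_val_one, Matrix.cons_val_zero, e12, minor]; ring
      rw [e]
      exact J.sub_mem (hg i 1) (J.mul_mem_right _ hq1i)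
    have h20 : ∀ i, minor O m i 2 0 ∈ J := by
      intro i
      have hq1i := hq1 J hlamJ i
      apply htwo
      have e : 2 * minor O m i 2 0 = oneGen O m q t i 2 -
          (1 - C (q i)) * (t i * yv O m i 2 - minor O m i 2 0) := by
        simp only [oneGen, Matrix.cons_val, e21, minor]; ring
      rw [e]
      exact J.sub_mem (hg i 2) (J.mul_mem_right _ hq1i)
    rintro f (⟨i, k, l, rfl⟩ | ⟨i, rfl⟩)
    · have hswap : ∀ k l, minor O m i k l = -minor O m i l k := by
        intro k l; simp only [minor]; ring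
      have hself : ∀ k, minor O m i k k = 0 := by
        intro k; simp only [minor]; ring
      fin_cases k <;> fin_cases l
      · show minor O m i 0 0 ∈ J
        rw [hself]; exact J.zero_mem
      · exact h01 i
      · show minor O m i 0 2 ∈ J
        rw [hswap]; exact J.neg_mem (h20 i)
      · show minor O m i 1 0 ∈ J
        rw [hswap]; exact J.neg_mem (h01 i)
      · show minor O m i 1 1 ∈ J
        rw [hself]; exact J.zero_mem
      · exact h12 i
      · exact h20 i
      · show minor O m i 2 1 ∈ J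
        rw [hswap]; exact J.neg_mem (h12 i)
      · show minor O m i 2 2 ∈ J
        rw [hself]; exact J.zero_mem
    · have e : quad O m c i = oneGen O m q t i 4 - C (c i) := by
        simp only [oneGen, Matrix.cons_val, quad, Pi.zero_apply, map_zero]; ring
      show quad O m c i ∈ J
      rw [e]
      exact J.sub_mem (hg i 4) (hC J hlamJ _ (hc i))

end Ideals

/-! ### A prime `η ⊇ (lam, N)` of the `1`-side ring with `∏ P'_i ∉ η` -/

section Eta

open MvPowerSeries
open Fermat.Agent.M43.LocDefs1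

variable {O : Type*} [CommRing O] {ι : Type} [Fintype ι] {m : ℕ}
variable (k : Type*) [Field k] [Algebra O k]

/-- the substitution `x i 0 ↦ T`, all other variables `↦ 0`. -/
noncomputable def etaFun : Var ι m → MvPowerSeries Unit k
  | Sum.inl (Sum.inl (_, j)) => if j = 0 then X () else 0
  | _ => 0

theorem hasSubst_etaFun : HasSubst (etaFun (ι := ι) (m := m) k) := by
  refine hasSubst_of_constantCoeff_zero ?_
  rintro ((⟨i, j⟩ | ⟨i, j⟩) | j)
  · by_cases hj : j = 0 <;> simp [etaFun, hj]
  · simp [etaFun]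
  · simp [etaFun]

/-- the evaluation `PS O ι m → k[[T]]`. -/
noncomputable def etaHom : PS O ι m →ₐ[O] MvPowerSeries Unit k :=
  substAlgHom (hasSubst_etaFun k)

theorem etaHom_xv (i : ι) (j : Fin 3) :
    etaHom (O := O) (m := m) k (xv O m i j) = if j = 0 then X () else 0 := by
  unfold etaHom xv
  rw [substAlgHom_X]
  rfl

theorem etaHom_yv (i : ι) (j : Fin 3) : etaHom (O := O) (m := m) k (yv O m i j) = 0 := by
  unfold etaHom yv
  rw [substAlgHom_X]
  rfl

theorem etaHom_C (r : O) :
    etaHom (O := O) (ι := ι) (m := m) k (C r) = C (algebraMap O k r) := by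
  rw [c_eq_algebraMap, AlgHom.commutes, MvPowerSeries.algebraMap_apply]

/-- **Existence of `η`.**  If `lam ↦ 0`, `q_i ↦ 1` in a field `k` of characteristic `≠ 2`, then
there is a prime of the `1`-side ring containing `lam` and all `N_i` but not `∏ P'_i`. -/
theorem exists_prime_eta (q : ι → O) (t : ι → PS O ι m) (lam : O)
    (hlam : algebraMap O k lam = 0) (hq : ∀ i, algebraMap O k (q i) = 1) (h2 : (2 : k) ≠ 0) :
    ∃ η : Ideal (PS O ι m), η.IsPrime ∧ oneIdeal O m q t ≤ η ∧ nilIdeal O m ≤ η ∧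
      C lam ∈ η ∧ pdProd O m q t ∉ η := by
  set ψ := etaHom (O := O) (ι := ι) (m := m) k with hψ
  refine ⟨RingHom.ker ψ.toRingHom, RingHom.ker_isPrime _, ?_, ?_, ?_, ?_⟩
  · refine Ideal.span_le.2 ?_
    rintro f ⟨i, j, rfl⟩
    show ψ _ = 0
    fin_cases j <;>
      simp [oneGen, e11, e12, e21, e22, quad, hψ, etaHom_yv]
  · refine Ideal.span_le.2 ?_
    rintro f ⟨i, j, rfl⟩
    exact etaHom_yv k i j
  · show ψ (C lam) = 0
    rw [hψ, etaHom_C, hlam, map_zero]
  · show ¬ ψ (pdProd O m q t) = 0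
    have hpd : ∀ i, ψ (pd O m q t i) = 4 * (X () : MvPowerSeries Unit k) ^ 2 := by
      intro i
      simp only [pd, pdisc, map_sub, map_mul, map_add, map_pow, map_one, hψ, etaHom_C, hq,
        etaHom_xv]
      simp
      ring
    rw [pdProd, map_prod]
    refine Finset.prod_ne_zero_iff.2 fun i _ => ?_
    rw [hpd]
    have h4 : (4 : MvPowerSeries Unit k) ≠ 0 := by
      have : (4 : MvPowerSeries Unit k) = C ((2 : k) * 2) := by
        rw [map_mul, map_ofNat]; norm_num
      rw [this, Ne, ← map_zero (C (σ := Unit) (R := k))]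
      intro h
      have := C_injective h
      exact (mul_ne_zero h2 h2) this
    have hX : (X () : MvPowerSeries Unit k) ≠ 0 := by
      intro h
      have := congrArg (coeff (Finsupp.single () 1)) h
      simp [coeff_X] at this
    exact mul_ne_zero h4 (pow_ne_zero _ hX)

end Eta

end Fermat.Agent.M43.OneSide5
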