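import Mathlib
import Fermat.Agent.M43.LocDefs1
import Fermat.Agent.M43.OneSide5
import Fermat.Agent.M43.LocDim5

/-!
# M43 / P-LOC (LOC-1): the local rings receive the local lifts

* matrix level (`B` any commutative ring with `2 * half = 1`), traceless coordinates
  `tl M = (half (M₀₀ - M₁₁), M₀₁, M₁₀)`, half trace `htr M`:
  - `minor_eq_zero_of_commute`, `quad_eq_of_trace_det`: commuting `Φ, Σ` with `tr Σ = 2 s`,
    `det Σ = 1` satisfy the minors and `q(Y) = s² - 1`;
  - `pow_eq_one_of_charpoly`: `Σ² - (ζ + ζ') Σ + 1 = 0`, `ζ ζ' = 1`, `ζ ^ n = 1`, `ζ ≠ ζ'` in a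
    domain `O` give `Σ ^ n = 1`; `commute_of_conj_eq_pow`;
  - `one_side_relations`: `tr Σ = 2`, `det Σ = 1`, `Φ Σ = Σ ^ q Φ` give the five relations of
    `OneSide5`.
* ideal level: `chiIdeal_le_ker`, `oneIdeal_le_ker` for an algebra homomorphism
  `γ : PS O ι m →ₐ[O] B` taking the variables to the traceless coordinates of such matrices.
* `exists_sqrt`: the half trace `t` with `t² = s₀² + u` as a power series (Hensel).
-/

namespace Fermat.Agent.M43.LocRep5

open Matrix

section Mat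

variable {B : Type*} [CommRing B]

/-- the traceless coordinates of a `2 × 2` matrix. -/
def tl (half : B) (M : Matrix (Fin 2) (Fin 2) B) : Fin 3 → B :=
  ![half * (M 0 0 - M 1 1), M 0 1, M 1 0]

/-- the half trace. -/
def htr (half : B) (M : Matrix (Fin 2) (Fin 2) B) : B := half * (M 0 0 + M 1 1)

theorem entries_of_tl (half : B) (h2 : 2 * half = 1) (M : Matrix (Fin 2) (Fin 2) B) :
    M 0 0 = htr half M + tl half M 0 ∧ M 1 1 = htr half M - tl half M 0 ∧
      M 0 1 = tl half M 1 ∧ M 1 0 = tl half M 2 := by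
  refine ⟨?_, ?_, rfl, rfl⟩
  · simp only [htr, tl, Matrix.cons_val_zero]
    linear_combination (-(M 0 0)) * h2
  · simp only [htr, tl, Matrix.cons_val_zero]
    linear_combination (-(M 1 1)) * h2

/-- commuting matrices have proportional traceless parts. -/
theorem minor_eq_zero_of_commute (half : B)
    (Φ S : Matrix (Fin 2) (Fin 2) B) (hc : Φ * S = S * Φ) (k l : Fin 3) :
    tl half Φ k * tl half S l - tl half Φ l * tl half S k = 0 := by
  have h00 := congrFun (congrFun hc 0) 0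
  have h01 := congrFun (congrFun hc 0) 1
  have h10 := congrFun (congrFun hc 1) 0
  simp only [Matrix.mul_apply, Fin.sum_univ_two] at h00 h01 h10
  fin_cases k <;> fin_cases l <;> simp only [tl, Matrix.cons_val_zero, Matrix.cons_val_one,
    Matrix.cons_val, Fin.zero_eta, Fin.mk_one, Fin.reduceFinMk]
  · ring
  · linear_combination half * h01
  · linear_combination (-half) * h10
  · linear_combination (-half) * h01
  · ring
  · linear_combination h00
  · linear_combination half * h10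
  · linear_combination (-1 : B) * h00
  · ring

/-- `q(Y) = s² - 1` when `tr Σ = 2 s` and `det Σ = 1`. -/
theorem quad_eq_of_trace_det (half : B) (h2 : 2 * half = 1) (S : Matrix (Fin 2) (Fin 2) B)
    (s : B) (htr' : S 0 0 + S 1 1 = 2 * s) (hdet : S 0 0 * S 1 1 - S 0 1 * S 1 0 = 1) :
    tl half S 0 ^ 2 + tl half S 1 * tl half S 2 = s ^ 2 - 1 := by
  simp only [tl, Matrix.cons_val_zero, Matrix.cons_val_one, Matrix.cons_val]
  have h4 : 4 * half ^ 2 = 1 := by linear_combination (2 * half + 1) * h2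
  have e : s = half * (S 0 0 + S 1 1) := by linear_combination (-half) * htr' + (-s) * h2
  rw [e]
  linear_combination (-(S 0 0 * S 1 1)) * h4 - hdet

/-- Cayley--Hamilton for `2 × 2` matrices. -/
theorem cayley_hamilton_two (S : Matrix (Fin 2) (Fin 2) B) :
    S * S - (S 0 0 + S 1 1) • S + (S 0 0 * S 1 1 - S 0 1 * S 1 0) • (1 : Matrix (Fin 2) (Fin 2) B)
      = 0 := by
  ext i j
  fin_cases i <;> fin_cases j <;>
    simp [Matrix.mul_apply, Fin.sum_univ_two] <;> ring

/-- a unipotent `2 × 2` matrix (`tr = 2`, `det = 1`) is `1 + N` with `N * N = 0`. -/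
theorem sub_one_mul_self (S : Matrix (Fin 2) (Fin 2) B) (htr' : S 0 0 + S 1 1 = 2)
    (hdet : S 0 0 * S 1 1 - S 0 1 * S 1 0 = 1) : (S - 1) * (S - 1) = 0 := by
  have h := cayley_hamilton_two S
  rw [htr', hdet, one_smul] at h
  have e : (S - 1) * (S - 1) = S * S - (2 : B) • S + 1 := by
    rw [two_smul]; noncomm_ring
  rw [e, h]

theorem pow_eq_one_add_of_sq_zero (N : Matrix (Fin 2) (Fin 2) B) (hN : N * N = 0) (q : ℕ) :
    (1 + N) ^ q = 1 + (q : B) • N := by
  induction q with
  | zero => simp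
  | succ q ih =>
    rw [pow_succ, ih, mul_add, mul_one, add_mul, one_mul, smul_mul_assoc, hN, smul_zero,
      add_zero, Nat.cast_succ, add_smul, one_smul, add_assoc]

/-- **the relations of the `1`-side.**  For `S` unipotent and `Φ S = S ^ q Φ` the matrix
`N = S - 1` satisfies `det N = 0` and `Φ N = q N Φ`, i.e. the five relations of `OneSide5`. -/
theorem one_side_relations (Φ S : Matrix (Fin 2) (Fin 2) B) (q : ℕ)
    (htr' : S 0 0 + S 1 1 = 2) (hdet : S 0 0 * S 1 1 - S 0 1 * S 1 0 = 1)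
    (hrel : Φ * S = S ^ q * Φ) :
    (S 0 0 - 1) ^ 2 + S 0 1 * S 1 0 = 0 ∧
    OneSide5.e11 (q : B) (Φ 0 0) (Φ 0 1) (Φ 1 0) (S 0 0 - 1) (S 0 1) (S 1 0) = 0 ∧
    OneSide5.e12 (q : B) (Φ 0 0) (Φ 0 1) (Φ 1 1) (S 0 0 - 1) (S 0 1) = 0 ∧
    OneSide5.e21 (q : B) (Φ 0 0) (Φ 1 0) (Φ 1 1) (S 0 0 - 1) (S 1 0) = 0 ∧
    OneSide5.e22 (q : B) (Φ 0 1) (Φ 1 0) (Φ 1 1) (S 0 0 - 1) (S 0 1) (S 1 0) = 0 := by
  have hN := sub_one_mul_self S htr' hdet
  have hS : S = 1 + (S - 1) := by abel
  have hpow : S ^ q = 1 + (q : B) • (S - 1) := by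
    conv_lhs => rw [hS]
    exact pow_eq_one_add_of_sq_zero _ hN q
  have hrel' : Φ * (S - 1) - (q : B) • ((S - 1) * Φ) = 0 := by
    have h1 : Φ * S = Φ + Φ * (S - 1) := by
      conv_lhs => rw [hS]
      rw [mul_add, mul_one]
    rw [h1, hpow, add_mul, one_mul, smul_mul_assoc] at hrel
    rw [sub_eq_zero]
    exact add_left_cancel hrel
  have hN11 : S 1 1 - 1 = -(S 0 0 - 1) := by linear_combination htr'
  have hNmat : S - 1 = !![S 0 0 - 1, S 0 1; S 1 0, -(S 0 0 - 1)] := by
    ext i j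
    fin_cases i <;> fin_cases j <;> simp [hN11]
  have hΦmat : Φ = !![Φ 0 0, Φ 0 1; Φ 1 0, Φ 1 1] := Matrix.eta_fin_two Φ
  rw [hNmat] at hrel'
  conv at hrel' => rw [hΦmat]
  rw [OneSide5.matrix_eq] at hrel'
  have g := fun i j => congrFun (congrFun hrel' i) j
  refine ⟨?_, ?_, ?_, ?_, ?_⟩
  · have h00 := congrFun (congrFun hN 0) 0
    rw [hNmat] at h00
    simp [Matrix.mul_apply, Fin.sum_univ_two] at h00
    linear_combination h00
  · simpa using g 0 0
  · simpa using g 0 1
  · simpa using g 1 0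
  · simpa using g 1 1

end Mat

section ChiSide

variable {O : Type*} [CommRing O] [IsDomain O] {B : Type*} [CommRing B] [Algebra O B]

/-- `T ^ n - 1` is divisible by `(T - ζ)(T - ζ')` for two distinct `n`-th roots of unity. -/
theorem exists_mul_eq_X_pow_sub_one (ζ ζ' : O) (n : ℕ) (h1 : ζ ^ n = 1) (h1' : ζ' ^ n = 1)
    (hne : ζ ≠ ζ') :
    ∃ h : Polynomial O, (Polynomial.X - Polynomial.C ζ) * (Polynomial.X - Polynomial.C ζ') * h =
      Polynomial.X ^ n - 1 := by
  have hr : (Polynomial.X ^ n - 1 : Polynomial O).IsRoot ζ := by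
    simp [Polynomial.IsRoot, h1]
  obtain ⟨g, hg⟩ := Polynomial.dvd_iff_isRoot.2 hr
  have hr' : g.IsRoot ζ' := by
    have h2 : (Polynomial.X ^ n - 1 : Polynomial O).eval ζ' = 0 := by simp [h1']
    rw [hg, Polynomial.eval_mul, Polynomial.eval_sub, Polynomial.eval_X, Polynomial.eval_C] at h2
    rcases mul_eq_zero.1 h2 with h | h
    · exact absurd (sub_eq_zero.1 h).symm hne
    · exact h
  obtain ⟨h, hh⟩ := Polynomial.dvd_iff_isRoot.2 hr'
  exact ⟨h, by rw [hg, hh, mul_assoc]⟩

/-- **`Σ ^ n = 1`** for a `2 × 2` matrix with characteristic polynomial `(T - ζ)(T - ζ')`,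
`ζ ζ' = 1`, `ζ ^ n = 1`, `ζ ≠ ζ'`. -/
theorem pow_eq_one_of_charpoly (ζ ζ' : O) (n : ℕ) (hζ : ζ * ζ' = 1) (h1 : ζ ^ n = 1)
    (hne : ζ ≠ ζ') (S : Matrix (Fin 2) (Fin 2) B)
    (htr' : S 0 0 + S 1 1 = algebraMap O B (ζ + ζ'))
    (hdet : S 0 0 * S 1 1 - S 0 1 * S 1 0 = 1) : S ^ n = 1 := by
  have h1' : ζ' ^ n = 1 := by
    have : (ζ * ζ') ^ n = 1 := by rw [hζ, one_pow]
    rwa [mul_pow, h1, one_mul] at this
  obtain ⟨h, hh⟩ := exists_mul_eq_X_pow_sub_one ζ ζ' n h1 h1' hne
  have hquad : (Polynomial.X - Polynomial.C ζ) * (Polynomial.X - Polynomial.C ζ') =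
      (Polynomial.X ^ 2 - Polynomial.C (ζ + ζ') * Polynomial.X + 1 : Polynomial O) := by
    have : (Polynomial.C ζ * Polynomial.C ζ' : Polynomial O) = 1 := by
      rw [← Polynomial.C_mul, hζ, Polynomial.C_1]
    rw [map_add]
    linear_combination this
  have hCH := cayley_hamilton_two S
  rw [htr', hdet, one_smul] at hCH
  have h2 := congrArg (Polynomial.aeval S) hh
  rw [hquad, map_mul] at h2
  have haev : ∀ a : O, Polynomial.aeval S
      (Polynomial.X ^ 2 - Polynomial.C a * Polynomial.X + 1 : Polynomial O) =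
        S * S - (algebraMap O B a) • S + 1 := by
    intro a
    simp only [map_add, map_sub, map_mul, map_pow, Polynomial.aeval_X, Polynomial.aeval_C,
      map_one]
    rw [pow_two, Algebra.algebraMap_eq_smul_one, smul_mul_assoc, one_mul, algebraMap_smul]
  have h3 : Polynomial.aeval S
      (Polynomial.X ^ 2 - Polynomial.C (ζ + ζ') * Polynomial.X + 1 : Polynomial O) = 0 := by
    rw [haev, hCH]
  rw [h3, zero_mul] at h2
  simp only [map_sub, map_pow, Polynomial.aeval_X, map_one] at h2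
  exact (sub_eq_zero.1 h2.symm)

/-- `Φ Σ = Σ ^ q Φ` and `Σ ^ (q - 1) = 1` give `Φ Σ = Σ Φ`. -/
theorem commute_of_conj_eq_pow (Φ S : Matrix (Fin 2) (Fin 2) B) (q : ℕ) (hq : 0 < q)
    (hrel : Φ * S = S ^ q * Φ) (hpow : S ^ (q - 1) = 1) : Φ * S = S * Φ := by
  have : S ^ q = S := by
    have hq' : q = (q - 1) + 1 := by omega
    rw [hq', pow_succ, hpow, one_mul]
  rw [hrel, this]

end ChiSide

section Ideals

open MvPowerSeries
open Fermat.Agent.M43.LocDefs1 Fermat.Agent.M43.OneSide5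

variable {O : Type*} [CommRing O] {ι : Type} {m : ℕ} {B : Type*} [CommRing B] [Algebra O B]

theorem algHom_C (γ : PS O ι m →ₐ[O] B) (r : O) : γ (C r) = algebraMap O B r := by
  rw [c_eq_algebraMap, AlgHom.commutes]

/-- **(LOC-1), `χ`-side.**  An algebra homomorphism taking the variables to the traceless
coordinates of commuting matrices `Φ_i, Σ_i` with `tr Σ_i = 2 s_i`, `det Σ_i = 1` kills the ideal
of the `χ`-side ring with `c_i = s_i² - 1`. -/
theorem chiIdeal_le_ker (γ : PS O ι m →ₐ[O] B) (half : B) (h2 : 2 * half = 1) (c s : ι → O)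
    (hcs : ∀ i, c i = s i ^ 2 - 1) (Φ S : ι → Matrix (Fin 2) (Fin 2) B)
    (hx : ∀ i k, γ (xv O m i k) = tl half (Φ i) k)
    (hy : ∀ i k, γ (yv O m i k) = tl half (S i) k)
    (hcomm : ∀ i, Φ i * S i = S i * Φ i)
    (htr' : ∀ i, S i 0 0 + S i 1 1 = 2 * algebraMap O B (s i))
    (hdet : ∀ i, S i 0 0 * S i 1 1 - S i 0 1 * S i 1 0 = 1) :
    chiIdeal O m c ≤ RingHom.ker γ.toRingHom := by
  refine Ideal.span_le.2 ?_
  rintro f (⟨i, k, l, rfl⟩ | ⟨i, rfl⟩)
  · show γ (minor O m i k l) = 0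
    simp only [minor, map_sub, map_mul, hx, hy]
    exact minor_eq_zero_of_commute half (Φ i) (S i) (hcomm i) k l
  · show γ (quad O m c i) = 0
    simp only [quad, map_sub, map_add, map_mul, map_pow, hy, algHom_C]
    rw [quad_eq_of_trace_det half h2 (S i) _ (htr' i) (hdet i), hcs i]
    simp

theorem htr_sq (half : B) (h2 : 2 * half = 1) (M : Matrix (Fin 2) (Fin 2) B) :
    htr half M ^ 2 = (M 0 0 * M 1 1 - M 0 1 * M 1 0) + tl half M 0 ^ 2 +
      tl half M 1 * tl half M 2 := by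
  simp only [htr, tl, Matrix.cons_val_zero, Matrix.cons_val_one, Matrix.cons_val]
  have h4 : 4 * half ^ 2 = 1 := by linear_combination (2 * half + 1) * h2
  linear_combination (M 0 0 * M 1 1) * h4

/-- square roots with invertible sum coincide. -/
theorem eq_of_sq_eq_of_isUnit_add (a b : B) (h : a ^ 2 = b ^ 2) (hu : IsUnit (a + b)) : a = b := by
  have h1 : (a + b) * (a - b) = 0 := by linear_combination h
  have h2 := (hu.mul_right_eq_zero).1 h1
  exact sub_eq_zero.1 h2

/-- **(LOC-1), `1`-side.**  An algebra homomorphism taking the variables to the traceless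
coordinates of `Φ_i, Σ_i` and `t_i` to the half trace of `Φ_i`, with `Σ_i` unipotent and
`Φ_i Σ_i = Σ_i ^ q_i Φ_i`, kills the ideal of the `1`-side ring. -/
theorem oneIdeal_le_ker (γ : PS O ι m →ₐ[O] B) (half : B) (h2 : 2 * half = 1) (q : ι → ℕ)
    (t : ι → PS O ι m) (Φ S : ι → Matrix (Fin 2) (Fin 2) B)
    (hx : ∀ i k, γ (xv O m i k) = tl half (Φ i) k)
    (hy : ∀ i k, γ (yv O m i k) = tl half (S i) k)
    (ht : ∀ i, γ (t i) = htr half (Φ i))
    (htr' : ∀ i, S i 0 0 + S i 1 1 = 2)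
    (hdet : ∀ i, S i 0 0 * S i 1 1 - S i 0 1 * S i 1 0 = 1)
    (hrel : ∀ i, Φ i * S i = S i ^ q i * Φ i) :
    oneIdeal O m (fun i => ((q i : ℕ) : O)) t ≤ RingHom.ker γ.toRingHom := by
  refine Ideal.span_le.2 ?_
  rintro f ⟨i, j, rfl⟩
  show γ (oneGen O m (fun i => ((q i : ℕ) : O)) t i j) = 0
  obtain ⟨e00, e11', e01, e10⟩ := entries_of_tl half h2 (Φ i)
  obtain ⟨r0, r1, r2, r3, r4⟩ := one_side_relations (Φ i) (S i) (q i) (htr' i) (hdet i) (hrel i)
  have hy0 : tl half (S i) 0 = S i 0 0 - 1 := by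
    simp only [tl, Matrix.cons_val_zero]
    linear_combination (-half) * (htr' i) + (S i 0 0 - 1) * h2
  have hy1 : tl half (S i) 1 = S i 0 1 := rfl
  have hy2 : tl half (S i) 2 = S i 1 0 := rfl
  have hC : γ (C (((q i : ℕ) : O))) = ((q i : ℕ) : B) := by
    rw [algHom_C, map_natCast]
  fin_cases j
  · show γ (e11 _ _ _ _ _ _ _) = 0
    simp only [e11, map_sub, map_add, map_mul, map_one, hx, hy, ht, hC, ← e00, ← e01, ← e10,
      hy0, hy1, hy2]
    exact r1
  · show γ (e12 _ _ _ _ _ _) = 0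
    simp only [e12, map_sub, map_add, map_mul, map_one, hx, hy, ht, hC, ← e00, ← e01, ← e11',
      hy0, hy1]
    exact r2
  · show γ (e21 _ _ _ _ _ _) = 0
    simp only [e21, map_sub, map_add, map_mul, map_one, hx, hy, ht, hC, ← e00, ← e10, ← e11',
      hy0, hy2]
    exact r3
  · show γ (e22 _ _ _ _ _ _ _) = 0
    simp only [e22, map_sub, map_add, map_mul, map_one, hx, hy, ht, hC, ← e01, ← e10, ← e11',
      hy0, hy1, hy2]
    exact r4
  · show γ (quad O m (0 : ι → O) i) = 0
    simp only [quad, map_add, map_mul, map_pow, hy, Pi.zero_apply, map_zero,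
      sub_zero, hy0, hy1, hy2]
    exact r0

end Ideals

section Sqrt

open MvPowerSeries

variable {O : Type*} [CommRing O] {σ : Type*} [Finite σ]

/-- **The half trace as a power series.**  For `u` without constant term and `s₀` with `2 s₀`
invertible there is a power series `t` with `t² = s₀² + u` and constant term `s₀` (Hensel's lemma
in the ring of power series, complete for the ideal of the variables). -/
theorem exists_sqrt (u : MvPowerSeries σ O) (hu : constantCoeff u = 0) (s₀ : O)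
    (hs₀ : IsUnit (2 * s₀)) :
    ∃ t : MvPowerSeries σ O, t ^ 2 = C (s₀ ^ 2) + u ∧ constantCoeff t = s₀ := by
  set I : Ideal (MvPowerSeries σ O) := Ideal.span (Set.range X) with hI
  have hH : HenselianRing (MvPowerSeries σ O) I := inferInstance
  let f : Polynomial (MvPowerSeries σ O) := Polynomial.X ^ 2 - Polynomial.C (C (s₀ ^ 2) + u)
  have hf : f.Monic := Polynomial.monic_X_pow_sub_C _ two_ne_zero
  have huI : u ∈ I := LocDim5.mem_span_X_of_constantCoeff_eq_zero u hu
  have hIc : ∀ g ∈ I, constantCoeff g = 0 := by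
    intro g hg
    have hle : I ≤ RingHom.ker (constantCoeff (σ := σ) (R := O)) := by
      rw [hI, Ideal.span_le]
      rintro _ ⟨v, rfl⟩
      exact constantCoeff_X v
    exact hle hg
  have h1 : f.eval (C s₀) ∈ I := by
    have : f.eval (C s₀) = -u := by
      simp only [f, Polynomial.eval_sub, Polynomial.eval_pow, Polynomial.eval_X,
        Polynomial.eval_C, map_pow]
      ring
    rw [this]
    exact I.neg_mem huI
  have h2 : IsUnit (Ideal.Quotient.mk I (f.derivative.eval (C s₀))) := by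
    have : f.derivative.eval (C s₀) = C (2 * s₀) := by
      simp only [f, Polynomial.derivative_sub, Polynomial.derivative_X_pow, Polynomial.derivative_C,
        sub_zero, Polynomial.eval_mul, Polynomial.eval_C, Polynomial.eval_pow, Polynomial.eval_X,
        Nat.cast_ofNat, map_mul]
      rw [map_ofNat]
      simp
    rw [this]
    exact (hs₀.map C).map _
  obtain ⟨t, ht, htI⟩ := hH.is_henselian f hf (C s₀) h1 h2
  refine ⟨t, ?_, ?_⟩
  · have : f.eval t = 0 := ht
    simp only [f, Polynomial.eval_sub, Polynomial.eval_pow, Polynomial.eval_X,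
      Polynomial.eval_C] at this
    exact sub_eq_zero.1 this
  · have := hIc _ htI
    rw [map_sub, constantCoeff_C, sub_eq_zero] at this
    exact this

end Sqrt

section HalfTrace

open MvPowerSeries
open Fermat.Agent.M43.LocDefs1

variable {O : Type*} [CommRing O] {ι : Type} {m : ℕ} {B : Type*} [CommRing B] [Algebra O B]

/-- the half traces `t_i` of the universal Frobenius matrices, `t_i² = s₀_i² + q(X_i)`. -/
theorem exists_halfTrace [Finite ι] (s₀ : ι → O) (hs₀ : ∀ i, IsUnit (2 * s₀ i)) :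
    ∃ t : ι → PS O ι m, ∀ i,
      t i ^ 2 = C (s₀ i ^ 2) + (xv O m i 0 ^ 2 + xv O m i 1 * xv O m i 2) ∧
        constantCoeff (t i) = s₀ i := by
  have h : ∀ i, ∃ t : PS O ι m,
      t ^ 2 = C (s₀ i ^ 2) + (xv O m i 0 ^ 2 + xv O m i 1 * xv O m i 2) ∧
        constantCoeff t = s₀ i := by
    intro i
    refine exists_sqrt _ ?_ (s₀ i) (hs₀ i)
    simp [xv]
  choose t ht using h
  exact ⟨t, ht⟩

/-- the image of `t_i` is the half trace of `Φ_i`, as soon as `det Φ_i` is the right constant and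
the two square roots have invertible sum. -/
theorem algHom_halfTrace (γ : PS O ι m →ₐ[O] B) (half : B) (h2 : 2 * half = 1)
    (t : PS O ι m) (r : O) (i : ι)
    (ht : t ^ 2 = C r + (xv O m i 0 ^ 2 + xv O m i 1 * xv O m i 2))
    (Φ : Matrix (Fin 2) (Fin 2) B) (hx : ∀ k, γ (xv O m i k) = tl half Φ k)
    (hdet : Φ 0 0 * Φ 1 1 - Φ 0 1 * Φ 1 0 = algebraMap O B r)
    (hu : IsUnit (γ t + htr half Φ)) : γ t = htr half Φ := by
  refine eq_of_sq_eq_of_isUnit_add _ _ ?_ hu
  rw [← map_pow, ht, htr_sq half h2, hdet]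
  simp only [map_add, map_mul, map_pow, hx, algHom_C]
  ring

end HalfTrace

end Fermat.Agent.M43.LocRep5
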