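import Mathlib
import Fermat.Agent.W56.TameCyclic8

/-!
# M43 / P-LOC (LOC-0): Frobenius acts on tame inertia by the `q`-th power

Abstract form, in the setting of `W56/TameCyclic8`: if `ψ` is an automorphism of `K` preserving
the valuation and inducing `x ↦ x ^ q` on the residue field, and `σ' = ψ σ ψ⁻¹`, then the tame
character satisfies `χ σ' = χ σ ^ q`; consequently every homomorphism `f` that kills the kernel
of the action and whose values have no `q`-power torsion satisfies `f σ' = f σ ^ q`.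
-/

namespace Fermat.Agent.M43.TameFrob5

open ValuationSubring IsLocalRing
open Fermat.Agent.W56.TameCyclic8

variable {G K : Type*} [Group G] [Field K]
variable {O : ValuationSubring K} {ρ : G →* RingAut K} {π : K} {q : ℕ}

/-- two units of `O` with the same residue have the same image in the residue field. -/
theorem toRes_eq_of_sub_mem (a b : O.unitGroup)
    (h : ((a : Kˣ) : K) - ((b : Kˣ) : K) ∈ O.nonunits) :
    O.unitGroupToResidueFieldUnits a = O.unitGroupToResidueFieldUnits b := by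
  have hb1 : O.valuation ((b : Kˣ) : K) = 1 := b.2
  have hmem : a * b⁻¹ ∈ O.unitGroupToResidueFieldUnits.ker := by
    rw [ker_unitGroupToResidueFieldUnits, Subgroup.mem_comap, Subgroup.coe_subtype,
      mem_principalUnitGroup_iff]
    have e : ((((a * b⁻¹ : O.unitGroup) : Kˣ)) : K) - 1 =
        (((a : Kˣ) : K) - ((b : Kˣ) : K)) / ((b : Kˣ) : K) := by
      have hb0 : ((b : Kˣ) : K) ≠ 0 := (b : Kˣ).ne_zero
      push_cast
      field_simp
    rw [e, map_div₀, hb1, div_one]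
    exact (O.mem_nonunits_iff).1 h
  rw [MonoidHom.mem_ker, map_mul, map_inv, mul_inv_eq_one] at hmem
  exact hmem

variable (S : Setting O ρ π q)
include S

/-- **Frobenius acts on the tame character by the `q`-th power.** -/
theorem chi_conj (ψ : K ≃+* K) (hψv : ∀ x, O.valuation (ψ x) = O.valuation x)
    (hψ : ∀ x ∈ O, ψ x - x ^ q ∈ O.nonunits) (σ σ' : G)
    (h : ∀ x, ρ σ' (ψ x) = ψ (ρ σ x)) : chi S σ' = chi S σ ^ q := by
  set π₁ : K := ψ.symm π with hπ₁
  have hψπ₁ : ψ π₁ = π := ψ.apply_symm_apply π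
  have hπ₁0 : π₁ ≠ 0 := by
    intro h0
    apply S.hπ0
    rw [← hψπ₁, h0, map_zero]
  let p1 : Kˣ := Units.mk0 π₁ hπ₁0
  let w : Kˣ := (piU S)⁻¹ * p1
  have hw : w ∈ O.unitGroup := by
    rw [mem_unitGroup_iff]
    have : ((w : Kˣ) : K) = π⁻¹ * π₁ := by simp [w, p1, piU]
    rw [this, map_mul, map_inv₀, ← hψv π₁, hψπ₁]
    exact inv_mul_cancel₀ ((Valuation.ne_zero_iff _).2 S.hπ0)
  have hp1 : p1 = piU S * w := by simp [w]
  have hu1 : rU ρ σ p1 = rU ρ σ (piU S) * rU ρ σ w := by rw [hp1, rU_mul]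
  have key : ((rU ρ σ' (piU S) : Kˣ) : K) = ψ ((rU ρ σ p1 : Kˣ) : K) := by
    rw [coe_rU, coe_rU]
    have e1 : ((piU S : Kˣ) : K) = π := rfl
    have e2 : ((p1 : Kˣ) : K) = π₁ := rfl
    rw [e1, e2, map_div₀, ← h, hψπ₁]
  -- the three units of `O`
  let a : O.unitGroup := ⟨rU ρ σ' (piU S), rU_mem_unitGroup S σ' _⟩
  let u : O.unitGroup := ⟨rU ρ σ p1, rU_mem_unitGroup S σ _⟩
  have huO : ((rU ρ σ p1 : Kˣ) : K) ∈ O := by
    have : O.valuation ((rU ρ σ p1 : Kˣ) : K) = 1 := rU_mem_unitGroup S σ p1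
    exact (O.valuation_le_one_iff _).1 this.le
  have hab : O.unitGroupToResidueFieldUnits a = O.unitGroupToResidueFieldUnits (u ^ q) := by
    refine toRes_eq_of_sub_mem a (u ^ q) ?_
    have e : (((u ^ q : O.unitGroup) : Kˣ) : K) = ((rU ρ σ p1 : Kˣ) : K) ^ q := by
      push_cast; rfl
    have e' : (((a : O.unitGroup) : Kˣ) : K) = ψ ((rU ρ σ p1 : Kˣ) : K) := key
    rw [e, e']
    exact hψ _ huO
  have hu : O.unitGroupToResidueFieldUnits u = chi S σ := by
    have hmul : u = (⟨rU ρ σ (piU S), rU_mem_unitGroup S σ _⟩ : O.unitGroup) *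
        ⟨rU ρ σ w, rU_mem_unitGroup S σ _⟩ := by
      apply Subtype.ext
      exact hu1
    rw [hmul, map_mul]
    have h1 : O.unitGroupToResidueFieldUnits ⟨rU ρ σ w, rU_mem_unitGroup S σ _⟩ = 1 := by
      rw [← MonoidHom.mem_ker, ker_unitGroupToResidueFieldUnits, Subgroup.mem_comap]
      exact rU_mem_principal_of_mem_unitGroup S σ hw
    rw [h1, mul_one]
    rfl
  show O.unitGroupToResidueFieldUnits a = chi S σ ^ q
  rw [hab, map_pow, hu]

/-- **Frobenius acts on the tame quotient by the `q`-th power**, for homomorphisms. -/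
theorem map_conj_eq_pow [Finite ρ.range] {H : Type*} [Group H] (f : G →* H)
    (hf : ∀ σ : G, ρ σ = 1 → f σ = 1)
    (hH : ∀ (σ : G) (a : ℕ), f σ ^ q ^ a = 1 → f σ = 1)
    (ψ : K ≃+* K) (hψv : ∀ x, O.valuation (ψ x) = O.valuation x)
    (hψ : ∀ x ∈ O, ψ x - x ^ q ∈ O.nonunits) (σ σ' : G)
    (h : ∀ x, ρ σ' (ψ x) = ψ (ρ σ x)) : f σ' = f σ ^ q := by
  have h1 : chi S (σ' * (σ ^ q)⁻¹) = 1 := by
    rw [map_mul, map_inv, map_pow, chi_conj S ψ hψv hψ σ σ' h, mul_inv_cancel]
  have h2 := map_eq_one_of_chi_eq_one S f hf hH h1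
  rw [map_mul, map_inv, map_pow, mul_inv_eq_one] at h2
  exact h2

end Fermat.Agent.M43.TameFrob5
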