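import Mathlib
import Fermat.Agent.W56.TameInertia8
import Fermat.Agent.W56.FrobGen8
import Fermat.Agent.M43.TameFrob5

/-!
# M43 / P-LOC (LOC-0), Galois form: `f (φ σ φ⁻¹) = f σ ^ q` on tame inertia

`A` a valuation subring of `ℚ̄` over the prime `q`, `φ` a Frobenius element at `A`, `σ` in the
inertia group `I_A`.  For every homomorphism `f : I_A → H` which factors through a finite level
and whose values have no `q`-power torsion (i.e. `f` factors through the tame quotient),
`f (φ σ φ⁻¹) = f σ ^ q`.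
-/

namespace Fermat.Agent.M43.TameFrobGal5

open ValuationSubring IsLocalRing
open Fermat.Agent.W56.TameInertia8

/-- **Frobenius acts on tame inertia by the `q`-th power.** -/
theorem map_frob_conj_eq_pow {q : ℕ} (hq : q.Prime) {A : ValuationSubring Qb}
    (hA : A.LiesOverPrime q) {H : Type*} [Group H] (f : ↥(A.inertiaSubgroupIn ℚ) →* H)
    (L : IntermediateField ℚ Qb) [FiniteDimensional ℚ L]
    (hf : ∀ σ : ↥(A.inertiaSubgroupIn ℚ), (∀ x ∈ L, (σ : GQ) x = x) → f σ = 1)
    (hH : ∀ (σ : ↥(A.inertiaSubgroupIn ℚ)) (a : ℕ), f σ ^ q ^ a = 1 → f σ = 1)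
    {φ : GQ} (hφ : A.IsFrobeniusAt φ q) (σ σ' : ↥(A.inertiaSubgroupIn ℚ))
    (hσ' : (σ' : GQ) = φ * (σ : GQ) * φ⁻¹) : f σ' = f σ ^ q := by
  set K : IntermediateField ℚ Qb := IntermediateField.normalClosure ℚ L Qb with hK
  have hN := normal_Qb
  have halg := isAlgebraic_Qb
  have : FiniteDimensional ℚ K := by rw [hK]; infer_instance
  have : Normal ℚ K := by rw [hK]; exact normalClosure.normal ℚ L Qb
  obtain ⟨π, S⟩ := exists_setting (A := A) (K := K) hq hA
  have hφD : φ ∈ A.decompositionSubgroup ℚ := hφ.mem_decompositionSubgroup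
  -- the restriction of `φ` to `K`
  let ψ : K ≃+* K := (AlgEquiv.restrictNormal φ K).toRingEquiv
  have hψc : ∀ x : K, ((ψ x : K) : Qb) = φ (x : Qb) := fun x =>
    AlgEquiv.restrictNormal_commutes φ K x
  refine Fermat.Agent.M43.TameFrob5.map_conj_eq_pow S f
    (fun τ hτ => hf τ fun x hx => ?_) hH ψ ?_ ?_ σ σ' ?_
  · have hxK : x ∈ K := IntermediateField.le_normalClosure L hx
    have h1 := coe_rhoK_apply A K τ ⟨x, hxK⟩
    rw [hτ] at h1
    exact h1.symm
  · -- `ψ` preserves the valuation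
    intro x
    by_cases hx : x = 0
    · rw [hx, map_zero]
    have hx' : (x : Qb) ≠ 0 := fun h => hx (by exact_mod_cast h)
    have h1 : A.valuation (((ψ x / x : K)) : Qb) = 1 := by
      push_cast
      rw [hψc, map_div₀, Fermat.Agent.S05.Inertia.valuation_apply_of_mem_decomposition hφD,
        div_self]
      exact (Valuation.ne_zero_iff _).2 hx'
    have h2 := (val_OK_eq_one_iff A K _).2 h1
    rw [map_div₀, div_eq_one_iff_eq ((Valuation.ne_zero_iff _).2 hx)] at h2
    exact h2
  · -- `ψ` is the `q`-th power on the residue field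
    intro x hx
    rw [mem_nonunits_OK_iff]
    push_cast
    rw [hψc]
    have hxA : (x : Qb) ∈ A := (mem_OK_iff A K x).1 hx
    have h1 := hφ.smul_residue_eq (Fermat.Agent.W56.FrobGen8.res A (x : Qb) hxA)
    rw [Fermat.Agent.W56.FrobGen8.smul_res, ← Fermat.Agent.W56.FrobGen8.res_pow,
      Fermat.Agent.W56.FrobGen8.res_eq_iff] at h1
    exact h1
  · -- the conjugation relation
    intro x
    apply Subtype.ext
    rw [coe_rhoK_apply, hψc, hψc, coe_rhoK_apply, hσ']
    simp [AlgEquiv.mul_apply]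

end Fermat.Agent.M43.TameFrobGal5
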