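import Mathlib
import Fermat.Prelude.Def_GaloisRep_Adic
import Fermat.Agent.M43.TameFrobGal5

/-!
# M43 / P-LOC (LOC-0), representation form

For `ρ : GaloisRepAdic R` over a noetherian local ring `R` of residue characteristic `p`, a
prime `q ≠ p`, a place `P` of `ℚ̄` over `q` at which the residual representation is unramified
(`ρ σ ≡ 1` modulo the maximal ideal for `σ ∈ I_P`), a Frobenius element `φ` at `P` and
`σ ∈ I_P`:  `ρ (φ σ φ⁻¹) = ρ σ ^ q`  (`conj_frob_eq_pow`).

Tools: the congruence subgroups `congr I` of `(End_R V)ˣ`; `u ∈ congr (𝔪 ^ j) ⟹ u ^ p ∈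
congr (𝔪 ^ (j + 1))`; Krull's intersection theorem.
-/

namespace Fermat.Agent.M43.TameFrobRep5

open Fermat.Agent.W56.TameInertia8

section Congr

variable {R : Type*} [CommRing R] {V : Type*} [AddCommGroup V] [Module R V]

/-- endomorphisms preserve `I • ⊤`. -/
theorem apply_mem_smul_top (I : Ideal R) (T : Module.End R V) {x : V}
    (hx : x ∈ I • (⊤ : Submodule R V)) : T x ∈ I • (⊤ : Submodule R V) := by
  have h1 : T x ∈ (I • (⊤ : Submodule R V)).map T := Submodule.mem_map_of_mem hx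
  rw [Submodule.map_smul''] at h1
  exact Submodule.smul_mono le_rfl le_top h1

/-- an endomorphism with image in `I • ⊤` maps `J • ⊤` into `(J * I) • ⊤`. -/
theorem apply_mem_mul_smul_top (I J : Ideal R) (N : Module.End R V)
    (hN : ∀ v, N v ∈ I • (⊤ : Submodule R V)) {x : V}
    (hx : x ∈ J • (⊤ : Submodule R V)) : N x ∈ (J * I) • (⊤ : Submodule R V) := by
  have h1 : N x ∈ (J • (⊤ : Submodule R V)).map N := Submodule.mem_map_of_mem hx
  rw [Submodule.map_smul''] at h1
  have h2 : (⊤ : Submodule R V).map N ≤ I • (⊤ : Submodule R V) := by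
    rintro _ ⟨v, -, rfl⟩
    exact hN v
  rw [Submodule.mul_smul]
  exact Submodule.smul_mono le_rfl h2 h1

/-- the congruence subgroup of level `I`. -/
def congr (I : Ideal R) : Subgroup (Module.End R V)ˣ where
  carrier := {u | ∀ v, (u : Module.End R V) v - v ∈ I • (⊤ : Submodule R V)}
  one_mem' := by
    intro v
    simp
  mul_mem' := by
    intro u w hu hw v
    have e : ((u * w : (Module.End R V)ˣ) : Module.End R V) v - v =
        (u : Module.End R V) ((w : Module.End R V) v - v) + ((u : Module.End R V) v - v) := by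
      simp [Units.val_mul, map_sub]
    rw [e]
    exact Submodule.add_mem _ (apply_mem_smul_top I _ (hw v)) (hu v)
  inv_mem' := by
    intro u hu v
    have e : ((u⁻¹ : (Module.End R V)ˣ) : Module.End R V) v - v =
        -(((u⁻¹ : (Module.End R V)ˣ) : Module.End R V) ((u : Module.End R V) v - v)) := by
      rw [map_sub]
      have : ((u⁻¹ : (Module.End R V)ˣ) : Module.End R V) ((u : Module.End R V) v) = v := by
        rw [← Module.End.mul_apply, Units.inv_mul, Module.End.one_apply]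
      rw [this]; abel
    rw [e]
    exact Submodule.neg_mem _ (apply_mem_smul_top I _ (hu v))

theorem mem_congr {I : Ideal R} {u : (Module.End R V)ˣ} :
    u ∈ congr (V := V) I ↔ ∀ v, (u : Module.End R V) v - v ∈ I • (⊤ : Submodule R V) := Iff.rfl

theorem congr_mono {I J : Ideal R} (h : I ≤ J) : congr (V := V) I ≤ congr J :=
  fun _ hu v => Submodule.smul_mono_left h (hu v)

instance (I : Ideal R) : (congr (V := V) I).Normal where
  conj_mem := by
    intro u hu g v
    have e : ((g * u * g⁻¹ : (Module.End R V)ˣ) : Module.End R V) v - v =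
        (g : Module.End R V) ((u : Module.End R V)
          (((g⁻¹ : (Module.End R V)ˣ) : Module.End R V) v) -
            ((g⁻¹ : (Module.End R V)ˣ) : Module.End R V) v) := by
      rw [map_sub]
      have : (g : Module.End R V) (((g⁻¹ : (Module.End R V)ˣ) : Module.End R V) v) = v := by
        rw [← Module.End.mul_apply, Units.mul_inv, Module.End.one_apply]
      rw [this]
      simp [Units.val_mul]
    rw [e]
    exact apply_mem_smul_top I _ (hu _)

/-- **`p`-th powers increase the level.** -/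
theorem pow_mem_congr (I : Ideal R) (p : ℕ) {u : (Module.End R V)ˣ}
    (hu : u ∈ congr (V := V) I) :
    u ^ p ∈ congr (V := V) (Ideal.span {(p : R)} * I ⊔ I * I) := by
  set U : Module.End R V := (u : Module.End R V) with hU
  set N : Module.End R V := U - 1 with hN
  have hNv : ∀ v, N v ∈ I • (⊤ : Submodule R V) := fun v => by
    simpa [hN] using hu v
  -- `U ^ p - 1 = S * N`, `S = p + S'' * N`
  have h1 : (∑ i ∈ Finset.range p, U ^ i) * N = U ^ p - 1 := geom_sum_mul U p
  have h2 : ∀ i : ℕ, U ^ i - 1 = (∑ l ∈ Finset.range i, U ^ l) * N := fun i =>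
    (geom_sum_mul U i).symm
  have h3 : (∑ i ∈ Finset.range p, U ^ i) =
      (p : Module.End R V) + (∑ i ∈ Finset.range p, ∑ l ∈ Finset.range i, U ^ l) * N := by
    rw [Finset.sum_mul]
    simp_rw [← h2]
    rw [Finset.sum_sub_distrib]
    simp
  intro v
  have e : ((u ^ p : (Module.End R V)ˣ) : Module.End R V) v - v =
      (p : Module.End R V) (N v) +
        (∑ i ∈ Finset.range p, ∑ l ∈ Finset.range i, U ^ l) (N (N v)) := by
    have : ((u ^ p : (Module.End R V)ˣ) : Module.End R V) v - v = (U ^ p - 1) v := by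
      simp [hU, Units.val_pow_eq_pow_val]
    rw [this, ← h1, h3, add_mul]
    simp [Module.End.mul_apply]
  rw [e]
  refine Submodule.add_mem _ ?_ ?_
  · -- `p • N v ∈ (p) * I`
    have : (p : Module.End R V) (N v) = (p : R) • N v := by
      simp [Module.End.natCast_apply, Nat.cast_smul_eq_nsmul]
    rw [this]
    refine Submodule.smul_mono_left le_sup_left ?_
    rw [Submodule.mul_smul]
    exact Submodule.smul_mem_smul (Ideal.subset_span rfl) (hNv v)
  · refine Submodule.smul_mono_left le_sup_right ?_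
    exact apply_mem_smul_top _ _ (apply_mem_mul_smul_top I I N hNv (hNv v))

end Congr

section Main

open IsLocalRing

variable {R : Type} [CommRing R] [IsLocalRing R]

/-- `u ≡ 1` modulo the maximal ideal implies `u ^ (p ^ k) ≡ 1` modulo its `(k + 1)`-st power,
when `p` lies in the maximal ideal. -/
theorem pow_pow_mem_congr {V : Type*} [AddCommGroup V] [Module R V] (p : ℕ)
    (hp : (p : R) ∈ maximalIdeal R) {u : (Module.End R V)ˣ}
    (hu : u ∈ congr (V := V) (maximalIdeal R)) (k : ℕ) :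
    u ^ p ^ k ∈ congr (V := V) (maximalIdeal R ^ (k + 1)) := by
  induction k with
  | zero => simpa using hu
  | succ k ih =>
    have h1 := pow_mem_congr (maximalIdeal R ^ (k + 1)) p ih
    rw [← pow_mul, ← pow_succ] at h1
    refine congr_mono ?_ h1
    refine sup_le ?_ ?_
    · have : Ideal.span {(p : R)} ≤ maximalIdeal R := (Ideal.span_singleton_le_iff_mem _).2 hp
      calc Ideal.span {(p : R)} * maximalIdeal R ^ (k + 1)
          ≤ maximalIdeal R * maximalIdeal R ^ (k + 1) := Ideal.mul_mono_left this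
        _ = maximalIdeal R ^ (k + 1 + 1) := by rw [← pow_succ']
    · rw [← pow_add]
      exact Ideal.pow_le_pow_right (by omega)

variable [IsNoetherianRing R]

/-- **(LOC-0).**  Frobenius conjugates the image of inertia by the `q`-th power. -/
theorem conj_frob_eq_pow (ρ : GaloisRepAdic R) {p q : ℕ} (hp : p.Prime) (hq : q.Prime)
    (hpq : p ≠ q) (hpR : (p : R) ∈ maximalIdeal R) {P : ValuationSubring Qb}
    (hP : P.LiesOverPrime q)
    (hres : ∀ σ ∈ P.inertiaSubgroupIn ℚ, ∀ v : ρ.V,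
      ρ.ρ σ v - v ∈ maximalIdeal R • (⊤ : Submodule R ρ.V))
    {φ : GQ} (hφ : P.IsFrobeniusAt φ q) {σ : GQ} (hσ : σ ∈ P.inertiaSubgroupIn ℚ) :
    ρ.ρ (φ * σ * φ⁻¹) = ρ.ρ σ ^ q := by
  classical
  -- `φ σ φ⁻¹` lies in the inertia group
  have hφD : φ ∈ P.decompositionSubgroup ℚ := hφ.mem_decompositionSubgroup
  have hσ' : φ * σ * φ⁻¹ ∈ P.inertiaSubgroupIn ℚ := by
    obtain ⟨s, hs, rfl⟩ := hσ
    refine ⟨⟨φ, hφD⟩ * s * ⟨φ, hφD⟩⁻¹, ?_, rfl⟩
    have hn : (P.inertiaSubgroup ℚ).Normal := by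
      unfold ValuationSubring.inertiaSubgroup
      infer_instance
    exact hn.conj_mem s hs _
  let ρu : GQ →* (Module.End R ρ.V)ˣ := ρ.ρ.toHomUnits
  have hρu : ∀ τ, ((ρu τ : (Module.End R ρ.V)ˣ) : Module.End R ρ.V) = ρ.ρ τ := fun τ => rfl
  -- the key congruences
  have key : ∀ n : ℕ, (ρu (φ * σ * φ⁻¹))⁻¹ * ρu σ ^ q ∈ congr (V := ρ.V) (maximalIdeal R ^ n) := by
    intro n
    let f : ↥(P.inertiaSubgroupIn ℚ) →* (Module.End R ρ.V)ˣ ⧸ congr (V := ρ.V) (maximalIdeal R ^ n) :=
      (QuotientGroup.mk' _).comp (ρu.comp (Subgroup.subtype _))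
    have hf1 : ∀ τ : ↥(P.inertiaSubgroupIn ℚ), f τ = 1 ↔
        ρu (τ : GQ) ∈ congr (V := ρ.V) (maximalIdeal R ^ n) := fun τ =>
      QuotientGroup.eq_one_iff _
    obtain ⟨L, hL, hcont⟩ := ρ.isAdicContinuous n
    have : FiniteDimensional ℚ L := hL
    have h := Fermat.Agent.M43.TameFrobGal5.map_frob_conj_eq_pow hq hP f L ?_ ?_ hφ
      ⟨σ, hσ⟩ ⟨φ * σ * φ⁻¹, hσ'⟩ rfl
    · have h' : (QuotientGroup.mk (ρu (φ * σ * φ⁻¹)) :
          (Module.End R ρ.V)ˣ ⧸ congr (V := ρ.V) (maximalIdeal R ^ n)) =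
          QuotientGroup.mk (ρu σ ^ q) := h
      exact QuotientGroup.eq.1 h'
    · intro τ hτ
      rw [hf1]
      intro v
      rw [hρu]
      exact hcont (τ : GQ) hτ v
    · intro τ a hτa
      have h1 : ρu (τ : GQ) ∈ congr (V := ρ.V) (maximalIdeal R) := by
        intro v
        rw [hρu]
        exact hres _ τ.2 v
      have h2 : f τ ^ p ^ n = 1 := by
        rw [← map_pow, hf1]
        have := pow_pow_mem_congr p hpR h1 n
        have h3 : congr (V := ρ.V) (maximalIdeal R ^ (n + 1)) ≤ congr (maximalIdeal R ^ n) :=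
          congr_mono (Ideal.pow_le_pow_right (Nat.le_succ n))
        simpa using h3 this
      have hcop : Nat.Coprime (p ^ n) (q ^ a) :=
        Nat.Coprime.pow _ _ ((Nat.coprime_primes hp hq).2 hpq)
      have h4 := (pow_gcd_eq_one (a := f τ) (m := p ^ n) (n := q ^ a)).2 ⟨h2, hτa⟩
      rwa [hcop, pow_one] at h4
  -- Krull
  have hw : (ρu (φ * σ * φ⁻¹))⁻¹ * ρu σ ^ q = 1 := by
    apply Units.ext
    apply LinearMap.ext
    intro v
    have hmem : ∀ n : ℕ, (((ρu (φ * σ * φ⁻¹))⁻¹ * ρu σ ^ q : (Module.End R ρ.V)ˣ) :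
        Module.End R ρ.V) v - v ∈ (maximalIdeal R ^ n) • (⊤ : Submodule R ρ.V) := fun n => key n v
    have hinf : (((ρu (φ * σ * φ⁻¹))⁻¹ * ρu σ ^ q : (Module.End R ρ.V)ˣ) :
        Module.End R ρ.V) v - v ∈ (⨅ n : ℕ, (maximalIdeal R ^ n) • (⊤ : Submodule R ρ.V)) := by
      rw [Submodule.mem_iInf]; exact hmem
    rw [Ideal.iInf_pow_smul_eq_bot_of_isLocalRing (maximalIdeal R) Ideal.IsPrime.ne_top',
      Submodule.mem_bot, sub_eq_zero] at hinf
    simpa using hinf
  have h5 : ρu (φ * σ * φ⁻¹) = ρu σ ^ q := by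
    rw [inv_mul_eq_one] at hw
    exact hw
  have h6 : ((ρu (φ * σ * φ⁻¹) : (Module.End R ρ.V)ˣ) : Module.End R ρ.V) =
      ((ρu σ ^ q : (Module.End R ρ.V)ˣ) : Module.End R ρ.V) := by rw [h5]
  rw [Units.val_pow_eq_pow_val, hρu, hρu] at h6
  exact h6

end Main

end Fermat.Agent.M43.TameFrobRep5
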