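import Mathlib
import Fermat.Agent.M43.GlobFinal3
import Fermat.Agent.M43.TameFrobRep5
import Fermat.Agent.M43.LocRep5
import Fermat.Agent.W56.LecUnram5

/-!
# M43 / glue: the local relations at the bad primes, in matrix form

`ρ : GaloisRepAdic A` over a noetherian local ring of residue characteristic `p` with cyclotomic
determinant, `q ≠ p` a prime, `P` a place over `q`, `φ` a Frobenius element and `σ` in the inertia
group at `P`, `b` a basis of `ρ.V`, `Φ = matrixOf ρ b φ`, `Σ = matrixOf ρ b σ`: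

* `det_inertia`, `det_frob` : `det Σ = 1`, `det Φ = q`;
* `sub_mem_of_unramified` : if `ρ` lifts `ρbar` and `ρbar` is unramified at `q`, then `ρ σ ≡ 1`
  modulo the maximal ideal;
* `frob_mul_inertia` : `Φ Σ = Σ ^ q Φ`;
* `trace_eq` : `tr ρ(g) = M 0 0 + M 1 1`;
* `tl`/`tlCoord` dictionary.
-/

set_option autoImplicit false

open IsLocalRing

namespace Fermat.Agent.M43.GlueLoc2

open Fermat.Agent.S53 Fermat.Agent.S53.MatrixModel Fermat.Agent.M43.GlobFinal3
  Fermat.Agent.M43.LocRep5 Fermat.Agent.W56.Lift9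

local notation "Γ" => (AlgebraicClosure ℚ ≃ₐ[ℚ] AlgebraicClosure ℚ)
local notation "Qbar" => AlgebraicClosure ℚ

section Det

variable {A : Type} [CommRing A] [IsLocalRing A] [IsNoetherianRing A]

/-- Krull: two elements congruent modulo all powers of `p` are equal. -/
theorem eq_of_forall_sub_mem {p : ℕ} (hp : (p : A) ∈ maximalIdeal A) {x y : A}
    (h : ∀ n : ℕ, x - y ∈ Ideal.span {((p ^ n : ℕ) : A)}) : x = y := by
  have h1 : x - y ∈ ⨅ n : ℕ, maximalIdeal A ^ n := by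
    rw [Ideal.mem_iInf]
    intro n
    have h2 : Ideal.span {((p ^ n : ℕ) : A)} ≤ maximalIdeal A ^ n := by
      rw [Ideal.span_singleton_le_iff_mem, Nat.cast_pow]
      exact Ideal.pow_mem_pow hp n
    exact h2 (h n)
  rw [Ideal.iInf_pow_eq_bot_of_isLocalRing _ (maximalIdeal.isMaximal A).ne_top, Ideal.mem_bot,
    sub_eq_zero] at h1
  exact h1

omit [CommRing A] [IsLocalRing A] [IsNoetherianRing A] in
theorem not_dvd_pow {p q : ℕ} (hp : p.Prime) (hq : q.Prime) (hpq : p ≠ q) (n : ℕ) :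
    ¬ q ∣ p ^ n := fun h =>
  hpq ((Nat.prime_dvd_prime_iff_eq hq hp).1 (hq.dvd_of_dvd_pow h)).symm

variable (ρ : GaloisRepAdic A) {p q : ℕ} (hD : ρ.DetIsCyclotomic p) (hp : p.Prime)
  (hq : q.Prime) (hpq : p ≠ q) {P : ValuationSubring Qbar} (hP : P.LiesOverPrime q)

include hD hp hq hpq hP

/-- the determinant is trivial on the inertia groups away from `p`. -/
theorem det_inertia {σ : Γ} (hσ : σ ∈ P.inertiaSubgroupIn ℚ) : LinearMap.det (ρ.ρ σ) = 1 := by
  refine eq_of_forall_sub_mem hD.1 fun n => ?_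
  have h := hD.2 n σ 1 fun μ hμ => by
    rw [pow_one]
    exact Fermat.Agent.W56.LecUnram5.inertia_apply_root hq hP (not_dvd_pow hp hq hpq n) hσ hμ
  rwa [Nat.cast_one] at h

/-- the determinant of a Frobenius element at `q` is `q`. -/
theorem det_frob {φ : Γ} (hφ : P.IsFrobeniusAt φ q) : LinearMap.det (ρ.ρ φ) = (q : A) := by
  refine eq_of_forall_sub_mem hD.1 fun n => ?_
  exact hD.2 n φ q fun μ hμ =>
    Fermat.Agent.W56.LecUnram5.frob_apply_root' hq hP (not_dvd_pow hp hq hpq n) hφ hμ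

omit [IsNoetherianRing A] hD hp hq hpq hP in
theorem det_fin_two' (b : Module.Basis (Fin 2) A ρ.V) (g : Γ) :
    matrixOf ρ b g 0 0 * matrixOf ρ b g 1 1 - matrixOf ρ b g 0 1 * matrixOf ρ b g 1 0 =
      LinearMap.det (ρ.ρ g) := by
  rw [← Matrix.det_fin_two, matrixOf_apply, LinearMap.det_toMatrix]

omit [IsNoetherianRing A] hD hp hq hpq hP in
theorem trace_eq (b : Module.Basis (Fin 2) A ρ.V) (g : Γ) :
    LinearMap.trace A ρ.V (ρ.ρ g) = matrixOf ρ b g 0 0 + matrixOf ρ b g 1 1 := by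
  rw [LinearMap.trace_eq_matrix_trace A b, Matrix.trace_fin_two, ← matrixOf_apply]

/-- **`Φ Σ = Σ ^ q Φ`.** -/
theorem frob_mul_inertia (b : Module.Basis (Fin 2) A ρ.V)
    (hres : ∀ σ ∈ P.inertiaSubgroupIn ℚ, ∀ v : ρ.V,
      ρ.ρ σ v - v ∈ maximalIdeal A • (⊤ : Submodule A ρ.V))
    {φ : Γ} (hφ : P.IsFrobeniusAt φ q) {σ : Γ} (hσ : σ ∈ P.inertiaSubgroupIn ℚ) :
    matrixOf ρ b φ * matrixOf ρ b σ = matrixOf ρ b σ ^ q * matrixOf ρ b φ := by
  have h := TameFrobRep5.conj_frob_eq_pow ρ hp hq hpq hD.1 hP hres hφ hσ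
  have h1 : ρ.ρ φ * ρ.ρ σ = ρ.ρ σ ^ q * ρ.ρ φ := by
    rw [← h, ← map_mul, ← map_mul, mul_assoc, mul_assoc, inv_mul_cancel, mul_one]
  have h2 := congrArg (LinearMap.toMatrix b b) h1
  rw [LinearMap.toMatrix_mul, LinearMap.toMatrix_mul, ← LinearMap.toMatrix_pow] at h2
  rw [matrixOf_apply, matrixOf_apply]
  exact h2

end Det

section Unram

variable {𝒪 : Type} [CommRing 𝒪] [IsDomain 𝒪] [IsDiscreteValuationRing 𝒪]
  [IsAdicComplete (maximalIdeal 𝒪) 𝒪] [Finite (ResidueField 𝒪)]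
  {ρbar : ResidualGaloisRep (ResidueField 𝒪)}
  {A : Type} [CommRing A] [IsLocalRing A] [Algebra 𝒪 A] [IsLocalHom (algebraMap 𝒪 A)]

/-- a lift of a residual representation unramified at `q` is trivial modulo the maximal ideal on
the inertia groups at `q`. -/
theorem sub_mem_of_unramified (hres : Function.Surjective (residue A ∘ algebraMap 𝒪 A))
    (ρA : GaloisRepAdic A)
    (hlift : ρA.residual.IsEquiv (ρbar.baseChangeAlong (ResidueField.map (algebraMap 𝒪 A))))
    {q : ℕ} (hur : ρbar.IsUnramifiedAt q) {P : ValuationSubring Qbar} (hP : P.LiesOverPrime q)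
    {σ : Γ} (hσ : σ ∈ P.inertiaSubgroupIn ℚ) (v : ρA.V) :
    ρA.ρ σ v - v ∈ maximalIdeal A • (⊤ : Submodule A ρA.V) := by
  classical
  let b'' : Module.Basis (Fin 2) A ρA.V := Module.finBasisOfFinrankEq A ρA.V ρA.finrank_eq
  obtain ⟨b, hb, -⟩ := GlobDict3.exists_basis_strictA' hres ρA hlift b''
  have hbar : rbarOf ρbar b σ = 1 := by
    rw [matrixOfBasisRes_apply, hur P hP σ hσ, LinearMap.toMatrix_one]
  -- the entries of `M - 1` lie in the maximal ideal
  have hM : ∀ i j : Fin 2, (matrixOf ρA b'' σ - 1) i j ∈ maximalIdeal A := by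
    intro i j
    rw [← residue_eq_zero_iff, Matrix.sub_apply, map_sub, ← hb σ i j, hbar]
    by_cases hij : i = j
    · subst hij; simp
    · simp [Matrix.one_apply_ne hij]
  have hf : ∀ j : Fin 2, ρA.ρ σ (b'' j) - b'' j ∈ maximalIdeal A • (⊤ : Submodule A ρA.V) := by
    intro j
    have h1 : ρA.ρ σ (b'' j) - b'' j = ∑ i, (matrixOf ρA b'' σ - 1) i j • b'' i := by
      have h2 : ρA.ρ σ (b'' j) - b'' j = (ρA.ρ σ - 1) (b'' j) := by
        rw [LinearMap.sub_apply, Module.End.one_apply]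
      rw [h2, ← b''.sum_repr ((ρA.ρ σ - 1) (b'' j))]
      refine Finset.sum_congr rfl fun i _ => ?_
      rw [matrixOf_apply, ← LinearMap.toMatrix_one b'', ← map_sub, LinearMap.toMatrix_apply]
    rw [h1]
    exact Submodule.sum_mem _ fun i _ => Submodule.smul_mem_smul (hM i j) Submodule.mem_top
  have h3 : ρA.ρ σ v - v = ∑ j, b''.repr v j • (ρA.ρ σ (b'' j) - b'' j) := by
    conv_lhs => rw [← b''.sum_repr v]
    rw [map_sum, ← Finset.sum_sub_distrib]
    refine Finset.sum_congr rfl fun j _ => ?_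
    rw [map_smul, smul_sub]
  rw [h3]
  exact Submodule.sum_mem _ fun j _ => Submodule.smul_mem _ _ (hf j)

end Unram

/-! ### `tl` and `tlCoord` -/

section TL

variable {A : Type} [CommRing A] [IsLocalRing A]

theorem tl_zero_eq (half : A) (ρ : GaloisRepAdic A) (b : Module.Basis (Fin 2) A ρ.V) (g : Γ) :
    tl half (matrixOf ρ b g) 0 = half * tlCoord ρ b g 0 := rfl

theorem tl_one_eq (half : A) (ρ : GaloisRepAdic A) (b : Module.Basis (Fin 2) A ρ.V) (g : Γ) :
    tl half (matrixOf ρ b g) 1 = tlCoord ρ b g 1 := rfl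

theorem tl_two_eq (half : A) (ρ : GaloisRepAdic A) (b : Module.Basis (Fin 2) A ρ.V) (g : Γ) :
    tl half (matrixOf ρ b g) 2 = tlCoord ρ b g 2 := rfl

/-- every `tlCoord` is a multiple of the corresponding `tl`. -/
theorem tlCoord_mem_span (half : A) (h2 : 2 * half = 1) (ρ : GaloisRepAdic A)
    (b : Module.Basis (Fin 2) A ρ.V) (g : Γ) (k : Fin 3) :
    ∃ c : A, tlCoord ρ b g k = c * tl half (matrixOf ρ b g) k := by
  fin_cases k
  · refine ⟨2, ?_⟩
    show tlCoord ρ b g 0 = 2 * tl half (matrixOf ρ b g) 0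
    rw [tl_zero_eq, ← mul_assoc, h2, one_mul]
  · exact ⟨1, by rw [one_mul]; rfl⟩
  · exact ⟨1, by rw [one_mul]; rfl⟩

/-- every `tl` is a multiple of the corresponding `tlCoord`. -/
theorem tl_mem_of_tlCoord_mem (half : A) (ρ : GaloisRepAdic A)
    (b : Module.Basis (Fin 2) A ρ.V) (g : Γ) (I : Ideal A) (h : ∀ k, tlCoord ρ b g k ∈ I)
    (k : Fin 3) : tl half (matrixOf ρ b g) k ∈ I := by
  fin_cases k
  · show tl half (matrixOf ρ b g) 0 ∈ I
    rw [tl_zero_eq]
    exact I.mul_mem_left _ (h 0)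
  · exact h 1
  · exact h 2

omit [IsLocalRing A] in
/-- `tl` commutes with ring homomorphisms. -/
theorem tl_map {B : Type*} [CommRing B] (f : A →+* B) (half : A) (M : Matrix (Fin 2) (Fin 2) A)
    (k : Fin 3) : tl (f half) (M.map f) k = f (tl half M k) := by
  fin_cases k <;> simp [tl]

omit [IsLocalRing A] in
/-- `htr` commutes with ring homomorphisms. -/
theorem htr_map {B : Type*} [CommRing B] (f : A →+* B) (half : A) (M : Matrix (Fin 2) (Fin 2) A) :
    htr (f half) (M.map f) = f (htr half M) := by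
  simp [htr]

end TL

end Fermat.Agent.M43.GlueLoc2
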