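import Fermat.Agent.M43.SuppMain2

/-!
# M43 / P-PATCH: from patched limit data to a characteristic-zero prime

`exists_prime_of_limit`: the limit data produced by `PatchLimit2.exists_patched` (actions
`α1 αχ : P → Mat_d(S)`, structure maps `σ1 σχ : S₀ → P`, intertwiner `Θ` modulo `lam`) are fed into
the abstract support theorem `SuppMain2.exists_char0_prime_family`.

Only a subring `S₀` of `S` (with `S` finite and torsion-free over `S₀`) is assumed to act through
`P`; the augmentation ideal of `S` has a power inside the extension of the augmentation ideal of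
`S₀` (in use: `S₀ = O[[v_1^2..v_r^2]] ⊆ S = O[[v_1..v_r]]`).
-/

namespace Fermat.Agent.M43.PatchMain2

open SuppMain2

variable {S₀ S P : Type*} [CommRing S₀] [CommRing S] [CommRing P] [Algebra S₀ S] {d : ℕ}

/-- `Fin d → S` with `P` acting through `α`. -/
def Mod (_α : P →+* Matrix (Fin d) (Fin d) S) : Type _ := Fin d → S

/-- `S₀` as a ring over which `P` is an algebra through `σ`. -/
def Sc (_σ : S₀ →+* P) : Type _ := S₀

namespace Mod

variable (α : P →+* Matrix (Fin d) (Fin d) S)

noncomputable instance : AddCommGroup (Mod α) := inferInstanceAs (AddCommGroup (Fin d → S))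

noncomputable instance instModuleS : Module S (Mod α) := inferInstanceAs (Module S (Fin d → S))

noncomputable instance instModuleP : Module P (Mod α) where
  smul x m := ((α x).mulVec (show Fin d → S from m) : Fin d → S)
  one_smul m := by
    show (α 1).mulVec _ = _
    rw [map_one, Matrix.one_mulVec]
  mul_smul x y m := by
    show (α (x * y)).mulVec _ = (α x).mulVec ((α y).mulVec _)
    rw [map_mul, Matrix.mulVec_mulVec]
  smul_zero x := by
    show (α x).mulVec 0 = 0
    rw [Matrix.mulVec_zero]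
  smul_add x m m' := by
    show (α x).mulVec (_ + _) = (α x).mulVec _ + (α x).mulVec _
    rw [Matrix.mulVec_add]
  add_smul x y m := by
    show (α (x + y)).mulVec _ = (α x).mulVec _ + (α y).mulVec _
    rw [map_add, Matrix.add_mulVec]
  zero_smul m := by
    show (α 0).mulVec _ = 0
    rw [map_zero, Matrix.zero_mulVec]

theorem smul_def (x : P) (m : Mod α) :
    x • m = ((α x).mulVec (show Fin d → S from m) : Fin d → S) := rfl

instance : Module.Finite S (Mod α) := inferInstanceAs (Module.Finite S (Fin d → S))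

instance : Module.Free S (Mod α) := inferInstanceAs (Module.Free S (Fin d → S))

theorem nontrivial [Nontrivial S] (hd : 0 < d) : Nontrivial (Mod α) := by
  have : Nonempty (Fin d) := ⟨⟨0, hd⟩⟩
  exact inferInstanceAs (Nontrivial (Fin d → S))

/-- The annihilator is the kernel. -/
theorem annihilator_eq : Module.annihilator P (Mod α) = RingHom.ker α := by
  classical
  ext x
  rw [Module.mem_annihilator, RingHom.mem_ker]
  constructor
  · intro h
    ext i j
    have := congrFun (h (show Mod α from Pi.single j (1 : S))) i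
    rw [smul_def] at this
    simpa [Matrix.mulVec_single_one] using this.trans (Pi.zero_apply i)
  · intro h m
    rw [smul_def, h, Matrix.zero_mulVec]
    rfl

end Mod

namespace Sc

variable (σ : S₀ →+* P)

noncomputable instance : CommRing (Sc σ) := inferInstanceAs (CommRing S₀)

instance [IsDomain S₀] : IsDomain (Sc σ) := inferInstanceAs (IsDomain S₀)

noncomputable instance : Algebra (Sc σ) P := σ.toAlgebra

theorem algebraMap_def (s : S₀) : algebraMap (Sc σ) P s = σ s := rfl

variable (α : P →+* Matrix (Fin d) (Fin d) S)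

noncomputable instance : Module (Sc σ) (Mod α) := inferInstanceAs (Module S₀ (Fin d → S))

instance [Module.Finite S₀ S] : Module.Finite (Sc σ) (Mod α) :=
  inferInstanceAs (Module.Finite S₀ (Fin d → S))

instance [Module.IsTorsionFree S₀ S] : Module.IsTorsionFree (Sc σ) (Mod α) :=
  inferInstanceAs (Module.IsTorsionFree S₀ (Fin d → S))

theorem isScalarTower (h : ∀ s, α (σ s) = Matrix.scalar (Fin d) (algebraMap S₀ S s)) :
    IsScalarTower (Sc σ) P (Mod α) where
  smul_assoc s x m := by
    show (α (σ s * x)).mulVec _ = (show S₀ from s) • ((α x).mulVec _ : Fin d → S)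
    rw [map_mul, h, ← Matrix.mulVec_mulVec]
    ext i
    simp [Matrix.mulVec, dotProduct, Matrix.scalar_apply, Matrix.diagonal_apply, Algebra.smul_def]

end Sc

omit [Algebra S₀ S] in
/-- entries of powers of a matrix with entries in an ideal -/
theorem pow_apply_mem_pow (I : Ideal S) (A : Matrix (Fin d) (Fin d) S) (hA : ∀ i j, A i j ∈ I)
    (e : ℕ) : ∀ i j, (A ^ e) i j ∈ I ^ e := by
  induction e with
  | zero => intro i j; simp
  | succ e ih =>
    intro i j
    have h1 : A ^ (e + 1) = A ^ e * A := pow_succ A e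
    rw [h1, Matrix.mul_apply, pow_succ]
    exact Ideal.sum_mem _ fun k _ => Ideal.mul_mem_mul (ih i k) (hA k j)

section Main

variable {O : Type*} [CommRing O] [IsDomain O] [Algebra O S₀] [Algebra O S] [Algebra O P]
  [IsScalarTower O S₀ S] [IsDomain S₀] [IsDomain S] [Module.Finite S₀ S]
  [Module.IsTorsionFree S₀ S]

/-- **From the patched limit data to a characteristic-zero prime.** -/
theorem exists_prime_of_limit (hd : 0 < d) (hdimS : ringKrullDim S₀ < ⊤) (lam : O)
    (hlam0 : lam ≠ 0)
    (α1 αχ : P →ₐ[O] Matrix (Fin d) (Fin d) S) (σ1 σχ : S₀ →ₐ[O] P)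
    (hσ1 : ∀ s, α1 (σ1 s) = Matrix.scalar (Fin d) (algebraMap S₀ S s))
    (hσχ : ∀ s, αχ (σχ s) = Matrix.scalar (Fin d) (algebraMap S₀ S s))
    (Θ Θ' : Matrix (Fin d) (Fin d) S) (hΘ : Θ * Θ' = 1)
    (htw : ∀ x, ∃ Z : Matrix (Fin d) (Fin d) S, Θ * α1 x - αχ x * Θ = lam • Z)
    (J1 : Ideal P) (hJ1 : ∀ x ∈ J1, α1 x = 0)
    {K : Type*} (Jχ : K → Ideal P) [∀ k, (Jχ k).IsPrime]
    (hJχ : ∀ 𝔮 : Ideal P, 𝔮.IsPrime → RingHom.ker (αχ : P →+* Matrix (Fin d) (Fin d) S) ≤ 𝔮 →
      ∃ k, Jχ k ≤ 𝔮)
    (hdim : ∀ k, ringKrullDim (P ⧸ Jχ k) ≤ ringKrullDim S₀)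
    (hJ : ∀ k, J1 ⊔ Ideal.span {algebraMap O P lam} = Jχ k ⊔ Ideal.span {algebraMap O P lam})
    (Nid : Ideal P) (P' : P) (hid : ∀ Q : Ideal P, Q.IsPrime → J1 ≤ Q → P' ∉ Q → Nid ≤ Q)
    (η : Ideal P) [η.IsPrime] (hη1 : J1 ≤ η) (hηlam : algebraMap O P lam ∈ η) (hηP' : P' ∉ η)
    (aug : S →ₐ[O] O)
    (hrad : ∃ e : ℕ, RingHom.ker (aug : S →+* O) ^ e ≤
      (RingHom.ker ((aug : S →+* O).comp (algebraMap S₀ S))).map (algebraMap S₀ S)) :
    ∃ 𝔓 : Ideal P, 𝔓.IsPrime ∧ Nid ≤ 𝔓 ∧ algebraMap O P lam ∉ 𝔓 ∧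
      ∀ x : P, (α1 x).map aug = 0 → x ∈ 𝔓 := by
  classical
  set a1 : P →+* Matrix (Fin d) (Fin d) S := (α1 : P →+* Matrix (Fin d) (Fin d) S) with ha1
  set aχ : P →+* Matrix (Fin d) (Fin d) S := (αχ : P →+* Matrix (Fin d) (Fin d) S) with haχ
  set s1 : S₀ →+* P := (σ1 : S₀ →+* P) with hs1
  set sχ : S₀ →+* P := (σχ : S₀ →+* P) with hsχ
  have := Sc.isScalarTower s1 a1 hσ1
  have := Sc.isScalarTower sχ aχ hσχ
  have : Nontrivial (Mod aχ) := Mod.nontrivial aχ hd
  -- the action of `lam`
  have hlamact : ∀ (a : P →ₐ[O] Matrix (Fin d) (Fin d) S) (m : Fin d → S),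
      (a (algebraMap O P lam)).mulVec m = (algebraMap O S lam) • m := by
    intro a m
    rw [AlgHom.commutes, Matrix.algebraMap_eq_diagonal]
    ext i
    simp [Matrix.mulVec_diagonal]
  -- membership in `lam M`
  have hmem : ∀ (a : P →ₐ[O] Matrix (Fin d) (Fin d) S) (v : Mod (a : P →+* Matrix (Fin d) (Fin d) S)),
      v ∈ (Ideal.span {algebraMap O P lam} • ⊤ :
        Submodule P (Mod (a : P →+* Matrix (Fin d) (Fin d) S))) ↔
      ∃ w : Fin d → S, (show Fin d → S from v) = (algebraMap O S lam) • w := by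
    intro a v
    rw [Submodule.ideal_span_singleton_smul, Submodule.mem_smul_pointwise_iff_exists]
    constructor
    · rintro ⟨w, -, hw⟩
      refine ⟨w, ?_⟩
      rw [← hw, Mod.smul_def]
      exact hlamact a w
    · rintro ⟨w, hw⟩
      refine ⟨w, Submodule.mem_top, ?_⟩
      rw [Mod.smul_def]
      exact (hlamact a w).trans hw.symm
  -- the transfer
  have hT : Module.annihilator P (Mod a1 ⧸ (Ideal.span {algebraMap O P lam} • ⊤ :
        Submodule P (Mod a1))) ≤
      Module.annihilator P (Mod aχ ⧸ (Ideal.span {algebraMap O P lam} • ⊤ :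
        Submodule P (Mod aχ))) := by
    intro x hx
    rw [Submodule.annihilator_quotient, Submodule.mem_colon] at hx ⊢
    -- `α1 x = lam • Z`
    have hZ : ∃ Z : Matrix (Fin d) (Fin d) S, α1 x = (algebraMap O S lam) • Z := by
      have h1 : ∀ j : Fin d, ∃ w : Fin d → S,
          (α1 x).mulVec (Pi.single j 1) = (algebraMap O S lam) • w := by
        intro j
        have := hx (show Mod a1 from Pi.single j (1 : S)) (Set.mem_univ _)
        rw [hmem α1] at this
        exact this
      choose w hw using h1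
      refine ⟨Matrix.of fun i j => w j i, ?_⟩
      ext i j
      have := congrFun (hw j) i
      simpa [Matrix.mulVec_single_one] using this
    obtain ⟨Z, hZ⟩ := hZ
    obtain ⟨W, hW⟩ := htw x
    have hχ : αχ x = (algebraMap O S lam) • ((Θ * Z - W) * Θ') := by
      have h2 : αχ x * Θ = (algebraMap O S lam) • (Θ * Z - W) := by
        have h3 : αχ x * Θ = Θ * α1 x - lam • W := by rw [← hW]; abel
        rw [h3, hZ, Matrix.mul_smul, smul_sub]
        congr 1
        rw [algebraMap_smul]
      calc αχ x = αχ x * (Θ * Θ') := by rw [hΘ, mul_one]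
        _ = (αχ x * Θ) * Θ' := by rw [mul_assoc]
        _ = _ := by rw [h2, Matrix.smul_mul]
    intro m _
    rw [hmem αχ]
    refine ⟨((Θ * Z - W) * Θ').mulVec (show Fin d → S from m), ?_⟩
    show (αχ x).mulVec _ = _
    rw [hχ, Matrix.smul_mulVec]
  -- the augmentation ideal of `S₀`
  let 𝔞 : Ideal (Sc s1) := RingHom.ker ((aug : S →+* O).comp (algebraMap S₀ S))
  have h𝔞 : 𝔞.IsPrime := RingHom.ker_isPrime ((aug : S →+* O).comp (algebraMap S₀ S))
  have hlamS : algebraMap (Sc s1) P (algebraMap O S₀ lam) = algebraMap O P lam := by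
    rw [Sc.algebraMap_def]
    exact σ1.commutes lam
  have hlam𝔞 : (show Sc s1 from algebraMap O S₀ lam) ∉ 𝔞 := by
    show algebraMap O S₀ lam ∉ RingHom.ker ((aug : S →+* O).comp (algebraMap S₀ S))
    rw [RingHom.mem_ker, RingHom.comp_apply, ← IsScalarTower.algebraMap_apply]
    have : (aug : S →+* O) (algebraMap O S lam) = lam := by
      simp
    rw [this]
    exact hlam0
  have hdimS' : ringKrullDim (Sc sχ) < ⊤ := hdimS
  have hdim' : ∀ k, ringKrullDim (P ⧸ Jχ k) ≤ ringKrullDim (Sc sχ) := hdim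
  obtain ⟨𝔓, h𝔓p, hN𝔓, hl𝔓, hann⟩ := exists_char0_prime_family
    (S1 := Sc s1) (Sχ := Sc sχ) (M1 := Mod a1) (Mχ := Mod aχ) hdimS' Jχ
    (fun 𝔮 h𝔮 hle => hJχ 𝔮 h𝔮 ((Mod.annihilator_eq aχ).symm.le.trans hle)) hdim' J1
    (fun x hx => by rw [Mod.annihilator_eq, RingHom.mem_ker]; exact hJ1 x hx)
    (algebraMap O P lam) hJ hT Nid P' hid η hη1 hηlam hηP' 𝔞 (algebraMap O S₀ lam) hlamS hlam𝔞
  obtain ⟨e, he⟩ := hrad
  -- vectors with coordinates in the extended augmentation ideal
  have hsingle : ∀ (i : Fin d) (c : S),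
      c ∈ (RingHom.ker ((aug : S →+* O).comp (algebraMap S₀ S))).map (algebraMap S₀ S) →
      ∀ s' : S, (show Mod a1 from (Pi.single i (s' * c) : Fin d → S)) ∈
        ((𝔞.map (algebraMap (Sc s1) P)) • ⊤ : Submodule P (Mod a1)) := by
    intro i c hc
    rw [Ideal.map] at hc
    induction hc using Submodule.span_induction with
    | mem c hc =>
      obtain ⟨a, ha, rfl⟩ := hc
      intro s'
      have h1 : (show Mod a1 from (Pi.single i (s' * algebraMap S₀ S a) : Fin d → S)) =
          (s1 a) • (show Mod a1 from (Pi.single i s' : Fin d → S)) := by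
        rw [Mod.smul_def]
        show _ = (α1 (σ1 a)).mulVec _
        rw [hσ1]
        ext k
        simp [Matrix.mulVec, dotProduct, Matrix.scalar_apply, Matrix.diagonal_apply,
          Pi.single_apply, mul_comm]
      rw [h1]
      exact Submodule.smul_mem_smul (Ideal.mem_map_of_mem _ ha) Submodule.mem_top
    | zero =>
      intro s'
      rw [mul_zero, Pi.single_zero]
      exact Submodule.zero_mem _
    | add x y _ _ hx hy =>
      intro s'
      rw [mul_add, Pi.single_add]
      exact Submodule.add_mem _ (hx s') (hy s')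
    | smul r x _ hx =>
      intro s'
      rw [smul_eq_mul, ← mul_assoc]
      exact hx (s' * r)
  have hvec : ∀ v : Fin d → S,
      (∀ i, v i ∈ (RingHom.ker ((aug : S →+* O).comp (algebraMap S₀ S))).map
        (algebraMap S₀ S)) →
      (show Mod a1 from v) ∈ ((𝔞.map (algebraMap (Sc s1) P)) • ⊤ : Submodule P (Mod a1)) := by
    intro v hv
    have hv' : v = ∑ i, (Pi.single i (v i) : Fin d → S) := (Finset.univ_sum_single v).symm
    rw [hv']
    refine Submodule.sum_mem _ (fun i _ => ?_)
    have := hsingle i (v i) (hv i) 1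
    rwa [one_mul] at this
  refine ⟨𝔓, h𝔓p, hN𝔓, hl𝔓, fun x hx => ?_⟩
  refine h𝔓p.mem_of_pow_mem e (hann ?_)
  rw [Submodule.annihilator_quotient, Submodule.mem_colon]
  intro m _
  -- the entries of `α1 x` lie in the augmentation ideal
  have hentry : ∀ i j, (α1 x) i j ∈ RingHom.ker (aug : S →+* O) := by
    intro i j
    rw [RingHom.mem_ker]
    have := congrFun (congrFun hx i) j
    simpa [Matrix.map_apply] using this
  have hpow := pow_apply_mem_pow _ (α1 x) hentry e
  rw [Mod.smul_def]
  refine hvec _ fun i => ?_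
  show ((a1 (x ^ e)).mulVec (show Fin d → S from m)) i ∈ _
  rw [ha1, RingHom.coe_coe, map_pow, Matrix.mulVec, dotProduct]
  exact Ideal.sum_mem _ fun j _ => Ideal.mul_mem_right _ _ (he (hpow i j))

end Main

end Fermat.Agent.M43.PatchMain2
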