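import Fermat.Agent.M43.PatchLimit2
import Fermat.Agent.M43.PatchMain2

/-!
# M43 / P-PATCH: the patching theorem with its conclusion (abstract form)

`exists_prime_of_data`: good finite-level data for every `n` produce a level-`0` action
`α₀ : P → Mat_d(O)` (the augmentation of the patched action) satisfying the closed conditions
`F1`, and a prime `𝔓 ⊇ ker α₀` of `P` containing `Nid` and not containing `lam`.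

`S₀ ⊆ S` is the subring that acts through `P` (`S` finite and torsion-free over `S₀`, the
augmentation ideal of `S` nilpotent modulo that of `S₀`); the classical case is `S₀ = S`.
-/

namespace Fermat.Agent.M43.PatchThm2

open Thread2 PatchLimit2 PatchMain2

variable {O : Type*} [CommRing O] [IsDomain O] {lam : O}
variable {S₀ : Type*} [CommRing S₀] [IsDomain S₀] [Algebra O S₀]
variable {S : Type*} [CommRing S] [IsDomain S] [Algebra O S] [Algebra S₀ S] [IsScalarTower O S₀ S]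
  [Module.Finite S₀ S] [Module.IsTorsionFree S₀ S]
variable {P : Type*} [CommRing P] [Algebra O P]
variable {𝔠 : ℕ → Ideal S} {𝔭 : ℕ → Ideal P} {d : ℕ}

/-- **The patching theorem with its conclusion** (a subring `S₀` of `S` acts through `P`). -/
theorem exists_prime_of_subdata (h𝔠 : Antitone 𝔠) (h𝔭 : Antitone 𝔭)
    (hS : IsLim (fun N => Ideal.Quotient.mkₐ O (𝔠 N))
      (fun N => Ideal.Quotient.factorₐ O (h𝔠 (Nat.le_succ N))))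
    (hP : IsLim (fun N => Ideal.Quotient.mkₐ O (𝔭 N))
      (fun N => Ideal.Quotient.factorₐ O (h𝔭 (Nat.le_succ N))))
    (hfinα : ∀ N, Finite (P →ₐ[O] Matrix (Fin d) (Fin d) (S ⧸ 𝔠 N)))
    (hfinσ : ∀ N, Finite (S₀ →ₐ[O] P ⧸ 𝔭 N))
    (hfinS : ∀ N, Finite (S ⧸ 𝔠 N))
    (hfac : ∀ (N : ℕ) (β : P →ₐ[O] Matrix (Fin d) (Fin d) (S ⧸ 𝔠 N)), ∀ x ∈ 𝔭 N, β x = 0)
    (hlam : ∀ z : S, (∀ N, ∃ w : S ⧸ 𝔠 N, Ideal.Quotient.mk (𝔠 N) z = lam • w) →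
      ∃ w : S, z = lam • w)
    (aug : S →ₐ[O] O) (haug : ∀ N, ∀ a ∈ 𝔠 N, lam ^ N ∣ aug a)
    (hrad : ∃ e : ℕ, RingHom.ker (aug : S →+* O) ^ e ≤
      (RingHom.ker ((aug : S →+* O).comp (algebraMap S₀ S))).map (algebraMap S₀ S))
    (J1 Jχ : Ideal P) (F1 Fχ : P → Set (Matrix (Fin d) (Fin d) O))
    (hF1 : ∀ (x : P) (m : Matrix (Fin d) (Fin d) O),
      (∀ N, ∃ m' ∈ F1 x, ∀ i j, lam ^ N ∣ m i j - m' i j) → m ∈ F1 x)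
    (hFχ : ∀ (x : P) (m : Matrix (Fin d) (Fin d) O),
      (∀ N, ∃ m' ∈ Fχ x, ∀ i j, lam ^ N ∣ m i j - m' i j) → m ∈ Fχ x)
    (D : ∀ n, SubDatum O S₀ 𝔠 𝔭 d n)
    (hD : ∀ n, (D n).IsGood lam (IsScalarTower.toAlgHom O S₀ S) J1 Jχ aug F1 Fχ)
    -- the commutative algebra input
    (hd : 0 < d) (hdimS : ringKrullDim S₀ < ⊤) (hlam0 : lam ≠ 0)
    {K : Type*} (Jfam : K → Ideal P) [∀ k, (Jfam k).IsPrime]
    (hJfam : ∀ 𝔮 : Ideal P, 𝔮.IsPrime → Jχ ≤ 𝔮 → ∃ k, Jfam k ≤ 𝔮)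
    (hdim : ∀ k, ringKrullDim (P ⧸ Jfam k) ≤ ringKrullDim S₀)
    (hJ : ∀ k, J1 ⊔ Ideal.span {algebraMap O P lam} = Jfam k ⊔ Ideal.span {algebraMap O P lam})
    (Nid : Ideal P) (P' : P) (hid : ∀ Q : Ideal P, Q.IsPrime → J1 ≤ Q → P' ∉ Q → Nid ≤ Q)
    (η : Ideal P) [η.IsPrime] (hη1 : J1 ≤ η) (hηlam : algebraMap O P lam ∈ η)
    (hηP' : P' ∉ η) :
    ∃ α₀ : P →ₐ[O] Matrix (Fin d) (Fin d) O, (∀ x, α₀ x ∈ F1 x) ∧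
      ∃ 𝔓 : Ideal P, 𝔓.IsPrime ∧ Nid ≤ 𝔓 ∧ algebraMap O P lam ∉ 𝔓 ∧
        RingHom.ker (α₀ : P →+* Matrix (Fin d) (Fin d) O) ≤ 𝔓 := by
  obtain ⟨α1, αχ, σ1, σχ, Θ, Θ', hk1, hkχ, ht1, htχ, hinv, htw, ha1, -⟩ :=
    exists_patched (ι := IsScalarTower.toAlgHom O S₀ S) h𝔠 h𝔭 hS hP hfinα hfinσ hfinS hfac hlam
      aug haug J1 Jχ F1 Fχ hF1 hFχ D hD
  obtain ⟨𝔓, h𝔓p, hN, hl, hker⟩ := exists_prime_of_limit hd hdimS lam hlam0 α1 αχ σ1 σχ ht1 htχ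
    Θ Θ' hinv htw J1 hk1 Jfam
    (fun 𝔮 h𝔮 hle => hJfam 𝔮 h𝔮 (fun x hx => hle (by
      rw [RingHom.mem_ker]; exact hkχ x hx)))
    hdim hJ Nid P' hid η hη1 hηlam hηP' aug hrad
  refine ⟨(aug.mapMatrix (m := Fin d)).comp α1, fun x => ?_, 𝔓, h𝔓p, hN, hl, fun x hx => ?_⟩
  · exact ha1 x
  · refine hker x ?_
    rw [RingHom.mem_ker] at hx
    exact hx

omit [IsDomain S₀] [Algebra O S₀] [Algebra S₀ S] [IsScalarTower O S₀ S] [Module.Finite S₀ S]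
  [Module.IsTorsionFree S₀ S] in
/-- **The patching theorem with its conclusion**, classical form: all of `S` acts through `P`. -/
theorem exists_prime_of_data (h𝔠 : Antitone 𝔠) (h𝔭 : Antitone 𝔭)
    (hS : IsLim (fun N => Ideal.Quotient.mkₐ O (𝔠 N))
      (fun N => Ideal.Quotient.factorₐ O (h𝔠 (Nat.le_succ N))))
    (hP : IsLim (fun N => Ideal.Quotient.mkₐ O (𝔭 N))
      (fun N => Ideal.Quotient.factorₐ O (h𝔭 (Nat.le_succ N))))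
    (hfinα : ∀ N, Finite (P →ₐ[O] Matrix (Fin d) (Fin d) (S ⧸ 𝔠 N)))
    (hfinσ : ∀ N, Finite (S →ₐ[O] P ⧸ 𝔭 N))
    (hfinS : ∀ N, Finite (S ⧸ 𝔠 N))
    (hfac : ∀ (N : ℕ) (β : P →ₐ[O] Matrix (Fin d) (Fin d) (S ⧸ 𝔠 N)), ∀ x ∈ 𝔭 N, β x = 0)
    (hlam : ∀ z : S, (∀ N, ∃ w : S ⧸ 𝔠 N, Ideal.Quotient.mk (𝔠 N) z = lam • w) →
      ∃ w : S, z = lam • w)
    (aug : S →ₐ[O] O) (haug : ∀ N, ∀ a ∈ 𝔠 N, lam ^ N ∣ aug a)
    (J1 Jχ : Ideal P) (F1 Fχ : P → Set (Matrix (Fin d) (Fin d) O))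
    (hF1 : ∀ (x : P) (m : Matrix (Fin d) (Fin d) O),
      (∀ N, ∃ m' ∈ F1 x, ∀ i j, lam ^ N ∣ m i j - m' i j) → m ∈ F1 x)
    (hFχ : ∀ (x : P) (m : Matrix (Fin d) (Fin d) O),
      (∀ N, ∃ m' ∈ Fχ x, ∀ i j, lam ^ N ∣ m i j - m' i j) → m ∈ Fχ x)
    (D : ∀ n, Datum O 𝔠 𝔭 d n) (hD : ∀ n, (D n).IsGood lam J1 Jχ aug F1 Fχ)
    -- the commutative algebra input
    (hd : 0 < d) (hdimS : ringKrullDim S < ⊤) (hlam0 : lam ≠ 0)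
    {K : Type*} (Jfam : K → Ideal P) [∀ k, (Jfam k).IsPrime]
    (hJfam : ∀ 𝔮 : Ideal P, 𝔮.IsPrime → Jχ ≤ 𝔮 → ∃ k, Jfam k ≤ 𝔮)
    (hdim : ∀ k, ringKrullDim (P ⧸ Jfam k) ≤ ringKrullDim S)
    (hJ : ∀ k, J1 ⊔ Ideal.span {algebraMap O P lam} = Jfam k ⊔ Ideal.span {algebraMap O P lam})
    (Nid : Ideal P) (P' : P) (hid : ∀ Q : Ideal P, Q.IsPrime → J1 ≤ Q → P' ∉ Q → Nid ≤ Q)
    (η : Ideal P) [η.IsPrime] (hη1 : J1 ≤ η) (hηlam : algebraMap O P lam ∈ η)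
    (hηP' : P' ∉ η) :
    ∃ α₀ : P →ₐ[O] Matrix (Fin d) (Fin d) O, (∀ x, α₀ x ∈ F1 x) ∧
      ∃ 𝔓 : Ideal P, 𝔓.IsPrime ∧ Nid ≤ 𝔓 ∧ algebraMap O P lam ∉ 𝔓 ∧
        RingHom.ker (α₀ : P →+* Matrix (Fin d) (Fin d) O) ≤ 𝔓 := by
  refine exists_prime_of_subdata (S₀ := S) h𝔠 h𝔭 hS hP hfinα hfinσ hfinS hfac hlam aug haug
    ⟨1, ?_⟩ J1 Jχ F1 Fχ hF1 hFχ D (fun n => ?_) hd hdimS hlam0 Jfam hJfam hdim hJ Nid P' hid η
    hη1 hηlam hηP'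
  · rw [pow_one, Algebra.algebraMap_self, RingHom.comp_id, Ideal.map_id]
  · exact hD n

end Fermat.Agent.M43.PatchThm2
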