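import Fermat.Agent.M43.PSChain2
import Fermat.Agent.M43.PatchThm2

/-!
# M43 / P-PATCH: the patching theorem for power series rings

`S = O[[X_1..X_r]]` with the Taylor–Wiles chain `twChain`, `S₀ = Ev σ O` (the even subring),
`P = O[[τ]]` with the chain `pChain` of powers of the maximal ideal: all hypotheses of
`PatchThm2.exists_prime_of_subdata` on `S`, `S₀`, `P` and the chains are discharged
(`exists_prime_of_subdata_ps`).
-/

namespace Fermat.Agent.M43.PSPatch2

open MvPowerSeries IsLocalRing PSLim2 PSInst2 PSEven2 PSChain2 Thread2 PatchLimit2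

variable {O : Type*} [CommRing O] [IsLocalRing O] {σ τ : Type*} (lam : O) (p d : ℕ)

noncomputable instance : IsLocalRing (Ev σ O) := inferInstanceAs (IsLocalRing (MvPowerSeries σ O))

instance [Finite σ] [IsNoetherianRing O] : IsNoetherianRing (Ev σ O) :=
  inferInstanceAs (IsNoetherianRing (MvPowerSeries σ O))

/-- the exponents of the chain of `P`. -/
noncomputable def pExp (σ : Type*) (N : ℕ) : ℕ :=
  N + ∑ i ∈ Finset.range (N + 1),
    Nat.card (Matrix (Fin d) (Fin d) (MvPowerSeries σ O ⧸ twChain (O := O) (σ := σ) lam p i))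

omit [IsLocalRing O] in
theorem pExp_monotone : Monotone (pExp (O := O) lam p d σ) := by
  refine monotone_nat_of_le_succ fun N => ?_
  unfold pExp
  refine add_le_add (Nat.le_succ N) (Finset.sum_le_sum_of_subset ?_)
  exact Finset.range_mono (Nat.le_succ _)

omit [IsLocalRing O] in
theorem le_pExp (N : ℕ) : N ≤ pExp (O := O) lam p d σ N := Nat.le_add_right _ _

omit [IsLocalRing O] in
theorem card_le_pExp (N : ℕ) :
    Nat.card (Matrix (Fin d) (Fin d) (MvPowerSeries σ O ⧸ twChain (O := O) (σ := σ) lam p N)) ≤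
      pExp (O := O) lam p d σ N := by
  unfold pExp
  refine le_trans ?_ (Nat.le_add_left _ _)
  exact Finset.single_le_sum (f := fun i => Nat.card (Matrix (Fin d) (Fin d)
    (MvPowerSeries σ O ⧸ twChain (O := O) (σ := σ) lam p i))) (fun _ _ => Nat.zero_le _)
    (Finset.mem_range.2 (Nat.lt_succ_self N))

/-- the chain of `P`. -/
noncomputable def pChain (σ τ : Type*) (N : ℕ) : Ideal (MvPowerSeries τ O) :=
  maximalIdeal (MvPowerSeries τ O) ^ pExp (O := O) lam p d σ N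

theorem pChain_antitone : Antitone (pChain (O := O) lam p d σ τ) :=
  fun _ _ h => Ideal.pow_le_pow_right (pExp_monotone lam p d h)

variable [IsDomain O] [IsNoetherianRing O] [Finite (ResidueField O)] [Finite σ] [Finite τ]
  {lam p d}

/-- **The patching theorem for power series rings.** -/
theorem exists_prime_of_subdata_ps (hlam : maximalIdeal O = Ideal.span {lam})
    [IsAdicComplete (Ideal.span {lam}) O] (hlam0 : lam ≠ 0) (hp : (p : O) ∈ maximalIdeal O)
    (J1 Jχ : Ideal (MvPowerSeries τ O))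
    (F1 Fχ : MvPowerSeries τ O → Set (Matrix (Fin d) (Fin d) O))
    (hF1 : ∀ (x : MvPowerSeries τ O) (m : Matrix (Fin d) (Fin d) O),
      (∀ N, ∃ m' ∈ F1 x, ∀ i j, lam ^ N ∣ m i j - m' i j) → m ∈ F1 x)
    (hFχ : ∀ (x : MvPowerSeries τ O) (m : Matrix (Fin d) (Fin d) O),
      (∀ N, ∃ m' ∈ Fχ x, ∀ i j, lam ^ N ∣ m i j - m' i j) → m ∈ Fχ x)
    (D : ∀ n, SubDatum O (Ev σ O) (twChain (O := O) (σ := σ) lam p)
      (pChain (O := O) lam p d σ τ) d n)
    (hD : ∀ n, (D n).IsGood lam (IsScalarTower.toAlgHom O (Ev σ O) (MvPowerSeries σ O)) J1 Jχ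
      (augS σ O) F1 Fχ)
    (hd : 0 < d) (hdimS : ringKrullDim (Ev σ O) < ⊤)
    {K : Type*} (Jfam : K → Ideal (MvPowerSeries τ O)) [∀ k, (Jfam k).IsPrime]
    (hJfam : ∀ 𝔮 : Ideal (MvPowerSeries τ O), 𝔮.IsPrime → Jχ ≤ 𝔮 → ∃ k, Jfam k ≤ 𝔮)
    (hdim : ∀ k, ringKrullDim (MvPowerSeries τ O ⧸ Jfam k) ≤ ringKrullDim (Ev σ O))
    (hJ : ∀ k, J1 ⊔ Ideal.span {algebraMap O (MvPowerSeries τ O) lam} =
      Jfam k ⊔ Ideal.span {algebraMap O (MvPowerSeries τ O) lam})
    (Nid : Ideal (MvPowerSeries τ O)) (P' : MvPowerSeries τ O)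
    (hid : ∀ Q : Ideal (MvPowerSeries τ O), Q.IsPrime → J1 ≤ Q → P' ∉ Q → Nid ≤ Q)
    (η : Ideal (MvPowerSeries τ O)) [η.IsPrime] (hη1 : J1 ≤ η)
    (hηlam : algebraMap O (MvPowerSeries τ O) lam ∈ η) (hηP' : P' ∉ η) :
    ∃ α₀ : MvPowerSeries τ O →ₐ[O] Matrix (Fin d) (Fin d) O, (∀ x, α₀ x ∈ F1 x) ∧
      ∃ 𝔓 : Ideal (MvPowerSeries τ O), 𝔓.IsPrime ∧ Nid ≤ 𝔓 ∧
        algebraMap O (MvPowerSeries τ O) lam ∉ 𝔓 ∧
        RingHom.ker (α₀ : MvPowerSeries τ O →+* Matrix (Fin d) (Fin d) O) ≤ 𝔓 := by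
  have : IsDomain (MvPowerSeries σ O) := NoZeroDivisors.to_isDomain _
  have hfinS : ∀ N, Finite (MvPowerSeries σ O ⧸ twChain (O := O) (σ := σ) lam p N) :=
    fun N => finite_quotient_twChain lam p hlam N
  have hPfin : ∀ e : ℕ, Finite (MvPowerSeries τ O ⧸ maximalIdeal (MvPowerSeries τ O) ^ e) :=
    fun e => Fermat.Agent.S53.finite_quotient_maximalIdeal_pow (𝒪 := O) (σ := τ) e
  have hEvfin : ∀ e : ℕ, Finite (Ev σ O ⧸ maximalIdeal (Ev σ O) ^ e) :=
    fun e => Fermat.Agent.S53.finite_quotient_maximalIdeal_pow (𝒪 := O) (σ := σ) e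
  have hfinP : ∀ N, Finite (MvPowerSeries τ O ⧸ pChain (O := O) lam p d σ τ N) :=
    fun N => hPfin _
  refine PatchThm2.exists_prime_of_subdata (S₀ := Ev σ O) (twChain_antitone lam p)
    (pChain_antitone lam p d)
    (isLimChain_twChain lam p hlam hp)
    (isLimChain_maxPow hlam _ (pExp_monotone lam p d) (le_pExp lam p d))
    (fun N => ?_) (fun N => ?_) hfinS (fun N β x hx => ?_)
    (exists_eq_smul_of_forall lam (fun M => ⟨M + M, twChain_le_box lam p hlam hp M⟩))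
    (augS σ O) (dvd_augS_of_mem_twChain lam p) exists_ker_pow_le J1 Jχ F1 Fχ hF1 hFχ D hD hd
    hdimS hlam0 Jfam hJfam hdim hJ Nid P' hid η hη1 hηlam hηP'
  · have := hfinS N
    exact Cont2.finite_algHom hPfin _
  · have := hfinP N
    exact Cont2.finite_algHom hEvfin _
  · have := hfinS N
    have h1 := Cont2.pow_card_le_ker (β : MvPowerSeries τ O →+*
      Matrix (Fin d) (Fin d) (MvPowerSeries σ O ⧸ twChain (O := O) (σ := σ) lam p N))
    exact h1 (Ideal.pow_le_pow_right (card_le_pExp lam p d N) hx)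

end Fermat.Agent.M43.PSPatch2
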