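import Mathlib
import Fermat.Agent.M43.GlueAlg2
import Fermat.Agent.M43.GlueLoc2
import Fermat.Agent.M43.GlueGamma2
import Fermat.Agent.M43.PSPatch2
import Fermat.Agent.M43.LocRep5

/-!
# M43 / glue: from one level of the Hecke side to a good finite-level datum

`LevelPack` : the commutative-algebra content of one `Iface2.HeckeLevel` together with the output
of P-GLOB (generators of the maximal ideal) and the matrices `Φ_i`, `Σ_i` of Frobenius and of the
tame generators at the bad primes.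

`exists_datum` : a `LevelPack` at level `n` gives a `PatchLimit2.SubDatum` at level `n` which is
good for the ideals `oneIdeal` / `chiIdeal` of P-LOC.
-/

set_option autoImplicit false
set_option linter.unusedSectionVars false

namespace Fermat.Agent.M43.GlueDatum2

open MvPowerSeries IsLocalRing
open Fermat.Agent.S53 Fermat.Agent.M43.LocDefs1 Fermat.Agent.M43.OneSide5
  Fermat.Agent.M43.LocRep5 Fermat.Agent.M43.Iface2 Fermat.Agent.M43.GlueAlg2
  Fermat.Agent.M43.PSChain2 Fermat.Agent.M43.PSEven2 Fermat.Agent.M43.PSPatch2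
  Fermat.Agent.M43.PatchLimit2 Fermat.Agent.M43.GlueGamma2

variable {O : Type} [CommRing O] [IsDomain O] [IsDiscreteValuationRing O]
  {ι : Type} [Fintype ι] [DecidableEq ι] (p r g d n : ℕ) (halfO : O)
  {T0 : Type} [CommRing T0] [IsLocalRing T0] [Algebra O T0]
  (act0 : T0 →ₐ[O] Matrix (Fin d) (Fin d) O)
  (Ph0 Sg0 : ι → Matrix (Fin 2) (Fin 2) T0) (qn : ι → ℕ)

/-- **One level of the Hecke side, in commutative-algebra form.** -/
structure LevelPack : Type 1 where
  /-- the Hecke algebra -/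
  A : Type
  [instCommRing : CommRing A]
  [instLocal : IsLocalRing A]
  [instNoeth : IsNoetherianRing A]
  [instAlgebra : Algebra O A]
  [instLocalHom : IsLocalHom (algebraMap O A)]
  hres : Function.Surjective (residue A ∘ algebraMap O A)
  /-- the matrices of the Frobenius elements at the bad primes -/
  Ph : ι → Matrix (Fin 2) (Fin 2) A
  /-- the matrices of the tame generators at the bad primes -/
  Sg : ι → Matrix (Fin 2) (Fin 2) A
  detS : ∀ i, Sg i 0 0 * Sg i 1 1 - Sg i 0 1 * Sg i 1 0 = 1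
  detP : ∀ i, Ph i 0 0 * Ph i 1 1 - Ph i 0 1 * Ph i 1 0 = algebraMap O A ((qn i : ℕ) : O)
  rel : ∀ i, Ph i * Sg i = Sg i ^ qn i * Ph i
  /-- the images of the variables -/
  uv : Var ι g → A
  huv : ∀ v, uv v ∈ maximalIdeal A
  hgen : maximalIdeal A ≤ Ideal.span (Set.range uv) ⊔ (maximalIdeal O).map (algebraMap O A)
  hx : ∀ i k, uv (Sum.inl (Sum.inl (i, k))) = tl (algebraMap O A halfO) (Ph i) k
  hy : ∀ i k, uv (Sum.inl (Sum.inr (i, k))) = tl (algebraMap O A halfO) (Sg i) k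
  /-- the action on the free module over the group ring -/
  act : A →ₐ[O] Matrix (Fin d) (Fin d) (GR O ι r p n)
  trTW : ∀ i : Fin r, ∃ a : A, act a = Matrix.scalar (Fin d)
    (MonoidAlgebra.of O _ (1, gn p n i) + MonoidAlgebra.of O _ (1, (gn p n i)⁻¹))
  trZ : ∀ i : ι, act (Sg i 0 0 + Sg i 1 1) = Matrix.scalar (Fin d)
    (MonoidAlgebra.of O _ (gZ p i, 1) + MonoidAlgebra.of O _ ((gZ p i)⁻¹, 1))
  /-- the map to level `0` -/
  π : A →ₐ[O] T0
  hπloc : IsLocalHom (π : A →+* T0)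
  hπP : ∀ i a b, π (Ph i a b) = Ph0 i a b
  hπS : ∀ i a b, π (Sg i a b) = Sg0 i a b
  ctrl : ∀ a : A,
    (((spec (1 : DZ ι p →* O)).mapMatrix (m := Fin d) (act a)).map
      (augD : MonoidAlgebra O (Dn r p n) →ₐ[O] O)) = act0 (π a)

attribute [instance] LevelPack.instCommRing LevelPack.instLocal LevelPack.instNoeth
  LevelPack.instAlgebra LevelPack.instLocalHom

/-- **the closed conditions on the `1`-side**: the matrix is the action of an element of the
level-`0` Hecke algebra; at the variables `y i k` it is the action of the traceless coordinates of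
the level-`0` tame generators. -/
def F1 (x : PS O ι g) : Set (Matrix (Fin d) (Fin d) O) :=
  {m | (∃ t0 : T0, act0 t0 = m) ∧
    ∀ i k, x = yv O g i k → m = act0 (tl (algebraMap O T0 halfO) (Sg0 i) k)}

variable (lam : O) [NeZero p]

/-- the exponent: the cardinality of the matrix ring over `S ⧸ twChain n`. -/
noncomputable def cardM : ℕ := Nat.card (Matrix (Fin d) (Fin d) (Bn (r := r) lam p n))

theorem cardM_pos [Finite (Bn (r := r) lam p n)] : 0 < cardM p r d n lam := Nat.card_pos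

namespace LevelPack

variable {p r g d n halfO act0 Ph0 Sg0 qn}
variable (L : LevelPack p r g d n halfO act0 Ph0 Sg0 qn)

/-- the action on the specialisation along `χ'`, pushed to `S ⧸ twChain n`. -/
noncomputable def actS (χ' : DZ ι p →* O) :
    L.A →ₐ[O] Matrix (Fin d) (Fin d) (Bn (r := r) lam p n) :=
  (((psi lam p n).comp (spec χ')).mapMatrix (m := Fin d)).comp L.act

theorem actS_apply (χ' : DZ ι p →* O) (a : L.A) (i j : Fin d) :
    L.actS lam χ' a i j = psi lam p n (spec χ' (L.act a i j)) := rfl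

theorem actS_scalar (χ' : DZ ι p →* O) (a : L.A) (z : GR O ι r p n)
    (h : L.act a = Matrix.scalar (Fin d) z) :
    L.actS lam χ' a = Matrix.scalar (Fin d) (psi lam p n (spec χ' z)) := by
  ext i j
  rw [actS_apply, h, Matrix.scalar_apply, Matrix.scalar_apply, Matrix.diagonal_apply,
    Matrix.diagonal_apply]
  split_ifs
  · rfl
  · rw [map_zero, map_zero]

variable [Finite (Bn (r := r) lam p n)]

theorem actS_kills (χ' : DZ ι p →* O) :
    ∀ a ∈ maximalIdeal L.A ^ cardM p r d n lam, L.actS lam χ' a = 0 :=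
  fun _ ha => RingHom.mem_ker.1 (Cont2.pow_card_le_ker (L.actS lam χ' : L.A →+* _) ha)

/-- the artinian quotient of the Hecke algebra through which both actions factor. -/
abbrev Abar : Type := L.A ⧸ maximalIdeal L.A ^ cardM p r d n lam

/-- the induced action of `Abar`. -/
noncomputable def actSbar (χ' : DZ ι p →* O) :
    L.Abar lam →ₐ[O] Matrix (Fin d) (Fin d) (Bn (r := r) lam p n) :=
  Ideal.Quotient.liftₐ _ (L.actS lam χ') (L.actS_kills lam χ')

theorem actSbar_mk (χ' : DZ ι p →* O) (a : L.A) :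
    L.actSbar lam χ' (Ideal.Quotient.mk _ a) = L.actS lam χ' a := rfl

/-- the presentation of `Abar`. -/
noncomputable def gamL : PS O ι g →ₐ[O] L.Abar lam := gam L.uv L.huv (cardM p r d n lam)

theorem gamL_surjective : Function.Surjective (L.gamL lam) :=
  gam_surjective L.hres L.uv L.huv L.hgen _

/-- the action of the power series ring. -/
noncomputable def alpha (χ' : DZ ι p →* O) :
    PS O ι g →ₐ[O] Matrix (Fin d) (Fin d) (Bn (r := r) lam p n) :=
  (L.actSbar lam χ').comp (L.gamL lam)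

theorem alpha_eq (χ' : DZ ι p →* O) (x : PS O ι g) (a : L.A)
    (h : L.gamL lam x = Ideal.Quotient.mk _ a) : L.alpha lam χ' x = L.actS lam χ' a := by
  rw [alpha, AlgHom.comp_apply, h, actSbar_mk]

/-- representatives in `A`, with the prescribed value at the variables `y i k`. -/
theorem exists_rep (x : PS O ι g) : ∃ a : L.A, L.gamL lam x = Ideal.Quotient.mk _ a ∧
    ∀ i k, x = yv O g i k → a = tl (algebraMap O L.A halfO) (L.Sg i) k := by
  by_cases h : ∃ i k, x = yv O g i k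
  · obtain ⟨i, k, rfl⟩ := h
    refine ⟨tl (algebraMap O L.A halfO) (L.Sg i) k, ?_, ?_⟩
    · rw [← L.hy]
      exact gam_X L.uv L.huv _ _
    · intro i' k' h'
      have h1 := MvPowerSeries.X_inj.1 h'
      simp only [Sum.inl.injEq, Sum.inr.injEq, Prod.mk.injEq] at h1
      obtain ⟨rfl, rfl⟩ := h1
      rfl
  · obtain ⟨a, ha⟩ := Ideal.Quotient.mk_surjective (L.gamL lam x)
    exact ⟨a, ha.symm, fun i k hx => absurd ⟨i, k, hx⟩ h⟩

/-! ### The commutative images and the local relations -/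

section Kills

variable (χ' : DZ ι p →* O)

/-- the (commutative) image of the Hecke algebra on the `χ'`-side. -/
abbrev Bq : Type := L.Abar lam ⧸ RingHom.ker (L.actSbar lam χ')

/-- the projection `A → Bq`. -/
noncomputable def fA : L.A →ₐ[O] L.Bq lam χ' :=
  (Ideal.Quotient.mkₐ O _).comp (Ideal.Quotient.mkₐ O _)

/-- the presentation of `Bq`. -/
noncomputable def gamB : PS O ι g →ₐ[O] L.Bq lam χ' :=
  (Ideal.Quotient.mkₐ O _).comp (L.gamL lam)

theorem fA_eq_of_actS_eq {a a' : L.A} (h : L.actS lam χ' a = L.actS lam χ' a') :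
    L.fA lam χ' a = L.fA lam χ' a' := by
  rw [← sub_eq_zero, ← map_sub]
  show Ideal.Quotient.mk _ (Ideal.Quotient.mk _ (a - a')) = 0
  rw [Ideal.Quotient.eq_zero_iff_mem, RingHom.mem_ker]
  show L.actSbar lam χ' (Ideal.Quotient.mk _ (a - a')) = 0
  rw [actSbar_mk, map_sub, h, sub_self]

theorem alpha_eq_zero_of_gamB {x : PS O ι g} (h : L.gamB lam χ' x = 0) :
    L.alpha lam χ' x = 0 := by
  have h1 : Ideal.Quotient.mk (RingHom.ker (L.actSbar lam χ'))
      (L.gamL lam x) = 0 := h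
  rw [Ideal.Quotient.eq_zero_iff_mem, RingHom.mem_ker] at h1
  exact h1

theorem gamB_eq_fA (x : PS O ι g) (a : L.A) (h : L.gamL lam x = Ideal.Quotient.mk _ a) :
    L.gamB lam χ' x = L.fA lam χ' a := by
  show Ideal.Quotient.mk _ (L.gamL lam x) = _
  rw [h]
  rfl

theorem gamB_xv (i : ι) (k : Fin 3) :
    L.gamB lam χ' (xv O g i k) =
      tl (algebraMap O (L.Bq lam χ') halfO)
        ((L.fA lam χ' : L.A →+* L.Bq lam χ').mapMatrix (L.Ph i)) k := by
  rw [xv, L.gamB_eq_fA lam χ' _ _ (gam_X L.uv L.huv _ _), L.hx, RingHom.mapMatrix_apply,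
    ← AlgHom.commutes (L.fA lam χ') halfO]
  exact (GlueLoc2.tl_map (L.fA lam χ' : L.A →+* L.Bq lam χ') _ _ k).symm

theorem gamB_yv (i : ι) (k : Fin 3) :
    L.gamB lam χ' (yv O g i k) =
      tl (algebraMap O (L.Bq lam χ') halfO)
        ((L.fA lam χ' : L.A →+* L.Bq lam χ').mapMatrix (L.Sg i)) k := by
  rw [yv, L.gamB_eq_fA lam χ' _ _ (gam_X L.uv L.huv _ _), L.hy, RingHom.mapMatrix_apply,
    ← AlgHom.commutes (L.fA lam χ') halfO]
  exact (GlueLoc2.tl_map (L.fA lam χ' : L.A →+* L.Bq lam χ') _ _ k).symm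

/-- the trace of the tame generator acts through `χ'`. -/
theorem fA_trace (i : ι) :
    L.fA lam χ' (L.Sg i 0 0 + L.Sg i 1 1) =
      algebraMap O (L.Bq lam χ') (χ' (gZ p i) + χ' (gZ p i)⁻¹) := by
  rw [← AlgHom.commutes (L.fA lam χ')]
  refine L.fA_eq_of_actS_eq lam χ' ?_
  rw [L.actS_scalar lam χ' _ _ (L.trZ i), AlgHom.commutes, map_add, spec_of, spec_of, map_add,
    map_smul, map_smul]
  ext a b
  rw [Matrix.scalar_apply, Matrix.diagonal_apply, Matrix.algebraMap_matrix_apply]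
  split_ifs
  · rw [MonoidAlgebra.of_apply, ← MonoidAlgebra.one_def, map_one, ← add_smul,
      Algebra.algebraMap_eq_smul_one]
  · rfl

theorem detS_B (i : ι) :
    (L.fA lam χ' : L.A →+* L.Bq lam χ').mapMatrix (L.Sg i) 0 0 *
      (L.fA lam χ' : L.A →+* L.Bq lam χ').mapMatrix (L.Sg i) 1 1 -
      (L.fA lam χ' : L.A →+* L.Bq lam χ').mapMatrix (L.Sg i) 0 1 *
      (L.fA lam χ' : L.A →+* L.Bq lam χ').mapMatrix (L.Sg i) 1 0 = 1 := by
  simp only [RingHom.mapMatrix_apply, Matrix.map_apply]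
  rw [← map_mul, ← map_mul, ← map_sub, L.detS i, map_one]

theorem detP_B (i : ι) :
    (L.fA lam χ' : L.A →+* L.Bq lam χ').mapMatrix (L.Ph i) 0 0 *
      (L.fA lam χ' : L.A →+* L.Bq lam χ').mapMatrix (L.Ph i) 1 1 -
      (L.fA lam χ' : L.A →+* L.Bq lam χ').mapMatrix (L.Ph i) 0 1 *
      (L.fA lam χ' : L.A →+* L.Bq lam χ').mapMatrix (L.Ph i) 1 0 =
      algebraMap O (L.Bq lam χ') ((qn i : ℕ) : O) := by
  simp only [RingHom.mapMatrix_apply, Matrix.map_apply]
  rw [← map_mul, ← map_mul, ← map_sub, L.detP i]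
  exact AlgHom.commutes (L.fA lam χ') _

theorem rel_B (i : ι) :
    (L.fA lam χ' : L.A →+* L.Bq lam χ').mapMatrix (L.Ph i) *
      (L.fA lam χ' : L.A →+* L.Bq lam χ').mapMatrix (L.Sg i) =
    (L.fA lam χ' : L.A →+* L.Bq lam χ').mapMatrix (L.Sg i) ^ qn i *
      (L.fA lam χ' : L.A →+* L.Bq lam χ').mapMatrix (L.Ph i) := by
  rw [← map_pow, ← map_mul, ← map_mul, L.rel i]

theorem trS_B (i : ι) :
    (L.fA lam χ' : L.A →+* L.Bq lam χ').mapMatrix (L.Sg i) 0 0 +
      (L.fA lam χ' : L.A →+* L.Bq lam χ').mapMatrix (L.Sg i) 1 1 =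
      algebraMap O (L.Bq lam χ') (χ' (gZ p i) + χ' (gZ p i)⁻¹) := by
  simp only [RingHom.mapMatrix_apply, Matrix.map_apply]
  rw [← L.fA_trace lam χ' i, map_add]
  rfl

theorem two_mul_half_B (hhalf : 2 * halfO = 1) :
    2 * algebraMap O (L.Bq lam χ') halfO = 1 := by
  rw [← map_ofNat (algebraMap O (L.Bq lam χ')) 2, ← map_mul, hhalf, map_one]

/-- **the `χ`-side ideal is killed.** -/
theorem kills_chi (hhalf : 2 * halfO = 1) (hζp : ∀ i, χ' (gZ p i) ^ p = 1)
    (hζne : ∀ i, χ' (gZ p i) ≠ χ' (gZ p i)⁻¹) (hqpos : ∀ i, 0 < qn i)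
    (hpq : ∀ i, p ∣ qn i - 1) :
    ∀ x ∈ chiIdeal O g (fun i => (halfO * (χ' (gZ p i) + χ' (gZ p i)⁻¹)) ^ 2 - 1),
      L.alpha lam χ' x = 0 := by
  intro x hx
  refine L.alpha_eq_zero_of_gamB lam χ' ?_
  have hζ : ∀ i, χ' (gZ p i) * χ' (gZ p i)⁻¹ = 1 := fun i => by
    rw [← map_mul, mul_inv_cancel, map_one]
  have h2B := L.two_mul_half_B lam χ' hhalf
  have hle := chiIdeal_le_ker (L.gamB lam χ') (algebraMap O (L.Bq lam χ') halfO) h2B
    (fun i => (halfO * (χ' (gZ p i) + χ' (gZ p i)⁻¹)) ^ 2 - 1)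
    (fun i => halfO * (χ' (gZ p i) + χ' (gZ p i)⁻¹)) (fun _ => rfl)
    (fun i => (L.fA lam χ' : L.A →+* L.Bq lam χ').mapMatrix (L.Ph i))
    (fun i => (L.fA lam χ' : L.A →+* L.Bq lam χ').mapMatrix (L.Sg i))
    (L.gamB_xv lam χ') (L.gamB_yv lam χ') ?_ ?_ (L.detS_B lam χ')
  · exact hle hx
  · intro i
    have hpow : (L.fA lam χ' : L.A →+* L.Bq lam χ').mapMatrix (L.Sg i) ^ p = 1 :=
      pow_eq_one_of_charpoly (χ' (gZ p i)) (χ' (gZ p i)⁻¹) p (hζ i) (hζp i) (hζne i) _
        (L.trS_B lam χ' i) (L.detS_B lam χ' i)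
    refine commute_of_conj_eq_pow _ _ (qn i) (hqpos i) (L.rel_B lam χ' i) ?_
    obtain ⟨c, hc⟩ := hpq i
    rw [hc, pow_mul, hpow, one_pow]
  · intro i
    rw [L.trS_B lam χ' i, map_mul, ← mul_assoc, h2B, one_mul]

/-- **the `1`-side ideal is killed.** -/
theorem kills_one (hhalf : 2 * halfO = 1) (s0 : ι → O)
    (hs0 : ∀ i, s0 i ^ 2 = ((qn i : ℕ) : O)) (t : ι → PS O ι g)
    (ht : ∀ i, t i ^ 2 = C (s0 i ^ 2) + (xv O g i 0 ^ 2 + xv O g i 1 * xv O g i 2) ∧
      constantCoeff (t i) = s0 i)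
    (hu0 : ∀ i, IsUnit (algebraMap O T0 (s0 i) + htr (algebraMap O T0 halfO) (Ph0 i))) :
    ∀ x ∈ oneIdeal O g (fun i => ((qn i : ℕ) : O)) t,
      L.alpha lam (1 : DZ ι p →* O) x = 0 := by
  intro x hx
  refine L.alpha_eq_zero_of_gamB lam 1 ?_
  have h2B := L.two_mul_half_B lam 1 hhalf
  have hle := oneIdeal_le_ker (L.gamB lam 1) (algebraMap O (L.Bq lam 1) halfO) h2B qn t
    (fun i => (L.fA lam 1 : L.A →+* L.Bq lam 1).mapMatrix (L.Ph i))
    (fun i => (L.fA lam 1 : L.A →+* L.Bq lam 1).mapMatrix (L.Sg i))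
    (L.gamB_xv lam 1) (L.gamB_yv lam 1) ?_ ?_ (L.detS_B lam 1) (L.rel_B lam 1)
  · exact hle hx
  · intro i
    refine algHom_halfTrace (L.gamB lam 1) _ h2B (t i) (s0 i ^ 2) i (ht i).1 _
      (L.gamB_xv lam 1 i) ?_ ?_
    · rw [L.detP_B lam 1 i, hs0 i]
    · -- the unit condition
      obtain ⟨at', hat⟩ := Ideal.Quotient.mk_surjective (L.gamL lam (t i))
      have h1 := gam_sub_const_mem (O := O) L.uv L.huv (cardM p r d n lam) (t i)
      rw [(ht i).2] at h1
      have h1' : L.gamL lam (t i) - algebraMap O (L.Abar lam) (s0 i) ∈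
          (maximalIdeal L.A).map (Ideal.Quotient.mk (maximalIdeal L.A ^ cardM p r d n lam)) := h1
      rw [← hat] at h1'
      have h3 : at' - algebraMap O L.A (s0 i) ∈ maximalIdeal L.A := by
        refine mem_of_mk_mem (cardM_pos p r d n lam) ?_
        rw [map_sub]
        exact h1'
      have h4 : IsUnit (at' + htr (algebraMap O L.A halfO) (L.Ph i)) := by
        have e : at' + htr (algebraMap O L.A halfO) (L.Ph i) =
            (algebraMap O L.A (s0 i) + htr (algebraMap O L.A halfO) (L.Ph i)) +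
              (at' - algebraMap O L.A (s0 i)) := by ring
        rw [e]
        refine isUnit_add_of_map (L.π : L.A →+* T0) L.hπloc _ _ h3 ?_
        have e2 : (L.π : L.A →+* T0) (algebraMap O L.A (s0 i) +
            htr (algebraMap O L.A halfO) (L.Ph i)) =
            algebraMap O T0 (s0 i) + htr (algebraMap O T0 halfO) (Ph0 i) := by
          rw [map_add, ← GlueLoc2.htr_map]
          congr 1
          · exact AlgHom.commutes L.π _
          · congr 1
            · exact AlgHom.commutes L.π _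
            · ext a b
              exact L.hπP i a b
        rw [e2]
        exact hu0 i
      have h5 := h4.map (L.fA lam 1)
      have e3 : L.fA lam 1 (at' + htr (algebraMap O L.A halfO) (L.Ph i)) =
          L.gamB lam 1 (t i) + htr (algebraMap O (L.Bq lam 1) halfO)
            ((L.fA lam 1 : L.A →+* L.Bq lam 1).mapMatrix (L.Ph i)) := by
        rw [map_add, L.gamB_eq_fA lam 1 (t i) at' hat.symm, RingHom.mapMatrix_apply,
          ← AlgHom.commutes (L.fA lam 1) halfO]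
        congr 1
      rwa [e3] at h5
  · intro i
    rw [L.trS_B lam 1 i, MonoidHom.one_apply, MonoidHom.one_apply, map_add, map_one]
    norm_num

end Kills

/-! ### The structure maps: `S₀` acts through the power series ring -/

section Through

theorem actS_trTW (χ' : DZ ι p →* O) (i : Fin r) (a : L.A)
    (ha : L.act a = Matrix.scalar (Fin d)
      (MonoidAlgebra.of O _ (1, gn p n i) + MonoidAlgebra.of O _ (1, (gn p n i)⁻¹))) :
    L.actS lam χ' a = Matrix.scalar (Fin d) (wB lam p n i + wB' lam p n i) := by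
  rw [L.actS_scalar lam χ' a _ ha, map_add, spec_of, spec_of, map_one, one_smul, one_smul,
    map_add, psi_of_gn, psi_of_gn_inv]

/-- an element of the Hecke algebra acting as `X_i ^ 2`. -/
theorem exists_sq (h2 : IsUnit (2 : O)) (i : Fin r) : ∃ e : L.A, ∀ χ' : DZ ι p →* O,
    L.actS lam χ' e = Matrix.scalar (Fin d)
      (Ideal.Quotient.mk (twChain (O := O) (σ := Fin r) lam p n) (X i ^ 2)) := by
  obtain ⟨a, ha⟩ := L.trTW i
  obtain ⟨u, hu⟩ := isUnit_trace_add_two lam p n h2 i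
  have hk : u ^ Nat.card (Bn (r := r) lam p n)ˣ = 1 := pow_card_eq_one'
  have hkpos : 0 < Nat.card (Bn (r := r) lam p n)ˣ := Nat.card_pos
  refine ⟨(a - 2) * (a + 2) ^ (Nat.card (Bn (r := r) lam p n)ˣ - 1), fun χ' => ?_⟩
  have h1 := L.actS_trTW lam χ' i a ha
  have h2' : (2 : Matrix (Fin d) (Fin d) (Bn (r := r) lam p n)) = Matrix.scalar (Fin d) 2 :=
    (map_ofNat (Matrix.scalar (Fin d)) 2).symm
  rw [map_mul, map_pow, map_sub, map_add, h1, map_ofNat, h2', ← map_sub, ← map_add, ← map_pow,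
    ← map_mul]
  congr 1
  rw [trace_formula, mul_assoc, ← pow_succ', Nat.sub_add_cancel hkpos, ← hu,
    ← Units.val_pow_eq_pow_val, hk, Units.val_one, mul_one]

omit [NeZero p] in
theorem isNilpotent_mk_X (i : Fin r) :
    IsNilpotent (Ideal.Quotient.mk (twChain (O := O) (σ := Fin r) lam p n) (X i ^ 2)) := by
  have h := Cont2.pow_card_le_ker (Ideal.Quotient.mk (twChain (O := O) (σ := Fin r) lam p n))
  refine ⟨Nat.card (Bn (r := r) lam p n), ?_⟩
  rw [← map_pow, ← RingHom.mem_ker]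
  apply h
  exact Ideal.pow_mem_pow (Ideal.pow_mem_of_mem _
    (X_mem_maximalIdeal (O := O) (σ := Fin r) i) 2 (by norm_num)) _

/-- an element of the maximal ideal of the Hecke algebra acting as `X_i ^ 2`. -/
theorem exists_sq' (h2 : IsUnit (2 : O)) (i : Fin r) : ∃ e ∈ maximalIdeal L.A,
    ∀ χ' : DZ ι p →* O, L.actS lam χ' e = Matrix.scalar (Fin d)
      (Ideal.Quotient.mk (twChain (O := O) (σ := Fin r) lam p n) (X i ^ 2)) := by
  obtain ⟨e, he⟩ := L.exists_sq lam h2 i
  by_cases hm : e ∈ maximalIdeal L.A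
  · exact ⟨e, hm, he⟩
  · have hu : IsUnit e := by
      by_contra hc
      exact hm ((mem_maximalIdeal e).2 hc)
    have h1 : IsUnit (Matrix.scalar (Fin d)
        (Ideal.Quotient.mk (twChain (O := O) (σ := Fin r) lam p n) (X i ^ 2))) := by
      rw [← he 1]
      exact hu.map _
    obtain ⟨k, hk⟩ := (isNilpotent_mk_X lam (p := p) (n := n) i).map (Matrix.scalar (Fin d))
    have h3 := h1.pow k
    rw [hk, isUnit_zero_iff] at h3
    have hsub : Subsingleton (Matrix (Fin d) (Fin d) (Bn (r := r) lam p n)) :=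
      subsingleton_of_zero_eq_one h3
    exact ⟨0, Ideal.zero_mem _, fun χ' => Subsingleton.elim _ _⟩

/-- power series acting as `X_i ^ 2`. -/
theorem exists_tau (h2 : IsUnit (2 : O)) (i : Fin r) :
    ∃ τ ∈ maximalIdeal (PS O ι g), ∀ χ' : DZ ι p →* O,
      L.alpha lam χ' τ = Matrix.scalar (Fin d)
        (Ideal.Quotient.mk (twChain (O := O) (σ := Fin r) lam p n) (X i ^ 2)) := by
  obtain ⟨e, hem, he⟩ := L.exists_sq' lam h2 i
  obtain ⟨τ, hτ⟩ := L.gamL_surjective lam (Ideal.Quotient.mk _ e)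
  exact ⟨τ, mem_maximalIdeal_of_gam_eq L.uv L.huv (cardM_pos p r d n lam) τ e hem hτ,
    fun χ' => by rw [L.alpha_eq lam χ' τ e hτ, he]⟩

theorem alpha_kills (χ' : DZ ι p →* O) :
    ∀ x ∈ maximalIdeal (PS O ι g) ^ pExp (O := O) lam p d (Fin r) n, L.alpha lam χ' x = 0 := by
  intro x hx
  have h1 := Cont2.pow_card_le_ker (L.alpha lam χ' : PS O ι g →+*
    Matrix (Fin d) (Fin d) (Bn (r := r) lam p n))
  exact RingHom.mem_ker.1 (h1 (Ideal.pow_le_pow_right (card_le_pExp lam p d n) hx))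

/-- **the structure map** `S₀ → P ⧸ 𝔭 n` (the same on both sides). -/
theorem exists_sigma (h2 : IsUnit (2 : O)) :
    ∃ σh : Ev (Fin r) O →ₐ[O] PS O ι g ⧸ pChain (O := O) lam p d (Fin r) (Var ι g) n,
      ∀ (χ' : DZ ι p →* O) (s : Ev (Fin r) O) (x : PS O ι g),
        Ideal.Quotient.mk (pChain (O := O) lam p d (Fin r) (Var ι g) n) x = σh s →
        L.alpha lam χ' x = Matrix.scalar (Fin d)
          (Ideal.Quotient.mk (twChain (O := O) (σ := Fin r) lam p n)
            (IsScalarTower.toAlgHom O (Ev (Fin r) O) (MvPowerSeries (Fin r) O) s)) := by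
  choose τ hτm hτ using L.exists_tau lam h2
  let σ0 : MvPowerSeries (Fin r) O →ₐ[O]
      PS O ι g ⧸ maximalIdeal (PS O ι g) ^ pExp (O := O) lam p d (Fin r) n :=
    gam (O := O) (A := PS O ι g) τ hτm (pExp (O := O) lam p d (Fin r) n)
  refine ⟨σ0.comp (toPS (σ := Fin r) (O := O)).toAlgHom, fun χ' s x hx => ?_⟩
  let αbar : (PS O ι g ⧸ maximalIdeal (PS O ι g) ^ pExp (O := O) lam p d (Fin r) n) →ₐ[O]
      Matrix (Fin d) (Fin d) (Bn (r := r) lam p n) :=
    Ideal.Quotient.liftₐ _ (L.alpha lam χ') (L.alpha_kills lam χ')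
  let φ1 : MvPowerSeries (Fin r) O →ₐ[O] Matrix (Fin d) (Fin d) (Bn (r := r) lam p n) :=
    αbar.comp σ0
  let φ2 : MvPowerSeries (Fin r) O →ₐ[O] Matrix (Fin d) (Fin d) (Bn (r := r) lam p n) :=
    (Matrix.scalarAlgHom (Fin d) O).comp
      ((Ideal.Quotient.mkₐ O (twChain (O := O) (σ := Fin r) lam p n)).comp ex)
  have h12 : φ1 = φ2 := by
    refine algHom_ext_of_finite φ1 φ2 fun i => ?_
    show αbar (σ0 (X i)) = Matrix.scalar (Fin d) (Ideal.Quotient.mk _ (ex (X i)))
    rw [gam_X, ex, expand_X]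
    exact hτ i χ'
  have h3 : L.alpha lam χ' x = αbar (Ideal.Quotient.mk _ x) := rfl
  have hx' : Ideal.Quotient.mk (maximalIdeal (PS O ι g) ^ pExp (O := O) lam p d (Fin r) n) x =
      σ0 (toPS s) := hx
  rw [h3, hx']
  exact DFunLike.congr_fun h12 (toPS s)

end Through

/-! ### Augmentation and intertwining -/

section Aug

theorem aug_one (x : PS O ι g) (A' : Matrix (Fin d) (Fin d) (MvPowerSeries (Fin r) O))
    (hA : (Ideal.Quotient.mkₐ O (twChain (O := O) (σ := Fin r) lam p n)).mapMatrix (m := Fin d) A' =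
      L.alpha lam (1 : DZ ι p →* O) x) :
    ∃ m ∈ F1 g d halfO act0 Sg0 x, ∀ i j, lam ^ n ∣ augS (Fin r) O (A' i j) - m i j := by
  obtain ⟨a, ha, hay⟩ := L.exists_rep lam x
  refine ⟨act0 (L.π a), ⟨⟨L.π a, rfl⟩, fun i k hx => ?_⟩, fun i j => ?_⟩
  · rw [hay i k hx]
    congr 1
    rw [← AlgHom.commutes L.π halfO]
    have h1 := GlueLoc2.tl_map (L.π : L.A →+* T0) (algebraMap O L.A halfO) (L.Sg i) k
    have h2 : (L.Sg i).map (L.π : L.A →+* T0) = Sg0 i := by
      ext a b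
      exact L.hπS i a b
    rw [h2] at h1
    exact h1.symm
  · rw [← Ideal.mem_span_singleton, ← Ideal.Quotient.eq, ← augQ_mk lam p n (A' i j)]
    have h1 : Ideal.Quotient.mk (twChain (O := O) (σ := Fin r) lam p n) (A' i j) =
        L.alpha lam (1 : DZ ι p →* O) x i j := congrFun (congrFun hA i) j
    rw [h1, L.alpha_eq lam 1 x a ha, actS_apply, augQ_psi]
    congr 1
    exact congrFun (congrFun (L.ctrl a) i) j

theorem aug_chi (α : PS O ι g →ₐ[O] Matrix (Fin d) (Fin d) (Bn (r := r) lam p n))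
    (x : PS O ι g) (A' : Matrix (Fin d) (Fin d) (MvPowerSeries (Fin r) O))
    (_hA : (Ideal.Quotient.mkₐ O (twChain (O := O) (σ := Fin r) lam p n)).mapMatrix (m := Fin d) A' =
      α x) :
    ∃ m ∈ (Set.univ : Set (Matrix (Fin d) (Fin d) O)),
      ∀ i j, lam ^ n ∣ augS (Fin r) O (A' i j) - m i j :=
  ⟨Matrix.of fun i j => augS (Fin r) O (A' i j), Set.mem_univ _, fun i j => by
    rw [Matrix.of_apply, sub_self]; exact dvd_zero _⟩

theorem tw_good (χ : DZ ι p →* O) (hχ1 : ∀ h, lam ∣ (1 : DZ ι p →* O) h - χ h) :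
    TwGood lam n (L.alpha lam (1 : DZ ι p →* O)) (L.alpha lam χ) 1 1 := by
  refine ⟨one_mul 1, fun x => ?_⟩
  obtain ⟨a, ha, -⟩ := L.exists_rep lam x
  have h := fun i j => spec_sub_spec (r := r) (n := n) lam (1 : DZ ι p →* O) χ hχ1 (L.act a i j)
  choose y hy using h
  refine ⟨Matrix.of fun i j => psi lam p n (y i j), ?_⟩
  rw [one_mul, mul_one, L.alpha_eq lam 1 x a ha, L.alpha_eq lam χ x a ha]
  ext i j
  rw [Matrix.sub_apply, actS_apply, actS_apply, ← map_sub, hy, map_smul, Matrix.smul_apply,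
    Matrix.of_apply]

end Aug

include L in
/-- **One level of the Hecke side gives a good finite-level datum.** -/
theorem exists_datum (hhalf : 2 * halfO = 1) (h2 : IsUnit (2 : O)) (χ : DZ ι p →* O)
    (hχ1 : ∀ h, lam ∣ (1 : DZ ι p →* O) h - χ h) (hζp : ∀ i, χ (gZ p i) ^ p = 1)
    (hζne : ∀ i, χ (gZ p i) ≠ χ (gZ p i)⁻¹) (hqpos : ∀ i, 0 < qn i)
    (hpq : ∀ i, p ∣ qn i - 1) (s0 : ι → O)
    (hs0 : ∀ i, s0 i ^ 2 = ((qn i : ℕ) : O)) (t : ι → PS O ι g)
    (ht : ∀ i, t i ^ 2 = C (s0 i ^ 2) + (xv O g i 0 ^ 2 + xv O g i 1 * xv O g i 2) ∧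
      constantCoeff (t i) = s0 i)
    (hu0 : ∀ i, IsUnit (algebraMap O T0 (s0 i) + htr (algebraMap O T0 halfO) (Ph0 i))) :
    ∃ D : SubDatum O (Ev (Fin r) O) (twChain (O := O) (σ := Fin r) lam p)
        (pChain (O := O) lam p d (Fin r) (Var ι g)) d n,
      D.IsGood lam (IsScalarTower.toAlgHom O (Ev (Fin r) O) (MvPowerSeries (Fin r) O))
        (oneIdeal O g (fun i => ((qn i : ℕ) : O)) t)
        (chiIdeal O g (fun i => (halfO * (χ (gZ p i) + χ (gZ p i)⁻¹)) ^ 2 - 1))
        (augS (Fin r) O) (F1 g d halfO act0 Sg0) (fun _ => Set.univ) := by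
  obtain ⟨σh, hσ⟩ := L.exists_sigma lam h2
  refine ⟨⟨L.alpha lam 1, L.alpha lam χ, σh, σh, 1, 1⟩, ⟨?_, ?_, L.tw_good lam χ hχ1⟩⟩
  · exact ⟨L.kills_one lam hhalf s0 hs0 t ht hu0, fun s x hx => hσ 1 s x hx, L.aug_one lam⟩
  · exact ⟨L.kills_chi lam χ hhalf hζp hζne hqpos hpq, fun s x hx => hσ χ s x hx,
      aug_chi lam (L.alpha lam χ)⟩

end LevelPack

end Fermat.Agent.M43.GlueDatum2
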