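/-
Programme M43 (target S43), pillar (P-LOC), helper1: **currying of multivariate power series.**

`MvPowerSeries (σ ⊕ τ) R ≃+* MvPowerSeries τ (MvPowerSeries σ R)` (inner variables `σ`, outer
variables `τ`), with the coefficient formula, the images of the variables and of constants.
Mathlib only.
-/
import Mathlib

set_option autoImplicit false

namespace Fermat.Agent.M43.PSBlock1

open MvPowerSeries Finset

variable {σ τ : Type*} {R : Type*} [CommRing R]

/-- the curried series: outer variables `τ`, inner variables `σ`. -/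
noncomputable def curryFun (p : MvPowerSeries (σ ⊕ τ) R) : MvPowerSeries τ (MvPowerSeries σ R) :=
  fun e => fun d => coeff (Finsupp.sumElim d e) p

theorem coeff_coeff_curryFun (p : MvPowerSeries (σ ⊕ τ) R) (e : τ →₀ ℕ) (d : σ →₀ ℕ) :
    coeff d (coeff e (curryFun p)) = coeff (Finsupp.sumElim d e) p := rfl

/-- the inverse of `curryFun`. -/
noncomputable def uncurryFun (q : MvPowerSeries τ (MvPowerSeries σ R)) : MvPowerSeries (σ ⊕ τ) R :=
  fun x => coeff (x.comapDomain Sum.inl Sum.inl_injective.injOn)
    (coeff (x.comapDomain Sum.inr Sum.inr_injective.injOn) q)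

theorem coeff_uncurryFun (q : MvPowerSeries τ (MvPowerSeries σ R)) (x : σ ⊕ τ →₀ ℕ) :
    coeff x (uncurryFun q) = coeff (x.comapDomain Sum.inl Sum.inl_injective.injOn)
      (coeff (x.comapDomain Sum.inr Sum.inr_injective.injOn) q) := rfl

theorem curryFun_mul (p q : MvPowerSeries (σ ⊕ τ) R) :
    curryFun (p * q) = curryFun p * curryFun q := by
  classical
  ext e d
  rw [coeff_coeff_curryFun, coeff_mul, coeff_mul, map_sum]
  simp_rw [coeff_mul, coeff_coeff_curryFun]
  rw [← Finsupp.image_sumElim_product_antidiagonal, Finset.sum_image]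
  · rw [Finset.sum_product, Finset.sum_comm]
  · rintro ⟨⟨a, b⟩, ⟨a', b'⟩⟩ - ⟨⟨a2, b2⟩, ⟨a2', b2'⟩⟩ - h
    simp only [Prod.mk.injEq] at h
    obtain ⟨h1, h2⟩ := h
    have e1 := congrArg (fun f => f.comapDomain Sum.inl Sum.inl_injective.injOn) h1
    have e2 := congrArg (fun f => f.comapDomain Sum.inr Sum.inr_injective.injOn) h1
    have e3 := congrArg (fun f => f.comapDomain Sum.inl Sum.inl_injective.injOn) h2
    have e4 := congrArg (fun f => f.comapDomain Sum.inr Sum.inr_injective.injOn) h2
    simp only [Finsupp.comapDomain_inl_sumElim, Finsupp.comapDomain_inr_sumElim] at e1 e2 e3 e4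
    simp [e1, e2, e3, e4]

theorem uncurryFun_curryFun (p : MvPowerSeries (σ ⊕ τ) R) : uncurryFun (curryFun p) = p := by
  ext x
  rw [coeff_uncurryFun, coeff_coeff_curryFun, Finsupp.comapDomain_sumElim_comapDomain]

theorem curryFun_uncurryFun (q : MvPowerSeries τ (MvPowerSeries σ R)) :
    curryFun (uncurryFun q) = q := by
  ext e d
  rw [coeff_coeff_curryFun, coeff_uncurryFun, Finsupp.comapDomain_inl_sumElim,
    Finsupp.comapDomain_inr_sumElim]

/-- **Currying**: `R[[σ ⊕ τ]] ≃+* (R[[σ]])[[τ]]`. -/
noncomputable def curry : MvPowerSeries (σ ⊕ τ) R ≃+* MvPowerSeries τ (MvPowerSeries σ R) where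
  toFun := curryFun
  invFun := uncurryFun
  left_inv := uncurryFun_curryFun
  right_inv := curryFun_uncurryFun
  map_mul' := curryFun_mul
  map_add' _ _ := by ext e d; simp [coeff_coeff_curryFun]

theorem coeff_coeff_curry (p : MvPowerSeries (σ ⊕ τ) R) (e : τ →₀ ℕ) (d : σ →₀ ℕ) :
    coeff d (coeff e (curry p)) = coeff (Finsupp.sumElim d e) p := rfl

theorem coeff_curry_symm (q : MvPowerSeries τ (MvPowerSeries σ R)) (d : σ →₀ ℕ) (e : τ →₀ ℕ) :
    coeff (Finsupp.sumElim d e) (curry.symm q) = coeff d (coeff e q) := by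
  have h := coeff_coeff_curry (curry.symm q) e d
  rw [RingEquiv.apply_symm_apply] at h
  exact h.symm

theorem curry_monomial (d : σ →₀ ℕ) (e : τ →₀ ℕ) (r : R) :
    curry (monomial (Finsupp.sumElim d e) r) = monomial e (monomial d r) := by
  classical
  ext e' d'
  rw [coeff_coeff_curry, coeff_monomial, coeff_monomial]
  by_cases he : e' = e
  · subst he
    rw [if_pos rfl, coeff_monomial]
    by_cases hd : d' = d
    · subst hd; rw [if_pos rfl, if_pos rfl]
    · rw [if_neg hd, if_neg]
      intro h
      apply hd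
      have := congrArg (fun f => f.comapDomain Sum.inl Sum.inl_injective.injOn) h
      simpa only [Finsupp.comapDomain_inl_sumElim] using this
  · rw [if_neg he, if_neg, map_zero]
    intro h
    apply he
    have := congrArg (fun f => f.comapDomain Sum.inr Sum.inr_injective.injOn) h
    simpa only [Finsupp.comapDomain_inr_sumElim] using this

theorem curry_X_inl (s : σ) : curry (X (Sum.inl s) : MvPowerSeries (σ ⊕ τ) R) = C (X s) := by
  have h := curry_monomial (τ := τ) (Finsupp.single s 1) (0 : τ →₀ ℕ) (1 : R)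
  rw [Finsupp.sumElim_single_zero] at h
  exact h

theorem curry_X_inr (t : τ) : curry (X (Sum.inr t) : MvPowerSeries (σ ⊕ τ) R) = X t := by
  have h := curry_monomial (0 : σ →₀ ℕ) (Finsupp.single t 1) (1 : R)
  rw [Finsupp.sumElim_zero_single] at h
  exact h

theorem curry_C (r : R) : curry (C r : MvPowerSeries (σ ⊕ τ) R) = C (C r) := by
  have h := curry_monomial (0 : σ →₀ ℕ) (0 : τ →₀ ℕ) r
  rw [Finsupp.sumElim_zero_zero] at h
  exact h

end Fermat.Agent.M43.PSBlock1
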