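/-
Programme M43 (target S43), pillar (P-LOC), helper1: **change of coefficients of power series
along a quotient map** (generic plumbing, Mathlib only).

* `map_surjective` : `MvPowerSeries.map f` is onto when `f` is;
* `mem_ker_map_iff` : the kernel of `MvPowerSeries.map f` is coefficientwise;
* `ker_map_mk` : for a finitely generated ideal `𝔞`, the kernel of
  `A[[σ]] → (A ⧸ 𝔞)[[σ]]` is the extended ideal `𝔞 A[[σ]]`;
* `comap_map_mk` : `π⁻¹ (π I) = I + 𝔞 A[[σ]]`.
-/
import Mathlib

set_option autoImplicit false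

namespace Fermat.Agent.M43.PSQuot1

open MvPowerSeries

section

variable {σ : Type*} {A B : Type*} [CommRing A] [CommRing B]

theorem map_surjective (f : A →+* B) (hf : Function.Surjective f) :
    Function.Surjective (MvPowerSeries.map (σ := σ) f) := by
  intro G
  refine ⟨fun d => Classical.choose (hf (coeff d G)), ?_⟩
  ext d
  rw [coeff_map, coeff_apply]
  exact Classical.choose_spec (hf (coeff d G))

theorem mem_ker_map_iff (f : A →+* B) (F : MvPowerSeries σ A) :
    F ∈ RingHom.ker (MvPowerSeries.map (σ := σ) f) ↔ ∀ d, coeff d F ∈ RingHom.ker f := by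
  rw [RingHom.mem_ker]
  constructor
  · intro h d
    rw [RingHom.mem_ker, ← coeff_map, h, map_zero]
  · intro h
    ext d
    rw [coeff_map, map_zero]
    exact h d

/-- the kernel of reduction of the coefficients modulo a finitely generated ideal is the
extended ideal. -/
theorem ker_map_mk (𝔞 : Ideal A) (h𝔞 : 𝔞.FG) :
    RingHom.ker (MvPowerSeries.map (σ := σ) (Ideal.Quotient.mk 𝔞)) =
      Ideal.map (C : A →+* MvPowerSeries σ A) 𝔞 := by
  apply le_antisymm
  · intro F hF
    rw [mem_ker_map_iff] at hF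
    obtain ⟨n, a, ha⟩ := Submodule.fg_iff_exists_fin_generating_family.1 h𝔞
    have hex : ∀ d, ∃ g : Fin n → A, ∑ i, g i • a i = coeff d F := by
      intro d
      have := hF d
      rw [Ideal.mk_ker, ← ha] at this
      exact (Submodule.mem_span_range_iff_exists_fun A).1 this
    choose g hg using hex
    let G : Fin n → MvPowerSeries σ A := fun i d => g d i
    have hF' : F = ∑ i, (C (a i) : MvPowerSeries σ A) * G i := by
      ext d
      rw [map_sum, ← hg d]
      refine Finset.sum_congr rfl fun i _ => ?_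
      rw [coeff_C_mul, coeff_apply, smul_eq_mul, mul_comm]
    rw [hF']
    refine Ideal.sum_mem _ fun i _ => Ideal.mul_mem_right _ _ (Ideal.mem_map_of_mem _ ?_)
    rw [← ha]
    exact Submodule.subset_span (Set.mem_range_self i)
  · rw [Ideal.map_le_iff_le_comap]
    intro a ha
    rw [Ideal.mem_comap, RingHom.mem_ker, map_C, Ideal.Quotient.eq_zero_iff_mem.2 ha, map_zero]

/-- `π⁻¹ (π I) = I + 𝔞 A[[σ]]` for the reduction `π` of the coefficients modulo `𝔞`. -/
theorem comap_map_mk (𝔞 : Ideal A) (h𝔞 : 𝔞.FG) (I : Ideal (MvPowerSeries σ A)) :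
    Ideal.comap (MvPowerSeries.map (σ := σ) (Ideal.Quotient.mk 𝔞))
      (Ideal.map (MvPowerSeries.map (σ := σ) (Ideal.Quotient.mk 𝔞)) I) =
      I ⊔ Ideal.map (C : A →+* MvPowerSeries σ A) 𝔞 := by
  rw [Ideal.comap_map_of_surjective _ (map_surjective _ Ideal.Quotient.mk_surjective),
    ← RingHom.ker_eq_comap_bot, ker_map_mk 𝔞 h𝔞]

end

end Fermat.Agent.M43.PSQuot1
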