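/-
Programme M43 (target S43), pillar (P-LOC), helper1: **power series of order `≥ N` lie in the `N`-th
power of the ideal of the variables; ideals of a Noetherian power series ring are closed.**

* `varIdeal σ R` : the ideal generated by the variables;
* `mem_varIdeal_pow` : for finite `σ`, if all coefficients of degree `< N` vanish then
  `f ∈ varIdeal ^ N`;
* `varIdeal_le_jacobson`;
* `mem_of_forall_mem_sup_pow` : for Noetherian `MvPowerSeries σ R` (e.g. `R` Noetherian, `σ` finite),
  an ideal `J` is closed: `(∀ N, f ∈ J ⊔ varIdeal ^ N) → f ∈ J`.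
Mathlib only.
-/
import Mathlib

set_option autoImplicit false

namespace Fermat.Agent.M43.PSOrder1

open MvPowerSeries

variable (σ : Type*) (R : Type*) [CommRing R]

/-- the ideal generated by the variables. -/
noncomputable def varIdeal : Ideal (MvPowerSeries σ R) := Ideal.span (Set.range X)

variable {σ R}

theorem X_mem_varIdeal (s : σ) : (X s : MvPowerSeries σ R) ∈ varIdeal σ R :=
  Ideal.subset_span ⟨s, rfl⟩

theorem coeff_X_mul_eq [DecidableEq σ] (s : σ) (g : MvPowerSeries σ R) (d : σ →₀ ℕ) :
    coeff d (X s * g) = if d s = 0 then 0 else coeff (d - Finsupp.single s 1) g := by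
  classical
  by_cases h : d s = 0
  · rw [if_pos h, X, coeff_monomial_mul, if_neg]
    intro hle
    have := hle s
    simp [h] at this
  · rw [if_neg h, X, coeff_monomial_mul, if_pos, one_mul]
    intro t
    by_cases hts : t = s
    · subst hts; simp; omega
    · simp [Finsupp.single_apply, Ne.symm hts]

/-- a chosen variable in the support of a nonzero exponent. -/
noncomputable def pick (d : σ →₀ ℕ) : Option σ := by
  classical
  exact if h : ∃ s, d s ≠ 0 then some h.choose else none

theorem pick_spec {d : σ →₀ ℕ} {s : σ} (h : pick d = some s) : d s ≠ 0 := by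
  classical
  unfold pick at h
  split_ifs at h with hex
  have := hex.choose_spec
  rw [Option.some.injEq] at h
  rwa [h] at this

theorem pick_ne_none {d : σ →₀ ℕ} (hd : d ≠ 0) : ∃ s, pick d = some s := by
  classical
  have hex : ∃ s, d s ≠ 0 := by
    by_contra hcon
    push Not at hcon
    exact hd (Finsupp.ext hcon)
  exact ⟨hex.choose, by unfold pick; rw [dif_pos hex]⟩

/-- a series without constant term is a combination of the variables, with control of supports. -/
theorem exists_decomp [Fintype σ] (f : MvPowerSeries σ R) (h0 : constantCoeff f = 0) :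
    ∃ g : σ → MvPowerSeries σ R, f = ∑ s, X s * g s ∧
      ∀ s d, coeff d (g s) ≠ 0 → coeff (d + Finsupp.single s 1) f ≠ 0 := by
  classical
  let g : σ → MvPowerSeries σ R := fun s => fun d =>
    if pick (d + Finsupp.single s 1) = some s then coeff (d + Finsupp.single s 1) f else 0
  have hg : ∀ s d, coeff d (g s) =
      if pick (d + Finsupp.single s 1) = some s then coeff (d + Finsupp.single s 1) f else 0 :=
    fun s d => rfl
  refine ⟨g, ?_, ?_⟩
  · ext d'
    rw [map_sum]
    simp_rw [coeff_X_mul_eq, hg]
    by_cases hd' : d' = 0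
    · subst hd'
      rw [Finset.sum_eq_zero (fun s _ => by simp)]
      simpa using h0
    · obtain ⟨s₀, hs₀⟩ := pick_ne_none hd'
      have hs₀' := pick_spec hs₀
      have hadd : ∀ s, d' s ≠ 0 → d' - Finsupp.single s 1 + Finsupp.single s 1 = d' := by
        intro s hs
        ext t
        by_cases hts : t = s
        · subst hts; simp; omega
        · simp [Finsupp.single_apply, Ne.symm hts]
      rw [Finset.sum_eq_single s₀]
      · rw [if_neg hs₀', hadd s₀ hs₀', if_pos hs₀]
      · intro s _ hne
        by_cases hs : d' s = 0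
        · rw [if_pos hs]
        · rw [if_neg hs, hadd s hs, if_neg]
          rw [hs₀]
          intro h
          exact hne (Option.some.inj h).symm
      · intro h; exact absurd (Finset.mem_univ _) h
  · intro s d h
    rw [hg] at h
    by_contra h2
    rw [h2] at h
    simp at h

/-- **Series of order `≥ N` lie in the `N`-th power of the ideal of the variables.** -/
theorem mem_varIdeal_pow [Finite σ] (N : ℕ) (f : MvPowerSeries σ R)
    (hf : ∀ d : σ →₀ ℕ, d.degree < N → coeff d f = 0) : f ∈ varIdeal σ R ^ N := by
  classical
  letI := Fintype.ofFinite σ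
  induction N generalizing f with
  | zero => simp
  | succ N ih =>
    have h0 : constantCoeff f = 0 := by
      have := hf 0 (by simp)
      simpa using this
    obtain ⟨g, hfg, hg⟩ := exists_decomp f h0
    rw [hfg]
    refine Ideal.sum_mem _ fun s _ => ?_
    rw [pow_succ']
    refine Ideal.mul_mem_mul (X_mem_varIdeal s) (ih (g s) ?_)
    intro d hd
    by_contra hne
    have := hg s d hne
    apply this
    apply hf
    rw [map_add, Finsupp.degree_single]
    omega

theorem varIdeal_le_jacobson : varIdeal σ R ≤ (⊥ : Ideal (MvPowerSeries σ R)).jacobson := by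
  rw [varIdeal, Ideal.span_le]
  rintro _ ⟨s, rfl⟩
  rw [SetLike.mem_coe, Ideal.mem_jacobson_bot]
  intro y
  rw [MvPowerSeries.isUnit_iff_constantCoeff]
  simp

/-- **Ideals of a Noetherian power series ring are closed.** -/
theorem mem_of_forall_mem_sup_pow [IsNoetherianRing (MvPowerSeries σ R)]
    (J : Ideal (MvPowerSeries σ R)) (f : MvPowerSeries σ R)
    (h : ∀ N : ℕ, f ∈ J ⊔ varIdeal σ R ^ N) : f ∈ J := by
  have hK := Ideal.iInf_pow_smul_eq_bot_of_le_jacobson (M := MvPowerSeries σ R ⧸ J)
    (varIdeal σ R) varIdeal_le_jacobson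
  have hmem : (Submodule.Quotient.mk f : MvPowerSeries σ R ⧸ J) ∈
      (⨅ i : ℕ, varIdeal σ R ^ i • (⊤ : Submodule (MvPowerSeries σ R) (MvPowerSeries σ R ⧸ J))) := by
    rw [Submodule.mem_iInf]
    intro N
    obtain ⟨a, ha, b, hb, hab⟩ := Submodule.mem_sup.mp (h N)
    have : (Submodule.Quotient.mk f : MvPowerSeries σ R ⧸ J) = b • Submodule.Quotient.mk 1 := by
      rw [← hab, ← Submodule.Quotient.mk_smul, smul_eq_mul, mul_one]
      rw [Submodule.Quotient.eq]
      simpa using ha
    rw [this]
    exact Submodule.smul_mem_smul hb Submodule.mem_top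
  rw [hK, Submodule.mem_bot] at hmem
  exact (Submodule.Quotient.mk_eq_zero J).mp hmem

end Fermat.Agent.M43.PSOrder1
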