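/-
Programme M43 (target S43), pillar (P-LOC), helper1: **the toric kernel, one block, any base ring.**

`A` a commutative ring, `SB = Fin 3 ⊕ Fin 3` (variables `x₀ x₁ x₂ | y₀ y₁ y₂`),
`TB = Unit ⊕ Fin 3` (variables `ρ | y₀ y₁ y₂`), `psi : A[[x, y]] →ₐ[A] A[[ρ, y]]`,
`x_k ↦ ρ y_k`, `y_k ↦ y_k`.

* `psi_monomial`, `coeff_psi` : the coefficient formula
  `coeff (n, τ) (psi F) = ∑_{ν + κ = τ, |ν| = n} coeff (ν, κ) F`;
* `ker_psi` : for Noetherian `A`, `ker psi` is generated by the `2 × 2` minors `x_k y_l - x_l y_k`.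
-/
import Mathlib
import Fermat.Agent.M43.PSOrder1

set_option autoImplicit false

namespace Fermat.Agent.M43.Toric1

open MvPowerSeries Finsupp

/-- source variables: `x` (left) and `y` (right). -/
abbrev SB : Type := Fin 3 ⊕ Fin 3

/-- target variables: `ρ` (left) and `y` (right). -/
abbrev TB : Type := Unit ⊕ Fin 3

section

variable (A : Type*) [CommRing A]

/-- the substitution `x_k ↦ ρ y_k`, `y_k ↦ y_k`. -/
noncomputable def sub : SB → MvPowerSeries TB A :=
  Sum.elim (fun k => X (Sum.inl ()) * X (Sum.inr k)) (fun k => X (Sum.inr k))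

theorem hasSubst_sub : HasSubst (sub A) :=
  hasSubst_of_constantCoeff_zero (by rintro (k | k) <;> simp [sub])

/-- `psi : A[[x, y]] → A[[ρ, y]]`, `x_k ↦ ρ y_k`. -/
noncomputable def psi : MvPowerSeries SB A →ₐ[A] MvPowerSeries TB A :=
  substAlgHom (hasSubst_sub A)

theorem psi_X_inl (k : Fin 3) :
    psi A (X (Sum.inl k)) = X (Sum.inl ()) * X (Sum.inr k) := by
  rw [psi, substAlgHom_X]; rfl

theorem psi_X_inr (k : Fin 3) : psi A (X (Sum.inr k)) = X (Sum.inr k) := by
  rw [psi, substAlgHom_X]; rfl

/-- the exponent of the image of a monomial. -/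
noncomputable def phi (ν κ : Fin 3 →₀ ℕ) : TB →₀ ℕ :=
  Finsupp.sumElim (Finsupp.single () ν.degree) (ν + κ)

theorem degree_fin3 (ν : Fin 3 →₀ ℕ) : ν.degree = ν 0 + ν 1 + ν 2 := by
  rw [Finsupp.degree_eq_sum, Fin.sum_univ_three]

theorem psi_monomial (ν κ : Fin 3 →₀ ℕ) (a : A) :
    psi A (monomial (Finsupp.sumElim ν κ) a) = monomial (phi ν κ) a := by
  classical
  have hC : psi A (C a) = C a := by
    have := (psi A).commutes a
    simpa [MvPowerSeries.algebraMap_apply] using this
  rw [monomial_eq' (Finsupp.sumElim ν κ) a, map_mul, monomial_eq' (phi ν κ) a, hC,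
    map_finsuppProd, phi, Finsupp.prod_sumElim, Finsupp.prod_sumElim]
  congr 1
  rw [Finsupp.prod_fintype _ _ (by intro i; simp), Finsupp.prod_fintype _ _ (by intro i; simp),
    Finsupp.prod_fintype _ _ (by intro i; simp), Finsupp.prod_fintype _ _ (by intro i; simp)]
  simp only [Function.comp_apply, map_pow, psi_X_inl, psi_X_inr, Fin.prod_univ_three,
    Finset.univ_unique, Finset.prod_singleton, Finsupp.single_eq_same, Finsupp.add_apply,
    degree_fin3, PUnit.default_eq_unit]
  ring

/-- the `x`-part of an exponent. -/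
noncomputable def xp (d : SB →₀ ℕ) : Fin 3 →₀ ℕ := d.comapDomain Sum.inl Sum.inl_injective.injOn

/-- the `y`-part of an exponent. -/
noncomputable def yp (d : SB →₀ ℕ) : Fin 3 →₀ ℕ := d.comapDomain Sum.inr Sum.inr_injective.injOn

theorem sumElim_xp_yp (d : SB →₀ ℕ) : Finsupp.sumElim (xp d) (yp d) = d :=
  Finsupp.comapDomain_sumElim_comapDomain d

theorem xp_sumElim (ν κ : Fin 3 →₀ ℕ) : xp (Finsupp.sumElim ν κ) = ν :=
  Finsupp.comapDomain_inl_sumElim ν κ

theorem yp_sumElim (ν κ : Fin 3 →₀ ℕ) : yp (Finsupp.sumElim ν κ) = κ :=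
  Finsupp.comapDomain_inr_sumElim ν κ

theorem prod_sub (d : SB →₀ ℕ) :
    (d.prod fun s n => sub A s ^ n) = monomial (phi (xp d) (yp d)) (1 : A) := by
  have h := psi_monomial A (xp d) (yp d) 1
  rw [sumElim_xp_yp, psi, substAlgHom_monomial, map_one, one_mul] at h
  exact h

theorem phi_inj_left {ν κ ν' κ' : Fin 3 →₀ ℕ} (h : phi ν κ = phi ν' κ') :
    ν.degree = ν'.degree ∧ ν + κ = ν' + κ' := by
  unfold phi at h
  have h1 := congrArg (fun f => f.comapDomain Sum.inl Sum.inl_injective.injOn) h
  have h2 := congrArg (fun f => f.comapDomain Sum.inr Sum.inr_injective.injOn) h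
  simp only [Finsupp.comapDomain_inl_sumElim, Finsupp.comapDomain_inr_sumElim] at h1 h2
  refine ⟨?_, h2⟩
  have := DFunLike.congr_fun h1 ()
  simpa using this

/-- **The coefficient formula for `psi`.** -/
theorem coeff_psi (F : MvPowerSeries SB A) (n : ℕ) (τ : Fin 3 →₀ ℕ) :
    coeff (Finsupp.sumElim (Finsupp.single () n) τ) (psi A F) =
      ∑ p ∈ (Finset.HasAntidiagonal.antidiagonal τ).filter (fun p => p.1.degree = n),
        coeff (Finsupp.sumElim p.1 p.2) F := by
  classical
  rw [psi, substAlgHom_apply, coeff_subst (hasSubst_sub A)]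
  simp_rw [prod_sub, coeff_monomial, smul_eq_mul, mul_ite, mul_one, mul_zero]
  rw [finsum_eq_sum_of_support_subset (s := ((Finset.HasAntidiagonal.antidiagonal τ).filter
    (fun p => p.1.degree = n)).image (fun p => Finsupp.sumElim p.1 p.2))]
  · rw [Finset.sum_image]
    · refine Finset.sum_congr rfl fun p hp => ?_
      rw [Finset.mem_filter, Finset.HasAntidiagonal.mem_antidiagonal] at hp
      rw [xp_sumElim, yp_sumElim, if_pos]
      rw [phi, hp.2, hp.1]
    · rintro ⟨a, b⟩ - ⟨a', b'⟩ - h
      have h1 := congrArg xp h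
      have h2 := congrArg yp h
      simp only [xp_sumElim, yp_sumElim] at h1 h2
      rw [h1, h2]
  · intro d hd
    rw [Function.mem_support] at hd
    have hd' : Finsupp.sumElim (Finsupp.single () n) τ = phi (xp d) (yp d) := by
      by_contra hne
      exact hd (if_neg hne)
    rw [Finset.coe_image, Set.mem_image]
    refine ⟨(xp d, yp d), ?_, sumElim_xp_yp d⟩
    rw [Finset.mem_coe, Finset.mem_filter, Finset.HasAntidiagonal.mem_antidiagonal]
    unfold phi at hd'
    have h1 := congrArg (fun f => f.comapDomain Sum.inl Sum.inl_injective.injOn) hd'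
    have h2 := congrArg (fun f => f.comapDomain Sum.inr Sum.inr_injective.injOn) hd'
    simp only [Finsupp.comapDomain_inl_sumElim, Finsupp.comapDomain_inr_sumElim] at h1 h2
    refine ⟨h2.symm, ?_⟩
    have := DFunLike.congr_fun h1 ()
    simpa using this.symm

/-- the image of `psi` is supported on the Rees region `n ≤ |τ|`. -/
theorem coeff_psi_eq_zero (F : MvPowerSeries SB A) (n : ℕ) (τ : Fin 3 →₀ ℕ) (h : τ.degree < n) :
    coeff (Finsupp.sumElim (Finsupp.single () n) τ) (psi A F) = 0 := by
  classical
  rw [coeff_psi, Finset.sum_eq_zero]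
  intro p hp
  exfalso
  rw [Finset.mem_filter, Finset.HasAntidiagonal.mem_antidiagonal] at hp
  have : τ.degree = p.1.degree + p.2.degree := by rw [← hp.1, map_add]
  omega

/-! ### The minors and the monomial moves -/

/-- the minor `x_k y_l - x_l y_k`. -/
noncomputable def minorB (k l : Fin 3) : MvPowerSeries SB A :=
  X (Sum.inl k) * X (Sum.inr l) - X (Sum.inl l) * X (Sum.inr k)

/-- the ideal of the minors. -/
noncomputable def minorsB : Ideal (MvPowerSeries SB A) :=
  Ideal.span {f | ∃ k l : Fin 3, f = minorB A k l}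

theorem minorB_mem (k l : Fin 3) : minorB A k l ∈ minorsB A := Ideal.subset_span ⟨k, l, rfl⟩

theorem psi_minorB (k l : Fin 3) : psi A (minorB A k l) = 0 := by
  rw [minorB, map_sub, map_mul, map_mul, psi_X_inl, psi_X_inl, psi_X_inr, psi_X_inr]
  ring

theorem minorsB_le_ker : minorsB A ≤ RingHom.ker (psi A) := by
  rw [minorsB, Ideal.span_le]
  rintro _ ⟨k, l, rfl⟩
  exact psi_minorB A k l

/-- the monomial `x^ν y^κ`. -/
noncomputable def mon (ν κ : Fin 3 →₀ ℕ) : MvPowerSeries SB A :=
  monomial (Finsupp.sumElim ν κ) 1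

theorem mon_mul (ν κ ν' κ' : Fin 3 →₀ ℕ) :
    mon A ν κ * mon A ν' κ' = mon A (ν + ν') (κ + κ') := by
  rw [mon, mon, mon, monomial_mul_monomial, mul_one, Finsupp.sumElim_add]

theorem mon_single_single (k l : Fin 3) :
    mon A (Finsupp.single k 1) (Finsupp.single l 1) = X (Sum.inl k) * X (Sum.inr l) := by
  rw [mon, Finsupp.sumElim_single_single, X, X, monomial_mul_monomial, mul_one]

theorem exists_pos_of_degree_pos (α : Fin 3 →₀ ℕ) (h : 0 < α.degree) :
    ∃ k, ∃ α' : Fin 3 →₀ ℕ, α = Finsupp.single k 1 + α' ∧ α'.degree + 1 = α.degree := by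
  have hex : ∃ k, α k ≠ 0 := by
    by_contra hcon
    push Not at hcon
    have : α = 0 := Finsupp.ext hcon
    rw [this] at h
    simp at h
  obtain ⟨k, hk⟩ := hex
  refine ⟨k, α - Finsupp.single k 1, ?_, ?_⟩
  · ext t
    by_cases htk : t = k
    · subst htk; simp; omega
    · simp [Ne.symm htk]
  · have h1 : α = Finsupp.single k 1 + (α - Finsupp.single k 1) := by
      ext t
      by_cases htk : t = k
      · subst htk; simp; omega
      · simp [Ne.symm htk]
    have h2 := congrArg Finsupp.degree h1
    rw [map_add, Finsupp.degree_single] at h2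
    omega

/-- **The pairing lemma**: `x^α y^β ≡ x^β y^α` modulo the minors when `|α| = |β|`. -/
theorem mon_sub_mon_swap_mem (n : ℕ) : ∀ α β : Fin 3 →₀ ℕ, α.degree = n → β.degree = n →
    mon A α β - mon A β α ∈ minorsB A := by
  induction n with
  | zero =>
    intro α β hα hβ
    have h1 : α = 0 := (Finsupp.degree_eq_zero_iff α).mp hα
    have h2 : β = 0 := (Finsupp.degree_eq_zero_iff β).mp hβ
    rw [h1, h2, sub_self]
    exact Ideal.zero_mem _
  | succ n ih =>
    intro α β hα hβ
    obtain ⟨k, α', rfl, hα'⟩ := exists_pos_of_degree_pos α (by omega)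
    obtain ⟨l, β', rfl, hβ'⟩ := exists_pos_of_degree_pos β (by omega)
    have e1 : mon A (Finsupp.single k 1 + α') (Finsupp.single l 1 + β') =
        X (Sum.inl k) * X (Sum.inr l) * mon A α' β' := by
      rw [← mon_single_single, mon_mul]
    have e2 : mon A (Finsupp.single l 1 + β') (Finsupp.single k 1 + α') =
        X (Sum.inl l) * X (Sum.inr k) * mon A β' α' := by
      rw [← mon_single_single, mon_mul]
    have e3 : X (Sum.inl k) * X (Sum.inr l) * mon A α' β' -
        X (Sum.inl l) * X (Sum.inr k) * mon A β' α' =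
        minorB A k l * mon A α' β' +
          X (Sum.inl l) * X (Sum.inr k) * (mon A α' β' - mon A β' α') := by
      rw [minorB]; ring
    rw [e1, e2, e3]
    refine Ideal.add_mem _ (Ideal.mul_mem_right _ _ (minorB_mem A k l))
      (Ideal.mul_mem_left _ _ (ih α' β' (by omega) (by omega)))

/-- **The moves lemma**: two monomials in the same fibre of `phi` are congruent modulo the
minors. -/
theorem mon_sub_mon_mem {ν κ ν' κ' : Fin 3 →₀ ℕ} (hdeg : ν.degree = ν'.degree)
    (hsum : ν + κ = ν' + κ') : mon A ν κ - mon A ν' κ' ∈ minorsB A := by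
  -- `m = min ν ν'`, `δ⁺ = ν - m`, `δ⁻ = ν' - m`, `κ₀ = κ - δ⁻`
  set m : Fin 3 →₀ ℕ := ν ⊓ ν' with hm
  set dp : Fin 3 →₀ ℕ := ν - m with hdp
  set dm : Fin 3 →₀ ℕ := ν' - m with hdm
  set κ₀ : Fin 3 →₀ ℕ := κ - dm with hκ₀
  have hpt : ∀ i, ν i + κ i = ν' i + κ' i := fun i => by
    have := DFunLike.congr_fun hsum i
    simpa using this
  have h1 : ν = m + dp := by
    ext i; simp only [hm, hdp, Finsupp.add_apply, Finsupp.inf_apply, Finsupp.tsub_apply]; omega
  have h2 : ν' = m + dm := by
    ext i; simp only [hm, hdm, Finsupp.add_apply, Finsupp.inf_apply, Finsupp.tsub_apply]; omega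
  have h3 : κ = κ₀ + dm := by
    ext i
    have := hpt i
    simp only [hm, hdm, hκ₀, Finsupp.add_apply, Finsupp.inf_apply, Finsupp.tsub_apply]; omega
  have h4 : κ' = κ₀ + dp := by
    ext i
    have := hpt i
    simp only [hm, hdm, hdp, hκ₀, Finsupp.add_apply, Finsupp.inf_apply, Finsupp.tsub_apply]; omega
  have hd : dp.degree = dm.degree := by
    have e1 := congrArg Finsupp.degree h1
    have e2 := congrArg Finsupp.degree h2
    rw [map_add] at e1 e2
    omega
  have e5 : mon A ν κ - mon A ν' κ' = mon A m κ₀ * (mon A dp dm - mon A dm dp) := by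
    rw [mul_sub, mon_mul, mon_mul, ← h1, ← h2, ← h3, ← h4]
  rw [e5]
  exact Ideal.mul_mem_left _ _ (mon_sub_mon_swap_mem A dm.degree dp dm hd rfl)

/-! ### The kernel of `psi` -/

/-- the exponent of the image of the monomial of exponent `d`. -/
noncomputable def phi' (d : SB →₀ ℕ) : TB →₀ ℕ := phi (xp d) (yp d)

theorem psi_monomial' (d : SB →₀ ℕ) (a : A) : psi A (monomial d a) = monomial (phi' d) a := by
  have := psi_monomial A (xp d) (yp d) a
  rwa [sumElim_xp_yp] at this

theorem monomial_eq_C_mul_mon (d : SB →₀ ℕ) (a : A) :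
    monomial d a = C a * mon A (xp d) (yp d) := by
  rw [mon, sumElim_xp_yp, ← monomial_zero_eq_C_apply, monomial_mul_monomial, zero_add, mul_one]

theorem degree_eq_of_phi'_eq {d d' : SB →₀ ℕ} (h : phi' d = phi' d') : d.degree = d'.degree := by
  obtain ⟨-, h2⟩ := phi_inj_left h
  have e1 : d.degree = (xp d + yp d).degree := by
    conv_lhs => rw [← sumElim_xp_yp d]
    rw [Finsupp.degree_eq_sum, Fintype.sum_sum_type, map_add, Finsupp.degree_eq_sum,
      Finsupp.degree_eq_sum]
    rfl
  have e2 : d'.degree = (xp d' + yp d').degree := by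
    conv_lhs => rw [← sumElim_xp_yp d']
    rw [Finsupp.degree_eq_sum, Fintype.sum_sum_type, map_add, Finsupp.degree_eq_sum,
      Finsupp.degree_eq_sum]
    rfl
  rw [e1, e2, h2]

/-- a finite combination of monomials killed by `psi` lies in the ideal of the minors. -/
theorem finsum_mem_of_psi_eq_zero (n : ℕ) : ∀ (S : Finset (SB →₀ ℕ)) (c : (SB →₀ ℕ) → A),
    S.card = n → psi A (∑ d ∈ S, monomial d (c d)) = 0 →
    ∑ d ∈ S, monomial d (c d) ∈ minorsB A := by
  classical
  induction n with
  | zero =>
    intro S c hS _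
    rw [Finset.card_eq_zero] at hS
    rw [hS, Finset.sum_empty]
    exact Ideal.zero_mem _
  | succ n ih =>
    intro S c hS hψ
    obtain ⟨d, hd⟩ : S.Nonempty := by rw [← Finset.card_pos]; omega
    have hcard : (S.erase d).card = n := by rw [Finset.card_erase_of_mem hd]; omega
    by_cases hcd : c d = 0
    · -- drop `d`
      have e : ∑ d' ∈ S, monomial d' (c d') = ∑ d' ∈ S.erase d, monomial d' (c d') := by
        rw [← Finset.add_sum_erase S _ hd, hcd, map_zero, zero_add]
      rw [e] at hψ ⊢
      exact ih _ c hcard hψ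
    · -- another exponent of the same fibre occurs
      have hcoef : coeff (phi' d) (psi A (∑ d' ∈ S, monomial d' (c d'))) =
          ∑ d' ∈ S.filter (fun d' => phi' d' = phi' d), c d' := by
        rw [map_sum, map_sum, Finset.sum_filter]
        refine Finset.sum_congr rfl fun d' _ => ?_
        rw [psi_monomial', coeff_monomial]
        by_cases h : phi' d' = phi' d
        · rw [if_pos h.symm, if_pos h]
        · rw [if_neg (fun h' => h h'.symm), if_neg h]
      rw [hψ, map_zero] at hcoef
      obtain ⟨d', hd', hne⟩ : ∃ d' ∈ S.filter (fun d' => phi' d' = phi' d), d' ≠ d := by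
        by_contra hcon
        push Not at hcon
        have hsub : S.filter (fun d' => phi' d' = phi' d) = {d} := by
          ext t
          rw [Finset.mem_singleton]
          constructor
          · exact fun ht => hcon t ht
          · rintro rfl
            rw [Finset.mem_filter]
            exact ⟨hd, rfl⟩
        rw [hsub, Finset.sum_singleton] at hcoef
        exact hcd hcoef.symm
      rw [Finset.mem_filter] at hd'
      obtain ⟨hd'S, hφ⟩ := hd'
      -- move the coefficient of `d` to `d'`
      let c' : (SB →₀ ℕ) → A := Function.update c d' (c d' + c d)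
      have hmove : monomial d (c d) - monomial d' (c d) ∈ minorsB A := by
        rw [monomial_eq_C_mul_mon, monomial_eq_C_mul_mon A d', ← mul_sub]
        obtain ⟨h1, h2⟩ := phi_inj_left hφ.symm
        exact Ideal.mul_mem_left _ _ (mon_sub_mon_mem A h1 h2)
      have hd'e : d' ∈ S.erase d := Finset.mem_erase.mpr ⟨hne, hd'S⟩
      have e : ∑ t ∈ S, monomial t (c t) =
          ∑ t ∈ S.erase d, monomial t (c' t) + (monomial d (c d) - monomial d' (c d)) := by
        have hrest : ∑ t ∈ (S.erase d).erase d', monomial t (c' t) =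
            ∑ t ∈ (S.erase d).erase d', monomial t (c t) := by
          refine Finset.sum_congr rfl fun t ht => ?_
          have : t ≠ d' := (Finset.mem_erase.mp ht).1
          simp only [c']
          rw [Function.update_of_ne this]
        have h1 : ∑ t ∈ S, monomial t (c t) =
            monomial d (c d) + ∑ t ∈ S.erase d, monomial t (c t) :=
          (Finset.add_sum_erase S (fun t => monomial t (c t)) hd).symm
        have h2 : ∑ t ∈ S.erase d, monomial t (c t) =
            monomial d' (c d') + ∑ t ∈ (S.erase d).erase d', monomial t (c t) :=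
          (Finset.add_sum_erase (S.erase d) (fun t => monomial t (c t)) hd'e).symm
        have h3 : ∑ t ∈ S.erase d, monomial t (c' t) =
            monomial d' (c' d') + ∑ t ∈ (S.erase d).erase d', monomial t (c' t) :=
          (Finset.add_sum_erase (S.erase d) (fun t => monomial t (c' t)) hd'e).symm
        have h4 : c' d' = c d' + c d := Function.update_self _ _ _
        rw [h1, h2, h3, hrest, h4, map_add]
        ring
      have hψ' : psi A (∑ t ∈ S.erase d, monomial t (c' t)) = 0 := by
        have h1 : ∑ t ∈ S.erase d, monomial t (c' t) =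
            ∑ t ∈ S, monomial t (c t) - (monomial d (c d) - monomial d' (c d)) := by
          rw [e]; ring
        rw [h1, map_sub, hψ, zero_sub, neg_eq_zero]
        exact minorsB_le_ker A hmove
      rw [e]
      exact Ideal.add_mem _ (ih _ c' hcard hψ') hmove

/-- **The kernel of `psi` is generated by the minors.** -/
theorem ker_psi [IsNoetherianRing A] : RingHom.ker (psi A) = minorsB A := by
  classical
  refine le_antisymm ?_ (minorsB_le_ker A)
  intro F hF
  rw [RingHom.mem_ker] at hF
  apply PSOrder1.mem_of_forall_mem_sup_pow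
  intro N
  set S : Finset (SB →₀ ℕ) := (Finsupp.finite_of_degree_lt (σ := SB) N).toFinset with hS
  have hSmem : ∀ d, d ∈ S ↔ d.degree < N := fun d => by rw [hS, Set.Finite.mem_toFinset]; rfl
  set P : MvPowerSeries SB A := ∑ d ∈ S, monomial d (coeff d F) with hP
  have hcoefP : ∀ d, coeff d P = if d ∈ S then coeff d F else 0 := by
    intro d
    rw [hP, map_sum]
    simp_rw [coeff_monomial]
    rw [Finset.sum_ite_eq]
  -- `psi P = 0`
  have hψP : psi A P = 0 := by
    ext e
    rw [map_zero]
    have h1 : coeff e (psi A P) = ∑ d ∈ S.filter (fun d => phi' d = e), coeff d F := by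
      rw [hP, map_sum, map_sum, Finset.sum_filter]
      refine Finset.sum_congr rfl fun d' _ => ?_
      rw [psi_monomial', coeff_monomial]
      by_cases h : phi' d' = e
      · rw [if_pos h.symm, if_pos h]
      · rw [if_neg (fun h' => h h'.symm), if_neg h]
    rw [h1]
    by_cases hne : (S.filter (fun d => phi' d = e)).Nonempty
    · obtain ⟨d₀, hd₀⟩ := hne
      rw [Finset.mem_filter] at hd₀
      -- the whole fibre of `e` lies in `S`
      have hx : e = Finsupp.sumElim (Finsupp.single () (xp d₀).degree) (xp d₀ + yp d₀) := by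
        rw [← hd₀.2]; rfl
      have h2 := coeff_psi A F (xp d₀).degree (xp d₀ + yp d₀)
      rw [← hx, hF, map_zero] at h2
      rw [h2]
      symm
      refine Finset.sum_bij (fun p _ => Finsupp.sumElim p.1 p.2) ?_ ?_ ?_ ?_
      · intro p hp
        rw [Finset.mem_filter, Finset.HasAntidiagonal.mem_antidiagonal] at hp
        rw [Finset.mem_filter]
        have hφ : phi' (Finsupp.sumElim p.1 p.2) = e := by
          rw [phi', xp_sumElim, yp_sumElim, hx, phi, hp.1, hp.2]
        refine ⟨?_, hφ⟩
        rw [hSmem, degree_eq_of_phi'_eq (hφ.trans hd₀.2.symm)]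
        exact (hSmem d₀).mp hd₀.1
      · intro p _ p' _ h
        have h1 := congrArg xp h
        have h2 := congrArg yp h
        simp only [xp_sumElim, yp_sumElim] at h1 h2
        exact Prod.ext h1 h2
      · intro d hd
        rw [Finset.mem_filter] at hd
        refine ⟨(xp d, yp d), ?_, sumElim_xp_yp d⟩
        rw [Finset.mem_filter, Finset.HasAntidiagonal.mem_antidiagonal]
        have := hd.2
        rw [hx] at this
        obtain ⟨h3, h4⟩ := phi_inj_left this
        exact ⟨h4, h3⟩
      · intro p _; rfl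
    · rw [Finset.not_nonempty_iff_eq_empty] at hne
      rw [hne, Finset.sum_empty]
  have hPJ : P ∈ minorsB A := finsum_mem_of_psi_eq_zero A S.card S _ rfl hψP
  have hT : F - P ∈ PSOrder1.varIdeal SB A ^ N := by
    apply PSOrder1.mem_varIdeal_pow
    intro d hd
    rw [map_sub, hcoefP, if_pos ((hSmem d).mpr hd), sub_self]
  have : F = P + (F - P) := by ring
  rw [this]
  exact Submodule.add_mem_sup hPJ hT

end

end Fermat.Agent.M43.Toric1
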