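/-
Programme M43 (target S43), pillar (P-LOC), helper1: **the Rees lemma, one block, any base ring.**

`A` Noetherian, `c : A` a nonzerodivisor, `psi : A[[x, y]] → A[[ρ, y]]`, `x_k ↦ ρ y_k` (`Toric1`),
`gB = y₀² + y₁ y₂ - c` in the source, `gT` = the same expression in the target.

* `InRees G` : `G` is supported on the Rees region `n ≤ |τ|` (`n` = exponent of `ρ`, `τ` = exponent
  of `y`);
* `inRees_of_gT_mul` : `gT * G ∈ Rees → G ∈ Rees`  (lowest `y`-degree, `c` regular);
* `exists_psi_eq` : `psi` maps onto the Rees region;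
* `comap_psi_span_gT` : `psi⁻¹ (gT) = (minors) + (gB)`.
-/
import Mathlib
import Fermat.Agent.M43.Toric1
import Fermat.Agent.M43.PSQuot1

set_option autoImplicit false

namespace Fermat.Agent.M43.Rees1

open MvPowerSeries Finsupp
open Fermat.Agent.M43.Toric1

section

variable (A : Type*) [CommRing A]

/-- the quadric `y₀² + y₁ y₂ - c` in the source `A[[x, y]]`. -/
noncomputable def gB (c : A) : MvPowerSeries SB A :=
  X (Sum.inr 0) ^ 2 + X (Sum.inr 1) * X (Sum.inr 2) - C c

/-- the quadric `y₀² + y₁ y₂ - c` in the target `A[[ρ, y]]`. -/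
noncomputable def gT (c : A) : MvPowerSeries TB A :=
  X (Sum.inr 0) ^ 2 + X (Sum.inr 1) * X (Sum.inr 2) - C c

theorem psi_C (a : A) : psi A (C a) = C a := by
  have := (psi A).commutes a
  simpa [MvPowerSeries.algebraMap_apply] using this

theorem psi_gB (c : A) : psi A (gB A c) = gT A c := by
  rw [gB, gT, map_sub, map_add, map_pow, map_mul, psi_X_inr, psi_X_inr, psi_X_inr, psi_C]

/-- every exponent of the target is of the form `(n, τ)`. -/
theorem exists_rep (e : TB →₀ ℕ) :
    ∃ (n : ℕ) (τ : Fin 3 →₀ ℕ), e = Finsupp.sumElim (Finsupp.single () n) τ := by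
  refine ⟨e (Sum.inl ()), e.comapDomain Sum.inr Sum.inr_injective.injOn, ?_⟩
  ext (u | k)
  · cases u
    simp
  · simp [Finsupp.comapDomain_apply]

/-- the Rees region: exponent of `ρ` at most the total `y`-degree. -/
def InRees (G : MvPowerSeries TB A) : Prop :=
  ∀ (n : ℕ) (τ : Fin 3 →₀ ℕ), τ.degree < n →
    coeff (Finsupp.sumElim (Finsupp.single () n) τ) G = 0

theorem inRees_psi (F : MvPowerSeries SB A) : InRees A (psi A F) :=
  fun n τ h => coeff_psi_eq_zero A F n τ h

/-- multiplication by a monomial in the `y`-variables, on coefficients. -/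
theorem coeff_ymonomial_mul (κ τ : Fin 3 →₀ ℕ) (a : Unit →₀ ℕ) (G : MvPowerSeries TB A) :
    coeff (Finsupp.sumElim a τ) (monomial (Finsupp.sumElim (0 : Unit →₀ ℕ) κ) (1 : A) * G) =
      if κ ≤ τ then coeff (Finsupp.sumElim a (τ - κ)) G else 0 := by
  classical
  rw [coeff_monomial_mul]
  have h1 : (Finsupp.sumElim (0 : Unit →₀ ℕ) κ ≤ Finsupp.sumElim a τ) ↔ κ ≤ τ := by
    constructor
    · intro h k
      have := h (Sum.inr k)
      simpa using this
    · rintro h (u | k)
      · simp
      · simpa using h k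
  have h2 : Finsupp.sumElim a τ - Finsupp.sumElim (0 : Unit →₀ ℕ) κ = Finsupp.sumElim a (τ - κ) := by
    ext (u | k)
    · simp
    · simp
  by_cases h : κ ≤ τ
  · rw [if_pos (h1.mpr h), if_pos h, h2, one_mul]
  · rw [if_neg (fun h' => h (h1.mp h')), if_neg h]

theorem X_inr_sq_eq (k : Fin 3) :
    (X (Sum.inr k) : MvPowerSeries TB A) ^ 2 =
      monomial (Finsupp.sumElim (0 : Unit →₀ ℕ) (Finsupp.single k 2)) 1 := by
  have h : (Finsupp.single (Sum.inr k) 2 : TB →₀ ℕ) =
      Finsupp.sumElim (0 : Unit →₀ ℕ) (Finsupp.single k 2) := by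
    ext (u | l)
    · simp
    · simp [Finsupp.single_apply]
  rw [X_pow_eq, h]

theorem X_inr_mul_X_inr_eq (k l : Fin 3) :
    (X (Sum.inr k) : MvPowerSeries TB A) * X (Sum.inr l) =
      monomial (Finsupp.sumElim (0 : Unit →₀ ℕ) (Finsupp.single k 1 + Finsupp.single l 1)) 1 := by
  have h : (Finsupp.single (Sum.inr k) 1 + Finsupp.single (Sum.inr l) 1 : TB →₀ ℕ) =
      Finsupp.sumElim (0 : Unit →₀ ℕ) (Finsupp.single k 1 + Finsupp.single l 1) := by
    ext (u | t)
    · simp
    · simp [Finsupp.single_apply]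
  rw [X, X, monomial_mul_monomial, mul_one, h]

theorem degree_tsub {κ τ : Fin 3 →₀ ℕ} (h : κ ≤ τ) : (τ - κ).degree + κ.degree = τ.degree := by
  rw [← map_add, tsub_add_cancel_of_le h]

/-- **Descent**: if `gT * G` is supported on the Rees region, so is `G` (`c` regular). -/
theorem inRees_of_gT_mul (c : A) (hc : ∀ a : A, c * a = 0 → a = 0) (G : MvPowerSeries TB A)
    (h : InRees A (gT A c * G)) : InRees A G := by
  classical
  by_contra hcon
  have hex : ∃ d : ℕ, ∃ (n : ℕ) (τ : Fin 3 →₀ ℕ), τ.degree = d ∧ d < n ∧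
      coeff (Finsupp.sumElim (Finsupp.single () n) τ) G ≠ 0 := by
    unfold InRees at hcon
    push Not at hcon
    obtain ⟨n, τ, h1, h2⟩ := hcon
    exact ⟨τ.degree, n, τ, rfl, h1, h2⟩
  obtain ⟨n, τ, hτ, hn, hne⟩ := Nat.find_spec hex
  have hmin : ∀ (τ' : Fin 3 →₀ ℕ), τ'.degree < Nat.find hex → τ'.degree < n →
      coeff (Finsupp.sumElim (Finsupp.single () n) τ') G = 0 := by
    intro τ' h1 h2
    by_contra h3
    exact Nat.find_min hex h1 ⟨n, τ', rfl, h2, h3⟩
  have h0 := h n τ (by omega)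
  have e : gT A c * G =
      monomial (Finsupp.sumElim (0 : Unit →₀ ℕ) (Finsupp.single 0 2)) (1 : A) * G +
        monomial (Finsupp.sumElim (0 : Unit →₀ ℕ) (Finsupp.single 1 1 + Finsupp.single 2 1))
          (1 : A) * G - C c * G := by
    rw [gT, X_inr_sq_eq, X_inr_mul_X_inr_eq]
    ring
  rw [e, map_sub, map_add, coeff_ymonomial_mul, coeff_ymonomial_mul, coeff_C_mul] at h0
  have z1 : (if Finsupp.single (0 : Fin 3) 2 ≤ τ then
      coeff (Finsupp.sumElim (Finsupp.single () n) (τ - Finsupp.single 0 2)) G else 0) = 0 := by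
    split_ifs with hle
    · have := degree_tsub hle
      rw [Finsupp.degree_single] at this
      exact hmin _ (by omega) (by omega)
    · rfl
  have z2 : (if Finsupp.single (1 : Fin 3) 1 + Finsupp.single (2 : Fin 3) 1 ≤ τ then
      coeff (Finsupp.sumElim (Finsupp.single () n)
        (τ - (Finsupp.single 1 1 + Finsupp.single 2 1))) G else 0) = 0 := by
    split_ifs with hle
    · have := degree_tsub hle
      rw [map_add, Finsupp.degree_single, Finsupp.degree_single] at this
      exact hmin _ (by omega) (by omega)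
    · rfl
  rw [z1, z2, zero_add, zero_sub, neg_eq_zero] at h0
  exact hne (hc _ h0)

/-! ### The section -/

theorem exists_le_degree_eq (τ : Fin 3 →₀ ℕ) (n : ℕ) (h : n ≤ τ.degree) :
    ∃ ν : Fin 3 →₀ ℕ, ν ≤ τ ∧ ν.degree = n := by
  induction n with
  | zero => exact ⟨0, fun _ => Nat.zero_le _, by simp⟩
  | succ n ih =>
    obtain ⟨ν, hν, hd⟩ := ih (by omega)
    have hex : ∃ k, ν k < τ k := by
      by_contra hcon
      push Not at hcon
      have : ν = τ := le_antisymm hν hcon
      rw [this] at hd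
      omega
    obtain ⟨k, hk⟩ := hex
    refine ⟨ν + Finsupp.single k 1, ?_, ?_⟩
    · intro t
      by_cases htk : t = k
      · subst htk; simp; omega
      · have := hν t
        simp [Ne.symm htk, this]
    · rw [map_add, Finsupp.degree_single, hd]

/-- a chosen `ν ≤ τ` of degree `n`. -/
noncomputable def nu0 (n : ℕ) (τ : Fin 3 →₀ ℕ) : Fin 3 →₀ ℕ :=
  if h : n ≤ τ.degree then Classical.choose (exists_le_degree_eq τ n h) else 0

theorem nu0_le {n : ℕ} {τ : Fin 3 →₀ ℕ} (h : n ≤ τ.degree) : nu0 n τ ≤ τ := by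
  rw [nu0, dif_pos h]
  exact (Classical.choose_spec (exists_le_degree_eq τ n h)).1

theorem degree_nu0 {n : ℕ} {τ : Fin 3 →₀ ℕ} (h : n ≤ τ.degree) : (nu0 n τ).degree = n := by
  rw [nu0, dif_pos h]
  exact (Classical.choose_spec (exists_le_degree_eq τ n h)).2

/-- the section of `psi` over the Rees region. -/
noncomputable def sec (G : MvPowerSeries TB A) : MvPowerSeries SB A := fun d =>
  if xp d = nu0 (xp d).degree (xp d + yp d) then
    coeff (Finsupp.sumElim (Finsupp.single () (xp d).degree) (xp d + yp d)) G else 0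

theorem coeff_sec (G : MvPowerSeries TB A) (ν κ : Fin 3 →₀ ℕ) :
    coeff (Finsupp.sumElim ν κ) (sec A G) =
      if ν = nu0 ν.degree (ν + κ) then
        coeff (Finsupp.sumElim (Finsupp.single () ν.degree) (ν + κ)) G else 0 := by
  rw [coeff_apply, sec, xp_sumElim, yp_sumElim]

/-- **`psi` maps onto the Rees region.** -/
theorem psi_sec (G : MvPowerSeries TB A) (hG : InRees A G) : psi A (sec A G) = G := by
  classical
  ext e
  obtain ⟨n, τ, rfl⟩ := exists_rep e
  rw [coeff_psi]
  by_cases hn : n ≤ τ.degree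
  · have hmem : (nu0 n τ, τ - nu0 n τ) ∈
        (Finset.HasAntidiagonal.antidiagonal τ).filter (fun p => p.1.degree = n) := by
      rw [Finset.mem_filter, Finset.HasAntidiagonal.mem_antidiagonal]
      exact ⟨add_tsub_cancel_of_le (nu0_le hn), degree_nu0 hn⟩
    rw [Finset.sum_eq_single_of_mem _ hmem]
    · rw [coeff_sec, add_tsub_cancel_of_le (nu0_le hn), degree_nu0 hn, if_pos rfl]
    · intro p hp hne
      rw [Finset.mem_filter, Finset.HasAntidiagonal.mem_antidiagonal] at hp
      rw [coeff_sec, hp.1, hp.2, if_neg]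
      intro h1
      apply hne
      refine Prod.ext h1 ?_
      have : p.2 = τ - p.1 := by rw [← hp.1, add_tsub_cancel_left]
      rw [this, h1]
  · rw [hG n τ (by omega), Finset.sum_eq_zero]
    intro p hp
    exfalso
    rw [Finset.mem_filter, Finset.HasAntidiagonal.mem_antidiagonal] at hp
    have : τ.degree = p.1.degree + p.2.degree := by rw [← hp.1, map_add]
    omega

theorem exists_psi_eq (G : MvPowerSeries TB A) (hG : InRees A G) :
    ∃ H : MvPowerSeries SB A, psi A H = G := ⟨sec A G, psi_sec A G hG⟩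

/-- **The Rees lemma (absolute form).** -/
theorem comap_psi_span_gT [IsNoetherianRing A] (c : A) (hc : ∀ a : A, c * a = 0 → a = 0) :
    Ideal.comap (psi A) (Ideal.span {gT A c}) = minorsB A ⊔ Ideal.span {gB A c} := by
  apply le_antisymm
  · intro F hF
    rw [Ideal.mem_comap, Ideal.mem_span_singleton'] at hF
    obtain ⟨G, hG⟩ := hF
    have hR : InRees A G := by
      apply inRees_of_gT_mul A c hc
      rw [mul_comm, hG]
      exact inRees_psi A F
    obtain ⟨H, hH⟩ := exists_psi_eq A G hR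
    have hker : F - H * gB A c ∈ RingHom.ker (psi A) := by
      rw [RingHom.mem_ker, map_sub, map_mul, hH, psi_gB, hG, sub_self]
    rw [ker_psi] at hker
    have : F = (F - H * gB A c) + H * gB A c := by ring
    rw [this]
    exact Submodule.add_mem_sup hker (Ideal.mul_mem_left _ _ (Ideal.mem_span_singleton_self _))
  · rw [sup_le_iff]
    constructor
    · intro F hF
      rw [Ideal.mem_comap, minorsB_le_ker A hF]
      exact Ideal.zero_mem _
    · rw [Ideal.span_le, Set.singleton_subset_iff, SetLike.mem_coe, Ideal.mem_comap, psi_gB]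
      exact Ideal.mem_span_singleton_self _

end

/-! ### Change of the base ring and the relative form -/

section rel

variable {A : Type*} [CommRing A] {B : Type*} [CommRing B]

theorem psi_map (f : A →+* B) (F : MvPowerSeries SB A) :
    psi B (MvPowerSeries.map f F) = MvPowerSeries.map f (psi A F) := by
  classical
  ext e
  obtain ⟨n, τ, rfl⟩ := exists_rep e
  rw [coeff_psi, coeff_map, coeff_psi, map_sum]
  simp_rw [coeff_map]

theorem map_gB (f : A →+* B) (c : A) : MvPowerSeries.map f (gB A c) = gB B (f c) := by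
  simp only [gB, map_sub, map_add, map_pow, map_mul, MvPowerSeries.map_X, MvPowerSeries.map_C]

theorem map_gT (f : A →+* B) (c : A) : MvPowerSeries.map f (gT A c) = gT B (f c) := by
  simp only [gT, map_sub, map_add, map_pow, map_mul, MvPowerSeries.map_X, MvPowerSeries.map_C]

theorem map_minorB (f : A →+* B) (k l : Fin 3) :
    MvPowerSeries.map f (minorB A k l) = minorB B k l := by
  simp only [minorB, map_sub, map_mul, MvPowerSeries.map_X]

theorem map_minorsB (f : A →+* B) :
    Ideal.map (MvPowerSeries.map f) (minorsB A) = minorsB B := by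
  rw [minorsB, minorsB, Ideal.map_span]
  congr 1
  ext F
  constructor
  · rintro ⟨_, ⟨k, l, rfl⟩, rfl⟩
    exact ⟨k, l, map_minorB f k l⟩
  · rintro ⟨k, l, rfl⟩
    exact ⟨_, ⟨k, l, rfl⟩, map_minorB f k l⟩

/-- **The Rees lemma (relative form)**: `𝔞` an ideal of the Noetherian ring `A` modulo which `c`
is regular; then `psi⁻¹ ((gT) + 𝔞 A[[ρ, y]]) = (minors) + (gB) + 𝔞 A[[x, y]]`. -/
theorem comap_psi_rel [IsNoetherianRing A] (𝔞 : Ideal A) (c : A)
    (hc : ∀ a : A, c * a ∈ 𝔞 → a ∈ 𝔞) :
    Ideal.comap (psi A) (Ideal.span {gT A c} ⊔ Ideal.map C 𝔞) =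
      (minorsB A ⊔ Ideal.span {gB A c}) ⊔ Ideal.map C 𝔞 := by
  have hfg : 𝔞.FG := IsNoetherian.noetherian 𝔞
  have hcbar : ∀ a : A ⧸ 𝔞, Ideal.Quotient.mk 𝔞 c * a = 0 → a = 0 := by
    intro a ha
    obtain ⟨a, rfl⟩ := Ideal.Quotient.mk_surjective a
    rw [← map_mul, Ideal.Quotient.eq_zero_iff_mem] at ha
    exact Ideal.Quotient.eq_zero_iff_mem.2 (hc a ha)
  have h1 := comap_psi_span_gT (A ⧸ 𝔞) (Ideal.Quotient.mk 𝔞 c) hcbar
  have e1 : Ideal.span {gT A c} ⊔ Ideal.map C 𝔞 =
      Ideal.comap (MvPowerSeries.map (Ideal.Quotient.mk 𝔞))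
        (Ideal.span {gT (A ⧸ 𝔞) (Ideal.Quotient.mk 𝔞 c)}) := by
    rw [← PSQuot1.comap_map_mk 𝔞 hfg, Ideal.map_span, Set.image_singleton, map_gT]
  have e2 : (minorsB A ⊔ Ideal.span {gB A c}) ⊔ Ideal.map C 𝔞 =
      Ideal.comap (MvPowerSeries.map (Ideal.Quotient.mk 𝔞))
        (minorsB (A ⧸ 𝔞) ⊔ Ideal.span {gB (A ⧸ 𝔞) (Ideal.Quotient.mk 𝔞 c)}) := by
    rw [← PSQuot1.comap_map_mk 𝔞 hfg, Ideal.map_sup, map_minorsB, Ideal.map_span,
      Set.image_singleton, map_gB]
  ext F
  rw [Ideal.mem_comap, e1, Ideal.mem_comap, e2, Ideal.mem_comap, ← h1, Ideal.mem_comap, psi_map]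

end rel

end Fermat.Agent.M43.Rees1
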