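/-
Programme M43 (target S43), pillar (P-LOC), helper1: **the mixed family and the one-block step.**

`K` = blocks in `x`-form (six variables `x₀ x₁ x₂ | y₀ y₁ y₂`, relations: the minors and the quadric),
`L` = blocks in `ρ`-form (four variables `ρ | y₀ y₁ y₂`, relation: the quadric), `m` free variables.
`mixIdeal cK cL` is the ideal of all these relations in `R[[VarM K L m]]`.

* `step` : `mixIdeal (K := Option K') (L := L) = Φ⁻¹ (mixIdeal (K := K') (L := Option L))` for an
  explicit ring homomorphism `Φ` (split off the block `none`, curry, apply `Toric1.psi`), as soon as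
  the ideal with the block removed is prime and does not contain the constant `cK none`
  (`Rees1.comap_psi_rel`).
-/
import Mathlib
import Fermat.Agent.M43.PSBlock1
import Fermat.Agent.M43.Rees1

set_option autoImplicit false

namespace Fermat.Agent.M43.Mix1

open MvPowerSeries
open Fermat.Agent.M43.Toric1 Fermat.Agent.M43.Rees1 Fermat.Agent.M43.PSBlock1

/-! ### Generic: ideals spanned by corresponding generators under a ring isomorphism -/

section generic

variable {P Q : Type*} [CommRing P] [CommRing Q]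

theorem span_eq_comap_of_equiv (e : P ≃+* Q) (S : Set P) (T : Set Q)
    (h1 : ∀ f ∈ S, e f ∈ Ideal.span T) (h2 : ∀ g ∈ T, ∃ f ∈ Ideal.span S, e f = g) :
    Ideal.span S = Ideal.comap (e : P →+* Q) (Ideal.span T) := by
  apply le_antisymm
  · rw [Ideal.span_le]
    intro f hf
    exact h1 f hf
  · intro F hF
    rw [Ideal.mem_comap] at hF
    have hT : Ideal.span T ≤ Ideal.map (e : P →+* Q) (Ideal.span S) := by
      rw [Ideal.span_le]
      intro g hg
      obtain ⟨f, hf, rfl⟩ := h2 g hg
      exact Ideal.mem_map_of_mem _ hf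
    have h3 := hT hF
    rw [Ideal.mem_map_iff_of_surjective (e : P →+* Q) e.surjective] at h3
    obtain ⟨f', hf', he⟩ := h3
    have : f' = F := e.injective he
    rwa [← this]

end generic

/-! ### The variables and the generators -/

/-- the variables of the mixed ring: `K`-blocks of type `SB`, `L`-blocks of type `TB`, free. -/
abbrev VarM (K L : Type) (m : ℕ) : Type := ((K × SB) ⊕ (L × TB)) ⊕ Fin m

section gens

variable (R : Type*) [CommRing R] {σ : Type*}

/-- `X a * X b - X c * X d`. -/
noncomputable def minor4 (a b c d : σ) : MvPowerSeries σ R := X a * X b - X c * X d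

/-- `X y₀ ^ 2 + X y₁ * X y₂ - C c`. -/
noncomputable def quad3 (y0 y1 y2 : σ) (c : R) : MvPowerSeries σ R :=
  X y0 ^ 2 + X y1 * X y2 - C c

variable {K L : Type} (m : ℕ)

/-- the generators of the mixed ideal. -/
def mixSet (cK : K → R) (cL : L → R) : Set (MvPowerSeries (VarM K L m) R) :=
  {f | (∃ (i : K) (k l : Fin 3), f = minor4 R
          (Sum.inl (Sum.inl (i, Sum.inl k))) (Sum.inl (Sum.inl (i, Sum.inr l)))
          (Sum.inl (Sum.inl (i, Sum.inl l))) (Sum.inl (Sum.inl (i, Sum.inr k)))) ∨
       (∃ i : K, f = quad3 R (Sum.inl (Sum.inl (i, Sum.inr 0))) (Sum.inl (Sum.inl (i, Sum.inr 1)))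
          (Sum.inl (Sum.inl (i, Sum.inr 2))) (cK i)) ∨
       (∃ j : L, f = quad3 R (Sum.inl (Sum.inr (j, Sum.inr 0))) (Sum.inl (Sum.inr (j, Sum.inr 1)))
          (Sum.inl (Sum.inr (j, Sum.inr 2))) (cL j))}

/-- the mixed ideal. -/
noncomputable def mixIdeal (cK : K → R) (cL : L → R) : Ideal (MvPowerSeries (VarM K L m) R) :=
  Ideal.span (mixSet R m cK cL)

end gens

/-! ### Splitting off one block -/

section split

variable (K L : Type) (m : ℕ)

/-- split off the `x`-form block `none`. -/
def eps1 : VarM (Option K) L m ≃ VarM K L m ⊕ SB where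
  toFun
    | Sum.inl (Sum.inl (some j, s)) => Sum.inl (Sum.inl (Sum.inl (j, s)))
    | Sum.inl (Sum.inl (none, s)) => Sum.inr s
    | Sum.inl (Sum.inr p) => Sum.inl (Sum.inl (Sum.inr p))
    | Sum.inr w => Sum.inl (Sum.inr w)
  invFun
    | Sum.inl (Sum.inl (Sum.inl (j, s))) => Sum.inl (Sum.inl (some j, s))
    | Sum.inl (Sum.inl (Sum.inr p)) => Sum.inl (Sum.inr p)
    | Sum.inl (Sum.inr w) => Sum.inr w
    | Sum.inr s => Sum.inl (Sum.inl (none, s))
  left_inv := by rintro ((⟨_ | j, s⟩ | p) | w) <;> rfl
  right_inv := by rintro (((⟨j, s⟩ | p) | w) | s) <;> rfl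

/-- split off the `ρ`-form block `none`. -/
def eps2 : VarM K (Option L) m ≃ VarM K L m ⊕ TB where
  toFun
    | Sum.inl (Sum.inl p) => Sum.inl (Sum.inl (Sum.inl p))
    | Sum.inl (Sum.inr (some j, t)) => Sum.inl (Sum.inl (Sum.inr (j, t)))
    | Sum.inl (Sum.inr (none, t)) => Sum.inr t
    | Sum.inr w => Sum.inl (Sum.inr w)
  invFun
    | Sum.inl (Sum.inl (Sum.inl p)) => Sum.inl (Sum.inl p)
    | Sum.inl (Sum.inl (Sum.inr (j, t))) => Sum.inl (Sum.inr (some j, t))
    | Sum.inl (Sum.inr w) => Sum.inr w
    | Sum.inr t => Sum.inl (Sum.inr (none, t))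
  left_inv := by rintro ((p | ⟨(_ | j), t⟩) | w) <;> rfl
  right_inv := by rintro (((p | ⟨j, t⟩) | w) | t) <;> rfl

variable (R : Type*) [CommRing R]

/-- `R[[VarM (Option K) L m]] ≃ (R[[VarM K L m]])[[SB]]`. -/
noncomputable def e1 :
    MvPowerSeries (VarM (Option K) L m) R ≃+* MvPowerSeries SB (MvPowerSeries (VarM K L m) R) :=
  ((renameEquiv R (eps1 K L m)) : _ ≃+* _).trans curry

/-- `R[[VarM K (Option L) m]] ≃ (R[[VarM K L m]])[[TB]]`. -/
noncomputable def e2 :
    MvPowerSeries (VarM K (Option L) m) R ≃+* MvPowerSeries TB (MvPowerSeries (VarM K L m) R) :=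
  ((renameEquiv R (eps2 K L m)) : _ ≃+* _).trans curry

theorem e1_X (v : VarM (Option K) L m) :
    e1 K L m R (X v) = Sum.elim (fun s => C (X s)) (fun t => X t) (eps1 K L m v) := by
  have h : e1 K L m R (X v) = curry (X (eps1 K L m v)) := by
    simp [e1, rename_X]
  rw [h]
  cases eps1 K L m v with
  | inl s => exact curry_X_inl s
  | inr t => exact curry_X_inr t

theorem e2_X (v : VarM K (Option L) m) :
    e2 K L m R (X v) = Sum.elim (fun s => C (X s)) (fun t => X t) (eps2 K L m v) := by
  have h : e2 K L m R (X v) = curry (X (eps2 K L m v)) := by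
    simp [e2, rename_X]
  rw [h]
  cases eps2 K L m v with
  | inl s => exact curry_X_inl s
  | inr t => exact curry_X_inr t

theorem e1_C (a : R) : e1 K L m R (C a) = C (C a) := by
  have h : e1 K L m R (C a) = curry (C a) := by
    simp [e1, rename_C]
  rw [h, curry_C]

theorem e2_C (a : R) : e2 K L m R (C a) = C (C a) := by
  have h : e2 K L m R (C a) = curry (C a) := by
    simp [e2, rename_C]
  rw [h, curry_C]

end split

/-! ### The images of the variables -/

section vars

variable (K L : Type) (m : ℕ) (R : Type*) [CommRing R]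

theorem e1_X_some (j : K) (s : SB) :
    e1 K L m R (X (Sum.inl (Sum.inl (some j, s)))) = C (X (Sum.inl (Sum.inl (j, s)))) := by
  rw [e1_X]; rfl

theorem e1_X_none (s : SB) : e1 K L m R (X (Sum.inl (Sum.inl (none, s)))) = X s := by
  rw [e1_X]; rfl

theorem e1_X_L (p : L × TB) :
    e1 K L m R (X (Sum.inl (Sum.inr p))) = C (X (Sum.inl (Sum.inr p))) := by
  rw [e1_X]; rfl

theorem e1_X_w (w : Fin m) : e1 K L m R (X (Sum.inr w)) = C (X (Sum.inr w)) := by
  rw [e1_X]; rfl

theorem e2_X_K (p : K × SB) :
    e2 K L m R (X (Sum.inl (Sum.inl p))) = C (X (Sum.inl (Sum.inl p))) := by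
  rw [e2_X]; rfl

theorem e2_X_some (j : L) (t : TB) :
    e2 K L m R (X (Sum.inl (Sum.inr (some j, t)))) = C (X (Sum.inl (Sum.inr (j, t)))) := by
  rw [e2_X]; rfl

theorem e2_X_none (t : TB) : e2 K L m R (X (Sum.inl (Sum.inr (none, t)))) = X t := by
  rw [e2_X]; rfl

theorem e2_X_w (w : Fin m) : e2 K L m R (X (Sum.inr w)) = C (X (Sum.inr w)) := by
  rw [e2_X]; rfl

end vars

/-! ### The two identifications of ideals -/

section ident

variable {K L : Type} (m : ℕ) (R : Type*) [CommRing R]

/-- the ideal of the mixed ring with one more `x`-form block, after splitting off that block. -/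
theorem mixIdeal_option_left (cK : Option K → R) (cL : L → R) :
    mixIdeal R m cK cL = Ideal.comap (e1 K L m R : _ →+* _)
      ((minorsB (MvPowerSeries (VarM K L m) R) ⊔
          Ideal.span {gB (MvPowerSeries (VarM K L m) R) (C (cK none))}) ⊔
        Ideal.map C (mixIdeal R m (fun j => cK (some j)) cL)) := by
  have hT : (minorsB (MvPowerSeries (VarM K L m) R) ⊔
          Ideal.span {gB (MvPowerSeries (VarM K L m) R) (C (cK none))}) ⊔
        Ideal.map C (mixIdeal R m (fun j => cK (some j)) cL) =
      Ideal.span (({f | ∃ k l : Fin 3, f = minorB (MvPowerSeries (VarM K L m) R) k l} ∪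
          {gB (MvPowerSeries (VarM K L m) R) (C (cK none))}) ∪
        (C : MvPowerSeries (VarM K L m) R →+* MvPowerSeries SB (MvPowerSeries (VarM K L m) R)) ''
          (mixSet R m (fun j => cK (some j)) cL)) := by
    rw [Ideal.span_union, Ideal.span_union, mixIdeal, Ideal.map_span]
    rfl
  rw [hT, mixIdeal]
  apply span_eq_comap_of_equiv
  · rintro f (⟨i, k, l, rfl⟩ | ⟨i, rfl⟩ | ⟨j, rfl⟩)
    · cases i with
      | none =>
        apply Ideal.subset_span
        refine Or.inl (Or.inl ⟨k, l, ?_⟩)
        simp only [minor4, minorB, map_sub, map_mul, e1_X_none]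
      | some j =>
        apply Ideal.subset_span
        refine Or.inr ⟨_, Or.inl ⟨j, k, l, rfl⟩, ?_⟩
        simp only [minor4, map_sub, map_mul, e1_X_some]
    · cases i with
      | none =>
        apply Ideal.subset_span
        refine Or.inl (Or.inr ?_)
        rw [Set.mem_singleton_iff]
        simp only [quad3, gB, map_sub, map_add, map_pow, map_mul, e1_X_none, e1_C]
      | some j =>
        apply Ideal.subset_span
        refine Or.inr ⟨_, Or.inr (Or.inl ⟨j, rfl⟩), ?_⟩
        simp only [quad3, map_sub, map_add, map_pow, map_mul, e1_X_some, e1_C]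
    · apply Ideal.subset_span
      refine Or.inr ⟨_, Or.inr (Or.inr ⟨j, rfl⟩), ?_⟩
      simp only [quad3, map_sub, map_add, map_pow, map_mul, e1_X_L, e1_C]
  · rintro g ((⟨k, l, rfl⟩ | hg) | ⟨f, (⟨j, k, l, rfl⟩ | ⟨j, rfl⟩ | ⟨j, rfl⟩), rfl⟩)
    · refine ⟨_, Ideal.subset_span (Or.inl ⟨none, k, l, rfl⟩), ?_⟩
      simp only [minor4, minorB, map_sub, map_mul, e1_X_none]
    · rw [Set.mem_singleton_iff] at hg
      subst hg
      refine ⟨_, Ideal.subset_span (Or.inr (Or.inl ⟨none, rfl⟩)), ?_⟩
      simp only [quad3, gB, map_sub, map_add, map_pow, map_mul, e1_X_none, e1_C]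
    · refine ⟨_, Ideal.subset_span (Or.inl ⟨some j, k, l, rfl⟩), ?_⟩
      simp only [minor4, map_sub, map_mul, e1_X_some]
    · refine ⟨_, Ideal.subset_span (Or.inr (Or.inl ⟨some j, rfl⟩)), ?_⟩
      simp only [quad3, map_sub, map_add, map_pow, map_mul, e1_X_some, e1_C]
    · refine ⟨_, Ideal.subset_span (Or.inr (Or.inr ⟨j, rfl⟩)), ?_⟩
      simp only [quad3, map_sub, map_add, map_pow, map_mul, e1_X_L, e1_C]

/-- the ideal of the mixed ring with one more `ρ`-form block, after splitting off that block. -/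
theorem mixIdeal_option_right (cK : K → R) (cL : Option L → R) :
    mixIdeal R m cK cL = Ideal.comap (e2 K L m R : _ →+* _)
      (Ideal.span {gT (MvPowerSeries (VarM K L m) R) (C (cL none))} ⊔
        Ideal.map C (mixIdeal R m cK (fun j => cL (some j)))) := by
  have hT : Ideal.span {gT (MvPowerSeries (VarM K L m) R) (C (cL none))} ⊔
        Ideal.map C (mixIdeal R m cK (fun j => cL (some j))) =
      Ideal.span ({gT (MvPowerSeries (VarM K L m) R) (C (cL none))} ∪
        (C : MvPowerSeries (VarM K L m) R →+* MvPowerSeries TB (MvPowerSeries (VarM K L m) R)) ''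
          (mixSet R m cK (fun j => cL (some j)))) := by
    rw [Ideal.span_union, mixIdeal, Ideal.map_span]
  rw [hT, mixIdeal]
  apply span_eq_comap_of_equiv
  · rintro f (⟨i, k, l, rfl⟩ | ⟨i, rfl⟩ | ⟨j, rfl⟩)
    · apply Ideal.subset_span
      refine Or.inr ⟨_, Or.inl ⟨i, k, l, rfl⟩, ?_⟩
      simp only [minor4, map_sub, map_mul, e2_X_K]
    · apply Ideal.subset_span
      refine Or.inr ⟨_, Or.inr (Or.inl ⟨i, rfl⟩), ?_⟩
      simp only [quad3, map_sub, map_add, map_pow, map_mul, e2_X_K, e2_C]
    · cases j with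
      | none =>
        apply Ideal.subset_span
        refine Or.inl ?_
        rw [Set.mem_singleton_iff]
        simp only [quad3, gT, map_sub, map_add, map_pow, map_mul, e2_X_none, e2_C]
      | some j =>
        apply Ideal.subset_span
        refine Or.inr ⟨_, Or.inr (Or.inr ⟨j, rfl⟩), ?_⟩
        simp only [quad3, map_sub, map_add, map_pow, map_mul, e2_X_some, e2_C]
  · rintro g (hg | ⟨f, (⟨i, k, l, rfl⟩ | ⟨i, rfl⟩ | ⟨j, rfl⟩), rfl⟩)
    · rw [Set.mem_singleton_iff] at hg
      subst hg
      refine ⟨_, Ideal.subset_span (Or.inr (Or.inr ⟨none, rfl⟩)), ?_⟩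
      simp only [quad3, gT, map_sub, map_add, map_pow, map_mul, e2_X_none, e2_C]
    · refine ⟨_, Ideal.subset_span (Or.inl ⟨i, k, l, rfl⟩), ?_⟩
      simp only [minor4, map_sub, map_mul, e2_X_K]
    · refine ⟨_, Ideal.subset_span (Or.inr (Or.inl ⟨i, rfl⟩)), ?_⟩
      simp only [quad3, map_sub, map_add, map_pow, map_mul, e2_X_K, e2_C]
    · refine ⟨_, Ideal.subset_span (Or.inr (Or.inr ⟨some j, rfl⟩)), ?_⟩
      simp only [quad3, map_sub, map_add, map_pow, map_mul, e2_X_some, e2_C]

end ident

/-! ### The one-block step -/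

section step

variable (K L : Type) (m : ℕ) (R : Type*) [CommRing R]

/-- the ring homomorphism of the one-block step: split off the block, curry, apply `psi`. -/
noncomputable def Phi :
    MvPowerSeries (VarM (Option K) L m) R →+* MvPowerSeries (VarM K (Option L) m) R :=
  (e2 K L m R).symm.toRingHom.comp
    ((psi (MvPowerSeries (VarM K L m) R)).toRingHom.comp (e1 K L m R).toRingHom)

theorem Phi_apply (F : MvPowerSeries (VarM (Option K) L m) R) :
    Phi K L m R F = (e2 K L m R).symm (psi (MvPowerSeries (VarM K L m) R) (e1 K L m R F)) := rfl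

theorem Phi_C (a : R) : Phi K L m R (C a) = C a := by
  rw [Phi_apply, e1_C, psi_C, RingEquiv.symm_apply_eq, e2_C]

variable {K L}

/-- **The one-block step.** -/
theorem step [Finite K] [Finite L] [IsNoetherianRing R] (cK : Option K → R) (cL : L → R)
    (hprime : (mixIdeal R m (fun j => cK (some j)) cL).IsPrime)
    (hc : C (cK none) ∉ mixIdeal R m (fun j => cK (some j)) cL) :
    mixIdeal R m cK cL = Ideal.comap (Phi K L m R)
      (mixIdeal R m (fun j => cK (some j)) (fun o : Option L => o.elim (cK none) cL)) := by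
  have h1 := mixIdeal_option_left m R cK cL
  have h2 : mixIdeal R m (fun j => cK (some j)) (fun o : Option L => o.elim (cK none) cL) =
      Ideal.comap (e2 K L m R : _ →+* _)
        (Ideal.span {gT (MvPowerSeries (VarM K L m) R) (C (cK none))} ⊔
          Ideal.map C (mixIdeal R m (fun j => cK (some j)) cL)) :=
    mixIdeal_option_right m R _ _
  have hreg : ∀ a : MvPowerSeries (VarM K L m) R,
      C (cK none) * a ∈ mixIdeal R m (fun j => cK (some j)) cL →
        a ∈ mixIdeal R m (fun j => cK (some j)) cL := by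
    intro a ha
    rcases hprime.mem_or_mem ha with h | h
    · exact absurd h hc
    · exact h
  have h3 := comap_psi_rel (mixIdeal R m (fun j => cK (some j)) cL) (C (cK none)) hreg
  rw [h1, h2, ← h3]
  ext F
  simp only [Ideal.mem_comap, Phi_apply, RingEquiv.coe_toRingHom, RingEquiv.apply_symm_apply]

end step

/-! ### The induction -/

section induction

variable (m : ℕ) (R : Type*) [CommRing R]

/-- the statement proved by induction on the number of `x`-form blocks. -/
def Good (adm : R → Prop) (K : Type) : Prop :=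
  ∀ (L : Type) [Finite L] (cK : K → R) (cL : L → R), (∀ i, adm (cK i)) → (∀ j, adm (cL j)) →
    (mixIdeal R m cK cL).IsPrime ∧ ∀ a : R, C a ∈ mixIdeal R m cK cL → a = 0

theorem good_option [IsNoetherianRing R] (adm : R → Prop) (hadm : ∀ a, adm a → a ≠ 0)
    (K : Type) [Finite K] (h : Good m R adm K) : Good m R adm (Option K) := by
  intro L _ cK cL hK hL
  obtain ⟨hp0, hi0⟩ := h L (fun j => cK (some j)) cL (fun j => hK (some j)) hL
  have hc : C (cK none) ∉ mixIdeal R m (fun j => cK (some j)) cL :=
    fun hmem => hadm _ (hK none) (hi0 _ hmem)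
  obtain ⟨hp1, hi1⟩ := h (Option L) (fun j => cK (some j))
    (fun o : Option L => o.elim (cK none) cL) (fun j => hK (some j)) (by
      intro o
      cases o with
      | none => exact hK none
      | some j => exact hL j)
  have hs := step m R cK cL hp0 hc
  constructor
  · rw [hs]
    exact Ideal.comap_isPrime _ _
  · intro a ha
    rw [hs, Ideal.mem_comap, Phi_C] at ha
    exact hi1 a ha

end induction

end Fermat.Agent.M43.Mix1
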