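/-
Programme M43 (target S43), pillar (P-LOC), helper1: **(L-χ-DOMAIN): the `χ`-side local ring at the
bad primes is a domain — reduction to the iterated double cover.**

`chiIdeal O m c ⊆ O[[x, y, w]]` (`LocDefs1`: the `2 × 2` minors of `(x_i; y_i)` and the quadrics
`q(y_i) - c_i`) is PRIME, and `O` injects into the quotient, as soon as the same holds for the ideals
`quadIdeal' O m c ⊆ O[[ρ, y, w]]` of the iterated double cover, for all finite index types and all
admissible `c` (helper5's `QuadCover5`).  Induction on the number of blocks in `x`-form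
(`Mix1.good_option`, one block at a time through `Toric1.psi` and the Rees lemma `Rees1`).

* `good_all` : `Mix1.Good m O adm K` for every finite `K`;
* `isPrime_chiIdeal_of`, `C_mem_chiIdeal_of` : the end theorems, with the double cover as hypothesis.
-/
import Mathlib
import Fermat.Agent.M43.LocDefs1
import Fermat.Agent.M43.Mix1

set_option autoImplicit false

namespace Fermat.Agent.M43.ChiDomain1

open MvPowerSeries
open Fermat.Agent.M43.LocDefs1 Fermat.Agent.M43.Mix1 Fermat.Agent.M43.Toric1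

/-! ### Renaming of variables -/

section rename

variable (R : Type*) [CommRing R] {σ τ : Type*}

/-- the ring isomorphism renaming the variables along an equivalence. -/
noncomputable def ren (ε : σ ≃ τ) : MvPowerSeries σ R ≃+* MvPowerSeries τ R :=
  (renameEquiv R ε : MvPowerSeries σ R ≃+* MvPowerSeries τ R)

theorem ren_X (ε : σ ≃ τ) (v : σ) : ren R ε (X v) = X (ε v) := by
  simp [ren, rename_X]

theorem ren_C (ε : σ ≃ τ) (a : R) : ren R ε (C a) = C a := by
  simp [ren, rename_C]

end rename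

/-! ### Change of the index type of the `x`-form blocks -/

section congr

variable (m : ℕ) (R : Type*) [CommRing R]

/-- the equivalence of variables induced by an equivalence of the index types. -/
def epsK {K K₂ : Type} (e : K ≃ K₂) (L : Type) : VarM K L m ≃ VarM K₂ L m :=
  Equiv.sumCongr (Equiv.sumCongr (Equiv.prodCongr e (Equiv.refl SB)) (Equiv.refl (L × TB)))
    (Equiv.refl (Fin m))

theorem epsK_K {K K₂ : Type} (e : K ≃ K₂) (L : Type) (i : K) (s : SB) :
    epsK m e L (Sum.inl (Sum.inl (i, s))) = Sum.inl (Sum.inl (e i, s)) := rfl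

theorem epsK_L {K K₂ : Type} (e : K ≃ K₂) (L : Type) (p : L × TB) :
    epsK m e L (Sum.inl (Sum.inr p)) = Sum.inl (Sum.inr p) := rfl

theorem mixIdeal_congr {K K₂ L : Type} (e : K ≃ K₂) (cK : K₂ → R) (cL : L → R) :
    mixIdeal R m (fun i => cK (e i)) cL =
      Ideal.comap (ren R (epsK m e L) : _ →+* _) (mixIdeal R m cK cL) := by
  rw [mixIdeal, mixIdeal]
  apply span_eq_comap_of_equiv
  · rintro f (⟨i, k, l, rfl⟩ | ⟨i, rfl⟩ | ⟨j, rfl⟩)
    · apply Ideal.subset_span
      refine Or.inl ⟨e i, k, l, ?_⟩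
      simp only [minor4, map_sub, map_mul, ren_X, epsK_K]
    · apply Ideal.subset_span
      refine Or.inr (Or.inl ⟨e i, ?_⟩)
      simp only [quad3, map_sub, map_add, map_pow, map_mul, ren_X, ren_C, epsK_K]
    · apply Ideal.subset_span
      refine Or.inr (Or.inr ⟨j, ?_⟩)
      simp only [quad3, map_sub, map_add, map_pow, map_mul, ren_X, ren_C, epsK_L]
  · rintro g (⟨i, k, l, rfl⟩ | ⟨i, rfl⟩ | ⟨j, rfl⟩)
    · obtain ⟨i, rfl⟩ := e.surjective i
      refine ⟨_, Ideal.subset_span (Or.inl ⟨i, k, l, rfl⟩), ?_⟩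
      simp only [minor4, map_sub, map_mul, ren_X, epsK_K]
    · obtain ⟨i, rfl⟩ := e.surjective i
      refine ⟨_, Ideal.subset_span (Or.inr (Or.inl ⟨i, rfl⟩)), ?_⟩
      simp only [quad3, map_sub, map_add, map_pow, map_mul, ren_X, ren_C, epsK_K]
    · refine ⟨_, Ideal.subset_span (Or.inr (Or.inr ⟨j, rfl⟩)), ?_⟩
      simp only [quad3, map_sub, map_add, map_pow, map_mul, ren_X, ren_C, epsK_L]

theorem good_of_equiv (adm : R → Prop) {K K₂ : Type} (e : K ≃ K₂) (h : Good m R adm K) :
    Good m R adm K₂ := by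
  intro L _ cK cL hK hL
  obtain ⟨hp, hi⟩ := h L (fun i => cK (e i)) cL (fun i => hK (e i)) hL
  have hfun : (fun i₂ => (fun i => cK (e i)) (e.symm i₂)) = cK := by
    funext i₂
    simp
  have hs := mixIdeal_congr m R e.symm (fun i => cK (e i)) cL
  rw [hfun] at hs
  constructor
  · rw [hs]
    exact Ideal.comap_isPrime _ _
  · intro a ha
    rw [hs, Ideal.mem_comap, RingEquiv.coe_toRingHom, ren_C] at ha
    exact hi a ha

end congr

/-! ### The base of the induction: no `x`-form block -/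

section base

variable (m : ℕ) (R : Type*) [CommRing R]

/-- with no `x`-form block the variables are those of `LocDefs1.QRing`. -/
def epsBase (L : Type) : VarM PEmpty L m ≃ Var' L m where
  toFun
    | Sum.inl (Sum.inl p) => p.1.elim
    | Sum.inl (Sum.inr (j, Sum.inl _)) => Sum.inl (Sum.inl j)
    | Sum.inl (Sum.inr (j, Sum.inr k)) => Sum.inl (Sum.inr (j, k))
    | Sum.inr w => Sum.inr w
  invFun
    | Sum.inl (Sum.inl j) => Sum.inl (Sum.inr (j, Sum.inl ()))
    | Sum.inl (Sum.inr (j, k)) => Sum.inl (Sum.inr (j, Sum.inr k))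
    | Sum.inr w => Sum.inr w
  left_inv := by rintro ((⟨p, _⟩ | ⟨j, (_ | k)⟩) | w) <;> first | exact p.elim | rfl
  right_inv := by rintro ((j | ⟨j, k⟩) | w) <;> rfl

theorem epsBase_y (L : Type) (j : L) (k : Fin 3) :
    epsBase m L (Sum.inl (Sum.inr (j, Sum.inr k))) = Sum.inl (Sum.inr (j, k)) := rfl

theorem mixIdeal_pempty_left {L : Type} (cK : PEmpty → R) (cL : L → R) :
    mixIdeal R m cK cL =
      Ideal.comap (ren R (epsBase m L) : _ →+* _) (quadIdeal' R m cL) := by
  rw [mixIdeal, quadIdeal']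
  apply span_eq_comap_of_equiv
  · rintro f (⟨i, k, l, rfl⟩ | ⟨i, rfl⟩ | ⟨j, rfl⟩)
    · exact i.elim
    · exact i.elim
    · apply Ideal.subset_span
      refine ⟨j, ?_⟩
      simp only [quad3, quad', yv', map_sub, map_add, map_pow, map_mul, ren_X, ren_C, epsBase_y]
  · rintro g ⟨j, rfl⟩
    refine ⟨_, Ideal.subset_span (Or.inr (Or.inr ⟨j, rfl⟩)), ?_⟩
    simp only [quad3, quad', yv', map_sub, map_add, map_pow, map_mul, ren_X, ren_C, epsBase_y]

theorem good_pempty (adm : R → Prop)
    (hQ : ∀ (L : Type) [Finite L] (c : L → R), (∀ j, adm (c j)) →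
      (quadIdeal' R m c).IsPrime ∧ ∀ a : R, C a ∈ quadIdeal' R m c → a = 0) :
    Good m R adm PEmpty := by
  intro L _ cK cL _ hL
  obtain ⟨hp, hi⟩ := hQ L cL hL
  have hs := mixIdeal_pempty_left m R cK cL
  constructor
  · rw [hs]
    exact Ideal.comap_isPrime _ _
  · intro a ha
    rw [hs, Ideal.mem_comap, RingEquiv.coe_toRingHom, ren_C] at ha
    exact hi a ha

/-- **The induction**: the mixed ideals are prime for every finite set of `x`-form blocks. -/
theorem good_all [IsNoetherianRing R] (adm : R → Prop) (hadm : ∀ a, adm a → a ≠ 0)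
    (hQ : ∀ (L : Type) [Finite L] (c : L → R), (∀ j, adm (c j)) →
      (quadIdeal' R m c).IsPrime ∧ ∀ a : R, C a ∈ quadIdeal' R m c → a = 0)
    (K : Type) [Finite K] : Good m R adm K := by
  refine Finite.induction_empty_option (P := fun K => Good m R adm K) ?_ ?_ ?_ K
  · intro α β e h
    exact good_of_equiv m R adm e h
  · exact good_pempty m R adm hQ
  · intro α _ h
    exact good_option m R adm hadm α h

end base

/-! ### The `χ`-side ring -/

section chi

variable (m : ℕ) (R : Type*) [CommRing R]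

/-- the variables of `LocDefs1.ChiRing` are those of the mixed ring with no `ρ`-form block. -/
def epsChi (ι : Type) : Var ι m ≃ VarM ι PEmpty m where
  toFun
    | Sum.inl (Sum.inl (i, k)) => Sum.inl (Sum.inl (i, Sum.inl k))
    | Sum.inl (Sum.inr (i, k)) => Sum.inl (Sum.inl (i, Sum.inr k))
    | Sum.inr w => Sum.inr w
  invFun
    | Sum.inl (Sum.inl (i, Sum.inl k)) => Sum.inl (Sum.inl (i, k))
    | Sum.inl (Sum.inl (i, Sum.inr k)) => Sum.inl (Sum.inr (i, k))
    | Sum.inl (Sum.inr p) => p.1.elim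
    | Sum.inr w => Sum.inr w
  left_inv := by rintro ((⟨i, k⟩ | ⟨i, k⟩) | w) <;> rfl
  right_inv := by rintro ((⟨i, (k | k)⟩ | ⟨p, _⟩) | w) <;> first | exact p.elim | rfl

theorem epsChi_x (ι : Type) (i : ι) (k : Fin 3) :
    epsChi m ι (Sum.inl (Sum.inl (i, k))) = Sum.inl (Sum.inl (i, Sum.inl k)) := rfl

theorem epsChi_y (ι : Type) (i : ι) (k : Fin 3) :
    epsChi m ι (Sum.inl (Sum.inr (i, k))) = Sum.inl (Sum.inl (i, Sum.inr k)) := rfl

theorem chiIdeal_eq {ι : Type} (c : ι → R) (cL : PEmpty → R) :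
    chiIdeal R m c = Ideal.comap (ren R (epsChi m ι) : _ →+* _) (mixIdeal R m c cL) := by
  rw [chiIdeal, mixIdeal]
  apply span_eq_comap_of_equiv
  · rintro f (⟨i, k, l, rfl⟩ | ⟨i, rfl⟩)
    · apply Ideal.subset_span
      refine Or.inl ⟨i, k, l, ?_⟩
      simp only [minor, xv, yv, minor4, map_sub, map_mul, ren_X, epsChi_x, epsChi_y]
    · apply Ideal.subset_span
      refine Or.inr (Or.inl ⟨i, ?_⟩)
      simp only [quad, yv, quad3, map_sub, map_add, map_pow, map_mul, ren_X, ren_C, epsChi_y]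
  · rintro g (⟨i, k, l, rfl⟩ | ⟨i, rfl⟩ | ⟨j, rfl⟩)
    · refine ⟨_, Ideal.subset_span (Or.inl ⟨i, k, l, rfl⟩), ?_⟩
      simp only [minor, xv, yv, minor4, map_sub, map_mul, ren_X, epsChi_x, epsChi_y]
    · refine ⟨_, Ideal.subset_span (Or.inr ⟨i, rfl⟩), ?_⟩
      simp only [quad, yv, quad3, map_sub, map_add, map_pow, map_mul, ren_X, ren_C, epsChi_y]
    · exact j.elim

/-- **(L-χ-DOMAIN), reduced to the double cover**: `chiIdeal` is prime and contains no nonzero
constant. -/
theorem chiIdeal_good [IsNoetherianRing R] (adm : R → Prop) (hadm : ∀ a, adm a → a ≠ 0)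
    (hQ : ∀ (L : Type) [Finite L] (c : L → R), (∀ j, adm (c j)) →
      (quadIdeal' R m c).IsPrime ∧ ∀ a : R, C a ∈ quadIdeal' R m c → a = 0)
    {ι : Type} [Finite ι] (c : ι → R) (hc : ∀ i, adm (c i)) :
    (chiIdeal R m c).IsPrime ∧ ∀ a : R, C a ∈ chiIdeal R m c → a = 0 := by
  obtain ⟨hp, hi⟩ := good_all m R adm hadm hQ ι PEmpty c PEmpty.elim hc (fun j => j.elim)
  have hs := chiIdeal_eq m R c PEmpty.elim
  constructor
  · rw [hs]
    exact Ideal.comap_isPrime _ _
  · intro a ha
    rw [hs, Ideal.mem_comap, RingEquiv.coe_toRingHom, ren_C] at ha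
    exact hi a ha

end chi

end Fermat.Agent.M43.ChiDomain1
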