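import Mathlib

/-!
# M43 / P-LOC (QuadCover, abstract part): lifting primality from the special fibre

* `isDomain_of_regular_of_span_isPrime`: a noetherian local ring `B` with an element `lam` of the
  maximal ideal which is regular and generates a prime ideal is a domain (Krull intersection).
* `isPrime_sup_span_of_isPrime`: the ideal form of one step.
* `isPrime_span_image`: the induction over the blocks: if all the ideals
  `(g_j : j ∈ T) + (lam)` are prime and `g_j ∉ (g_i : i ∈ T) + (lam)` for `j ∉ T` then all the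
  ideals `(g_j : j ∈ T)` are prime (in a noetherian local domain, `lam ≠ 0` in the maximal ideal).

Mathlib only.
-/

namespace Fermat.Agent.M43.QuadAbs5

open Ideal

section RS

variable {B : Type*} [CommRing B] [IsNoetherianRing B] [IsLocalRing B]

/-- In a noetherian local ring every nonzero element is `lam ^ n * x'` with `x' ∉ (lam)`, for
`lam` in the maximal ideal. -/
theorem exists_eq_pow_mul (lam : B) (hm : lam ∈ IsLocalRing.maximalIdeal B) (x : B) (hx : x ≠ 0) :
    ∃ (n : ℕ) (x' : B), x = lam ^ n * x' ∧ x' ∉ Ideal.span {lam} := by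
  classical
  have hne : Ideal.span {lam} ≠ ⊤ := by
    intro h
    have : Ideal.span {lam} ≤ IsLocalRing.maximalIdeal B :=
      (Ideal.span_singleton_le_iff_mem _).2 hm
    exact (IsLocalRing.maximalIdeal.isMaximal B).ne_top (top_le_iff.1 (h ▸ this))
  have hK := Ideal.iInf_pow_eq_bot_of_isLocalRing (Ideal.span {lam}) hne
  have hex : ∃ n, x ∉ Ideal.span {lam} ^ n := by
    by_contra hcon
    push Not at hcon
    have : x ∈ ⨅ n, Ideal.span {lam} ^ n := by
      rw [Ideal.mem_iInf]; exact hcon
    rw [hK] at this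
    exact hx (by simpa using this)
  let n := Nat.find hex
  have hn : x ∉ Ideal.span {lam} ^ n := Nat.find_spec hex
  have hn0 : n ≠ 0 := by
    intro h0
    rw [h0, pow_zero, Ideal.one_eq_top] at hn
    exact hn trivial
  obtain ⟨k, hk⟩ := Nat.exists_eq_succ_of_ne_zero hn0
  have hk' : x ∈ Ideal.span {lam} ^ k := by
    by_contra h
    have := Nat.find_min' hex h
    omega
  rw [Ideal.span_singleton_pow, Ideal.mem_span_singleton'] at hk'
  obtain ⟨x', hx'⟩ := hk'
  refine ⟨k, x', by rw [← hx', mul_comm], ?_⟩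
  intro hmem
  obtain ⟨y, hy⟩ := Ideal.mem_span_singleton'.1 hmem
  apply hn
  rw [hk, Ideal.span_singleton_pow, Ideal.mem_span_singleton']
  refine ⟨y, ?_⟩
  rw [← hx', ← hy, pow_succ]; ring

/-- **Lifting the domain property.**  A noetherian local ring in which an element `lam` of the
maximal ideal is regular and generates a prime ideal is a domain. -/
theorem isDomain_of_regular_of_span_isPrime (lam : B) (hm : lam ∈ IsLocalRing.maximalIdeal B)
    (hreg : ∀ x, lam * x = 0 → x = 0) (hq : (Ideal.span {lam}).IsPrime) : IsDomain B := by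
  have hregpow : ∀ (n : ℕ) x, lam ^ n * x = 0 → x = 0 := by
    intro n
    induction n with
    | zero => intro x hx; simpa using hx
    | succ n ih =>
      intro x hx
      apply ih
      apply hreg
      rw [← mul_assoc, ← pow_succ']; exact hx
  have : NoZeroDivisors B := by
    refine ⟨fun {x y} hxy => ?_⟩
    by_contra hcon
    push Not at hcon
    obtain ⟨n, x', hx, hx'⟩ := exists_eq_pow_mul lam hm x hcon.1
    obtain ⟨k, y', hy, hy'⟩ := exists_eq_pow_mul lam hm y hcon.2
    have h0 : lam ^ (n + k) * (x' * y') = 0 := by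
      rw [← hxy, hx, hy, pow_add]; ring
    have h1 : x' * y' = 0 := hregpow _ _ h0
    have h2 : x' * y' ∈ Ideal.span {lam} := by rw [h1]; exact Ideal.zero_mem _
    rcases hq.mem_or_mem h2 with h | h
    · exact hx' h
    · exact hy' h
  exact { }

end RS

section Step

variable {A : Type*} [CommRing A] [IsNoetherianRing A] [IsLocalRing A]

/-- **One step, ideal form.** -/
theorem isPrime_sup_span_of_isPrime (lam : A) (hm : lam ∈ IsLocalRing.maximalIdeal A)
    (I : Ideal A) (g : A) (hI : I.IsPrime) (hlamI : lam ∉ I)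
    (hQ : (I ⊔ Ideal.span {lam}).IsPrime) (hg : g ∉ I ⊔ Ideal.span {lam})
    (hQ' : (I ⊔ Ideal.span {g} ⊔ Ideal.span {lam}).IsPrime) :
    (I ⊔ Ideal.span {g}).IsPrime ∧ lam ∉ I ⊔ Ideal.span {g} := by
  set K := I ⊔ Ideal.span {g} with hK
  have hKtop : K ≠ ⊤ := by
    intro h
    apply hQ'.ne_top
    rw [h, top_sup_eq]
  -- `lam` is regular modulo `K`
  have hreg : ∀ f, lam * f ∈ K → f ∈ K := by
    intro f hf
    obtain ⟨a, ha, b, hb, hab⟩ := Submodule.mem_sup.1 hf
    obtain ⟨s, rfl⟩ := Ideal.mem_span_singleton'.1 hb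
    -- `g * s ∈ I + (lam)`
    have h1 : s * g ∈ I ⊔ Ideal.span {lam} := by
      have : s * g = lam * f - a := by rw [← hab]; ring
      rw [this]
      exact Ideal.sub_mem _ (Ideal.mem_sup_right (Ideal.mul_mem_right _ _ (Ideal.subset_span rfl)))
        (Ideal.mem_sup_left ha)
    have h2 : s ∈ I ⊔ Ideal.span {lam} := (hQ.mem_or_mem h1).resolve_right hg
    obtain ⟨a', ha', b', hb', hab'⟩ := Submodule.mem_sup.1 h2
    obtain ⟨s', rfl⟩ := Ideal.mem_span_singleton'.1 hb'
    -- `lam * (f - g * s') ∈ I`
    have h3 : lam * (f - g * s') ∈ I := by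
      have : lam * (f - g * s') = a + a' * g := by
        have e1 : lam * f = a + s * g := hab.symm
        have e2 : s = a' + s' * lam := hab'.symm
        rw [mul_sub, e1, e2]; ring
      rw [this]
      exact I.add_mem ha (I.mul_mem_right _ ha')
    have h4 : f - g * s' ∈ I := (hI.mem_or_mem h3).resolve_left hlamI
    have : f = (f - g * s') + s' * g := by ring
    rw [this]
    exact Ideal.add_mem _ (Ideal.mem_sup_left h4)
      (Ideal.mem_sup_right (Ideal.mul_mem_left _ _ (Ideal.subset_span rfl)))
  have hlamK : lam ∉ K := by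
    intro h
    apply hKtop
    rw [Ideal.eq_top_iff_one]
    apply hreg
    rwa [mul_one]
  refine ⟨?_, hlamK⟩
  -- the quotient is a noetherian local ring
  have : Nontrivial (A ⧸ K) := Ideal.Quotient.nontrivial_iff.2 hKtop
  have hsurj : Function.Surjective (Ideal.Quotient.mk K) := Ideal.Quotient.mk_surjective
  have : IsLocalRing (A ⧸ K) := IsLocalRing.of_surjective' (Ideal.Quotient.mk K) hsurj
  rw [← Ideal.Quotient.isDomain_iff_prime]
  refine isDomain_of_regular_of_span_isPrime (Ideal.Quotient.mk K lam) ?_ ?_ ?_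
  · -- in the maximal ideal
    refine (IsLocalRing.mem_maximalIdeal _).2 fun hu => ?_
    obtain ⟨y, hy⟩ := hu.exists_right_inv
    obtain ⟨y', rfl⟩ := hsurj y
    have h1 : lam * y' - 1 ∈ K := by
      rw [← Ideal.Quotient.eq_zero_iff_mem, map_sub, map_mul, map_one]
      exact sub_eq_zero.2 hy
    have hKm : K ≤ IsLocalRing.maximalIdeal A := IsLocalRing.le_maximalIdeal hKtop
    have h2 : (1 : A) ∈ IsLocalRing.maximalIdeal A := by
      have e : (1 : A) = lam * y' - (lam * y' - 1) := by ring
      rw [e]
      exact Ideal.sub_mem _ (Ideal.mul_mem_right _ _ hm) (hKm h1)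
    exact (IsLocalRing.maximalIdeal.isMaximal A).ne_top ((Ideal.eq_top_iff_one _).2 h2)
  · intro x hx
    obtain ⟨x', rfl⟩ := hsurj x
    rw [← map_mul, Ideal.Quotient.eq_zero_iff_mem] at hx
    rw [Ideal.Quotient.eq_zero_iff_mem]
    exact hreg _ hx
  · have e : Ideal.span {Ideal.Quotient.mk K lam} =
        (K ⊔ Ideal.span {lam}).map (Ideal.Quotient.mk K) := by
      rw [Ideal.map_sup, Ideal.map_span, Set.image_singleton, Ideal.map_quotient_self, bot_sup_eq]
    rw [e]
    have : (K ⊔ Ideal.span {lam}).IsPrime := hQ'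
    refine Ideal.map_isPrime_of_surjective hsurj ?_
    rw [Ideal.mk_ker]
    exact le_sup_left

end Step

section Induction

variable {A : Type*} [CommRing A] [IsDomain A] [IsNoetherianRing A] [IsLocalRing A]
variable {L : Type*} [DecidableEq L]

/-- **Induction over the blocks.** -/
theorem isPrime_span_image (lam : A) (hm : lam ∈ IsLocalRing.maximalIdeal A) (hlam : lam ≠ 0)
    (g : L → A)
    (h1 : ∀ T : Finset L, (Ideal.span (g '' (T : Set L)) ⊔ Ideal.span {lam}).IsPrime)
    (h2 : ∀ (T : Finset L) (j : L), j ∉ T →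
      g j ∉ Ideal.span (g '' (T : Set L)) ⊔ Ideal.span {lam})
    (T : Finset L) :
    (Ideal.span (g '' (T : Set L))).IsPrime ∧ lam ∉ Ideal.span (g '' (T : Set L)) := by
  induction T using Finset.induction_on with
  | empty =>
    simp only [Finset.coe_empty, Set.image_empty, Ideal.span_empty]
    exact ⟨Ideal.isPrime_bot, by simpa using hlam⟩
  | insert j T hj ih =>
    have e : Ideal.span (g '' ((insert j T : Finset L) : Set L)) =
        Ideal.span (g '' (T : Set L)) ⊔ Ideal.span {g j} := by
      rw [Finset.coe_insert, Set.image_insert_eq, Ideal.span_insert, sup_comm]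
    rw [e]
    refine isPrime_sup_span_of_isPrime lam hm _ (g j) ih.1 ih.2 (h1 T) (h2 T j hj) ?_
    rw [← e]
    exact h1 (insert j T)

end Induction

end Fermat.Agent.M43.QuadAbs5
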