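import Mathlib

/-!
# M43 / P-LOC (QuadCover, one block): `D[[y₂]][[y₁]][[y₀]] / (y₀² + y₁ y₂)` is a domain

For a domain `D` put `A = D⟦y₂⟧⟦y₁⟧` (`y₁ = X`, `y₂ = C X`).  The polynomial `X² + y₁ y₂ ∈ A[X]` is
distinguished at `(y₁)` and `A` is `(y₁)`-adically complete, so by Weierstrass division
`A⟦X⟧ / (X² + y₁ y₂) ≃ A[X] / (X² + y₁ y₂)`; the polynomial is irreducible over the fraction
field of `A` (a root `a / b` would give `a² = - y₁ y₂ b²`, impossible by the parity of the
`y₁`-order), and monic, so it generates a prime ideal of `A[X]`.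

`isPrime_map_sup_span` is the ideal form over a base ring `R` with a finitely generated prime
`J`: `J · P + (y₀² + y₁ y₂)` is prime in `P = R⟦y₂⟧⟦y₁⟧⟦y₀⟧`.

Mathlib only.
-/

namespace Fermat.Agent.M43.QuadBlock5

section General

variable {A : Type*} [CommRing A] [IsDomain A] (I : Ideal A) [IsAdicComplete I A] (u : A)

/-- the distinguished polynomial `X² + u`. -/
noncomputable def gPoly : Polynomial A := Polynomial.X ^ 2 + Polynomial.C u

omit [IsDomain A] in
theorem gPoly_monic [Nontrivial A] : (gPoly u).Monic := Polynomial.monic_X_pow_add_C _ two_ne_zero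

omit [IsDomain A] in
theorem natDegree_gPoly [Nontrivial A] : (gPoly u).natDegree = 2 :=
  Polynomial.natDegree_X_pow_add_C

omit [IsDomain A] [IsAdicComplete I A] in
theorem gPoly_isDistinguishedAt [Nontrivial A] (hu : u ∈ I) : (gPoly u).IsDistinguishedAt I := by
  refine ⟨⟨fun {n} hn => ?_⟩, gPoly_monic u⟩
  rw [natDegree_gPoly] at hn
  interval_cases n
  · have : (gPoly u).coeff 0 = u := by simp [gPoly]
    rw [this]
    exact hu
  · have : (gPoly u).coeff 1 = 0 := by
      simp [gPoly, Polynomial.coeff_X_pow]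
    rw [this]; exact Ideal.zero_mem _

theorem gPoly_map_irreducible (haniso : ∀ a b : A, a ^ 2 + u * b ^ 2 = 0 → b = 0) :
    Irreducible ((gPoly u).map (algebraMap A (FractionRing A))) := by
  set K := FractionRing A
  refine Polynomial.irreducible_of_degree_le_three_of_not_isRoot ?_ ?_
  · rw [(gPoly_monic u).natDegree_map, natDegree_gPoly]; decide
  · intro x hx
    obtain ⟨a, b, hb, rfl⟩ := IsFractionRing.div_surjective (A := A) x
    have hb0 : algebraMap A K b ≠ 0 := by
      intro h
      exact (nonZeroDivisors.ne_zero hb) ((IsFractionRing.injective A K) (by rw [h, map_zero]))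
    rw [Polynomial.IsRoot, gPoly, Polynomial.eval_map, Polynomial.eval₂_add, Polynomial.eval₂_pow,
      Polynomial.eval₂_X, Polynomial.eval₂_C] at hx
    have h1 : algebraMap A K (a ^ 2 + u * b ^ 2) = 0 := by
      rw [map_add, map_mul, map_pow, map_pow]
      have e : algebraMap A K a ^ 2 + algebraMap A K u * algebraMap A K b ^ 2 =
          ((algebraMap A K a / algebraMap A K b) ^ 2 + algebraMap A K u) *
            algebraMap A K b ^ 2 := by
        rw [div_pow, add_mul, div_mul_cancel₀ _ (pow_ne_zero 2 hb0)]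
      rw [e, hx, zero_mul]
    have h2 : a ^ 2 + u * b ^ 2 = 0 := (IsFractionRing.injective A K) (by rw [h1, map_zero])
    exact nonZeroDivisors.ne_zero hb (haniso a b h2)

theorem span_gPoly_isPrime (haniso : ∀ a b : A, a ^ 2 + u * b ^ 2 = 0 → b = 0) :
    (Ideal.span {gPoly u}).IsPrime := by
  set K := FractionRing A
  have hirr := gPoly_map_irreducible u haniso
  have hprime : (Ideal.span {(gPoly u).map (algebraMap A K)}).IsPrime :=
    (Ideal.span_singleton_prime hirr.ne_zero).2 hirr.prime
  have : Ideal.span {gPoly u} =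
      (Ideal.span {(gPoly u).map (algebraMap A K)}).comap
        (Polynomial.mapRingHom (algebraMap A K)) := by
    ext f
    rw [Ideal.mem_comap, Ideal.mem_span_singleton, Ideal.mem_span_singleton,
      Polynomial.coe_mapRingHom,
      Polynomial.map_dvd_map _ (IsFractionRing.injective A K) (gPoly_monic u)]
  rw [this]
  exact Ideal.comap_isPrime _ _

/-- **Weierstrass + irreducibility.**  For a domain `A` complete with respect to an ideal `I`,
`u ∈ I` and the norm form `a² + u b²` anisotropic, `(X² + u)` is a prime ideal of `A⟦X⟧`. -/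
theorem span_isPrime_of_aniso (hu : u ∈ I) (haniso : ∀ a b : A, a ^ 2 + u * b ^ 2 = 0 → b = 0) :
    (Ideal.span {((PowerSeries.X : PowerSeries A) ^ 2 + PowerSeries.C u)}).IsPrime := by
  have hprime := span_gPoly_isPrime u haniso
  have : IsDomain (Polynomial A ⧸ Ideal.span {gPoly u}) :=
    (Ideal.Quotient.isDomain_iff_prime _).2 hprime
  have e := ((gPoly_isDistinguishedAt I u hu).algEquivQuotient).toRingEquiv
  have hd : IsDomain (PowerSeries A ⧸
      Ideal.span {((gPoly u : Polynomial A) : PowerSeries A)}) :=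
    e.symm.toMulEquiv.isDomain _
  have h := (Ideal.Quotient.isDomain_iff_prime _).1 hd
  have hc : ((gPoly u : Polynomial A) : PowerSeries A) =
      PowerSeries.X ^ 2 + PowerSeries.C u := by
    simp [gPoly]
  rwa [hc] at h

end General

section OneBlock

variable {D : Type*} [CommRing D] [IsDomain D]

/-- `u = y₁ y₂` in `A = D⟦y₂⟧⟦y₁⟧`. -/
noncomputable def uElt (D : Type*) [CommRing D] : PowerSeries (PowerSeries D) :=
  PowerSeries.X * PowerSeries.C (PowerSeries.X : PowerSeries D)

theorem order_uElt : (uElt D).order = 1 := by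
  unfold uElt
  rw [PowerSeries.order_mul, PowerSeries.order_X]
  have : (PowerSeries.C (PowerSeries.X : PowerSeries D) : PowerSeries (PowerSeries D)).order
      = ((0 : ℕ) : ℕ∞) := by
    rw [PowerSeries.order_eq_nat]
    refine ⟨?_, fun i hi => absurd hi (Nat.not_lt_zero _)⟩
    rw [PowerSeries.coeff_zero_C]
    exact PowerSeries.X_ne_zero
  rw [this]; simp

/-- anisotropy of the norm form `a² + y₁ y₂ b²`: parity of the `y₁`-order. -/
theorem eq_zero_of_sq_add (a b : PowerSeries (PowerSeries D)) (h : a ^ 2 + uElt D * b ^ 2 = 0) :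
    b = 0 := by
  by_contra hb
  have h1 : a ^ 2 = -(uElt D * b ^ 2) := eq_neg_of_add_eq_zero_left h
  have h2 := congrArg PowerSeries.order h1
  rw [PowerSeries.order_neg, pow_two, pow_two, PowerSeries.order_mul, PowerSeries.order_mul,
    PowerSeries.order_mul, order_uElt] at h2
  have hbn : b.order ≠ ⊤ := fun h => hb (PowerSeries.order_eq_top.1 h)
  obtain ⟨nb, hnb⟩ := ENat.ne_top_iff_exists.1 hbn
  rw [← hnb] at h2
  by_cases ha : a.order = ⊤
  · rw [ha] at h2
    simp at h2
    exact absurd h2 (by
      intro h3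
      have : ((1 + (nb + nb) : ℕ) : ℕ∞) = ⊤ := by push_cast; exact h3.symm
      exact ENat.natCast_ne_top _ this)
  · obtain ⟨na, hna⟩ := ENat.ne_top_iff_exists.1 ha
    rw [← hna] at h2
    have : ((na + na : ℕ) : ℕ∞) = ((1 + (nb + nb) : ℕ) : ℕ∞) := by push_cast; exact h2
    have := ENat.natCast_inj.1 this
    omega

/-- **One block.**  `(X² + y₁ y₂)` is a prime ideal of `D⟦y₂⟧⟦y₁⟧⟦X⟧`. -/
theorem span_isPrime :
    (Ideal.span {((PowerSeries.X : PowerSeries (PowerSeries (PowerSeries D))) ^ 2 +
      PowerSeries.C (uElt D))}).IsPrime := by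
  refine span_isPrime_of_aniso (Ideal.span {(PowerSeries.X : PowerSeries (PowerSeries D))})
    (uElt D) ?_ eq_zero_of_sq_add
  exact Ideal.mul_mem_right _ _ (Ideal.subset_span rfl)

end OneBlock

section Coefficientwise

variable {R S : Type*} [CommRing R] [CommRing S]

/-- coefficientwise reduction along a surjection is surjective. -/
theorem map_surjective (φ : R →+* S) (hφ : Function.Surjective φ) :
    Function.Surjective (PowerSeries.map φ) := by
  intro f
  refine ⟨PowerSeries.mk fun n => (hφ (PowerSeries.coeff n f)).choose, ?_⟩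
  ext n
  rw [PowerSeries.coeff_map, PowerSeries.coeff_mk]
  exact (hφ (PowerSeries.coeff n f)).choose_spec

/-- the kernel of the coefficientwise reduction along a ring homomorphism with finitely
generated kernel is generated by the constants in the kernel. -/
theorem ker_map (φ : R →+* S) (hfg : (RingHom.ker φ).FG) :
    RingHom.ker (PowerSeries.map φ) = (RingHom.ker φ).map (PowerSeries.C (R := R)) := by
  refine le_antisymm ?_ ?_
  · intro f hf
    obtain ⟨n, s, hs⟩ := Submodule.fg_iff_exists_fin_generating_family.1 hfg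
    have hcoef : ∀ k, PowerSeries.coeff k f ∈ Ideal.span (Set.range s) := by
      intro k
      have : PowerSeries.coeff k f ∈ RingHom.ker φ := by
        rw [RingHom.mem_ker]
        have := congrArg (PowerSeries.coeff k) hf
        rwa [PowerSeries.coeff_map, map_zero] at this
      rw [← hs] at this
      exact this
    choose a ha using fun k => (Ideal.mem_span_range_iff_exists_fun).1 (hcoef k)
    have hf' : f = ∑ i, PowerSeries.C (s i) * PowerSeries.mk (fun k => a k i) := by
      ext k
      rw [map_sum, ← ha k]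
      refine Finset.sum_congr rfl fun i _ => ?_
      rw [PowerSeries.coeff_C_mul, PowerSeries.coeff_mk, mul_comm]
    rw [hf']
    refine Ideal.sum_mem _ fun i _ => Ideal.mul_mem_right _ _ (Ideal.mem_map_of_mem _ ?_)
    have : s i ∈ Submodule.span R (Set.range s) := Submodule.subset_span ⟨i, rfl⟩
    rw [hs] at this
    exact this
  · rw [Ideal.map_le_iff_le_comap]
    intro a ha
    rw [Ideal.mem_comap, RingHom.mem_ker, PowerSeries.map_C, (RingHom.mem_ker).1 ha, map_zero]

end Coefficientwise

section IdealForm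

variable {R : Type*} [CommRing R]

/-- the constants `R → R⟦y₂⟧⟦y₁⟧⟦y₀⟧`. -/
noncomputable def CCC (R : Type*) [CommRing R] :
    R →+* PowerSeries (PowerSeries (PowerSeries R)) :=
  (PowerSeries.C).comp ((PowerSeries.C).comp (PowerSeries.C))

/-- the quadric `y₀² + y₁ y₂` in `R⟦y₂⟧⟦y₁⟧⟦y₀⟧`. -/
noncomputable def qElt (R : Type*) [CommRing R] : PowerSeries (PowerSeries (PowerSeries R)) :=
  PowerSeries.X ^ 2 + PowerSeries.C (uElt R)

/-- **One block, ideal form.**  If `J` is a finitely generated prime ideal of `R` then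
`J · P + (y₀² + y₁ y₂)` is a prime ideal of `P = R⟦y₂⟧⟦y₁⟧⟦y₀⟧`. -/
theorem isPrime_map_sup_span (J : Ideal R) (hfg : J.FG) (hJ : J.IsPrime) :
    (J.map (CCC R) ⊔ Ideal.span {qElt R}).IsPrime := by
  have : IsDomain (R ⧸ J) := (Ideal.Quotient.isDomain_iff_prime _).2 hJ
  let φ₁ : R →+* R ⧸ J := Ideal.Quotient.mk J
  let φ₂ := PowerSeries.map φ₁
  let φ₃ := PowerSeries.map φ₂
  let π := PowerSeries.map φ₃
  have hφ₁ : Function.Surjective φ₁ := Ideal.Quotient.mk_surjective
  have hφ₂ : Function.Surjective φ₂ := map_surjective φ₁ hφ₁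
  have hφ₃ : Function.Surjective φ₃ := map_surjective φ₂ hφ₂
  have hπ : Function.Surjective π := map_surjective φ₃ hφ₃
  have k₁ : RingHom.ker φ₁ = J := Ideal.mk_ker
  have k₂ : RingHom.ker φ₂ = J.map PowerSeries.C := by
    rw [ker_map φ₁ (k₁.symm ▸ hfg), k₁]
  have fg₂ : (RingHom.ker φ₂).FG := by rw [k₂]; exact hfg.map _
  have k₃ : RingHom.ker φ₃ = (J.map PowerSeries.C).map PowerSeries.C := by
    rw [ker_map φ₂ fg₂, k₂]
  have fg₃ : (RingHom.ker φ₃).FG := by rw [k₃]; exact (hfg.map _).map _
  have k₄ : RingHom.ker π = J.map (CCC R) := by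
    rw [ker_map φ₃ fg₃, k₃, Ideal.map_map, Ideal.map_map]
    rfl
  have hq : π (qElt R) = qElt (R ⧸ J) := by
    simp only [qElt, uElt, π, φ₃, φ₂, map_add, map_pow, map_mul, PowerSeries.map_X,
      PowerSeries.map_C]
  have hprime : (Ideal.span {qElt (R ⧸ J)}).IsPrime := span_isPrime
  have : J.map (CCC R) ⊔ Ideal.span {qElt R} = (Ideal.span {qElt (R ⧸ J)}).comap π := by
    have hm : Ideal.span {qElt (R ⧸ J)} = (Ideal.span {qElt R}).map π := by
      rw [Ideal.map_span, Set.image_singleton, hq]
    rw [hm, Ideal.comap_map_of_surjective π hπ, ← RingHom.ker_eq_comap_bot, k₄, sup_comm]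
  rw [this]
  exact Ideal.comap_isPrime _ _

end IdealForm

end Fermat.Agent.M43.QuadBlock5
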