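import Mathlib
import Fermat.Agent.M43.QuadBlock5

/-!
# M43 / P-LOC (QuadCover, special fibre): the ideal of `n` quadric cones is prime

For a domain `k`, a finite type `σ` and an injective family of blocks
`e : Fin n × Fin 3 → σ`, the ideal of `k[[σ]]` generated by the quadrics
`X (e (j, 0)) ^ 2 + X (e (j, 1)) * X (e (j, 2))` is prime (`isPrime_span_quadrics`).

Proof: induction on the number of blocks; split off the three variables of one block with
`MvPowerSeries.optionEquivLeft` and apply the one-block theorem `QuadBlock5.isPrime_map_sup_span`.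
-/

namespace Fermat.Agent.M43.QuadFibre5

open MvPowerSeries
open Fermat.Agent.M43.QuadBlock5

section MapEquiv

variable {R S : Type*} [CommRing R] [CommRing S]

/-- a ring equivalence of the coefficients induces one of the power series rings. -/
noncomputable def psMapEquiv (e : R ≃+* S) : PowerSeries R ≃+* PowerSeries S where
  toFun := PowerSeries.map e.toRingHom
  invFun := PowerSeries.map e.symm.toRingHom
  left_inv f := by ext n; simp [PowerSeries.coeff_map]
  right_inv f := by ext n; simp [PowerSeries.coeff_map]
  map_mul' := map_mul _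
  map_add' := map_add _

theorem psMapEquiv_apply (e : R ≃+* S) (f : PowerSeries R) :
    psMapEquiv e f = PowerSeries.map e.toRingHom f := rfl

@[simp] theorem psMapEquiv_X (e : R ≃+* S) : psMapEquiv e PowerSeries.X = PowerSeries.X := by
  rw [psMapEquiv_apply, PowerSeries.map_X]

@[simp] theorem psMapEquiv_C (e : R ≃+* S) (r : R) :
    psMapEquiv e (PowerSeries.C r) = PowerSeries.C (e r) := by
  rw [psMapEquiv_apply, PowerSeries.map_C]; rfl

end MapEquiv

section Split

variable (k : Type*) [CommRing k] (σ : Type*)

/-- splitting off three variables. -/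
noncomputable def split3 : MvPowerSeries (Option (Option (Option σ))) k ≃+*
    PowerSeries (PowerSeries (PowerSeries (MvPowerSeries σ k))) :=
  (optionEquivLeft (Option (Option σ)) k).toRingEquiv.trans
    ((psMapEquiv (optionEquivLeft (Option σ) k).toRingEquiv).trans
      (psMapEquiv (psMapEquiv (optionEquivLeft σ k).toRingEquiv)))

theorem split3_X_none :
    split3 k σ (X none) = PowerSeries.X := by
  simp [split3]

theorem split3_X_some_none :
    split3 k σ (X (some none)) = PowerSeries.C PowerSeries.X := by
  simp [split3]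

theorem split3_X_some_some_none :
    split3 k σ (X (some (some none))) = PowerSeries.C (PowerSeries.C PowerSeries.X) := by
  simp [split3]

theorem split3_X_some_some_some (v : σ) :
    split3 k σ (X (some (some (some v)))) = CCC (MvPowerSeries σ k) (X v) := by
  simp [split3, CCC]

end Split

section Std

variable (k : Type*) [CommRing k] (τ : Type)

/-- the standard variable type with `n` blocks and free variables `τ`. -/
abbrev SV (n : ℕ) : Type := (Fin n × Fin 3) ⊕ τ

/-- the three levels of `Option`. -/
def lvl {α : Type} : Fin 3 → Option (Option (Option α))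
  | ⟨0, _⟩ => none
  | ⟨1, _⟩ => some none
  | ⟨_ + 2, _⟩ => some (some none)

/-- splitting off the block `0`. -/
def splitVar (n : ℕ) : SV τ (n + 1) ≃ Option (Option (Option (SV τ n))) where
  toFun
    | Sum.inl (j, c) => Fin.cases (lvl c) (fun j' => some (some (some (Sum.inl (j', c))))) j
    | Sum.inr t => some (some (some (Sum.inr t)))
  invFun
    | none => Sum.inl (0, 0)
    | some none => Sum.inl (0, 1)
    | some (some none) => Sum.inl (0, 2)
    | some (some (some (Sum.inl (j', c)))) => Sum.inl (j'.succ, c)
    | some (some (some (Sum.inr t))) => Sum.inr t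
  left_inv := by
    rintro (⟨j, c⟩ | t)
    · refine Fin.cases ?_ (fun j' => ?_) j
      · fin_cases c <;> rfl
      · rfl
    · rfl
  right_inv := by
    rintro (_ | _ | _ | ⟨j', c⟩ | t) <;> rfl

variable {τ}

/-- the ring isomorphism splitting off the block `0`. -/
noncomputable def splitEquiv (n : ℕ) : MvPowerSeries (SV τ (n + 1)) k ≃+*
    PowerSeries (PowerSeries (PowerSeries (MvPowerSeries (SV τ n) k))) :=
  (renameEquiv k (splitVar τ n)).toRingEquiv.trans (split3 k (SV τ n))

theorem splitEquiv_X (n : ℕ) (v : SV τ (n + 1)) :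
    splitEquiv k n (X v) = split3 k (SV τ n) (X (splitVar τ n v)) := by
  simp [splitEquiv]

theorem splitEquiv_X_zero_zero (n : ℕ) :
    splitEquiv k (τ := τ) n (X (Sum.inl (0, 0))) = PowerSeries.X := by
  rw [splitEquiv_X]
  exact split3_X_none k _

theorem splitEquiv_X_zero_one (n : ℕ) :
    splitEquiv k (τ := τ) n (X (Sum.inl (0, 1))) = PowerSeries.C PowerSeries.X := by
  rw [splitEquiv_X]
  exact split3_X_some_none k _

theorem splitEquiv_X_zero_two (n : ℕ) :
    splitEquiv k (τ := τ) n (X (Sum.inl (0, 2))) =
      PowerSeries.C (PowerSeries.C PowerSeries.X) := by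
  rw [splitEquiv_X]
  exact split3_X_some_some_none k _

theorem splitEquiv_X_succ (n : ℕ) (j : Fin n) (c : Fin 3) :
    splitEquiv k (τ := τ) n (X (Sum.inl (j.succ, c))) =
      CCC (MvPowerSeries (SV τ n) k) (X (Sum.inl (j, c))) := by
  rw [splitEquiv_X]
  exact split3_X_some_some_some k _ _

/-- the quadric of a block `(a, b, c)` of variables. -/
noncomputable def qd {σ : Type*} (a b c : σ) : MvPowerSeries σ k := X a ^ 2 + X b * X c

/-- the `j`-th standard quadric. -/
noncomputable def stdQuad (n : ℕ) (j : Fin n) : MvPowerSeries (SV τ n) k :=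
  qd k (Sum.inl (j, 0)) (Sum.inl (j, 1)) (Sum.inl (j, 2))

/-- the ideal of the standard quadrics. -/
noncomputable def stdIdeal (n : ℕ) : Ideal (MvPowerSeries (SV τ n) k) :=
  Ideal.span (Set.range (stdQuad k (τ := τ) n))

theorem splitEquiv_stdQuad_zero (n : ℕ) :
    splitEquiv k (τ := τ) n (stdQuad k (n + 1) 0) = qElt (MvPowerSeries (SV τ n) k) := by
  simp only [stdQuad, qd, map_add, map_pow, map_mul, splitEquiv_X_zero_zero,
    splitEquiv_X_zero_one, splitEquiv_X_zero_two, qElt, uElt]

theorem splitEquiv_stdQuad_succ (n : ℕ) (j : Fin n) :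
    splitEquiv k (τ := τ) n (stdQuad k (n + 1) j.succ) =
      CCC (MvPowerSeries (SV τ n) k) (stdQuad k n j) := by
  simp only [stdQuad, qd, map_add, map_pow, map_mul, splitEquiv_X_succ]

variable [IsDomain k]

/-- **The special fibre, standard form.** -/
theorem stdIdeal_isPrime : ∀ n : ℕ, (stdIdeal k (τ := τ) n).IsPrime
  | 0 => by
    have : stdIdeal k (τ := τ) 0 = ⊥ := by
      rw [stdIdeal, Set.range_eq_empty, Ideal.span_empty]
    rw [this]
    exact Ideal.isPrime_bot
  | n + 1 => by
    have ih := stdIdeal_isPrime n
    have hfg : (stdIdeal k (τ := τ) n).FG := by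
      rw [stdIdeal]
      exact Submodule.fg_span (Set.finite_range _)
    have hK := isPrime_map_sup_span (stdIdeal k (τ := τ) n) hfg ih
    set K := (stdIdeal k (τ := τ) n).map (CCC (MvPowerSeries (SV τ n) k)) ⊔
      Ideal.span {qElt (MvPowerSeries (SV τ n) k)} with hKdef
    have : stdIdeal k (τ := τ) (n + 1) = K.comap (splitEquiv k (τ := τ) n).toRingHom := by
      refine le_antisymm ?_ ?_
      · rw [stdIdeal, Ideal.span_le]
        rintro f ⟨j, rfl⟩
        show splitEquiv k n (stdQuad k (n + 1) j) ∈ K
        refine Fin.cases ?_ (fun j' => ?_) j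
        · rw [splitEquiv_stdQuad_zero]
          exact Ideal.mem_sup_right (Ideal.subset_span rfl)
        · rw [splitEquiv_stdQuad_succ]
          exact Ideal.mem_sup_left (Ideal.mem_map_of_mem _ (Ideal.subset_span ⟨j', rfl⟩))
      · have hle : K ≤ (stdIdeal k (τ := τ) (n + 1)).comap
            (splitEquiv k (τ := τ) n).symm.toRingHom := by
          refine sup_le ?_ ?_
          · rw [Ideal.map_le_iff_le_comap, stdIdeal, Ideal.span_le]
            rintro f ⟨j, rfl⟩
            show (splitEquiv k n).symm (CCC _ (stdQuad k n j)) ∈ stdIdeal k (n + 1)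
            rw [← splitEquiv_stdQuad_succ, RingEquiv.symm_apply_apply]
            exact Ideal.subset_span ⟨j.succ, rfl⟩
          · rw [Ideal.span_le, Set.singleton_subset_iff]
            show (splitEquiv k n).symm (qElt _) ∈ stdIdeal k (n + 1)
            rw [← splitEquiv_stdQuad_zero, RingEquiv.symm_apply_apply]
            exact Ideal.subset_span ⟨0, rfl⟩
        intro f hf
        have := hle hf
        simpa using this
    rw [this]
    exact Ideal.comap_isPrime _ _

/-- **The special fibre.**  For an injective family of blocks of variables, the ideal of the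
quadric cones is prime. -/
theorem isPrime_span_quadrics {σ : Type} (n : ℕ) (e : Fin n × Fin 3 → σ)
    (he : Function.Injective e) :
    (Ideal.span (Set.range fun j : Fin n =>
      qd k (e (j, 0)) (e (j, 1)) (e (j, 2)))).IsPrime := by
  classical
  let ψ : SV (↥(Set.range e)ᶜ) n ≃ σ :=
    ((Equiv.ofInjective e he).sumCongr (Equiv.refl _)).trans (Equiv.Set.sumCompl (Set.range e))
  have hψ : ∀ x, ψ (Sum.inl x) = e x := by
    intro x
    simp [ψ]
  let R := renameEquiv k ψ
  have hRX : ∀ v, R (X v) = X (ψ v) := fun v => rename_X _ v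
  have hR : ∀ j, R (stdQuad k n j) = qd k (e (j, 0)) (e (j, 1)) (e (j, 2)) := by
    intro j
    simp only [stdQuad, qd, map_add, map_pow, map_mul, hRX, hψ]
  have hprime := stdIdeal_isPrime k (τ := ↥(Set.range e)ᶜ) n
  have : Ideal.span (Set.range fun j : Fin n => qd k (e (j, 0)) (e (j, 1)) (e (j, 2))) =
      (stdIdeal k (τ := ↥(Set.range e)ᶜ) n).map (R.toRingEquiv : _ →+* _) := by
    rw [stdIdeal, Ideal.map_span, ← Set.range_comp]
    congr 1
    ext f
    constructor
    · rintro ⟨j, rfl⟩
      exact ⟨j, hR j⟩
    · rintro ⟨j, rfl⟩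
      exact ⟨j, (hR j).symm⟩
  rw [this]
  exact Ideal.map_isPrime_of_equiv R.toRingEquiv

end Std

end Fermat.Agent.M43.QuadFibre5
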