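import Mathlib
import Fermat.Agent.M43.LocDefs1
import Fermat.Agent.M43.QuadAbs5
import Fermat.Agent.M43.QuadFibre5

/-!
# M43 / P-LOC (QuadCover): the iterated double cover `QRing O L m c` is a domain

For a noetherian local domain `O`, a prime element `lam` of its maximal ideal, a finite type `L`
and `c : L → O` with all `c j ∈ (lam)`:

* `isDomain_qRing : IsDomain (QRing O m c)`;
* `algebraMap_injective_qRing : Function.Injective (algebraMap O (QRing O m c))`.

Proof: `QuadAbs5.isPrime_span_image` reduces the primality of the ideals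
`(quad' c j : j ∈ T)` to the special fibre over `k = O / (lam)`, where `c = 0` and
`QuadFibre5.isPrime_span_quadrics` applies.
-/

namespace Fermat.Agent.M43.QuadCover5

open MvPowerSeries
open Fermat.Agent.M43.LocDefs1
open Fermat.Agent.M43.QuadFibre5

section Reduction

variable {O : Type*} [CommRing O] {σ : Type*}

/-- coefficientwise reduction is surjective. -/
theorem map_mk_surjective (I : Ideal O) :
    Function.Surjective (MvPowerSeries.map (σ := σ) (Ideal.Quotient.mk I)) := by
  intro f
  refine ⟨fun e => (Ideal.Quotient.mk_surjective (coeff e f)).choose, ?_⟩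
  ext e
  rw [coeff_map]
  exact (Ideal.Quotient.mk_surjective (coeff e f)).choose_spec

/-- the kernel of the reduction modulo a principal ideal is principal. -/
theorem ker_map_mk_span_singleton (lam : O) :
    RingHom.ker (MvPowerSeries.map (σ := σ) (Ideal.Quotient.mk (Ideal.span {lam}))) =
      Ideal.span {(C lam : MvPowerSeries σ O)} := by
  refine le_antisymm ?_ ?_
  · intro f hf
    have hcoef : ∀ e, ∃ a, a * lam = coeff e f := by
      intro e
      have := congrArg (coeff e) hf
      rw [coeff_map, map_zero, Ideal.Quotient.eq_zero_iff_mem] at this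
      exact Ideal.mem_span_singleton'.1 this
    choose a ha using hcoef
    rw [Ideal.mem_span_singleton']
    refine ⟨fun e => a e, ?_⟩
    ext e
    rw [mul_comm, coeff_C_mul]
    rw [← ha e, mul_comm]
    rfl
  · rw [Ideal.span_le, Set.singleton_subset_iff]
    show MvPowerSeries.map _ (C lam) = 0
    rw [map_C]
    have : (Ideal.Quotient.mk (Ideal.span {lam})) lam = 0 :=
      Ideal.Quotient.eq_zero_iff_mem.2 (Ideal.subset_span rfl)
    rw [this, map_zero]

end Reduction

section Main

variable {O : Type*} [CommRing O] {L : Type} (m : ℕ) (lam : O) (c : L → O)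

/-- the block variables of the target. -/
def yvar (j : L) (a : Fin 3) : Var' L m := Sum.inl (Sum.inr (j, a))

theorem yvar_injective : Function.Injective (fun p : L × Fin 3 => yvar m p.1 p.2) := by
  rintro ⟨j, a⟩ ⟨j', a'⟩ h
  simpa [yvar] using h

/-- reduction modulo `lam`. -/
noncomputable def red : PS' O L m →+* MvPowerSeries (Var' L m) (O ⧸ Ideal.span {lam}) :=
  MvPowerSeries.map (Ideal.Quotient.mk (Ideal.span {lam}))

/-- the quadric cone of the block `j` on the special fibre. -/
noncomputable def qbar (j : L) : MvPowerSeries (Var' L m) (O ⧸ Ideal.span {lam}) :=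
  qd (O ⧸ Ideal.span {lam}) (yvar m j 0) (yvar m j 1) (yvar m j 2)

variable {c}

theorem red_quad' (hc : ∀ j, c j ∈ Ideal.span {lam}) (j : L) :
    red m lam (quad' O m c j) = qbar m lam j := by
  have h0 : (Ideal.Quotient.mk (Ideal.span {lam})) (c j) = 0 :=
    Ideal.Quotient.eq_zero_iff_mem.2 (hc j)
  simp only [red, quad', yv', qbar, qd, yvar, map_sub, map_add, map_pow, map_mul,
    MvPowerSeries.map_X, MvPowerSeries.map_C, h0, map_zero, sub_zero]

theorem span_sup_eq_comap (hc : ∀ j, c j ∈ Ideal.span {lam}) (T : Set L) :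
    Ideal.span (quad' O m c '' T) ⊔ Ideal.span {(C lam : PS' O L m)} =
      (Ideal.span (qbar m lam '' T)).comap (red m lam) := by
  have h1 : Ideal.span (qbar m lam '' T) = (Ideal.span (quad' O m c '' T)).map (red m lam) := by
    rw [Ideal.map_span, Set.image_image]
    congr 1
    exact Set.image_congr fun j _ => (red_quad' m lam hc j).symm
  rw [h1, Ideal.comap_map_of_surjective (red m lam) (map_mk_surjective _),
    ← RingHom.ker_eq_comap_bot]
  congr 1
  exact (ker_map_mk_span_singleton lam).symm

theorem isPrime_span_qbar [IsDomain O] (hlam : Prime lam) (T : Finset L) :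
    (Ideal.span (qbar m lam '' (T : Set L))).IsPrime := by
  have : (Ideal.span {lam}).IsPrime := (Ideal.span_singleton_prime hlam.ne_zero).2 hlam
  have : IsDomain (O ⧸ Ideal.span {lam}) := (Ideal.Quotient.isDomain_iff_prime _).2 this
  let e : Fin T.card × Fin 3 → Var' L m := fun p => yvar m (T.equivFin.symm p.1 : L) p.2
  have he : Function.Injective e := by
    intro p p' h
    have := @yvar_injective L m ((T.equivFin.symm p.1 : L), p.2)
      ((T.equivFin.symm p'.1 : L), p'.2) h
    simp only [Prod.mk.injEq] at this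
    obtain ⟨h1, h2⟩ := this
    have h3 : T.equivFin.symm p.1 = T.equivFin.symm p'.1 := Subtype.ext h1
    exact Prod.ext (T.equivFin.symm.injective h3) h2
  have hprime := isPrime_span_quadrics (O ⧸ Ideal.span {lam}) T.card e he
  have : qbar m lam '' (T : Set L) = Set.range fun i : Fin T.card =>
      qd (O ⧸ Ideal.span {lam}) (e (i, 0)) (e (i, 1)) (e (i, 2)) := by
    ext f
    constructor
    · rintro ⟨j, hj, rfl⟩
      refine ⟨T.equivFin ⟨j, hj⟩, ?_⟩
      simp [e, qbar]
    · rintro ⟨i, rfl⟩
      exact ⟨(T.equivFin.symm i : L), (T.equivFin.symm i).2, rfl⟩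
  rw [this]
  exact hprime

theorem qbar_notMem (hlam : Prime lam) (T : Finset L) (j : L) (hj : j ∉ T) :
    qbar m lam j ∉ Ideal.span (qbar m lam '' (T : Set L)) := by
  have : (Ideal.span {lam}).IsPrime := (Ideal.span_singleton_prime hlam.ne_zero).2 hlam
  have : IsDomain (O ⧸ Ideal.span {lam}) := (Ideal.Quotient.isDomain_iff_prime _).2 this
  let emb : Unit ↪ Var' L m := ⟨fun _ => yvar m j 0, fun _ _ _ => rfl⟩
  let ε : MvPowerSeries (Var' L m) (O ⧸ Ideal.span {lam}) →+*
      MvPowerSeries Unit (O ⧸ Ideal.span {lam}) := (killCompl emb).toRingHom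
  have hX0 : ε (X (yvar m j 0)) = X () := killCompl_X (e := emb) ()
  have hX : ∀ v : Var' L m, v ≠ yvar m j 0 → ε (X v) = 0 := by
    intro v hv
    refine killCompl_X_eq_zero ?_
    rintro ⟨_, h⟩
    exact hv h.symm
  have hle : Ideal.span (qbar m lam '' (T : Set L)) ≤ RingHom.ker ε := by
    rw [Ideal.span_le]
    rintro f ⟨i, hi, rfl⟩
    have hij : i ≠ j := fun h => hj (h ▸ hi)
    have h0 : yvar m i 0 ≠ yvar m j 0 := by
      intro h; exact hij (by simpa [yvar] using h)
    have h1 : yvar m i 1 ≠ yvar m j 0 := by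
      intro h; simp [yvar] at h
    show ε (qbar m lam i) = 0
    simp only [qbar, qd, map_add, map_pow, map_mul, hX _ h0, hX _ h1]
    ring
  intro hmem
  have h := hle hmem
  have h1 : yvar m j 1 ≠ yvar m j 0 := by
    intro h; simp [yvar] at h
  have h2 : ε (qbar m lam j) = X () ^ 2 := by
    simp only [qbar, qd, map_add, map_pow, map_mul, hX0, hX _ h1]
    ring
  rw [RingHom.mem_ker, h2] at h
  have hXne : (X () : MvPowerSeries Unit (O ⧸ Ideal.span {lam})) ≠ 0 := by
    intro h'
    have := congrArg (coeff (Finsupp.single () 1)) h'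
    simp [coeff_X] at this
  exact hXne (pow_eq_zero_iff (two_ne_zero) |>.1 h)

end Main

section Final

variable {O : Type*} [CommRing O] [IsDomain O] [IsLocalRing O] [IsNoetherianRing O]
  {L : Type} [Finite L] (m : ℕ) (lam : O) {c : L → O}

/-- all the ideals `(quad' c j : j ∈ T)` are prime and do not contain `lam`. -/
theorem isPrime_span_quad' (hlam : Prime lam) (hlam' : lam ∈ IsLocalRing.maximalIdeal O)
    (hc : ∀ j, c j ∈ Ideal.span {lam}) (T : Finset L) :
    (Ideal.span (quad' O m c '' (T : Set L))).IsPrime ∧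
      (C lam : PS' O L m) ∉ Ideal.span (quad' O m c '' (T : Set L)) := by
  classical
  have : IsDomain (PS' O L m) := NoZeroDivisors.to_isDomain _
  refine QuadAbs5.isPrime_span_image (C lam : PS' O L m) ?_ ?_ (quad' O m c) ?_ ?_ T
  · refine (IsLocalRing.mem_maximalIdeal _).2 fun h => ?_
    have h' := isUnit_iff_constantCoeff.1 h
    rw [constantCoeff_C] at h'
    exact (IsLocalRing.mem_maximalIdeal _).1 hlam' h'
  · intro h
    apply hlam.ne_zero
    have := congrArg (constantCoeff (σ := Var' L m) (R := O)) h
    simpa using this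
  · intro T
    rw [span_sup_eq_comap m lam hc]
    have := isPrime_span_qbar m lam hlam T
    exact Ideal.comap_isPrime _ _
  · intro T j hj h
    rw [span_sup_eq_comap m lam hc, Ideal.mem_comap, red_quad' m lam hc] at h
    exact qbar_notMem m lam hlam T j hj h

omit [IsDomain O] [IsLocalRing O] [IsNoetherianRing O] [Finite L] in
theorem quadSet'_eq_image (c : L → O) :
    quadSet' O m c = quad' O m c '' (Set.univ : Set L) := by
  ext f
  constructor
  · rintro ⟨j, rfl⟩
    exact ⟨j, trivial, rfl⟩
  · rintro ⟨j, -, rfl⟩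
    exact ⟨j, rfl⟩

theorem isPrime_quadIdeal' (hlam : Prime lam) (hlam' : lam ∈ IsLocalRing.maximalIdeal O)
    (hc : ∀ j, c j ∈ Ideal.span {lam}) :
    (quadIdeal' O m c).IsPrime ∧ (C lam : PS' O L m) ∉ quadIdeal' O m c := by
  classical
  cases nonempty_fintype L
  have h := isPrime_span_quad' m lam hlam hlam' hc (Finset.univ : Finset L)
  rw [Finset.coe_univ, ← quadSet'_eq_image] at h
  exact h

/-- **The iterated double cover is a domain.** -/
theorem isDomain_qRing (hlam : Prime lam) (hlam' : lam ∈ IsLocalRing.maximalIdeal O)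
    (hc : ∀ j, c j ∈ Ideal.span {lam}) : IsDomain (QRing O m c) :=
  (Ideal.Quotient.isDomain_iff_prime _).2 (isPrime_quadIdeal' m lam hlam hlam' hc).1

/-- **`O` embeds into the iterated double cover.** -/
theorem algebraMap_injective_qRing (hlam : Prime lam) (hlam' : lam ∈ IsLocalRing.maximalIdeal O)
    (hc : ∀ j, c j ∈ Ideal.span {lam}) :
    Function.Injective (algebraMap O (QRing O m c)) := by
  classical
  cases nonempty_fintype L
  obtain ⟨hprime, hlamI⟩ := isPrime_quadIdeal' (L := L) m lam hlam hlam' hc
  rw [injective_iff_map_eq_zero]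
  intro r hr
  by_contra hr0
  obtain ⟨n, r', hrr', hr'⟩ := QuadAbs5.exists_eq_pow_mul lam hlam' r hr0
  have hmem : (C r : PS' O L m) ∈ quadIdeal' O m c := by
    rw [← Ideal.Quotient.eq_zero_iff_mem]
    exact hr
  have hmem' : (C lam : PS' O L m) ^ n * C r' ∈ quadIdeal' O m c := by
    rw [← map_pow, ← map_mul, ← hrr']; exact hmem
  have hr'I : (C r' : PS' O L m) ∈ quadIdeal' O m c := by
    rcases hprime.mem_or_mem hmem' with h | h
    · exact absurd (hprime.mem_of_pow_mem n h) hlamI
    · exact h
  -- reduce modulo `lam` and take the constant coefficient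
  have h1 : (C r' : PS' O L m) ∈
      Ideal.span (quad' O m c '' (Set.univ : Set L)) ⊔ Ideal.span {(C lam : PS' O L m)} := by
    rw [← quadSet'_eq_image]
    exact Ideal.mem_sup_left hr'I
  rw [span_sup_eq_comap m lam hc, Ideal.mem_comap] at h1
  have hle : Ideal.span (qbar m lam '' (Set.univ : Set L)) ≤
      RingHom.ker (constantCoeff (σ := Var' L m) (R := O ⧸ Ideal.span {lam})) := by
    rw [Ideal.span_le]
    rintro f ⟨j, -, rfl⟩
    show constantCoeff (qbar m lam j) = 0
    simp [qbar, qd]
  have h2 := hle h1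
  rw [RingHom.mem_ker, red, MvPowerSeries.map_C, constantCoeff_C,
    Ideal.Quotient.eq_zero_iff_mem] at h2
  exact hr' h2

end Final

end Fermat.Agent.M43.QuadCover5
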