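/-
Programme M43 (target S43), pillar (P-LOC), helper1: **(L-χ-DOMAIN), END THEOREMS.**

`O` a Noetherian local domain, `lam` a prime element of its maximal ideal, `ι` finite,
`c : ι → O` with all `c i ∈ (lam)`, `c i ≠ 0`.  Then the `χ`-side local ring
`ChiRing O m c = O[[x, y, w]] ⧸ (2 × 2 minors of (x_i; y_i), q(y_i) - c_i)` of `LocDefs1` is a
domain containing `O`:

* `isPrime_chiIdeal`, `isDomain_chiRing`;
* `eq_zero_of_C_mem_chiIdeal`, `algebraMap_injective_chiRing`, `C_lam_notMem_chiIdeal`.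

`ChiDomain1.chiIdeal_good` (induction over the blocks: toric kernel `Toric1` + Rees lemma `Rees1`)
applied to helper5's iterated double cover `QuadCover5`.
-/
import Mathlib
import Fermat.Agent.M43.ChiDomain1
import Fermat.Agent.M43.QuadCover5

set_option autoImplicit false

namespace Fermat.Agent.M43.ChiFinal1

open MvPowerSeries
open Fermat.Agent.M43.LocDefs1

variable {O : Type*} [CommRing O] [IsDomain O] [IsLocalRing O] [IsNoetherianRing O]
  {ι : Type} [Finite ι] (m : ℕ) (lam : O) {c : ι → O}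

/-- both end statements at once. -/
theorem chiIdeal_main (hlam : Prime lam) (hlam' : lam ∈ IsLocalRing.maximalIdeal O)
    (hc : ∀ i, c i ∈ Ideal.span {lam}) (hc0 : ∀ i, c i ≠ 0) :
    (chiIdeal O m c).IsPrime ∧ ∀ a : O, C a ∈ chiIdeal O m c → a = 0 := by
  refine ChiDomain1.chiIdeal_good m O (fun a => a ≠ 0 ∧ a ∈ Ideal.span {lam}) (fun a h => h.1)
    ?_ c (fun i => ⟨hc0 i, hc i⟩)
  intro L _ cL hL
  refine ⟨(QuadCover5.isPrime_quadIdeal' m lam hlam hlam' (fun j => (hL j).2)).1, ?_⟩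
  intro a ha
  have hinj := QuadCover5.algebraMap_injective_qRing (c := cL) m lam hlam hlam'
    (fun j => (hL j).2)
  apply hinj
  rw [map_zero]
  exact Ideal.Quotient.eq_zero_iff_mem.2 ha

/-- **(L-χ-DOMAIN)**: the ideal of the `χ`-side local ring is prime. -/
theorem isPrime_chiIdeal (hlam : Prime lam) (hlam' : lam ∈ IsLocalRing.maximalIdeal O)
    (hc : ∀ i, c i ∈ Ideal.span {lam}) (hc0 : ∀ i, c i ≠ 0) : (chiIdeal O m c).IsPrime :=
  (chiIdeal_main m lam hlam hlam' hc hc0).1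

/-- **(L-χ-DOMAIN)**: the `χ`-side local ring is a domain. -/
theorem isDomain_chiRing (hlam : Prime lam) (hlam' : lam ∈ IsLocalRing.maximalIdeal O)
    (hc : ∀ i, c i ∈ Ideal.span {lam}) (hc0 : ∀ i, c i ≠ 0) : IsDomain (ChiRing O m c) :=
  (Ideal.Quotient.isDomain_iff_prime _).2 (isPrime_chiIdeal m lam hlam hlam' hc hc0)

/-- the ideal of the `χ`-side local ring contains no nonzero constant. -/
theorem eq_zero_of_C_mem_chiIdeal (hlam : Prime lam) (hlam' : lam ∈ IsLocalRing.maximalIdeal O)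
    (hc : ∀ i, c i ∈ Ideal.span {lam}) (hc0 : ∀ i, c i ≠ 0) (a : O)
    (ha : C a ∈ chiIdeal O m c) : a = 0 :=
  (chiIdeal_main m lam hlam hlam' hc hc0).2 a ha

/-- `O` embeds into the `χ`-side local ring. -/
theorem algebraMap_injective_chiRing (hlam : Prime lam)
    (hlam' : lam ∈ IsLocalRing.maximalIdeal O) (hc : ∀ i, c i ∈ Ideal.span {lam})
    (hc0 : ∀ i, c i ≠ 0) : Function.Injective (algebraMap O (ChiRing O m c)) := by
  rw [injective_iff_map_eq_zero]
  intro a ha
  apply eq_zero_of_C_mem_chiIdeal m lam hlam hlam' hc hc0 a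
  rw [← Ideal.Quotient.eq_zero_iff_mem]
  exact ha

/-- the uniformiser does not lie in the ideal of the `χ`-side local ring. -/
theorem C_lam_notMem_chiIdeal (hlam : Prime lam) (hlam' : lam ∈ IsLocalRing.maximalIdeal O)
    (hc : ∀ i, c i ∈ Ideal.span {lam}) (hc0 : ∀ i, c i ≠ 0) :
    (C lam : PS O ι m) ∉ chiIdeal O m c :=
  fun h => hlam.ne_zero (eq_zero_of_C_mem_chiIdeal m lam hlam hlam' hc hc0 lam h)

end Fermat.Agent.M43.ChiFinal1
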