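import Mathlib
import Fermat.Agent.M43.LocDim5

/-!
# M43 / P-LOC: the dimension of a power series ring

For a commutative ring `O` and a finite type `σ`:
`ringKrullDim O + card σ ≤ ringKrullDim (MvPowerSeries σ O)` (`ringKrullDim_add_natCard_le`), with
equality for a noetherian local `O` (`ringKrullDim_mvPowerSeries`); in particular
`ringKrullDim (MvPowerSeries σ O) = card σ + 1` for a discrete valuation ring
(`ringKrullDim_mvPowerSeries_of_dvr`), which is finite.
-/

namespace Fermat.Agent.M43.PSDim5

open MvPowerSeries

variable (O : Type*) [CommRing O]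

/-- adding variables raises the dimension at least by their number. -/
theorem ringKrullDim_add_natCard_le (σ : Type*) [Finite σ] :
    ringKrullDim O + Nat.card σ ≤ ringKrullDim (MvPowerSeries σ O) := by
  induction σ using Finite.induction_empty_option with
  | of_equiv e H =>
    convert! ← H using 1
    · rw [Nat.card_congr e]
    · exact ringKrullDim_eq_of_ringEquiv (renameEquiv _ e).toRingEquiv
  | h_empty =>
    simp only [Nat.card_eq_fintype_card, Fintype.card_eq_zero, Nat.cast_zero, add_zero]
    exact (ringKrullDim_eq_of_ringEquiv (isEmptyEquiv (σ := PEmpty) (R := O)).toRingEquiv).ge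
  | h_option IH =>
    simp only [Nat.card_eq_fintype_card, Fintype.card_option, Nat.cast_add, Nat.cast_one,
      ← add_assoc] at IH ⊢
    grw [IH, ringKrullDim_succ_le_ringKrullDim_powerseries]
    exact (ringKrullDim_eq_of_ringEquiv (MvPowerSeries.optionEquivLeft _ _).toRingEquiv).ge

variable {O}

/-- the quotient by the variables is the ring of coefficients. -/
theorem ringKrullDim_quotient_span_X (σ : Type*) [Finite σ] :
    ringKrullDim (MvPowerSeries σ O ⧸ Ideal.span (Set.range (X : σ → MvPowerSeries σ O))) =
      ringKrullDim O := by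
  have hker : RingHom.ker (constantCoeff (σ := σ) (R := O)) =
      Ideal.span (Set.range (X : σ → MvPowerSeries σ O)) := by
    refine le_antisymm ?_ ?_
    · intro f hf
      exact LocDim5.mem_span_X_of_constantCoeff_eq_zero f hf
    · rw [Ideal.span_le]
      rintro _ ⟨v, rfl⟩
      exact constantCoeff_X v
  have hsurj : Function.Surjective (constantCoeff (σ := σ) (R := O)) := fun a => ⟨C a, constantCoeff_C a⟩
  rw [← hker]
  exact ringKrullDim_eq_of_ringEquiv (RingHom.quotientKerEquivOfSurjective hsurj)

/-- **the dimension of `O[[σ]]`** for a noetherian local ring `O`. -/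
theorem ringKrullDim_mvPowerSeries [IsNoetherianRing O] [IsLocalRing O] (σ : Type*) [Finite σ] :
    ringKrullDim (MvPowerSeries σ O) = ringKrullDim O + Nat.card σ := by
  classical
  cases nonempty_fintype σ
  refine le_antisymm ?_ (ringKrullDim_add_natCard_le O σ)
  let s : Finset (MvPowerSeries σ O) := Finset.univ.image X
  have hs : (s : Set (MvPowerSeries σ O)) ⊆ Ring.jacobson (MvPowerSeries σ O) := by
    rw [IsLocalRing.ringJacobson_eq_maximalIdeal]
    intro f hf
    simp only [s, Finset.coe_image, Finset.coe_univ, Set.image_univ, Set.mem_range] at hf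
    obtain ⟨v, rfl⟩ := hf
    refine (IsLocalRing.mem_maximalIdeal _).2 fun h => ?_
    have h' := isUnit_iff_constantCoeff.1 h
    rw [constantCoeff_X] at h'
    exact not_isUnit_zero h'
  have h := ringKrullDim_le_ringKrullDim_quotient_add_card s hs
  have hs' : (s : Set (MvPowerSeries σ O)) = Set.range X := by
    simp [s]
  rw [hs', ringKrullDim_quotient_span_X] at h
  refine h.trans ?_
  gcongr
  refine le_trans Finset.card_image_le ?_
  rw [Finset.card_univ, Nat.card_eq_fintype_card]

/-- **`dim O[[σ]] = card σ + 1`** for a discrete valuation ring. -/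
theorem ringKrullDim_mvPowerSeries_of_dvr [IsDomain O] [IsDiscreteValuationRing O] (σ : Type*)
    [Finite σ] :
    ringKrullDim (MvPowerSeries σ O) = ((Nat.card σ + 1 : ℕ) : WithBot ℕ∞) := by
  rw [ringKrullDim_mvPowerSeries, IsDiscreteValuationRing.ringKrullDim_eq_one]
  push_cast
  rw [add_comm]

theorem ringKrullDim_mvPowerSeries_lt_top [IsDomain O] [IsDiscreteValuationRing O] (σ : Type*)
    [Finite σ] : ringKrullDim (MvPowerSeries σ O) < ⊤ := by
  rw [ringKrullDim_mvPowerSeries_of_dvr]
  exact WithBot.coe_lt_coe.2 (ENat.natCast_lt_top _)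

end Fermat.Agent.M43.PSDim5
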