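import Mathlib
import Fermat.Agent.M43.OneSide5
import Fermat.Agent.M43.LocDim5
import Fermat.Agent.M43.PSDim5
import Fermat.Agent.M43.ChiFinal1
import Fermat.Agent.M43.PatchThm2

/-!
# M43 / P-LOC: the local package, wired into the patching theorem

`O` a discrete valuation ring with uniformiser `lam`, `2 ∈ Oˣ`, `ι` the finite set of bad primes,
`P = PS O ι g = O[[x, y, w_1..w_g]]` (`LocDefs1`), `J1 = oneIdeal O g q t` (`OneSide5`; `q i ≡ 1`
modulo `lam`, `t i` the half traces), and a finite family `c k : ι → O` (`k : K`) of tuples of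
nonzero elements of `(lam)`, `Jfam k = chiIdeal O g (c k)`.

* `isPrime_chiIdeal`, `ringKrullDim_chiRing_le`, `oneIdeal_sup_eq`, `exists_eta`,
  `exists_le_of_iInf_le`: **all** commutative-algebra inputs of `PatchThm2.exists_prime_of_data` /
  `SuppMain2.exists_char0_prime_family` for these ideals, in the form asked for there:
  the `chiIdeal`s are prime, of dimension `≤ dim S` as soon as `1 + 3 * card ι + g ≤ dim S`,
  `J1 + (lam) = Jfam k + (lam)`, the one-sided identity with `Nid = nilIdeal`, `P' = pdProd`,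
  and the prime `η`.
* `exists_prime_of_data_loc`: `PatchThm2.exists_prime_of_data` with `P`, `J1`, `Jfam`, `Nid`, `P'`,
  `η` instantiated and every local hypothesis discharged: good finite-level data for every `n`
  give a level-`0` action `α₀ : P → Mat_d(O)` in the closed conditions `F1` and a prime `𝔓` of `P`
  containing `ker α₀` and all the variables `y i k` (the entries of the inertia generators minus
  one), and not containing `lam`.
* `exists_prime_of_data_loc_ps`: the same with `S = O[[s_1..s_r]]`, `3 * card ι + g ≤ r`.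
-/

namespace Fermat.Agent.M43.LocWire5

open MvPowerSeries
open Fermat.Agent.M43.LocDefs1 Fermat.Agent.M43.OneSide5

section Package

variable {O : Type*} [CommRing O] [IsDomain O] [IsDiscreteValuationRing O]
variable {lam : O} {ι : Type} [Finite ι] (g : ℕ)

theorem prime_of_irreducible (hlam : Irreducible lam) : Prime lam :=
  hlam.prime

theorem mem_maximalIdeal_of_irreducible (hlam : Irreducible lam) :
    lam ∈ IsLocalRing.maximalIdeal O :=
  (IsLocalRing.mem_maximalIdeal _).2 hlam.not_isUnit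

/-- the `χ`-side ideals are prime. -/
theorem isPrime_chiIdeal (hlam : Irreducible lam) {c : ι → O}
    (hc : ∀ i, c i ∈ Ideal.span {lam}) (hc0 : ∀ i, c i ≠ 0) : (chiIdeal O g c).IsPrime :=
  ChiFinal1.isPrime_chiIdeal g lam (prime_of_irreducible hlam)
    (mem_maximalIdeal_of_irreducible hlam) hc hc0

/-- the dimension of the `χ`-side ring. -/
theorem ringKrullDim_chiRing_le (hlam : Irreducible lam) {c : ι → O}
    (hc : ∀ i, c i ∈ Ideal.span {lam}) :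
    ringKrullDim (PS O ι g ⧸ chiIdeal O g c) ≤ ((1 + 3 * Nat.card ι + g : ℕ) : WithBot ℕ∞) :=
  LocDim5.ringKrullDim_chiRing_le (m := g) c lam hlam.maximalIdeal_eq hc

omit [IsDomain O] [IsDiscreteValuationRing O] [Finite ι] in
/-- a prime containing a finite intersection of ideals contains one of them. -/
theorem exists_le_of_iInf_le {A : Type*} [CommRing A] {K : Type*} [Finite K] (J : K → Ideal A)
    (𝔮 : Ideal A) (h𝔮 : 𝔮.IsPrime) (h : ⨅ k, J k ≤ 𝔮) : ∃ k, J k ≤ 𝔮 := by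
  classical
  cases nonempty_fintype K
  rw [← Finset.inf_univ_eq_iInf] at h
  obtain ⟨k, -, hk⟩ := (Ideal.IsPrime.inf_le' h𝔮).1 h
  exact ⟨k, hk⟩

omit [IsDomain O] [IsDiscreteValuationRing O] [Finite ι] in
/-- `J1 + (lam) = Jχ + (lam)`, with `lam` written as `algebraMap O P lam`. -/
theorem oneIdeal_sup_eq (h2 : IsUnit (2 : O)) (q : ι → O) (hq : ∀ i, q i - 1 ∈ Ideal.span {lam})
    (t : ι → PS O ι g) {c : ι → O} (hc : ∀ i, c i ∈ Ideal.span {lam}) :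
    oneIdeal O g q t ⊔ Ideal.span {algebraMap O (PS O ι g) lam} =
      chiIdeal O g c ⊔ Ideal.span {algebraMap O (PS O ι g) lam} :=
  oneIdeal_sup_eq_chiIdeal_sup q c t lam hq hc h2

omit [Finite ι] in
/-- the prime `η`, with `lam` written as `algebraMap O P lam`. -/
theorem exists_eta [Fintype ι] (hlam : Irreducible lam) (h2 : IsUnit (2 : O)) (q : ι → O)
    (hq : ∀ i, q i - 1 ∈ Ideal.span {lam}) (t : ι → PS O ι g) :
    ∃ η : Ideal (PS O ι g), η.IsPrime ∧ oneIdeal O g q t ≤ η ∧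
      algebraMap O (PS O ι g) lam ∈ η ∧ pdProd O g q t ∉ η := by
  have hmax : IsLocalRing.maximalIdeal O = Ideal.span {lam} := hlam.maximalIdeal_eq
  have hres : ∀ a : O, a ∈ Ideal.span {lam} →
      algebraMap O (IsLocalRing.ResidueField O) a = 0 := by
    intro a ha
    rw [← hmax] at ha
    exact (IsLocalRing.residue_eq_zero_iff a).2 ha
  have h2k : (2 : IsLocalRing.ResidueField O) ≠ 0 := by
    intro h
    have h' : algebraMap O (IsLocalRing.ResidueField O) 2 = 0 := by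
      rw [map_ofNat]; exact h
    have : (2 : O) ∈ IsLocalRing.maximalIdeal O := (IsLocalRing.residue_eq_zero_iff _).1 h'
    exact (IsLocalRing.mem_maximalIdeal _).1 this h2
  obtain ⟨η, hη, h1, -, h3, h4⟩ := exists_prime_eta (m := g) (IsLocalRing.ResidueField O) q t lam
    (hres lam (Ideal.mem_span_singleton_self lam))
    (fun i => by
      have := hres _ (hq i)
      rw [map_sub, map_one, sub_eq_zero] at this
      exact this) h2k
  exact ⟨η, hη, h1, h3, h4⟩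

end Package

section Wire

open Thread2 PatchLimit2 PatchMain2

variable {O : Type*} [CommRing O] [IsDomain O] [IsDiscreteValuationRing O] {lam : O}
variable {S : Type*} [CommRing S] [IsDomain S] [Algebra O S]
variable {ι : Type} [Fintype ι] {g : ℕ}
variable {𝔠 : ℕ → Ideal S} {𝔭 : ℕ → Ideal (PS O ι g)} {d : ℕ}

/-- **The patching theorem with the local package plugged in.**  `Jχ` is any ideal all of whose
primes contain one of the `chiIdeal O g (c k)` (e.g. their intersection or product). -/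
theorem exists_prime_of_data_loc (hlam : Irreducible lam) (h2 : IsUnit (2 : O))
    (q : ι → O) (hq : ∀ i, q i - 1 ∈ Ideal.span {lam}) (t : ι → PS O ι g)
    {K : Type*} (c : K → ι → O) (hc : ∀ k i, c k i ∈ Ideal.span {lam}) (hc0 : ∀ k i, c k i ≠ 0)
    (Jχ : Ideal (PS O ι g))
    (hJχ : ∀ 𝔮 : Ideal (PS O ι g), 𝔮.IsPrime → Jχ ≤ 𝔮 → ∃ k, chiIdeal O g (c k) ≤ 𝔮)
    (hdimS : ringKrullDim S < ⊤)
    (hdimS' : ((1 + 3 * Nat.card ι + g : ℕ) : WithBot ℕ∞) ≤ ringKrullDim S)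
    (h𝔠 : Antitone 𝔠) (h𝔭 : Antitone 𝔭)
    (hS : IsLim (fun N => Ideal.Quotient.mkₐ O (𝔠 N))
      (fun N => Ideal.Quotient.factorₐ O (h𝔠 (Nat.le_succ N))))
    (hP : IsLim (fun N => Ideal.Quotient.mkₐ O (𝔭 N))
      (fun N => Ideal.Quotient.factorₐ O (h𝔭 (Nat.le_succ N))))
    (hfinα : ∀ N, Finite (PS O ι g →ₐ[O] Matrix (Fin d) (Fin d) (S ⧸ 𝔠 N)))
    (hfinσ : ∀ N, Finite (S →ₐ[O] PS O ι g ⧸ 𝔭 N))
    (hfinS : ∀ N, Finite (S ⧸ 𝔠 N))
    (hfac : ∀ (N : ℕ) (β : PS O ι g →ₐ[O] Matrix (Fin d) (Fin d) (S ⧸ 𝔠 N)),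
      ∀ x ∈ 𝔭 N, β x = 0)
    (hlamS : ∀ z : S, (∀ N, ∃ w : S ⧸ 𝔠 N, Ideal.Quotient.mk (𝔠 N) z = lam • w) →
      ∃ w : S, z = lam • w)
    (aug : S →ₐ[O] O) (haug : ∀ N, ∀ a ∈ 𝔠 N, lam ^ N ∣ aug a)
    (F1 Fχ : PS O ι g → Set (Matrix (Fin d) (Fin d) O))
    (hF1 : ∀ (x : PS O ι g) (m : Matrix (Fin d) (Fin d) O),
      (∀ N, ∃ m' ∈ F1 x, ∀ i j, lam ^ N ∣ m i j - m' i j) → m ∈ F1 x)
    (hFχ : ∀ (x : PS O ι g) (m : Matrix (Fin d) (Fin d) O),
      (∀ N, ∃ m' ∈ Fχ x, ∀ i j, lam ^ N ∣ m i j - m' i j) → m ∈ Fχ x)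
    (D : ∀ n, Datum O 𝔠 𝔭 d n)
    (hD : ∀ n, (D n).IsGood lam (oneIdeal O g q t) Jχ aug F1 Fχ) (hd : 0 < d) :
    ∃ α₀ : PS O ι g →ₐ[O] Matrix (Fin d) (Fin d) O, (∀ x, α₀ x ∈ F1 x) ∧
      ∃ 𝔓 : Ideal (PS O ι g), 𝔓.IsPrime ∧ (∀ i k, yv O g i k ∈ 𝔓) ∧
        algebraMap O (PS O ι g) lam ∉ 𝔓 ∧
        RingHom.ker (α₀ : PS O ι g →+* Matrix (Fin d) (Fin d) O) ≤ 𝔓 := by
  have hprime : ∀ k, (chiIdeal O g (c k)).IsPrime := fun k =>
    isPrime_chiIdeal g hlam (hc k) (hc0 k)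
  obtain ⟨η, hη, hη1, hηlam, hηP'⟩ := exists_eta g hlam h2 q hq t
  obtain ⟨α₀, hα₀, 𝔓, h𝔓, hN, hl, hker⟩ :=
    PatchThm2.exists_prime_of_data (lam := lam) h𝔠 h𝔭 hS hP hfinα hfinσ hfinS hfac hlamS aug haug
      (oneIdeal O g q t) Jχ F1 Fχ hF1 hFχ D hD hd hdimS hlam.ne_zero
      (fun k => chiIdeal O g (c k)) hJχ
      (fun k => (ringKrullDim_chiRing_le g hlam (hc k)).trans hdimS')
      (fun k => oneIdeal_sup_eq g h2 q hq t (hc k))
      (nilIdeal O g) (pdProd O g q t)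
      (fun Q hQ h1 hP' => nilIdeal_le_of_pdProd_notMem q t Q hQ h1 hP')
      η hη1 hηlam hηP'
  exact ⟨α₀, hα₀, 𝔓, h𝔓, fun i k => hN (Ideal.subset_span ⟨i, k, rfl⟩), hl, hker⟩

/-- **The patching theorem with the local package plugged in, `S = O[[s_1..s_r]]`**
(`σ` any finite type with `3 * card ι + g ≤ card σ`), `Jχ` the intersection of a finite family of
`chiIdeal`s. -/
theorem exists_prime_of_data_loc_ps {σ : Type*} [Finite σ]
    {𝔠 : ℕ → Ideal (MvPowerSeries σ O)} (hr : 3 * Nat.card ι + g ≤ Nat.card σ)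
    (hlam : Irreducible lam) (h2 : IsUnit (2 : O))
    (q : ι → O) (hq : ∀ i, q i - 1 ∈ Ideal.span {lam}) (t : ι → PS O ι g)
    {K : Type*} [Finite K] (c : K → ι → O) (hc : ∀ k i, c k i ∈ Ideal.span {lam})
    (hc0 : ∀ k i, c k i ≠ 0)
    (h𝔠 : Antitone 𝔠) (h𝔭 : Antitone 𝔭)
    (hS : IsLim (fun N => Ideal.Quotient.mkₐ O (𝔠 N))
      (fun N => Ideal.Quotient.factorₐ O (h𝔠 (Nat.le_succ N))))
    (hP : IsLim (fun N => Ideal.Quotient.mkₐ O (𝔭 N))
      (fun N => Ideal.Quotient.factorₐ O (h𝔭 (Nat.le_succ N))))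
    (hfinα : ∀ N, Finite (PS O ι g →ₐ[O] Matrix (Fin d) (Fin d) (MvPowerSeries σ O ⧸ 𝔠 N)))
    (hfinσ : ∀ N, Finite (MvPowerSeries σ O →ₐ[O] PS O ι g ⧸ 𝔭 N))
    (hfinS : ∀ N, Finite (MvPowerSeries σ O ⧸ 𝔠 N))
    (hfac : ∀ (N : ℕ) (β : PS O ι g →ₐ[O] Matrix (Fin d) (Fin d) (MvPowerSeries σ O ⧸ 𝔠 N)),
      ∀ x ∈ 𝔭 N, β x = 0)
    (hlamS : ∀ z : MvPowerSeries σ O,
      (∀ N, ∃ w : MvPowerSeries σ O ⧸ 𝔠 N, Ideal.Quotient.mk (𝔠 N) z = lam • w) →
      ∃ w : MvPowerSeries σ O, z = lam • w)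
    (aug : MvPowerSeries σ O →ₐ[O] O) (haug : ∀ N, ∀ a ∈ 𝔠 N, lam ^ N ∣ aug a)
    (F1 Fχ : PS O ι g → Set (Matrix (Fin d) (Fin d) O))
    (hF1 : ∀ (x : PS O ι g) (m : Matrix (Fin d) (Fin d) O),
      (∀ N, ∃ m' ∈ F1 x, ∀ i j, lam ^ N ∣ m i j - m' i j) → m ∈ F1 x)
    (hFχ : ∀ (x : PS O ι g) (m : Matrix (Fin d) (Fin d) O),
      (∀ N, ∃ m' ∈ Fχ x, ∀ i j, lam ^ N ∣ m i j - m' i j) → m ∈ Fχ x)
    (D : ∀ n, Datum O 𝔠 𝔭 d n)
    (hD : ∀ n, (D n).IsGood lam (oneIdeal O g q t) (⨅ k, chiIdeal O g (c k)) aug F1 Fχ)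
    (hd : 0 < d) :
    ∃ α₀ : PS O ι g →ₐ[O] Matrix (Fin d) (Fin d) O, (∀ x, α₀ x ∈ F1 x) ∧
      ∃ 𝔓 : Ideal (PS O ι g), 𝔓.IsPrime ∧ (∀ i k, yv O g i k ∈ 𝔓) ∧
        algebraMap O (PS O ι g) lam ∉ 𝔓 ∧
        RingHom.ker (α₀ : PS O ι g →+* Matrix (Fin d) (Fin d) O) ≤ 𝔓 := by
  have : IsDomain (MvPowerSeries σ O) := NoZeroDivisors.to_isDomain _
  refine exists_prime_of_data_loc hlam h2 q hq t c hc hc0 (⨅ k, chiIdeal O g (c k))
    (fun 𝔮 h𝔮 h => exists_le_of_iInf_le _ 𝔮 h𝔮 h)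
    (PSDim5.ringKrullDim_mvPowerSeries_lt_top σ) ?_ h𝔠 h𝔭 hS hP hfinα hfinσ hfinS hfac hlamS aug
    haug F1 Fχ hF1 hFχ D hD hd
  rw [PSDim5.ringKrullDim_mvPowerSeries_of_dvr]
  exact_mod_cast (by omega : 1 + 3 * Nat.card ι + g ≤ Nat.card σ + 1)

end Wire

end Fermat.Agent.M43.LocWire5
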