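import Mathlib
import Fermat.Agent.M43.Iface2
import Fermat.Agent.M43.GlueBasis2
import Fermat.Agent.M43.GlueLoc2
import Fermat.Agent.M43.GlueDatum2
import Fermat.Agent.M43.GlueAux2
import Fermat.Agent.M43.LocWire5

/-!
# M43 / glue: the theorem of the glue

`patchOutput : Iface2.PatchOutputStmt` — P-GLOB + P-LOC + P-PATCH + the Hecke side at all levels
give a characteristic-`0` point of the level-`0` Hecke algebra whose representation is unramified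
at the bad primes.
-/

set_option autoImplicit false
set_option linter.unusedSectionVars false
set_option linter.style.haveILetI false

open CategoryTheory ExtCitation Polynomial IsLocalRing

namespace Fermat.Agent.M43.GlueMain2

open Fermat.Agent.W56.Defs9 Fermat.Agent.M43.GlobFinal3 Fermat.Agent.M43.GlobTame3
  Fermat.Agent.PT.PRO Fermat.Agent.PT.BR Fermat.Agent.M43.Iface2
  Fermat.Agent.S53 Fermat.Agent.S53.MatrixModel Fermat.Agent.M43.LocDefs1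
  Fermat.Agent.M43.LocRep5 Fermat.Agent.M43.GlueDatum2

local notation "Γ" => (AlgebraicClosure ℚ ≃ₐ[ℚ] AlgebraicClosure ℚ)
local notation "Qbar" => AlgebraicClosure ℚ

variable {𝒪 : Type} [CommRing 𝒪] [IsDomain 𝒪] [IsDiscreteValuationRing 𝒪]
  [IsAdicComplete (maximalIdeal 𝒪) 𝒪] [Finite (ResidueField 𝒪)]

/-- **One level: P-GLOB + the Hecke side give a `LevelPack`.** -/
theorem exists_qv_levelPack
    (p : ℕ) [Fact p.Prime] [CharP (ResidueField 𝒪) p] (hp2 : p ≠ 2)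
    (hp𝒪 : (p : 𝒪) ∈ maximalIdeal 𝒪)
    (ρbar : ResidualGaloisRep (ResidueField 𝒪))
    (habs : ρbar.IsAbsolutelyIrreducible)
    (hdet : (GaloisRepAdic.ofResidualGaloisRep ρbar).DetIsCyclotomic p)
    (hsplit : ∀ σ : Γ, ∃ α β : ResidueField 𝒪,
      LinearMap.charpoly (ρbar.ρ σ) = (X - C α) * (X - C β))
    (hTW : ∀ (K : Type) [Field K] [Algebra (ResidueField 𝒪) K] (G : Subgroup Γ), G.index = 2 →
      ∀ V : Submodule K (ρbar.baseChange K).V,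
        (∀ σ ∈ G, ∀ x ∈ V, (ρbar.baseChange K).ρ σ x ∈ V) → V = ⊥ ∨ V = ⊤)
    (S T Z : Finset ℕ) (hpT : p ∈ T) (hTS : T ⊆ S) (hZT : Z ⊆ T.erase p)
    (hur : ∀ q : ℕ, q.Prime → q ∉ T → ρbar.IsUnramifiedAt q)
    (hram : ∀ q ∈ T, q.Prime → q ≠ p → q ∉ Z → ¬ ρbar.IsUnramifiedAt q)
    (hZsc : ∀ q ∈ primesOf Z, ∀ σ ∈ (primeLocalPlace q).decompositionSubgroup ℚ,
      ∃ c : ResidueField 𝒪, ρbar.ρ σ = c • (1 : Module.End (ResidueField 𝒪) ρbar.V))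
    (hZur : ∀ q ∈ primesOf Z, ρbar.IsUnramifiedAt (q : ℕ))
    (fr : Nat.Primes → Γ)
    (hfr : ∀ q ∈ primesOf Z, (primeLocalPlace q).IsFrobeniusAt (fr q) (q : ℕ))
    (s : ∀ q : Nat.Primes, ↥((primeLocalPlace q).inertiaSubgroupIn ℚ))
    (hs : ∀ q ∈ primesOf Z, ∀ {H : Type} [Group H]
      (f : ↥((primeLocalPlace q).inertiaSubgroupIn ℚ) →* H), ContI f →
        (∀ σ, ∃ a : ℕ, f σ ^ p ^ a = 1) → ∀ σ, f σ ∈ Subgroup.zpowers (f (s q)))
    (halfO : 𝒪) (hhalf : 2 * halfO = 1)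
    (d : ℕ) (T0 : Type) [CommRing T0] [IsLocalRing T0] [Algebra 𝒪 T0]
    (ρ0 : GaloisRepAdic T0) (act0 : T0 →ₐ[𝒪] Matrix (Fin d) (Fin d) 𝒪)
    (b0 : Module.Basis (Fin 2) T0 ρ0.V) (n : ℕ) :
    ∃ qv : Fin (Module.finrank (ResidueField 𝒪) (H1g (primesOf T) (ad0D ρbar p))) → ℕ,
      Function.Injective qv ∧
      (∀ i, (qv i).Prime ∧ qv i ∉ S ∧ p ^ (n + 1) ∣ qv i - 1) ∧
      (∀ i, ∀ P : ValuationSubring Qbar, P.LiesOverPrime (qv i) →
        ∀ φ : Γ, P.IsFrobeniusAt φ (qv i) →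
          ∃ α β : ResidueField 𝒪, α ≠ β ∧
            LinearMap.charpoly (ρbar.ρ φ) = (X - C α) * (X - C β)) ∧
      3 * (primesOf Z).card ≤
        Module.finrank (ResidueField 𝒪) (H1g (primesOf T) (ad0D ρbar p)) ∧
      ∀ _L : HeckeLevel 𝒪 p ρbar T Z s d T0 ρ0 act0 n qv,
        Nonempty (LevelPack (ι := ↥(primesOf Z)) p
          (Module.finrank (ResidueField 𝒪) (H1g (primesOf T) (ad0D ρbar p)))
          (Module.finrank (ResidueField 𝒪) (H1g (primesOf T) (ad0D ρbar p)) -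
            3 * (primesOf Z).card) d n halfO act0
          (fun i => matrixOf ρ0 b0 (fr i.1)) (fun i => matrixOf ρ0 b0 (s i.1 : Γ))
          (fun i => (i.1 : ℕ))) := by
  obtain ⟨qv, hinj, hqv, hfrob, h3, hgen⟩ := exists_tw_generators_loc p hp2 hp𝒪 ρbar habs hdet
    hsplit hTW S T Z hpT hTS hZT hur hram hZsc hZur fr hfr s hs n
  refine ⟨qv, hinj, hqv, hfrob, h3, fun L => ?_⟩
  have hp : p.Prime := Fact.out
  obtain ⟨b, hb⟩ := GlueBasis2.exists_basis_lift (L.π : L.A →+* T0) L.hπ L.hπloc L.ρ ρ0 L.hρ0 b0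
  set halfA : L.A := algebraMap 𝒪 L.A halfO with hhalfA
  have h2A : 2 * halfA = 1 := by
    rw [hhalfA, ← map_ofNat (algebraMap 𝒪 L.A) 2, ← map_mul, hhalf, map_one]
  -- the local facts at the bad primes
  have hqZ : ∀ i : ↥(primesOf Z), ((i.1 : ℕ)) ∈ Z := fun i => mem_primesOf.1 i.2
  have hqp : ∀ i : ↥(primesOf Z), p ≠ (i.1 : ℕ) := fun i h => by
    have h1 := hZT (hqZ i)
    rw [Finset.mem_erase] at h1
    exact h1.1 h.symm
  have hP : ∀ i : ↥(primesOf Z), (primeLocalPlace i.1).LiesOverPrime (i.1 : ℕ) := fun i =>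
    Fermat.Agent.W56.UnipSel8.liesOverPrime_primeLocalPlace i.1
  -- the set `E`
  let E : Set L.A := {x | ∃ (i : ↥(primesOf Z)) (k : Fin 3),
    x = tl halfA (matrixOf L.ρ b (fr i.1)) k ∨ x = tl halfA (matrixOf L.ρ b (s i.1 : Γ)) k}
  have hloc := locE_subset_maximalIdeal ρbar L.hres L.ρ L.hlift b fr s (primesOf Z) hZsc hfr
  have hEm : E ⊆ (maximalIdeal L.A : Set L.A) := by
    rintro x ⟨i, k, rfl | rfl⟩
    · exact GlueLoc2.tl_mem_of_tlCoord_mem halfA L.ρ b _ _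
        (fun k => hloc ⟨i.1, i.2, k, Or.inl rfl⟩) k
    · exact GlueLoc2.tl_mem_of_tlCoord_mem halfA L.ρ b _ _
        (fun k => hloc ⟨i.1, i.2, k, Or.inr rfl⟩) k
  have hEloc : locE L.ρ b fr s (primesOf Z) ⊆ (Ideal.span E : Set L.A) := by
    rintro x ⟨q, hq, k, rfl | rfl⟩
    · obtain ⟨c, hc⟩ := GlueLoc2.tlCoord_mem_span halfA h2A L.ρ b (fr q) k
      rw [hc]
      exact Ideal.mul_mem_left _ c (Ideal.subset_span ⟨⟨q, hq⟩, k, Or.inl rfl⟩)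
    · obtain ⟨c, hc⟩ := GlueLoc2.tlCoord_mem_span halfA h2A L.ρ b (s q : Γ) k
      rw [hc]
      exact Ideal.mul_mem_left _ c (Ideal.subset_span ⟨⟨q, hq⟩, k, Or.inr rfl⟩)
  obtain ⟨u, hum, hule⟩ := hgen L.A L.hres L.ρ L.hlift L.hD L.hflat L.hU L.hunip L.htr b E hEm hEloc
  -- the images of the variables
  let uv : Var ↥(primesOf Z) (Module.finrank (ResidueField 𝒪) (H1g (primesOf T) (ad0D ρbar p)) -
      3 * (primesOf Z).card) → L.A :=
    Sum.elim (Sum.elim (fun ik => tl halfA (matrixOf L.ρ b (fr ik.1.1)) ik.2)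
      (fun ik => tl halfA (matrixOf L.ρ b (s ik.1.1 : Γ)) ik.2)) u
  have huv : ∀ v, uv v ∈ maximalIdeal L.A := by
    rintro ((⟨i, k⟩ | ⟨i, k⟩) | j)
    · exact hEm ⟨i, k, Or.inl rfl⟩
    · exact hEm ⟨i, k, Or.inr rfl⟩
    · exact hum j
  have hgen' : maximalIdeal L.A ≤ Ideal.span (Set.range uv) ⊔
      (maximalIdeal 𝒪).map (algebraMap 𝒪 L.A) := by
    refine hule.trans (sup_le_sup_right (sup_le ?_ ?_) _)
    · refine Ideal.span_mono ?_
      rintro _ ⟨j, rfl⟩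
      exact ⟨Sum.inr j, rfl⟩
    · refine Ideal.span_mono ?_
      rintro x ⟨i, k, rfl | rfl⟩
      · exact ⟨Sum.inl (Sum.inl (i, k)), rfl⟩
      · exact ⟨Sum.inl (Sum.inr (i, k)), rfl⟩
  have hresI : ∀ (i : ↥(primesOf Z)), ∀ σ ∈ (primeLocalPlace i.1).inertiaSubgroupIn ℚ,
      ∀ v : L.ρ.V, L.ρ.ρ σ v - v ∈ maximalIdeal L.A • (⊤ : Submodule L.A L.ρ.V) :=
    fun i σ hσ v => GlueLoc2.sub_mem_of_unramified L.hres L.ρ L.hlift (hZur i.1 i.2) (hP i) hσ v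
  exact ⟨{
    A := L.A
    hres := L.hres
    Ph := fun i => matrixOf L.ρ b (fr i.1)
    Sg := fun i => matrixOf L.ρ b (s i.1 : Γ)
    detS := fun i => by
      rw [GlueLoc2.det_fin_two']
      exact GlueLoc2.det_inertia L.ρ L.hD hp i.1.2 (hqp i) (hP i) (s i.1).2
    detP := fun i => by
      rw [GlueLoc2.det_fin_two', map_natCast]
      exact GlueLoc2.det_frob L.ρ L.hD hp i.1.2 (hqp i) (hP i) (hfr i.1 i.2)
    rel := fun i => GlueLoc2.frob_mul_inertia L.ρ L.hD hp i.1.2 (hqp i) (hP i) b (hresI i)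
      (hfr i.1 i.2) (s i.1).2
    uv := uv
    huv := huv
    hgen := hgen'
    hx := fun i k => rfl
    hy := fun i k => rfl
    act := L.act
    trTW := L.trTW
    trZ := fun i => by
      rw [← GlueLoc2.trace_eq L.ρ b (s i.1 : Γ)]
      exact L.trZ i
    π := L.π
    hπloc := L.hπloc
    hπP := fun i a c => hb (fr i.1) a c
    hπS := fun i a c => hb (s i.1 : Γ) a c
    ctrl := L.ctrl }⟩

open Fermat.Agent.M43.GlueAlg2 Fermat.Agent.M43.PSChain2 Fermat.Agent.M43.PSEven2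
  Fermat.Agent.M43.PSPatch2 Fermat.Agent.M43.PatchLimit2 Fermat.Agent.M43.OneSide5 in
/-- **The theorem of the glue.** -/
theorem patchOutput : PatchOutputStmt := by
  intro 𝒪 _ _ _ _ _ lam hlam p _ _ hp2 hp𝒪 ρbar habs hdet hsplit hTW S T Z hpT hTS hZT hur hram
    hZsc hZur hZ1 fr hfr s hs χ hχ d hd T0 _ _ _ _ ρ0 act0 hH
  have hp : p.Prime := Fact.out
  haveI : NeZero p := ⟨hp.ne_zero⟩
  have hmax : maximalIdeal 𝒪 = Ideal.span {lam} := hlam.maximalIdeal_eq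
  have hlamm : lam ∈ maximalIdeal 𝒪 := by
    rw [hmax]; exact Ideal.mem_span_singleton_self lam
  -- `2` is a unit
  have h2 : IsUnit (2 : 𝒪) := by
    by_contra hc
    have h1 : (2 : 𝒪) ∈ maximalIdeal 𝒪 := (mem_maximalIdeal _).2 hc
    have h2' : ((2 : ℕ) : ResidueField 𝒪) = 0 := by
      rw [Nat.cast_ofNat, ← map_ofNat (residue 𝒪) 2]
      exact (residue_eq_zero_iff _).2 h1
    have h3 := (CharP.cast_eq_zero_iff (ResidueField 𝒪) p 2).1 h2'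
    exact hp2 ((Nat.prime_dvd_prime_iff_eq hp Nat.prime_two).1 h3)
  obtain ⟨halfO, hhalf⟩ := h2.exists_right_inv
  have h4 : 4 * halfO ^ 2 = 1 := by linear_combination (2 * halfO + 1) * hhalf
  have hhalf0 : halfO ≠ 0 := by
    rintro rfl
    rw [mul_zero] at hhalf
    exact zero_ne_one hhalf
  -- the level-`0` matrices
  let b0 : Module.Basis (Fin 2) T0 ρ0.V := Module.finBasisOfFinrankEq T0 ρ0.V ρ0.finrank_eq
  have h2T : 2 * algebraMap 𝒪 T0 halfO = 1 := by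
    rw [← map_ofNat (algebraMap 𝒪 T0) 2, ← map_mul, hhalf, map_one]
  have hq1 : ∀ i : ↥(primesOf Z), (((i.1 : ℕ) : ℕ) : 𝒪) - 1 ∈ Ideal.span {lam} :=
    fun i => hZ1 i.1 i.2
  have hqpos : ∀ i : ↥(primesOf Z), 0 < (i.1 : ℕ) := fun i => i.1.2.pos
  have hpq : ∀ i : ↥(primesOf Z), p ∣ (i.1 : ℕ) - 1 := by
    intro i
    rw [← CharP.cast_eq_zero_iff (ResidueField 𝒪) p, Nat.cast_sub (hqpos i), Nat.cast_one]
    have h1 := hq1 i
    rw [← hmax, ← residue_eq_zero_iff, map_sub, map_one, map_natCast] at h1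
    exact h1
  -- the square roots and the half traces
  have hsq : ∀ i : ↥(primesOf Z), ∃ s0 : 𝒪, s0 ^ 2 = (((i.1 : ℕ) : ℕ) : 𝒪) ∧ IsUnit (2 * s0) ∧
      IsUnit (algebraMap 𝒪 T0 s0 + htr (algebraMap 𝒪 T0 halfO) (matrixOf ρ0 b0 (fr i.1))) :=
    fun i => GlueAux2.exists_sqrt_unit h2 _ (hmax ▸ hq1 i) _
  choose s0 hs0 hs0u hu0 using hsq
  -- the frame of the patching
  obtain ⟨-, -, -, -, h3, -⟩ := exists_qv_levelPack p hp2 hp𝒪 ρbar habs hdet hsplit hTW S T Z hpT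
    hTS hZT hur hram hZsc hZur fr hfr s hs halfO hhalf d T0 ρ0 act0 b0 0
  set r := Module.finrank (ResidueField 𝒪) (H1g (primesOf T) (ad0D ρbar p)) with hr
  set g := r - 3 * (primesOf Z).card with hg
  obtain ⟨t, ht⟩ := LocRep5.exists_halfTrace (O := 𝒪) (ι := ↥(primesOf Z)) (m := g) s0 hs0u
  -- the character
  have hχ1 : ∀ h, lam ∣ (1 : DZ ↥(primesOf Z) p →* 𝒪) h - χ h := fun h => by
    rw [MonoidHom.one_apply, ← Ideal.mem_span_singleton, ← hmax]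
    exact GlueAux2.one_sub_chi_mem p χ h
  have hζp : ∀ i : ↥(primesOf Z), χ (gZ p i) ^ p = 1 := fun i => GlueAux2.chi_pow p χ (gZ p i)
  have hζne : ∀ i : ↥(primesOf Z), χ (gZ p i) ≠ χ (gZ p i)⁻¹ :=
    fun i => GlueAux2.chi_ne_inv p hp2 χ (gZ p i) (hχ i)
  -- the finite-level data
  have key : ∀ n, ∃ D : SubDatum 𝒪 (Ev (Fin r) 𝒪) (twChain (O := 𝒪) (σ := Fin r) lam p)
      (pChain (O := 𝒪) lam p d (Fin r) (Var ↥(primesOf Z) g)) d n,
      D.IsGood lam (IsScalarTower.toAlgHom 𝒪 (Ev (Fin r) 𝒪) (MvPowerSeries (Fin r) 𝒪))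
        (oneIdeal 𝒪 g (fun i : ↥(primesOf Z) => (((i.1 : ℕ) : ℕ) : 𝒪)) t)
        (chiIdeal 𝒪 g (fun i : ↥(primesOf Z) => (halfO * (χ (gZ p i) + χ (gZ p i)⁻¹)) ^ 2 - 1))
        (augS (Fin r) 𝒪)
        (F1 g d halfO act0 (fun i : ↥(primesOf Z) => matrixOf ρ0 b0 (s i.1 : Γ)))
        (fun _ => Set.univ) := by
    intro n
    obtain ⟨qv, hinj, hqv, hfrob, -, hLP⟩ := exists_qv_levelPack p hp2 hp𝒪 ρbar habs hdet hsplit
      hTW S T Z hpT hTS hZT hur hram hZsc hZur fr hfr s hs halfO hhalf d T0 ρ0 act0 b0 n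
    obtain ⟨L⟩ := hH n qv hinj hqv hfrob
    obtain ⟨LP⟩ := hLP L
    haveI : Finite (Bn (r := r) lam p n) := finite_quotient_twChain lam p hmax n
    exact LP.exists_datum lam hhalf h2 χ hχ1 hζp hζne hqpos hpq s0 hs0 t ht hu0
  choose D hD using key
  -- the local package
  set c : ↥(primesOf Z) → 𝒪 := fun i => (halfO * (χ (gZ p i) + χ (gZ p i)⁻¹)) ^ 2 - 1 with hcdef
  set qO : ↥(primesOf Z) → 𝒪 := fun i => (((i.1 : ℕ) : ℕ) : 𝒪) with hqO
  have hceq : ∀ i, c i = (halfO * (χ (gZ p i) - χ (gZ p i)⁻¹)) ^ 2 := by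
    intro i
    have hζζ : χ (gZ p i) * χ (gZ p i)⁻¹ = 1 := by
      rw [← map_mul, mul_inv_cancel, map_one]
    show (halfO * (χ (gZ p i) + χ (gZ p i)⁻¹)) ^ 2 - 1 = _
    linear_combination (4 * halfO ^ 2) * hζζ + h4
  have hc : ∀ i, c i ∈ Ideal.span {lam} := by
    intro i
    rw [hceq, ← hmax]
    refine Ideal.pow_mem_of_mem _ (Ideal.mul_mem_left _ _ ?_) 2 (by norm_num)
    have e : χ (gZ p i) - χ (gZ p i)⁻¹ = (1 - χ (gZ p i)⁻¹) - (1 - χ (gZ p i)) := by ring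
    rw [e]
    exact Ideal.sub_mem _ (GlueAux2.one_sub_chi_mem p χ _) (GlueAux2.one_sub_chi_mem p χ _)
  have hc0 : ∀ i, c i ≠ 0 := by
    intro i
    rw [hceq]
    exact pow_ne_zero 2 (mul_ne_zero hhalf0 (sub_ne_zero.2 (hζne i)))
  haveI : IsAdicComplete (Ideal.span {lam}) 𝒪 :=
    hmax ▸ (inferInstance : IsAdicComplete (maximalIdeal 𝒪) 𝒪)
  have hprime : (chiIdeal 𝒪 g c).IsPrime := LocWire5.isPrime_chiIdeal g hlam hc hc0
  haveI : ∀ k : Unit, ((fun _ : Unit => chiIdeal 𝒪 g c) k).IsPrime := fun _ => hprime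
  obtain ⟨η, hη, hη1, hηlam, hηP'⟩ := LocWire5.exists_eta g hlam h2 qO hq1 t
  haveI := hη
  -- closedness of the conditions
  have hF1 : ∀ (x : PS 𝒪 ↥(primesOf Z) g) (m : Matrix (Fin d) (Fin d) 𝒪),
      (∀ N, ∃ m' ∈ F1 g d halfO act0
        (fun i : ↥(primesOf Z) => matrixOf ρ0 b0 (s i.1 : Γ)) x,
        ∀ i j, lam ^ N ∣ m i j - m' i j) →
      m ∈ F1 g d halfO act0 (fun i : ↥(primesOf Z) => matrixOf ρ0 b0 (s i.1 : Γ)) x := by
    intro x m h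
    refine ⟨?_, ?_⟩
    · have h1 := GlueAux2.mem_of_forall_dvd hlamm (LinearMap.range act0.toLinearMap) m
        (fun N => by
          obtain ⟨m', hm', hdv⟩ := h N
          obtain ⟨t0, ht0⟩ := hm'.1
          exact ⟨m', ⟨t0, ht0⟩, hdv⟩)
      obtain ⟨t0, ht0⟩ := h1
      exact ⟨t0, ht0⟩
    · intro i k hx
      refine GlueAux2.eq_of_forall_dvd hlamm m _ (fun N a b => ?_)
      obtain ⟨m', hm', hdv⟩ := h N
      rw [← hm'.2 i k hx]
      exact hdv a b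
  have hFχ : ∀ (x : PS 𝒪 ↥(primesOf Z) g) (m : Matrix (Fin d) (Fin d) 𝒪),
      (∀ N, ∃ m' ∈ (Set.univ : Set (Matrix (Fin d) (Fin d) 𝒪)),
        ∀ i j, lam ^ N ∣ m i j - m' i j) →
      m ∈ (Set.univ : Set (Matrix (Fin d) (Fin d) 𝒪)) := fun _ _ _ => Set.mem_univ _
  have hdimS : ringKrullDim (Ev (Fin r) 𝒪) < ⊤ :=
    PSDim5.ringKrullDim_mvPowerSeries_lt_top (O := 𝒪) (Fin r)
  have hdim : ∀ _k : Unit, ringKrullDim (PS 𝒪 ↥(primesOf Z) g ⧸ chiIdeal 𝒪 g c) ≤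
      ringKrullDim (Ev (Fin r) 𝒪) := by
    intro _
    refine (LocWire5.ringKrullDim_chiRing_le g hlam hc).trans ?_
    show _ ≤ ringKrullDim (MvPowerSeries (Fin r) 𝒪)
    rw [PSDim5.ringKrullDim_mvPowerSeries_of_dvr]
    have e1 : Nat.card ↥(primesOf Z) = (primesOf Z).card := by
      rw [Nat.card_eq_fintype_card, Fintype.card_coe]
    have e2 : Nat.card (Fin r) = r := Nat.card_fin r
    rw [e1, e2]
    exact_mod_cast (by omega : 1 + 3 * (primesOf Z).card + g ≤ r + 1)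
  obtain ⟨α₀, hα₀, 𝔓, h𝔓, hN, hl, hker⟩ := PSPatch2.exists_prime_of_subdata_ps (O := 𝒪)
    (σ := Fin r) (τ := Var ↥(primesOf Z) g) (lam := lam) (p := p) (d := d) hmax hlam.ne_zero hp𝒪
    (oneIdeal 𝒪 g qO t) (chiIdeal 𝒪 g c)
    (F1 g d halfO act0 (fun i : ↥(primesOf Z) => matrixOf ρ0 b0 (s i.1 : Γ)))
    (fun _ => Set.univ) hF1 hFχ D hD hd hdimS (fun _ : Unit => chiIdeal 𝒪 g c)
    (fun 𝔮 _ h => ⟨(), h⟩) hdim (fun _ => LocWire5.oneIdeal_sup_eq g h2 qO hq1 t hc)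
    (nilIdeal 𝒪 g) (pdProd 𝒪 g qO t)
    (fun Q hQ h1 hP' => nilIdeal_le_of_pdProd_notMem qO t Q hQ h1 hP') η hη1 hηlam hηP'
  haveI := h𝔓
  -- the level-`0` ring
  have har : Function.Surjective act0.rangeRestrict := act0.rangeRestrict_surjective
  let e := Ideal.quotientKerAlgEquivOfSurjective har
  let β : PS 𝒪 ↥(primesOf Z) g →ₐ[𝒪] act0.range := α₀.codRestrict act0.range (fun x => by
    obtain ⟨t0, ht0⟩ := (hα₀ x).1
    exact ⟨t0, ht0⟩)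
  let f : PS 𝒪 ↥(primesOf Z) g →ₐ[𝒪] (T0 ⧸ RingHom.ker act0.rangeRestrict) :=
    (e.symm : act0.range →ₐ[𝒪] (T0 ⧸ RingHom.ker act0.rangeRestrict)).comp β
  have hf : ∀ (x : PS 𝒪 ↥(primesOf Z) g) (t0 : T0), act0 t0 = α₀ x →
      f x = Ideal.Quotient.mk _ t0 := by
    intro x t0 h
    show e.symm (β x) = _
    rw [AlgEquiv.symm_apply_eq]
    apply Subtype.ext
    exact h.symm
  letI : Algebra (PS 𝒪 ↥(primesOf Z) g) (T0 ⧸ RingHom.ker act0.rangeRestrict) :=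
    f.toRingHom.toAlgebra
  haveI : IsScalarTower 𝒪 (PS 𝒪 ↥(primesOf Z) g) (T0 ⧸ RingHom.ker act0.rangeRestrict) :=
    IsScalarTower.of_algebraMap_eq (fun x => (f.commutes x).symm)
  haveI : Algebra.IsIntegral (PS 𝒪 ↥(primesOf Z) g) (T0 ⧸ RingHom.ker act0.rangeRestrict) :=
    Algebra.IsIntegral.tower_top 𝒪
  have hkerf : (⊥ : Ideal (T0 ⧸ RingHom.ker act0.rangeRestrict)).comap
      (algebraMap (PS 𝒪 ↥(primesOf Z) g) (T0 ⧸ RingHom.ker act0.rangeRestrict)) ≤ 𝔓 := by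
    intro x hx
    rw [Ideal.mem_comap, Ideal.mem_bot] at hx
    have hx' : e.symm (β x) = 0 := hx
    rw [AlgEquiv.symm_apply_eq, map_zero] at hx'
    apply hker
    rw [RingHom.mem_ker]
    exact congrArg Subtype.val hx'
  obtain ⟨𝔔', -, h𝔔', hcomap⟩ := Ideal.exists_ideal_over_prime_of_isIntegral 𝔓
    (⊥ : Ideal (T0 ⧸ RingHom.ker act0.rangeRestrict)) hkerf
  haveI := h𝔔'
  have hmem : ∀ x ∈ 𝔓, f x ∈ 𝔔' := by
    intro x hx
    rw [← hcomap] at hx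
    exact hx
  refine ⟨b0, 𝔔'.comap (Ideal.Quotient.mk (RingHom.ker act0.rangeRestrict)),
    Ideal.comap_isPrime _ _, ?_, ?_⟩
  · intro h
    apply hl
    rw [← hcomap, Ideal.mem_comap]
    have e1 : algebraMap (PS 𝒪 ↥(primesOf Z) g) (T0 ⧸ RingHom.ker act0.rangeRestrict)
        (algebraMap 𝒪 (PS 𝒪 ↥(primesOf Z) g) lam) =
        Ideal.Quotient.mk (RingHom.ker act0.rangeRestrict) (algebraMap 𝒪 T0 lam) :=
      f.commutes lam
    rw [e1]
    exact h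
  · intro q hq k
    have h1 : yv 𝒪 g (⟨q, hq⟩ : ↥(primesOf Z)) k ∈ 𝔓 :=
      hN (Ideal.subset_span ⟨⟨q, hq⟩, k, rfl⟩)
    have h2' := hmem _ h1
    rw [hf _ _ ((hα₀ (yv 𝒪 g (⟨q, hq⟩ : ↥(primesOf Z)) k)).2 ⟨q, hq⟩ k rfl).symm] at h2'
    obtain ⟨c', hc'⟩ := GlueLoc2.tlCoord_mem_span (algebraMap 𝒪 T0 halfO) h2T ρ0 b0 (s q : Γ) k
    rw [hc', Ideal.mem_comap]
    rw [map_mul]
    exact Ideal.mul_mem_left _ _ h2'

end Fermat.Agent.M43.GlueMain2
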