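/-
Programme M43, pillar (P-IMG), file 3 (helper2): **the x-only valuation recurrence in arbitrary
residue characteristic.**

Variant of `S05/NodeVal.nv_val` and `S05/MultAlt.ma_nvseq` for the curves
`y² + a₁xy = x³ + a₂x² + a₄x` with `v b₂ = 1`, `v a₄ < 1`, WITHOUT the hypothesis `v 2 = 1` (only
`v 4 ≤ 1`): the abstract recurrence `nv_core` of `S05/NodeVal` is reused verbatim.

* `NVSeq2`, `nv_val2` : `v (x 1) ^ p = v a₄ ^ 2` for the sequence of `x`-coordinates of the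
  multiples of a point of order `p` all of whose nonzero multiples reduce to the node `(0,0)`,
  `x 1` of maximal valuation;
* `img_nvseq` : the sequence `k ↦ x (k • P)` is such a sequence.
-/
import Mathlib
import Fermat.Agent.S05.NodeVal
import Fermat.Agent.S05.PairFormulas

set_option autoImplicit false

open WeierstrassCurve WeierstrassCurve.Affine

namespace Fermat.Agent.M43.ImgNV2

open Fermat.Agent.S05 Fermat.Agent.S05.PairFormulas

section val

variable {K : Type*} [Field K] {Γ₀ : Type*} [LinearOrderedCommGroupWithZero Γ₀]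

/-- The x-coordinates `x k = x (k • P)`, `1 ≤ k ≤ p - 1`, of the multiples of a point of order `p`
reducing to the node `(0,0)` of `y² + a₁xy = x³ + a₂x² + a₄x`. -/
structure NVSeq2 (v : Valuation K Γ₀) (p : ℕ) (a4 b2 : K) (x : ℕ → K) : Prop where
  h4 : v 4 ≤ 1
  hb2 : v b2 = 1
  ha4 : v a4 < 1
  ha40 : a4 ≠ 0
  hx1 : v (x 1) < 1
  hmin : ∀ k, 1 ≤ k → k ≤ p - 1 → v (x k) ≤ v (x 1)
  hsymm : x (p - 1) = x 1
  hdup : ∀ k, 1 ≤ k → k ≤ p - 1 → ∃ k', 1 ≤ k' ∧ k' ≤ p - 1 ∧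
    x k' * (x k * (4 * x k ^ 2 + b2 * x k + 4 * a4)) = (x k ^ 2 - a4) ^ 2
  hdup1 : x 2 * (x 1 * (4 * x 1 ^ 2 + b2 * x 1 + 4 * a4)) = (x 1 ^ 2 - a4) ^ 2
  hrec : ∀ m, m + 2 ≤ p - 2 →
    x (m + 3) * x (m + 1) * (x (m + 2) - x 1) ^ 2 = (x (m + 2) * x 1 - a4) ^ 2
  hne : ∀ m, m + 2 ≤ p - 2 → x (m + 2) ≠ x 1

variable {v : Valuation K Γ₀} {p : ℕ} {a4 b2 : K} {x : ℕ → K}

lemma NVSeq2.x_ne_zero (h : NVSeq2 v p a4 b2 x) {k : ℕ} (hk1 : 1 ≤ k) (hk : k ≤ p - 1) :
    x k ≠ 0 := by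
  intro h0
  obtain ⟨k', _, _, hd⟩ := h.hdup k hk1 hk
  rw [h0] at hd
  have : a4 ^ 2 = 0 := by
    have e : (0 : K) ^ 2 - a4 = -a4 := by ring
    rw [e] at hd
    rw [← neg_sq, ← hd]; ring
  exact h.ha40 ((pow_eq_zero_iff (two_ne_zero)).1 this)

lemma NVSeq2.val_lt_one (h : NVSeq2 v p a4 b2 x) {k : ℕ} (hk1 : 1 ≤ k) (hk : k ≤ p - 1) :
    v (x k) < 1 := lt_of_le_of_lt (h.hmin k hk1 hk) h.hx1

lemma NVSeq2.val_a4_lt (h : NVSeq2 v p a4 b2 x) {k : ℕ} (hk1 : 1 ≤ k) (hk : k ≤ p - 1) :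
    v a4 < v (x k) := by
  by_contra hcon
  rw [not_lt] at hcon
  obtain ⟨k', hk'1, hk', hd⟩ := h.hdup k hk1 hk
  have hxk := h.x_ne_zero hk1 hk
  have hvk : v (x k) ≠ 0 := v.ne_zero_iff.2 hxk
  have hlt1 := h.val_lt_one hk1 hk
  have ha4 : v a4 ≠ 0 := v.ne_zero_iff.2 h.ha40
  -- v (x k ^ 2 - a4) = v a4
  have h1 : v (x k ^ 2) < v a4 := by
    rw [map_pow, sq]
    calc v (x k) * v (x k) < 1 * v (x k) := by
          exact mul_lt_mul_of_pos_right hlt1 (zero_lt_iff.2 hvk)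
      _ = v (x k) := one_mul _
      _ ≤ v a4 := hcon
  have h2 : v (x k ^ 2 - a4) = v a4 := by
    rw [Valuation.map_sub_swap]; exact Valuation.map_sub_eq_of_lt_left v h1
  -- v (4 x k ^ 2 + b2 * x k + 4 a4) ≤ v a4
  have h3 : v (4 * x k ^ 2 + b2 * x k + 4 * a4) ≤ v a4 := by
    refine (Valuation.map_add v _ _).trans (max_le ?_ ?_)
    · refine (Valuation.map_add v _ _).trans (max_le ?_ ?_)
      · rw [map_mul]
        calc v 4 * v (x k ^ 2) ≤ 1 * v (x k ^ 2) := by gcongr; exact h.h4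
          _ = v (x k ^ 2) := one_mul _
          _ ≤ v a4 := h1.le
      · rw [map_mul, h.hb2, one_mul]; exact hcon
    · rw [map_mul]
      calc v 4 * v a4 ≤ 1 * v a4 := by gcongr; exact h.h4
        _ = v a4 := one_mul _
  have h5 := congrArg v hd
  rw [map_pow, h2, map_mul, map_mul] at h5
  have h6 : v a4 ^ 2 ≤ v (x k') * (v a4 * v a4) := by
    rw [← h5]
    gcongr
  have h7 : v (x k') < 1 := h.val_lt_one hk'1 hk'
  have h8 : v (x k') * (v a4 * v a4) < 1 * (v a4 * v a4) :=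
    mul_lt_mul_of_pos_right h7 (zero_lt_iff.2 (mul_ne_zero ha4 ha4))
  rw [one_mul] at h8
  rw [sq] at h6
  exact absurd h6 (not_le.2 h8)

lemma NVSeq2.val_quad (h : NVSeq2 v p a4 b2 x) {k : ℕ} (hk1 : 1 ≤ k) (hk : k ≤ p - 1) :
    v (4 * x k ^ 2 + b2 * x k + 4 * a4) = v (x k) := by
  have hxk := h.x_ne_zero hk1 hk
  have hvk : v (x k) ≠ 0 := v.ne_zero_iff.2 hxk
  have hlt1 := h.val_lt_one hk1 hk
  have h1 : v (4 * x k ^ 2) < v (b2 * x k) := by
    rw [map_mul, map_pow, sq, map_mul, h.hb2, one_mul]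
    calc v 4 * (v (x k) * v (x k)) ≤ 1 * (v (x k) * v (x k)) := by gcongr; exact h.h4
      _ = v (x k) * v (x k) := one_mul _
      _ < 1 * v (x k) := mul_lt_mul_of_pos_right hlt1 (zero_lt_iff.2 hvk)
      _ = v (x k) := one_mul _
  have h2 : v (4 * x k ^ 2 + b2 * x k) = v (b2 * x k) := by
    rw [add_comm]; exact Valuation.map_add_eq_of_lt_left v h1
  have h3 : v (4 * a4) < v (4 * x k ^ 2 + b2 * x k) := by
    rw [h2, map_mul, map_mul, h.hb2, one_mul]
    calc v 4 * v a4 ≤ 1 * v a4 := by gcongr; exact h.h4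
      _ = v a4 := one_mul _
      _ < v (x k) := h.val_a4_lt hk1 hk
  rw [Valuation.map_add_eq_of_lt_left v h3, h2, map_mul, h.hb2, one_mul]

theorem nv_val2 (hp : 3 ≤ p) (h : NVSeq2 v p a4 b2 x) : v (x 1) ^ p = v a4 ^ 2 := by
  have hx : ∀ k, 1 ≤ k → k ≤ p - 1 → x k ≠ 0 := fun k hk1 hk => h.x_ne_zero hk1 hk
  have hx1 : x 1 ≠ 0 := hx 1 le_rfl (by omega)
  have ha40 := h.ha40
  have hq : ∀ k, 1 ≤ k → k ≤ p - 1 → 4 * x k ^ 2 + b2 * x k + 4 * a4 ≠ 0 := by
    intro k hk1 hk hq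
    have := h.val_quad hk1 hk
    rw [hq, map_zero] at this
    exact (v.ne_zero_iff.2 (hx k hk1 hk)) this.symm
  -- nonvanishing of `x k * x 1 - a4`
  have hN0 : ∀ k, 1 ≤ k → k ≤ p - 2 → x k * x 1 - a4 ≠ 0 := by
    intro k hk1 hk h0
    rcases Nat.eq_or_lt_of_le hk1 with rfl | hk2
    · have hd := h.hdup1
      have e : x 1 ^ 2 - a4 = x 1 * x 1 - a4 := by ring
      rw [e, h0] at hd
      have : x 2 * (x 1 * (4 * x 1 ^ 2 + b2 * x 1 + 4 * a4)) ≠ 0 :=
        mul_ne_zero (hx 2 (by omega) (by omega)) (mul_ne_zero hx1 (hq 1 le_rfl (by omega)))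
      exact this (by rw [hd]; ring)
    · obtain ⟨m, rfl⟩ : ∃ m, k = m + 2 := ⟨k - 2, by omega⟩
      have hr := h.hrec m hk
      rw [h0] at hr
      have : x (m + 3) * x (m + 1) * (x (m + 2) - x 1) ^ 2 ≠ 0 :=
        mul_ne_zero (mul_ne_zero (hx _ (by omega) (by omega)) (hx _ (by omega) (by omega)))
          (pow_ne_zero _ (sub_ne_zero.2 (h.hne m hk)))
      exact this (by rw [hr]; ring)
  have hdata : NVData p (nv_dep v (x 1)) (nv_dep v a4) (fun k => nv_dep v (x k))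
      (fun k => nv_dep v (x k * x 1 - a4)) (fun k => nv_dep v (x k - x 1)) := by
    refine ⟨?_, rfl, ?_, ?_, ?_, ?_, ?_, ?_, ?_⟩
    · exact (nv_dep_pos_iff v hx1).2 h.hx1
    · intro k hk1 hk
      exact (nv_dep_le_iff v hx1 (hx k hk1 hk)).2 (h.hmin k hk1 hk)
    · intro k hk1 hk
      exact (nv_dep_lt_iff v (hx k hk1 hk) ha40).2 (h.val_a4_lt hk1 hk)
    · show nv_dep v (x (p - 1)) = _
      rw [h.hsymm]
    · -- duplication
      show nv_dep v (x 2) + (2 : ℤ) • nv_dep v (x 1) = (2 : ℤ) • nv_dep v (x 1 * x 1 - a4)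
      have hd := h.hdup1
      have hq1 := hq 1 le_rfl (by omega)
      have hx2 := hx 2 (by omega) (by omega)
      have e : x 1 ^ 2 - a4 = x 1 * x 1 - a4 := by ring
      have hN := hN0 1 le_rfl (by omega)
      have h1 := congrArg (nv_dep v) hd
      rw [nv_dep_mul v hx2 (mul_ne_zero hx1 hq1), nv_dep_mul v hx1 hq1, e, nv_dep_pow v hN] at h1
      have h2 : nv_dep v (4 * x 1 ^ 2 + b2 * x 1 + 4 * a4) = nv_dep v (x 1) :=
        (nv_dep_eq_iff v hq1 hx1).2 (h.val_quad le_rfl (by omega))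
      rw [h2] at h1
      push_cast at h1
      rw [← h1]; module
    · -- recurrence
      intro m hm
      show nv_dep v (x (m + 3)) + nv_dep v (x (m + 1)) + (2 : ℤ) • nv_dep v (x (m + 2) - x 1)
        = (2 : ℤ) • nv_dep v (x (m + 2) * x 1 - a4)
      have hr := h.hrec m hm
      have h3 := hx (m + 3) (by omega) (by omega)
      have h1' := hx (m + 1) (by omega) (by omega)
      have hD := sub_ne_zero.2 (h.hne m hm)
      have hN := hN0 (m + 2) (by omega) hm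
      have h1 := congrArg (nv_dep v) hr
      rw [nv_dep_mul v (mul_ne_zero h3 h1') (pow_ne_zero _ hD), nv_dep_mul v h3 h1',
        nv_dep_pow v hD, nv_dep_pow v hN] at h1
      push_cast at h1
      exact h1
    · -- N
      intro k hk1 hk
      have hxk := hx k hk1 (by omega)
      have hprod : x k * x 1 ≠ 0 := mul_ne_zero hxk hx1
      have hN := hN0 k hk1 hk
      show (nv_dep v (x k) + nv_dep v (x 1) < nv_dep v a4 →
          nv_dep v (x k * x 1 - a4) = nv_dep v (x k) + nv_dep v (x 1)) ∧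
        (nv_dep v (x k) + nv_dep v (x 1) = nv_dep v a4 → nv_dep v a4 ≤ nv_dep v (x k * x 1 - a4)) ∧
        (nv_dep v a4 < nv_dep v (x k) + nv_dep v (x 1) → nv_dep v (x k * x 1 - a4) = nv_dep v a4)
      rw [← nv_dep_mul v hxk hx1]
      refine ⟨fun hlt => (nv_dep_sub_of_lt v hprod ha40 hlt).2, fun heq => ?_,
        fun hgt => (nv_dep_sub_of_gt v hprod ha40 hgt).2⟩
      have := nv_min_le_dep_sub v hprod ha40 hN
      rwa [heq, min_self] at this
    · -- D
      intro k hk2 hk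
      obtain ⟨m, rfl⟩ : ∃ m, k = m + 2 := ⟨k - 2, by omega⟩
      have hxk := hx (m + 2) (by omega) (by omega)
      have hD := sub_ne_zero.2 (h.hne m hk)
      show (nv_dep v (x 1) < nv_dep v (x (m + 2)) → nv_dep v (x (m + 2) - x 1) = nv_dep v (x 1)) ∧
        (nv_dep v (x (m + 2)) = nv_dep v (x 1) → nv_dep v (x 1) ≤ nv_dep v (x (m + 2) - x 1))
      refine ⟨fun hlt => (nv_dep_sub_of_gt v hxk hx1 hlt).2, fun heq => ?_⟩
      have := nv_min_le_dep_sub v hxk hx1 hD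
      rwa [heq, min_self] at this
  have hcore := nv_core hp hdata
  have e1 : (p : ℤ) • nv_dep v (x 1) = nv_dep v (x 1 ^ p) := (nv_dep_pow v hx1 p).symm
  have e2 : (2 : ℤ) • nv_dep v a4 = nv_dep v (a4 ^ 2) := by
    rw [nv_dep_pow v ha40 2]; push_cast; rfl
  rw [e1, e2, nv_dep_eq_iff v (pow_ne_zero _ hx1) (pow_ne_zero _ ha40), map_pow, map_pow] at hcore
  exact hcore

end val

section curve

variable {K : Type*} [Field K] {Γ₀ : Type*} [LinearOrderedCommGroupWithZero Γ₀]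
  {v : Valuation K Γ₀} {W : Affine K}

lemma some_of_ne_zero {P : W.Point} (hP : P ≠ 0) :
    ∃ h : W.Nonsingular (xc P) (yc P), P = Point.some (xc P) (yc P) h := by
  rcases P with _ | ⟨x, y, h⟩
  · exact absurd rfl hP
  · exact ⟨h, rfl⟩

lemma psi2sq_eq_of (h3 : W.a₃ = 0) (h6 : W.a₆ = 0) (x : K) :
    psi2sq W x = x * (4 * x ^ 2 + W.b₂ * x + 4 * W.a₄) := by
  simp only [psi2sq, WeierstrassCurve.b₄, WeierstrassCurve.b₆, h3, h6]
  ring

lemma phi2_eq_of (h3 : W.a₃ = 0) (h6 : W.a₆ = 0) (x : K) :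
    phi2 W x = (x ^ 2 - W.a₄) ^ 2 := by
  simp only [phi2, WeierstrassCurve.b₄, WeierstrassCurve.b₆, WeierstrassCurve.b₈, h3, h6]
  ring

lemma pairProd_eq_of (h3 : W.a₃ = 0) (h6 : W.a₆ = 0) (x₁ x₂ : K) :
    pairProd W x₁ x₂ = (x₁ * x₂ - W.a₄) ^ 2 := by
  simp only [pairProd, WeierstrassCurve.b₄, WeierstrassCurve.b₆, WeierstrassCurve.b₈, h3, h6]
  ring

lemma pairSum_eq_of (h3 : W.a₃ = 0) (h6 : W.a₆ = 0) (x₁ x₂ : K) :
    pairSum W x₁ x₂ = 2 * x₁ * x₂ * (x₁ + x₂) + W.b₂ * x₁ * x₂ + 2 * W.a₄ * (x₁ + x₂) := by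
  simp only [pairSum, WeierstrassCurve.b₄, WeierstrassCurve.b₆, h3, h6]
  ring

variable [DecidableEq K]

lemma nsmul_ne_zero_of {p : ℕ} (hp : p.Prime) {P : W.Point} (hP0 : P ≠ 0) (hP : p • P = 0)
    {k : ℕ} (hk1 : 1 ≤ k) (hk : k ≤ p - 1) : k • P ≠ 0 := by
  have := Fact.mk hp
  have hord := addOrderOf_eq_prime hP hP0
  intro h
  rw [← addOrderOf_dvd_iff_nsmul_eq_zero, hord] at h
  have := hp.one_lt
  exact Nat.not_dvd_of_pos_of_lt (by omega) (by omega) h

lemma nsmul_eq_zero_iff_of {p : ℕ} (hp : p.Prime) {P : W.Point} (hP0 : P ≠ 0) (hP : p • P = 0)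
    (k : ℕ) : k • P = 0 ↔ p ∣ k := by
  have := Fact.mk hp
  rw [← addOrderOf_dvd_iff_nsmul_eq_zero, addOrderOf_eq_prime hP hP0]

/-- The sequence of `x`-coordinates of the multiples of a `p`-torsion point reducing to the node,
chosen with `v x` maximal among its multiples, satisfies the hypotheses of `nv_val2`. -/
theorem img_nvseq (h3 : W.a₃ = 0) (h6 : W.a₆ = 0)
    (hv4 : v 4 ≤ 1) (hb2 : v W.b₂ = 1) (hb : v W.a₄ < 1) (hb0 : W.a₄ ≠ 0)
    {p : ℕ} (hp : p.Prime) (hp2 : p ≠ 2) {P : W.Point} (hP0 : P ≠ 0) (hP : p • P = 0)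
    (hmax : ∀ k, 1 ≤ k → k ≤ p - 1 → v (xc (k • P)) ≤ v (xc P)) (hx1 : v (xc P) < 1) :
    NVSeq2 v p W.a₄ W.b₂ (fun k => xc (k • P)) := by
  have hp3 : 3 ≤ p := by
    have := hp.two_le
    omega
  have hne0 : ∀ k, 1 ≤ k → k ≤ p - 1 → k • P ≠ 0 := fun k hk1 hk =>
    nsmul_ne_zero_of hp hP0 hP hk1 hk
  -- duplication at a multiple
  have hdupk : ∀ k, 1 ≤ k → k ≤ p - 1 →
      xc ((2 * k) • P) * (xc (k • P) * (4 * xc (k • P) ^ 2 + W.b₂ * xc (k • P) + 4 * W.a₄))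
        = (xc (k • P) ^ 2 - W.a₄) ^ 2 := by
    intro k hk1 hk
    obtain ⟨h, e⟩ := some_of_ne_zero (hne0 k hk1 hk)
    have h2k : (2 * k) • P = k • P + k • P := by rw [two_mul, add_nsmul]
    have h2k0 : (2 * k) • P ≠ 0 := by
      rw [Ne, nsmul_eq_zero_iff_of hp hP0 hP]
      intro hd
      rcases (Nat.Prime.dvd_mul hp).1 hd with h' | h'
      · exact hp2 ((Nat.prime_dvd_prime_iff_eq hp Nat.prime_two).1 h')
      · exact Nat.not_dvd_of_pos_of_lt (by omega) (by omega) h'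
    have hy : yc (k • P) ≠ W.negY (xc (k • P)) (yc (k • P)) := by
      intro hy
      apply h2k0
      rw [h2k, e]
      exact add_self_some_eq_zero h hy
    obtain ⟨xd, yd, hd, hadd, hform⟩ := add_self_some h hy
    have : xc ((2 * k) • P) = xd := by
      rw [h2k]
      conv_lhs => rw [e]
      rw [hadd]; rfl
    rw [this, ← psi2sq_eq_of h3 h6, hform, phi2_eq_of h3 h6]
  refine ⟨hv4, hb2, hb, hb0, ?_, ?_, ?_, ?_, ?_, ?_, ?_⟩
  · simpa using hx1
  · intro k hk1 hk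
    simpa using hmax k hk1 hk
  · -- symmetry
    show xc ((p - 1) • P) = xc (1 • P)
    have : (p - 1) • P = -P := by
      apply eq_neg_of_add_eq_zero_left
      rw [← succ_nsmul, Nat.sub_add_cancel hp.one_le, hP]
    rw [this, xc_neg, one_nsmul]
  · -- duplication
    intro k hk1 hk
    refine ⟨(2 * k) % p, ?_, ?_, ?_⟩
    · rw [Nat.one_le_iff_ne_zero, Ne, ← Nat.dvd_iff_mod_eq_zero]
      intro hd
      rcases (Nat.Prime.dvd_mul hp).1 hd with h' | h'
      · exact hp2 ((Nat.prime_dvd_prime_iff_eq hp Nat.prime_two).1 h')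
      · exact Nat.not_dvd_of_pos_of_lt (by omega) (by omega) h'
    · have := Nat.mod_lt (2 * k) hp.pos
      omega
    · show xc (((2 * k) % p) • P) * _ = _
      rw [← nsmul_eq_mod_nsmul (2 * k) hP]
      exact hdupk k hk1 hk
  · show xc (2 • P) * (xc (1 • P) * (4 * xc (1 • P) ^ 2 + W.b₂ * xc (1 • P) + 4 * W.a₄))
      = (xc (1 • P) ^ 2 - W.a₄) ^ 2
    have := hdupk 1 le_rfl (by omega)
    simpa using this
  · -- recurrence
    intro m hm
    show xc ((m + 3) • P) * xc ((m + 1) • P) * (xc ((m + 2) • P) - xc (1 • P)) ^ 2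
      = (xc ((m + 2) • P) * xc (1 • P) - W.a₄) ^ 2
    rw [one_nsmul]
    obtain ⟨hR, eR⟩ := some_of_ne_zero (hne0 (m + 2) (by omega) (by omega))
    obtain ⟨hP', eP⟩ := some_of_ne_zero hP0
    have hxne : xc ((m + 2) • P) ≠ xc P := by
      intro hx
      have := (Point.X_eq_iff (h₁ := hR) (h₂ := hP')).1 hx
      rw [← eR, ← eP] at this
      rcases this with h' | h'
      · apply hne0 (m + 1) (by omega) (by omega)
        have : (m + 2) • P = (m + 1) • P + P := succ_nsmul P (m + 1)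
        rw [this] at h'
        exact add_eq_right.mp h'
      · apply hne0 (m + 3) (by omega) (by omega)
        have : (m + 3) • P = (m + 2) • P + P := succ_nsmul P (m + 2)
        rw [this, h', neg_add_cancel]
    obtain ⟨xp, yp, xm, ym, hp', hm', hadd, hsub, hprod, -, -, -⟩ := add_sub_some hR hP' hxne
    have e3 : xc ((m + 3) • P) = xp := by
      have : (m + 3) • P = (m + 2) • P + P := succ_nsmul P (m + 2)
      have hsum : (m + 2) • P + P = Point.some xp yp hp' := by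
        rw [← hadd]; congr 1
      rw [this, hsum]; rfl
    have e1 : xc ((m + 1) • P) = xm := by
      have : (m + 1) • P = (m + 2) • P - P := by
        rw [eq_sub_iff_add_eq]; exact (succ_nsmul P (m + 1)).symm
      have hdiff : (m + 2) • P - P = Point.some xm ym hm' := by
        rw [← hsub]; congr 1
      rw [this, hdiff]; rfl
    rw [e3, e1, hprod, pairProd_eq_of h3 h6]
  · -- distinct x-coordinates
    intro m hm
    show xc ((m + 2) • P) ≠ xc (1 • P)
    rw [one_nsmul]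
    obtain ⟨hR, eR⟩ := some_of_ne_zero (hne0 (m + 2) (by omega) (by omega))
    obtain ⟨hP', eP⟩ := some_of_ne_zero hP0
    intro hx
    have := (Point.X_eq_iff (h₁ := hR) (h₂ := hP')).1 hx
    rw [← eR, ← eP] at this
    rcases this with h' | h'
    · apply hne0 (m + 1) (by omega) (by omega)
      have : (m + 2) • P = (m + 1) • P + P := succ_nsmul P (m + 1)
      rw [this] at h'
      exact add_eq_right.mp h'
    · apply hne0 (m + 3) (by omega) (by omega)
      have : (m + 3) • P = (m + 2) • P + P := succ_nsmul P (m + 2)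
      rw [this, h', neg_add_cancel]

end curve

end Fermat.Agent.M43.ImgNV2
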