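/-
Programme M43, pillar (P-IMG), file 4 (helper2): **the points that do not reduce to the node
`(0,0)` form a subgroup** (x-only proof, any residue characteristic).

`W : y² + a₁xy = x³ + a₂x² + a₄x` over a valued field with `v 2 ≤ 1`, `v b₂ ≤ 1`, `v a₄ < 1`.
`InE0 v P` : `P = 0` or `1 ≤ v (x P)`.

* `inE0_add`, `inE0_nsmul`.
-/
import Mathlib
import Fermat.Agent.M43.ImgNV2

set_option autoImplicit false

open WeierstrassCurve WeierstrassCurve.Affine

namespace Fermat.Agent.M43.ImgE02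

open Fermat.Agent.S05.PairFormulas Fermat.Agent.M43.ImgNV2

variable {K : Type*} [Field K] {Γ₀ : Type*} [LinearOrderedCommGroupWithZero Γ₀]
  (v : Valuation K Γ₀) {W : Affine K}

/-- `O`, or `v x ≥ 1`: the points that do not reduce to `(0,0)`. -/
def InE0 : W.Point → Prop
  | .zero => True
  | .some x _ _ => 1 ≤ v x

@[simp] lemma inE0_zero : InE0 v (0 : W.Point) := trivial

@[simp] lemma inE0_some {x y : K} (h : W.Nonsingular x y) :
    InE0 v (Point.some x y h) ↔ 1 ≤ v x := Iff.rfl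

lemma inE0_neg {P : W.Point} (h : InE0 v P) : InE0 v (-P) := by
  rcases P with _ | ⟨x, y, hxy⟩
  · exact h
  · exact h

variable [DecidableEq K]

include v in
/-- the chord case. -/
theorem one_le_val_add_of_ne (h3 : W.a₃ = 0) (h6 : W.a₆ = 0) (hv2 : v 2 ≤ 1) (hb2 : v W.b₂ ≤ 1)
    (hb : v W.a₄ < 1) {x₁ y₁ x₂ y₂ : K} (h₁ : W.Nonsingular x₁ y₁) (h₂ : W.Nonsingular x₂ y₂)
    (hx : x₁ ≠ x₂) (hv1 : 1 ≤ v x₁) (hv2' : 1 ≤ v x₂) :
    InE0 v (Point.some x₁ y₁ h₁ + Point.some x₂ y₂ h₂) := by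
  obtain ⟨xp, yp, xm, ym, hp, hm, hadd, -, hprod, hsum, -, -⟩ := add_sub_some h₁ h₂ hx
  rw [hadd, inE0_some]
  by_contra hcon
  rw [not_le] at hcon
  rw [pairProd_eq_of h3 h6] at hprod
  rw [pairSum_eq_of h3 h6] at hsum
  set M := v x₁ * v x₂ with hM
  have hM1 : 1 ≤ M := one_le_mul_of_one_le_of_one_le hv1 hv2'
  have hx1M : v x₁ ≤ M := by
    calc v x₁ = v x₁ * 1 := (mul_one _).symm
      _ ≤ v x₁ * v x₂ := by gcongr
  have hx2M : v x₂ ≤ M := by
    calc v x₂ = 1 * v x₂ := (one_mul _).symm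
      _ ≤ v x₁ * v x₂ := by gcongr
  have hM0 : M ≠ 0 := (lt_of_lt_of_le zero_lt_one hM1).ne'
  -- numerator of the product
  have hN : v (x₁ * x₂ - W.a₄) = M := by
    have : v W.a₄ < v (x₁ * x₂) := by rw [map_mul]; exact lt_of_lt_of_le hb hM1
    rw [Valuation.map_sub_eq_of_lt_left v this, map_mul]
  -- the difference
  have hd0 : x₁ - x₂ ≠ 0 := sub_ne_zero.mpr hx
  have hD : v (x₁ - x₂) ≤ M := (Valuation.map_sub v _ _).trans (max_le hx1M hx2M)
  have hD0 : v (x₁ - x₂) ≠ 0 := v.ne_zero_iff.2 hd0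
  have hDpos : 0 < v (x₁ - x₂) ^ 2 := pow_pos (zero_lt_iff.2 hD0) 2
  have hP := congrArg v hprod
  rw [map_mul, map_mul, map_pow, map_pow, hN] at hP
  -- `xp ≠ 0`
  have hxp0 : v xp ≠ 0 := by
    intro h0
    rw [h0, zero_mul, zero_mul] at hP
    exact (pow_ne_zero 2 hM0) hP.symm
  -- `v xm > 1`
  have hD2 : v (x₁ - x₂) ^ 2 ≤ M ^ 2 := pow_le_pow_left₀ zero_le hD 2
  have hxm : 1 < v xm := by
    by_contra hle
    rw [not_lt] at hle
    have h1 : v xp * v xm * v (x₁ - x₂) ^ 2 < 1 * 1 * v (x₁ - x₂) ^ 2 := by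
      apply mul_lt_mul_of_pos_right _ hDpos
      calc v xp * v xm ≤ v xp * 1 := by gcongr
        _ = v xp := mul_one _
        _ < 1 * 1 := by rw [one_mul]; exact hcon
    rw [hP, one_mul, one_mul] at h1
    exact absurd hD2 (not_le.mpr h1)
  -- valuation of the sum
  have hS1 : v (xp + xm) = v xm := by
    rw [add_comm]
    exact Valuation.map_add_eq_of_lt_left v (lt_trans hcon hxm)
  have hS := congrArg v hsum
  rw [map_mul, hS1, map_pow] at hS
  -- lower bound: `M ^ 2 < v xm * D²`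
  have hlow : M ^ 2 < v xm * v (x₁ - x₂) ^ 2 := by
    rw [← hP]
    apply mul_lt_mul_of_pos_right _ hDpos
    have hxmpos : 0 < v xm := lt_trans zero_lt_one hxm
    calc v xp * v xm < 1 * v xm := mul_lt_mul_of_pos_right hcon hxmpos
      _ = v xm := one_mul _
  -- upper bound
  have hsumx : v (x₁ + x₂) ≤ M := (Valuation.map_add v _ _).trans (max_le hx1M hx2M)
  have hup : v (2 * x₁ * x₂ * (x₁ + x₂) + W.b₂ * x₁ * x₂ + 2 * W.a₄ * (x₁ + x₂)) ≤ M ^ 2 := by
    refine (Valuation.map_add v _ _).trans (max_le ?_ ?_)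
    · refine (Valuation.map_add v _ _).trans (max_le ?_ ?_)
      · rw [map_mul, map_mul, map_mul, sq]
        calc v 2 * v x₁ * v x₂ * v (x₁ + x₂) = v 2 * (M * v (x₁ + x₂)) := by
              rw [hM, mul_assoc, mul_assoc, mul_assoc]
          _ ≤ 1 * (M * M) := by gcongr
          _ = M * M := one_mul _
      · rw [map_mul, map_mul, sq]
        calc v W.b₂ * v x₁ * v x₂ = v W.b₂ * M := by rw [hM, mul_assoc]
          _ ≤ 1 * M := by gcongr
          _ = M * 1 := by rw [one_mul, mul_one]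
          _ ≤ M * M := by gcongr
    · rw [map_mul, map_mul, sq]
      calc v 2 * v W.a₄ * v (x₁ + x₂) ≤ 1 * 1 * M := by gcongr
        _ = 1 * M := by rw [one_mul]
        _ ≤ M * M := by gcongr
  rw [← hS] at hup
  exact absurd hup (not_le.mpr hlow)

include v in
/-- the tangent case. -/
theorem one_le_val_add_self (h3 : W.a₃ = 0) (h6 : W.a₆ = 0) (hv2 : v 2 ≤ 1) (hb2 : v W.b₂ ≤ 1)
    (hb : v W.a₄ < 1) {x y : K} (h : W.Nonsingular x y) (hv : 1 ≤ v x) :
    InE0 v (Point.some x y h + Point.some x y h) := by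
  by_cases hy : y = W.negY x y
  · rw [add_self_some_eq_zero h hy]; trivial
  obtain ⟨xd, yd, hd, hadd, hform⟩ := add_self_some h hy
  rw [hadd, inE0_some]
  rw [psi2sq_eq_of h3 h6, phi2_eq_of h3 h6] at hform
  have hw0 : v x ≠ 0 := (lt_of_lt_of_le zero_lt_one hv).ne'
  have hwpos : 0 < v x := zero_lt_iff.2 hw0
  have h4 : v (4 : K) ≤ 1 := by
    have : (4 : K) = 2 * 2 := by norm_num
    rw [this, map_mul]
    exact mul_le_one₀ hv2 zero_le hv2
  have hw2 : 1 ≤ v x ^ 2 := one_le_pow₀ hv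
  have hN : v (x ^ 2 - W.a₄) = v x ^ 2 := by
    have : v W.a₄ < v (x ^ 2) := by rw [map_pow]; exact lt_of_lt_of_le hb hw2
    rw [Valuation.map_sub_eq_of_lt_left v this, map_pow]
  have hq : v (4 * x ^ 2 + W.b₂ * x + 4 * W.a₄) ≤ v x ^ 2 := by
    refine (Valuation.map_add v _ _).trans (max_le ?_ ?_)
    · refine (Valuation.map_add v _ _).trans (max_le ?_ ?_)
      · rw [map_mul, map_pow]
        calc v 4 * v x ^ 2 ≤ 1 * v x ^ 2 := by gcongr
          _ = v x ^ 2 := one_mul _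
      · rw [map_mul, sq]
        calc v W.b₂ * v x ≤ 1 * v x := by gcongr
          _ ≤ v x * v x := by gcongr
    · rw [map_mul]
      calc v 4 * v W.a₄ ≤ 1 * 1 := by gcongr
        _ = 1 := one_mul _
        _ ≤ v x ^ 2 := hw2
  have hF := congrArg v hform
  rw [map_mul, map_mul, map_pow, hN] at hF
  by_contra hcon
  rw [not_le] at hcon
  have h3pos : 0 < v x * v x ^ 2 := mul_pos hwpos (pow_pos hwpos 2)
  have h1 : v xd * (v x * v (4 * x ^ 2 + W.b₂ * x + 4 * W.a₄)) ≤ v xd * (v x * v x ^ 2) := by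
    gcongr
  have h2 : v xd * (v x * v x ^ 2) < 1 * (v x * v x ^ 2) :=
    mul_lt_mul_of_pos_right hcon h3pos
  rw [hF] at h1
  rw [one_mul] at h2
  have h5 : (v x ^ 2) ^ 2 < v x * v x ^ 2 := lt_of_le_of_lt h1 h2
  have h6' : v x * v x ^ 2 ≤ (v x ^ 2) ^ 2 := by
    calc v x * v x ^ 2 ≤ v x ^ 2 * v x ^ 2 := by
          gcongr
          calc v x = v x * 1 := (mul_one _).symm
            _ ≤ v x * v x := by gcongr
            _ = v x ^ 2 := (sq _).symm
      _ = (v x ^ 2) ^ 2 := (sq _).symm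
  exact absurd h6' (not_le.mpr h5)

include v in
/-- **`E₀` is closed under addition.** -/
theorem inE0_add (h3 : W.a₃ = 0) (h6 : W.a₆ = 0) (hv2 : v 2 ≤ 1) (hb2 : v W.b₂ ≤ 1)
    (hb : v W.a₄ < 1) {P Q : W.Point} (hP : InE0 v P) (hQ : InE0 v Q) : InE0 v (P + Q) := by
  rcases P with _ | ⟨x₁, y₁, h₁⟩
  · change InE0 v (0 + Q); rwa [zero_add]
  rcases Q with _ | ⟨x₂, y₂, h₂⟩
  · change InE0 v (Point.some x₁ y₁ h₁ + 0); rwa [add_zero]
  by_cases hx : x₁ = x₂
  · subst hx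
    rcases Y_eq_of_X_eq h₁.1 h₂.1 rfl with hy | hy
    · subst hy
      exact one_le_val_add_self v h3 h6 hv2 hb2 hb h₁ hP
    · rw [Point.add_of_Y_eq rfl hy]; trivial
  · exact one_le_val_add_of_ne v h3 h6 hv2 hb2 hb h₁ h₂ hx hP hQ

include v in
theorem inE0_nsmul (h3 : W.a₃ = 0) (h6 : W.a₆ = 0) (hv2 : v 2 ≤ 1) (hb2 : v W.b₂ ≤ 1)
    (hb : v W.a₄ < 1) {P : W.Point} (hP : InE0 v P) (n : ℕ) : InE0 v (n • P) := by
  induction n with
  | zero => rw [zero_nsmul]; trivial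
  | succ n ih => rw [succ_nsmul]; exact inE0_add v h3 h6 hv2 hb2 hb ih hP

end Fermat.Agent.M43.ImgE02
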