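/-
Programme M43, pillar (P-IMG), file 1 (helper2): **the constant term of the odd division
polynomials of a Weierstrass curve with `a₃ = a₆ = 0`.**

For such a curve `(0,0)` is a point of order two, `Ψ₂Sq(0) = b₆ = 0`, and the recursion of the
(pre-normalised) elliptic divisibility sequence `preΨ'_n(0)` collapses on the odd indices:
`preΨ'_{2j+1}(0)² = b₈^{j(j+1)}`, `b₈ = -a₄²`.

* `preNormEDS'_odd_sq` : `preNormEDS' 0 c d (2j+1) ^ 2 = c ^ (j (j+1))`;
* `eval_zero_preΨ'_sq` : `(preΨ'_{2j+1}(0))² = (-a₄²)^{j(j+1)}` if `a₃ = a₆ = 0`.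
-/
import Mathlib

set_option autoImplicit false

namespace Fermat.Agent.M43.ImgEds2

open Polynomial WeierstrassCurve

section EDS

variable {R : Type*} [CommRing R]

/-- with parameter `b = 0` the odd-indexed terms of `preNormEDS'` are, up to sign, powers of `c`. -/
theorem preNormEDS'_odd_sq (c d : R) (j : ℕ) :
    preNormEDS' 0 c d (2 * j + 1) ^ 2 = c ^ (j * (j + 1)) := by
  induction j using Nat.strong_induction_on with
  | _ j ih =>
    rcases j with _ | _ | m
    · simp
    · simp [sq]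
    · rw [preNormEDS'_odd]
      rcases Nat.even_or_odd' m with ⟨h, rfl | rfl⟩
      · have e1 : 2 * h + 1 = 2 * h + 1 := rfl
        have e3 : 2 * h + 3 = 2 * (h + 1) + 1 := by ring
        rw [if_pos (even_two_mul h), if_pos (even_two_mul h), mul_zero, zero_sub, mul_one, neg_sq,
          mul_pow, ← pow_mul, mul_comm 3 2, pow_mul, e3, ih h (by omega), ih (h + 1) (by omega),
          ← pow_mul, ← pow_add]
        congr 1
        ring
      · have hodd : ¬ Even (2 * h + 1) := Nat.not_even_two_mul_add_one h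
        have e4 : 2 * h + 1 + 4 = 2 * (h + 2) + 1 := by ring
        have e2 : 2 * h + 1 + 2 = 2 * (h + 1) + 1 := by ring
        rw [if_neg hodd, if_neg hodd, mul_zero, sub_zero, mul_one,
          mul_pow, ← pow_mul, mul_comm 3 2, pow_mul, e4, e2, ih (h + 2) (by omega),
          ih (h + 1) (by omega), ← pow_mul, ← pow_add]
        congr 1
        ring

end EDS

section Curve

variable {R : Type*} [CommRing R] (W : WeierstrassCurve R)

/-- **the constant term of the odd division polynomials** of a curve with `a₃ = a₆ = 0`. -/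
theorem eval_zero_preΨ'_sq (h3 : W.a₃ = 0) (h6 : W.a₆ = 0) (j : ℕ) :
    ((W.preΨ' (2 * j + 1)).eval 0) ^ 2 = (-(W.a₄ ^ 2)) ^ (j * (j + 1)) := by
  have hb6 : W.b₆ = 0 := by simp [WeierstrassCurve.b₆, h3, h6]
  have hb8 : W.b₈ = -(W.a₄ ^ 2) := by
    simp [WeierstrassCurve.b₈, h3, h6]
  have h2 : (W.Ψ₂Sq ^ 2).eval 0 = 0 := by
    simp [WeierstrassCurve.Ψ₂Sq, hb6]
  have hc : W.Ψ₃.eval 0 = -(W.a₄ ^ 2) := by
    simp [WeierstrassCurve.Ψ₃, hb8]
  have key : (W.preΨ' (2 * j + 1)).eval 0 =
      preNormEDS' 0 (-(W.a₄ ^ 2)) (W.preΨ₄.eval 0) (2 * j + 1) := by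
    rw [WeierstrassCurve.preΨ', ← coe_evalRingHom, map_preNormEDS', coe_evalRingHom, h2, hc]
  rw [key, preNormEDS'_odd_sq]

end Curve

end Fermat.Agent.M43.ImgEds2
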