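/-
Programme M43, pillar (P-IMG), file 2 (helper2): **a `p`-torsion point reducing to the node.**

`W : y² + a₁xy = x³ + a₂x² + a₄x` over an algebraically closed valued field, `v a₄ < 1`, `p` odd
with `v p = 1`.  The product of the `x`-coordinates of the nonzero `p`-torsion points is
`± preΨ'_p(0) / p`, of valuation `v a₄ ^ ((p²-1)/4) < 1` (`ImgEds2`): some `p`-torsion point has
`v x < 1`.
-/
import Mathlib
import Fermat.Agent.M43.ImgEds2
import Fermat.Agent.DivPoly.A1Final

set_option autoImplicit false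

open WeierstrassCurve WeierstrassCurve.Affine Polynomial

namespace Fermat.Agent.M43.ImgRoot2

variable {K : Type*} [Field K] {Γ₀ : Type*} [LinearOrderedCommGroupWithZero Γ₀]
  (v : Valuation K Γ₀)

/-- a product of elements of valuation `≥ 1` has valuation `≥ 1`. -/
theorem one_le_val_prod (s : Multiset K) (h : ∀ r ∈ s, 1 ≤ v r) : 1 ≤ v s.prod := by
  induction s using Multiset.induction_on with
  | empty => simp
  | cons a s ih =>
    rw [Multiset.prod_cons, map_mul]
    exact one_le_mul_of_one_le_of_one_le (h a (Multiset.mem_cons_self a s))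
      (ih fun r hr => h r (Multiset.mem_cons_of_mem hr))

/-- a polynomial over an algebraically closed valued field whose leading coefficient is a unit and
whose constant term is not has a root in the maximal ideal. -/
theorem exists_root_val_lt_one [IsAlgClosed K] (f : K[X]) (hlc : v f.leadingCoeff = 1)
    (h0 : v (f.eval 0) < 1) : ∃ r : K, f.eval r = 0 ∧ v r < 1 := by
  by_contra hcon
  push Not at hcon
  have hsplit : f.Splits := IsAlgClosed.splits f
  have hev := hsplit.eval_eq_prod_roots 0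
  have hf0 : f ≠ 0 := by
    rintro rfl
    simp at hlc
  have hall : ∀ r ∈ f.roots.map (fun a => (0 : K) - a), 1 ≤ v r := by
    intro r hr
    obtain ⟨a, ha, rfl⟩ := Multiset.mem_map.mp hr
    rw [zero_sub, Valuation.map_neg]
    exact hcon a ((mem_roots hf0).mp ha)
  have h1 := one_le_val_prod v _ hall
  rw [hev, map_mul, hlc, one_mul] at h0
  exact absurd h1 (not_le.mpr h0)

variable [DecidableEq K] [IsAlgClosed K]

/-- **a `p`-torsion point with `x`-coordinate in the maximal ideal.** -/
theorem exists_torsion_val_lt_one (W : Affine K) (h3 : W.a₃ = 0) (h6 : W.a₆ = 0) (hΔ : W.Δ ≠ 0)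
    (ha4 : v W.a₄ < 1) {p : ℕ} (hp : Odd p) (hp3 : 3 ≤ p) (hvp : v (p : K) = 1) :
    ∃ (x y : K) (h : W.Nonsingular x y), p • Point.some x y h = 0 ∧ v x < 1 := by
  obtain ⟨j, rfl⟩ := hp
  have hj : 1 ≤ j := by omega
  have hpK : ((2 * j + 1 : ℕ) : K) ≠ 0 := by
    intro h
    rw [h, map_zero] at hvp
    exact zero_ne_one hvp
  have hlc : v (WeierstrassCurve.preΨ' W (2 * j + 1)).leadingCoeff = 1 := by
    rw [WeierstrassCurve.leadingCoeff_preΨ' W hpK, if_neg (Nat.not_even_two_mul_add_one j)]
    exact hvp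
  have h0 : v ((WeierstrassCurve.preΨ' W (2 * j + 1)).eval 0) < 1 := by
    have hsq := congrArg v (ImgEds2.eval_zero_preΨ'_sq W h3 h6 j)
    rw [map_pow, map_pow, Valuation.map_neg, map_pow] at hsq
    by_contra hcon
    rw [not_lt] at hcon
    have h1 : 1 ≤ v ((WeierstrassCurve.preΨ' W (2 * j + 1)).eval 0) ^ 2 := one_le_pow₀ hcon
    have h2 : (v W.a₄ ^ 2) ^ (j * (j + 1)) < 1 := by
      apply pow_lt_one₀ zero_le (pow_lt_one₀ zero_le ha4 two_ne_zero)
      positivity
    rw [hsq] at h1
    exact absurd h1 (not_le.mpr h2)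
  obtain ⟨x, hx, hvx⟩ := exists_root_val_lt_one v _ hlc h0
  obtain ⟨y, hy⟩ := Fermat.Agent.S51.exists_equation W x
  have h : W.Nonsingular x y := (equation_iff_nonsingular_of_Δ_ne_zero hΔ).mp hy
  exact ⟨x, y, h, (Fermat.Agent.DivPoly.A1Final.nsmul_eq_zero_iff_preΨ' h ⟨j, rfl⟩).mpr hx, hvx⟩

end Fermat.Agent.M43.ImgRoot2
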