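/-
Programme M43, pillar (P-IMG), file 5 (helper2): **(IMG-1), generic form.**

`W : y² + a₁xy = x³ + a₂x² + a₄x` (`Δ ≠ 0`) over an algebraically closed valued field with
`v 2 ≤ 1`, `v b₂ = 1`, `v a₄ < 1`; `p` an odd prime with `v p = 1`.  Then there is a point of order
`p` whose `x`-coordinate satisfies `v x ^ p = v a₄ ^ 2`.

Proof: `ImgRoot2` gives a `p`-torsion point `T` reducing to the node; as the points not reducing to
the node form a subgroup (`ImgE02`), all nonzero multiples of `T` reduce to the node; the multiple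
with `v x` maximal satisfies the valuation recurrence (`ImgNV2`).
-/
import Mathlib
import Fermat.Agent.M43.ImgRoot2
import Fermat.Agent.M43.ImgE02

set_option autoImplicit false

open WeierstrassCurve WeierstrassCurve.Affine

namespace Fermat.Agent.M43.ImgTwo2

open Fermat.Agent.S05.PairFormulas Fermat.Agent.M43.ImgNV2 Fermat.Agent.M43.ImgE02

variable {K : Type*} [Field K] [DecidableEq K] [IsAlgClosed K]
  {Γ₀ : Type*} [LinearOrderedCommGroupWithZero Γ₀] (v : Valuation K Γ₀)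

include v in
/-- **(IMG-1)**, generic form. -/
theorem exists_torsion_val_pow (W : Affine K) (h3 : W.a₃ = 0) (h6 : W.a₆ = 0) (hΔ : W.Δ ≠ 0)
    (hv2 : v 2 ≤ 1) (hb2 : v W.b₂ = 1) (hb : v W.a₄ < 1)
    {p : ℕ} (hp : p.Prime) (hp2 : p ≠ 2) (hvp : v (p : K) = 1) :
    ∃ (x y : K) (h : W.Nonsingular x y), p • Point.some x y h = 0 ∧ v x < 1 ∧
      v x ^ p = v W.a₄ ^ 2 := by
  have hp3 : 3 ≤ p := by
    have := hp.two_le
    omega
  have hodd : Odd p := hp.odd_of_ne_two hp2
  have hb0 : W.a₄ ≠ 0 := by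
    intro h0
    apply hΔ
    simp [WeierstrassCurve.Δ, WeierstrassCurve.b₂, WeierstrassCurve.b₄, WeierstrassCurve.b₆,
      WeierstrassCurve.b₈, h3, h6, h0]
  have h4 : v (4 : K) ≤ 1 := by
    have : (4 : K) = 2 * 2 := by norm_num
    rw [this, map_mul]
    exact mul_le_one₀ hv2 zero_le hv2
  obtain ⟨x, y, h, hT, hvx⟩ := ImgRoot2.exists_torsion_val_lt_one v W h3 h6 hΔ hb hodd hp3 hvp
  set T : W.Point := Point.some x y h with hTdef
  have hT0 : T ≠ 0 := Point.some_ne_zero h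
  -- no nonzero multiple of `T` lies in `E₀`
  have hnot : ∀ k, 1 ≤ k → k ≤ p - 1 → ¬ InE0 v (k • T) := by
    intro k hk1 hk hE
    have hcop : Nat.Coprime k p := by
      apply Nat.Coprime.symm
      rw [Nat.Prime.coprime_iff_not_dvd hp]
      exact Nat.not_dvd_of_pos_of_lt (by omega) (by omega)
    obtain ⟨m, -, hm⟩ := Nat.exists_mul_mod_eq_one_of_coprime hcop hp.one_lt
    have hTk : T = m • (k • T) := by
      rw [← mul_nsmul, nsmul_eq_mod_nsmul (k * m) hT, hm, one_nsmul]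
    have := inE0_nsmul v h3 h6 hv2 hb2.le hb hE m
    rw [← hTk, hTdef, inE0_some] at this
    exact absurd this (not_le.mpr hvx)
  -- choose the multiple with maximal `v x`
  obtain ⟨k0, hk0mem, hk0max⟩ := Finset.exists_max_image (Finset.Icc 1 (p - 1))
    (fun k => v (xc (k • T))) ⟨1, Finset.mem_Icc.2 ⟨le_rfl, by omega⟩⟩
  have hk0 : 1 ≤ k0 ∧ k0 ≤ p - 1 := Finset.mem_Icc.1 hk0mem
  obtain ⟨P, hPdef⟩ : ∃ P, P = k0 • T := ⟨_, rfl⟩
  have hP0 : P ≠ 0 := by rw [hPdef]; exact nsmul_ne_zero_of hp hT0 hT hk0.1 hk0.2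
  have hP : p • P = 0 := by rw [hPdef, ← mul_nsmul, mul_comm, mul_nsmul, hT, nsmul_zero]
  have hmax : ∀ k, 1 ≤ k → k ≤ p - 1 → v (xc (k • P)) ≤ v (xc P) := by
    intro k hk1 hk
    have e : k • P = ((k0 * k) % p) • T := by
      rw [hPdef, ← mul_nsmul]; exact nsmul_eq_mod_nsmul _ hT
    have hne : k • P ≠ 0 := nsmul_ne_zero_of hp hP0 hP hk1 hk
    have hmem : (k0 * k) % p ∈ Finset.Icc 1 (p - 1) := by
      rw [Finset.mem_Icc]
      constructor
      · rw [Nat.one_le_iff_ne_zero]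
        intro h0'
        rw [h0', zero_nsmul] at e
        exact hne e
      · have := Nat.mod_lt (k0 * k) hp.pos
        omega
    have h1' := hk0max _ hmem
    rw [e, hPdef]; exact h1'
  obtain ⟨hns, eP⟩ := some_of_ne_zero hP0
  have hlt : v (xc P) < 1 := by
    have := hnot k0 hk0.1 hk0.2
    rw [← hPdef, eP, inE0_some, not_le] at this
    exact this
  have hseq := img_nvseq h3 h6 h4 hb2 hb hb0 hp hp2 hP0 hP hmax hlt
  have hval := nv_val2 hp3 hseq
  simp only [one_nsmul] at hval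
  refine ⟨xc P, yc P, hns, ?_, hlt, hval⟩
  rw [← eP]; exact hP

end Fermat.Agent.M43.ImgTwo2
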