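/-
Programme M43, pillar (P-IMG), file 6 (helper2): **(IMG-1) for the Frey curve at `2`.**

For a valuation subring `A` of `ℚ̄` over `2` there is a point `T = (x, y)` of order `p` on the Frey
curve with `v x ^ p = v 2 ^ j`, `p ∤ j` (`j = 2 (p v₂(b) - 4)`).
-/
import Mathlib
import Fermat.Agent.U44.FreyRep7
import Fermat.Agent.U44.FreyBadTwo7
import Fermat.Agent.S05.Inertia
import Fermat.Agent.M43.ImgTwo2

set_option autoImplicit false

open WeierstrassCurve WeierstrassCurve.Affine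

namespace Fermat.Agent.M43.ImgFrey2

open Fermat.Agent.U44.Wire7 Fermat.Agent.Wire.FreyModel9 Fermat.Agent.S05.Inertia

variable (P : FreyPackage)

/-- the Frey curve over `ℚ̄` is the base change of the integral model. -/
theorem bc_eq : (P.freyCurve⁄Qb) = (P.freyCurveInt.map (Int.castRingHom Qb)).toAffine := by
  show (P.freyCurve.map (algebraMap ℚ Qb)) = _
  rw [← freyCurveInt_map, WeierstrassCurve.map_map]
  congr 1

theorem bc_a₃ : (P.freyCurve⁄Qb).a₃ = 0 := by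
  rw [bc_eq]; simp [freyCurveInt_a₃]

theorem bc_a₆ : (P.freyCurve⁄Qb).a₆ = 0 := by
  rw [bc_eq]; simp [freyCurveInt_a₆]

theorem bc_a₄ : (P.freyCurve⁄Qb).a₄ = ((P.freyCurveInt.a₄ : ℤ) : Qb) := by
  rw [bc_eq]; simp

theorem bc_b₂ : (P.freyCurve⁄Qb).b₂ = ((P.b ^ P.p - P.a ^ P.p : ℤ) : Qb) := by
  rw [bc_eq]
  show (P.freyCurveInt.map (Int.castRingHom Qb)).b₂ = _
  rw [WeierstrassCurve.map_b₂, freyCurveInt_b₂]
  rfl

variable {P} (A : ValuationSubring Qb) (hA : A.LiesOverPrime 2)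

include hA

theorem val_b₂ : A.valuation (P.freyCurve⁄Qb).b₂ = 1 := by
  rw [bc_b₂]
  apply valuation_intCast_eq_one Nat.prime_two hA
  intro h
  have hb : (2 : ℤ) ∣ P.b ^ P.p := Dvd.dvd.mul_right (two_dvd_b P) _ |>.trans
    (by rw [← pow_succ', Nat.sub_add_cancel P.hppos] : P.b * P.b ^ (P.p - 1) ∣ P.b ^ P.p)
  have ha : (2 : ℤ) ∣ P.a ^ P.p := by
    have := Int.dvd_sub hb h
    rwa [sub_sub_cancel] at this
  exact Fermat.Agent.U44.FreyBadTwo7.not_two_dvd_a_pow P ha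

/-- `v₂(a₄) = p v₂(b) - 4`. -/
theorem val_a₄ : ∃ m : ℕ, 1 ≤ m ∧ A.valuation (P.freyCurve⁄Qb).a₄ = A.valuation 2 ^ m ∧
    ¬ P.p ∣ 2 * m := by
  have hfin : FiniteMultiplicity (2 : ℤ) P.b := Int.finiteMultiplicity_iff.mpr ⟨by decide, P.hb0⟩
  obtain ⟨c, hc, hc2⟩ := hfin.exists_eq_pow_mul_and_not_dvd
  set e := multiplicity (2 : ℤ) P.b with he
  have he1 : 1 ≤ e := by
    by_contra h0
    have : e = 0 := by omega
    rw [this, pow_zero, one_mul] at hc
    exact hc2 (hc ▸ two_dvd_b P)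
  have hp5 := P.hp5
  have hpe : 5 ≤ P.p * e := by nlinarith
  have hv2 : A.valuation (2 : Qb) ≠ 0 := by
    rw [Valuation.ne_zero_iff]; norm_num
  have hvc : A.valuation ((c : ℤ) : Qb) = 1 := valuation_intCast_eq_one Nat.prime_two hA hc2
  have hva : A.valuation ((P.a ^ P.p : ℤ) : Qb) = 1 :=
    valuation_intCast_eq_one Nat.prime_two hA (Fermat.Agent.U44.FreyBadTwo7.not_two_dvd_a_pow P)
  have hvb : A.valuation ((P.b ^ P.p : ℤ) : Qb) = A.valuation 2 ^ (P.p * e) := by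
    have : ((P.b ^ P.p : ℤ) : Qb) = (2 : Qb) ^ (P.p * e) * ((c : ℤ) : Qb) ^ P.p := by
      conv_lhs => rw [hc]
      push_cast
      ring
    rw [this, map_mul, map_pow, map_pow, hvc, one_pow, mul_one]
  have hmul : ((P.freyCurveInt.a₄ : ℤ) : Qb) * 16 = -((P.a ^ P.p : ℤ) : Qb) * ((P.b ^ P.p : ℤ) : Qb) := by
    have := congrArg (fun z : ℤ => (z : Qb)) (a₄_mul P)
    push_cast at this ⊢
    exact this
  have h16 : A.valuation (16 : Qb) = A.valuation 2 ^ 4 := by
    rw [← map_pow]; norm_num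
  have hval := congrArg A.valuation hmul
  rw [map_mul, map_mul, Valuation.map_neg, hva, one_mul, hvb, h16] at hval
  refine ⟨P.p * e - 4, by omega, ?_, ?_⟩
  · rw [bc_a₄]
    have hsplit : A.valuation (2 : Qb) ^ (P.p * e) =
        A.valuation 2 ^ (P.p * e - 4) * A.valuation 2 ^ 4 := by
      rw [← pow_add, Nat.sub_add_cancel (by omega)]
    rw [hsplit] at hval
    exact mul_right_cancel₀ (pow_ne_zero 4 hv2) hval
  · intro hdvd
    have hodd : Nat.Coprime P.p 2 := by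
      rw [Nat.coprime_comm, Nat.Prime.coprime_iff_not_dvd Nat.prime_two]
      intro h2
      have := (Nat.prime_dvd_prime_iff_eq Nat.prime_two P.pp).mp h2
      omega
    have h1 : P.p ∣ P.p * e - 4 := hodd.dvd_of_dvd_mul_left hdvd
    have h2 : P.p ∣ 4 := by
      have := Nat.dvd_sub (Dvd.intro e rfl : P.p ∣ P.p * e) h1
      rwa [Nat.sub_sub_self (by omega)] at this
    have := Nat.le_of_dvd (by norm_num) h2
    omega

/-- **(IMG-1) for the Frey curve**: a point of order `p` whose `x`-coordinate has a valuation with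
exact denominator `p`. -/
theorem frey_torsion_at_two :
    ∃ (x y : Qb) (h : (P.freyCurve⁄Qb).Nonsingular x y) (j : ℕ),
      P.p • Point.some x y h = 0 ∧ A.valuation x ^ P.p = A.valuation 2 ^ j ∧ ¬ P.p ∣ j := by
  obtain ⟨m, hm1, hm, hpm⟩ := val_a₄ A hA (P := P)
  have h2lt : A.valuation (2 : Qb) < 1 := by
    have := valuation_prime_lt_one (L := Qb) hA
    simpa using this
  have hb : A.valuation (P.freyCurve⁄Qb).a₄ < 1 := by
    rw [hm]
    exact pow_lt_one₀ zero_le h2lt (by omega)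
  have hp2 : P.p ≠ 2 := by have := P.hp5; omega
  have hvp : A.valuation ((P.p : ℕ) : Qb) = 1 := by
    apply valuation_natCast_eq_one Nat.prime_two hA
    intro h2
    have := (Nat.prime_dvd_prime_iff_eq Nat.prime_two P.pp).mp h2
    omega
  obtain ⟨x, y, h, hT, -, hval⟩ := ImgTwo2.exists_torsion_val_pow A.valuation (P.freyCurve⁄Qb)
    (bc_a₃ P) (bc_a₆ P) (Fermat.Agent.U44.FreyRep7.freyCurve_bc_Δ_ne_zero P) h2lt.le
    (val_b₂ A hA) hb P.pp hp2 hvp
  refine ⟨x, y, h, 2 * m, hT, ?_, hpm⟩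
  rw [hval, hm, ← pow_mul, mul_comm]

end Fermat.Agent.M43.ImgFrey2
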