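/-
Programme M43, pillar (P-IMG), file 7 (helper2): **an element of `ℚ̄` fixed by the inertia group at
a place over `q` has its valuation in `v(q)^ℤ`** (from `ES/P36/UnrFixed1.isUnif_natCast`).
-/
import Mathlib
import Fermat.Agent.ES.P36.UnrFixed1

set_option autoImplicit false
set_option linter.style.haveILetI false

namespace Fermat.Agent.M43.ImgUnr2

open Fermat.Agent.RED.Interface4 Fermat.Agent.RED.DESC.NumberFieldDVR27
  Fermat.Agent.RED.PUR.GaussGen8 Fermat.Agent.ES.P36.UnrFixed1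

local notation "Qbar" => AlgebraicClosure ℚ

variable (A : ValuationSubring Qbar) {q : ℕ}

/-- integral case. -/
theorem val_eq_pow_of_fixed_of_le (hq : q.Prime) (hA : A.LiesOverPrime q) (x : Qbar) (hx : x ≠ 0)
    (hx1 : A.valuation x ≤ 1) (hfix : ∀ τ ∈ A.inertiaSubgroupIn ℚ, τ x = x) :
    ∃ n : ℕ, A.valuation x = A.valuation (q : Qbar) ^ n := by
  set K : IntermediateField ℚ Qbar := IntermediateField.adjoin ℚ {x} with hKdef
  have hfin : FiniteDimensional ℚ K :=
    IntermediateField.adjoin.finiteDimensional (Algebra.IsIntegral.isIntegral x)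
  have hxK : x ∈ K := IntermediateField.mem_adjoin_simple_self ℚ x
  have hle : K ≤ IntermediateField.fixedField (A.inertiaSubgroupIn ℚ) := by
    rw [hKdef, IntermediateField.adjoin_le_iff]
    intro z hz
    rw [Set.mem_singleton_iff] at hz
    subst hz
    intro τ
    exact hfix τ.1 τ.2
  have hK : ∀ τ ∈ A.inertiaSubgroupIn ℚ, ∀ y ∈ K, τ y = y := by
    intro τ hτ y hy
    exact hle hy ⟨τ, hτ⟩
  haveI := isDiscreteValuationRing_AK A K hq.ne_zero hA
  have hunif := isUnif_natCast A hq hA K hK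
  have hirr : Irreducible (q : AK A K) :=
    (IsDiscreteValuationRing.irreducible_iff_uniformizer _).mpr hunif.max_eq
  have hxA : (⟨x, hxK⟩ : K) ∈ AK A K := by
    rw [mem_AK_iff]
    exact (A.valuation_le_one_iff x).mp hx1
  set ξ : AK A K := ⟨⟨x, hxK⟩, hxA⟩ with hξ
  have hξ0 : ξ ≠ 0 := by
    intro h0
    apply hx
    have := congrArg (fun z : AK A K => ((z : K) : Qbar)) h0
    simpa [hξ] using this
  obtain ⟨n, u, hu⟩ := IsDiscreteValuationRing.eq_unit_mul_pow_irreducible hξ0 hirr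
  refine ⟨n, ?_⟩
  have hx' : x = (((u : AK A K) : K) : Qbar) * (q : Qbar) ^ n := by
    have := congrArg (fun z : AK A K => ((z : K) : Qbar)) hu
    simpa [hξ] using this
  have hu1 : A.valuation (((u : AK A K) : K) : Qbar) = 1 := by
    have h1 : A.valuation (((u : AK A K) : K) : Qbar) ≤ 1 :=
      (A.valuation_le_one_iff _).mpr ((mem_AK_iff A K _).mp (u : AK A K).2)
    have h2 : A.valuation ((((u⁻¹ : (AK A K)ˣ) : AK A K) : K) : Qbar) ≤ 1 :=
      (A.valuation_le_one_iff _).mpr ((mem_AK_iff A K _).mp ((u⁻¹ : (AK A K)ˣ) : AK A K).2)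
    have h3 : (((u : AK A K) : K) : Qbar) * ((((u⁻¹ : (AK A K)ˣ) : AK A K) : K) : Qbar) = 1 := by
      let φ : AK A K →+* Qbar := (algebraMap K Qbar).comp (AK A K).subtype
      show φ (u : AK A K) * φ ((u⁻¹ : (AK A K)ˣ) : AK A K) = 1
      rw [← map_mul, Units.mul_inv, map_one]
    have h4 := congrArg A.valuation h3
    rw [map_mul, map_one] at h4
    refine le_antisymm h1 ?_
    by_contra hlt
    rw [not_le] at hlt
    have : A.valuation (((u : AK A K) : K) : Qbar) *
        A.valuation ((((u⁻¹ : (AK A K)ˣ) : AK A K) : K) : Qbar) < 1 :=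
      mul_lt_one_of_nonneg_of_lt_one_left zero_le hlt h2
    rw [h4] at this
    exact lt_irrefl _ this
  rw [hx', map_mul, map_pow, hu1, one_mul]

/-- **an element fixed by inertia has its valuation in `v(q)^ℤ`.** -/
theorem val_eq_zpow_of_fixed (hq : q.Prime) (hA : A.LiesOverPrime q) (x : Qbar) (hx : x ≠ 0)
    (hfix : ∀ τ ∈ A.inertiaSubgroupIn ℚ, τ x = x) :
    ∃ n : ℤ, A.valuation x = A.valuation (q : Qbar) ^ n := by
  rcases le_total (A.valuation x) 1 with h | h
  · obtain ⟨n, hn⟩ := val_eq_pow_of_fixed_of_le A hq hA x hx h hfix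
    exact ⟨n, by rw [hn, zpow_natCast]⟩
  · have hx' : x⁻¹ ≠ 0 := inv_ne_zero hx
    have h' : A.valuation x⁻¹ ≤ 1 := by
      rw [map_inv₀]
      exact inv_le_one_of_one_le₀ h
    have hfix' : ∀ τ ∈ A.inertiaSubgroupIn ℚ, τ x⁻¹ = x⁻¹ := by
      intro τ hτ
      rw [map_inv₀, hfix τ hτ]
    obtain ⟨n, hn⟩ := val_eq_pow_of_fixed_of_le A hq hA x⁻¹ hx' h' hfix'
    refine ⟨-(n : ℤ), ?_⟩
    rw [zpow_neg, zpow_natCast, ← hn, map_inv₀, inv_inv]

end Fermat.Agent.M43.ImgUnr2
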