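/-
Programme M43, pillar (P-IMG), file 8 (helper2): **(IMG-2): `p` divides the order of the image of
the inertia group at `2` in `Aut E[p]`** (Frey curve).

`T ∈ E[p]` with `v x(T) ^ p = v 2 ^ j`, `p ∤ j` (`ImgFrey2`); the product of the `x`-coordinates over
the orbit of `T` under the inertia group `I` is fixed by `I`, so its valuation lies in `v(2)^ℤ`
(`ImgUnr2`), while it equals `v x(T) ^ #orbit`: hence `p ∣ #orbit`.

* `exists_p_dvd_index_stabilizer`;
* `p_dvd_card_range` : `p ∣ #f(G_ℚ)` for every homomorphism `f` of `G_ℚ` through which the action on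
  `E[p]` factors.
-/
import Mathlib
import Fermat.Agent.M43.ImgFrey2
import Fermat.Agent.M43.ImgUnr2

set_option autoImplicit false
set_option linter.style.haveILetI false

open WeierstrassCurve WeierstrassCurve.Affine

namespace Fermat.Agent.M43.ImgInertia2

open Fermat.Agent.U44.Wire7 Fermat.Agent.S05.PairFormulas Fermat.Agent.S05.Inertia

variable (P : FreyPackage)

/-- the `x`-coordinate on `E[p]` (`0` at the origin). -/
noncomputable def xcV (Q : Ep P) : Qb := xc (Q : (P.freyCurve⁄Qb).Point)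

theorem xcV_smul (σ : GQ) (Q : Ep P) : xcV P (σ • Q) = σ (xcV P Q) := by
  obtain ⟨Q, hQ⟩ := Q
  show xc (σ • Q) = σ (xc Q)
  rcases Q with _ | ⟨x, y, h⟩
  · show (0 : Qb) = σ 0
    rw [map_zero]
  · rw [Point.algEquiv_smul_def, Point.map_some]
    rfl

instance finite_Ep : Finite (Ep P) := by
  haveI : Fact P.p.Prime := ⟨P.pp⟩
  have := Fermat.Agent.U44.FreyRep7.finrank_Ep P
  haveI : Module.Finite (ZMod P.p) (Ep P) := Module.finite_of_finrank_eq_succ this
  exact Module.finite_of_finite (ZMod P.p)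

variable {P} (A : ValuationSubring Qb) (hA : A.LiesOverPrime 2)

include hA in
/-- **(IMG-2), orbit form.** -/
theorem exists_p_dvd_index_stabilizer :
    ∃ T : Ep P, P.p ∣ (MulAction.stabilizer (A.inertiaSubgroupIn ℚ) T).index := by
  classical
  obtain ⟨x, y, h, j, hT, hval, hpj⟩ := ImgFrey2.frey_torsion_at_two A hA (P := P)
  have hmem : (Point.some x y h : (P.freyCurve⁄Qb).Point) ∈
      Submodule.torsionBy ℤ (P.freyCurve⁄Qb).Point P.p := by
    rw [Submodule.mem_torsionBy_iff, natCast_zsmul]; exact hT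
  set T : Ep P := ⟨Point.some x y h, hmem⟩ with hTdef
  refine ⟨T, ?_⟩
  set I := A.inertiaSubgroupIn ℚ with hI
  have hxT : xcV P T = x := rfl
  -- valuations of `2` and `x`
  have h2lt : A.valuation (2 : Qb) < 1 := by
    have := valuation_prime_lt_one (L := Qb) hA
    simpa using this
  have h2ne : A.valuation (2 : Qb) ≠ 0 := by
    rw [Valuation.ne_zero_iff]; norm_num
  have h2pos : 0 < A.valuation (2 : Qb) := zero_lt_iff.mpr h2ne
  have hvx0 : A.valuation x ≠ 0 := by
    intro h0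
    rw [h0, zero_pow P.hp0] at hval
    exact (pow_ne_zero j h2ne) hval.symm
  -- the orbit
  have hO : (MulAction.orbit I T).Finite := Set.toFinite _
  set F := hO.toFinset with hF
  have hFmem : ∀ Q, Q ∈ F ↔ Q ∈ MulAction.orbit I T := fun Q => hO.mem_toFinset
  have hv : ∀ Q ∈ F, A.valuation (xcV P Q) = A.valuation x := by
    intro Q hQ
    obtain ⟨τ, rfl⟩ := (hFmem Q).mp hQ
    show A.valuation (xcV P ((τ : GQ) • T)) = A.valuation x
    rw [xcV_smul, hxT]
    exact valuation_apply τ.2 x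
  set M : Qb := ∏ Q ∈ F, xcV P Q with hM
  have hvM : A.valuation M = A.valuation x ^ F.card := by
    rw [hM, map_prod, Finset.prod_congr rfl hv, Finset.prod_const]
  have hM0 : M ≠ 0 := by
    rw [← Valuation.ne_zero_iff A.valuation, hvM]
    exact pow_ne_zero _ hvx0
  have hfixM : ∀ τ ∈ I, τ M = M := by
    intro τ hτ
    rw [hM, map_prod]
    have e1 : ∀ Q ∈ F, τ (xcV P Q) = xcV P ((⟨τ, hτ⟩ : I) • Q) := by
      intro Q _
      rw [Subgroup.smul_def, xcV_smul]
    rw [Finset.prod_congr rfl e1]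
    refine Finset.prod_equiv (MulAction.toPerm (⟨τ, hτ⟩ : I)) ?_ ?_
    · intro Q
      rw [hFmem, hFmem, MulAction.toPerm_apply]
      constructor
      · rintro ⟨g, rfl⟩
        exact ⟨⟨τ, hτ⟩ * g, mul_smul _ _ _⟩
      · rintro ⟨g, hg⟩
        refine ⟨(⟨τ, hτ⟩ : I)⁻¹ * g, ?_⟩
        show ((⟨τ, hτ⟩ : I)⁻¹ * g) • T = Q
        rw [mul_smul]
        have : g • T = (⟨τ, hτ⟩ : I) • Q := hg
        rw [this, inv_smul_smul]
    · intro Q _
      rfl
  obtain ⟨i, hi⟩ := ImgUnr2.val_eq_zpow_of_fixed A Nat.prime_two hA M hM0 hfixM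
  rw [Nat.cast_ofNat] at hi
  -- compare exponents
  have hexp : A.valuation (2 : Qb) ^ ((j * F.card : ℕ) : ℤ) = A.valuation (2 : Qb) ^ (i * P.p) := by
    rw [zpow_natCast, pow_mul, ← hval, ← pow_mul, mul_comm, pow_mul, ← hvM, hi, zpow_mul,
      zpow_natCast]
  have hinj := (zpow_right_inj₀ h2pos h2lt.ne).mp hexp
  have hdvd : (P.p : ℤ) ∣ ((j * F.card : ℕ) : ℤ) := ⟨i, by rw [hinj, mul_comm]⟩
  have hdvd' : P.p ∣ j * F.card := Int.natCast_dvd_natCast.mp hdvd
  have hcard : P.p ∣ F.card := (P.pp.dvd_mul.mp hdvd').resolve_left hpj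
  rw [MulAction.index_stabilizer, Set.ncard_eq_toFinset_card _ hO]
  exact hcard

include hA in
/-- **(IMG-2)**: `p` divides the order of the image of `G_ℚ` under any homomorphism through which
the action on `E[p]` factors. -/
theorem p_dvd_card_range {G' : Type*} [Group G'] (f : GQ →* G')
    (hf : ∀ σ : GQ, f σ = 1 → ∀ Q : Ep P, σ • Q = Q) : P.p ∣ Nat.card f.range := by
  obtain ⟨T, hT⟩ := exists_p_dvd_index_stabilizer A hA (P := P)
  set I := A.inertiaSubgroupIn ℚ with hI
  have hle : (f.comp I.subtype).ker ≤ MulAction.stabilizer I T := by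
    intro τ hτ
    rw [MonoidHom.mem_ker] at hτ
    rw [MulAction.mem_stabilizer_iff, Subgroup.smul_def]
    exact hf τ hτ T
  have h1 := Subgroup.index_dvd_of_le hle
  rw [Subgroup.index_ker] at h1
  have h2 : (f.comp I.subtype).range ≤ f.range := by
    rintro _ ⟨τ, rfl⟩
    exact ⟨τ, rfl⟩
  exact (hT.trans h1).trans (Subgroup.card_dvd_of_le h2)

end Fermat.Agent.M43.ImgInertia2
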