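/-
Programme M43, pillar (P-IMG), file 9 (helper2): **(IMG-3): `SL₂(𝔽_p) ≤ im ρ̄` for the irreducible
Frey representation, and the span condition on every subgroup of `G_ℚ` containing all squares.**

* `rhoGL`     : `rhoV P` in the matrix form `G_ℚ →* GL₂(𝔽_p)` (basis `bEp`);
* `sl_le_range` : every matrix of determinant `1` is in the image (`M48/Transvec6` + (IMG-2));
* `span_rhoV_eq_top` : for a subgroup `G ≤ G_ℚ` containing all squares (e.g. of index `≤ 2`), the
  `𝔽_p`-span of `rhoV P (G)` is `End E[p]`.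
-/
import Mathlib
import Fermat.Agent.M43.ImgInertia2
import Fermat.Agent.M48.Transvec6
import Fermat.Agent.Lib.FrobeniusExists

set_option autoImplicit false
set_option linter.style.haveILetI false

open WeierstrassCurve WeierstrassCurve.Affine WeierstrassCurve.Affine.Point Matrix

namespace Fermat.Agent.M43.ImgSL2

open Fermat.Agent.U44.Wire7 Fermat.Agent.U44.FreyRep7 Fermat.Agent.M48.Transvec6

variable (P : FreyPackage)

/-- `p` is prime (local instance). -/
theorem factP : Fact P.p.Prime := ⟨P.pp⟩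

attribute [local instance] factP

/-- a basis of `E[p]`. -/
noncomputable def bEp : Module.Basis (Fin 2) (ZMod P.p) (Ep P) :=
  Module.finBasisOfFinrankEq (ZMod P.p) (Ep P) (finrank_Ep P)

/-- the matrix form of the mod `p` representation of the Frey curve. -/
noncomputable def rhoGL : GQ →* GL (Fin 2) (ZMod P.p) :=
  (Units.map ((LinearMap.toMatrixAlgEquiv (bEp P)).toAlgHom.toRingHom : _ →* _)).comp
    (rhoV P).toHomUnits

theorem coe_rhoGL (σ : GQ) :
    ((rhoGL P σ : GL (Fin 2) (ZMod P.p)) : Matrix (Fin 2) (Fin 2) (ZMod P.p)) =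
      LinearMap.toMatrix (bEp P) (bEp P) (rhoV P σ) := rfl

theorem rhoV_eq_one_of_rhoGL {σ : GQ} (h : rhoGL P σ = 1) : rhoV P σ = 1 := by
  have h1 := congrArg (fun g : GL (Fin 2) (ZMod P.p) => (g : Matrix (Fin 2) (Fin 2) (ZMod P.p))) h
  simp only [coe_rhoGL, Units.val_one] at h1
  apply (LinearMap.toMatrix (bEp P) (bEp P)).injective
  rw [h1, Module.End.one_eq_id, LinearMap.toMatrix_id]

theorem p_dvd_card_range_rhoGL : P.p ∣ Nat.card (rhoGL P).range := by
  obtain ⟨A, hA⟩ :=
    Fermat.Agent.Lib.FrobeniusExists.exists_valuationSubring_liesOverPrime 2 Nat.prime_two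
  apply ImgInertia2.p_dvd_card_range A hA (rhoGL P)
  intro σ hσ Q
  have := rhoV_eq_one_of_rhoGL P hσ
  have h2 := LinearMap.congr_fun this Q
  rwa [rhoV_apply] at h2

/-- the action of `rhoGL` on coordinates. -/
theorem rhoGL_mulVec (σ : GQ) (w : Ep P) :
    ((rhoGL P σ : GL (Fin 2) (ZMod P.p)) : Matrix (Fin 2) (Fin 2) (ZMod P.p)) *ᵥ
      ((bEp P).repr w) = (bEp P).repr (rhoV P σ w) := by
  rw [coe_rhoGL, LinearMap.toMatrix_mulVec_repr]

variable {P}

/-- **`SL₂(𝔽_p) ≤ im ρ̄`.** -/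
theorem sl_le_range (hirr : GaloisRepIsIrreducible (K := Qb) ℚ P.freyCurve P.p)
    (s : GL (Fin 2) (ZMod P.p)) (hs : (s : Matrix (Fin 2) (Fin 2) (ZMod P.p)).det = 1) :
    s ∈ (rhoGL P).range := by
  refine sl_le_of_dvd_card (rhoGL P).range ?_ (p_dvd_card_range_rhoGL P) s hs
  intro W hW
  -- transport `W` to `E[p]`
  set e : Ep P ≃ₗ[ZMod P.p] (Fin 2 → ZMod P.p) := (bEp P).equivFun with he
  have hstab : ∀ g, ∀ w ∈ W.comap e.toLinearMap, rhoV P g w ∈ W.comap e.toLinearMap := by
    intro g w hw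
    rw [Submodule.mem_comap] at hw ⊢
    have := hW (rhoGL P g) ⟨g, rfl⟩ _ hw
    have h2 := rhoGL_mulVec P g w
    simp only [LinearEquiv.coe_coe, he, Module.Basis.equivFun_apply] at this ⊢
    rw [h2] at this
    exact this
  rcases irr_rhoV P hirr _ hstab with h | h
  · refine ⟨⊤, fun _ _ _ _ => trivial, ?_⟩
    have hW0 : W = ⊥ := by
      rw [eq_bot_iff]
      intro w hw
      have : e.symm w ∈ W.comap e.toLinearMap := by
        rw [Submodule.mem_comap]; simpa using hw
      rw [h, Submodule.mem_bot] at this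
      rw [Submodule.mem_bot]
      simpa using congrArg e this
    rw [hW0]
    exact isCompl_bot_top
  · refine ⟨⊥, fun _ _ v hv => ?_, ?_⟩
    · rw [Submodule.mem_bot] at hv
      rw [hv, Matrix.mulVec_zero]
      exact Submodule.zero_mem _
    · have hW1 : W = ⊤ := by
        rw [eq_top_iff]
        intro w _
        have : e.symm w ∈ W.comap e.toLinearMap := by rw [h]; trivial
        rw [Submodule.mem_comap] at this
        simpa using this
      rw [hW1]
      exact isCompl_top_bot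

/-- a transvection in the image is the image of an element of any subgroup containing the
squares. -/
theorem exists_mem_of_pow_eq_one (G : Subgroup GQ) (hG : ∀ σ : GQ, σ * σ ∈ G)
    (u : GL (Fin 2) (ZMod P.p)) (hu : u ^ P.p = 1) (hmem : u ∈ (rhoGL P).range) :
    ∃ τ ∈ G, rhoGL P τ = u := by
  obtain ⟨σ, rfl⟩ := hmem
  obtain ⟨m, hm⟩ : ∃ m, P.p + 1 = 2 * m := by
    obtain ⟨j, hj⟩ := P.hp_odd
    exact ⟨j + 1, by omega⟩
  refine ⟨σ ^ m * σ ^ m, hG _, ?_⟩
  rw [map_mul, map_pow, ← pow_add, ← two_mul, ← hm, pow_succ, hu, one_mul]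

/-- **the span condition.** -/
theorem span_rhoV_eq_top (hirr : GaloisRepIsIrreducible (K := Qb) ℚ P.freyCurve P.p)
    (G : Subgroup GQ) (hG : ∀ σ : GQ, σ * σ ∈ G) :
    Submodule.span (ZMod P.p) (Set.range ((rhoV P).comp G.subtype)) = ⊤ := by
  have hpz : ((P.p : ℕ) : ZMod P.p) = 0 := ZMod.natCast_self P.p
  have hu : (upper (1 : ZMod P.p)) ^ P.p = 1 := by
    rw [upper_pow, mul_one, hpz, upper_zero]
  have hl : (lower (1 : ZMod P.p)) ^ P.p = 1 := by
    rw [lower_pow, mul_one, hpz, lower_zero]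
  obtain ⟨τu, hτu, eu⟩ := exists_mem_of_pow_eq_one G hG _ hu
    (sl_le_range hirr _ (det_upper 1))
  obtain ⟨τl, hτl, el⟩ := exists_mem_of_pow_eq_one G hG _ hl
    (sl_le_range hirr _ (det_lower 1))
  rw [eq_top_iff]
  intro f _
  set S := Submodule.span (ZMod P.p) (Set.range ((rhoV P).comp G.subtype)) with hS
  have hmemS : ∀ τ ∈ G, rhoV P τ ∈ S := fun τ hτ => Submodule.subset_span ⟨⟨τ, hτ⟩, rfl⟩
  set M := LinearMap.toMatrix (bEp P) (bEp P) f with hM
  have hMu : LinearMap.toMatrix (bEp P) (bEp P) (rhoV P τu) = !![1, 1; 0, 1] := by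
    rw [← coe_rhoGL, eu, coe_upper]
  have hMl : LinearMap.toMatrix (bEp P) (bEp P) (rhoV P τl) = !![1, 0; 1, 1] := by
    rw [← coe_rhoGL, el, coe_lower]
  have hMul : LinearMap.toMatrix (bEp P) (bEp P) (rhoV P (τu * τl)) = !![2, 1; 1, 1] := by
    rw [map_mul, Module.End.mul_eq_comp, LinearMap.toMatrix_comp (bEp P) (bEp P) (bEp P), hMu, hMl]
    ext i j
    fin_cases i <;> fin_cases j <;> (simp [Matrix.mul_apply, Fin.sum_univ_two]; try norm_num)
  have hM1 : LinearMap.toMatrix (bEp P) (bEp P) (rhoV P 1) = 1 := by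
    rw [map_one, Module.End.one_eq_id, LinearMap.toMatrix_id]
  -- `f` as a combination of `1, u, l, u l`
  set d := M 0 0 - M 1 1 with hd
  have hf : f = (M 1 1 - M 0 1 - M 1 0 + d) • rhoV P 1 + (M 0 1 - d) • rhoV P τu +
      (M 1 0 - d) • rhoV P τl + d • rhoV P (τu * τl) := by
    apply (LinearMap.toMatrix (bEp P) (bEp P)).injective
    rw [map_add, map_add, map_add, map_smul, map_smul, map_smul, map_smul, hMu, hMl, hMul, hM1,
      ← hM]
    ext i j
    fin_cases i <;> fin_cases j <;> simp [hd] <;> ring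
  rw [hf]
  exact Submodule.add_mem _ (Submodule.add_mem _ (Submodule.add_mem _
    (Submodule.smul_mem _ _ (hmemS 1 G.one_mem)) (Submodule.smul_mem _ _ (hmemS τu hτu)))
    (Submodule.smul_mem _ _ (hmemS τl hτl)))
    (Submodule.smul_mem _ _ (hmemS _ (G.mul_mem hτu hτl)))

end Fermat.Agent.M43.ImgSL2
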