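/-
Programme M43 (target S43), pillar (P-MP) **MAZUR'S PRINCIPLE**, interface file (helper4, pillar
owner): the literal END THEOREMS of the pillar, as `Prop`-valued contracts (contract-first, as in
M48/M27).  Vocabulary of `U44/Wire7` (`Qb`, `GQ`, `Ep P = E[p](ℚ̄)`).

* `FrobScalar P q` : every Frobenius element at `q` acts on `E[p]` as the scalar `± q`;
* `MPStmt`  : **(MP), strong form**: for a conductor level `N`, an odd prime `q ∣ N`, `q ≠ p`, at which
  `E[p]` is unramified: `E[p]` is modular of level `N / q`, OR every Frobenius element at `q` is the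
  scalar `± q` on `E[p]`;
* `MPCongStmt` : the corollary `q ≡ 1 (mod p)` in the second case (`det ρ̄ = χ_p`).
-/
import Mathlib
import Fermat.Agent.U44.Wire7

set_option autoImplicit false

open WeierstrassCurve WeierstrassCurve.Affine WeierstrassCurve.Affine.Point

noncomputable section

namespace Fermat.Agent.M43.MPIface4

open Fermat.Agent.U44.Wire7

/-- every Frobenius element at `q` acts on `E[p](ℚ̄)` as the scalar `q` or `-q`. -/
def FrobScalar (P : FreyPackage) (q : ℕ) : Prop :=
  ∀ A : ValuationSubring Qb, A.LiesOverPrime q → ∀ φ : GQ, A.IsFrobeniusAt φ q →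
    ∃ ε : ℤ, (ε = 1 ∨ ε = -1) ∧ ∀ z : Ep P, φ • z = (ε * (q : ℤ)) • z

/-- **(MP), strong form.** -/
def MPStmt : Prop :=
  ∀ (P : FreyPackage) {N q : ℕ}, P.IsConductorLevel N → q.Prime → q ≠ 2 → q ≠ P.p → q ∣ N →
    GaloisRepIsIrreducible (K := Qb) ℚ P.freyCurve P.p →
    P.ModularRepOfLevel N → P.GaloisRepUnramifiedAt q →
    P.ModularRepOfLevel (N / q) ∨ FrobScalar P q

/-- the corollary of the scalar case: `q ≡ 1 (mod p)`. -/
def MPCongStmt : Prop :=
  ∀ (P : FreyPackage) {q : ℕ}, q.Prime → q ≠ P.p → P.GaloisRepUnramifiedAt q →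
    FrobScalar P q → ((q : ℤ) : ZMod P.p) = 1

end Fermat.Agent.M43.MPIface4
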