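/-
Programme M43 (target S43), pillar (P-MP) Mazur's principle, corollary (helper4):
**in the scalar case `q ≡ 1 (mod p)`.**

* `det_rhoV` : `det ρ_{E,p} = χ_p` (the mod `p` cyclotomic character) for the irreducible Frey
  representation (from `U44/RankTwoDet7.det_eq`, as inside `U44/C1Main7.freyEmbeds`; integral model
  `P.freyCurveInt`, level `1`);
* **`mpCong`** : `FrobScalar P q` (every Frobenius element at `q` is `± q` on `E[p]`) and
  `q ≠ p` imply `q ≡ 1 (mod p)` (`q² = det = q`);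
* `mpCong_trace` : in that case `± q ≡ ± 1`: every Frobenius element at `q` acts on `E[p]` as the
  scalar `ε = ± 1`.
-/
import Mathlib
import Fermat.Agent.M43.MPIface4
import Fermat.Agent.U44.C1Main7
import Fermat.Agent.Wire.FreyModel9
import Fermat.Agent.Lib.FrobeniusExists
import Fermat.Agent.U44.Pull7

set_option autoImplicit false
set_option linter.unusedSectionVars false
set_option linter.style.haveILetI false
set_option linter.unusedVariables false
set_option maxHeartbeats 1000000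

open WeierstrassCurve WeierstrassCurve.Affine WeierstrassCurve.Affine.Point
open AlgebraicCurve ModularCurve Polynomial

noncomputable section

namespace Fermat.Agent.M43.MPCong4

open Fermat.Agent.U44.Wire7 Fermat.Agent.U44.FreyRep7 Fermat.Agent.U44.C1Main7
  Fermat.Agent.M43.MPIface4

variable (P : FreyPackage)

/-- **`det ρ_{E,p} = χ_p`** for the irreducible Frey representation. -/
theorem det_rhoV (hirr : GaloisRepIsIrreducible (K := Qb) ℚ P.freyCurve P.p) (g : GQ) :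
    haveI : Fact P.p.Prime := ⟨P.pp⟩
    LinearMap.det (rhoV P g) = ((dmod P.p g : (ZMod P.p)ˣ) : ZMod P.p) := by
  classical
  haveI : Fact P.p.Prime := ⟨P.pp⟩
  haveI : NeZero P.p := ⟨P.hp0⟩
  have hW : P.freyCurveInt.IsIntegralModelOf P.freyCurve :=
    Fermat.Agent.Wire.FreyModel9.isIntegralModelOf P
  have hV2 : Module.finrank (ZMod P.p) (Ep P) = 2 := finrank_Ep P
  haveI : Module.Finite (ZMod P.p) (Ep P) :=
    Module.finite_of_finrank_pos (by rw [hV2]; norm_num)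
  let b : Module.Basis (Fin 2) (ZMod P.p) (Ep P) := Module.finBasisOfFinrankEq _ _ hV2
  have hirrV := irr_rhoV P hirr
  have hΦV : ∀ φ t, FrobAt P (N := 1) P.freyCurveInt φ t →
      rhoV P φ * rhoV P φ - t • rhoV P φ +
      ((dmod P.p φ : (ZMod P.p)ˣ) : ZMod P.p) • (1 : Module.End (ZMod P.p) (Ep P)) = 0 :=
    fun φ t h => frobAt_rel_V P P.freyCurveInt hW h
  have hdenseV : ∀ g : GQ, ∃ φ t, ∃ j : ℕ, FrobAt P (N := 1) P.freyCurveInt φ t ∧
      rhoV P (g⁻¹ * φ ^ j) = 1 ∧ dmod P.p (g⁻¹ * φ ^ j) = 1 := by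
    intro g
    obtain ⟨φ, t, j, h1, -, h3, h4⟩ := dense P (N := 1) P.freyCurveInt hW g
    exact ⟨φ, t, j, h1, h3, h4⟩
  exact Fermat.Agent.U44.RankTwoDet7.det_eq (rhoV P) (dmod P.p) hirrV
    (FrobAt P (N := 1) P.freyCurveInt) hΦV hdenseV b g

/-- the scalar `ε q` of `FrobScalar`, modulo `p`. -/
theorem rhoV_eq_smul_of_scalar {φ : GQ} {c : ℤ} (hz : ∀ z : Ep P, φ • z = c • z) :
    rhoV P φ = ((c : ℤ) : ZMod P.p) • (1 : Module.End (ZMod P.p) (Ep P)) := by
  refine LinearMap.ext fun v => ?_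
  rw [rhoV_apply, LinearMap.smul_apply, Module.End.one_apply, Int.cast_smul_eq_zsmul]
  exact hz v

/-- **in the scalar case `q ≡ 1 (mod p)`.** -/
theorem mpCong {q : ℕ} (hq : q.Prime) (hqp : q ≠ P.p)
    (hirr : GaloisRepIsIrreducible (K := Qb) ℚ P.freyCurve P.p) (hs : FrobScalar P q) :
    ((q : ℤ) : ZMod P.p) = 1 := by
  classical
  haveI : Fact P.p.Prime := ⟨P.pp⟩
  haveI : NeZero P.p := ⟨P.hp0⟩
  obtain ⟨A, φ, hA, hφ⟩ := Fermat.Agent.Lib.exists_isFrobeniusAt q hq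
  obtain ⟨ε, hε, hz⟩ := hs A hA φ hφ
  have hV2 : Module.finrank (ZMod P.p) (Ep P) = 2 := finrank_Ep P
  have h1 := det_rhoV P hirr φ
  rw [rhoV_eq_smul_of_scalar P hz, LinearMap.det_smul, hV2, map_one, mul_one,
    dmod_frob P.p hq hqp A hA hφ] at h1
  have hε2 : ε * ε = 1 := by
    rcases hε with h | h <;> rw [h] <;> norm_num
  have h2 : ((q : ℤ) : ZMod P.p) ^ 2 = ((q : ℤ) : ZMod P.p) := by
    have e : ((ε * (q : ℤ) : ℤ) : ZMod P.p) ^ 2 = ((q : ℤ) : ZMod P.p) ^ 2 := by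
      rw [← Int.cast_pow, ← Int.cast_pow]
      congr 1
      calc (ε * (q : ℤ)) ^ 2 = (ε * ε) * (q : ℤ) ^ 2 := by ring
        _ = (q : ℤ) ^ 2 := by rw [hε2, one_mul]
    rw [← e, h1]
    push_cast
    rfl
  have hq0 : ((q : ℤ) : ZMod P.p) ≠ 0 := by
    rw [Int.cast_natCast, Ne, ZMod.natCast_eq_zero_iff]
    intro hd
    exact hqp ((Nat.prime_dvd_prime_iff_eq P.pp hq).1 hd).symm
  have h3 : ((q : ℤ) : ZMod P.p) * ((q : ℤ) : ZMod P.p) = ((q : ℤ) : ZMod P.p) * 1 := by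
    rw [mul_one, ← pow_two, h2]
  exact mul_left_cancel₀ hq0 h3

/-- **in the scalar case every Frobenius element at `q` is `± 1` on `E[p]`.** -/
theorem mpCong_sign {q : ℕ} (hq : q.Prime) (hqp : q ≠ P.p)
    (hirr : GaloisRepIsIrreducible (K := Qb) ℚ P.freyCurve P.p) (hs : FrobScalar P q)
    (A : ValuationSubring Qb) (hA : A.LiesOverPrime q) (φ : GQ) (hφ : A.IsFrobeniusAt φ q) :
    ∃ ε : ℤ, (ε = 1 ∨ ε = -1) ∧ ∀ z : Ep P, φ • z = ε • z := by
  haveI : Fact P.p.Prime := ⟨P.pp⟩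
  obtain ⟨ε, hε, hz⟩ := hs A hA φ hφ
  refine ⟨ε, hε, fun z => ?_⟩
  have h1 := mpCong P hq hqp hirr hs
  have h2 : (P.p : ℤ) ∣ (q : ℤ) - 1 := by
    have : (((q : ℤ) - 1 : ℤ) : ZMod P.p) = 0 := by
      rw [Int.cast_sub, h1, Int.cast_one, sub_self]
    exact (ZMod.intCast_zmod_eq_zero_iff_dvd _ _).1 this
  obtain ⟨k, hk⟩ := h2
  have hq' : (q : ℤ) = 1 + P.p * k := by linarith
  have hpz : (P.p : ℤ) • z = 0 := by
    rw [natCast_zsmul]
    exact Fermat.Agent.U44.Pull7.nsmul_Ep z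
  rw [hz z, hq', mul_add, mul_one, add_smul, ← mul_assoc, mul_comm ε, mul_assoc, mul_smul,
    smul_comm, hpz, smul_zero, add_zero]

end Fermat.Agent.M43.MPCong4
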