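/-
Programme M43, pillar (P-IMG), file 10 (helper2): **(IMG-4): the residual representation of the
Frey curve as a Prelude `ResidualGaloisRep`, with the hypotheses `habs`, `hTW`, `hsplit`, `hdet` of
the frame of `Iface2.PatchOutputStmt` (literally).**

* `rhoFrey P : ResidualGaloisRep (ZMod P.p)` (`V = Ep P`, `ρ = rhoV P`);
* `rhobar P k := (rhoFrey P).baseChange k` for a field `k` with `[Algebra (ZMod P.p) k]`;
* `stable_eq_bot_or_top` : for a subgroup `G ≤ G_ℚ` containing all squares and any field `K / k`, a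
  `G`-stable subspace of `rhobar ⊗ K` is `⊥` or `⊤`;
* `hTW`, `habs`, `hsplit` (under `hk`: the elements of `𝔽_p` are squares in `k`; `isSquare_of_card`:
  this holds when `#k = p^(2m)`), `hdet`.
-/
import Mathlib
import Fermat.Agent.M43.ImgSL2
import Fermat.Agent.M43.AbsIrr3
import Fermat.Agent.M43.MPCong4
import Fermat.Agent.M43.GlobDet3
import Fermat.Agent.U44.RankTwoDet7

set_option autoImplicit false
set_option linter.style.haveILetI false

open WeierstrassCurve WeierstrassCurve.Affine WeierstrassCurve.Affine.Point Polynomial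
open scoped TensorProduct

namespace Fermat.Agent.M43.ImgFrame2

open Fermat.Agent.U44.Wire7 Fermat.Agent.U44.FreyRep7 Fermat.Agent.M43.ImgSL2

local notation "Γ" => (AlgebraicClosure ℚ ≃ₐ[ℚ] AlgebraicClosure ℚ)

variable (P : FreyPackage)

attribute [local instance] factP

/-- **the residual representation of the Frey curve** over `𝔽_p`. -/
noncomputable def rhoFrey : ResidualGaloisRep (ZMod P.p) where
  V := Ep P
  finrank_eq := finrank_Ep P
  ρ := rhoV P
  factorsThroughFiniteLevel := by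
    obtain ⟨K, hK, h⟩ := hasLevel_Ep P
    exact ⟨K, hK, fun σ hσ => LinearMap.ext fun v => h σ hσ v⟩

variable (k : Type) [Field k] [Algebra (ZMod P.p) k]

/-- the residual representation of the Frey curve over `k`. -/
noncomputable abbrev rhobar : ResidualGaloisRep k := (rhoFrey P).baseChange k

theorem rhobar_apply (σ : Γ) : (rhobar P k).ρ σ = (rhoV P σ).baseChange k := rfl

variable {P}

/-- the span condition over `k`. -/
theorem span_rhobar_eq_top (hirr : GaloisRepIsIrreducible (K := Qb) ℚ P.freyCurve P.p)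
    (G : Subgroup Γ) (hG : ∀ σ : Γ, σ * σ ∈ G) :
    Submodule.span k (Set.range ((rhobar P k).ρ.comp G.subtype)) = ⊤ :=
  AbsIrr3.span_baseChange_eq_top ((rhoV P).comp G.subtype) k (bEp P)
    (span_rhoV_eq_top hirr G hG)

/-- **big image**: for a subgroup `G` of `G_ℚ` containing all squares and every extension `K / k`,
a `G`-stable subspace of `rhobar ⊗ K` is trivial. -/
theorem stable_eq_bot_or_top (hirr : GaloisRepIsIrreducible (K := Qb) ℚ P.freyCurve P.p)
    (K : Type) [Field K] [Algebra k K] (G : Subgroup Γ) (hG : ∀ σ : Γ, σ * σ ∈ G)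
    (V : Submodule K ((rhobar P k).baseChange K).V)
    (hV : ∀ σ ∈ G, ∀ x ∈ V, ((rhobar P k).baseChange K).ρ σ x ∈ V) : V = ⊥ ∨ V = ⊤ := by
  have h1 := AbsIrr3.span_baseChange_eq_top ((rhobar P k).ρ.comp G.subtype) K
    (Algebra.TensorProduct.basis k (bEp P)) (span_rhobar_eq_top k hirr G hG)
  exact AbsIrr3.eq_bot_or_eq_top_of_span_eq_top
    (((rhobar P k).baseChange K).ρ.comp G.subtype) h1 V fun g x hx => hV g.1 g.2 x hx

/-- **`hTW`**, literally as in `Iface2.PatchOutputStmt`. -/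
theorem hTW (hirr : GaloisRepIsIrreducible (K := Qb) ℚ P.freyCurve P.p) :
    ∀ (K : Type) [Field K] [Algebra k K] (G : Subgroup Γ), G.index = 2 →
      ∀ V : Submodule K ((rhobar P k).baseChange K).V,
        (∀ σ ∈ G, ∀ x ∈ V, ((rhobar P k).baseChange K).ρ σ x ∈ V) → V = ⊥ ∨ V = ⊤ :=
  fun K _ _ G hG V hV =>
    stable_eq_bot_or_top k hirr K G (Subgroup.mul_self_mem_of_index_two hG) V hV

/-- **`habs`**. -/
theorem habs (hirr : GaloisRepIsIrreducible (K := Qb) ℚ P.freyCurve P.p) :
    (rhobar P k).IsAbsolutelyIrreducible := fun V hV =>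
  stable_eq_bot_or_top k hirr (AlgebraicClosure k) ⊤ (fun _ => Subgroup.mem_top _) V
    fun σ _ x hx => hV σ x hx

/-! ### `hsplit` -/

/-- a quadratic with square discriminant splits. -/
theorem quad_splits {F : Type*} [Field F] (h2 : (2 : F) ≠ 0) (t d s : F)
    (hs : s * s = t ^ 2 - 4 * d) :
    (X ^ 2 - C t * X + C d : F[X]) = (X - C ((t + s) / 2)) * (X - C ((t - s) / 2)) := by
  have h4 : (4 : F) ≠ 0 := by
    have : (4 : F) = 2 * 2 := by norm_num
    rw [this]; exact mul_ne_zero h2 h2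
  have e1 : (t + s) / 2 + (t - s) / 2 = t := by field_simp; ring
  have e2 : (t + s) / 2 * ((t - s) / 2) = d := by
    field_simp
    linear_combination (-1 : F) * hs
  have : (X - C ((t + s) / 2)) * (X - C ((t - s) / 2)) =
      (X ^ 2 - C ((t + s) / 2 + (t - s) / 2) * X + C ((t + s) / 2 * ((t - s) / 2)) : F[X]) := by
    rw [C_add, C_mul]; ring
  rw [this, e1, e2]

/-- **`hsplit`**, under the hypothesis that the elements of `𝔽_p` are squares in `k`. -/
theorem hsplit (hk : ∀ D : ZMod P.p, IsSquare (algebraMap (ZMod P.p) k D)) :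
    ∀ σ : Γ, ∃ α β : k, LinearMap.charpoly ((rhobar P k).ρ σ) = (X - C α) * (X - C β) := by
  intro σ
  have hp2 : P.p ≠ 2 := by have := P.hp5; omega
  have h2 : (2 : k) ≠ 0 := by
    have h2' : (2 : ZMod P.p) ≠ 0 := by
      intro h
      have : ((2 : ℕ) : ZMod P.p) = 0 := by exact_mod_cast h
      rw [ZMod.natCast_eq_zero_iff] at this
      have := (Nat.prime_dvd_prime_iff_eq P.pp Nat.prime_two).mp this
      omega
    intro h
    apply h2'
    apply (algebraMap (ZMod P.p) k).injective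
    rw [map_ofNat, _root_.map_zero, h]
  haveI : Module.Finite (ZMod P.p) (Ep P) := Module.Finite.of_basis (bEp P)
  haveI : Module.Free (ZMod P.p) (Ep P) := Module.Free.of_basis (bEp P)
  set t := LinearMap.trace (ZMod P.p) (Ep P) (rhoV P σ) with ht
  set d := LinearMap.det (rhoV P σ) with hd
  obtain ⟨s, hs⟩ := hk (t ^ 2 - 4 * d)
  refine ⟨(algebraMap (ZMod P.p) k t + s) / 2, (algebraMap (ZMod P.p) k t - s) / 2, ?_⟩
  have e : LinearMap.charpoly ((rhobar P k).ρ σ) =
      (LinearMap.charpoly (rhoV P σ)).map (algebraMap (ZMod P.p) k) :=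
    LinearMap.charpoly_baseChange (rhoV P σ) k
  rw [e, Fermat.Agent.U44.RankTwoDet7.charpoly_eq_of_basis (bEp P) (rhoV P σ)]
  simp only [Polynomial.map_add, Polynomial.map_sub, Polynomial.map_mul, Polynomial.map_pow,
    Polynomial.map_X, Polynomial.map_C]
  apply quad_splits h2
  rw [← hs, map_sub, map_pow, map_mul, map_ofNat]

/-- the elements of `𝔽_p` are squares in a finite field of even degree over `𝔽_p`. -/
theorem isSquare_of_card [Fintype k] (m : ℕ) (hcard : Fintype.card k = P.p ^ (2 * m))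
    (D : ZMod P.p) : IsSquare (algebraMap (ZMod P.p) k D) := by
  by_cases hD : D = 0
  · rw [hD, _root_.map_zero]; exact IsSquare.zero
  have hp2 : P.p ≠ 2 := by have := P.hp5; omega
  haveI : CharP k P.p := by
    rw [← Algebra.charP_iff (ZMod P.p) k P.p]; infer_instance
  have hx0 : algebraMap (ZMod P.p) k D ≠ 0 :=
    (map_ne_zero_iff _ (algebraMap (ZMod P.p) k).injective).mpr hD
  have hchar : ringChar k ≠ 2 := by
    rw [ringChar.eq k P.p]; exact hp2
  rw [FiniteField.isSquare_iff hchar hx0, hcard]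
  -- `(p - 1) ∣ p ^ (2m) / 2`
  obtain ⟨e, he⟩ : ∃ e, P.p + 1 = 2 * e := by
    obtain ⟨j, hj⟩ := P.hp_odd
    exact ⟨j + 1, by omega⟩
  obtain ⟨c, hc⟩ : P.p ^ 2 - 1 ∣ (P.p ^ 2) ^ m - 1 := by
    exact Nat.sub_one_dvd_pow_sub_one (P.p ^ 2) m
  have hp1 : 1 ≤ P.p := P.pp.one_le
  have hsq : P.p ^ 2 - 1 = (P.p - 1) * (P.p + 1) := by
    obtain ⟨r, hr⟩ : ∃ r, P.p = r + 1 := ⟨P.p - 1, by omega⟩
    rw [hr]; simp only [Nat.add_sub_cancel]; ring_nf; omega
  have hN : P.p ^ (2 * m) = 2 * ((P.p - 1) * (e * c)) + 1 := by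
    have h1 : 1 ≤ (P.p ^ 2) ^ m := Nat.one_le_pow _ _ (by positivity)
    have : (P.p ^ 2) ^ m = (P.p ^ 2) ^ m - 1 + 1 := by omega
    rw [pow_mul, this, hc, hsq, he]; ring
  have hhalf : P.p ^ (2 * m) / 2 = (P.p - 1) * (e * c) := by
    rw [hN]; omega
  rw [hhalf, pow_mul, ← map_pow, ZMod.pow_card_sub_one_eq_one hD, _root_.map_one, one_pow]

/-! ### `hdet` -/

/-- **`hdet`**. -/
theorem hdet (hirr : GaloisRepIsIrreducible (K := Qb) ℚ P.freyCurve P.p) :
    (GaloisRepAdic.ofResidualGaloisRep (rhobar P k)).DetIsCyclotomic P.p := by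
  haveI : Module.Finite (ZMod P.p) (Ep P) := Module.Finite.of_basis (bEp P)
  haveI : Module.Free (ZMod P.p) (Ep P) := Module.Free.of_basis (bEp P)
  have hpk : ((P.p : ℕ) : k) = 0 := by
    rw [← map_natCast (algebraMap (ZMod P.p) k), ZMod.natCast_self, _root_.map_zero]
  refine Fermat.Agent.M43.GlobDet3.detIsCyclotomic_of_frobenius P.p ?_ _ {P.p}
    (Finset.mem_singleton_self _) ?_
  · rw [hpk]; exact Ideal.zero_mem _
  · intro ℓ hℓ hℓS A hA φ hφ
    have hℓp : ℓ ≠ P.p := fun h => hℓS (by rw [h]; exact Finset.mem_singleton_self _)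
    show LinearMap.det ((rhoV P φ).baseChange k) = (ℓ : k)
    rw [LinearMap.det_baseChange, Fermat.Agent.M43.MPCong4.det_rhoV P hirr φ,
      dmod_frob P.p hℓ hℓp A hA hφ, map_natCast]

end Fermat.Agent.M43.ImgFrame2
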