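/-
Programme M43 (target S43), chapter TOP, helper2: **(T2) the local facts of the patching frame for
the Frey representation** `ρbar = ImgFrame2.rhobar P k`.

* `rhobar_apply_eq_one_iff` : `ρbar(σ) = 1` iff `σ` acts trivially on `E[p]`;
* `isUnramifiedAt_of_unramified`, `hur` : `ρbar` is unramified at every prime `q ∉ {2, p}` (banked
  S05);
* `not_isUnramifiedAt_two`, `hram` : `ρbar` is RAMIFIED at `2` (P-IMG, `ImgInertia2`);
* `hZsc` : at a prime `q ≠ p` at which `E[p]` is unramified and every Frobenius element is the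
  scalar `± q`, the whole decomposition group acts through scalars (`FrobGen8`: `D_q` is generated
  by a Frobenius element and the inertia group, modulo any open subgroup);
* `hZ1` : then `q ≡ 1` modulo the uniformiser (`MPCong4.mpCong`).
-/
import Mathlib
import Fermat.Agent.M43.ImgFrame2
import Fermat.Agent.M43.ImgInertia2
import Fermat.Agent.M43.MPCong4
import Fermat.Agent.W56.FrobGen8
import Fermat.Agent.W56.TameInertia8
import Fermat.Agent.S05
import Fermat.Agent.S53.ResidualCore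

set_option autoImplicit false
set_option linter.style.haveILetI false

open WeierstrassCurve Polynomial IsLocalRing
open scoped TensorProduct

namespace Fermat.Agent.M43.TopFrame2

open Fermat.Agent.U44.Wire7 Fermat.Agent.U44.FreyRep7 Fermat.Agent.M43.ImgSL2
  Fermat.Agent.M43.ImgFrame2 Fermat.Agent.M43.MPIface4

local notation "Γ" => (AlgebraicClosure ℚ ≃ₐ[ℚ] AlgebraicClosure ℚ)

attribute [local instance] factP

variable (P : FreyPackage) (k : Type) [Field k] [Algebra (ZMod P.p) k]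

/-- `ρbar(σ) = 1` iff `σ` acts trivially on `E[p]`. -/
theorem rhobar_apply_eq_one_iff (σ : Γ) :
    (rhobar P k).ρ σ = 1 ↔ ∀ v : Ep P, σ • v = v := by
  constructor
  · intro h v
    have h1 : (rhoV P σ).baseChange k ((1 : k) ⊗ₜ[ZMod P.p] v) = (1 : k) ⊗ₜ[ZMod P.p] v :=
      LinearMap.congr_fun h ((1 : k) ⊗ₜ[ZMod P.p] v)
    rw [LinearMap.baseChange_tmul, rhoV_apply] at h1
    have h2 : ((1 : k) ⊗ₜ[ZMod P.p] (σ • v - v) : k ⊗[ZMod P.p] Ep P) = 0 := by
      rw [TensorProduct.tmul_sub]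
      exact sub_eq_zero.mpr h1
    by_contra hne
    exact Fermat.Agent.S53.one_tmul_ne_zero (rhoFrey P) k (v := σ • v - v)
      (sub_ne_zero.mpr hne) h2
  · intro h
    have h1 : rhoV P σ = 1 := LinearMap.ext fun v => by
      rw [rhoV_apply, Module.End.one_apply]; exact h v
    show (rhoV P σ).baseChange k = 1
    rw [h1, LinearMap.baseChange_one]

/-- unramifiedness of `E[p]` in the Prelude's sense gives unramifiedness of `ρbar`. -/
theorem isUnramifiedAt_of_unramified {q : ℕ} (h : P.GaloisRepUnramifiedAt q) :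
    (rhobar P k).IsUnramifiedAt q := fun A hA σ hσ =>
  (rhobar_apply_eq_one_iff P k σ).mpr fun v => h A hA σ hσ v

/-- **`_hur`**: `ρbar` is unramified outside `{p, 2} ∪ X` (any `X`). -/
theorem hur (X : Finset ℕ) (q : ℕ) (hq : q.Prime) (hqT : q ∉ insert P.p (insert 2 X)) :
    (rhobar P k).IsUnramifiedAt q := by
  rw [Finset.mem_insert, Finset.mem_insert] at hqT
  push Not at hqT
  exact isUnramifiedAt_of_unramified P k (Fermat.Agent.S05.result P hq hqT.2.1 hqT.1)

/-- **`ρbar` is ramified at `2`** (P-IMG). -/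
theorem not_isUnramifiedAt_two : ¬ (rhobar P k).IsUnramifiedAt 2 := by
  intro h
  obtain ⟨A, hA⟩ := Fermat.Agent.Lib.FrobeniusExists.exists_valuationSubring_liesOverPrime 2
    Nat.prime_two
  obtain ⟨T, hT⟩ := Fermat.Agent.M43.ImgInertia2.exists_p_dvd_index_stabilizer A hA (P := P)
  have htop : MulAction.stabilizer (A.inertiaSubgroupIn ℚ) T = ⊤ := by
    rw [eq_top_iff]
    intro τ _
    rw [MulAction.mem_stabilizer_iff, Subgroup.smul_def]
    exact (rhobar_apply_eq_one_iff P k τ).mp (h A hA τ τ.2) T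
  rw [htop, Subgroup.index_top] at hT
  exact P.pp.one_lt.ne' (Nat.dvd_one.mp hT)

/-- **`_hram`**: the only prime of `T = {p, 2} ∪ primes(N0)` outside `{p} ∪ Z`, `Z` the odd primes
of `N0`, is `2`, where `ρbar` is ramified. -/
theorem hram (N0 : ℕ) (q : ℕ) (hqT : q ∈ insert P.p (insert 2 N0.primeFactors)) (hqp : q ≠ P.p)
    (hqZ : q ∉ N0.primeFactors.erase 2) : ¬ (rhobar P k).IsUnramifiedAt q := by
  have hq2 : q = 2 := by
    rw [Finset.mem_insert, Finset.mem_insert] at hqT
    rcases hqT with h | h | h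
    · exact absurd h hqp
    · exact h
    · by_contra hne
      exact hqZ (Finset.mem_erase.mpr ⟨hne, h⟩)
  rw [hq2]
  exact not_isUnramifiedAt_two P k

/-- **`_hZsc`**: in the scalar case the decomposition group acts through scalars. -/
theorem hZsc (hirr : WeierstrassCurve.Affine.Point.GaloisRepIsIrreducible (K := Qb) ℚ
      P.freyCurve P.p)
    {q : ℕ} (hq : q.Prime) (hqp : q ≠ P.p) (hunr : P.GaloisRepUnramifiedAt q)
    (hsc : FrobScalar P q) {A : ValuationSubring Qb} (hA : A.LiesOverPrime q) {σ : Γ}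
    (hσ : σ ∈ A.decompositionSubgroup ℚ) :
    ∃ c : k, (rhobar P k).ρ σ = c • (1 : Module.End k (rhobar P k).V) := by
  classical
  obtain ⟨L, hL, hLr⟩ := hasLevel_Ep P
  haveI := hL
  obtain ⟨φ, hφ⟩ := Fermat.Agent.W56.FrobGen8.exists_isFrobeniusAt hq hA
  obtain ⟨ε, hε, hεz⟩ := Fermat.Agent.M43.MPCong4.mpCong_sign P hq hqp hirr hsc A hA φ hφ
  let F : IntermediateField ℚ Qb := IntermediateField.normalClosure ℚ L Qb
  haveI : Normal ℚ Qb := Fermat.Agent.W56.TameInertia8.normal_Qb
  haveI : FiniteDimensional ℚ F := by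
    show FiniteDimensional ℚ (IntermediateField.normalClosure ℚ L Qb)
    infer_instance
  haveI : Normal ℚ F := normalClosure.normal ℚ L Qb
  obtain ⟨n, ι, hι, u, hu, rfl⟩ :=
    Fermat.Agent.W56.FrobGen8.exists_eq_frob_pow_mul hq hA hφ F hσ
  have hru : (rhobar P k).ρ u = 1 := by
    refine (rhobar_apply_eq_one_iff P k u).mpr (hLr u fun x hx => ?_)
    have hxF : x ∈ F := IntermediateField.le_normalClosure L hx
    exact (IntermediateField.mem_fixingSubgroup_iff _ _).1 hu x hxF
  have hrι : (rhobar P k).ρ ι = 1 :=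
    (rhobar_apply_eq_one_iff P k ι).mpr fun v => hunr A hA ι hι v
  have hrφ : (rhobar P k).ρ φ =
      (algebraMap (ZMod P.p) k ((ε : ℤ) : ZMod P.p)) • (1 : Module.End k (rhobar P k).V) := by
    have h1 : rhoV P φ = ((ε : ℤ) : ZMod P.p) • (1 : Module.End (ZMod P.p) (Ep P)) :=
      Fermat.Agent.M43.MPCong4.rhoV_eq_smul_of_scalar P hεz
    show (rhoV P φ).baseChange k = (algebraMap (ZMod P.p) k ((ε : ℤ) : ZMod P.p)) •
      (1 : Module.End k (k ⊗[ZMod P.p] Ep P))
    rw [h1]
    refine LinearMap.ext fun x => ?_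
    induction x using TensorProduct.induction_on with
    | zero => simp only [map_zero]
    | tmul a v =>
      rw [LinearMap.baseChange_tmul, LinearMap.smul_apply, Module.End.one_apply,
        LinearMap.smul_apply, Module.End.one_apply, TensorProduct.tmul_smul, algebraMap_smul]
    | add x y hx hy => simp only [map_add, hx, hy]
  refine ⟨(algebraMap (ZMod P.p) k ((ε : ℤ) : ZMod P.p)) ^ n, ?_⟩
  rw [map_mul, map_mul, map_pow, hrι, hru, mul_one, mul_one, hrφ, _root_.smul_pow, one_pow]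

/-- **`_hZ1`**: in the scalar case `q ≡ 1` modulo the uniformiser. -/
theorem hZ1 (hirr : WeierstrassCurve.Affine.Point.GaloisRepIsIrreducible (K := Qb) ℚ
      P.freyCurve P.p)
    {q : ℕ} (hq : q.Prime) (hqp : q ≠ P.p) (hsc : FrobScalar P q)
    {𝒪 : Type} [CommRing 𝒪] [IsDomain 𝒪] [IsDiscreteValuationRing 𝒪] {lam : 𝒪}
    (hlam : Irreducible lam) (hp𝒪 : (P.p : 𝒪) ∈ maximalIdeal 𝒪) :
    ((q : ℕ) : 𝒪) - 1 ∈ Ideal.span {lam} := by
  have h1 := Fermat.Agent.M43.MPCong4.mpCong P hq hqp hirr hsc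
  have h2 : (P.p : ℤ) ∣ (q : ℤ) - 1 := by
    have : (((q : ℤ) - 1 : ℤ) : ZMod P.p) = 0 := by
      rw [Int.cast_sub, h1, Int.cast_one, sub_self]
    exact (ZMod.intCast_zmod_eq_zero_iff_dvd _ _).1 this
  obtain ⟨m, hm⟩ := h2
  have h3 : ((q : ℕ) : 𝒪) - 1 = (P.p : 𝒪) * (m : 𝒪) := by
    have := congrArg (Int.cast : ℤ → 𝒪) hm
    push_cast at this
    exact this
  rw [← hlam.maximalIdeal_eq, h3]
  exact Ideal.mul_mem_right _ _ hp𝒪

end Fermat.Agent.M43.TopFrame2
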