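/-
Programme M43 (target S43), chapter TOP, helper2: **the residual eigensystem of the Frey
representation on the Hecke algebra of a level at which it is modular.**

* `exists_theta` : from `P.ModularRepOfLevel N0`: an integral model `W` of the Frey curve and, for
  every finite set `S ∋ p` containing the primes of `N0` and the bad primes of `W`, a ring
  homomorphism `θ0 : heckeAlgebra N0 2 S →+* ZMod p` with `θ0 (T_ℓ) = a_ℓ(W) mod p` (`ℓ ∉ S`)
  [the eigencharacter `ES/J7/EigenChar1.chiG` of the eigenform modulo the maximal ideal `𝔪`; its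
  values lie in the prime field because the `T_ℓ`, `ℓ ∉ S`, generate];
* `charpoly_rhobar_frob` : the characteristic polynomial of a Frobenius element at a good prime
  `ℓ ≠ p` on `ImgFrame2.rhobar P k` is `X² − a_ℓ(W) X + ℓ` [Eichler–Shimura relation
  `FreyRep7.frob_rel`, `MPCong4.det_rhoV`, `ES/J/QuadCharpoly8`].
-/
import Mathlib
import Fermat.Agent.M43.ImgFrame2
import Fermat.Agent.ES.J7.EigenChar1
import Fermat.Agent.ES.J.QuadCharpoly8

set_option autoImplicit false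
set_option linter.style.haveILetI false

open WeierstrassCurve CuspForm Polynomial

namespace Fermat.Agent.M43.TopTheta2

open Fermat.Agent.U44.Wire7 Fermat.Agent.U44.FreyRep7 Fermat.Agent.M43.ImgSL2
  Fermat.Agent.M43.ImgFrame2

local notation "Γ" => (AlgebraicClosure ℚ ≃ₐ[ℚ] AlgebraicClosure ℚ)

attribute [local instance] factP

/-! ### The eigencharacter modulo `p` -/

/-- **the residual eigensystem.** -/
theorem exists_theta (P : FreyPackage) {N0 : ℕ} [NeZero N0] (hmod : P.ModularRepOfLevel N0) :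
    ∃ W : WeierstrassCurve ℤ, W.IsIntegralModelOf P.freyCurve ∧
      ∀ S : Finset ℕ, P.p ∈ S → (∀ q : ℕ, q.Prime → q ∣ N0 → q ∈ S) →
        (∀ q : ℕ, q.Prime → (q : ℤ) ∣ W.Δ → q ∈ S) →
        ∃ θ0 : heckeAlgebra N0 2 (↑S : Set ℕ) →+* ZMod P.p,
          ∀ (ℓ : ℕ) (hℓ : ℓ.Prime) (hℓN : ¬ ℓ ∣ N0) (hℓS : ℓ ∉ (↑S : Set ℕ)),
            θ0 (heckeAlgebra.T hℓ hℓN hℓS) = ((W.apOfModel ℓ : ℤ) : ZMod P.p) := by
  classical
  obtain ⟨f, W, 𝔪, hf, hW, h𝔪, hp𝔪, hcong⟩ := hmod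
  refine ⟨W, hW, fun S hpS hNS hWS => ?_⟩
  haveI := h𝔪
  letI : Field (integralClosure ℤ ℂ ⧸ 𝔪) := Ideal.Quotient.field 𝔪
  haveI : CharP (integralClosure ℤ ℂ ⧸ 𝔪) P.p :=
    (CharP.charP_iff_prime_eq_zero P.pp).mpr (by
      rw [← map_natCast (Ideal.Quotient.mk 𝔪), Ideal.Quotient.eq_zero_iff_mem]; exact hp𝔪)
  let j : ZMod P.p →+* (integralClosure ℤ ℂ ⧸ 𝔪) := ZMod.castHom (dvd_refl P.p) _
  have hj : Function.Injective j := j.injective
  let c : heckeAlgebra N0 2 (↑S : Set ℕ) →+* (integralClosure ℤ ℂ ⧸ 𝔪) :=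
    (Ideal.Quotient.mk 𝔪).comp (Fermat.Agent.ES.J7.EigenChar1.chiG hf _)
  -- the values at the generators
  have hcT : ∀ (ℓ : ℕ) (hℓ : ℓ.Prime) (hℓN : ¬ ℓ ∣ N0) (hℓS : ℓ ∉ (↑S : Set ℕ)),
      c (heckeAlgebra.T hℓ hℓN hℓS) = j (((W.apOfModel ℓ : ℤ) : ZMod P.p)) := by
    intro ℓ hℓ hℓN hℓS
    have hℓS' : ℓ ∉ S := by simpa using hℓS
    have hgood : W.IsGoodPrimeFor ℓ := fun hd => hℓS' (hWS ℓ hℓ hd)
    have hℓp : ℓ ≠ P.p := fun e => hℓS' (e ▸ hpS)
    obtain ⟨a, ha, ham⟩ := hcong ℓ hℓ hgood hℓN hℓp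
    have h1 : Fermat.Agent.ES.J7.EigenChar1.chiG hf (↑S : Set ℕ) (heckeAlgebra.T hℓ hℓN hℓS) = a := by
      apply Subtype.ext
      rw [Fermat.Agent.ES.J7.EigenChar1.coe_chiG_T, ha]
    show Ideal.Quotient.mk 𝔪 (Fermat.Agent.ES.J7.EigenChar1.chiG hf _ _) = _
    rw [h1, map_intCast, ← map_intCast (Ideal.Quotient.mk 𝔪), ← sub_eq_zero, ← map_sub,
      Ideal.Quotient.eq_zero_iff_mem]
    exact ham
  -- the values lie in the prime field
  have hex : ∀ t : heckeAlgebra N0 2 (↑S : Set ℕ), ∃ z : ZMod P.p, j z = c t := by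
    rintro ⟨x, hx⟩
    induction hx using Algebra.adjoin_induction with
    | mem x hx =>
      rcases hx with ⟨ℓ, hℓ, hℓN, hℓS, rfl⟩ | ⟨q, hqN, hq, hqS, rfl⟩
      · exact ⟨_, (hcT ℓ hℓ hℓN hℓS).symm⟩
      · exact absurd (hNS q hq hqN) (by simpa using hqS)
    | algebraMap r =>
      refine ⟨(r : ZMod P.p), ?_⟩
      have h1 : (⟨algebraMap ℤ _ r, Subalgebra.algebraMap_mem _ r⟩ :
          heckeAlgebra N0 2 (↑S : Set ℕ)) = (r : heckeAlgebra N0 2 (↑S : Set ℕ)) := by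
        apply Subtype.ext
        simp
      rw [h1, map_intCast, map_intCast]
    | add x y hx hy ihx ihy =>
      obtain ⟨zx, hzx⟩ := ihx
      obtain ⟨zy, hzy⟩ := ihy
      refine ⟨zx + zy, ?_⟩
      have : c ⟨x + y, add_mem hx hy⟩ = c ⟨x, hx⟩ + c ⟨y, hy⟩ := by
        rw [← map_add]; rfl
      rw [this, map_add, hzx, hzy]
    | mul x y hx hy ihx ihy =>
      obtain ⟨zx, hzx⟩ := ihx
      obtain ⟨zy, hzy⟩ := ihy
      refine ⟨zx * zy, ?_⟩
      have : c ⟨x * y, mul_mem hx hy⟩ = c ⟨x, hx⟩ * c ⟨y, hy⟩ := by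
        rw [← map_mul]; rfl
      rw [this, map_mul, hzx, hzy]
  choose θf hθf using hex
  refine ⟨{ toFun := θf
            map_one' := hj (by rw [hθf, map_one, map_one])
            map_mul' := fun a b => hj (by rw [hθf, map_mul, map_mul, hθf, hθf])
            map_zero' := hj (by rw [hθf, map_zero, map_zero])
            map_add' := fun a b => hj (by rw [hθf, map_add, map_add, hθf, hθf]) }, ?_⟩
  intro ℓ hℓ hℓN hℓS
  apply hj
  show j (θf _) = _
  rw [hθf, hcT]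

/-! ### The Frobenius characteristic polynomials -/

variable (P : FreyPackage)

/-- the characteristic polynomial of a Frobenius element at a good prime on `E[p]`. -/
theorem charpoly_rhoV_frob (hirr : WeierstrassCurve.Affine.Point.GaloisRepIsIrreducible (K := Qb) ℚ P.freyCurve P.p)
    {W : WeierstrassCurve ℤ} (hW : W.IsIntegralModelOf P.freyCurve) {ℓ : ℕ} (hℓ : ℓ.Prime)
    (hgood : W.IsGoodPrimeFor ℓ) (hℓp : ℓ ≠ P.p) (A : ValuationSubring Qb)
    (hA : A.LiesOverPrime ℓ) (φ : Γ) (hφ : A.IsFrobeniusAt φ ℓ) :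
    LinearMap.charpoly (rhoV P φ) =
      X ^ 2 - C (((W.apOfModel ℓ : ℤ) : ZMod P.p)) * X + C ((ℓ : ZMod P.p)) := by
  have hV : Module.finrank (ZMod P.p) (Ep P) = 2 := finrank_Ep P
  have hdet : LinearMap.det (rhoV P φ) = (ℓ : ZMod P.p) := by
    rw [Fermat.Agent.M43.MPCong4.det_rhoV P hirr φ, dmod_frob P.p hℓ hℓp A hA hφ]
  have hrel : rhoV P φ * rhoV P φ - (((W.apOfModel ℓ : ℤ) : ZMod P.p)) • rhoV P φ +
      (ℓ : ZMod P.p) • (1 : Module.End (ZMod P.p) (Ep P)) = 0 := by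
    refine LinearMap.ext fun v => ?_
    have h1 := frob_rel P hW hℓ hgood hℓp A hA φ hφ v
    simp only [LinearMap.add_apply, LinearMap.sub_apply, LinearMap.smul_apply, Module.End.mul_apply,
      Module.End.one_apply, rhoV_apply, LinearMap.zero_apply]
    rw [Int.cast_smul_eq_zsmul, Nat.cast_smul_eq_nsmul]
    exact h1
  have hb : (ℓ : ZMod P.p) ≠ 0 := by
    rw [Ne, ZMod.natCast_eq_zero_iff]
    intro hd
    exact hℓp ((Nat.prime_dvd_prime_iff_eq P.pp hℓ).1 hd).symm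
  rcases Fermat.Agent.ES.J.QuadCharpoly8.scalar_or_charpoly hV (rhoV P φ) _ _ hrel with
    ⟨c, hc⟩ | h
  · exact Fermat.Agent.ES.J.QuadCharpoly8.charpoly_of_scalar_of_det hV (rhoV P φ) c _ _ hc hb hrel
      hdet
  · exact h

/-- **`hθ`**: the characteristic polynomial of a Frobenius element at a good prime on
`rhobar P k`. -/
theorem charpoly_rhobar_frob (k : Type) [Field k] [Algebra (ZMod P.p) k]
    (hirr : WeierstrassCurve.Affine.Point.GaloisRepIsIrreducible (K := Qb) ℚ P.freyCurve P.p)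
    {W : WeierstrassCurve ℤ} (hW : W.IsIntegralModelOf P.freyCurve) {ℓ : ℕ} (hℓ : ℓ.Prime)
    (hgood : W.IsGoodPrimeFor ℓ) (hℓp : ℓ ≠ P.p) (A : ValuationSubring Qb)
    (hA : A.LiesOverPrime ℓ) (φ : Γ) (hφ : A.IsFrobeniusAt φ ℓ) :
    LinearMap.charpoly ((rhobar P k).ρ φ) =
      X ^ 2 - C (algebraMap (ZMod P.p) k ((W.apOfModel ℓ : ℤ) : ZMod P.p)) * X + C ((ℓ : k)) := by
  haveI : Module.Finite (ZMod P.p) (Ep P) := Module.Finite.of_basis (bEp P)
  haveI : Module.Free (ZMod P.p) (Ep P) := Module.Free.of_basis (bEp P)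
  have e : LinearMap.charpoly ((rhobar P k).ρ φ) =
      (LinearMap.charpoly (rhoV P φ)).map (algebraMap (ZMod P.p) k) :=
    LinearMap.charpoly_baseChange (rhoV P φ) k
  rw [e, charpoly_rhoV_frob P hirr hW hℓ hgood hℓp A hA φ hφ]
  rw [Polynomial.map_add, Polynomial.map_sub, Polynomial.map_mul, Polynomial.map_pow,
    Polynomial.map_X, Polynomial.map_C, Polynomial.map_C, map_natCast]

end Fermat.Agent.M43.TopTheta2
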