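/-
Programme M43 (target S43), chapter TOP, helper2: **a level at which the Frey representation is
modular is EVEN.**

`two_dvd_of_modular` : `P.ModularRepOfLevel N`, `E[p]` irreducible, imply `2 ∣ N`.

Proof: if `2 ∤ N`, the representation attached to the eigenform by the banked S30 is unramified at
`2`; its residual representation is `ρbar ⊗ k''` by Brauer–Nesbitt (`GlobBN3`) and the congruences
`a_ℓ(f) ≡ a_ℓ(W)`; but `ρbar` is ramified at `2` (P-IMG, `TopFrame2.not_isUnramifiedAt_two`).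
-/
import Mathlib
import Fermat.Agent.M43.TopFrame2
import Fermat.Agent.M43.TopTheta2
import Fermat.Agent.M43.GlobBN3
import Fermat.Agent.S30
import Fermat.Agent.ES.J7.CompleteDVR1

set_option autoImplicit false
set_option linter.style.haveILetI false

open WeierstrassCurve CuspForm Polynomial IsLocalRing
open scoped TensorProduct

namespace Fermat.Agent.M43.TopEven2

open Fermat.Agent.U44.Wire7 Fermat.Agent.U44.FreyRep7 Fermat.Agent.M43.ImgSL2
  Fermat.Agent.M43.ImgFrame2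

local notation "Γ" => (AlgebraicClosure ℚ ≃ₐ[ℚ] AlgebraicClosure ℚ)

attribute [local instance] factP

/-- **the level is even.** -/
theorem two_dvd_of_modular (P : FreyPackage) {N : ℕ} (hN : 0 < N)
    (hirr : WeierstrassCurve.Affine.Point.GaloisRepIsIrreducible (K := Qb) ℚ P.freyCurve P.p)
    (hmod : P.ModularRepOfLevel N) : 2 ∣ N := by
  classical
  by_contra h2N
  haveI : NeZero N := ⟨hN.ne'⟩
  have hp2 : P.p ≠ 2 := by have := P.hp5; omega
  obtain ⟨f, W, 𝔪, hf, hW, h𝔪, hp𝔪, hcong⟩ := hmod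
  have hΔ : W.Δ ≠ 0 := model_Δ_ne_zero P hW
  set S : Finset ℕ := insert P.p (N.primeFactors ∪ W.Δ.natAbs.primeFactors) with hS
  have hpS : P.p ∈ S := Finset.mem_insert_self _ _
  have hNS : ∀ q : ℕ, q.Prime → q ∣ N → q ∈ S := fun q hq hqN =>
    Finset.mem_insert_of_mem (Finset.mem_union_left _ (Nat.mem_primeFactors.mpr ⟨hq, hqN, hN.ne'⟩))
  have hgoodS : ∀ ℓ : ℕ, ℓ.Prime → ℓ ∉ S → W.IsGoodPrimeFor ℓ ∧ ¬ ℓ ∣ N ∧ ℓ ≠ P.p := by
    intro ℓ hℓ hℓS
    refine ⟨fun hd => hℓS ?_, fun hd => hℓS (hNS ℓ hℓ hd), fun e => hℓS (e ▸ hpS)⟩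
    refine Finset.mem_insert_of_mem (Finset.mem_union_right _ ?_)
    rw [Nat.mem_primeFactors]
    exact ⟨hℓ, Int.natCast_dvd.mp hd, Int.natAbs_ne_zero.mpr hΔ⟩
  -- the coefficient ring of the eigenform
  haveI : 𝔪.IsPrime := h𝔪.isPrime
  haveI : Module.Finite ℤ (heckeAlgebra N 2 (↑S : Set ℕ)) := Fermat.Agent.S22.result N 2 _
  set χ := Fermat.Agent.ES.J7.EigenChar1.chiG hf (↑S : Set ℕ) with hχ
  obtain ⟨𝒪', i1, i2, i3, i4, i5, i6, ι, ψ, hp𝒪', hψ⟩ :=
    Fermat.Agent.ES.J7.CompleteDVR1.exists_completeDVR χ P.p 𝔪 hp𝔪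
  obtain ⟨𝒪'', j1, j2, j3, j4, j5, j6, j7, j8, j9, -, ρ, hρ, hunr⟩ :=
    Fermat.Agent.S30.result P.p N S hpS hNS 𝒪' hp𝒪' ι
  -- the residue fields
  have hp𝒪'' : (P.p : 𝒪'') ∈ maximalIdeal 𝒪'' := by
    have := map_nonunit (algebraMap 𝒪' 𝒪'') (P.p : 𝒪') hp𝒪'
    rwa [map_natCast] at this
  haveI : CharP (ResidueField 𝒪'') P.p :=
    (CharP.charP_iff_prime_eq_zero P.pp).mpr (by
      rw [← map_natCast (residue 𝒪''), residue_eq_zero_iff]; exact hp𝒪'')
  letI : Algebra (ZMod P.p) (ResidueField 𝒪'') := ZMod.algebra _ P.p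
  -- the residues of the Hecke eigenvalues
  have hres : ∀ (ℓ : ℕ) (hℓ : ℓ.Prime) (hℓN : ¬ ℓ ∣ N) (hℓS : ℓ ∉ (↑S : Set ℕ)),
      residue 𝒪'' (algebraMap 𝒪' 𝒪'' (ι (heckeAlgebra.T hℓ hℓN hℓS))) =
        ((W.apOfModel ℓ : ℤ) : ResidueField 𝒪'') := by
    intro ℓ hℓ hℓN hℓS
    have hℓS' : ℓ ∉ S := by simpa using hℓS
    obtain ⟨hgood, -, hℓp⟩ := hgoodS ℓ hℓ hℓS'
    obtain ⟨a, ha, ham⟩ := hcong ℓ hℓ hgood hℓN hℓp
    have h1 : χ (heckeAlgebra.T hℓ hℓN hℓS) = a := by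
      apply Subtype.ext
      rw [hχ, Fermat.Agent.ES.J7.EigenChar1.coe_chiG_T, ha]
    have h2 : ψ (residue 𝒪' (ι (heckeAlgebra.T hℓ hℓN hℓS))) =
        ψ (((W.apOfModel ℓ : ℤ) : ResidueField 𝒪')) := by
      rw [hψ, h1, map_intCast, ← map_intCast (Ideal.Quotient.mk 𝔪), ← sub_eq_zero, ← map_sub,
        Ideal.Quotient.eq_zero_iff_mem]
      exact ham
    have h3 := ψ.injective h2
    have h4 := congrArg (ResidueField.map (algebraMap 𝒪' 𝒪'')) h3
    rw [ResidueField.map_residue, map_intCast] at h4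
    exact h4
  -- Brauer–Nesbitt
  have hirr1 := GlobBN3.no_invariant_line_of_isAbsolutelyIrreducible _
    (ImgFrame2.habs (ResidueField 𝒪'') hirr)
  obtain ⟨e⟩ : (rhobar P (ResidueField 𝒪'')).IsEquiv ρ.residual := by
    refine GlobBN3.residual_isEquiv_of_charpoly_frob P.p hp2 (rhobar P (ResidueField 𝒪''))
      ρ.residual (ImgFrame2.hdet (ResidueField 𝒪'') hirr) hirr1 S
      (fun ℓ => ((W.apOfModel ℓ : ℤ) : ResidueField 𝒪'')) ?_ ?_
    · intro ℓ hℓ hℓS A hA φ hφ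
      obtain ⟨hgood, -, hℓp⟩ := hgoodS ℓ hℓ hℓS
      rw [TopTheta2.charpoly_rhobar_frob P (ResidueField 𝒪'') hirr hW hℓ hgood hℓp A hA φ hφ,
        map_intCast]
    · intro ℓ hℓ hℓS A hA φ hφ
      have hℓS' : ℓ ∉ (↑S : Set ℕ) := by simpa using hℓS
      obtain ⟨-, hℓN, -⟩ := hgoodS ℓ hℓ hℓS
      show LinearMap.charpoly ((ρ.ρ φ).baseChange (ResidueField 𝒪'')) = _
      rw [LinearMap.charpoly_baseChange, hρ ℓ hℓ hℓN hℓS' A hA φ hφ]
      simp only [Polynomial.map_add, Polynomial.map_sub, Polynomial.map_pow, Polynomial.map_X,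
        Polynomial.map_mul, Polynomial.map_C]
      rw [map_natCast, ← hres ℓ hℓ hℓN hℓS']
      rfl
  -- `ρbar` would be unramified at `2`
  apply TopFrame2.not_isUnramifiedAt_two P (ResidueField 𝒪'')
  intro A hA σ hσ
  have h1 : ρ.residual.ρ σ = 1 := by
    show (ρ.ρ σ).baseChange (ResidueField 𝒪'') = 1
    rw [hunr 2 Nat.prime_two h2N (Ne.symm hp2) A hA σ hσ, LinearMap.baseChange_one]
  apply LinearMap.ext
  intro x
  apply e.toLinearEquiv.injective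
  rw [e.map_apply, h1, Module.End.one_apply, Module.End.one_apply]

end Fermat.Agent.M43.TopEven2
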