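/-
Programme M43 (target S43), chapter TOP, helper2: **the dictionary from a characteristic-zero point
of the Hecke algebra to a newform.**

* `exists_eigenvector_ker_eq` : `A` a commutative ring finite over `ℤ` acting faithfully on a
  finite-dimensional complex vector space, `𝔭` a prime of `A` over `(0)`: there is a common
  eigenvector whose eigencharacter has kernel exactly `𝔭` (the first half of the abstract
  Deligne–Serre lemma `S49.exists_eigenvector_lift`);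
* `exists_newform_of_point` : for a ring homomorphism `χ0` from the Hecke algebra of level `N0` away
  from `S ⊇ primes(N0)` to a domain of characteristic `0`, there are a newform `g` of a level
  `M ∣ N0`, its eigencharacter `chig` on the Hecke algebra of level `M` away from `S`, and
  `iota : chig.range →+* O'` with `iota (chig T_ℓ) = χ0 T_ℓ` for all `ℓ ∉ S` (the frame of the
  frozen S35/S36 and of `NewRamIface1.NewRamStmt`).
-/
import Mathlib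
import Fermat.Agent.S49.CommAlg
import Fermat.Agent.ES.J7.EigenChar1
import Fermat.Agent.ES.LR.EigenformOfCommon23
import Fermat.Agent.ES.Q58.TopA12

set_option autoImplicit false

open CuspForm CongruenceSubgroup ModularFormClass

namespace Fermat.Agent.M43.TopDict2

section Abstract

variable {A : Type*} [CommRing A] [Module.Finite ℤ A] {V : Type*} [AddCommGroup V] [Module ℂ V]
  [FiniteDimensional ℂ V]

/-- primes of a ring integral over `ℤ` lying over `(0)` are incomparable. -/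
theorem eq_of_le_of_comap_eq_bot {𝔞 𝔟 : Ideal A} [𝔞.IsPrime] (hle : 𝔞 ≤ 𝔟)
    (h𝔟 : 𝔟.comap (algebraMap ℤ A) = ⊥) : 𝔞 = 𝔟 := by
  have : Algebra.IsIntegral ℤ A := Algebra.IsIntegral.of_finite ℤ A
  by_contra hne
  have hlt : 𝔞 < 𝔟 := lt_of_le_of_ne hle hne
  obtain ⟨-, x, hx𝔟, hx𝔞⟩ := SetLike.lt_iff_le_and_exists.mp hlt
  have := Ideal.comap_lt_comap_of_integral_mem_sdiff (R := ℤ) hle ⟨hx𝔟, hx𝔞⟩
    (Algebra.IsIntegral.isIntegral x)
  rw [h𝔟] at this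
  exact not_lt_bot this

/-- **an eigenvector with prescribed characteristic-zero kernel.** -/
theorem exists_eigenvector_ker_eq (ρ : A →+* Module.End ℂ V) (hρ : Function.Injective ρ)
    (𝔭 : Ideal A) [h𝔭 : 𝔭.IsPrime] (h𝔭0 : 𝔭.comap (algebraMap ℤ A) = ⊥) :
    ∃ (w : V) (χ : A →+* ℂ), w ≠ 0 ∧ (∀ t : A, ρ t w = χ t • w) ∧ RingHom.ker χ = 𝔭 := by
  classical
  have : IsNoetherianRing A := IsNoetherianRing.of_finite ℤ A
  -- a minimal prime below `𝔭` (it is `𝔭`)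
  obtain ⟨𝔮, h𝔮min, h𝔮le⟩ := Ideal.exists_minimalPrimes_le (bot_le : (⊥ : Ideal A) ≤ 𝔭)
  have h𝔮prime : 𝔮.IsPrime := h𝔮min.1.1
  have h𝔮eq : 𝔮 = 𝔭 := eq_of_le_of_comap_eq_bot h𝔮le h𝔭0
  -- it is an associated prime of `A`
  have hass : 𝔮 ∈ associatedPrimes A A := by
    apply Module.associatedPrimes.minimalPrimes_annihilator_subset_associatedPrimes A A
    have : Module.annihilator A A = ⊥ := by
      rw [eq_bot_iff]
      intro a ha
      have := Module.mem_annihilator.mp ha 1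
      simpa using this
    rw [this]; exact h𝔮min
  obtain ⟨-, t₀, ht₀⟩ := (isAssociatedPrime_iff).mp hass
  have hmem𝔮 : ∀ s : A, s ∈ 𝔮 ↔ s * t₀ = 0 := by
    intro s
    rw [ht₀, Submodule.mem_colon_singleton, Submodule.mem_bot, smul_eq_mul]
  have ht₀ne : t₀ ≠ 0 := by
    intro h0
    apply h𝔮prime.ne_top
    rw [Ideal.eq_top_iff_one, hmem𝔮, h0, mul_zero]
  -- the subspace killed by `𝔮`
  let W : Submodule ℂ V := ⨅ s : 𝔮, LinearMap.ker (ρ (s : A))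
  have hmemW : ∀ x : V, x ∈ W ↔ ∀ s ∈ 𝔮, ρ s x = 0 := by
    intro x
    simp only [W, Submodule.mem_iInf, LinearMap.mem_ker, Subtype.forall]
  have hWne : W ≠ ⊥ := by
    have hρt₀ : ρ t₀ ≠ 0 := fun h => ht₀ne (hρ (h.trans (map_zero ρ).symm))
    obtain ⟨v, hv⟩ : ∃ v, ρ t₀ v ≠ 0 := by
      by_contra hcon
      push Not at hcon
      exact hρt₀ (LinearMap.ext hcon)
    intro hbot
    have hin : ρ t₀ v ∈ W := by
      rw [hmemW]
      intro s hs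
      have : (ρ s * ρ t₀) v = 0 := by
        rw [← map_mul, (hmem𝔮 s).mp hs, map_zero]; rfl
      simpa using this
    rw [hbot, Submodule.mem_bot] at hin
    exact hv hin
  have hWstab : ∀ t : A, ∀ x ∈ W, ρ t x ∈ W := by
    intro t x hx
    rw [hmemW] at hx ⊢
    intro s hs
    have hcomm : ρ s (ρ t x) = ρ t (ρ s x) := by
      have h1 : (ρ s * ρ t) x = (ρ t * ρ s) x := by
        rw [← map_mul, ← map_mul, mul_comm]
      simpa using h1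
    rw [hcomm, hx s hs, map_zero]
  obtain ⟨w, hwW, hw0, hweig⟩ := Fermat.Agent.S49.exists_common_eigenvector ρ W hWne hWstab
  obtain ⟨χ₀, hχ₀⟩ := Fermat.Agent.S49.exists_eigencharacter ρ w hw0 hweig
  have h𝔮ker : 𝔮 ≤ RingHom.ker χ₀ := by
    intro s hs
    rw [RingHom.mem_ker]
    have h1 : ρ s w = 0 := (hmemW w).mp hwW s hs
    rw [hχ₀ s] at h1
    exact (smul_eq_zero.mp h1).resolve_right hw0
  have hcomapker : (RingHom.ker χ₀).comap (algebraMap ℤ A) = ⊥ := by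
    rw [eq_bot_iff]
    intro n hn
    rw [Ideal.mem_comap, RingHom.mem_ker, eq_intCast, map_intCast] at hn
    rw [Ideal.mem_bot]
    exact_mod_cast hn
  refine ⟨w, χ₀, hw0, hχ₀, ?_⟩
  rw [← h𝔮eq]
  exact (eq_of_le_of_comap_eq_bot h𝔮ker hcomapker).symm

end Abstract

/-! ### The eigenspace away from `S` -/

variable {N : ℕ} [NeZero N]

/-- the common eigenspace of the `T_ℓ`, `ℓ ∤ N`, `ℓ ∉ S`, with eigenvalues `a ℓ`. -/
def eigSpaceS (N : ℕ) (S : Set ℕ) (a : ℕ → ℂ) : Submodule ℂ (CuspForm (Gamma0 N) 2) where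
  carrier := {h | ∀ (ℓ : ℕ) (hℓ : ℓ.Prime) (hℓN : ¬ ℓ ∣ N), ℓ ∉ S →
    CuspForm.heckeTLin 2 hℓ hℓN h = a ℓ • h}
  add_mem' := by
    intro x y hx hy ℓ hℓ hℓN hℓS
    rw [map_add, hx ℓ hℓ hℓN hℓS, hy ℓ hℓ hℓN hℓS, smul_add]
  zero_mem' := by
    intro ℓ hℓ hℓN _
    rw [map_zero, smul_zero]
  smul_mem' := by
    intro c x hx ℓ hℓ hℓN hℓS
    rw [map_smul, hx ℓ hℓ hℓN hℓS, smul_comm]

omit [NeZero N] in
theorem heckeTLin_mem_eigSpaceS {S : Set ℕ} {a : ℕ → ℂ} {ℓ' : ℕ} (hℓ' : ℓ'.Prime) (hℓ'N : ¬ ℓ' ∣ N)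
    {h : CuspForm (Gamma0 N) 2} (hh : h ∈ eigSpaceS N S a) :
    CuspForm.heckeTLin 2 hℓ' hℓ'N h ∈ eigSpaceS N S a := by
  intro ℓ hℓ hℓN hℓS
  have hc := CuspForm.heckeTLin_comm 2 hℓ hℓN hℓ' hℓ'N
  have : CuspForm.heckeTLin 2 hℓ hℓN (CuspForm.heckeTLin 2 hℓ' hℓ'N h) =
      CuspForm.heckeTLin 2 hℓ' hℓ'N (CuspForm.heckeTLin 2 hℓ hℓN h) := by
    have := congrArg (fun T : Module.End ℂ (CuspForm (Gamma0 N) 2) => T h) hc.eq
    simpa [Module.End.mul_apply] using this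
  rw [this, hh ℓ hℓ hℓN hℓS, map_smul]

theorem heckeULin_mem_eigSpaceS {S : Set ℕ} {a : ℕ → ℂ} {q : ℕ} (hqN : q ∣ N)
    {h : CuspForm (Gamma0 N) 2} (hh : h ∈ eigSpaceS N S a) :
    CuspForm.heckeULin 2 hqN h ∈ eigSpaceS N S a := by
  intro ℓ hℓ hℓN hℓS
  have hc := CuspForm.heckeTLin_heckeULin_comm 2 hℓ hℓN hqN
  have : CuspForm.heckeTLin 2 hℓ hℓN (CuspForm.heckeULin 2 hqN h) =
      CuspForm.heckeULin 2 hqN (CuspForm.heckeTLin 2 hℓ hℓN h) := by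
    have := congrArg (fun T : Module.End ℂ (CuspForm (Gamma0 N) 2) => T h) hc.eq
    simpa [Module.End.mul_apply] using this
  rw [this, hh ℓ hℓ hℓN hℓS, map_smul]

/-- **a normalised eigenform from a complex point of the Hecke algebra away from `S`.** -/
theorem exists_eigenform_of_eigenvector (S : Set ℕ) (χ : heckeAlgebra N 2 S →+* ℂ)
    (w : CuspForm (Gamma0 N) 2) (hw : w ≠ 0)
    (hχ : ∀ t : heckeAlgebra N 2 S,
      (t : Module.End ℂ (CuspForm (Gamma0 N) 2)) w = χ t • w) :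
    ∃ f : CuspForm (Gamma0 N) 2, f.IsNormalizedEigenform ∧
      ∀ (ℓ : ℕ) (hℓ : ℓ.Prime) (hℓN : ¬ ℓ ∣ N) (hℓS : ℓ ∉ S),
        qCoeff f ℓ = χ (heckeAlgebra.T hℓ hℓN hℓS) := by
  classical
  let a : ℕ → ℂ := fun ℓ =>
    if h : ℓ.Prime ∧ ¬ ℓ ∣ N ∧ ℓ ∉ S then χ (heckeAlgebra.T h.1 h.2.1 h.2.2) else 0
  have ha : ∀ (ℓ : ℕ) (hℓ : ℓ.Prime) (hℓN : ¬ ℓ ∣ N) (hℓS : ℓ ∉ S),
      a ℓ = χ (heckeAlgebra.T hℓ hℓN hℓS) := by
    intro ℓ hℓ hℓN hℓS
    simp only [a]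
    rw [dif_pos ⟨hℓ, hℓN, hℓS⟩]
  have hwV : w ∈ eigSpaceS N S a := by
    intro ℓ hℓ hℓN hℓS
    rw [ha ℓ hℓ hℓN hℓS]
    exact hχ (heckeAlgebra.T hℓ hℓN hℓS)
  have hVne : eigSpaceS N S a ≠ ⊥ := fun h =>
    hw (by rw [h] at hwV; exact (Submodule.mem_bot ℂ).1 hwV)
  obtain ⟨f, hfV, hf⟩ :=
    Fermat.Agent.ES.LR.EigenformOfCommon23.exists_normalizedEigenform_mem (eigSpaceS N S a) hVne
      (fun ℓ hℓ hℓN g hg => heckeTLin_mem_eigSpaceS hℓ hℓN hg)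
      (fun ℓ _ hℓN g hg => heckeULin_mem_eigSpaceS hℓN hg)
  refine ⟨f, hf, fun ℓ hℓ hℓN hℓS => ?_⟩
  rw [← ha ℓ hℓ hℓN hℓS]
  exact Fermat.Agent.ES.LR.EigenformOfCommon23.qCoeff_eq_of_heckeTLin_eq_smul hf hℓ hℓN
    (hfV ℓ hℓ hℓN hℓS)

/-! ### The eigencharacter of a newform with values in a subring -/

omit [NeZero N] in
/-- the operators having `g` as an eigenvector with eigenvalue in the subring `R`. -/
def eigenSubR (g : CuspForm (Gamma0 N) 2) (R : Subring ℂ) :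
    Subalgebra ℤ (Module.End ℂ (CuspForm (Gamma0 N) 2)) where
  carrier := {T | ∃ c ∈ R, T g = c • g}
  mul_mem' := by
    rintro T T' ⟨c, hcR, hc⟩ ⟨c', hc'R, hc'⟩
    exact ⟨c' * c, R.mul_mem hc'R hcR,
      by rw [Module.End.mul_apply, hc', map_smul, hc, smul_smul]⟩
  one_mem' := ⟨1, R.one_mem, by simp⟩
  add_mem' := by
    rintro T T' ⟨c, hcR, hc⟩ ⟨c', hc'R, hc'⟩
    exact ⟨c + c', R.add_mem hcR hc'R, by rw [LinearMap.add_apply, hc, hc', add_smul]⟩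
  zero_mem' := ⟨0, R.zero_mem, by simp⟩
  algebraMap_mem' r := ⟨(r : ℂ), intCast_mem R r, by
    rw [Algebra.algebraMap_eq_smul_one, LinearMap.smul_apply, Module.End.one_apply,
      Int.cast_smul_eq_zsmul]⟩

/-- the eigencharacter of a normalised eigenform `g` of level `N` away from `S ⊇ primes(N)` has
values in every subring containing the `a_ℓ(g)`, `ℓ ∉ S`. -/
theorem chiC_mem_of_qCoeff_mem {g : CuspForm (Gamma0 N) 2} (hg : g.IsNormalizedEigenform)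
    (S : Set ℕ) (hNS : ∀ q : ℕ, q.Prime → q ∣ N → q ∈ S) (R : Subring ℂ)
    (hR : ∀ ℓ : ℕ, ℓ.Prime → ¬ ℓ ∣ N → ℓ ∉ S → qCoeff g ℓ ∈ R) (t : heckeAlgebra N 2 S) :
    Fermat.Agent.ES.J7.EigenChar1.chiC hg S t ∈ R := by
  have hle : heckeAlgebra N 2 S ≤ eigenSubR g R := by
    refine Algebra.adjoin_le ?_
    rintro T (⟨l, hl, hlN, hlS, rfl⟩ | ⟨q, hqN, hq, hqS, rfl⟩)
    · exact ⟨_, hR l hl hlN hlS, Fermat.Agent.ES.J7.EigenVec1.heckeTLin_eq_smul hg hl hlN⟩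
    · exact absurd (hNS q hq hqN) hqS
  obtain ⟨c, hcR, hc⟩ := hle t.2
  rw [Fermat.Agent.ES.J7.EigenChar1.chiC_apply, Fermat.Agent.ES.J7.EigenChar1.eigenvalue_eq hg hc]
  exact hcR

/-- **the dictionary**: a characteristic-zero point of the Hecke algebra of level `N` away from
`S ⊇ primes(N)` comes from a newform of a level `M ∣ N`. -/
theorem exists_newform_of_point (S : Finset ℕ)
    (hNS : ∀ q : ℕ, q.Prime → q ∣ N → q ∈ S)
    {O' : Type} [CommRing O'] [IsDomain O'] [CharZero O']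
    (χ0 : heckeAlgebra N 2 (↑S : Set ℕ) →+* O') :
    ∃ (M : ℕ) (_ : NeZero M) (hMN : M ∣ N) (g : CuspForm (Gamma0 M) 2) (_ : g.IsNewform)
      (chig : heckeAlgebra M 2 (↑S : Set ℕ) →+* ℂ) (iota : chig.range →+* O'),
      (∀ (ℓ : ℕ) (hℓ : ℓ.Prime) (hℓM : ¬ ℓ ∣ M) (hℓS : ℓ ∉ (↑S : Set ℕ)),
        chig (heckeAlgebra.T hℓ hℓM hℓS) = qCoeff g ℓ) ∧
      ∀ (ℓ : ℕ) (hℓ : ℓ.Prime) (hℓN : ¬ ℓ ∣ N) (hℓS : ℓ ∉ (↑S : Set ℕ)),
        (iota.comp chig.rangeRestrict)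
            (heckeAlgebra.T hℓ (fun h => hℓN (h.trans hMN)) hℓS) =
          χ0 (heckeAlgebra.T hℓ hℓN hℓS) := by
  classical
  have hfinA : Module.Finite ℤ (heckeAlgebra N 2 (↑S : Set ℕ)) := Fermat.Agent.S22.result N 2 _
  have hfinV : FiniteDimensional ℂ (CuspForm (Gamma0 N) 2) :=
    Fermat.Agent.S21.Assembly.finite_cusp N
  -- the faithful action
  let ρ : heckeAlgebra N 2 (↑S : Set ℕ) →+* Module.End ℂ (CuspForm (Gamma0 N) 2) :=
    (heckeAlgebra N 2 (↑S : Set ℕ)).val.toRingHom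
  have hρ : Function.Injective ρ := fun x y h => Subtype.ext h
  -- the kernel of the point
  have h𝔭 : (RingHom.ker χ0).IsPrime := RingHom.ker_isPrime χ0
  have h𝔭0 : (RingHom.ker χ0).comap (algebraMap ℤ (heckeAlgebra N 2 (↑S : Set ℕ))) = ⊥ := by
    rw [eq_bot_iff]
    intro n hn
    rw [Ideal.mem_comap, RingHom.mem_ker, eq_intCast, map_intCast] at hn
    rw [Ideal.mem_bot]
    exact_mod_cast hn
  obtain ⟨w, χC, hw0, hweig, hker⟩ := exists_eigenvector_ker_eq ρ hρ (RingHom.ker χ0) h𝔭0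
  -- the eigenform and the newform
  obtain ⟨f, hf, hfa⟩ := exists_eigenform_of_eigenvector (↑S : Set ℕ) χC w hw0 hweig
  obtain ⟨M, hMN, g, hg, hgf⟩ :=
    Fermat.Agent.ES.Q58.TopA12.exists_newform_below (NeZero.ne N) hf
  have hM0 : NeZero M := ⟨fun h0 => NeZero.ne N (by rw [h0] at hMN; exact zero_dvd_iff.mp hMN)⟩
  have hMS : ∀ q : ℕ, q.Prime → q ∣ M → q ∈ (↑S : Set ℕ) := fun q hq hqM =>
    hNS q hq (hqM.trans hMN)
  have hnd : ∀ ℓ : ℕ, ℓ.Prime → ℓ ∉ (↑S : Set ℕ) → ¬ ℓ ∣ N := fun ℓ hℓ hℓS h => hℓS (hNS ℓ hℓ h)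
  -- the eigencharacter of `g`
  let chig : heckeAlgebra M 2 (↑S : Set ℕ) →+* ℂ := Fermat.Agent.ES.J7.EigenChar1.chiC hg.1 _
  have hchig : ∀ (ℓ : ℕ) (hℓ : ℓ.Prime) (hℓM : ¬ ℓ ∣ M) (hℓS : ℓ ∉ (↑S : Set ℕ)),
      chig (heckeAlgebra.T hℓ hℓM hℓS) = qCoeff g ℓ := fun ℓ hℓ hℓM hℓS =>
    Fermat.Agent.ES.J7.EigenChar1.chiC_T hg.1 hℓ hℓM hℓS
  have hga : ∀ (ℓ : ℕ) (hℓ : ℓ.Prime) (hℓS : ℓ ∉ (↑S : Set ℕ)),
      qCoeff g ℓ = χC (heckeAlgebra.T hℓ (hnd ℓ hℓ hℓS) hℓS) := fun ℓ hℓ hℓS => by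
    rw [hgf ℓ hℓ (hnd ℓ hℓ hℓS), hfa ℓ hℓ (hnd ℓ hℓ hℓS) hℓS]
  have hle : chig.range ≤ χC.range := by
    rintro _ ⟨t, rfl⟩
    exact chiC_mem_of_qCoeff_mem hg.1 (↑S : Set ℕ) hMS χC.range
      (fun ℓ hℓ _ hℓS => ⟨_, (hga ℓ hℓ hℓS).symm⟩) t
  -- the comparison map
  have hsurj : Function.Surjective χC.rangeRestrict := χC.rangeRestrict_surjective
  have hkerle : RingHom.ker χC.rangeRestrict ≤ RingHom.ker χ0 := by
    intro t ht
    rw [← hker, RingHom.mem_ker]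
    rw [RingHom.mem_ker] at ht
    have := congrArg Subtype.val ht
    exact this
  let ι₀ : χC.range →+* O' := RingHom.liftOfSurjective χC.rangeRestrict hsurj ⟨χ0, hkerle⟩
  have hι₀ : ∀ t, ι₀ (χC.rangeRestrict t) = χ0 t := fun t =>
    RingHom.liftOfRightInverse_comp_apply _ _ (Function.surjInv_eq hsurj) ⟨χ0, hkerle⟩ t
  refine ⟨M, hM0, hMN, g, hg, chig, ι₀.comp (Subring.inclusion hle), hchig, ?_⟩
  intro ℓ hℓ hℓN hℓS
  rw [RingHom.comp_apply, RingHom.comp_apply, ← hι₀]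
  congr 1
  apply Subtype.ext
  show chig (heckeAlgebra.T hℓ _ hℓS) = χC (heckeAlgebra.T hℓ hℓN hℓS)
  rw [hchig, hga ℓ hℓ hℓS]

end Fermat.Agent.M43.TopDict2
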