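/-
Programme M43 (target S43), chapter TOP, helper2: **THE END**: a characteristic-zero point of the
Hecke algebra of a squarefree level `N0` prime to `p` whose representation is residually without
invariant line and UNRAMIFIED at every odd prime of `N0` does not exist.

`false_of_rho` : `N0` squarefree, `p` odd, `p ∤ N0`, `S ⊇ {p} ∪ primes(N0)`, `O'` a complete
discrete valuation ring of characteristic `0` with finite residue field of characteristic `p`,
`χ0 : heckeAlgebra N0 2 S →+* O'`, `ρ : GaloisRepAdic O'` with the Frobenius characteristic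
polynomials `X² − χ0(T_ℓ) X + ℓ` (`ℓ ∉ S`), residually without invariant line, unramified at every
odd prime of `N0`: contradiction.

Proof: `TopDict2.exists_newform_of_point` (a newform `g` of level `M ∣ N0` with the eigensystem
`χ0`), `NewRamGen1.newRam` (NEW ⟹ RAM: `ρ` is ramified at the odd primes of `M`), hence `M ∣ 2`,
and the banked S07/S08 (no cusp form of weight `2` and level `1`, `2`).
-/
import Mathlib
import Fermat.Agent.M43.TopDict2
import Fermat.Agent.M43.NewRamGen1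
import Fermat.Agent.S07
import Fermat.Agent.S08

set_option autoImplicit false

open CuspForm CongruenceSubgroup ModularFormClass Polynomial IsLocalRing

namespace Fermat.Agent.M43.TopEnd2

/-- a squarefree number all of whose prime factors are `2` is `1` or `2`. -/
theorem eq_one_or_two_of_squarefree {M : ℕ} (hsf : Squarefree M)
    (hodd : ∀ q : ℕ, q.Prime → q ∣ M → q = 2) : M = 1 ∨ M = 2 := by
  have hsub : M.primeFactors ⊆ {2} := by
    intro q hq
    rw [Finset.mem_singleton]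
    exact hodd q (Nat.prime_of_mem_primeFactors hq) (Nat.dvd_of_mem_primeFactors hq)
  have h1 : ∏ q ∈ M.primeFactors, q ∣ ∏ q ∈ ({2} : Finset ℕ), q :=
    Finset.prod_dvd_prod_of_subset _ _ _ hsub
  rw [Nat.prod_primeFactors_of_squarefree hsf, Finset.prod_singleton] at h1
  exact (Nat.dvd_prime Nat.prime_two).mp h1

/-- **THE END.** -/
theorem false_of_rho {N0 : ℕ} [NeZero N0] (hsq : Squarefree N0) (p : ℕ) [Fact p.Prime]
    (hp2 : p ≠ 2) (hpN : ¬ p ∣ N0) (S : Finset ℕ) (hpS : p ∈ S)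
    (hNS : ∀ q : ℕ, q.Prime → q ∣ N0 → q ∈ S)
    (O' : Type) [CommRing O'] [IsDomain O'] [IsDiscreteValuationRing O']
    [IsAdicComplete (maximalIdeal O') O'] [Finite (ResidueField O')] [CharZero O']
    (hpO' : (p : O') ∈ maximalIdeal O')
    (χ0 : heckeAlgebra N0 2 (↑S : Set ℕ) →+* O') (ρ : GaloisRepAdic O')
    (hρ : ∀ (ℓ : ℕ) (hℓ : ℓ.Prime) (hℓN : ¬ ℓ ∣ N0) (hℓS : ℓ ∉ (↑S : Set ℕ)),
      ∀ A : ValuationSubring (AlgebraicClosure ℚ), A.LiesOverPrime ℓ →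
        ∀ σ : AlgebraicClosure ℚ ≃ₐ[ℚ] AlgebraicClosure ℚ, A.IsFrobeniusAt σ ℓ →
          LinearMap.charpoly (ρ.ρ σ) =
            X ^ 2 - C (χ0 (heckeAlgebra.T hℓ hℓN hℓS)) * X + C ((ℓ : O')))
    (hirr : ∀ v : ρ.residual.V, v ≠ 0 →
      ¬ ∀ σ : AlgebraicClosure ℚ ≃ₐ[ℚ] AlgebraicClosure ℚ,
        ∃ c : ResidueField O', ρ.residual.ρ σ v = c • v)
    (hunr : ∀ q : ℕ, q.Prime → q ≠ 2 → q ∣ N0 → ρ.IsUnramifiedAt q) : False := by
  obtain ⟨M, hM0, hMN, g, hg, chig, iota, hchig, hio⟩ :=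
    TopDict2.exists_newform_of_point S hNS χ0
  have hMS : ∀ q : ℕ, q.Prime → q ∣ M → q ∈ S := fun q hq hqM => hNS q hq (hqM.trans hMN)
  have hnd : ∀ ℓ : ℕ, ℓ.Prime → ℓ ∉ (↑S : Set ℕ) → ¬ ℓ ∣ N0 := fun ℓ hℓ hℓS h =>
    hℓS (hNS ℓ hℓ h)
  have hMsf : Squarefree M := hsq.squarefree_of_dvd hMN
  have hρ' : ∀ (ℓ : ℕ) (hℓ : ℓ.Prime) (hℓM : ¬ ℓ ∣ M) (hℓS : ℓ ∉ (↑S : Set ℕ)),
      ∀ A : ValuationSubring (AlgebraicClosure ℚ), A.LiesOverPrime ℓ →
        ∀ σ : AlgebraicClosure ℚ ≃ₐ[ℚ] AlgebraicClosure ℚ, A.IsFrobeniusAt σ ℓ →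
          LinearMap.charpoly (ρ.ρ σ) =
            X ^ 2 - C ((iota.comp chig.rangeRestrict) (heckeAlgebra.T hℓ hℓM hℓS)) * X
              + C ((ℓ : O')) := by
    intro ℓ hℓ hℓM hℓS A hA σ hσ
    rw [hρ ℓ hℓ (hnd ℓ hℓ hℓS) hℓS A hA σ hσ, ← hio ℓ hℓ (hnd ℓ hℓ hℓS) hℓS]
  by_cases hodd : ∀ q : ℕ, q.Prime → q ∣ M → q = 2
  · -- `M ∣ 2`: no cusp form
    rcases eq_one_or_two_of_squarefree hMsf hodd with rfl | rfl
    · exact hg.ne_zero (Fermat.Agent.S08.result g)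
    · exact hg.ne_zero (Fermat.Agent.S07.result g)
  · push Not at hodd
    obtain ⟨q, hq, hqM, hq2⟩ := hodd
    have hqp : q ≠ p := fun e => hpN (e ▸ hqM.trans hMN)
    have hqsq : ¬ q ^ 2 ∣ M := fun h =>
      Nat.squarefree_iff_prime_squarefree.mp hMsf q hq (by rwa [← pow_two])
    exact Fermat.Agent.M43.NewRamGen1.newRam hg p hp2 S O' hpO' chig hchig iota hpS hMS ρ hρ' hirr
      q hq hq2 hqp hqM hqsq (hunr q hq hq2 (hqM.trans hMN))

end Fermat.Agent.M43.TopEnd2
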