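/-
Programme M43 (target S43), chapter TOP, helper2: **a characteristic-zero point through a prime not
containing the uniformiser.**

`𝒪` a complete discrete valuation ring of characteristic `0` with uniformiser `lam`, `T0` a local
`𝒪`-algebra, finite as an `𝒪`-module, `𝔔` a prime of `T0` with `lam ∉ 𝔔`.

`exists_point` : there are a complete discrete valuation ring `O'` of characteristic `0` with finite
residue field and a LOCAL homomorphism `ψ : T0 →+* O'` with `𝔔 ≤ ker ψ`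
(`LocalHecke3.exists_points` applied to the domain `T0 ⧸ 𝔔`, which is finite and torsion-free over
`𝒪`).
-/
import Mathlib
import Fermat.Agent.M43.LocalHecke3

set_option autoImplicit false
set_option linter.style.haveILetI false

open IsLocalRing

namespace Fermat.Agent.M43.TopPoint2

variable {𝒪 : Type} [CommRing 𝒪] [IsDomain 𝒪] [IsDiscreteValuationRing 𝒪] [CharZero 𝒪]
  [Finite (ResidueField 𝒪)]
  {T0 : Type} [CommRing T0] [IsLocalRing T0] [Algebra 𝒪 T0] [Module.Finite 𝒪 T0]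

/-- **a characteristic-zero point through `𝔔`.** -/
theorem exists_point {lam : 𝒪} (hlam : Irreducible lam) (𝔔 : Ideal T0) [h𝔔 : 𝔔.IsPrime]
    (hl : algebraMap 𝒪 T0 lam ∉ 𝔔) :
    ∃ (O' : Type) (_ : CommRing O') (_ : IsDomain O') (_ : IsDiscreteValuationRing O')
      (_ : IsAdicComplete (maximalIdeal O') O') (_ : Finite (ResidueField O')) (_ : CharZero O')
      (ψ : T0 →+* O'), IsLocalHom ψ ∧ 𝔔 ≤ RingHom.ker ψ := by
  classical
  -- the quotient
  haveI : Nontrivial (T0 ⧸ 𝔔) := Ideal.Quotient.nontrivial_iff.mpr h𝔔.ne_top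
  haveI : IsLocalRing (T0 ⧸ 𝔔) :=
    IsLocalRing.of_surjective' (Ideal.Quotient.mk 𝔔) Ideal.Quotient.mk_surjective
  haveI : IsDomain (T0 ⧸ 𝔔) := Ideal.Quotient.isDomain 𝔔
  -- `𝒪 → T0 ⧸ 𝔔` is injective
  have hlam0 : algebraMap 𝒪 (T0 ⧸ 𝔔) lam ≠ 0 := by
    rw [IsScalarTower.algebraMap_apply 𝒪 T0 (T0 ⧸ 𝔔), Ideal.Quotient.algebraMap_eq, Ne,
      Ideal.Quotient.eq_zero_iff_mem]
    exact hl
  have hinj : ∀ a : 𝒪, algebraMap 𝒪 (T0 ⧸ 𝔔) a = 0 → a = 0 := by
    intro a ha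
    by_contra ha0
    obtain ⟨n, u, rfl⟩ := IsDiscreteValuationRing.eq_unit_mul_pow_irreducible ha0 hlam
    rw [map_mul, map_pow] at ha
    rcases mul_eq_zero.mp ha with h1 | h1
    · exact ((u.isUnit.map (algebraMap 𝒪 (T0 ⧸ 𝔔))).ne_zero) h1
    · exact hlam0 (eq_zero_of_pow_eq_zero h1)
  have htf : ∀ (a : 𝒪) (x : T0 ⧸ 𝔔), a • x = 0 → a = 0 ∨ x = 0 := by
    intro a x hax
    rw [Algebra.smul_def] at hax
    rcases mul_eq_zero.mp hax with h1 | h1
    · exact Or.inl (hinj a h1)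
    · exact Or.inr h1
  obtain ⟨ι, hι, O, i1, i2, i3, i4, i5, i6, ψ, hloc, hjoint⟩ :=
    LocalHecke3.exists_points 𝒪 (T0 ⧸ 𝔔) htf
  -- `ι` is nonempty
  have hne : Nonempty ι := by
    by_contra hemp
    rw [not_nonempty_iff] at hemp
    exact one_ne_zero (hjoint (1 : T0 ⧸ 𝔔) fun i => (hemp.false i).elim)
  obtain ⟨i⟩ := hne
  haveI := hloc i
  haveI : IsLocalHom (Ideal.Quotient.mk 𝔔) :=
    IsLocalHom.of_surjective _ Ideal.Quotient.mk_surjective
  refine ⟨O i, i1 i, i2 i, i3 i, i4 i, i5 i, i6 i, (ψ i).comp (Ideal.Quotient.mk 𝔔),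
    RingHom.isLocalHom_comp _ _, ?_⟩
  intro x hx
  rw [RingHom.mem_ker, RingHom.comp_apply, Ideal.Quotient.eq_zero_iff_mem.mpr hx, map_zero]

end Fermat.Agent.M43.TopPoint2
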