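/-
Programme M43 (target S43), chapter TOP, helper2: **a lift which is trivial at the universal tame
`p`-generator of the inertia group at `q ≠ p` is unramified at `q`.**

`R` a noetherian local ring of residue characteristic `p`, `ρ : GaloisRepAdic R`, `P` a place of
`ℚ̄` over `q ≠ p` at which `ρ` is residually unramified, `s ∈ I_P` a universal tame `p`-generator
(`GlobTame3.exists_universal_generator`).

* `apply_eq_one_of_generator` : `ρ(s) = 1` implies `ρ(σ) = 1` for every `σ ∈ I_P` (the image of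
  `I_P` modulo `𝔪ⁿ` is a `p`-group generated by the image of `s`; Krull);
* `isUnramifiedAt_of_generator` : hence `ρ` is unramified at `q` (all places over `q` are
  conjugate);
* `sub_mem_of_residual_eq_one` : `ρ.residual(σ) = 1` means `ρ(σ) ≡ 1` modulo the maximal ideal.
-/
import Mathlib
import Fermat.Agent.M43.TameFrobRep5
import Fermat.Agent.M43.GlobTame3
import Fermat.Agent.W56.InertiaConj8

set_option autoImplicit false

open IsLocalRing
open scoped TensorProduct Pointwise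

namespace Fermat.Agent.M43.TopUnr2

open Fermat.Agent.M43.TameFrobRep5 Fermat.Agent.M43.GlobTame3

local notation "Qb" => AlgebraicClosure ℚ
local notation "GQ" => (AlgebraicClosure ℚ ≃ₐ[ℚ] AlgebraicClosure ℚ)

variable {R : Type} [CommRing R] [IsLocalRing R]

/-- `ρ.residual(σ) = 1` means `ρ(σ) ≡ 1` modulo the maximal ideal. -/
theorem sub_mem_of_residual_eq_one (ρ : GaloisRepAdic R) {σ : GQ} (h : ρ.residual.ρ σ = 1)
    (v : ρ.V) : ρ.ρ σ v - v ∈ maximalIdeal R • (⊤ : Submodule R ρ.V) := by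
  have h1 : (ρ.ρ σ).baseChange (ResidueField R) ((1 : ResidueField R) ⊗ₜ[R] v) =
      (1 : ResidueField R) ⊗ₜ[R] v := by
    have := congrArg (fun f : Module.End (ResidueField R) ρ.residual.V =>
      f ((1 : ResidueField R) ⊗ₜ[R] v)) h
    exact this
  rw [LinearMap.baseChange_tmul] at h1
  have h2 : ((1 : ResidueField R) ⊗ₜ[R] (ρ.ρ σ v - v) : ResidueField R ⊗[R] ρ.V) = 0 := by
    rw [TensorProduct.tmul_sub, h1, sub_self]
  have h3 : (TensorProduct.quotTensorEquivQuotSMul ρ.V (maximalIdeal R))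
      ((Ideal.Quotient.mk (maximalIdeal R) 1) ⊗ₜ[R] (ρ.ρ σ v - v)) = 0 := by
    have h2' : ((Ideal.Quotient.mk (maximalIdeal R) 1) ⊗ₜ[R] (ρ.ρ σ v - v) :
        (R ⧸ maximalIdeal R) ⊗[R] ρ.V) = 0 := h2
    rw [h2', map_zero]
  have h4 : (TensorProduct.quotTensorEquivQuotSMul ρ.V (maximalIdeal R))
      ((Ideal.Quotient.mk (maximalIdeal R) 1) ⊗ₜ[R] (ρ.ρ σ v - v)) =
        Submodule.Quotient.mk ((1 : R) • (ρ.ρ σ v - v)) :=
    TensorProduct.quotTensorEquivQuotSMul_mk_tmul _ _ _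
  rw [one_smul] at h4
  rw [h4] at h3
  exact (Submodule.Quotient.mk_eq_zero _).mp h3

variable [IsNoetherianRing R]

/-- **triviality at the universal tame generator implies triviality on the inertia group.** -/
theorem apply_eq_one_of_generator (ρ : GaloisRepAdic R) {p : ℕ} (hpR : (p : R) ∈ maximalIdeal R)
    {P : ValuationSubring Qb}
    (hres : ∀ σ ∈ P.inertiaSubgroupIn ℚ, ∀ v : ρ.V,
      ρ.ρ σ v - v ∈ maximalIdeal R • (⊤ : Submodule R ρ.V))
    (s : ↥(P.inertiaSubgroupIn ℚ))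
    (hs : ∀ {H : Type} [Group H] (f : ↥(P.inertiaSubgroupIn ℚ) →* H), ContI f →
      (∀ σ, ∃ a : ℕ, f σ ^ p ^ a = 1) → ∀ σ, f σ ∈ Subgroup.zpowers (f s))
    (h1 : ρ.ρ (s : GQ) = 1) {σ : GQ} (hσ : σ ∈ P.inertiaSubgroupIn ℚ) : ρ.ρ σ = 1 := by
  classical
  let ρu : GQ →* (Module.End R ρ.V)ˣ := ρ.ρ.toHomUnits
  have hρu : ∀ τ, ((ρu τ : (Module.End R ρ.V)ˣ) : Module.End R ρ.V) = ρ.ρ τ := fun τ => rfl
  have key : ∀ n : ℕ, ρu σ ∈ congr (V := ρ.V) (maximalIdeal R ^ n) := by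
    intro n
    let f : ↥(P.inertiaSubgroupIn ℚ) →*
        (Module.End R ρ.V)ˣ ⧸ congr (V := ρ.V) (maximalIdeal R ^ n) :=
      (QuotientGroup.mk' _).comp (ρu.comp (Subgroup.subtype _))
    have hf1 : ∀ τ : ↥(P.inertiaSubgroupIn ℚ), f τ = 1 ↔
        ρu (τ : GQ) ∈ congr (V := ρ.V) (maximalIdeal R ^ n) := fun τ =>
      QuotientGroup.eq_one_iff _
    have hcont : ContI f := by
      obtain ⟨L, hL, hc⟩ := ρ.isAdicContinuous n
      refine ⟨L, hL, fun τ hτ => ?_⟩
      rw [hf1]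
      intro v
      rw [hρu]
      exact hc (τ : GQ) hτ v
    have hpow : ∀ τ, ∃ a : ℕ, f τ ^ p ^ a = 1 := by
      intro τ
      refine ⟨n, ?_⟩
      have h2 : ρu (τ : GQ) ∈ congr (V := ρ.V) (maximalIdeal R) := by
        intro v
        rw [hρu]
        exact hres _ τ.2 v
      rw [← map_pow, hf1]
      have := pow_pow_mem_congr p hpR h2 n
      have h3 : congr (V := ρ.V) (maximalIdeal R ^ (n + 1)) ≤ congr (maximalIdeal R ^ n) :=
        congr_mono (Ideal.pow_le_pow_right (Nat.le_succ n))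
      simpa using h3 this
    have hfs : f s = 1 := by
      rw [hf1]
      have : ρu (s : GQ) = 1 := Units.ext (by rw [hρu, h1]; rfl)
      rw [this]
      exact Subgroup.one_mem _
    have h4 := hs f hcont hpow ⟨σ, hσ⟩
    rw [hfs, Subgroup.zpowers_one_eq_bot, Subgroup.mem_bot, hf1] at h4
    exact h4
  apply LinearMap.ext
  intro v
  have hinf : ρ.ρ σ v - v ∈ (⨅ n : ℕ, (maximalIdeal R ^ n) • (⊤ : Submodule R ρ.V)) := by
    rw [Submodule.mem_iInf]
    intro n
    have := key n v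
    rwa [hρu] at this
  rw [Ideal.iInf_pow_smul_eq_bot_of_isLocalRing (maximalIdeal R) Ideal.IsPrime.ne_top',
    Submodule.mem_bot, sub_eq_zero] at hinf
  rw [hinf, Module.End.one_apply]

/-- **a lift trivial at the universal tame generator is unramified.** -/
theorem isUnramifiedAt_of_generator (ρ : GaloisRepAdic R) {p q : ℕ} (hq : q.Prime)
    (hpR : (p : R) ∈ maximalIdeal R) {P : ValuationSubring Qb} (hP : P.LiesOverPrime q)
    (hres : ∀ σ ∈ P.inertiaSubgroupIn ℚ, ∀ v : ρ.V,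
      ρ.ρ σ v - v ∈ maximalIdeal R • (⊤ : Submodule R ρ.V))
    (s : ↥(P.inertiaSubgroupIn ℚ))
    (hs : ∀ {H : Type} [Group H] (f : ↥(P.inertiaSubgroupIn ℚ) →* H), ContI f →
      (∀ σ, ∃ a : ℕ, f σ ^ p ^ a = 1) → ∀ σ, f σ ∈ Subgroup.zpowers (f s))
    (h1 : ρ.ρ (s : GQ) = 1) : ρ.IsUnramifiedAt q := by
  intro P' hP' σ' hσ'
  obtain ⟨g, rfl⟩ := Fermat.Agent.W56.InertiaConj8.exists_smul_eq hq hP' hP
  have h2 : g * σ' * g⁻¹ ∈ (g • P').inertiaSubgroupIn ℚ :=
    Fermat.Agent.PT.BR.UnramBridge13.conj_mem_inertiaSubgroupIn hq hP' g hσ'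
  have h3 := apply_eq_one_of_generator ρ hpR hres s hs h1 h2
  have h4 : ρ.ρ σ' = ρ.ρ g⁻¹ * ρ.ρ (g * σ' * g⁻¹) * ρ.ρ g := by
    rw [← map_mul, ← map_mul]
    congr 1
    group
  rw [h4, h3, mul_one, ← map_mul, inv_mul_cancel, map_one]

end Fermat.Agent.M43.TopUnr2
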