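/-
Programme M43 (target S43), chapter TOP, helper2: **(T3) from the output of the patching argument
to the contradiction.**

Frame: `𝒪`, `p`, `ρbar` (absolutely irreducible, cyclotomic determinant), the Hecke algebra
`heckeAlgebra N0 2 S` of a squarefree level `N0` prime to `p` with the residual eigensystem `θ` of
`ρbar`, a Prelude datum `D : HeckeGaloisRepDatum N0 S 𝒪 θ T0`, `Z ⊇` the odd primes of `N0` (`ρbar`
unramified at `Z`), the universal tame generators `s q`.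

`false_of_prime` : a prime `𝔔` of `T0` with `lam ∉ 𝔔` containing the traceless coordinates of
`D.ρ (s q)`, `q ∈ Z` (the conclusion of `Iface2.PatchOutputStmt`) does not exist.

Proof: `TopPoint2.exists_point` (a point `ψ : T0 → O'` through `𝔔`), `ρ' := D.ρ ⊗ O'`; its residual
representation is `ρbar ⊗ k'` (Brauer–Nesbitt `GlobBN3`), `ρ'(s q)` is a scalar of determinant `1`
congruent to `1`, hence `1`; `TopUnr2`: `ρ'` is unramified at `Z`; `TopEnd2.false_of_rho`.
-/
import Mathlib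
import Fermat.Agent.M43.TopEnd2
import Fermat.Agent.M43.TopPoint2
import Fermat.Agent.M43.TopUnr2
import Fermat.Agent.M43.GlobHecke3
import Fermat.Agent.M43.GlobFinal3
import Fermat.Agent.M43.GlueLoc2
import Fermat.Agent.W56.UnipSel8
import Fermat.Agent.M43.AbsIrr3

set_option autoImplicit false
set_option linter.style.haveILetI false
set_option linter.unusedSectionVars false

open CuspForm Polynomial IsLocalRing ExtCitation
open scoped TensorProduct

namespace Fermat.Agent.M43.TopOut2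

open Fermat.Agent.W56.Defs9 Fermat.Agent.M43.GlobFinal3 Fermat.Agent.M43.GlobTame3
  Fermat.Agent.S53.MatrixModel

local notation "Γ" => (AlgebraicClosure ℚ ≃ₐ[ℚ] AlgebraicClosure ℚ)
local notation "Qbar" => AlgebraicClosure ℚ

/-! ### Scalars -/

section Scalar

variable {R : Type} [CommRing R] [IsLocalRing R]

/-- an endomorphism of a free module of rank two whose matrix has equal diagonal entries and
vanishing off-diagonal entries is a scalar. -/
theorem eq_smul_one_of_matrix {V : Type} [AddCommGroup V] [Module R V]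
    (b : Module.Basis (Fin 2) R V) (f : Module.End R V) (c : R)
    (h00 : LinearMap.toMatrix b b f 0 0 = c) (h11 : LinearMap.toMatrix b b f 1 1 = c)
    (h01 : LinearMap.toMatrix b b f 0 1 = 0) (h10 : LinearMap.toMatrix b b f 1 0 = 0) :
    f = c • (1 : Module.End R V) := by
  apply (LinearMap.toMatrix b b).injective
  rw [map_smul, LinearMap.toMatrix_one]
  ext i j
  fin_cases i <;> fin_cases j <;> simp [h00, h11, h01, h10]

end Scalar

/-! ### The statement -/

variable {𝒪 : Type} [CommRing 𝒪] [IsDomain 𝒪] [IsDiscreteValuationRing 𝒪]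
  [IsAdicComplete (maximalIdeal 𝒪) 𝒪] [Finite (ResidueField 𝒪)] [CharZero 𝒪]

/-- **(T3)**: the conclusion of the patching argument is contradictory. -/
theorem false_of_prime {lam : 𝒪} (hlam : Irreducible lam)
    (p : ℕ) [Fact p.Prime] [CharP (ResidueField 𝒪) p] (hp2 : p ≠ 2)
    (hp𝒪 : (p : 𝒪) ∈ maximalIdeal 𝒪)
    {N0 : ℕ} [NeZero N0] (hsq : Squarefree N0) (hpN : ¬ p ∣ N0)
    (S : Finset ℕ) (hpS : p ∈ S) (hNS : ∀ q : ℕ, q.Prime → q ∣ N0 → q ∈ S)
    (ρbar : ResidualGaloisRep (ResidueField 𝒪)) (habs : ρbar.IsAbsolutelyIrreducible)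
    (hdet : (GaloisRepAdic.ofResidualGaloisRep ρbar).DetIsCyclotomic p)
    (θ : heckeAlgebra N0 2 (↑S : Set ℕ) →+* ResidueField 𝒪)
    (hθ : ∀ (ℓ : ℕ) (hℓ : ℓ.Prime) (hℓN : ¬ ℓ ∣ N0) (hℓS : ℓ ∉ (↑S : Set ℕ)),
      ∀ P : ValuationSubring Qbar, P.LiesOverPrime ℓ → ∀ φ : Γ, P.IsFrobeniusAt φ ℓ →
        LinearMap.charpoly (ρbar.ρ φ) =
          X ^ 2 - C (θ (heckeAlgebra.T hℓ hℓN hℓS)) * X + C ((ℓ : ResidueField 𝒪)))
    {T0 : Type} [CommRing T0] [IsLocalRing T0] [IsNoetherianRing T0]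
    [IsAdicComplete (maximalIdeal T0) T0] [Algebra 𝒪 T0] [IsLocalHom (algebraMap 𝒪 T0)]
    [Module.Finite 𝒪 T0] [Module.Free 𝒪 T0]
    (D : HeckeGaloisRepDatum N0 (↑S : Set ℕ) 𝒪 θ T0)
    (Z : Finset ℕ) (hZ : ∀ q : ℕ, q.Prime → q ≠ 2 → q ∣ N0 → q ∈ Z)
    (hZp : ∀ q ∈ primesOf Z, (q : ℕ) ≠ p)
    (hZur : ∀ q ∈ primesOf Z, ρbar.IsUnramifiedAt (q : ℕ))
    (s : ∀ q : Nat.Primes, ↥((primeLocalPlace q).inertiaSubgroupIn ℚ))
    (hs : ∀ q ∈ primesOf Z, ∀ {H : Type} [Group H]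
      (f : ↥((primeLocalPlace q).inertiaSubgroupIn ℚ) →* H), ContI f →
        (∀ σ, ∃ a : ℕ, f σ ^ p ^ a = 1) → ∀ σ, f σ ∈ Subgroup.zpowers (f (s q)))
    (b0 : Module.Basis (Fin 2) T0 D.ρ.V) (𝔔 : Ideal T0) (h𝔔 : 𝔔.IsPrime)
    (hl : algebraMap 𝒪 T0 lam ∉ 𝔔)
    (htl : ∀ q ∈ primesOf Z, ∀ k : Fin 3, tlCoord D.ρ b0 (s q : Γ) k ∈ 𝔔) : False := by
  classical
  have hp : p.Prime := Fact.out
  -- the point
  obtain ⟨O', i1, i2, i3, i4, i5, i6, ψ, hloc, hker⟩ := TopPoint2.exists_point hlam 𝔔 hl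
  have hpT : (p : T0) ∈ maximalIdeal T0 := GlobHecke3.natCast_mem_maximalIdeal hp𝒪
  have hpO' : (p : O') ∈ maximalIdeal O' := by
    have := map_nonunit ψ (p : T0) hpT
    rwa [map_natCast] at this
  letI : Algebra T0 O' := ψ.toAlgebra
  have hnd : ∀ ℓ : ℕ, ℓ.Prime → ℓ ∉ S → ¬ ℓ ∣ N0 := fun ℓ hℓ hℓS h => hℓS (hNS ℓ hℓ h)
  -- the representation at the point
  set ρ' : GaloisRepAdic O' := D.ρ.baseChangeAlong ψ hloc with hρ'def
  set χ0 : heckeAlgebra N0 2 (↑S : Set ℕ) →+* O' := ψ.comp D.π with hχ0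
  have hρ' : ∀ (ℓ : ℕ) (hℓ : ℓ.Prime) (hℓN : ¬ ℓ ∣ N0) (hℓS : ℓ ∉ (↑S : Set ℕ)),
      ∀ A : ValuationSubring Qbar, A.LiesOverPrime ℓ → ∀ σ : Γ, A.IsFrobeniusAt σ ℓ →
        LinearMap.charpoly (ρ'.ρ σ) =
          X ^ 2 - C (χ0 (heckeAlgebra.T hℓ hℓN hℓS)) * X + C ((ℓ : O')) := by
    intro ℓ hℓ hℓN hℓS A hA σ hσ
    show LinearMap.charpoly ((D.ρ.ρ σ).baseChange O') = _
    rw [LinearMap.charpoly_baseChange, D.charpoly_frob ℓ hℓ hℓN hℓS A hA σ hσ]
    simp only [Polynomial.map_add, Polynomial.map_sub, Polynomial.map_pow, Polynomial.map_X,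
      Polynomial.map_mul, Polynomial.map_C]
    rw [map_natCast]
    rfl
  -- the residue fields
  haveI hloc𝒪 : IsLocalHom (ψ.comp (algebraMap 𝒪 T0)) := RingHom.isLocalHom_comp _ _
  set ψk : ResidueField 𝒪 →+* ResidueField O' :=
    ResidueField.map (ψ.comp (algebraMap 𝒪 T0)) with hψk
  haveI : CharP (ResidueField O') p := charP_of_injective_ringHom ψk.injective p
  have hresπ : ∀ t : heckeAlgebra N0 2 (↑S : Set ℕ), residue O' (χ0 t) = ψk (θ t) := by
    intro t
    have h1 := congrArg (ResidueField.map ψ) (D.residue_π t)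
    rw [ResidueField.map_residue] at h1
    rw [hχ0, RingHom.comp_apply, h1, hψk]
    have h2 := ResidueField.map_comp (algebraMap 𝒪 T0) ψ
    exact (congrArg (fun g : ResidueField 𝒪 →+* ResidueField O' => g (θ t)) h2).symm
  -- Brauer–Nesbitt
  have hirr1 := GlobBN3.no_invariant_line_of_isAbsolutelyIrreducible _
    (AbsIrr3.isAbsolutelyIrreducible_baseChangeAlong ψk ρbar habs)
  obtain ⟨e⟩ : (ρbar.baseChangeAlong ψk).IsEquiv ρ'.residual := by
    refine GlobBN3.residual_isEquiv_of_charpoly_frob p hp2 (ρbar.baseChangeAlong ψk) ρ'.residual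
      (GlobHecke3.detIsCyclotomic_residual_baseChangeAlong ψk ρbar p hdet) hirr1 S
      (fun ℓ => if h : ℓ.Prime ∧ ¬ ℓ ∣ N0 ∧ ℓ ∉ (↑S : Set ℕ) then
        ψk (θ (heckeAlgebra.T h.1 h.2.1 h.2.2)) else 0) ?_ ?_
    · intro ℓ hℓ hℓS P hP φ hφ
      have hℓS' : ℓ ∉ (↑S : Set ℕ) := by simpa using hℓS
      rw [dif_pos ⟨hℓ, hnd ℓ hℓ hℓS, hℓS'⟩]
      letI : Algebra (ResidueField 𝒪) (ResidueField O') := ψk.toAlgebra
      show LinearMap.charpoly ((ρbar.ρ φ).baseChange (ResidueField O')) = _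
      rw [LinearMap.charpoly_baseChange, hθ ℓ hℓ (hnd ℓ hℓ hℓS) hℓS' P hP φ hφ]
      simp only [Polynomial.map_add, Polynomial.map_sub, Polynomial.map_pow, Polynomial.map_X,
        Polynomial.map_mul, Polynomial.map_C]
      rw [map_natCast]
      rfl
    · intro ℓ hℓ hℓS P hP φ hφ
      have hℓS' : ℓ ∉ (↑S : Set ℕ) := by simpa using hℓS
      rw [dif_pos ⟨hℓ, hnd ℓ hℓ hℓS, hℓS'⟩]
      show LinearMap.charpoly ((ρ'.ρ φ).baseChange (ResidueField O')) = _
      rw [LinearMap.charpoly_baseChange, hρ' ℓ hℓ (hnd ℓ hℓ hℓS) hℓS' P hP φ hφ]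
      simp only [Polynomial.map_add, Polynomial.map_sub, Polynomial.map_pow, Polynomial.map_X,
        Polynomial.map_mul, Polynomial.map_C]
      rw [map_natCast, ← hresπ]
      rfl
  -- no invariant line
  have hirr : ∀ v : ρ'.residual.V, v ≠ 0 →
      ¬ ∀ σ : Γ, ∃ c : ResidueField O', ρ'.residual.ρ σ v = c • v := by
    intro v hv hall
    refine hirr1 (e.toLinearEquiv.symm v) (fun h0 => hv ?_) fun σ => ?_
    · have := congrArg e.toLinearEquiv h0
      rwa [LinearEquiv.apply_symm_apply, map_zero] at this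
    · obtain ⟨c, hc⟩ := hall σ
      refine ⟨c, e.toLinearEquiv.injective ?_⟩
      rw [e.map_apply, LinearEquiv.apply_symm_apply, hc, map_smul, LinearEquiv.apply_symm_apply]
  -- residually unramified at `Z`
  have hresur : ∀ q ∈ primesOf Z, ∀ σ ∈ (primeLocalPlace q).inertiaSubgroupIn ℚ,
      ρ'.residual.ρ σ = 1 := by
    intro q hqZ σ hσ
    have h1 : (ρbar.baseChangeAlong ψk).ρ σ = 1 := by
      letI : Algebra (ResidueField 𝒪) (ResidueField O') := ψk.toAlgebra
      show (ρbar.ρ σ).baseChange (ResidueField O') = 1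
      rw [hZur q hqZ _ (Fermat.Agent.W56.UnipSel8.liesOverPrime_primeLocalPlace q) σ hσ]
      rw [LinearMap.baseChange_one]
    apply LinearMap.ext
    intro x
    have h2 := e.map_apply σ (e.toLinearEquiv.symm x)
    rw [h1, Module.End.one_apply, LinearEquiv.apply_symm_apply] at h2
    rw [← h2, Module.End.one_apply]
  -- the determinant
  have hD' : ρ'.DetIsCyclotomic p := by
    refine GlobDet3.detIsCyclotomic_of_charpoly p hpO' ρ' S hpS
      (fun ℓ => if h : ℓ.Prime ∧ ¬ ℓ ∣ N0 ∧ ℓ ∉ (↑S : Set ℕ) then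
        χ0 (heckeAlgebra.T h.1 h.2.1 h.2.2) else 0) ?_
    intro ℓ hℓ hℓS P hP φ hφ
    have hℓS' : ℓ ∉ (↑S : Set ℕ) := by simpa using hℓS
    rw [dif_pos ⟨hℓ, hnd ℓ hℓ hℓS, hℓS'⟩]
    exact hρ' ℓ hℓ (hnd ℓ hℓ hℓS) hℓS' P hP φ hφ
  have h2k : (2 : ResidueField O') ≠ 0 := by
    intro h
    have h2' : ((2 : ℕ) : ResidueField O') = 0 := by exact_mod_cast h
    rw [CharP.cast_eq_zero_iff (ResidueField O') p] at h2'
    exact hp2 ((Nat.prime_dvd_prime_iff_eq hp Nat.prime_two).mp h2')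
  -- `ρ'(s q) = 1`
  have hone : ∀ q ∈ primesOf Z, ρ'.ρ (s q : Γ) = 1 := by
    intro q hqZ
    have hP := Fermat.Agent.W56.UnipSel8.liesOverPrime_primeLocalPlace q
    set M := matrixOf D.ρ b0 (s q : Γ) with hM
    have hk0 : ψ (M 0 0 - M 1 1) = 0 := hker (htl q hqZ 0)
    have hk1 : ψ (M 0 1) = 0 := hker (htl q hqZ 1)
    have hk2 : ψ (M 1 0) = 0 := hker (htl q hqZ 2)
    set c : O' := ψ (M 0 0) with hc
    have h11 : ψ (M 1 1) = c := by
      rw [map_sub, sub_eq_zero] at hk0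
      exact hk0.symm
    let b' : Module.Basis (Fin 2) O' ρ'.V := Algebra.TensorProduct.basis O' b0
    have hmat : LinearMap.toMatrix b' b' (ρ'.ρ (s q : Γ)) = M.map ψ := by
      show LinearMap.toMatrix (Algebra.TensorProduct.basis O' b0) (Algebra.TensorProduct.basis O' b0)
        ((D.ρ.ρ (s q : Γ)).baseChange O') = _
      rw [LinearMap.toMatrix_baseChange]
      rfl
    have hsc : ρ'.ρ (s q : Γ) = c • (1 : Module.End O' ρ'.V) := by
      refine eq_smul_one_of_matrix b' _ c ?_ ?_ ?_ ?_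
      · rw [hmat, Matrix.map_apply]
      · rw [hmat, Matrix.map_apply, h11]
      · rw [hmat, Matrix.map_apply, hk1]
      · rw [hmat, Matrix.map_apply, hk2]
    -- `c ^ 2 = 1`
    have hdet1 : LinearMap.det (ρ'.ρ (s q : Γ)) = 1 :=
      GlueLoc2.det_inertia ρ' hD' hp q.2 (fun h => hZp q hqZ h.symm) hP (s q).2
    have hc2 : c ^ 2 = 1 := by
      rw [hsc, LinearMap.det_smul, ρ'.finrank_eq, map_one, mul_one] at hdet1
      exact hdet1
    -- `c ≡ 1`
    have hres1 : residue O' c = 1 := by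
      have h1 := hresur q hqZ _ (s q).2
      have h2 : ρ'.residual.ρ (s q : Γ) = (ρ'.ρ (s q : Γ)).baseChange (ResidueField O') := rfl
      rw [h2, hsc] at h1
      let bk : Module.Basis (Fin 2) (ResidueField O') (ResidueField O' ⊗[O'] ρ'.V) :=
        Algebra.TensorProduct.basis (ResidueField O') b'
      have h3 : (c • (1 : Module.End O' ρ'.V)).baseChange (ResidueField O') (bk 0) = bk 0 :=
        LinearMap.congr_fun h1 (bk 0)
      have h4 : (c • (1 : Module.End O' ρ'.V)).baseChange (ResidueField O') (bk 0) =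
          residue O' c • bk 0 := by
        show (c • (1 : Module.End O' ρ'.V)).baseChange (ResidueField O')
          (Algebra.TensorProduct.basis (ResidueField O') b' 0) = _
        rw [Algebra.TensorProduct.basis_apply, LinearMap.baseChange_tmul, LinearMap.smul_apply,
          Module.End.one_apply, TensorProduct.tmul_smul, TensorProduct.smul_tmul']
        congr 1
      rw [h4] at h3
      have h5 := congrArg (fun x => bk.repr x 0) h3
      simpa using h5
    have hc1 : c = 1 := by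
      have h1 : (c - 1) * (c + 1) = 0 := by ring_nf; rw [hc2]; ring
      rcases mul_eq_zero.mp h1 with h2 | h2
      · exact sub_eq_zero.mp h2
      · exfalso
        have h3 : c = -1 := eq_neg_of_add_eq_zero_left h2
        rw [h3, map_neg, map_one] at hres1
        apply h2k
        have : (2 : ResidueField O') = 1 - (-1) := by norm_num
        rw [this, hres1, sub_self]
    rw [hsc, hc1, one_smul]
  -- unramified at `Z`
  have hunr : ∀ q : ℕ, q.Prime → q ≠ 2 → q ∣ N0 → ρ'.IsUnramifiedAt q := by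
    intro q hq hq2 hqN
    have hqZ : (⟨q, hq⟩ : Nat.Primes) ∈ primesOf Z := mem_primesOf.mpr (hZ q hq hq2 hqN)
    have hP := Fermat.Agent.W56.UnipSel8.liesOverPrime_primeLocalPlace ⟨q, hq⟩
    exact TopUnr2.isUnramifiedAt_of_generator ρ' hq hpO' hP
      (fun σ hσ v => TopUnr2.sub_mem_of_residual_eq_one ρ' (hresur _ hqZ σ hσ) v)
      (s ⟨q, hq⟩) (hs _ hqZ) (hone _ hqZ)
  exact TopEnd2.false_of_rho hsq p hp2 hpN S hpS hNS O' hpO' χ0 ρ' hρ' hirr hunr

end Fermat.Agent.M43.TopOut2
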