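/-
Programme M43 (target S43), chapter TOP, helper2: **the coefficient ring of the patching frame.**

`exists_coeffRing p` (`p` prime): a complete discrete valuation ring `𝒪` of characteristic `0` with
finite residue field `k` of characteristic `p`, containing a NON-TRIVIAL `p`-th root of unity `ζ`
(the value of the character `χ` of `Δ_Z` at the generators), such that every natural number is a
SQUARE in `k` (so that the characteristic polynomials of a representation defined over `𝔽_p`
split over `k`: `ImgFrame2.hsplit`).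

Construction: `ES/J7/CompleteDVR1.exists_completeDVR` for the order
`ℤ[ζ_p, √0, …, √(p-1)] ⊆ ℤ̄ ⊆ ℂ` and a maximal ideal of `ℤ̄` over `p`.
-/
import Mathlib
import Fermat.Agent.ES.J7.CompleteDVR1
import Fermat.Prelude.Def_FLTPrelim_ModularRep

set_option autoImplicit false
set_option linter.style.haveILetI false

open IsLocalRing

namespace Fermat.Agent.M43.TopRing2

/-- a square root of a natural number in `ℂ`. -/
theorem exists_sqrt_nat (n : ℕ) : ∃ z : ℂ, z ^ 2 = (n : ℂ) :=
  IsAlgClosed.exists_pow_nat_eq (n : ℂ) (by norm_num)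

/-- **the coefficient ring.** -/
theorem exists_coeffRing (p : ℕ) [hp : Fact p.Prime] :
    ∃ (𝒪 : Type) (_ : CommRing 𝒪) (_ : IsDomain 𝒪) (_ : IsDiscreteValuationRing 𝒪)
      (_ : IsAdicComplete (maximalIdeal 𝒪) 𝒪) (_ : Finite (ResidueField 𝒪)) (_ : CharZero 𝒪),
      (p : 𝒪) ∈ maximalIdeal 𝒪 ∧ (∃ ζ : 𝒪, ζ ^ p = 1 ∧ ζ ≠ 1) ∧
      ∀ n : ℕ, IsSquare ((n : ℕ) : ResidueField 𝒪) := by
  classical
  have hp0 : p ≠ 0 := hp.out.ne_zero
  -- the generators
  set ζC : ℂ := Complex.exp (2 * Real.pi * Complex.I / p) with hζC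
  have hζprim : IsPrimitiveRoot ζC p := Complex.isPrimitiveRoot_exp p hp0
  have hζint : IsIntegral ℤ ζC := hζprim.isIntegral hp.out.pos
  choose w hw using exists_sqrt_nat
  have hwint : ∀ n : ℕ, IsIntegral ℤ (w n) := by
    intro n
    refine IsIntegral.of_pow (n := 2) (by norm_num) ?_
    rw [hw n]
    exact isIntegral_algebraMap (R := ℤ) (A := ℂ) (x := (n : ℤ)) |> fun h => by simpa using h
  let ζZ : integralClosure ℤ ℂ := ⟨ζC, hζint⟩
  let wZ : ℕ → integralClosure ℤ ℂ := fun n => ⟨w n, hwint n⟩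
  let s : Set (integralClosure ℤ ℂ) := {ζZ} ∪ Set.range (fun D : Fin p => wZ D)
  have hsfin : s.Finite := (Set.finite_singleton _).union (Set.finite_range _)
  let T : Subalgebra ℤ (integralClosure ℤ ℂ) := Algebra.adjoin ℤ s
  haveI : Module.Finite ℤ T := by
    have hfg : (Subalgebra.toSubmodule T).FG :=
      fg_adjoin_of_finite hsfin fun x _ => Algebra.IsIntegral.isIntegral x
    exact Module.Finite.iff_fg.mpr hfg
  let χ : T →+* integralClosure ℤ ℂ := T.val.toRingHom
  obtain ⟨𝔐, h𝔐max, hp𝔐⟩ := FLTPrelim.exists_maximalIdeal_natCast_prime_mem hp.out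
  haveI : 𝔐.IsPrime := h𝔐max.isPrime
  obtain ⟨𝒪, i1, i2, i3, i4, i5, i6, ι, ψ, hp𝒪, -⟩ :=
    Fermat.Agent.ES.J7.CompleteDVR1.exists_completeDVR χ p 𝔐 hp𝔐
  refine ⟨𝒪, i1, i2, i3, i4, i5, i6, hp𝒪, ?_, ?_⟩
  · -- the root of unity
    have hζmem : ζZ ∈ T := Algebra.subset_adjoin (Or.inl rfl)
    let ζT : T := ⟨ζZ, hζmem⟩
    have hζT1 : ζT ^ p = 1 := by
      apply Subtype.ext
      apply Subtype.ext
      show ζC ^ p = 1
      exact hζprim.pow_eq_one
    have hgeom : ∑ i ∈ Finset.range p, ζT ^ i = 0 := by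
      apply Subtype.ext
      apply Subtype.ext
      have := hζprim.geom_sum_eq_zero hp.out.one_lt
      simpa using this
    refine ⟨ι ζT, by rw [← map_pow, hζT1, map_one], fun h1 => ?_⟩
    have h2 := congrArg ι hgeom
    rw [map_sum, map_zero] at h2
    simp only [map_pow, h1, one_pow, Finset.sum_const, Finset.card_range, nsmul_eq_mul,
      mul_one] at h2
    exact hp0 (Nat.cast_eq_zero.mp h2)
  · -- squares
    haveI : CharP (ResidueField 𝒪) p :=
      (CharP.charP_iff_prime_eq_zero hp.out).mpr (by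
        rw [← map_natCast (residue 𝒪), residue_eq_zero_iff]; exact hp𝒪)
    intro n
    have hlt : n % p < p := Nat.mod_lt n hp.out.pos
    have hmem : wZ (n % p) ∈ T :=
      Algebra.subset_adjoin (Or.inr ⟨⟨n % p, hlt⟩, rfl⟩)
    let wT : T := ⟨wZ (n % p), hmem⟩
    have hwT : wT ^ 2 = ((n % p : ℕ) : T) := by
      apply Subtype.ext
      apply Subtype.ext
      show w (n % p) ^ 2 = _
      rw [hw]
      simp
    have hcast : ((n : ℕ) : ResidueField 𝒪) = ((n % p : ℕ) : ResidueField 𝒪) := by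
      rw [← sub_eq_zero, ← Nat.cast_sub (Nat.mod_le n p), CharP.cast_eq_zero_iff _ p]
      exact Nat.dvd_sub_mod n
    refine ⟨residue 𝒪 (ι wT), ?_⟩
    rw [hcast, ← map_mul, ← map_mul, ← pow_two, hwT, map_natCast, map_natCast]

end Fermat.Agent.M43.TopRing2
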