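/-
Programme M43 (target S43), pillar (P-MP) Mazur's principle, wiring lemma (helper4):
**every integral model of the Frey curve is bad at every prime `q ∣ a b c`.**

Odd-prime analogue of `U44/FreyBadTwo7.not_isGoodPrimeFor_two` (same `j`-invariant argument):
`W.c₄ ^ 3 * Δ₀ = c₄₀ ^ 3 * W.Δ`, `q ∣ Δ₀` and `q ∤ c₄₀` (the integral Frey model is semistable).

Use in (MP): the frozen `ModularRepOfLevel (N / q)` asks for the congruence at the primes `ℓ ∤ N / q`
where the model `W` is good; as `q ∣ N` divides `a b c`, the prime `ℓ = q` never occurs.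
-/
import Mathlib
import Fermat.Agent.U44.FreyBadTwo7

set_option autoImplicit false

open WeierstrassCurve

namespace Fermat.Agent.M43.FreyBadQ4

open Fermat.Agent.Wire.FreyModel9 Fermat.Agent.U44.FreyBadTwo7

variable (P : FreyPackage)

/-- a prime dividing `a b c` divides the discriminant of the integral Frey model. -/
theorem dvd_Δ₀_of_dvd_abc {q : ℕ} (hq : q.Prime) (hq2 : q ≠ 2)
    (h : (q : ℤ) ∣ P.a * P.b * P.c) : (q : ℤ) ∣ P.freyCurveInt.Δ := by
  have hqp : Prime (q : ℤ) := Nat.prime_iff_prime_int.mp hq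
  rw [freyCurveInt_Δ]
  have hq16 : ¬ (q : ℤ) ∣ 16 := by
    intro h16
    have h1 : (q : ℤ) ∣ 2 ^ 4 := by norm_num; exact h16
    have h2 : (q : ℤ) ∣ 2 := hqp.dvd_of_dvd_pow h1
    have h3 : q ∣ 2 := by exact_mod_cast h2
    exact hq2 ((Nat.prime_dvd_prime_iff_eq hq Nat.prime_two).1 h3)
  have hAB : (q : ℤ) ∣ P.a ^ P.p * P.b ^ P.p → (q : ℤ) ∣ P.freyCurveInt.a₄ := by
    intro h1
    have h2 : (q : ℤ) ∣ P.freyCurveInt.a₄ * 16 := by
      rw [a₄_mul]
      have : -(P.a ^ P.p) * P.b ^ P.p = -(P.a ^ P.p * P.b ^ P.p) := by ring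
      rw [this]
      exact (dvd_neg).2 h1
    exact (hqp.dvd_or_dvd h2).resolve_right hq16
  rcases hqp.dvd_or_dvd h with hab | hc
  · rcases hqp.dvd_or_dvd hab with ha | hb
    · exact Dvd.dvd.mul_right (Dvd.dvd.pow (hAB (Dvd.dvd.mul_right
        (dvd_pow ha P.hp0) _)) (by norm_num)) _
    · exact Dvd.dvd.mul_right (Dvd.dvd.pow (hAB (Dvd.dvd.mul_left
        (dvd_pow hb P.hp0) _)) (by norm_num)) _
  · rw [P.hFLT]
    exact Dvd.dvd.mul_left (Dvd.dvd.pow (dvd_pow hc P.hp0) (by norm_num)) _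

/-- **every integral model of the Frey curve has discriminant divisible by `q ∣ a b c`.** -/
theorem dvd_Δ_of_dvd_abc {W : WeierstrassCurve ℤ} (hW : W.IsIntegralModelOf P.freyCurve)
    {q : ℕ} (hq : q.Prime) (hq2 : q ≠ 2) (h : (q : ℤ) ∣ P.a * P.b * P.c) : (q : ℤ) ∣ W.Δ := by
  have hqp : Prime (q : ℤ) := Nat.prime_iff_prime_int.mp hq
  have h0 := dvd_Δ₀_of_dvd_abc P hq hq2 h
  have hc := freyCurveInt_isSemistableModel P q hq h0
  have hj := c₄_pow_mul_Δ₀ P hW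
  have h1 : (q : ℤ) ∣ P.freyCurveInt.c₄ ^ 3 * W.Δ := by
    rw [← hj]
    exact Dvd.dvd.mul_left h0 _
  rcases hqp.dvd_or_dvd h1 with h2 | h2
  · exact absurd (hqp.dvd_of_dvd_pow h2) hc
  · exact h2

/-- in the vocabulary of the frozen statements: `q ∣ a b c` is never a good prime. -/
theorem not_isGoodPrimeFor_of_dvd_abc {W : WeierstrassCurve ℤ}
    (hW : W.IsIntegralModelOf P.freyCurve) {q : ℕ} (hq : q.Prime) (hq2 : q ≠ 2)
    (h : (q : ℤ) ∣ P.a * P.b * P.c) : ¬ W.IsGoodPrimeFor q :=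
  fun hg => hg (dvd_Δ_of_dvd_abc P hW hq hq2 h)

end Fermat.Agent.M43.FreyBadQ4
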