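/-
Programme M43 (target S43), pillar (P-MP) Mazur's principle, chapter (LIFT_q), block (S2a) (helper4):
**the trace formula `φ^* φ_* = Σ_{g ∈ Γ} g` on divisors for a Galois covering** (abstract, Prelude's
`Place` / `Divisor` API).

`F ⊆ F'` finite (instance form) resp. `φ : F →ₐ[K] F'` (`Along` form), `Γ` a finite set of
`K`-automorphisms of `F'` fixing `F`, with the NORM IDENTITY `N_{F'/F}(f) = Π_{g ∈ Γ} g f`
(`F' / F` Galois with group `Γ`), and the push-forward norm formula for `F' / F`.  Then for every
divisor `D'` of `F'`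

  `pullback (pushforward D') = Σ_{g ∈ Γ} g • D'`      (`pullback_pushforward_eq_sum`).

Proof (technique of `ES/HECKE/BaseChange19.lhsHom_eq_rhsHom`): both sides are additive and local
over the places of `F`; on principal divisors they agree by the norm identity; a uniformiser at one
place that is a unit at the other places of the fibre (`WeakApprox25`) reduces `single Q 1` to the
principal case.
-/
import Mathlib
import Fermat.Agent.ES.HECKE.BaseChange19

set_option autoImplicit false
set_option linter.unusedSectionVars false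
set_option linter.style.haveILetI false
set_option linter.unusedVariables false

noncomputable section

open AlgebraicCurve

namespace Fermat.Agent.M43.GalNorm4

open Fermat.Agent.ES.HECKE Fermat.Agent.ES.HECKE.BaseChange19

/-! ### the order of a finite product -/

theorem ord_finprod {K F : Type*} [Field K] [Field F] [Algebra K F] (v : Place K F)
    {ι : Type*} (s : Finset ι) (f : ι → F) (h : ∀ i ∈ s, f i ≠ 0) :
    v.ord (∏ i ∈ s, f i) = ∑ i ∈ s, v.ord (f i) := by
  classical
  induction s using Finset.induction_on with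
  | empty => simp
  | insert a s ha ih =>
    rw [Finset.prod_insert ha, Finset.sum_insert ha,
      v.ord_mul (h a (Finset.mem_insert_self a s))
        (Finset.prod_ne_zero_iff.2 fun i hi => h i (Finset.mem_insert_of_mem hi)),
      ih fun i hi => h i (Finset.mem_insert_of_mem hi)]

/-! ### instance form -/

section Inst

variable {K F F' : Type*} [Field K] [Field F] [Field F'] [Algebra K F] [Algebra K F']
  [Algebra F F'] [IsScalarTower K F F'] [Algebra.IsIntegral F F'] [HasPrincipalDivisors K F']

/-- an automorphism of `F'` fixing `F` does not move the restriction of a place to `F`. -/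
theorem restrict_smul (g : F' ≃ₐ[K] F')
    (hg : ∀ a : F, g (algebraMap F F' a) = algebraMap F F' a) (w : Place K F') :
    (SemilinearAut.ofAlgAut g • w).restrict F = w.restrict F := by
  apply Place.ext
  ext f
  rw [Place.mem_restrict_iff, Place.mem_restrict_iff, SemilinearAut.smul_toValuationSubring,
    ValuationSubring.mem_pointwise_smul_iff_inv_smul_mem]
  have h1 : (SemilinearAut.ofAlgAut g)⁻¹ • algebraMap F F' f = algebraMap F F' f := by
    rw [inv_smul_eq_iff, SemilinearAut.ofAlgAut_smul, hg]
  rw [h1]

variable (Γ : Finset (F' ≃ₐ[K] F'))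

/-- the left side `φ^* φ_*`. -/
def lhs : Divisor K F' →+ Divisor K F' :=
  (Divisor.pullback F').comp (Divisor.pushforward F)

/-- the right side `Σ_{g ∈ Γ} g`. -/
def rhs : Divisor K F' →+ Divisor K F' :=
  ∑ g ∈ Γ, DistribSMul.toAddMonoidHom (Divisor K F') (SemilinearAut.ofAlgAut g)

theorem lhs_apply (D : Divisor K F') :
    lhs (F := F) D = Divisor.pullback F' (Divisor.pushforward F D) := rfl

theorem rhs_apply (D : Divisor K F') :
    rhs Γ D = ∑ g ∈ Γ, SemilinearAut.ofAlgAut g • D := by
  rw [rhs, AddMonoidHom.finsetSum_apply]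
  rfl

theorem lhs_single_apply_of_ne (Q : Place K F') (n : ℤ) (P' : Place K F')
    (h : P'.restrict F ≠ Q.restrict F) : lhs (F := F) (Finsupp.single Q n) P' = 0 := by
  rw [lhs_apply, Divisor.pushforward_single]
  exact Divisor.pullback_single_apply_of_restrict_ne h _

theorem rhs_single_apply_of_ne
    (hΓ : ∀ g ∈ Γ, ∀ a : F, g (algebraMap F F' a) = algebraMap F F' a)
    (Q : Place K F') (n : ℤ) (P' : Place K F')
    (h : P'.restrict F ≠ Q.restrict F) : rhs Γ (Finsupp.single Q n) P' = 0 := by
  classical
  rw [rhs_apply, Finset.sum_apply']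
  refine Finset.sum_eq_zero fun g hg => ?_
  rw [SemilinearAut.smul_single]
  apply Finsupp.single_eq_of_ne
  intro hP'
  apply h
  rw [hP', restrict_smul g (hΓ g hg) Q]

variable [Module.Finite F F']

/-- the two sides agree on principal divisors. -/
theorem lhs_eq_rhs_of_principal (H : Divisor.PushforwardNormFormula K F F')
    (hnorm : ∀ f : F', algebraMap F F' (Algebra.norm F f) = ∏ g ∈ Γ, g f)
    {f : F'} (hf : f ≠ 0) {D : Divisor K F'} (hD : ∀ w, D w = w.ord f) :
    lhs (F := F) D = rhs Γ D := by
  ext P'
  have h1 : ∀ v : Place K F, Divisor.pushforward F D v = v.ord (Algebra.norm F f) :=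
    fun v => H f hf D hD v
  rw [lhs_apply, Divisor.pullback_apply_eq_ord h1 P', hnorm,
    ord_finprod P' Γ (fun g => g f) (fun g _ => (EmbeddingLike.map_ne_zero_iff (f := g)).2 hf),
    rhs_apply, Finset.sum_apply']
  refine Finset.sum_congr rfl fun g _ => ?_
  rw [SemilinearAut.divisor_smul_apply, hD]
  have e := SemilinearAut.ord_smul (SemilinearAut.ofAlgAut g)
    ((SemilinearAut.ofAlgAut g)⁻¹ • P') f
  rw [smul_inv_smul] at e
  exact e

/-- **the trace formula on divisors**: `φ^* φ_* = Σ_{g ∈ Γ} g`. -/
theorem lhs_eq_rhs (H : Divisor.PushforwardNormFormula K F F')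
    (hΓ : ∀ g ∈ Γ, ∀ a : F, g (algebraMap F F' a) = algebraMap F F' a)
    (hnorm : ∀ f : F', algebraMap F F' (Algebra.norm F f) = ∏ g ∈ Γ, g f) :
    lhs (F := F) (F' := F') (K := K) = rhs Γ := by
  classical
  have key : ∀ Q : Place K F', lhs (F := F) (Finsupp.single Q 1) =
      rhs Γ (Finsupp.single Q 1) := by
    intro Q
    set P := Q.restrict F with hP
    obtain ⟨f, hf0, hfQ, hfS⟩ := WeakApprox25.exists_ord_eq_one_of_mem (P.fiber F')
      (Place.mem_fiber.mpr rfl : Q ∈ P.fiber F')
    obtain ⟨D, hD, -⟩ := HasPrincipalDivisors.exists_divisor (K := K) f hf0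
    have hprin := lhs_eq_rhs_of_principal Γ H hnorm hf0 hD
    set D' : Divisor K F' := D - Finsupp.single Q 1 with hD'
    have hDsplit : D = Finsupp.single Q 1 + D' := by rw [hD']; abel
    have hD'S : ∀ w : Place K F', w.restrict F = P → D' w = 0 := by
      intro w hw
      rw [hD', Finsupp.sub_apply, hD]
      by_cases hwQ : w = Q
      · rw [hwQ, hfQ, Finsupp.single_eq_same, sub_self]
      · rw [hfS w (Place.mem_fiber.mpr hw) hwQ, Finsupp.single_eq_of_ne hwQ, sub_self]
    ext P'
    by_cases hP' : P'.restrict F = P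
    · have h1 : lhs (F := F) D' P' = 0 := by
        refine addHom_eq_zero_of_support
          ((Finsupp.applyAddHom P').comp (lhs (F := F))) D' ?_
        intro w hw n
        refine lhs_single_apply_of_ne w n P' ?_
        intro h
        rw [Finsupp.mem_support_iff] at hw
        exact hw (hD'S w (by rw [← h, hP']))
      have h2 : rhs Γ D' P' = 0 := by
        refine addHom_eq_zero_of_support
          ((Finsupp.applyAddHom P').comp (rhs Γ)) D' ?_
        intro w hw n
        refine rhs_single_apply_of_ne Γ hΓ w n P' ?_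
        intro h
        rw [Finsupp.mem_support_iff] at hw
        exact hw (hD'S w (by rw [← h, hP']))
      have h3 := congrArg (fun E : Divisor K F' => E P') hprin
      simp only [hDsplit, map_add, Finsupp.add_apply, h1, h2, add_zero] at h3
      exact h3
    · rw [lhs_single_apply_of_ne Q 1 P' hP', rhs_single_apply_of_ne Γ hΓ Q 1 P' hP']
  apply Finsupp.addHom_ext
  intro Q n
  have hn : (Finsupp.single Q n : Divisor K F') = n • Finsupp.single Q 1 := by
    rw [Finsupp.smul_single, smul_eq_mul, mul_one]
  rw [hn, map_zsmul, map_zsmul, key Q]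

end Inst

/-! ### `Along` form -/

section Along

variable {K F F' : Type*} [Field K] [Field F] [Field F'] [Algebra K F] [Algebra K F']
  [HasPrincipalDivisors K F']

/-- **the trace formula on divisors, `Along` form.** -/
theorem pullbackAlong_pushforwardAlong_eq_sum (φ : F →ₐ[K] F') (hφ : φ.toRingHom.IsIntegral)
    (hfin : FiniteAlong K φ) (hN : NormFormulaAlong K φ hfin)
    (Γ : Finset (F' ≃ₐ[K] F'))
    (hΓ : ∀ g ∈ Γ, ∀ a : F, g (φ a) = φ a)
    (hnorm : ∀ f : F', φ (normAlong φ f) = ∏ g ∈ Γ, g f) (D' : Divisor K F') :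
    Divisor.pullbackAlong φ hφ (Divisor.pushforwardAlong φ hφ D') =
      ∑ g ∈ Γ, SemilinearAut.ofAlgAut g • D' := by
  letI := algebraAlong φ
  haveI := isScalarTower_along φ
  haveI := isIntegral_along φ hφ
  haveI : Module.Finite F F' := hfin
  have h := lhs_eq_rhs (K := K) (F := F) (F' := F') Γ hN hΓ hnorm
  have h' := congrArg (fun Φ : Divisor K F' →+ Divisor K F' => Φ D') h
  simp only [rhs_apply] at h'
  exact h'

end Along

end Fermat.Agent.M43.GalNorm4
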