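/-
Programme M43 (target S43), pillar (P-MP) Mazur's principle, chapter (LIFT_q), block (S2a), file 2
(helper4): **the norm identity of a Galois covering, and the trace formula on `Pic⁰`.**

`φ : F →ₐ[K] F'`, `Γ` a finite subgroup of `Aut_K(F')` with `F'^Γ = φ(F)` (in the shape of
`U44/GammaPack0`: `hφΓ : g (φ a) = φ a`, `hfix : Γ-fixed ⇒ in the range of φ`).

* `norm_eq_prod` : `φ (N_φ f) = Π_{g ∈ Γ} g f`  (Artin: `F' / F'^Γ` is Galois with group `Γ`,
  Mathlib's `Algebra.norm_eq_prod_automorphisms`, transported along `F ≃ F'^Γ`);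
* `pullback_pushforward_eq_sum` : `φ^* φ_* D' = Σ_{g ∈ Γ} g • D'` on divisors (`GalNorm4`);
* **`exists_pullback_eq_sum`** : for every class `x ∈ Pic⁰(F')` the trace `Σ_{g ∈ Γ} g • x` is the
  pull-back of a class of `Pic⁰(F)`.
-/
import Mathlib
import Fermat.Agent.M43.GalNorm4
import Fermat.Agent.ES.HECKE.LevelPullback12

set_option autoImplicit false
set_option linter.unusedSectionVars false
set_option linter.style.haveILetI false
set_option linter.unusedVariables false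

noncomputable section

open AlgebraicCurve

namespace Fermat.Agent.M43.GalNormId4

open Fermat.Agent.ES.HECKE.BaseChange19 Fermat.Agent.ES.HECKE.LevelPullback12
  Fermat.Agent.M43.GalNorm4

variable {K F F' : Type*} [Field K] [Field F] [Field F'] [Algebra K F] [Algebra K F']

/-- **the norm identity**: `φ (N_φ f) = Π_{g ∈ Γ} g f`. -/
theorem norm_eq_prod (φ : F →ₐ[K] F') (Γ : Subgroup (F' ≃ₐ[K] F')) [Fintype Γ]
    (hφΓ : ∀ g ∈ Γ, ∀ a : F, g (φ a) = φ a)
    (hfix : ∀ f : F', (∀ g ∈ Γ, g f = f) → f ∈ φ.range) (f : F') :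
    φ (normAlong φ f) = ∏ g : Γ, (g : F' ≃ₐ[K] F') f := by
  classical
  letI := algebraAlong φ
  -- the fixed field
  set K₀ : Subfield F' := FixedPoints.subfield Γ F' with hK₀
  have hmemK₀ : ∀ y : F', y ∈ K₀ ↔ ∀ g : Γ, (g : F' ≃ₐ[K] F') y = y := fun y => Iff.rfl
  have hφK₀ : ∀ a : F, φ a ∈ K₀ := fun a => (hmemK₀ _).2 fun g => hφΓ g.1 g.2 a
  -- `F ≃ K₀`
  set e₀ : F →+* K₀ := φ.toRingHom.codRestrict K₀ hφK₀ with he₀
  have he₀bij : Function.Bijective e₀ := by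
    refine ⟨e₀.injective, fun y => ?_⟩
    obtain ⟨a, ha⟩ := hfix (y : F') (fun g hg => (hmemK₀ _).1 y.2 ⟨g, hg⟩)
    exact ⟨a, Subtype.ext ha⟩
  set e : F ≃+* K₀ := RingEquiv.ofBijective e₀ he₀bij with he
  have hcomp : (algebraMap K₀ F').comp (e : F →+* K₀) = algebraMap F F' := by
    ext a
    rfl
  have h1 : e (Algebra.norm F f) = Algebra.norm K₀ f := Algebra.norm_eq_of_ringEquiv e hcomp f
  have h2 : φ (Algebra.norm F f) = algebraMap K₀ F' (Algebra.norm K₀ f) := by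
    rw [← h1]
    rfl
  show φ (Algebra.norm F f) = _
  rw [h2, Algebra.norm_eq_prod_automorphisms K₀ f]
  exact (Fintype.prod_equiv (FixedPoints.toAlgAutMulEquiv Γ F').toEquiv
    (fun g : Γ => (g : F' ≃ₐ[K] F') f) (fun σ : F' ≃ₐ[K₀] F' => σ f) (fun g => rfl)).symm

variable [HasPrincipalDivisors K F']

/-- **the trace formula on divisors**, for a finite subgroup `Γ` with `F'^Γ = φ(F)`. -/
theorem pullback_pushforward_eq_sum (φ : F →ₐ[K] F') (hφ : φ.toRingHom.IsIntegral)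
    (hfin : FiniteAlong K φ) (hN : NormFormulaAlong K φ hfin)
    (Γ : Subgroup (F' ≃ₐ[K] F')) [Fintype Γ]
    (hφΓ : ∀ g ∈ Γ, ∀ a : F, g (φ a) = φ a)
    (hfix : ∀ f : F', (∀ g ∈ Γ, g f = f) → f ∈ φ.range) (D' : Divisor K F') :
    Divisor.pullbackAlong φ hφ (Divisor.pushforwardAlong φ hφ D') =
      ∑ g : Γ, SemilinearAut.ofAlgAut (g : F' ≃ₐ[K] F') • D' := by
  classical
  have h := pullbackAlong_pushforwardAlong_eq_sum φ hφ hfin hN
    (Finset.univ.map (Function.Embedding.subtype (· ∈ Γ)))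
    (fun g hg a => by
      obtain ⟨g', -, rfl⟩ := Finset.mem_map.1 hg
      exact hφΓ g'.1 g'.2 a)
    (fun f => by
      rw [Finset.prod_map]
      exact norm_eq_prod φ Γ hφΓ hfix f) D'
  rw [Finset.sum_map] at h
  exact h

/-- **the trace formula on `Pic⁰`**: the `Γ`-trace of a class is a pull-back. -/
theorem exists_pullback_eq_sum (φ : F →ₐ[K] F') (hφ : φ.toRingHom.IsIntegral)
    (hFI : FundamentalIdentityAlong K φ hφ)
    (hfin : FiniteAlong K φ) (hN : NormFormulaAlong K φ hfin)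
    (Γ : Subgroup (F' ≃ₐ[K] F')) [Fintype Γ]
    (hφΓ : ∀ g ∈ Γ, ∀ a : F, g (φ a) = φ a)
    (hfix : ∀ f : F', (∀ g ∈ Γ, g f = f) → f ∈ φ.range) (x : Pic0 K F') :
    ∃ z : Pic0 K F, ∑ g : Γ, SemilinearAut.ofAlgAut (g : F' ≃ₐ[K] F') • x =
      pic0PullbackAlong φ hφ hFI z := by
  classical
  obtain ⟨D', rfl⟩ := Pic0.mk_surjective x
  refine ⟨Pic0.mk ⟨Divisor.pushforwardAlong φ hφ (D' : Divisor K F'),
    Divisor.pushforwardAlong_mem_degZero φ hφ D'.2⟩, ?_⟩
  rw [pic0PullbackAlong_mk]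
  have h1 : ∀ g : Γ, SemilinearAut.ofAlgAut (g : F' ≃ₐ[K] F') • Pic0.mk D' =
      Pic0.mk (SemilinearAut.degZeroSMulHom (SemilinearAut.ofAlgAut (g : F' ≃ₐ[K] F')) D') :=
    fun g => SemilinearAut.pic0_smul_mk _ D'
  rw [Finset.sum_congr rfl (fun g _ => h1 g)]
  have h2 : ∀ (s : Finset Γ), ∑ g ∈ s, Pic0.mk
        (SemilinearAut.degZeroSMulHom (SemilinearAut.ofAlgAut (g : F' ≃ₐ[K] F')) D') =
      Pic0.mk (∑ g ∈ s,
        SemilinearAut.degZeroSMulHom (SemilinearAut.ofAlgAut (g : F' ≃ₐ[K] F')) D') := by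
    intro s
    induction s using Finset.induction_on with
    | empty => rfl
    | insert a s ha ih => rw [Finset.sum_insert ha, Finset.sum_insert ha, ih, Pic0.mk_add]
  rw [h2]
  congr 1
  apply Subtype.ext
  rw [AddSubmonoidClass.coe_finsetSum]
  simp only [SemilinearAut.coe_degZeroSMulHom]
  exact (pullback_pushforward_eq_sum φ hφ hfin hN Γ hφΓ hfix (D' : Divisor K F')).symm

end Fermat.Agent.M43.GalNormId4
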