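/-
Programme M43 (target S43), pillar (P-MP) Mazur's principle, chapter (LIFT_q), block (S2a), file 3
(helper4): **the DESCENT input `hdesc` of `LiftQ4.lift_main_q` for the two deck packages of
`U44/GammaPack0`.**

`L` a level with `4 ∣ L`.
* case E (`Γ = Gam2 L h4 = {1, τ'}`, `φ = levelIncl : Fbar (L/2) → Fbar L`): `descE` : the
  `Γ`-trace of any class of `J₀(L)(ℚ̄)` is a `levelPullback` from `J₀(L/2)(ℚ̄)`;
* case O (`Γ = Gam6 L h4 = ⟨τ, τ'⟩` of order `6`, `L/4` odd, `φ = (x ↦ x(q²)) : Fbar (L/4) → Fbar L`):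
  `descO` : the `Γ`-trace of any class is `levelPullback ∘ betaPull` of a class of `J₀(L/4)(ℚ̄)`
  (the map `PullTwo7.iotaO` is built from).

Both are instances of `GalNormId4.exists_pullback_eq_sum` (Artin + the norm formula).
-/
import Mathlib
import Fermat.Agent.M43.GalNormId4
import Fermat.Agent.U44.GammaPack0
import Fermat.Agent.U44.PullTwo7

set_option autoImplicit false
set_option linter.unusedSectionVars false
set_option linter.style.haveILetI false
set_option linter.unusedVariables false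
set_option synthInstance.maxHeartbeats 400000

noncomputable section

open AlgebraicCurve ModularCurve

namespace Fermat.Agent.M43.DescQ4

open Fermat.Agent.ES.HECKE Fermat.Agent.ES.HECKE.LevelPullback12 Fermat.Agent.RED.TOP
  Fermat.Agent.RED.Interface4
  Fermat.Agent.U44.GammaPack0 Fermat.Agent.U44.GammaSix0 Fermat.Agent.U44.PullTwo7
  Fermat.Agent.M43.GalNormId4 Fermat.Agent.X0

variable (L : ℕ) [NeZero L] (h4 : 4 ∣ L)

/-- **(S2a), case E**: the `{1, τ'}`-trace comes from the level `L / 2`. -/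
theorem descE [NeZero (L / 2)] (x : JZero L) :
    ∃ z : JZero (L / 2),
      ∑ᶠ g : Gam2 L h4, SemilinearAut.ofAlgAut (g : FF L ≃ₐ[Kbar] FF L) • x =
        levelPullback (half_dvd L h4) z := by
  classical
  haveI := FbarFacts20.hasPrincipalDivisors_bar L
  haveI : Finite (Gam2 L h4) := finite_Gam2 L h4
  letI : Fintype (Gam2 L h4) := Fintype.ofFinite _
  obtain ⟨z, hz⟩ := exists_pullback_eq_sum (levelIncl (half_dvd L h4))
    (levelIncl_isIntegral (half_dvd L h4)) (levelIncl_fundamentalIdentityAlong (half_dvd L h4))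
    (levelIncl_finiteAlong (half_dvd L h4))
    (NormFormula15.normFormulaAlong_of_isGen _ _ (FbarFacts20.isGen_j L))
    (Gam2 L h4) (gam_phiE L h4) (fix_phiE L h4) x
  refine ⟨z, ?_⟩
  rw [finsum_eq_sum_of_fintype]
  exact hz

/-- the two descriptions of `x ↦ x(q²)`. -/
theorem psiO_eq_phiO [NeZero (L / 4)] (h : L / 4 * 2 ∣ L) : psiO h = phiO L h4 := by
  apply AlgHom.ext
  intro f
  apply Subtype.ext
  rw [coe_psiO, coe_phiO]

include h4 in
theorem quarter_mul_two_dvd : L / 4 * 2 ∣ L := by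
  obtain ⟨k, rfl⟩ := h4
  rw [Nat.mul_div_cancel_left _ (by norm_num : 0 < 4)]
  exact ⟨2, by ring⟩

/-- **(S2a), case O**: the `⟨τ, τ'⟩`-trace comes from the level `L / 4` through `x ↦ x(q²)`. -/
theorem descO [NeZero (L / 4)] (hodd : ¬ 2 ∣ L / 4) (h : L / 4 * 2 ∣ L) (x : JZero L) :
    ∃ z : JZero (L / 4),
      ∑ᶠ g : Gam6 L h4, SemilinearAut.ofAlgAut (g : FF L ≃ₐ[Kbar] FF L) • x =
        levelPullback h (betaPull (L / 4) hodd z) := by
  classical
  haveI := FbarFacts20.hasPrincipalDivisors_bar L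
  haveI : Finite (Gam6 L h4) := finite_Gam6 L h4 hodd
  letI : Fintype (Gam6 L h4) := Fintype.ofFinite _
  have he := psiO_eq_phiO L h4 h
  obtain ⟨z, hz⟩ := exists_pullback_eq_sum (psiO h)
    (psiO_isIntegral hodd h) (psiO_fundamentalIdentityAlong hodd h)
    (psiO_finiteAlong hodd h)
    (NormFormula15.normFormulaAlong_of_isGen _ _ (FbarFacts20.isGen_j L))
    (Gam6 L h4)
    (fun g hg a => by rw [he]; exact gam_phiO L h4 hodd g hg a)
    (fun f hf => by rw [he]; exact fix_phiO L h4 hodd f hf) x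
  refine ⟨z, ?_⟩
  rw [finsum_eq_sum_of_fintype, pullO_eq hodd h z]
  exact hz

end Fermat.Agent.M43.DescQ4
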