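/-
Programme M43 (target S43), pillar (P-MP) Mazur's principle, chapter (LIFT_q), file 1 (helper4):
**uniqueness of the reduction map on places** (abstract).

`F / K` a function field with `RR.LSpace.LHyp K F` and Riemann's inequality
(`NormalForm10.RiemannHyp K F`), `β` any type.  Two maps `r₁ r₂ : Place K F → β` whose push-forwards
agree on all PRINCIPAL divisors are equal, unless `r₁` is constant.

This is the Prelude's `IsPlaceReductionAlong.eq_or_const_of_agree` with the divisibility of `Pic⁰`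
replaced by Riemann's inequality: `δ = r₁_* − r₂_*` kills the principal divisors; every class of
degree zero is `E − m·P₀` with `E ≥ 0` of degree `m` (a constant `m`), so the values `δ(D)(Q)`,
`D ∈ Div⁰`, are BOUNDED; being additive in `D` they vanish.
-/
import Mathlib
import Fermat.Agent.FF.RedLat2A
import Fermat.Agent.J.DESC.NormalForm10

set_option autoImplicit false
set_option linter.unusedSectionVars false
set_option linter.unusedVariables false

noncomputable section

open AlgebraicCurve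

namespace Fermat.Agent.M43.RedUniq4

open Fermat.Agent.RR.LSpace Fermat.Agent.J.DESC.NormalForm10 Fermat.Agent.FF.RedLat2

variable {K F : Type*} [Field K] [Field F] [Algebra K F] {β : Type*}

/-- `r_* E (Q) ≤ Σ E` for an effective `E`. -/
theorem mapDomain_le_sum (r : Place K F → β) (E : Divisor K F) (hE : 0 ≤ E) (Q : β) :
    Finsupp.mapDomain r E Q ≤ ∑ P ∈ E.support, E P := by
  classical
  rw [mapDomain_apply_eq_sum]
  refine Finset.sum_le_sum fun P _ => ?_
  split_ifs
  · exact le_rfl
  · exact hE P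

/-- the difference of the two push-forwards, evaluated at `Q`. -/
def dl (r₁ r₂ : Place K F → β) (Q : β) : Divisor K F →+ ℤ :=
  (Finsupp.applyAddHom Q).comp
    (Finsupp.mapDomain.addMonoidHom r₁ - Finsupp.mapDomain.addMonoidHom r₂)

theorem dl_apply (r₁ r₂ : Place K F → β) (Q : β) (D : Divisor K F) :
    dl r₁ r₂ Q D = Finsupp.mapDomain r₁ D Q - Finsupp.mapDomain r₂ D Q := rfl

/-- `|δ(E)(Q)| ≤ deg E` for an effective `E`. -/
theorem abs_dl_le (H : LHyp K F) (r₁ r₂ : Place K F → β) (Q : β) (E : Divisor K F)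
    (hE : 0 ≤ E) : |dl r₁ r₂ Q E| ≤ Divisor.degree E := by
  rw [dl_apply, degree_eq_sum H E, abs_le]
  have h1 := mapDomain_le_sum r₁ E hE Q
  have h2 := mapDomain_le_sum r₂ E hE Q
  have h3 : 0 ≤ Finsupp.mapDomain r₁ E Q := mapDomain_nonneg r₁ E hE Q
  have h4 : 0 ≤ Finsupp.mapDomain r₂ E Q := mapDomain_nonneg r₂ E hE Q
  constructor <;> omega

/-- **the bound**: `|δ(D)(Q)| ≤ 2 m` for `deg D = 0`, with `m` independent of `D`. -/
theorem exists_bound (H : LHyp K F) (hR : RiemannHyp K F) (r₁ r₂ : Place K F → β)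
    (hagree : ∀ (f : F) (hf : f ≠ 0),
      Finsupp.mapDomain r₁ (divOf H hf) = Finsupp.mapDomain r₂ (divOf H hf)) :
    ∃ m : ℤ, ∀ (D : Divisor K F), Divisor.degree D = 0 → ∀ Q, |dl r₁ r₂ Q D| ≤ m := by
  classical
  obtain ⟨γ, hγ⟩ := hR
  obtain ⟨P₀⟩ := H.nonempty
  refine ⟨2 * (γ.toNat : ℤ), fun D hD Q => ?_⟩
  set m : ℕ := γ.toNat with hm
  -- a nonzero section of `L(D + m P₀)`
  have hne : riemannRochSpace (shift P₀ D m) ≠ ⊥ := by
    intro hbot
    have h1 := hγ (shift P₀ D m)
    rw [hbot, finrank_bot, degree_shift H, hD] at h1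
    have h2 : γ ≤ (γ.toNat : ℤ) := Int.self_le_toNat _
    push_cast at h1
    omega
  obtain ⟨f, hfL, hf0⟩ := (Submodule.ne_bot_iff _).1 hne
  set E : Divisor K F := divOf H hf0 + shift P₀ D m with hE
  have hE0 : 0 ≤ E := by
    intro v
    rw [hE, Finsupp.add_apply, divOf_apply]
    have := (mem_L_iff hf0).1 hfL v
    simp only [Finsupp.coe_zero, Pi.zero_apply]
    omega
  have hEdeg : Divisor.degree E = m := by
    rw [hE, map_add, degree_divOf, zero_add, degree_shift H, hD, zero_add]
  have hsingle0 : (0 : Divisor K F) ≤ Finsupp.single P₀ (m : ℤ) := by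
    intro v
    rw [Finsupp.single_apply]
    simp only [Finsupp.coe_zero, Pi.zero_apply]
    split_ifs
    · exact Int.natCast_nonneg m
    · exact le_rfl
  have hDsplit : D = E - Finsupp.single P₀ (m : ℤ) - divOf H hf0 := by
    rw [hE, shift]
    abel
  have h0 : dl r₁ r₂ Q (divOf H hf0) = 0 := by
    rw [dl_apply, hagree f hf0, sub_self]
  have h1 := abs_dl_le H r₁ r₂ Q E hE0
  have h2 := abs_dl_le H r₁ r₂ Q (Finsupp.single P₀ (m : ℤ)) hsingle0
  rw [degree_single H] at h2
  rw [hEdeg] at h1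
  rw [hDsplit, map_sub, map_sub, h0, sub_zero]
  have h3 := abs_sub (dl r₁ r₂ Q E) (dl r₁ r₂ Q (Finsupp.single P₀ (m : ℤ)))
  omega

/-- `δ` vanishes on the divisors of degree zero. -/
theorem dl_eq_zero (H : LHyp K F) (hR : RiemannHyp K F) (r₁ r₂ : Place K F → β)
    (hagree : ∀ (f : F) (hf : f ≠ 0),
      Finsupp.mapDomain r₁ (divOf H hf) = Finsupp.mapDomain r₂ (divOf H hf))
    (D : Divisor K F) (hD : Divisor.degree D = 0) (Q : β) : dl r₁ r₂ Q D = 0 := by
  obtain ⟨m, hm⟩ := exists_bound H hR r₁ r₂ hagree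
  by_contra hne
  have hpos : 0 < |dl r₁ r₂ Q D| := abs_pos.2 hne
  have hm0 : 0 ≤ m := le_trans (abs_nonneg _) (hm D hD Q)
  have h1 := hm ((m.toNat + 1) • D) (by rw [map_nsmul, hD, smul_zero]) Q
  rw [map_nsmul, nsmul_eq_mul, abs_mul] at h1
  have h2 : |((m.toNat + 1 : ℕ) : ℤ)| = m + 1 := by
    rw [abs_of_nonneg (Int.natCast_nonneg _)]
    push_cast
    rw [Int.toNat_of_nonneg hm0]
  rw [h2] at h1
  nlinarith

/-- **uniqueness of the reduction map on places**: two maps on places whose push-forwards agree on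
the principal divisors are equal, unless the first one is constant. -/
theorem eq_or_const (H : LHyp K F) (hR : RiemannHyp K F) (r₁ r₂ : Place K F → β)
    (hagree : ∀ (f : F) (hf : f ≠ 0),
      Finsupp.mapDomain r₁ (divOf H hf) = Finsupp.mapDomain r₂ (divOf H hf)) :
    r₁ = r₂ ∨ ∀ P Q, r₁ P = r₁ Q := by
  classical
  have hconst : ∀ P Q : Place K F,
      (Finsupp.single (r₁ P) (1 : ℤ) - Finsupp.single (r₂ P) 1 : β →₀ ℤ) =
        Finsupp.single (r₁ Q) 1 - Finsupp.single (r₂ Q) 1 := by
    intro P Q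
    have hPQ : Divisor.degree (Finsupp.single P (1 : ℤ) - Finsupp.single Q 1 : Divisor K F) = 0 := by
      rw [map_sub, degree_single H, degree_single H, sub_self]
    ext Q'
    have h := dl_eq_zero H hR r₁ r₂ hagree _ hPQ Q'
    rw [dl_apply, Finsupp.mapDomain_sub, Finsupp.mapDomain_sub, Finsupp.mapDomain_single,
      Finsupp.mapDomain_single, Finsupp.mapDomain_single, Finsupp.mapDomain_single] at h
    simp only [Finsupp.sub_apply] at h ⊢
    omega
  rw [or_iff_not_imp_left]
  intro hne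
  obtain ⟨P₀, hP₀⟩ : ∃ P₀, r₁ P₀ ≠ r₂ P₀ := by
    by_contra hall
    push Not at hall
    exact hne (funext hall)
  have hr₁const : ∀ Q, r₁ Q = r₁ P₀ := by
    intro Q
    have h := congrArg (fun E => E (r₁ P₀)) (hconst Q P₀)
    simp only [Finsupp.sub_apply, Finsupp.single_apply, if_neg (Ne.symm hP₀)] at h
    by_contra hQ
    rw [if_neg hQ] at h
    split_ifs at h <;> omega
  exact fun P Q => (hr₁const P).trans (hr₁const Q).symm

end Fermat.Agent.M43.RedUniq4
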