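/-
Programme M43 (target S43), pillar (P-MP) Mazur's principle, chapter (LIFT_q), file 2 (helper4):
**the reduction map of the good level `M'` commutes with every automorphism that preserves the
Gauss valuation ring** (in particular with the deck transformations `τ`, `τ'`, `Γ`).

`h : LevelHyp q M' A`, `rQ h = (RegLiftInst8.model h).rPl : Place ℚ̄ (Fbar M') → Place κ (Fb A M')`,
`redGood h : JZero M' →+ JZeroC κ M'`.

* `rQ_smul` : `GammaPack0.RedAut h g ḡ → rQ h (g • P) = ḡ • rQ h P`.  Proof: `r₂ := ḡ⁻¹ ∘ rQ ∘ g`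
  has the same push-forward of principal divisors as `rQ` (`GaussOv1.push` + `RedAut`), so
  `RedUniq4.eq_or_const` applies; `rQ` is surjective onto an infinite set, hence not constant.
* `redGood_smul` : `redGood h (g • x) = ḡ • redGood h x` on `Pic⁰`.
* `redGood_surjective`.
-/
import Mathlib
import Fermat.Agent.M43.RedUniq4
import Fermat.Agent.U44.GammaPack0
import Fermat.Agent.U44.RegLiftInst8
import Fermat.Agent.U44.DescInst1
import Fermat.Agent.FF.GaussOv1D
import Fermat.Agent.FF.RedDiv9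
import Fermat.Agent.ES.RED.GaloisRed21

set_option autoImplicit false
set_option linter.unusedSectionVars false
set_option linter.style.haveILetI false
set_option linter.unusedVariables false
set_option synthInstance.maxHeartbeats 400000

noncomputable section

open AlgebraicCurve IsLocalRing ModularCurve

namespace Fermat.Agent.M43.RedGamma4

open Fermat.Agent.RED.Interface4 Fermat.Agent.ES.RED Fermat.Agent.T33.NodalHalf4
  Fermat.Agent.T33.FrickeRed3 Fermat.Agent.U44.GammaPack0 Fermat.Agent.U44.RegLiftInst8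
  Fermat.Agent.RR.LSpace Fermat.Agent.X0.FF Fermat.Agent.FF.RedIface9
  Fermat.Agent.ES.RED.GaloisRed21

variable {q M' : ℕ} [NeZero M'] [NeZero q] {A : ValuationSubring Qbar} (h : LevelHyp q M' A)

/-- shortcut instance. -/
local instance (priority := high) algebraKFbRG (M : ℕ) [NeZero M] :
    Algebra (ResidueField ↥A) (Fb A M) := inferInstance

/-- **the reduction map on places at the good level.** -/
def rQ : Place Qbar ↥(Fbar M') → Place (Setup8.kA A) (Fb A M') := (model h).rPl

theorem isPlaceReduction : IsPlaceReductionModL A M' (rQ h) :=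
  haveI : Fact q.Prime := ⟨h.prime⟩
  (model h).isPlaceReduction h.liesOver

include h in
theorem principalGenerated : PrincipalGeneratedByIntegral A (IsLocalRing.residue A) M' :=
  haveI : Fact q.Prime := ⟨h.prime⟩
  (model h).principalGenerated h.liesOver

/-- **the reduction map `J₀(M')(ℚ̄) → J₀(M')(κ)` at the good level.** -/
def redGood : JZero M' →+ JZeroC (Setup8.kA A) M' :=
  reductionPic0Along (rQ h) (isPlaceReduction h) (principalGenerated h)

theorem redGood_mk (D : Divisor.degZero (K := Qbar) (F := ↥(Fbar M'))) :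
    redGood h (Pic0.mk D) = Pic0.mk (reductionDegZeroAlong (rQ h) (isPlaceReduction h).1 D) := rfl

theorem rQ_surjective : Function.Surjective (rQ h) :=
  haveI : Fact q.Prime := ⟨h.prime⟩
  Fermat.Agent.FF.RedDiv9.rPl_surjective (model h) h.liesOver

/-- the push-forward formula for the Gauss units of `Ov0 h`. -/
theorem push_rQ (y : ↥(Ov0 h)) (hy : rho0 h y ≠ 0) (D : Divisor Qbar ↥(Fbar M'))
    (hD : ∀ P, D P = P.ord (y : ↥(Fbar M'))) (Q : Place (Setup8.kA A) (Fb A M')) :
    Finsupp.mapDomain (rQ h) D Q = Q.ord (rho0 h y) :=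
  haveI : Fact q.Prime := ⟨h.prime⟩
  Fermat.Agent.FF.GaussOv1.push A M' q h.liesOver h.not_dvd (rQ h) (isPlaceReduction h) y hy D hD Q

/-- every nonzero function is a constant times a Gauss unit. -/
theorem gauss_Ov0 (f : ↥(Fbar M')) (hf : f ≠ 0) :
    ∃ c : Qbar, c ≠ 0 ∧ ∃ hm : algebraMap Qbar ↥(Fbar M') c * f ∈ Ov0 h,
      rho0 h ⟨_, hm⟩ ≠ 0 :=
  haveI : Fact q.Prime := ⟨h.prime⟩
  Fermat.Agent.FF.GaussOv1.gauss A M' q h.liesOver h.not_dvd f hf

/-- **`rQ` commutes with the automorphisms preserving the Gauss valuation ring.** -/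
theorem rQ_smul {g : ↥(Fbar M') ≃ₐ[Qbar] ↥(Fbar M')} {gb : Fb A M' ≃ₐ[Setup8.kA A] Fb A M'}
    (hg : RedAut h g gb) (P : Place Qbar ↥(Fbar M')) :
    rQ h (SemilinearAut.ofAlgAut g • P) = SemilinearAut.ofAlgAut gb • rQ h P := by
  classical
  set G : SemilinearAut Qbar ↥(Fbar M') := SemilinearAut.ofAlgAut g with hG
  set Gb : SemilinearAut (Setup8.kA A) (Fb A M') := SemilinearAut.ofAlgAut gb with hGb
  have H := Fermat.Agent.U44.DescInst1.lHyp M'
  have hR := Fermat.Agent.U44.DescInst1.riemannHyp M'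
  set r₂ : Place Qbar ↥(Fbar M') → Place (Setup8.kA A) (Fb A M') :=
    fun P => Gb⁻¹ • rQ h (G • P) with hr₂
  have hagree : ∀ (f : ↥(Fbar M')) (hf : f ≠ 0),
      Finsupp.mapDomain (rQ h) (divOf H hf) = Finsupp.mapDomain r₂ (divOf H hf) := by
    intro f hf
    obtain ⟨c, hc0, hmem, hρ⟩ := gauss_Ov0 h f hf
    have hcF : algebraMap Qbar ↥(Fbar M') c ≠ 0 := by
      rw [Ne, map_eq_zero]
      exact hc0
    have hD : ∀ P : Place Qbar ↥(Fbar M'),
        divOf H hf P = P.ord (algebraMap Qbar ↥(Fbar M') c * f) := by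
      intro P
      rw [divOf_apply, P.ord_mul hcF hf, ord_algebraMap, zero_add]
    obtain ⟨hgy, hρg⟩ := hg _ hmem
    have hD' : ∀ P : Place Qbar ↥(Fbar M'),
        (G • divOf H hf) P = P.ord (g (algebraMap Qbar ↥(Fbar M') c * f)) := by
      intro P
      rw [SemilinearAut.divisor_smul_apply, hD]
      have e := SemilinearAut.ord_smul G (G⁻¹ • P) (algebraMap Qbar ↥(Fbar M') c * f)
      rw [smul_inv_smul] at e
      exact e.symm
    have hρ' : rho0 h ⟨g (algebraMap Qbar ↥(Fbar M') c * f), hgy⟩ ≠ 0 := by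
      rw [hρg]
      exact (EmbeddingLike.map_ne_zero_iff (f := gb)).2 hρ
    ext Q
    have e1 := push_rQ h ⟨_, hmem⟩ hρ (divOf H hf) hD Q
    have e2 := push_rQ h ⟨_, hgy⟩ hρ' (G • divOf H hf) hD' (Gb • Q)
    have e3 : Finsupp.mapDomain r₂ (divOf H hf) Q =
        Finsupp.mapDomain (rQ h) (G • divOf H hf) (Gb • Q) := by
      have hcomp : r₂ = (fun Q' => Gb⁻¹ • Q') ∘ (rQ h) ∘ (fun P => G • P) := rfl
      rw [hcomp, Finsupp.mapDomain_comp, Finsupp.mapDomain_comp,
        ← SemilinearAut.divisor_smul_def G, ← SemilinearAut.divisor_smul_def Gb⁻¹,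
        SemilinearAut.divisor_smul_apply, inv_inv]
    rw [e3, e2, e1, hρg]
    exact (SemilinearAut.ord_smul Gb Q _).symm
  rcases Fermat.Agent.M43.RedUniq4.eq_or_const H hR (rQ h) r₂ hagree with e | hconst
  · have e1 := congrFun e P
    rw [e1, hr₂, smul_inv_smul]
  · exfalso
    haveI : IsAlgClosed (Setup8.kA A) := Fermat.Agent.ES.RED.SpecialInv25.isAlgClosed_kk A
    haveI : Infinite (Setup8.kA A) := IsAlgClosed.instInfinite
    haveI := Fermat.Agent.FF.GaussOv1.infinite_place_of_lHyp
      (Fermat.Agent.U44.RegLiftInst8.lHypFb h)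
    obtain ⟨Q₁, Q₂, hne⟩ := exists_pair_ne (Place (Setup8.kA A) (Fb A M'))
    obtain ⟨P₁, rfl⟩ := rQ_surjective h Q₁
    obtain ⟨P₂, rfl⟩ := rQ_surjective h Q₂
    exact hne (hconst P₁ P₂)

/-- **the reduction of divisor classes commutes with the automorphisms preserving the Gauss
valuation ring.** -/
theorem redGood_smul {g : ↥(Fbar M') ≃ₐ[Qbar] ↥(Fbar M')} {gb : Fb A M' ≃ₐ[Setup8.kA A] Fb A M'}
    (hg : RedAut h g gb) (x : JZero M') :
    redGood h (SemilinearAut.ofAlgAut g • x) = SemilinearAut.ofAlgAut gb • redGood h x :=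
  reductionPic0Along_smul (rQ h) (isPlaceReduction h) (principalGenerated h)
    (SemilinearAut.ofAlgAut g) (SemilinearAut.ofAlgAut gb) (fun P => rQ_smul h hg P) x

/-- **the reduction of divisor classes is surjective.** -/
theorem redGood_surjective : Function.Surjective (redGood h) := by
  classical
  intro y
  obtain ⟨Db, rfl⟩ := Pic0.mk_surjective y
  have HL := Fermat.Agent.U44.DescInst1.lHyp M'
  have HLb := Fermat.Agent.U44.RegLiftInst8.lHypFb h
  -- lift the divisor place by place
  set s : Place (Setup8.kA A) (Fb A M') → Place Qbar ↥(Fbar M') :=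
    Function.surjInv (rQ_surjective h) with hs
  have hrs : ∀ Q, rQ h (s Q) = Q := Function.surjInv_eq (rQ_surjective h)
  set D : Divisor Qbar ↥(Fbar M') :=
    Finsupp.mapDomain s (Db : Divisor (Setup8.kA A) (Fb A M')) with hD
  have hmap : Finsupp.mapDomain (rQ h) D = (Db : Divisor (Setup8.kA A) (Fb A M')) := by
    rw [hD, ← Finsupp.mapDomain_comp]
    have : (rQ h) ∘ s = id := funext hrs
    rw [this, Finsupp.mapDomain_id]
  have hdeg : Divisor.degree D = 0 := by
    have h1 := ModularCurve.degree_mapDomain_of_deg_eq (r := rQ h) (isPlaceReduction h).1 D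
    rw [hmap] at h1
    rw [← h1]
    exact Divisor.mem_degZero.1 Db.2
  refine ⟨Pic0.mk ⟨D, Divisor.mem_degZero.2 hdeg⟩, ?_⟩
  rw [redGood_mk]
  congr 1
  apply Subtype.ext
  rw [coe_reductionDegZeroAlong]
  exact hmap

end Fermat.Agent.M43.RedGamma4
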