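/-
Programme M43 (target S43), pillar (P-MP) Mazur's principle, chapter (LIFT_q), file 3 (helper4):
**(RED-H) the reduction map of the good level commutes with the Hecke operators.**

`h : LevelHyp q M' A`, `redGood h : JZero M' →+ JZeroC κ M'` (`RedGamma4`), `ℓ` prime, `ℓ ≠ q`,
`ℓ ∤ M'`:  `redGood h (T_ℓ y) = T̄_ℓ (redGood h y)`, `T̄_ℓ = HeckeC4.heckeC h`.

Assembly of M15's (RED-T) chain at an arbitrary good level: `HeckeRed7.exists_model_compat` (a model
of level `M' ℓ` compatible on places along `α` and `β`), `PullRed6.pullback_red` ((B) ⇒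
`BetaPullCompat`), `HeckeFin9.red_heckeOperatorAlong`.
-/
import Mathlib
import Fermat.Agent.M43.RedGamma4
import Fermat.Agent.M15.HeckeRed7
import Fermat.Agent.M15.PullRed6
import Fermat.Agent.M15.HeckeFin9

set_option autoImplicit false
set_option linter.unusedSectionVars false
set_option linter.style.haveILetI false
set_option linter.unusedVariables false
set_option synthInstance.maxHeartbeats 400000

noncomputable section

open AlgebraicCurve IsLocalRing ModularCurve

namespace Fermat.Agent.M43.RedHecke4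

open Fermat.Agent.RED.Interface4 Fermat.Agent.ES.RED Fermat.Agent.T33.NodalHalf4
  Fermat.Agent.U44.RegLiftInst8 Fermat.Agent.U44.HeckeC4 Fermat.Agent.U44.DegreeC4
  Fermat.Agent.U44.LevelEll4 Fermat.Agent.M43.RedGamma4 Fermat.Agent.M15.HeckeFin9
  Fermat.Agent.FF.RedIface9 Fermat.Agent.ES.HECKE.PointFormula28

variable {q M' : ℕ} [NeZero M'] [NeZero q] {A : ValuationSubring Qbar} (h : LevelHyp q M' A)
  {ℓ : ℕ} [NeZero ℓ] (hℓ : ℓ.Prime) (hℓq : ℓ ≠ q) (hℓM : ¬ ℓ ∣ M')

/-- shortcut instance. -/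
local instance (priority := high) algebraKFbRH (M : ℕ) [NeZero M] :
    Algebra (ResidueField ↥A) (Fb A M) := inferInstance

/-- **(RED-H)**: the reduction commutes with `T_ℓ`. -/
theorem redGood_hecke (y : JZero M') :
    redGood h (heckeOperatorBar M' ⟨ℓ, hℓ⟩ y) = heckeC h hℓ hℓq hℓM (redGood h y) := by
  haveI : Fact q.Prime := ⟨h.prime⟩
  haveI := Fermat.Agent.RED.TOP.FbarFacts20.hasPrincipalDivisors_bar (M' * ℓ)
  haveI := Fermat.Agent.U44.HeckeC4.hasPrincipalDivisors h hℓ hℓq
  obtain ⟨m', hAl, hB⟩ :=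
    Fermat.Agent.M15.HeckeRed7.exists_model_compat h.prime h.liesOver (model h) ℓ hℓ hℓM hℓq
  have hA' : AlphaCompat A M' ℓ (rQ h) m'.rPl := fun hα hαC P' => hAl hα hαC P'
  have hB' : BetaPullCompat A M' ℓ (rQ h) m'.rPl := fun hβ hβC D =>
    Fermat.Agent.M15.PullRed6.pullback_red h.liesOver (model h) m' hβ hβC (hB hβ hβC) D
  exact red_heckeOperatorAlong h hℓ hℓq hℓM (isPlaceReduction h) (principalGenerated h) hA' hB' y

end Fermat.Agent.M43.RedHecke4
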