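/-
Programme M43 (target S43), pillar (P-MP) Mazur's principle, chapter (LIFT_q), file 5 (helper4):
**(LIFT_q), general deck-group package**: a nonzero Hecke eigenclass `y ∈ J₀(M')(κ)[p]` on the special
fibre of the good level `M'` at a prime `q ≠ p`, fixed by the reductions of a finite group `Γ` of
automorphisms of `Fbar M'`, gives a normalised eigenform of the lower level `M₀` with congruent
eigenvalues — provided the `Γ`-traces of `J₀(M')(ℚ̄)` come from `J₀(M₀)(ℚ̄)` through a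
Hecke-equivariant map `Φ` (`hdesc`, `hΦT`: the DESCENT inputs (S2)).

Two-prime analogue of `U44/LiftFinal5.lift_main` (whose route through `dlog` needs `p = q`).  Proof:
the annihilator condition of `LiftCore5.lift_of_ann` at level `M₀`:
`s(T) = 0` on `S₂(Γ₀(M₀))` ⟹ `s̃(T) = 0` on ALL of `J₀(M₀)(ℚ̄)` (`AnnHR4.opJ_eq_zero`) ⟹
`s̃(T) (Σ_g g x) = 0` for every `x ∈ J₀(M')(ℚ̄)` ((S2)) ⟹ reduce (`RedHecke4.redGood_hecke`,
`RedGamma4.redGood_smul`, `redGood_surjective`): `(#Γ · s(a)) • y = 0` ⟹ `p ∣ s(a)`.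
-/
import Mathlib
import Fermat.Agent.M43.AnnHR4
import Fermat.Agent.M43.RedHecke4

set_option autoImplicit false
set_option linter.unusedSectionVars false
set_option linter.style.haveILetI false
set_option linter.unusedVariables false
set_option synthInstance.maxHeartbeats 400000

noncomputable section

open AlgebraicCurve IsLocalRing ModularCurve CuspForm CongruenceSubgroup ModularFormClass

namespace Fermat.Agent.M43.LiftQ4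

open Fermat.Agent.RED.Interface4 Fermat.Agent.ES.RED Fermat.Agent.T33.NodalHalf4
  Fermat.Agent.U44.HeckeC4 Fermat.Agent.U44.GammaPack0 Fermat.Agent.U44.LiftCore5
  Fermat.Agent.M43.RedGamma4 Fermat.Agent.M43.RedHecke4 Fermat.Agent.M43.AnnHR4

variable {q M' : ℕ} [NeZero M'] [NeZero q] {A : ValuationSubring Qbar}

/-- shortcut instance. -/
local instance (priority := high) algebraKFbLQ4 (M : ℕ) [NeZero M] :
    Algebra (ResidueField ↥A) (Fb A M) := inferInstance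

/-- an element of order `p` is killed only by the multiples of `p`. -/
theorem dvd_of_smul_eq_zero {Y : Type*} [AddCommGroup Y] {p : ℕ} (hp : p.Prime) {y : Y}
    (hy0 : y ≠ 0) (hpy : p • y = 0) {c : ℕ} (hc : ¬ p ∣ c) {e : ℤ} (he : c • (e • y) = 0) :
    (p : ℤ) ∣ e := by
  have hpZ : Prime (p : ℤ) := Nat.prime_iff_prime_int.1 hp
  by_contra hnd
  have hnd' : ¬ (p : ℤ) ∣ (c : ℤ) * e := fun hd =>
    (hpZ.dvd_or_dvd hd).elim (fun h1 => hc (Int.natCast_dvd_natCast.1 h1)) hnd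
  obtain ⟨u, v, huv⟩ := (Prime.coprime_iff_not_dvd hpZ).2 hnd'
  apply hy0
  have h1 : ((c : ℤ) * e) • y = 0 := by
    rw [mul_smul, natCast_zsmul]
    exact he
  have h2 : ((p : ℤ)) • y = 0 := by
    rw [natCast_zsmul]
    exact hpy
  calc y = (1 : ℤ) • y := (one_smul _ _).symm
    _ = (u * (p : ℤ) + v * ((c : ℤ) * e)) • y := by rw [huv]
    _ = 0 := by rw [add_smul, mul_smul, mul_smul, h1, h2, smul_zero, smul_zero, add_zero]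

/-- **(LIFT_q), general deck-group package.** -/
theorem lift_main_q (h : LevelHyp q M' A) {p : ℕ} (hp : p.Prime)
    (M₀ : ℕ) [NeZero M₀] (Φ : JZero M₀ →+ JZero M')
    (Γ : Subgroup (↥(Fbar M') ≃ₐ[Qbar] ↥(Fbar M'))) [Finite Γ] (hcard : ¬ p ∣ Nat.card Γ)
    (hdesc : ∀ x : JZero M', ∃ z : JZero M₀,
      ∑ᶠ g : Γ, SemilinearAut.ofAlgAut (g : ↥(Fbar M') ≃ₐ[Qbar] ↥(Fbar M')) • x = Φ z)
    (Lset : Set ℕ) (hL : ∀ ℓ ∈ Lset, ℓ.Prime ∧ ℓ ≠ q ∧ ¬ ℓ ∣ M')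
    (hLM₀ : ∀ ℓ ∈ Lset, ¬ ℓ ∣ M₀)
    (hΦT : ∀ (ℓ : ℕ) (hℓ : ℓ.Prime), ℓ ∈ Lset → ∀ z : JZero M₀,
      heckeOperatorBar M' ⟨ℓ, hℓ⟩ (Φ z) = Φ (heckeOperatorBar M₀ ⟨ℓ, hℓ⟩ z))
    (y : JZeroC (Setup8.kA A) M') (hy0 : y ≠ 0) (hpy : p • y = 0)
    (hred : ∀ g ∈ Γ, ∃ gb : Fb A M' ≃ₐ[Setup8.kA A] Fb A M',
      RedAut h g gb ∧ SemilinearAut.ofAlgAut gb • y = y)
    (a : ℕ → ℤ)
    (heig : ∀ (l : ℕ) [NeZero l] (hl : l.Prime) (hlq : l ≠ q) (hlM : ¬ l ∣ M'), l ∈ Lset →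
      heckeC h hl hlq hlM y = a l • y) :
    ∃ (f' : CuspForm (Gamma0 M₀) 2) (𝔪' : Ideal (integralClosure ℤ ℂ)),
      f'.IsNormalizedEigenform ∧ 𝔪'.IsMaximal ∧ (p : integralClosure ℤ ℂ) ∈ 𝔪' ∧
      ∀ ℓ ∈ Lset, ∃ c : integralClosure ℤ ℂ, (c : ℂ) = qCoeff ⇑f' ℓ ∧
        c - ((a ℓ : ℤ) : integralClosure ℤ ℂ) ∈ 𝔪' := by
  classical
  have hL₀ : ∀ ℓ ∈ Lset, ℓ.Prime ∧ ¬ ℓ ∣ M₀ := fun ℓ hℓ => ⟨(hL ℓ hℓ).1, hLM₀ ℓ hℓ⟩
  have hL' : ∀ ℓ ∈ Lset, ℓ.Prime ∧ ¬ ℓ ∣ M' := fun ℓ hℓ => ⟨(hL ℓ hℓ).1, (hL ℓ hℓ).2.2⟩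
  refine lift_of_ann hp Lset hL₀ a (fun s hs => ?_)
  obtain ⟨t, rfl⟩ := theta_surjective s
  -- the operators on the special fibre
  set Tb : ↥Lset → Module.End ℤ (JZeroC (Setup8.kA A) M') := fun ℓ =>
    haveI : NeZero ℓ.1 := ⟨(hL ℓ.1 ℓ.2).1.ne_zero⟩
    (heckeC h (hL ℓ.1 ℓ.2).1 (hL ℓ.1 ℓ.2).2.1 (hL ℓ.1 ℓ.2).2.2).toIntLinearMap with hTbdef
  have hTb : ∀ ℓ : ↥Lset, Tb ℓ y = a ℓ.1 • y := fun ℓ =>
    haveI : NeZero ℓ.1 := ⟨(hL ℓ.1 ℓ.2).1.ne_zero⟩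
    heig ℓ.1 (hL ℓ.1 ℓ.2).1 (hL ℓ.1 ℓ.2).2.1 (hL ℓ.1 ℓ.2).2.2 ℓ.2
  -- a lift of `y`, its trace comes from the level `M₀`
  obtain ⟨x, hxy⟩ := redGood_surjective h y
  obtain ⟨z, hz⟩ := hdesc x
  -- the polynomial kills `Φ z`
  have h0 : opJ M₀ Lset hL₀ t = 0 := opJ_eq_zero M₀ Lset hL₀ t hs
  have h1 : Φ (opJ M₀ Lset hL₀ t z) = opJ M' Lset hL' t (Φ z) :=
    lift_intertwine (TJ M₀ Lset hL₀) (TJ M' Lset hL') Φ
      (fun ℓ w => (hΦT ℓ.1 (hL ℓ.1 ℓ.2).1 ℓ.2 w).symm) t z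
  have h2 : opJ M' Lset hL' t (Φ z) = 0 := by
    rw [← h1, h0, LinearMap.zero_apply, map_zero]
  -- reduce
  have h3 : redGood h (opJ M' Lset hL' t (Φ z)) = FreeAlgebra.lift ℤ Tb t (redGood h (Φ z)) :=
    lift_intertwine (TJ M' Lset hL') Tb (redGood h)
      (fun ℓ w =>
        haveI : NeZero ℓ.1 := ⟨(hL ℓ.1 ℓ.2).1.ne_zero⟩
        redGood_hecke h (hL ℓ.1 ℓ.2).1 (hL ℓ.1 ℓ.2).2.1 (hL ℓ.1 ℓ.2).2.2 w) t (Φ z)
  rw [h2, map_zero] at h3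
  -- the reduction of the trace
  have h4 : redGood h (Φ z) = Nat.card Γ • y := by
    letI : Fintype Γ := Fintype.ofFinite Γ
    rw [← hz, finsum_eq_sum_of_fintype, map_sum]
    have hterm : ∀ g : Γ, redGood h (SemilinearAut.ofAlgAut
        (g : ↥(Fbar M') ≃ₐ[Qbar] ↥(Fbar M')) • x) = y := by
      intro g
      obtain ⟨gb, hgb, hgy⟩ := hred g.1 g.2
      rw [redGood_smul h hgb x, hxy, hgy]
    rw [Finset.sum_congr rfl (fun g _ => hterm g), Finset.sum_const, Finset.card_univ,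
      Nat.card_eq_fintype_card]
  rw [h4, map_nsmul, lift_eigen Tb (fun ℓ : ↥Lset => a ℓ.1) y hTb t] at h3
  exact dvd_of_smul_eq_zero hp hy0 hpy hcard h3.symm

end Fermat.Agent.M43.LiftQ4
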