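/-
Programme M43 (target S43), pillar (P-MP) Mazur's principle, chapter (LIFT_q) COMPLETE (helper4):
**the hypothesis-free statements** (two-prime analogues of `U44/LiftFinal5.lift_E / lift_O`, and of
the adapters `U44/LiftWire5.resModAway_E / resModAway_O`).

`h : LevelHyp q M' A` (good level `M'`, `4 ∣ M'`, `q ∤ M'`, `A` over `q`), `κ = kA A`, `p` a prime
(no relation with `q` is needed here).

* **`lift_E_q`** (case E, `Γ = {1, τ'}`): a nonzero class `y ∈ J₀(M')(κ)`, `p y = 0`, `T̄_ℓ`-eigen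
  for `ℓ ∈ Lset`, fixed by `τ̄'` ⟹ a normalised eigenform of level `M' / 2` with congruent
  eigenvalues (`p ≠ 2`);
* **`lift_O_q`** (case O, `Γ = ⟨τ, τ'⟩` of order `6`, `M' / 4` odd, `p ≠ 2, 3`): `y` fixed by `τ̄`
  and `τ̄'` ⟹ a normalised eigenform of level `M' / 4`;
* `resModAway_E_q`, `resModAway_O_q` : the same in the vocabulary `Wire7.ResModAway`.

Inputs: `LiftQ4.lift_main_q`, the DESCENT inputs `DescQ4.descE / descO` (S2a) and the Hecke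
equivariance of the pull-backs (S2b: banked `LevelTop20.levelPullback_heckeOperatorAlong`, and
`BetaHecke4.iotaO_hecke`).
-/
import Mathlib
import Fermat.Agent.M43.LiftQ4
import Fermat.Agent.M43.DescQ4
import Fermat.Agent.M43.BetaHecke4
import Fermat.Agent.U44.Wire7

set_option autoImplicit false
set_option linter.unusedSectionVars false
set_option linter.style.haveILetI false
set_option linter.unusedVariables false
set_option synthInstance.maxHeartbeats 400000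

noncomputable section

open AlgebraicCurve IsLocalRing ModularCurve CuspForm CongruenceSubgroup ModularFormClass

namespace Fermat.Agent.M43.LiftFinalQ4

open Fermat.Agent.RED.Interface4 Fermat.Agent.ES.RED Fermat.Agent.T33.NodalHalf4
  Fermat.Agent.U44.HeckeC4 Fermat.Agent.U44.GammaPack0 Fermat.Agent.U44.GammaSix0
  Fermat.Agent.U44.GammaGauss2 Fermat.Agent.U44.PullTwo7 Fermat.Agent.U44.Wire7
  Fermat.Agent.ES.HECKE Fermat.Agent.ES.HECKE.LevelPullback12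
  Fermat.Agent.M43.LiftQ4 Fermat.Agent.M43.DescQ4 Fermat.Agent.M43.BetaHecke4

variable {q M' : ℕ} [NeZero M'] [NeZero q] {A : ValuationSubring Qbar} (h : LevelHyp q M' A)

/-- shortcut instance. -/
local instance (priority := high) algebraKFbLF4 (M : ℕ) [NeZero M] :
    Algebra (ResidueField ↥A) (Fb A M) := inferInstance

/-- **(LIFT_q), case E**: `Γ = {1, τ'}`, lower level `M' / 2`. -/
theorem lift_E_q {p : ℕ} (hp : p.Prime) (hp2 : p ≠ 2) [NeZero (M' / 2)]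
    (y : JZeroC (Setup8.kA A) M') (hy0 : y ≠ 0) (hpy : p • y = 0)
    (hy' : SemilinearAut.ofAlgAut (tauB' h) • y = y)
    (Lset : Set ℕ) (hL : ∀ ℓ ∈ Lset, ℓ.Prime ∧ ℓ ≠ q ∧ ¬ ℓ ∣ M') (a : ℕ → ℤ)
    (heig : ∀ (l : ℕ) [NeZero l] (hl : l.Prime) (hlq : l ≠ q) (hlM : ¬ l ∣ M'), l ∈ Lset →
      heckeC h hl hlq hlM y = a l • y) :
    ∃ (f' : CuspForm (Gamma0 (M' / 2)) 2) (𝔪' : Ideal (integralClosure ℤ ℂ)),
      f'.IsNormalizedEigenform ∧ 𝔪'.IsMaximal ∧ (p : integralClosure ℤ ℂ) ∈ 𝔪' ∧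
      ∀ ℓ ∈ Lset, ∃ c : integralClosure ℤ ℂ, (c : ℂ) = qCoeff ⇑f' ℓ ∧
        c - ((a ℓ : ℤ) : integralClosure ℤ ℂ) ∈ 𝔪' := by
  haveI : Finite (Gam2 M' h.four_dvd) := finite_Gam2 M' h.four_dvd
  refine lift_main_q h hp (M' / 2) (levelPullback (half_dvd M' h.four_dvd))
    (Gam2 M' h.four_dvd) ?_ (descE M' h.four_dvd) Lset hL ?_ ?_ y hy0 hpy (hred_E h y hy') a heig
  · rw [card_Gam2 M' h.four_dvd]
    intro hd
    exact hp2 ((Nat.prime_dvd_prime_iff_eq hp Nat.prime_two).1 hd)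
  · intro ℓ hℓ hd
    exact (hL ℓ hℓ).2.2 (dvd_trans hd (half_dvd M' h.four_dvd))
  · intro ℓ hℓ hℓL z
    haveI : NeZero ℓ := ⟨hℓ.ne_zero⟩
    exact (LevelTop20.levelPullback_heckeOperatorAlong (half_dvd M' h.four_dvd) hℓ
      (hL ℓ hℓL).2.2 z).symm

/-- **(LIFT_q), case O**: `Γ = ⟨τ, τ'⟩` of order `6`, lower level `M' / 4` (odd), `x(q) ↦ x(q²)`. -/
theorem lift_O_q {p : ℕ} (hp : p.Prime) (hp2 : p ≠ 2) (hp3 : p ≠ 3) [NeZero (M' / 4)]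
    (hodd : ¬ 2 ∣ M' / 4)
    (y : JZeroC (Setup8.kA A) M') (hy0 : y ≠ 0) (hpy : p • y = 0)
    (hy : SemilinearAut.ofAlgAut (tauB h) • y = y)
    (hy' : SemilinearAut.ofAlgAut (tauB' h) • y = y)
    (Lset : Set ℕ) (hL : ∀ ℓ ∈ Lset, ℓ.Prime ∧ ℓ ≠ q ∧ ¬ ℓ ∣ M') (a : ℕ → ℤ)
    (heig : ∀ (l : ℕ) [NeZero l] (hl : l.Prime) (hlq : l ≠ q) (hlM : ¬ l ∣ M'), l ∈ Lset →
      heckeC h hl hlq hlM y = a l • y) :
    ∃ (f' : CuspForm (Gamma0 (M' / 4)) 2) (𝔪' : Ideal (integralClosure ℤ ℂ)),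
      f'.IsNormalizedEigenform ∧ 𝔪'.IsMaximal ∧ (p : integralClosure ℤ ℂ) ∈ 𝔪' ∧
      ∀ ℓ ∈ Lset, ∃ c : integralClosure ℤ ℂ, (c : ℂ) = qCoeff ⇑f' ℓ ∧
        c - ((a ℓ : ℤ) : integralClosure ℤ ℂ) ∈ 𝔪' := by
  haveI : Finite (Gam6 M' h.four_dvd) := finite_Gam6 M' h.four_dvd hodd
  have hquarter : M' / 4 ∣ M' := Nat.div_dvd_of_dvd h.four_dvd
  have hq2 : M' / 4 * 2 ∣ M' := quarter_mul_two_dvd M' h.four_dvd
  refine lift_main_q h hp (M' / 4)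
    ((levelPullback hq2).comp (betaPull (M' / 4) hodd))
    (Gam6 M' h.four_dvd) ?_ (descO M' h.four_dvd hodd hq2) Lset hL ?_ ?_ y hy0 hpy
    (hred_O h y hy hy') a heig
  · rw [card_Gam6 M' h.four_dvd hodd]
    intro hd
    have h6 : (6 : ℕ) = 2 * 3 := by norm_num
    rw [h6] at hd
    rcases (Nat.Prime.dvd_mul hp).1 hd with h2 | h3
    · exact hp2 ((Nat.prime_dvd_prime_iff_eq hp Nat.prime_two).1 h2)
    · exact hp3 ((Nat.prime_dvd_prime_iff_eq hp Nat.prime_three).1 h3)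
  · intro ℓ hℓ hd
    exact (hL ℓ hℓ).2.2 (dvd_trans hd hquarter)
  · intro ℓ hℓ hℓL z
    haveI : NeZero ℓ := ⟨hℓ.ne_zero⟩
    exact iotaO_hecke hℓ hodd hq2 (hL ℓ hℓL).2.2 z

/-- **(LIFT_q) ⟹ `ResModAway`, case E** (`M₀ = M' / 2`). -/
theorem resModAway_E_q {p : ℕ} (hp : p.Prime) (hp2 : p ≠ 2)
    (W : WeierstrassCurve ℤ) (M₀ : ℕ) (e : M' / 2 = M₀) (hM₀ : M₀ ≠ 0)
    (y : JZeroC (Setup8.kA A) M') (hy0 : y ≠ 0) (hpy : p • y = 0)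
    (hy' : SemilinearAut.ofAlgAut (tauB' h) • y = y)
    (G : Set ℕ) (hG : ∀ ℓ ∈ G, ℓ.Prime ∧ ℓ ≠ q ∧ ¬ ℓ ∣ M')
    (heig : ∀ (l : ℕ) [NeZero l] (hl : l.Prime) (hlq : l ≠ q) (hlM : ¬ l ∣ M'), l ∈ G →
      heckeC h hl hlq hlM y = W.apOfModel l • y) :
    ResModAway W p M₀ G := by
  subst e
  haveI : NeZero (M' / 2) := ⟨hM₀⟩
  exact lift_E_q h hp hp2 y hy0 hpy hy' G hG (fun l => W.apOfModel l) heig

/-- **(LIFT_q) ⟹ `ResModAway`, case O** (`M₀ = M' / 4` odd, `p ≠ 2, 3`). -/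
theorem resModAway_O_q {p : ℕ} (hp : p.Prime) (hp2 : p ≠ 2) (hp3 : p ≠ 3)
    (W : WeierstrassCurve ℤ) (M₀ : ℕ) (e : M' / 4 = M₀) (hM₀ : M₀ ≠ 0) (hodd : ¬ 2 ∣ M₀)
    (y : JZeroC (Setup8.kA A) M') (hy0 : y ≠ 0) (hpy : p • y = 0)
    (hy : SemilinearAut.ofAlgAut (tauB h) • y = y)
    (hy' : SemilinearAut.ofAlgAut (tauB' h) • y = y)
    (G : Set ℕ) (hG : ∀ ℓ ∈ G, ℓ.Prime ∧ ℓ ≠ q ∧ ¬ ℓ ∣ M')
    (heig : ∀ (l : ℕ) [NeZero l] (hl : l.Prime) (hlq : l ≠ q) (hlM : ¬ l ∣ M'), l ∈ G →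
      heckeC h hl hlq hlM y = W.apOfModel l • y) :
    ResModAway W p M₀ G := by
  subst e
  haveI : NeZero (M' / 4) := ⟨hM₀⟩
  exact lift_O_q h hp hp2 hp3 hodd y hy0 hpy hy hy' G hG (fun l => W.apOfModel l) heig

end Fermat.Agent.M43.LiftFinalQ4
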