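/-
Programme M43 (target S43), pillar (P-MP) Mazur's principle, chapter (H) two-prime re-instantiation,
file 1 (helper4): **`T_ℓ` on Kummer data with Gauss normalisation, exponent `n` independent of the
residue prime `q`** (copy of `U44/DatumHecke4` with the two roles of `p` separated).

`h : LevelHyp q M' A` (`q` the residue prime), `n` the exponent of the Kummer datum:
`(D, f, c)` with `x = [D]`, `f ≠ 0`, `ord_P f = n · D P` and `c • f` a Gauss unit of `c_j h`.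

* `datum_hecke₁`, `datum_hecke₂` : `(D, f, c) ↦ (D', N_α (β f), c^(ℓ+1))` is a datum of `T_ℓ x` on the
  component `j`, with the reduction formula;
* `div_hecke₁`, `div_hecke₂` : if `n · D̄ = div u` then `n · (ᾱ_* β̄^* D̄) = div N_ᾱ (β̄ u)` etc.
-/
import Mathlib
import Fermat.Agent.U44.HeckePsi4
import Fermat.Agent.U44.GaussRed3

set_option autoImplicit false
set_option linter.unusedSectionVars false
set_option linter.style.haveILetI false
set_option linter.unusedVariables false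
set_option synthInstance.maxHeartbeats 400000

noncomputable section

namespace Fermat.Agent.M43.DatumHeckeQ4

open HahnSeries ModularCurve IntermediateField IsLocalRing AlgebraicCurve
open Fermat.Agent.RED.Interface4 Fermat.Agent.ES.RED
  Fermat.Agent.T33.NodalCtx1 Fermat.Agent.T33.NodalHalf4
  Fermat.Agent.T33.NodalBase4A Fermat.Agent.T33.FrickeRed3 Fermat.Agent.U44.DegreeC4
  Fermat.Agent.U44.LevelEll4 Fermat.Agent.U44.HeckeC4 Fermat.Agent.U44.HeckePsi4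
  Fermat.Agent.ES.HECKE.PointFormula28 Fermat.Agent.ES.HECKE Fermat.Agent.U44.GaussRed3

variable {q M' n : ℕ} [NeZero M'] [NeZero q] {A : ValuationSubring Qbar}
  (h : LevelHyp q M' A) {ℓ : ℕ} [NeZero ℓ] (hℓ : ℓ.Prime) (hℓp : ℓ ≠ q) (hℓM : ¬ ℓ ∣ M')

/-- shortcut instance. -/
local instance (priority := high) algebraKFbD (M : ℕ) [NeZero M] :
    Algebra (ResidueField ↥A) (Fb A M) := inferInstance

include hℓp hℓM in
/-- **`T_ℓ` on a datum, first component.** -/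
theorem datum_hecke₁ (D : Divisor.degZero (K := Qbar) (F := ↥(Fbar (M' * q))))
    {f : ↥(Fbar (M' * q))} (hf0 : f ≠ 0)
    (hf : ∀ P : Place Qbar ↥(Fbar (M' * q)),
      P.ord f = n * (D : Divisor Qbar ↥(Fbar (M' * q))) P)
    {c : Qbar} (hc : IsGU (c1 h) (algebraMap Qbar ↥(Fbar (M' * q)) c * f)) :
    ∃ DT : Divisor.degZero (K := Qbar) (F := ↥(Fbar (M' * q))),
      heckeOperatorBar (M' * q) ⟨ℓ, hℓ⟩ (Pic0.mk D) = Pic0.mk DT ∧
      normAlong (heckeAlphaBar Qbar (M' * q) ℓ) (heckeBetaBar Qbar (M' * q) ℓ f) ≠ 0 ∧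
      (∀ P : Place Qbar ↥(Fbar (M' * q)),
        P.ord (normAlong (heckeAlphaBar Qbar (M' * q) ℓ) (heckeBetaBar Qbar (M' * q) ℓ f)) =
          n * (DT : Divisor Qbar ↥(Fbar (M' * q))) P) ∧
      IsGU (c1 h) (algebraMap Qbar ↥(Fbar (M' * q)) (c ^ (ℓ + 1)) *
        normAlong (heckeAlphaBar Qbar (M' * q) ℓ) (heckeBetaBar Qbar (M' * q) ℓ f)) ∧
      red (c1 h) (algebraMap Qbar ↥(Fbar (M' * q)) (c ^ (ℓ + 1)) *
        normAlong (heckeAlphaBar Qbar (M' * q) ℓ) (heckeBetaBar Qbar (M' * q) ℓ f)) =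
        normAlong (alphaC (Setup8.kA A) M' ℓ) (betaC (Setup8.kA A) M' ℓ
          (red (c1 h) (algebraMap Qbar ↥(Fbar (M' * q)) c * f))) := by
  obtain ⟨DT, hT, hN0, hDT⟩ := heckeBar_kummer (M' * q) ℓ hℓ (not_dvd_level h hℓ hℓp hℓM) n D f hf0
    (fun v => (hf v).symm)
  obtain ⟨hN, hρ⟩ := red_hecke₁ h hℓ hℓp hℓM c f hc.mem
  refine ⟨DT, hT, hN0, fun P => (hDT P).symm, ?_, ?_⟩
  · refine isGU_of_ρ_ne hN ?_
    rw [hρ]
    refine Fermat.Agent.U44.NormAlong4.normAlong_ne_zero _ ?_ ?_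
    · rw [Fermat.Agent.U44.HeckeC4.finrankAlong_alpha h hℓ hℓp hℓM]; exact Nat.succ_pos ℓ
    · rw [Ne, map_eq_zero]; exact hc.ρ_ne
  · rw [red_of_mem _ hN, red_of_mem _ hc.mem]
    exact hρ

include hℓp hℓM in
/-- **`T_ℓ` on a datum, second component** (transposed correspondence). -/
theorem datum_hecke₂ (D : Divisor.degZero (K := Qbar) (F := ↥(Fbar (M' * q))))
    {f : ↥(Fbar (M' * q))} (hf0 : f ≠ 0)
    (hf : ∀ P : Place Qbar ↥(Fbar (M' * q)),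
      P.ord f = n * (D : Divisor Qbar ↥(Fbar (M' * q))) P)
    {c : Qbar} (hc : IsGU (c2 h) (algebraMap Qbar ↥(Fbar (M' * q)) c * f)) :
    ∃ DT : Divisor.degZero (K := Qbar) (F := ↥(Fbar (M' * q))),
      heckeOperatorBar (M' * q) ⟨ℓ, hℓ⟩ (Pic0.mk D) = Pic0.mk DT ∧
      normAlong (heckeAlphaBar Qbar (M' * q) ℓ) (heckeBetaBar Qbar (M' * q) ℓ f) ≠ 0 ∧
      (∀ P : Place Qbar ↥(Fbar (M' * q)),
        P.ord (normAlong (heckeAlphaBar Qbar (M' * q) ℓ) (heckeBetaBar Qbar (M' * q) ℓ f)) =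
          n * (DT : Divisor Qbar ↥(Fbar (M' * q))) P) ∧
      IsGU (c2 h) (algebraMap Qbar ↥(Fbar (M' * q)) (c ^ (ℓ + 1)) *
        normAlong (heckeAlphaBar Qbar (M' * q) ℓ) (heckeBetaBar Qbar (M' * q) ℓ f)) ∧
      red (c2 h) (algebraMap Qbar ↥(Fbar (M' * q)) (c ^ (ℓ + 1)) *
        normAlong (heckeAlphaBar Qbar (M' * q) ℓ) (heckeBetaBar Qbar (M' * q) ℓ f)) =
        normAlong (betaC (Setup8.kA A) M' ℓ) (alphaC (Setup8.kA A) M' ℓ
          (red (c2 h) (algebraMap Qbar ↥(Fbar (M' * q)) c * f))) := by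
  obtain ⟨DT, hT, hN0, hDT⟩ := heckeBar_kummer (M' * q) ℓ hℓ (not_dvd_level h hℓ hℓp hℓM) n D f hf0
    (fun v => (hf v).symm)
  obtain ⟨hN, hρ⟩ := red_hecke₂ h hℓ hℓp hℓM c f hc.mem
  refine ⟨DT, hT, hN0, fun P => (hDT P).symm, ?_, ?_⟩
  · refine isGU_of_ρ_ne hN ?_
    rw [hρ]
    refine Fermat.Agent.U44.NormAlong4.normAlong_ne_zero _ ?_ ?_
    · rw [Fermat.Agent.U44.HeckeC4.finrankAlong_beta h hℓ hℓp hℓM]; exact Nat.succ_pos ℓ
    · rw [Ne, map_eq_zero]; exact hc.ρ_ne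
  · rw [red_of_mem _ hN, red_of_mem _ hc.mem]
    exact hρ

/-- if `n · D̄ = div u` then `n · (ᾱ_* β̄^* D̄) = div N_ᾱ (β̄ u)`. -/
theorem div_hecke₁ {u : Fb A M'} (hu : u ≠ 0) (Db : Divisor (Setup8.kA A) (Fb A M'))
    (hDb : ∀ Q : Place (Setup8.kA A) (Fb A M'), (n : ℤ) * Db Q = Q.ord u)
    (Q : Place (Setup8.kA A) (Fb A M')) :
    (n : ℤ) * heckeDivC h hℓ hℓp hℓM Db Q =
      Q.ord (normAlong (alphaC (Setup8.kA A) M' ℓ) (betaC (Setup8.kA A) M' ℓ u)) := by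
  have h1 : (n : ℤ) * heckeDivC h hℓ hℓp hℓM Db Q =
      heckeDivC h hℓ hℓp hℓM ((n : ℤ) • Db) Q := by
    rw [map_zsmul, Finsupp.smul_apply, smul_eq_mul]
  rw [h1]
  exact heckeDivC_principal h hℓ hℓp hℓM hu
    (fun v => by rw [Finsupp.smul_apply, smul_eq_mul]; exact hDb v) Q

/-- if `n · D̄ = div u` then `n · (β̄_* ᾱ^* D̄) = div N_β̄ (ᾱ u)`. -/
theorem div_hecke₂ {u : Fb A M'} (hu : u ≠ 0) (Db : Divisor (Setup8.kA A) (Fb A M'))
    (hDb : ∀ Q : Place (Setup8.kA A) (Fb A M'), (n : ℤ) * Db Q = Q.ord u)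
    (Q : Place (Setup8.kA A) (Fb A M')) :
    (n : ℤ) * heckeDivCt h hℓ hℓp hℓM Db Q =
      Q.ord (normAlong (betaC (Setup8.kA A) M' ℓ) (alphaC (Setup8.kA A) M' ℓ u)) := by
  have h1 : (n : ℤ) * heckeDivCt h hℓ hℓp hℓM Db Q =
      heckeDivCt h hℓ hℓp hℓM ((n : ℤ) • Db) Q := by
    rw [map_zsmul, Finsupp.smul_apply, smul_eq_mul]
  rw [h1]
  exact heckeDivCt_principal h hℓ hℓp hℓM hu
    (fun v => by rw [Finsupp.smul_apply, smul_eq_mul]; exact hDb v) Q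

end Fermat.Agent.M43.DatumHeckeQ4
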