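/-
Programme M43 (target S43), pillar (P-MP) Mazur's principle, chapter (H) two-prime re-instantiation,
file 2 (helper4): **the two étale maps `E₁, E₂ : Jf → J₀(M')_κ [n]` of `X₀(M'q)` over `A`, exponent
`n` independent of the residue prime `q`** (copy of `U44/EtaleInst1` with the two roles of `p`
separated; the abstract layers `EtaleAbs1`, `EtaleTwo1`, `EtaleNodal1` are generic in the exponent).

`h : LevelHyp q M' A`, `J = JZero (M' * q)`, `κ = Setup8.kA A`, `JZeroC κ M' = Pic⁰(Fb A M')`.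
`Rel₁ h n x e`, `Jf h n`, `E₁ h n`, `rel_zero_both_iff`, `E_eq_zero_iff` (common kernel =
`formalTwo A (M' * q) n`, the TORIC part when `q ∤ n`), `mem_Jf_of_nodes`, `exists_kdata`,
`exists_eigen_of_rel`.
-/
import Mathlib
import Fermat.Agent.U44.EtaleTwo1
import Fermat.Agent.U44.EtaleNodal1
import Fermat.Agent.T33.NodalBridge0
import Fermat.Agent.T33.NodalInst4G
import Fermat.Agent.T33.FrickeRed3B

set_option autoImplicit false
set_option linter.unusedSectionVars false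
set_option linter.style.haveILetI false
set_option linter.unusedVariables false
set_option synthInstance.maxHeartbeats 400000

noncomputable section

namespace Fermat.Agent.M43.EtaleInstQ4

open Fermat.Agent.U44

open HahnSeries ModularCurve AlgebraicCurve IsLocalRing
open Fermat.Agent.RED.Interface4 Fermat.Agent.ES.RED
open Fermat.Agent.T33.Psi3B Fermat.Agent.T33.Psi3C Fermat.Agent.T33.Psi3D Fermat.Agent.T33.Psi3F
open Fermat.Agent.T33.NodalCtx1 Fermat.Agent.T33.NodalCurve6 Fermat.Agent.T33.NodalHalf4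
  Fermat.Agent.T33.NodalInst4A Fermat.Agent.T33.NodalInst4C Fermat.Agent.T33.NodalInst4E
  Fermat.Agent.T33.FrickeRed3 Fermat.Agent.T33.NodalBridge0
  Fermat.Agent.RR.LSpace Fermat.Agent.X0.FF
  Fermat.Agent.U44.GaussRed3 Fermat.Agent.U44.EtaleAbs1 Fermat.Agent.U44.EtaleTwo1
  Fermat.Agent.U44.Annulus3

variable {q M' : ℕ} [NeZero M'] [NeZero q] {A : ValuationSubring Qbar}

/-- shortcut instance. -/
local instance (priority := high) algebraAFbarN1e : Algebra ↥A ↥(Fbar (M' * q)) := inferInstance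

/-- shortcut instance. -/
local instance (priority := high) algebraKFb1e : Algebra (Setup8.kA A) (Fb A M') := inferInstance

variable (h : LevelHyp q M' A) (n : ℕ) [NeZero n]

/-! ### the relations, the domains, the maps -/

/-- "`e` is the étale image of `x` on the first component". -/
abbrev Rel₁ (x : JZero (M' * q)) (e : JZeroC (Setup8.kA A) M') : Prop := Rel (c1 h) n x e

/-- "`e` is the étale image of `x` on the second component". -/
abbrev Rel₂ (x : JZero (M' * q)) (e : JZeroC (Setup8.kA A) M') : Prop := Rel (c2 h) n x e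

/-- the classes having an étale image on the first component. -/
def Jf₁ : AddSubgroup (JZero (M' * q)) := EtaleAbs1.Jf (c1 h) n

/-- the classes having an étale image on the second component. -/
def Jf₂ : AddSubgroup (JZero (M' * q)) := EtaleAbs1.Jf (c2 h) n

/-- **the classes having étale images on both components.** -/
def Jf : AddSubgroup (JZero (M' * q)) := Jf₁ h n ⊓ Jf₂ h n

theorem Jf_le₁ : Jf h n ≤ Jf₁ h n := inf_le_left

theorem Jf_le₂ : Jf h n ≤ Jf₂ h n := inf_le_right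

/-- **the étale map of the first component.** -/
def E₁ : Jf₁ h n →+ JZeroC (Setup8.kA A) M' := EtaleAbs1.E (c1 h) (lHyp h) (NeZero.ne n)

/-- **the étale map of the second component.** -/
def E₂ : Jf₂ h n →+ JZeroC (Setup8.kA A) M' := EtaleAbs1.E (c2 h) (lHyp h) (NeZero.ne n)

theorem E₁_spec (x : Jf₁ h n) : Rel₁ h n (x : JZero (M' * q)) (E₁ h n x) :=
  E_spec (lHyp h) (NeZero.ne n) x

theorem E₂_spec (x : Jf₂ h n) : Rel₂ h n (x : JZero (M' * q)) (E₂ h n x) :=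
  E_spec (lHyp h) (NeZero.ne n) x

theorem E₁_eq_of_rel (x : Jf₁ h n) {e : JZeroC (Setup8.kA A) M'}
    (he : Rel₁ h n (x : JZero (M' * q)) e) : E₁ h n x = e :=
  E_eq_of_rel (lHyp h) (NeZero.ne n) x he

theorem E₂_eq_of_rel (x : Jf₂ h n) {e : JZeroC (Setup8.kA A) M'}
    (he : Rel₂ h n (x : JZero (M' * q)) e) : E₂ h n x = e :=
  E_eq_of_rel (lHyp h) (NeZero.ne n) x he

theorem p_smul_E₁ (x : Jf₁ h n) : n • E₁ h n x = 0 := (E₁_spec h n x).p_smul_right

theorem p_smul_E₂ (x : Jf₂ h n) : n • E₂ h n x = 0 := (E₂_spec h n x).p_smul_right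

theorem p_smul_of_mem_Jf₁ {x : JZero (M' * q)} (hx : x ∈ Jf₁ h n) : n • x = 0 :=
  EtaleAbs1.p_smul_of_mem_Jf hx

theorem p_smul_of_mem_Jf {x : JZero (M' * q)} (hx : x ∈ Jf h n) : n • x = 0 :=
  p_smul_of_mem_Jf₁ h n hx.1

/-! ### the common kernel is the formal part -/

theorem upair_eq : Upair (c1 h) (c2 h) = Utwo A (M' * q) := by
  funext b
  cases b
  · show pu (c1 h) = puOne A (M' * q)
    exact pu_c1 h
  · show pu (c2 h) = puTwo A (M' * q)
    exact pu_c2 h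

/-- **the common kernel of the two étale maps is `formalTwo ∩ J[p]`.** -/
theorem rel_zero_both_iff {x : JZero (M' * q)} :
    (Rel₁ h n x 0 ∧ Rel₂ h n x 0) ↔ x ∈ formalTwo A (M' * q) n ∧ n • x = 0 := by
  rw [EtaleTwo1.rel_zero_both_iff (lHyp h) (lHypFb h) (lHypFb h) (c1_ρ_surjective h)
    (c2_ρ_surjective h), inG_iff_formal (lHyp h) (lHypFb h) (lHypFb h) (NeZero.ne n), upair_eq h]
  rfl

/-- **`E₁ x = 0 ∧ E₂ x = 0 ↔ x ∈ formalTwo`.** -/
theorem E_eq_zero_iff {x : JZero (M' * q)} (hx : x ∈ Jf h n) :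
    (E₁ h n ⟨x, hx.1⟩ = 0 ∧ E₂ h n ⟨x, hx.2⟩ = 0) ↔ x ∈ formalTwo A (M' * q) n := by
  constructor
  · rintro ⟨h1, h2⟩
    have r1 : Rel₁ h n x 0 := h1 ▸ E₁_spec h n ⟨x, hx.1⟩
    have r2 : Rel₂ h n x 0 := h2 ▸ E₂_spec h n ⟨x, hx.2⟩
    exact ((rel_zero_both_iff h n).1 ⟨r1, r2⟩).1
  · intro hf
    obtain ⟨r1, r2⟩ := (rel_zero_both_iff h n).2 ⟨hf, p_smul_of_mem_Jf h n hx⟩
    exact ⟨E₁_eq_of_rel h n ⟨x, hx.1⟩ r1, E₂_eq_of_rel h n ⟨x, hx.2⟩ r2⟩

/-! ### the domain, through the slopes at the nodes -/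

/-- **`[D] ∈ Jf h n` from the slopes at the nodes.** -/
theorem mem_Jf_of_nodes
    (X : ∀ k, AnnCoord (Fermat.Agent.T33.NodalInst4G.nodalRed h) k)
    (hy₂ : ∀ k, ((Nd h).s2 k).ord (red (c2 h) (X k).y₂) = -1)
    {D : Divisor.degZero (K := Qbar) (F := ↥(Fbar (M' * q)))} {f : ↥(Fbar (M' * q))}
    {c₁ c₂ : Qbar} (hk₁ : KData (c1 h) n D f c₁) (hk₂ : KData (c2 h) n D f c₂)
    (hnode : ∀ k, (n : ℤ) ∣
      ((Nd h).s1 k).ord (red (c1 h) (algebraMap Qbar ↥(Fbar (M' * q)) c₁ * f))) :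
    Pic0.mk D ∈ Jf h n :=
  EtaleNodal1.mem_Jf_of_nodes (N := Fermat.Agent.T33.NodalInst4G.nodalRed h) (lHypFb h) (lHypFb h)
    X hy₂ (NeZero.ne n) hk₁ hk₂ hnode

/-- Kummer data exist for every `p`-torsion class. -/
theorem exists_kdata {x : JZero (M' * q)} (hx : n • x = 0) :
    ∃ (D : Divisor.degZero (K := Qbar) (F := ↥(Fbar (M' * q)))) (f : ↥(Fbar (M' * q)))
      (c₁ c₂ : Qbar), x = Pic0.mk D ∧ KData (c1 h) n D f c₁ ∧ KData (c2 h) n D f c₂ := by
  obtain ⟨D, rfl⟩ := Pic0.mk_surjective x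
  have hx' : Pic0.mk (n • D) = 0 := hx
  obtain ⟨f, hf0, hf⟩ := exists_ord_of_mk_eq_zero hx'
  have hf' : ∀ P : Place Qbar ↥(Fbar (M' * q)),
      P.ord f = n * (D : Divisor Qbar ↥(Fbar (M' * q))) P := by
    intro P
    rw [← hf P]
    simp
  obtain ⟨c₁, -, h₁⟩ := Fermat.Agent.U44.SlopeIndep3.exists_isGU (c1 h) hf0
  obtain ⟨c₂, -, h₂⟩ := Fermat.Agent.U44.SlopeIndep3.exists_isGU (c2 h) hf0
  exact ⟨D, f, c₁, c₂, rfl, ⟨hf0, hf', h₁⟩, ⟨hf0, hf', h₂⟩⟩

/-! ### the eigenvector -/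

/-- **the eigenvector**, from functoriality of `Rel₁`, `Rel₂` under the operators. -/
theorem exists_eigen_of_rel (V : AddSubgroup (JZero (M' * q))) (hV : V ≤ Jf h n)
    (hVG : ¬ V ≤ formalTwo A (M' * q) n)
    {ι : Type*} (S : Set ι) (T : ι → JZero (M' * q) →+ JZero (M' * q)) (a : ι → ℤ)
    (hT : ∀ i ∈ S, ∀ w ∈ V, T i w = a i • w)
    (Tb₁ Tb₂ : ι → JZeroC (Setup8.kA A) M' →+ JZeroC (Setup8.kA A) M')
    (hmap₁ : ∀ i ∈ S, ∀ (x : JZero (M' * q)) (e : JZeroC (Setup8.kA A) M'),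
      Rel₁ h n x e → Rel₁ h n (T i x) (Tb₁ i e))
    (hmap₂ : ∀ i ∈ S, ∀ (x : JZero (M' * q)) (e : JZeroC (Setup8.kA A) M'),
      Rel₂ h n x e → Rel₂ h n (T i x) (Tb₂ i e)) :
    ∃ v ∈ V,
      (∃ e : JZeroC (Setup8.kA A) M', Rel₁ h n v e ∧ e ≠ 0 ∧ n • e = 0 ∧
        ∀ i ∈ S, Tb₁ i e = a i • e) ∨
      (∃ e : JZeroC (Setup8.kA A) M', Rel₂ h n v e ∧ e ≠ 0 ∧ n • e = 0 ∧
        ∀ i ∈ S, Tb₂ i e = a i • e) := by
  obtain ⟨v, hv, hvG⟩ := SetLike.not_le_iff_exists.1 hVG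
  refine ⟨v, hv, ?_⟩
  have hvG' : ¬ (Rel₁ h n v 0 ∧ Rel₂ h n v 0) := fun hh => hvG ((rel_zero_both_iff h n).1 hh).1
  exact exists_eigen_abs (lHyp h) (NeZero.ne n) V (fun w hw => (hV hw).1) (fun w hw => (hV hw).2)
    hv hvG' S T a hT Tb₁ Tb₂ hmap₁ hmap₂

end Fermat.Agent.M43.EtaleInstQ4
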