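/-
Programme M43 (target S43), pillar (P-MP) Mazur's principle, chapter (H) two-prime re-instantiation,
file 3 (helper4): **the étale maps are Hecke-equivariant; the eigenvector on the special fibre,
exponent `n` independent of the residue prime `q`** (copy of the exponent-dependent half of
`U44/EtaleHecke4`; the exponent-free items `normAlong_equiv`, `norm_Wb`, `c2W`, `heckeJ`, `heckeCi`,
`GoodPrime` are imported from there).

`h : LevelHyp q M' A`, `ℓ ≠ q` prime, `ℓ ∤ M'`, `T_ℓ = heckeOperatorBar (M' q) ℓ`,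
`T̄_ℓ = HeckeC4.heckeC`, `T̄_ℓᵗ = heckeCt`.

* `rel_hecke₁`, `rel_hecke₂`, `rel_hecke₂W` : functoriality of the étale relations;
* **`exists_eigen_of_Jf`**, **`exists_eigen`** : `V ≤ J₀(M'q)[n]`, slopes `≡ 0 (n)` at the nodes,
  `V ⊄ formalTwo A (M' q) n`, `T_l = a_l` on `V` for `l ∈ G` ⟹ a nonzero `y ∈ JZeroC κ M'`, `n y = 0`,
  `T̄_l y = a_l y` for `l ∈ G`, étale image of some `v ∈ V`.
-/
import Mathlib
import Fermat.Agent.U44.EtaleHecke4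
import Fermat.Agent.M43.DatumHeckeQ4
import Fermat.Agent.M43.EtaleInstQ4

set_option autoImplicit false
set_option linter.unusedSectionVars false
set_option linter.style.haveILetI false
set_option linter.unusedVariables false
set_option synthInstance.maxHeartbeats 400000

noncomputable section

namespace Fermat.Agent.M43.EtaleHeckeQ4

open Fermat.Agent.U44

open HahnSeries ModularCurve IntermediateField IsLocalRing AlgebraicCurve
open Fermat.Agent.RED.Interface4 Fermat.Agent.ES.RED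
  Fermat.Agent.T33.NodalCtx1 Fermat.Agent.T33.NodalHalf4
  Fermat.Agent.T33.NodalBase4A Fermat.Agent.T33.FrickeRed3 Fermat.Agent.U44.DegreeC4
  Fermat.Agent.U44.LevelEll4 Fermat.Agent.U44.HeckeC4 Fermat.Agent.U44.HeckePsi4
  Fermat.Agent.ES.HECKE.PointFormula28 Fermat.Agent.ES.HECKE Fermat.Agent.U44.GaussRed3
  Fermat.Agent.M43.DatumHeckeQ4 Fermat.Agent.U44.TwistRed4 Fermat.Agent.U44.EtaleAbs1
  Fermat.Agent.M43.EtaleInstQ4 Fermat.Agent.T33.NodalInst4C Fermat.Agent.T33.Psi3D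
  Fermat.Agent.U44.Annulus3 Fermat.Agent.T33.NodalCurve6 Fermat.Agent.T33.NodalInst4E
  Fermat.Agent.T33.NodalInst4A

open Fermat.Agent.U44.EtaleHecke4 (normAlong_equiv norm_Wb c2W heckeJ heckeJ_apply GoodPrime heckeCi
  heckeCi_mk)

variable {q M' : ℕ} [NeZero M'] [NeZero q] {A : ValuationSubring Qbar}
  (h : LevelHyp q M' A) (n : ℕ) [NeZero n]
  {ℓ : ℕ} [NeZero ℓ] (hℓ : ℓ.Prime) (hℓp : ℓ ≠ q) (hℓM : ¬ ℓ ∣ M')

/-- shortcut instance. -/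
local instance (priority := high) algebraKFbHQ (M : ℕ) [NeZero M] :
    Algebra (ResidueField ↥A) (Fb A M) := inferInstance

/-- shortcut instance. -/
local instance (priority := high) algebraAFbarHQ : Algebra ↥A ↥(Fbar (M' * q)) := inferInstance

/-! ### the first component -/

/-- **`E₁ ∘ T_ℓ = T̄_ℓ ∘ E₁`**, in relational form. -/
theorem rel_hecke₁ {x : JZero (M' * q)} {e : JZeroC (Setup8.kA A) M'} (hr : Rel₁ h n x e) :
    Rel₁ h n (heckeOperatorBar (M' * q) ⟨ℓ, hℓ⟩ x) (heckeC h hℓ hℓp hℓM e) := by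
  refine Rel.map (R := c1 h) (heckeJ (p := q) (M' := M') hℓ) (heckeC h hℓ hℓp hℓM)
    (heckeDivC h hℓ hℓp hℓM)
    (fun Db => ⟨heckeDivC_mem_degZero h hℓ hℓp hℓM Db.2, heckeC_mk h hℓ hℓp hℓM Db⟩) ?_ hr
  intro D f c hk
  obtain ⟨DT, hT, hN0, hDT, hGU, hred⟩ := datum_hecke₁ h hℓ hℓp hℓM D hk.f_ne hk.ord_f hk.gu
  refine ⟨DT, _, _, ⟨hN0, hDT, hGU⟩, hT, fun Du hDu Q => ?_⟩
  rw [hred]
  exact heckeDivC_principal h hℓ hℓp hℓM hk.red_ne hDu Q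

/-! ### the second component -/

/-- **`E₂ ∘ T_ℓ = T̄_ℓᵗ ∘ E₂`**, in relational form. -/
theorem rel_hecke₂ {x : JZero (M' * q)} {e : JZeroC (Setup8.kA A) M'} (hr : Rel₂ h n x e) :
    Rel₂ h n (heckeOperatorBar (M' * q) ⟨ℓ, hℓ⟩ x) (heckeCt h hℓ hℓp hℓM e) := by
  refine Rel.map (R := c2 h) (heckeJ (p := q) (M' := M') hℓ) (heckeCt h hℓ hℓp hℓM)
    (heckeDivCt h hℓ hℓp hℓM)
    (fun Db => ⟨heckeDivCt_mem_degZero h hℓ hℓp hℓM Db.2, heckeCt_mk h hℓ hℓp hℓM Db⟩) ?_ hr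
  intro D f c hk
  obtain ⟨DT, hT, hN0, hDT, hGU, hred⟩ := datum_hecke₂ h hℓ hℓp hℓM D hk.f_ne hk.ord_f hk.gu
  refine ⟨DT, _, _, ⟨hN0, hDT, hGU⟩, hT, fun Du hDu Q => ?_⟩
  rw [hred]
  exact heckeDivCt_principal h hℓ hℓp hℓM hk.red_ne hDu Q

/-! ### the second component through `W̄` -/

/-- "`e` is the étale image of `x` on the `W̄`-twisted second component". -/
abbrev Rel₂W (x : JZero (M' * q)) (e : JZeroC (Setup8.kA A) M') : Prop := Rel (c2W h) n x e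

/-- **`E₂ᵂ ∘ T_ℓ = T̄_ℓ ∘ E₂ᵂ`**, in relational form. -/
theorem rel_hecke₂W {x : JZero (M' * q)} {e : JZeroC (Setup8.kA A) M'} (hr : Rel₂W h n x e) :
    Rel₂W h n (heckeOperatorBar (M' * q) ⟨ℓ, hℓ⟩ x) (heckeC h hℓ hℓp hℓM e) := by
  refine Rel.map (R := c2W h) (heckeJ (p := q) (M' := M') hℓ) (heckeC h hℓ hℓp hℓM)
    (heckeDivC h hℓ hℓp hℓM)
    (fun Db => ⟨heckeDivC_mem_degZero h hℓ hℓp hℓM Db.2, heckeC_mk h hℓ hℓp hℓM Db⟩) ?_ hr
  intro D f c hk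
  have hk2 : KData (c2 h) n D f c := (kdata_twist_iff (c2 h) (Wb h)).1 hk
  obtain ⟨DT, hT, hN0, hDT, hGU, hred⟩ := datum_hecke₂ h hℓ hℓp hℓM D hk2.f_ne hk2.ord_f hk2.gu
  refine ⟨DT, _, _, (kdata_twist_iff (c2 h) (Wb h)).2 ⟨hN0, hDT, hGU⟩, hT, fun Du hDu Q => ?_⟩
  have e1 : red (c2W h) (algebraMap Qbar ↥(Fbar (M' * q)) (c ^ (ℓ + 1)) *
      normAlong (heckeAlphaBar Qbar (M' * q) ℓ) (heckeBetaBar Qbar (M' * q) ℓ f)) =
      normAlong (alphaC (Setup8.kA A) M' ℓ) (betaC (Setup8.kA A) M' ℓ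
        (red (c2W h) (algebraMap Qbar ↥(Fbar (M' * q)) c * f))) := by
    rw [show red (c2W h) (algebraMap Qbar ↥(Fbar (M' * q)) c * f) =
      Wb h (red (c2 h) (algebraMap Qbar ↥(Fbar (M' * q)) c * f)) from red_twist _ _ _,
      norm_Wb h hℓ hℓp, ← hred]
    exact red_twist _ _ _
  rw [e1]
  exact heckeDivC_principal h hℓ hℓp hℓM hk.red_ne hDu Q

/-- the twisted second component has the same kernel. -/
theorem rel₂W_zero_iff {x : JZero (M' * q)} : Rel₂W h n x 0 ↔ Rel₂ h n x 0 :=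
  rel_zero_twist_iff (c2 h) (Wb h) (lHypFb h) (c2_ρ_surjective h)

/-- the twisted second component has a larger domain. -/
theorem Jf₂_le : Jf₂ h n ≤ EtaleAbs1.Jf (c2W h) n :=
  Jf_le_twist (c2 h) (Wb h) (lHyp h) (lHypFb h) (NeZero.ne n)
    (fun u hu Q => dvd_ord_map (Wb h) (n : ℤ) u hu Q)

/-! ### the eigenvector -/

/-- **the eigenvector on the special fibre** (domain given as `V ≤ Jf h n`). -/
theorem exists_eigen_of_Jf (G : Set ℕ) (a : ℕ → ℤ)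
    (V : AddSubgroup (JZero (M' * q))) (hV : V ≤ EtaleInstQ4.Jf h n)
    (hVT : ∀ (l : ℕ) (hl : l.Prime), l ∈ G → ∀ v ∈ V,
      heckeOperatorBar (M' * q) ⟨l, hl⟩ v = a l • v)
    (hform : ∃ v ∈ V, v ∉ formalTwo A (M' * q) n) :
    ∃ (v : JZero (M' * q)) (y : JZeroC (Setup8.kA A) M'), v ∈ V ∧
      (Rel₁ h n v y ∨ Rel₂W h n v y) ∧ y ≠ 0 ∧ n • y = 0 ∧
      ∀ (l : ℕ) [NeZero l] (hl : l.Prime) (hlp : l ≠ q) (hlM : ¬ l ∣ M'), l ∈ G →
        heckeC h hl hlp hlM y = a l • y := by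
  obtain ⟨v, hv, hvG⟩ := hform
  have hvG' : ¬ (Rel (c1 h) n v 0 ∧ Rel (c2W h) n v 0) := fun hh =>
    hvG ((EtaleInstQ4.rel_zero_both_iff h n).1 ⟨hh.1, (rel₂W_zero_iff h n).1 hh.2⟩).1
  have key := Fermat.Agent.U44.EtaleTwo1.exists_eigen_abs (R₁ := c1 h) (R₂ := c2W h) (lHyp h)
    (NeZero.ne n) V (fun w hw => (hV hw).1) (fun w hw => Jf₂_le h n (hV hw).2) hv hvG'
    (ι := GoodPrime q M') {i | i.1 ∈ G} (fun i => heckeJ (p := q) (M' := M') i.2.1)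
    (fun i => a i.1) (fun i hi w hw => hVT i.1 i.2.1 hi w hw) (heckeCi h) (heckeCi h)
    (fun i hi x e hr => by
      haveI : NeZero i.1 := ⟨i.2.1.ne_zero⟩
      exact rel_hecke₁ h n i.2.1 i.2.2.1 i.2.2.2 hr)
    (fun i hi x e hr => by
      haveI : NeZero i.1 := ⟨i.2.1.ne_zero⟩
      exact rel_hecke₂W h n i.2.1 i.2.2.1 i.2.2.2 hr)
  rcases key with ⟨e, he, he0, hpe, hT⟩ | ⟨e, he, he0, hpe, hT⟩
  · refine ⟨v, e, hv, Or.inl he, he0, hpe, ?_⟩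
    intro l _ hl hlp hlM hlG
    exact hT ⟨l, hl, hlp, hlM⟩ hlG
  · refine ⟨v, e, hv, Or.inr he, he0, hpe, ?_⟩
    intro l _ hl hlp hlM hlG
    exact hT ⟨l, hl, hlp, hlM⟩ hlG

/-- **the eigenvector on the special fibre** (domain given through the slopes at the nodes). -/
theorem exists_eigen
    (X : ∀ k, AnnCoord (Fermat.Agent.T33.NodalInst4G.nodalRed h) k)
    (hy₂ : ∀ k, ((Nd h).s2 k).ord (red (c2 h) (X k).y₂) = -1)
    (G : Set ℕ) (a : ℕ → ℤ)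
    (V : AddSubgroup (JZero (M' * q))) (hVp : ∀ v ∈ V, n • v = 0)
    (hVT : ∀ (l : ℕ) (hl : l.Prime), l ∈ G → ∀ v ∈ V,
      heckeOperatorBar (M' * q) ⟨l, hl⟩ v = a l • v)
    (hslope : ∀ v ∈ V, ∀ (D : Divisor.degZero (K := Qbar) (F := ↥(Fbar (M' * q))))
      (f : ↥(Fbar (M' * q))) (c₁ : Qbar), v = Pic0.mk D → KData (c1 h) n D f c₁ →
      ∀ k, (n : ℤ) ∣ ((Nd h).s1 k).ord (red (c1 h) (algebraMap Qbar ↥(Fbar (M' * q)) c₁ * f)))
    (hform : ∃ v ∈ V, v ∉ formalTwo A (M' * q) n) :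
    ∃ (v : JZero (M' * q)) (y : JZeroC (Setup8.kA A) M'), v ∈ V ∧
      (Rel₁ h n v y ∨ Rel₂W h n v y) ∧ y ≠ 0 ∧ n • y = 0 ∧
      ∀ (l : ℕ) [NeZero l] (hl : l.Prime) (hlp : l ≠ q) (hlM : ¬ l ∣ M'), l ∈ G →
        heckeC h hl hlp hlM y = a l • y := by
  refine exists_eigen_of_Jf h n G a V (fun v hv => ?_) hVT hform
  obtain ⟨D, f, c₁, c₂, rfl, hk₁, hk₂⟩ := exists_kdata h n (hVp v hv)
  exact EtaleInstQ4.mem_Jf_of_nodes h n X hy₂ hk₁ hk₂ (hslope _ hv D f c₁ rfl hk₁)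

end Fermat.Agent.M43.EtaleHeckeQ4
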