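/-
Programme M43 (target S43), pillar (P-MP) Mazur's principle, chapter (H) two-prime re-instantiation,
file 4 (helper4): **(H2) at `X₀(M'q)`: the constant slope vector is Eisenstein, exponent `n`
independent of the residue prime `q`** (copy of the exponent-dependent half of
`U44/SlopeHeckeInst4` + `U44/RedCompatInst4`; the place-level structure `RedCompat`, the level maps,
`fibre_node`, `ramification_α/β` and the instance `redCompat` are exponent-free and imported).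

* `hecke_slope` : the slopes at the nodes of `T_ℓ` of a Kummer datum with slopes `≡ γ (n)` are
  `≡ (ℓ + 1) γ`;
* `eisenstein`, `eisenstein'` : `T_ℓ [D] = a [D]` and slopes constant mod `n` ⟹
  `n ∣ (a − (ℓ + 1)) · slope_k`; the only remaining hypotheses are the annulus coordinates of
  thickness `q` at the nodes of the two levels `M'q`, `(M'ℓ)q`.
-/
import Mathlib
import Fermat.Agent.U44.RedCompatInst4
import Fermat.Agent.M43.EtaleHeckeQ4

set_option autoImplicit false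
set_option linter.unusedSectionVars false
set_option linter.style.haveILetI false
set_option linter.unusedVariables false
set_option synthInstance.maxHeartbeats 400000

noncomputable section

namespace Fermat.Agent.M43.SlopeHeckeQ4

open Fermat.Agent.U44

open HahnSeries ModularCurve IntermediateField IsLocalRing AlgebraicCurve
open Fermat.Agent.RED.Interface4 Fermat.Agent.ES.RED
  Fermat.Agent.T33.NodalCtx1 Fermat.Agent.T33.NodalHalf4
  Fermat.Agent.T33.NodalBase4A Fermat.Agent.T33.FrickeRed3 Fermat.Agent.U44.DegreeC4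
  Fermat.Agent.U44.LevelEll4 Fermat.Agent.U44.LevelEllB4 Fermat.Agent.U44.HeckeC4
  Fermat.Agent.U44.HeckePsi4
  Fermat.Agent.ES.HECKE.PointFormula28 Fermat.Agent.ES.HECKE Fermat.Agent.U44.GaussRed3
  Fermat.Agent.M43.DatumHeckeQ4 Fermat.Agent.U44.EtaleAbs1
  Fermat.Agent.T33.NodalInst4C Fermat.Agent.T33.Psi3D
  Fermat.Agent.U44.Annulus3 Fermat.Agent.T33.NodalCurve6 Fermat.Agent.T33.NodalInst4E
  Fermat.Agent.T33.NodalInst4A Fermat.Agent.U44.SlopeHecke1 Fermat.Agent.U44.SlopeHeckeInst4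

local notation "nodalRedG" => Fermat.Agent.T33.NodalInst4G.nodalRed

variable {q M' : ℕ} [NeZero M'] [NeZero q] {A : ValuationSubring Qbar}
  {h : LevelHyp q M' A} {n : ℕ} {ℓ : ℕ} [NeZero ℓ] {hℓ : ℓ.Prime} {hℓp : ℓ ≠ q} {hℓM : ¬ ℓ ∣ M'}

/-- shortcut instance. -/
local instance (priority := high) algebraKFbSQ (M : ℕ) [NeZero M] :
    Algebra (ResidueField ↥A) (Fb A M) := inferInstance

/-- shortcut instance. -/
local instance (priority := high) algebraAFbarSQ : Algebra ↥A ↥(Fbar (M' * q)) := inferInstance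

/-- **the slopes of `T_ℓ` of a Kummer datum**: if the slopes of `(D, f, c)` at the nodes are all
`≡ γ (mod n)` then those of `(T_ℓ D, N_α(β f), c^(ℓ+1))` are all `≡ (ℓ + 1) γ`. -/
theorem hecke_slope (hC : RedCompat h hℓ hℓp hℓM)
    (X : ∀ k, AnnCoord (nodalRedG h) k) (X' : ∀ k', AnnCoord (nodalRedG (hEll h hℓ hℓp)) k')
    (hX : ∀ k, AUnit A ((X k).ϖ / (q : Qbar))) (hX' : ∀ k', AUnit A ((X' k').ϖ / (q : Qbar)))
    {D : Divisor.degZero (K := Qbar) (F := ↥(Fbar (M' * q)))} {f : ↥(Fbar (M' * q))} {c : Qbar}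
    (hk : KData (c1 h) n D f c) (γ : ℤ)
    (hγ : ∀ k, (n : ℤ) ∣ ((Nd h).s1 k).ord
      (red (c1 h) (algebraMap Qbar ↥(Fbar (M' * q)) c * f)) - γ) :
    ∃ (D' : Divisor.degZero (K := Qbar) (F := ↥(Fbar (M' * q)))) (f' : ↥(Fbar (M' * q))),
      KData (c1 h) n D' f' (c ^ (ℓ + 1)) ∧
      heckeOperatorBar (M' * q) ⟨ℓ, hℓ⟩ (Pic0.mk D) = Pic0.mk D' ∧
      ∀ k, (n : ℤ) ∣ ((Nd h).s1 k).ord
        (red (c1 h) (algebraMap Qbar ↥(Fbar (M' * q)) (c ^ (ℓ + 1)) * f')) - ((ℓ : ℤ) + 1) * γ := by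
  obtain ⟨DT, hT, hN0, hDT, hGU, hred⟩ := datum_hecke₁ h hℓ hℓp hℓM D hk.f_ne hk.ord_f hk.gu
  have hk' : KData (c1 h) n DT _ (c ^ (ℓ + 1)) := ⟨hN0, hDT, hGU⟩
  refine ⟨DT, _, hk', hT, fun k => ?_⟩
  haveI := HeckeC4.hasPrincipalDivisors h hℓ hℓp
  have key := hecke_slope_congr (R := c1 h) (betaC (Setup8.kA A) M' ℓ) (alphaC (Setup8.kA A) M' ℓ)
    (isIntegral_beta h hℓ hℓp hℓM) (isIntegral_alpha h hℓ hℓp hℓM) (lHypFb h)
    (lHypFb (hEll h hℓ hℓp)).deg_eq_one (fundId_alpha h hℓ hℓp hℓM)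
    (Nd h).s1 (Nd (hEll h hℓ hℓp)).s1
    (fun k w hw => fibre_node hC (Place.mem_fiberAlong.1 hw))
    (ramification_α hC X X' hX hX') (ramification_β hC X X' hX hX') (image_node_β hC)
    hk hk'
    (fun Du hDu Q => by
      rw [hred]
      exact heckeDivC_principal h hℓ hℓp hℓM hk.red_ne hDu Q)
    γ hγ k
  rw [HeckeC4.finrankAlong_alpha h hℓ hℓp hℓM] at key
  have e1 : ((ℓ + 1 : ℕ) : ℤ) = (ℓ : ℤ) + 1 := by push_cast; ring
  rw [e1] at key
  exact key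

/-- **(H2): the constant slope vector is Eisenstein.** -/
theorem eisenstein (hC : RedCompat h hℓ hℓp hℓM)
    (X : ∀ k, AnnCoord (nodalRedG h) k) (X' : ∀ k', AnnCoord (nodalRedG (hEll h hℓ hℓp)) k')
    (hX : ∀ k, AUnit A ((X k).ϖ / (q : Qbar))) (hX' : ∀ k', AUnit A ((X' k').ϖ / (q : Qbar)))
    {D : Divisor.degZero (K := Qbar) (F := ↥(Fbar (M' * q)))} {f : ↥(Fbar (M' * q))} {c : Qbar}
    (hk : KData (c1 h) n D f c) (a : ℤ)
    (hT : heckeOperatorBar (M' * q) ⟨ℓ, hℓ⟩ (Pic0.mk D) = a • Pic0.mk D) (γ : ℤ)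
    (hγ : ∀ k, (n : ℤ) ∣ ((Nd h).s1 k).ord
      (red (c1 h) (algebraMap Qbar ↥(Fbar (M' * q)) c * f)) - γ) (k : Node h) :
    (n : ℤ) ∣ (a - ((ℓ : ℤ) + 1)) * ((Nd h).s1 k).ord
      (red (c1 h) (algebraMap Qbar ↥(Fbar (M' * q)) c * f)) := by
  obtain ⟨D', f', hk', hT', hrow⟩ := hecke_slope hC X X' hX hX' hk γ hγ
  exact eisenstein_abs (lHyp h) hk hk' a (by rw [← hT', hT]) ((ℓ : ℤ) + 1) γ (Nd h).s1 hγ hrow k

/-- **(H2), hypothesis-free up to the annulus coordinates**, with the constancy of the slope vector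
given as pairwise congruences. -/
theorem eisenstein' (h : LevelHyp q M' A) (hℓ : ℓ.Prime) (hℓp : ℓ ≠ q) (hℓM : ¬ ℓ ∣ M')
    (X : ∀ k, AnnCoord (nodalRedG h) k) (X' : ∀ k', AnnCoord (nodalRedG (hEll h hℓ hℓp)) k')
    (hX : ∀ k, AUnit A ((X k).ϖ / (q : Qbar))) (hX' : ∀ k', AUnit A ((X' k').ϖ / (q : Qbar)))
    {D : Divisor.degZero (K := Qbar) (F := ↥(Fbar (M' * q)))} {f : ↥(Fbar (M' * q))} {c : Qbar}
    (hk : KData (c1 h) n D f c) (a : ℤ)
    (hT : heckeOperatorBar (M' * q) ⟨ℓ, hℓ⟩ (Pic0.mk D) = a • Pic0.mk D)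
    (hconst : ∀ k k', (n : ℤ) ∣ ((Nd h).s1 k).ord
      (red (c1 h) (algebraMap Qbar ↥(Fbar (M' * q)) c * f)) - ((Nd h).s1 k').ord
      (red (c1 h) (algebraMap Qbar ↥(Fbar (M' * q)) c * f))) (k : Node h) :
    (n : ℤ) ∣ (a - ((ℓ : ℤ) + 1)) * ((Nd h).s1 k).ord
      (red (c1 h) (algebraMap Qbar ↥(Fbar (M' * q)) c * f)) :=
  eisenstein (Fermat.Agent.U44.RedCompatInst4.redCompat h hℓ hℓp hℓM) X X' hX hX' hk a hT _
    (fun k' => hconst k' k) k

end Fermat.Agent.M43.SlopeHeckeQ4
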