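/-
Programme M43 (target S43), pillar (P-MP) Mazur's principle, block (B) TAME-PL, abstract layer
(helper4): **a torsion class fixed by the whole inertia group has constant slopes at the nodes.**

Abstract layer over T33's nodal reduction context `NodalCtx1.NodalRed` and U44's annulus
coordinates `Annulus3.AnnCoord`.  Let `γ : Γ → SemilinearAut K F` be compatible with the context
(in use: the inertia group of `A`), fixing the annulus coordinates `z'_k`, and let `D` be a divisor
STABLE under all `γ σ`, with `n D = div f`.  If every nonzero constant fixed by all `γ σ` is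
`π ^ a · unit` (the fixed field of inertia is unramified, `π` the residue prime) and the thickness
of every node is `π · unit`, then the slopes `s_k = ord_{s1 k} ρ₁ (c₁ f)` are all congruent
modulo `n` (`slopes_congr`).  No relation between `n` and the residue characteristic is needed.

Proof: `b_k = ∏_{P → k} z'_k(P) ^ D(P)` is fixed by all `γ σ` (they permute the places over the
node, `z'_k(γ σ • P) = σ (z'_k(P))`, `D(γ σ • P) = D(P)`), so `b_k = π ^ a_k · unit`; the annulus
formula `c₁ / c₂ = b_k ^ n ϖ_k ^ (s_k − n N_k) · unit` shows that `n a_k + s_k − n N_k` does not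
depend on `k`.  (Variant of `U44/TRTame3.tr_tame`, where the exponent is the residue prime.)
-/
import Mathlib
import Fermat.Agent.U44.Annulus3
import Fermat.Agent.U44.ValBridge3
import Fermat.Agent.M43.SlopeMod8

set_option autoImplicit false

open AlgebraicCurve IsLocalRing

namespace Fermat.Agent.M43.TameAbs4

open Fermat.Agent.T33.NodalCtx1 Fermat.Agent.T33.NodalCurve6 Fermat.Agent.T33.NodalAbs1A
  Fermat.Agent.X0.FF Fermat.Agent.U44.GaussRed3 Fermat.Agent.U44.Annulus3
  Fermat.Agent.U44.ValBridge3 Fermat.Agent.M43.SlopeMod8 AlgebraicCurve.SemilinearAut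

variable {K : Type*} [Field K] {A : ValuationSubring K}
variable {F : Type*} [Field F] [Algebra K F]
variable {Fb₁ Fb₂ : Type*} [Field Fb₁] [Field Fb₂]
  [Algebra (ResidueField A) Fb₁] [Algebra (ResidueField A) Fb₂]
variable {ι : Type*} {Nd : NodalData (ResidueField A) Fb₁ Fb₂ ι}
variable {N : NodalRed A F Nd}

/-- a stable divisor takes the same value at `P` and at `γ σ • P`. -/
theorem apply_smul_of_stable (g : SemilinearAut K F) (D : Divisor K F) (hD : g • D = D)
    (P : Place K F) : D (g • P) = D P := by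
  have := divisor_smul_apply_smul g D P
  rwa [hD] at this

/-- **the node product of a stable divisor is a fixed constant.** -/
theorem nodeProd_fixed {Γ : Type*} {γ : Γ → SemilinearAut K F} (hC : N.Compat γ) {k : ι}
    (X : AnnCoord N k) (hzp : ∀ σ, γ σ • X.zp = X.zp) (D : Divisor K F)
    (hD : ∀ σ, γ σ • D = D) (T : Finset (Place K F))
    (hT : ∀ P, P ∈ T ↔ (N.RedToNode P k ∧ D P ≠ 0)) (σ : Γ) :
    baseAut (γ σ) (∏ P ∈ T, X.value P ^ D P) = ∏ P ∈ T, X.value P ^ D P := by
  classical
  rw [map_prod]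
  have hmaps : ∀ P ∈ T, γ σ • P ∈ T := by
    intro P hP
    refine (hT _).2 ⟨redToNode_smul hC σ ((hT P).1 hP).1, ?_⟩
    rw [apply_smul_of_stable (γ σ) D (hD σ)]
    exact ((hT P).1 hP).2
  have hinj : Set.InjOn (fun P : Place K F => γ σ • P) (T : Set (Place K F)) :=
    fun P _ P' _ h => MulAction.injective (γ σ) h
  have hsurj : Set.SurjOn (fun P : Place K F => γ σ • P) (T : Set (Place K F))
      (T : Set (Place K F)) := by
    have hcard : (T.image fun P : Place K F => γ σ • P).card = T.card :=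
      Finset.card_image_of_injOn hinj
    have hsub : (T.image fun P : Place K F => γ σ • P) ⊆ T := by
      intro Q hQ
      obtain ⟨P, hP, rfl⟩ := Finset.mem_image.1 hQ
      exact hmaps P hP
    have heq : (T.image fun P : Place K F => γ σ • P) = T :=
      Finset.eq_of_subset_of_card_le hsub (le_of_eq hcard.symm)
    intro Q hQ
    have : Q ∈ T.image fun P : Place K F => γ σ • P := by rw [heq]; exact hQ
    obtain ⟨P, hP, rfl⟩ := Finset.mem_image.1 this
    exact ⟨P, hP, rfl⟩
  have hterm : ∀ P ∈ T, baseAut (γ σ) (X.value P ^ D P) =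
      X.value (γ σ • P) ^ D (γ σ • P) := by
    intro P hP
    rw [map_zpow₀, value_smul hC X hzp σ ((hT P).1 hP).1,
      apply_smul_of_stable (γ σ) D (hD σ)]
  rw [Finset.prod_congr rfl hterm]
  exact Finset.prod_nbij (fun P : Place K F => γ σ • P) hmaps hinj hsurj fun _ _ => rfl

/-- **(TAME-PL), abstract form.** -/
theorem slopes_congr {π : K} (hπS : Small A π) (hπ0 : π ≠ 0)
    {Γ : Type*} {γ : Γ → SemilinearAut K F} (hC : N.Compat γ)
    (X : ∀ k, AnnCoord N k) (hXzp : ∀ k σ, γ σ • (X k).zp = (X k).zp)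
    (hϖ : ∀ k, AUnit A ((X k).ϖ / π))
    (hfix : ∀ b : K, b ≠ 0 → (∀ σ, baseAut (γ σ) b = b) → ∃ a : ℤ, AUnit A (b / π ^ a))
    (D : Divisor K F) (hD : ∀ σ, γ σ • D = D) {n : ℕ}
    {f : F} (hf0 : f ≠ 0) (hf : ∀ P : Place K F, P.ord f = n * D P)
    {c₁ c₂ : K} (h₁ : IsGU N.c₁ (algebraMap K F c₁ * f))
    (h₂ : IsGU N.c₂ (algebraMap K F c₂ * f)) (k k' : ι) :
    (n : ℤ) ∣ (Nd.s1 k).ord (red N.c₁ (algebraMap K F c₁ * f)) -
      (Nd.s1 k').ord (red N.c₁ (algebraMap K F c₁ * f)) := by
  classical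
  set v := A.valuation with hv
  have hvπ0 : 0 < v π := zero_lt_iff.2 ((Valuation.ne_zero_iff _).2 hπ0)
  have hvπ1 : v π < 1 := small_iff_val_lt_one.1 hπS
  set T : ι → Finset (Place K F) := fun k => D.support.filter fun P => N.RedToNode P k with hT
  have hTmem : ∀ k P, P ∈ T k ↔ (N.RedToNode P k ∧ D P ≠ 0) := fun k P => by
    rw [hT]
    simp only
    rw [Finset.mem_filter, Finsupp.mem_support_iff]
    exact and_comm
  set b : ι → K := fun k => ∏ P ∈ T k, (X k).value P ^ D P with hbdef
  have hb0 : ∀ k, b k ≠ 0 := fun k =>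
    Finset.prod_ne_zero_iff.2 fun P hP =>
      zpow_ne_zero _ ((X k).value_ne P ((hTmem k P).1 hP).1)
  have hbfix : ∀ k σ, baseAut (γ σ) (b k) = b k := fun k σ =>
    nodeProd_fixed hC (X k) (hXzp k) D hD (T k) (hTmem k) σ
  choose a ha using fun k => hfix (b k) (hb0 k) (hbfix k)
  set s : ι → ℤ := fun k => (Nd.s1 k).ord (red N.c₁ (algebraMap K F c₁ * f)) with hs
  set Nk : ι → ℤ := fun k => ∑ P ∈ T k, D P with hNk
  have hc₁ : c₁ ≠ 0 := fun h0 => h₁.ne_zero (by rw [h0, map_zero, zero_mul])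
  have hc₂ : c₂ ≠ 0 := fun h0 => h₂.ne_zero (by rw [h0, map_zero, zero_mul])
  -- the valuation of `c₁ / c₂`, computed at the node `k`
  have key : ∀ k, v (c₁ / c₂) = v π ^ ((n : ℤ) * a k + (s k - n * Nk k)) := by
    intro k
    have h := annulus_formula (X k) hf0 (T k) (fun P hP => ((hTmem k P).1 hP).1)
      (fun P hP hne => (hTmem k P).2 ⟨hP, by
        intro h0
        rw [hf P, h0, mul_zero] at hne
        exact hne rfl⟩) h₁ h₂
    have e1 : (∏ P ∈ T k, (X k).value P ^ P.ord f) = b k ^ n := by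
      rw [hbdef]
      simp only
      rw [← Finset.prod_pow]
      refine Finset.prod_congr rfl fun P _ => ?_
      rw [hf P, ← zpow_natCast, ← zpow_mul, mul_comm]
    have e2 : (∑ P ∈ T k, P.ord f) = n * Nk k := by
      rw [hNk]
      simp only
      rw [Finset.mul_sum]
      exact Finset.sum_congr rfl fun P _ => hf P
    rw [e1, e2] at h
    have hne : c₂ * b k ^ n * (X k).ϖ ^ (s k - n * Nk k) ≠ 0 :=
      mul_ne_zero (mul_ne_zero hc₂ (pow_ne_zero _ (hb0 k))) (zpow_ne_zero _ (X k).ϖ_ne)
    have h1 := (aunit_div_iff (A := A) hne).1 h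
    have h2 : v (b k) = v π ^ a k := by
      have := (aunit_div_iff (A := A) (zpow_ne_zero (a k) hπ0)).1 (ha k)
      rwa [map_zpow₀] at this
    have h3 : v ((X k).ϖ) = v π := (aunit_div_iff (A := A) hπ0).1 (hϖ k)
    have hvc₂ : v c₂ ≠ 0 := (Valuation.ne_zero_iff _).2 hc₂
    rw [map_div₀, h1, map_mul, map_mul, map_pow, map_zpow₀, h2, h3, mul_assoc,
      mul_div_cancel_left₀ _ hvc₂, ← zpow_natCast (v π ^ a k) n, ← zpow_mul,
      ← zpow_add₀ hvπ0.ne']
    congr 1
    ring
  have h5 := (key k).symm.trans (key k')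
  have h6 : (n : ℤ) * a k + (s k - n * Nk k) = (n : ℤ) * a k' + (s k' - n * Nk k') :=
    zpow_right_injective₀ hvπ0 hvπ1.ne h5
  refine ⟨(a k' - a k) + (Nk k - Nk k'), ?_⟩
  show s k - s k' = _
  linear_combination h6

end Fermat.Agent.M43.TameAbs4
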