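/-
Programme M43 (target S43), pillar (P-MP) Mazur's principle, block (B) TAME-PL, abstract layer,
file 2 (helper4): **constant slopes modulo `p` ⟹ `#nodes • x` has étale images.**

`N : NodalRed A F Nd` a two-component nodal reduction context with finitely many nodes,
`KData N.c₁ p D f c₁`, `KData N.c₂ p D f c₂` Kummer data of a class `x = [D]`.

* `KData.npow`, `red_npow` : the Kummer datum `(m • D, f ^ m, c ^ m)` of `m • x`;
* `dvd_sum_slopes` : `p ∣ Σ_k ord_{s1 k} ρ₁ (c₁ f)` (the degree of `div ρ₁ (c₁ f)` is `0` and the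
  slopes at the smooth points are divisible by `p`);
* **`card_nsmul_mem_Jf`** : if the slopes at the nodes are all congruent modulo `p` then
  `#nodes • [D] ∈ Jf N.c₁ p ∩ Jf N.c₂ p`.
-/
import Mathlib
import Fermat.Agent.U44.EtaleNodal1

set_option autoImplicit false
set_option linter.unusedSectionVars false
set_option linter.unusedVariables false

open AlgebraicCurve IsLocalRing

noncomputable section

namespace Fermat.Agent.M43.TameSum4

open Fermat.Agent.T33.NodalCtx1 Fermat.Agent.T33.NodalCurve6 Fermat.Agent.U44.GaussRed3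
  Fermat.Agent.RR.LSpace Fermat.Agent.X0.FF Fermat.Agent.U44.SlopeIndep3
  Fermat.Agent.U44.EtaleAbs1 Fermat.Agent.U44.Annulus3 Fermat.Agent.U44.EtaleNodal1

variable {K : Type*} [Field K] {A : ValuationSubring K}
variable {F : Type*} [Field F] [Algebra K F]

section Half

variable {Fb : Type*} [Field Fb] [Algebra (ResidueField A) Fb] {R : HalfRed A F Fb}

/-- the Kummer datum of `m • x`. -/
theorem KData.npow {p : ℕ} {D : Divisor.degZero (K := K) (F := F)} {f : F} {c : K}
    (h : KData R p D f c) (m : ℕ) : KData R p (m • D) (f ^ m) (c ^ m) := by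
  induction m with
  | zero =>
    rw [zero_nsmul, pow_zero, pow_zero]
    exact kdata_zero p
  | succ m ih =>
    rw [succ_nsmul, pow_succ, pow_succ]
    exact ih.mul h

theorem red_npow {p : ℕ} {D : Divisor.degZero (K := K) (F := F)} {f : F} {c : K}
    (h : KData R p D f c) (m : ℕ) :
    red R (algebraMap K F (c ^ m) * f ^ m) = red R (algebraMap K F c * f) ^ m := by
  have e : algebraMap K F (c ^ m) * f ^ m = (algebraMap K F c * f) ^ m := by
    rw [map_pow, mul_pow]
  rw [e, red_pow R h.gu.mem]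

theorem ord_red_npow {p : ℕ} {D : Divisor.degZero (K := K) (F := F)} {f : F} {c : K}
    (h : KData R p D f c) (m : ℕ) (Q : Place (ResidueField A) Fb) :
    Q.ord (red R (algebraMap K F (c ^ m) * f ^ m)) =
      m * Q.ord (red R (algebraMap K F c * f)) := by
  rw [red_npow h, ord_pow]

end Half

variable {Fb₁ Fb₂ : Type*} [Field Fb₁] [Field Fb₂]
  [Algebra (ResidueField A) Fb₁] [Algebra (ResidueField A) Fb₂]
variable {ι : Type*} {Nd : NodalData (ResidueField A) Fb₁ Fb₂ ι} {N : NodalRed A F Nd}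

/-- **the sum of the slopes at the nodes is divisible by `p`.** -/
theorem dvd_sum_slopes [Fintype ι] (Hb₁ : LHyp (ResidueField A) Fb₁) {p : ℕ}
    {D : Divisor.degZero (K := K) (F := F)} {f : F} {c : K} (hk : KData N.c₁ p D f c) :
    (p : ℤ) ∣ ∑ k, (Nd.s1 k).ord (red N.c₁ (algebraMap K F c * f)) := by
  classical
  set u : Fb₁ := red N.c₁ (algebraMap K F c * f) with hu
  have hu0 : u ≠ 0 := hk.red_ne
  set Du := divOf Hb₁ hu0 with hDu
  have hdeg : ∑ v ∈ Du.support, Du v = 0 := by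
    rw [← degree_eq_sum Hb₁ Du]
    exact degree_divOf Hb₁ hu0
  set S : Finset (Place (ResidueField A) Fb₁) := Finset.univ.image Nd.s1 with hS
  have h1 : ∑ v ∈ Du.support, Du v = ∑ v ∈ Du.support ∪ S, Du v := by
    refine Finset.sum_subset Finset.subset_union_left fun v _ hv => ?_
    exact Finsupp.notMem_support_iff.1 hv
  have h2 : ∑ v ∈ Du.support ∪ S, Du v =
      ∑ v ∈ (Du.support ∪ S) \ S, Du v + ∑ v ∈ S, Du v :=
    (Finset.sum_sdiff Finset.subset_union_right).symm
  have h3 : ∑ v ∈ S, Du v = ∑ k, (Nd.s1 k).ord u := by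
    rw [hS, Finset.sum_image fun a _ b _ hab => Nd.s1_inj hab]
    exact Finset.sum_congr rfl fun k _ => divOf_apply Hb₁ hu0 _
  have h4 : (p : ℤ) ∣ ∑ v ∈ (Du.support ∪ S) \ S, Du v := by
    refine Finset.dvd_sum fun Q hQ => ?_
    have hQS : Q ∉ S := (Finset.mem_sdiff.1 hQ).2
    have hsm : Nd.Smooth1 Q := by
      intro k hk'
      exact hQS (by rw [hS, hk']; exact Finset.mem_image_of_mem _ (Finset.mem_univ k))
    rw [hDu, divOf_apply]
    exact dvd_of_smooth₁ N hk hsm
  rw [h1, h2, h3] at hdeg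
  have h5 : ∑ k, (Nd.s1 k).ord u = -∑ v ∈ (Du.support ∪ S) \ S, Du v := by linarith
  rw [h5]
  exact (dvd_neg).2 h4

/-- **constant slopes modulo `p` ⟹ `#nodes • x` has étale images on both components.** -/
theorem card_nsmul_mem_Jf [Fintype ι] (Hb₁ : LHyp (ResidueField A) Fb₁)
    (Hb₂ : LHyp (ResidueField A) Fb₂)
    (X : ∀ k, AnnCoord N k) (hy₂ : ∀ k, (Nd.s2 k).ord (red N.c₂ (X k).y₂) = -1)
    {p : ℕ} (hp : p ≠ 0) {D : Divisor.degZero (K := K) (F := F)} {f : F} {c₁ c₂ : K}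
    (hk₁ : KData N.c₁ p D f c₁) (hk₂ : KData N.c₂ p D f c₂)
    (hconst : ∀ k k', (p : ℤ) ∣ (Nd.s1 k).ord (red N.c₁ (algebraMap K F c₁ * f)) -
      (Nd.s1 k').ord (red N.c₁ (algebraMap K F c₁ * f))) :
    Pic0.mk (Fintype.card ι • D) ∈ Jf N.c₁ p ∧ Pic0.mk (Fintype.card ι • D) ∈ Jf N.c₂ p := by
  classical
  refine mem_Jf_of_nodes Hb₁ Hb₂ X hy₂ hp (KData.npow hk₁ _) (KData.npow hk₂ _) fun k => ?_
  rw [ord_red_npow hk₁]
  set s : ι → ℤ := fun k => (Nd.s1 k).ord (red N.c₁ (algebraMap K F c₁ * f)) with hs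
  have hsum : (p : ℤ) ∣ ∑ k', s k' := dvd_sum_slopes Hb₁ hk₁
  have h1 : (p : ℤ) ∣ ∑ k', (s k - s k') := Finset.dvd_sum fun k' _ => hconst k k'
  have h2 : ∑ k', (s k - s k') = (Fintype.card ι : ℤ) * s k - ∑ k', s k' := by
    rw [Finset.sum_sub_distrib, Finset.sum_const, Finset.card_univ, nsmul_eq_mul]
  rw [h2] at h1
  have h3 := dvd_add h1 hsum
  rwa [sub_add_cancel] at h3

end Fermat.Agent.M43.TameSum4
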