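/-
Programme M43 (target S43), pillar (P-MP) Mazur's principle, block (B) TAME-PL, INSTANCE layer
(helper4): **torsion classes of `J₀(M'q)` fixed by the inertia group at `q` have constant slopes at
the supersingular nodes; `#nodes • y` lies in the domain `Jf` of the two étale maps.**

`h : LevelHyp q M' A` (`A` a valuation ring of `ℚ̄` over the residue prime `q`), `n ≠ 0` ANY
exponent, `I : AnnInput h` the annulus coordinates at the nodes (`U44/AnnInst6`).

* `exists_aunit_of_fixed` : a nonzero constant fixed by `Iner A` is `q ^ a · unit`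
  (`EisPsiAlg6.valuation_eq_zpow_of_fixed`, from the banked `ES/P36/UnrFixed1`);
* **`tame_slopes_const`** : `y ∈ J₀(M'q)[n]` fixed by `Iner A`, ANY Kummer datum
  `y = [D]`, `n D = div f`, `c₁ f` Gauss unit on the first component: the slopes
  `ord_{s1 k} ρ₁ (c₁ f)` are all congruent modulo `n` (an `Iner A`-stable representative exists by
  `DescInst1.exists_stable_torsion_Fbar`; then `TameAbs4.slopes_congr`; any other representative by
  `SlopeIndep3.slope_indep`);
* **`nsmul_mem_Jf_of_inertia_fixed`** : then `Nat.card (Node h) • y ∈ Jf h n` (`TameSum4`).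
-/
import Mathlib
import Fermat.Agent.M43.TameAbs4
import Fermat.Agent.M43.TameSum4
import Fermat.Agent.M43.EisPsiAlg6
import Fermat.Agent.M43.EtaleInstQ4
import Fermat.Agent.U44.Local3

set_option autoImplicit false
set_option linter.unusedSectionVars false
set_option linter.style.haveILetI false
set_option linter.unusedVariables false
set_option synthInstance.maxHeartbeats 400000

noncomputable section

namespace Fermat.Agent.M43.TamePL4

open Fermat.Agent.U44

open HahnSeries ModularCurve AlgebraicCurve IsLocalRing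
open Fermat.Agent.RED.Interface4 Fermat.Agent.ES.RED
open Fermat.Agent.T33.Psi3B Fermat.Agent.T33.Psi3C Fermat.Agent.T33.Psi3D Fermat.Agent.T33.Psi3F
open Fermat.Agent.T33.NodalCtx1 Fermat.Agent.T33.NodalCurve6 Fermat.Agent.T33.NodalHalf4
  Fermat.Agent.T33.NodalInst4A Fermat.Agent.T33.NodalInst4C Fermat.Agent.T33.NodalInst4E
  Fermat.Agent.T33.FrickeRed3 Fermat.Agent.T33.NodalBridge0
  Fermat.Agent.RR.LSpace Fermat.Agent.X0.FF
  Fermat.Agent.U44.GaussRed3 Fermat.Agent.U44.EtaleAbs1 Fermat.Agent.U44.EtaleTwo1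
  Fermat.Agent.U44.Annulus3 Fermat.Agent.U44.ValBridge3 Fermat.Agent.U44.SlopeIndep3
  Fermat.Agent.U44.Local3 Fermat.Agent.FF.InertiaWire8 Fermat.Agent.U44.LocInst1B
  Fermat.Agent.M43.EtaleInstQ4 AlgebraicCurve.SemilinearAut

variable {q M' : ℕ} [NeZero M'] [NeZero q] {A : ValuationSubring Qbar}

/-- shortcut instance. -/
local instance (priority := high) algebraAFbarNT4 : Algebra ↥A ↥(Fbar (M' * q)) := inferInstance

/-- shortcut instance. -/
local instance (priority := high) algebraKFbT4 : Algebra (Setup8.kA A) (Fb A M') := inferInstance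

/-- **a nonzero constant fixed by the inertia group is `q ^ a · unit`.** -/
theorem exists_aunit_of_fixed (hq : q.Prime) (hA : A.LiesOverPrime q) {b : Qbar} (hb0 : b ≠ 0)
    (hb : ∀ σ : Iner A, (σ : GQ) b = b) : ∃ a : ℤ, AUnit A (b / (q : Qbar) ^ a) := by
  have hq0 : ((q : ℕ) : Qbar) ≠ 0 := Nat.cast_ne_zero.2 hq.ne_zero
  obtain ⟨a, ha⟩ := Fermat.Agent.M43.EisPsiAlg6.valuation_eq_zpow_of_fixed hq hA hb0
    (fun τ hτ => hb ⟨τ, hτ⟩)
  refine ⟨a, (aunit_div_iff (A := A) (zpow_ne_zero a hq0)).2 ?_⟩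
  rw [map_zpow₀]
  exact ha

variable (h : LevelHyp q M' A) (n : ℕ) [NeZero n]

/-- **(TAME-PL)**: the slopes of an inertia-fixed `n`-torsion class are all congruent modulo
`n`. -/
theorem tame_slopes_const (I : AnnInput h) {y : JZero (M' * q)} (hny : n • y = 0)
    (hfix : ∀ σ : Iner A, (σ : GQ) • y = y)
    {D : Divisor.degZero (K := Qbar) (F := ↥(Fbar (M' * q)))} {f : ↥(Fbar (M' * q))}
    {c₁ : Qbar} (hDy : y = Pic0.mk D) (hk : KData (c1 h) n D f c₁) (k k' : Node h) :
    (n : ℤ) ∣ ((Nd h).s1 k).ord (red (c1 h) (algebraMap Qbar ↥(Fbar (M' * q)) c₁ * f)) -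
      ((Nd h).s1 k').ord (red (c1 h) (algebraMap Qbar ↥(Fbar (M' * q)) c₁ * f)) := by
  have hq : q.Prime := h.prime
  have hA : A.LiesOverPrime q := h.liesOver
  have H := Fermat.Agent.U44.DescInst1.lHyp (M' * q)
  have hqS := Fermat.Agent.U44.LocField9.small_p (A := A) hA
  have hq0 := Fermat.Agent.U44.LocField9.p_ne_zero hq
  have hny' : y ∈ Pic0.torsion Qbar ↥(Fbar (M' * q)) n := by
    rw [Pic0.mem_torsion, natCast_zsmul]
    exact hny
  set S : Set GQ := {g | ∃ σ : Iner A, (σ : GQ) = g} with hS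
  obtain ⟨D', hD'y, hD'S, f', hf'0, hf'⟩ :=
    Fermat.Agent.U44.DescInst1.exists_stable_torsion_Fbar (M' * q) S y hny' (by
      rintro _ ⟨σ, rfl⟩
      exact hfix σ)
  have hf'' : ∀ P : Place Qbar ↥(Fbar (M' * q)),
      P.ord f' = n * (D' : Divisor Qbar ↥(Fbar (M' * q))) P := fun P => (hf' P).symm
  obtain ⟨c₁', -, h₁'⟩ := exists_isGU (Fermat.Agent.T33.NodalInst4G.nodalRed h).c₁ hf'0
  obtain ⟨c₂', -, h₂'⟩ := exists_isGU (Fermat.Agent.T33.NodalInst4G.nodalRed h).c₂ hf'0
  have hkey := Fermat.Agent.M43.TameAbs4.slopes_congr (N := Fermat.Agent.T33.NodalInst4G.nodalRed h) hqS hq0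
    (Fermat.Agent.T33.NodalInst4G.compat h) I.X I.gal_zp I.aunit_ϖ
    (fun b hb0 hb => exists_aunit_of_fixed hq hA hb0 hb)
    (D' : Divisor Qbar ↥(Fbar (M' * q))) (fun σ => hD'S _ ⟨σ, rfl⟩) hf'0 hf'' h₁' h₂' k k'
  have e1 := slope_indep (Fermat.Agent.T33.NodalInst4G.nodalRed h).c₁ ((Nd h).s1 k) H D' D (hD'y.trans hDy) hf'0 hk.f_ne
    hf'' hk.ord_f h₁' hk.gu
  have e2 := slope_indep (Fermat.Agent.T33.NodalInst4G.nodalRed h).c₁ ((Nd h).s1 k') H D' D (hD'y.trans hDy) hf'0 hk.f_ne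
    hf'' hk.ord_f h₁' hk.gu
  have e3 := (hkey.add e1).sub e2
  have e4 : (n : ℤ) ∣ ((Nd h).s1 k).ord (red (Fermat.Agent.T33.NodalInst4G.nodalRed h).c₁
        (algebraMap Qbar ↥(Fbar (M' * q)) c₁ * f)) -
      ((Nd h).s1 k').ord (red (Fermat.Agent.T33.NodalInst4G.nodalRed h).c₁
        (algebraMap Qbar ↥(Fbar (M' * q)) c₁ * f)) := by
    refine (Int.dvd_iff_emod_eq_zero).2 ?_
    rw [← (Int.dvd_iff_emod_eq_zero).1 e3]
    congr 1
    ring
  exact e4

/-- **`#nodes • y` lies in the domain of the two étale maps.** -/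
theorem nsmul_mem_Jf_of_inertia_fixed (I : AnnInput h) {y : JZero (M' * q)} (hny : n • y = 0)
    (hfix : ∀ σ : Iner A, (σ : GQ) • y = y) : Nat.card (Node h) • y ∈ Jf h n := by
  classical
  haveI := Fermat.Agent.T33.NodalInst4E.finite_node h
  letI : Fintype (Node h) := Fintype.ofFinite (Node h)
  obtain ⟨D, f, c₁, c₂, hDy, hk₁, hk₂⟩ := exists_kdata h n hny
  have hconst := fun k k' => tame_slopes_const h n I hny hfix hDy hk₁ k k'
  have hmem := Fermat.Agent.M43.TameSum4.card_nsmul_mem_Jf (N := Fermat.Agent.T33.NodalInst4G.nodalRed h) (lHypFb h) (lHypFb h)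
    I.X I.ord_y₂ (NeZero.ne n) hk₁ hk₂ hconst
  rw [Nat.card_eq_fintype_card, hDy]
  exact hmem

end Fermat.Agent.M43.TamePL4
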