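/-
Programme M43 (target S43), pillar (P-MP) Mazur's principle, LOCAL DICHOTOMY at `q` (helper4):
**a Hecke-eigen, inertia-trivial copy `V = ι(E[p])` of the Frey `p`-torsion inside `J₀(M' q)`
(`q ≠ p` the prime to be removed) either produces a Hecke eigenclass on the special fibre
`J₀(M')(κ̄)[p]`, invariant under the reduced deck transformations, or lies in the toric part
`formalTwo A (M' q) p`.**

Two-prime analogue of `U44/Local3.local_core` (where the residue prime is the exponent and the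
finite-flatness of `E[p]` is used); here the constancy of the slopes comes from the triviality of the
inertia group at `q` on `V` (`TamePL4.tame_slopes_const`), and no connectedness argument is
available: the toric alternative is the input of `MPToric4.frob_scalar_of_toric`.

* `tau_fixed₁`, `tau'_fixed₂W`, `tau'_fixed₁`, `tau_fixed₂W` : re-instantiation of `U44/SpecNat1`
  with exponent `n` independent of the residue prime;
* `slopes_zero` : (TAME-PL) + (H2) at an Eisenstein-free prime `l₀`;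
* **`local_dichotomy`**.
-/
import Mathlib
import Fermat.Agent.U44.LocalFinal1
import Fermat.Agent.M43.TamePL4
import Fermat.Agent.M43.SlopeHeckeQ4

set_option autoImplicit false
set_option linter.unusedSectionVars false
set_option linter.style.haveILetI false
set_option linter.unusedVariables false
set_option synthInstance.maxHeartbeats 400000

noncomputable section

open AlgebraicCurve IsLocalRing ModularCurve

namespace Fermat.Agent.M43.LocalQ4

open Fermat.Agent.U44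

open Fermat.Agent.T33.NodalCtx1 Fermat.Agent.T33.NodalCurve6
  Fermat.Agent.X0 Fermat.Agent.X0.FF Fermat.Agent.U44.GaussRed3 Fermat.Agent.U44.Annulus3
  Fermat.Agent.U44.LocInst1B Fermat.Agent.FF.InertiaWire8 Fermat.Agent.T33.Psi3C
  Fermat.Agent.T33.NodalHalf4 Fermat.Agent.RED.Interface4
  Fermat.Agent.U44.EtaleAbs1 Fermat.Agent.M43.EtaleInstQ4 Fermat.Agent.M43.EtaleHeckeQ4
  Fermat.Agent.U44.LevelEll4 Fermat.Agent.U44.HeckeC4 Fermat.Agent.U44.GammaLevel2
  Fermat.Agent.U44.GammaGauss2 Fermat.Agent.T33.Psi3D Fermat.Agent.ES.RED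
  Fermat.Agent.U44.Local3 Fermat.Agent.U44.SpecNat1 Fermat.Agent.U44.EtaleHecke4
  Fermat.Agent.T33.NodalInst4A Fermat.Agent.T33.NodalInst4C Fermat.Agent.T33.FrickeRed3
  Fermat.Agent.T33.NodalBase4A Fermat.Agent.U44.GammaTwist2 Fermat.Agent.U44.GammaSix0
  AlgebraicCurve.SemilinearAut

open Fermat.Agent.T33.NodalInst4E (Nd Node)

open Fermat.Agent.U44.Wire7 (Ep)

/-! ### invariance of the étale images, exponent `n` -/

section Tau

variable {q M' : ℕ} [NeZero M'] [NeZero q] {A : ValuationSubring Qb}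

/-- shortcut instance. -/
local instance (priority := high) algebraKFbLQ (M : ℕ) [NeZero M] :
    Algebra (ResidueField ↥A) (Fb A M) := inferInstance

variable (h : LevelHyp q M' A) (n : ℕ) [NeZero n]

/-- **`τ̄` fixes the étale image on the first component of a `τ`-fixed class.** -/
theorem tau_fixed₁ {v : JZero (M' * q)} {y : JZeroC (Setup8.kA A) M'} (hr : Rel₁ h n v y)
    (hv : ofAlgAut (tauL (M' * q) (four_dvd_mul h.four_dvd)) • v = v) :
    ofAlgAut (tauB h) • y = y :=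
  Rel.fixed_alg (R := c1 h) (lHyp h) (NeZero.ne n)
    (tauL (M' * q) (four_dvd_mul h.four_dvd)) (tauB h)
    (fun y hy => tauL_mem_O1 h hy) (fun y hy => rho1_tauL h ⟨y, hy⟩) hr hv

/-- **`τ̄'` fixes the étale image on the second component (read through `W̄`) of a `τ'`-fixed
class.** -/
theorem tau'_fixed₂W {v : JZero (M' * q)} {y : JZeroC (Setup8.kA A) M'} (hr : Rel₂W h n v y)
    (hv : ofAlgAut (tau'L (M' * q) (four_dvd_mul h.four_dvd)) • v = v) :
    ofAlgAut (tauB' h) • y = y := by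
  refine Rel.fixed_alg (R := c2W h) (lHyp h) (NeZero.ne n)
    (tau'L (M' * q) (four_dvd_mul h.four_dvd)) (tauB' h)
    (fun y hy => tau'L_mem_O2 h hy) (fun y hy => ?_) hr hv
  show Wb h (rho2 h ⟨tau'L (M' * q) (four_dvd_mul h.four_dvd) y, tau'L_mem_O2 h hy⟩) =
    tauB' h (Wb h (rho2 h ⟨y, hy⟩))
  rw [rho2_tau'L h ⟨y, hy⟩, tauB'_apply, Wb_Wb]

variable {h}

/-- under (C3): `τ̄'` fixes the étale image on the first component of a `τ'`-fixed class. -/
theorem tau'_fixed₁ (hC : C3 h) {v : JZero (M' * q)} {y : JZeroC (Setup8.kA A) M'}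
    (hr : Rel₁ h n v y)
    (hv : ofAlgAut (tau'L (M' * q) (four_dvd_mul h.four_dvd)) • v = v) :
    ofAlgAut (tauB' h) • y = y :=
  Rel.fixed_alg (R := c1 h) (lHyp h) (NeZero.ne n)
    (tau'L (M' * q) (four_dvd_mul h.four_dvd)) (tauB' h) hC.mem hC.rho hr hv

/-- under (C3): `τ̄` fixes the étale image on the second component (read through `W̄`) of a
`τ`-fixed class. -/
theorem tau_fixed₂W (hC : C3 h) {v : JZero (M' * q)} {y : JZeroC (Setup8.kA A) M'}
    (hr : Rel₂W h n v y)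
    (hv : ofAlgAut (tauL (M' * q) (four_dvd_mul h.four_dvd)) • v = v) :
    ofAlgAut (tauB h) • y = y := by
  refine Rel.fixed_alg (R := c2W h) (lHyp h) (NeZero.ne n)
    (tauL (M' * q) (four_dvd_mul h.four_dvd)) (tauB h)
    (fun y hy => tauL_mem_O2 hC hy) (fun y hy => ?_) hr hv
  show Wb h (rho2 h ⟨tauL (M' * q) (four_dvd_mul h.four_dvd) y, tauL_mem_O2 hC hy⟩) =
    tauB h (Wb h (rho2 h ⟨y, hy⟩))
  rw [rho2_tauL hC y hy, tauB'_apply, Wb_Wb]

end Tau

/-! ### the local chain -/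

section Frey

open WeierstrassCurve WeierstrassCurve.Affine

variable (P : FreyPackage) {q M' : ℕ} [NeZero M'] [NeZero q] [NeZero P.p]
  {A : ValuationSubring Qb}

/-- shortcut instance. -/
local instance (priority := high) algebraAFbarNLQ : Algebra ↥A ↥(Fbar (M' * q)) := inferInstance

/-- shortcut instance. -/
local instance (priority := high) algebraKFbLQ' :
    Algebra (Setup8.kA A) (Fb A M') := inferInstance

/-- **the slopes of an inertia-trivial Hecke-eigen copy of `E[p]` vanish modulo `p`** ((TAME-PL) +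
(H2) at a prime `l₀` with `p ∤ a_{l₀} - (l₀ + 1)`). -/
theorem slopes_zero (h : LevelHyp q M' A) (W : WeierstrassCurve ℤ)
    (ι : Ep P →+ JZero (M' * q))
    (hι : ∀ (σ : GQ) (z : Ep P), ι (σ • z) = σ • ι z)
    (hunr : ∀ (σ : Iner A) (z : Ep P), (σ : GQ) • z = z)
    {l₀ : ℕ} [NeZero l₀] (hl₀ : l₀.Prime) (hl₀q : l₀ ≠ q) (hl₀M : ¬ l₀ ∣ M')
    (hT₀ : ∀ z : Ep P, heckeOperatorBar (M' * q) ⟨l₀, hl₀⟩ (ι z) = (W.apOfModel l₀) • ι z)
    (hl₀E : ¬ (P.p : ℤ) ∣ (W.apOfModel l₀ - ((l₀ : ℤ) + 1)))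
    (z : Ep P) (D : Divisor.degZero (K := Qb) (F := ↥(Fbar (M' * q))))
    (f : ↥(Fbar (M' * q))) (c₁ : Qb) (hD : ι z = Pic0.mk D) (hk : KData (c1 h) P.p D f c₁)
    (k : Node h) :
    (P.p : ℤ) ∣ ((Nd h).s1 k).ord (red (c1 h) (algebraMap Qb ↥(Fbar (M' * q)) c₁ * f)) := by
  have I := Fermat.Agent.U44.LocalFinal1.annInput h
  have I' := Fermat.Agent.U44.LocalFinal1.annInput (hEll h hl₀ hl₀q)
  have hpz : P.p • ι z = 0 := by
    rw [← map_nsmul, Fermat.Agent.U44.Pull7.nsmul_Ep z, map_zero]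
  have hfix : ∀ σ : Iner A, (σ : GQ) • ι z = ι z := fun σ => by
    rw [← hι, hunr σ z]
  have hconst : ∀ k k' : Node h, (P.p : ℤ) ∣
      ((Nd h).s1 k).ord (red (c1 h) (algebraMap Qb ↥(Fbar (M' * q)) c₁ * f)) -
      ((Nd h).s1 k').ord (red (c1 h) (algebraMap Qb ↥(Fbar (M' * q)) c₁ * f)) := fun k k' =>
    Fermat.Agent.M43.TamePL4.tame_slopes_const h P.p I hpz hfix hD hk k k'
  have h1 := Fermat.Agent.M43.SlopeHeckeQ4.eisenstein' h hl₀ hl₀q hl₀M I.X I'.X I.aunit_ϖ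
    I'.aunit_ϖ hk (W.apOfModel l₀) (by rw [← hD]; exact hT₀ z) hconst k
  exact ((Nat.prime_iff_prime_int.1 P.pp).dvd_or_dvd h1).resolve_left hl₀E

/-- **LOCAL DICHOTOMY at `q`, with the auxiliary prime given.** -/
theorem local_dichotomy (h : LevelHyp q M' A)
    (W : WeierstrassCurve ℤ) (G₁ : Set ℕ)
    (ι : Ep P →+ JZero (M' * q))
    (hι : ∀ (σ : GQ) (z : Ep P), ι (σ • z) = σ • ι z)
    (hunr : ∀ (σ : Iner A) (z : Ep P), (σ : GQ) • z = z)
    (hT : ∀ ℓ : Nat.Primes, (ℓ : ℕ) ∈ G₁ → ∀ z : Ep P,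
      heckeOperatorBar (M' * q) ℓ (ι z) = (W.apOfModel ℓ) • ι z)
    {l₀ : ℕ} [NeZero l₀] (hl₀ : l₀.Prime) (hl₀q : l₀ ≠ q) (hl₀M : ¬ l₀ ∣ M') (hl₀G : l₀ ∈ G₁)
    (hl₀E : ¬ (P.p : ℤ) ∣ (W.apOfModel l₀ - ((l₀ : ℤ) + 1)))
    (hτ' : ∀ z : Ep P,
      ofAlgAut (tau'L (M' * q) (four_dvd_mul h.four_dvd)) • ι z = ι z) :
    (∃ y : JZeroC (Setup8.kA A) M', y ≠ 0 ∧ P.p • y = 0 ∧
      (∀ (l : ℕ) [NeZero l] (hl : l.Prime) (hlq : l ≠ q) (hlM : ¬ l ∣ M'), l ∈ G₁ →
        heckeC h hl hlq hlM y = (W.apOfModel l) • y) ∧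
      ofAlgAut (tauB' h) • y = y ∧
      ((∀ z : Ep P, ofAlgAut (tauL (M' * q) (four_dvd_mul h.four_dvd)) • ι z = ι z) →
        ofAlgAut (tauB h) • y = y)) ∨
    (∀ z : Ep P, ι z ∈ formalTwo A (M' * q) P.p) := by
  classical
  have I := Fermat.Agent.U44.LocalFinal1.annInput h
  have hC := Fermat.Agent.U44.GammaC30.c3 h
  set V : AddSubgroup (JZero (M' * q)) := ι.range with hV
  have hVp : ∀ v ∈ V, P.p • v = 0 := by
    rintro v ⟨z, rfl⟩
    rw [← map_nsmul, Fermat.Agent.U44.Pull7.nsmul_Ep z, map_zero]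
  have hVT : ∀ (l : ℕ) (hl : l.Prime), l ∈ G₁ → ∀ v ∈ V,
      heckeOperatorBar (M' * q) ⟨l, hl⟩ v = (fun l : ℕ => W.apOfModel l) l • v := by
    rintro l hl hlG v ⟨z, rfl⟩
    exact hT ⟨l, hl⟩ hlG z
  have hslope : ∀ v ∈ V, ∀ (D : Divisor.degZero (K := Qbar) (F := ↥(Fbar (M' * q))))
      (f : ↥(Fbar (M' * q))) (c₁ : Qbar), v = Pic0.mk D → KData (c1 h) P.p D f c₁ →
      ∀ k, (P.p : ℤ) ∣ ((Nd h).s1 k).ord
        (red (c1 h) (algebraMap Qbar ↥(Fbar (M' * q)) c₁ * f)) := by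
    rintro v ⟨z, rfl⟩ D f c₁ hD hk k
    exact slopes_zero P h W ι hι hunr hl₀ hl₀q hl₀M (fun z => hT ⟨l₀, hl₀⟩ hl₀G z) hl₀E
      z D f c₁ hD hk k
  by_cases hform : ∃ v ∈ V, v ∉ formalTwo A (M' * q) P.p
  · left
    obtain ⟨v, y, hvV, hrel, hy0, hpy, heig⟩ := exists_eigen h P.p I.X I.ord_y₂ G₁
      (fun l : ℕ => W.apOfModel l) V hVp hVT hslope hform
    obtain ⟨z, rfl⟩ := hvV
    refine ⟨y, hy0, hpy, fun l _ hl hlp hlM hlG => heig l hl hlp hlM hlG, ?_, ?_⟩
    · rcases hrel with hr | hr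
      · exact tau'_fixed₁ P.p hC hr (hτ' z)
      · exact tau'_fixed₂W h P.p hr (hτ' z)
    · intro hτ
      rcases hrel with hr | hr
      · exact tau_fixed₁ h P.p hr (hτ z)
      · exact tau_fixed₂W P.p hC hr (hτ z)
  · right
    intro z
    by_contra hz
    exact hform ⟨ι z, ⟨z, rfl⟩, hz⟩

end Frey

end Fermat.Agent.M43.LocalQ4
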