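/-
Programme M43 (target S43), pillar (P-MP) Mazur's principle, the TORIC case (helper4, pillar
owner): **contract (TORIC-strong) + its consumer.**

`h : LevelHyp q M' A` (`A` a valuation ring of `ℚ̄` over the odd prime `q ∤ M'`), `p ≠ q` a prime.
`formalTwo A (M' * q) p ∩ J[p]` is the common kernel of the two étale maps `E₁, E₂` of
`M43/EtaleInstQ4` (`rel_zero_both_iff`): the `p`-torsion of the TORIC part of `J₀(M'q)` at `q`.

* `ToricStrongStmt` (**contract**, owner helper5): there is an additive endomorphism `w` of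
  `J₀(M'q)(ℚ̄)` (the partial Atkin–Lehner involution `w_q`), commuting with `G_ℚ`, involutive on the
  toric `p`-torsion, such that every Frobenius element `φ` at `A` acts on the toric `p`-torsion as
  `ε₀ q w` (`ε₀ = ± 1` a universal sign; classically `φ = − q w_q`: `Frob = T_q = − w_q` on the
  character group of the torus, twisted by the cyclotomic character on `Hom(X, μ_p)`);
* `frob_scalar_of_toric` (**consumer**): if a `G_ℚ`-stable IRREDUCIBLE subgroup `V ≤ J₀(M'q)[p]`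
  lies in the toric part at `A`, every Frobenius element at `A` acts on `V` as the scalar `± q`
  (`w` preserves `V` since `w = (ε₀ q)⁻¹ φ` there; the `± 1`-eigenspaces of `w` in `V` are
  `G_ℚ`-stable; `V = V⁺ + V⁻` is not needed: if `V⁺ ≠ V` then `V⁺ = 0`, and `v + w v ∈ V⁺`).
-/
import Mathlib
import Fermat.Agent.M43.EtaleInstQ4
import Fermat.Agent.FF.InertiaWire8

set_option autoImplicit false
set_option linter.unusedSectionVars false
set_option linter.style.haveILetI false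
set_option linter.unusedVariables false
set_option synthInstance.maxHeartbeats 400000

noncomputable section

namespace Fermat.Agent.M43.MPToric4

open ModularCurve AlgebraicCurve IsLocalRing
open Fermat.Agent.RED.Interface4 Fermat.Agent.ES.RED
open Fermat.Agent.T33.Psi3B Fermat.Agent.T33.Psi3C Fermat.Agent.T33.Psi3D
  Fermat.Agent.T33.NodalHalf4 Fermat.Agent.FF.InertiaWire8

/-- **(TORIC-strong), contract.** -/
def ToricStrongStmt : Prop :=
  ∀ {q M' : ℕ} [NeZero M'] [NeZero q] {A : ValuationSubring Qbar}, LevelHyp q M' A →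
    ∀ {p : ℕ}, p.Prime → p ≠ q →
    ∃ (w : JZero (M' * q) →+ JZero (M' * q)) (ε₀ : ℤ), (ε₀ = 1 ∨ ε₀ = -1) ∧
      (∀ (σ : GQ) (x : JZero (M' * q)), w (σ • x) = σ • w x) ∧
      (∀ x ∈ formalTwo A (M' * q) p, p • x = 0 → w (w x) = x) ∧
      ∀ φ : GQ, A.IsFrobeniusAt φ q → ∀ x ∈ formalTwo A (M' * q) p, p • x = 0 →
        φ • x = (ε₀ * (q : ℤ)) • w x

section Consumer

variable {J : Type*} [AddCommGroup J] {G : Type*} [Monoid G] [DistribMulAction G J]

/-- **the abstract consumer**: `V` a `G`-stable subgroup of `J[p]` without proper nonzero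
`G`-stable subgroup, `w` an additive endomorphism commuting with `G`, involutive on `V`, and `φ ∈ G`
acting on `V` as `c w` with `c` invertible modulo `p`: then `φ` acts on `V` as `c` or `- c`. -/
theorem scalar_of_involution {p : ℕ} (V : AddSubgroup J) (hVp : ∀ v ∈ V, p • v = 0)
    (hVG : ∀ (σ : G), ∀ v ∈ V, σ • v ∈ V)
    (hirr : ∀ W : AddSubgroup J, W ≤ V → (∀ (σ : G), ∀ v ∈ W, σ • v ∈ W) → W = ⊥ ∨ W = V)
    (w : J →+ J) (hwG : ∀ (σ : G) (x : J), w (σ • x) = σ • w x)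
    (hww : ∀ v ∈ V, w (w v) = v) (φ : G) (c c' : ℤ) (hcc' : (p : ℤ) ∣ c * c' - 1)
    (hφ : ∀ v ∈ V, φ • v = c • w v) :
    ∃ ε : ℤ, (ε = 1 ∨ ε = -1) ∧ ∀ v ∈ V, φ • v = (ε * c) • v := by
  have hpz : ∀ v ∈ V, (p : ℤ) • v = 0 := fun v hv => by
    rw [natCast_zsmul]; exact hVp v hv
  -- `w` preserves `V`
  have hwV : ∀ v ∈ V, w v ∈ V := by
    intro v hv
    have h1 : w v = c' • (φ • v) := by
      rw [hφ v hv, smul_smul]
      obtain ⟨d, hd⟩ := hcc'
      have h2 : c' * c = 1 + p * d := by linarith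
      rw [h2, add_smul, one_smul, mul_comm, mul_smul]
      have h3 : (p : ℤ) • w v = 0 := by
        rw [← map_zsmul, hpz v hv, map_zero]
      rw [h3, smul_zero, add_zero]
    rw [h1]
    exact V.zsmul_mem (hVG φ v hv) c'
  -- the `+1`-eigenspace
  set Vp : AddSubgroup J :=
    { carrier := {v | v ∈ V ∧ w v = v}
      zero_mem' := ⟨V.zero_mem, map_zero w⟩
      add_mem' := fun {a b} ha hb => ⟨V.add_mem ha.1 hb.1, by rw [map_add, ha.2, hb.2]⟩
      neg_mem' := fun {a} ha => ⟨V.neg_mem ha.1, by rw [map_neg, ha.2]⟩ } with hVpdef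
  have hVp_le : Vp ≤ V := fun v hv => hv.1
  have hVp_G : ∀ (σ : G), ∀ v ∈ Vp, σ • v ∈ Vp := fun σ v hv =>
    ⟨hVG σ v hv.1, by rw [hwG, hv.2]⟩
  rcases hirr Vp hVp_le hVp_G with h0 | h1
  · -- `w = -1` on `V`
    refine ⟨-1, Or.inr rfl, fun v hv => ?_⟩
    have hmem : v + w v ∈ Vp := ⟨V.add_mem hv (hwV v hv), by
      rw [map_add, hww v hv, add_comm]⟩
    rw [h0, AddSubgroup.mem_bot] at hmem
    have hwv : w v = -v := by
      rw [eq_neg_iff_add_eq_zero, add_comm]; exact hmem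
    rw [hφ v hv, hwv, smul_neg, neg_one_mul, neg_smul]
  · -- `w = 1` on `V`
    refine ⟨1, Or.inl rfl, fun v hv => ?_⟩
    have hmem : v ∈ Vp := by rw [h1]; exact hv
    rw [hφ v hv, hmem.2, one_mul]

end Consumer

/-- **the consumer of (TORIC-strong)** at `X₀(M'q)`: an irreducible `G_ℚ`-stable subgroup of the
toric `p`-torsion at `A` is acted on by every Frobenius element at `A` through the scalar `± q`. -/
theorem frob_scalar_of_toric (hT : ToricStrongStmt) {q M' : ℕ} [NeZero M'] [NeZero q]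
    {A : ValuationSubring Qbar} (h : LevelHyp q M' A) {p : ℕ} (hp : p.Prime) (hpq : p ≠ q)
    (V : AddSubgroup (JZero (M' * q))) (hVp : ∀ v ∈ V, p • v = 0)
    (hVG : ∀ (σ : GQ), ∀ v ∈ V, σ • v ∈ V)
    (hirr : ∀ W : AddSubgroup (JZero (M' * q)), W ≤ V →
      (∀ (σ : GQ), ∀ v ∈ W, σ • v ∈ W) → W = ⊥ ∨ W = V)
    (hVf : V ≤ formalTwo A (M' * q) p) (φ : GQ) (hφ : A.IsFrobeniusAt φ q) :
    ∃ ε : ℤ, (ε = 1 ∨ ε = -1) ∧ ∀ v ∈ V, φ • v = (ε * (q : ℤ)) • v := by
  obtain ⟨w, ε₀, hε₀, hwG, hww, hfrob⟩ := hT h hp hpq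
  -- `ε₀ q` is invertible modulo `p`
  have hcop : IsCoprime (q : ℤ) (p : ℤ) := by
    rw [Int.isCoprime_iff_gcd_eq_one, Int.gcd_natCast_natCast]
    exact (Nat.coprime_primes h.prime hp).2 (Ne.symm hpq)
  obtain ⟨a, b, hab⟩ := hcop
  have hcc' : (p : ℤ) ∣ (ε₀ * (q : ℤ)) * (ε₀ * a) - 1 := by
    have hε2 : ε₀ * ε₀ = 1 := by
      rcases hε₀ with h1 | h1 <;> rw [h1] <;> norm_num
    refine ⟨-b, ?_⟩
    have : (ε₀ * (q : ℤ)) * (ε₀ * a) = (ε₀ * ε₀) * (a * q) := by ring
    rw [this, hε2]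
    linarith
  obtain ⟨ε, hε, hεV⟩ := scalar_of_involution V hVp hVG hirr w hwG
    (fun v hv => hww v (hVf hv) (hVp v hv)) φ (ε₀ * (q : ℤ)) (ε₀ * a) hcc'
    (fun v hv => hfrob φ hφ v (hVf hv) (hVp v hv))
  refine ⟨ε * ε₀, ?_, fun v hv => ?_⟩
  · rcases hε with h1 | h1 <;> rcases hε₀ with h2 | h2 <;> rw [h1, h2] <;> norm_num
  · rw [hεV v hv, mul_assoc]

end Fermat.Agent.M43.MPToric4
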