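/-
Programme M43 (target S43), pillar (P-MP) **MAZUR'S PRINCIPLE**, final assembly (helper4, pillar
owner): **`mp_of_toric : ToricStrongStmt → MPStmt`.**

`P` a Frey package, `N` a conductor level, `q ∣ N` an odd prime `≠ p` at which `E[p]` is unramified,
`E[p]` irreducible and modular of level `N`.  For every valuation ring `A` of `ℚ̄` over `q`:

* (C1) `C1Main7.freyEmbeds` : `E[p] ↪ J₀(N)(ℚ̄)`, `G_ℚ`-equivariant, Hecke-eigen;
* `S33Wire7.exists_levelHyp` (with residue prime `q`) : the auxiliary level `M' q = lcm N 4`,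
  `h : LevelHyp q M' A`;
* (PULL) `WireCore1.pullE_aux'` (case E, `2 ∣ N`) resp. `PullTwo7.pullO_aux'` (case O) : the
  embedding at level `M' q`, fixed by `τ'` (and `τ` in case O) (`PullFixB1`);
* an Eisenstein-free auxiliary prime `l₀` (`ECFinal8.exists_good_prime_not_dvd_card`);
* `LocalQ4.local_dichotomy` : EITHER an invariant Hecke eigenclass of `J₀(M')(κ)[p]`
  ⟹ (LIFT_q) `LiftFinalQ4.resModAway_E_q / _O_q` ⟹ `P.ModularRepOfLevel (N / q)`
  (`q` is not a good prime of any integral model: `FreyBadQ4`), OR `ι(E[p])` lies in the toric part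
  at `A` ⟹ `MPToric4.frob_scalar_of_toric` ⟹ every Frobenius element at `A` is `± q` on `E[p]`.
-/
import Mathlib
import Fermat.Agent.M43.MPIface4
import Fermat.Agent.M43.MPToric4
import Fermat.Agent.M43.LocalQ4
import Fermat.Agent.M43.LiftFinalQ4
import Fermat.Agent.M43.FreyBadQ4
import Fermat.Agent.U44.WireCore1
import Fermat.Agent.U44.C1Main7
import Fermat.Agent.ES.EC.ECFinal8

set_option autoImplicit false
set_option linter.unusedSectionVars false
set_option linter.style.haveILetI false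
set_option linter.unusedVariables false
set_option synthInstance.maxHeartbeats 400000
set_option maxHeartbeats 1000000

noncomputable section

open AlgebraicCurve IsLocalRing ModularCurve
open WeierstrassCurve WeierstrassCurve.Affine WeierstrassCurve.Affine.Point

namespace Fermat.Agent.M43.MPCore4

open Fermat.Agent.U44.Wire7 Fermat.Agent.ES.HECKE.LevelPullback12 Fermat.Agent.RED.Interface4
  Fermat.Agent.T33.NodalHalf4 Fermat.Agent.U44.PullTwo7 Fermat.Agent.U44.WireCore1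
  Fermat.Agent.M43.MPIface4 Fermat.Agent.M43.MPToric4
  Fermat.Agent.T33.Psi3B Fermat.Agent.T33.Psi3C Fermat.Agent.T33.Psi3D

open Fermat.Agent.FF.InertiaWire8 (Iner)

/-! ### irreducibility of the image of `E[p]` -/

section Irr

variable {P : FreyPackage} {M : ℕ} [NeZero M]

/-- the image of an equivariant embedding of the irreducible `E[p]` has no proper nonzero
`G_ℚ`-stable subgroup. -/
theorem irr_range (hirr : GaloisRepIsIrreducible (K := Qb) ℚ P.freyCurve P.p)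
    (ι : Ep P →+ JZero M) (hinj : Function.Injective ι)
    (hσ : ∀ (σ : GQ) (z : Ep P), ι (σ • z) = σ • ι z)
    (U : AddSubgroup (JZero M)) (hU : U ≤ ι.range)
    (hUG : ∀ (σ : GQ), ∀ v ∈ U, σ • v ∈ U) : U = ⊥ ∨ U = ι.range := by
  set U' : Submodule (ZMod P.p) (Ep P) := AddSubgroup.toZModSubmodule P.p (U.comap ι) with hU'
  have hmem : ∀ z : Ep P, z ∈ U' ↔ ι z ∈ U := fun z => Iff.rfl
  have hst : IsGaloisStable ℚ U' := by
    intro σ x hx
    rw [hmem] at hx ⊢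
    rw [hσ]
    exact hUG σ _ hx
  rcases hirr.2 U' hst with h0 | h1
  · left
    rw [eq_bot_iff]
    intro v hv
    obtain ⟨z, rfl⟩ := hU hv
    have hz : z ∈ U' := (hmem z).2 hv
    rw [h0, Submodule.mem_bot] at hz
    rw [hz, _root_.map_zero]
    exact AddSubgroup.zero_mem _
  · right
    apply le_antisymm hU
    rintro v ⟨z, rfl⟩
    have hz : z ∈ U' := by rw [h1]; exact Submodule.mem_top
    exact (hmem z).1 hz

end Irr

/-! ### from `ResModAway` to the frozen `ModularRepOfLevel (N / q)` -/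

section Conv

variable {P : FreyPackage}

/-- **(LIFT_q) output ⟹ the frozen `ModularRepOfLevel (N / q)`.** -/
theorem modularRepOfLevel_of_resModAway {N q : ℕ} (hcond : P.IsConductorLevel N) (hq : q.Prime)
    (hq2 : q ≠ 2) (hqN : q ∣ N) {W : WeierstrassCurve ℤ} (hW : W.IsIntegralModelOf P.freyCurve)
    (hres : ResModAway W P.p (N / q) (Good W N P.p \ {2})) : P.ModularRepOfLevel (N / q) := by
  obtain ⟨g, 𝔪', hg, hmax', hpm', hc⟩ := hres
  refine ⟨g, W, 𝔪', hg, hW, hmax', hpm', ?_⟩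
  intro ℓ hℓ hgood hℓM hℓp
  have hℓq : ℓ ≠ q := by
    rintro rfl
    exact Fermat.Agent.M43.FreyBadQ4.not_isGoodPrimeFor_of_dvd_abc P hW hq hq2
      (hcond.support ℓ hq hqN) hgood
  refine hc ℓ ⟨⟨hℓ, hgood, fun hℓN => hℓM (dvd_div_of_dvd hq hℓ hqN hℓN hℓq), hℓp⟩, ?_⟩
  intro h2
  have h2' : ℓ = 2 := h2
  subst h2'
  exact Fermat.Agent.U44.FreyBadTwo7.not_isGoodPrimeFor_two P hW hgood

end Conv

/-! ### the common local step -/

section Local

variable {P : FreyPackage} {q M' : ℕ} [NeZero M'] [NeZero q] {A : ValuationSubring Qb}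

/-- shortcut instance. -/
local instance (priority := high) algebraKFbMP4 (M : ℕ) [NeZero M] :
    Algebra (ResidueField ↥A) (Fb A M) := inferInstance

/-- the toric alternative gives the scalar action of Frobenius on `E[p]`. -/
theorem frob_scalar_of_range_le (hT : ToricStrongStmt) (h : LevelHyp q M' A) (hpq : P.p ≠ q)
    (hirr : GaloisRepIsIrreducible (K := Qb) ℚ P.freyCurve P.p)
    (ι : Ep P →+ JZero (M' * q)) (hinj : Function.Injective ι)
    (hσ : ∀ (σ : GQ) (z : Ep P), ι (σ • z) = σ • ι z)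
    (hform : ∀ z : Ep P, ι z ∈ formalTwo A (M' * q) P.p)
    (φ : GQ) (hφ : A.IsFrobeniusAt φ q) :
    ∃ ε : ℤ, (ε = 1 ∨ ε = -1) ∧ ∀ z : Ep P, φ • z = (ε * (q : ℤ)) • z := by
  obtain ⟨ε, hε, hV⟩ := frob_scalar_of_toric hT h P.pp hpq ι.range
    (by
      rintro v ⟨z, rfl⟩
      rw [← map_nsmul, Fermat.Agent.U44.Pull7.nsmul_Ep z, _root_.map_zero])
    (by
      rintro σ v ⟨z, rfl⟩
      exact ⟨σ • z, hσ σ z⟩)
    (fun U hU hUG => irr_range hirr ι hinj hσ U hU hUG)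
    (by
      rintro v ⟨z, rfl⟩
      exact hform z) φ hφ
  refine ⟨ε, hε, fun z => hinj ?_⟩
  rw [hσ, hV (ι z) ⟨z, rfl⟩, map_zsmul]

end Local

/-! ### the assembly at one valuation ring over `q` -/

section Main

/-- **Mazur's principle at one place `A` over `q`** (modulo (TORIC-strong)). -/
theorem mp_at (hT : ToricStrongStmt) (P : FreyPackage) {N q : ℕ} (hcond : P.IsConductorLevel N)
    (hq : q.Prime) (hq2 : q ≠ 2) (hqp : q ≠ P.p) (hqN : q ∣ N)
    (hirr : GaloisRepIsIrreducible (K := Qb) ℚ P.freyCurve P.p)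
    (hmod : P.ModularRepOfLevel N) (hunr : P.GaloisRepUnramifiedAt q)
    (A : ValuationSubring Qb) (hA : A.LiesOverPrime q) :
    P.ModularRepOfLevel (N / q) ∨
      ∀ φ : GQ, A.IsFrobeniusAt φ q →
        ∃ ε : ℤ, (ε = 1 ∨ ε = -1) ∧ ∀ z : Ep P, φ • z = (ε * (q : ℤ)) • z := by
  classical
  have hp : P.p.Prime := P.pp
  have hp5 := P.hp5
  have hp2 : P.p ≠ 2 := by omega
  have hp3 : P.p ≠ 3 := by omega
  haveI : NeZero P.p := ⟨hp.ne_zero⟩
  haveI : NeZero q := ⟨hq.ne_zero⟩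
  haveI : NeZero N := ⟨hcond.pos.ne'⟩
  haveI : P.freyCurve.IsElliptic :=
    ⟨isUnit_iff_ne_zero.2 (Fermat.Agent.U44.FreyRep7.freyCurve_Δ_ne_zero P)⟩
  obtain ⟨f, W, 𝔪, hf, hW, hmax, hpm, hcong⟩ := hmod
  have hFE : FreyEmbeds P W N (Good W N P.p) :=
    Fermat.Agent.U44.C1Main7.freyEmbeds P W hirr f 𝔪 hf hW hmax hpm hcong
  obtain ⟨M', hM'0, haux, h⟩ := Fermat.Agent.T33.S33Wire7.exists_levelHyp hq hq2 (NeZero.ne N)
    ⟨hqN, hcond.sq_not_dvd hq⟩ hA
  haveI : NeZero M' := ⟨hM'0⟩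
  obtain ⟨ι, hinj, hσ, hTι⟩ := hFE
  have hMl : M' * q = Nat.lcm N 4 := by rw [← haux, auxLevel_eq_lcm hq2]
  have hM : M' * q = auxLevel P.p N := by rw [hMl, auxLevel_eq_lcm hp2]
  have hG : ∀ ℓ ∈ Good W N P.p \ {2}, ℓ.Prime ∧ ℓ ≠ q ∧ ¬ ℓ ∣ M' := by
    intro ℓ hℓ
    refine ⟨hℓ.1.1, ?_, fun hdvd => ?_⟩
    · rintro rfl
      exact hℓ.1.2.2.1 hqN
    · have h1 : ¬ ℓ ∣ auxLevel P.p N :=
        Fermat.Agent.U44.Pull7.not_dvd_auxLevel hp2 hℓ.1.1 (fun h2 => hℓ.2 h2) hℓ.1.2.2.1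
      apply h1
      rw [← hM]
      exact dvd_mul_of_dvd_left hdvd q
  have hN0 : N / q ≠ 0 := by
    obtain ⟨n, hn⟩ := hqN
    rw [hn, Nat.mul_div_cancel_left _ hq.pos]
    rintro rfl
    exact NeZero.ne N (by rw [hn, mul_zero])
  -- the inertia group at `A` acts trivially
  have hunr' : ∀ (σ : Iner A) (z : Ep P), (σ : GQ) • z = z := fun σ z => hunr A hA σ.1 σ.2 z
  -- the auxiliary prime
  obtain ⟨l₀, hl₀, hl₀T, hl₀good, hl₀p, hl₀E⟩ :=
    Fermat.Agent.ES.EC.ECFinal8.exists_good_prime_not_dvd_card P.freyCurve hW hp hp2 hirr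
      ({2} ∪ N.primeFactors)
  haveI : NeZero l₀ := ⟨hl₀.ne_zero⟩
  have hl₀2 : l₀ ≠ 2 := fun e => hl₀T (Finset.mem_union_left _ (by rw [e]; exact Finset.mem_singleton_self 2))
  have hl₀N : ¬ l₀ ∣ N := fun hd =>
    hl₀T (Finset.mem_union_right _ (Nat.mem_primeFactors.2 ⟨hl₀, hd, NeZero.ne N⟩))
  have hl₀G : l₀ ∈ Good W N P.p \ {2} := ⟨⟨hl₀, hl₀good, hl₀N, hl₀p⟩, hl₀2⟩
  have hl₀E' : ¬ (P.p : ℤ) ∣ (W.apOfModel l₀ - ((l₀ : ℤ) + 1)) := by
    intro hd
    apply hl₀E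
    have : ((l₀ : ℤ) + 1 - W.apOfModel l₀) = -(W.apOfModel l₀ - ((l₀ : ℤ) + 1)) := by ring
    rw [this]
    exact (dvd_neg).2 hd
  obtain ⟨-, hl₀q, hl₀M⟩ := hG l₀ hl₀G
  by_cases h2N : 2 ∣ N
  · -- case E
    have hNM : N ∣ M' * q := by rw [hM]; exact dvd_auxLevel P.p N
    obtain ⟨hNhalf, e⟩ := arithE hq hqN hcond.squarefree h2N hMl
    obtain ⟨i1, i2, i3⟩ := pullE_aux' (W := W) hM hNM ι hinj hσ hTι
    rcases Fermat.Agent.M43.LocalQ4.local_dichotomy P h W (Good W N P.p \ {2})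
        ((levelPullback hNM).comp ι) i2 hunr' i3 hl₀ hl₀q hl₀M hl₀G hl₀E'
        (fun z => Fermat.Agent.U44.PullFixB1.tau'_smul_iotaE
          (Fermat.Agent.U44.GammaLevel2.four_dvd_mul h.four_dvd) hNM hNhalf ι z) with
      ⟨y, hy0, hpy, heig, hy', -⟩ | hform
    · left
      exact modularRepOfLevel_of_resModAway hcond hq hq2 hqN hW
        (Fermat.Agent.M43.LiftFinalQ4.resModAway_E_q h hp hp2 W (N / q) e hN0 y hy0 hpy hy'
          (Good W N P.p \ {2}) hG heig)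
    · right
      intro φ hφ
      exact frob_scalar_of_range_le hT h (Ne.symm hqp) hirr ((levelPullback hNM).comp ι) i1 i2
        hform φ hφ
  · -- case O
    have hdvd : N * 2 ∣ M' * q := by rw [hM]; exact mul_two_dvd_auxLevel hp2 h2N
    obtain ⟨h2a, h2b, e, hodd⟩ := arithO hq hqN h2N hMl
    obtain ⟨i1, i2, i3⟩ := pullO_aux' (W := W) hW h2N hM hdvd ι hinj hσ
    rcases Fermat.Agent.M43.LocalQ4.local_dichotomy P h W (Good W N P.p \ {2})
        (iotaO h2N hdvd ι) i2 hunr' i3 hl₀ hl₀q hl₀M hl₀G hl₀E'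
        (fun z => Fermat.Agent.U44.PullFixB1.tau'_smul_iotaO
          (Fermat.Agent.U44.GammaLevel2.four_dvd_mul h.four_dvd) h2N hdvd h2a ι z) with
      ⟨y, hy0, hpy, heig, hy', hyτ⟩ | hform
    · left
      have hy := hyτ (fun z => Fermat.Agent.U44.PullFixB1.tau_smul_iotaO
        (Fermat.Agent.U44.GammaLevel2.four_dvd_mul h.four_dvd) h2N hdvd h2b ι z)
      exact modularRepOfLevel_of_resModAway hcond hq hq2 hqN hW
        (Fermat.Agent.M43.LiftFinalQ4.resModAway_O_q h hp hp2 hp3 W (N / q) e hN0 hodd y hy0 hpy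
          hy hy' (Good W N P.p \ {2}) hG heig)
    · right
      intro φ hφ
      exact frob_scalar_of_range_le hT h (Ne.symm hqp) hirr (iotaO h2N hdvd ι) i1 i2
        hform φ hφ

/-- **MAZUR'S PRINCIPLE, modulo (TORIC-strong)**: the contract `MPIface4.MPStmt`. -/
theorem mp_of_toric (hT : ToricStrongStmt) : MPStmt := by
  intro P N q hcond hq hq2 hqp hqN hirr hmod hunr
  by_cases hlow : P.ModularRepOfLevel (N / q)
  · exact Or.inl hlow
  · right
    intro A hA φ hφ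
    rcases mp_at hT P hcond hq hq2 hqp hqN hirr hmod hunr A hA with h1 | h1
    · exact absurd h1 hlow
    · exact h1 φ hφ

end Main

end Fermat.Agent.M43.MPCore4
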