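/-
Programme M43 (target S43), pillar (P-END), chapter TORIC, file 1 (helper1):
**theta-surjectivity onto the Kummer-trivial classes with MATCHING node values, any exponent `n`.**

`T33/NodalAbs1C.core` / `thetaSurj` use the residue characteristic only to extract `p^m`-th roots of
the common node values.  Here the matching of the node values is a hypothesis, and the exponent is
arbitrary (`n ≠ 0`).

* `core_match` : `NodalAbs1C.core` with the hypothesis `hmatch`;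
* `NodeMatch N n z` : the class `z` is Kummer-trivial for the exponent `n` with matching node values;
* `thetaSurj_match` : `NodeMatch N n z → z ∈ θ (𝔪_A ^ g)`.
-/
import Mathlib
import Fermat.Agent.T33.NodalAbs1C
import Fermat.Agent.U44.GaussRed3
import Fermat.Agent.U44.SlopeIndep3
import Fermat.Agent.T33.Psi3F

set_option autoImplicit false
set_option linter.unusedSectionVars false
set_option linter.unusedVariables false

open AlgebraicCurve IsLocalRing

namespace Fermat.Agent.M43.ThetaMatch1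

open Fermat.Agent.T33.NodalCtx1 Fermat.Agent.T33.NodalCurve6 Fermat.Agent.T33.NodalAbs1A
  Fermat.Agent.T33.NodalAbs1B Fermat.Agent.T33.NodalAbs1C Fermat.Agent.T33.NodalIface8
  Fermat.Agent.X0.FF
  Fermat.Agent.RR.LSpace Fermat.Agent.FF.ThetaKer5 Fermat.Agent.FF.GeomIface8
  Fermat.Agent.U44.GaussRed3

variable {K : Type*} [Field K] {A : ValuationSubring K}
variable {F : Type*} [Field F] [Algebra K F]

section Core

variable {Fb₁ Fb₂ : Type*} [Field Fb₁] [Field Fb₂]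
  [Algebra (ResidueField A) Fb₁] [Algebra (ResidueField A) Fb₂]
variable {ι : Type*} {Nd : NodalData (ResidueField A) Fb₁ Fb₂ ι} (N : NodalRed A F Nd)
variable {g d : ℕ} (Mod : NDiscModel A F g d) {c : Fin d → NPt N}

/-- **`NodalAbs1C.core` with the matching of the node values as a hypothesis**, any exponent. -/
theorem core_match (hc : DiscCompat N Mod c) (hns : NonSpecialAt N Mod.hgd c) (H : LHyp K F)
    (n : ℕ) (hn : n ≠ 0)
    (D' : Divisor K F) (hD' : ∀ P, 0 ≤ D' P) (hdegD' : Divisor.degree D' = g)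
    (f : F) (hf : f ≠ 0)
    (hdiv : ∀ P : Place K F,
      P.ord f = (n : ℤ) * (D' - discDiv Mod (fun _ => (0 : A))) P)
    (k₁ k₂ : K) (h₁ : algebraMap K F k₁ * f ∈ N.c₁.O) (h₂ : algebraMap K F k₂ * f ∈ N.c₂.O)
    (a₁ a₂ : ResidueField A) (w₁ : Fb₁) (w₂ : Fb₂) (ha₁ : a₁ ≠ 0) (ha₂ : a₂ ≠ 0)
    (hw₁ : w₁ ≠ 0) (hw₂ : w₂ ≠ 0)
    (hρ₁ : N.c₁.ρ ⟨_, h₁⟩ = algebraMap (ResidueField A) Fb₁ a₁ * w₁ ^ n)
    (hρ₂ : N.c₂.ρ ⟨_, h₂⟩ = algebraMap (ResidueField A) Fb₂ a₂ * w₂ ^ n)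
    (hmatch : k₁ / k₂ ∈ A → (k₁ / k₂)⁻¹ ∈ A → ∃ (u₁ : Fb₁) (u₂ : Fb₂),
      (∀ Q : Place (ResidueField A) Fb₁, Q.ord u₁ = Q.ord w₁) ∧
      (∀ Q : Place (ResidueField A) Fb₂, Q.ord u₂ = Q.ord w₂) ∧
      ∀ i, ((u₁, u₂) : Fb₁ × Fb₂) ∈ Nd.compatAt i) :
    ∃ x : Fin g → A, (∀ i, x i ∈ maximalIdeal A) ∧ D' = discDiv Mod x := by
  classical
  have hq0 : n ≠ 0 := hn
  have h0 : ∀ i : Fin g, (fun _ : Fin g => (0 : A)) i ∈ maximalIdeal A :=
    fun _ => Ideal.zero_mem _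
  set E : Divisor K F := discDiv Mod (fun _ => (0 : A)) with hE
  set M₁ : Option (NPt N) →₀ ℤ := Finsupp.mapDomain (redSm N) D' with hM₁
  set M₂ : Option (NPt N) →₀ ℤ := centreSum N Mod.hgd c with hM₂
  have hM₁nn : ∀ y, 0 ≤ M₁ y := mapDomain_nonneg (redSm N) D' hD'
  have hmapE : Finsupp.mapDomain (redSm N) E = M₂ := mapDomain_redSm_discDiv N Mod hc _ h0
  have hsub : Finsupp.mapDomain (redSm N) (D' - E) = M₁ - M₂ := by
    rw [← hmapE, hM₁]
    simp only [← Finsupp.mapDomain.addMonoidHom_apply]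
    rw [map_sub]
  -- Step A on the two components
  have hA₁ : ∀ Q, Nd.Smooth1 Q → Q.ord w₁ = M₁ (some (Sum.inl Q)) - M₂ (some (Sum.inl Q)) := by
    intro Q hQ
    rw [ord_root (side₁ N) H hq0 (D' - E) f hf hdiv k₁ h₁ a₁ w₁ ha₁ hw₁ hρ₁ Q hQ,
      ← mapDomain_redSm_inl N _ Q hQ, hsub, Finsupp.sub_apply]
  have hA₂ : ∀ Q, Nd.Smooth2 Q → Q.ord w₂ = M₁ (some (Sum.inr Q)) - M₂ (some (Sum.inr Q)) := by
    intro Q hQ
    rw [ord_root (side₂ N) H hq0 (D' - E) f hf hdiv k₂ h₂ a₂ w₂ ha₂ hw₂ hρ₂ Q hQ,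
      ← mapDomain_redSm_inr N _ Q hQ, hsub, Finsupp.sub_apply]
  have ha₁F : algebraMap (ResidueField A) Fb₁ a₁ ≠ 0 := by rwa [ne_eq, _root_.map_eq_zero]
  have ha₂F : algebraMap (ResidueField A) Fb₂ a₂ ≠ 0 := by rwa [ne_eq, _root_.map_eq_zero]
  have hρ₁0 : N.c₁.ρ ⟨_, h₁⟩ ≠ 0 := by
    rw [hρ₁]; exact mul_ne_zero ha₁F (pow_ne_zero _ hw₁)
  have hρ₂0 : N.c₂.ρ ⟨_, h₂⟩ ≠ 0 := by
    rw [hρ₂]; exact mul_ne_zero ha₂F (pow_ne_zero _ hw₂)
  have hk₁ : k₁ ≠ 0 := const_ne_zero_of_ρ_ne_zero N.c₁ h₁ hρ₁0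
  have hk₂ : k₂ ≠ 0 := const_ne_zero_of_ρ_ne_zero N.c₂ h₂ hρ₂0
  have hk₁F : algebraMap K F k₁ ≠ 0 := by rwa [ne_eq, _root_.map_eq_zero]
  -- no pole over the nodes
  have hpole : ∀ (i : ι) (P : Place K F), N.RedToNode P i → 0 ≤ P.ord f := by
    intro i P hP
    rw [hdiv, Finsupp.sub_apply, discDiv_apply_of_redToNode N Mod hc _ h0 P i hP, sub_zero]
    exact mul_nonneg (Nat.cast_nonneg _) (hD' P)
  have hbr₁ : ∀ i, (Nd.s1 i).ord (N.c₁.ρ ⟨_, h₁⟩) = (n : ℤ) * (Nd.s1 i).ord w₁ := by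
    intro i
    rw [hρ₁, (Nd.s1 i).ord_mul ha₁F (pow_ne_zero _ hw₁), ord_algebraMap, zero_add, ord_pow]
  have hbr₂ : ∀ i, (Nd.s2 i).ord (N.c₂.ρ ⟨_, h₂⟩) = (n : ℤ) * (Nd.s2 i).ord w₂ := by
    intro i
    rw [hρ₂, (Nd.s2 i).ord_mul ha₂F (pow_ne_zero _ hw₂), ord_algebraMap, zero_add, ord_pow]
  -- membership in `L^nod(Ē)`
  have hmemL : ∀ (u₁ : Fb₁) (u₂ : Fb₂),
      (u₁ ≠ 0 → (∀ Q : Place (ResidueField A) Fb₁, Q.ord u₁ = Q.ord w₁) ∧
        ∀ i, 0 ≤ (Nd.s1 i).ord w₁) →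
      (u₂ ≠ 0 → (∀ Q : Place (ResidueField A) Fb₂, Q.ord u₂ = Q.ord w₂) ∧
        ∀ i, 0 ≤ (Nd.s2 i).ord w₂) →
      (∀ i, ((u₁, u₂) : Fb₁ × Fb₂) ∈ Nd.compatAt i) →
      ((u₁, u₂) : Fb₁ × Fb₂) ∈ Nd.L (centreDiv N Mod.hgd c) := by
    intro u₁ u₂ hu₁ hu₂ hcomp
    rw [NodalData.mem_L]
    refine ⟨?_, ?_, hcomp⟩
    · rw [mem_riemannRochSpace_iff]
      intro Q
      by_cases hu : u₁ = 0
      · exact Or.inl hu
      right
      obtain ⟨hord, hnode⟩ := hu₁ hu
      show -(centreDiv N Mod.hgd c).1 Q ≤ Q.ord u₁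
      rw [hord Q, centreDiv_fst_apply]
      by_cases hQ : Nd.Smooth1 Q
      · rw [hA₁ Q hQ]
        have := hM₁nn (some (Sum.inl Q))
        linarith
      · rw [centreSum_of_not_smooth N Mod.hgd hc.c_smooth (Sum.inl Q) hQ, neg_zero]
        unfold NodalData.Smooth1 at hQ
        push Not at hQ
        obtain ⟨i, rfl⟩ := hQ
        exact hnode i
    · rw [mem_riemannRochSpace_iff]
      intro Q
      by_cases hu : u₂ = 0
      · exact Or.inl hu
      right
      obtain ⟨hord, hnode⟩ := hu₂ hu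
      show -(centreDiv N Mod.hgd c).2 Q ≤ Q.ord u₂
      rw [hord Q, centreDiv_snd_apply]
      by_cases hQ : Nd.Smooth2 Q
      · rw [hA₂ Q hQ]
        have := hM₁nn (some (Sum.inr Q))
        linarith
      · rw [centreSum_of_not_smooth N Mod.hgd hc.c_smooth (Sum.inr Q) hQ, neg_zero]
        unfold NodalData.Smooth2 at hQ
        push Not at hQ
        obtain ⟨i, rfl⟩ := hQ
        exact hnode i
  -- `L^nod(Ē) = κ`
  have hone : (((1 : Fb₁), (1 : Fb₂)) : Fb₁ × Fb₂) ∈ Nd.L (centreDiv N Mod.hgd c) := by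
    rw [NodalData.mem_L]
    refine ⟨?_, ?_, ?_⟩
    · rw [mem_riemannRochSpace_iff]
      intro Q
      right
      show -(centreDiv N Mod.hgd c).1 Q ≤ Q.ord (1 : Fb₁)
      rw [Place.ord_one, centreDiv_fst_apply]
      have := centreSum_nonneg N (c := c) Mod.hgd (some (Sum.inl Q))
      linarith
    · rw [mem_riemannRochSpace_iff]
      intro Q
      right
      show -(centreDiv N Mod.hgd c).2 Q ≤ Q.ord (1 : Fb₂)
      rw [Place.ord_one, centreDiv_snd_apply]
      have := centreSum_nonneg N (c := c) Mod.hgd (some (Sum.inr Q))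
      linarith
    · intro i
      refine ⟨1, ?_, ?_⟩
      · show (1 : Fb₁) - algebraMap (ResidueField A) Fb₁ 1 ∈ vanishing (Nd.s1 i)
        rw [map_one, sub_self]; exact Submodule.zero_mem _
      · show (1 : Fb₂) - algebraMap (ResidueField A) Fb₂ 1 ∈ vanishing (Nd.s2 i)
        rw [map_one, sub_self]; exact Submodule.zero_mem _
  have hfr : Module.finrank (ResidueField A) (Nd.L (centreDiv N Mod.hgd c)) = 1 := by
    have := hns
    unfold NonSpecialAt NodalData.ell at this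
    exact_mod_cast this
  have hspan : ∀ u : Fb₁ × Fb₂, u ∈ Nd.L (centreDiv N Mod.hgd c) →
      ∃ l : ResidueField A, u.1 = algebraMap (ResidueField A) Fb₁ l ∧
        u.2 = algebraMap (ResidueField A) Fb₂ l := by
    intro u hu
    have hv0 : (⟨((1 : Fb₁), (1 : Fb₂)), hone⟩ : Nd.L (centreDiv N Mod.hgd c)) ≠ 0 := by
      intro h
      have h2 := congrArg (fun z : Nd.L (centreDiv N Mod.hgd c) => (z : Fb₁ × Fb₂).1) h
      simp at h2
    obtain ⟨l, hl⟩ := (finrank_eq_one_iff_of_nonzero' _ hv0).1 hfr ⟨u, hu⟩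
    have h3 := congrArg Subtype.val hl
    simp only [Submodule.coe_smul] at h3
    refine ⟨l, ?_, ?_⟩
    · rw [← h3]
      show l • (1 : Fb₁) = _
      rw [Algebra.smul_def, mul_one]
    · rw [← h3]
      show l • (1 : Fb₂) = _
      rw [Algebra.smul_def, mul_one]
  -- the two constants are comparable
  have hunit : k₁ / k₂ ∈ A ∧ (k₁ / k₂)⁻¹ ∈ A := by
    by_contra hnot
    by_cases hA : k₁ / k₂ ∈ A
    · have hA' : (k₁ / k₂)⁻¹ ∉ A := fun h => hnot ⟨hA, h⟩
      have hpos : ∀ i, 0 < (Nd.s1 i).ord w₁ := by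
        intro i
        have := slope_pos₁ N i f hf (hpole i) k₁ k₂ h₁ h₂ hρ₁0 hρ₂0 hA hA'
        rw [hbr₁ i] at this
        exact pos_of_mul_pos_nat this
      have hmem := hmemL w₁ 0 (fun _ => ⟨fun _ => rfl, fun i => (hpos i).le⟩)
        (fun h => absurd rfl h) (fun i => ⟨0, by
          show w₁ - algebraMap (ResidueField A) Fb₁ 0 ∈ vanishing (Nd.s1 i)
          rw [map_zero, sub_zero]; exact Or.inr (hpos i), by
          show (0 : Fb₂) - algebraMap (ResidueField A) Fb₂ 0 ∈ vanishing (Nd.s2 i)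
          rw [map_zero, sub_zero]; exact Submodule.zero_mem _⟩)
      obtain ⟨l, hl1, hl2⟩ := hspan _ hmem
      have hl0 : l = 0 := by
        have : algebraMap (ResidueField A) Fb₂ l = 0 := hl2.symm
        exact (_root_.map_eq_zero _).1 this
      apply hw₁
      rw [show w₁ = algebraMap (ResidueField A) Fb₁ l from hl1, hl0, map_zero]
    · have hB : k₂ / k₁ ∈ A := by
        have := (A.mem_or_inv_mem (k₁ / k₂)).resolve_left hA
        rwa [inv_div] at this
      have hB' : (k₂ / k₁)⁻¹ ∉ A := by rwa [inv_div]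
      have hpos : ∀ i, 0 < (Nd.s2 i).ord w₂ := by
        intro i
        have := slope_pos₂ N i f hf (hpole i) k₁ k₂ h₁ h₂ hρ₁0 hρ₂0 hB hB'
        rw [hbr₂ i] at this
        exact pos_of_mul_pos_nat this
      have hmem := hmemL 0 w₂ (fun h => absurd rfl h)
        (fun _ => ⟨fun _ => rfl, fun i => (hpos i).le⟩) (fun i => ⟨0, by
          show (0 : Fb₁) - algebraMap (ResidueField A) Fb₁ 0 ∈ vanishing (Nd.s1 i)
          rw [map_zero, sub_zero]; exact Submodule.zero_mem _, by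
          show w₂ - algebraMap (ResidueField A) Fb₂ 0 ∈ vanishing (Nd.s2 i)
          rw [map_zero, sub_zero]; exact Or.inr (hpos i)⟩)
      obtain ⟨l, hl1, hl2⟩ := hspan _ hmem
      have hl0 : l = 0 := by
        have : algebraMap (ResidueField A) Fb₁ l = 0 := hl1.symm
        exact (_root_.map_eq_zero _).1 this
      apply hw₂
      rw [show w₂ = algebraMap (ResidueField A) Fb₂ l from hl2, hl0, map_zero]
  obtain ⟨hA, hA'⟩ := hunit
  obtain ⟨u₁, u₂, hordu₁, hordu₂, hcompat⟩ := hmatch hA hA'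
  have hmem := hmemL _ _
    (fun hu => ⟨hordu₁, fun i => by
      rw [← hordu₁]; exact (regular_of_compatAt Nd (hcompat i)).1 hu⟩)
    (fun hu => ⟨hordu₂, fun i => by
      rw [← hordu₂]; exact (regular_of_compatAt Nd (hcompat i)).2 hu⟩) hcompat
  obtain ⟨l, hl1, hl2⟩ := hspan _ hmem
  have hw₁0 : ∀ Q : Place (ResidueField A) Fb₁, Q.ord w₁ = 0 := fun Q => by
    rw [← hordu₁, show u₁ = _ from hl1, ord_algebraMap]
  have hw₂0 : ∀ Q : Place (ResidueField A) Fb₂, Q.ord w₂ = 0 := fun Q => by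
    rw [← hordu₂, show u₂ = _ from hl2, ord_algebraMap]
  -- `r_* D' = Ē` at all the points of the normalisation
  have hsome : ∀ y : NPt N, M₁ (some y) = M₂ (some y) := by
    intro y
    by_cases hy : SmoothPt N y
    · cases y with
      | inl Q =>
        have := hA₁ Q hy
        rw [hw₁0 Q] at this
        linarith
      | inr Q =>
        have := hA₂ Q hy
        rw [hw₂0 Q] at this
        linarith
    · rw [hM₁, mapDomain_redSm_of_not_smooth N D' y hy,
        centreSum_of_not_smooth N Mod.hgd hc.c_smooth y hy]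
  have hsplit : M₁ = M₂ + Finsupp.single none (M₁ none) := by
    ext y
    rw [Finsupp.add_apply, Finsupp.single_apply]
    cases y with
    | none => rw [if_pos rfl, hM₂, centreSum_none, zero_add]
    | some y => rw [if_neg (by simp), add_zero, hsome y]
  have hmass₁ : mass _ M₁ = g := by
    rw [hM₁, mass_mapDomain, mass_apply, ← degree_eq_sum H, hdegD']
  have hmass₂ : mass _ M₂ = g := by
    rw [hM₂]
    unfold centreSum
    rw [map_sum]
    simp [mass_single]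
  have hnone : M₁ none = 0 := by
    have := congrArg (mass _) hsplit
    rw [map_add, mass_single, hmass₁, hmass₂] at this
    linarith
  have hM : Finsupp.mapDomain (redSm N) D' =
      ∑ j : Fin g, Finsupp.single (some (c (Fin.castLE Mod.hgd j))) (1 : ℤ) := by
    rw [← hM₁, hsplit, hnone, Finsupp.single_zero, add_zero]
    rfl
  have hinj : Function.Injective (fun j : Fin g => some (c (Fin.castLE Mod.hgd j))) := by
    intro j j' h
    exact Fin.castLE_injective Mod.hgd (hc.c_inj (Option.some.inj h))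
  obtain ⟨pt, hpt, hD'eq⟩ := exists_eq_sum_single (redSm N)
    (fun j : Fin g => some (c (Fin.castLE Mod.hgd j))) hinj D' hD' hM
  choose x hx hxq using fun j : Fin g => hc.exhaust (Fin.castLE Mod.hgd j) (pt j)
    ((redSm_eq_some_iff N _ _).1 (hpt j)).1
  refine ⟨x, hx, ?_⟩
  rw [hD'eq]
  unfold discDiv
  exact Finset.sum_congr rfl fun j _ => by rw [hxq j]

end Core

/-! ### matching node values -/

section Match

variable {Fb₁ Fb₂ : Type*} [Field Fb₁] [Field Fb₂]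
  [Algebra (ResidueField A) Fb₁] [Algebra (ResidueField A) Fb₂]
variable {ι : Type*} {Nd : NodalData (ResidueField A) Fb₁ Fb₂ ι} (N : NodalRed A F Nd)

/-- product of two functions with values `b`, `β` at `v`. -/
theorem mul_sub_mem_vanishing {κ : Type*} [Field κ] {E : Type*} [Field E] [Algebra κ E]
    (v : Place κ E) {x y : E} {b β : κ}
    (hx : x - algebraMap κ E b ∈ vanishing v) (hy : y - algebraMap κ E β ∈ vanishing v) :
    x * y - algebraMap κ E (b * β) ∈ vanishing v := by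
  have e : x * y - algebraMap κ E (b * β) =
      (x - algebraMap κ E b) * y + b • (y - algebraMap κ E β) := by
    rw [map_mul, Algebra.smul_def]; ring
  rw [e]
  refine Submodule.add_mem _ ?_ (Submodule.smul_mem _ _ hy)
  by_cases hy0 : y = 0
  · rw [hy0, mul_zero]; exact Submodule.zero_mem _
  rcases hx with h0 | hpos
  · rw [h0, zero_mul]; exact Submodule.zero_mem _
  · by_cases hx0 : x - algebraMap κ E b = 0
    · rw [hx0, zero_mul]; exact Submodule.zero_mem _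
    right
    rw [v.ord_mul hx0 hy0]
    have := ord_nonneg_of_sub_mem_vanishing _ hy0 hy
    linarith

/-- products of pairs with a common value at the `i`-th node. -/
theorem compatAt_mul {i : ι} {x₁ y₁ : Fb₁} {x₂ y₂ : Fb₂}
    (hx : ((x₁, x₂) : Fb₁ × Fb₂) ∈ Nd.compatAt i) (hy : ((y₁, y₂) : Fb₁ × Fb₂) ∈ Nd.compatAt i) :
    ((x₁ * y₁, x₂ * y₂) : Fb₁ × Fb₂) ∈ Nd.compatAt i := by
  obtain ⟨b, hb1, hb2⟩ := hx
  obtain ⟨β, hβ1, hβ2⟩ := hy
  exact ⟨b * β, mul_sub_mem_vanishing _ hb1 hβ1, mul_sub_mem_vanishing _ hb2 hβ2⟩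

/-- **`z` is Kummer-trivial for the exponent `n`, with MATCHING node values**: `z = [D]`,
`div f = n D`, `f = g_i ^ n · (principal unit of the component i)`, and at every node `k` there is a
local generator `G` (`f / G ^ n` has neither zero nor pole over the node) such that the reductions of
the Gauss units `g₁ / G`, `g₂ / G` have the same value at the two branches of the node. -/
def NodeMatch (n : ℕ) (z : Pic0 K F) : Prop :=
  ∃ (D : Divisor.degZero (K := K) (F := F)) (f g₁ g₂ : F), Pic0.mk D = z ∧ f ≠ 0 ∧ g₁ ≠ 0 ∧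
    g₂ ≠ 0 ∧ (∀ P : Place K F, P.ord f = n * (D : Divisor K F) P) ∧
    (f / g₁ ^ n ∈ N.c₁.O ∧ red N.c₁ (f / g₁ ^ n) = 1) ∧
    (f / g₂ ^ n ∈ N.c₂.O ∧ red N.c₂ (f / g₂ ^ n) = 1) ∧
    ∀ i : ι, ∃ G : F, G ≠ 0 ∧
      (∀ P : Place K F, N.RedToNode P i → P.ord f = n * P.ord G) ∧
      IsGU N.c₁ (g₁ / G) ∧ IsGU N.c₂ (g₂ / G) ∧
      ((red N.c₁ (g₁ / G), red N.c₂ (g₂ / G)) : Fb₁ × Fb₂) ∈ Nd.compatAt i

variable {g d : ℕ} (Mod : NDiscModel A F g d) {c : Fin d → NPt N}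

/-- an element of `K` whose `n`-th power is a unit of `A` is a unit of `A`. -/
theorem aunit_of_pow {a : K} {n : ℕ} (hn : n ≠ 0) (h : AUnit A (a ^ n)) : AUnit A a := by
  have ha0 : a ≠ 0 := fun h0 => h.2.2 (by rw [h0, zero_pow hn])
  refine ⟨?_, ?_, ha0⟩
  · rw [← A.valuation_le_one_iff]
    have h1 : A.valuation (a ^ n) ≤ 1 := (A.valuation_le_one_iff _).2 h.1
    rw [map_pow] at h1
    exact (pow_le_one_iff hn).1 h1
  · rw [← A.valuation_le_one_iff]
    have h1 : A.valuation ((a ^ n)⁻¹) ≤ 1 := (A.valuation_le_one_iff _).2 h.2.1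
    rw [← inv_pow, map_pow] at h1
    exact (pow_le_one_iff hn).1 h1

/-- **`θ` maps `𝔪_A ^ g` onto the Kummer-trivial classes with matching node values**, any
exponent `n ≠ 0`. -/
theorem thetaSurj_match (hdeg : ∀ (j : Fin d) (t : A), (Mod.P j t).deg = 1)
    (hc : DiscCompat N Mod c) (hns : NonSpecialAt N Mod.hgd c) (H : LHyp K F)
    (h6 : RiemannEff (K := K) (F := F) (g := g))
    (n : ℕ) (hn : n ≠ 0) (z : Pic0 K F) (hz : NodeMatch N n z) :
    ∃ x : Fin g → A, (∀ i, x i ∈ maximalIdeal A) ∧ theta Mod hdeg x = z := by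
  obtain ⟨D₀, f, g₁, g₂, hD₀z, hf, hg₁, hg₂, hdiv, ⟨hu₁, hru₁⟩, ⟨hu₂, hru₂⟩, hnode⟩ := hz
  have h0 : ∀ i : Fin g, (fun _ : Fin g => (0 : A)) i ∈ maximalIdeal A :=
    fun _ => Ideal.zero_mem _
  set E : Divisor K F := discDiv Mod (fun _ => (0 : A)) with hE
  have hdegE : Divisor.degree E = g := degree_discDiv Mod hdeg _
  have hD₀ : Divisor.degree (D₀ : Divisor K F) = 0 := D₀.2
  obtain ⟨D', hD'nn, hD'deg, hD'pr⟩ := h6 ((D₀ : Divisor K F) + E) (by
    rw [map_add, hD₀, hdegE, zero_add])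
  have hD'pr' := hD'pr
  obtain ⟨h, hh0, hhdiv⟩ := hD'pr
  have hdeg' : Divisor.degree D' = g := by rw [hD'deg, map_add, hD₀, hdegE, zero_add]
  -- the normalising constants of `g_i h`
  obtain ⟨l₁, hl₁, hgu₁⟩ := Fermat.Agent.U44.SlopeIndep3.exists_isGU N.c₁ (mul_ne_zero hg₁ hh0)
  obtain ⟨l₂, hl₂, hgu₂⟩ := Fermat.Agent.U44.SlopeIndep3.exists_isGU N.c₂ (mul_ne_zero hg₂ hh0)
  have hl₁F : algebraMap K F l₁ ≠ 0 := by rwa [ne_eq, _root_.map_eq_zero]
  have hl₂F : algebraMap K F l₂ ≠ 0 := by rwa [ne_eq, _root_.map_eq_zero]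
  have hf' : f * h ^ n ≠ 0 := mul_ne_zero hf (pow_ne_zero _ hh0)
  have hdiv' : ∀ P : Place K F, P.ord (f * h ^ n) = (n : ℤ) * (D' - E) P := by
    intro P
    rw [P.ord_mul hf (pow_ne_zero _ hh0), ord_pow, hdiv P, ← hhdiv P]
    simp only [Finsupp.sub_apply, Finsupp.add_apply]
    ring
  have e₁ : algebraMap K F (l₁ ^ n) * (f * h ^ n) =
      (f / g₁ ^ n) * (algebraMap K F l₁ * (g₁ * h)) ^ n := by
    rw [map_pow]; field_simp; ring
  have e₂ : algebraMap K F (l₂ ^ n) * (f * h ^ n) =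
      (f / g₂ ^ n) * (algebraMap K F l₂ * (g₂ * h)) ^ n := by
    rw [map_pow]; field_simp; ring
  have hmem₁ : algebraMap K F (l₁ ^ n) * (f * h ^ n) ∈ N.c₁.O := by
    rw [e₁]; exact N.c₁.O.mul_mem hu₁ (N.c₁.O.pow_mem hgu₁.1 _)
  have hmem₂ : algebraMap K F (l₂ ^ n) * (f * h ^ n) ∈ N.c₂.O := by
    rw [e₂]; exact N.c₂.O.mul_mem hu₂ (N.c₂.O.pow_mem hgu₂.1 _)
  have hρ₁' : N.c₁.ρ ⟨_, hmem₁⟩ =
      algebraMap (ResidueField A) Fb₁ 1 * (red N.c₁ (algebraMap K F l₁ * (g₁ * h))) ^ n := by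
    rw [← red_of_mem N.c₁ hmem₁, e₁, red_mul N.c₁ hu₁ (N.c₁.O.pow_mem hgu₁.1 _), hru₁,
      red_pow N.c₁ hgu₁.1, map_one]
  have hρ₂' : N.c₂.ρ ⟨_, hmem₂⟩ =
      algebraMap (ResidueField A) Fb₂ 1 * (red N.c₂ (algebraMap K F l₂ * (g₂ * h))) ^ n := by
    rw [← red_of_mem N.c₂ hmem₂, e₂, red_mul N.c₂ hu₂ (N.c₂.O.pow_mem hgu₂.1 _), hru₂,
      red_pow N.c₂ hgu₂.1, map_one]
  obtain ⟨x, hx, hD'x⟩ := core_match N Mod hc hns H n hn D' hD'nn hdeg' (f * h ^ n) hf' hdiv'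
    _ _ hmem₁ hmem₂ 1 1 _ _ one_ne_zero one_ne_zero hgu₁.2 hgu₂.2 hρ₁' hρ₂' (by
      intro hA hA'
      -- `υ = l₁ / l₂` is a unit of `A`
      have hυ : AUnit A (l₁ / l₂) := by
        apply aunit_of_pow hn
        rw [div_pow]
        exact ⟨hA, hA', div_ne_zero (pow_ne_zero _ hl₁) (pow_ne_zero _ hl₂)⟩
      have ey : algebraMap K F l₁ * (g₂ * h) =
          algebraMap K F (l₁ / l₂) * (algebraMap K F l₂ * (g₂ * h)) := by
        rw [map_div₀]; field_simp
      have hy₂ : IsGU N.c₂ (algebraMap K F l₁ * (g₂ * h)) := by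
        rw [ey]; exact (isGU_const hυ).mul hgu₂
      refine ⟨red N.c₁ (algebraMap K F l₁ * (g₁ * h)), red N.c₂ (algebraMap K F l₁ * (g₂ * h)),
        fun Q => rfl, fun Q => ?_, fun i => ?_⟩
      · rw [ey, red_mul N.c₂ (isGU_const hυ).1 hgu₂.1,
          Q.ord_mul (isGU_const (R := N.c₂) hυ).2 hgu₂.2, red_const N.c₂ hυ.1, ord_algebraMap, zero_add]
      · obtain ⟨G, hG, hGord, hG₁, hG₂, hGc⟩ := hnode i
        set Hh : F := algebraMap K F l₁ * (G * h) with hHh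
        have eH₁ : Hh = (algebraMap K F l₁ * (g₁ * h)) * (g₁ / G)⁻¹ := by
          rw [hHh]; field_simp
        have eH₂ : Hh = (algebraMap K F l₁ * (g₂ * h)) * (g₂ / G)⁻¹ := by
          rw [hHh]; field_simp
        have hH₁ : Hh ∈ N.c₁.O := by rw [eH₁]; exact N.c₁.O.mul_mem hgu₁.1 hG₁.inv_mem
        have hH₂ : Hh ∈ N.c₂.O := by rw [eH₂]; exact N.c₂.O.mul_mem hy₂.1 hG₂.inv_mem
        have hHpole : ∀ P : Place K F, N.r₁ P = some (Nd.s1 i) → Hh = 0 ∨ 0 ≤ P.ord Hh := by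
          intro P hP
          right
          have hGh : G * h ≠ 0 := mul_ne_zero hG hh0
          have h1 : P.ord Hh = P.ord G + P.ord h := by
            rw [hHh, P.ord_mul hl₁F hGh, ord_algebraMap, zero_add, P.ord_mul hG hh0]
          have h2 := hdiv' P
          rw [P.ord_mul hf (pow_ne_zero _ hh0), ord_pow, hGord P hP, Finsupp.sub_apply,
            discDiv_apply_of_redToNode N Mod hc _ h0 P i hP, sub_zero] at h2
          have h3 : (n : ℤ) * (P.ord G + P.ord h) = (n : ℤ) * D' P := by rw [← h2]; ring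
          have hn' : (n : ℤ) ≠ 0 := by exact_mod_cast hn
          rw [h1, mul_left_cancel₀ hn' h3]
          exact hD'nn P
        have hglue := N.glue i Hh hH₁ hH₂ hHpole
        rw [← red_of_mem N.c₁ hH₁, ← red_of_mem N.c₂ hH₂] at hglue
        have hprod := compatAt_mul (A := A) hglue hGc
        have r₁ : red N.c₁ Hh * red N.c₁ (g₁ / G) = red N.c₁ (algebraMap K F l₁ * (g₁ * h)) := by
          rw [← red_mul N.c₁ hH₁ hG₁.1]
          congr 1
          rw [hHh]; field_simp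
        have r₂ : red N.c₂ Hh * red N.c₂ (g₂ / G) = red N.c₂ (algebraMap K F l₁ * (g₂ * h)) := by
          rw [← red_mul N.c₂ hH₂ hG₂.1]
          congr 1
          rw [hHh]; field_simp
        rw [r₁, r₂] at hprod
        exact hprod)
  refine ⟨x, hx, ?_⟩
  rw [← hD₀z]
  unfold theta
  rw [Pic0.mk, Pic0.mk, QuotientAddGroup.eq, AddSubgroup.mem_addSubgroupOf]
  have e : ((-(⟨discDiv Mod x - discDiv Mod (fun _ => (0 : A)),
      discDiv_sub_mem_degZero Mod hdeg x⟩ : Divisor.degZero (K := K) (F := F)) + D₀ :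
      Divisor.degZero (K := K) (F := F)) : Divisor K F) = -(D' - ((D₀ : Divisor K F) + E)) := by
    simp only [AddSubgroup.coe_add, NegMemClass.coe_neg]
    rw [hD'x]
    abel
  rw [e]
  exact neg_mem hD'pr'

end Match

end Fermat.Agent.M43.ThetaMatch1
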