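/-
Programme M43 (target S43), pillar (P-END), chapter TORIC, file 6 (helper1):
**the local generator at a node of a Kummer-trivial function** (abstract: a two-component nodal
reduction context `N` with an annulus coordinate `X : AnnCoord N k` of exact thickness).

Let `f = g₁ ^ n u₁ = g₂ ^ n u₂` with `u_i` principal units of the two components and
`ord_P f = n D(P)` for the places `P` over the node `k`.  Then `G = l₁⁻¹ z'^{s'} ∏_P (z'(P) - z')^{D(P)}`
(`l₁` the normalising constant of `g₁`, `s'` the slope) satisfies: `ord_P f = n ord_P G` over the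
node, `g₁ / G`, `g₂ / G` are Gauss units of the two components and their reductions have neither
zero nor pole at the two branches of the node.

* `linProd X T D`, `linProd_ne_zero`, `ord_linProd`, `linProd_gu₁`, `ord_red_linProd₁`,
  `linProd_gu₂`;
* `exists_local_gen`.
-/
import Mathlib
import Fermat.Agent.U44.Annulus3
import Fermat.Agent.U44.SlopeIndep3
import Fermat.Agent.M43.ThetaMatch1

set_option autoImplicit false
set_option linter.unusedSectionVars false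
set_option linter.unusedVariables false

open AlgebraicCurve IsLocalRing

namespace Fermat.Agent.M43.NodeGen1

open Fermat.Agent.T33.NodalCtx1 Fermat.Agent.T33.NodalCurve6 Fermat.Agent.T33.NodalAbs1A
  Fermat.Agent.X0.FF Fermat.Agent.U44.GaussRed3 Fermat.Agent.U44.Annulus3
  Fermat.Agent.U44.SlopeIndep3 Fermat.Agent.M43.ThetaMatch1

variable {K : Type*} [Field K] {A : ValuationSubring K}
variable {F : Type*} [Field F] [Algebra K F]
variable {Fb₁ Fb₂ : Type*} [Field Fb₁] [Field Fb₂]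
  [Algebra (ResidueField A) Fb₁] [Algebra (ResidueField A) Fb₂]
variable {ι : Type*} {Nd : NodalData (ResidueField A) Fb₁ Fb₂ ι}
variable {N : NodalRed A F Nd} {k : ι} (X : AnnCoord N k)

/-- the product of the linear factors `z'(P) - z'` with prescribed exponents. -/
noncomputable def linProd (T : Finset (Place K F)) (D : Place K F → ℤ) : F :=
  ∏ P ∈ T, X.lin (X.value P) ^ (D P)

variable {T : Finset (Place K F)} {D : Place K F → ℤ}

theorem lin_zpow_ne_zero (hT : ∀ P ∈ T, N.RedToNode P k) :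
    ∀ P ∈ T, X.lin (X.value P) ^ (D P) ≠ 0 := fun P hP =>
  zpow_ne_zero _ (X.lin_ne (X.value_small P (hT P hP)))

theorem linProd_ne_zero (hT : ∀ P ∈ T, N.RedToNode P k) : linProd X T D ≠ 0 :=
  Finset.prod_ne_zero_iff.2 (lin_zpow_ne_zero X hT)

/-- the orders of the product over the node. -/
theorem ord_linProd (hT : ∀ P ∈ T, N.RedToNode P k)
    (hT' : ∀ P : Place K F, N.RedToNode P k → D P ≠ 0 → P ∈ T) (Q : Place K F)
    (hQ : N.RedToNode Q k) : Q.ord (linProd X T D) = D Q := by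
  classical
  rw [linProd, ord_finset_prod Q T _ (lin_zpow_ne_zero X hT)]
  have hterm : ∀ P ∈ T, Q.ord (X.lin (X.value P) ^ (D P)) = if P = Q then D Q else 0 := by
    intro P hP
    rw [Place.ord_zpow]
    by_cases hPQ : P = Q
    · rw [if_pos hPQ, hPQ, X.ord_lin_value Q hQ, mul_one]
    · rw [if_neg hPQ, X.ord_lin_value_of_ne P Q (hT P hP) hQ (fun h => hPQ h.symm), mul_zero]
  rw [Finset.sum_congr rfl hterm, Finset.sum_ite_eq' T Q]
  by_cases hQT : Q ∈ T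
  · rw [if_pos hQT]
  · rw [if_neg hQT]
    by_contra hne
    exact hQT (hT' Q hQ (fun h0 => hne h0.symm))

/-- the product is a Gauss unit of the first component. -/
theorem linProd_gu₁ (hT : ∀ P ∈ T, N.RedToNode P k) : IsGU N.c₁ (linProd X T D) :=
  isGU_prod T _ fun P hP => (X.lin_gu₁ (X.value_small P (hT P hP))).zpow _

/-- the order of its reduction at the first branch. -/
theorem ord_red_linProd₁ (hT : ∀ P ∈ T, N.RedToNode P k) :
    (Nd.s1 k).ord (red N.c₁ (linProd X T D)) = ∑ P ∈ T, D P := by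
  rw [linProd, red_prod T _ fun P hP => (X.lin_gu₁ (X.value_small P (hT P hP))).zpow _,
    ord_finset_prod _ T _ fun P hP =>
      ((X.lin_gu₁ (X.value_small P (hT P hP))).zpow _).2]
  refine Finset.sum_congr rfl fun P hP => ?_
  rw [(X.lin_gu₁ (X.value_small P (hT P hP))).red_zpow, Place.ord_zpow,
    X.red_lin₁ (X.value_small P (hT P hP)), ord_neg, X.ord_zp, mul_one]

/-- the constant by which the product differs from a principal unit of the second component. -/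
noncomputable def linConst (T : Finset (Place K F)) (D : Place K F → ℤ) : K :=
  ∏ P ∈ T, X.value P ^ (D P)

theorem linConst_ne_zero (hT : ∀ P ∈ T, N.RedToNode P k) : linConst X T D ≠ 0 :=
  Finset.prod_ne_zero_iff.2 fun P hP => zpow_ne_zero _ (X.value_ne P (hT P hP))

/-- the product, divided by `linConst`, is a principal unit of the second component. -/
theorem linProd_gu₂ (hT : ∀ P ∈ T, N.RedToNode P k) :
    IsGU N.c₂ (algebraMap K F (linConst X T D)⁻¹ * linProd X T D) ∧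
      red N.c₂ (algebraMap K F (linConst X T D)⁻¹ * linProd X T D) = 1 := by
  have hgu₂ : ∀ P ∈ T, IsGU N.c₂
      ((algebraMap K F (X.value P)⁻¹ * X.lin (X.value P)) ^ (D P)) := fun P hP =>
    ((X.lin_gu₂ (X.value_ne P (hT P hP)) (X.value_big P (hT P hP))).1).zpow _
  have e : algebraMap K F (linConst X T D)⁻¹ * linProd X T D =
      ∏ P ∈ T, (algebraMap K F (X.value P)⁻¹ * X.lin (X.value P)) ^ (D P) := by
    rw [linConst, linProd, ← Finset.prod_inv_distrib, map_prod, ← Finset.prod_mul_distrib]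
    refine Finset.prod_congr rfl fun P hP => ?_
    rw [mul_zpow, map_inv₀, map_inv₀, inv_zpow, map_zpow₀]
  rw [e]
  refine ⟨isGU_prod T _ hgu₂, ?_⟩
  rw [red_prod T _ hgu₂]
  have : ∀ P ∈ T, red N.c₂
      ((algebraMap K F (X.value P)⁻¹ * X.lin (X.value P)) ^ (D P)) = 1 := by
    intro P hP
    rw [((X.lin_gu₂ (X.value_ne P (hT P hP)) (X.value_big P (hT P hP))).1).red_zpow,
      (X.lin_gu₂ (X.value_ne P (hT P hP)) (X.value_big P (hT P hP))).2, one_zpow]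
  rw [Finset.prod_congr rfl this, Finset.prod_const_one]

/-- **the local generator at the node.** -/
theorem exists_local_gen (hy₂ : (Nd.s2 k).ord (red N.c₂ X.y₂) = -1) {n : ℕ} (hn : n ≠ 0)
    {f g₁ g₂ : F} (hf : f ≠ 0) (hg₁ : g₁ ≠ 0) (hg₂ : g₂ ≠ 0)
    (hu₁ : f / g₁ ^ n ∈ N.c₁.O ∧ red N.c₁ (f / g₁ ^ n) = 1)
    (hu₂ : f / g₂ ^ n ∈ N.c₂.O ∧ red N.c₂ (f / g₂ ^ n) = 1)
    (hT : ∀ P ∈ T, N.RedToNode P k)
    (hT' : ∀ P : Place K F, N.RedToNode P k → D P ≠ 0 → P ∈ T)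
    (hdiv : ∀ P : Place K F, N.RedToNode P k → P.ord f = n * D P) :
    ∃ G : F, G ≠ 0 ∧ (∀ P : Place K F, N.RedToNode P k → P.ord f = n * P.ord G) ∧
      IsGU N.c₁ (g₁ / G) ∧ IsGU N.c₂ (g₂ / G) ∧
      (Nd.s1 k).ord (red N.c₁ (g₁ / G)) = 0 ∧ (Nd.s2 k).ord (red N.c₂ (g₂ / G)) = 0 := by
  have hnZ : (n : ℤ) ≠ 0 := Int.natCast_ne_zero.2 hn
  -- the principal units
  have U₁ : IsGU N.c₁ (f / g₁ ^ n) := ⟨hu₁.1, by rw [hu₁.2]; exact one_ne_zero⟩
  have U₂ : IsGU N.c₂ (f / g₂ ^ n) := ⟨hu₂.1, by rw [hu₂.2]; exact one_ne_zero⟩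
  -- the product of linear factors
  set Φ : F := linProd X T D with hΦ
  set b : K := linConst X T D with hb
  have hΦ0 : Φ ≠ 0 := linProd_ne_zero X hT
  have hb0 : b ≠ 0 := linConst_ne_zero X hT
  have hbF : algebraMap K F b ≠ 0 := by rwa [ne_eq, _root_.map_eq_zero]
  have Φ₁ : IsGU N.c₁ Φ := linProd_gu₁ X hT
  obtain ⟨Φ₂, rΦ₂⟩ := linProd_gu₂ X (T := T) (D := D) hT
  set d : ℤ := ∑ P ∈ T, D P with hd
  have oΦ : (Nd.s1 k).ord (red N.c₁ Φ) = d := ord_red_linProd₁ X hT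
  -- the normalisations of `g₁`, `g₂`
  obtain ⟨l₁, hl₁, G₁⟩ := exists_isGU N.c₁ hg₁
  obtain ⟨l₂, hl₂, G₂⟩ := exists_isGU N.c₂ hg₂
  have hl₁F : algebraMap K F l₁ ≠ 0 := by rwa [ne_eq, _root_.map_eq_zero]
  have hl₂F : algebraMap K F l₂ ≠ 0 := by rwa [ne_eq, _root_.map_eq_zero]
  set s' : ℤ := (Nd.s1 k).ord (red N.c₁ (algebraMap K F l₁ * g₁)) - d with hs'
  set t : ℤ := (Nd.s2 k).ord (red N.c₂ (algebraMap K F l₂ * g₂)) with ht
  -- the function without zero or pole over the node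
  set h : F := f / Φ ^ n with hh
  have hh0 : h ≠ 0 := div_ne_zero hf (pow_ne_zero _ hΦ0)
  have hno : ∀ P : Place K F, N.RedToNode P k → P.ord h = 0 := by
    intro P hP
    rw [hh, div_eq_mul_inv, P.ord_mul hf (inv_ne_zero (pow_ne_zero _ hΦ0)), Place.ord_inv,
      ord_pow, hdiv P hP, ord_linProd X hT hT' P hP]
    ring
  have e₁ : algebraMap K F (l₁ ^ n) * h =
      (algebraMap K F l₁ * g₁) ^ n * (f / g₁ ^ n) * (Φ ^ n)⁻¹ := by
    rw [hh, map_pow, mul_pow]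
    field_simp
  have e₂ : algebraMap K F ((l₂ * b) ^ n) * h =
      (algebraMap K F l₂ * g₂) ^ n * (f / g₂ ^ n) * ((algebraMap K F b⁻¹ * Φ) ^ n)⁻¹ := by
    rw [hh, map_pow, map_mul, map_inv₀, mul_pow, mul_pow, mul_pow, inv_pow]
    field_simp
  have H₁ : IsGU N.c₁ (algebraMap K F (l₁ ^ n) * h) := by
    rw [e₁]; exact ((G₁.pow n).mul U₁).mul (Φ₁.pow n).inv
  have H₂ : IsGU N.c₂ (algebraMap K F ((l₂ * b) ^ n) * h) := by
    rw [e₂]; exact ((G₂.pow n).mul U₂).mul (Φ₂.pow n).inv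
  have r₁ : red N.c₁ (algebraMap K F (l₁ ^ n) * h) =
      red N.c₁ (algebraMap K F l₁ * g₁) ^ n * (red N.c₁ Φ ^ n)⁻¹ := by
    rw [e₁, red_mul N.c₁ ((G₁.pow n).mul U₁).mem (Φ₁.pow n).inv.mem,
      red_mul N.c₁ (G₁.pow n).mem U₁.mem, red_pow N.c₁ G₁.mem, hu₁.2, mul_one,
      (Φ₁.pow n).red_inv, red_pow N.c₁ Φ₁.mem]
  have r₂ : red N.c₂ (algebraMap K F ((l₂ * b) ^ n) * h) =
      red N.c₂ (algebraMap K F l₂ * g₂) ^ n := by
    rw [e₂, red_mul N.c₂ ((G₂.pow n).mul U₂).mem (Φ₂.pow n).inv.mem,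
      red_mul N.c₂ (G₂.pow n).mem U₂.mem, red_pow N.c₂ G₂.mem, hu₂.2, mul_one,
      (Φ₂.pow n).red_inv, red_pow N.c₂ Φ₂.mem, rΦ₂, one_pow, inv_one, mul_one]
  have o₁ : (Nd.s1 k).ord (red N.c₁ (algebraMap K F (l₁ ^ n) * h)) = n * s' := by
    rw [r₁, (Nd.s1 k).ord_mul (pow_ne_zero _ G₁.2) (inv_ne_zero (pow_ne_zero _ Φ₁.2)),
      Place.ord_inv, ord_pow, ord_pow, oΦ, hs']
    ring
  have o₂ : (Nd.s2 k).ord (red N.c₂ (algebraMap K F ((l₂ * b) ^ n) * h)) = n * t := by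
    rw [r₂, ord_pow]
  -- the quantitative slope formula and the node push-forward
  have QS := quant_slope X hh0 hno H₁ H₂
  rw [o₁] at QS
  have US := unit_slopes X hy₂ hh0 hno H₁ H₂
  rw [o₁, o₂] at US
  have hts : t = -s' := by
    have h1 : (n : ℤ) * (s' + t) = 0 := by rw [mul_add]; exact US
    rcases mul_eq_zero.1 h1 with h2 | h2
    · exact absurd h2 hnZ
    · linarith
  have hϖ0 : X.ϖ ^ s' ≠ 0 := zpow_ne_zero _ X.ϖ_ne
  set r : K := l₁ / (l₂ * b * X.ϖ ^ s') with hr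
  have hr0 : r ≠ 0 := div_ne_zero hl₁ (mul_ne_zero (mul_ne_zero hl₂ hb0) hϖ0)
  have AU : AUnit A r := by
    apply aunit_of_pow hn
    have : r ^ n = l₁ ^ n / ((l₂ * b) ^ n * X.ϖ ^ ((n : ℤ) * s')) := by
      rw [hr, div_pow, mul_pow, mul_comm (n : ℤ) s', zpow_mul, zpow_natCast]
    rw [this]
    exact QS
  -- the generator
  set G : F := algebraMap K F l₁⁻¹ * X.zp ^ s' * Φ with hG
  have hzs0 : X.zp ^ s' ≠ 0 := zpow_ne_zero _ X.zp_ne
  have hG0 : G ≠ 0 := mul_ne_zero (mul_ne_zero (by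
    rw [ne_eq, _root_.map_eq_zero]; exact inv_ne_zero hl₁) hzs0) hΦ0
  have d₁ : g₁ / G = (algebraMap K F l₁ * g₁) * X.zp ^ (-s') * Φ⁻¹ := by
    rw [hG, map_inv₀, zpow_neg]
    field_simp
  have d₂ : g₂ / G = algebraMap K F r * (algebraMap K F l₂ * g₂) * X.y₂ ^ (-s') *
      (algebraMap K F b⁻¹ * Φ)⁻¹ := by
    have hy0 : X.y₂ ≠ 0 := X.y₂_gu.ne_zero
    have hϖF : algebraMap K F X.ϖ ≠ 0 := by rw [ne_eq, _root_.map_eq_zero]; exact X.ϖ_ne
    have hz : X.zp ^ s' = algebraMap K F (X.ϖ ^ s') * X.y₂ ^ s' := by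
      rw [X.zp_eq, mul_zpow, map_zpow₀]
    have hys0 : X.y₂ ^ s' ≠ 0 := zpow_ne_zero _ hy0
    have hϖsF : algebraMap K F (X.ϖ ^ s') ≠ 0 := by rwa [ne_eq, _root_.map_eq_zero]
    rw [hG, hz, hr, map_div₀, map_mul, map_mul, map_inv₀, map_inv₀, zpow_neg]
    field_simp
  have gu₁ : IsGU N.c₁ (g₁ / G) := by
    rw [d₁]; exact (G₁.mul (X.zp_gu.zpow _)).mul Φ₁.inv
  have gu₂ : IsGU N.c₂ (g₂ / G) := by
    rw [d₂]; exact (((isGU_const AU).mul G₂).mul (X.y₂_gu.zpow _)).mul Φ₂.inv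
  refine ⟨G, hG0, ?_, gu₁, gu₂, ?_, ?_⟩
  · intro P hP
    have hGo : P.ord G = D P := by
      rw [hG, P.ord_mul (mul_ne_zero (by
        rw [ne_eq, _root_.map_eq_zero]; exact inv_ne_zero hl₁) hzs0) hΦ0,
        P.ord_mul (by rw [ne_eq, _root_.map_eq_zero]; exact inv_ne_zero hl₁) hzs0,
        ord_algebraMap, Place.ord_zpow, X.ord_zp_eq_zero P hP, ord_linProd X hT hT' P hP]
      ring
    rw [hGo, hdiv P hP]
  · rw [d₁, red_mul N.c₁ (G₁.mul (X.zp_gu.zpow _)).mem Φ₁.inv.mem,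
      red_mul N.c₁ G₁.mem (X.zp_gu.zpow _).mem, X.zp_gu.red_zpow, Φ₁.red_inv,
      (Nd.s1 k).ord_mul (mul_ne_zero G₁.2 (zpow_ne_zero _ X.red_zp_ne)) (inv_ne_zero Φ₁.2),
      (Nd.s1 k).ord_mul G₁.2 (zpow_ne_zero _ X.red_zp_ne), Place.ord_inv, Place.ord_zpow,
      X.ord_zp, oΦ, hs']
    ring
  · have hc : (Nd.s2 k).ord (red N.c₂ (algebraMap K F r)) = 0 := by
      rw [red_const N.c₂ AU.1, ord_algebraMap]
    have gc : IsGU N.c₂ (algebraMap K F r) := isGU_const AU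
    rw [d₂, red_mul N.c₂ ((gc.mul G₂).mul (X.y₂_gu.zpow _)).mem Φ₂.inv.mem,
      red_mul N.c₂ (gc.mul G₂).mem (X.y₂_gu.zpow _).mem, red_mul N.c₂ gc.mem G₂.mem,
      X.y₂_gu.red_zpow, Φ₂.red_inv, rΦ₂, inv_one, mul_one,
      (Nd.s2 k).ord_mul (mul_ne_zero gc.2 G₂.2) (zpow_ne_zero _ X.y₂_gu.2),
      (Nd.s2 k).ord_mul gc.2 G₂.2, hc, Place.ord_zpow, hy₂, ← ht, hts]
    ring

end Fermat.Agent.M43.NodeGen1
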