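/-
Programme M43 (target S43), pillar (P-END), chapter TORIC, file 7 (helper1):
**the normal form of a toric torsion class, with local generators at the nodes.**

* `NodeUnit N n z` : `ThetaMatch1.NodeMatch` WITHOUT the equality of the two node values: `z = [D]`,
  `div f = n D`, `f = g_i ^ n · (principal unit of the component i)` and at every node `k` a function
  `G` with `ord_P f = n ord_P G` over the node, `g₁ / G`, `g₂ / G` Gauss units whose reductions have
  neither zero nor pole at the two branches;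
* `nodeUnit_of_inG` (abstract) : the Kummer-trivial classes of exponent `n` (`EtaleTwo1.InG`) of a
  nodal reduction context with annulus coordinates of exact thickness satisfy `NodeUnit`;
* `nodeUnit_of_mem_formalTwo` : for `h : LevelHyp p M' A` (`p` the residue prime) and any `n ≠ 0`:
  `x ∈ formalTwo A (M' * p) n`, `n • x = 0` ⟹ `NodeUnit (nodalRed h) n x`.
-/
import Mathlib
import Fermat.Agent.M43.NodeGen1
import Fermat.Agent.M43.EtaleInstQ4
import Fermat.Agent.U44.AnnInst6

set_option autoImplicit false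
set_option linter.unusedSectionVars false
set_option linter.unusedVariables false
set_option linter.style.haveILetI false
set_option synthInstance.maxHeartbeats 400000

open AlgebraicCurve IsLocalRing ModularCurve

noncomputable section

namespace Fermat.Agent.M43.ToricNorm1

open Fermat.Agent.T33.NodalCtx1 Fermat.Agent.T33.NodalCurve6
  Fermat.Agent.X0.FF Fermat.Agent.U44.GaussRed3 Fermat.Agent.U44.Annulus3
  Fermat.Agent.U44.EtaleAbs1 Fermat.Agent.U44.EtaleTwo1 Fermat.Agent.M43.NodeGen1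
  Fermat.Agent.T33.Psi3B Fermat.Agent.T33.Psi3F Fermat.Agent.RR.LSpace

section Abstract

variable {K : Type*} [Field K] {A : ValuationSubring K}
variable {F : Type*} [Field F] [Algebra K F]
variable {Fb₁ Fb₂ : Type*} [Field Fb₁] [Field Fb₂]
  [Algebra (ResidueField A) Fb₁] [Algebra (ResidueField A) Fb₂]
variable {ι : Type*} {Nd : NodalData (ResidueField A) Fb₁ Fb₂ ι} (N : NodalRed A F Nd)

/-- **Kummer-trivial for the exponent `n` with local generators at the nodes** (no condition on the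
two node values). -/
def NodeUnit (n : ℕ) (z : Pic0 K F) : Prop :=
  ∃ (D : Divisor.degZero (K := K) (F := F)) (f g₁ g₂ : F), Pic0.mk D = z ∧ f ≠ 0 ∧ g₁ ≠ 0 ∧
    g₂ ≠ 0 ∧ (∀ P : Place K F, P.ord f = n * (D : Divisor K F) P) ∧
    (f / g₁ ^ n ∈ N.c₁.O ∧ red N.c₁ (f / g₁ ^ n) = 1) ∧
    (f / g₂ ^ n ∈ N.c₂.O ∧ red N.c₂ (f / g₂ ^ n) = 1) ∧
    ∀ i : ι, ∃ G : F, G ≠ 0 ∧
      (∀ P : Place K F, N.RedToNode P i → P.ord f = n * P.ord G) ∧
      IsGU N.c₁ (g₁ / G) ∧ IsGU N.c₂ (g₂ / G) ∧
      (Nd.s1 i).ord (red N.c₁ (g₁ / G)) = 0 ∧ (Nd.s2 i).ord (red N.c₂ (g₂ / G)) = 0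

variable {N}

/-- the residue condition, with the constant absorbed in the `n`-th power. -/
theorem exists_root_of_mem_RC {Fb : Type*} [Field Fb] [Algebra (ResidueField A) Fb]
    {R : HalfRed A F Fb} {n : ℕ} (hn : n ≠ 0) (hroot : ∀ a : K, ∃ b : K, b ^ n = a) {f : Fˣ}
    (hf : f ∈ RC K (pu R) n) :
    ∃ g : F, g ≠ 0 ∧ (f : F) / g ^ n ∈ R.O ∧ red R ((f : F) / g ^ n) = 1 := by
  obtain ⟨c, w, u, hc, hw, hu, hru, hfe⟩ := exists_of_mem_RC hf
  obtain ⟨b, hb⟩ := hroot c
  have hb0 : b ≠ 0 := by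
    rintro rfl
    rw [zero_pow hn] at hb
    exact hc hb.symm
  have hbF : algebraMap K F b ≠ 0 := by rwa [ne_eq, _root_.map_eq_zero]
  have e : (f : F) / (algebraMap K F b * w) ^ n = u := by
    rw [hfe, ← hb, map_pow, mul_pow]
    field_simp
  exact ⟨algebraMap K F b * w, mul_ne_zero hbF hw, by rw [e]; exact hu.mem, by rw [e]; exact hru⟩

/-- **the Kummer-trivial classes of exponent `n` have local generators at the nodes.** -/
theorem nodeUnit_of_inG (X : ∀ k, AnnCoord N k)
    (hy₂ : ∀ k, (Nd.s2 k).ord (red N.c₂ (X k).y₂) = -1) {n : ℕ} (hn : n ≠ 0)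
    (hroot : ∀ a : K, ∃ b : K, b ^ n = a) {z : Pic0 K F} (hz : InG N.c₁ N.c₂ n z) :
    NodeUnit N n z := by
  classical
  obtain ⟨f, D, hf₁, hf₂, hD, rfl⟩ := hz
  obtain ⟨g₁, hg₁, hu₁⟩ := exists_root_of_mem_RC hn hroot hf₁
  obtain ⟨g₂, hg₂, hu₂⟩ := exists_root_of_mem_RC hn hroot hf₂
  refine ⟨D, (f : F), g₁, g₂, rfl, f.ne_zero, hg₁, hg₂, fun P => (hD P).symm, hu₁, hu₂, ?_⟩
  intro k
  exact exists_local_gen (X k) (hy₂ k) hn
    (T := (D : Divisor K F).support.filter (fun P => N.RedToNode P k))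
    (D := fun P => (D : Divisor K F) P) f.ne_zero hg₁ hg₂ hu₁ hu₂
    (fun P hP => (Finset.mem_filter.1 hP).2)
    (fun P hP hne => Finset.mem_filter.2 ⟨Finsupp.mem_support_iff.2 hne, hP⟩)
    (fun P _ => (hD P).symm)

end Abstract

/-! ### the instance: `X₀(M'p)` over `A` -/

section Instance

open Fermat.Agent.RED.Interface4 Fermat.Agent.T33.Psi3D Fermat.Agent.ES.J.TateJZero13
  Fermat.Agent.T33.NodalInst4A Fermat.Agent.T33.NodalInst4C Fermat.Agent.T33.NodalHalf4
  Fermat.Agent.T33.FrickeRed3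

variable {p M' : ℕ} [NeZero M'] [NeZero p] {A : ValuationSubring Qbar}

/-- **the normal form of a toric `n`-torsion class of `J₀(M'p)`, with local generators at the
nodes.**  (`p` is the residue prime of `A`; `n ≠ 0` is arbitrary.) -/
theorem nodeUnit_of_mem_formalTwo (h : LevelHyp p M' A) (n : ℕ) [NeZero n]
    {x : JZero (M' * p)} (hx : x ∈ formalTwo A (M' * p) n) (hnx : n • x = 0) :
    NodeUnit (Fermat.Agent.T33.NodalInst4G.nodalRed h) n x := by
  have hin : InG (c1 h) (c2 h) n x := by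
    rw [inG_iff_formal (lHyp h) (lHypFb h) (lHypFb h) (NeZero.ne n),
      Fermat.Agent.M43.EtaleInstQ4.upair_eq h]
    exact ⟨hx, hnx⟩
  exact nodeUnit_of_inG (N := Fermat.Agent.T33.NodalInst4G.nodalRed h)
    (fun k => Fermat.Agent.U44.AnnInst6.annCoord h k)
    (fun k => Fermat.Agent.U44.AnnInst6.annCoord_ord_y₂ h k) (NeZero.ne n)
    (fun a => IsAlgClosed.exists_pow_nat_eq a (Nat.pos_of_ne_zero (NeZero.ne n))) hin

end Instance

end Fermat.Agent.M43.ToricNorm1
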