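/-
Programme M43 (target S43), pillar (P-END), chapter TORIC, file 3 (helper1):
**the connected Hopf order of a finite inertia-stable group of Kummer-trivial classes with matching
node values** (`ThetaMatch1.NodeMatch`), any exponent `n ≠ 0`.

Copy of `T33/NodalMain8.hasConnOrder_of_nodalRed` with the hypothesis `emb z ∈ formalN N p` replaced
by `NodeMatch N n (emb z)`: the only use of the formal part in the T33 chain is `θ`-surjectivity,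
which `ThetaMatch1.thetaSurj_match` provides for `NodeMatch` classes.
-/
import Mathlib
import Fermat.Agent.T33.NodalMain8
import Fermat.Agent.T33.NodalFinal8B
import Fermat.Agent.M43.ThetaMatch1

set_option autoImplicit false
set_option linter.style.haveILetI false

open AlgebraicCurve IntermediateField IsLocalRing

namespace Fermat.Agent.M43.ConnMatch1

open Fermat.Agent.X0 Fermat.Agent.X0.FF Fermat.Agent.RR.LSpace Fermat.Agent.RR.Riemann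
  Fermat.Agent.FF.SpecRR1 Fermat.Agent.FF.GeomIface8 Fermat.Agent.FF.CoreIface8
  Fermat.Agent.FF.InertiaWire8 Fermat.Agent.FF.SubOrd1
  Fermat.Agent.T33.NodalCtx1 Fermat.Agent.T33.NodalCurve6 Fermat.Agent.T33.NodalIface8
  Fermat.Agent.T33.NodalDisc8B Fermat.Agent.T33.NodalLat2 Fermat.Agent.T33.ConnOrd2
  Fermat.Agent.T33.Psi3F AlgebraicCurve.SemilinearAut
  Fermat.Agent.M43.ThetaMatch1 Fermat.Agent.FF.ThetaGlue8 Fermat.Agent.T33

section Abstract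

variable {A : ValuationSubring Qb} {F : Type*} [Field F] [Algebra Qb F]
variable {Fb₁ Fb₂ : Type*} [Field Fb₁] [Field Fb₂]
  [Algebra (ResidueField A) Fb₁] [Algebra (ResidueField A) Fb₂]
variable {ι : Type*} {Nd : NodalData (ResidueField A) Fb₁ Fb₂ ι} (N : NodalRed A F Nd)
variable [DistribMulAction (Iner A) (Pic0 Qb F)]

/-- **(NF) from a nodal reduction, for `NodeMatch` classes.** -/
theorem hasConnOrder_of_nodalRed_match [Finite ι] {p : ℕ} (hp : p.Prime)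
    (hA : A.LiesOverPrime p)
    (H : LHyp Qb F) (H₁ : LHyp (ResidueField A) Fb₁) (H₂ : LHyp (ResidueField A) Fb₂)
    (hmany₁ : HasManySmooth₁ N) (hmany₂ : HasManySmooth₂ N)
    (g : ℕ)
    (hRR : ∀ D : Divisor Qb F, 2 * (g : ℤ) - 2 < Divisor.degree D →
      (Module.finrank Qb (riemannRochSpace D) : ℤ) = Divisor.degree D + 1 - g)
    (hR : ∀ D : Divisor Qb F, Divisor.degree D + 1 - (g : ℤ) ≤ ell D)
    (hNS : Nd.NonSpecialExists g)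
    -- the coordinate
    (s : F) (hs₁ : s ∈ N.c₁.O) (hs₂ : s ∈ N.c₂.O)
    (hx₁ : IsGen (ResidueField A) (N.c₁.ρ ⟨s, hs₁⟩))
    [Algebra.IsSeparable (ResidueField A)⟮N.c₁.ρ ⟨s, hs₁⟩⟯ Fb₁]
    (hx₂ : IsGen (ResidueField A) (N.c₂.ρ ⟨s, hs₂⟩))
    [Algebra.IsSeparable (ResidueField A)⟮N.c₂.ρ ⟨s, hs₂⟩⟯ Fb₂]
    (hbr₁ : ∀ i, 0 ≤ (Nd.s1 i).ord (N.c₁.ρ ⟨s, hs₁⟩))
    (hbr₂ : ∀ i, 0 ≤ (Nd.s2 i).ord (N.c₂.ρ ⟨s, hs₂⟩))
    (hs0 : s ≠ 0) (hρ₁ : N.c₁.ρ ⟨s, hs₁⟩ ≠ 0) (hρ₂ : N.c₂.ρ ⟨s, hs₂⟩ ≠ 0)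
    (hdeg : Divisor.degree (poleDiv H hs0) ≤
      Divisor.degree (poleDiv H₁ hρ₁) + Divisor.degree (poleDiv H₂ hρ₂))
    -- the inertia action
    (γ : Iner A → SemilinearAut Qb F)
    (hγ : ∀ (σ : Iner A) (z : Pic0 Qb F), σ • z = γ σ • z)
    (hγK : ∀ (σ : Iner A) (a : Qb), baseAut (γ σ) a = σ • a)
    (hComp : N.Compat γ) (hγs : ∀ σ : Iner A, γ σ • s = s)
    -- the group
    {M : Type} [AddCommGroup M] [Finite M] [DistribMulAction (Iner A) M]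
    (emb : M →+ Pic0 Qb F) (emb_inj : Function.Injective emb)
    (emb_smul : ∀ (σ : Iner A) (z : M), emb (σ • z) = σ • emb z)
    (n : ℕ) (hn : n ≠ 0)
    (hM : ∀ z : M, NodeMatch N n (emb z)) :
    HasConnOrder (W0 A) (Iner A) A M := by
  have : Fact p.Prime := ⟨hp⟩
  have : IsAlgClosed (ResidueField A) := Fermat.Agent.FF.TeichLift4.isAlgClosed_residueField A
  have : CharP (ResidueField A) p := Fermat.Agent.FF.TeichLift4.charP_residueField' hp hA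
  -- inertia-fixed lifts of the constants
  have hTL : ∀ a : ResidueField A, ∃ c : A, residue A c = a ∧
      ∀ σ : Iner A, baseAut (γ σ) (c : Qb) = c := by
    intro a
    obtain ⟨c, hc, hfix⟩ := Fermat.Agent.FF.TeichLift4.exists_fixed_lift hp hA a
    exact ⟨c, hc, fun σ => by rw [hγK]; exact hfix σ.1 σ.2⟩
  -- chapter N-F: the data
  obtain ⟨m, φ, hφ₁, hφ₂, c, hρφ₁, hρφ₂, hinj, hc, hNSat, hγφ, hzero, hpole, -, -⟩ :=
    NodalChoose8B.exists_disc_data_of_hdeg N H H₁ H₂ s hs₁ hs₂ hx₁ hx₂ hbr₁ hbr₂ hs0 hρ₁ hρ₂ hdeg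
      γ hγs hTL g hNS
  -- chapter N-D: the disc model
  have hWG : N.WeakGauss := NodalAbs1A.weakGauss N H H₁ H₂
  set Mod := discModel N H φ hφ₁ hφ₂ hρφ₁ hρφ₂ c hc (Nat.le_add_right g m) hWG with hMod
  have hdegP : ∀ (j : Fin (g + m)) (t : A), (Mod.P j t).deg = 1 :=
    discModel_deg N H φ hφ₁ hφ₂ hρφ₁ hρφ₂ c hc (Nat.le_add_right g m) hWG
  have hDC : DiscCompat N Mod c :=
    discCompat N H φ hφ₁ hφ₂ hρφ₁ hρφ₂ c hc (Nat.le_add_right g m) hWG hinj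
  have hdisj := discModel_disjoint N H φ hφ₁ hφ₂ hρφ₁ hρφ₂ c hc (Nat.le_add_right g m) hWG hinj
  -- chapter N-B: the lattice
  obtain ⟨n', D, L, hcf⟩ := NodalCore2.exists_coreData N H φ hφ₁ hφ₂ hρφ₁ hρφ₂ c hc H₁ H₂
    hmany₁ hmany₂ (Nat.le_add_right g m) hWG hinj hzero hpole hRR hNSat
  have hsemi : Semicont N := semicont H H₁ H₂ hmany₁ hmany₂
  -- chapter N-E: `θ`
  have hθinj : ThetaInjStatement Mod hdegP :=
    NodalThetaInj7.thetaInj N Mod hDC hdisj hdegP H hsemi hNSat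
  have I : NThetaInput Mod hdegP (Iner A) M :=
    { hΓA := hΓA A
      emb := emb
      emb_inj := emb_inj
      emb_smul := emb_smul
      theta_inj := hθinj
      theta_surj := fun z => thetaSurj_match N Mod hdegP hDC hNSat H
        (Fermat.Agent.FF.ThetaBridge5.riemannEff_of_riemann H g hR) n hn (emb z) (hM z)
      theta_smul := fun σ x hx => by
        rw [hγ, ← sigmaA_tuple (hΓA A) σ x]
        exact (NodalInput7.smul_theta N Mod hDC hComp σ (sigmaA (hΓA A) σ)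
          (fun a => (hγK σ (a : Qb)).symm) (hγφ σ) hdegP x hx).symm }
  exact NodalAsm8.hasConnOrder I hp hA hcf L hdisj

/-- **(NF) from a nodal reduction and a coordinate, for `NodeMatch` classes.** -/
theorem hasConnOrder_of_coordinate_match [Finite ι] {p : ℕ} (hp : p.Prime)
    (hA : A.LiesOverPrime p)
    (H : LHyp Qb F) (H₁ : LHyp (ResidueField A) Fb₁) (H₂ : LHyp (ResidueField A) Fb₂)
    (g : ℕ)
    (hRR : ∀ D : Divisor Qb F, 2 * (g : ℤ) - 2 < Divisor.degree D →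
      (Module.finrank Qb (riemannRochSpace D) : ℤ) = Divisor.degree D + 1 - g)
    (hR : ∀ D : Divisor Qb F, Divisor.degree D + 1 - (g : ℤ) ≤ ell D)
    (hNS : Nd.NonSpecialExists g)
    (s : F) (hs₁ : s ∈ N.c₁.O) (hs₂ : s ∈ N.c₂.O)
    (hx₁ : IsGen (ResidueField A) (N.c₁.ρ ⟨s, hs₁⟩))
    [Algebra.IsSeparable (ResidueField A)⟮N.c₁.ρ ⟨s, hs₁⟩⟯ Fb₁]
    (hx₂ : IsGen (ResidueField A) (N.c₂.ρ ⟨s, hs₂⟩))
    [Algebra.IsSeparable (ResidueField A)⟮N.c₂.ρ ⟨s, hs₂⟩⟯ Fb₂]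
    (hbr₁ : ∀ i, 0 ≤ (Nd.s1 i).ord (N.c₁.ρ ⟨s, hs₁⟩))
    (hbr₂ : ∀ i, 0 ≤ (Nd.s2 i).ord (N.c₂.ρ ⟨s, hs₂⟩))
    (hdeg : ∀ (hs0 : s ≠ 0) (hρ₁ : N.c₁.ρ ⟨s, hs₁⟩ ≠ 0) (hρ₂ : N.c₂.ρ ⟨s, hs₂⟩ ≠ 0),
      Divisor.degree (poleDiv H hs0) ≤
        Divisor.degree (poleDiv H₁ hρ₁) + Divisor.degree (poleDiv H₂ hρ₂))
    (γ : Iner A → SemilinearAut Qb F)
    (hγ : ∀ (σ : Iner A) (z : Pic0 Qb F), σ • z = γ σ • z)
    (hγK : ∀ (σ : Iner A) (a : Qb), baseAut (γ σ) a = σ • a)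
    (hComp : N.Compat γ) (hγs : ∀ σ : Iner A, γ σ • s = s)
    {M : Type} [AddCommGroup M] [Finite M] [DistribMulAction (Iner A) M]
    (emb : M →+ Pic0 Qb F) (emb_inj : Function.Injective emb)
    (emb_smul : ∀ (σ : Iner A) (z : M), emb (σ • z) = σ • emb z)
    (n : ℕ) (hn : n ≠ 0)
    (hM : ∀ z : M, NodeMatch N n (emb z)) :
    HasConnOrder (W0 A) (Iner A) A M := by
  have : Infinite (ResidueField A) := Fermat.Agent.FF.TeichLift4.infinite_residueField A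
  have hρ₁ : N.c₁.ρ ⟨s, hs₁⟩ ≠ 0 := hx₁.ne_zero
  have hρ₂ : N.c₂.ρ ⟨s, hs₂⟩ ≠ 0 := hx₂.ne_zero
  have hs0 : s ≠ 0 := by
    intro h0
    apply hρ₁
    have : (⟨s, hs₁⟩ : N.c₁.O) = 0 := Subtype.ext h0
    rw [this, map_zero]
  have hmany₁ : HasManySmooth₁ N := hasManySmooth₁_of_nonconst N H H₁ ⟨s, hs₁⟩
    (fun c h => hx₁.sub_algebraMap_ne_zero c (sub_eq_zero.2 h))
  have hmany₂ : HasManySmooth₂ N := hasManySmooth₂_of_nonconst N H H₂ ⟨s, hs₂⟩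
    (fun c h => hx₂.sub_algebraMap_ne_zero c (sub_eq_zero.2 h))
  exact hasConnOrder_of_nodalRed_match N hp hA H H₁ H₂ hmany₁ hmany₂ g hRR hR hNS s hs₁ hs₂
    hx₁ hx₂ hbr₁ hbr₂ hs0 hρ₁ hρ₂ (hdeg hs0 hρ₁ hρ₂) γ hγ hγK hComp hγs emb emb_inj emb_smul n hn hM

open Fermat.Agent.T33.NodalCoord2 in
/-- **(NF) from a nodal reduction and the coordinate `s = 1/(t - a) + 1/(y - a)`, for `NodeMatch`
classes.** -/
theorem hasConnOrder_of_Rfun_match [Finite ι] {p : ℕ} [hp : Fact p.Prime]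
    (hA : A.LiesOverPrime p)
    (H : LHyp Qb F) (H₁ : LHyp (ResidueField A) Fb₁) (H₂ : LHyp (ResidueField A) Fb₂)
    (g : ℕ)
    (hRR : ∀ D : Divisor Qb F, 2 * (g : ℤ) - 2 < Divisor.degree D →
      (Module.finrank Qb (riemannRochSpace D) : ℤ) = Divisor.degree D + 1 - g)
    (hR : ∀ D : Divisor Qb F, Divisor.degree D + 1 - (g : ℤ) ≤ ell D)
    (hNS : Nd.NonSpecialExists g)
    (t y : F) (ht0 : t ≠ 0) (hy0 : y ≠ 0) (a : A)
    (hta : t - algebraMap Qb F (a : Qb) ≠ 0) (hya : y - algebraMap Qb F (a : Qb) ≠ 0)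
    (s : F) (hs : s = (t - algebraMap Qb F (a : Qb))⁻¹ + (y - algebraMap Qb F (a : Qb))⁻¹)
    (hs₁ : s ∈ N.c₁.O) (hs₂ : s ∈ N.c₂.O)
    (x₁ : Fb₁) (x₂ : Fb₂) (hx₁ : IsGen (ResidueField A) x₁)
    [Algebra.IsSeparable (ResidueField A)⟮x₁⟯ Fb₁]
    (hx₂ : IsGen (ResidueField A) x₂) [Algebra.IsSeparable (ResidueField A)⟮x₂⟯ Fb₂]
    (hρs₁ : haveI := Fermat.Agent.ES.KRON.KronInst10.charP_residueField A hp.out hA
      N.c₁.ρ ⟨s, hs₁⟩ = Rfun p x₁ (residue A a))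
    (hρs₂ : haveI := Fermat.Agent.ES.KRON.KronInst10.charP_residueField A hp.out hA
      N.c₂.ρ ⟨s, hs₂⟩ = Rfun p x₂ (residue A a))
    (ha₁ : haveI := Fermat.Agent.ES.KRON.KronInst10.charP_residueField A hp.out hA
      residue A a ∉ badConst p x₁ (Set.finite_range Nd.s1).toFinset)
    (ha₂ : haveI := Fermat.Agent.ES.KRON.KronInst10.charP_residueField A hp.out hA
      residue A a ∉ badConst p x₂ (Set.finite_range Nd.s2).toFinset)
    (hnum : Divisor.degree (poleDiv H ht0) + Divisor.degree (poleDiv H hy0) ≤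
      (1 + (p : ℤ)) * (Divisor.degree (poleDiv H₁ hx₁.ne_zero) +
        Divisor.degree (poleDiv H₂ hx₂.ne_zero)))
    (γ : Iner A → SemilinearAut Qb F)
    (hγ : ∀ (σ : Iner A) (z : Pic0 Qb F), σ • z = γ σ • z)
    (hγK : ∀ (σ : Iner A) (a : Qb), baseAut (γ σ) a = σ • a)
    (hComp : N.Compat γ) (hγs : ∀ σ : Iner A, γ σ • s = s)
    {M : Type} [AddCommGroup M] [Finite M] [DistribMulAction (Iner A) M]
    (emb : M →+ Pic0 Qb F) (emb_inj : Function.Injective emb)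
    (emb_smul : ∀ (σ : Iner A) (z : M), emb (σ • z) = σ • emb z)
    (n : ℕ) (hn : n ≠ 0)
    (hM : ∀ z : M, NodeMatch N n (emb z)) :
    HasConnOrder (W0 A) (Iner A) A M := by
  haveI : CharP (ResidueField A) p :=
    Fermat.Agent.ES.KRON.KronInst10.charP_residueField A hp.out hA
  have hā : residue A a ^ p ≠ residue A a := pow_ne_of_notMem_badConst ha₁
  have hg₁ := isGen_of_eq_Rfun H₁ hx₁ hā hρs₁
  have hg₂ := isGen_of_eq_Rfun H₂ hx₂ hā hρs₂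
  haveI := isSeparable_of_eq_Rfun hx₁.transcendental hρs₁
  haveI := isSeparable_of_eq_Rfun hx₂.transcendental hρs₂
  have hbr₁ : ∀ i, 0 ≤ (Nd.s1 i).ord (N.c₁.ρ ⟨s, hs₁⟩) := fun i =>
    ord_nonneg_of_eq_Rfun H₁ hx₁.transcendental ha₁ hρs₁ (Nd.s1 i)
      ((Set.Finite.mem_toFinset _).2 ⟨i, rfl⟩)
  have hbr₂ : ∀ i, 0 ≤ (Nd.s2 i).ord (N.c₂.ρ ⟨s, hs₂⟩) := fun i =>
    ord_nonneg_of_eq_Rfun H₂ hx₂.transcendental ha₂ hρs₂ (Nd.s2 i)
      ((Set.Finite.mem_toFinset _).2 ⟨i, rfl⟩)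
  have hdeg : ∀ (hs0 : s ≠ 0) (hρ₁ : N.c₁.ρ ⟨s, hs₁⟩ ≠ 0) (hρ₂ : N.c₂.ρ ⟨s, hs₂⟩ ≠ 0),
      Divisor.degree (poleDiv H hs0) ≤
        Divisor.degree (poleDiv H₁ hρ₁) + Divisor.degree (poleDiv H₂ hρ₂) :=
    fun hs0 hρ₁ hρ₂ => hdeg_of_le H H₁ H₂ ht0 hy0 (a : Qb) hta hya hs hs0 hx₁.transcendental
      hx₂.transcendental hā hρs₁ hρs₂ hρ₁ hρ₂ hx₁.ne_zero hx₂.ne_zero hnum
  exact hasConnOrder_of_coordinate_match N hp.out hA H H₁ H₂ g hRR hR hNS s hs₁ hs₂ hg₁ hg₂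
    hbr₁ hbr₂ hdeg γ hγ hγK hComp hγs emb emb_inj emb_smul n hn hM

end Abstract

end Fermat.Agent.M43.ConnMatch1
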