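/-
Programme M43 (target S43), pillar (P-END), chapter TORIC, file 2 (helper1):
**a connected Hopf order on a finite group killed by a unit of `A` is trivial.**

`H ⊆ (M → K̄)` a Hopf order (finite over `R ⊆ A`, separating, with coproducts), connected with respect
to the valuation subring `A` of `K̄` (`h z - h 0 ∈ 𝔪_A`).  Put `δ_h z = h z - h 0` and let `ρ < 1` be
the maximum of `|δ_h z|` over a finite generating set of `H`.  The coproduct gives
`δ_h (z + z') = δ_h z + δ_h z' + O(ρ²)`, hence `0 = δ_h (n z) = n δ_h z + O(ρ²)`, so `|δ_h z| ≤ ρ²`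
when `|n| = 1`; thus `ρ ≤ ρ²`, `ρ = 0`, all `h ∈ H` are constant and `M = 0`.

* `eq_zero_of_isConn_of_unit`, `HasConnOrder.eq_zero_of_unit`.
-/
import Mathlib
import Fermat.Agent.T33.ConnOrd2

set_option autoImplicit false
set_option linter.unusedSectionVars false

namespace Fermat.Agent.M43.ConnPrime1

open Fermat.Agent.FF.HopfOrderC Fermat.Agent.FF.SubOrd1 Fermat.Agent.T33.ConnOrd2

variable {R : Type*} [CommRing R] {Kbar : Type*} [Field Kbar] [Algebra R Kbar]
variable {A : ValuationSubring Kbar}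
variable {M : Type*} [AddCommGroup M]

/-- the second difference of a function with a coproduct is a sum of products of differences. -/
theorem second_diff {H : Subalgebra R (M → Kbar)} {h : M → Kbar} (hh : HasCoprod H h) :
    ∃ (ι : Type) (_ : Fintype ι) (a b : ι → M → Kbar), (∀ i, a i ∈ H) ∧ (∀ i, b i ∈ H) ∧
      ∀ z z', h (z + z') - h z - h z' + h 0 = ∑ i, (a i z - a i 0) * (b i z' - b i 0) := by
  obtain ⟨ι, hι, a, b, ha, hb, hab⟩ := hh
  refine ⟨ι, hι, a, b, ha, hb, fun z z' => ?_⟩
  have h1 := hab z z'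
  have h2 := hab z 0
  have h3 := hab 0 z'
  have h4 := hab 0 0
  rw [add_zero] at h2 h4
  rw [zero_add] at h3
  rw [h1, h2, h3, h4, ← Finset.sum_sub_distrib, ← Finset.sum_sub_distrib, ← Finset.sum_add_distrib]
  exact Finset.sum_congr rfl fun i _ => by ring

/-- **a connected Hopf order on a finite group killed by a unit `n` of `A` is trivial.** -/
theorem eq_zero_of_isConn_of_unit [Finite M] (hRA : ∀ r : R, algebraMap R Kbar r ∈ A)
    (H : Subalgebra R (M → Kbar)) (hfin : Module.Finite R H)
    (hsep : ∀ z z' : M, (∀ h ∈ H, h z = h z') → z = z') (hΔ : ∀ h ∈ H, HasCoprod H h)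
    (hc : IsConn A H) (n : ℕ) (hnA : A.valuation (n : Kbar) = 1) (hnM : ∀ z : M, n • z = 0)
    (z : M) : z = 0 := by
  classical
  haveI : Fintype M := Fintype.ofFinite M
  set v := A.valuation with hv
  obtain ⟨s, hs⟩ := hfin.fg_top
  -- the bound
  set ρ : A.ValueGroup := (s ×ˢ (Finset.univ : Finset M)).sup
    (fun p => v ((p.1 : M → Kbar) p.2 - (p.1 : M → Kbar) 0)) with hρ
  have hvR : ∀ r : R, v (algebraMap R Kbar r) ≤ 1 := fun r =>
    (A.valuation_le_one_iff _).2 (hRA r)
  -- (1) the bound holds on all of `H`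
  have hbound : ∀ h : H, ∀ z : M, v ((h : M → Kbar) z - (h : M → Kbar) 0) ≤ ρ := by
    intro h
    have hmem : h ∈ Submodule.span R (s : Set H) := by rw [hs]; exact Submodule.mem_top
    induction hmem using Submodule.span_induction with
    | mem x hx =>
      intro z
      exact Finset.le_sup (f := fun p : H × M =>
        v ((p.1 : M → Kbar) p.2 - (p.1 : M → Kbar) 0))
        (Finset.mk_mem_product hx (Finset.mem_univ z))
    | zero =>
      intro z
      simp
    | add x y _ _ hx hy =>
      intro z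
      have e : ((x + y : H) : M → Kbar) z - ((x + y : H) : M → Kbar) 0 =
          ((x : M → Kbar) z - (x : M → Kbar) 0) + ((y : M → Kbar) z - (y : M → Kbar) 0) := by
        simp only [Subalgebra.coe_add, Pi.add_apply]; ring
      rw [e]
      exact (v.map_add _ _).trans (max_le (hx z) (hy z))
    | smul r x _ hx =>
      intro z
      have e : ((r • x : H) : M → Kbar) z - ((r • x : H) : M → Kbar) 0 =
          algebraMap R Kbar r * ((x : M → Kbar) z - (x : M → Kbar) 0) := by
        have e1 : ((r • x : H) : M → Kbar) = r • (x : M → Kbar) := rfl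
        rw [e1, Pi.smul_apply, Pi.smul_apply, Algebra.smul_def, Algebra.smul_def]; ring
      rw [e, map_mul]
      calc v (algebraMap R Kbar r) * v ((x : M → Kbar) z - (x : M → Kbar) 0)
          ≤ 1 * v ((x : M → Kbar) z - (x : M → Kbar) 0) := mul_le_mul_left (hvR r) _
        _ ≤ ρ := by rw [one_mul]; exact hx z
  have hbound' : ∀ h ∈ H, ∀ z : M, v (h z - h 0) ≤ ρ := fun h hh z => hbound ⟨h, hh⟩ z
  -- (2) `ρ < 1`
  have hρ1 : ρ < 1 := by
    have hbot : (⊥ : A.ValueGroup) < 1 := by
      rw [bot_eq_zero]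
      have : (1 : A.ValueGroup) ≠ 0 := one_ne_zero
      exact zero_lt_iff.2 this
    rw [hρ, Finset.sup_lt_iff hbot]
    intro p _
    exact (ValuationSubring.mem_nonunits_iff A).1 (hc _ p.1.2 p.2)
  -- (3) the second difference
  have hsecond : ∀ h ∈ H, ∀ z z' : M, v (h (z + z') - h z - h z' + h 0) ≤ ρ * ρ := by
    intro h hh z z'
    obtain ⟨ι, hι, a, b, ha, hb, hab⟩ := second_diff (hΔ h hh)
    rw [hab z z']
    refine v.map_sum_le fun i _ => ?_
    rw [map_mul]
    exact mul_le_mul' (hbound' _ (ha i) z) (hbound' _ (hb i) z')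
  -- (4) induction
  have hind : ∀ h ∈ H, ∀ (z : M) (k : ℕ), v (h (k • z) - h 0 - k * (h z - h 0)) ≤ ρ * ρ := by
    intro h hh z k
    induction k with
    | zero => simp
    | succ k ih =>
      have e : h ((k + 1) • z) - h 0 - ((k + 1 : ℕ) : Kbar) * (h z - h 0) =
          (h (k • z + z) - h (k • z) - h z + h 0) + (h (k • z) - h 0 - k * (h z - h 0)) := by
        rw [succ_nsmul]; push_cast; ring
      rw [e]
      exact (v.map_add _ _).trans (max_le (hsecond h hh _ _) ih)
  -- (5) `|δ_h z| ≤ ρ²`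
  have hsq : ∀ h ∈ H, ∀ z : M, v (h z - h 0) ≤ ρ * ρ := by
    intro h hh z
    have h1 := hind h hh z n
    rw [hnM z, sub_self, zero_sub, Valuation.map_neg, map_mul, hnA, one_mul] at h1
    exact h1
  -- (6) `ρ = 0`
  have hρ0 : ρ = 0 := by
    by_contra hne
    have hle : ρ ≤ ρ * ρ := by
      rw [hρ]
      refine Finset.sup_le fun p _ => ?_
      rw [← hρ]
      exact hsq _ p.1.2 p.2
    have hlt : ρ * ρ < ρ * 1 := by
      have hρpos : 0 < ρ := zero_lt_iff.2 hne
      exact (mul_lt_mul_iff_of_pos_left hρpos).mpr hρ1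
    rw [mul_one] at hlt
    exact absurd (hle.trans_lt hlt) (lt_irrefl _)
  apply hsep
  intro h hh
  have := hbound' h hh z
  rw [hρ0] at this
  have h0 : v (h z - h 0) = 0 := le_antisymm this zero_le'
  exact sub_eq_zero.1 ((map_eq_zero v).1 h0)

variable (Γ : Type*) [Group Γ] [MulSemiringAction Γ Kbar] [DistribMulAction Γ M]

/-- **a group carrying a connected Hopf order and killed by a unit of `A` is trivial.** -/
theorem HasConnOrder.eq_zero_of_unit [Finite M] (hRA : ∀ r : R, algebraMap R Kbar r ∈ A)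
    (h : HasConnOrder R Γ A M) (n : ℕ) (hnA : A.valuation (n : Kbar) = 1)
    (hnM : ∀ z : M, n • z = 0) (z : M) : z = 0 := by
  obtain ⟨H, hH, hc⟩ := h
  obtain ⟨S, hS, hgen⟩ := hH.coprod
  exact eq_zero_of_isConn_of_unit hRA H hH.finite hH.separates (hasCoprod_of_adjoin hS hgen) hc n
    hnA hnM z

end Fermat.Agent.M43.ConnPrime1
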