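/-
Programme M43 (target S43), pillar (P-END), chapter TORIC, file 5 (helper1):
**the classes with `ThetaMatch1.NodeMatch` form a subgroup stable under the automorphisms
compatible with the nodal reduction.**

* `nodeMatch_zero`, `nodeMatch_add`, `nodeMatch_nsmul`, `nodeMatch_neg` (for `n`-torsion classes);
* `nodeMatch_smul` : stability under a family `γ` with `N.Compat γ` (the inertia group).
-/
import Mathlib
import Fermat.Agent.M43.ThetaMatch1

set_option autoImplicit false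
set_option linter.unusedSectionVars false
set_option linter.unusedVariables false

open AlgebraicCurve IsLocalRing

namespace Fermat.Agent.M43.NodeMatchGrp1

open Fermat.Agent.T33.NodalCtx1 Fermat.Agent.T33.NodalCurve6 Fermat.Agent.U44.GaussRed3
  Fermat.Agent.M43.ThetaMatch1 AlgebraicCurve.SemilinearAut

variable {K : Type*} [Field K] {A : ValuationSubring K}
variable {F : Type*} [Field F] [Algebra K F]
variable {Fb₁ Fb₂ : Type*} [Field Fb₁] [Field Fb₂]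
  [Algebra (ResidueField A) Fb₁] [Algebra (ResidueField A) Fb₂]
variable {ι : Type*} {Nd : NodalData (ResidueField A) Fb₁ Fb₂ ι} (N : NodalRed A F Nd)

theorem one_one_mem_compatAt (i : ι) : ((1, 1) : Fb₁ × Fb₂) ∈ Nd.compatAt i := by
  refine ⟨1, ?_, ?_⟩
  · show (1 : Fb₁) - algebraMap (ResidueField A) Fb₁ 1 ∈ _
    rw [map_one, sub_self]; exact Submodule.zero_mem _
  · show (1 : Fb₂) - algebraMap (ResidueField A) Fb₂ 1 ∈ _
    rw [map_one, sub_self]; exact Submodule.zero_mem _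

/-- the zero class. -/
theorem nodeMatch_zero (n : ℕ) : NodeMatch N n 0 := by
  refine ⟨0, 1, 1, 1, Pic0.mk_zero, one_ne_zero, one_ne_zero, one_ne_zero, ?_, ?_, ?_, ?_⟩
  · intro P
    rw [Place.ord_one]
    show (0 : ℤ) = n * (0 : Divisor K F) P
    rw [Finsupp.zero_apply, mul_zero]
  · rw [one_pow, div_one]; exact ⟨N.c₁.O.one_mem, red_one _⟩
  · rw [one_pow, div_one]; exact ⟨N.c₂.O.one_mem, red_one _⟩
  · intro i
    refine ⟨1, one_ne_zero, ?_, ?_, ?_, ?_⟩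
    · intro P _
      rw [Place.ord_one, mul_zero]
    · rw [div_one]; exact isGU_one
    · rw [div_one]; exact isGU_one
    · rw [div_one, red_one, red_one]; exact one_one_mem_compatAt i

/-- the sum of two classes. -/
theorem nodeMatch_add {n : ℕ} {z z' : Pic0 K F} (hz : NodeMatch N n z) (hz' : NodeMatch N n z') :
    NodeMatch N n (z + z') := by
  obtain ⟨D, f, g₁, g₂, hDz, hf, hg₁, hg₂, hdiv, ⟨hu₁, hr₁⟩, ⟨hu₂, hr₂⟩, hnode⟩ := hz
  obtain ⟨D', f', g₁', g₂', hDz', hf', hg₁', hg₂', hdiv', ⟨hu₁', hr₁'⟩, ⟨hu₂', hr₂'⟩, hnode'⟩ := hz'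
  have e₁ : f * f' / (g₁ * g₁') ^ n = (f / g₁ ^ n) * (f' / g₁' ^ n) := by
    rw [mul_pow]; field_simp
  have e₂ : f * f' / (g₂ * g₂') ^ n = (f / g₂ ^ n) * (f' / g₂' ^ n) := by
    rw [mul_pow]; field_simp
  refine ⟨D + D', f * f', g₁ * g₁', g₂ * g₂', ?_, mul_ne_zero hf hf', mul_ne_zero hg₁ hg₁',
    mul_ne_zero hg₂ hg₂', ?_, ?_, ?_, ?_⟩
  · rw [Pic0.mk_add, hDz, hDz']
  · intro P
    rw [P.ord_mul hf hf', hdiv P, hdiv' P]
    show _ = (n : ℤ) * ((D : Divisor K F) + (D' : Divisor K F)) P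
    rw [Finsupp.add_apply, mul_add]
  · rw [e₁]
    exact ⟨N.c₁.O.mul_mem hu₁ hu₁', by rw [red_mul _ hu₁ hu₁', hr₁, hr₁', mul_one]⟩
  · rw [e₂]
    exact ⟨N.c₂.O.mul_mem hu₂ hu₂', by rw [red_mul _ hu₂ hu₂', hr₂, hr₂', mul_one]⟩
  · intro i
    obtain ⟨G, hG, hord, hgu₁, hgu₂, hcomp⟩ := hnode i
    obtain ⟨G', hG', hord', hgu₁', hgu₂', hcomp'⟩ := hnode' i
    have d₁ : g₁ * g₁' / (G * G') = (g₁ / G) * (g₁' / G') := by field_simp
    have d₂ : g₂ * g₂' / (G * G') = (g₂ / G) * (g₂' / G') := by field_simp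
    refine ⟨G * G', mul_ne_zero hG hG', ?_, ?_, ?_, ?_⟩
    · intro P hP
      rw [P.ord_mul hf hf', P.ord_mul hG hG', hord P hP, hord' P hP, mul_add]
    · rw [d₁]; exact hgu₁.mul hgu₁'
    · rw [d₂]; exact hgu₂.mul hgu₂'
    · rw [d₁, d₂, red_mul _ hgu₁.mem hgu₁'.mem, red_mul _ hgu₂.mem hgu₂'.mem]
      exact compatAt_mul hcomp hcomp'

/-- multiples of a class. -/
theorem nodeMatch_nsmul {n : ℕ} {z : Pic0 K F} (hz : NodeMatch N n z) (k : ℕ) :
    NodeMatch N n (k • z) := by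
  induction k with
  | zero => rw [zero_nsmul]; exact nodeMatch_zero N n
  | succ k ih => rw [succ_nsmul]; exact nodeMatch_add N ih hz

/-- the opposite of an `n`-torsion class. -/
theorem nodeMatch_neg {n : ℕ} (hn : n ≠ 0) {z : Pic0 K F} (hz : NodeMatch N n z)
    (hnz : n • z = 0) : NodeMatch N n (-z) := by
  have h1 : -z = (n - 1) • z := by
    have h2 : (n - 1) • z + z = 0 := by
      rw [← succ_nsmul, Nat.sub_add_cancel (Nat.one_le_iff_ne_zero.2 hn), hnz]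
    exact (eq_neg_of_add_eq_zero_left h2).symm ▸ rfl
  rw [h1]
  exact nodeMatch_nsmul N hz _

variable {Γ : Type*} {γ : Γ → SemilinearAut K F}

/-- **stability under the automorphisms compatible with the nodal reduction.** -/
theorem nodeMatch_smul (hComp : N.Compat γ) (σ : Γ) {n : ℕ} {z : Pic0 K F}
    (hz : NodeMatch N n z) : NodeMatch N n (γ σ • z) := by
  obtain ⟨D, f, g₁, g₂, hDz, hf, hg₁, hg₂, hdiv, ⟨hu₁, hr₁⟩, ⟨hu₂, hr₂⟩, hnode⟩ := hz
  have hne : ∀ x : F, x ≠ 0 → γ σ • x ≠ 0 := fun x hx => by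
    rwa [Ne, smul_eq_zero_iff_eq]
  have e₁ : γ σ • f / (γ σ • g₁) ^ n = γ σ • (f / g₁ ^ n) := by
    rw [smul_div₀', smul_pow']
  have e₂ : γ σ • f / (γ σ • g₂) ^ n = γ σ • (f / g₂ ^ n) := by
    rw [smul_div₀', smul_pow']
  have hred₁ : ∀ x : F, x ∈ N.c₁.O → red N.c₁ (γ σ • x) = red N.c₁ x := fun x hx => by
    rw [red_of_mem _ (hComp.smul_mem₁ σ x hx), red_of_mem _ hx]
    exact hComp.ρ₁_smul σ x hx _
  have hred₂ : ∀ x : F, x ∈ N.c₂.O → red N.c₂ (γ σ • x) = red N.c₂ x := fun x hx => by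
    rw [red_of_mem _ (hComp.smul_mem₂ σ x hx), red_of_mem _ hx]
    exact hComp.ρ₂_smul σ x hx _
  refine ⟨degZeroSMulHom (γ σ) D, γ σ • f, γ σ • g₁, γ σ • g₂, ?_, hne f hf, hne g₁ hg₁,
    hne g₂ hg₂, ?_, ?_, ?_, ?_⟩
  · rw [← pic0_smul_mk, hDz]
  · intro P
    rw [coe_degZeroSMulHom, divisor_smul_apply, ← hdiv]
    have h := ord_smul (γ σ) ((γ σ)⁻¹ • P) f
    rw [smul_inv_smul] at h
    exact h
  · rw [e₁]
    exact ⟨hComp.smul_mem₁ σ _ hu₁, by rw [hred₁ _ hu₁, hr₁]⟩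
  · rw [e₂]
    exact ⟨hComp.smul_mem₂ σ _ hu₂, by rw [hred₂ _ hu₂, hr₂]⟩
  · intro i
    obtain ⟨G, hG, hord, hgu₁, hgu₂, hcomp⟩ := hnode i
    have d₁ : γ σ • g₁ / γ σ • G = γ σ • (g₁ / G) := by rw [smul_div₀']
    have d₂ : γ σ • g₂ / γ σ • G = γ σ • (g₂ / G) := by rw [smul_div₀']
    refine ⟨γ σ • G, hne G hG, ?_, ?_, ?_, ?_⟩
    · intro P hP
      have hP' : N.RedToNode ((γ σ)⁻¹ • P) i := by
        have h1 := hComp.r₁_smul σ ((γ σ)⁻¹ • P)
        rw [smul_inv_smul] at h1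
        show N.r₁ ((γ σ)⁻¹ • P) = _
        rw [← h1]; exact hP
      have h1 := ord_smul (γ σ) ((γ σ)⁻¹ • P) f
      have h2 := ord_smul (γ σ) ((γ σ)⁻¹ • P) G
      rw [smul_inv_smul] at h1 h2
      rw [h1, h2]
      exact hord _ hP'
    · rw [d₁]
      exact ⟨hComp.smul_mem₁ σ _ hgu₁.mem, by rw [hred₁ _ hgu₁.mem]; exact hgu₁.2⟩
    · rw [d₂]
      exact ⟨hComp.smul_mem₂ σ _ hgu₂.mem, by rw [hred₂ _ hgu₂.mem]; exact hgu₂.2⟩
    · rw [d₁, d₂, hred₁ _ hgu₁.mem, hred₂ _ hgu₂.mem]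
      exact hcomp

end Fermat.Agent.M43.NodeMatchGrp1
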