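/-
Programme M43 (target S43), pillar (P-END), chapter TORIC, file 4 (helper1):
**(INJ): a finite inertia-stable group of Kummer-trivial classes of `J₀(M'p)` with matching node
values, killed by an integer prime to the residue characteristic, is trivial.**

* `hasConnOrder_level_match` : `S33Final0.hasConnOrder_level` for any finite `Iner A`-module `M`
  embedded equivariantly into `J₀(M'p)` with `ThetaMatch1.NodeMatch (nodalRed h) n` classes;
* `eq_zero_of_nodeMatch`, `eq_bot_of_nodeMatch` : if moreover `n • M = 0` with `n` a unit of `A`,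
  then `M = 0` (`ConnPrime1.HasConnOrder.eq_zero_of_unit`).
-/
import Mathlib
import Fermat.Agent.M43.ConnMatch1
import Fermat.Agent.M43.ConnPrime1
import Fermat.Agent.M43.NodeMatchGrp1
import Fermat.Agent.T33.S33Final0

set_option autoImplicit false
set_option synthInstance.maxHeartbeats 400000
set_option linter.unusedSectionVars false
set_option linter.unusedVariables false
set_option linter.style.haveILetI false

noncomputable section

open ModularCurve AlgebraicCurve IsLocalRing IntermediateField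

namespace Fermat.Agent.M43.ConnLevel1

open Fermat.Agent.ES.J.TateJZero13 Fermat.Agent.T33.Psi3B Fermat.Agent.T33.Psi3C
  Fermat.Agent.T33.Psi3D Fermat.Agent.T33.Psi3F
  Fermat.Agent.T33.ConnOrd2 Fermat.Agent.FF.InertiaWire8 Fermat.Agent.RED.Interface4
  Fermat.Agent.RR.LSpace Fermat.Agent.RR.Riemann Fermat.Agent.FF.SpecRR1
  Fermat.Agent.X0 Fermat.Agent.X0.FF
  Fermat.Agent.T33.NodalCtx1 Fermat.Agent.T33.NodalCurve6 Fermat.Agent.T33.NodalIface8
  Fermat.Agent.T33.NodalHalf4 Fermat.Agent.T33.S33Wire7 Fermat.Agent.T33.NodalCoord3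
  Fermat.Agent.T33.NodalBase4A Fermat.Agent.T33.FrickeRed3
  Fermat.Agent.M43.ThetaMatch1 Fermat.Agent.M43.ConnMatch1

variable {p M' : ℕ} [NeZero M'] [NeZero p] {A : ValuationSubring Qb}

set_option maxHeartbeats 1600000 in
/-- **(NF) for a finite inertia-module of `NodeMatch` classes of `J₀(M'p)`.** -/
theorem hasConnOrder_level_match (h : LevelHyp p M' A)
    {M : Type} [AddCommGroup M] [Finite M] [DistribMulAction (Iner A) M]
    (emb : M →+ JZero (M' * p)) (emb_inj : Function.Injective emb)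
    (emb_smul : ∀ (σ : Iner A) (z : M), emb (σ • z) = (σ : GQ) • emb z)
    (n : ℕ) (hn : n ≠ 0)
    (hM : ∀ z : M, NodeMatch (Fermat.Agent.T33.NodalInst4G.nodalRed h) n (emb z)) :
    HasConnOrder ↥(W0 A) ↥(Iner A) A M := by
  haveI : Fact p.Prime := ⟨h.prime⟩
  haveI := Fermat.Agent.T33.NodalInst4E.finite_node h
  have hx := Fermat.Agent.T33.NodalBase4A.isGen_tA h
  set Nr := Fermat.Agent.T33.NodalInst4G.nodalRed h with hNr
  have H := Fermat.Agent.RR.LHypGen.lHyp_of_isGen hx
  have H₁ := Fermat.Agent.T33.NodalInst4C.lHypFb h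
  obtain ⟨a, hfix, ha₁, ha₂⟩ := Fermat.Agent.T33.NodalCoord3.exists_const h
    (Set.finite_range (Fermat.Agent.T33.NodalInst4E.Nd h).s1).toFinset
    (Set.finite_range (Fermat.Agent.T33.NodalInst4E.Nd h).s2).toFinset
  have ht0 : tA h ≠ 0 := (isGen_tA h).ne_zero
  have hy0 : yA h ≠ 0 := (Fermat.Agent.T33.NodalDegs3.isGen_yA h).ne_zero
  have hnum := Fermat.Agent.T33.NodalDegs3.hnum h H H₁ H₁ ht0 hy0 (isGen_xOne h).ne_zero
    (isGen_xTwo h).ne_zero
  have hγs : ∀ σ : Iner A, gal (M' * p) (σ : GQ) • sCoord h a = sCoord h a :=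
    fun σ => gal_smul_sCoord h a (σ : GQ) (hfix _ σ.2)
  exact hasConnOrder_of_Rfun_match Nr h.liesOver H H₁ H₁
    (genus Qbar ↥(Fbar (M' * p)))
    (fun D hD => Fermat.Agent.RR.RRMain.finrank_L_of_degree_gt hx D hD)
    (fun D => Fermat.Agent.FF.Bridge5.riemann_inequality_genus hx D)
    (Fermat.Agent.T33.NodalInst8.nonSpecialExists h
      (Fermat.Agent.T33.NodalInst4G.hpush₁ h) (Fermat.Agent.T33.NodalInst4G.hpush₂ h))
    (tA h) (yA h) ht0 hy0 a
    (tA_sub_ne_zero h _) (yA_sub_ne_zero h _) (sCoord h a) rfl (sCoord_mem_O1 h a)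
    (sCoord_mem_O2 h a)
    (xOne h) (xTwo h) (isGen_xOne h) (isGen_xTwo h) (rho1_sCoord h a) (rho2_sCoord h a) ha₁ ha₂
    hnum (fun σ : Iner A => gal (M' * p) (σ : GQ))
    (fun σ z => rfl) (fun σ a => rfl) (Fermat.Agent.T33.NodalInst4G.compat h) hγs
    emb emb_inj emb_smul n hn hM

/-! ### (INJ) -/

open Fermat.Agent.M43.NodeMatchGrp1 in
/-- the group of the `n`-torsion classes with matching node values. -/
def matchGrp (h : LevelHyp p M' A) (n : ℕ) (hn : n ≠ 0) : AddSubgroup (JZero (M' * p)) where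
  carrier := {z | n • z = 0 ∧ NodeMatch (Fermat.Agent.T33.NodalInst4G.nodalRed h) n z}
  zero_mem' := ⟨nsmul_zero n, nodeMatch_zero _ n⟩
  add_mem' := fun ha hb => ⟨by rw [nsmul_add, ha.1, hb.1, add_zero], nodeMatch_add _ ha.2 hb.2⟩
  neg_mem' := fun ha => ⟨by rw [neg_nsmul, ha.1, neg_zero], nodeMatch_neg _ hn ha.2 ha.1⟩

theorem mem_matchGrp_iff (h : LevelHyp p M' A) {n : ℕ} (hn : n ≠ 0) {z : JZero (M' * p)} :
    z ∈ matchGrp h n hn ↔
      n • z = 0 ∧ NodeMatch (Fermat.Agent.T33.NodalInst4G.nodalRed h) n z := Iff.rfl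

open Fermat.Agent.M43.NodeMatchGrp1 in
theorem smul_mem_matchGrp (h : LevelHyp p M' A) {n : ℕ} (hn : n ≠ 0) (σ : Iner A)
    {z : JZero (M' * p)} (hz : z ∈ matchGrp h n hn) : (σ : GQ) • z ∈ matchGrp h n hn := by
  obtain ⟨h1, h2⟩ := hz
  refine ⟨?_, ?_⟩
  · have h3 : (σ : GQ) • (n • z) = n • ((σ : GQ) • z) :=
      map_nsmul (DistribSMul.toAddMonoidHom (JZero (M' * p)) (σ : GQ)) n z
    rw [← h3, h1]
    exact map_zero (DistribSMul.toAddMonoidHom (JZero (M' * p)) (σ : GQ))
  · exact nodeMatch_smul _ (Fermat.Agent.T33.NodalInst4G.compat h) σ h2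

instance finite_matchGrp (h : LevelHyp p M' A) {n : ℕ} (hn : n ≠ 0) :
    Finite ↥(matchGrp h n hn) := by
  haveI : NeZero n := ⟨hn⟩
  have hfin := Fermat.Agent.ES.KUM.FiniteTorsion15.finite_setOf_nsmul_eq_zero (M' * p) n
  haveI : Finite ↥{y : JZero (M' * p) | n • y = 0} := hfin.to_subtype
  exact Finite.of_injective
    (fun z : ↥(matchGrp h n hn) =>
      (⟨(z : JZero (M' * p)), z.2.1⟩ : ↥{y : JZero (M' * p) | n • y = 0}))
    (fun z z' hzz => by
      have h' := congrArg Subtype.val hzz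
      exact Subtype.ext h')

/-- **(INJ)**: a class of `J₀(M'p)` killed by an integer `n` prime to the residue characteristic,
Kummer-trivial for `n` with matching node values, is zero. -/
theorem eq_zero_of_nodeMatch (h : LevelHyp p M' A) (n : ℕ) (hnA : A.valuation (n : Qb) = 1)
    (z : JZero (M' * p)) (hnz : n • z = 0)
    (hz : NodeMatch (Fermat.Agent.T33.NodalInst4G.nodalRed h) n z) : z = 0 := by
  have hn : n ≠ 0 := by
    rintro rfl
    rw [Nat.cast_zero, map_zero] at hnA
    exact zero_ne_one hnA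
  letI : DistribMulAction (Iner A) ↥(matchGrp h n hn) :=
    { smul := fun σ z => ⟨(σ : GQ) • (z : JZero (M' * p)), smul_mem_matchGrp h hn σ z.2⟩
      one_smul := fun z => Subtype.ext (one_smul GQ (z : JZero (M' * p)))
      mul_smul := fun σ τ z => Subtype.ext (mul_smul (σ : GQ) (τ : GQ) (z : JZero (M' * p)))
      smul_zero := fun σ => Subtype.ext (smul_zero (σ : GQ))
      smul_add := fun σ z z' =>
        Subtype.ext (smul_add (σ : GQ) (z : JZero (M' * p)) (z' : JZero (M' * p))) }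
  have hconn : HasConnOrder ↥(W0 A) ↥(Iner A) A ↥(matchGrp h n hn) :=
    hasConnOrder_level_match h (matchGrp h n hn).subtype Subtype.val_injective
      (fun σ z => rfl) n hn (fun z => z.2.2)
  have h0 := Fermat.Agent.M43.ConnPrime1.HasConnOrder.eq_zero_of_unit (Iner A)
    (fun r : W0 A => r.2.1) hconn n hnA
    (fun z => Subtype.ext (by
      show ((n • z : ↥(matchGrp h n hn)) : JZero (M' * p)) = 0
      rw [AddSubgroup.coe_nsmul]; exact z.2.1))
    (⟨z, hnz, hz⟩ : ↥(matchGrp h n hn))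
  exact congrArg Subtype.val h0

end Fermat.Agent.M43.ConnLevel1
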