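/-
Programme M43 (target S43), pillar (P-END) NEW ⇒ RAM, brick FROB-E, abstract part (helper1):
**the étale image `Rel R p x e` of `U44/EtaleAbs1` is equivariant under a pair of semilinear
automorphisms compatible with the reduction of the component.**

`R : HalfRed A F Fb` one component, `g : SemilinearAut K F` (a Frobenius lift acting on `F = ℚ̄·F_N`),
`gb : SemilinearAut κ Fb` (the coefficientwise Frobenius of the special fibre) with
`g • R.O ⊆ R.O` and `R.ρ (g • y) = gb • R.ρ y` (`SemiCompat`).  Then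

* `KData.smul` : Kummer data are transported;
* `Rel.smul` : `Rel R p x e → Rel R p (g • x) (gb • e)`;
* `smul_mem_Jf`, `E_smul` : the domain `Jf R p` is stable and `E (g • x) = gb • E x`.
-/
import Mathlib
import Fermat.Agent.U44.EtaleAbs1

set_option autoImplicit false
set_option linter.unusedSectionVars false

open AlgebraicCurve IsLocalRing

noncomputable section

namespace Fermat.Agent.M43.FrobRel1

open Fermat.Agent.T33.NodalCtx1 Fermat.Agent.U44.GaussRed3 Fermat.Agent.U44.EtaleAbs1
  Fermat.Agent.RR.LSpace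

variable {K : Type*} [Field K] {A : ValuationSubring K}
variable {F : Type*} [Field F] [Algebra K F]
variable {Fb : Type*} [Field Fb] [Algebra (ResidueField A) Fb] (R : HalfRed A F Fb)

/-- a pair of semilinear automorphisms compatible with the reduction of the component `R`. -/
structure SemiCompat (g : SemilinearAut K F) (gb : SemilinearAut (ResidueField A) Fb) : Prop where
  smul_mem : ∀ y : F, y ∈ R.O → g • y ∈ R.O
  ρ_smul : ∀ (y : F) (h : y ∈ R.O) (h' : g • y ∈ R.O), R.ρ ⟨g • y, h'⟩ = gb • R.ρ ⟨y, h⟩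

variable {R} {g : SemilinearAut K F} {gb : SemilinearAut (ResidueField A) Fb}

theorem SemiCompat.red_smul (hc : SemiCompat R g gb) {y : F} (hy : y ∈ R.O) :
    red R (g • y) = gb • red R y := by
  rw [red_of_mem R (hc.smul_mem y hy), red_of_mem R hy]
  exact hc.ρ_smul y hy _

theorem SemiCompat.isGU (hc : SemiCompat R g gb) {y : F} (h : IsGU R y) : IsGU R (g • y) := by
  refine ⟨hc.smul_mem y h.mem, ?_⟩
  rw [hc.red_smul h.mem]
  intro h0
  apply h.2
  have := congrArg (fun z => gb⁻¹ • z) h0
  simpa using this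

theorem smul_const_mul (g : SemilinearAut K F) (c : K) (f : F) :
    algebraMap K F (SemilinearAut.baseAut g c) * g • f = g • (algebraMap K F c * f) := by
  rw [smul_mul', SemilinearAut.smul_algebraMap]

/-- **Kummer data are transported by a compatible pair.** -/
theorem KData.smul (hc : SemiCompat R g gb) {p : ℕ} {D : Divisor.degZero (K := K) (F := F)}
    {f : F} {c : K} (h : KData R p D f c) :
    KData R p (SemilinearAut.degZeroSMulHom g D) (g • f) (SemilinearAut.baseAut g c) := by
  refine ⟨?_, fun P => ?_, ?_⟩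
  · intro h0
    apply h.f_ne
    have := congrArg (fun z => g⁻¹ • z) h0
    simpa using this
  · have hP : P = g • (g⁻¹ • P) := (smul_inv_smul g P).symm
    rw [hP, SemilinearAut.ord_smul, SemilinearAut.coe_degZeroSMulHom,
      SemilinearAut.divisor_smul_apply_smul, h.ord_f]
  · rw [smul_const_mul]
    exact hc.isGU h.gu

/-- **the étale image is equivariant.** -/
theorem Rel.smul (hc : SemiCompat R g gb) {p : ℕ} {x : Pic0 K F}
    {e : Pic0 (ResidueField A) Fb} (h : Rel R p x e) : Rel R p (g • x) (gb • e) := by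
  obtain ⟨D, f, c, Db, hk, rfl, hQ, rfl⟩ := h
  refine ⟨SemilinearAut.degZeroSMulHom g D, g • f, SemilinearAut.baseAut g c,
    SemilinearAut.degZeroSMulHom gb Db, KData.smul hc hk, SemilinearAut.pic0_smul_mk g D,
    fun Q => ?_, SemilinearAut.pic0_smul_mk gb Db⟩
  have hQ' : Q = gb • (gb⁻¹ • Q) := (smul_inv_smul gb Q).symm
  rw [smul_const_mul, hc.red_smul hk.gu.mem, hQ', SemilinearAut.ord_smul,
    SemilinearAut.coe_degZeroSMulHom, SemilinearAut.divisor_smul_apply_smul, hQ]

theorem smul_mem_Jf (hc : SemiCompat R g gb) {p : ℕ} {x : Pic0 K F} (hx : x ∈ Jf R p) :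
    g • x ∈ Jf R p := by
  obtain ⟨e, he⟩ := hx
  exact ⟨gb • e, Rel.smul hc he⟩

/-- **`E (g • x) = gb • E x`.** -/
theorem E_smul (hc : SemiCompat R g gb) (H : LHyp K F) {p : ℕ} (hp : p ≠ 0) (x : Jf R p) :
    E R H hp ⟨g • (x : Pic0 K F), smul_mem_Jf hc x.2⟩ = gb • E R H hp x :=
  E_eq_of_rel H hp _ (Rel.smul hc (E_spec H hp x))

/-- powers of a compatible pair are compatible. -/
theorem SemiCompat.pow (hc : SemiCompat R g gb) (n : ℕ) : SemiCompat R (g ^ n) (gb ^ n) := by
  induction n with
  | zero =>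
    refine ⟨fun y hy => by rwa [pow_zero, one_smul], fun y h h' => ?_⟩
    simp only [pow_zero, one_smul]
  | succ n ih =>
    refine ⟨fun y hy => ?_, fun y h h' => ?_⟩
    · rw [pow_succ, mul_smul]
      exact ih.smul_mem _ (hc.smul_mem y hy)
    · have h1 : g • y ∈ R.O := hc.smul_mem y h
      have e1 : (g ^ (n + 1)) • y = (g ^ n) • (g • y) := by rw [pow_succ, mul_smul]
      have h2 : (g ^ n) • (g • y) ∈ R.O := ih.smul_mem _ h1
      have e2 : R.ρ ⟨(g ^ (n + 1)) • y, h'⟩ = R.ρ ⟨(g ^ n) • (g • y), h2⟩ :=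
        congrArg R.ρ (Subtype.ext e1)
      rw [e2, ih.ρ_smul _ h1 h2, hc.ρ_smul y h h1, pow_succ, mul_smul]

end Fermat.Agent.M43.FrobRel1
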