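/-
Programme M43 (target S43), pillar (P-END) NEW ⇒ RAM, brick FROB-E, instance (helper1):
**the decomposition group at `A` acts on the two components `c1 h`, `c2 h` of `X₀(M'q)` through
the residue field; a Frobenius lift induces the coefficientwise Frobenius of the special fibre.**

`h : LevelHyp q M' A`.  From `T33/Psi3G.decomp_smul_mem_OOne`, `rhoOne_decomp_smul` (+ the `OTwo`
forms) and the dictionary `T33/NodalCompat1`:

* `semiCompat_c1_decomp`, `semiCompat_c2_decomp` : `FrobRel1.SemiCompat (c_i h) (gal (M'q) g)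
  (coeffSemi κ M' (psiRes A g))` for `g` in the decomposition group;
* `semiCompat_c1_frob`, `semiCompat_c2_frob` : for `σ` with `A.IsFrobeniusAt σ q` the second member is
  `frobSemi κ q M'`;
* `rel₁_frob`, `rel₂_frob` : `Rel (c_i h) n x e → Rel (c_i h) n (σ • x) (frobSemi • e)`.
-/
import Mathlib
import Fermat.Agent.M43.FrobRel1
import Fermat.Agent.T33.NodalCompat1
import Fermat.Agent.ES.RED.GaloisRed21

set_option autoImplicit false
set_option linter.unusedSectionVars false
set_option linter.style.haveILetI false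
set_option synthInstance.maxHeartbeats 400000

noncomputable section

namespace Fermat.Agent.M43.FrobInst1

open HahnSeries ModularCurve AlgebraicCurve IsLocalRing
open Fermat.Agent.RED.Interface4 Fermat.Agent.ES.RED Fermat.Agent.ES.RED.GaloisRed21
open Fermat.Agent.T33.NodalCtx1 Fermat.Agent.T33.NodalHalf4 Fermat.Agent.T33.Psi3C
  Fermat.Agent.T33.Psi3G Fermat.Agent.T33.NodalCompat1
  Fermat.Agent.ES.KRON.FrobPlace13 Fermat.Agent.M43.FrobRel1 Fermat.Agent.U44.EtaleAbs1

variable {q M' : ℕ} [NeZero M'] [NeZero q] {A : ValuationSubring Qbar}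

/-- **the decomposition group on the first component.** -/
theorem semiCompat_c1_decomp (h : LevelHyp q M' A) (g : A.decompositionSubgroup ℚ) :
    SemiCompat (c1 h) (gal (M' * q) (g : Qbar ≃ₐ[ℚ] Qbar))
      (coeffSemi (Setup8.kA A) M' (psiRes A g)) := by
  refine ⟨fun y hy => ?_, fun y hy hy' => ?_⟩
  · exact (mem_O1_iff_mem_OOne h _).2 (decomp_smul_mem_OOne g ((mem_O1_iff_mem_OOne h y).1 hy))
  · apply Subtype.ext
    have h1 := coe_rho1 h _ hy' ((mem_O1_iff_mem_OOne h _).1 hy')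
    have h2 := coe_rho1 h _ hy ((mem_O1_iff_mem_OOne h _).1 hy)
    refine h1.trans ?_
    rw [rhoOne_decomp_smul g y ((mem_O1_iff_mem_OOne h _).1 hy), coe_coeffSemi_smul]
    exact congrArg _ h2.symm

/-- **the decomposition group on the second component.** -/
theorem semiCompat_c2_decomp (h : LevelHyp q M' A) (g : A.decompositionSubgroup ℚ) :
    SemiCompat (c2 h) (gal (M' * q) (g : Qbar ≃ₐ[ℚ] Qbar))
      (coeffSemi (Setup8.kA A) M' (psiRes A g)) := by
  refine ⟨fun y hy => ?_, fun y hy hy' => ?_⟩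
  · exact (mem_O2_iff_mem_OTwo h _).2 (decomp_smul_mem_OTwo g ((mem_O2_iff_mem_OTwo h y).1 hy))
  · apply Subtype.ext
    have h1 := coe_rho2 h _ hy' ((mem_O2_iff_mem_OTwo h _).1 hy')
    have h2 := coe_rho2 h _ hy ((mem_O2_iff_mem_OTwo h _).1 hy)
    refine h1.trans ?_
    rw [rhoTwo_decomp_smul g y ((mem_O2_iff_mem_OTwo h _).1 hy), coe_coeffSemi_smul]
    exact congrArg _ h2.symm

variable [ExpChar (Setup8.kA A) q] [PerfectField (Setup8.kA A)]

/-- **a Frobenius lift on the first component.** -/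
theorem semiCompat_c1_frob (h : LevelHyp q M' A) {σ : Qbar ≃ₐ[ℚ] Qbar}
    (hσ : A.IsFrobeniusAt σ q) :
    SemiCompat (c1 h) (gal (M' * q) σ) (frobSemi (Setup8.kA A) q M') := by
  have := semiCompat_c1_decomp h (⟨σ, hσ.mem_decompositionSubgroup⟩ : A.decompositionSubgroup ℚ)
  rwa [coeffSemi_psiRes_of_isFrobeniusAt (M := M') hσ] at this

/-- **a Frobenius lift on the second component.** -/
theorem semiCompat_c2_frob (h : LevelHyp q M' A) {σ : Qbar ≃ₐ[ℚ] Qbar}
    (hσ : A.IsFrobeniusAt σ q) :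
    SemiCompat (c2 h) (gal (M' * q) σ) (frobSemi (Setup8.kA A) q M') := by
  have := semiCompat_c2_decomp h (⟨σ, hσ.mem_decompositionSubgroup⟩ : A.decompositionSubgroup ℚ)
  rwa [coeffSemi_psiRes_of_isFrobeniusAt (M := M') hσ] at this

/-- **(FROB-E) on the first component.** -/
theorem rel₁_frob (h : LevelHyp q M' A) {σ : Qbar ≃ₐ[ℚ] Qbar} (hσ : A.IsFrobeniusAt σ q)
    {n : ℕ} {x : JZero (M' * q)} {e : JZeroC (Setup8.kA A) M'} (hr : Rel (c1 h) n x e) :
    Rel (c1 h) n (gal (M' * q) σ • x) (frobSemi (Setup8.kA A) q M' • e) :=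
  Rel.smul (semiCompat_c1_frob h hσ) hr

/-- **(FROB-E) on the second component.** -/
theorem rel₂_frob (h : LevelHyp q M' A) {σ : Qbar ≃ₐ[ℚ] Qbar} (hσ : A.IsFrobeniusAt σ q)
    {n : ℕ} {x : JZero (M' * q)} {e : JZeroC (Setup8.kA A) M'} (hr : Rel (c2 h) n x e) :
    Rel (c2 h) n (gal (M' * q) σ • x) (frobSemi (Setup8.kA A) q M' • e) :=
  Rel.smul (semiCompat_c2_frob h hσ) hr

end Fermat.Agent.M43.FrobInst1
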