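import Mathlib
import Fermat.Agent.T33.NodalPlaces1C

/-!
# M43 / P-MP (TORIC-strong): transport of the partial reductions of places of a two-chart model

Abstract `A`-level vocabulary of `T33/NodalPlaces1B` (`Chart`, `TwoCharts`, `Red₁`, `Red₂`, `r₁`, `r₂`).
`T33/NodalPlaces1C` treats semilinear automorphisms FIXING the model (inertia).  Here a semilinear
automorphism `g` of `F / K` MOVES the model: it preserves the two chart rings, acts on the residue
field through `ε`, and the reductions of the two components are transported by residue companions,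
either STRAIGHT (`ρ_j (g • y) = gb_j • ρ_j y`: the decomposition group, a Frobenius lift) or SWAPPED
(`ρ₂ (g • y) = gb • ρ₁ y`, `ρ₁ (g • y) = gb' • ρ₂ y`: an Atkin-Lehner involution exchanging the two
components).

* `smul_mem_vanishing`;
* `ChartMoves C g ε`, `movePt` (the point `ε ∘ χ ∘ g⁻¹`), `centred_move`, `val_move`;
* `Moves T g ε`; `red₁_move`, `red₂_move` (straight), `red₁₂_move`, `red₂₁_move` (swapped);
* `r₁_move`, `r₂_move`, `r₁₂_move`, `r₂₁_move` : the same for `T.r₁`, `T.r₂`.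
-/

set_option autoImplicit false
set_option linter.unusedSectionVars false

open AlgebraicCurve IsLocalRing

noncomputable section

namespace Fermat.Agent.M43.PlaceMove5

open Fermat.Agent.T33.NodalCtx1 Fermat.Agent.T33.NodalCurve6 Fermat.Agent.T33.NodalAbs1A
  Fermat.Agent.T33.NodalPlaces1 Fermat.Agent.X0.FF AlgebraicCurve.SemilinearAut

section Vanishing

variable {κ Fb : Type*} [Field κ] [Field Fb] [Algebra κ Fb]

theorem smul_mem_vanishing (gb : SemilinearAut κ Fb) {Q : Place κ Fb} {x : Fb}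
    (hx : x ∈ vanishing Q) : gb • x ∈ vanishing (gb • Q) := by
  rcases hx with rfl | hx
  · left; exact smul_zero _
  · right
    rw [SemilinearAut.ord_smul]
    exact hx

end Vanishing

variable {K : Type*} [Field K] {A : ValuationSubring K}
variable {F : Type*} [Field F] [Algebra K F]

theorem baseAut_baseAut_inv (g : SemilinearAut K F) (a : K) :
    baseAut g (baseAut g⁻¹ a) = a := by
  have h1 : g • (g⁻¹ • algebraMap K F a) = algebraMap K F a := smul_inv_smul g _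
  rw [SemilinearAut.smul_algebraMap, SemilinearAut.smul_algebraMap] at h1
  exact (algebraMap K F).injective h1

section OneChart

variable {Fb₁ Fb₂ : Type*} [Field Fb₁] [Field Fb₂]
  [Algebra (ResidueField A) Fb₁] [Algebra (ResidueField A) Fb₂]
variable {c₁ : HalfRed A F Fb₁} {c₂ : HalfRed A F Fb₂}

/-- **`g` moves the chart `C` into itself**, acting on the residue field through `ε`. -/
structure ChartMoves (C : Chart c₁ c₂) (g : SemilinearAut K F)
    (ε : ResidueField A ≃+* ResidueField A) : Prop where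
  mem_A : ∀ a : K, a ∈ A → baseAut g a ∈ A
  mem_A' : ∀ a : K, a ∈ A → baseAut g⁻¹ a ∈ A
  res : ∀ (a : K) (ha : a ∈ A) (ha' : baseAut g a ∈ A),
    residue A ⟨baseAut g a, ha'⟩ = ε (residue A ⟨a, ha⟩)
  mem : ∀ b : F, b ∈ C.B → g • b ∈ C.B
  mem' : ∀ b : F, b ∈ C.B → g⁻¹ • b ∈ C.B

variable {C : Chart c₁ c₂} {g : SemilinearAut K F} {ε : ResidueField A ≃+* ResidueField A}

/-- `g⁻¹` on the chart ring. -/
def invHom (hm : ChartMoves C g ε) : C.B →+* C.B where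
  toFun b := ⟨g⁻¹ • (b : F), hm.mem' b b.2⟩
  map_one' := Subtype.ext (smul_one _)
  map_mul' x y := Subtype.ext (smul_mul' _ _ _)
  map_zero' := Subtype.ext (smul_zero _)
  map_add' x y := Subtype.ext (smul_add _ _ _)

@[simp] theorem coe_invHom (hm : ChartMoves C g ε) (b : C.B) :
    ((invHom hm b : C.B) : F) = g⁻¹ • (b : F) := rfl

/-- **the image of a closed point**: `ε ∘ χ ∘ g⁻¹`. -/
def movePt (hm : ChartMoves C g ε) (χ : C.Pt) : C.Pt :=
  ⟨(ε : ResidueField A →+* ResidueField A).comp (χ.1.comp (invHom hm)), fun a => by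
    show ε (χ.1 (invHom hm (C.const a))) = residue A a
    have h1 : invHom hm (C.const a) = C.const ⟨baseAut g⁻¹ (a : K), hm.mem_A' _ a.2⟩ := by
      apply Subtype.ext
      show g⁻¹ • algebraMap K F (a : K) = _
      rw [SemilinearAut.smul_algebraMap]
      rfl
    rw [h1, χ.2, ← hm.res _ (hm.mem_A' _ a.2)
      (by rw [baseAut_baseAut_inv]; exact a.2)]
    congr 1
    exact Subtype.ext (baseAut_baseAut_inv g (a : K))⟩

theorem movePt_apply (hm : ChartMoves C g ε) (χ : C.Pt) (b : C.B) :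
    movePt hm χ b = ε (χ (invHom hm b)) := rfl

/-- **the image of a place centred at `χ` is centred at the image of `χ`.** -/
theorem centred_move (hm : ChartMoves C g ε) {P : Place K F} {χ : C.Pt}
    (h : C.Centred P χ) : C.Centred (g • P) (movePt hm χ) := by
  intro b
  obtain ⟨a', ha', hχa'⟩ := h (invHom hm b)
  refine ⟨⟨baseAut g (a' : K), hm.mem_A _ a'.2⟩, ?_, ?_⟩
  · have := ha'.smul g
    rw [coe_invHom, smul_inv_smul] at this
    exact this
  · rw [movePt_apply, hχa', hm.res (a' : K) a'.2 (hm.mem_A _ a'.2)]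

/-- **transport of the place of a point on a component**, generic form: `ρ, ρ'` two reductions of
the chart ring with `ρ' (g • b) = gb • ρ b`. -/
theorem val_move (hm : ChartMoves C g ε) {Fb : Type*} [Field Fb]
    [Algebra (ResidueField A) Fb] (ρ ρ' : C.B →+* Fb)
    (gb : SemilinearAut (ResidueField A) Fb) (hε : ∀ a, baseAut gb a = ε a)
    (hρ : ∀ b : C.B, ρ' ⟨g • (b : F), hm.mem b b.2⟩ = gb • ρ b)
    {χ : C.Pt} {Q : Place (ResidueField A) Fb}
    (h : ∀ b : C.B, ρ b - algebraMap (ResidueField A) Fb (χ b) ∈ vanishing Q) (b : C.B) :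
    ρ' b - algebraMap (ResidueField A) Fb (movePt hm χ b) ∈ vanishing (gb • Q) := by
  have h1 : b = ⟨g • ((invHom hm b : C.B) : F), hm.mem _ (invHom hm b).2⟩ := by
    apply Subtype.ext
    show (b : F) = g • (g⁻¹ • (b : F))
    rw [smul_inv_smul]
  have h2 : ρ' b = gb • ρ (invHom hm b) := by
    conv_lhs => rw [h1]
    exact hρ (invHom hm b)
  have h3 : algebraMap (ResidueField A) Fb (movePt hm χ b) =
      gb • algebraMap (ResidueField A) Fb (χ (invHom hm b)) := by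
    rw [SemilinearAut.smul_algebraMap, hε, movePt_apply]
  rw [h2, h3, ← smul_sub]
  exact smul_mem_vanishing gb (h (invHom hm b))

end OneChart

section TwoChartsStraight

variable {Fb₁ Fb₂ : Type*} [Field Fb₁] [Field Fb₂]
  [Algebra (ResidueField A) Fb₁] [Algebra (ResidueField A) Fb₂]
variable {c₁ : HalfRed A F Fb₁} {c₂ : HalfRed A F Fb₂}

/-- **`g` moves the two-chart model `T` into itself.** -/
structure Moves (T : TwoCharts c₁ c₂) (g : SemilinearAut K F)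
    (ε : ResidueField A ≃+* ResidueField A) : Prop where
  m₀ : ChartMoves T.C0 g ε
  m₁ : ChartMoves T.C1 g ε
  fin0 : ∀ P : Place K F, T.Fin0 P ↔ T.Fin0 (g • P)
  s_zero : ∀ χ : T.C1.Pt, χ T.s1 = 0 → movePt m₁ χ T.s1 = 0

variable {T : TwoCharts c₁ c₂} {g : SemilinearAut K F} {ε : ResidueField A ≃+* ResidueField A}

/-- **straight transport on the first component.** -/
theorem red₁_move (hm : Moves T g ε) (gb : SemilinearAut (ResidueField A) Fb₁)
    (hε : ∀ a, baseAut gb a = ε a)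
    (hρ : ∀ (y : F) (hy : y ∈ c₁.O) (hy' : g • y ∈ c₁.O), c₁.ρ ⟨g • y, hy'⟩ = gb • c₁.ρ ⟨y, hy⟩)
    {P : Place K F} {Q : Place (ResidueField A) Fb₁} (h : T.Red₁ P Q) :
    T.Red₁ (g • P) (gb • Q) := by
  rcases h with ⟨hP, χ, hχ, hv⟩ | ⟨hP, χ, hχ, hs, hv⟩
  · refine Or.inl ⟨(hm.fin0 P).1 hP, movePt hm.m₀ χ, centred_move hm.m₀ hχ, ?_⟩
    exact val_move hm.m₀ T.C0.ρ₁ T.C0.ρ₁ gb hε (fun b => hρ _ _ _) hv
  · refine Or.inr ⟨fun h => hP ((hm.fin0 P).2 h), movePt hm.m₁ χ, centred_move hm.m₁ hχ,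
      hm.s_zero χ hs, ?_⟩
    exact val_move hm.m₁ T.C1.ρ₁ T.C1.ρ₁ gb hε (fun b => hρ _ _ _) hv

/-- **straight transport on the second component.** -/
theorem red₂_move (hm : Moves T g ε) (gb : SemilinearAut (ResidueField A) Fb₂)
    (hε : ∀ a, baseAut gb a = ε a)
    (hρ : ∀ (y : F) (hy : y ∈ c₂.O) (hy' : g • y ∈ c₂.O), c₂.ρ ⟨g • y, hy'⟩ = gb • c₂.ρ ⟨y, hy⟩)
    {P : Place K F} {Q : Place (ResidueField A) Fb₂} (h : T.Red₂ P Q) :
    T.Red₂ (g • P) (gb • Q) := by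
  rcases h with ⟨hP, χ, hχ, hv⟩ | ⟨hP, χ, hχ, hs, hv⟩
  · refine Or.inl ⟨(hm.fin0 P).1 hP, movePt hm.m₀ χ, centred_move hm.m₀ hχ, ?_⟩
    exact val_move hm.m₀ T.C0.ρ₂ T.C0.ρ₂ gb hε (fun b => hρ _ _ _) hv
  · refine Or.inr ⟨fun h => hP ((hm.fin0 P).2 h), movePt hm.m₁ χ, centred_move hm.m₁ hχ,
      hm.s_zero χ hs, ?_⟩
    exact val_move hm.m₁ T.C1.ρ₂ T.C1.ρ₂ gb hε (fun b => hρ _ _ _) hv

theorem r₁_move (hm : Moves T g ε) (gb : SemilinearAut (ResidueField A) Fb₁)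
    (hε : ∀ a, baseAut gb a = ε a)
    (hρ : ∀ (y : F) (hy : y ∈ c₁.O) (hy' : g • y ∈ c₁.O), c₁.ρ ⟨g • y, hy'⟩ = gb • c₁.ρ ⟨y, hy⟩)
    {P : Place K F} {Q : Place (ResidueField A) Fb₁} (h : T.r₁ P = some Q) :
    T.r₁ (g • P) = some (gb • Q) :=
  (T.r₁_eq_some_iff _ _).2 (red₁_move hm gb hε hρ ((T.r₁_eq_some_iff _ _).1 h))

theorem r₂_move (hm : Moves T g ε) (gb : SemilinearAut (ResidueField A) Fb₂)
    (hε : ∀ a, baseAut gb a = ε a)
    (hρ : ∀ (y : F) (hy : y ∈ c₂.O) (hy' : g • y ∈ c₂.O), c₂.ρ ⟨g • y, hy'⟩ = gb • c₂.ρ ⟨y, hy⟩)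
    {P : Place K F} {Q : Place (ResidueField A) Fb₂} (h : T.r₂ P = some Q) :
    T.r₂ (g • P) = some (gb • Q) :=
  (T.r₂_eq_some_iff _ _).2 (red₂_move hm gb hε hρ ((T.r₂_eq_some_iff _ _).1 h))

end TwoChartsStraight

section TwoChartsSwap

variable {Fb : Type*} [Field Fb] [Algebra (ResidueField A) Fb]
variable {c₁ c₂ : HalfRed A F Fb}
variable {T : TwoCharts c₁ c₂} {g : SemilinearAut K F} {ε : ResidueField A ≃+* ResidueField A}

/-- **swapped transport, first to second component.** -/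
theorem red₁₂_move (hm : Moves T g ε) (gb : SemilinearAut (ResidueField A) Fb)
    (hε : ∀ a, baseAut gb a = ε a)
    (hρ : ∀ (y : F) (hy : y ∈ c₁.O) (hy' : g • y ∈ c₂.O), c₂.ρ ⟨g • y, hy'⟩ = gb • c₁.ρ ⟨y, hy⟩)
    {P : Place K F} {Q : Place (ResidueField A) Fb} (h : T.Red₁ P Q) :
    T.Red₂ (g • P) (gb • Q) := by
  rcases h with ⟨hP, χ, hχ, hv⟩ | ⟨hP, χ, hχ, hs, hv⟩
  · refine Or.inl ⟨(hm.fin0 P).1 hP, movePt hm.m₀ χ, centred_move hm.m₀ hχ, ?_⟩
    exact val_move hm.m₀ T.C0.ρ₁ T.C0.ρ₂ gb hε (fun b => hρ _ _ _) hv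
  · refine Or.inr ⟨fun h => hP ((hm.fin0 P).2 h), movePt hm.m₁ χ, centred_move hm.m₁ hχ,
      hm.s_zero χ hs, ?_⟩
    exact val_move hm.m₁ T.C1.ρ₁ T.C1.ρ₂ gb hε (fun b => hρ _ _ _) hv

/-- **swapped transport, second to first component.** -/
theorem red₂₁_move (hm : Moves T g ε) (gb : SemilinearAut (ResidueField A) Fb)
    (hε : ∀ a, baseAut gb a = ε a)
    (hρ : ∀ (y : F) (hy : y ∈ c₂.O) (hy' : g • y ∈ c₁.O), c₁.ρ ⟨g • y, hy'⟩ = gb • c₂.ρ ⟨y, hy⟩)
    {P : Place K F} {Q : Place (ResidueField A) Fb} (h : T.Red₂ P Q) :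
    T.Red₁ (g • P) (gb • Q) := by
  rcases h with ⟨hP, χ, hχ, hv⟩ | ⟨hP, χ, hχ, hs, hv⟩
  · refine Or.inl ⟨(hm.fin0 P).1 hP, movePt hm.m₀ χ, centred_move hm.m₀ hχ, ?_⟩
    exact val_move hm.m₀ T.C0.ρ₂ T.C0.ρ₁ gb hε (fun b => hρ _ _ _) hv
  · refine Or.inr ⟨fun h => hP ((hm.fin0 P).2 h), movePt hm.m₁ χ, centred_move hm.m₁ hχ,
      hm.s_zero χ hs, ?_⟩
    exact val_move hm.m₁ T.C1.ρ₂ T.C1.ρ₁ gb hε (fun b => hρ _ _ _) hv

theorem r₁₂_move (hm : Moves T g ε) (gb : SemilinearAut (ResidueField A) Fb)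
    (hε : ∀ a, baseAut gb a = ε a)
    (hρ : ∀ (y : F) (hy : y ∈ c₁.O) (hy' : g • y ∈ c₂.O), c₂.ρ ⟨g • y, hy'⟩ = gb • c₁.ρ ⟨y, hy⟩)
    {P : Place K F} {Q : Place (ResidueField A) Fb} (h : T.r₁ P = some Q) :
    T.r₂ (g • P) = some (gb • Q) :=
  (T.r₂_eq_some_iff _ _).2 (red₁₂_move hm gb hε hρ ((T.r₁_eq_some_iff _ _).1 h))

theorem r₂₁_move (hm : Moves T g ε) (gb : SemilinearAut (ResidueField A) Fb)
    (hε : ∀ a, baseAut gb a = ε a)
    (hρ : ∀ (y : F) (hy : y ∈ c₂.O) (hy' : g • y ∈ c₁.O), c₁.ρ ⟨g • y, hy'⟩ = gb • c₂.ρ ⟨y, hy⟩)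
    {P : Place K F} {Q : Place (ResidueField A) Fb} (h : T.r₂ P = some Q) :
    T.r₁ (g • P) = some (gb • Q) :=
  (T.r₁_eq_some_iff _ _).2 (red₂₁_move hm gb hε hρ ((T.r₂_eq_some_iff _ _).1 h))

end TwoChartsSwap

end Fermat.Agent.M43.PlaceMove5
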