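import Mathlib
import Fermat.Agent.M43.PlaceMove5
import Fermat.Agent.M43.AtkinJac5
import Fermat.Agent.M43.FrobInst1
import Fermat.Agent.T33.NodalInst4G
import Fermat.Agent.U44.WbPic1

/-!
# M43 / P-MP (TORIC-strong): the decomposition group and `w_q` on the reductions of places

`h : LevelHyp q M' A`, `T h` the two-chart model of `X₀(M'q)` over `A` (`T33/NodalInst4E`), `r₁, r₂`
its partial reductions of places (`= (nodalRed h).r₁, r₂`).

* `moves_decomp h g : Moves (T h) (gal (M'q) g) (psiRes A g)` for `g` in the decomposition group;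
  `r₁_decomp`, `r₂_decomp` : `r_i P = some Q → r_i (g • P) = some (coeffSemi κ M' (psiRes A g) • Q)`;
  `r₁_frob`, `r₂_frob` : for a Frobenius lift `σ`, `r_i (σ • P) = some (frobSemi • Q)`;
* `moves_w h : Moves (T h) (wS …) (refl)`; `r₁₂_w`, `r₂₁_w` :
  `r₁ P = some Q → r₂ (w • P) = some (W̄ • Q)`, `r₂ P = some Q → r₁ (w • P) = some (W̄ • Q)`.
-/

set_option autoImplicit false
set_option linter.unusedSectionVars false
set_option linter.style.haveILetI false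
set_option linter.unusedVariables false
set_option synthInstance.maxHeartbeats 400000

noncomputable section

namespace Fermat.Agent.M43.PlaceInst5

open HahnSeries ModularCurve AlgebraicCurve IsLocalRing IntermediateField
open Fermat.Agent.RED.Interface4 Fermat.Agent.ES.RED Fermat.Agent.ES.RED.GaloisRed21
  Fermat.Agent.RED.PUR.ChartGeneric22
  Fermat.Agent.T33.NodalHalf4 Fermat.Agent.T33.NodalCurve6 Fermat.Agent.T33.NodalCtx1
  Fermat.Agent.T33.NodalPlaces1 Fermat.Agent.T33.NodalBase4A Fermat.Agent.X0.FF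
  Fermat.Agent.T33.NodalInst4A Fermat.Agent.T33.NodalInst4E Fermat.Agent.T33.NodalInst4G
  Fermat.Agent.T33.FrickeRed3 Fermat.Agent.T33.Psi3C Fermat.Agent.T33.Psi3G
  Fermat.Agent.T33.NodalCompat1 Fermat.Agent.T33.NodalWit4A
  Fermat.Agent.ES.KRON.FrobPlace13 Fermat.Agent.U44.WbPic1
  Fermat.Agent.T33.NodalAbs1A
  Fermat.Agent.M43.PlaceMove5 Fermat.Agent.M43.AtkinDef5 Fermat.Agent.M43.AtkinVal5
  Fermat.Agent.M43.AtkinJac5 Fermat.Agent.M43.FrobRel1 Fermat.Agent.M43.FrobInst1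

variable {q M' : ℕ} [NeZero M'] [NeZero q] {A : ValuationSubring Qbar}

/-- shortcut instance. -/
local instance (priority := high) algebraAFbarNP : Algebra ↥A ↥(Fbar (M' * q)) := inferInstance

/-- shortcut instance. -/
local instance (priority := high) algebraKFbP : Algebra (Setup8.kA A) (Fb A M') := inferInstance

variable (h : LevelHyp q M' A)

/-! ### the decomposition group -/

theorem gal_inv (N : ℕ) [NeZero N] (g : Qbar ≃ₐ[ℚ] Qbar) : (gal N g)⁻¹ = gal N g⁻¹ :=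
  (map_inv (arithmeticGalois (modularFunctionFieldFull N)) g).symm

theorem chartMoves_decomp₀ (g : A.decompositionSubgroup ℚ) :
    ChartMoves (T h).C0 (gal (M' * q) (g : Qbar ≃ₐ[ℚ] Qbar)) (psiRes A g) where
  mem_A := baseAut_gal_mem g
  mem_A' := by
    rw [gal_inv]
    exact baseAut_gal_mem g⁻¹
  res a ha ha' := (psiRes_residue A g ⟨a, ha⟩).symm
  mem b hb := by
    rw [mem_C0_iff] at hb ⊢
    exact smul_mem_chart _ (baseAut_gal_mem g) (gal_smul_tA h _) hb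
  mem' b hb := by
    rw [mem_C0_iff] at hb ⊢
    rw [gal_inv]
    exact smul_mem_chart _ (baseAut_gal_mem g⁻¹) (gal_smul_tA h _) hb

theorem chartMoves_decomp₁ (g : A.decompositionSubgroup ℚ) :
    ChartMoves (T h).C1 (gal (M' * q) (g : Qbar ≃ₐ[ℚ] Qbar)) (psiRes A g) where
  mem_A := baseAut_gal_mem g
  mem_A' := by
    rw [gal_inv]
    exact baseAut_gal_mem g⁻¹
  res a ha ha' := (psiRes_residue A g ⟨a, ha⟩).symm
  mem b hb := by
    rw [mem_C1_iff] at hb ⊢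
    exact smul_mem_chart_inv _ (baseAut_gal_mem g) (gal_smul_tA h _) hb
  mem' b hb := by
    rw [mem_C1_iff] at hb ⊢
    rw [gal_inv]
    exact smul_mem_chart_inv _ (baseAut_gal_mem g⁻¹) (gal_smul_tA h _) hb

theorem fin0_gal (g : A.decompositionSubgroup ℚ) {P : Place Qbar ↥(Fbar (M' * q))}
    (hP : (T h).Fin0 P) : (T h).Fin0 (gal (M' * q) (g : Qbar ≃ₐ[ℚ] Qbar) • P) := by
  obtain ⟨a, ha⟩ := hP
  refine ⟨⟨_, baseAut_gal_mem (N := M' * q) g (a : Qbar) a.2⟩, ?_⟩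
  have := ha.smul (gal (M' * q) (g : Qbar ≃ₐ[ℚ] Qbar))
  rwa [T_t, gal_smul_tA] at this

/-- **the decomposition group moves the two-chart model into itself.** -/
theorem moves_decomp (g : A.decompositionSubgroup ℚ) :
    Moves (T h) (gal (M' * q) (g : Qbar ≃ₐ[ℚ] Qbar)) (psiRes A g) where
  m₀ := chartMoves_decomp₀ h g
  m₁ := chartMoves_decomp₁ h g
  fin0 P := by
    refine ⟨fin0_gal h g, fun hP => ?_⟩
    have := fin0_gal h g⁻¹ hP
    rw [show gal (M' * q) ((g⁻¹ : A.decompositionSubgroup ℚ) : Qbar ≃ₐ[ℚ] Qbar) =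
      (gal (M' * q) (g : Qbar ≃ₐ[ℚ] Qbar))⁻¹ from (gal_inv _ _).symm, inv_smul_smul] at this
    exact this
  s_zero χ hχ := by
    rw [movePt_apply]
    have h1 : invHom (chartMoves_decomp₁ h g) (T h).s1 = (T h).s1 := by
      apply Subtype.ext
      show (gal (M' * q) (g : Qbar ≃ₐ[ℚ] Qbar))⁻¹ • (tA h)⁻¹ = (tA h)⁻¹
      rw [gal_inv, smul_inv'', gal_smul_tA]
    rw [h1, hχ, map_zero]

theorem r₁_decomp (g : A.decompositionSubgroup ℚ) {P : Place Qbar ↥(Fbar (M' * q))}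
    {Q : Place (Setup8.kA A) (Fb A M')} (hPQ : (T h).r₁ P = some Q) :
    (T h).r₁ (gal (M' * q) (g : Qbar ≃ₐ[ℚ] Qbar) • P) =
      some (coeffSemi (Setup8.kA A) M' (psiRes A g) • Q) :=
  r₁_move (moves_decomp h g) _ (fun _ => rfl)
    (fun y hy hy' => (semiCompat_c1_decomp h g).ρ_smul y hy hy') hPQ

theorem r₂_decomp (g : A.decompositionSubgroup ℚ) {P : Place Qbar ↥(Fbar (M' * q))}
    {Q : Place (Setup8.kA A) (Fb A M')} (hPQ : (T h).r₂ P = some Q) :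
    (T h).r₂ (gal (M' * q) (g : Qbar ≃ₐ[ℚ] Qbar) • P) =
      some (coeffSemi (Setup8.kA A) M' (psiRes A g) • Q) :=
  r₂_move (moves_decomp h g) _ (fun _ => rfl)
    (fun y hy hy' => (semiCompat_c2_decomp h g).ρ_smul y hy hy') hPQ

section Frob

variable [ExpChar (Setup8.kA A) q] [PerfectField (Setup8.kA A)]

theorem r₁_frob {σ : Qbar ≃ₐ[ℚ] Qbar} (hσ : A.IsFrobeniusAt σ q)
    {P : Place Qbar ↥(Fbar (M' * q))} {Q : Place (Setup8.kA A) (Fb A M')}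
    (hPQ : (T h).r₁ P = some Q) :
    (T h).r₁ (gal (M' * q) σ • P) = some (frobSemi (Setup8.kA A) q M' • Q) := by
  have := r₁_decomp h (⟨σ, hσ.mem_decompositionSubgroup⟩ : A.decompositionSubgroup ℚ) hPQ
  rwa [coeffSemi_psiRes_of_isFrobeniusAt (M := M') hσ] at this

theorem r₂_frob {σ : Qbar ≃ₐ[ℚ] Qbar} (hσ : A.IsFrobeniusAt σ q)
    {P : Place Qbar ↥(Fbar (M' * q))} {Q : Place (Setup8.kA A) (Fb A M')}
    (hPQ : (T h).r₂ P = some Q) :
    (T h).r₂ (gal (M' * q) σ • P) = some (frobSemi (Setup8.kA A) q M' • Q) := by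
  have := r₂_decomp h (⟨σ, hσ.mem_decompositionSubgroup⟩ : A.decompositionSubgroup ℚ) hPQ
  rwa [coeffSemi_psiRes_of_isFrobeniusAt (M := M') hσ] at this

end Frob

/-! ### the Atkin-Lehner involution -/

/-- `w_q` as a semilinear automorphism, at `h`. -/
def wSh : SemilinearAut Qbar ↥(Fbar (M' * q)) := wS h.prime h.not_dvd

theorem wSh_smul (f : ↥(Fbar (M' * q))) : wSh h • f = wA h f := rfl

theorem wSh_inv : (wSh h)⁻¹ = wSh h := wS_inv h.prime h.not_dvd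

theorem wSh_smul_wSh (f : ↥(Fbar (M' * q))) : wSh h • wSh h • f = f := wA_wA h f

theorem wA_tA : wA h (tA h) = yA h := by
  rw [tA_eq_alphaA, wA_alphaA]
  rfl

theorem wA_yA : wA h (yA h) = tA h := by
  rw [← wA_tA, wA_wA]

theorem wA_commutes_A (r : ↥A) :
    ((wA h : ↥(Fbar (M' * q)) ≃ₐ[Qbar] ↥(Fbar (M' * q))) :
        ↥(Fbar (M' * q)) →+* ↥(Fbar (M' * q))) (algebraMap ↥A ↥(Fbar (M' * q)) r) =
      algebraMap ↥A ↥(Fbar (M' * q)) r :=
  (wA h).commutes (r : Qbar)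

theorem wA_mem_chart {x : ↥(Fbar (M' * q))} (hx : x ∈ chart ↥A (tA h)) :
    wA h x ∈ chart ↥A (tA h) := by
  refine Fermat.Agent.ES.N34.ModelN4.map_mem_chart (R := ↥A)
    ((wA h : ↥(Fbar (M' * q)) ≃ₐ[Qbar] ↥(Fbar (M' * q))) :
        ↥(Fbar (M' * q)) →+* ↥(Fbar (M' * q))) (wA_commutes_A h) (s := tA h) ?_ hx
  show wA h (tA h) ∈ chart ↥A (tA h)
  rw [wA_tA]
  exact yA_mem_B0A h

theorem wA_mem_chart_inv {x : ↥(Fbar (M' * q))} (hx : x ∈ chart ↥A (tA h)⁻¹) :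
    wA h x ∈ chart ↥A (tA h)⁻¹ := by
  refine Fermat.Agent.ES.N34.ModelN4.map_mem_chart (R := ↥A)
    ((wA h : ↥(Fbar (M' * q)) ≃ₐ[Qbar] ↥(Fbar (M' * q))) :
        ↥(Fbar (M' * q)) →+* ↥(Fbar (M' * q))) (wA_commutes_A h) (s := (tA h)⁻¹) ?_ hx
  show wA h (tA h)⁻¹ ∈ chart ↥A (tA h)⁻¹
  rw [map_inv₀, wA_tA]
  exact yA_inv_mem_B1A h

theorem chartMoves_w₀ : ChartMoves (T h).C0 (wSh h) (RingEquiv.refl (Setup8.kA A)) where
  mem_A a ha := ha
  mem_A' a ha := by rw [wSh_inv]; exact ha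
  res a ha ha' := rfl
  mem b hb := by
    rw [mem_C0_iff] at hb ⊢
    exact wA_mem_chart h hb
  mem' b hb := by
    rw [mem_C0_iff] at hb ⊢
    rw [wSh_inv]
    exact wA_mem_chart h hb

theorem chartMoves_w₁ : ChartMoves (T h).C1 (wSh h) (RingEquiv.refl (Setup8.kA A)) where
  mem_A a ha := ha
  mem_A' a ha := by rw [wSh_inv]; exact ha
  res a ha ha' := rfl
  mem b hb := by
    rw [mem_C1_iff] at hb ⊢
    exact wA_mem_chart_inv h hb
  mem' b hb := by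
    rw [mem_C1_iff] at hb ⊢
    rw [wSh_inv]
    exact wA_mem_chart_inv h hb

/-- `y` has an integral value at `P`. -/
def FinY (P : Place Qbar ↥(Fbar (M' * q))) : Prop := ∃ a : A, HasValue P (yA h) (a : Qbar)

theorem fin0_w_iff (P : Place Qbar ↥(Fbar (M' * q))) : (T h).Fin0 (wSh h • P) ↔ FinY h P := by
  constructor
  · rintro ⟨a, ha⟩
    refine ⟨a, ?_⟩
    have := ha.smul (wSh h)
    have h2 : wSh h * wSh h = 1 := wS_mul_wS h.prime h.not_dvd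
    rw [T_t, wSh_smul, wA_tA, ← mul_smul, h2, one_smul] at this
    exact this
  · rintro ⟨a, ha⟩
    refine ⟨a, ?_⟩
    have := ha.smul (wSh h)
    rw [wSh_smul, wA_yA] at this
    exact this

theorem finY_of_fin0 {P : Place Qbar ↥(Fbar (M' * q))} (hP : (T h).Fin0 P) : FinY h P := by
  obtain ⟨χ, hχ⟩ := (T h).centred₀ P hP
  obtain ⟨a, ha, -⟩ := hχ ⟨yA h, (mem_C0_iff h _).2 (yA_mem_B0A h)⟩
  exact ⟨a, ha⟩

theorem fin0_w (P : Place Qbar ↥(Fbar (M' * q))) : (T h).Fin0 P ↔ (T h).Fin0 (wSh h • P) := by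
  constructor
  · intro hP
    rw [fin0_w_iff]
    exact finY_of_fin0 h hP
  · intro hP
    have h1 := finY_of_fin0 h hP
    rw [← fin0_w_iff, ← mul_smul] at h1
    have h2 : wSh h * wSh h = 1 := wS_mul_wS h.prime h.not_dvd
    rwa [h2, one_smul] at h1

theorem pow_mem_vanishing {κ Fb : Type*} [Field κ] [Field Fb] [Algebra κ Fb] (Q : Place κ Fb)
    {x : Fb} (hx : x ∈ vanishing Q) {n : ℕ} (hn : n ≠ 0) : x ^ n ∈ vanishing Q := by
  rcases hx with rfl | hx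
  · left; exact zero_pow hn
  · right
    rw [ord_pow]
    exact mul_pos (by exact_mod_cast Nat.pos_of_ne_zero hn) hx

theorem mem_vanishing_of_pow_mem' {κ Fb : Type*} [Field κ] [Field Fb] [Algebra κ Fb]
    (v : Place κ Fb) {x : Fb} {n : ℕ} (hn : n ≠ 0) (hx : x ^ n ∈ vanishing v) :
    x ∈ vanishing v := by
  rcases hx with h0 | hpos
  · exact Or.inl (pow_eq_zero_iff hn |>.1 h0)
  · right
    rw [ord_pow] at hpos
    have hn' : (0 : ℤ) < n := by exact_mod_cast Nat.pos_of_ne_zero hn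
    by_contra hle
    push Not at hle
    have : (n : ℤ) * v.ord x ≤ 0 := mul_nonpos_of_nonneg_of_nonpos hn'.le hle
    omega

theorem rho1_inv {x : ↥(Fbar (M' * q))} (hx0 : x ≠ 0) (hx : x ∈ O1 h) (hx' : x⁻¹ ∈ O1 h) :
    rho1 h ⟨x⁻¹, hx'⟩ = (rho1 h ⟨x, hx⟩)⁻¹ := by
  apply eq_inv_of_mul_eq_one_left
  rw [← map_mul]
  have : (⟨x⁻¹, hx'⟩ : ↥(O1 h)) * ⟨x, hx⟩ = 1 := Subtype.ext (inv_mul_cancel₀ hx0)
  rw [this, map_one]

theorem rho2_inv {x : ↥(Fbar (M' * q))} (hx0 : x ≠ 0) (hx : x ∈ O2 h) (hx' : x⁻¹ ∈ O2 h) :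
    rho2 h ⟨x⁻¹, hx'⟩ = (rho2 h ⟨x, hx⟩)⁻¹ := by
  apply eq_inv_of_mul_eq_one_left
  rw [← map_mul]
  have : (⟨x⁻¹, hx'⟩ : ↥(O2 h)) * ⟨x, hx⟩ = 1 := Subtype.ext (inv_mul_cancel₀ hx0)
  rw [this, map_one]

/-- **`w_q` moves the two-chart model into itself.** -/
theorem moves_w : Moves (T h) (wSh h) (RingEquiv.refl (Setup8.kA A)) where
  m₀ := chartMoves_w₀ h
  m₁ := chartMoves_w₁ h
  fin0 := fin0_w h
  s_zero χ hχ := by
    rw [movePt_apply]
    show χ (invHom (chartMoves_w₁ h) (T h).s1) = 0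
    have hyB : (yA h)⁻¹ ∈ (T h).C1.B := (mem_C1_iff h _).2 (yA_inv_mem_B1A h)
    have htB : (tA h)⁻¹ ∈ (T h).C1.B := (T h).s1.2
    have h1 : invHom (chartMoves_w₁ h) (T h).s1 = ⟨(yA h)⁻¹, hyB⟩ := by
      apply Subtype.ext
      show (wSh h)⁻¹ • (tA h)⁻¹ = (yA h)⁻¹
      rw [wSh_inv, wSh_smul, map_inv₀, wA_tA]
    rw [h1]
    have hq0 : q ≠ 0 := NeZero.ne q
    have hy0 : yA h ≠ 0 := Fermat.Agent.T33.NodalInst4C.yA_ne_zero h
    have ht0 : tA h ≠ 0 := tA_ne_zero h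
    rcases (T h).C1.on_total χ with hon | hon
    · obtain ⟨Q, hQ⟩ := (T h).val₁_exists₁ χ hon
      have e1 : rho1 h ⟨(tA h)⁻¹, (T h).C1.le₁ htB⟩ ∈ vanishing Q := by
        have := hQ (T h).s1
        rw [hχ, map_zero, sub_zero] at this
        exact this
      have e2 : rho1 h ⟨(yA h)⁻¹, (T h).C1.le₁ hyB⟩ -
          algebraMap (Setup8.kA A) (Fb A M') (χ ⟨(yA h)⁻¹, hyB⟩) ∈ vanishing Q :=
        hQ ⟨(yA h)⁻¹, hyB⟩
      -- `ρ₁ y⁻¹ = (ρ₁ t⁻¹)^q`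
      have e3 : rho1 h ⟨(yA h)⁻¹, (T h).C1.le₁ hyB⟩ =
          (rho1 h ⟨(tA h)⁻¹, (T h).C1.le₁ htB⟩) ^ q := by
        rw [rho1_inv h hy0 (yA_mem_O1 h), rho1_inv h ht0 (tA_mem_O1 h), rho1_yA, rho1_tA,
          inv_pow]
      rw [e3] at e2
      have e4 := pow_mem_vanishing Q e1 hq0
      have e5 := Submodule.sub_mem _ e4 e2
      rw [sub_sub_cancel] at e5
      exact const_not_mem_vanishing Q e5
    · obtain ⟨Q, hQ⟩ := (T h).val₂_exists₁ χ hon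
      have e1 : rho2 h ⟨(tA h)⁻¹, (T h).C1.le₂ htB⟩ ∈ vanishing Q := by
        have := hQ (T h).s1
        rw [hχ, map_zero, sub_zero] at this
        exact this
      have e2 : rho2 h ⟨(yA h)⁻¹, (T h).C1.le₂ hyB⟩ -
          algebraMap (Setup8.kA A) (Fb A M') (χ ⟨(yA h)⁻¹, hyB⟩) ∈ vanishing Q :=
        hQ ⟨(yA h)⁻¹, hyB⟩
      -- `ρ₂ t⁻¹ = (ρ₂ y⁻¹)^q`
      have e3 : rho2 h ⟨(tA h)⁻¹, (T h).C1.le₂ htB⟩ =
          (rho2 h ⟨(yA h)⁻¹, (T h).C1.le₂ hyB⟩) ^ q := by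
        rw [rho2_inv h hy0 (yA_mem_O2 h), rho2_inv h ht0 (tA_mem_O2 h), rho2_yA, rho2_tA,
          inv_pow]
      rw [e3] at e1
      have e4 : rho2 h ⟨(yA h)⁻¹, (T h).C1.le₂ hyB⟩ ∈ vanishing Q :=
        mem_vanishing_of_pow_mem' Q hq0 e1
      have e5 := Submodule.sub_mem _ e4 e2
      rw [sub_sub_cancel] at e5
      exact const_not_mem_vanishing Q e5

theorem baseAut_WbS (a : Setup8.kA A) : SemilinearAut.baseAut (WbS h) a = RingEquiv.refl _ a :=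
  rfl

/-- **`r₁ P = some Q → r₂ (w • P) = some (W̄ • Q)`.** -/
theorem r₁₂_w {P : Place Qbar ↥(Fbar (M' * q))} {Q : Place (Setup8.kA A) (Fb A M')}
    (hPQ : (T h).r₁ P = some Q) : (T h).r₂ (wSh h • P) = some (WbS h • Q) :=
  r₁₂_move (moves_w h) (WbS h) (baseAut_WbS h)
    (fun y hy hy' => rho2_wA h ⟨y, hy⟩) hPQ

/-- **`r₂ P = some Q → r₁ (w • P) = some (W̄ • Q)`.** -/
theorem r₂₁_w {P : Place Qbar ↥(Fbar (M' * q))} {Q : Place (Setup8.kA A) (Fb A M')}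
    (hPQ : (T h).r₂ P = some Q) : (T h).r₁ (wSh h • P) = some (WbS h • Q) :=
  r₂₁_move (moves_w h) (WbS h) (baseAut_WbS h)
    (fun y hy hy' => rho1_wA h ⟨y, hy⟩) hPQ

end Fermat.Agent.M43.PlaceInst5
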