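import Mathlib
import Fermat.Agent.M43.PlaceInst5
import Fermat.Agent.T33.ChartSurj5
import Fermat.Agent.T33.NodalPts4A
import Fermat.Agent.U44.QScale0
import Fermat.Agent.ES.FROB.FrobFacts12

/-!
# M43 / P-MP (TORIC-strong): at the nodes, `w_q` acts as the Frobenius

`h : LevelHyp q M' A`, `T h` the two-chart model of `X₀(M'q)` over `A`, `r₁, r₂` the partial
reductions of places, `W̄ = WbS h`, `Fr = frobSemi κ q M'`.

* `frobSemi_rho1_betaA : Fr • ρ₁ (β u) = (ρ₀ u)^q` (`ρ₁ (β u) = (ρ₀ u)(𝐪^q)` and `x^q = (x^φ)(𝐪^q)`);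
* `node_rel` : **THE NODE RELATION**: if `r₁ P = some Q₁` and `r₂ P = some Q₂` then
  `Fr • Q₁ = W̄⁻¹ • Q₂` (test functions `β u`, `u` in the chart of the good level:
  `ρ₁ (β u) = (ρ₀ u)(𝐪^q)`, `ρ₂ (β u) = W̄ (ρ₀ u)`, and `ρ₀` of the chart separates the places);
* `r₁_w_of_node`, `r₂_w_of_node` : `r₁ (w • P) = some (Fr • Q₁)`, `r₂ (w • P) = some (Fr • Q₂)`:
  **`w_q` and a Frobenius lift move a place over a node to places over the SAME node**;
* `frob_sq_node₁`, `frob_sq_node₂` : the branches of a node are fixed by `Fr²`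
  (`𝔽_{q²}`-rationality of the supersingular points, from `w² = 1`);
* `wNode h : Node h → Node h`, `wNode_wNode`, `s1_wNode`, `s2_wNode` (`= Fr • s_i k`),
  `redToNode_w`, `redToNode_frob`, `redToNode_frob_inv`.
-/

set_option autoImplicit false
set_option linter.unusedSectionVars false
set_option linter.style.haveILetI false
set_option linter.unusedVariables false
set_option synthInstance.maxHeartbeats 400000

noncomputable section

namespace Fermat.Agent.M43.NodeMove5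

open HahnSeries ModularCurve AlgebraicCurve IsLocalRing IntermediateField
open Fermat.Agent.RED.Interface4 Fermat.Agent.ES.RED Fermat.Agent.ES.RED.GaloisRed21
  Fermat.Agent.RED.PUR.ChartGeneric22
  Fermat.Agent.T33.NodalHalf4 Fermat.Agent.T33.NodalCurve6 Fermat.Agent.T33.NodalCtx1
  Fermat.Agent.T33.NodalPlaces1 Fermat.Agent.T33.NodalBase4A Fermat.Agent.X0.FF
  Fermat.Agent.T33.NodalInst4A Fermat.Agent.T33.NodalInst4E Fermat.Agent.T33.NodalInst4G
  Fermat.Agent.T33.FrickeRed3 Fermat.Agent.T33.Psi3C Fermat.Agent.T33.Psi3G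
  Fermat.Agent.T33.NodalCompat1 Fermat.Agent.T33.NodalWit4A Fermat.Agent.T33.ChartSurj5
  Fermat.Agent.T33.ChartOK5 Fermat.Agent.T33.NodalAbs1A
  Fermat.Agent.ES.KRON.FrobPlace13 Fermat.Agent.U44.WbPic1
  Fermat.Agent.M43.PlaceMove5 Fermat.Agent.M43.PlaceInst5 Fermat.Agent.M43.AtkinDef5
  Fermat.Agent.M43.AtkinVal5 Fermat.Agent.M43.AtkinJac5

variable {q M' : ℕ} [NeZero M'] [NeZero q] {A : ValuationSubring Qbar}

/-- shortcut instance. -/
local instance (priority := high) algebraAFbarNN : Algebra ↥A ↥(Fbar (M' * q)) := inferInstance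

/-- shortcut instance. -/
local instance (priority := high) algebraAFbarMN : Algebra ↥A ↥(Fbar M') := inferInstance

/-- shortcut instance. -/
local instance (priority := high) algebraKFbN : Algebra (Setup8.kA A) (Fb A M') := inferInstance

variable (h : LevelHyp q M' A)

/-! ### the good level: charts lie in the Gauss ring -/

theorem mem_Ov0_of_mem_chart {s : ↥(Fbar M')} (hs : s ∈ ChartIntegralA1.intF A M')
    {u : ↥(Fbar M')} (hu : u ∈ chart ↥A s) : u ∈ Ov0 h := by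
  haveI : Fact q.Prime := ⟨h.prime⟩
  have h1 : u ∈ ChartIntegralA1.intF A M' :=
    ChartIntegralA1.chart_le_intF A M' q h.liesOver hs hu
  rw [Fermat.Agent.T33.Psi3G.intF_eq_gaussA] at h1
  exact gaussA_mem_Ov0 h ⟨u, h1⟩

section Frob

variable [ExpChar (Setup8.kA A) q] [PerfectField (Setup8.kA A)]

/-- **`Fr • ρ₁ (β u) = (ρ₀ u)^q`.** -/
theorem frobSemi_rho1_betaA (u : ↥(Ov0 h)) :
    frobSemi (Setup8.kA A) q M' •
        rho1 h ⟨betaA M' q (u : ↥(Fbar M')), betaA_mem_O1 h u.2⟩ = (rho0 h u) ^ q := by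
  haveI : Fact q.Prime := ⟨h.prime⟩
  haveI : CharP (Setup8.kA A) q :=
    Fermat.Agent.ES.KRON.KronInst10.charP_residueField A h.prime h.liesOver
  apply Subtype.ext
  rw [coe_frobSemi_smul, coe_rho1_betaA, Fermat.Agent.U44.QScale0.coeffMap_qExpand]
  have := Fermat.Agent.ES.KRON.KronCong24.pow_char q
    ((rho0 h u : Fb A M') : LaurentSeries (Setup8.kA A))
  exact this.symm

theorem sub_mem_vanishing_of_pow (Q : Place (Setup8.kA A) (Fb A M')) {x : Fb A M'}
    {c : Setup8.kA A}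
    (hx : x ^ q - algebraMap (Setup8.kA A) (Fb A M') (c ^ q) ∈ vanishing Q) :
    x - algebraMap (Setup8.kA A) (Fb A M') c ∈ vanishing Q := by
  haveI : ExpChar (Fb A M') q :=
    expChar_of_injective_algebraMap (algebraMap (Setup8.kA A) (Fb A M')).injective q
  apply mem_vanishing_of_pow_mem' Q (NeZero.ne q)
  rw [sub_pow_expChar, ← map_pow]
  exact hx

/-- the node relation on one chart `C` with level-`M'` coordinate `s`. -/
theorem node_rel_chart (C : Chart (c1 h) (c2 h)) (s : ↥(Fbar M'))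
    (hs : s ∈ ChartIntegralA1.intF A M') {x : Fb A M'} (hx : IsGen (Setup8.kA A) x)
    [Algebra.IsSeparable (Setup8.kA A)⟮x⟯ (Fb A M')]
    (hβ : ∀ u : ↥(Fbar M'), u ∈ chart ↥A s → betaA M' q u ∈ C.B)
    (hint : ∀ (u : ↥(Fbar M')) (hu : u ∈ chart ↥A s),
      IsIntegral (polyRing (Setup8.kA A) x) (rho0 h ⟨u, mem_Ov0_of_mem_chart h hs hu⟩))
    (hsurj : ∀ f : Fb A M', IsIntegral (polyRing (Setup8.kA A) x) f →
      ∃ y : ↥(Ov0 h), (y : ↥(Fbar M')) ∈ chart ↥A s ∧ rho0 h y = f)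
    (χ : C.Pt) {Q₁ Q₂ : Place (Setup8.kA A) (Fb A M')} (hv₁ : C.Val₁ χ Q₁)
    (hv₂ : C.Val₂ χ Q₂) :
    frobSemi (Setup8.kA A) q M' • Q₁ = (WbS h)⁻¹ • Q₂ := by
  -- the ring `B` of the good level, its reduction and the induced character
  let inclB : ↥(chart ↥A s) →+* ↥(Ov0 h) :=
    { toFun := fun u => ⟨(u : ↥(Fbar M')), mem_Ov0_of_mem_chart h hs u.2⟩
      map_one' := rfl
      map_mul' := fun _ _ => rfl
      map_zero' := rfl
      map_add' := fun _ _ => rfl }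
  let βB : ↥(chart ↥A s) →+* ↥C.B :=
    { toFun := fun u => ⟨betaA M' q (u : ↥(Fbar M')), hβ _ u.2⟩
      map_one' := Subtype.ext (map_one _)
      map_mul' := fun _ _ => Subtype.ext (map_mul _ _ _)
      map_zero' := Subtype.ext (map_zero _)
      map_add' := fun _ _ => Subtype.ext (map_add _ _ _) }
  let ρ : ↥(chart ↥A s) →+* Fb A M' := (rho0 h).comp inclB
  let χ' : ↥(chart ↥A s) →+* Setup8.kA A := χ.1.comp βB
  refine Fermat.Agent.T33.NodalPts4A.place_unique_of_range hx ρ χ'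
    (fun b => hint (b : ↥(Fbar M')) b.2) (fun f hf => ?_) _ _ (fun b => ?_) (fun b => ?_)
  · obtain ⟨y, hy, hρ⟩ := hsurj f hf
    exact ⟨⟨(y : ↥(Fbar M')), hy⟩, hρ⟩
  · -- first component: Frobenius
    have h1 := hv₁ (βB b)
    have h2 := smul_mem_vanishing (frobSemi (Setup8.kA A) q M') h1
    rw [smul_sub, frobSemi_smul_algebraMap] at h2
    have h3 : frobSemi (Setup8.kA A) q M' • C.ρ₁ (βB b) = (ρ b) ^ q :=
      frobSemi_rho1_betaA h (inclB b)
    rw [h3] at h2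
    exact sub_mem_vanishing_of_pow _ h2
  · -- second component: `W̄`
    have h1 := hv₂ (βB b)
    have h2 := smul_mem_vanishing (WbS h)⁻¹ h1
    rw [smul_sub, SemilinearAut.smul_algebraMap] at h2
    have h3 : C.ρ₂ (βB b) = WbS h • ρ b := rho2_betaA h (inclB b)
    rw [h3, inv_smul_smul] at h2
    exact h2

/-- **THE NODE RELATION**: `Fr • Q₁ = W̄⁻¹ • Q₂` at a node `(Q₁, Q₂)`. -/
theorem node_rel {P : Place Qbar ↥(Fbar (M' * q))} {Q₁ Q₂ : Place (Setup8.kA A) (Fb A M')}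
    (h1 : (T h).r₁ P = some Q₁) (h2 : (T h).r₂ P = some Q₂) :
    frobSemi (Setup8.kA A) q M' • Q₁ = (WbS h)⁻¹ • Q₂ := by
  rw [(T h).r₁_eq_some_iff] at h1
  rw [(T h).r₂_eq_some_iff] at h2
  by_cases hP : (T h).Fin0 P
  · obtain ⟨χ, hχ⟩ := (T h).centred₀ P hP
    have hv₁ := ((T h).red₁_iff₀ hP hχ Q₁).1 h1
    have hv₂ := ((T h).red₂_iff₀ hP hχ Q₂).1 h2
    exact node_rel_chart h (T h).C0 (tM h) (TqIntF5.tF_mem_intF A M' (tMemM h)) (isGen_xOne h)
      (fun u hu => (mem_C0_iff h _).2 (betaA_mem_chart h hu))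
      (fun u hu => by
        have := Fermat.Agent.T33.ChartInt5.int₁₀ h ⟨alphaA M' q u, alphaA_mem_chart h hu⟩
        have e : (C0A h).ρ₁ ⟨alphaA M' q u, alphaA_mem_chart h hu⟩ =
            rho0 h ⟨u, mem_Ov0_of_mem_chart h (TqIntF5.tF_mem_intF A M' (tMemM h)) hu⟩ :=
          rho1_alphaA h ⟨u, _⟩
        rwa [e] at this)
      (exists_rho0_eq h) χ hv₁ hv₂
  · obtain ⟨χ, hχ, hs⟩ := (T h).centred₁' P hP
    have hv₁ := ((T h).red₁_iff₁ hP hχ hs Q₁).1 h1
    have hv₂ := ((T h).red₂_iff₁ hP hχ hs Q₂).1 h2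
    haveI := Fermat.Agent.ES.RED.SumOrdSep15.isSeparable_inv (K := Setup8.kA A) (xOne h)
    exact node_rel_chart h (T h).C1 (tM h)⁻¹ (TqIntF5.tF_inv_mem_intF A M' (tMemM h))
      (Fermat.Agent.ES.RED.SpecialFibre13.isGen_inv (isGen_xOne h))
      (fun u hu => (mem_C1_iff h _).2 (betaA_mem_chart_inv h hu))
      (fun u hu => by
        have := Fermat.Agent.T33.ChartInt5.int₁₁ h ⟨alphaA M' q u, alphaA_mem_chart_inv h hu⟩
        have e : (C1A h).ρ₁ ⟨alphaA M' q u, alphaA_mem_chart_inv h hu⟩ =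
            rho0 h ⟨u, mem_Ov0_of_mem_chart h (TqIntF5.tF_inv_mem_intF A M' (tMemM h)) hu⟩ :=
          rho1_alphaA h ⟨u, _⟩
        rwa [e] at this)
      (exists_rho0_eq_inv h) χ hv₁ hv₂

theorem WbS_mul_WbS : WbS h * WbS h = 1 := by
  refine Subtype.ext (Prod.ext (RingEquiv.ext fun x => ?_) rfl)
  exact Wb_Wb' h x

theorem WbS_inv : (WbS h)⁻¹ = WbS h := inv_eq_of_mul_eq_one_left (WbS_mul_WbS h)

/-- at a node, `W̄ • Q₂ = Fr • Q₁`. -/
theorem WbS_smul_node₂ {P : Place Qbar ↥(Fbar (M' * q))}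
    {Q₁ Q₂ : Place (Setup8.kA A) (Fb A M')}
    (h1 : (T h).r₁ P = some Q₁) (h2 : (T h).r₂ P = some Q₂) :
    WbS h • Q₂ = frobSemi (Setup8.kA A) q M' • Q₁ := by
  rw [node_rel h h1 h2, WbS_inv]

/-- **`r₁ (w • P) = some (Fr • Q₁)`** at a node `(Q₁, Q₂)`. -/
theorem r₁_w_of_node {P : Place Qbar ↥(Fbar (M' * q))}
    {Q₁ Q₂ : Place (Setup8.kA A) (Fb A M')}
    (h1 : (T h).r₁ P = some Q₁) (h2 : (T h).r₂ P = some Q₂) :
    (T h).r₁ (wSh h • P) = some (frobSemi (Setup8.kA A) q M' • Q₁) := by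
  rw [← WbS_smul_node₂ h h1 h2]
  exact r₂₁_w h h2

/-- **`r₂ (w • P) = some (Fr • Q₂)`** at a node `(Q₁, Q₂)` (`w • P` and `φ • P`, `φ` a Frobenius
lift, have the same first reduction, hence the same second reduction). -/
theorem r₂_w_of_node {P : Place Qbar ↥(Fbar (M' * q))}
    {Q₁ Q₂ : Place (Setup8.kA A) (Fb A M')}
    (h1 : (T h).r₁ P = some Q₁) (h2 : (T h).r₂ P = some Q₂) :
    (T h).r₂ (wSh h • P) = some (frobSemi (Setup8.kA A) q M' • Q₂) := by
  obtain ⟨φ, hφ⟩ := Fermat.Agent.ES.FROB.FrobFacts12.exists_isFrobeniusAt_of q h.prime A h.liesOver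
  have e1 := r₁_w_of_node h h1 h2
  have e2 := r₁_frob h hφ h1
  have e3 := r₂_frob h hφ h2
  have := (T h).rawRed.uniq₁ _ _ _ e1 e2
  exact this.trans e3

/-- at a node, `W̄ • Q₁ = Fr • Q₂`. -/
theorem WbS_smul_node₁ {P : Place Qbar ↥(Fbar (M' * q))}
    {Q₁ Q₂ : Place (Setup8.kA A) (Fb A M')}
    (h1 : (T h).r₁ P = some Q₁) (h2 : (T h).r₂ P = some Q₂) :
    WbS h • Q₁ = frobSemi (Setup8.kA A) q M' • Q₂ :=
  Option.some.inj ((r₁₂_w h h1).symm.trans (r₂_w_of_node h h1 h2))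

/-- **the branches of a node are fixed by `Fr²`** (first component). -/
theorem frob_sq_node₁ {P : Place Qbar ↥(Fbar (M' * q))}
    {Q₁ Q₂ : Place (Setup8.kA A) (Fb A M')}
    (h1 : (T h).r₁ P = some Q₁) (h2 : (T h).r₂ P = some Q₂) :
    frobSemi (Setup8.kA A) q M' • frobSemi (Setup8.kA A) q M' • Q₁ = Q₁ := by
  have e := r₁_w_of_node h (r₁_w_of_node h h1 h2) (r₂_w_of_node h h1 h2)
  have h2' : wSh h * wSh h = 1 := wS_mul_wS h.prime h.not_dvd
  rw [← mul_smul, h2', one_smul, h1] at e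
  exact (Option.some.inj e).symm

/-- **the branches of a node are fixed by `Fr²`** (second component). -/
theorem frob_sq_node₂ {P : Place Qbar ↥(Fbar (M' * q))}
    {Q₁ Q₂ : Place (Setup8.kA A) (Fb A M')}
    (h1 : (T h).r₁ P = some Q₁) (h2 : (T h).r₂ P = some Q₂) :
    frobSemi (Setup8.kA A) q M' • frobSemi (Setup8.kA A) q M' • Q₂ = Q₂ := by
  have e := r₂_w_of_node h (r₁_w_of_node h h1 h2) (r₂_w_of_node h h1 h2)
  have h2' : wSh h * wSh h = 1 := wS_mul_wS h.prime h.not_dvd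
  rw [← mul_smul, h2', one_smul, h2] at e
  exact (Option.some.inj e).symm

/-! ### the permutation of the nodes -/

/-- **the image of a node under `w_q`** (equivalently: under the Frobenius). -/
def wNode (k : Node h) : Node h :=
  ⟨(frobSemi (Setup8.kA A) q M' • k.1.1, frobSemi (Setup8.kA A) q M' • k.1.2), by
    obtain ⟨P, h1, h2⟩ := k.2
    exact ⟨wSh h • P, r₁_w_of_node h h1 h2, r₂_w_of_node h h1 h2⟩⟩

@[simp] theorem s1_wNode (k : Node h) :
    (Nd h).s1 (wNode h k) = frobSemi (Setup8.kA A) q M' • (Nd h).s1 k := rfl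

@[simp] theorem s2_wNode (k : Node h) :
    (Nd h).s2 (wNode h k) = frobSemi (Setup8.kA A) q M' • (Nd h).s2 k := rfl

theorem wNode_wNode (k : Node h) : wNode h (wNode h k) = k := by
  obtain ⟨P, h1, h2⟩ := k.2
  apply Subtype.ext
  exact Prod.ext (frob_sq_node₁ h h1 h2) (frob_sq_node₂ h h1 h2)

/-- `P` reduces to the node `k` iff `r₁ P = some (s1 k)`; then also `r₂ P = some (s2 k)`. -/
theorem r₂_of_redToNode {P : Place Qbar ↥(Fbar (M' * q))} {k : Node h}
    (hP : (Fermat.Agent.T33.NodalInst4G.nodalRed h).RedToNode P k) : (T h).r₂ P = some ((Nd h).s2 k) :=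
  ((Fermat.Agent.T33.NodalInst4G.nodalRed h).node_iff P k).1 hP

/-- **`w_q` maps the places over the node `k` to places over `wNode k`.** -/
theorem redToNode_w {P : Place Qbar ↥(Fbar (M' * q))} {k : Node h}
    (hP : (Fermat.Agent.T33.NodalInst4G.nodalRed h).RedToNode P k) : (Fermat.Agent.T33.NodalInst4G.nodalRed h).RedToNode (wSh h • P) (wNode h k) :=
  r₁_w_of_node h hP (r₂_of_redToNode h hP)

/-- **a Frobenius lift maps the places over the node `k` to places over `wNode k`.** -/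
theorem redToNode_frob {σ : Qbar ≃ₐ[ℚ] Qbar} (hσ : A.IsFrobeniusAt σ q)
    {P : Place Qbar ↥(Fbar (M' * q))} {k : Node h}
    (hP : (Fermat.Agent.T33.NodalInst4G.nodalRed h).RedToNode P k) :
    (Fermat.Agent.T33.NodalInst4G.nodalRed h).RedToNode (gal (M' * q) σ • P) (wNode h k) :=
  r₁_frob h hσ hP

/-- the residue companion of the inverse of a Frobenius lift is `Fr⁻¹`. -/
theorem coeffSemi_psiRes_inv {σ : Qbar ≃ₐ[ℚ] Qbar} (hσ : A.IsFrobeniusAt σ q) :
    coeffSemi (Setup8.kA A) M'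
        (psiRes A (⟨σ, hσ.mem_decompositionSubgroup⟩ : A.decompositionSubgroup ℚ)⁻¹) =
      (frobSemi (Setup8.kA A) q M')⁻¹ := by
  have h1 : psiRes A (⟨σ, hσ.mem_decompositionSubgroup⟩ : A.decompositionSubgroup ℚ)⁻¹ =
      (psiRes A ⟨σ, hσ.mem_decompositionSubgroup⟩)⁻¹ :=
    map_inv (MulSemiringAction.toRingAut (A.decompositionSubgroup ℚ)
      (IsLocalRing.ResidueField ↥A)) _
  rw [h1, ← coeffSemiHom_apply, map_inv, coeffSemiHom_apply,
    coeffSemi_psiRes_of_isFrobeniusAt (M := M') hσ]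

/-- **the inverse of a Frobenius lift maps the places over the node `k` to places over
`wNode k`** (the nodes are `𝔽_{q²}`-rational). -/
theorem redToNode_frob_inv {σ : Qbar ≃ₐ[ℚ] Qbar} (hσ : A.IsFrobeniusAt σ q)
    {P : Place Qbar ↥(Fbar (M' * q))} {k : Node h}
    (hP : (Fermat.Agent.T33.NodalInst4G.nodalRed h).RedToNode P k) :
    (Fermat.Agent.T33.NodalInst4G.nodalRed h).RedToNode ((gal (M' * q) σ)⁻¹ • P) (wNode h k) := by
  have h1 := r₁_decomp h (⟨σ, hσ.mem_decompositionSubgroup⟩ : A.decompositionSubgroup ℚ)⁻¹ hP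
  rw [coeffSemi_psiRes_inv hσ] at h1
  have h2 : (gal (M' * q) σ)⁻¹ = gal (M' * q)
      (((⟨σ, hσ.mem_decompositionSubgroup⟩ : A.decompositionSubgroup ℚ)⁻¹ :
        A.decompositionSubgroup ℚ) : Qbar ≃ₐ[ℚ] Qbar) := gal_inv _ _
  show (T h).r₁ _ = some _
  rw [h2, h1, s1_wNode]
  congr 1
  obtain ⟨P₀, e1, e2⟩ := k.2
  have e3 := frob_sq_node₁ h e1 e2
  rw [inv_smul_eq_iff]
  exact e3.symm

end Frob

end Fermat.Agent.M43.NodeMove5
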