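import Mathlib
import Fermat.Agent.M43.ThetaMatch1
import Fermat.Agent.M43.FrobRel1
import Fermat.Agent.M43.PlaceMove5

/-!
# M43 / P-MP (TORIC-strong): `φ x + q · w x` has matching node values on the toric part

Abstract nodal context `N : NodalRed A F Nd` with both components of the same function field `Fb`.

* `ToricDatum N n x` : `x = [D]`, `div f = n D`, `f = g_i^n ·` (principal unit of the component `i`),
  and at every node a local generator `G` with `g_i / G` Gauss units whose reductions have ORDER ZERO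
  at the two branches (`= ThetaMatch1.NodeMatch` without the equality of the two node values: the
  quotient of the two values is the toric coordinate of `x` at the node);
* `SwapCompat N w W` : `w` exchanges the two Gauss rings, `ρ₂ (w y) = W • ρ₁ y`, `ρ₁ (w y) = W • ρ₂ y`;
* `nodeMatch_of_toric` : `φ` compatible with both components through `Fr` (a Frobenius lift:
  `Fr a = a^q` on constants), `w` swap-compatible through `W` (an Atkin-Lehner involution), both
  inducing the SAME involution `π` of the nodes with `s_i (π k) = Fr • s_i k`,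
  `s1 (π k) = W • s2 k`, `s2 (π k) = W • s1 k`.  Then
  `ToricDatum N n x → NodeMatch N n (φ • x + q • (w • x))`:
  Kummer function `φ f · (w f)^q`, roots `g₁' = φ g₁ · (w g₂)^q`, `g₂' = φ g₂ · (w g₁)^q`, local
  generator `φ G · (w G)^q` (`G` at the node `π k`); the node values are `b₁^q b₂^q` on BOTH branches.
-/

set_option autoImplicit false
set_option linter.unusedSectionVars false
set_option linter.unusedVariables false

open AlgebraicCurve IsLocalRing

noncomputable section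

namespace Fermat.Agent.M43.ToricMatch5

open Fermat.Agent.T33.NodalCtx1 Fermat.Agent.T33.NodalCurve6 Fermat.Agent.T33.NodalAbs1A
  Fermat.Agent.X0.FF Fermat.Agent.RR.LSpace Fermat.Agent.U44.GaussRed3
  Fermat.Agent.M43.ThetaMatch1 Fermat.Agent.M43.FrobRel1 Fermat.Agent.M43.PlaceMove5
  AlgebraicCurve.SemilinearAut

/-! ### values at a place -/

section Values

variable {κ Fb : Type*} [Field κ] [Field Fb] [Algebra κ Fb]

/-- `u` has the value `b` at `Q`. -/
def ValAt (Q : Place κ Fb) (u : Fb) (b : κ) : Prop := u - algebraMap κ Fb b ∈ vanishing Q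

theorem ValAt.ord_nonneg {Q : Place κ Fb} {u : Fb} {b : κ} (h : ValAt Q u b) (hu : u ≠ 0) :
    0 ≤ Q.ord u := ord_nonneg_of_sub_mem_vanishing Q hu h

theorem ValAt.mul {Q : Place κ Fb} {u v : Fb} {b c : κ} (hu : ValAt Q u b) (hv : ValAt Q v c) :
    ValAt Q (u * v) (b * c) := by
  unfold ValAt at *
  have e : u * v - algebraMap κ Fb (b * c) =
      (u - algebraMap κ Fb b) * v + b • (v - algebraMap κ Fb c) := by
    rw [map_mul, Algebra.smul_def]; ring
  rw [e]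
  refine Submodule.add_mem _ ?_ (Submodule.smul_mem _ b hv)
  by_cases hv0 : v = 0
  · rw [hv0, mul_zero]; exact Submodule.zero_mem _
  rcases hu with hu | hu
  · rw [hu, zero_mul]; exact Submodule.zero_mem _
  · right
    have hne : u - algebraMap κ Fb b ≠ 0 := by
      intro h0; rw [h0, Place.ord_zero] at hu; exact lt_irrefl _ hu
    rw [Q.ord_mul hne hv0]
    have := ord_nonneg_of_sub_mem_vanishing Q hv0 hv
    omega

theorem ValAt.pow {Q : Place κ Fb} {u : Fb} {b : κ} (hu : ValAt Q u b) (n : ℕ) :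
    ValAt Q (u ^ n) (b ^ n) := by
  induction n with
  | zero =>
    unfold ValAt
    rw [pow_zero, pow_zero, map_one, sub_self]
    exact Submodule.zero_mem _
  | succ n ih =>
    rw [pow_succ, pow_succ]
    exact ih.mul hu

theorem ValAt.smul (g : SemilinearAut κ Fb) {Q : Place κ Fb} {u : Fb} {b : κ}
    (hu : ValAt Q u b) : ValAt (g • Q) (g • u) (baseAut g b) := by
  unfold ValAt at *
  have := smul_mem_vanishing g hu
  rwa [smul_sub, SemilinearAut.smul_algebraMap] at this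

/-- a function of order zero at a place of degree one has a nonzero value there. -/
theorem exists_valAt (H : LHyp κ Fb) (Q : Place κ Fb) {u : Fb} (hu : Q.ord u = 0) :
    ∃ b : κ, ValAt Q u b := by
  obtain ⟨b, hb⟩ := H.residue Q u (mem_of_ord_nonneg Q hu.ge)
  refine ⟨b, ?_⟩
  rcases hb with hb | hb
  · left; rw [hb, sub_self]
  · right; exact hb

end Values

variable {K : Type*} [Field K] {A : ValuationSubring K}
variable {F : Type*} [Field F] [Algebra K F]
variable {Fb : Type*} [Field Fb] [Algebra (ResidueField A) Fb]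
variable {ι : Type*} {Nd : NodalData (ResidueField A) Fb Fb ι} (N : NodalRed A F Nd)

/-- **toric Kummer datum with local generators at the nodes.** -/
def ToricDatum (n : ℕ) (x : Pic0 K F) : Prop :=
  ∃ (D : Divisor.degZero (K := K) (F := F)) (f g₁ g₂ : F), Pic0.mk D = x ∧ f ≠ 0 ∧ g₁ ≠ 0 ∧
    g₂ ≠ 0 ∧ (∀ P : Place K F, P.ord f = n * (D : Divisor K F) P) ∧
    (f / g₁ ^ n ∈ N.c₁.O ∧ red N.c₁ (f / g₁ ^ n) = 1) ∧
    (f / g₂ ^ n ∈ N.c₂.O ∧ red N.c₂ (f / g₂ ^ n) = 1) ∧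
    ∀ i : ι, ∃ G : F, G ≠ 0 ∧
      (∀ P : Place K F, N.RedToNode P i → P.ord f = n * P.ord G) ∧
      IsGU N.c₁ (g₁ / G) ∧ IsGU N.c₂ (g₂ / G) ∧
      (Nd.s1 i).ord (red N.c₁ (g₁ / G)) = 0 ∧ (Nd.s2 i).ord (red N.c₂ (g₂ / G)) = 0

/-- `w` exchanges the two components, with residue companion `W`. -/
structure SwapCompat (w : SemilinearAut K F) (W : SemilinearAut (ResidueField A) Fb) : Prop where
  mem₁₂ : ∀ y : F, y ∈ N.c₁.O → w • y ∈ N.c₂.O
  mem₂₁ : ∀ y : F, y ∈ N.c₂.O → w • y ∈ N.c₁.O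
  ρ₁₂ : ∀ (y : F) (hy : y ∈ N.c₁.O) (hy' : w • y ∈ N.c₂.O),
    N.c₂.ρ ⟨w • y, hy'⟩ = W • N.c₁.ρ ⟨y, hy⟩
  ρ₂₁ : ∀ (y : F) (hy : y ∈ N.c₂.O) (hy' : w • y ∈ N.c₁.O),
    N.c₁.ρ ⟨w • y, hy'⟩ = W • N.c₂.ρ ⟨y, hy⟩

variable {N}
variable {w : SemilinearAut K F} {W : SemilinearAut (ResidueField A) Fb}

theorem SwapCompat.red₁₂ (hw : SwapCompat N w W) {y : F} (hy : y ∈ N.c₁.O) :
    red N.c₂ (w • y) = W • red N.c₁ y := by
  rw [red_of_mem N.c₂ (hw.mem₁₂ y hy), red_of_mem N.c₁ hy]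
  exact hw.ρ₁₂ y hy _

theorem SwapCompat.red₂₁ (hw : SwapCompat N w W) {y : F} (hy : y ∈ N.c₂.O) :
    red N.c₁ (w • y) = W • red N.c₂ y := by
  rw [red_of_mem N.c₁ (hw.mem₂₁ y hy), red_of_mem N.c₂ hy]
  exact hw.ρ₂₁ y hy _

theorem smul_ne_zero_iff' {κ Fb : Type*} [Field κ] [Field Fb] [Algebra κ Fb]
    (g : SemilinearAut κ Fb) {z : Fb} : g • z ≠ 0 ↔ z ≠ 0 := by
  constructor
  · rintro h rfl; exact h (smul_zero _)
  · intro h h0
    apply h
    have := congrArg (fun t => g⁻¹ • t) h0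
    simpa using this

theorem SwapCompat.isGU₁₂ (hw : SwapCompat N w W) {y : F} (h : IsGU N.c₁ y) :
    IsGU N.c₂ (w • y) :=
  ⟨hw.mem₁₂ y h.mem, by rw [hw.red₁₂ h.mem]; exact (smul_ne_zero_iff' W).2 h.2⟩

theorem SwapCompat.isGU₂₁ (hw : SwapCompat N w W) {y : F} (h : IsGU N.c₂ y) :
    IsGU N.c₁ (w • y) :=
  ⟨hw.mem₂₁ y h.mem, by rw [hw.red₂₁ h.mem]; exact (smul_ne_zero_iff' W).2 h.2⟩

theorem smul_div' (g : SemilinearAut K F) (x y : F) : g • (x / y) = (g • x) / (g • y) := by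
  rw [SemilinearAut.smul_def, SemilinearAut.smul_def, SemilinearAut.smul_def, map_div₀]

theorem smul_pow'' (g : SemilinearAut K F) (x : F) (n : ℕ) : g • (x ^ n) = (g • x) ^ n := by
  rw [SemilinearAut.smul_def, SemilinearAut.smul_def, map_pow]

theorem smul_ne_zero'' (g : SemilinearAut K F) {x : F} (hx : x ≠ 0) : g • x ≠ 0 := by
  intro h0
  apply hx
  have := congrArg (fun t => g⁻¹ • t) h0
  simpa using this

theorem ord_smul_eq (g : SemilinearAut K F) (P : Place K F) (x : F) :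
    P.ord (g • x) = (g⁻¹ • P).ord x := by
  have := SemilinearAut.ord_smul g (g⁻¹ • P) x
  rwa [smul_inv_smul] at this

theorem div_identity (a b c d : F) (n q : ℕ) :
    a * b ^ q / (c * d ^ q) ^ n = (a / c ^ n) * (b / d ^ n) ^ q := by
  rw [div_pow, div_mul_div_comm, mul_pow, ← pow_mul, ← pow_mul, mul_comm n q]

/-- **the verification.** -/
theorem nodeMatch_of_toric (H₁ : LHyp (ResidueField A) Fb)
    (φ : SemilinearAut K F) (Fr : SemilinearAut (ResidueField A) Fb) (q : ℕ)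
    (hFr : ∀ a : ResidueField A, baseAut Fr a = a ^ q)
    (hW : ∀ a : ResidueField A, baseAut W a = a)
    (hφ₁ : SemiCompat N.c₁ φ Fr) (hφ₂ : SemiCompat N.c₂ φ Fr) (hw : SwapCompat N w W)
    (π : ι → ι) (hππ : ∀ i, π (π i) = i)
    (hs1F : ∀ i, Nd.s1 (π i) = Fr • Nd.s1 i) (hs2F : ∀ i, Nd.s2 (π i) = Fr • Nd.s2 i)
    (hs1W : ∀ i, Nd.s1 (π i) = W • Nd.s2 i) (hs2W : ∀ i, Nd.s2 (π i) = W • Nd.s1 i)
    (hredφ : ∀ (P : Place K F) (i : ι), N.RedToNode P i → N.RedToNode (φ⁻¹ • P) (π i))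
    (hredw : ∀ (P : Place K F) (i : ι), N.RedToNode P i → N.RedToNode (w⁻¹ • P) (π i))
    {n : ℕ} {x : Pic0 K F} (hx : ToricDatum N n x) :
    NodeMatch N n (φ • x + q • (w • x)) := by
  obtain ⟨D, f, g₁, g₂, rfl, hf, hg₁, hg₂, hdiv, ⟨hm₁, hr₁⟩, ⟨hm₂, hr₂⟩, hnode⟩ := hx
  have hφf := smul_ne_zero'' φ hf
  have hwf := smul_ne_zero'' w hf
  have hφg₁ := smul_ne_zero'' φ hg₁
  have hφg₂ := smul_ne_zero'' φ hg₂
  have hwg₁ := smul_ne_zero'' w hg₁
  have hwg₂ := smul_ne_zero'' w hg₂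
  refine ⟨degZeroSMulHom φ D + q • degZeroSMulHom w D, (φ • f) * (w • f) ^ q,
    (φ • g₁) * (w • g₂) ^ q, (φ • g₂) * (w • g₁) ^ q, ?_, mul_ne_zero hφf (pow_ne_zero _ hwf),
    mul_ne_zero hφg₁ (pow_ne_zero _ hwg₂), mul_ne_zero hφg₂ (pow_ne_zero _ hwg₁), ?_, ?_, ?_, ?_⟩
  · -- the class
    rw [Pic0.mk_add, pic0_smul_mk, pic0_smul_mk]
    have : Pic0.mk (q • degZeroSMulHom w D) = q • Pic0.mk (degZeroSMulHom w D) :=
      map_nsmul (QuotientAddGroup.mk' _) q (degZeroSMulHom w D)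
    rw [this]
  · -- the divisor
    intro P
    rw [P.ord_mul hφf (pow_ne_zero _ hwf), ord_pow, ord_smul_eq, ord_smul_eq, hdiv, hdiv]
    show _ = (n : ℤ) * ((degZeroSMulHom φ D : Divisor K F) P +
      ((q • degZeroSMulHom w D : Divisor.degZero (K := K) (F := F)) : Divisor K F) P)
    rw [AddSubgroup.coe_nsmul, coe_degZeroSMulHom, coe_degZeroSMulHom, Finsupp.smul_apply,
      divisor_smul_apply, divisor_smul_apply, nsmul_eq_mul]
    ring
  · -- the first component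
    have e : (φ • f) * (w • f) ^ q / ((φ • g₁) * (w • g₂) ^ q) ^ n =
        (φ • (f / g₁ ^ n)) * (w • (f / g₂ ^ n)) ^ q := by
      rw [smul_div', smul_div', smul_pow'', smul_pow'']
      exact div_identity _ _ _ _ n q
    rw [e]
    have h1 := hφ₁.smul_mem _ hm₁
    have h2 := hw.mem₂₁ _ hm₂
    refine ⟨N.c₁.O.mul_mem h1 (N.c₁.O.pow_mem h2 q), ?_⟩
    rw [red_mul N.c₁ h1 (N.c₁.O.pow_mem h2 q), red_pow N.c₁ h2, hφ₁.red_smul hm₁, hw.red₂₁ hm₂,
      hr₁, hr₂, smul_one, smul_one, one_pow, mul_one]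
  · -- the second component
    have e : (φ • f) * (w • f) ^ q / ((φ • g₂) * (w • g₁) ^ q) ^ n =
        (φ • (f / g₂ ^ n)) * (w • (f / g₁ ^ n)) ^ q := by
      rw [smul_div', smul_div', smul_pow'', smul_pow'']
      exact div_identity _ _ _ _ n q
    rw [e]
    have h1 := hφ₂.smul_mem _ hm₂
    have h2 := hw.mem₁₂ _ hm₁
    refine ⟨N.c₂.O.mul_mem h1 (N.c₂.O.pow_mem h2 q), ?_⟩
    rw [red_mul N.c₂ h1 (N.c₂.O.pow_mem h2 q), red_pow N.c₂ h2, hφ₂.red_smul hm₂, hw.red₁₂ hm₁,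
      hr₁, hr₂, smul_one, smul_one, one_pow, mul_one]
  · -- the nodes
    intro i
    obtain ⟨G, hG, hGord, hu₁, hu₂, ho₁, ho₂⟩ := hnode (π i)
    have hφG := smul_ne_zero'' φ hG
    have hwG := smul_ne_zero'' w hG
    refine ⟨(φ • G) * (w • G) ^ q, mul_ne_zero hφG (pow_ne_zero _ hwG), ?_, ?_, ?_, ?_⟩
    · intro P hP
      rw [P.ord_mul hφf (pow_ne_zero _ hwf), ord_pow, ord_smul_eq, ord_smul_eq,
        hGord _ (hredφ P i hP), hGord _ (hredw P i hP),
        P.ord_mul hφG (pow_ne_zero _ hwG), ord_pow, ord_smul_eq, ord_smul_eq]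
      ring
    · have e : (φ • g₁) * (w • g₂) ^ q / ((φ • G) * (w • G) ^ q) =
          (φ • (g₁ / G)) * (w • (g₂ / G)) ^ q := by
        rw [smul_div', smul_div', div_pow, div_mul_div_comm]
      rw [e]
      exact (hφ₁.isGU hu₁).mul ((hw.isGU₂₁ hu₂).pow q)
    · have e : (φ • g₂) * (w • g₁) ^ q / ((φ • G) * (w • G) ^ q) =
          (φ • (g₂ / G)) * (w • (g₁ / G)) ^ q := by
        rw [smul_div', smul_div', div_pow, div_mul_div_comm]
      rw [e]
      exact (hφ₂.isGU hu₂).mul ((hw.isGU₁₂ hu₁).pow q)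
    · -- the common value
      obtain ⟨b₁, hb₁⟩ := exists_valAt H₁ _ ho₁
      obtain ⟨b₂, hb₂⟩ := exists_valAt H₁ _ ho₂
      have e₁ : (φ • g₁) * (w • g₂) ^ q / ((φ • G) * (w • G) ^ q) =
          (φ • (g₁ / G)) * (w • (g₂ / G)) ^ q := by
        rw [smul_div', smul_div', div_pow, div_mul_div_comm]
      have e₂ : (φ • g₂) * (w • g₁) ^ q / ((φ • G) * (w • G) ^ q) =
          (φ • (g₂ / G)) * (w • (g₁ / G)) ^ q := by
        rw [smul_div', smul_div', div_pow, div_mul_div_comm]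
      have hwu₂ := hw.mem₂₁ _ hu₂.mem
      have hwu₁ := hw.mem₁₂ _ hu₁.mem
      have hφu₁ := hφ₁.smul_mem _ hu₁.mem
      have hφu₂ := hφ₂.smul_mem _ hu₂.mem
      refine ⟨b₁ ^ q * b₂ ^ q, ?_, ?_⟩
      · show ValAt (Nd.s1 i) _ _
        rw [e₁, red_mul N.c₁ hφu₁ (N.c₁.O.pow_mem hwu₂ q), red_pow N.c₁ hwu₂,
          hφ₁.red_smul hu₁.mem, hw.red₂₁ hu₂.mem]
        have v1 : ValAt (Nd.s1 i) (Fr • red N.c₁ (g₁ / G)) (b₁ ^ q) := by
          have := hb₁.smul Fr
          rwa [← hs1F, hππ, hFr] at this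
        have v2 : ValAt (Nd.s1 i) (W • red N.c₂ (g₂ / G)) b₂ := by
          have := hb₂.smul W
          rwa [← hs1W, hππ, hW] at this
        exact v1.mul (v2.pow q)
      · show ValAt (Nd.s2 i) _ _
        rw [e₂, red_mul N.c₂ hφu₂ (N.c₂.O.pow_mem hwu₁ q), red_pow N.c₂ hwu₁,
          hφ₂.red_smul hu₂.mem, hw.red₁₂ hu₁.mem, mul_comm (b₁ ^ q)]
        have v1 : ValAt (Nd.s2 i) (Fr • red N.c₂ (g₂ / G)) (b₂ ^ q) := by
          have := hb₂.smul Fr
          rwa [← hs2F, hππ, hFr] at this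
        have v2 : ValAt (Nd.s2 i) (W • red N.c₁ (g₁ / G)) b₁ := by
          have := hb₁.smul W
          rwa [← hs2W, hππ, hW] at this
        exact v1.mul (v2.pow q)

end Fermat.Agent.M43.ToricMatch5
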