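import Mathlib
import Fermat.Agent.M43.ToricMatch5
import Fermat.Agent.M43.NodeMove5
import Fermat.Agent.M43.ConnLevel1
import Fermat.Agent.M43.MPToric4
import Fermat.Agent.U44.LocInst1

/-!
# M43 / P-MP: (TORIC-strong) from the toric normal form at the nodes

`h : LevelHyp q M' A`, `N = M' * q`.

* `semiCompat…`, `swapCompat_w` : the instances of the hypotheses of `ToricMatch5.nodeMatch_of_toric`
  at `nodalRed h` (`φ` a Frobenius lift with `Fr = frobSemi`, `w = w_q` with `W = W̄`,
  `π = NodeMove5.wNode h`);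
* `nodeMatch_frob_add_w` : `ToricDatum (nodalRed h) n x → NodeMatch (nodalRed h) n (φ x + q · w x)`;
* `frob_eq_neg_w` : if moreover `n • x = 0` with `q ∤ n`, then `φ x = (-1 · q) • w x`
  (helper1's `ConnLevel1.eq_zero_of_nodeMatch`);
* `ToricNormStmt` : the toric normal form (owner helper1: `ToricNorm1`);
  `toricStrong_of_norm : ToricNormStmt → MPToric4.ToricStrongStmt`.
-/

set_option autoImplicit false
set_option linter.unusedSectionVars false
set_option linter.style.haveILetI false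
set_option linter.unusedVariables false
set_option synthInstance.maxHeartbeats 400000

noncomputable section

namespace Fermat.Agent.M43.ToricStrong5

open HahnSeries ModularCurve AlgebraicCurve IsLocalRing IntermediateField
open Fermat.Agent.RED.Interface4 Fermat.Agent.ES.RED Fermat.Agent.ES.RED.GaloisRed21
  Fermat.Agent.T33.NodalHalf4 Fermat.Agent.T33.NodalCurve6 Fermat.Agent.T33.NodalCtx1
  Fermat.Agent.T33.NodalBase4A Fermat.Agent.X0.FF
  Fermat.Agent.T33.NodalInst4E
  Fermat.Agent.T33.FrickeRed3 Fermat.Agent.T33.Psi3C Fermat.Agent.T33.Psi3D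
  Fermat.Agent.ES.KRON.FrobPlace13 Fermat.Agent.U44.WbPic1 Fermat.Agent.U44.GaussRed3
  Fermat.Agent.M43.PlaceMove5 Fermat.Agent.M43.PlaceInst5 Fermat.Agent.M43.NodeMove5
  Fermat.Agent.M43.AtkinDef5 Fermat.Agent.M43.AtkinVal5 Fermat.Agent.M43.AtkinJac5
  Fermat.Agent.M43.FrobRel1 Fermat.Agent.M43.FrobInst1 Fermat.Agent.M43.ToricMatch5
  Fermat.Agent.M43.ThetaMatch1 Fermat.Agent.FF.InertiaWire8

variable {q M' : ℕ} [NeZero M'] [NeZero q] {A : ValuationSubring Qbar}

/-- shortcut instance. -/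
local instance (priority := high) algebraAFbarNS : Algebra ↥A ↥(Fbar (M' * q)) := inferInstance

/-- shortcut instance. -/
local instance (priority := high) algebraKFbS : Algebra (Setup8.kA A) (Fb A M') := inferInstance

variable (h : LevelHyp q M' A)

/-- **`w_q` exchanges the two components of the nodal context.** -/
theorem swapCompat_w :
    SwapCompat (Fermat.Agent.T33.NodalInst4G.nodalRed h) (wSh h) (WbS h) where
  mem₁₂ y hy := wA_mem_O2 h hy
  mem₂₁ y hy := wA_mem_O1 h hy
  ρ₁₂ y hy hy' := rho2_wA h ⟨y, hy⟩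
  ρ₂₁ y hy hy' := rho1_wA h ⟨y, hy⟩

section Frob

variable [ExpChar (Setup8.kA A) q] [PerfectField (Setup8.kA A)]

/-- **the verification at `X₀(M'q)`**: `φ x + q · w x` has matching node values on the toric
part. -/
theorem nodeMatch_frob_add_w {σ : Qbar ≃ₐ[ℚ] Qbar} (hσ : A.IsFrobeniusAt σ q) {n : ℕ}
    {x : JZero (M' * q)} (hx : ToricDatum (Fermat.Agent.T33.NodalInst4G.nodalRed h) n x) :
    NodeMatch (Fermat.Agent.T33.NodalInst4G.nodalRed h) n
      (gal (M' * q) σ • x + q • (wSh h • x)) := by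
  refine nodeMatch_of_toric (Fermat.Agent.T33.NodalInst4C.lHypFb h) (gal (M' * q) σ)
    (frobSemi (Setup8.kA A) q M') q (fun a => ?_) (fun a => rfl)
    (semiCompat_c1_frob h hσ) (semiCompat_c2_frob h hσ) (swapCompat_w h)
    (wNode h) (wNode_wNode h) (fun i => rfl) (fun i => rfl) (fun i => ?_) (fun i => ?_)
    (fun P i hP => redToNode_frob_inv h hσ hP) (fun P i hP => ?_) hx
  · rw [baseAut_frobSemi, frobeniusEquiv_apply, frobenius_def]
  · obtain ⟨P, h1, h2⟩ := i.2
    exact (WbS_smul_node₂ h h1 h2).symm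
  · obtain ⟨P, h1, h2⟩ := i.2
    exact (WbS_smul_node₁ h h1 h2).symm
  · rw [wSh_inv]
    exact redToNode_w h hP

end Frob

/-- **`φ = − q · w_q` on the toric `n`-torsion** (`q ∤ n`), given the toric normal form. -/
theorem frob_eq_neg_w {σ : Qbar ≃ₐ[ℚ] Qbar} (hσ : A.IsFrobeniusAt σ q) {n : ℕ}
    (hn : ¬ q ∣ n) {x : JZero (M' * q)} (hnx : n • x = 0)
    (hx : ToricDatum (Fermat.Agent.T33.NodalInst4G.nodalRed h) n x) :
    σ • x = (-1 * (q : ℤ)) • wJ h.prime h.not_dvd x := by
  haveI : Fact q.Prime := ⟨h.prime⟩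
  haveI : CharP (Setup8.kA A) q :=
    Fermat.Agent.ES.KRON.KronInst10.charP_residueField A h.prime h.liesOver
  haveI : ExpChar (Setup8.kA A) q := ExpChar.prime h.prime
  haveI : PerfectField (Setup8.kA A) := inferInstance
  have hz := nodeMatch_frob_add_w h hσ hx
  have hnz : n • (gal (M' * q) σ • x + q • (wSh h • x)) = 0 := by
    have e1 : ∀ g : SemilinearAut Qbar ↥(Fbar (M' * q)), n • (g • x) = 0 := fun g => by
      have := map_nsmul (DistribSMul.toAddMonoidHom (JZero (M' * q)) g) n x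
      rw [DistribSMul.toAddMonoidHom_apply, DistribSMul.toAddMonoidHom_apply, hnx,
        smul_zero] at this
      exact this.symm
    rw [nsmul_add, e1, zero_add, smul_comm n q, e1, nsmul_zero]
  have h0 := Fermat.Agent.M43.ConnLevel1.eq_zero_of_nodeMatch h n
    (Fermat.Agent.U44.LocInst1.val_natCast_eq_one h.prime h.liesOver hn) _ hnz hz
  have h1 : σ • x = -(q • (wSh h • x)) := eq_neg_of_add_eq_zero_left h0
  rw [h1, neg_one_mul, neg_smul, natCast_zsmul]
  rfl

/-- **the toric normal form at the nodes** (owner helper1). -/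
def ToricNormStmt : Prop :=
  ∀ {q M' : ℕ} [NeZero M'] [NeZero q] {A : ValuationSubring Qbar} (h : LevelHyp q M' A)
    {p : ℕ}, p.Prime → p ≠ q → ∀ x ∈ formalTwo A (M' * q) p, p • x = 0 →
      ToricDatum (Fermat.Agent.T33.NodalInst4G.nodalRed h) p x

/-- **(TORIC-strong) from the toric normal form.** -/
theorem toricStrong_of_norm (hT : ToricNormStmt) : Fermat.Agent.M43.MPToric4.ToricStrongStmt := by
  intro q M' _ _ A h p hp hpq
  refine ⟨wJ h.prime h.not_dvd, -1, Or.inr rfl, fun σ x => wJ_smul h.prime h.not_dvd σ x,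
    fun x _ _ => wJ_wJ h.prime h.not_dvd x, fun φ hφ x hx hpx => ?_⟩
  have hqp : ¬ q ∣ p := fun hd =>
    hpq ((Nat.prime_dvd_prime_iff_eq h.prime hp).1 hd).symm
  exact frob_eq_neg_w h hφ hqp hpx (hT h hp hpq x hx hpx)

end Fermat.Agent.M43.ToricStrong5
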