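import Mathlib
import Fermat.Agent.M43.ToricStrong5
import Fermat.Agent.M43.ToricNorm1

/-!
# M43 / P-MP: (TORIC-strong), hypothesis-free

`toricStrongStmt : MPToric4.ToricStrongStmt` — for `h : LevelHyp q M' A` and a prime `p ≠ q`, the
partial Atkin-Lehner involution `w = w_q` of `J₀(M'q)(ℚ̄)` (`AtkinJac5.wJ`) commutes with `G_ℚ`, is an
involution, and every Frobenius element `φ` at `A` acts on the toric `p`-torsion
`formalTwo A (M'q) p ∩ J[p]` as `- q · w`.

Assembly of: helper1's toric normal form `ToricNorm1.nodeUnit_of_mem_formalTwo` and injectivity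
`ConnLevel1.eq_zero_of_nodeMatch`; `ToricStrong5.toricStrong_of_norm` (the node values of
`φ x + q · w x` match: `ToricMatch5`, `NodeMove5`, `PlaceInst5`, `AtkinVal5`, `AtkinJac5`).
-/

set_option autoImplicit false
set_option linter.unusedSectionVars false
set_option linter.style.haveILetI false
set_option synthInstance.maxHeartbeats 400000

noncomputable section

namespace Fermat.Agent.M43.ToricFinal5

open Fermat.Agent.M43.ToricStrong5 Fermat.Agent.M43.ToricMatch5 Fermat.Agent.M43.ToricNorm1

/-- **the toric normal form at the nodes** (helper1's `ToricNorm1.nodeUnit_of_mem_formalTwo`). -/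
theorem toricNormStmt : ToricNormStmt := by
  intro q M' _ _ A h p hp hpq x hx hpx
  haveI : NeZero p := ⟨hp.ne_zero⟩
  exact nodeUnit_of_mem_formalTwo h p hx hpx

/-- **(TORIC-strong).** -/
theorem toricStrongStmt : Fermat.Agent.M43.MPToric4.ToricStrongStmt :=
  toricStrong_of_norm toricNormStmt

end Fermat.Agent.M43.ToricFinal5
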