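/-
Programme M43 (target S43), pillar (P-MP) **MAZUR'S PRINCIPLE — COMPLETE, HYPOTHESIS-FREE** (helper4,
pillar owner): the contract `MPIface4.MPStmt` is a theorem.

`mpStmt : MPStmt` = `MPCore4.mp_of_toric` (helper4: C1 + auxiliary level at the residue prime `q` +
PULL + local dichotomy at `q` + (LIFT_q)) applied to helper5's `ToricFinal5.toricStrongStmt`
((TORIC-strong): on the toric `p`-torsion of `J₀(M'q)` at `q` every Frobenius element is `- q w_q`).

For a Frey package `P`, a conductor level `N`, an odd prime `q ∣ N`, `q ≠ p`, `E[p]` irreducible,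
modular of level `N` and unramified at `q`:
  `P.ModularRepOfLevel (N / q)`  OR  every Frobenius element at `q` acts on `E[p]` as `± q`.
-/
import Mathlib
import Fermat.Agent.M43.MPCore4
import Fermat.Agent.M43.ToricFinal5

set_option autoImplicit false

namespace Fermat.Agent.M43.MPFinal4

open Fermat.Agent.M43.MPIface4

/-- **MAZUR'S PRINCIPLE (strong form), hypothesis-free.** -/
theorem mpStmt : MPStmt :=
  Fermat.Agent.M43.MPCore4.mp_of_toric Fermat.Agent.M43.ToricFinal5.toricStrongStmt

end Fermat.Agent.M43.MPFinal4
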