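/-
Programme M43 (target S43), TOP WIRING (lead), dry: the literal S43 from the ONE end theorem of the
programme, with the banked statements S07 (no weight-2 cusp form of level 2), S05 (the Frey
representation is unramified at every odd prime `q ≠ p`) and S44 (`p` is removed from a conductor
level).

* `LL2Stmt` : **(LL2')** for a Frey package `P`, a conductor level `N`, irreducible mod-`p`
  representation: modular of level `N` implies modular of level `2`.
* `LL2CoreStmt` : the same, with the extra hypothesis `¬ p ∣ N` (what the patching argument proves);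
  `ll2_of_core` : `LL2CoreStmt → LL2Stmt` by the banked S44.
* `not_modularRepOfLevel_two` : no Frey package is modular of level `2` (banked S07).
* `s43_of_ll2` : `LL2Stmt →` the literal S43 (by exfalso).
* `LowerOneStmt` : the one-prime step "an odd prime `q ≠ p` of a conductor level `N` prime to `p`
  can be removed"; `core_of_lowerOne` : `LowerOneStmt → LL2CoreStmt` (induction on the level;
  unramifiedness from the banked S05).
-/
import Mathlib
import Fermat.Statements.S43
import Fermat.Agent.S05
import Fermat.Agent.S07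
import Fermat.Agent.S08
import Fermat.Agent.S44

set_option autoImplicit false

open WeierstrassCurve WeierstrassCurve.Affine WeierstrassCurve.Affine.Point
open CuspForm ModularFormClass UpperHalfPlane
open FreyPackage

namespace Fermat.Agent.M43.TopWire0

/-- **(LL2')**: the one end theorem of programme M43. -/
def LL2Stmt : Prop :=
  ∀ (P : FreyPackage) {N : ℕ}, P.IsConductorLevel N →
    GaloisRepIsIrreducible (K := AlgebraicClosure ℚ) ℚ P.freyCurve P.p →
    P.ModularRepOfLevel N → P.ModularRepOfLevel 2

/-- (LL2') for levels prime to `p`. -/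
def LL2CoreStmt : Prop :=
  ∀ (P : FreyPackage) {N : ℕ}, P.IsConductorLevel N → ¬ P.p ∣ N →
    GaloisRepIsIrreducible (K := AlgebraicClosure ℚ) ℚ P.freyCurve P.p →
    P.ModularRepOfLevel N → P.ModularRepOfLevel 2

/-- the one-prime step at a level prime to `p` (the unramifiedness hypothesis is available from the
banked S05, so it is included). -/
def LowerOneStmt : Prop :=
  ∀ (P : FreyPackage) {N q : ℕ}, P.IsConductorLevel N → ¬ P.p ∣ N → q.Prime → q ≠ 2 → q ≠ P.p →
    q ∣ N → GaloisRepIsIrreducible (K := AlgebraicClosure ℚ) ℚ P.freyCurve P.p →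
    P.ModularRepOfLevel N → P.GaloisRepUnramifiedAt q →
    ∃ M : ℕ, M ∣ N ∧ ¬ q ∣ M ∧ P.ModularRepOfLevel M

theorem pos_of_modularRepOfLevel0 (P : FreyPackage) {N : ℕ} (hcond : P.IsConductorLevel N) :
    0 < N := by
  rcases Nat.eq_zero_or_pos N with h | h
  · exfalso
    subst h
    exact hcond.not_four_dvd (dvd_zero 4)
  · exact h

/-- no Frey package is modular of level `2` (banked S07). -/
theorem not_modularRepOfLevel_two (P : FreyPackage) : ¬ P.ModularRepOfLevel 2 := by
  rintro ⟨f, W, 𝔪, hf, -⟩
  exact hf.ne_zero (Fermat.Agent.S07.result f)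

/-- `p` is removed first (banked S44). -/
theorem ll2_of_core (h : LL2CoreStmt) : LL2Stmt := by
  intro P N hcond hirr hmod
  by_cases hpN : P.p ∣ N
  · obtain ⟨M, hMN, hpM, hM⟩ := Fermat.Agent.S44.result P hcond hpN hirr hmod
    have hM0 : 0 < M := Nat.pos_of_dvd_of_pos hMN (pos_of_modularRepOfLevel0 P hcond)
    exact h P (hcond.of_dvd hMN hM0) hpM hirr hM
  · exact h P hcond hpN hirr hmod

/-- the literal S43 from (LL2'). -/
theorem s43_of_ll2 (h : LL2Stmt) (P : FreyPackage) {N q : ℕ} (hcond : P.IsConductorLevel N)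
    (_hq : q.Prime) (_hq2 : q ≠ 2) (_hqp : q ≠ P.p) (_hqN : q ∣ N)
    (hirr : GaloisRepIsIrreducible (K := AlgebraicClosure ℚ) ℚ P.freyCurve P.p)
    (hmod : P.ModularRepOfLevel N) (_hunr : P.GaloisRepUnramifiedAt q) :
    ∃ M : ℕ, M ∣ N ∧ ¬ q ∣ M ∧ P.ModularRepOfLevel M :=
  (not_modularRepOfLevel_two P (h P hcond hirr hmod)).elim

/-- a level that is a conductor level, prime to `p`, with no odd prime factor, is `1` or `2`. -/
theorem eq_one_or_two0 (P : FreyPackage) {N : ℕ} (hcond : P.IsConductorLevel N)
    (hodd : ∀ q : ℕ, q.Prime → q ∣ N → q = 2) : N = 1 ∨ N = 2 := by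
  have hN0 : 0 < N := pos_of_modularRepOfLevel0 P hcond
  have h4 : ¬ 4 ∣ N := hcond.not_four_dvd
  -- `N` is a power of two
  have hpow : ∃ k : ℕ, N = 2 ^ k := by
    have : ∀ q : ℕ, q.Prime → q ∣ N → q = 2 := hodd
    refine ⟨N.primeFactorsList.length, ?_⟩
    have h2 : ∀ q ∈ N.primeFactorsList, q = 2 := fun q hqm =>
      this q (Nat.prime_of_mem_primeFactorsList hqm) (Nat.dvd_of_mem_primeFactorsList hqm)
    have := Nat.prod_primeFactorsList hN0.ne'
    rw [List.eq_replicate_of_mem h2, List.prod_replicate] at this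
    exact this.symm
  obtain ⟨k, rfl⟩ := hpow
  rcases k with _ | _ | k
  · left; simp
  · right; simp
  · exfalso
    apply h4
    exact ⟨2 ^ k, by ring⟩

/-- modular of level `1` implies modular of level `2` is not needed: level `1` is impossible as
well, but we only need to land in level `2`; a form of level `1` is a form of level `2`.  We avoid
this by keeping the prime `2` in the level: the induction removes only odd primes, and a conductor
level of a Frey package is even. We record the induction in the form "some level `M ∣ N` all of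
whose prime factors are `2`". -/
theorem exists_two_power_level0 (h : LowerOneStmt) (P : FreyPackage) :
    ∀ (n N : ℕ), N ≤ n → P.IsConductorLevel N → ¬ P.p ∣ N →
      GaloisRepIsIrreducible (K := AlgebraicClosure ℚ) ℚ P.freyCurve P.p →
      P.ModularRepOfLevel N →
      ∃ M : ℕ, M ∣ N ∧ (M = 1 ∨ M = 2) ∧ P.ModularRepOfLevel M := by
  intro n
  induction n with
  | zero =>
    intro N hN hcond _ _ _
    exact absurd (pos_of_modularRepOfLevel0 P hcond) (by omega)
  | succ n ih =>
    intro N hN hcond hpN hirr hmod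
    by_cases hodd : ∀ q : ℕ, q.Prime → q ∣ N → q = 2
    · exact ⟨N, dvd_rfl, eq_one_or_two0 P hcond hodd, hmod⟩
    · push Not at hodd
      obtain ⟨q, hq, hqN, hq2⟩ := hodd
      have hqp : q ≠ P.p := fun e => hpN (e ▸ hqN)
      have hunr : P.GaloisRepUnramifiedAt q := Fermat.Agent.S05.result P hq hq2 hqp
      obtain ⟨M, hMN, hqM, hM⟩ := h P hcond hpN hq hq2 hqp hqN hirr hmod hunr
      have hN0 : 0 < N := pos_of_modularRepOfLevel0 P hcond
      have hM0 : 0 < M := Nat.pos_of_dvd_of_pos hMN hN0
      have hMlt : M < N := by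
        refine lt_of_le_of_ne (Nat.le_of_dvd hN0 hMN) ?_
        rintro rfl
        exact hqM hqN
      have hpM : ¬ P.p ∣ M := fun hh => hpN (hh.trans hMN)
      obtain ⟨M', hM'M, h12, hM'⟩ :=
        ih M (by omega) (hcond.of_dvd hMN hM0) hpM hirr hM
      exact ⟨M', hM'M.trans hMN, h12, hM'⟩

/-- no Frey package is modular of level `1` (banked S08). -/
theorem not_modularRepOfLevel_one (P : FreyPackage) : ¬ P.ModularRepOfLevel 1 := by
  rintro ⟨f, W, 𝔪, hf, -⟩
  exact hf.ne_zero (Fermat.Agent.S08.result f)

/-- the one-prime step is contradictory with the existence of a modular Frey package: this is the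
form in which the programme ends. -/
theorem false_of_lowerOne (h : LowerOneStmt) (P : FreyPackage) {N : ℕ}
    (hcond : P.IsConductorLevel N)
    (hirr : GaloisRepIsIrreducible (K := AlgebraicClosure ℚ) ℚ P.freyCurve P.p)
    (hmod : P.ModularRepOfLevel N) : False := by
  -- remove `p` first
  obtain ⟨N', hcond', hpN', hmod'⟩ : ∃ N' : ℕ, P.IsConductorLevel N' ∧ ¬ P.p ∣ N' ∧
      P.ModularRepOfLevel N' := by
    by_cases hpN : P.p ∣ N
    · obtain ⟨M, hMN, hpM, hM⟩ := Fermat.Agent.S44.result P hcond hpN hirr hmod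
      have hM0 : 0 < M := Nat.pos_of_dvd_of_pos hMN (pos_of_modularRepOfLevel0 P hcond)
      exact ⟨M, hcond.of_dvd hMN hM0, hpM, hM⟩
    · exact ⟨N, hcond, hpN, hmod⟩
  obtain ⟨M, -, h12, hM⟩ := exists_two_power_level0 h P N' N' le_rfl hcond' hpN' hirr hmod'
  rcases h12 with rfl | rfl
  · exact not_modularRepOfLevel_one P hM
  · exact not_modularRepOfLevel_two P hM

/-- `LowerOneStmt → LL2Stmt`. -/
theorem ll2_of_lowerOne (h : LowerOneStmt) : LL2Stmt :=
  fun P _ hcond hirr hmod => (false_of_lowerOne h P hcond hirr hmod).elim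

/-- the literal S43 from the one-prime step at levels prime to `p`. -/
theorem s43_of_lowerOne (h : LowerOneStmt) (P : FreyPackage) {N q : ℕ}
    (hcond : P.IsConductorLevel N)
    (hq : q.Prime) (hq2 : q ≠ 2) (hqp : q ≠ P.p) (hqN : q ∣ N)
    (hirr : GaloisRepIsIrreducible (K := AlgebraicClosure ℚ) ℚ P.freyCurve P.p)
    (hmod : P.ModularRepOfLevel N) (hunr : P.GaloisRepUnramifiedAt q) :
    ∃ M : ℕ, M ∣ N ∧ ¬ q ∣ M ∧ P.ModularRepOfLevel M :=
  s43_of_ll2 (ll2_of_lowerOne h) P hcond hq hq2 hqp hqN hirr hmod hunr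

end Fermat.Agent.M43.TopWire0
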