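/-
Programme M43 (target S43), chapter TOP, item (T1) (helper4): **the one-prime step `LowerOneStmt`
from Mazur's principle and the SCALAR CASE.**

* `ScalarCaseStmt` : the literal END CONTRACT of the patching pillars: at a conductor level `N`
  prime to `p`, an odd prime `q ≠ p` of `N` at which `E[p]` is unramified and every Frobenius element
  is the scalar `± q` can be removed from the level;
* `lowerOne_of_scalar : ScalarCaseStmt → TopWire0.LowerOneStmt` (by `MPFinal4.mpStmt`);
* `s43_of_scalar` : the literal frozen S43 from `ScalarCaseStmt` (by lead's `TopWire0`).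
-/
import Mathlib
import Fermat.Agent.M43.MPFinal4
import Fermat.Agent.M43.TopWire0

set_option autoImplicit false

open WeierstrassCurve WeierstrassCurve.Affine WeierstrassCurve.Affine.Point

namespace Fermat.Agent.M43.TopScalar4

open Fermat.Agent.M43.MPIface4 Fermat.Agent.M43.TopWire0

/-- **the scalar case** (END CONTRACT of the patching pillars). -/
def ScalarCaseStmt : Prop :=
  ∀ (P : FreyPackage) {N q : ℕ}, P.IsConductorLevel N → ¬ P.p ∣ N → q.Prime → q ≠ 2 → q ≠ P.p →
    q ∣ N → GaloisRepIsIrreducible (K := AlgebraicClosure ℚ) ℚ P.freyCurve P.p →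
    P.ModularRepOfLevel N → P.GaloisRepUnramifiedAt q → FrobScalar P q →
    ∃ M : ℕ, M ∣ N ∧ ¬ q ∣ M ∧ P.ModularRepOfLevel M

/-- `q ∤ N / q` for a conductor level `N` (squarefree). -/
theorem not_dvd_div {P : FreyPackage} {N q : ℕ} (hcond : P.IsConductorLevel N) (hq : q.Prime)
    (hqN : q ∣ N) : ¬ q ∣ N / q := by
  intro h
  apply hcond.sq_not_dvd hq
  obtain ⟨k, hk⟩ := h
  refine ⟨k, ?_⟩
  have hN : N / q * q = N := Nat.div_mul_cancel hqN
  rw [← hN, hk]
  ring

/-- **(T1)**: the one-prime step from Mazur's principle and the scalar case. -/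
theorem lowerOne_of_scalar (hS : ScalarCaseStmt) : LowerOneStmt := by
  intro P N q hcond hpN hq hq2 hqp hqN hirr hmod hunr
  rcases Fermat.Agent.M43.MPFinal4.mpStmt P hcond hq hq2 hqp hqN hirr hmod hunr with h | h
  · exact ⟨N / q, Nat.div_dvd_of_dvd hqN, not_dvd_div hcond hq hqN, h⟩
  · exact hS P hcond hpN hq hq2 hqp hqN hirr hmod hunr h

/-- the literal frozen S43 from the scalar case. -/
theorem s43_of_scalar (hS : ScalarCaseStmt) (P : FreyPackage) {N q : ℕ}
    (hcond : P.IsConductorLevel N)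
    (hq : q.Prime) (hq2 : q ≠ 2) (hqp : q ≠ P.p) (hqN : q ∣ N)
    (hirr : GaloisRepIsIrreducible (K := AlgebraicClosure ℚ) ℚ P.freyCurve P.p)
    (hmod : P.ModularRepOfLevel N) (hunr : P.GaloisRepUnramifiedAt q) :
    ∃ M : ℕ, M ∣ N ∧ ¬ q ∣ M ∧ P.ModularRepOfLevel M :=
  s43_of_lowerOne (lowerOne_of_scalar hS) P hcond hq hq2 hqp hqN hirr hmod hunr

end Fermat.Agent.M43.TopScalar4
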