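/-
Programme M43 (target S43), chapter TOP, helper2: **reduction of the scalar case to the case where
ALL odd primes of the level are scalar.**

* `AllScalarStmt` : at a conductor level `N` prime to `p` such that every Frobenius element at every
  odd prime of `N` acts on `E[p]` as a scalar `± q`, and `N` has an odd prime factor, the Frey
  representation is NOT modular of level `N` (the END CONTRACT of the patching argument in the form
  in which the patching frame is instantiated: `T = {p, 2} ∪ primes(N)`, `Z` = the odd primes of
  `N`);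
* `false_of_allScalar` : `AllScalarStmt` implies that no irreducible Frey representation is modular
  of a conductor level prime to `p` (strong induction on the level: the non-scalar odd primes are
  removed by Mazur's principle `MPFinal4.mpStmt`; at the bottom the banked S07/S08);
* `scalarCase_of_allScalar : AllScalarStmt → TopScalar4.ScalarCaseStmt`, `s43_of_allScalar`.
-/
import Mathlib
import Fermat.Agent.M43.TopScalar4

set_option autoImplicit false

open WeierstrassCurve WeierstrassCurve.Affine WeierstrassCurve.Affine.Point

namespace Fermat.Agent.M43.TopScalarAll2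

open Fermat.Agent.M43.MPIface4 Fermat.Agent.M43.TopWire0 Fermat.Agent.M43.TopScalar4

/-- **the all-scalar case** (what the patching argument proves). -/
def AllScalarStmt : Prop :=
  ∀ (P : FreyPackage) {N : ℕ}, P.IsConductorLevel N → ¬ P.p ∣ N →
    GaloisRepIsIrreducible (K := AlgebraicClosure ℚ) ℚ P.freyCurve P.p →
    P.ModularRepOfLevel N →
    (∀ q : ℕ, q.Prime → q ≠ 2 → q ∣ N → FrobScalar P q) →
    (∃ q : ℕ, q.Prime ∧ q ≠ 2 ∧ q ∣ N) → False

/-- the induction: no irreducible Frey representation is modular of a conductor level prime to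
`p`. -/
theorem false_of_allScalar_aux (h : AllScalarStmt) (P : FreyPackage) :
    ∀ (n N : ℕ), N ≤ n → P.IsConductorLevel N → ¬ P.p ∣ N →
      GaloisRepIsIrreducible (K := AlgebraicClosure ℚ) ℚ P.freyCurve P.p →
      P.ModularRepOfLevel N → False := by
  intro n
  induction n with
  | zero =>
    intro N hN hcond _ _ _
    exact absurd (pos_of_modularRepOfLevel0 P hcond) (by omega)
  | succ n ih =>
    intro N hN hcond hpN hirr hmod
    by_cases hodd : ∀ q : ℕ, q.Prime → q ∣ N → q = 2
    · rcases eq_one_or_two0 P hcond hodd with rfl | rfl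
      · exact not_modularRepOfLevel_one P hmod
      · exact not_modularRepOfLevel_two P hmod
    · push Not at hodd
      obtain ⟨q0, hq0, hq0N, hq02⟩ := hodd
      by_cases hall : ∀ q : ℕ, q.Prime → q ≠ 2 → q ∣ N → FrobScalar P q
      · exact h P hcond hpN hirr hmod hall ⟨q0, hq0, hq02, hq0N⟩
      · push Not at hall
        obtain ⟨q, hq, hq2, hqN, hns⟩ := hall
        have hqp : q ≠ P.p := fun e => hpN (e ▸ hqN)
        have hunr : P.GaloisRepUnramifiedAt q := Fermat.Agent.S05.result P hq hq2 hqp
        rcases Fermat.Agent.M43.MPFinal4.mpStmt P hcond hq hq2 hqp hqN hirr hmod hunr with h1 | h1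
        · have hN0 : 0 < N := pos_of_modularRepOfLevel0 P hcond
          have hdvd : N / q ∣ N := Nat.div_dvd_of_dvd hqN
          have hM0 : 0 < N / q := Nat.pos_of_dvd_of_pos hdvd hN0
          have hlt : N / q < N := Nat.div_lt_self hN0 hq.one_lt
          exact ih (N / q) (by omega) (hcond.of_dvd hdvd hM0) (fun hh => hpN (hh.trans hdvd)) hirr h1
        · exact hns h1

/-- **no irreducible Frey representation is modular of a conductor level prime to `p`**, from the
all-scalar case. -/
theorem false_of_allScalar (h : AllScalarStmt) (P : FreyPackage) {N : ℕ}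
    (hcond : P.IsConductorLevel N) (hpN : ¬ P.p ∣ N)
    (hirr : GaloisRepIsIrreducible (K := AlgebraicClosure ℚ) ℚ P.freyCurve P.p)
    (hmod : P.ModularRepOfLevel N) : False :=
  false_of_allScalar_aux h P N N le_rfl hcond hpN hirr hmod

/-- the scalar case from the all-scalar case. -/
theorem scalarCase_of_allScalar (h : AllScalarStmt) : ScalarCaseStmt :=
  fun P _ _ hcond hpN _ _ _ _ hirr hmod _ _ => (false_of_allScalar h P hcond hpN hirr hmod).elim

/-- the literal frozen S43 from the all-scalar case. -/
theorem s43_of_allScalar (h : AllScalarStmt) (P : FreyPackage) {N q : ℕ}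
    (hcond : P.IsConductorLevel N)
    (hq : q.Prime) (hq2 : q ≠ 2) (hqp : q ≠ P.p) (hqN : q ∣ N)
    (hirr : GaloisRepIsIrreducible (K := AlgebraicClosure ℚ) ℚ P.freyCurve P.p)
    (hmod : P.ModularRepOfLevel N) (hunr : P.GaloisRepUnramifiedAt q) :
    ∃ M : ℕ, M ∣ N ∧ ¬ q ∣ M ∧ P.ModularRepOfLevel M :=
  s43_of_scalar (scalarCase_of_allScalar h) P hcond hq hq2 hqp hqN hirr hmod hunr

end Fermat.Agent.M43.TopScalarAll2
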