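/-
M43 (helper1) [TOP frame, choice S = T] TopThetaT1: **the Frobenius characteristic polynomials of
`ρ̄` at ALL primes outside `T` from a congruence outside a bigger finite set.**

Frame: `𝒪` a complete DVR of characteristic `0` with finite residue field `k` of characteristic `p`
odd, `T ∋ p` a finite set of primes containing the primes of `N`, `χ : heckeAlgebra N 2 T →+* 𝒪`,
`ρ̄ : ResidualGaloisRep k` absolutely irreducible with cyclotomic determinant.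

`hθ_of_congr`: if `charpoly ρ̄(Frob_ℓ) = X² - \bar χ(T_ℓ) X + ℓ` for all primes `ℓ` outside a finite
set `Sbig` (and outside `T`), then the same holds for ALL primes `ℓ ∉ T`.
Proof: the Galois representation of `χ` (banked `S30` at `(N, T)`), Brauer–Nesbitt (`GlobBN3`) with
the exceptional set `T ∪ Sbig`, and then the characteristic polynomials of the two equivalent
residual representations at the Frobenius elements of the remaining primes.
-/
import Mathlib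
import Fermat.Agent.M43.HeckeUniq1

set_option autoImplicit false
set_option linter.style.haveILetI false
set_option linter.unusedSectionVars false

namespace Fermat.Agent.M43.TopThetaT1

open IsLocalRing CuspForm Polynomial Fermat.Agent.M43.DatumAlg3

local notation "Qb" => AlgebraicClosure ℚ
local notation "GQ" => (AlgebraicClosure ℚ ≃ₐ[ℚ] AlgebraicClosure ℚ)

variable (p : ℕ) [hp : Fact p.Prime] (N : ℕ) [NeZero N] (T : Finset ℕ)
  (𝒪 : Type) [CommRing 𝒪] [IsDomain 𝒪] [IsDiscreteValuationRing 𝒪]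
  [IsAdicComplete (maximalIdeal 𝒪) 𝒪] [Finite (ResidueField 𝒪)] [CharZero 𝒪]
  [CharP (ResidueField 𝒪) p]

/-- **The Frobenius characteristic polynomials of `ρ̄` at all primes outside `T`** from the
congruence with a character `χ` of the Hecke algebra of level `N` away from `T` at the primes
outside a finite set `Sbig`. -/
theorem hθ_of_congr (hp2 : p ≠ 2) (hp𝒪 : (p : 𝒪) ∈ maximalIdeal 𝒪) (hpT : p ∈ T)
    (hNT : ∀ q : ℕ, q.Prime → q ∣ N → q ∈ T)
    (ρbar : ResidualGaloisRep (ResidueField 𝒪)) (habs : ρbar.IsAbsolutelyIrreducible)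
    (hdet : (GaloisRepAdic.ofResidualGaloisRep ρbar).DetIsCyclotomic p)
    (χ : heckeAlgebra N 2 (↑T : Set ℕ) →+* 𝒪) (Sbig : Finset ℕ)
    (hcong : ∀ (ℓ : ℕ) (hℓ : ℓ.Prime) (hℓN : ¬ ℓ ∣ N) (hℓT : ℓ ∉ (↑T : Set ℕ)), ℓ ∉ Sbig →
      ∀ P : ValuationSubring Qb, P.LiesOverPrime ℓ → ∀ φ : GQ, P.IsFrobeniusAt φ ℓ →
        LinearMap.charpoly (ρbar.ρ φ) =
          X ^ 2 - C (residue 𝒪 (χ (heckeAlgebra.T hℓ hℓN hℓT))) * X + C ((ℓ : ResidueField 𝒪)))
    (ℓ : ℕ) (hℓ : ℓ.Prime) (hℓN : ¬ ℓ ∣ N) (hℓT : ℓ ∉ (↑T : Set ℕ))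
    (P : ValuationSubring Qb) (hP : P.LiesOverPrime ℓ) (φ : GQ) (hφ : P.IsFrobeniusAt φ ℓ) :
    LinearMap.charpoly (ρbar.ρ φ) =
      X ^ 2 - C (residue 𝒪 (χ (heckeAlgebra.T hℓ hℓN hℓT))) * X + C ((ℓ : ResidueField 𝒪)) := by
  classical
  -- the representation of `χ`
  obtain ⟨O'', j1, j2, j3, j4, j5, j6, j7, j8, j9, hinjalg, ρ, hρ, -⟩ :=
    Fermat.Agent.S30.result p N T hpT hNT 𝒪 hp𝒪 χ
  set ψ0 : ResidueField 𝒪 →+* ResidueField O'' := ResidueField.map (algebraMap 𝒪 O'') with hψ0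
  haveI : CharP (ResidueField O'') p := charP_of_injective_ringHom ψ0.injective p
  -- the eigenvalues
  let t : ℕ → ResidueField 𝒪 := fun ℓ' =>
    if h : ℓ'.Prime ∧ ¬ ℓ' ∣ N ∧ ℓ' ∉ (↑T : Set ℕ) then
      residue 𝒪 (χ (heckeAlgebra.T h.1 h.2.1 h.2.2)) else 0
  have hbc : ∀ σ : GQ, LinearMap.charpoly ((ρbar.baseChangeAlong ψ0).ρ σ) =
      (LinearMap.charpoly (ρbar.ρ σ)).map ψ0 := by
    intro σ
    letI : Algebra (ResidueField 𝒪) (ResidueField O'') := ψ0.toAlgebra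
    show LinearMap.charpoly ((ρbar.ρ σ).baseChange (ResidueField O'')) = _
    rw [LinearMap.charpoly_baseChange]
    rfl
  have hmap : ∀ a : ResidueField 𝒪, (X ^ 2 - C a * X + C ((ℓ : ResidueField 𝒪)) :
      (ResidueField 𝒪)[X]).map ψ0 = X ^ 2 - C (ψ0 a) * X + C ((ℓ : ResidueField O'')) := by
    intro a
    simp only [Polynomial.map_add, Polynomial.map_sub, Polynomial.map_pow, Polynomial.map_X,
      Polynomial.map_mul, Polynomial.map_C]
    rw [map_natCast]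
  have hres : ∀ (ℓ' : ℕ) (hℓ' : ℓ'.Prime) (hℓ'N : ¬ ℓ' ∣ N) (hℓ'T : ℓ' ∉ (↑T : Set ℕ)),
      ∀ P' : ValuationSubring Qb, P'.LiesOverPrime ℓ' → ∀ φ' : GQ, P'.IsFrobeniusAt φ' ℓ' →
        LinearMap.charpoly (ρ.residual.ρ φ') =
          X ^ 2 - C (ψ0 (residue 𝒪 (χ (heckeAlgebra.T hℓ' hℓ'N hℓ'T)))) * X +
            C ((ℓ' : ResidueField O'')) := by
    intro ℓ' hℓ' hℓ'N hℓ'T P' hP' φ' hφ'
    show LinearMap.charpoly ((ρ.ρ φ').baseChange (ResidueField O'')) = _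
    rw [LinearMap.charpoly_baseChange, hρ ℓ' hℓ' hℓ'N hℓ'T P' hP' φ' hφ']
    simp only [Polynomial.map_add, Polynomial.map_sub, Polynomial.map_pow, Polynomial.map_X,
      Polynomial.map_mul, Polynomial.map_C]
    rw [map_natCast, hψ0, ResidueField.map_residue]
    rfl
  -- Brauer–Nesbitt with the exceptional set `T ∪ Sbig`
  have hBN : (ρbar.baseChangeAlong ψ0).IsEquiv ρ.residual := by
    refine GlobBN3.residual_isEquiv_of_charpoly_frob p hp2 (ρbar.baseChangeAlong ψ0) ρ.residual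
      (GlobHecke3.detIsCyclotomic_residual_baseChangeAlong ψ0 ρbar p hdet)
      (GlobBN3.no_invariant_line_of_isAbsolutelyIrreducible _
        (AbsIrr3.isAbsolutelyIrreducible_baseChangeAlong ψ0 ρbar habs))
      (T ∪ Sbig) (fun ℓ' => ψ0 (t ℓ')) ?_ ?_
    · intro ℓ' hℓ' hℓ'TS P' hP' φ' hφ'
      have hℓ'T : ℓ' ∉ T := fun h => hℓ'TS (Finset.mem_union_left _ h)
      have hℓ'S : ℓ' ∉ Sbig := fun h => hℓ'TS (Finset.mem_union_right _ h)
      have hℓ'N : ¬ ℓ' ∣ N := fun hd => hℓ'T (hNT ℓ' hℓ' hd)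
      have hℓ'T' : ℓ' ∉ (↑T : Set ℕ) := by simpa using hℓ'T
      rw [hbc, hcong ℓ' hℓ' hℓ'N hℓ'T' hℓ'S P' hP' φ' hφ']
      simp only [Polynomial.map_add, Polynomial.map_sub, Polynomial.map_pow, Polynomial.map_X,
        Polynomial.map_mul, Polynomial.map_C]
      rw [map_natCast]
      simp only [t]
      rw [dif_pos ⟨hℓ', hℓ'N, hℓ'T'⟩]
    · intro ℓ' hℓ' hℓ'TS P' hP' φ' hφ'
      have hℓ'T : ℓ' ∉ T := fun h => hℓ'TS (Finset.mem_union_left _ h)
      have hℓ'N : ¬ ℓ' ∣ N := fun hd => hℓ'T (hNT ℓ' hℓ' hd)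
      have hℓ'T' : ℓ' ∉ (↑T : Set ℕ) := by simpa using hℓ'T
      rw [hres ℓ' hℓ' hℓ'N hℓ'T' P' hP' φ' hφ']
      simp only [t]
      rw [dif_pos ⟨hℓ', hℓ'N, hℓ'T'⟩]
  -- conclusion at `ℓ`
  have h1 := HeckeUniq1.charpoly_eq_of_isEquiv hBN φ
  rw [hres ℓ hℓ hℓN hℓT P hP φ hφ, hbc, ← hmap] at h1
  exact (Polynomial.map_injective ψ0 ψ0.injective h1).symm

end Fermat.Agent.M43.TopThetaT1
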