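/-
Programme M43 (target S43), chapter TOP, helper2: **(T2) + (T3) assembled: the literal S43 from the
Hecke side at the auxiliary levels.**

* `HeckeSideStmt` : **the ONE named hypothesis of the top wiring** (= the end theorem of the Hecke
  side, `LevelAsm5` + the `ConvMat2` converter): for an absolutely irreducible `ρbar` over the
  residue field of a complete discrete valuation ring `𝒪` (`p ≥ 5`), modular of an EVEN squarefree
  level `N0` prime to `p` (residual eigensystem `θ` on `heckeAlgebra N0 2 T`, `T = {p} ∪ primes(N0)`,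
  at ALL primes outside `T`), ramified at `2`, scalar on the decomposition groups at the odd primes
  `Z` of `N0` (all `≡ 1` mod `p`), and a Prelude datum `D` on the full local Hecke algebra
  `TLoc N0 T 𝒪 θ`: there are `d > 0` and `act0 : TLoc → Mat_d(𝒪)` such that for all `n` and all
  tuples `qv` of Taylor–Wiles primes there is an `Iface2.HeckeLevel 𝒪 p ρbar T Z s d TLoc D.ρ act0 n qv`.
  **The Hecke algebra is the one away from `T` exactly** (so that the Galois representations over the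
  auxiliary Hecke rings are unramified outside `T ∪ qv`).
* `exists_chi` : a character of `Δ_Z` with value a given `p`-th root of unity at every generator.
* **`allScalar_of_heckeSide : HeckeSideStmt → TopScalarAll2.AllScalarStmt`** (frame instantiation:
  `TopRingF2` (the coefficient ring receives the eigencharacter of the eigenform on
  `heckeAlgebra N0 2 T`), `TopTheta2`, `TopThetaT1.hθ_of_congr` (the Frobenius characteristic
  polynomials at ALL primes outside `T`), `TopFrame2`, `TopEven2`, `ImgFrame2`,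
  `HeckeGenT1.exists_datum_piT`; `GlueMain2.patchOutput`; `TopOut2.false_of_prime`).
* **`s43_of_heckeSide`** : the literal frozen S43 from `HeckeSideStmt`.
-/
import Mathlib
import Fermat.Agent.M43.TopScalarAll2
import Fermat.Agent.M43.TopOut2
import Fermat.Agent.M43.TopRingF2
import Fermat.Agent.M43.TopThetaT1
import Fermat.Agent.M43.TopTheta2
import Fermat.Agent.M43.TopFrame2
import Fermat.Agent.M43.TopEven2
import Fermat.Agent.M43.GlueMain2
import Fermat.Agent.M43.DatumExists3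
import Fermat.Agent.M43.HeckeGenT1

set_option autoImplicit false
set_option linter.style.haveILetI false
set_option linter.unusedSectionVars false

open CategoryTheory ExtCitation Polynomial IsLocalRing CuspForm

namespace Fermat.Agent.M43.TopMain2

open Fermat.Agent.W56.Defs9 Fermat.Agent.M43.GlobFinal3 Fermat.Agent.M43.GlobTame3
  Fermat.Agent.PT.PRO Fermat.Agent.PT.BR Fermat.Agent.M43.Iface2 Fermat.Agent.M43.DatumAlg3
  Fermat.Agent.M43.MPIface4 Fermat.Agent.M43.TopScalarAll2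

local notation "Γ" => (AlgebraicClosure ℚ ≃ₐ[ℚ] AlgebraicClosure ℚ)
local notation "Qbar" => AlgebraicClosure ℚ

/-- **The Hecke side** (the one named hypothesis of the top wiring). -/
def HeckeSideStmt : Prop :=
  ∀ (𝒪 : Type) [CommRing 𝒪] [IsDomain 𝒪] [IsDiscreteValuationRing 𝒪]
    [IsAdicComplete (maximalIdeal 𝒪) 𝒪] [Finite (ResidueField 𝒪)] [CharZero 𝒪]
    (p : ℕ) [Fact p.Prime] [CharP (ResidueField 𝒪) p] (_hp5 : 5 ≤ p)
    (_hp𝒪 : (p : 𝒪) ∈ maximalIdeal 𝒪)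
    (N0 : ℕ) [NeZero N0] (_hsq : Squarefree N0) (_h2N : 2 ∣ N0) (_hpN : ¬ p ∣ N0)
    (ρbar : ResidualGaloisRep (ResidueField 𝒪))
    (_habs : ρbar.IsAbsolutelyIrreducible)
    (_hdet : (GaloisRepAdic.ofResidualGaloisRep ρbar).DetIsCyclotomic p)
    (_hsplit : ∀ σ : Γ, ∃ α β : ResidueField 𝒪,
      LinearMap.charpoly (ρbar.ρ σ) = (X - C α) * (X - C β))
    (_hTW : ∀ (K : Type) [Field K] [Algebra (ResidueField 𝒪) K] (G : Subgroup Γ), G.index = 2 →
      ∀ V : Submodule K (ρbar.baseChange K).V,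
        (∀ σ ∈ G, ∀ x ∈ V, (ρbar.baseChange K).ρ σ x ∈ V) → V = ⊥ ∨ V = ⊤)
    (θ : heckeAlgebra N0 2 (↑(insert p N0.primeFactors) : Set ℕ) →+* ResidueField 𝒪)
    (_hθ : ∀ (ℓ : ℕ) (hℓ : ℓ.Prime) (hℓN : ¬ ℓ ∣ N0)
      (hℓS : ℓ ∉ (↑(insert p N0.primeFactors) : Set ℕ)),
      ∀ P : ValuationSubring Qbar, P.LiesOverPrime ℓ → ∀ φ : Γ, P.IsFrobeniusAt φ ℓ →
        LinearMap.charpoly (ρbar.ρ φ) =
          X ^ 2 - C (θ (heckeAlgebra.T hℓ hℓN hℓS)) * X + C ((ℓ : ResidueField 𝒪)))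
    (_hur : ∀ q : ℕ, q.Prime → q ∉ insert p N0.primeFactors → ρbar.IsUnramifiedAt q)
    (_hram2 : ¬ ρbar.IsUnramifiedAt 2)
    (_hZsc : ∀ q ∈ primesOf (N0.primeFactors.erase 2),
      ∀ σ ∈ (primeLocalPlace q).decompositionSubgroup ℚ,
        ∃ c : ResidueField 𝒪, ρbar.ρ σ = c • (1 : Module.End (ResidueField 𝒪) ρbar.V))
    (_hZur : ∀ q ∈ primesOf (N0.primeFactors.erase 2), ρbar.IsUnramifiedAt (q : ℕ))
    (_hZ1 : ∀ q ∈ primesOf (N0.primeFactors.erase 2), p ∣ (q : ℕ) - 1)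
    (s : ∀ q : Nat.Primes, ↥((primeLocalPlace q).inertiaSubgroupIn ℚ))
    (_hs : ∀ q ∈ primesOf (N0.primeFactors.erase 2), ∀ {H : Type} [Group H]
      (f : ↥((primeLocalPlace q).inertiaSubgroupIn ℚ) →* H), ContI f →
        (∀ σ, ∃ a : ℕ, f σ ^ p ^ a = 1) → ∀ σ, f σ ∈ Subgroup.zpowers (f (s q)))
    (D : HeckeGaloisRepDatum N0 (↑(insert p N0.primeFactors) : Set ℕ) 𝒪 θ
      (TLoc N0 (insert p N0.primeFactors) 𝒪 θ))
    (_hDπ : D.π = piT N0 (insert p N0.primeFactors) 𝒪 θ),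
    ∃ (d : ℕ) (_ : 0 < d)
      (act0 : TLoc N0 (insert p N0.primeFactors) 𝒪 θ →ₐ[𝒪] Matrix (Fin d) (Fin d) 𝒪),
      ∀ (n : ℕ)
        (qv : Fin (Module.finrank (ResidueField 𝒪)
          (H1g (primesOf (insert p N0.primeFactors)) (ad0D ρbar p))) → ℕ),
        Function.Injective qv →
        (∀ i, (qv i).Prime ∧ qv i ∉ insert p N0.primeFactors ∧ p ^ (n + 1) ∣ qv i - 1) →
        (∀ i, ∀ P : ValuationSubring Qbar, P.LiesOverPrime (qv i) →
          ∀ φ : Γ, P.IsFrobeniusAt φ (qv i) →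
            ∃ α β : ResidueField 𝒪, α ≠ β ∧
              LinearMap.charpoly (ρbar.ρ φ) = (X - C α) * (X - C β)) →
        Nonempty (HeckeLevel 𝒪 p ρbar (insert p N0.primeFactors) (N0.primeFactors.erase 2) s d
          (TLoc N0 (insert p N0.primeFactors) 𝒪 θ) D.ρ act0 n qv)

/-- a character of `Δ_Z` with value a given `p`-th root of unity at every generator. -/
theorem exists_chi {𝒪 : Type} [CommRing 𝒪] (p : ℕ) [NeZero p] (ι : Type) [Fintype ι]
    [DecidableEq ι] (ζ : 𝒪) (hζ : ζ ^ p = 1) :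
    ∃ χ : DZ ι p →* 𝒪, ∀ i : ι, χ (gZ p i) = ζ := by
  classical
  let ζu : 𝒪ˣ := Units.ofPowEqOne ζ p hζ (NeZero.ne p)
  have hζu : ζu ^ p = 1 := Units.ext (by rw [Units.val_pow_eq_pow_val]; exact hζ)
  let f : ℤ →+ Additive 𝒪ˣ := zmultiplesHom (Additive 𝒪ˣ) (Additive.ofMul ζu)
  have hf : f (p : ℤ) = 0 := by
    show ((p : ℕ) : ℤ) • Additive.ofMul ζu = 0
    rw [natCast_zsmul, ← ofMul_pow, hζu, ofMul_one]
  let g : ZMod p →+ Additive 𝒪ˣ := ZMod.lift p ⟨f, hf⟩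
  have hg1 : g 1 = Additive.ofMul ζu := by
    have h1 : g ((1 : ℤ) : ZMod p) = f 1 := ZMod.lift_coe p ⟨f, hf⟩ 1
    rw [Int.cast_one] at h1
    rw [h1]
    show (1 : ℤ) • Additive.ofMul ζu = _
    rw [one_zsmul]
  let F : (ι → ZMod p) →+ Additive 𝒪ˣ :=
    ∑ i, g.comp (Pi.evalAddMonoidHom (fun _ : ι => ZMod p) i)
  let χu : DZ ι p →* 𝒪ˣ := AddMonoidHom.toMultiplicativeLeft F
  refine ⟨(Units.coeHom 𝒪).comp χu, fun i => ?_⟩
  show ((χu (gZ p i) : 𝒪ˣ) : 𝒪) = ζ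
  have h2 : F (Pi.single i 1) = Additive.ofMul ζu := by
    show (∑ j, g.comp (Pi.evalAddMonoidHom (fun _ : ι => ZMod p) j)) (Pi.single i 1) = _
    rw [AddMonoidHom.finsetSum_apply, Finset.sum_eq_single i]
    · show g ((Pi.single i (1 : ZMod p) : ι → ZMod p) i) = _
      rw [Pi.single_eq_same, hg1]
    · intro j _ hji
      show g ((Pi.single i (1 : ZMod p) : ι → ZMod p) j) = _
      rw [Pi.single_eq_of_ne hji, map_zero]
    · intro h; exact absurd (Finset.mem_univ i) h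
  have h3 : χu (gZ p i) = ζu := by
    show Additive.toMul (F (Multiplicative.toAdd (gZ p i))) = ζu
    rw [show Multiplicative.toAdd (gZ p i) = Pi.single i 1 from rfl, h2]
    rfl
  rw [h3]
  rfl

attribute [local instance] Fermat.Agent.M43.ImgSL2.factP

/-- **(T2) + (T3): the all-scalar case from the Hecke side.** -/
theorem allScalar_of_heckeSide (hH : HeckeSideStmt) : AllScalarStmt := by
  intro P N hcond hpN hirr hmod hsc _hodd
  classical
  have hN0 : 0 < N := hcond.pos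
  haveI : NeZero N := ⟨hN0.ne'⟩
  haveI : NeZero P.p := ⟨P.hp0⟩
  have hp2 : P.p ≠ 2 := by have := P.hp5; omega
  have h2N : 2 ∣ N := TopEven2.two_dvd_of_modular P hN0 hirr hmod
  -- the eigenform
  obtain ⟨f, W, 𝔪, hf, hW, h𝔪, hp𝔪, hcong⟩ := hmod
  have hΔ : W.Δ ≠ 0 := Fermat.Agent.U44.FreyRep7.model_Δ_ne_zero P hW
  set T : Finset ℕ := insert P.p N.primeFactors with hT
  set Z : Finset ℕ := N.primeFactors.erase 2 with hZ
  have hpT : P.p ∈ T := Finset.mem_insert_self _ _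
  have hNT : ∀ q : ℕ, q.Prime → q ∣ N → q ∈ T := fun q hq hqN =>
    Finset.mem_insert_of_mem (Nat.mem_primeFactors.mpr ⟨hq, hqN, hN0.ne'⟩)
  -- the coefficient ring, receiving the eigencharacter
  haveI : 𝔪.IsPrime := h𝔪.isPrime
  haveI : Module.Finite ℤ (heckeAlgebra N 2 (↑T : Set ℕ)) := Fermat.Agent.S22.result N 2 _
  obtain ⟨𝒪, i1, i2, i3, i4, i5, i6, χf, ψ, hp𝒪, ⟨ζ, hζ, hζ1⟩, hsqk, hψ⟩ :=
    TopRingF2.exists_coeffRingOver P.p (Fermat.Agent.ES.J7.EigenChar1.chiG hf (↑T : Set ℕ)) 𝔪 hp𝔪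
  haveI : CharP (ResidueField 𝒪) P.p :=
    (CharP.charP_iff_prime_eq_zero P.pp).mpr (by
      rw [← map_natCast (residue 𝒪), residue_eq_zero_iff]; exact hp𝒪)
  letI : Algebra (ZMod P.p) (ResidueField 𝒪) := ZMod.algebra _ P.p
  obtain ⟨lam, hlam⟩ := IsDiscreteValuationRing.exists_irreducible 𝒪
  -- the residual representation
  set ρbar : ResidualGaloisRep (ResidueField 𝒪) := ImgFrame2.rhobar P (ResidueField 𝒪) with hρbar
  have hk : ∀ D : ZMod P.p, IsSquare (algebraMap (ZMod P.p) (ResidueField 𝒪) D) := by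
    intro D
    have h1 : D = ((D.val : ℕ) : ZMod P.p) := (ZMod.natCast_zmod_val D).symm
    rw [h1, map_natCast]
    exact hsqk _
  have habs := ImgFrame2.habs (ResidueField 𝒪) hirr
  have hdet := ImgFrame2.hdet (ResidueField 𝒪) hirr
  have hsplit := ImgFrame2.hsplit (P := P) (ResidueField 𝒪) hk
  have hTW := ImgFrame2.hTW (ResidueField 𝒪) hirr
  -- the eigensystem
  set θ : heckeAlgebra N 2 (↑T : Set ℕ) →+* ResidueField 𝒪 := (residue 𝒪).comp χf with hθdef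
  have hres : ∀ (ℓ : ℕ) (hℓ : ℓ.Prime) (hℓN : ¬ ℓ ∣ N) (hℓT : ℓ ∉ (↑T : Set ℕ)),
      W.IsGoodPrimeFor ℓ →
      residue 𝒪 (χf (heckeAlgebra.T hℓ hℓN hℓT)) = ((W.apOfModel ℓ : ℤ) : ResidueField 𝒪) := by
    intro ℓ hℓ hℓN hℓT hgood
    have hℓT' : ℓ ∉ T := by simpa using hℓT
    have hℓp : ℓ ≠ P.p := fun e => hℓT' (e ▸ hpT)
    obtain ⟨a, ha, ham⟩ := hcong ℓ hℓ hgood hℓN hℓp
    have h1 : Fermat.Agent.ES.J7.EigenChar1.chiG hf (↑T : Set ℕ) (heckeAlgebra.T hℓ hℓN hℓT) = a := by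
      apply Subtype.ext
      rw [Fermat.Agent.ES.J7.EigenChar1.coe_chiG_T, ha]
    have h2 : ψ (residue 𝒪 (χf (heckeAlgebra.T hℓ hℓN hℓT))) =
        ψ (((W.apOfModel ℓ : ℤ) : ResidueField 𝒪)) := by
      rw [hψ, h1, map_intCast, ← map_intCast (Ideal.Quotient.mk 𝔪), ← sub_eq_zero, ← map_sub,
        Ideal.Quotient.eq_zero_iff_mem]
      exact ham
    exact ψ.injective h2
  have hθ : ∀ (ℓ : ℕ) (hℓ : ℓ.Prime) (hℓN : ¬ ℓ ∣ N) (hℓT : ℓ ∉ (↑T : Set ℕ)),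
      ∀ A : ValuationSubring Qbar, A.LiesOverPrime ℓ → ∀ φ : Γ, A.IsFrobeniusAt φ ℓ →
        LinearMap.charpoly (ρbar.ρ φ) =
          X ^ 2 - C (θ (heckeAlgebra.T hℓ hℓN hℓT)) * X + C ((ℓ : ResidueField 𝒪)) := by
    refine TopThetaT1.hθ_of_congr P.p N T 𝒪 hp2 hp𝒪 hpT hNT ρbar habs hdet χf
      W.Δ.natAbs.primeFactors ?_
    intro ℓ hℓ hℓN hℓT hℓW A hA φ hφ
    have hℓT' : ℓ ∉ T := by simpa using hℓT
    have hgood : W.IsGoodPrimeFor ℓ := fun hd => hℓW (Nat.mem_primeFactors.mpr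
      ⟨hℓ, Int.natCast_dvd.mp hd, Int.natAbs_ne_zero.mpr hΔ⟩)
    have hℓp : ℓ ≠ P.p := fun e => hℓT' (e ▸ hpT)
    rw [hres ℓ hℓ hℓN hℓT hgood, ← map_intCast (algebraMap (ZMod P.p) (ResidueField 𝒪))]
    exact TopTheta2.charpoly_rhobar_frob P (ResidueField 𝒪) hirr hW hℓ hgood hℓp A hA φ hφ
  -- the sets
  have hZmem : ∀ q : ℕ, q ∈ Z ↔ q.Prime ∧ q ≠ 2 ∧ q ∣ N := by
    intro q
    rw [hZ, Finset.mem_erase, Nat.mem_primeFactors]
    constructor
    · rintro ⟨h2, hq, hqN, -⟩; exact ⟨hq, h2, hqN⟩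
    · rintro ⟨hq, h2, hqN⟩; exact ⟨h2, hq, hqN, hN0.ne'⟩
  have hZT : Z ⊆ T.erase P.p := by
    intro q hq
    obtain ⟨hqp, hq2, hqN⟩ := (hZmem q).mp hq
    refine Finset.mem_erase.mpr ⟨fun e => hpN (e ▸ hqN), ?_⟩
    exact Finset.mem_insert_of_mem (Nat.mem_primeFactors.mpr ⟨hqp, hqN, hN0.ne'⟩)
  have h2T : 2 ∈ T :=
    Finset.mem_insert_of_mem (Nat.mem_primeFactors.mpr ⟨Nat.prime_two, h2N, hN0.ne'⟩)
  have hZfacts : ∀ q ∈ primesOf Z, (q : ℕ) ≠ P.p ∧ P.GaloisRepUnramifiedAt (q : ℕ) ∧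
      FrobScalar P (q : ℕ) := by
    intro q hqZ
    obtain ⟨hq, hq2, hqN⟩ := (hZmem q).mp (mem_primesOf.mp hqZ)
    have hqp : (q : ℕ) ≠ P.p := fun e => hpN (e ▸ hqN)
    exact ⟨hqp, Fermat.Agent.S05.result P hq hq2 hqp, hsc q hq hq2 hqN⟩
  -- the local facts
  have hur : ∀ q : ℕ, q.Prime → q ∉ T → ρbar.IsUnramifiedAt q := by
    intro q hq hqT
    have hqp : q ≠ P.p := fun e => hqT (e ▸ hpT)
    have hq2 : q ≠ 2 := fun e => hqT (e ▸ h2T)
    exact TopFrame2.isUnramifiedAt_of_unramified P _ (Fermat.Agent.S05.result P hq hq2 hqp)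
  have hram2 : ¬ ρbar.IsUnramifiedAt 2 := TopFrame2.not_isUnramifiedAt_two P _
  have hram : ∀ q ∈ T, q.Prime → q ≠ P.p → q ∉ Z → ¬ ρbar.IsUnramifiedAt q := by
    intro q hqT hq hqp hqZ
    have hq2 : q = 2 := by
      by_contra hne
      rw [hT, Finset.mem_insert] at hqT
      rcases hqT with h | h
      · exact hqp h
      · exact hqZ ((hZmem q).mpr ⟨hq, hne, Nat.dvd_of_mem_primeFactors h⟩)
    rw [hq2]
    exact hram2
  have hZsc : ∀ q ∈ primesOf Z, ∀ σ ∈ (primeLocalPlace q).decompositionSubgroup ℚ,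
      ∃ c : ResidueField 𝒪, ρbar.ρ σ = c • (1 : Module.End (ResidueField 𝒪) ρbar.V) := by
    intro q hqZ σ hσ
    obtain ⟨hqp, hunr, hscq⟩ := hZfacts q hqZ
    exact TopFrame2.hZsc P _ hirr q.2 hqp hunr hscq
      (Fermat.Agent.W56.UnipSel8.liesOverPrime_primeLocalPlace q) hσ
  have hZur : ∀ q ∈ primesOf Z, ρbar.IsUnramifiedAt (q : ℕ) := fun q hqZ =>
    TopFrame2.isUnramifiedAt_of_unramified P _ (hZfacts q hqZ).2.1
  have hZ1 : ∀ q ∈ primesOf Z, ((q : ℕ) : 𝒪) - 1 ∈ Ideal.span {lam} := fun q hqZ =>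
    TopFrame2.hZ1 P hirr q.2 (hZfacts q hqZ).1 (hZfacts q hqZ).2.2 hlam hp𝒪
  have hZ1' : ∀ q ∈ primesOf Z, P.p ∣ (q : ℕ) - 1 := by
    intro q hqZ
    have h1 := Fermat.Agent.M43.MPCong4.mpCong P q.2 (hZfacts q hqZ).1 hirr (hZfacts q hqZ).2.2
    rw [Int.cast_natCast] at h1
    have h2 : ((((q : ℕ) - 1 : ℕ)) : ZMod P.p) = 0 := by
      rw [Nat.cast_sub q.2.one_le, h1, Nat.cast_one, sub_self]
    exact (ZMod.natCast_eq_zero_iff _ _).mp h2
  -- Frobenius elements and tame generators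
  have hfrex : ∀ q : Nat.Primes, ∃ φ : Γ, (primeLocalPlace q).IsFrobeniusAt φ (q : ℕ) := fun q =>
    Fermat.Agent.W56.FrobGen8.exists_isFrobeniusAt q.2
      (Fermat.Agent.W56.UnipSel8.liesOverPrime_primeLocalPlace q)
  choose fr hfr using hfrex
  have hsex : ∀ q : Nat.Primes, ∃ s : ↥((primeLocalPlace q).inertiaSubgroupIn ℚ),
      P.p ≠ (q : ℕ) → ∀ {H : Type} [Group H]
        (f : ↥((primeLocalPlace q).inertiaSubgroupIn ℚ) →* H), ContI f →
          (∀ σ, ∃ a : ℕ, f σ ^ P.p ^ a = 1) → ∀ σ, f σ ∈ Subgroup.zpowers (f s) := by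
    intro q
    by_cases h : P.p = (q : ℕ)
    · exact ⟨1, fun h' => absurd h h'⟩
    · obtain ⟨s, hs⟩ := exists_universal_generator P.p q.2
        (Fermat.Agent.W56.UnipSel8.liesOverPrime_primeLocalPlace q) h
      exact ⟨s, fun _ {H} _ f hf hfp σ => hs f hf hfp σ⟩
  choose s hs0 using hsex
  have hs : ∀ q ∈ primesOf Z, ∀ {H : Type} [Group H]
      (f : ↥((primeLocalPlace q).inertiaSubgroupIn ℚ) →* H), ContI f →
        (∀ σ, ∃ a : ℕ, f σ ^ P.p ^ a = 1) → ∀ σ, f σ ∈ Subgroup.zpowers (f (s q)) :=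
    fun q hqZ {H} _ f hf hfp σ => hs0 q (fun e => (hZfacts q hqZ).1 e.symm) f hf hfp σ
  -- the character
  obtain ⟨χ, hχ0⟩ := exists_chi (𝒪 := 𝒪) P.p ↥(primesOf Z) ζ hζ
  have hχ : ∀ q : ↥(primesOf Z), χ (gZ P.p q) ≠ 1 := fun q => by rw [hχ0]; exact hζ1
  -- the datum
  obtain ⟨D, hDπ⟩ := HeckeGenT1.exists_datum_piT P.p N T 𝒪 θ hp2 hp𝒪 hpT hNT ρbar habs hdet hθ
  -- the Hecke side
  obtain ⟨d, hd, act0, hHn⟩ := hH 𝒪 P.p P.hp5 hp𝒪 N hcond.squarefree h2N hpN ρbar habs hdet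
    hsplit hTW θ hθ hur hram2 hZsc hZur hZ1' s hs D hDπ
  -- the glue
  obtain ⟨b0, 𝔔, h𝔔, hl, htl⟩ := GlueMain2.patchOutput 𝒪 lam hlam P.p hp2 hp𝒪 ρbar habs hdet hsplit
    hTW T T Z hpT (Finset.Subset.refl T) hZT hur hram hZsc hZur hZ1 fr (fun q _ => hfr q) s hs χ hχ
    d hd (TLoc N T 𝒪 θ) D.ρ act0 hHn
  -- the end
  exact TopOut2.false_of_prime hlam P.p hp2 hp𝒪 hcond.squarefree hpN T hpT hNT ρbar habs hdet θ hθ
    D Z (fun q hq hq2 hqN => (hZmem q).mpr ⟨hq, hq2, hqN⟩) (fun q hqZ => (hZfacts q hqZ).1) hZur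
    s hs b0 𝔔 h𝔔 hl htl

/-- **the literal frozen S43 from the Hecke side.** -/
theorem s43_of_heckeSide (hH : HeckeSideStmt) (P : FreyPackage) {N q : ℕ}
    (hcond : P.IsConductorLevel N)
    (hq : q.Prime) (hq2 : q ≠ 2) (hqp : q ≠ P.p) (hqN : q ∣ N)
    (hirr : WeierstrassCurve.Affine.Point.GaloisRepIsIrreducible (K := AlgebraicClosure ℚ) ℚ
      P.freyCurve P.p)
    (hmod : P.ModularRepOfLevel N) (hunr : P.GaloisRepUnramifiedAt q) :
    ∃ M : ℕ, M ∣ N ∧ ¬ q ∣ M ∧ P.ModularRepOfLevel M :=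
  s43_of_allScalar (allScalar_of_heckeSide hH) P hcond hq hq2 hqp hqN hirr hmod hunr

end Fermat.Agent.M43.TopMain2
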