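import Mathlib
import Fermat.Agent.M43.LevelWire5
import Fermat.Agent.M43.TopMain2

/-!
# M43 / Hecke side: `TopMain2.HeckeSideStmt` from the per-level inputs (6d) + BRIDGE + Carayol

* `LevelInputsStmt` : for the top frame of `TopMain2.HeckeSideStmt` and every
  `D : LevelSetup5.Setup p N0 T N n r` (`T = insert p N0.primeFactors`) with distinct Frobenius
  eigenvalues at the Taylor–Wiles primes: a representation `ρ` over `An (thetaF 𝒪 θ D)` with the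
  local properties ((6d)), the traces of the inertia elements acting as `⟨d⟩ + ⟨d⟩⁻¹` (BRIDGE), and
  Carayol's uniqueness;
* **`heckeSide_of_levelInputs : LevelInputsStmt → TopMain2.HeckeSideStmt`**.
-/

set_option autoImplicit false
set_option linter.unusedSectionVars false
set_option linter.unusedVariables false
set_option linter.style.haveILetI false

open CategoryTheory ExtCitation Polynomial IsLocalRing CuspForm

noncomputable section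

namespace Fermat.Agent.M43.LevelFinal5

open Fermat.Agent.M43.ChainMod5 Fermat.Agent.M43.ChainMain5 Fermat.Agent.M43.ChainLevel5
  Fermat.Agent.M43.LevelGrp5 Fermat.Agent.M43.LevelSetup5 Fermat.Agent.M43.LevelTop5
  Fermat.Agent.M43.LevelWire5 Fermat.Agent.M43.Iface2
  Fermat.Agent.M43.DatumAlg3 Fermat.Agent.M43.HeckeBridge1 Fermat.Agent.M43.HeckePoly1
  Fermat.Agent.W56.Defs9 Fermat.Agent.M43.GlobFinal3 Fermat.Agent.M43.GlobTame3
  Fermat.Agent.PT.PRO Fermat.Agent.PT.BR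

local notation "Γ" => (AlgebraicClosure ℚ ≃ₐ[ℚ] AlgebraicClosure ℚ)
local notation "Qbar" => AlgebraicClosure ℚ

/-- a natural number prime to the residue characteristic is a unit. -/
theorem isUnit_natCast {𝒪 : Type} [CommRing 𝒪] [IsLocalRing 𝒪] (p : ℕ)
    [CharP (ResidueField 𝒪) p] (m : ℕ) (hm : ¬ p ∣ m) : IsUnit (m : 𝒪) := by
  by_contra h
  have h1 : (m : 𝒪) ∈ maximalIdeal 𝒪 := (mem_maximalIdeal _).mpr h
  have h2 : residue 𝒪 (m : 𝒪) = 0 := (residue_eq_zero_iff _).mpr h1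
  rw [map_natCast] at h2
  exact hm ((CharP.cast_eq_zero_iff (ResidueField 𝒪) p m).mp h2)

/-- **the per-level inputs**: (6d) + BRIDGE + Carayol for the frame of a setup. -/
def LevelInputsStmt : Prop :=
  ∀ (𝒪 : Type) [CommRing 𝒪] [IsDomain 𝒪] [IsDiscreteValuationRing 𝒪]
    [IsAdicComplete (maximalIdeal 𝒪) 𝒪] [Finite (ResidueField 𝒪)] [CharZero 𝒪]
    (p : ℕ) [Fact p.Prime] [CharP (ResidueField 𝒪) p] (_hp5 : 5 ≤ p)
    (_hp𝒪 : (p : 𝒪) ∈ maximalIdeal 𝒪)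
    (N0 : ℕ) [NeZero N0] (_hsq : Squarefree N0) (_h2N : 2 ∣ N0) (_hpN : ¬ p ∣ N0)
    (ρbar : ResidualGaloisRep (ResidueField 𝒪))
    (_habs : ρbar.IsAbsolutelyIrreducible)
    (_hdet : (GaloisRepAdic.ofResidualGaloisRep ρbar).DetIsCyclotomic p)
    (_hsplit : ∀ σ : Γ, ∃ α β : ResidueField 𝒪,
      LinearMap.charpoly (ρbar.ρ σ) = (X - C α) * (X - C β))
    (_hTW : ∀ (K : Type) [Field K] [Algebra (ResidueField 𝒪) K] (G : Subgroup Γ), G.index = 2 →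
      ∀ V : Submodule K (ρbar.baseChange K).V,
        (∀ σ ∈ G, ∀ x ∈ V, (ρbar.baseChange K).ρ σ x ∈ V) → V = ⊥ ∨ V = ⊤)
    (θ : heckeAlgebra N0 2 (↑(insert p N0.primeFactors) : Set ℕ) →+* ResidueField 𝒪)
    (_hθ : ∀ (ℓ : ℕ) (hℓ : ℓ.Prime) (hℓN : ¬ ℓ ∣ N0)
      (hℓS : ℓ ∉ (↑(insert p N0.primeFactors) : Set ℕ)),
      ∀ P : ValuationSubring Qbar, P.LiesOverPrime ℓ → ∀ φ : Γ, P.IsFrobeniusAt φ ℓ →
        LinearMap.charpoly (ρbar.ρ φ) =
          X ^ 2 - C (θ (heckeAlgebra.T hℓ hℓN hℓS)) * X + C ((ℓ : ResidueField 𝒪)))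
    (_hur : ∀ q : ℕ, q.Prime → q ∉ insert p N0.primeFactors → ρbar.IsUnramifiedAt q)
    (_hram2 : ¬ ρbar.IsUnramifiedAt 2)
    (_hZsc : ∀ q ∈ primesOf (N0.primeFactors.erase 2),
      ∀ σ ∈ (primeLocalPlace q).decompositionSubgroup ℚ,
        ∃ c : ResidueField 𝒪, ρbar.ρ σ = c • (1 : Module.End (ResidueField 𝒪) ρbar.V))
    (_hZur : ∀ q ∈ primesOf (N0.primeFactors.erase 2), ρbar.IsUnramifiedAt (q : ℕ))
    (Dat : HeckeGaloisRepDatum N0 (↑(insert p N0.primeFactors) : Set ℕ) 𝒪 θ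
      (TLoc N0 (insert p N0.primeFactors) 𝒪 θ))
    (_hDπ : Dat.π = piT N0 (insert p N0.primeFactors) 𝒪 θ)
    {N : ℕ} [NeZero N] {n r : ℕ} (D : Setup p N0 (insert p N0.primeFactors) N n r)
    (_hTWq : ∀ i, ∀ P : ValuationSubring Qbar, P.LiesOverPrime (D.qv i) →
      ∀ φ : Γ, P.IsFrobeniusAt φ (D.qv i) →
        ∃ α β : ResidueField 𝒪, α ≠ β ∧
          LinearMap.charpoly (ρbar.ρ φ) = (X - C α) * (X - C β))
    [IsLocalRing (An (thetaF 𝒪 θ D))] [IsLocalHom (algebraMap 𝒪 (An (thetaF 𝒪 θ D)))],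
    ∃ ρ : GaloisRepAdic (An (thetaF 𝒪 θ D)),
      Function.Surjective (residue (An (thetaF 𝒪 θ D)) ∘ algebraMap 𝒪 (An (thetaF 𝒪 θ D))) ∧
      ρ.residual.IsEquiv (ρbar.baseChangeAlong
        (ResidueField.map (algebraMap 𝒪 (An (thetaF 𝒪 θ D))))) ∧
      ρ.DetIsCyclotomic p ∧ ρ.IsFlatAt p ∧
      (∀ q : ℕ, q.Prime → q ∉ insert p N0.primeFactors ∪ Finset.univ.image D.qv →
        ρ.IsUnramifiedAt q) ∧
      (∀ q ∈ insert p N0.primeFactors, q.Prime → q ≠ p → q ∉ Zs N0 →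
        ρ.IsUnipotentOnInertiaAt q) ∧
      Algebra.adjoin 𝒪 (Set.range fun σ : Γ =>
        LinearMap.trace (An (thetaF 𝒪 θ D)) ρ.V (ρ.ρ σ)) = ⊤ ∧
      (∀ i : Fin r, ∃ a : An (thetaF 𝒪 θ D), ∀ w : Hn (thetaF 𝒪 θ D),
        actH (thetaF 𝒪 θ D) a w =
          (MvPolynomial.X (Sum.inr (D.d (Sum.inr i))) : Hk 𝒪 D.frame) • w +
          (MvPolynomial.X (Sum.inr (D.d (Sum.inr i))⁻¹) : Hk 𝒪 D.frame) • w) ∧
      (∀ z : ↥(primesOf (Zs N0)), ∀ w : Hn (thetaF 𝒪 θ D),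
        actH (thetaF 𝒪 θ D)
          (LinearMap.trace (An (thetaF 𝒪 θ D)) ρ.V (ρ.ρ (D.s z.1 : Γ))) w =
          (MvPolynomial.X (Sum.inr (D.d (Sum.inl z))) : Hk 𝒪 D.frame) • w +
          (MvPolynomial.X (Sum.inr (D.d (Sum.inl z))⁻¹) : Hk 𝒪 D.frame) • w) ∧
      (∀ (π : An (thetaF 𝒪 θ D) →ₐ[𝒪] TLoc N0 (insert p N0.primeFactors) 𝒪 θ)
        (hloc : IsLocalHom (π : An (thetaF 𝒪 θ D) →+* TLoc N0 (insert p N0.primeFactors) 𝒪 θ)),
        (∀ i, π (Ideal.Quotient.mk _ (MvPolynomial.X i)) = tlF 𝒪 θ D i) →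
          (ρ.baseChangeAlong
            (π : An (thetaF 𝒪 θ D) →+* TLoc N0 (insert p N0.primeFactors) 𝒪 θ) hloc).IsEquiv
              Dat.ρ)

/-- **the Hecke side from the per-level inputs.** -/
theorem heckeSide_of_levelInputs (H : LevelInputsStmt) : TopMain2.HeckeSideStmt := by
  intro 𝒪 _ _ _ _ _ _ p _ _ hp5 hp𝒪 N0 _ hsq h2N hpN ρbar habs hdet hsplit hTW θ hθ hur hram2
    hZsc hZur hZ1 s hs Dat hDπ
  have hp : p.Prime := Fact.out
  have hp2 : p ≠ 2 := by omega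
  have hNS : ∀ q : ℕ, q.Prime → q ∣ N0 → q ∈ (↑(insert p N0.primeFactors) : Set ℕ) := by
    intro q hq hqN
    exact Finset.mem_coe.mpr (Finset.mem_insert_of_mem
      (Nat.mem_primeFactors.mpr ⟨hq, hqN, NeZero.ne N0⟩))
  have hNS' : ∀ q : ℕ, q.Prime → q ∣ N0 → q ∈ insert p N0.primeFactors :=
    fun q hq hqN => Finset.mem_coe.mp (hNS q hq hqN)
  have hpS : p ∈ insert p N0.primeFactors := Finset.mem_insert_self _ _
  letI : Invertible (2 : 𝒪) := by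
    have h : IsUnit ((2 : ℕ) : 𝒪) := isUnit_natCast p 2 (fun h => by
      have := Nat.le_of_dvd (by norm_num) h
      omega)
    rw [Nat.cast_ofNat] at h
    exact h.invertible
  letI : Invertible (3 : 𝒪) := by
    have h : IsUnit ((3 : ℕ) : 𝒪) := isUnit_natCast p 3 (fun h => by
      have := Nat.le_of_dvd (by norm_num) h
      omega)
    rw [Nat.cast_ofNat] at h
    exact h.invertible
  set r := Module.finrank (ResidueField 𝒪)
    (H1g (primesOf (insert p N0.primeFactors)) (ad0D ρbar p)) with hr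
  refine ⟨d0 N0 (insert p N0.primeFactors) hNS 𝒪 θ r, d0_pos N0 _ hNS 𝒪 θ r,
    act0 N0 (insert p N0.primeFactors) hNS 𝒪 θ r, ?_⟩
  intro n qv hinj hqv hTWq
  haveI : NeZero (N0 * ∏ i, qv i) := ⟨Nat.mul_ne_zero (NeZero.ne N0)
    (Finset.prod_ne_zero_iff.mpr fun i _ => (hqv i).1.ne_zero)⟩
  let D : Setup p N0 (insert p N0.primeFactors) (N0 * ∏ i, qv i) n r :=
    ofTop (insert p N0.primeFactors) qv rfl hp hp2 hsq hNS' hZ1 hinj hqv s hs
  have hTWθ := tθ_sq_ne_setup p N0 (insert p N0.primeFactors) 𝒪 θ ρbar hθ D hTWq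
  haveI := LevelTop5.isLocalRing_An hNS 𝒪 θ hp2 hp𝒪 hpS ρbar habs hdet hθ D hTWθ
  haveI := LevelTop5.isLocalHom_An hNS 𝒪 θ hp2 hp𝒪 hpS ρbar habs hdet hθ D hTWθ
  obtain ⟨ρ, hres, hlift, hD, hflat, hU, hunip, htr, hTWb, hZb, hρ0⟩ :=
    H 𝒪 p hp5 hp𝒪 N0 hsq h2N hpN ρbar habs hdet hsplit hTW θ hθ hur hram2 hZsc hZur Dat hDπ D
      hTWq
  exact heckeLevel_of_rep hNS 𝒪 θ hp2 hp𝒪 hpS ρbar habs hdet hθ (insert p N0.primeFactors) D
    hTWθ Dat.ρ ρ hres hlift hD hflat hU hunip htr hTWb hZb hρ0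

end Fermat.Agent.M43.LevelFinal5
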