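/-
Programme M43 (target S43), chapter (6d) — helper6.
**Ring homomorphisms out of the anemic Hecke algebra from relations on the lattice.**

`M` a level, `S ⊇ primes(M)`, `ℓ : ι → ℕ` a family of primes outside `S` containing every prime
outside `S`.  The anemic Hecke algebra `heckeAlgebra M 2 S` acts faithfully on
`Λ = parabolicHoms ℤ (Gamma0 M) ℤ` (`FaithFinal26.heckeLam_injective`) and is generated by the
`T_{ℓ i}` (`HeckeInd1`), so it is the quotient of `MvPolynomial ι ℤ` by the relations between the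
double coset operators `tdcPar` on `Λ`:

* `evT`, `evT_surjective`, `heckeLam_evT`, `evT_eq_zero_iff`;
* **`exists_ringHom`** : a ring homomorphism `g : MvPolynomial ι ℤ →+* A` killing every relation
  between the `tdcPar` on `Λ` factors through `φ : heckeAlgebra M 2 S →+* A`, `φ (T_{ℓ i}) = g (X i)`;
* `chainKq`, **`sub_eq_SQ`** : the subgroups `Chain.sub` of `ChainGrp5` are subgroups `SQ` of
  `TwistLatI6`.
-/
import Mathlib
import Fermat.Agent.ES.HEQ.FaithFinal26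
import Fermat.Agent.M43.HeckeInd1
import Fermat.Agent.M43.PolyMod5
import Fermat.Agent.M43.ChainGrp5
import Fermat.Agent.M43.TwistLatI6

set_option autoImplicit false
set_option linter.unusedSectionVars false

noncomputable section

namespace Fermat.Agent.M43.LevelHom6

open CuspForm ModularCurve.Period CongruenceSubgroup
open Fermat.Agent.M43.PolyMod5 Fermat.Agent.ES.HEQ.FaithFinal26
  Fermat.Agent.ES.HEQ.DoubleCosetPar27 Fermat.Agent.ES.HEQ.FaithInst26
  Fermat.Agent.M43.ChainGrp5 Fermat.Agent.M43.TwistLatI6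

/-! ### The Hecke algebra as a quotient of the polynomial ring -/

section Generic

variable {M : ℕ} [NeZero M] (S : Set ℕ) (hS : ∀ q : ℕ, q.Prime → q ∣ M → q ∈ S)
  {ι : Type*} (ℓ : ι → ℕ) [hℓp : ∀ i, Fact (ℓ i).Prime] (hℓM : ∀ i, ¬ ℓ i ∣ M)
  (hℓS : ∀ i, ℓ i ∉ S)

/-- evaluation at the Hecke operators `T_{ℓ i}`. -/
def evT : MvPolynomial ι ℤ →ₐ[ℤ] ↥(heckeAlgebra M 2 S) :=
  MvPolynomial.aeval fun i => heckeAlgebra.T (hℓp i).out (hℓM i) (hℓS i)

@[simp] theorem evT_X (i : ι) :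
    evT S ℓ hℓM hℓS (MvPolynomial.X i) = heckeAlgebra.T (hℓp i).out (hℓM i) (hℓS i) := by
  rw [evT, MvPolynomial.aeval_X]

include hS in
/-- the `T_{ℓ i}` generate the Hecke algebra. -/
theorem evT_surjective (hcov : ∀ ℓ' : ℕ, ℓ'.Prime → ℓ' ∉ S → ∃ i, ℓ i = ℓ') :
    Function.Surjective (evT S ℓ hℓM hℓS) := by
  intro t
  induction t using HeckeInd1.hecke_induction hS with
  | hT ℓ' hℓ' hℓ'N hℓ'S =>
    obtain ⟨i, rfl⟩ := hcov ℓ' hℓ' hℓ'S
    exact ⟨MvPolynomial.X i, evT_X S ℓ hℓM hℓS i⟩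
  | hint r => exact ⟨(r : MvPolynomial ι ℤ), map_intCast _ r⟩
  | hadd x y hx hy =>
    obtain ⟨a, rfl⟩ := hx
    obtain ⟨b, rfl⟩ := hy
    exact ⟨a + b, map_add _ a b⟩
  | hmul x y hx hy =>
    obtain ⟨a, rfl⟩ := hx
    obtain ⟨b, rfl⟩ := hy
    exact ⟨a * b, map_mul _ a b⟩

/-- the action on the lattice of a polynomial in the `T_{ℓ i}`. -/
theorem heckeLam_evT
    (hTM : ∀ i j : ι, Commute (tdcPar (hℓM i) ℤ ℤ) (tdcPar (hℓM j) ℤ ℤ))
    (s : MvPolynomial ι ℤ) :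
    heckeLam S hS (evT S ℓ hℓM hℓS s) = polyAct (fun i => tdcPar (hℓM i) ℤ ℤ) hTM s := by
  have : (heckeLam S hS).comp (evT S ℓ hℓM hℓS) =
      polyAct (fun i => tdcPar (hℓM i) ℤ ℤ) hTM := by
    apply MvPolynomial.algHom_ext
    intro i
    rw [AlgHom.comp_apply, evT_X, polyAct_X]
    exact heckeLam_T S hS (ℓ i) (hℓp i).out (hℓM i) (hℓS i)
  exact congrArg (fun f => f s) this

include hS in
/-- a polynomial in the `T_{ℓ i}` vanishes in the Hecke algebra iff it vanishes on the lattice. -/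
theorem evT_eq_zero_iff
    (hTM : ∀ i j : ι, Commute (tdcPar (hℓM i) ℤ ℤ) (tdcPar (hℓM j) ℤ ℤ))
    (s : MvPolynomial ι ℤ) :
    evT S ℓ hℓM hℓS s = 0 ↔ polyAct (fun i => tdcPar (hℓM i) ℤ ℤ) hTM s = 0 := by
  rw [← heckeLam_evT S hS ℓ hℓM hℓS hTM s]
  constructor
  · intro h
    rw [h, map_zero]
  · intro h
    exact heckeLam_injective S hS (h.trans (map_zero _).symm)

include hS in
/-- **Ring homomorphisms out of the Hecke algebra from the relations on the lattice.** -/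
theorem exists_ringHom (hcov : ∀ ℓ' : ℕ, ℓ'.Prime → ℓ' ∉ S → ∃ i, ℓ i = ℓ')
    (hTM : ∀ i j : ι, Commute (tdcPar (hℓM i) ℤ ℤ) (tdcPar (hℓM j) ℤ ℤ))
    {A : Type*} [CommRing A] (g : MvPolynomial ι ℤ →+* A)
    (hg : ∀ s : MvPolynomial ι ℤ, polyAct (fun i => tdcPar (hℓM i) ℤ ℤ) hTM s = 0 → g s = 0) :
    ∃ φ : ↥(heckeAlgebra M 2 S) →+* A, (∀ s, φ (evT S ℓ hℓM hℓS s) = g s) ∧
      ∀ i, φ (heckeAlgebra.T (hℓp i).out (hℓM i) (hℓS i)) = g (MvPolynomial.X i) := by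
  have hsurj := evT_surjective S hS ℓ hℓM hℓS hcov
  have hker : RingHom.ker (evT S ℓ hℓM hℓS : MvPolynomial ι ℤ →+* ↥(heckeAlgebra M 2 S)) ≤
      RingHom.ker g := by
    intro s hs
    rw [RingHom.mem_ker] at hs ⊢
    exact hg s ((evT_eq_zero_iff S hS ℓ hℓM hℓS hTM s).mp hs)
  refine ⟨RingHom.liftOfSurjective
    (evT S ℓ hℓM hℓS : MvPolynomial ι ℤ →+* ↥(heckeAlgebra M 2 S)) hsurj ⟨g, hker⟩, ?_, ?_⟩
  · intro s
    exact RingHom.liftOfRightInverse_comp_apply _ _ _ ⟨g, hker⟩ s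
  · intro i
    rw [← evT_X S ℓ hℓM hℓS i]
    exact RingHom.liftOfRightInverse_comp_apply _ _ _ ⟨g, hker⟩ (MvPolynomial.X i)

end Generic

/-! ### The subgroups of a chain are subgroups `SQ` -/

section Chain

variable {N s : ℕ} (c : Chain N s)

/-- the local conditions of a chain, indexed by the natural numbers. -/
def chainKq (q : ℕ) : Subgroup (ZMod q)ˣ :=
  ⨅ i : Fin s, ⨅ h : c.ℓ i = q, h ▸ c.K i

theorem mem_chainKq {q : ℕ} {x : (ZMod q)ˣ} :
    x ∈ chainKq c q ↔ ∀ (i : Fin s) (h : c.ℓ i = q), x ∈ (h ▸ c.K i : Subgroup (ZMod q)ˣ) := by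
  simp only [chainKq, Subgroup.mem_iInf]

/-- **the top subgroup of a chain is a subgroup `SQ`.** -/
theorem sub_eq_SQ : c.sub s = SQ (chainKq c) (Finset.univ.image c.ℓ) N := by
  ext x
  rw [Chain.mem_sub, mem_SQ]
  constructor
  · intro hx q hq hqN
    rw [mem_chainKq]
    intro i h
    subst h
    exact hx i i.2
  · intro hx i _
    have h1 := hx (c.ℓ i) (Finset.mem_image_of_mem _ (Finset.mem_univ i)) (c.dvd i)
    rw [mem_chainKq] at h1
    exact h1 i rfl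

end Chain

end Fermat.Agent.M43.LevelHom6
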