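/-
Programme M43 (target S43), chapter TWIST-LAT — helper6.
**(β'2): transfer of the relations between the Hecke operators from `Γ₀(M)` to `Γ_H(N)`.**

`N` a level, `Q` a finite set of primes `q ∥ N`, `H = SQ Kq Q N` of product type at `Q`,
`M = N ∏_{q ∈ Q} q`; `m` with `d ^ m ∈ H` for all `d`, `2 e = m + 1`;
`τ_ℓ := T_ℓ ∘ ⟨u_ℓ⟩`, `u_ℓ = ℓ ^ e mod N`.

**`transfer_K`** / **`transfer_O`** : for every noncommutative polynomial `t` in the variables
`x : X` (each attached to a prime `ℓ x ∤ M`): if `t(T^{Γ₀(M)}) = 0` on the parabolic homomorphisms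
of `Γ₀(M)`, then `t(τ) = 0` on the parabolic homomorphisms of `Γ_H(N)`.
-/
import Mathlib
import Fermat.Agent.M43.TwistLatD6
import Fermat.Agent.S22.CocycleFG

set_option autoImplicit false
set_option linter.unusedSectionVars false

noncomputable section

namespace Fermat.Agent.M43.TwistLatF6

open Matrix.SpecialLinearGroup ModularCurve.Period CongruenceSubgroup
open scoped MatrixGroups
open Fermat.Agent.M43.TwistMat6 Fermat.Agent.M43.TwistLatA6 Fermat.Agent.M43.TwistLatB6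
  Fermat.Agent.M43.TwistLatC6 Fermat.Agent.M43.TwistLatG6 Fermat.Agent.M43.HeckeH0
  Fermat.Agent.M43.TwistLatT6 Fermat.Agent.M43.TwistLatH6 Fermat.Agent.M43.TwistLatX6
  Fermat.Agent.M43.TwistLatE6 Fermat.Agent.M43.TwistLatI6 Fermat.Agent.M43.CycInst0
  Fermat.Agent.M43.TwistLatD6
open Fermat.Agent.M48.ESInv3 Fermat.Agent.M48.CosetOp3 Fermat.Agent.M48.Diamond1

/-! ### Noncommutative polynomials in families of operators -/

section Abstract

variable {O S₁ S₂ V W X : Type*} [CommSemiring O] [Semiring S₁] [Semiring S₂]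
  [AddCommMonoid V] [AddCommMonoid W]
  [Module O V] [Module S₁ V] [SMulCommClass S₁ O V] [SMul O S₁] [IsScalarTower O S₁ V]
  [Module O W] [Module S₂ W] [SMulCommClass S₂ O W] [SMul O S₂] [IsScalarTower O S₂ W]

/-- **transfer along a map which is linear and equivariant on a stable additive subset.** -/
theorem lift_transfer (a : X → Module.End S₁ V) (b : X → Module.End S₂ W) (P : V → Prop)
    (hPadd : ∀ v v', P v → P v' → P (v + v')) (hPsmul : ∀ (r : O) v, P v → P (r • v))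
    (hPa : ∀ x v, P v → P (a x v)) (j : V → W)
    (hjadd : ∀ v v', P v → P v' → j (v + v') = j v + j v')
    (hjsmul : ∀ (r : O) v, P v → j (r • v) = r • j v)
    (hab : ∀ x v, P v → j (a x v) = b x (j v)) (t : FreeAlgebra O X) :
    ∀ v, P v → P (FreeAlgebra.lift O a t v) ∧
      j (FreeAlgebra.lift O a t v) = FreeAlgebra.lift O b t (j v) := by
  induction t using FreeAlgebra.induction with
  | grade0 r =>
    intro v hv
    rw [AlgHom.commutes, AlgHom.commutes, Module.algebraMap_end_apply,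
      Module.algebraMap_end_apply]
    exact ⟨hPsmul r v hv, hjsmul r v hv⟩
  | grade1 x =>
    intro v hv
    rw [FreeAlgebra.lift_ι_apply, FreeAlgebra.lift_ι_apply]
    exact ⟨hPa x v hv, hab x v hv⟩
  | mul s t hs ht =>
    intro v hv
    rw [map_mul, map_mul, Module.End.mul_apply, Module.End.mul_apply]
    obtain ⟨h1, h2⟩ := ht v hv
    obtain ⟨h3, h4⟩ := hs _ h1
    exact ⟨h3, by rw [h4, h2]⟩
  | add s t hs ht =>
    intro v hv
    rw [map_add, map_add, LinearMap.add_apply, LinearMap.add_apply]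
    obtain ⟨h1, h2⟩ := hs v hv
    obtain ⟨h3, h4⟩ := ht v hv
    exact ⟨hPadd _ _ h1 h3, by rw [hjadd _ _ h1 h3, h2, h4]⟩

/-- an `O`-linear map intertwining the two families intertwines all the polynomials. -/
theorem lift_intertwine (a : X → Module.End S₁ V) (b : X → Module.End S₂ W) (c : V →ₗ[O] W)
    (h : ∀ x v, c (a x v) = b x (c v)) (t : FreeAlgebra O X) (v : V) :
    c (FreeAlgebra.lift O a t v) = FreeAlgebra.lift O b t (c v) :=
  (lift_transfer a b (fun _ => True) (fun _ _ _ _ => trivial) (fun _ _ _ => trivial)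
    (fun _ _ _ => trivial) c (fun v v' _ _ => map_add c v v') (fun r v _ => map_smul c r v)
    (fun x v _ => h x v) t v trivial).2

end Abstract

/-! ### The operators -/

section Ops

/-- `T.addHom` as an `S`-linear endomorphism of `Hom(Γ, A)`. -/
def opEnd {Γ : Subgroup SL(2, ℤ)} (T : CosetOp Γ) (S A : Type*) [Semiring S] [AddCommGroup A]
    [Module S A] : Module.End S (Additive Γ →+ A) where
  toFun := T.addHom
  map_add' := addHom_add T
  map_smul' := addHom_smul T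

@[simp] theorem opEnd_apply {Γ : Subgroup SL(2, ℤ)} (T : CosetOp Γ) (S A : Type*) [Semiring S]
    [AddCommGroup A] [Module S A] (φ : Additive Γ →+ A) : opEnd T S A φ = T.addHom φ := rfl

/-- **`τ = T_ℓ ∘ ⟨u⟩`** on `Hom(Γ_H(N), R)`. -/
def tauEnd {N ℓ : ℕ} [NeZero N] [Fact ℓ.Prime] (R : Type*) [CommRing R] (hℓN : ¬ ℓ ∣ N)
    (σ : Gamma0 N) (hσ : Gamma0Map N σ = (ℓ : ZMod N)) (H : Subgroup (ZMod N)ˣ)
    (u : (ZMod N)ˣ) : Module.End R (Additive (GH N H) →+ R) :=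
  opEnd (heckeH hℓN σ hσ H) R R * dia H u

theorem tauEnd_apply {N ℓ : ℕ} [NeZero N] [Fact ℓ.Prime] (R : Type*) [CommRing R]
    (hℓN : ¬ ℓ ∣ N) (σ : Gamma0 N) (hσ : Gamma0Map N σ = (ℓ : ZMod N)) (H : Subgroup (ZMod N)ˣ)
    (u : (ZMod N)ˣ) (φ : Additive (GH N H) →+ R) :
    tauEnd R hℓN σ hσ H u φ = (heckeH hℓN σ hσ H).addHom (dia H u φ) := rfl

end Ops

/-! ### The transfer over a big field -/

section TransferK

variable {O₀ K : Type*} [CommRing O₀] [Field K] [CharZero K] [IsAlgClosed K] [Algebra O₀ K]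

/-- primitive additive characters exist over an algebraically closed field of characteristic `0`. -/
theorem exists_primitive_addChar {q : ℕ} (hq : q.Prime) :
    ∃ e : AddChar (ZMod q) K, e.IsPrimitive := by
  have : NeZero q := ⟨hq.ne_zero⟩
  have : NeZero ((q : ℕ) : K) := ⟨by exact_mod_cast hq.ne_zero⟩
  obtain ⟨ζ, hζ⟩ := HasEnoughRootsOfUnity.exists_primitiveRoot K q
  exact ⟨_, AddChar.zmodChar_primitive_of_primitive_root q hζ⟩

/-- **(β'2) over a big field.** -/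
theorem transfer_K {N : ℕ} [NeZero N] {Q : Finset ℕ}
    (hQ : ∀ q ∈ Q, q.Prime ∧ q ∣ N ∧ ¬ q ∣ N / q) (Kq : ∀ q : ℕ, Subgroup (ZMod q)ˣ) {m e : ℕ}
    (hm : ∀ d : (ZMod N)ˣ, d ^ m ∈ SQ Kq Q N) (he : 2 * e = m + 1) {M : ℕ}
    (hM : M = N * ∏ q ∈ Q, q) {X : Type*} (ℓ : X → ℕ) [hℓp : ∀ x, Fact (ℓ x).Prime]
    (hℓM : ∀ x, ¬ ℓ x ∣ M) (hℓN : ∀ x, ¬ ℓ x ∣ N)
    (σM : X → Gamma0 M) (hσM : ∀ x, Gamma0Map M (σM x) = ((ℓ x : ℕ) : ZMod M))
    (σN : X → Gamma0 N) (hσN : ∀ x, Gamma0Map N (σN x) = ((ℓ x : ℕ) : ZMod N))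
    (u : X → (ZMod N)ˣ)
    (hu : ∀ x, ((u x : (ZMod N)ˣ) : ZMod N) = ((ℓ x : ℕ) : ZMod N) ^ e)
    (t : FreeAlgebra O₀ X)
    (ht : ∀ w : Additive (GH M (⊤ : Subgroup (ZMod M)ˣ)) →+ K, IsParabolicHom _ w →
      FreeAlgebra.lift O₀ (fun x => opEnd (heckeH (hℓM x) (σM x) (hσM x) ⊤) K K) t w = 0)
    (φ : Additive (GH N (SQ Kq Q N)) →+ K) (hφ : IsParabolicHom _ φ) :
    FreeAlgebra.lift O₀
      (fun x => tauEnd K (hℓN x) (σN x) (hσN x) (SQ Kq Q N) (u x)) t φ = 0 := by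
  classical
  have : NeZero ((Monoid.exponent (ZMod N)ˣ : ℕ) : K) :=
    ⟨by exact_mod_cast Monoid.exponent_ne_zero_of_finite (G := (ZMod N)ˣ)⟩
  rw [← sum_proj (SQ Kq Q N) φ, map_sum]
  refine Finset.sum_eq_zero fun χ _ => ?_
  have hpar : IsParabolicHom _ (proj (SQ Kq Q N) χ φ) := isParabolicHom_proj _ χ hφ
  have hdia : ∀ d : (ZMod N)ˣ, dia (SQ Kq Q N) d (proj (SQ Kq Q N) χ φ)
      = χ (d : ZMod N) • proj (SQ Kq Q N) χ φ := fun d => dia_proj _ χ d φ
  rcases proj_eq_zero_or (SQ Kq Q N) χ φ with h0 | hχH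
  · rw [h0, map_zero]
  -- the factorisation of `χ⁻¹`
  have hχinv : ∀ v ∈ SQ Kq Q N, χ⁻¹ ((v : (ZMod N)ˣ) : ZMod N) = 1 := by
    intro v hv
    rw [MulChar.inv_apply_eq_inv', hχH v hv, inv_one]
  obtain ⟨ψ, hψK, hψv, hψprod⟩ := exists_factorization hQ Kq χ⁻¹ hχinv
  have hψm : ∀ q ∈ Q, ψ q ^ m = 1 := by
    intro q hq
    refine MulChar.ext fun a => ?_
    obtain ⟨v, hv⟩ := hψv q hq a
    rw [MulChar.pow_apply_coe, hv, MulChar.one_apply_coe, ← map_pow, ← Units.val_pow_eq_pow_val]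
    exact hχinv _ (hm v)
  have he0 : e ≠ 0 := by
    rintro rfl
    omega
  have hωψ : ∀ q ∈ Q, ((ψ q)⁻¹ ^ e) ^ 2 * ψ q = 1 := by
    intro q hq
    rw [← pow_mul, mul_comm e 2, he, pow_succ, inv_pow, hψm q hq, inv_one, one_mul,
      inv_mul_cancel]
  have hω1 : ∀ q ∈ Q, ψ q = 1 → (ψ q)⁻¹ ^ e = 1 := by
    intro q _ h1
    rw [h1, inv_one, one_pow]
  have hadd : ∀ q ∈ Q, ∃ e' : AddChar (ZMod q) K, e'.IsPrimitive :=
    fun q hq => exists_primitive_addChar (hQ q hq).1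
  obtain ⟨ι, hι⟩ := exists_embeds Kq ψ (fun q => (ψ q)⁻¹ ^ e) Q N hQ hψK hωψ hω1 hadd M hM
  -- the eigenspace
  set P : (Additive (GH N (SQ Kq Q N)) →+ K) → Prop := fun v =>
    (∀ d : (ZMod N)ˣ, dia (SQ Kq Q N) d v = χ (d : ZMod N) • v) ∧ IsParabolicHom _ v with hP
  have hPeig : ∀ v, P v → IsEigZ (PsiQ ψ Q) (Gamma0 N) v := by
    intro v hv
    refine IsEigZ.congr (isEigZ_of_dia (SQ Kq Q N) hv.1) ?_
    intro g hg
    have h1 := hψprod (unitOf (⟨g, hg⟩ : Gamma0 N))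
    have h2 : ((unitOf (⟨g, hg⟩ : Gamma0 N) : (ZMod N)ˣ) : ZMod N) = ((g 1 1 : ℤ) : ZMod N) := rfl
    rw [h2, MulChar.inv_apply_eq_inv'] at h1
    show PsiQ ψ Q (g 1 1) = (χ ((g 1 1 : ℤ) : ZMod N))⁻¹
    rw [h1]
    unfold PsiQ
    refine Finset.prod_congr rfl fun q hq => ?_
    rw [ZMod.cast_intCast (hQ q hq).2.1]
  have hχu : ∀ x, χ ((u x : (ZMod N)ˣ) : ZMod N)
      = ∏ q ∈ Q, ((ψ q)⁻¹ ^ e) (((ℓ x : ℕ) : ℕ) : ZMod q) := by
    intro x
    have hcop : Nat.Coprime (ℓ x) N :=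
      (Nat.Prime.coprime_iff_not_dvd (hℓp x).out).mpr (hℓN x)
    have h1 := hψprod (ZMod.unitOfCoprime (ℓ x) hcop)
    rw [ZMod.coe_unitOfCoprime, MulChar.inv_apply_eq_inv'] at h1
    rw [hu x, map_pow, ← inv_inv (χ ((ℓ x : ℕ) : ZMod N)), h1, ← Finset.prod_inv_distrib,
      ← Finset.prod_pow]
    refine Finset.prod_congr rfl fun q hq => ?_
    rw [MulChar.pow_apply' _ he0, MulChar.inv_apply_eq_inv', ZMod.cast_natCast (hQ q hq).2.1]
  have hTeig : ∀ x v, P v →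
      P ((heckeH (hℓN x) (σN x) (hσN x) (SQ Kq Q N)).addHom v) := by
    intro x v hv
    refine ⟨fun d => ?_, isParabolicHom_addHom _ hv.2⟩
    rw [← heckeH_dia, hv.1 d, addHom_smul]
  have htau : ∀ x v, P v → tauEnd K (hℓN x) (σN x) (hσN x) (SQ Kq Q N) (u x) v
      = χ ((u x : (ZMod N)ˣ) : ZMod N) • (heckeH (hℓN x) (σN x) (hσN x) (SQ Kq Q N)).addHom v := by
    intro x v hv
    rw [tauEnd_apply, hv.1 (u x), addHom_smul]
  have hPsmulK : ∀ (c : K) v, P v → P (c • v) := by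
    intro c v hv
    refine ⟨fun d => ?_, ?_⟩
    · rw [map_smul, hv.1 d, smul_comm]
    · exact (parabolicHoms K (GH N (SQ Kq Q N)) K).smul_mem c hv.2
  have key := lift_transfer (O := O₀)
    (fun x => tauEnd K (hℓN x) (σN x) (hσN x) (SQ Kq Q N) (u x))
    (fun x => opEnd (heckeH (hℓM x) (σM x) (hσM x) ⊤) K K) P
    (fun v v' hv hv' => ⟨fun d => by rw [map_add, hv.1 d, hv'.1 d, smul_add],
      (parabolicHoms K (GH N (SQ Kq Q N)) K).add_mem hv.2 hv'.2⟩)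
    (fun r v hv => by
      rw [← algebraMap_smul K r v]
      exact hPsmulK _ v hv)
    (fun x v hv => by
      rw [htau x v hv]
      exact hPsmulK _ _ (hTeig x v hv))
    ι
    (fun v v' hv hv' => hι.add v v' (hPeig v hv) (hPeig v' hv'))
    (fun r v hv => by
      rw [← algebraMap_smul K r v, hι.smul _ v (hPeig v hv), algebraMap_smul])
    (fun x v hv => by
      rw [htau x v hv, hι.smul _ _ (hPeig _ (hTeig x v hv)), opEnd_apply,
        hι.hecke (ℓ x) (hℓM x) (hℓN x) (σM x) (hσM x) (σN x) (hσN x) v (hPeig v hv), hχu x])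
    t (proj (SQ Kq Q N) χ φ) ⟨hdia, hpar⟩
  obtain ⟨hP', hj⟩ := key
  rw [ht _ (hι.par _ (hPeig _ ⟨hdia, hpar⟩) hpar)] at hj
  exact hι.inj _ (hPeig _ hP') hj

end TransferK

end Fermat.Agent.M43.TwistLatF6
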