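/-
Programme M43 (target S43), chapter TWIST-LAT — helper6.
**(β'2) on lattices: base change.**

* `bcHom` : post-composition with a linear map, on `Hom(Γ, ·)`; compatibility with the coset
  operators, with the diamond operators, with parabolicity;
* `exists_decomp_fg` : `Γ` finitely generated, `O₀` a principal ideal domain, `K ⊇ O₀` a field:
  every (parabolic) homomorphism `Γ → K` is a `K`-linear combination of (parabolic) homomorphisms
  `Γ → O₀`;
* **`transfer_gen`** : `O₀ → O → K`; if a noncommutative polynomial `t` over `O₀` in the `T_ℓ`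
  kills the parabolic homomorphisms `Γ₀(M) → O₀`, then `t` in the `τ_ℓ` kills the parabolic
  homomorphisms `Γ_H(N) → O`;
* **`transfer_Z`** (`O₀ = ℤ`, `O` any domain of characteristic `0`), **`transfer_O`** (`O₀ = O` a
  principal ideal domain of characteristic `0`).
-/
import Mathlib
import Fermat.Agent.M43.TwistLatF6

set_option autoImplicit false
set_option linter.unusedSectionVars false

noncomputable section

namespace Fermat.Agent.M43.TwistLatJ6

open Matrix.SpecialLinearGroup ModularCurve.Period CongruenceSubgroup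
open scoped MatrixGroups
open Fermat.Agent.M43.TwistMat6 Fermat.Agent.M43.TwistLatA6 Fermat.Agent.M43.TwistLatB6
  Fermat.Agent.M43.TwistLatC6 Fermat.Agent.M43.TwistLatG6 Fermat.Agent.M43.HeckeH0
  Fermat.Agent.M43.TwistLatT6 Fermat.Agent.M43.TwistLatH6 Fermat.Agent.M43.TwistLatX6
  Fermat.Agent.M43.TwistLatE6 Fermat.Agent.M43.TwistLatI6 Fermat.Agent.M43.CycInst0
  Fermat.Agent.M43.TwistLatD6 Fermat.Agent.M43.TwistLatF6
open Fermat.Agent.M48.ESInv3 Fermat.Agent.M48.CosetOp3 Fermat.Agent.M48.Diamond1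

/-! ### Post-composition -/

section BC

variable {O₀ A B : Type*} [CommRing O₀] [AddCommGroup A] [Module O₀ A] [AddCommGroup B]
  [Module O₀ B] {Γ : Subgroup SL(2, ℤ)}

/-- post-composition with a linear map, on `Hom(Γ, ·)`. -/
def bcHom (Γ : Subgroup SL(2, ℤ)) (f : A →ₗ[O₀] B) :
    (Additive Γ →+ A) →ₗ[O₀] (Additive Γ →+ B) where
  toFun φ := f.toAddMonoidHom.comp φ
  map_add' φ φ' := by
    refine AddMonoidHom.ext fun x => ?_
    show f (φ x + φ' x) = f (φ x) + f (φ' x)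
    rw [map_add]
  map_smul' r φ := by
    refine AddMonoidHom.ext fun x => ?_
    show f (r • φ x) = r • f (φ x)
    rw [map_smul]

@[simp] theorem bcHom_apply (f : A →ₗ[O₀] B) (φ : Additive Γ →+ A) (x : Additive Γ) :
    bcHom Γ f φ x = f (φ x) := rfl

theorem bcHom_addHom (T : CosetOp Γ) (f : A →ₗ[O₀] B) (φ : Additive Γ →+ A) :
    bcHom Γ f (T.addHom φ) = T.addHom (bcHom Γ f φ) :=
  (addHom_comp T f.toAddMonoidHom φ).symm

theorem isParabolicHom_bcHom (f : A →ₗ[O₀] B) {φ : Additive Γ →+ A}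
    (hφ : IsParabolicHom Γ φ) : IsParabolicHom Γ (bcHom Γ f φ) := by
  intro γ hγ
  show f (φ (Additive.ofMul γ)) = 0
  rw [hφ γ hγ, map_zero]

theorem bcHom_injective {f : A →ₗ[O₀] B} (hf : Function.Injective f) :
    Function.Injective (bcHom Γ f) := by
  intro φ φ' h
  refine AddMonoidHom.ext fun x => hf ?_
  exact congrArg (fun F : Additive Γ →+ B => F x) h

end BC

/-! ### Finitely generated groups and principal ideal domains -/

section Decomp

variable {O₀ K : Type*} [CommRing O₀] [IsDomain O₀] [IsPrincipalIdealRing O₀] [Field K]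
  [Algebra O₀ K]

/-- **base change**: every homomorphism from a finitely generated group to `K` is a `K`-linear
combination of homomorphisms to `O₀`, parabolic if the given one is. -/
theorem exists_decomp_fg (hinj : Function.Injective (algebraMap O₀ K)) {Γ : Subgroup SL(2, ℤ)}
    [hfg : Group.FG Γ] (w : Additive Γ →+ K) :
    ∃ (n : ℕ) (k : Fin n → K) (w' : Fin n → (Additive Γ →+ O₀)),
      w = ∑ j, k j • bcHom Γ (Algebra.linearMap O₀ K) (w' j) ∧
      (IsParabolicHom Γ w → ∀ j, IsParabolicHom Γ (w' j)) := by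
  classical
  obtain ⟨S, hS⟩ := Group.fg_def.mp hfg
  -- the span of the values on the generators
  set W : Submodule O₀ K :=
    Submodule.span O₀ ((fun γ : Γ => w (Additive.ofMul γ)) '' (S : Set Γ)) with hW
  have hmem : ∀ γ : Γ, w (Additive.ofMul γ) ∈ W := by
    intro γ
    have hγ : γ ∈ Subgroup.closure (S : Set Γ) := by
      rw [hS]
      exact Subgroup.mem_top γ
    induction hγ using Subgroup.closure_induction with
    | mem x hx => exact Submodule.subset_span ⟨x, hx, rfl⟩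
    | one =>
      rw [ofMul_one, map_zero]
      exact W.zero_mem
    | mul x y _ _ hx hy =>
      rw [ofMul_mul, map_add]
      exact W.add_mem hx hy
    | inv x _ hx =>
      rw [ofMul_inv, map_neg]
      exact W.neg_mem hx
  have hfin : Module.Finite O₀ W :=
    Module.Finite.span_of_finite O₀ ((S : Set Γ).toFinite.image _)
  have htf : Module.IsTorsionFree O₀ W := by
    refine Module.IsTorsionFree.of_smul_eq_zero fun r m h => ?_
    have h1 : algebraMap O₀ K r * (m : K) = 0 := by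
      have := congrArg (fun x : W => (x : K)) h
      simpa [Algebra.smul_def] using this
    rcases mul_eq_zero.mp h1 with h2 | h2
    · left
      exact hinj (by rw [h2, map_zero])
    · right
      exact Subtype.ext h2
  have hfree : Module.Free O₀ W := Module.free_of_finite_type_torsion_free'
  let b := Module.finBasis O₀ W
  let w₀ : Additive Γ →+ W := AddMonoidHom.codRestrict w W fun x => by
    obtain ⟨γ, rfl⟩ := Additive.ofMul.surjective x
    exact hmem γ
  refine ⟨Module.finrank O₀ W, fun j => ((b j : W) : K),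
    fun j => (b.coord j).toAddMonoidHom.comp w₀, ?_, ?_⟩
  · refine AddMonoidHom.ext fun x => ?_
    have h1 : (w₀ x : K) = w x := rfl
    rw [← h1, ← b.sum_repr (w₀ x), AddMonoidHom.finsetSum_apply]
    rw [Submodule.coe_sum]
    refine Finset.sum_congr rfl fun j _ => ?_
    show ((b.repr (w₀ x) j • b j : W) : K) = ((b j : W) : K) * algebraMap O₀ K (b.coord j (w₀ x))
    rw [Submodule.coe_smul, Algebra.smul_def, mul_comm]
    rfl
  · intro hpar j γ hγ
    show b.coord j (w₀ (Additive.ofMul γ)) = 0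
    have h0 : w₀ (Additive.ofMul γ) = 0 := Subtype.ext (hpar γ hγ)
    rw [h0, map_zero]

end Decomp

/-! ### The transfer on lattices -/

section Transfer

variable {O₀ O K : Type*} [CommRing O₀] [IsDomain O₀] [IsPrincipalIdealRing O₀] [CommRing O]
  [Algebra O₀ O] [Field K] [CharZero K] [IsAlgClosed K] [Algebra O K] [Algebra O₀ K]
  [IsScalarTower O₀ O K]

/-- the diamond operators commute with the base change. -/
theorem bcHom_dia {N : ℕ} [NeZero N] (H : Subgroup (ZMod N)ˣ) (d : (ZMod N)ˣ)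
    (φ : Additive (GH N H) →+ O) :
    bcHom (GH N H) ((Algebra.linearMap O K).restrictScalars O₀) (dia H d φ)
      = dia H d (bcHom (GH N H) ((Algebra.linearMap O K).restrictScalars O₀) φ) := by
  refine AddMonoidHom.ext fun x => ?_
  rfl

/-- **(β'2), general form**: `O₀` a principal ideal domain, `O₀ → O → K` with `K` an algebraically
closed field of characteristic `0`. -/
theorem transfer_gen (hinj₀ : Function.Injective (algebraMap O₀ K))
    (hinj : Function.Injective (algebraMap O K)) {N : ℕ} [NeZero N] {Q : Finset ℕ}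
    (hQ : ∀ q ∈ Q, q.Prime ∧ q ∣ N ∧ ¬ q ∣ N / q) (Kq : ∀ q : ℕ, Subgroup (ZMod q)ˣ) {m e : ℕ}
    (hm : ∀ d : (ZMod N)ˣ, d ^ m ∈ SQ Kq Q N) (he : 2 * e = m + 1) {M : ℕ}
    (hM : M = N * ∏ q ∈ Q, q) {X : Type*} (ℓ : X → ℕ) [hℓp : ∀ x, Fact (ℓ x).Prime]
    (hℓM : ∀ x, ¬ ℓ x ∣ M) (hℓN : ∀ x, ¬ ℓ x ∣ N)
    (σM : X → Gamma0 M) (hσM : ∀ x, Gamma0Map M (σM x) = ((ℓ x : ℕ) : ZMod M))
    (σN : X → Gamma0 N) (hσN : ∀ x, Gamma0Map N (σN x) = ((ℓ x : ℕ) : ZMod N))
    (u : X → (ZMod N)ˣ)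
    (hu : ∀ x, ((u x : (ZMod N)ˣ) : ZMod N) = ((ℓ x : ℕ) : ZMod N) ^ e)
    (t : FreeAlgebra O₀ X)
    (ht : ∀ w : Additive (GH M (⊤ : Subgroup (ZMod M)ˣ)) →+ O₀, IsParabolicHom _ w →
      FreeAlgebra.lift O₀ (fun x => opEnd (heckeH (hℓM x) (σM x) (hσM x) ⊤) O₀ O₀) t w = 0)
    (φ : Additive (GH N (SQ Kq Q N)) →+ O) (hφ : IsParabolicHom _ φ) :
    FreeAlgebra.lift O₀
      (fun x => tauEnd O (hℓN x) (σN x) (hσN x) (SQ Kq Q N) (u x)) t φ = 0 := by
  have hMne : NeZero M := ⟨by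
    rw [hM]
    exact Nat.mul_ne_zero (NeZero.ne N)
      (Finset.prod_ne_zero_iff.mpr fun q hq => (hQ q hq).1.ne_zero)⟩
  have hfg : Group.FG (GH M (⊤ : Subgroup (ZMod M)ˣ)) := Subgroup.fg_of_index_ne_zero _
  -- the hypothesis over `K`
  have htK : ∀ w : Additive (GH M (⊤ : Subgroup (ZMod M)ˣ)) →+ K, IsParabolicHom _ w →
      FreeAlgebra.lift O₀ (fun x => opEnd (heckeH (hℓM x) (σM x) (hσM x) ⊤) K K) t w = 0 := by
    intro w hw
    obtain ⟨n, k, w', hww, hpar⟩ := exists_decomp_fg (O₀ := O₀) hinj₀ w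
    rw [hww, map_sum]
    refine Finset.sum_eq_zero fun j _ => ?_
    rw [map_smul, ← lift_intertwine (O := O₀)
      (fun x => opEnd (heckeH (hℓM x) (σM x) (hσM x) ⊤) O₀ O₀)
      (fun x => opEnd (heckeH (hℓM x) (σM x) (hσM x) ⊤) K K)
      (bcHom (GH M (⊤ : Subgroup (ZMod M)ˣ)) (Algebra.linearMap O₀ K))
      (fun x v => bcHom_addHom _ _ v) t (w' j), ht _ (hpar hw j), map_zero, smul_zero]
  -- the conclusion over `K`
  have hK := transfer_K (O₀ := O₀) (K := K) hQ Kq hm he hM ℓ hℓM hℓN σM hσM σN hσN u hu t htK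
  -- descent to `O`
  have h1 := lift_intertwine (O := O₀)
    (fun x => tauEnd O (hℓN x) (σN x) (hσN x) (SQ Kq Q N) (u x))
    (fun x => tauEnd K (hℓN x) (σN x) (hσN x) (SQ Kq Q N) (u x))
    (bcHom (GH N (SQ Kq Q N)) ((Algebra.linearMap O K).restrictScalars O₀))
    (fun x v => by
      rw [tauEnd_apply, tauEnd_apply, bcHom_addHom, bcHom_dia]) t φ
  rw [hK _ (isParabolicHom_bcHom _ hφ)] at h1
  have hinj' : Function.Injective ((Algebra.linearMap O K).restrictScalars O₀) := hinj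
  exact bcHom_injective hinj' (by rw [h1, map_zero])

end Transfer

/-! ### The two special cases -/

section Special

variable {O : Type*} [CommRing O] [IsDomain O] [CharZero O]

theorem injective_algebraMap_algClosure :
    Function.Injective (algebraMap O (AlgebraicClosure (FractionRing O))) := by
  rw [IsScalarTower.algebraMap_eq O (FractionRing O) (AlgebraicClosure (FractionRing O))]
  exact (algebraMap (FractionRing O) (AlgebraicClosure (FractionRing O))).injective.comp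
    (IsFractionRing.injective O (FractionRing O))

instance charZero_algClosure : CharZero (AlgebraicClosure (FractionRing O)) :=
  charZero_of_injective_algebraMap (injective_algebraMap_algClosure (O := O))

/-- **(β'2) from the `ℤ`-lattice** `parabolicHoms ℤ (Γ₀(M)) ℤ` to `O`-valued parabolic
homomorphisms, `O` any domain of characteristic `0`. -/
theorem transfer_Z {N : ℕ} [NeZero N] {Q : Finset ℕ}
    (hQ : ∀ q ∈ Q, q.Prime ∧ q ∣ N ∧ ¬ q ∣ N / q) (Kq : ∀ q : ℕ, Subgroup (ZMod q)ˣ) {m e : ℕ}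
    (hm : ∀ d : (ZMod N)ˣ, d ^ m ∈ SQ Kq Q N) (he : 2 * e = m + 1) {M : ℕ}
    (hM : M = N * ∏ q ∈ Q, q) {X : Type*} (ℓ : X → ℕ) [hℓp : ∀ x, Fact (ℓ x).Prime]
    (hℓM : ∀ x, ¬ ℓ x ∣ M) (hℓN : ∀ x, ¬ ℓ x ∣ N)
    (σM : X → Gamma0 M) (hσM : ∀ x, Gamma0Map M (σM x) = ((ℓ x : ℕ) : ZMod M))
    (σN : X → Gamma0 N) (hσN : ∀ x, Gamma0Map N (σN x) = ((ℓ x : ℕ) : ZMod N))
    (u : X → (ZMod N)ˣ)
    (hu : ∀ x, ((u x : (ZMod N)ˣ) : ZMod N) = ((ℓ x : ℕ) : ZMod N) ^ e)
    (t : FreeAlgebra ℤ X)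
    (ht : ∀ w : Additive (GH M (⊤ : Subgroup (ZMod M)ˣ)) →+ ℤ, IsParabolicHom _ w →
      FreeAlgebra.lift ℤ (fun x => opEnd (heckeH (hℓM x) (σM x) (hσM x) ⊤) ℤ ℤ) t w = 0)
    (φ : Additive (GH N (SQ Kq Q N)) →+ O) (hφ : IsParabolicHom _ φ) :
    FreeAlgebra.lift ℤ
      (fun x => tauEnd O (hℓN x) (σN x) (hσN x) (SQ Kq Q N) (u x)) t φ = 0 := by
  have hinj₀ : Function.Injective (algebraMap ℤ (AlgebraicClosure (FractionRing O))) :=
    RingHom.injective_int _
  exact transfer_gen (O₀ := ℤ) (O := O) (K := AlgebraicClosure (FractionRing O)) hinj₀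
    injective_algebraMap_algClosure hQ Kq hm he hM ℓ hℓM hℓN σM hσM σN hσN u hu t ht φ hφ

/-- **(β'2) on `O`-lattices**, `O` a principal ideal domain of characteristic `0`. -/
theorem transfer_O [IsPrincipalIdealRing O] {N : ℕ} [NeZero N] {Q : Finset ℕ}
    (hQ : ∀ q ∈ Q, q.Prime ∧ q ∣ N ∧ ¬ q ∣ N / q) (Kq : ∀ q : ℕ, Subgroup (ZMod q)ˣ) {m e : ℕ}
    (hm : ∀ d : (ZMod N)ˣ, d ^ m ∈ SQ Kq Q N) (he : 2 * e = m + 1) {M : ℕ}
    (hM : M = N * ∏ q ∈ Q, q) {X : Type*} (ℓ : X → ℕ) [hℓp : ∀ x, Fact (ℓ x).Prime]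
    (hℓM : ∀ x, ¬ ℓ x ∣ M) (hℓN : ∀ x, ¬ ℓ x ∣ N)
    (σM : X → Gamma0 M) (hσM : ∀ x, Gamma0Map M (σM x) = ((ℓ x : ℕ) : ZMod M))
    (σN : X → Gamma0 N) (hσN : ∀ x, Gamma0Map N (σN x) = ((ℓ x : ℕ) : ZMod N))
    (u : X → (ZMod N)ˣ)
    (hu : ∀ x, ((u x : (ZMod N)ˣ) : ZMod N) = ((ℓ x : ℕ) : ZMod N) ^ e)
    (t : FreeAlgebra O X)
    (ht : ∀ w : Additive (GH M (⊤ : Subgroup (ZMod M)ˣ)) →+ O, IsParabolicHom _ w →
      FreeAlgebra.lift O (fun x => opEnd (heckeH (hℓM x) (σM x) (hσM x) ⊤) O O) t w = 0)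
    (φ : Additive (GH N (SQ Kq Q N)) →+ O) (hφ : IsParabolicHom _ φ) :
    FreeAlgebra.lift O
      (fun x => tauEnd O (hℓN x) (σN x) (hσN x) (SQ Kq Q N) (u x)) t φ = 0 :=
  transfer_gen (O₀ := O) (O := O) (K := AlgebraicClosure (FractionRing O))
    injective_algebraMap_algClosure injective_algebraMap_algClosure hQ Kq hm he hM ℓ hℓM hℓN
    σM hσM σN hσN u hu t ht φ hφ

end Special

end Fermat.Agent.M43.TwistLatJ6
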