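/-
Programme M43 (target S43), chapter TWIST-LAT — helper6.
**(β'1), (β'2) in the vocabulary of the consumers** (`parOp`, `tdcPar`, `PolyMod5.polyAct`).

* `diaPar`, `tauPar` : the diamond operators and `τ_ℓ = T_ℓ ∘ ⟨u⟩` on
  `parabolicHoms R (GH N H) R`; `tauEnd_comm`, **`tauPar_commute`** ((β'1) for the `τ_ℓ`);
* **`transfer_Z_par`**, **`transfer_Z_tdc`** : (β'2) with the hypothesis on
  `parabolicHoms ℤ (GH M ⊤) ℤ` resp. `parabolicHoms ℤ (Gamma0 M) ℤ` (operators `tdcPar`);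
  `transfer_O_par`, `transfer_O_tdc` (coefficients in a principal ideal domain `O`);
* **`polyAct_transfer_Z`**, `polyAct_transfer_O` : the same for commutative polynomials and
  `PolyMod5.polyAct`.
-/
import Mathlib
import Fermat.Agent.M43.TwistLatJ6
import Fermat.Agent.M43.TwistLatK6
import Fermat.Agent.M43.UCutT0
import Fermat.Agent.M43.PolyMod5

set_option autoImplicit false
set_option linter.unusedSectionVars false

noncomputable section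

namespace Fermat.Agent.M43.TwistLatL6

open Matrix.SpecialLinearGroup ModularCurve.Period CongruenceSubgroup
open scoped MatrixGroups
open Fermat.Agent.M43.HeckeH0 Fermat.Agent.M43.TwistLatI6 Fermat.Agent.M43.CycInst0
  Fermat.Agent.M43.TwistLatF6 Fermat.Agent.M43.TwistLatJ6 Fermat.Agent.M43.TwistLatK6
  Fermat.Agent.M43.UCutT0 Fermat.Agent.M43.PolyMod5
open Fermat.Agent.M48.ESInv3 Fermat.Agent.M48.CosetOp3 Fermat.Agent.M48.Diamond1
open Fermat.Agent.ES.HEQ.DoubleCosetPar27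

/-! ### The operators on the parabolic homomorphisms -/

section Ops

variable {N : ℕ} [NeZero N] (H : Subgroup (ZMod N)ˣ) (R : Type*) [CommRing R]

/-- the diamond operators on `parabolicHoms R (GH N H) R`. -/
def diaPar (d : (ZMod N)ˣ) : Module.End R (parabolicHoms R (GH N H) R) :=
  (dia H d).restrict fun _ hφ => isParabolicHom_dia H d hφ

@[simp] theorem coe_diaPar (d : (ZMod N)ˣ) (φ : parabolicHoms R (GH N H) R) :
    ((diaPar H R d φ : parabolicHoms R (GH N H) R) : Additive (GH N H) →+ R) = dia H d φ.1 := rfl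

variable {ℓ ℓ' : ℕ} [Fact ℓ.Prime] [Fact ℓ'.Prime]

/-- **`τ = T_ℓ ∘ ⟨u⟩`** on `parabolicHoms R (GH N H) R`. -/
def tauPar (hℓN : ¬ ℓ ∣ N) (σ : Gamma0 N) (hσ : Gamma0Map N σ = (ℓ : ZMod N)) (u : (ZMod N)ˣ) :
    Module.End R (parabolicHoms R (GH N H) R) :=
  parOp (heckeH hℓN σ hσ H) R R * diaPar H R u

@[simp] theorem coe_tauPar (hℓN : ¬ ℓ ∣ N) (σ : Gamma0 N) (hσ : Gamma0Map N σ = (ℓ : ZMod N))
    (u : (ZMod N)ˣ) (φ : parabolicHoms R (GH N H) R) :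
    ((tauPar H R hℓN σ hσ u φ : parabolicHoms R (GH N H) R) : Additive (GH N H) →+ R)
      = tauEnd R hℓN σ hσ H u φ.1 := rfl

/-- the `τ`'s commute on `Hom(GH N H, R)`. -/
theorem tauEnd_comm (hℓN : ¬ ℓ ∣ N) (σ : Gamma0 N) (hσ : Gamma0Map N σ = (ℓ : ZMod N))
    (u : (ZMod N)ˣ) (hℓ'N : ¬ ℓ' ∣ N) (σ' : Gamma0 N) (hσ' : Gamma0Map N σ' = (ℓ' : ZMod N))
    (u' : (ZMod N)ˣ) (φ : Additive (GH N H) →+ R) :
    tauEnd R hℓN σ hσ H u (tauEnd R hℓ'N σ' hσ' H u' φ)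
      = tauEnd R hℓ'N σ' hσ' H u' (tauEnd R hℓN σ hσ H u φ) := by
  rw [tauEnd_apply, tauEnd_apply, tauEnd_apply, tauEnd_apply, ← heckeH_dia, ← heckeH_dia,
    heckeH_comm hℓN hℓ'N σ hσ σ' hσ' H, dia_comm]

/-- **(β'1) for the `τ_ℓ`** on `parabolicHoms R (GH N H) R`. -/
theorem tauPar_commute (hℓN : ¬ ℓ ∣ N) (σ : Gamma0 N) (hσ : Gamma0Map N σ = (ℓ : ZMod N))
    (u : (ZMod N)ˣ) (hℓ'N : ¬ ℓ' ∣ N) (σ' : Gamma0 N) (hσ' : Gamma0Map N σ' = (ℓ' : ZMod N))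
    (u' : (ZMod N)ˣ) :
    Commute (tauPar H R hℓN σ hσ u) (tauPar H R hℓ'N σ' hσ' u') := by
  refine LinearMap.ext fun φ => Subtype.ext ?_
  show tauEnd R hℓN σ hσ H u (tauEnd R hℓ'N σ' hσ' H u' φ.1)
    = tauEnd R hℓ'N σ' hσ' H u' (tauEnd R hℓN σ hσ H u φ.1)
  exact tauEnd_comm H R hℓN σ hσ u hℓ'N σ' hσ' u' φ.1

/-- `T_ℓ T_ℓ' = T_ℓ' T_ℓ` on `parabolicHoms R (GH N H) A`. -/
theorem parOp_heckeH_commute (A : Type*) [AddCommGroup A] [Module R A] (hℓN : ¬ ℓ ∣ N)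
    (σ : Gamma0 N) (hσ : Gamma0Map N σ = (ℓ : ZMod N)) (hℓ'N : ¬ ℓ' ∣ N) (σ' : Gamma0 N)
    (hσ' : Gamma0Map N σ' = (ℓ' : ZMod N)) :
    Commute (parOp (heckeH hℓN σ hσ H) R A) (parOp (heckeH hℓ'N σ' hσ' H) R A) := by
  refine LinearMap.ext fun φ => Subtype.ext ?_
  exact heckeH_comm hℓN hℓ'N σ hσ σ' hσ' H φ.1

end Ops

/-- `T_ℓ T_ℓ' = T_ℓ' T_ℓ` for the operators `tdcPar` of `ES/HEQ` on `parabolicHoms R (Gamma0 N) R`. -/
theorem tdcPar_commute {N : ℕ} [NeZero N] (R : Type*) [CommRing R] {ℓ ℓ' : ℕ} [Fact ℓ.Prime]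
    [Fact ℓ'.Prime] (hℓN : ¬ ℓ ∣ N) (hℓ'N : ¬ ℓ' ∣ N) :
    Commute (tdcPar hℓN R R) (tdcPar hℓ'N R R) := by
  obtain ⟨σ, hσ⟩ := Fermat.Agent.M43.TwistLatE6.exists_sigma hℓN
  obtain ⟨σ', hσ'⟩ := Fermat.Agent.M43.TwistLatE6.exists_sigma hℓ'N
  refine LinearMap.ext fun v => (topEquiv N R).injective ?_
  show topEquiv N R (tdcPar hℓN R R (tdcPar hℓ'N R R v))
    = topEquiv N R (tdcPar hℓ'N R R (tdcPar hℓN R R v))
  rw [topEquiv_tdcPar R hℓN σ hσ, topEquiv_tdcPar R hℓ'N σ' hσ', topEquiv_tdcPar R hℓ'N σ' hσ',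
    topEquiv_tdcPar R hℓN σ hσ]
  exact congrArg (fun F : Module.End R (parabolicHoms R (GH N (⊤ : Subgroup (ZMod N)ˣ)) R) =>
    F (topEquiv N R v)) (parOp_heckeH_commute ⊤ R R hℓN σ hσ hℓ'N σ' hσ').eq

/-! ### (β'2) on the parabolic homomorphisms -/

section Par

variable {O₀ O : Type*} [CommRing O₀] [CommRing O] [Algebra O₀ O]

/-- polynomials in `parOp`'s are the restrictions of the polynomials in the `opEnd`'s. -/
theorem coe_lift_parOp {Γ : Subgroup SL(2, ℤ)} {X : Type*} (T : X → CosetOp Γ)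
    (t : FreeAlgebra O₀ X) (w : parabolicHoms O Γ O) :
    ((FreeAlgebra.lift O₀ (fun x => parOp (T x) O O) t w : parabolicHoms O Γ O) :
        Additive Γ →+ O)
      = FreeAlgebra.lift O₀ (fun x => opEnd (T x) O O) t w.1 :=
  lift_intertwine (O := O₀) (fun x => parOp (T x) O O) (fun x => opEnd (T x) O O)
    ((parabolicHoms O Γ O).subtype.restrictScalars O₀) (fun _ _ => rfl) t w

theorem coe_lift_tauPar {N : ℕ} [NeZero N] (H : Subgroup (ZMod N)ˣ) {X : Type*} (ℓ : X → ℕ)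
    [hℓp : ∀ x, Fact (ℓ x).Prime] (hℓN : ∀ x, ¬ ℓ x ∣ N) (σN : X → Gamma0 N)
    (hσN : ∀ x, Gamma0Map N (σN x) = ((ℓ x : ℕ) : ZMod N)) (u : X → (ZMod N)ˣ)
    (t : FreeAlgebra O₀ X) (φ : parabolicHoms O (GH N H) O) :
    ((FreeAlgebra.lift O₀ (fun x => tauPar H O (hℓN x) (σN x) (hσN x) (u x)) t φ :
        parabolicHoms O (GH N H) O) : Additive (GH N H) →+ O)
      = FreeAlgebra.lift O₀ (fun x => tauEnd O (hℓN x) (σN x) (hσN x) H (u x)) t φ.1 :=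
  lift_intertwine (O := O₀) (fun x => tauPar H O (hℓN x) (σN x) (hσN x) (u x))
    (fun x => tauEnd O (hℓN x) (σN x) (hσN x) H (u x))
    ((parabolicHoms O (GH N H) O).subtype.restrictScalars O₀) (fun _ _ => rfl) t φ

/-- polynomials in the `tdcPar`'s on `Γ₀(M)` and in the `parOp (heckeH ⊤)`'s on `GH M ⊤`. -/
theorem topEquiv_lift {M : ℕ} {X : Type*} (ℓ : X → ℕ) [hℓp : ∀ x, Fact (ℓ x).Prime]
    (hℓM : ∀ x, ¬ ℓ x ∣ M) (σM : X → Gamma0 M)
    (hσM : ∀ x, Gamma0Map M (σM x) = ((ℓ x : ℕ) : ZMod M)) (t : FreeAlgebra O₀ X)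
    (w : parabolicHoms O (Gamma0 M) O) :
    topEquiv M O (FreeAlgebra.lift O₀ (fun x => tdcPar (hℓM x) O O) t w)
      = FreeAlgebra.lift O₀ (fun x => parOp (heckeH (hℓM x) (σM x) (hσM x) ⊤) O O) t
        (topEquiv M O w) :=
  lift_intertwine (O := O₀) (fun x => tdcPar (hℓM x) O O)
    (fun x => parOp (heckeH (hℓM x) (σM x) (hσM x) ⊤) O O)
    ((topEquiv M O).toLinearMap.restrictScalars O₀)
    (fun x v => topEquiv_tdcPar O (hℓM x) (σM x) (hσM x) v) t w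

end Par

section Final

variable {O : Type*} [CommRing O] [IsDomain O] [CharZero O]
  {N : ℕ} [NeZero N] {Q : Finset ℕ}
  (hQ : ∀ q ∈ Q, q.Prime ∧ q ∣ N ∧ ¬ q ∣ N / q) (Kq : ∀ q : ℕ, Subgroup (ZMod q)ˣ) {m e : ℕ}
  (hm : ∀ d : (ZMod N)ˣ, d ^ m ∈ SQ Kq Q N) (he : 2 * e = m + 1) {M : ℕ}
  (hM : M = N * ∏ q ∈ Q, q) {X : Type*} (ℓ : X → ℕ) [hℓp : ∀ x, Fact (ℓ x).Prime]
  (hℓM : ∀ x, ¬ ℓ x ∣ M) (hℓN : ∀ x, ¬ ℓ x ∣ N)
  (σM : X → Gamma0 M) (hσM : ∀ x, Gamma0Map M (σM x) = ((ℓ x : ℕ) : ZMod M))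
  (σN : X → Gamma0 N) (hσN : ∀ x, Gamma0Map N (σN x) = ((ℓ x : ℕ) : ZMod N))
  (u : X → (ZMod N)ˣ)
  (hu : ∀ x, ((u x : (ZMod N)ˣ) : ZMod N) = ((ℓ x : ℕ) : ZMod N) ^ e)

include hQ hm he hM hu

/-- **(β'2)**, hypothesis on `parabolicHoms ℤ (GH M ⊤) ℤ`. -/
theorem transfer_Z_par (t : FreeAlgebra ℤ X)
    (ht : FreeAlgebra.lift ℤ (fun x => parOp (heckeH (hℓM x) (σM x) (hσM x) ⊤) ℤ ℤ) t = 0) :
    FreeAlgebra.lift ℤ
      (fun x => tauPar (SQ Kq Q N) O (hℓN x) (σN x) (hσN x) (u x)) t = 0 := by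
  refine LinearMap.ext fun φ => Subtype.ext ?_
  rw [coe_lift_tauPar]
  refine transfer_Z hQ Kq hm he hM ℓ hℓM hℓN σM hσM σN hσN u hu t ?_ φ.1 φ.2
  intro w hw
  have h1 := coe_lift_parOp (O₀ := ℤ) (O := ℤ)
    (fun x => heckeH (hℓM x) (σM x) (hσM x) (⊤ : Subgroup (ZMod M)ˣ)) t ⟨w, hw⟩
  rw [ht] at h1
  exact h1.symm

/-- **(β'2)**, hypothesis on the lattice `parabolicHoms ℤ (Gamma0 M) ℤ` with the operators
`tdcPar` of `ES/HEQ`. -/
theorem transfer_Z_tdc (t : FreeAlgebra ℤ X)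
    (ht : FreeAlgebra.lift ℤ (fun x => tdcPar (hℓM x) ℤ ℤ) t = 0) :
    FreeAlgebra.lift ℤ
      (fun x => tauPar (SQ Kq Q N) O (hℓN x) (σN x) (hσN x) (u x)) t = 0 := by
  have hMne : NeZero M := ⟨by
    rw [hM]
    exact Nat.mul_ne_zero (NeZero.ne N)
      (Finset.prod_ne_zero_iff.mpr fun q hq => (hQ q hq).1.ne_zero)⟩
  choose σM hσM using fun x => Fermat.Agent.M43.TwistLatE6.exists_sigma (hℓM x)
  refine transfer_Z_par hQ Kq hm he hM ℓ hℓM hℓN σM hσM σN hσN u hu t ?_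
  refine LinearMap.ext fun w => ?_
  have h1 := topEquiv_lift (O₀ := ℤ) (O := ℤ) ℓ hℓM σM hσM t ((topEquiv M ℤ).symm w)
  rw [LinearEquiv.apply_symm_apply, ht] at h1
  rw [← h1]
  simp

variable [IsPrincipalIdealRing O]

/-- (β'2) with coefficients in a principal ideal domain, hypothesis on
`parabolicHoms O (GH M ⊤) O`. -/
theorem transfer_O_par (t : FreeAlgebra O X)
    (ht : FreeAlgebra.lift O (fun x => parOp (heckeH (hℓM x) (σM x) (hσM x) ⊤) O O) t = 0) :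
    FreeAlgebra.lift O
      (fun x => tauPar (SQ Kq Q N) O (hℓN x) (σN x) (hσN x) (u x)) t = 0 := by
  refine LinearMap.ext fun φ => Subtype.ext ?_
  rw [coe_lift_tauPar]
  refine transfer_O hQ Kq hm he hM ℓ hℓM hℓN σM hσM σN hσN u hu t ?_ φ.1 φ.2
  intro w hw
  have h1 := coe_lift_parOp (O₀ := O) (O := O)
    (fun x => heckeH (hℓM x) (σM x) (hσM x) (⊤ : Subgroup (ZMod M)ˣ)) t ⟨w, hw⟩
  rw [ht] at h1
  exact h1.symm

/-- (β'2) with coefficients in a principal ideal domain, hypothesis on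
`parabolicHoms O (Gamma0 M) O` with the operators `tdcPar`. -/
theorem transfer_O_tdc (t : FreeAlgebra O X)
    (ht : FreeAlgebra.lift O (fun x => tdcPar (hℓM x) O O) t = 0) :
    FreeAlgebra.lift O
      (fun x => tauPar (SQ Kq Q N) O (hℓN x) (σN x) (hσN x) (u x)) t = 0 := by
  have hMne : NeZero M := ⟨by
    rw [hM]
    exact Nat.mul_ne_zero (NeZero.ne N)
      (Finset.prod_ne_zero_iff.mpr fun q hq => (hQ q hq).1.ne_zero)⟩
  choose σM hσM using fun x => Fermat.Agent.M43.TwistLatE6.exists_sigma (hℓM x)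
  refine transfer_O_par hQ Kq hm he hM ℓ hℓM hℓN σM hσM σN hσN u hu t ?_
  refine LinearMap.ext fun w => ?_
  have h1 := topEquiv_lift (O₀ := O) (O := O) ℓ hℓM σM hσM t ((topEquiv M O).symm w)
  rw [LinearEquiv.apply_symm_apply, ht] at h1
  rw [← h1]
  simp

end Final

/-! ### Commutative polynomials (`PolyMod5.polyAct`) -/

section Poly

/-- every commutative polynomial has a noncommutative representative which acts in the same way on
two given modules with commuting families of operators. -/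
theorem exists_free {R₀ : Type*} [CommRing R₀] {X : Type*} (s : MvPolynomial X R₀) {P : Type*}
    [AddCommGroup P] [Module R₀ P] (τ : X → Module.End R₀ P) (hτ : ∀ i j, Commute (τ i) (τ j))
    {O : Type*} [CommRing O] [Algebra R₀ O] {P' : Type*} [AddCommGroup P'] [Module O P']
    [Module R₀ P'] [IsScalarTower R₀ O P'] (τ' : X → Module.End O P')
    (hτ' : ∀ i j, Commute (τ' i) (τ' j)) :
    ∃ t : FreeAlgebra R₀ X, polyAct τ hτ s = FreeAlgebra.lift R₀ τ t ∧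
      polyAct τ' hτ' (MvPolynomial.map (algebraMap R₀ O) s) = FreeAlgebra.lift R₀ τ' t := by
  induction s using MvPolynomial.induction_on with
  | C a =>
    refine ⟨algebraMap R₀ _ a, ?_, ?_⟩
    · rw [polyAct_C, AlgHom.commutes, Algebra.algebraMap_eq_smul_one]
    · rw [MvPolynomial.map_C, polyAct_C, AlgHom.commutes]
      refine LinearMap.ext fun v => ?_
      rw [Module.algebraMap_end_apply, LinearMap.smul_apply, Module.End.one_apply,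
        algebraMap_smul]
  | add s s' hs hs' =>
    obtain ⟨t, h1, h2⟩ := hs
    obtain ⟨t', h1', h2'⟩ := hs'
    exact ⟨t + t', by rw [map_add, map_add, h1, h1'], by rw [map_add, map_add, map_add, h2, h2']⟩
  | mul_X s i hs =>
    obtain ⟨t, h1, h2⟩ := hs
    refine ⟨t * FreeAlgebra.ι R₀ i, ?_, ?_⟩
    · rw [map_mul, map_mul, polyAct_X, FreeAlgebra.lift_ι_apply, h1]
    · rw [map_mul, map_mul, map_mul, MvPolynomial.map_X, polyAct_X, FreeAlgebra.lift_ι_apply, h2]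

end Poly

section FinalPoly

variable {O : Type*} [CommRing O] [IsDomain O] [CharZero O]
  {N : ℕ} [NeZero N] {Q : Finset ℕ}
  (hQ : ∀ q ∈ Q, q.Prime ∧ q ∣ N ∧ ¬ q ∣ N / q) (Kq : ∀ q : ℕ, Subgroup (ZMod q)ˣ) {m e : ℕ}
  (hm : ∀ d : (ZMod N)ˣ, d ^ m ∈ SQ Kq Q N) (he : 2 * e = m + 1) {M : ℕ}
  (hM : M = N * ∏ q ∈ Q, q) {X : Type*} (ℓ : X → ℕ) [hℓp : ∀ x, Fact (ℓ x).Prime]
  (hℓM : ∀ x, ¬ ℓ x ∣ M) (hℓN : ∀ x, ¬ ℓ x ∣ N)
  (σN : X → Gamma0 N) (hσN : ∀ x, Gamma0Map N (σN x) = ((ℓ x : ℕ) : ZMod N))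
  (u : X → (ZMod N)ˣ)
  (hu : ∀ x, ((u x : (ZMod N)ˣ) : ZMod N) = ((ℓ x : ℕ) : ZMod N) ^ e)

include hQ hm he hM hu

/-- **(β'2) for commutative polynomials over `ℤ`**: a relation between the `T_ℓ` on the lattice
`parabolicHoms ℤ (Gamma0 M) ℤ` holds between the `τ_ℓ` on `parabolicHoms O (GH N H) O`. -/
theorem polyAct_transfer_Z
    (hTM : ∀ i j : X, Commute (tdcPar (hℓM i) ℤ ℤ) (tdcPar (hℓM j) ℤ ℤ))
    (hτ : ∀ i j : X, Commute (tauPar (SQ Kq Q N) O (hℓN i) (σN i) (hσN i) (u i))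
      (tauPar (SQ Kq Q N) O (hℓN j) (σN j) (hσN j) (u j)))
    (s : MvPolynomial X ℤ) (hs : polyAct (fun x => tdcPar (hℓM x) ℤ ℤ) hTM s = 0) :
    polyAct (fun x => tauPar (SQ Kq Q N) O (hℓN x) (σN x) (hσN x) (u x)) hτ
      (MvPolynomial.map (algebraMap ℤ O) s) = 0 := by
  obtain ⟨t, h1, h2⟩ := exists_free s (fun x => tdcPar (hℓM x) ℤ ℤ) hTM
    (fun x => tauPar (SQ Kq Q N) O (hℓN x) (σN x) (hσN x) (u x)) hτ
  rw [h2]
  exact transfer_Z_tdc hQ Kq hm he hM ℓ hℓM hℓN σN hσN u hu t (by rw [← h1, hs])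

/-- (β'2) for commutative polynomials over a principal ideal domain `O`. -/
theorem polyAct_transfer_O [IsPrincipalIdealRing O]
    (hTM : ∀ i j : X, Commute (tdcPar (hℓM i) O O) (tdcPar (hℓM j) O O))
    (hτ : ∀ i j : X, Commute (tauPar (SQ Kq Q N) O (hℓN i) (σN i) (hσN i) (u i))
      (tauPar (SQ Kq Q N) O (hℓN j) (σN j) (hσN j) (u j)))
    (s : MvPolynomial X O) (hs : polyAct (fun x => tdcPar (hℓM x) O O) hTM s = 0) :
    polyAct (fun x => tauPar (SQ Kq Q N) O (hℓN x) (σN x) (hσN x) (u x)) hτ s = 0 := by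
  obtain ⟨t, h1, h2⟩ := exists_free s (fun x => tdcPar (hℓM x) O O) hTM
    (fun x => tauPar (SQ Kq Q N) O (hℓN x) (σN x) (hσN x) (u x)) hτ
  have h3 : MvPolynomial.map (algebraMap O O) s = s := by
    rw [Algebra.algebraMap_self]
    exact MvPolynomial.map_id s
  rw [h3] at h2
  rw [h2]
  exact transfer_O_tdc hQ Kq hm he hM ℓ hℓM hℓN σN hσN u hu t (by rw [← h1, hs])

end FinalPoly

end Fermat.Agent.M43.TwistLatL6
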