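/-
Programme M43 (target S43), chapter (6d) — helper6.
**The Hecke–Galois datum above the Hecke algebra `An` of level `n`.**

Notation of `ChainLevel5`: `F : Frame N` (good primes `F.ℓ i`, chain `F.c` of primes `q ∥ N`, twist
exponent `F.e` with `2 e = |Δ| + 1`), `θ : F.ι → k` the residual eigensystem,
`An θ = HeckeIm O (Hk0 O F) (HnMod θ)` the image of the trace Hecke ring `O[X_i]` in the
endomorphisms of the unit part `Hn θ` of the localised top lattice.  Let `M = N ∏_{q ∈ Q} q`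
(`Q` the set of primes of the chain) and `Sn ∋ p` a finite set of primes containing the primes of
`M`, avoiding the `F.ℓ i`, such that every prime outside `Sn` is an `F.ℓ i`.

* `polyAct_rename`, `polyAct_transfer_H`;
* `map_mem_annL` : **a relation between the `T_ℓ` on `parabolicHoms ℤ (Gamma0 M) ℤ` holds between
  the `X_i` in `An θ`** (TWIST-LAT (β'2) + localisation);
* `exists_level_hom` : ring homomorphisms `φ : heckeAlgebra M 2 Sn →+* An θ`, `T_{ℓ i} ↦ mk X_i`, and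
  `θn : heckeAlgebra M 2 Sn →+* k`, `T_{ℓ i} ↦ θ i`, with `residue ∘ φ = θn`;
* **`exists_level_datum`** : a Prelude `HeckeGaloisRepDatum M Sn O θn (TLoc M Sn O θn)` and a
  surjective `O`-algebra homomorphism `f : TLoc M Sn O θn →ₐ[O] An θ` with `f (π (T_{ℓ i})) = mk X_i`;
* **`exists_level_rep`** : the representation `ρ_A := H.ρ ⊗ An θ` with the per-`(A, ρ_A)` hypotheses
  of P-GLOB (`GlobHecke3.hyps_of_datum`) and the characteristic polynomials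
  `X² - mk X_i X + ℓ i` at the Frobenius elements.
-/
import Mathlib
import Fermat.Agent.M43.LevelHom6
import Fermat.Agent.M43.TwistLatL6
import Fermat.Agent.M43.ChainLevel5
import Fermat.Agent.M43.DatumExists3
import Fermat.Agent.M43.HeckeGenT1
import Fermat.Agent.M43.GlobHecke3

set_option autoImplicit false
set_option linter.unusedSectionVars false
set_option linter.style.haveILetI false

open IsLocalRing Polynomial

noncomputable section

namespace Fermat.Agent.M43.LevelDatum6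

open CuspForm ModularCurve.Period CongruenceSubgroup
open Fermat.Agent.M43.PolyMod5 Fermat.Agent.M43.ChainGrp5 Fermat.Agent.M43.ChainMod5
  Fermat.Agent.M43.ChainMain5 Fermat.Agent.M43.ChainLevel5 Fermat.Agent.M43.AlgHecke5
  Fermat.Agent.M43.LocMod5 Fermat.Agent.M43.TwistLatI6 Fermat.Agent.M43.TwistLatL6
  Fermat.Agent.M43.LevelHom6 Fermat.Agent.M43.DatumAlg3 Fermat.Agent.M43.HeckeH0
  Fermat.Agent.M43.CycInst0
  Fermat.Agent.ES.HEQ.DoubleCosetPar27 Fermat.Agent.M48.ESInv3 Fermat.Agent.M48.CosetOp3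
  Fermat.Agent.M48.Diamond1

local notation "Qb" => AlgebraicClosure ℚ
local notation "GQ" => (AlgebraicClosure ℚ ≃ₐ[ℚ] AlgebraicClosure ℚ)

/-! ### Generalities on `polyAct` -/

section Poly

variable {O : Type*} [CommRing O] {ι κ : Type*} {P : Type*} [AddCommGroup P] [Module O P]

/-- the action of a renamed polynomial. -/
theorem polyAct_rename (τ : κ → Module.End O P) (hτ : ∀ i j, Commute (τ i) (τ j)) (f : ι → κ)
    (s : MvPolynomial ι O) :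
    polyAct τ hτ (MvPolynomial.rename f s) =
      polyAct (fun i => τ (f i)) (fun i j => hτ (f i) (f j)) s := by
  have : (polyAct τ hτ).comp (MvPolynomial.rename f) =
      polyAct (fun i => τ (f i)) (fun i j => hτ (f i) (f j)) := by
    apply MvPolynomial.algHom_ext
    intro i
    rw [AlgHom.comp_apply, MvPolynomial.rename_X, polyAct_X, polyAct_X]
  exact congrArg (fun g => g s) this

end Poly

/-! ### (β'2) for a subgroup given as a subgroup `SQ` -/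

section TransferH

variable {O : Type*} [CommRing O] [IsDomain O] [CharZero O]
  {N : ℕ} [NeZero N] {Q : Finset ℕ}
  (hQ : ∀ q ∈ Q, q.Prime ∧ q ∣ N ∧ ¬ q ∣ N / q) (Kq : ∀ q : ℕ, Subgroup (ZMod q)ˣ)
  (H : Subgroup (ZMod N)ˣ) (hH : H = SQ Kq Q N) {m e : ℕ}
  (hm : ∀ d : (ZMod N)ˣ, d ^ m ∈ H) (he : 2 * e = m + 1) {M : ℕ}
  (hM : M = N * ∏ q ∈ Q, q) {X : Type*} (ℓ : X → ℕ) [hℓp : ∀ x, Fact (ℓ x).Prime]
  (hℓM : ∀ x, ¬ ℓ x ∣ M) (hℓN : ∀ x, ¬ ℓ x ∣ N)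
  (σN : X → Gamma0 N) (hσN : ∀ x, Gamma0Map N (σN x) = ((ℓ x : ℕ) : ZMod N))
  (u : X → (ZMod N)ˣ)
  (hu : ∀ x, ((u x : (ZMod N)ˣ) : ZMod N) = ((ℓ x : ℕ) : ZMod N) ^ e)

include hQ hH hm he hM hu in
/-- `TwistLatL6.polyAct_transfer_Z` for a subgroup equal to a subgroup `SQ`. -/
theorem polyAct_transfer_H
    (hTM : ∀ i j : X, Commute (tdcPar (hℓM i) ℤ ℤ) (tdcPar (hℓM j) ℤ ℤ))
    (hτ : ∀ i j : X, Commute (tauPar H O (hℓN i) (σN i) (hσN i) (u i))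
      (tauPar H O (hℓN j) (σN j) (hσN j) (u j)))
    (s : MvPolynomial X ℤ) (hs : polyAct (fun x => tdcPar (hℓM x) ℤ ℤ) hTM s = 0) :
    polyAct (fun x => tauPar H O (hℓN x) (σN x) (hσN x) (u x)) hτ
      (MvPolynomial.map (algebraMap ℤ O) s) = 0 := by
  subst hH
  exact polyAct_transfer_Z hQ Kq hm he hM ℓ hℓM hℓN σN hσN u hu hTM hτ s hs

end TransferH

/-! ### The relations in `An` -/

section Relations

variable {N : ℕ} [NeZero N] {O : Type} [CommRing O] [IsDomain O] [IsDiscreteValuationRing O]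
  [IsAdicComplete (maximalIdeal O) O] [CharZero O] {F : Frame N} (θ : F.ι → ResidueField O)

/-- the instance `Fact (F.ℓ i).Prime`. -/
theorem fact_prime (i : F.ι) : Fact (F.ℓ i).Prime := ⟨F.prime i⟩

/-- the `τ_{ℓ i}` of the frame are the operators `tauPar` of `TwistLatL6`. -/
theorem tau_eq_tauPar (j : ℕ) (i : F.ι) :
    F.tau O j (Sum.inl (some i)) =
      (haveI := fact_prime (F := F) i
       tauPar (F.sub j) O (F.ndvd i) (sigma (unitL (F.prime i) (F.ndvd i)))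
        (Gamma0Map_sigma_unitL (F.prime i) (F.ndvd i)) (F.u i ^ F.e)) := rfl

variable (hcℓ : ∀ i : Fin F.s, (F.c.ℓ i).Prime ∧ ¬ F.c.ℓ i ∣ N / F.c.ℓ i)
  (he : 2 * F.e = (∏ i, F.c.m i) + 1) {M : ℕ}
  (hM : M = N * ∏ q ∈ Finset.univ.image F.c.ℓ, q) (hℓM : ∀ i, ¬ F.ℓ i ∣ M)

include hcℓ he hM in
/-- (β'2) for the frame: relations on `parabolicHoms ℤ (Gamma0 M) ℤ` hold on the top lattice. -/
theorem polyAct_tau_eq_zero
    (hTM : ∀ i j : F.ι, Commute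
      (haveI := fact_prime (F := F) i; tdcPar (hℓM i) ℤ ℤ)
      (haveI := fact_prime (F := F) j; tdcPar (hℓM j) ℤ ℤ))
    (s : MvPolynomial F.ι ℤ)
    (hs : polyAct (fun i => (haveI := fact_prime (F := F) i; tdcPar (hℓM i) ℤ ℤ)) hTM s = 0) :
    polyAct (F.tau O F.s) (F.tau_comm F.s)
      (emb O F (MvPolynomial.map (algebraMap ℤ O) s)) = 0 := by
  haveI : ∀ i, Fact (F.ℓ i).Prime := fun i => fact_prime (F := F) i
  rw [emb, polyAct_rename]
  have hQ : ∀ q ∈ Finset.univ.image F.c.ℓ, q.Prime ∧ q ∣ N ∧ ¬ q ∣ N / q := by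
    intro q hq
    obtain ⟨i, _, rfl⟩ := Finset.mem_image.mp hq
    exact ⟨(hcℓ i).1, F.c.dvd i, (hcℓ i).2⟩
  have hu : ∀ i, (((F.u i ^ F.e : (ZMod N)ˣ)) : ZMod N) = ((F.ℓ i : ℕ) : ZMod N) ^ F.e := by
    intro i
    rw [Units.val_pow_eq_pow_val]
    rfl
  exact polyAct_transfer_H (O := O) hQ (chainKq F.c) (F.sub F.s) (sub_eq_SQ F.c)
    (fun d => F.c.pow_prod_mem d) he hM F.ℓ hℓM F.ndvd
    (fun i => sigma (unitL (F.prime i) (F.ndvd i)))
    (fun i => Gamma0Map_sigma_unitL (F.prime i) (F.ndvd i)) (fun i => F.u i ^ F.e) hu hTM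
    (fun i j => F.tau_comm F.s (Sum.inl (some i)) (Sum.inl (some j))) s hs

include hcℓ he hM in
/-- **the relations between the `T_ℓ` at level `Γ₀(M)` hold in `An θ`.** -/
theorem map_mem_annL
    (hTM : ∀ i j : F.ι, Commute
      (haveI := fact_prime (F := F) i; tdcPar (hℓM i) ℤ ℤ)
      (haveI := fact_prime (F := F) j; tdcPar (hℓM j) ℤ ℤ))
    (s : MvPolynomial F.ι ℤ)
    (hs : polyAct (fun i => (haveI := fact_prime (F := F) i; tdcPar (hℓM i) ℤ ℤ)) hTM s = 0) :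
    (MvPolynomial.map (algebraMap ℤ O) s : Hk0 O F) ∈ annL O (Hk0 O F) (HnMod θ) := by
  have h0 := polyAct_tau_eq_zero (O := O) hcℓ he hM hℓM hTM s hs
  set s' : Hk0 O F := MvPolynomial.map (algebraMap ℤ O) s with hs'
  -- on the top lattice
  have h1 : ∀ y : F.P O F.s, emb O F s' • y = 0 := by
    intro y
    rw [PolyMod.smul_def, h0, LinearMap.zero_apply, map_zero]
  -- on the localisation
  have h2 : ∀ z : L1 θ F.s, emb O F s' • z = 0 := by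
    intro z
    obtain ⟨y, rfl⟩ := surjective_of_map (emb O F) (m0 θ) (f1 θ F.s) z
    rw [← map_smul, h1, map_zero]
  rw [mem_annL]
  intro y
  obtain ⟨w, rfl⟩ := (PolyMod.of (tauH θ) (tauH_comm θ)).surjective y
  rw [smul_of]
  have h3 : emb O F s' • w = 0 := Subtype.ext (by
    rw [Submodule.coe_smul, h2]
    rfl)
  rw [h3, map_zero]

end Relations

/-! ### The ring homomorphisms -/

section Hom

variable {N : ℕ} [NeZero N] {O : Type} [CommRing O] [IsDomain O] [IsDiscreteValuationRing O]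
  [IsAdicComplete (maximalIdeal O) O] [CharZero O] {F : Frame N} (θ : F.ι → ResidueField O)
  [hnt : Nontrivial (Hn θ)]

/-- the elements outside `m0 θ` act surjectively on the unit part. -/
theorem hunit (a : Hk0 O F) (ha : a ∉ m0 θ) : Function.Surjective fun y : HnMod θ => a • y :=
  (bijective_smul_HnMod θ a ha).2

theorem nontrivial_HnMod : Nontrivial (HnMod θ) := inferInstanceAs (Nontrivial (Hn θ))

theorem sub_C_mem_m0 (a : Hk0 O F) (c : O) (hc : residue O c = theta0 θ a) :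
    a - algebraMap O (Hk0 O F) c ∈ m0 θ := by
  rw [m0, RingHom.mem_ker, map_sub]
  show theta0 θ a - theta0 θ (algebraMap O (Hk0 O F) c) = 0
  rw [AlgHom.commutes, ← hc, sub_eq_zero]
  rfl

/-- the residue of an element of `An θ`. -/
theorem residue_mk_An (a : Hk0 O F) :
    haveI := isLocalRing_An θ
    haveI := isLocalHom_An θ
    residue (An θ) (Ideal.Quotient.mk (annL O (Hk0 O F) (HnMod θ)) a) =
      ResidueField.map (algebraMap O (An θ)) (theta0 θ a) := by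
  haveI := nontrivial_HnMod θ
  have h0 : ∃ c : O, residue O c = theta0 θ a := IsLocalRing.residue_surjective _
  obtain ⟨c, hc⟩ := h0
  have h1 := residue_mk O (m0 θ) (hunit θ) a c (sub_C_mem_m0 θ a c hc)
  exact h1.trans (congrArg _ hc)

/-- an element of `O[X_i]` which vanishes in `An θ` lies in `m0 θ`. -/
theorem mem_m0_of_mem_annL {a : Hk0 O F} (ha : a ∈ annL O (Hk0 O F) (HnMod θ)) : a ∈ m0 θ := by
  haveI := isLocalRing_An θ
  haveI := nontrivial_HnMod θ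
  rw [← mk_mem_maximalIdeal_iff O (m0 θ) (hunit θ), Ideal.Quotient.eq_zero_iff_mem.mpr ha]
  exact zero_mem _

/-- `ℤ[X_i] → An θ`. -/
def gA : MvPolynomial F.ι ℤ →+* An θ :=
  (Ideal.Quotient.mk (annL O (Hk0 O F) (HnMod θ))).comp (MvPolynomial.map (algebraMap ℤ O))

theorem gA_apply (s : MvPolynomial F.ι ℤ) :
    gA θ s = Ideal.Quotient.mk (annL O (Hk0 O F) (HnMod θ))
      (MvPolynomial.map (algebraMap ℤ O) s) := rfl

theorem gA_X (i : F.ι) :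
    gA θ (MvPolynomial.X i) =
      Ideal.Quotient.mk (annL O (Hk0 O F) (HnMod θ)) (MvPolynomial.X i) := by
  rw [gA_apply, MvPolynomial.map_X]

/-- `ℤ[X_i] → k`, `X_i ↦ θ i`. -/
def gK : MvPolynomial F.ι ℤ →+* ResidueField O :=
  (theta0 θ : Hk0 O F →+* ResidueField O).comp (MvPolynomial.map (algebraMap ℤ O))

theorem gK_apply (s : MvPolynomial F.ι ℤ) :
    gK θ s = theta0 θ (MvPolynomial.map (algebraMap ℤ O) s) := rfl

theorem gK_X (i : F.ι) : gK θ (MvPolynomial.X i) = θ i := by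
  rw [gK_apply, MvPolynomial.map_X, theta0, MvPolynomial.aeval_X]

theorem residue_gA (s : MvPolynomial F.ι ℤ) :
    haveI := isLocalRing_An θ
    haveI := isLocalHom_An θ
    residue (An θ) (gA θ s) = ResidueField.map (algebraMap O (An θ)) (gK θ s) :=
  residue_mk_An θ _

variable (hcℓ : ∀ i : Fin F.s, (F.c.ℓ i).Prime ∧ ¬ F.c.ℓ i ∣ N / F.c.ℓ i)
  (he : 2 * F.e = (∏ i, F.c.m i) + 1) {M : ℕ} [NeZero M]
  (hM : M = N * ∏ q ∈ Finset.univ.image F.c.ℓ, q)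
  (Sn : Finset ℕ) (hMS : ∀ q : ℕ, q.Prime → q ∣ M → q ∈ Sn) (hℓS : ∀ i, F.ℓ i ∉ Sn)
  (hcov : ∀ ℓ' : ℕ, ℓ'.Prime → ℓ' ∉ Sn → ∃ i, F.ℓ i = ℓ')

include hMS hℓS in
theorem not_dvd_M (i : F.ι) : ¬ F.ℓ i ∣ M := fun h => hℓS i (hMS _ (F.prime i) h)

set_option maxHeartbeats 1600000 in
include hcℓ he hM hMS hℓS hcov in
/-- **the ring homomorphisms `𝕋_M → An θ` and `𝕋_M → k`.** -/
theorem exists_level_hom :
    haveI := isLocalRing_An θ
    haveI := isLocalHom_An θ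
    ∃ (φ : ↥(heckeAlgebra M 2 (↑Sn : Set ℕ)) →+* An θ)
      (θn : ↥(heckeAlgebra M 2 (↑Sn : Set ℕ)) →+* ResidueField O),
      (∀ (i : F.ι) (hℓM : ¬ F.ℓ i ∣ M) (hℓS' : F.ℓ i ∉ (↑Sn : Set ℕ)),
        φ (heckeAlgebra.T (F.prime i) hℓM hℓS') =
          Ideal.Quotient.mk (annL O (Hk0 O F) (HnMod θ)) (MvPolynomial.X i)) ∧
      (∀ (i : F.ι) (hℓM : ¬ F.ℓ i ∣ M) (hℓS' : F.ℓ i ∉ (↑Sn : Set ℕ)),
        θn (heckeAlgebra.T (F.prime i) hℓM hℓS') = θ i) ∧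
      ∀ t, residue (An θ) (φ t) = ResidueField.map (algebraMap O (An θ)) (θn t) := by
  haveI := isLocalRing_An θ
  haveI := isLocalHom_An θ
  haveI : ∀ i, Fact (F.ℓ i).Prime := fun i => fact_prime (F := F) i
  have hS : ∀ q : ℕ, q.Prime → q ∣ M → q ∈ (↑Sn : Set ℕ) :=
    fun q hq hqM => Finset.mem_coe.2 (hMS q hq hqM)
  have hℓM : ∀ i, ¬ F.ℓ i ∣ M := not_dvd_M Sn hMS hℓS
  have hℓS' : ∀ i, F.ℓ i ∉ (↑Sn : Set ℕ) := fun i h => hℓS i (Finset.mem_coe.1 h)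
  have hcov' : ∀ ℓ' : ℕ, ℓ'.Prime → ℓ' ∉ (↑Sn : Set ℕ) → ∃ i, F.ℓ i = ℓ' :=
    fun ℓ' hℓ' h => hcov ℓ' hℓ' (fun h' => h (Finset.mem_coe.2 h'))
  have hTM : ∀ i j : F.ι, Commute (tdcPar (hℓM i) ℤ ℤ) (tdcPar (hℓM j) ℤ ℤ) :=
    fun i j => tdcPar_commute ℤ (hℓM i) (hℓM j)
  have hg : ∀ s : MvPolynomial F.ι ℤ,
      polyAct (fun i => tdcPar (hℓM i) ℤ ℤ) hTM s = 0 → gA θ s = 0 := by
    intro s hs
    rw [gA_apply, Ideal.Quotient.eq_zero_iff_mem]
    exact map_mem_annL θ hcℓ he hM hℓM hTM s hs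
  have hgθ : ∀ s : MvPolynomial F.ι ℤ,
      polyAct (fun i => tdcPar (hℓM i) ℤ ℤ) hTM s = 0 → gK θ s = 0 := by
    intro s hs
    have := mem_m0_of_mem_annL θ (map_mem_annL θ hcℓ he hM hℓM hTM s hs)
    rw [m0, RingHom.mem_ker] at this
    exact this
  obtain ⟨φ, hφ, hφX⟩ := exists_ringHom (↑Sn : Set ℕ) hS F.ℓ hℓM hℓS' hcov' hTM (gA θ) hg
  obtain ⟨θn, hθn, hθnX⟩ := exists_ringHom (↑Sn : Set ℕ) hS F.ℓ hℓM hℓS' hcov' hTM (gK θ) hgθ
  refine ⟨φ, θn, ?_, ?_, ?_⟩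
  · intro i _ _
    exact (hφX i).trans (gA_X θ i)
  · intro i _ _
    exact (hθnX i).trans (gK_X θ i)
  · intro t
    obtain ⟨s, rfl⟩ := evT_surjective (↑Sn : Set ℕ) hS F.ℓ hℓM hℓS' hcov' t
    exact (congrArg (residue (An θ)) (hφ s)).trans
      ((residue_gA θ s).trans (congrArg (ResidueField.map (algebraMap O (An θ))) (hθn s)).symm)

end Hom

/-! ### The datum -/

section Datum

variable {N : ℕ} [NeZero N] {O : Type} [CommRing O] [IsDomain O] [IsDiscreteValuationRing O]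
  [IsAdicComplete (maximalIdeal O) O] [CharZero O] [Finite (ResidueField O)]
  {p : ℕ} [hp : Fact p.Prime] [CharP (ResidueField O) p]
  {F : Frame N} (θ : F.ι → ResidueField O) [hnt : Nontrivial (Hn θ)]

set_option maxHeartbeats 1600000 in
/-- **(6d): the Hecke–Galois datum of level `M = N ∏ Q` above the Hecke algebra `An θ`.** -/
theorem exists_level_datum (hp2 : p ≠ 2) (hpO : (p : O) ∈ maximalIdeal O)
    (hcℓ : ∀ i : Fin F.s, (F.c.ℓ i).Prime ∧ ¬ F.c.ℓ i ∣ N / F.c.ℓ i)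
    (he : 2 * F.e = (∏ i, F.c.m i) + 1) {M : ℕ} [NeZero M]
    (hM : M = N * ∏ q ∈ Finset.univ.image F.c.ℓ, q)
    (Sn : Finset ℕ) (hpS : p ∈ Sn) (hMS : ∀ q : ℕ, q.Prime → q ∣ M → q ∈ Sn)
    (hℓS : ∀ i, F.ℓ i ∉ Sn) (hcov : ∀ ℓ' : ℕ, ℓ'.Prime → ℓ' ∉ Sn → ∃ i, F.ℓ i = ℓ')
    (ρbar : ResidualGaloisRep (ResidueField O)) (habs : ρbar.IsAbsolutelyIrreducible)
    (hdet : (GaloisRepAdic.ofResidualGaloisRep ρbar).DetIsCyclotomic p)
    (hθ : ∀ i : F.ι, ∀ P : ValuationSubring Qb, P.LiesOverPrime (F.ℓ i) → ∀ φ : GQ,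
      P.IsFrobeniusAt φ (F.ℓ i) →
        LinearMap.charpoly (ρbar.ρ φ) =
          X ^ 2 - C (θ i) * X + C ((F.ℓ i : ResidueField O))) :
    ∃ (θn : ↥(heckeAlgebra M 2 (↑Sn : Set ℕ)) →+* ResidueField O)
      (H : HeckeGaloisRepDatum M (↑Sn : Set ℕ) O θn (TLoc M Sn O θn))
      (f : TLoc M Sn O θn →ₐ[O] An θ),
      Function.Surjective f ∧ H.π = piT M Sn O θn ∧
      (∀ (i : F.ι) (hℓM : ¬ F.ℓ i ∣ M) (hℓS' : F.ℓ i ∉ (↑Sn : Set ℕ)),
        f (H.π (heckeAlgebra.T (F.prime i) hℓM hℓS')) =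
          Ideal.Quotient.mk (annL O (Hk0 O F) (HnMod θ)) (MvPolynomial.X i)) ∧
      (∀ (i : F.ι) (hℓM : ¬ F.ℓ i ∣ M) (hℓS' : F.ℓ i ∉ (↑Sn : Set ℕ)),
        θn (heckeAlgebra.T (F.prime i) hℓM hℓS') = θ i) ∧
      (∀ (ℓ : ℕ) (hℓ : ℓ.Prime) (hℓN : ¬ ℓ ∣ M) (hℓS : ℓ ∉ (↑Sn : Set ℕ)),
        ∀ P : ValuationSubring Qb, P.LiesOverPrime ℓ → ∀ φ : GQ, P.IsFrobeniusAt φ ℓ →
          LinearMap.charpoly (ρbar.ρ φ) =
            X ^ 2 - C (θn (heckeAlgebra.T hℓ hℓN hℓS)) * X + C ((ℓ : ResidueField O))) := by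
  haveI := isLocalRing_An θ
  haveI := isLocalHom_An θ
  obtain ⟨φ, θn, hφX, hθnX, hres⟩ := exists_level_hom θ hcℓ he hM Sn hMS hℓS hcov
  have hθn : ∀ (ℓ : ℕ) (hℓ : ℓ.Prime) (hℓN : ¬ ℓ ∣ M) (hℓS : ℓ ∉ (↑Sn : Set ℕ)),
      ∀ P : ValuationSubring Qb, P.LiesOverPrime ℓ → ∀ φ : GQ, P.IsFrobeniusAt φ ℓ →
        LinearMap.charpoly (ρbar.ρ φ) =
          X ^ 2 - C (θn (heckeAlgebra.T hℓ hℓN hℓS)) * X + C ((ℓ : ResidueField O)) := by
    intro ℓ hℓ hℓN hℓS' P hP σ hσ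
    obtain ⟨i, rfl⟩ := hcov ℓ hℓ (fun h => hℓS' (Finset.mem_coe.2 h))
    rw [hθnX i hℓN hℓS']
    exact hθ i P hP σ hσ
  obtain ⟨H, hHπ⟩ :=
    HeckeGenT1.exists_datum_piT p M Sn O θn hp2 hpO hpS hMS ρbar habs hdet hθn
  obtain ⟨f, hf⟩ := exists_lift M Sn O θn (An θ) φ hres
  refine ⟨θn, H, f, ?_, hHπ, ?_, hθnX, hθn⟩
  · rw [← AlgHom.range_eq_top, eq_top_iff, ← adjoin_image_eq_top O (Hk0 O F) (HnMod θ)
      (Set.range MvPolynomial.X) (MvPolynomial.adjoin_range_X)]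
    apply Algebra.adjoin_le
    rintro _ ⟨_, ⟨i, rfl⟩, rfl⟩
    have hℓS' : F.ℓ i ∉ (↑Sn : Set ℕ) := fun h => hℓS i (Finset.mem_coe.1 h)
    exact ⟨piT M Sn O θn (heckeAlgebra.T (F.prime i) (not_dvd_M Sn hMS hℓS i) hℓS'),
      (hf _).trans (hφX i _ hℓS')⟩
  · intro i hℓM hℓS'
    rw [hHπ]
    exact (hf _).trans (hφX i hℓM hℓS')

end Datum

end Fermat.Agent.M43.LevelDatum6
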