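/-
Programme M43 (target S43), pillar (P-END), the algebra of NEW ⟹ RAM (helper1).

* `exists_rankTwo_emb` : `RankTwo9.exists_rankTwo` (ALG-CORE) with one more output: the rank-two
  representation `ρ'` either EMBEDS equivariantly into `Λ` (the minimal saturated stable sublattice has
  rank two) or has an invariant line spanned by the first vector of a basis (rank one: `ψ ⊕ d ψ⁻¹`);
* `exists_eigenvector_of_charpoly` : on a free module of rank two over a domain, an endomorphism `f`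
  with `charpoly f = X² - ε (q + 1) X + q`, `ε² = 1`, `q ≠ 0, 1`, has a nonzero `v` with `f v = ε v`
  (Cayley–Hamilton: `(f - ε)(f - ε q) = 0` and `f ≠ ε q` by the determinant);
* `exists_sq_fixed_of_charpoly` : the two sign cases `X² ∓ (q + 1) X + q`: a nonzero `v` with
  `f (f v) = v`.
-/
import Mathlib
import Fermat.Agent.ES.ALG.RankTwo9

set_option autoImplicit false
set_option linter.unusedSectionVars false

namespace Fermat.Agent.M43.NewRamAlg1

open Module Polynomial TensorProduct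
open Fermat.Agent.ES.ALG.InvLemma9 Fermat.Agent.ES.ALG.InvOdd9 Fermat.Agent.ES.ALG.RelDense9
  Fermat.Agent.ES.ALG.RankTwo9

section RankTwo

variable {𝒪 : Type} [CommRing 𝒪] [IsDomain 𝒪] [IsPrincipalIdealRing 𝒪]
variable {Λ : Type} [AddCommGroup Λ] [Module 𝒪 Λ] [Module.Free 𝒪 Λ] [Module.Finite 𝒪 Λ]
variable {G : Type*} [Group G]
variable {ρ : G →* End 𝒪 Λ} {d : G →* 𝒪ˣ} {a : G → 𝒪} {c : G}

/-- **(ALG-CORE) with the embedding.** -/
theorem exists_rankTwo_emb [Nontrivial Λ] (h2 : (2 : 𝒪) ≠ 0)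
    (h : ∀ g, ρ g + ((d g : 𝒪ˣ) : 𝒪) • ρ g⁻¹ = a g • (1 : End 𝒪 Λ))
    (hc2 : c * c = 1) (hdc : ((d c : 𝒪ˣ) : 𝒪) = -1) :
    ∃ (Λ' : Type) (_ : AddCommGroup Λ') (_ : Module 𝒪 Λ') (_ : Module.Free 𝒪 Λ')
      (_ : Module.Finite 𝒪 Λ') (ρ' : G →* End 𝒪 Λ'),
      finrank 𝒪 Λ' = 2 ∧
      (∀ g, (ρ' g).charpoly = X ^ 2 - C (a g) * X + C (((d g : 𝒪ˣ) : 𝒪))) ∧
      (∀ (I : Ideal 𝒪) (g : G), EndCongr I (ρ g) 1 → ((d g : 𝒪ˣ) : 𝒪) - 1 ∈ I →
        EndCongr I (ρ' g) 1) ∧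
      ((∃ emb : Λ' →ₗ[𝒪] Λ, Function.Injective emb ∧ ∀ g v, emb (ρ' g v) = ρ g (emb v)) ∨
        (∃ b : Basis (Fin 2) 𝒪 Λ', ∀ g, ∃ x : 𝒪, ρ' g (b 0) = x • b 0)) := by
  obtain ⟨M, hM0, hMsat, hMst, hMmin⟩ := exists_minimal ρ
  let K := FractionRing 𝒪
  let ρM := restrictRep ρ M hMst
  have hρM : ∀ g, ρM g + ((d g : 𝒪ˣ) : 𝒪) • ρM g⁻¹ = a g • (1 : End 𝒪 M) := rel_restrictRep hMst h
  have hss : SatSimple ρM := satSimple_restrictRep hMsat hMst hMmin
  have hirr := irred_rhoK K hss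
  have hK := rel_rhoK K hρM
  have hinjK : Function.Injective (algebraMap 𝒪 K) := IsFractionRing.injective 𝒪 K
  have h2K : (2 : K) ≠ 0 := by
    have : (2 : K) = algebraMap 𝒪 K 2 := (map_ofNat (algebraMap 𝒪 K) 2).symm
    rw [this]
    exact fun h0 => h2 ((map_eq_zero_iff _ hinjK).mp h0)
  have hdcK : ((dK K d c : Kˣ) : K) = -1 := by rw [dK_apply, hdc, map_neg, map_one]
  have hrk : finrank K (K ⊗[𝒪] M) = finrank 𝒪 M := Module.finrank_baseChange
  have hle : finrank 𝒪 M ≤ 2 := by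
    rw [← hrk]
    exact finrank_le_two_of_irred h2K hK hc2 hdcK hirr
  have hpos : 0 < finrank 𝒪 M := by
    have : Nontrivial M := by
      obtain ⟨v, hv, hv0⟩ := (Submodule.ne_bot_iff _).mp hM0
      exact ⟨⟨⟨v, hv⟩, 0, fun h => hv0 (congrArg Subtype.val h)⟩⟩
    exact Module.finrank_pos
  have hcases : finrank 𝒪 M = 2 ∨ finrank 𝒪 M = 1 := by omega
  rcases hcases with h2r | h1r
  · -- rank two: `Λ' = M`
    refine ⟨M, inferInstance, inferInstance, inferInstance, inferInstance, ρM, h2r, fun g => ?_,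
      fun I g hg _ => endCongr_restrictRep hMsat hMst I g hg,
      Or.inl ⟨M.subtype, Subtype.val_injective, fun g v => rfl⟩⟩
    have e1 : (rhoK K ρM g).charpoly = (ρM g).charpoly.map (algebraMap 𝒪 K) :=
      LinearMap.charpoly_baseChange (ρM g) K
    have e2 := charpoly_eq_of_irred h2K hK hc2 hdcK hirr (hrk.trans h2r) g
    apply Polynomial.map_injective _ hinjK
    rw [← e1, e2, dK_apply]
    simp
  · -- rank one: `Λ' = 𝒪²` with `ψ ⊕ d ψ⁻¹`
    obtain ⟨ψ, hψ, hψa⟩ := exists_char_of_finrank_one hρM h1r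
    refine ⟨Fin 2 → 𝒪, inferInstance, inferInstance, inferInstance, inferInstance,
      diagRep ψ (d * ψ⁻¹), by simp, fun g => ?_, fun I g hg hdg => ?_,
      Or.inr ⟨Pi.basisFun 𝒪 (Fin 2), fun g => ⟨((ψ g : 𝒪ˣ) : 𝒪), ?_⟩⟩⟩
    · rw [charpoly_diagRep]
      have e1 : ((ψ g : 𝒪ˣ) : 𝒪) + (((d * ψ⁻¹) g : 𝒪ˣ) : 𝒪) = a g := by
        rw [← hψa g]; simp
      have e2 : ((ψ g : 𝒪ˣ) : 𝒪) * (((d * ψ⁻¹) g : 𝒪ˣ) : 𝒪) = ((d g : 𝒪ˣ) : 𝒪) := by
        simp only [MonoidHom.mul_apply, MonoidHom.inv_apply, Units.val_mul]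
        rw [mul_left_comm, Units.mul_inv, mul_one]
      rw [e1, e2]
    · have hMg := endCongr_restrictRep hMsat hMst I g hg
      -- `ψ g ≡ 1`
      have hψ1 : ((ψ g : 𝒪ˣ) : 𝒪) - 1 ∈ I := by
        let b := Module.finBasis 𝒪 M
        let i : Fin (finrank 𝒪 M) := ⟨0, hpos⟩
        have := repr_mem_of_mem_smul_top b I (hMg (b i)) i
        rw [hψ g] at this
        simpa [sub_mul] using this
      have hψinv : (((ψ g)⁻¹ : 𝒪ˣ) : 𝒪) - 1 ∈ I := by
        have e : (((ψ g)⁻¹ : 𝒪ˣ) : 𝒪) - 1 =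
            -((((ψ g)⁻¹ : 𝒪ˣ) : 𝒪) * (((ψ g : 𝒪ˣ) : 𝒪) - 1)) := by
          rw [mul_sub, Units.inv_mul, mul_one]; ring
        rw [e]
        exact I.neg_mem (I.mul_mem_left _ hψ1)
      refine endCongr_diagRep ψ (d * ψ⁻¹) I g hψ1 ?_
      have e : (((d * ψ⁻¹) g : 𝒪ˣ) : 𝒪) - 1 =
          ((d g : 𝒪ˣ) : 𝒪) * ((((ψ g)⁻¹ : 𝒪ˣ) : 𝒪) - 1) + (((d g : 𝒪ˣ) : 𝒪) - 1) := by
        simp only [MonoidHom.mul_apply, MonoidHom.inv_apply, Units.val_mul]
        ring
      rw [e]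
      exact I.add_mem (I.mul_mem_left _ hψinv) hdg
    · -- the invariant line
      ext i
      rw [diagRep_apply, Pi.smul_apply, smul_eq_mul]
      fin_cases i
      · simp
      · simp

end RankTwo

section Eigen

variable {𝒪 : Type*} [CommRing 𝒪] [IsDomain 𝒪]
variable {V : Type*} [AddCommGroup V] [Module 𝒪 V] [Module.Free 𝒪 V] [Module.Finite 𝒪 V]

/-- **the `ε`-eigenvector** of an endomorphism with characteristic polynomial
`X² - ε (q + 1) X + q = (X - ε)(X - ε q)`. -/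
theorem exists_eigenvector_of_charpoly (hrk : finrank 𝒪 V = 2) (f : End 𝒪 V) (q ε : 𝒪)
    (hε : ε * ε = 1) (hq0 : q ≠ 0) (hq1 : q ≠ 1)
    (h : f.charpoly = X ^ 2 - C (ε * (q + 1)) * X + C q) :
    ∃ v : V, v ≠ 0 ∧ f v = ε • v := by
  -- Cayley–Hamilton
  obtain ⟨t, ht⟩ : ∃ t : 𝒪, t = ε * (q + 1) := ⟨_, rfl⟩
  rw [← ht] at h
  have hCH := LinearMap.aeval_self_charpoly f
  rw [h, map_add, map_sub, map_pow, aeval_X, map_mul, aeval_C, aeval_C, aeval_X,
    Algebra.algebraMap_eq_smul_one, Algebra.algebraMap_eq_smul_one, smul_mul_assoc,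
    one_mul] at hCH
  -- `f ≠ ε q`
  have hne : f - (ε * q) • (1 : End 𝒪 V) ≠ 0 := by
    intro h0
    have hf : f = (ε * q) • (1 : End 𝒪 V) := sub_eq_zero.mp h0
    have hdet : LinearMap.det f = q := by
      rw [LinearMap.det_eq_sign_charpoly_coeff, hrk, h]
      simp
    rw [hf, LinearMap.det_smul, hrk, map_one, mul_one] at hdet
    have h1 : q * (q - 1) = 0 := by
      have : (ε * q) ^ 2 = q ^ 2 := by
        rw [mul_pow, pow_two ε, hε, one_mul]
      rw [this] at hdet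
      linear_combination hdet
    rcases mul_eq_zero.mp h1 with h1 | h1
    · exact hq0 h1
    · exact hq1 (sub_eq_zero.mp h1)
  obtain ⟨w, hw⟩ : ∃ w : V, (f - (ε * q) • (1 : End 𝒪 V)) w ≠ 0 := by
    by_contra hcon
    push Not at hcon
    exact hne (LinearMap.ext fun w => by rw [hcon w, LinearMap.zero_apply])
  refine ⟨(f - (ε * q) • (1 : End 𝒪 V)) w, hw, ?_⟩
  have h1 := congrArg (fun F : End 𝒪 V => F w) hCH
  simp only [LinearMap.add_apply, LinearMap.sub_apply, LinearMap.smul_apply, Module.End.one_apply,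
    LinearMap.zero_apply, pow_two, Module.End.mul_apply] at h1
  simp only [LinearMap.sub_apply, LinearMap.smul_apply, Module.End.one_apply, map_sub, map_smul,
    smul_sub, smul_smul]
  have e : ε * (ε * q) = q := by rw [← mul_assoc, hε, one_mul]
  rw [e]
  have h2 : f (f w) = t • f w - q • w := by
    rw [eq_sub_iff_add_eq, ← sub_eq_zero, ← h1]
    abel
  rw [h2, ht]
  have e3 : (ε * (q + 1)) • f w = (ε * q) • f w + ε • f w := by
    rw [← add_smul]
    congr 1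
    ring
  rw [e3]
  abel

/-- the two sign cases: a nonzero vector fixed by `f²`. -/
theorem exists_sq_fixed_of_charpoly (hrk : finrank 𝒪 V = 2) (f : End 𝒪 V) (q : 𝒪)
    (hq0 : q ≠ 0) (hq1 : q ≠ 1)
    (h : f.charpoly = X ^ 2 - C (q + 1) * X + C q ∨ f.charpoly = X ^ 2 + C (q + 1) * X + C q) :
    ∃ v : V, v ≠ 0 ∧ f (f v) = v := by
  rcases h with h | h
  · obtain ⟨v, hv0, hv⟩ := exists_eigenvector_of_charpoly hrk f q 1 (one_mul 1) hq0 hq1
      (by rw [one_mul]; exact h)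
    refine ⟨v, hv0, ?_⟩
    rw [hv, one_smul, hv, one_smul]
  · obtain ⟨v, hv0, hv⟩ := exists_eigenvector_of_charpoly hrk f q (-1) (by ring) hq0 hq1
      (by rw [h, neg_one_mul, C_neg]; ring)
    refine ⟨v, hv0, ?_⟩
    rw [hv, map_smul, hv, smul_smul]
    norm_num

end Eigen

end Fermat.Agent.M43.NewRamAlg1
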