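/-
Programme M43 (target S43), pillar (P-END), the END literals (helper1): **NEW ⟹ RAM**.

Frame = the frame of the frozen S35/S36: `g` a newform of level `M`, `lam` the residue
characteristic, `S ∋ lam` a finite set of primes containing the primes of `M`, `O'` a complete
discrete valuation ring of characteristic `0` with finite residue field of characteristic `lam`,
`chig` the eigencharacter of `g` on the Hecke algebra away from `S`, `iota : chig.range →+* O'`.

* `NewRamExistsStmt` (**END-∃**, what the Jacobian gives directly): there is `ρ : GaloisRepAdic O'`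
  with the Frobenius characteristic polynomials of `g` outside `S ∪ {primes of M}` such that for
  every odd prime `q ≠ lam` with `q ∥ M`: if `ρ` is unramified at `q`, then `ρ` has an invariant
  line spanned by a basis vector (so `ρ` is residually reducible);
* `NewRamStmt` (**END-∀**, the consumer form): EVERY `ρ : GaloisRepAdic O'` with these Frobenius
  characteristic polynomials whose residual representation has no invariant line (`lam` odd) is
  RAMIFIED at every odd prime `q ≠ lam` with `q ∥ M`.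
-/
import Mathlib
import Fermat.Prelude.Def_CuspForm_Newforms
import Fermat.Prelude.Def_GaloisRep_Adic
import Fermat.Prelude.Def_GaloisRep_LocalConditions
import Fermat.Prelude.Def_CuspForm_HeckeGaloisRepDatum

set_option autoImplicit false

open Polynomial

namespace Fermat.Agent.M43.NewRamIface1

/-- **END-∃**: the representation of a newform built from the Jacobian; at `q ∥ M` odd, `q ≠ lam`,
it is ramified or has an invariant line. -/
def NewRamExistsStmt : Prop :=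
  ∀ {M : ℕ} [NeZero M] {g : CuspForm (CongruenceSubgroup.Gamma0 M) 2} (_hg : g.IsNewform)
    (lam : ℕ) [Fact lam.Prime] (S : Finset ℕ)
    (O' : Type) [CommRing O'] [IsDomain O'] [IsDiscreteValuationRing O']
    [IsAdicComplete (IsLocalRing.maximalIdeal O') O'] [Finite (IsLocalRing.ResidueField O')]
    [CharZero O'] (_hlamO' : (lam : O') ∈ IsLocalRing.maximalIdeal O')
    (chig : CuspForm.heckeAlgebra M 2 (↑S : Set ℕ) →+* ℂ)
    (_hchig : ∀ (ℓ : ℕ) (hℓ : ℓ.Prime) (hℓM : ¬ ℓ ∣ M) (hℓS : ℓ ∉ (↑S : Set ℕ)),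
      chig (CuspForm.heckeAlgebra.T hℓ hℓM hℓS) = ModularFormClass.qCoeff g ℓ)
    (iota : chig.range →+* O')
    (_hlamS : lam ∈ S) (_hMS : ∀ q : ℕ, q.Prime → q ∣ M → q ∈ S),
    ∃ ρ : GaloisRepAdic O',
      (∀ (ℓ : ℕ) (hℓ : ℓ.Prime) (hℓM : ¬ ℓ ∣ M) (hℓS : ℓ ∉ (↑S : Set ℕ)),
        ∀ A : ValuationSubring (AlgebraicClosure ℚ), A.LiesOverPrime ℓ →
          ∀ σ : AlgebraicClosure ℚ ≃ₐ[ℚ] AlgebraicClosure ℚ, A.IsFrobeniusAt σ ℓ →
            LinearMap.charpoly (ρ.ρ σ) =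
              X ^ 2 - C ((iota.comp chig.rangeRestrict) (CuspForm.heckeAlgebra.T hℓ hℓM hℓS)) * X
                + C ((ℓ : O'))) ∧
      (∀ q : ℕ, q.Prime → q ≠ 2 → q ≠ lam → q ∣ M → ¬ q ^ 2 ∣ M → ρ.IsUnramifiedAt q →
        ∃ b : Module.Basis (Fin 2) O' ρ.V,
          ∀ σ : AlgebraicClosure ℚ ≃ₐ[ℚ] AlgebraicClosure ℚ, ∃ c : O', ρ.ρ σ (b 0) = c • b 0)

/-- **END-∀ (NEW ⟹ RAM)**: a residually irreducible `ρ` with the Frobenius characteristic
polynomials of a newform `g` of level `M` is ramified at every odd `q ≠ lam` with `q ∥ M`. -/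
def NewRamStmt : Prop :=
  ∀ {M : ℕ} [NeZero M] {g : CuspForm (CongruenceSubgroup.Gamma0 M) 2} (_hg : g.IsNewform)
    (lam : ℕ) [Fact lam.Prime] (_hlam2 : lam ≠ 2) (S : Finset ℕ)
    (O' : Type) [CommRing O'] [IsDomain O'] [IsDiscreteValuationRing O']
    [IsAdicComplete (IsLocalRing.maximalIdeal O') O'] [Finite (IsLocalRing.ResidueField O')]
    [CharZero O'] (_hlamO' : (lam : O') ∈ IsLocalRing.maximalIdeal O')
    (chig : CuspForm.heckeAlgebra M 2 (↑S : Set ℕ) →+* ℂ)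
    (_hchig : ∀ (ℓ : ℕ) (hℓ : ℓ.Prime) (hℓM : ¬ ℓ ∣ M) (hℓS : ℓ ∉ (↑S : Set ℕ)),
      chig (CuspForm.heckeAlgebra.T hℓ hℓM hℓS) = ModularFormClass.qCoeff g ℓ)
    (iota : chig.range →+* O')
    (_hlamS : lam ∈ S) (_hMS : ∀ q : ℕ, q.Prime → q ∣ M → q ∈ S)
    (ρ : GaloisRepAdic O')
    (_hρ : ∀ (ℓ : ℕ) (hℓ : ℓ.Prime) (hℓM : ¬ ℓ ∣ M) (hℓS : ℓ ∉ (↑S : Set ℕ)),
      ∀ A : ValuationSubring (AlgebraicClosure ℚ), A.LiesOverPrime ℓ →
        ∀ σ : AlgebraicClosure ℚ ≃ₐ[ℚ] AlgebraicClosure ℚ, A.IsFrobeniusAt σ ℓ →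
          LinearMap.charpoly (ρ.ρ σ) =
            X ^ 2 - C ((iota.comp chig.rangeRestrict) (CuspForm.heckeAlgebra.T hℓ hℓM hℓS)) * X
              + C ((ℓ : O')))
    (_hirr : ∀ v : ρ.residual.V, v ≠ 0 →
      ¬ ∀ σ : AlgebraicClosure ℚ ≃ₐ[ℚ] AlgebraicClosure ℚ,
        ∃ c : IsLocalRing.ResidueField O', ρ.residual.ρ σ v = c • v)
    (q : ℕ), q.Prime → q ≠ 2 → q ≠ lam → q ∣ M → ¬ q ^ 2 ∣ M → ¬ ρ.IsUnramifiedAt q

end Fermat.Agent.M43.NewRamIface1
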