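/-
Programme M43 (target S43), pillar (P-END), chapter FIXTORS, file 1 (helper1):
**the prime-to-`q` torsion of `J₀(M'q)` fixed by the inertia group at `q` and by the square of a
Frobenius lift is bounded** (level `M' q` with `h : LevelHyp q M' A`), modulo TORIC-weak.

Route (helper4, board 1660): `y` fixed by inertia ⟹ `y₁ = #nodes • y ∈ Jf` (TAME-PL, `TamePL4`);
the étale images `E_i y₁` are fixed by `Fr²` (FROB-E, `FrobInst1`), hence killed by `h₂` = the number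
of `Fr²`-fixed classes of the special fibre (FIN, `FrobFin1`); so `y₂ = h₂ • y₁` is toric
(`EtaleInstQ4.E_eq_zero_iff`), where `σ² = q²` (TORIC-weak): `(q² - 1) • y₂ = 0`.

* `ToricWeakAt h σ` : the statement TORIC-weak at the level `h`;
* `fixTors_level` : `∃ B > 0, ∀ m` prime to `q`, `∀ y`, `m • y = 0`, `y` fixed by `Iner A` and `σ²` ⟹
  `B • y = 0`.
-/
import Mathlib
import Fermat.Agent.M43.TamePL4
import Fermat.Agent.M43.FrobInst1
import Fermat.Agent.M43.FrobFin1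
import Fermat.Agent.M43.EtaleInstQ4
import Fermat.Agent.U44.LocalFinal1

set_option autoImplicit false
set_option linter.unusedSectionVars false
set_option linter.unusedVariables false
set_option linter.style.haveILetI false
set_option synthInstance.maxHeartbeats 400000

open AlgebraicCurve IsLocalRing ModularCurve

noncomputable section

namespace Fermat.Agent.M43.FixTors1

open Fermat.Agent.RED.Interface4 Fermat.Agent.ES.RED Fermat.Agent.T33.NodalHalf4
  Fermat.Agent.T33.Psi3C Fermat.Agent.T33.Psi3D Fermat.Agent.FF.InertiaWire8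
  Fermat.Agent.ES.KRON.FrobPlace13 Fermat.Agent.M43.FrobRel1 Fermat.Agent.M43.FrobInst1
  Fermat.Agent.U44.EtaleAbs1 Fermat.Agent.M43.EtaleInstQ4 Fermat.Agent.X0
  Fermat.Agent.T33.NodalInst4A Fermat.Agent.T33.NodalInst4C

open Fermat.Agent.T33.NodalInst4E (Nd Node)

variable {q M' : ℕ} [NeZero M'] [NeZero q] {A : ValuationSubring Qbar}

/-- **TORIC-weak at the level `h`**: on the toric torsion prime to `q`, the square of a Frobenius
lift is the multiplication by `q²`. -/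
def ToricWeakAt (h : LevelHyp q M' A) (σ : Qbar ≃ₐ[ℚ] Qbar) : Prop :=
  ∀ m : ℕ, A.valuation ((m : ℕ) : Qbar) = 1 → ∀ z : JZero (M' * q),
    z ∈ formalTwo A (M' * q) m → m • z = 0 → (σ ^ 2) • z = (q ^ 2) • z

/-- the classes of the special fibre fixed by `Fr²`. -/
def fixSq (h : LevelHyp q M' A) [ExpChar (Setup8.kA A) q] [PerfectField (Setup8.kA A)] :
    AddSubgroup (JZeroC (Setup8.kA A) M') where
  carrier := {x | (frobSemi (Setup8.kA A) q M' ^ 2) • x = x}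
  zero_mem' := smul_zero _
  add_mem' := fun {a b} ha hb => by
    show _ • (a + b) = a + b
    rw [smul_add]
    exact congrArg₂ (· + ·) ha hb
  neg_mem' := fun {a} ha => by
    show _ • (-a) = -a
    rw [smul_neg]
    exact congrArg Neg.neg ha

instance finite_fixSq (h : LevelHyp q M' A) [ExpChar (Setup8.kA A) q]
    [PerfectField (Setup8.kA A)] : Finite ↥(fixSq h) :=
  (Fermat.Agent.M43.FrobFin1.finite_fixed_frobSemi_sq h).to_subtype

theorem card_nsmul_fixSq (h : LevelHyp q M' A) [ExpChar (Setup8.kA A) q]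
    [PerfectField (Setup8.kA A)] {x : JZeroC (Setup8.kA A) M'}
    (hx : (frobSemi (Setup8.kA A) q M' ^ 2) • x = x) : Nat.card ↥(fixSq h) • x = 0 := by
  have h1 : Nat.card ↥(fixSq h) • (⟨x, hx⟩ : ↥(fixSq h)) = 0 := card_nsmul_eq_zero'
  have h2 := congrArg Subtype.val h1
  rwa [AddSubgroup.coe_nsmul] at h2

/-- **FixTors at the level `M' q`, modulo TORIC-weak.** -/
theorem fixTors_level (h : LevelHyp q M' A) {σ : Qbar ≃ₐ[ℚ] Qbar} (hσ : A.IsFrobeniusAt σ q)
    (hTW : ToricWeakAt h σ) :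
    ∃ B : ℕ, 0 < B ∧ ∀ m : ℕ, A.valuation ((m : ℕ) : Qbar) = 1 → ∀ y : JZero (M' * q),
      m • y = 0 → (∀ τ : Iner A, (τ : GQ) • y = y) → (σ ^ 2) • y = y → B • y = 0 := by
  haveI : IsAlgClosed (Setup8.kA A) :=
    Fermat.Agent.ES.KRON.KronInst10.isAlgClosed_residueField A
  haveI : CharP (Setup8.kA A) q :=
    Fermat.Agent.ES.KRON.KronInst10.charP_residueField A h.prime h.liesOver
  haveI : ExpChar (Setup8.kA A) q := ExpChar.prime h.prime
  haveI : PerfectField (Setup8.kA A) := inferInstance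
  haveI := Fermat.Agent.T33.NodalInst4E.finite_node h
  haveI : Nonempty (Node h) := (Fermat.Agent.T33.NodalInst4G.nodalRed h).node_nonempty
  set c : ℕ := Nat.card (Node h) with hc
  set h₂ : ℕ := Nat.card ↥(fixSq h) with hh₂
  have hc0 : 0 < c := Nat.card_pos
  have hh₂0 : 0 < h₂ := Nat.card_pos
  have hq2 : 0 < q ^ 2 - 1 := by
    have := h.prime.two_le
    have : 4 ≤ q ^ 2 := by nlinarith
    omega
  refine ⟨(q ^ 2 - 1) * (h₂ * c), Nat.mul_pos hq2 (Nat.mul_pos hh₂0 hc0), ?_⟩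
  intro m hm y hmy hfix hσy
  have hm0 : m ≠ 0 := by
    rintro rfl
    rw [Nat.cast_zero, map_zero] at hm
    exact zero_ne_one hm
  haveI : NeZero m := ⟨hm0⟩
  -- step 1: `y₁ = #nodes • y ∈ Jf`
  have hy₁ : c • y ∈ Jf h m :=
    Fermat.Agent.M43.TamePL4.nsmul_mem_Jf_of_inertia_fixed h m
      (Fermat.Agent.U44.LocalFinal1.annInput h) hmy hfix
  have hcomm : ∀ (k : ℕ) (z : JZero (M' * q)), (σ ^ 2) • (k • z) = k • ((σ ^ 2) • z) :=
    fun k z => map_nsmul (DistribSMul.toAddMonoidHom (JZero (M' * q)) (σ ^ 2)) k z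
  have hσy₁ : (σ ^ 2) • (c • y) = c • y := by
    rw [hcomm, hσy]
  -- step 2: the étale images are fixed by `Fr²`
  have hgal : gal (M' * q) (σ ^ 2) = gal (M' * q) σ ^ 2 := map_pow _ σ 2
  have hfix₁ : (frobSemi (Setup8.kA A) q M' ^ 2) • E₁ h m ⟨c • y, hy₁.1⟩ =
      E₁ h m ⟨c • y, hy₁.1⟩ := by
    have r := Rel.smul ((semiCompat_c1_frob h hσ).pow 2) (E₁_spec h m ⟨c • y, hy₁.1⟩)
    have e : gal (M' * q) σ ^ 2 • (c • y) = c • y := by
      rw [← hgal]; exact hσy₁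
    rw [e] at r
    exact (E₁_eq_of_rel h m ⟨c • y, hy₁.1⟩ r).symm
  have hfix₂ : (frobSemi (Setup8.kA A) q M' ^ 2) • E₂ h m ⟨c • y, hy₁.2⟩ =
      E₂ h m ⟨c • y, hy₁.2⟩ := by
    have r := Rel.smul ((semiCompat_c2_frob h hσ).pow 2) (E₂_spec h m ⟨c • y, hy₁.2⟩)
    have e : gal (M' * q) σ ^ 2 • (c • y) = c • y := by
      rw [← hgal]; exact hσy₁
    rw [e] at r
    exact (E₂_eq_of_rel h m ⟨c • y, hy₁.2⟩ r).symm
  -- step 3: `y₂ = h₂ • y₁` is toric
  have hy₂ : h₂ • (c • y) ∈ Jf h m := (Jf h m).nsmul_mem hy₁ h₂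
  have hE₁ : E₁ h m ⟨h₂ • (c • y), hy₂.1⟩ = 0 := by
    have e : (⟨h₂ • (c • y), hy₂.1⟩ : Jf₁ h m) = h₂ • ⟨c • y, hy₁.1⟩ := Subtype.ext rfl
    rw [e, map_nsmul]
    exact card_nsmul_fixSq h hfix₁
  have hE₂ : E₂ h m ⟨h₂ • (c • y), hy₂.2⟩ = 0 := by
    have e : (⟨h₂ • (c • y), hy₂.2⟩ : Jf₂ h m) = h₂ • ⟨c • y, hy₁.2⟩ := Subtype.ext rfl
    rw [e, map_nsmul]
    exact card_nsmul_fixSq h hfix₂
  have htor : h₂ • (c • y) ∈ formalTwo A (M' * q) m :=
    (E_eq_zero_iff h m hy₂).1 ⟨hE₁, hE₂⟩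
  have hm₂ : m • (h₂ • (c • y)) = 0 := p_smul_of_mem_Jf h m hy₂
  -- step 4: TORIC-weak
  have h4 := hTW m hm _ htor hm₂
  have hσy₂ : (σ ^ 2) • (h₂ • (c • y)) = h₂ • (c • y) := by
    rw [hcomm, hσy₁]
  rw [hσy₂] at h4
  -- conclusion
  have h5 : (q ^ 2 - 1) • (h₂ • (c • y)) = 0 := by
    have h6 : (q ^ 2 - 1 + 1) • (h₂ • (c • y)) = h₂ • (c • y) := by
      rw [Nat.sub_add_cancel (by omega)]
      exact h4.symm
    rw [succ_nsmul] at h6
    exact add_eq_right.1 h6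
  rw [mul_nsmul', mul_nsmul']
  exact h5

end Fermat.Agent.M43.FixTors1
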