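import Mathlib
import Fermat.Agent.M43.ToricFinal5

/-!
# M43 / P-MP + P-END: the Frobenius on the toric `n`-torsion, for EVERY `n` prime to `q`

`h : LevelHyp q M' A`, `σ` a Frobenius element at `A`, `w = w_q = AtkinJac5.wJ h.prime h.not_dvd`,
`n ≠ 0` with `q ∤ n` (equivalently `A.valuation (n : ℚ̄) = 1`), `x ∈ formalTwo A (M'q) n`, `n • x = 0`:

* `frob_eq_neg_w_of_mem` : `σ • x = (-1 * q) • w x`;
* `frob_add_w_eq_zero` : `σ • x + q • w x = 0`;
* `frob_frob_eq` : `σ • σ • x = (q ^ 2) • x`  (**(TORIC-weak)**: `w σ = σ w` and `w² = 1`);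
* the same three with the hypothesis `A.valuation (n : ℚ̄) = 1` (`…_of_val`).
-/

set_option autoImplicit false
set_option linter.unusedSectionVars false
set_option linter.style.haveILetI false
set_option synthInstance.maxHeartbeats 400000

noncomputable section

namespace Fermat.Agent.M43.ToricWeak5

open ModularCurve AlgebraicCurve IsLocalRing
open Fermat.Agent.RED.Interface4 Fermat.Agent.ES.RED Fermat.Agent.T33.Psi3D
  Fermat.Agent.T33.NodalHalf4 Fermat.Agent.FF.InertiaWire8 Fermat.Agent.M43.AtkinJac5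
  Fermat.Agent.M43.ToricStrong5 Fermat.Agent.M43.ToricMatch5 Fermat.Agent.M43.ToricNorm1

variable {q M' : ℕ} [NeZero M'] [NeZero q] {A : ValuationSubring Qbar}

/-- a natural number which is a unit of `A` is prime to the residue characteristic. -/
theorem not_dvd_of_val_eq_one (h : LevelHyp q M' A) {n : ℕ}
    (hn : A.valuation ((n : ℕ) : Qbar) = 1) : ¬ q ∣ n := by
  rintro ⟨m, rfl⟩
  have h1 : A.valuation ((q : ℕ) : Qbar) < 1 :=
    Fermat.Agent.U44.LocInst1.val_natCast_lt_one h.liesOver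
  have h2 : A.valuation ((m : ℕ) : Qbar) ≤ 1 := Fermat.Agent.U44.LocKummer1.natCast_le_one _ m
  rw [Nat.cast_mul, map_mul] at hn
  have h3 : A.valuation ((q : ℕ) : Qbar) * A.valuation ((m : ℕ) : Qbar) < 1 :=
    mul_lt_one_of_lt_of_le h1 h2
  exact h3.ne hn

/-- **`φ = − q · w_q` on the toric `n`-torsion, for every `n ≠ 0` prime to `q`.** -/
theorem frob_eq_neg_w_of_mem (h : LevelHyp q M' A) {σ : Qbar ≃ₐ[ℚ] Qbar}
    (hσ : A.IsFrobeniusAt σ q) {n : ℕ} [NeZero n] (hn : ¬ q ∣ n) {x : JZero (M' * q)}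
    (hx : x ∈ formalTwo A (M' * q) n) (hnx : n • x = 0) :
    σ • x = (-1 * (q : ℤ)) • wJ h.prime h.not_dvd x :=
  frob_eq_neg_w h hσ hn hnx (nodeUnit_of_mem_formalTwo h n hx hnx)

/-- **`φ x + q · w_q x = 0` on the toric `n`-torsion, for every `n ≠ 0` prime to `q`.** -/
theorem frob_add_w_eq_zero (h : LevelHyp q M' A) {σ : Qbar ≃ₐ[ℚ] Qbar}
    (hσ : A.IsFrobeniusAt σ q) {n : ℕ} [NeZero n] (hn : ¬ q ∣ n) {x : JZero (M' * q)}
    (hx : x ∈ formalTwo A (M' * q) n) (hnx : n • x = 0) :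
    σ • x + q • wJ h.prime h.not_dvd x = 0 := by
  rw [frob_eq_neg_w_of_mem h hσ hn hx hnx, neg_one_mul, neg_smul, natCast_zsmul, neg_add_cancel]

/-- **(TORIC-weak): `φ² = q²` on the toric `n`-torsion, for every `n ≠ 0` prime to `q`.** -/
theorem frob_frob_eq (h : LevelHyp q M' A) {σ : Qbar ≃ₐ[ℚ] Qbar}
    (hσ : A.IsFrobeniusAt σ q) {n : ℕ} [NeZero n] (hn : ¬ q ∣ n) {x : JZero (M' * q)}
    (hx : x ∈ formalTwo A (M' * q) n) (hnx : n • x = 0) :
    σ • σ • x = (q ^ 2) • x := by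
  have e := frob_eq_neg_w_of_mem h hσ hn hx hnx
  have hsm : ∀ (c : ℤ) (y : JZero (M' * q)), σ • (c • y) = c • (σ • y) := fun c y =>
    map_zsmul (DistribSMul.toAddMonoidHom (JZero (M' * q)) σ) c y
  calc σ • σ • x = σ • ((-1 * (q : ℤ)) • wJ h.prime h.not_dvd x) := by rw [e]
    _ = (-1 * (q : ℤ)) • wJ h.prime h.not_dvd (σ • x) := by rw [hsm, wJ_smul]
    _ = (-1 * (q : ℤ)) • wJ h.prime h.not_dvd ((-1 * (q : ℤ)) • wJ h.prime h.not_dvd x) := by
        rw [e]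
    _ = (-1 * (q : ℤ)) • ((-1 * (q : ℤ)) • x) := by rw [map_zsmul, wJ_wJ]
    _ = (q ^ 2) • x := by
        rw [← mul_smul, ← natCast_zsmul]
        congr 1
        push_cast
        ring

/-- `frob_eq_neg_w_of_mem` with the hypothesis `A.valuation n = 1`. -/
theorem frob_eq_neg_w_of_val (h : LevelHyp q M' A) {σ : Qbar ≃ₐ[ℚ] Qbar}
    (hσ : A.IsFrobeniusAt σ q) {n : ℕ} [NeZero n] (hn : A.valuation ((n : ℕ) : Qbar) = 1)
    {x : JZero (M' * q)} (hx : x ∈ formalTwo A (M' * q) n) (hnx : n • x = 0) :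
    σ • x = (-1 * (q : ℤ)) • wJ h.prime h.not_dvd x :=
  frob_eq_neg_w_of_mem h hσ (not_dvd_of_val_eq_one h hn) hx hnx

/-- `frob_add_w_eq_zero` with the hypothesis `A.valuation n = 1`. -/
theorem frob_add_w_eq_zero_of_val (h : LevelHyp q M' A) {σ : Qbar ≃ₐ[ℚ] Qbar}
    (hσ : A.IsFrobeniusAt σ q) {n : ℕ} [NeZero n] (hn : A.valuation ((n : ℕ) : Qbar) = 1)
    {x : JZero (M' * q)} (hx : x ∈ formalTwo A (M' * q) n) (hnx : n • x = 0) :
    σ • x + q • wJ h.prime h.not_dvd x = 0 :=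
  frob_add_w_eq_zero h hσ (not_dvd_of_val_eq_one h hn) hx hnx

/-- **(TORIC-weak)** with the hypothesis `A.valuation n = 1`. -/
theorem frob_frob_eq_of_val (h : LevelHyp q M' A) {σ : Qbar ≃ₐ[ℚ] Qbar}
    (hσ : A.IsFrobeniusAt σ q) {n : ℕ} [NeZero n] (hn : A.valuation ((n : ℕ) : Qbar) = 1)
    {x : JZero (M' * q)} (hx : x ∈ formalTwo A (M' * q) n) (hnx : n • x = 0) :
    σ • σ • x = (q ^ 2) • x :=
  frob_frob_eq h hσ (not_dvd_of_val_eq_one h hn) hx hnx

end Fermat.Agent.M43.ToricWeak5
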