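/-
Programme M43 (target S43), pillar (P-END), chapter FIXTORS, file 2 (helper1):
TORIC-weak (helper5, `ToricWeak5.frob_frob_eq_of_val`) discharges the hypothesis of
`FixTors1.fixTors_level`.

* `toricWeakAt h hσ : ToricWeakAt h σ`;
* `fixTors_level_uncond` : `∃ B > 0, ∀ m` prime to `q`, `∀ y`, `m • y = 0`, `y` fixed by `Iner A` and
  `σ²` ⟹ `B • y = 0`.
-/
import Mathlib
import Fermat.Agent.M43.FixTors1
import Fermat.Agent.M43.ToricWeak5

set_option autoImplicit false
set_option linter.unusedSectionVars false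
set_option linter.unusedVariables false
set_option linter.style.haveILetI false
set_option synthInstance.maxHeartbeats 400000

open AlgebraicCurve IsLocalRing ModularCurve

noncomputable section

namespace Fermat.Agent.M43.FixTorsQ1

open Fermat.Agent.RED.Interface4 Fermat.Agent.ES.RED Fermat.Agent.T33.NodalHalf4
  Fermat.Agent.T33.Psi3C Fermat.Agent.T33.Psi3D Fermat.Agent.FF.InertiaWire8
  Fermat.Agent.M43.FixTors1

variable {q M' : ℕ} [NeZero M'] [NeZero q] {A : ValuationSubring Qbar}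

/-- TORIC-weak holds at every level `h`. -/
theorem toricWeakAt (h : LevelHyp q M' A) {σ : Qbar ≃ₐ[ℚ] Qbar} (hσ : A.IsFrobeniusAt σ q) :
    ToricWeakAt h σ := by
  intro m hm z hz hmz
  have hm0 : m ≠ 0 := by
    rintro rfl
    rw [Nat.cast_zero, map_zero] at hm
    exact zero_ne_one hm
  haveI : NeZero m := ⟨hm0⟩
  rw [pow_two, mul_smul]
  exact Fermat.Agent.M43.ToricWeak5.frob_frob_eq_of_val h hσ hm hz hmz

/-- **FIXTORS at the level `h`**, unconditionally. -/
theorem fixTors_level_uncond (h : LevelHyp q M' A) {σ : Qbar ≃ₐ[ℚ] Qbar}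
    (hσ : A.IsFrobeniusAt σ q) :
    ∃ B : ℕ, 0 < B ∧ ∀ m : ℕ, A.valuation ((m : ℕ) : Qbar) = 1 → ∀ y : JZero (M' * q),
      m • y = 0 → (∀ τ : Iner A, (τ : GQ) • y = y) → (σ ^ 2) • y = y → B • y = 0 :=
  fixTors_level h hσ (toricWeakAt h hσ)

end Fermat.Agent.M43.FixTorsQ1
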