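/-
Programme M43 (target S43), pillar (P-END), chapter FIXTORS, file 3 (helper1):
**FIXTORS at an arbitrary level `N` with `q ∥ N`, `q` odd, and on the Tate module.**

* `fixTors_of_eq` : FIXTORS at a level given up to equality `N' = M' * q`, `h : LevelHyp q M' A`;
* `fixTors_JZero` : `q` odd, `q ∥ N`, `A` over `q`, `σ` a Frobenius lift at `A`:
  `∃ B > 0, ∀ m > 0` prime to `q`, `∀ y ∈ J₀(N)[m]` fixed by the inertia group of `A` and by `σ²`:
  `B • y = 0` (transfer to the auxiliary level by `π^*`, injective on torsion and Galois-equivariant);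
* `tate_fixed_sq_eq_zero` : for `p ≠ q`, an element of `T_p J₀(N)` fixed by the inertia group of `A`
  and by `(rhoT σ)²` is `0`.
-/
import Mathlib
import Fermat.Agent.M43.FixTorsQ1
import Fermat.Agent.T33.S33Wire7C
import Fermat.Agent.ES.RED.PullbackInj12
import Fermat.Agent.U44.LocInst1
import Fermat.Agent.ES.J.TateJZero13

set_option autoImplicit false
set_option linter.unusedSectionVars false
set_option linter.unusedVariables false
set_option linter.style.haveILetI false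
set_option synthInstance.maxHeartbeats 400000

open AlgebraicCurve IsLocalRing ModularCurve

noncomputable section

namespace Fermat.Agent.M43.FixTorsJ1

open Fermat.Agent.RED.Interface4 Fermat.Agent.ES.RED Fermat.Agent.T33.NodalHalf4
  Fermat.Agent.FF.InertiaWire8 Fermat.Agent.M43.FixTorsQ1
  Fermat.Agent.ES.HECKE.LevelPullback12 Fermat.Agent.ES.RED.PullbackInj12
  Fermat.Agent.ES.J.TateModule13 Fermat.Agent.ES.J.TateJZero13

/-- FIXTORS at a level given up to equality. -/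
theorem fixTors_of_eq {q M' : ℕ} [NeZero M'] [NeZero q] {A : ValuationSubring Qb}
    (h : LevelHyp q M' A) {σ : GQ} (hσ : A.IsFrobeniusAt σ q)
    (N' : ℕ) [NeZero N'] (hN' : N' = M' * q) :
    ∃ B : ℕ, 0 < B ∧ ∀ m : ℕ, ¬ q ∣ m → ∀ y : JZero N', m • y = 0 →
      (∀ τ ∈ A.inertiaSubgroupIn ℚ, τ • y = y) → σ • σ • y = y → B • y = 0 := by
  subst hN'
  obtain ⟨B, hB, hBy⟩ := fixTors_level_uncond h hσ
  refine ⟨B, hB, fun m hm y hmy hfix hσy =>
    hBy m (Fermat.Agent.U44.LocInst1.val_natCast_eq_one h.prime h.liesOver hm) y hmy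
      (fun τ => hfix τ τ.2) ?_⟩
  rw [pow_two, mul_smul]
  exact hσy

/-- **FIXTORS at the level `N`**, `q` odd, `q ∥ N`. -/
theorem fixTors_JZero {q N : ℕ} [NeZero N] (hq : q.Prime) (hq2 : q ≠ 2)
    (hN : q ∣ N ∧ ¬ q ^ 2 ∣ N) {A : ValuationSubring Qb} (hA : A.LiesOverPrime q) {σ : GQ}
    (hσ : A.IsFrobeniusAt σ q) :
    ∃ B : ℕ, 0 < B ∧ ∀ m : ℕ, 0 < m → ¬ q ∣ m → ∀ y : JZero N, m • y = 0 →
      (∀ τ ∈ A.inertiaSubgroupIn ℚ, τ • y = y) → σ • σ • y = y → B • y = 0 := by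
  haveI : NeZero q := ⟨hq.ne_zero⟩
  haveI := Fermat.Agent.RED.LVL.LevelDegree17.neZero_auxLevel q N
  obtain ⟨M', hM'0, hM', h⟩ :=
    Fermat.Agent.T33.S33Wire7.exists_levelHyp hq hq2 (NeZero.ne N) hN hA
  haveI : NeZero M' := ⟨hM'0⟩
  obtain ⟨B, hB, hBy⟩ := fixTors_of_eq h hσ (auxLevel q N) hM'
  refine ⟨B, hB, fun m hm0 hm y hmy hfix hσy => ?_⟩
  apply levelPullback_auxLevel_eq_zero q N m hm0 (B • y)
    (by rw [smul_comm, hmy, smul_zero])
  rw [map_nsmul]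
  refine hBy m hm _ (by rw [← map_nsmul, hmy, map_zero]) (fun τ hτ => ?_) ?_
  · rw [← levelPullback_smul, hfix τ hτ]
  · rw [← levelPullback_smul, ← levelPullback_smul, hσy]

/-- **FIXTORS on the Tate module**: an element of `T_p J₀(N)` (`p ≠ q`, `q` odd, `q ∥ N`) fixed by
the inertia group of `A` and by the square of a Frobenius lift is `0`. -/
theorem tate_fixed_sq_eq_zero {p q N : ℕ} [NeZero N] [Fact p.Prime] (hq : q.Prime) (hq2 : q ≠ 2)
    (hqp : q ≠ p) (hN : q ∣ N ∧ ¬ q ^ 2 ∣ N) {A : ValuationSubring Qb} (hA : A.LiesOverPrime q)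
    {σ : GQ} (hσ : A.IsFrobeniusAt σ q) (x : TJ p N)
    (hfix : ∀ τ ∈ A.inertiaSubgroupIn ℚ, rhoT p N τ x = x)
    (hσx : rhoT p N σ (rhoT p N σ x) = x) : x = 0 := by
  obtain ⟨B, hB, hBy⟩ := fixTors_JZero hq hq2 hN hA hσ
  have hcz : ((B : ℕ) : ℤ_[p]) ≠ 0 := Nat.cast_ne_zero.mpr hB.ne'
  apply eq_zero_of_smul_eq_zero hcz
  apply eq_zero_of_forall_proj
  intro k
  rw [proj_natCast_smul]
  have hp : p.Prime := Fact.out
  have hk : ¬ q ∣ p ^ k := fun hd => hqp ((Nat.prime_dvd_prime_iff_eq hq hp).1 (hq.dvd_of_dvd_pow hd))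
  refine hBy (p ^ k) (pow_pos hp.pos k) hk (proj k x) (pow_smul_proj k x) (fun τ hτ => ?_) ?_
  · rw [← proj_rhoT, hfix τ hτ]
  · rw [← proj_rhoT, ← proj_rhoT, hσx]

end Fermat.Agent.M43.FixTorsJ1
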