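/-
Programme M43 (target S43), pillar (P-END), the eigen-lattice of NEW ⟹ RAM (helper1).

`EigenLatticeNewRam` = the contract `EigenNew8.EigenLatticeNew` of Program O (S35) with ONE more clause:
for every odd prime `q ∥ N`, `q ≠ p`, every `A` over `q` and every Frobenius lift `σ` at `A`, the only
vector of the lattice fixed by the inertia group of `A` and by `ρ(σ)²` is `0`
(`FixTorsJ1.tate_fixed_sq_eq_zero` transported through the torsion-free base change `ℤ_p → 𝒪'`,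
`FixedBC12.baseChange_apply_eq_zero_of_fixed` with `u = 1`).

* `exists_eigenSubRep_newRam`, `exists_eigenRep_newRam` : twins of `EigenNewOf8.exists_eigenSubRep_new`,
  `exists_eigenRep_new` with a fifth output (fixed vectors under a SET of group elements);
* `eigenLatticeNewRam_of`, `eigenLatticeNewRam_of_hecke` : twins of `EigenNewOf8.eigenLatticeNew_of`,
  `EigenNewHecke8.eigenLatticeNew_of_hecke`.
-/
import Mathlib
import Fermat.Agent.ES.N35.EigenNewHecke8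
import Fermat.Agent.ES.P36.FixedBC12
import Fermat.Agent.ES.P36.EigenInertOf12
import Fermat.Agent.M43.FixTorsJ1

set_option autoImplicit false
set_option linter.unusedSectionVars false
set_option linter.overlappingInstances false
set_option synthInstance.maxHeartbeats 400000

open TensorProduct AlgebraicCurve ModularCurve

noncomputable section

namespace Fermat.Agent.M43.NewRamLat1

open Fermat.Agent.ES.ALG.RelDense9 Fermat.Agent.ES.ALG.RankTwo9 Fermat.Agent.ES.J.S30Skeleton8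
  Fermat.Agent.ES.J.TateJZero13 Fermat.Agent.ES.J.BaseChangeRep8 Fermat.Agent.ES.N35.EigenNew8
  Fermat.Agent.ES.N35.EigenNewOf8
  Fermat.Agent.ES.HEQ.FaithInst26 Fermat.Agent.ES.HEQ.FaithFinal26 Fermat.Agent.ES.K.HeckeTate26

local notation "Qb" => AlgebraicClosure ℚ
local notation "GQ" => (AlgebraicClosure ℚ ≃ₐ[ℚ] AlgebraicClosure ℚ)

section Eigen

variable {𝒪 : Type} [CommRing 𝒪] [IsDomain 𝒪] [IsPrincipalIdealRing 𝒪]
variable {Λ : Type} [AddCommGroup Λ] [Module 𝒪 Λ] [Module.Free 𝒪 Λ] [Module.Finite 𝒪 Λ]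
variable {G : Type*} [Group G] {ι : Type*}

/-- twin of `EigenNewOf8.exists_eigenSubRep_new` with the fifth output. -/
theorem exists_eigenSubRep_newRam (ρ : G →* Module.End 𝒪 Λ) (t : ι → Module.End 𝒪 Λ) (c : ι → 𝒪)
    (hcomm : ∀ g i, Commute (ρ g) (t i)) (w : Λ) (hw0 : w ≠ 0) (hw : ∀ i, t i w = c i • w) :
    ∃ (Λ' : Type) (_ : AddCommGroup Λ') (_ : Module 𝒪 Λ') (_ : Module.Free 𝒪 Λ')
      (_ : Module.Finite 𝒪 Λ') (_ : Nontrivial Λ') (ρ' : G →* Module.End 𝒪 Λ'),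
      (∀ (I : Ideal 𝒪) (g : G), EndCongr I (ρ g) 1 → EndCongr I (ρ' g) 1) ∧
      (∀ g, ρ g = 1 → ρ' g = 1) ∧
      (∀ (g : G) (i : ι) (n : 𝒪), ρ g * ρ g - t i * ρ g + n • (1 : Module.End 𝒪 Λ) = 0 →
        ρ' g * ρ' g - c i • ρ' g + n • (1 : Module.End 𝒪 Λ') = 0) ∧
      (∀ (g : G) (n₁ n₂ n₃ : 𝒪) (w' : Λ), w' ≠ 0 → (∀ i, t i w' = c i • w') →
        (ρ g ^ 6) w' + n₁ • (ρ g ^ 2) w' = n₂ • (ρ g ^ 4) w' + n₃ • w' →
        ∃ v : Λ', v ≠ 0 ∧ (ρ' g ^ 6) v + n₁ • (ρ' g ^ 2) v = n₂ • (ρ' g ^ 4) v + n₃ • v) ∧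
      (∀ (Hs : Set G) (v : Λ'), v ≠ 0 → (∀ g ∈ Hs, ρ' g v = v) →
        ∃ w' : Λ, w' ≠ 0 ∧ (∀ i, t i w' = c i • w') ∧ ∀ g ∈ Hs, ρ g w' = w') := by
  have hsat := saturated_eigenSub t c
  have hst := stable_eigenSub ρ t c hcomm
  have hwmem : w ∈ eigenSub t c := mem_eigenSub.mpr hw
  have hnt : Nontrivial (eigenSub t c) :=
    ⟨⟨⟨w, hwmem⟩, 0, fun h => hw0 (congrArg Subtype.val h)⟩⟩
  refine ⟨eigenSub t c, inferInstance, inferInstance, inferInstance, inferInstance, hnt,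
    restrictRep ρ (eigenSub t c) hst, ?_, ?_, ?_, ?_, ?_⟩
  · intro I g h
    exact endCongr_restrictRep hsat hst I g h
  · intro g hg
    ext v
    simp [hg]
  · intro g i n h
    ext v
    have hv := mem_eigenSub.mp v.2
    have hρv : ρ g (v : Λ) ∈ eigenSub t c := hst g v v.2
    have h1 := congrArg (fun F : Module.End 𝒪 Λ => F (v : Λ)) h
    simp only [LinearMap.add_apply, LinearMap.sub_apply, Module.End.mul_apply,
      LinearMap.smul_apply, Module.End.one_apply, LinearMap.zero_apply] at h1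
    rw [mem_eigenSub.mp hρv i] at h1
    simpa using h1
  · intro g n₁ n₂ n₃ w' hw'0 hw' hrel
    refine ⟨⟨w', mem_eigenSub.mpr hw'⟩, fun h => hw'0 (congrArg Subtype.val h), ?_⟩
    apply Subtype.ext
    rw [Submodule.coe_add, Submodule.coe_add, Submodule.coe_smul, Submodule.coe_smul,
      Submodule.coe_smul, coe_restrictRep_pow_apply, coe_restrictRep_pow_apply,
      coe_restrictRep_pow_apply]
    exact hrel
  · intro Hs v hv0 hv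
    refine ⟨(v : Λ), fun h => hv0 (Subtype.ext h), mem_eigenSub.mp v.2, fun g hg => ?_⟩
    have := congrArg Subtype.val (hv g hg)
    rwa [coe_restrictRep_apply] at this

end Eigen

section Main

variable {R : Type} [CommRing R] [IsDomain R] [IsPrincipalIdealRing R]
  {𝒪 : Type} [CommRing 𝒪] [IsDomain 𝒪] [IsPrincipalIdealRing 𝒪]
  [Algebra R 𝒪] [Module.IsTorsionFree R 𝒪]
variable {T : Type} [AddCommGroup T] [Module R T] [Module.Free R T] [Module.Finite R T]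
variable {G : Type*} [Group G] {ι : Type*}

/-- twin of `EigenNewOf8.exists_eigenRep_new` with the fifth output: if `0` is the only vector of `T`
fixed by the elements of a set `Hs`, then `0` is the only `Hs`-fixed vector of the eigen-lattice. -/
theorem exists_eigenRep_newRam (ρ : G →* Module.End R T) (t : ι → Module.End R T)
    (hcomm : ∀ g i, Commute (ρ g) (t i)) (c : ι → 𝒪) (w : 𝒪 ⊗[R] T) (hw0 : w ≠ 0)
    (hw : ∀ i, (t i).baseChange 𝒪 w = c i • w) :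
    ∃ (Λ' : Type) (_ : AddCommGroup Λ') (_ : Module 𝒪 Λ') (_ : Module.Free 𝒪 Λ')
      (_ : Module.Finite 𝒪 Λ') (_ : Nontrivial Λ') (ρ' : G →* Module.End 𝒪 Λ'),
      (∀ (I : Ideal 𝒪) (g : G) (r : R), algebraMap R 𝒪 r ∈ I → (∀ x, ∃ y, ρ g x - x = r • y) →
        EndCongr I (ρ' g) 1) ∧
      (∀ g, ρ g = 1 → ρ' g = 1) ∧
      (∀ (g : G) (i : ι) (n : R), ρ g * ρ g - t i * ρ g + n • (1 : Module.End R T) = 0 →
        ρ' g * ρ' g - c i • ρ' g + algebraMap R 𝒪 n • (1 : Module.End 𝒪 Λ') = 0) ∧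
      (∀ (g : G) (u : Module.End R T) (n₁ n₂ n₃ : R), (∀ i, Commute u (t i)) →
        (∀ x : T, (ρ g ^ 6) (u x) + n₁ • (ρ g ^ 2) (u x) = n₂ • (ρ g ^ 4) (u x) + n₃ • u x) →
        ∀ w₁ : 𝒪 ⊗[R] T, (∀ i, (t i).baseChange 𝒪 w₁ = c i • w₁) → u.baseChange 𝒪 w₁ ≠ 0 →
        ∃ v : Λ', v ≠ 0 ∧ (ρ' g ^ 6) v + algebraMap R 𝒪 n₁ • (ρ' g ^ 2) v =
          algebraMap R 𝒪 n₂ • (ρ' g ^ 4) v + algebraMap R 𝒪 n₃ • v) ∧
      (∀ Hs : Set G, (∀ x : T, (∀ g ∈ Hs, ρ g x = x) → x = 0) →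
        ∀ v : Λ', (∀ g ∈ Hs, ρ' g v = v) → v = 0) := by
  have hcomm' : ∀ g i, Commute (bcRep (𝒪 := 𝒪) ρ g) ((t i).baseChange 𝒪) := by
    intro g i
    have := (hcomm g i).map (Module.End.baseChangeHom R 𝒪 T)
    exact this
  obtain ⟨Λ', i1, i2, i3, i4, i5, ρ', h1, h2, h3, h4, h5⟩ :=
    exists_eigenSubRep_newRam (bcRep (𝒪 := 𝒪) ρ) (fun i => (t i).baseChange 𝒪) c hcomm' w hw0 hw
  refine ⟨Λ', i1, i2, i3, i4, i5, ρ', ?_, ?_, ?_, ?_, ?_⟩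
  · intro I g r hr hf
    exact h1 I g (endCongr_baseChange I (ρ g) r hr hf)
  · intro g hg
    apply h2
    rw [bcRep_apply, hg, LinearMap.baseChange_one]
  · intro g i n h
    apply h3 g i (algebraMap R 𝒪 n)
    have := congrArg (fun F : Module.End R T => F.baseChange 𝒪) h
    simp only [LinearMap.baseChange_add, LinearMap.baseChange_sub, LinearMap.baseChange_mul,
      LinearMap.baseChange_smul, LinearMap.baseChange_one, LinearMap.baseChange_zero] at this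
    rw [bcRep_apply, algebraMap_smul]
    exact this
  · intro g u n₁ n₂ n₃ hu hrel w₁ hw₁ hne
    have hE : ρ g ^ 6 * u + n₁ • (ρ g ^ 2 * u) = n₂ • (ρ g ^ 4 * u) + n₃ • u := by
      apply LinearMap.ext
      intro x
      simp only [LinearMap.add_apply, LinearMap.smul_apply, Module.End.mul_apply]
      exact hrel x
    have hE' := congrArg (fun F : Module.End R T => F.baseChange 𝒪) hE
    simp only [LinearMap.baseChange_add, LinearMap.baseChange_mul, LinearMap.baseChange_smul,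
      LinearMap.baseChange_pow] at hE'
    refine h4 g (algebraMap R 𝒪 n₁) (algebraMap R 𝒪 n₂) (algebraMap R 𝒪 n₃)
      (u.baseChange 𝒪 w₁) hne ?_ ?_
    · intro i
      have hc : Commute (u.baseChange 𝒪) ((t i).baseChange 𝒪) :=
        (hu i).map (Module.End.baseChangeHom R 𝒪 T)
      have := congrArg (fun F : Module.End 𝒪 (𝒪 ⊗[R] T) => F w₁) hc.eq
      simp only [Module.End.mul_apply] at this
      rw [← this, hw₁ i, map_smul]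
    · have := congrArg (fun F : Module.End 𝒪 (𝒪 ⊗[R] T) => F w₁) hE'
      simp only [LinearMap.add_apply, LinearMap.smul_apply, Module.End.mul_apply] at this
      rw [bcRep_apply]
      simp only [algebraMap_smul]
      exact this
  · intro Hs hkill v hv
    by_contra hv0
    obtain ⟨w', hw'0, hw', hfix⟩ := h5 Hs v hv0 hv
    have hz : (1 : Module.End R T).baseChange 𝒪 w' = 0 :=
      Fermat.Agent.ES.P36.FixedBC12.baseChange_apply_eq_zero_of_fixed (R := R) (𝒪 := 𝒪)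
        {h | ∃ g ∈ Hs, h = ρ g} (1 : Module.End R T)
        (by rintro h ⟨g, _, rfl⟩; exact Commute.one_left _)
        (fun x hx => hkill x fun g hg => hx (ρ g) ⟨g, hg, rfl⟩) w'
        (by rintro h ⟨g, hg, rfl⟩; exact hfix g hg)
    rw [LinearMap.baseChange_one, Module.End.one_apply] at hz
    exact hw'0 hz

end Main

/-! ### The contract -/

/-- **The contract of NEW ⟹ RAM**: `EigenNew8.EigenLatticeNew` plus the fixed-vector clause at the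
odd primes `q ∥ N`, `q ≠ p`. -/
def EigenLatticeNewRam (p : ℕ) (N : ℕ) [NeZero N] (S : Finset ℕ)
    (𝒪' : Type) [CommRing 𝒪'] [IsLocalRing 𝒪']
    (χ : CuspForm.heckeAlgebra N 2 (↑S : Set ℕ) →+* 𝒪') : Prop :=
  ∃ (Λ : Type) (_ : AddCommGroup Λ) (_ : Module 𝒪' Λ) (_ : Module.Free 𝒪' Λ)
    (_ : Module.Finite 𝒪' Λ) (_ : Nontrivial Λ) (ρ : GQ →* Module.End 𝒪' Λ),
    (∀ n : ℕ, ∃ L : IntermediateField ℚ Qb, FiniteDimensional ℚ L ∧
      ∀ σ : GQ, (∀ x ∈ L, σ x = x) → EndCongr (IsLocalRing.maximalIdeal 𝒪' ^ n) (ρ σ) 1) ∧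
    (∀ q : ℕ, q.Prime → ¬ q ∣ N → q ≠ p → ∀ A : ValuationSubring Qb, A.LiesOverPrime q →
      ∀ τ ∈ A.inertiaSubgroupIn ℚ, ρ τ = 1) ∧
    (∀ (ℓ : ℕ) (hℓ : ℓ.Prime) (hℓN : ¬ ℓ ∣ N) (hℓS : ℓ ∉ (↑S : Set ℕ)),
      ∀ A : ValuationSubring Qb, A.LiesOverPrime ℓ → ∀ σ : GQ, A.IsFrobeniusAt σ ℓ →
        ρ σ * ρ σ - χ (CuspForm.heckeAlgebra.T hℓ hℓN hℓS) • ρ σ +
          (ℓ : 𝒪') • (1 : Module.End 𝒪' Λ) = 0) ∧
    (∀ q : ℕ, q.Prime → q ≠ p → q ∣ N → ¬ q ^ 2 ∣ N →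
      ∀ A : ValuationSubring Qb, A.LiesOverPrime q → ∀ σ : GQ, A.IsFrobeniusAt σ q →
        ∃ v : Λ, v ≠ 0 ∧
          (ρ σ ^ 6) v + (1 + 2 * (q : 𝒪') ^ 2) • (ρ σ ^ 2) v =
            (2 + (q : 𝒪') ^ 2) • (ρ σ ^ 4) v + ((q : 𝒪') ^ 2) • v) ∧
    (∀ q : ℕ, q.Prime → q ≠ 2 → q ≠ p → q ∣ N → ¬ q ^ 2 ∣ N →
      ∀ A : ValuationSubring Qb, A.LiesOverPrime q → ∀ σ : GQ, A.IsFrobeniusAt σ q →
        ∀ v : Λ, (∀ τ ∈ A.inertiaSubgroupIn ℚ, ρ τ v = v) → ρ σ (ρ σ v) = v → v = 0)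

section Of

variable {p : ℕ} [Fact p.Prime] {N : ℕ} [NeZero N] {S : Finset ℕ}
  {𝒪' : Type} [CommRing 𝒪'] [IsDomain 𝒪'] [IsDiscreteValuationRing 𝒪'] [Algebra ℤ_[p] 𝒪']
  [Module.IsTorsionFree ℤ_[p] 𝒪']

/-- twin of `EigenNewOf8.eigenLatticeNew_of`. -/
theorem eigenLatticeNewRam_of (hpS : p ∈ S)
    (hp𝒪' : (p : 𝒪') ∈ IsLocalRing.maximalIdeal 𝒪')
    (hfin : {y : JZero N | p • y = 0}.Finite)
    (χ : CuspForm.heckeAlgebra N 2 (↑S : Set ℕ) →+* 𝒪')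
    (w : 𝒪' ⊗[ℤ_[p]] TJ p N) (hw0 : w ≠ 0)
    (hw : ∀ (ℓ : ℕ) (hℓ : ℓ.Prime) (hℓN : ¬ ℓ ∣ N) (hℓS : ℓ ∉ (↑S : Set ℕ)),
      (tT p N ⟨ℓ, hℓ⟩).baseChange 𝒪' w = χ (CuspForm.heckeAlgebra.T hℓ hℓN hℓS) • w)
    (hnew : ∀ q : ℕ, q.Prime → q ≠ p → q ∣ N → ¬ q ^ 2 ∣ N →
      ∃ u : Module.End ℤ_[p] (TJ p N),
        (∀ (ℓ : ℕ) (hℓ : ℓ.Prime), ¬ ℓ ∣ N → ℓ ∉ (↑S : Set ℕ) → Commute u (tT p N ⟨ℓ, hℓ⟩)) ∧
        u.baseChange 𝒪' w ≠ 0 ∧
        ∀ A : ValuationSubring Qb, A.LiesOverPrime q → ∀ σ : GQ, A.IsFrobeniusAt σ q →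
          ∀ x : TJ p N,
            (rhoT p N σ ^ 6) (u x) + ((1 + 2 * q ^ 2 : ℕ) : ℤ_[p]) • (rhoT p N σ ^ 2) (u x) =
              ((2 + q ^ 2 : ℕ) : ℤ_[p]) • (rhoT p N σ ^ 4) (u x) + ((q ^ 2 : ℕ) : ℤ_[p]) • u x) :
    EigenLatticeNewRam p N S 𝒪' χ := by
  classical
  obtain ⟨hfinT, hfreeT⟩ := finite_free (p := p) (N := N) hfin
  let ι : Type := {ℓ : ℕ // ℓ.Prime ∧ ¬ ℓ ∣ N ∧ ℓ ∉ (↑S : Set ℕ)}
  let t : ι → Module.End ℤ_[p] (TJ p N) := fun i => tT p N ⟨i.1, i.2.1⟩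
  let c : ι → 𝒪' := fun i => χ (CuspForm.heckeAlgebra.T i.2.1 i.2.2.1 i.2.2.2)
  obtain ⟨Λ, i1, i2, i3, i4, i5, ρ, h1, h2, h3, h4, h5⟩ :=
    exists_eigenRep_newRam (𝒪 := 𝒪') (rhoT p N) t (fun g i => commute_rhoT_tT g _) c w hw0
      (fun i => hw i.1 i.2.1 i.2.2.1 i.2.2.2)
  refine ⟨Λ, i1, i2, i3, i4, i5, ρ, ?_, ?_, ?_, ?_, ?_⟩
  · intro n
    obtain ⟨L, hL, H⟩ := rhoT_continuous (p := p) (N := N) hfin n
    refine ⟨L, hL, fun σ hσ => ?_⟩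
    refine h1 _ σ ((p : ℤ_[p]) ^ n) ?_ (H σ hσ)
    rw [map_pow, map_natCast]
    exact Ideal.pow_mem_pow hp𝒪' n
  · intro q hq hqN hqp A hA τ hτ
    exact h2 τ (rhoT_inertia hq hqN hqp hA hτ)
  · intro ℓ hℓ hℓN hℓS A hA σ hσ
    have hℓp : ℓ ≠ p := fun h => hℓS (h ▸ hpS)
    have := h3 σ ⟨ℓ, hℓ, hℓN, hℓS⟩ (ℓ : ℤ_[p]) (rhoT_frobenius hℓ hℓN hℓp hA hσ)
    rw [map_natCast] at this
    exact this
  · intro q hq hqp hqN hq2 A hA σ hσ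
    obtain ⟨u, hu, huw, hkill⟩ := hnew q hq hqp hqN hq2
    obtain ⟨v, hv0, hv⟩ := h4 σ u ((1 + 2 * q ^ 2 : ℕ) : ℤ_[p]) ((2 + q ^ 2 : ℕ) : ℤ_[p])
      ((q ^ 2 : ℕ) : ℤ_[p]) (fun i => hu i.1 i.2.1 i.2.2.1 i.2.2.2)
      (hkill A hA σ hσ) w (fun i => hw i.1 i.2.1 i.2.2.1 i.2.2.2) huw
    refine ⟨v, hv0, ?_⟩
    simpa only [map_natCast, Nat.cast_add, Nat.cast_mul, Nat.cast_pow, Nat.cast_one,
      Nat.cast_ofNat, map_add, map_mul, map_pow, map_one, map_ofNat] using hv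
  · intro q hq hq2' hqp hqN hq2 A hA σ hσ v hfix hσv
    refine h5 ((A.inertiaSubgroupIn ℚ : Set GQ) ∪ {σ * σ}) (fun x hx => ?_) v (fun g hg => ?_)
    · refine Fermat.Agent.M43.FixTorsJ1.tate_fixed_sq_eq_zero hq hq2' hqp ⟨hqN, hq2⟩ hA hσ x
        (fun τ hτ => hx τ (Or.inl hτ)) ?_
      have := hx (σ * σ) (Or.inr rfl)
      rwa [map_mul, Module.End.mul_apply] at this
    · rcases hg with hg | hg
      · exact hfix g hg
      · rw [Set.mem_singleton_iff.mp hg, map_mul, Module.End.mul_apply]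
        exact hσv

end Of

section Hecke

variable {p : ℕ} [Fact p.Prime] {N : ℕ} [NeZero N] {S : Finset ℕ}
  {𝒪' : Type} [CommRing 𝒪'] [IsDomain 𝒪'] [IsDiscreteValuationRing 𝒪']
  [IsAdicComplete (IsLocalRing.maximalIdeal 𝒪') 𝒪'] [CharZero 𝒪']

/-- twin of `EigenNewHecke8.eigenLatticeNew_of_hecke`: **`EigenLatticeNewRam` from Hecke elements
killing the non-toric part.** -/
theorem eigenLatticeNewRam_of_hecke (hpS : p ∈ S)
    (hS : ∀ q : ℕ, q.Prime → q ∣ N → q ∈ (↑S : Set ℕ))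
    (hp𝒪' : (p : 𝒪') ∈ IsLocalRing.maximalIdeal 𝒪')
    (χ : CuspForm.heckeAlgebra N 2 (↑S : Set ℕ) →+* 𝒪')
    (hnew : ∀ q : ℕ, q.Prime → q ≠ p → q ∣ N → ¬ q ^ 2 ∣ N →
      ∃ x₀ : ↥(CuspForm.heckeAlgebra N 2 (↑S : Set ℕ)), χ x₀ ≠ 0 ∧
        ∀ A : ValuationSubring Qb, A.LiesOverPrime q → ∀ σ : GQ, A.IsFrobeniusAt σ q →
          ∀ x : TJ p N,
            (rhoT p N σ ^ 6) (evJ (p := p) (↑S : Set ℕ) hS (1 ⊗ₜ[ℤ] x₀) x) +
                ((1 + 2 * q ^ 2 : ℕ) : ℤ_[p]) •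
                  (rhoT p N σ ^ 2) (evJ (p := p) (↑S : Set ℕ) hS (1 ⊗ₜ[ℤ] x₀) x) =
              ((2 + q ^ 2 : ℕ) : ℤ_[p]) •
                  (rhoT p N σ ^ 4) (evJ (p := p) (↑S : Set ℕ) hS (1 ⊗ₜ[ℤ] x₀) x) +
                ((q ^ 2 : ℕ) : ℤ_[p]) • evJ (p := p) (↑S : Set ℕ) hS (1 ⊗ₜ[ℤ] x₀) x) :
    EigenLatticeNewRam p N S 𝒪' χ := by
  classical
  let _ : Algebra ℤ_[p] 𝒪' := (Fermat.Agent.ES.J.PadicAlg8.padicToLocal p hp𝒪').toAlgebra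
  have hinj : Function.Injective (algebraMap ℤ_[p] 𝒪') :=
    Fermat.Agent.ES.P36.EigenInertOf12.padic_ringHom_injective
      (Fermat.Agent.ES.J.PadicAlg8.padicToLocal p hp𝒪')
  have : Module.IsTorsionFree ℤ_[p] 𝒪' := by
    refine Module.IsTorsionFree.of_smul_eq_zero fun r m h => ?_
    rw [Algebra.smul_def] at h
    rcases mul_eq_zero.mp h with h | h
    · left
      exact hinj (h.trans (map_zero _).symm)
    · right
      exact h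
  have hfin := Fermat.Agent.ES.J.S30Final8.k1 p N
  obtain ⟨hfinT, hfreeT⟩ := finite_free (p := p) (N := N) hfin
  -- the eigenvector of Program J, with its eigen-property for ALL Hecke elements
  have hι₀ : IsBaseChange ℤ_[p] (iotaJ p N) := isBaseChange_iotaJ p N
  let g : TJ p N →ₗ[ℤ_[p]] 𝒪' ⊗[ℤ_[p]] TJ p N := TensorProduct.mk ℤ_[p] 𝒪' (TJ p N) 1
  have hg : IsBaseChange 𝒪' g := TensorProduct.isBaseChange ℤ_[p] (TJ p N) 𝒪'
  have hι : IsBaseChange 𝒪' ((g.restrictScalars ℤ).comp (iotaJ p N)) := IsBaseChange.comp hι₀ hg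
  obtain ⟨w, hw0, hw⟩ :=
    Fermat.Agent.ES.ALG.EigenNonzero9.exists_eigenvector_of_isBaseChange
      ((g.restrictScalars ℤ).comp (iotaJ p N)) hι
      ((heckeLam (N := N) (↑S : Set ℕ) hS : _ →ₐ[ℤ] _) : _ →+* _)
      (heckeLam_injective (↑S : Set ℕ) hS) χ
  have hwE : ∀ x₀ : ↥(CuspForm.heckeAlgebra N 2 (↑S : Set ℕ)),
      (evJ (p := p) (↑S : Set ℕ) hS (1 ⊗ₜ[ℤ] x₀)).baseChange 𝒪' w = χ x₀ • w := by
    intro x₀
    refine hw x₀ _ fun l => ?_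
    show (evJ (p := p) (↑S : Set ℕ) hS (1 ⊗ₜ[ℤ] x₀)).baseChange 𝒪'
        ((1 : 𝒪') ⊗ₜ[ℤ_[p]] iotaJ p N l) =
      (1 : 𝒪') ⊗ₜ[ℤ_[p]] iotaJ p N (heckeLam (↑S : Set ℕ) hS x₀ l)
    rw [LinearMap.baseChange_tmul]
    congr 1
    unfold evJ
    rw [evT_tmul_apply, one_smul]
  refine eigenLatticeNewRam_of hpS hp𝒪' hfin χ w hw0 (fun ℓ hℓ hℓN hℓS => ?_) ?_
  · rw [← evJ_T (p := p) (↑S : Set ℕ) hS ℓ hℓ hℓN hℓS]
    exact hwE _
  · intro q hq hqp hqN hq2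
    obtain ⟨x₀, hx₀, hk⟩ := hnew q hq hqp hqN hq2
    refine ⟨evJ (p := p) (↑S : Set ℕ) hS (1 ⊗ₜ[ℤ] x₀), fun ℓ hℓ hℓN hℓS => ?_, ?_, hk⟩
    · rw [← evJ_T (p := p) (↑S : Set ℕ) hS ℓ hℓ hℓN hℓS]
      exact (Commute.all _ _).map (evJ (p := p) (↑S : Set ℕ) hS)
    · rw [hwE x₀]
      exact smul_ne_zero hx₀ hw0

end Hecke

end Fermat.Agent.M43.NewRamLat1
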