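/-
Programme M43 (target S43), pillar (P-END), **END-∃ = `NewRamIface1.NewRamExistsStmt`** (helper1).

* `exists_rep_of_eigenLatticeNewRam` : twin of `EigenNew8.exists_rep_of_eigenLatticeNew` with the new
  conclusion: at every odd `q ∥ N`, `q ≠ p`, if the rank-two representation is unramified at `q` then it
  has an invariant line spanned by a basis vector.  (If the rank-two lattice embeds into the
  eigen-lattice: Cayley–Hamilton with the characteristic polynomial `X² ∓ (q+1) X + q` of a Frobenius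
  lift `σ` gives `v ≠ 0` with `ρ(σ)² v = v`; it is fixed by inertia, so `v = 0` by the contract.)
* `newRamExists_of` : END-∃ from `FrobTors` and `SepStmt` (as `S35Top12.s35_of`);
* `newRamExists` : **END-∃, unconditional.**
-/
import Mathlib
import Fermat.Agent.M43.NewRamIface1
import Fermat.Agent.M43.NewRamAlg1
import Fermat.Agent.M43.NewRamLat1
import Fermat.Agent.ES.N35.S35Top12
import Fermat.Agent.ES.N35.SepPoly2
import Fermat.Agent.ES.N35.NodeItems29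
import Fermat.Agent.ES.N35.NormBarModel17
import Fermat.Agent.Lib.FrobeniusExists

set_option autoImplicit false
set_option linter.unusedSectionVars false
set_option linter.style.haveILetI false
set_option linter.overlappingInstances false
set_option synthInstance.maxHeartbeats 400000

open Polynomial

noncomputable section

namespace Fermat.Agent.M43.NewRam1

open Fermat.Agent.ES.ALG.RelDense9 Fermat.Agent.ES.ALG.RankTwo9 Fermat.Agent.ES.J.CycloChar8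
  Fermat.Agent.ES.J.S30Skeleton8 Fermat.Agent.ES.N35.EigenNew8 Fermat.Agent.M43.NewRamAlg1
  Fermat.Agent.M43.NewRamLat1

local notation "Qb" => AlgebraicClosure ℚ
local notation "GQ" => (AlgebraicClosure ℚ ≃ₐ[ℚ] AlgebraicClosure ℚ)

section Core

variable {p : ℕ} [Fact p.Prime] {N : ℕ} [NeZero N] {S : Finset ℕ}
  {𝒪' : Type} [CommRing 𝒪'] [IsDomain 𝒪'] [IsDiscreteValuationRing 𝒪']
  [IsAdicComplete (IsLocalRing.maximalIdeal 𝒪') 𝒪'] [CharZero 𝒪']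

/-- **The core of NEW ⟹ RAM**: the rank-two representation of Program J/O with, in addition, the
dichotomy at the odd primes `q ∥ N`, `q ≠ p`: ramified, or an invariant basis line. -/
theorem exists_rep_of_eigenLatticeNewRam (hpS : p ∈ S)
    (hNS : ∀ q : ℕ, q.Prime → q ∣ N → q ∈ S)
    (hp𝒪' : (p : 𝒪') ∈ IsLocalRing.maximalIdeal 𝒪')
    (χ : CuspForm.heckeAlgebra N 2 (↑S : Set ℕ) →+* 𝒪') (h : EigenLatticeNewRam p N S 𝒪' χ) :
    ∃ ρ : GaloisRepAdic 𝒪',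
      (∀ (ℓ : ℕ) (hℓ : ℓ.Prime) (hℓN : ¬ ℓ ∣ N) (hℓS : ℓ ∉ (↑S : Set ℕ)),
        ∀ A : ValuationSubring Qb, A.LiesOverPrime ℓ → ∀ σ : GQ, A.IsFrobeniusAt σ ℓ →
          LinearMap.charpoly (ρ.ρ σ) =
            X ^ 2 - C (χ (CuspForm.heckeAlgebra.T hℓ hℓN hℓS)) * X + C ((ℓ : 𝒪'))) ∧
      (∀ q : ℕ, q.Prime → ¬ q ∣ N → q ≠ p → ρ.IsUnramifiedAt q) ∧
      (∀ q : ℕ, q.Prime → q ≠ p → q ∣ N → ¬ q ^ 2 ∣ N →
        ∀ A : ValuationSubring Qb, A.LiesOverPrime q → ∀ σ : GQ, A.IsFrobeniusAt σ q →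
          LinearMap.charpoly (ρ.ρ σ) = X ^ 2 - C ((q : 𝒪') + 1) * X + C ((q : 𝒪')) ∨
          LinearMap.charpoly (ρ.ρ σ) = X ^ 2 + C ((q : 𝒪') + 1) * X + C ((q : 𝒪'))) ∧
      (∀ q : ℕ, q.Prime → q ≠ 2 → q ≠ p → q ∣ N → ¬ q ^ 2 ∣ N → ρ.IsUnramifiedAt q →
        ∃ b : Module.Basis (Fin 2) 𝒪' ρ.V, ∀ σ : GQ, ∃ c : 𝒪', ρ.ρ σ (b 0) = c • b 0) := by
  classical
  obtain ⟨Λ, _, _, _, _, _, ρ, hcont, hunr, hes, hnew, hram⟩ := h
  have hpprime : p.Prime := Fact.out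
  set 𝔪 := IsLocalRing.maximalIdeal 𝒪' with h𝔪
  set d : GQ →* 𝒪'ˣ := cycloO p hp𝒪' with hd
  -- the set of Frobenius lifts at the good primes
  let Φ : Set GQ := {σ | ∃ (ℓ : ℕ) (hℓ : ℓ.Prime) (hℓN : ¬ ℓ ∣ N) (hℓS : ℓ ∉ (↑S : Set ℕ))
    (A : ValuationSubring Qb), A.LiesOverPrime ℓ ∧ A.IsFrobeniusAt σ ℓ}
  let aΦ : GQ → 𝒪' := fun σ => if hσ : σ ∈ Φ then
    χ (CuspForm.heckeAlgebra.T hσ.choose_spec.choose hσ.choose_spec.choose_spec.choose
      hσ.choose_spec.choose_spec.choose_spec.choose) else 0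
  have hne_p : ∀ ℓ : ℕ, ℓ ∉ (↑S : Set ℕ) → ℓ ≠ p := fun ℓ hℓS h => hℓS (h ▸ hpS)
  have hΦ : ∀ σ ∈ Φ, ρ σ * ρ σ - aΦ σ • ρ σ + ((d σ : 𝒪'ˣ) : 𝒪') • (1 : Module.End 𝒪' Λ) = 0 := by
    intro σ hσ
    have hσ' := hσ
    obtain ⟨A, hA, hFr⟩ := hσ.choose_spec.choose_spec.choose_spec.choose_spec
    have e1 : aΦ σ = χ (CuspForm.heckeAlgebra.T hσ.choose_spec.choose
        hσ.choose_spec.choose_spec.choose hσ.choose_spec.choose_spec.choose_spec.choose) :=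
      dif_pos hσ'
    rw [e1, hd, cycloO_of_isFrobeniusAt p hp𝒪' hσ.choose_spec.choose
      (hne_p _ hσ.choose_spec.choose_spec.choose_spec.choose) A hA hFr]
    exact hes _ _ _ _ A hA σ hFr
  have hdense : ∀ (n : ℕ) (g : GQ), ∃ σ ∈ Φ, ∃ j : ℕ, EndCongr (𝔪 ^ n) (ρ g) (ρ σ ^ j) ∧
      ((d g : 𝒪'ˣ) : 𝒪') - ((d σ : 𝒪'ˣ) : 𝒪') ^ j ∈ 𝔪 ^ n := by
    intro n g
    obtain ⟨L₁, hL₁, h1⟩ := hcont n
    obtain ⟨L₂, hL₂, h2⟩ := cycloO_sub_one_mem p hp𝒪' n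
    have := hL₁
    have := hL₂
    obtain ⟨ℓ, A, φ, j, hℓ, hℓS, hA, hφ, hj⟩ :=
      Fermat.Agent.ES.GAL.ChebQbar23.exists_frobenius_pow_eq_on (L₁ ⊔ L₂) g S
    have hℓS' : ℓ ∉ (↑S : Set ℕ) := by simpa using hℓS
    have hℓN : ¬ ℓ ∣ N := fun hdvd => hℓS (hNS ℓ hℓ hdvd)
    refine ⟨φ, ⟨ℓ, hℓ, hℓN, hℓS', A, hA, hφ⟩, j, ?_, ?_⟩
    all_goals
      set τ : GQ := g⁻¹ * φ ^ j with hτ
      have hτfix : ∀ x ∈ L₁ ⊔ L₂, τ x = x := by
        intro x hx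
        rw [hτ, AlgEquiv.mul_apply, hj x hx]
        exact g.symm_apply_apply x
      have hφj : φ ^ j = g * τ := by rw [hτ, mul_inv_cancel_left]
    · have hc := h1 τ (fun x hx => hτfix x (le_sup_left (a := L₁) (b := L₂) hx))
      have e : ρ φ ^ j = ρ g * ρ τ := by rw [← map_pow, hφj, map_mul]
      rw [e]
      have := (hc.mul_left (ρ g)).symm
      rwa [mul_one] at this
    · have hc := h2 τ (fun x hx => hτfix x (le_sup_right (a := L₁) (b := L₂) hx))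
      have e : ((d φ : 𝒪'ˣ) : 𝒪') ^ j = ((d g : 𝒪'ˣ) : 𝒪') * ((d τ : 𝒪'ˣ) : 𝒪') := by
        rw [← Units.val_pow_eq_pow_val, ← map_pow, hφj, map_mul, Units.val_mul]
      rw [e]
      have e2 : ((d g : 𝒪'ˣ) : 𝒪') - ((d g : 𝒪'ˣ) : 𝒪') * ((d τ : 𝒪'ˣ) : 𝒪') =
          -(((d g : 𝒪'ˣ) : 𝒪') * (((d τ : 𝒪'ˣ) : 𝒪') - 1)) := by ring
      rw [e2]
      exact neg_mem (Ideal.mul_mem_left _ _ hc)
  obtain ⟨a, ha, haΦ⟩ := exists_trace_fun_of_dense ρ d (fun n => 𝔪 ^ n)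
    eq_zero_of_forall_mem_pow Φ aΦ hΦ hdense
  have h2 : (2 : 𝒪') ≠ 0 := two_ne_zero
  obtain ⟨Λ', _, _, _, _, ρ', hrk, hchar, hcongr, hemb⟩ :=
    exists_rankTwo_emb (c := complexConjugation) h2 ha complexConjugation_mul_self
      (cycloO_complexConjugation p hp𝒪')
  -- adic continuity
  have hcont' : GaloisActionIsAdicContinuous 𝒪' ρ' := by
    intro n
    obtain ⟨L₁, hL₁, h1⟩ := hcont n
    obtain ⟨L₂, hL₂, h2⟩ := cycloO_sub_one_mem p hp𝒪' n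
    have := hL₁
    have := hL₂
    refine ⟨L₁ ⊔ L₂, inferInstance, fun σ hσ v => ?_⟩
    exact hcongr (𝔪 ^ n) σ (h1 σ fun x hx => hσ x (le_sup_left (a := L₁) (b := L₂) hx))
      (h2 σ fun x hx => hσ x (le_sup_right (a := L₁) (b := L₂) hx)) v
  -- the `q`-clause of S35
  have hqclause : ∀ q : ℕ, q.Prime → q ≠ p → q ∣ N → ¬ q ^ 2 ∣ N →
      ∀ A : ValuationSubring Qb, A.LiesOverPrime q → ∀ σ : GQ, A.IsFrobeniusAt σ q →
        (ρ' σ).charpoly = X ^ 2 - C ((q : 𝒪') + 1) * X + C ((q : 𝒪')) ∨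
        (ρ' σ).charpoly = X ^ 2 + C ((q : 𝒪') + 1) * X + C ((q : 𝒪')) := by
    intro q hq hqp hqN hq2 A hA σ hσ
    have hdσ : ((d σ : 𝒪'ˣ) : 𝒪') = (q : 𝒪') :=
      cycloO_of_isFrobeniusAt p hp𝒪' hq hqp A hA hσ
    obtain ⟨v, hv0, hv⟩ := hnew q hq hqp hqN hq2 A hA σ hσ
    have hrel := ha σ
    rw [hdσ] at hrel
    have key : a σ ^ 2 = ((q : 𝒪') + 1) ^ 2 :=
      sq_eq_of_frob_poly (ρ σ) (ρ σ⁻¹) (rho_mul_inv ρ σ) (rho_inv_mul ρ σ) (a σ) (q : 𝒪')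
        hrel v hv0 hv
    rw [hchar σ, hdσ]
    have hfac : (a σ - ((q : 𝒪') + 1)) * (a σ + ((q : 𝒪') + 1)) = 0 := by
      linear_combination key
    rcases mul_eq_zero.mp hfac with h | h
    · left
      rw [sub_eq_zero.mp h]
    · right
      have e : a σ = -((q : 𝒪') + 1) := eq_neg_of_add_eq_zero_left h
      rw [e, C_neg]
      ring
  refine ⟨{ V := Λ', finrank_eq := hrk, ρ := ρ', isAdicContinuous := hcont' }, ?_, ?_, ?_, ?_⟩
  · -- characteristic polynomials at Frobenius lifts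
    intro ℓ hℓ hℓN hℓS A hA σ hσ
    change (ρ' σ).charpoly = _
    rw [hchar σ]
    have hdσ : ((d σ : 𝒪'ˣ) : 𝒪') = (ℓ : 𝒪') :=
      cycloO_of_isFrobeniusAt p hp𝒪' hℓ (hne_p ℓ hℓS) A hA hσ
    have haσ : a σ = χ (CuspForm.heckeAlgebra.T hℓ hℓN hℓS) := by
      have e1 := rel_of_quadratic (rho_mul_inv ρ σ) (δ := (ℓ : 𝒪'))
        (a := χ (CuspForm.heckeAlgebra.T hℓ hℓN hℓS)) (hes ℓ hℓ hℓN hℓS A hA σ hσ)
      have e2 := ha σ
      rw [hdσ, e1] at e2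
      have hpos : 0 < Module.finrank 𝒪' Λ := Module.finrank_pos
      exact (smul_one_injective_of_finrank_pos hpos e2).symm
    rw [haσ, hdσ]
  · -- unramified outside `Np`
    intro q hq hqN hqp P hP τ hτ
    have h1 : EndCongr (⊥ : Ideal 𝒪') (ρ τ) 1 := by
      rw [hunr q hq hqN hqp P hP τ hτ]
      exact EndCongr.refl _ _
    have h2 : ((d τ : 𝒪'ˣ) : 𝒪') - 1 ∈ (⊥ : Ideal 𝒪') := by
      rw [hd, cycloO_of_mem_inertia p hp𝒪' hq hqp P hP hτ, Units.val_one, sub_self]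
      exact Ideal.zero_mem _
    have h3 := hcongr ⊥ τ h1 h2
    change ρ' τ = 1
    apply LinearMap.ext
    intro v
    have := h3 v
    rw [Submodule.bot_smul, Submodule.mem_bot, sub_eq_zero] at this
    exact this
  · -- the `q`-clause
    intro q hq hqp hqN hq2 A hA σ hσ
    exact hqclause q hq hqp hqN hq2 A hA σ hσ
  · -- NEW ⟹ RAM
    intro q hq hq2' hqp hqN hq2 hunrq
    rcases hemb with ⟨emb, hinj, hequiv⟩ | ⟨b, hb⟩
    · exfalso
      obtain ⟨A, σ, hA, hσ⟩ := Fermat.Agent.Lib.exists_isFrobeniusAt q hq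
      have hq0 : ((q : ℕ) : 𝒪') ≠ 0 := Nat.cast_ne_zero.mpr hq.ne_zero
      have hq1 : ((q : ℕ) : 𝒪') ≠ 1 := by
        intro h1
        exact hq.one_lt.ne' (Nat.cast_eq_one.mp h1)
      obtain ⟨v, hv0, hv⟩ := exists_sq_fixed_of_charpoly hrk (ρ' σ) (q : 𝒪') hq0 hq1
        (hqclause q hq hqp hqN hq2 A hA σ hσ)
      have hz : emb v = 0 := by
        refine hram q hq hq2' hqp hqN hq2 A hA σ hσ (emb v) (fun τ hτ => ?_) ?_
        · rw [← hequiv]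
          have h1 : ρ' τ = 1 := hunrq A hA τ hτ
          rw [h1, Module.End.one_apply]
        · rw [← hequiv, ← hequiv, hv]
      exact hv0 (hinj (hz.trans (map_zero emb).symm))
    · exact ⟨b, hb⟩

end Core

/-! ### END-∃ -/

open Fermat.Agent.ES.N35.PushO12 Fermat.Agent.ES.N35.TateFrob12
  Fermat.Agent.ES.J.TateModule13 Fermat.Agent.ES.J.TateJZero13 Fermat.Agent.ES.N35.QNewCore19
  Fermat.Agent.ES.N35.S35Top12 Fermat.Agent.ES.K.HeckeTate26 AlgebraicCurve ModularCurve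
  TensorProduct

/-- **END-∃ from `FrobTors` and `SepStmt`** (twin of `S35Top12.s35_of`). -/
theorem newRamExists_of (hFT : FrobTors) (hsep : SepStmt) :
    Fermat.Agent.M43.NewRamIface1.NewRamExistsStmt := by
  intro M _ g hg lam _ S O' _ _ _ _ _ _ hlamO' chig hchig iota hlamS hMS
  have hS : ∀ q : ℕ, q.Prime → q ∣ M → q ∈ (↑S : Set ℕ) :=
    fun q hq h => Finset.mem_coe.mpr (hMS q hq h)
  have H : EigenLatticeNewRam lam M S O' (iota.comp chig.rangeRestrict) := by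
    refine eigenLatticeNewRam_of_hecke hlamS hS hlamO' (iota.comp chig.rangeRestrict)
      (fun q hq hqlam hqM hq2 => ?_)
    -- split the level: `M = M₀ * q`, `q ∤ M₀`
    obtain ⟨M₀, rfl⟩ : ∃ M₀, M = M₀ * q := ⟨M / q, (Nat.div_mul_cancel hqM).symm⟩
    have hM0 : M₀ ≠ 0 := fun h => NeZero.ne (M₀ * q) (by rw [h, zero_mul])
    haveI : NeZero M₀ := ⟨hM0⟩
    haveI : NeZero q := ⟨hq.ne_zero⟩
    have hqM₀ : ¬ q ∣ M₀ := by
      intro h
      apply hq2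
      rw [pow_two]
      exact Nat.mul_dvd_mul h (dvd_refl q)
    have hdvd : M₀ ∣ M₀ * q := dvd_mul_right M₀ q
    have hne : M₀ ≠ M₀ * q := by
      intro h
      have h1 : M₀ * 1 = M₀ * q := by rw [mul_one]; exact h
      have := Nat.eq_of_mul_eq_mul_left (Nat.pos_of_ne_zero hM0) h1
      exact hq.one_lt.ne this
    -- the separating polynomial and the element `x₀`
    obtain ⟨s, hs0, hsg⟩ := hsep hdvd hne hg S hMS
    obtain ⟨x₀, hx₀, hD⟩ := exists_qnew_of_sep lam S hlamS hMS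
      (fun r hr h => hMS r hr (h.trans hdvd)) hS chig hchig s hs0 hsg
    refine ⟨x₀, ?_, fun A hA σ hσ x => ?_⟩
    · intro h0
      apply hx₀
      have h1 : iota (chig.rangeRestrict x₀) = iota 0 := by rw [map_zero]; exact h0
      exact congrArg Subtype.val (iota_injective chig iota h1)
    · exact tate_frob hFT hq hqM₀ hqlam A hA σ hσ _
        (hD (alphaT lam hq hqM₀) (alphaT_rhoT hq hqM₀) x)
        (hD (betaT lam hq hqM₀) (betaT_rhoT hq hqM₀) x)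
  obtain ⟨ρ, h1, _, _, h4⟩ :=
    exists_rep_of_eigenLatticeNewRam hlamS hMS hlamO' (iota.comp chig.rangeRestrict) H
  exact ⟨ρ, h1, fun q hq hq2' hqlam hqM hq2 hunr => h4 q hq hq2' hqlam hqM hq2 hunr⟩

/-- **END-∃, unconditional.** -/
theorem newRamExists : Fermat.Agent.M43.NewRamIface1.NewRamExistsStmt :=
  newRamExists_of
    (frobTors_of_num (Fermat.Agent.ES.N35.NumO13.numStepO_of_suppliers
      Fermat.Agent.ES.N35.NormBarModel17.hnorm
      (fun q M' _ _ A hq hqM h2 hM hA =>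
        Fermat.Agent.ES.N35.NodeItems29.nodeItems_four q M' A hq hqM h2 hM hA)
      (fun M' _ A hqM hM hA => Fermat.Agent.ES.N35.NodeItems29.nodeItems_nine M' A hqM hM hA)))
    (@fun _ _ _ _ hdvd hne _ hg S hMS =>
      Fermat.Agent.ES.N35.SepPoly2.exists_sep hdvd hne hg S hMS)

end Fermat.Agent.M43.NewRam1
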