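/-
Programme M43 (target S43), pillar (P-END), **END-∀ = `NewRamIface1.NewRamStmt`** (helper1).

* `isEquiv_of_charpoly_frob` : **Carayol uniqueness** over a complete noetherian local ring `T`: two
  representations with the same characteristic polynomials `X² - τ_ℓ X + ℓ` at the Frobenius elements
  outside a finite set, the residual representation of the first having an element with two distinct
  eigenvalues and no invariant line, are equivalent (`CarFinal0.exists_galoisRepAdic_of_frobenius` for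
  the family `T, T, ResidueField T`);
* `trace_det_complexConjugation` : cyclotomic determinant, `p` odd ⟹ `tr ρ̄(c) = 0`, `det ρ̄(c) = -1`;
* `newRam_of_exists : NewRamExistsStmt → NewRamStmt` and **`newRam : NewRamStmt`**.
-/
import Mathlib
import Fermat.Agent.M43.NewRam1
import Fermat.Agent.M43.CarFinal0
import Fermat.Agent.M43.DatumRep3
import Fermat.Agent.M43.GlobBN3
import Fermat.Agent.M43.GlobDet3
import Fermat.Agent.W56.Ad0Facts9

set_option autoImplicit false
set_option linter.unusedSectionVars false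
set_option linter.style.haveILetI false
set_option linter.overlappingInstances false
set_option synthInstance.maxHeartbeats 400000

namespace Fermat.Agent.M43.NewRamGen1

open IsLocalRing Polynomial Fermat.Agent.M43.CarRep0 Fermat.Agent.M43.DatumRep3
  Fermat.Agent.M43.GlobBN3
open scoped TensorProduct

local notation "Qb" => AlgebraicClosure ℚ
local notation "GQ" => (AlgebraicClosure ℚ ≃ₐ[ℚ] AlgebraicClosure ℚ)

/-! ### Carayol uniqueness -/

section Carayol

variable {T : Type} [CommRing T] [IsLocalRing T] [IsNoetherianRing T]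
  [IsAdicComplete (maximalIdeal T) T]

/-- the Frobenius characteristic polynomials of the residual representation. -/
theorem charpoly_residual (ρ : GaloisRepAdic T) (φ : GQ) (t d : T)
    (h : LinearMap.charpoly (ρ.ρ φ) = X ^ 2 - C t * X + C d) :
    LinearMap.charpoly ((GaloisRepAdic.ofResidualGaloisRep ρ.residual).ρ φ) =
      X ^ 2 - C (residue T t) * X + C (residue T d) := by
  have e : LinearMap.charpoly ((ρ.ρ φ).baseChange (ResidueField T)) =
      (LinearMap.charpoly (ρ.ρ φ)).map (algebraMap T (ResidueField T)) :=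
    LinearMap.charpoly_baseChange (ρ.ρ φ) (ResidueField T)
  show LinearMap.charpoly ((ρ.ρ φ).baseChange (ResidueField T)) = _
  rw [e, h]
  simp only [Polynomial.map_add, Polynomial.map_sub, Polynomial.map_mul, Polynomial.map_pow,
    Polynomial.map_X, Polynomial.map_C]
  rfl

/-- **Carayol uniqueness.** -/
theorem isEquiv_of_charpoly_frob (ρ₁ ρ₂ : GaloisRepAdic T) (S : Finset ℕ) (τ : ℕ → T)
    (h₁ : ∀ ℓ : ℕ, ℓ.Prime → ℓ ∉ S → ∀ A : ValuationSubring Qb, A.LiesOverPrime ℓ →
      ∀ φ : GQ, A.IsFrobeniusAt φ ℓ →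
        LinearMap.charpoly (ρ₁.ρ φ) = X ^ 2 - C (τ ℓ) * X + C ((ℓ : T)))
    (h₂ : ∀ ℓ : ℕ, ℓ.Prime → ℓ ∉ S → ∀ A : ValuationSubring Qb, A.LiesOverPrime ℓ →
      ∀ φ : GQ, A.IsFrobeniusAt φ ℓ →
        LinearMap.charpoly (ρ₂.ρ φ) = X ^ 2 - C (τ ℓ) * X + C ((ℓ : T)))
    (g1 : GQ) (a b : ResidueField T) (hab : a ≠ b)
    (htr1 : (GaloisRepAdic.ofResidualGaloisRep ρ₁.residual).trace g1 = a + b)
    (hdet1 : LinearMap.det ((GaloisRepAdic.ofResidualGaloisRep ρ₁.residual).ρ g1) = a * b)
    (hirr : ∀ v : ρ₁.residual.V, v ≠ 0 →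
      ¬ ∀ σ : GQ, ∃ c : ResidueField T, ρ₁.residual.ρ σ v = c • v) :
    ρ₁.IsEquiv ρ₂ := by
  classical
  let O : Fin 2 → Type := fun _ => T
  let ψ' : ∀ o : Option (Fin 2), T →+* optFam (ResidueField T) O o := fun o =>
    match o with
    | none => residue T
    | some _ => RingHom.id T
  let ρ' : ∀ o : Option (Fin 2), GaloisRepAdic (optFam (ResidueField T) O o) := fun o =>
    match o with
    | none => GaloisRepAdic.ofResidualGaloisRep ρ₁.residual
    | some i => if i = 0 then ρ₁ else ρ₂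
  have hloc' : ∀ o, IsLocalHom (ψ' o) := by
    intro o
    cases o with
    | none => exact (inferInstance : IsLocalHom (residue T))
    | some i => exact ⟨fun _ h => h⟩
  have hinj' : ∀ x : T, (∀ o, ψ' o x = 0) → x = 0 := fun x hx => hx (some 0)
  have htop : ∀ n : ℕ, ∃ N : ℕ, ∀ x : T,
      (∀ o, ψ' o x ∈ maximalIdeal (optFam (ResidueField T) O o) ^ N) → x ∈ maximalIdeal T ^ n :=
    fun n => ⟨n, fun x hx => hx (some 0)⟩
  obtain ⟨ρT, hT, -⟩ := CarFinal0.exists_galoisRepAdic_of_frobenius ψ' hloc' hinj' htop ρ' S τ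
    (by
      intro o
      cases o with
      | none =>
        intro ℓ hℓ hℓS A hA φ hφ
        have := charpoly_residual ρ₁ φ (τ ℓ) (ℓ : T) (h₁ ℓ hℓ hℓS A hA φ hφ)
        rw [map_natCast] at this
        exact this
      | some i =>
        intro ℓ hℓ hℓS A hA φ hφ
        fin_cases i
        · exact h₁ ℓ hℓ hℓS A hA φ hφ
        · exact h₂ ℓ hℓ hℓS A hA φ hφ)
    none (residue_surjective : Function.Surjective (residue T))
    (Field.toIsField (ResidueField T)) g1 a b hab htr1 hdet1 hirr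
  have e0 : (ρT.baseChangeAlong (RingHom.id T) (hloc' (some 0))).IsEquiv ρ₁ := hT (some 0)
  have e1 : (ρT.baseChangeAlong (RingHom.id T) (hloc' (some 1))).IsEquiv ρ₂ := hT (some 1)
  have hid := isEquiv_baseChangeAlong_id ρT (hloc' (some 0))
  exact isEquiv_trans (isEquiv_trans (isEquiv_symm e0) hid)
    (isEquiv_trans (isEquiv_symm hid) e1)

end Carayol

/-! ### complex conjugation -/

section Conj

variable {k : Type} [Field k] (p : ℕ) [Fact p.Prime] [CharP k p]

/-- cyclotomic determinant, `p` odd: `tr ρ̄(c) = 0` and `det ρ̄(c) = -1`. -/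
theorem trace_det_complexConjugation (ρ₁ : ResidualGaloisRep k)
    (hdet : (GaloisRepAdic.ofResidualGaloisRep ρ₁).DetIsCyclotomic p) :
    (GaloisRepAdic.ofResidualGaloisRep ρ₁).trace complexConjugation = 0 ∧
      LinearMap.det ((GaloisRepAdic.ofResidualGaloisRep ρ₁).ρ complexConjugation) = -1 := by
  set R₁ := GaloisRepAdic.ofResidualGaloisRep ρ₁ with hR₁
  have hd : LinearMap.det (R₁.ρ complexConjugation) = -1 :=
    Fermat.Agent.W56.Ad0Facts9.det_complexConjugation ρ₁ p hdet
  refine ⟨?_, hd⟩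
  set M := R₁.ρ complexConjugation with hM
  have hMM : M * M = 1 := by
    rw [hM, ← map_mul, complexConjugation_mul_self, map_one]
  have hcp := CarFinal0.charpoly_eq_of_trace_det R₁ complexConjugation
    (R₁.trace complexConjugation) (-1) rfl hd
  have hCH := LinearMap.aeval_self_charpoly M
  rw [hcp] at hCH
  simp only [map_add, map_sub, map_pow, aeval_X, map_mul, aeval_C, map_neg, map_one] at hCH
  rw [sq, hMM] at hCH
  have h2 : algebraMap k (Module.End k R₁.V) (R₁.trace complexConjugation) * M = 0 := by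
    have : (1 : Module.End k R₁.V) -
        algebraMap k (Module.End k R₁.V) (R₁.trace complexConjugation) * M + -1 = 0 := hCH
    have h3 : algebraMap k (Module.End k R₁.V) (R₁.trace complexConjugation) * M =
        (1 : Module.End k R₁.V) + -1 - ((1 : Module.End k R₁.V) -
        algebraMap k (Module.End k R₁.V) (R₁.trace complexConjugation) * M + -1) := by abel
    rw [h3, this]; abel
  have h4 : algebraMap k (Module.End k R₁.V) (R₁.trace complexConjugation) = 0 := by
    have := congrArg (· * M) h2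
    simp only [mul_assoc, hMM, mul_one, zero_mul] at this
    exact this
  have hnt : Nontrivial R₁.V := by
    have : Module.finrank k R₁.V = 2 := R₁.finrank_eq
    exact Module.nontrivial_of_finrank_pos (R := k) (by omega)
  exact (FaithfulSMul.algebraMap_injective k (Module.End k R₁.V))
    (by rw [h4, map_zero])

end Conj

/-! ### END-∀ -/

open Fermat.Agent.M43.NewRamIface1

/-- **END-∀ from END-∃** (Carayol uniqueness + complex conjugation). -/
theorem newRam_of_exists (hE : NewRamExistsStmt) : NewRamStmt := by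
  intro M _ g hg lam _ hlam2 S O' _ _ _ _ _ _ hlamO' chig hchig iota hlamS hMS ρ hρ hirr q hq hq2'
    hqlam hqM hq2 hunr
  classical
  have hlam : lam.Prime := Fact.out
  obtain ⟨ρ', hρ', hdich⟩ := hE hg lam S O' hlamO' chig hchig iota hlamS hMS
  -- the common trace function
  have hnd : ∀ ℓ : ℕ, ℓ.Prime → ℓ ∉ S → ¬ ℓ ∣ M := fun ℓ hℓ hℓS hd => hℓS (hMS ℓ hℓ hd)
  let τ : ℕ → O' := fun ℓ => if h : ℓ.Prime ∧ ℓ ∉ S then
    (iota.comp chig.rangeRestrict) (CuspForm.heckeAlgebra.T h.1 (hnd ℓ h.1 h.2)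
      (by simpa using h.2)) else 0
  have hτ : ∀ (ℓ : ℕ) (hℓ : ℓ.Prime) (hℓS : ℓ ∉ S), τ ℓ =
      (iota.comp chig.rangeRestrict) (CuspForm.heckeAlgebra.T hℓ (hnd ℓ hℓ hℓS)
        (by simpa using hℓS)) := fun ℓ hℓ hℓS => dif_pos ⟨hℓ, hℓS⟩
  have h₁ : ∀ ℓ : ℕ, ℓ.Prime → ℓ ∉ S → ∀ A : ValuationSubring Qb, A.LiesOverPrime ℓ →
      ∀ φ : GQ, A.IsFrobeniusAt φ ℓ →
        LinearMap.charpoly (ρ.ρ φ) = X ^ 2 - C (τ ℓ) * X + C ((ℓ : O')) := by
    intro ℓ hℓ hℓS A hA φ hφ
    rw [hτ ℓ hℓ hℓS]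
    exact hρ ℓ hℓ (hnd ℓ hℓ hℓS) (by simpa using hℓS) A hA φ hφ
  have h₂ : ∀ ℓ : ℕ, ℓ.Prime → ℓ ∉ S → ∀ A : ValuationSubring Qb, A.LiesOverPrime ℓ →
      ∀ φ : GQ, A.IsFrobeniusAt φ ℓ →
        LinearMap.charpoly (ρ'.ρ φ) = X ^ 2 - C (τ ℓ) * X + C ((ℓ : O')) := by
    intro ℓ hℓ hℓS A hA φ hφ
    rw [hτ ℓ hℓ hℓS]
    exact hρ' ℓ hℓ (hnd ℓ hℓ hℓS) (by simpa using hℓS) A hA φ hφ
  -- the residual representation: cyclotomic determinant, complex conjugation
  set k := ResidueField O' with hk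
  have hlamk : ((lam : ℕ) : k) = 0 := by
    have : residue O' ((lam : ℕ) : O') = 0 := (residue_eq_zero_iff _).mpr hlamO'
    rwa [map_natCast] at this
  haveI : CharP k lam := (CharP.charP_iff_prime_eq_zero hlam).mpr hlamk
  have hlamk' : ((lam : ℕ) : k) ∈ maximalIdeal k := by
    rw [hlamk]
    exact Ideal.zero_mem _
  have hdetk : (GaloisRepAdic.ofResidualGaloisRep ρ.residual).DetIsCyclotomic lam := by
    refine Fermat.Agent.M43.GlobDet3.detIsCyclotomic_of_charpoly lam hlamk'
      (GaloisRepAdic.ofResidualGaloisRep ρ.residual) S hlamS (fun ℓ => residue O' (τ ℓ))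
      (fun ℓ hℓ hℓS A hA φ hφ => ?_)
    have := charpoly_residual ρ φ (τ ℓ) (ℓ : O') (h₁ ℓ hℓ hℓS A hA φ hφ)
    rw [map_natCast] at this
    exact this
  obtain ⟨htr, hdt⟩ := trace_det_complexConjugation lam ρ.residual hdetk
  have hne : (1 : k) ≠ -1 := by
    intro h
    have h2 : (2 : k) = 0 := by
      have : (1 : k) + 1 = 0 := by nth_rewrite 2 [h]; ring
      rw [← this]; norm_num
    have h2' : ((2 : ℕ) : k) = 0 := by exact_mod_cast h2
    rw [CharP.cast_eq_zero_iff k lam] at h2'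
    exact hlam2 ((Nat.prime_dvd_prime_iff_eq hlam Nat.prime_two).mp h2')
  -- Carayol
  obtain ⟨e⟩ := isEquiv_of_charpoly_frob ρ ρ' S τ h₁ h₂ complexConjugation 1 (-1) hne
    (by rw [htr]; ring) (by rw [hdt]; ring) hirr
  -- `ρ'` is unramified at `q`
  have hunr' : ρ'.IsUnramifiedAt q := by
    intro P hP σ hσ
    apply LinearMap.ext
    intro y
    have h1 := e.map_apply σ (e.toLinearEquiv.symm y)
    rw [LinearEquiv.apply_symm_apply, hunr P hP σ hσ, Module.End.one_apply,
      LinearEquiv.apply_symm_apply] at h1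
    rw [Module.End.one_apply]
    exact h1.symm
  obtain ⟨b, hb⟩ := hdich q hq hq2' hqlam hqM hq2 hunr'
  -- the invariant line of `ρ`, and of its residual representation
  let b' : Module.Basis (Fin 2) O' ρ.V := b.map e.toLinearEquiv.symm
  have hb' : ∀ σ : GQ, ∃ c : O', ρ.ρ σ (b' 0) = c • b' 0 := by
    intro σ
    obtain ⟨c, hc⟩ := hb σ
    refine ⟨c, ?_⟩
    apply e.toLinearEquiv.injective
    rw [e.map_apply, map_smul]
    show ρ'.ρ σ (e.toLinearEquiv (e.toLinearEquiv.symm (b 0))) =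
      c • e.toLinearEquiv (e.toLinearEquiv.symm (b 0))
    rw [LinearEquiv.apply_symm_apply]
    exact hc
  let bk : Module.Basis (Fin 2) k (k ⊗[O'] ρ.V) := b'.baseChange k
  have hv0 : ((1 : k) ⊗ₜ[O'] b' 0 : k ⊗[O'] ρ.V) ≠ 0 := by
    have := bk.ne_zero 0
    rwa [Module.Basis.baseChange_apply] at this
  refine hirr ((1 : k) ⊗ₜ[O'] b' 0) hv0 (fun σ => ?_)
  obtain ⟨c, hc⟩ := hb' σ
  refine ⟨residue O' c, ?_⟩
  show (ρ.ρ σ).baseChange k ((1 : k) ⊗ₜ[O'] b' 0) = _
  rw [LinearMap.baseChange_tmul, hc, TensorProduct.tmul_smul]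
  rfl

/-- **END-∀ (NEW ⟹ RAM), unconditional.** -/
theorem newRam : NewRamStmt := newRam_of_exists Fermat.Agent.M43.NewRam1.newRamExists

end Fermat.Agent.M43.NewRamGen1
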