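/-
Programme M43 (target S43), Hecke side (final assembly), helper2: **Carayol's uniqueness along a
local homomorphism** (the field `hρ0` of `Iface2.HeckeLevel` / the input `hρ0` of
`LevelAsm5.nonempty_heckeLevel`).

`isEquiv_baseChangeAlong_of_charpoly` : `ρ` over a local ring `A`, `ρ0` over a complete noetherian
local ring `T0` whose residual representation is absolutely irreducible (residue characteristic `p`
odd), `π : A → T0` local; if the characteristic polynomials at the Frobenius elements outside a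
finite set `Sf ∋ p` are `X² − a_ℓ X + ℓ`, resp. `X² − t0_ℓ X + ℓ` with `π (a_ℓ) = t0_ℓ`, then the
base change of `ρ` along `π` is equivalent to `ρ0` (`NewRamGen1.isEquiv_of_charpoly_frob`, complex
conjugation as the element with distinct eigenvalues).
-/
import Mathlib
import Fermat.Agent.M43.NewRamGen1

set_option autoImplicit false
set_option linter.style.haveILetI false
set_option linter.unusedSectionVars false

namespace Fermat.Agent.M43.TopCarayol2

open IsLocalRing Polynomial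
open scoped TensorProduct

local notation "Qb" => AlgebraicClosure ℚ
local notation "GQ" => (AlgebraicClosure ℚ ≃ₐ[ℚ] AlgebraicClosure ℚ)

/-- the characteristic polynomials of a base change along a ring homomorphism. -/
theorem charpoly_baseChangeAlong {A B : Type} [CommRing A] [IsLocalRing A] [CommRing B]
    [IsLocalRing B] (π : A →+* B) (hloc : IsLocalHom π) (ρ : GaloisRepAdic A) (σ : GQ) :
    LinearMap.charpoly ((ρ.baseChangeAlong π hloc).ρ σ) =
      (LinearMap.charpoly (ρ.ρ σ)).map π := by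
  letI : Algebra A B := π.toAlgebra
  show LinearMap.charpoly ((ρ.ρ σ).baseChange B) = _
  rw [LinearMap.charpoly_baseChange]
  rfl

/-- **Carayol's uniqueness along a local homomorphism.** -/
theorem isEquiv_baseChangeAlong_of_charpoly {A T0 : Type} [CommRing A] [IsLocalRing A]
    [CommRing T0] [IsLocalRing T0] [IsNoetherianRing T0] [IsAdicComplete (maximalIdeal T0) T0]
    (p : ℕ) [hp : Fact p.Prime] (hp2 : p ≠ 2) [CharP (ResidueField T0) p]
    (ρ : GaloisRepAdic A) (ρ0 : GaloisRepAdic T0) (π : A →+* T0) (hloc : IsLocalHom π)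
    (Sf : Finset ℕ) (hpS : p ∈ Sf) (t0 : ℕ → T0)
    (hρ : ∀ ℓ : ℕ, ℓ.Prime → ℓ ∉ Sf → ∃ a : A, π a = t0 ℓ ∧
      ∀ P : ValuationSubring Qb, P.LiesOverPrime ℓ → ∀ φ : GQ, P.IsFrobeniusAt φ ℓ →
        LinearMap.charpoly (ρ.ρ φ) = X ^ 2 - C a * X + C ((ℓ : A)))
    (hρ0 : ∀ ℓ : ℕ, ℓ.Prime → ℓ ∉ Sf → ∀ P : ValuationSubring Qb, P.LiesOverPrime ℓ →
      ∀ φ : GQ, P.IsFrobeniusAt φ ℓ →
        LinearMap.charpoly (ρ0.ρ φ) = X ^ 2 - C (t0 ℓ) * X + C ((ℓ : T0)))
    (habs : ρ0.residual.IsAbsolutelyIrreducible) :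
    (ρ.baseChangeAlong π hloc).IsEquiv ρ0 := by
  classical
  set k := ResidueField T0 with hk
  have hpk : ((p : ℕ) : k) ∈ maximalIdeal k := by
    rw [CharP.cast_eq_zero k p]
    exact Ideal.zero_mem _
  have hdetk : (GaloisRepAdic.ofResidualGaloisRep ρ0.residual).DetIsCyclotomic p := by
    refine Fermat.Agent.M43.GlobDet3.detIsCyclotomic_of_charpoly p hpk
      (GaloisRepAdic.ofResidualGaloisRep ρ0.residual) Sf hpS (fun ℓ => residue T0 (t0 ℓ))
      (fun ℓ hℓ hℓS P hP φ hφ => ?_)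
    have := NewRamGen1.charpoly_residual ρ0 φ (t0 ℓ) (ℓ : T0) (hρ0 ℓ hℓ hℓS P hP φ hφ)
    rw [map_natCast] at this
    exact this
  obtain ⟨htr, hdt⟩ := NewRamGen1.trace_det_complexConjugation p ρ0.residual hdetk
  have hne : (1 : k) ≠ -1 := by
    intro h
    have h2 : (2 : k) = 0 := by
      have : (1 : k) + 1 = 0 := by nth_rewrite 2 [h]; ring
      rw [← this]; norm_num
    have h2' : ((2 : ℕ) : k) = 0 := by exact_mod_cast h2
    rw [CharP.cast_eq_zero_iff k p] at h2'
    exact hp2 ((Nat.prime_dvd_prime_iff_eq hp.out Nat.prime_two).mp h2')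
  have h₂ : ∀ ℓ : ℕ, ℓ.Prime → ℓ ∉ Sf → ∀ P : ValuationSubring Qb, P.LiesOverPrime ℓ →
      ∀ φ : GQ, P.IsFrobeniusAt φ ℓ →
        LinearMap.charpoly ((ρ.baseChangeAlong π hloc).ρ φ) =
          X ^ 2 - C (t0 ℓ) * X + C ((ℓ : T0)) := by
    intro ℓ hℓ hℓS P hP φ hφ
    obtain ⟨a, ha, hcp⟩ := hρ ℓ hℓ hℓS
    rw [charpoly_baseChangeAlong, hcp P hP φ hφ]
    simp only [Polynomial.map_add, Polynomial.map_sub, Polynomial.map_pow, Polynomial.map_X,
      Polynomial.map_mul, Polynomial.map_C]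
    rw [map_natCast, ha]
  obtain ⟨e⟩ := NewRamGen1.isEquiv_of_charpoly_frob ρ0 (ρ.baseChangeAlong π hloc) Sf t0 hρ0 h₂
    complexConjugation 1 (-1) hne (by rw [htr]; ring) (by rw [hdt]; ring)
    (Fermat.Agent.M43.GlobBN3.no_invariant_line_of_isAbsolutelyIrreducible ρ0.residual habs)
  exact ⟨e.symm⟩

end Fermat.Agent.M43.TopCarayol2
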