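/-
Programme M43 (target S43), Hecke side (final assembly), helper2: **the arithmetic of the level
`M = N ∏_{q ∈ Q} q` of the Hecke–Galois datum above `An`** for helper5's `LevelSetup5.Setup`
(`N = N0 ∏ qv`, `Q` = the odd primes of `N0` and the Taylor–Wiles primes `qv`,
`Sn = S ∪ qv`).
-/
import Mathlib
import Fermat.Agent.M43.LevelSetup5

set_option autoImplicit false
set_option linter.unusedSectionVars false
set_option linter.style.haveILetI false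

noncomputable section

namespace Fermat.Agent.M43.TopLevelArith2

open Fermat.Agent.M43.LevelSetup5 Fermat.Agent.M43.LevelGrp5 Fermat.Agent.M43.ChainGrp5
  Fermat.Agent.W56.Defs9

variable {p N0 : ℕ} {S : Finset ℕ} {N : ℕ} [NeZero N] {n r : ℕ} (D : Setup p N0 S N n r)

/-- the set of primes of the datum of level `(n, qv)`. -/
def Sn : Finset ℕ := S ∪ Finset.univ.image D.qv

/-- the product of the primes of the chain. -/
def PQ : ℕ := ∏ q ∈ Finset.univ.image D.frame.c.ℓ, q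

/-- the level of the datum of level `(n, qv)`. -/
def Mn : ℕ := N * PQ D

theorem mem_Sn {x : ℕ} : x ∈ Sn D ↔ x ∈ S ∨ ∃ i, D.qv i = x := by
  unfold Sn
  rw [Finset.mem_union, Finset.mem_image]
  constructor
  · rintro (h | ⟨i, -, h⟩)
    · exact Or.inl h
    · exact Or.inr ⟨i, h⟩
  · rintro (h | ⟨i, h⟩)
    · exact Or.inl h
    · exact Or.inr ⟨i, Finset.mem_univ i, h⟩

theorem q_mem_Sn (a : ↥(primesOf (Zs N0)) ⊕ Fin r) : D.q a ∈ Sn D := by
  rw [mem_Sn]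
  rcases a with z | i
  · exact Or.inl (D.z_mem_S z)
  · exact Or.inr ⟨i, rfl⟩

theorem chain_ℓ_mem_Sn (i : Fin D.frame.s) : D.frame.c.ℓ i ∈ Sn D := by
  rw [D.chain_ℓ]
  exact q_mem_Sn D _

theorem prime_dvd_N_mem_Sn {x : ℕ} (hx : x.Prime) (hd : x ∣ N) : x ∈ Sn D := by
  rw [mem_Sn]
  have h : x ∣ N0 * ∏ i, D.qv i := hd.trans (dvd_of_eq D.hN)
  rcases (Nat.Prime.dvd_mul hx).mp h with h | h
  · exact Or.inl (D.hNS x hx h)
  · obtain ⟨i, _, hi⟩ := (Prime.dvd_finsetProd_iff (Nat.Prime.prime hx) _).mp h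
    exact Or.inr ⟨i, ((Nat.prime_dvd_prime_iff_eq hx (D.qprime i)).mp hi).symm⟩

theorem prime_dvd_PQ {x : ℕ} (hx : x.Prime) (hd : x ∣ PQ D) : ∃ i, D.frame.c.ℓ i = x := by
  unfold PQ at hd
  obtain ⟨y, hy, hxy⟩ := (Prime.dvd_finsetProd_iff (Nat.Prime.prime hx) _).mp hd
  obtain ⟨i, -, rfl⟩ := Finset.mem_image.mp hy
  exact ⟨i, ((Nat.prime_dvd_prime_iff_eq hx (D.chain_ℓ_prime i).1).mp hxy).symm⟩

theorem prime_dvd_Mn_mem_Sn {x : ℕ} (hx : x.Prime) (hd : x ∣ Mn D) : x ∈ Sn D := by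
  unfold Mn at hd
  rcases (Nat.Prime.dvd_mul hx).mp hd with h | h
  · exact prime_dvd_N_mem_Sn D hx h
  · obtain ⟨i, rfl⟩ := prime_dvd_PQ D hx h
    exact chain_ℓ_mem_Sn D i

theorem PQ_ne_zero : PQ D ≠ 0 := by
  unfold PQ
  rw [Finset.prod_ne_zero_iff]
  intro y hy
  obtain ⟨i, -, rfl⟩ := Finset.mem_image.mp hy
  exact (D.chain_ℓ_prime i).1.ne_zero

theorem Mn_ne_zero : Mn D ≠ 0 := Nat.mul_ne_zero (NeZero.ne N) (PQ_ne_zero D)

instance neZero_Mn : NeZero (Mn D) := ⟨Mn_ne_zero D⟩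

theorem N_dvd_Mn : N ∣ Mn D := Dvd.intro _ rfl

/-- `p` does not divide the level of the datum. -/
theorem not_p_dvd_Mn (hpN0 : ¬ p ∣ N0) : ¬ p ∣ Mn D := by
  intro hd
  have hp := D.hp
  have hq : ∀ a, p ≠ D.q a := by
    rintro (z | i) h
    · exact hpN0 (h ▸ Setup.z_dvd z)
    · have h1 : p ∣ D.qv i - 1 :=
        Dvd.dvd.trans (dvd_pow_self p (Nat.succ_ne_zero n)) (D.qdvd i)
      have h2 : D.qv i = p := h.symm
      rw [h2] at h1
      have h3 : p ≤ p - 1 := Nat.le_of_dvd (Nat.sub_pos_of_lt hp.one_lt) h1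
      have := hp.one_lt
      omega
  unfold Mn at hd
  rcases (Nat.Prime.dvd_mul hp).mp hd with h | h
  · have h : p ∣ N0 * ∏ i, D.qv i := h.trans (dvd_of_eq D.hN)
    rcases (Nat.Prime.dvd_mul hp).mp h with h | h
    · exact hpN0 h
    · obtain ⟨i, _, hi⟩ := (Prime.dvd_finsetProd_iff (Nat.Prime.prime hp) _).mp h
      exact hq (Sum.inr i) ((Nat.prime_dvd_prime_iff_eq hp (D.qprime i)).mp hi)
  · obtain ⟨i, hi⟩ := prime_dvd_PQ D hp h
    rw [D.chain_ℓ] at hi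
    exact hq _ hi.symm

theorem p_mem_Sn (hpS : p ∈ S) : p ∈ Sn D := (mem_Sn D).mpr (Or.inl hpS)

theorem frame_ℓ_not_mem_Sn (i : D.frame.ι) : D.frame.ℓ i ∉ Sn D := by
  rw [mem_Sn]
  rintro (h | ⟨j, h⟩)
  · exact D.frame_ℓS i h
  · exact i.2.2.2 j h

theorem frame_cov_Sn (x : ℕ) (hx : x.Prime) (hS : x ∉ Sn D) : ∃ i, D.frame.ℓ i = x := by
  rw [mem_Sn, not_or, not_exists] at hS
  exact ⟨⟨x, hx, hS.1, hS.2⟩, rfl⟩

theorem not_two_dvd_PQ : ¬ 2 ∣ PQ D := by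
  intro h
  obtain ⟨i, hi⟩ := prime_dvd_PQ D Nat.prime_two h
  rw [D.chain_ℓ] at hi
  exact D.q_ne_two _ hi

/-- `2 ∥ M` when `N0` is even. -/
theorem two_dvd_Mn (h2 : 2 ∣ N0) : 2 ∣ Mn D :=
  (h2.trans (Dvd.intro _ D.hN.symm)).trans (N_dvd_Mn D)

theorem not_four_dvd_Mn : ¬ 2 ^ 2 ∣ Mn D := by
  intro hd
  unfold Mn at hd
  have hcop : Nat.Coprime (2 ^ 2) (PQ D) :=
    Nat.Coprime.pow_left 2
      ((Nat.Prime.coprime_iff_not_dvd Nat.prime_two).mpr (not_two_dvd_PQ D))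
  have h4 : 2 ^ 2 ∣ N := hcop.dvd_of_dvd_mul_right hd
  have hsq := D.squarefree_N
  have : IsUnit 2 := hsq 2 (by rwa [pow_two] at h4)
  exact absurd (Nat.isUnit_iff.mp this) (by norm_num)

end Fermat.Agent.M43.TopLevelArith2
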