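/-
Programme M43 (target S43), Hecke side (final assembly), helper2: **the Galois representation over
the Hecke algebra `An` of level `(n, qv)` with all its properties, and Carayol's comparison with
the level-`0` datum** — the inputs (6d) and `hρ0` of helper5's `LevelTop5.heckeLevel_of_rep` for a
`LevelSetup5.Setup`, from helper6's `LevelDatum6.exists_level_datum`, helper3's
`GlobHecke3.hyps_of_datum` and `TopCarayol2`.

* `charpoly_thetaF` : the hypothesis `hθ` of (6d) for the residual eigensystem `thetaF` of the frame;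
* `exists_rep` : `θn`, the Prelude datum `H` of level `Mn D = N ∏ Q` on `TLoc (Mn D) (Sn D) O θn`,
  the surjection `f : TLoc → An`, `ρ_A := H.ρ ⊗_f An` with: the Frobenius characteristic
  polynomials `X² − mk X_i X + ℓ_i`, `hres`, `hlift`, `hD`, `hflat`, `hU` (outside `S ∪ qv`),
  `hunip` (at the primes `q ∥ Mn D`, `q ≠ p`), `htr`, and **Carayol**: the base change of `ρ_A`
  along any local `π : An → TLoc N0 S O θ` with `π (mk X_i) = tlF i` is equivalent to the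
  representation of a level-`0` datum `H0` with `H0.π = piT`.
-/
import Mathlib
import Fermat.Agent.M43.TopLevelArith2
import Fermat.Agent.M43.TopCarayol2
import Fermat.Agent.M43.LevelTop5
import Fermat.Agent.M43.LevelDatum6

set_option autoImplicit false
set_option linter.unusedSectionVars false
set_option linter.unusedVariables false
set_option linter.style.haveILetI false

open IsLocalRing CuspForm Polynomial

noncomputable section

namespace Fermat.Agent.M43.TopLevelRep2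

open Fermat.Agent.M43.ChainGrp5 Fermat.Agent.M43.PolyMod5 Fermat.Agent.M43.ChainMod5
  Fermat.Agent.M43.ChainMain5 Fermat.Agent.M43.AlgHecke5 Fermat.Agent.M43.ChainLevel5
  Fermat.Agent.M43.LevelGrp5 Fermat.Agent.M43.LevelSetup5 Fermat.Agent.M43.LevelTop5
  Fermat.Agent.M43.DatumAlg3 Fermat.Agent.M43.HeckePoly1 Fermat.Agent.M43.TopLevelArith2
  Fermat.Agent.W56.Defs9

local notation "Γ" => (AlgebraicClosure ℚ ≃ₐ[ℚ] AlgebraicClosure ℚ)
local notation "Qbar" => AlgebraicClosure ℚ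

variable (p : ℕ) [hp : Fact p.Prime] (N0 : ℕ) [NeZero N0] (S : Finset ℕ)
  (O : Type) [CommRing O] [IsDomain O] [IsDiscreteValuationRing O]
  [IsAdicComplete (maximalIdeal O) O] [Finite (ResidueField O)] [CharZero O]
  [CharP (ResidueField O) p]
  (θ : heckeAlgebra N0 2 (↑S : Set ℕ) →+* ResidueField O)

variable {p N0 S} {N : ℕ} [NeZero N] {n r : ℕ}

/-- the hypothesis `hθ` of (6d) for the residual eigensystem of the frame. -/
theorem charpoly_thetaF (ρbar : ResidualGaloisRep (ResidueField O))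
    (hθ : ∀ (ℓ : ℕ) (hℓ : ℓ.Prime) (hℓN : ¬ ℓ ∣ N0) (hℓS : ℓ ∉ (↑S : Set ℕ)),
      ∀ P : ValuationSubring Qbar, P.LiesOverPrime ℓ → ∀ φ : Γ, P.IsFrobeniusAt φ ℓ →
        LinearMap.charpoly (ρbar.ρ φ) =
          X ^ 2 - C (θ (heckeAlgebra.T hℓ hℓN hℓS)) * X + C ((ℓ : ResidueField O)))
    (D : Setup p N0 S N n r) (i : D.frame.ι) (P : ValuationSubring Qbar)
    (hP : P.LiesOverPrime (D.frame.ℓ i)) (φ : Γ) (hφ : P.IsFrobeniusAt φ (D.frame.ℓ i)) :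
    LinearMap.charpoly (ρbar.ρ φ) =
      X ^ 2 - C (thetaF O θ D i) * X + C ((D.frame.ℓ i : ResidueField O)) := by
  have hℓ : (D.frame.ℓ i).Prime := D.frame.prime i
  have hℓS : D.frame.ℓ i ∉ S := D.frame_ℓS i
  have hℓS' : D.frame.ℓ i ∉ (↑S : Set ℕ) := by simpa using hℓS
  have hℓN : ¬ D.frame.ℓ i ∣ N0 := fun h => hℓS (D.hNS _ hℓ h)
  show _ = X ^ 2 - C (tθ N0 S O θ (D.frame.ℓ i)) * X + _
  rw [tθ_eq N0 S O θ hℓ hℓN hℓS']
  exact hθ _ hℓ hℓN hℓS' P hP φ hφ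

/-- the level-`0` Hecke operators, indexed by the natural numbers. -/
def t0 (ℓ : ℕ) : TLoc N0 S O θ := algebraMap (BB N0 S O) (TLoc N0 S O θ) (tB N0 S O ℓ)

theorem t0_eq {ℓ : ℕ} (hℓ : ℓ.Prime) (hℓN : ¬ ℓ ∣ N0) (hℓS : ℓ ∉ (↑S : Set ℕ)) :
    t0 O θ ℓ = piT N0 S O θ (heckeAlgebra.T hℓ hℓN hℓS) := by
  rw [t0, tB_eq N0 S O hℓ hℓN hℓS, piT_apply]

theorem tlF_eq (D : Setup p N0 S N n r) (i : D.frame.ι) : tlF O θ D i = t0 O θ (D.frame.ℓ i) := rfl

/-- the good prime `ℓ` as an index of the frame. -/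
def idx (D : Setup p N0 S N n r) {ℓ : ℕ} (hℓ : ℓ.Prime) (hS : ℓ ∉ Sn D) : D.frame.ι :=
  (⟨ℓ, hℓ, fun h => hS ((mem_Sn D).mpr (Or.inl h)),
    fun i h => hS ((mem_Sn D).mpr (Or.inr ⟨i, h⟩))⟩ : Setup.Good S D.qv)

theorem frame_ℓ_idx (D : Setup p N0 S N n r) {ℓ : ℕ} (hℓ : ℓ.Prime) (hS : ℓ ∉ Sn D) :
    D.frame.ℓ (idx D hℓ hS) = ℓ := rfl

set_option maxHeartbeats 1600000 in
/-- **(6d) + Carayol for a `Setup`.** -/
theorem exists_rep (D : Setup p N0 S N n r) [Nontrivial (Hn (thetaF O θ D))]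
    [IsLocalRing (An (thetaF O θ D))] [IsLocalHom (algebraMap O (An (thetaF O θ D)))]
    (hp2 : p ≠ 2) (hpO : (p : O) ∈ maximalIdeal O) (hpS : p ∈ S) (hpN0 : ¬ p ∣ N0)
    (ρbar : ResidualGaloisRep (ResidueField O)) (habs : ρbar.IsAbsolutelyIrreducible)
    (hdet : (GaloisRepAdic.ofResidualGaloisRep ρbar).DetIsCyclotomic p)
    (hθ : ∀ (ℓ : ℕ) (hℓ : ℓ.Prime) (hℓN : ¬ ℓ ∣ N0) (hℓS : ℓ ∉ (↑S : Set ℕ)),
      ∀ P : ValuationSubring Qbar, P.LiesOverPrime ℓ → ∀ φ : Γ, P.IsFrobeniusAt φ ℓ →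
        LinearMap.charpoly (ρbar.ρ φ) =
          X ^ 2 - C (θ (heckeAlgebra.T hℓ hℓN hℓS)) * X + C ((ℓ : ResidueField O)))
    (H0 : HeckeGaloisRepDatum N0 (↑S : Set ℕ) O θ (TLoc N0 S O θ))
    (hH0 : H0.π = piT N0 S O θ) :
    ∃ (θn : heckeAlgebra (Mn D) 2 (↑(Sn D) : Set ℕ) →+* ResidueField O)
      (H : HeckeGaloisRepDatum (Mn D) (↑(Sn D) : Set ℕ) O θn (TLoc (Mn D) (Sn D) O θn))
      (f : TLoc (Mn D) (Sn D) O θn →ₐ[O] An (thetaF O θ D))
      (hloc : IsLocalHom (f : TLoc (Mn D) (Sn D) O θn →+* An (thetaF O θ D))),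
      Function.Surjective f ∧
      (∀ (i : D.frame.ι) (P : ValuationSubring Qbar), P.LiesOverPrime (D.frame.ℓ i) →
        ∀ φ : Γ, P.IsFrobeniusAt φ (D.frame.ℓ i) →
          LinearMap.charpoly ((H.ρ.baseChangeAlong
            (f : TLoc (Mn D) (Sn D) O θn →+* An (thetaF O θ D)) hloc).ρ φ) =
            X ^ 2 - C (Ideal.Quotient.mk (annL O (Hk0 O D.frame) (HnMod (thetaF O θ D)))
              (MvPolynomial.X i) : An (thetaF O θ D)) * X +
              C ((D.frame.ℓ i : An (thetaF O θ D)))) ∧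
      Function.Surjective (residue (An (thetaF O θ D)) ∘ algebraMap O (An (thetaF O θ D))) ∧
      ((H.ρ.baseChangeAlong (f : TLoc (Mn D) (Sn D) O θn →+* An (thetaF O θ D))
        hloc).residual.IsEquiv
        (ρbar.baseChangeAlong (ResidueField.map (algebraMap O (An (thetaF O θ D)))))) ∧
      (H.ρ.baseChangeAlong (f : TLoc (Mn D) (Sn D) O θn →+* An (thetaF O θ D))
        hloc).DetIsCyclotomic p ∧
      (H.ρ.baseChangeAlong (f : TLoc (Mn D) (Sn D) O θn →+* An (thetaF O θ D))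
        hloc).IsFlatAt p ∧
      (∀ q : ℕ, q.Prime → q ∉ S ∪ Finset.univ.image D.qv →
        (H.ρ.baseChangeAlong (f : TLoc (Mn D) (Sn D) O θn →+* An (thetaF O θ D))
          hloc).IsUnramifiedAt q) ∧
      (∀ q : ℕ, q.Prime → q ≠ p → q ∣ Mn D → ¬ q ^ 2 ∣ Mn D →
        (H.ρ.baseChangeAlong (f : TLoc (Mn D) (Sn D) O θn →+* An (thetaF O θ D))
          hloc).IsUnipotentOnInertiaAt q) ∧
      Algebra.adjoin O (Set.range fun σ : Γ =>
        LinearMap.trace (An (thetaF O θ D))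
          (H.ρ.baseChangeAlong (f : TLoc (Mn D) (Sn D) O θn →+* An (thetaF O θ D)) hloc).V
          ((H.ρ.baseChangeAlong (f : TLoc (Mn D) (Sn D) O θn →+* An (thetaF O θ D))
            hloc).ρ σ)) = ⊤ ∧
      ∀ (π : An (thetaF O θ D) →ₐ[O] TLoc N0 S O θ)
        (hlocπ : IsLocalHom (π : An (thetaF O θ D) →+* TLoc N0 S O θ)),
        (∀ i, π (Ideal.Quotient.mk _ (MvPolynomial.X i)) = tlF O θ D i) →
          ((H.ρ.baseChangeAlong (f : TLoc (Mn D) (Sn D) O θn →+* An (thetaF O θ D))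
            hloc).baseChangeAlong (π : An (thetaF O θ D) →+* TLoc N0 S O θ) hlocπ).IsEquiv
            H0.ρ := by
  classical
  have hpSn : p ∈ Sn D := p_mem_Sn D hpS
  have hMS : ∀ q : ℕ, q.Prime → q ∣ Mn D → q ∈ Sn D := fun q hq hd => prime_dvd_Mn_mem_Sn D hq hd
  have hM : Mn D = N * ∏ q ∈ Finset.univ.image D.frame.c.ℓ, q := rfl
  have h2 :=
    @LevelDatum6.exists_level_datum N _ O _ _ _ _ _ _ p _ _ D.frame (thetaF O θ D) _ hp2 hpO
      D.chain_ℓ_prime D.two_mul_frame_e (Mn D) _ hM (Sn D) hpSn hMS (frame_ℓ_not_mem_Sn D)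
      (frame_cov_Sn D) ρbar habs hdet (charpoly_thetaF O θ ρbar hθ D)
  obtain ⟨θn, h3⟩ := h2
  obtain ⟨H, h4⟩ := h3
  obtain ⟨f, h5⟩ := h4
  obtain ⟨hf, h6⟩ := h5
  obtain ⟨hHπ, h7⟩ := h6
  obtain ⟨hfX, h8⟩ := h7
  obtain ⟨hθnX, hθn⟩ := h8
  have hpM := not_p_dvd_Mn D hpN0
  have k1 := @GlobHecke3.hyps_of_datum p (Mn D) _ (Sn D) O _ _ _ _ θn (TLoc (Mn D) (Sn D) O θn)
    _ _ _ _ _ _ _ _ (An (thetaF O θ D)) _ _ _ _ _ _ _ _ hp2 hpO hpM hpSn hMS H ρbar habs hdet hθn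
    f hf
  obtain ⟨hloc, k2⟩ := k1
  obtain ⟨hres, k3⟩ := k2
  obtain ⟨hlift, k4⟩ := k3
  obtain ⟨hD, k5⟩ := k4
  obtain ⟨hflat, k6⟩ := k5
  obtain ⟨hU, k7⟩ := k6
  obtain ⟨hunip, htr⟩ := k7
  have hfrobA : ∀ (i : D.frame.ι) (P : ValuationSubring Qbar), P.LiesOverPrime (D.frame.ℓ i) →
      ∀ φ : Γ, P.IsFrobeniusAt φ (D.frame.ℓ i) →
        LinearMap.charpoly ((H.ρ.baseChangeAlong
          (f : TLoc (Mn D) (Sn D) O θn →+* An (thetaF O θ D)) hloc).ρ φ) =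
          X ^ 2 - C (Ideal.Quotient.mk (annL O (Hk0 O D.frame) (HnMod (thetaF O θ D)))
            (MvPolynomial.X i) : An (thetaF O θ D)) * X +
            C ((D.frame.ℓ i : An (thetaF O θ D))) := by
    intro i P hP φ hφ
    have hℓS' : D.frame.ℓ i ∉ (↑(Sn D) : Set ℕ) := fun h =>
      frame_ℓ_not_mem_Sn D i (Finset.mem_coe.1 h)
    have hℓM : ¬ D.frame.ℓ i ∣ Mn D := fun h =>
      frame_ℓ_not_mem_Sn D i (hMS _ (D.frame.prime i) h)
    have e1 := TopCarayol2.charpoly_baseChangeAlong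
      (f : TLoc (Mn D) (Sn D) O θn →+* An (thetaF O θ D)) hloc H.ρ φ
    have e2 := H.charpoly_frob (D.frame.ℓ i) (D.frame.prime i) hℓM hℓS' P hP φ hφ
    have e3 := hfX i hℓM hℓS'
    have e4 := e1.trans (congrArg (Polynomial.map
      (f : TLoc (Mn D) (Sn D) O θn →+* An (thetaF O θ D))) e2)
    have e5 : (f : TLoc (Mn D) (Sn D) O θn →+* An (thetaF O θ D))
        (H.π (heckeAlgebra.T (D.frame.prime i) hℓM hℓS')) =
        Ideal.Quotient.mk (annL O (Hk0 O D.frame) (HnMod (thetaF O θ D)))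
          (MvPolynomial.X i) := e3
    have e6 : (f : TLoc (Mn D) (Sn D) O θn →+* An (thetaF O θ D))
        ((D.frame.ℓ i : ℕ) : TLoc (Mn D) (Sn D) O θn) = ((D.frame.ℓ i : ℕ) : An (thetaF O θ D)) :=
      map_natCast _ _
    simp only [Polynomial.map_add, Polynomial.map_sub, Polynomial.map_pow, Polynomial.map_X,
      Polynomial.map_mul, Polynomial.map_C, e5, e6] at e4
    exact e4
  refine ⟨θn, H, f, hloc, hf, hfrobA, hres, hlift, hD, hflat, hU, hunip, htr, ?_⟩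
  -- Carayol
  intro π hlocπ hπX
  haveI : CharP (ResidueField (TLoc N0 S O θ)) p :=
    charP_of_injective_ringHom (ResidueField.map (algebraMap O (TLoc N0 S O θ))).injective p
  have hρA : ∀ ℓ : ℕ, ℓ.Prime → ℓ ∉ Sn D → ∃ a : An (thetaF O θ D),
      (π : An (thetaF O θ D) →+* TLoc N0 S O θ) a = t0 O θ ℓ ∧
      ∀ P : ValuationSubring Qbar, P.LiesOverPrime ℓ → ∀ φ : Γ, P.IsFrobeniusAt φ ℓ →
        LinearMap.charpoly ((H.ρ.baseChangeAlong
          (f : TLoc (Mn D) (Sn D) O θn →+* An (thetaF O θ D)) hloc).ρ φ) =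
          X ^ 2 - C a * X + C ((ℓ : An (thetaF O θ D))) := by
    intro ℓ hℓ hℓS
    exact ⟨Ideal.Quotient.mk (annL O (Hk0 O D.frame) (HnMod (thetaF O θ D)))
      (MvPolynomial.X (idx D hℓ hℓS)), hπX (idx D hℓ hℓS),
      fun P hP φ hφ => hfrobA (idx D hℓ hℓS) P hP φ hφ⟩
  have hρ0 : ∀ ℓ : ℕ, ℓ.Prime → ℓ ∉ Sn D → ∀ P : ValuationSubring Qbar, P.LiesOverPrime ℓ →
      ∀ φ : Γ, P.IsFrobeniusAt φ ℓ →
        LinearMap.charpoly (H0.ρ.ρ φ) =
          X ^ 2 - C (t0 O θ ℓ) * X + C ((ℓ : TLoc N0 S O θ)) := by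
    intro ℓ hℓ hℓS P hP φ hφ
    have hℓS0 : ℓ ∉ S := fun h => hℓS ((mem_Sn D).mpr (Or.inl h))
    have hℓS' : ℓ ∉ (↑S : Set ℕ) := by simpa using hℓS0
    have hℓN : ¬ ℓ ∣ N0 := fun h => hℓS0 (D.hNS _ hℓ h)
    have e1 := H0.charpoly_frob ℓ hℓ hℓN hℓS' P hP φ hφ
    have e2 : H0.π (heckeAlgebra.T hℓ hℓN hℓS') = t0 O θ ℓ := by
      rw [hH0]
      exact (t0_eq O θ hℓ hℓN hℓS').symm
    rw [e2] at e1
    exact e1
  exact @TopCarayol2.isEquiv_baseChangeAlong_of_charpoly (An (thetaF O θ D)) (TLoc N0 S O θ) _ _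
    _ _ _ _ p _ hp2 _
    (H.ρ.baseChangeAlong (f : TLoc (Mn D) (Sn D) O θn →+* An (thetaF O θ D)) hloc) H0.ρ
    (π : An (thetaF O θ D) →+* TLoc N0 S O θ) hlocπ (Sn D) hpSn (t0 O θ) hρA hρ0
    H0.residual_absIrr

end Fermat.Agent.M43.TopLevelRep2
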