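/-
Programme M43 (target S43), Hecke side (final assembly), helper2: **the Hecke side from (LG-q).**

* `LGqFamilyStmt` : **the ONE named input of the whole programme**: helper3's
  `BridgeLevel3.LGqInput` (= the (LG-q) literal at a suitable level `Mb`) for every prime `D.q a` of
  the chain of every `LevelSetup5.Setup` of the top frame (`p ≥ 5`, `N0` squarefree even prime to
  `p`, `S = T = insert p N0.primeFactors`);
* **`levelInputs_of_lgq : LGqFamilyStmt → LevelFinal5.LevelInputsStmt`** ((6d) + Carayol: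
  `TopLevelRep2.exists_rep`; BRIDGE: helper3's `BridgeSetup3.hTW_hZ_of_setup`);
* `heckeSide_of_lgq : LGqFamilyStmt → TopMain2.HeckeSideStmt` (helper5's
  `LevelFinal5.heckeSide_of_levelInputs`);
* **`s43_of_lgq`** : the literal frozen S43 from `LGqFamilyStmt`.
-/
import Mathlib
import Fermat.Agent.M43.TopLevelRep2
import Fermat.Agent.M43.LevelFinal5
import Fermat.Agent.M43.BridgeSetup3

set_option autoImplicit false
set_option linter.unusedSectionVars false
set_option linter.unusedVariables false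
set_option linter.style.haveILetI false

open CategoryTheory ExtCitation Polynomial IsLocalRing CuspForm

noncomputable section

namespace Fermat.Agent.M43.TopHecke2

open Fermat.Agent.M43.ChainGrp5 Fermat.Agent.M43.ChainMod5 Fermat.Agent.M43.ChainMain5
  Fermat.Agent.M43.ChainLevel5 Fermat.Agent.M43.AlgHecke5
  Fermat.Agent.M43.LevelGrp5 Fermat.Agent.M43.LevelSetup5 Fermat.Agent.M43.LevelTop5
  Fermat.Agent.M43.LevelWire5 Fermat.Agent.M43.DatumAlg3 Fermat.Agent.M43.HeckePoly1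
  Fermat.Agent.M43.TopLevelArith2 Fermat.Agent.W56.Defs9

local notation "Γ" => (AlgebraicClosure ℚ ≃ₐ[ℚ] AlgebraicClosure ℚ)
local notation "Qbar" => AlgebraicClosure ℚ

/-- **(LG-q) for the top frame**: helper3's `LGqInput` at every prime of the chain of every
setup. -/
def LGqFamilyStmt : Prop :=
  ∀ (p : ℕ) [Fact p.Prime] (_hp5 : 5 ≤ p) (N0 : ℕ) [NeZero N0] (_hsq : Squarefree N0)
    (_h2N : 2 ∣ N0) (_hpN : ¬ p ∣ N0) {N : ℕ} [NeZero N] {n r : ℕ}
    (D : Setup p N0 (insert p N0.primeFactors) N n r) (a : ↥(primesOf (Zs N0)) ⊕ Fin r),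
    BridgeLevel3.LGqInput p N (BridgeLevel3.QL D.lvl)
      (insert p N0.primeFactors ∪ Finset.univ.image D.qv) (D.q a)
      (Kq (D.q a) (mOf p n a)) (D.place a)

set_option maxHeartbeats 1600000 in
/-- **the per-level inputs (6d) + BRIDGE + Carayol from (LG-q).** -/
theorem levelInputs_of_lgq (hLG : LGqFamilyStmt) : LevelFinal5.LevelInputsStmt := by
  intro 𝒪 _ _ _ _ _ _ p _ _ hp5 hp𝒪 N0 _ hsq h2N hpN ρbar habs hdet hsplit hTW θ hθ hur hram2
    hZsc hZur Dat hDπ N _ n r D hTWq hlr hlh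
  classical
  have hp : p.Prime := Fact.out
  have hp2 : p ≠ 2 := by omega
  have hNS : ∀ q : ℕ, q.Prime → q ∣ N0 → q ∈ (↑(insert p N0.primeFactors) : Set ℕ) := by
    intro q hq hqN
    exact Finset.mem_coe.mpr (Finset.mem_insert_of_mem
      (Nat.mem_primeFactors.mpr ⟨hq, hqN, NeZero.ne N0⟩))
  have hpS : p ∈ insert p N0.primeFactors := Finset.mem_insert_self _ _
  letI : Invertible (2 : 𝒪) := by
    have h : IsUnit ((2 : ℕ) : 𝒪) := LevelFinal5.isUnit_natCast p 2 (fun h => by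
      have := Nat.le_of_dvd (by norm_num) h
      omega)
    rw [Nat.cast_ofNat] at h
    exact h.invertible
  letI : Invertible (3 : 𝒪) := by
    have h : IsUnit ((3 : ℕ) : 𝒪) := LevelFinal5.isUnit_natCast p 3 (fun h => by
      have := Nat.le_of_dvd (by norm_num) h
      omega)
    rw [Nat.cast_ofNat] at h
    exact h.invertible
  have hTWθ := tθ_sq_ne_setup p N0 (insert p N0.primeFactors) 𝒪 θ ρbar hθ D hTWq
  haveI : Nontrivial (Hn (thetaF 𝒪 θ D)) :=
    LevelTop5.nontrivial_Hn hNS 𝒪 θ hp2 hp𝒪 hpS ρbar habs hdet hθ D hTWθ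
  -- (6d) + Carayol
  have h0 := TopLevelRep2.exists_rep 𝒪 θ D hp2 hp𝒪 hpS hpN ρbar habs hdet hθ Dat hDπ
  obtain ⟨θn, h1⟩ := h0
  obtain ⟨H, h2⟩ := h1
  obtain ⟨f, h3⟩ := h2
  obtain ⟨hloc, h4⟩ := h3
  obtain ⟨hf, h5⟩ := h4
  obtain ⟨hfrobA, h6⟩ := h5
  obtain ⟨hres, h7⟩ := h6
  obtain ⟨hlift, h8⟩ := h7
  obtain ⟨hD, h9⟩ := h8
  obtain ⟨hflat, h10⟩ := h9
  obtain ⟨hU, h11⟩ := h10
  obtain ⟨hunip, h12⟩ := h11
  obtain ⟨htr, hρ0⟩ := h12
  -- the unipotent prime `2`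
  have hunip' : ∀ q ∈ insert p N0.primeFactors, q.Prime → q ≠ p → q ∉ Zs N0 →
      (H.ρ.baseChangeAlong (f : TLoc (Mn D) (Sn D) 𝒪 θn →+* An (thetaF 𝒪 θ D))
        hloc).IsUnipotentOnInertiaAt q := by
    intro q hqT hq hqp hqZ
    have hqN0 : q ∈ N0.primeFactors := by
      rcases Finset.mem_insert.mp hqT with h | h
      · exact absurd h hqp
      · exact h
    have hq2 : q = 2 := by
      by_contra hne
      exact hqZ (Finset.mem_erase.mpr ⟨hne, hqN0⟩)
    subst hq2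
    exact hunip 2 Nat.prime_two hqp (two_dvd_Mn D h2N) (not_four_dvd_Mn D)
  -- BRIDGE
  haveI : IsReduced (TLoc (Mn D) (Sn D) 𝒪 θn) :=
    isReduced_TLoc (Mn D) (Sn D) 𝒪 θn (fun q hq hd => prime_dvd_Mn_mem_Sn D hq hd)
  have hB := BridgeSetup3.hTW_hZ_of_setup hp𝒪 hpS D (thetaF 𝒪 θ D)
    (H.ρ.baseChangeAlong (f : TLoc (Mn D) (Sn D) 𝒪 θn →+* An (thetaF 𝒪 θ D)) hloc) f hf hfrobA
    (fun a => hLG p hp5 N0 hsq h2N hpN D a)
  exact ⟨H.ρ.baseChangeAlong (f : TLoc (Mn D) (Sn D) 𝒪 θn →+* An (thetaF 𝒪 θ D)) hloc,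
    hres, hlift, hD, hflat, hU, hunip', htr, hB.1, hB.2, hρ0⟩

/-- **the Hecke side from (LG-q).** -/
theorem heckeSide_of_lgq (hLG : LGqFamilyStmt) : TopMain2.HeckeSideStmt :=
  LevelFinal5.heckeSide_of_levelInputs (levelInputs_of_lgq hLG)

/-- **the literal frozen S43 from (LG-q).** -/
theorem s43_of_lgq (hLG : LGqFamilyStmt) (P : FreyPackage) {N q : ℕ}
    (hcond : P.IsConductorLevel N)
    (hq : q.Prime) (hq2 : q ≠ 2) (hqp : q ≠ P.p) (hqN : q ∣ N)
    (hirr : WeierstrassCurve.Affine.Point.GaloisRepIsIrreducible (K := AlgebraicClosure ℚ) ℚ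
      P.freyCurve P.p)
    (hmod : P.ModularRepOfLevel N) (hunr : P.GaloisRepUnramifiedAt q) :
    ∃ M : ℕ, M ∣ N ∧ ¬ q ∣ M ∧ P.ModularRepOfLevel M :=
  TopMain2.s43_of_heckeSide (heckeSide_of_lgq hLG) P hcond hq hq2 hqp hqN hirr hmod hunr

end Fermat.Agent.M43.TopHecke2
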