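/-
M43 (helper3) [BRIDGE ↔ (LG-q), CLOSE] BridgeClose3: **`BridgeLevel3.LGqInput` at every chain prime
of every `LevelSetup5.Setup` of the top frame = `TopHecke2.LGqFamilyStmt`**, without hypotheses.

`NormConcMain4.lgq_norm` (norm descent from the Kummer cover `E` to `X₁(M' q)`) applied to the
automorphisms `g = galE σ`, `dE = deltaBar (ψ (cycloM q σ))` of `MixEnd1.spine_concrete`, through
`BridgeSpine3.LGqInput_setup`.

* `LGqInput_of_LN` : `LGqInput` at the prime `D.q a` from (LN) at the level `Mprime N Q (D.q a)`;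
* `lgqFamilyStmt_of_LN` : `TopHecke2.LGqFamilyStmt` from (LN) at all levels;
* **`lgqFamilyStmt : TopHecke2.LGqFamilyStmt`** ((LN) = `LNLarge7.lnLarge`), so that
  `TopHecke2.s43_of_lgq lgqFamilyStmt` is the frozen statement S43.
-/
import Mathlib
import Fermat.Agent.M43.BridgeSpine3
import Fermat.Agent.M43.BridgeSetup3
import Fermat.Agent.M43.NormConcMain4
import Fermat.Agent.M43.MixEnd1
import Fermat.Agent.M43.LNLarge7
import Fermat.Agent.M43.TopHecke2

set_option autoImplicit false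
set_option linter.unusedSectionVars false
set_option linter.style.haveILetI false

noncomputable section

namespace Fermat.Agent.M43.BridgeClose3

open Fermat.Agent.M43.ChainGrp5 Fermat.Agent.M43.BridgeLevel3 Fermat.Agent.M43.BridgeEnd3
  Fermat.Agent.M43.BridgeSpine3
open Fermat.Agent.M48.J1Defs8 Fermat.Agent.M48.DirCharGal8 Fermat.Agent.M48.DiamondAut5
open Fermat.Agent.M43.LevelGrp5 Fermat.Agent.M43.LevelSetup5 Fermat.Agent.W56.Defs9
open Fermat.Agent.M43.ThetaFieldK8 Fermat.Agent.T33.NodalHalf4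

local notation "Qb" => AlgebraicClosure ℚ
local notation "GQ" => (AlgebraicClosure ℚ ≃ₐ[ℚ] AlgebraicClosure ℚ)

variable {p N0 : ℕ} {S : Finset ℕ} {N : ℕ} [NeZero N] {n r : ℕ}

theorem one_le_kOf (n : ℕ) {Z : Type} {r : ℕ} (a : Z ⊕ Fin r) : 1 ≤ kOf n a := by
  rcases a with z | i
  · exact le_refl 1
  · exact Nat.succ_le_succ (Nat.zero_le n)

/-- **the BRIDGE input `LGqInput` at the prime `D.q a` of the top frame**, from the node normal
forms (LN) at the level `Mprime N (QL D.lvl) (D.q a)`. -/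
theorem LGqInput_of_LN (D : Setup p N0 S N n r) (h2N0 : 2 ∣ N0)
    (a : ↥(primesOf (Zs N0)) ⊕ Fin r)
    (hLN : ∀ [NeZero (Mprime N (QL D.lvl) (D.q a))] [NeZero (D.q a)] [Fact (D.q a).Prime],
      MixEnd1.LNLarge (D.q a) (Mprime N (QL D.lvl) (D.q a)) (D.place a) p (kOf n a)) :
    LGqInput p N (QL D.lvl) (S ∪ Finset.univ.image D.qv) (D.q a) (Kq (D.q a) (mOf p n a))
      (D.place a) := by
  haveI : Fact (D.q a).Prime := ⟨D.q_prime a⟩
  haveI : NeZero (D.q a) := ⟨(D.q_prime a).ne_zero⟩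
  have hQ := hQ_QL D.lvl D.not_dvd_div
  have hmem := mem_QL D.lvl a
  haveI : NeZero (Mprime N (QL D.lvl) (D.q a)) := ⟨Mprime_ne_zero hQ hmem⟩
  have hLH : LevelHyp (D.q a) (Mprime N (QL D.lvl) (D.q a)) (D.place a) :=
    ⟨D.q_prime a, D.q_ne_two a, not_dvd_Mprime hQ hmem (D.q_ne_two a),
      four_dvd_Mprime (two_dvd_N D h2N0) (hQ _ hmem).2.1 (D.q_prime a) (D.q_ne_two a),
      D.place_liesOver a⟩
  refine LGqInput_setup D h2N0 a ?_
  intro hne K₀ hfd hfix ψ₀ heven hord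
  refine ⟨NormConcMain4.cGam (Mprime N (QL D.lvl) (D.q a)) (psiBar K₀ ψ₀),
    NormConcMain4.cGam_ne_zero _ _, ?_⟩
  intro σ hσ j y hy hinv
  have hpq : ¬ D.q a ∣ p ^ j := by
    intro h
    have h1 := (D.q_prime a).dvd_of_dvd_pow h
    exact BridgeSetup3.q_ne_p D a ((Nat.prime_dvd_prime_iff_eq (D.q_prime a) D.hp).mp h1)
  obtain ⟨g, dE, hg, hdE1, hdE2, hspine⟩ := MixEnd1.spine_concrete hLH D.hp D.hp2
    (BridgeSetup3.q_ne_p D a).symm (kOf n a) (one_le_kOf n a) K₀ hfix ψ₀ heven hord σ hσ hLN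
  exact NormConcMain4.lgq_norm (Mprime N (QL D.lvl) (D.q a)) (psiBar_even heven) σ
    (cycloM (Mprime N (QL D.lvl) (D.q a) * D.q a) σ)⁻¹ g hg dE hdE1 hdE2 (p ^ j)
    (hspine (p ^ j) hpq) y hy hinv

/-- **`TopHecke2.LGqFamilyStmt` from the node normal forms (LN) at all levels.** -/
theorem lgqFamilyStmt_of_LN
    (hLN : ∀ (r M' : ℕ) [NeZero M'] [NeZero r] [Fact r.Prime] (A : ValuationSubring Qb)
      (p k : ℕ), MixEnd1.LNLarge r M' A p k) :
    TopHecke2.LGqFamilyStmt := by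
  intro p _ _ N0 _ _ h2 _ N _ n r D a
  exact LGqInput_of_LN D h2 a (hLN _ _ _ _ _)

/-- **(LG-q) at every chain prime of every setup of the top frame.** -/
theorem lgqFamilyStmt : TopHecke2.LGqFamilyStmt :=
  lgqFamilyStmt_of_LN fun r M' _ _ _ A p k => LNLarge7.lnLarge r M' A p k

end Fermat.Agent.M43.BridgeClose3
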