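/-
M43 (helper3) [BRIDGE / (BR-4)(i)] BridgePart3: **the PARTIAL iterated lattice twist** — helper6's
`TwistLatI6.exists_embeds` relative to a set `Q₀` of primes which stay conditioned and keep their
characters.

* `GH_comap_le` : `GH M (S.comap (unitsMap h)) ≤ GH L S` (`L ∣ M`);
* **`exists_embeds_rel`** : for disjoint finite sets of primes `Q` (to be twisted, `q ∥ L`) and `Q₀`
  (untouched, `q ∣ L`): the `PsiQ ψ (Q ∪ Q₀)`-eigenspace of `Hom(GH L (SQ Kq (Q ∪ Q₀) L), K)`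
  embeds into the `PsiQ ψ Q₀`-eigenspace of `Hom(GH M (SQ Kq Q₀ M), K)`, `M = L ∏_{q ∈ Q} q`,
  compatibly with the `T_ℓ` up to `∏_{q ∈ Q} ω q (ℓ)`.
-/
import Mathlib
import Fermat.Agent.M43.TwistLatI6

set_option autoImplicit false
set_option linter.unusedSectionVars false

noncomputable section

namespace Fermat.Agent.M43.BridgePart3

open Matrix.SpecialLinearGroup ModularCurve.Period CongruenceSubgroup
open scoped MatrixGroups
open Fermat.Agent.M43.TwistLatB6 Fermat.Agent.M43.TwistLatC6 Fermat.Agent.M43.TwistLatG6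
  Fermat.Agent.M43.HeckeH0 Fermat.Agent.M43.TwistLatT6 Fermat.Agent.M43.TwistLatH6
  Fermat.Agent.M43.TwistLatX6 Fermat.Agent.M43.TwistLatE6 Fermat.Agent.M43.TwistLatI6
open Fermat.Agent.M48.ESInv3 Fermat.Agent.M48.CosetOp3 Fermat.Agent.M48.Diamond1

variable {K : Type*} [Field K] [CharZero K]

/-- `GH M (S.comap (unitsMap h)) ≤ GH L S` for `L ∣ M`. -/
theorem GH_comap_le {L M : ℕ} (h : L ∣ M) (S : Subgroup (ZMod L)ˣ) :
    GH M (S.comap (ZMod.unitsMap h)) ≤ GH L S := by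
  intro g hg
  obtain ⟨h0, hu⟩ := mem_GH.mp hg
  have h1 : g ∈ Gamma0 L := by
    rw [mem_Gamma0_iff_dvd] at h0 ⊢
    exact (Int.natCast_dvd_natCast.mpr h).trans h0
  refine mem_GH.mpr ⟨h1, ?_⟩
  have hu' : ZMod.unitsMap h (unitOf (⟨g, h0⟩ : Gamma0 M)) ∈ S := hu
  convert hu' using 1
  ext
  rw [coe_unitOf', ZMod.unitsMap_def, Units.coe_map, coe_unitOf']
  show ((g 1 1 : ℤ) : ZMod L) = ZMod.castHom h (ZMod L) ((g 1 1 : ℤ) : ZMod M)
  rw [map_intCast]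

variable {Kq : ∀ q : ℕ, Subgroup (ZMod q)ˣ} {ψ ω : ∀ q : ℕ, MulChar (ZMod q) K}

/-- `GH M (SQ Kq Q₀ M) ≤ GH L (SQ Kq Q₀ L)` for `L ∣ M` (the primes of `Q₀` dividing `L`). -/
theorem GH_SQ_le {L M : ℕ} (h : L ∣ M) {Q₀ : Finset ℕ} (hQ₀ : ∀ q ∈ Q₀, q ∣ L) :
    GH M (SQ Kq Q₀ M) ≤ GH L (SQ Kq Q₀ L) := by
  rw [← comap_SQ h hQ₀]
  exact GH_comap_le h _

/-- **the partial iterated twist.** -/
theorem exists_embeds_rel (Kq : ∀ q : ℕ, Subgroup (ZMod q)ˣ) (ψ ω : ∀ q : ℕ, MulChar (ZMod q) K)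
    (Q₀ Q : Finset ℕ) :
    ∀ (L : ℕ) [NeZero L], Disjoint Q Q₀ → (∀ q ∈ Q, q.Prime ∧ q ∣ L ∧ ¬ q ∣ L / q) →
      (∀ q ∈ Q₀, q.Prime ∧ q ∣ L) →
      (∀ q ∈ Q ∪ Q₀, ∀ u ∈ Kq q, ψ q (u : (ZMod q)ˣ) = 1) →
      (∀ q ∈ Q, ω q ^ 2 * ψ q = 1) →
      (∀ q ∈ Q, ψ q = 1 → ω q = 1) →
      (∀ q ∈ Q, ∃ e : AddChar (ZMod q) K, e.IsPrimitive) →
      ∀ M : ℕ, M = L * ∏ q ∈ Q, q →
      ∃ ι : (Additive (GH L (SQ Kq (Q ∪ Q₀) L)) →+ K) →
          (Additive (GH M (SQ Kq Q₀ M)) →+ K),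
        Embeds (SQ Kq (Q ∪ Q₀) L) (SQ Kq Q₀ M) (PsiQ ψ (Q ∪ Q₀)) (PsiQ ψ Q₀)
          (fun ℓ : ℕ => ∏ q ∈ Q, ω q ((ℓ : ℕ) : ZMod q)) ι := by
  induction Q using Finset.induction_on with
  | empty =>
    intro L _ _ _ _ _ _ _ _ M hM
    rw [Finset.prod_empty, mul_one] at hM
    subst hM
    have hS : SQ Kq (∅ ∪ Q₀) M = SQ Kq Q₀ M := by rw [Finset.empty_union]
    have h1 := embeds_castHom (K := K) hS (PsiQ ψ (∅ ∪ Q₀))
    refine ⟨_, h1.congr (fun g _ => rfl) (fun g _ => ?_) (fun ℓ _ _ => Finset.prod_empty)⟩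
    rw [Finset.empty_union]
  | insert q Q' hqQ ih =>
    intro L _ hdisj hQ hQ₀ hψK hωψ hω1 he M hM
    have hq := hQ q (Finset.mem_insert_self q Q')
    have hdisj' : Disjoint Q' Q₀ :=
      Finset.disjoint_of_subset_left (Finset.subset_insert q Q') hdisj
    have hqQ₀ : q ∉ Q₀ := fun h =>
      (Finset.disjoint_left.mp hdisj) (Finset.mem_insert_self q Q') h
    have hqU : q ∉ Q' ∪ Q₀ := fun h => by
      rcases Finset.mem_union.mp h with h | h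
      · exact hqQ h
      · exact hqQ₀ h
    have hins : insert q Q' ∪ Q₀ = insert q (Q' ∪ Q₀) := Finset.insert_union q Q' Q₀
    have hQ' : ∀ q' ∈ Q', q'.Prime ∧ q' ∣ L ∧ ¬ q' ∣ L / q' :=
      fun q' hq' => hQ q' (Finset.mem_insert_of_mem hq')
    have hψK' : ∀ q' ∈ Q' ∪ Q₀, ∀ u ∈ Kq q', ψ q' (u : (ZMod q')ˣ) = 1 := by
      intro q' hq'
      apply hψK q'
      rw [hins]
      exact Finset.mem_insert_of_mem hq'
    have hωψ' : ∀ q' ∈ Q', ω q' ^ 2 * ψ q' = 1 :=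
      fun q' hq' => hωψ q' (Finset.mem_insert_of_mem hq')
    have hω1' : ∀ q' ∈ Q', ψ q' = 1 → ω q' = 1 :=
      fun q' hq' => hω1 q' (Finset.mem_insert_of_mem hq')
    have he' : ∀ q' ∈ Q', ∃ e : AddChar (ZMod q') K, e.IsPrimitive :=
      fun q' hq' => he q' (Finset.mem_insert_of_mem hq')
    have hUd : ∀ q' ∈ Q' ∪ Q₀, q'.Prime ∧ q' ∣ L := by
      intro q' hq'
      rcases Finset.mem_union.mp hq' with h | h
      · exact ⟨(hQ' q' h).1, (hQ' q' h).2.1⟩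
      · exact hQ₀ q' h
    have : Fact q.Prime := ⟨hq.1⟩
    have hprodne : (∏ q' ∈ Q', q') ≠ 0 :=
      Finset.prod_ne_zero_iff.mpr fun q' hq' => (hQ' q' hq').1.ne_zero
    rw [Finset.prod_insert hqQ] at hM
    have hMne : NeZero M := ⟨by
      rw [hM]
      exact Nat.mul_ne_zero (NeZero.ne L) (Nat.mul_ne_zero hq.1.ne_zero hprodne)⟩
    by_cases hψ1 : ψ q = 1
    · -- extension, then the induction hypothesis at level `L`, then restriction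
      obtain ⟨ι₁, h1⟩ := exists_embeds_stepA (K := K) (Kq := Kq) (ψ := ψ) (Q := Q' ∪ Q₀)
        hq.2.1 hqU (fun q' hq' => (hUd q' hq').2) hψK' hψ1
      obtain ⟨ι₂, h2⟩ := ih L hdisj' hQ' hQ₀ hψK' hωψ' hω1' he' (L * ∏ q' ∈ Q', q') rfl
      have : NeZero (L * ∏ q' ∈ Q', q') := ⟨Nat.mul_ne_zero (NeZero.ne L) hprodne⟩
      have hdvd : L * ∏ q' ∈ Q', q' ∣ M := by
        rw [hM]
        exact Nat.mul_dvd_mul_left L (dvd_mul_left _ _)
      have hQ₀d : ∀ q' ∈ Q₀, q' ∣ L * ∏ q' ∈ Q', q' :=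
        fun q' hq' => Dvd.dvd.mul_right (hQ₀ q' hq').2 _
      have h3 := embeds_resHom (K := K) hdvd (GH_SQ_le (Kq := Kq) hdvd hQ₀d) (PsiQ ψ Q₀)
      have h4 := (h1.comp h2 (dvd_mul_right L _)).comp h3 hdvd
      rw [hins]
      refine ⟨_, h4.congr (fun g _ => rfl) (fun g _ => rfl) ?_⟩
      intro ℓ hℓ hℓM
      have hne : ℓ ≠ q := by
        rintro rfl
        apply hℓM
        rw [hM]
        exact Dvd.dvd.mul_left (dvd_mul_right _ _) L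
      have hcop : Nat.Coprime ℓ q := (Nat.coprime_primes hℓ hq.1).mpr hne
      have hu : IsUnit ((ℓ : ℕ) : ZMod q) := (ZMod.isUnit_iff_coprime ℓ q).mpr hcop
      show ∏ q' ∈ insert q Q', ω q' ((ℓ : ℕ) : ZMod q') =
        1 * (∏ q' ∈ Q', ω q' ((ℓ : ℕ) : ZMod q')) * 1
      rw [Finset.prod_insert hqQ, hω1 q (Finset.mem_insert_self q Q') hψ1,
        MulChar.one_apply hu, mul_one]
    · -- the twist at `q`, then the induction hypothesis at level `L q`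
      obtain ⟨e, hep⟩ := he q (Finset.mem_insert_self q Q')
      obtain ⟨ι₁, h1⟩ := exists_embeds_stepB (K := K) (Kq := Kq) (ψ := ψ) (ω := ω)
        (Q := Q' ∪ Q₀) hq.2.1 hq.2.2 hqU hUd hψK'
        (hωψ q (Finset.mem_insert_self q Q')) hψ1 hep
      have hQ'' : ∀ q' ∈ Q', q'.Prime ∧ q' ∣ L * q ∧ ¬ q' ∣ L * q / q' := by
        intro q' hq'
        obtain ⟨hp', hd', hn'⟩ := hQ' q' hq'
        refine ⟨hp', Dvd.dvd.mul_right hd' q, ?_⟩
        intro hdiv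
        have h5 : L * q / q' = L / q' * q := by
          obtain ⟨k, hk⟩ := hd'
          rw [hk, mul_assoc, Nat.mul_div_cancel_left _ hp'.pos, Nat.mul_div_cancel_left _ hp'.pos]
        rw [h5] at hdiv
        rcases (Nat.Prime.dvd_mul hp').mp hdiv with h6 | h6
        · exact hn' h6
        · have : q' = q := (Nat.prime_dvd_prime_iff_eq hp' hq.1).mp h6
          exact hqQ (this ▸ hq')
      have hQ₀' : ∀ q' ∈ Q₀, q'.Prime ∧ q' ∣ L * q :=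
        fun q' hq' => ⟨(hQ₀ q' hq').1, Dvd.dvd.mul_right (hQ₀ q' hq').2 q⟩
      obtain ⟨ι₂, h2⟩ := ih (L * q) hdisj' hQ'' hQ₀' hψK' hωψ' hω1' he' M
        (by rw [hM, mul_assoc])
      have hdvd : L * q ∣ M := by
        rw [hM, ← mul_assoc]
        exact dvd_mul_right _ _
      have h4 := h1.comp h2 hdvd
      rw [hins]
      refine ⟨_, h4.congr (fun g _ => rfl) (fun g _ => rfl) ?_⟩
      intro ℓ _ _
      show ∏ q' ∈ insert q Q', ω q' ((ℓ : ℕ) : ZMod q') =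
        ω q ((ℓ : ℕ) : ZMod q) * (∏ q' ∈ Q', ω q' ((ℓ : ℕ) : ZMod q'))
      rw [Finset.prod_insert hqQ]

end Fermat.Agent.M43.BridgePart3
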