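/-
M43 (lead) [P-CAR] CarTop0: the topology hypothesis `htop` of `CarRep0.exists_galoisRepAdic_of_traces`
for a local ring `T` finite free over a discrete valuation ring `𝒪` and finitely many jointly
injective `𝒪`-algebra homomorphisms `ψ i : T → O i` into finite free local `𝒪`-algebras:
for every `n` there is `N` with `(∀ i, ψ i x ∈ 𝔪_i ^ N) → x ∈ 𝔪_T ^ n`.
Tool: Smith normal form over a PID (`lattice_lemma`).  Mathlib only.
-/
import Mathlib

set_option autoImplicit false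

namespace Fermat.Agent.M43.CarTop0

open IsLocalRing

section DVR

variable {R : Type*} [CommRing R] [IsDomain R] [IsDiscreteValuationRing R]

/-- In a discrete valuation ring: `a * c ∈ 𝔪 ^ (m + k)` and `a ∉ 𝔪 ^ k` force `c ∈ 𝔪 ^ m`. -/
theorem mem_pow_of_mul_mem_pow {a c : R} {m k : ℕ}
    (h : a * c ∈ maximalIdeal R ^ (m + k)) (ha : a ∉ maximalIdeal R ^ k) :
    c ∈ maximalIdeal R ^ m := by
  obtain ⟨ϖ, hϖ⟩ := IsDiscreteValuationRing.exists_irreducible R
  have hm : maximalIdeal R = Ideal.span {ϖ} := hϖ.maximalIdeal_eq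
  have hpow : ∀ j : ℕ, ∀ x : R, x ∈ maximalIdeal R ^ j ↔ ϖ ^ j ∣ x := by
    intro j x
    rw [hm, Ideal.span_singleton_pow, Ideal.mem_span_singleton]
  have ha0 : a ≠ 0 := by
    rintro rfl
    exact ha (Ideal.zero_mem _)
  obtain ⟨j, u, rfl⟩ := IsDiscreteValuationRing.eq_unit_mul_pow_irreducible ha0 hϖ
  have hjk : j < k := by
    by_contra hjk
    rw [not_lt] at hjk
    apply ha
    rw [hpow]
    exact Dvd.dvd.mul_left (pow_dvd_pow ϖ hjk) _
  rw [hpow] at h ⊢
  have h1 : ϖ ^ (m + k) ∣ ϖ ^ j * ((u : R) * c) := by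
    have : (u : R) * ϖ ^ j * c = ϖ ^ j * ((u : R) * c) := by ring
    rwa [this] at h
  have h2 : m + k = j + (m + (k - j)) := by omega
  rw [h2, pow_add] at h1
  have h3 : ϖ ^ (m + (k - j)) ∣ (u : R) * c :=
    (mul_dvd_mul_iff_left (pow_ne_zero j hϖ.ne_zero)).mp h1
  have h4 : ϖ ^ m ∣ (u : R) * c := Dvd.dvd.trans (pow_dvd_pow ϖ (Nat.le_add_right m (k - j))) h3
  exact (Units.dvd_mul_left.mp (by rwa [mul_comm] at h4))

theorem exists_notMem_pow {a : R} (ha : a ≠ 0) : ∃ k : ℕ, a ∉ maximalIdeal R ^ k := by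
  by_contra hcon
  rw [not_exists] at hcon
  have hcon : ∀ k, a ∈ maximalIdeal R ^ k := fun k => not_not.mp (hcon k)
  have : a ∈ ⨅ k, maximalIdeal R ^ k := by
    rw [Ideal.mem_iInf]; exact hcon
  rw [Ideal.iInf_pow_eq_bot_of_isLocalRing _ (Ideal.IsMaximal.ne_top inferInstance)] at this
  exact ha this

end DVR

section Coord

variable {R : Type*} [CommRing R] {M : Type*} [AddCommGroup M] [Module R M]

theorem repr_mem_of_mem_smul_top {ι : Type*} (b : Module.Basis ι R M) {I : Ideal R} {x : M}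
    (hx : x ∈ I • (⊤ : Submodule R M)) (i : ι) : b.repr x i ∈ I := by
  refine Submodule.smul_induction_on (p := fun x => b.repr x i ∈ I) hx ?_ ?_
  · intro a ha y _
    rw [map_smul, Finsupp.smul_apply, smul_eq_mul]
    exact Ideal.mul_mem_right _ _ ha
  · intro x y hx hy
    rw [map_add, Finsupp.add_apply]
    exact Ideal.add_mem _ hx hy

end Coord

section Lattice

variable {R : Type*} [CommRing R] [IsDomain R] [IsDiscreteValuationRing R]
  {M : Type*} [AddCommGroup M] [Module R M] [Module.Free R M] [Module.Finite R M]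

/-- **Lattice lemma.**  For a submodule `N` of a finite free module `M` over a discrete valuation
ring the `𝔪`-adic topology of `N` is induced by that of `M`, with a uniform shift. -/
theorem lattice_lemma (N : Submodule R M) :
    ∃ c : ℕ, ∀ m : ℕ, ∀ y ∈ N, y ∈ (maximalIdeal R ^ (m + c)) • (⊤ : Submodule R M) →
      y ∈ (maximalIdeal R ^ m) • N := by
  classical
  let b := Module.Free.chooseBasis R M
  obtain ⟨n, snf⟩ := N.smithNormalForm b
  have ha : ∀ i, snf.a i ≠ 0 := by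
    intro i h0
    have h1 := snf.snf i
    rw [h0, zero_smul] at h1
    have h2 : snf.bN i = 0 := Subtype.ext h1
    exact snf.bN.ne_zero i h2
  choose k hk using fun i => exists_notMem_pow (ha i)
  refine ⟨Finset.univ.sup k, fun m y hy hmem => ?_⟩
  have hcoef : ∀ i, snf.bN.repr ⟨y, hy⟩ i ∈ maximalIdeal R ^ m := by
    intro i
    have h1 : snf.bM.repr y (snf.f i) ∈ maximalIdeal R ^ (m + Finset.univ.sup k) :=
      repr_mem_of_mem_smul_top snf.bM hmem (snf.f i)
    have h2 : snf.bM.repr y (snf.f i) = snf.a i * snf.bN.repr ⟨y, hy⟩ i := by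
      have := snf.repr_apply_embedding_eq_repr_smul (m := ⟨y, hy⟩) (i := i)
      rw [map_smul, Finsupp.smul_apply, smul_eq_mul] at this
      exact this
    rw [h2] at h1
    have hle : k i ≤ Finset.univ.sup k := Finset.le_sup (Finset.mem_univ i)
    have h3 : snf.a i * snf.bN.repr ⟨y, hy⟩ i ∈ maximalIdeal R ^ (m + k i) :=
      Ideal.pow_le_pow_right (Nat.add_le_add_left hle m) h1
    exact mem_pow_of_mul_mem_pow h3 (hk i)
  have hsum : y = ∑ i, snf.bN.repr ⟨y, hy⟩ i • (snf.bN i : M) := by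
    have := congrArg (Subtype.val) (snf.bN.sum_repr ⟨y, hy⟩)
    simp only [Submodule.coe_sum, Submodule.coe_smul] at this
    exact this.symm
  rw [hsum]
  exact Submodule.sum_mem _ fun i _ => Submodule.smul_mem_smul (hcoef i) (snf.bN i).2

end Lattice

section Main

variable {𝒪 : Type*} [CommRing 𝒪] [IsDomain 𝒪] [IsDiscreteValuationRing 𝒪]
  {T : Type*} [CommRing T] [IsLocalRing T] [Algebra 𝒪 T] [Module.Finite 𝒪 T] [Module.Free 𝒪 T]
  [IsLocalHom (algebraMap 𝒪 T)]
  {ι : Type*} [Finite ι] {O : ι → Type*} [∀ i, CommRing (O i)] [∀ i, IsLocalRing (O i)]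
  [∀ i, Algebra 𝒪 (O i)] [∀ i, Module.Finite 𝒪 (O i)] [∀ i, Module.Free 𝒪 (O i)]

omit [IsDomain 𝒪] [IsDiscreteValuationRing 𝒪] [Module.Finite 𝒪 T] [Module.Free 𝒪 T] in
theorem smul_top_le_pow [IsLocalRing 𝒪] (n : ℕ) (x : T)
    (hx : x ∈ (maximalIdeal 𝒪 ^ n) • (⊤ : Submodule 𝒪 T)) : x ∈ maximalIdeal T ^ n := by
  refine Submodule.smul_induction_on (p := fun x => x ∈ maximalIdeal T ^ n) hx ?_ ?_
  · intro a ha y _
    rw [Algebra.smul_def]
    refine Ideal.mul_mem_right _ _ ?_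
    have hmap : (maximalIdeal 𝒪 ^ n).map (algebraMap 𝒪 T) ≤ maximalIdeal T ^ n := by
      rw [Ideal.map_pow]
      exact Ideal.pow_right_mono (Ideal.map_le_iff_le_comap.mpr fun a ha =>
        Ideal.mem_comap.mpr (map_nonunit (algebraMap 𝒪 T) a ha)) n
    exact hmap (Ideal.mem_map_of_mem _ ha)
  · intro x y hx hy
    exact Ideal.add_mem _ hx hy

omit [IsLocalRing T] [Module.Finite 𝒪 T] [Module.Free 𝒪 T] [IsLocalHom (algebraMap 𝒪 T)] in
/-- The nilpotence hypothesis `hnil` below holds when the target is a discrete valuation ring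
into which `𝒪` injects. -/
theorem hnil_of_dvr {B : Type*} [CommRing B] [IsDomain B] [IsDiscreteValuationRing B]
    [Algebra 𝒪 B] (hinj : Function.Injective (algebraMap 𝒪 B)) :
    ∃ e : ℕ, maximalIdeal B ^ e ≤ (maximalIdeal 𝒪).map (algebraMap 𝒪 B) := by
  obtain ⟨ϖ, hϖ⟩ := IsDiscreteValuationRing.exists_irreducible 𝒪
  obtain ⟨π, hπ⟩ := IsDiscreteValuationRing.exists_irreducible B
  have ha : algebraMap 𝒪 B ϖ ≠ 0 := fun h => hϖ.ne_zero (hinj (by rw [h, map_zero]))
  obtain ⟨e, u, hu⟩ := IsDiscreteValuationRing.eq_unit_mul_pow_irreducible ha hπ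
  refine ⟨e, ?_⟩
  rw [hϖ.maximalIdeal_eq, hπ.maximalIdeal_eq, Ideal.map_span, Set.image_singleton, hu,
    Ideal.span_singleton_pow, Ideal.span_singleton_le_span_singleton]
  exact ⟨((u⁻¹ : Bˣ) : B), by rw [mul_right_comm, Units.mul_inv, one_mul]⟩

omit [Module.Finite 𝒪 T] [Module.Free 𝒪 T] in
/-- The hypothesis `htop` of Carayol's lemma for orders over a discrete valuation ring. -/
theorem htop_of_finite_free (ψ : ∀ i, T →ₐ[𝒪] O i)
    (hinj : ∀ x : T, (∀ i, ψ i x = 0) → x = 0)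
    (hnil : ∀ i, ∃ e : ℕ, maximalIdeal (O i) ^ e ≤ (maximalIdeal 𝒪).map (algebraMap 𝒪 (O i))) :
    ∀ n : ℕ, ∃ N : ℕ, ∀ x : T,
      (∀ i, ψ i x ∈ maximalIdeal (O i) ^ N) → x ∈ maximalIdeal T ^ n := by
  classical
  cases nonempty_fintype ι
  intro n
  let Ψ : T →ₗ[𝒪] (∀ i, O i) := LinearMap.pi fun i => (ψ i).toLinearMap
  have hΨinj : Function.Injective Ψ := by
    rw [← LinearMap.ker_eq_bot, LinearMap.ker_eq_bot']
    intro x hx
    exact hinj x fun i => congrFun hx i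
  obtain ⟨c, hc⟩ := lattice_lemma (LinearMap.range Ψ)
  choose e he using hnil
  refine ⟨(Finset.univ.sup e) * (n + c), fun x hx => ?_⟩
  -- each coordinate lies in `𝔪_𝒪 ^ (n + c) • ⊤`
  have hcoord : ∀ i, ψ i x ∈ (maximalIdeal 𝒪 ^ (n + c)) • (⊤ : Submodule 𝒪 (O i)) := by
    intro i
    have h1 : maximalIdeal (O i) ^ ((Finset.univ.sup e) * (n + c)) ≤
        ((maximalIdeal 𝒪 ^ (n + c)).map (algebraMap 𝒪 (O i))) := by
      have hle : e i * (n + c) ≤ (Finset.univ.sup e) * (n + c) :=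
        Nat.mul_le_mul_right _ (Finset.le_sup (Finset.mem_univ i))
      refine (Ideal.pow_le_pow_right hle).trans ?_
      rw [pow_mul, Ideal.map_pow]
      exact Ideal.pow_right_mono (he i) (n + c)
    have h2 := h1 (hx i)
    have h3 : ((maximalIdeal 𝒪 ^ (n + c)) • (⊤ : Submodule 𝒪 (O i))) =
        (((maximalIdeal 𝒪 ^ (n + c)).map (algebraMap 𝒪 (O i))) : Ideal (O i)).restrictScalars 𝒪 := by
      rw [Ideal.smul_top_eq_map]
    rw [h3]
    exact h2
  have hΨx : Ψ x ∈ (maximalIdeal 𝒪 ^ (n + c)) • (⊤ : Submodule 𝒪 (∀ i, O i)) := by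
    have hsum : Ψ x = ∑ i, LinearMap.single 𝒪 O i (ψ i x) := by
      ext j
      simp [Ψ, Finset.sum_apply]
    rw [hsum]
    refine Submodule.sum_mem _ fun i _ => ?_
    have hmap : ((maximalIdeal 𝒪 ^ (n + c)) • (⊤ : Submodule 𝒪 (O i))).map (LinearMap.single 𝒪 O i) ≤
        (maximalIdeal 𝒪 ^ (n + c)) • (⊤ : Submodule 𝒪 (∀ i, O i)) := by
      rw [Submodule.map_smul'']
      exact Submodule.smul_mono le_rfl le_top
    exact hmap (Submodule.mem_map_of_mem (hcoord i))
  have h1 := hc n (Ψ x) (LinearMap.mem_range_self Ψ x) hΨx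
  have h2 : (maximalIdeal 𝒪 ^ n) • LinearMap.range Ψ =
      ((maximalIdeal 𝒪 ^ n) • (⊤ : Submodule 𝒪 T)).map Ψ := by
    rw [Submodule.map_smul'', Submodule.map_top]
  rw [h2] at h1
  obtain ⟨x', hx', hxx'⟩ := h1
  have : x' = x := hΨinj hxx'
  subst this
  exact smul_top_le_pow n x' hx'

end Main

end Fermat.Agent.M43.CarTop0
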