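import Mathlib

/-!
# M43 / P-PATCH: ring homomorphisms from a noetherian local ring to a finite ring

`pow_card_le_ker`: a ring hom from a noetherian local ring `(P, 𝔪)` to a finite ring `B`
kills `𝔪 ^ (card B)`.  Consequently the set of `O`-algebra homs `P →ₐ[O] B` is finite as soon
as all `P ⧸ 𝔪 ^ e` are finite.
-/

namespace Fermat.Agent.M43.Cont2

open IsLocalRing

variable {P : Type*} [CommRing P] [IsLocalRing P] [IsNoetherianRing P]

/-- A ring hom from a noetherian local ring to a finite ring kills a power of the maximal ideal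
that depends only on the cardinality of the target. -/
theorem pow_card_le_ker {B : Type*} [Ring B] [Finite B] (α : P →+* B) :
    maximalIdeal P ^ (Nat.card B) ≤ RingHom.ker α := by
  classical
  set K := RingHom.ker α with hK
  set 𝔪 := maximalIdeal P with h𝔪
  -- images of the powers
  let V : ℕ → Set B := fun i => α '' (𝔪 ^ i : Ideal P)
  have hVfin : ∀ i, (V i).Finite := fun i => Set.toFinite _
  have hVmono : ∀ i, V (i + 1) ⊆ V i := by
    intro i
    exact Set.image_mono (fun x hx => Ideal.pow_le_pow_right (Nat.le_succ i) hx)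
  have hjac : 𝔪 ≤ Ideal.jacobson ⊥ := by
    rw [h𝔪, IsLocalRing.jacobson_eq_maximalIdeal ⊥ bot_ne_top]
  -- if two consecutive images agree, the power is already in the kernel
  have hstep : ∀ i, V (i + 1) = V i → 𝔪 ^ i ≤ K := by
    intro i hi
    have hle : 𝔪 ^ i ≤ K ⊔ 𝔪 • 𝔪 ^ i := by
      intro x hx
      have hxV : α x ∈ V (i + 1) := by rw [hi]; exact ⟨x, hx, rfl⟩
      obtain ⟨y, hy, hyx⟩ := hxV
      have hk : x - y ∈ K := by rw [hK, RingHom.mem_ker, map_sub, hyx, sub_self]
      have hy' : y ∈ 𝔪 • 𝔪 ^ i := by
        rw [smul_eq_mul, ← pow_succ']; exact hy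
      have : x = (x - y) + y := by ring
      rw [this]
      exact Submodule.add_mem_sup hk hy'
    exact Submodule.le_of_le_smul_of_le_jacobson_bot (IsNoetherian.noetherian _) hjac hle
  -- the counting
  have hcount : ∀ i, 𝔪 ^ i ≤ K ∨ (V i).ncard + i ≤ Nat.card B := by
    intro i
    induction i with
    | zero =>
      right
      simp only [add_zero]
      calc (V 0).ncard ≤ (Set.univ : Set B).ncard := Set.ncard_le_ncard (Set.subset_univ _)
        _ = Nat.card B := Set.ncard_univ B
    | succ i ih =>
      rcases ih with h | h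
      · left; exact (Ideal.pow_le_pow_right (Nat.le_succ i)).trans h
      · by_cases heq : V (i + 1) = V i
        · left; exact (Ideal.pow_le_pow_right (Nat.le_succ i)).trans (hstep i heq)
        · right
          have hlt : (V (i + 1)).ncard < (V i).ncard :=
            Set.ncard_lt_ncard (lt_of_le_of_ne (hVmono i) heq) (hVfin i)
          omega
  rcases hcount (Nat.card B) with h | h
  · exact h
  · exfalso
    have hpos : 0 < (V (Nat.card B)).ncard := by
      rw [Set.ncard_pos (hVfin _)]
      exact ⟨0, 0, Ideal.zero_mem _, map_zero α⟩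
    omega

variable {O : Type*} [CommRing O] [Algebra O P]

/-- Finiteness of the set of algebra homs to a finite ring. -/
theorem finite_algHom (hPfin : ∀ e : ℕ, Finite (P ⧸ maximalIdeal P ^ e))
    (B : Type*) [Ring B] [Algebra O B] [Finite B] : Finite (P →ₐ[O] B) := by
  have := hPfin (Nat.card B)
  let F : (P →ₐ[O] B) → ((P ⧸ maximalIdeal P ^ (Nat.card B)) →ₐ[O] B) := fun α =>
    Ideal.Quotient.liftₐ _ α (fun a ha => pow_card_le_ker (α : P →+* B) ha)
  have hF : Function.Injective F := by
    intro α β h
    ext x
    exact DFunLike.congr_fun h (Ideal.Quotient.mk _ x)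
  have : Finite ((P ⧸ maximalIdeal P ^ (Nat.card B)) →ₐ[O] B) := DFunLike.finite _
  exact Finite.of_injective F hF

end Fermat.Agent.M43.Cont2
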