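/-
Programme M43, chapter (LG-q), block [ETALE] (helper7), file 2: **descent of `n ∣ ord` to the
number-field models of N34.**

N34's nodal model lives over a (large, normal) number field `K ⊂ ℚbar`: `F = FK (M' q) K`,
places `Place K (FK (M' q) K)`.  The tree's extension of places `K → ℚbar`
(`RED/DESC/PlaceExtend27.exists_place_above`) only gives `ord_v ∘ bc = e · ord_w` with `e ≥ 1`;
`e = 1` is known when a uniformiser at `v` descends to `K` (`UnifDescent14`).  Since a nonzero
function has finitely many zeros and poles, this is enough: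

* `exists_dvd_ord_descent` : `x ∈ Fbar N` with `n ∣ ord_v x` for all places `v` of `Fbar N / ℚbar`
  ⟹ there is a number field `K₁` such that over EVERY number field `K ⊇ K₁` the element `x` descends
  to `x' ∈ FK N K` with `n ∣ ord_w x'` for all places `w` of `FK N K / K`;
* `exists_thetaPow_descent` : the case `x = θ_ψ ^ n` of `EtaleDiv7` — hypothesis (U2) of
  `NumData13.NodalNumData.cl` / `PrimePlace15.exists_unit_mul_pow_of_places` for the Kummer element.
-/
import Mathlib
import Fermat.Agent.M43.EtaleDiv7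
import Fermat.Agent.RED.DESC.UnifDescent14

set_option autoImplicit false
set_option linter.unusedSectionVars false
set_option linter.style.haveILetI false
set_option synthInstance.maxHeartbeats 400000

open AlgebraicCurve ModularCurve

noncomputable section

namespace Fermat.Agent.M43.EtaleNF7

open Fermat.Agent.X0 Fermat.Agent.RED.Interface4 Fermat.Agent.RED.DESC.PlaceExtend27
  Fermat.Agent.RED.DESC.UnifDescent14 Fermat.Agent.M43.EtaleDiv7

/-- **Descent of the divisibility of all orders to number fields.** -/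
theorem exists_dvd_ord_descent (N : ℕ) [NeZero N] (x : Fbar N) (n : ℤ)
    (hx : ∀ v : Place Qbar (Fbar N), n ∣ v.ord x) :
    ∃ K₁ : IntermediateField ℚ Qbar, FiniteDimensional ℚ K₁ ∧
      ∀ K : IntermediateField ℚ Qbar, FiniteDimensional ℚ K → K₁ ≤ K →
        ∃ x' : FK N K, baseChangeHom N K x' = x ∧ ∀ w : Place K (FK N K), n ∣ w.ord x' := by
  classical
  by_cases hx0 : x = 0
  · refine ⟨⊥, inferInstance, fun K _ _ => ⟨0, by rw [map_zero, hx0], fun w => ?_⟩⟩
    rw [Place.ord_zero]
    exact dvd_zero n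
  · have hfin : {v : Place Qbar (Fbar N) | v.ord x ≠ 0}.Finite :=
      (Fermat.Agent.X0.FFGenus.genusHyp
        (Fermat.Agent.RED.TOP.FbarFacts20.isGen_j N)).finite_support_ord x hx0
    obtain ⟨K₁, hfin₁, H₁⟩ := unif_descent N hfin.toFinset
    haveI := hfin₁
    obtain ⟨K₂, hfin₂, hK₁₂, H₂⟩ := exists_descent_ge N K₁ x
    refine ⟨K₂, hfin₂, fun K hK hle => ?_⟩
    obtain ⟨x', hx'⟩ := H₂ K hle
    refine ⟨x', hx', fun w => ?_⟩
    obtain ⟨v, e, he, hord⟩ := exists_place_above N K w
    have h2 := hord x'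
    rw [hx'] at h2
    have key : ∀ a : ℤ, v.ord x = (e : ℤ) * a → n ∣ a := by
      intro a ha
      by_cases h0 : a = 0
      · rw [h0]
        exact dvd_zero n
      · have he0 : (e : ℤ) ≠ 0 := Int.natCast_ne_zero.2 he.ne'
        have hv : v.ord x ≠ 0 := by
          rw [ha]
          exact mul_ne_zero he0 h0
        have hvS : v ∈ hfin.toFinset := hfin.mem_toFinset.2 hv
        obtain ⟨τ, hτ⟩ := H₁ K hK (hK₁₂.trans hle) v hvS
        have he1 : e = 1 := ramification_eq_one N w v e hord τ hτ
        have h1 := hx v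
        rw [ha, he1, Nat.cast_one, one_mul] at h1
        exact h1
    exact key _ h2

variable {r : ℕ} [Fact r.Prime]

/-- **[ETALE] over number fields**: over every sufficiently large number field `K` the Kummer
element `θ_ψ ^ n ∈ Fbar (M' r)` descends to `u' ∈ FK (M' r) K` and `n ∣ ord_w u'` at EVERY place
`w` of `FK (M' r) K / K`. -/
theorem exists_thetaPow_descent {ψ : MulChar (ZMod r) Kbar} (heven : ψ (-1) = 1) {n : ℕ}
    (hn0 : n ≠ 0) (hn : ψ ^ n = 1) (M' : ℕ) [NeZero M'] (h4 : 4 ∣ M') :
    ∃ K₁ : IntermediateField ℚ Qbar, FiniteDimensional ℚ K₁ ∧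
      ∀ K : IntermediateField ℚ Qbar, FiniteDimensional ℚ K → K₁ ≤ K →
        ∃ u' : FK (M' * r) K, baseChangeHom (M' * r) K u' = thetaPow heven hn M' ∧
          ∀ w : Place K (FK (M' * r) K), (n : ℤ) ∣ w.ord u' :=
  exists_dvd_ord_descent (M' * r) (thetaPow heven hn M') (n : ℤ)
    (fun v => dvd_ord_thetaPow heven hn0 hn M' h4 v)

end Fermat.Agent.M43.EtaleNF7
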