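/-
Programme M43 (target S43), pillar (P-END) NEW ⇒ RAM, brick FIN (helper1): **on the special fibre of
the good level `M'` the divisor classes fixed by the SQUARE of the coefficientwise Frobenius are
finitely many** (`= Pic⁰(X₀(M')_{𝔽_{q²}})`).

`h : LevelHyp q M' A`, `κ = Setup8.kA A` (algebraically closed of characteristic `q`),
`Fb A M' = κ·F̃_{M'} ⊆ κ((𝐪))`, `frobSemi κ q M'` the coefficientwise `q`-Frobenius.

Instance of the abstract theorem `M15/FrobFin4.finite_fixed_classes` (normal forms + pigeonhole; no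
Lang theorem), fed with `T33/NodalInst4C.lHypFb`, Riemann's inequality `T33/NodalInst6G.riemann_component`
and the reduced Hauptmodul `T33/NodalRange2A.x1` (expansion `tq κ 4 8`, fixed by Frobenius).
-/
import Mathlib
import Fermat.Agent.M15.FrobFin4
import Fermat.Agent.M15.FinRed4
import Fermat.Agent.T33.NodalInst4C
import Fermat.Agent.T33.NodalInst6G
import Fermat.Agent.T33.NodalRange2A
import Fermat.Agent.ES.RED.FrobPoles13

set_option autoImplicit false
set_option linter.style.haveILetI false
set_option linter.unusedSectionVars false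
set_option synthInstance.maxHeartbeats 400000

noncomputable section

open AlgebraicCurve ModularCurve

namespace Fermat.Agent.M43.FrobFin1

open Fermat.Agent.RED.Interface4 Fermat.Agent.ES.RED Fermat.Agent.T33.NodalHalf4
  Fermat.Agent.ES.KRON.FrobPlace13

variable {q M' : ℕ} [NeZero M'] [NeZero q] {A : ValuationSubring Qbar}

/-- **FIN**: the classes of the special fibre fixed by the square of Frobenius are finitely many. -/
theorem finite_fixed_frobSemi_sq (h : LevelHyp q M' A)
    [ExpChar (Setup8.kA A) q] [PerfectField (Setup8.kA A)] :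
    {x : JZeroC (Setup8.kA A) M' | (frobSemi (Setup8.kA A) q M' ^ 2) • x = x}.Finite := by
  have HL := Fermat.Agent.T33.NodalInst4C.lHypFb h
  have hR : Fermat.Agent.J.DESC.NormalForm10.RiemannHyp (Setup8.kA A) (Fb A M') :=
    ⟨(Fermat.Agent.T33.NodalInst6.gComp M' : ℤ),
      fun D => Fermat.Agent.T33.NodalInst6.riemann_component h D⟩
  have hgen := Fermat.Agent.T33.NodalRange2A.isGen_x1 h
  have hnc : ∀ c : Setup8.kA A, Fermat.Agent.T33.NodalRange2A.x1 h ≠
      algebraMap (Setup8.kA A) (Fb A M') c := by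
    intro c hc
    exact hgen.transcendental (hc ▸ isAlgebraic_algebraMap c)
  have hfix1 : frobSemi (Setup8.kA A) q M' • Fermat.Agent.T33.NodalRange2A.x1 h =
      Fermat.Agent.T33.NodalRange2A.x1 h :=
    Fermat.Agent.ES.RED.FrobPoles13.frobSemi_smul_tq (Setup8.kA A) q M' 4 8
      (Fermat.Agent.T33.NodalRange2A.coe_x1 h)
  have hfix : (frobSemi (Setup8.kA A) q M' ^ 2) • Fermat.Agent.T33.NodalRange2A.x1 h =
      Fermat.Agent.T33.NodalRange2A.x1 h :=
    Fermat.Agent.M15.FrobFin4.pow_smul_fixed _ hfix1 2
  refine Fermat.Agent.M15.FrobFin4.finite_fixed_classes HL hR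
    (frobSemi (Setup8.kA A) q M' ^ 2) hnc hfix ?_
  intro n hn
  rw [Fermat.Agent.M15.FrobFin4.baseAut_pow, baseAut_frobSemi, ← pow_mul]
  exact Fermat.Agent.M15.FinRed4.finite_fixed_frobenius (Setup8.kA A) q h.prime.one_lt (2 * n)
    (by omega)

end Fermat.Agent.M43.FrobFin1
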