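/-
M43 (helper1) [(6d') consumer form, `hΔ`] HeckeDel1: **the hypothesis `hΔ` of the lead's
`UCutP0.exists_ctrl` / `UCutL0.exists_cut`.**

`bijective_map_Del`: in the frame of (6d'), for a family `ℓ : ι → ℕ` of primes outside `S` containing
all primes outside `S ∪ Q`, Taylor–Wiles primes `q i` (`i < j`), any submonoid `Sm` of
`MvPolynomial ι 𝒪` containing the complement of the kernel of the residual eigensystem and ANY
localisation `fY` of `PolyMod (Top ∘ ℓ)` at `Sm`: the localisation of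
`Del = ∏_{i<j} ((q i + 1)² - T_{q i}²)` is bijective.
-/
import Mathlib
import Fermat.Agent.M43.HeckeTW1

set_option autoImplicit false
set_option linter.style.haveILetI false
set_option linter.unusedSectionVars false

noncomputable section

namespace Fermat.Agent.M43.HeckeDel1

open IsLocalRing CuspForm Polynomial CongruenceSubgroup ModularCurve.Period
open Fermat.Agent.M43.DatumAlg3 Fermat.Agent.M43.HeckeLoc1 Fermat.Agent.M43.HeckeBridge1
  Fermat.Agent.M43.UCutI0 Fermat.Agent.M43.UCutA0 Fermat.Agent.M43.PolyMod5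
  Fermat.Agent.M43.HeckePoly1 Fermat.Agent.M43.HeckeTW1

local notation "Qb" => AlgebraicClosure ℚ
local notation "GQ" => (AlgebraicClosure ℚ ≃ₐ[ℚ] AlgebraicClosure ℚ)

section Abstract

variable {O : Type*} [CommRing O] {ι : Type*} {P : Type*} [AddCommGroup P] [Module O P]
  (τ : ι → Module.End O P) (hτ : ∀ i j, Commute (τ i) (τ j))

/-- an operator with a two-sided inverse up to an element of `Sm` is bijective on every
localisation at `Sm`. -/
theorem bijective_map_of_witness (Sm : Submonoid (MvPolynomial ι O))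
    {L : Type*} [AddCommGroup L] [Module (MvPolynomial ι O) L]
    (f : PolyMod τ hτ →ₗ[MvPolynomial ι O] L) [IsLocalizedModule Sm f]
    (D g : Module.End O P) (hD : ∀ i, Commute D (τ i)) (hg : ∀ i, Commute g (τ i))
    (s : MvPolynomial ι O) (hs : s ∈ Sm)
    (h1 : D * g = polyAct τ hτ s) (h2 : g * D = polyAct τ hτ s) :
    Function.Bijective (IsLocalizedModule.map Sm f f (PolyMod.endo (hτ := hτ) D hD)) := by
  set Dm := IsLocalizedModule.map Sm f f (PolyMod.endo (hτ := hτ) D hD) with hDm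
  set Gm := IsLocalizedModule.map Sm f f (PolyMod.endo (hτ := hτ) g hg) with hGm
  have hU : Function.Bijective fun z : L => s • z :=
    (Module.End.isUnit_iff _).mp (IsLocalizedModule.map_units (S := Sm) f ⟨s, hs⟩)
  have hDG : ∀ z, Dm (Gm z) = s • z := by
    have : Dm ∘ₗ Gm = s • (LinearMap.id : L →ₗ[MvPolynomial ι O] L) := by
      apply IsLocalizedModule.linearMap_ext Sm f f
      apply LinearMap.ext
      intro y
      rw [LinearMap.comp_apply, LinearMap.comp_apply, LinearMap.comp_apply, LinearMap.smul_apply,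
        LinearMap.id_apply, hGm, IsLocalizedModule.map_apply, hDm, IsLocalizedModule.map_apply,
        ← map_smul]
      congr 1
      show PolyMod.of τ hτ (D (g ((PolyMod.of τ hτ).symm y))) = s • y
      rw [PolyMod.smul_def, ← h1, Module.End.mul_apply]
    intro z
    have := congrArg (fun F : L →ₗ[MvPolynomial ι O] L => F z) this
    simpa using this
  have hGD : ∀ z, Gm (Dm z) = s • z := by
    have : Gm ∘ₗ Dm = s • (LinearMap.id : L →ₗ[MvPolynomial ι O] L) := by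
      apply IsLocalizedModule.linearMap_ext Sm f f
      apply LinearMap.ext
      intro y
      rw [LinearMap.comp_apply, LinearMap.comp_apply, LinearMap.comp_apply, LinearMap.smul_apply,
        LinearMap.id_apply, hDm, IsLocalizedModule.map_apply, hGm, IsLocalizedModule.map_apply,
        ← map_smul]
      congr 1
      show PolyMod.of τ hτ (g (D ((PolyMod.of τ hτ).symm y))) = s • y
      rw [PolyMod.smul_def, ← h2, Module.End.mul_apply]
    intro z
    have := congrArg (fun F : L →ₗ[MvPolynomial ι O] L => F z) this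
    simpa using this
  constructor
  · intro z z' h
    apply hU.1
    show s • z = s • z'
    rw [← hGD z, ← hGD z', h]
  · intro z
    obtain ⟨w, hw⟩ := hU.2 z
    exact ⟨Gm w, (hDG w).trans hw⟩

end Abstract

section Main

variable (p : ℕ) [hp : Fact p.Prime] (N : ℕ) [NeZero N] (S : Finset ℕ)
  (𝒪 : Type) [CommRing 𝒪] [IsDomain 𝒪] [IsDiscreteValuationRing 𝒪]
  [IsAdicComplete (maximalIdeal 𝒪) 𝒪] [Finite (ResidueField 𝒪)] [CharZero 𝒪]
  [CharP (ResidueField 𝒪) p]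
  (θ : heckeAlgebra N 2 (↑S : Set ℕ) →+* ResidueField 𝒪)

/-- **`hΔ`**: the localisation of `Del` is bijective. -/
theorem bijective_map_Del (hp2 : p ≠ 2) (hp𝒪 : (p : 𝒪) ∈ maximalIdeal 𝒪)
    (hpS : p ∈ S) (hNS : ∀ q : ℕ, q.Prime → q ∣ N → q ∈ S)
    (ρbar : ResidualGaloisRep (ResidueField 𝒪)) (habs : ρbar.IsAbsolutelyIrreducible)
    (hdet : (GaloisRepAdic.ofResidualGaloisRep ρbar).DetIsCyclotomic p)
    (hθ : ∀ (ℓ : ℕ) (hℓ : ℓ.Prime) (hℓN : ¬ ℓ ∣ N) (hℓS : ℓ ∉ (↑S : Set ℕ)),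
      ∀ P : ValuationSubring Qb, P.LiesOverPrime ℓ → ∀ φ : GQ, P.IsFrobeniusAt φ ℓ →
        LinearMap.charpoly (ρbar.ρ φ) =
          X ^ 2 - C (θ (heckeAlgebra.T hℓ hℓN hℓS)) * X + C ((ℓ : ResidueField 𝒪)))
    (Q : Finset ℕ) {ι : Type*} (ℓ : ι → ℕ) (hℓS : ∀ i, ℓ i ∉ S)
    (hcov : ∀ ℓ' : ℕ, ℓ'.Prime → ℓ' ∉ S → ℓ' ∉ Q → ∃ i, ℓ i = ℓ')
    (q : ℕ → ℕ) (j : ℕ) (hq : ∀ i < j, (q i).Prime ∧ q i ∉ S ∧ (q i : ResidueField 𝒪) = 1)
    (hTW : ∀ i < j, ∀ P : ValuationSubring Qb, P.LiesOverPrime (q i) → ∀ φ : GQ,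
      P.IsFrobeniusAt φ (q i) → ∃ α β : ResidueField 𝒪, α ≠ β ∧
        LinearMap.charpoly (ρbar.ρ φ) = (X - C α) * (X - C β))
    (Sm : Submonoid (MvPolynomial ι 𝒪))
    (hSm : ∀ s, MvPolynomial.aeval (fun i => tθ N S 𝒪 θ (ℓ i)) s ≠ 0 → s ∈ Sm)
    (hτY : ∀ i i', Commute (UCutI0.Top 𝒪 N (ℓ i)) (UCutI0.Top 𝒪 N (ℓ i')))
    {LY : Type*} [AddCommGroup LY] [Module (MvPolynomial ι 𝒪) LY]
    (fY : PolyMod (fun i => UCutI0.Top 𝒪 N (ℓ i)) hτY →ₗ[MvPolynomial ι 𝒪] LY)
    [IsLocalizedModule Sm fY]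
    (hDel : ∀ i, Commute (Del 𝒪 N q j) (UCutI0.Top 𝒪 N (ℓ i))) :
    Function.Bijective (IsLocalizedModule.map Sm fY fY
      (PolyMod.endo (hτ := hτY) (Del 𝒪 N q j) hDel)) := by
  obtain ⟨g, s, hs, h1, h2, hg⟩ := exists_Del_witness_TW p N S 𝒪 θ hp2 hp𝒪 hpS hNS ρbar habs
    hdet hθ Q ℓ hℓS hcov q j hq hTW
  exact bijective_map_of_witness (fun i => UCutI0.Top 𝒪 N (ℓ i)) hτY Sm fY (Del 𝒪 N q j) g hDel
    (fun i => hg (ℓ i) (hℓS i)) s (hSm s hs) h1 h2

end Main

end Fermat.Agent.M43.HeckeDel1
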