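/-
Programme M43 (target S43), Hecke side, FRAMEWORK (lead): **coset-sum operators on the groups
`Γ_H(N)`**, in the vocabulary of M48 (`ESInv3.CosetOp`, `CosetOp3.addHom`).

* toolkit, generic in `Γ ≤ SL(2, ℤ)`:
  - (K1) `addHom_eq_of_reps` : two coset operators whose representatives differ by a bijection of
    the index sets and left multiplication by elements of `Γ` (the second family lying in distinct
    left `Γ`-cosets) induce the same operator on `Hom(Γ, A)`;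
  - (K2) `restrict` : restriction of a coset operator to a subgroup preserved by the cocycle,
    `restrict_addHom`;
  - (K3) `transport` : transport along an isomorphism `c : Γ ≃* Γ₂` which is conjugation by
    `x ∈ GL₂(ℝ)`, `transport_addHom`;
  - `conjOp σ` : conjugation by an element `σ` of `SL(2, ℤ)` normalising `Γ`, `conjOp_addHom_apply`.
* `GH N H` : the matrices of `Γ₀(N)` whose lower right entry mod `N` lies in `H ≤ (ℤ/N)ˣ`;
  `mem_GH`, `GH_le_Gamma0`, `Gamma1_le_GH`, `conj_mem_GH`, `neg_one_mem_GH`.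
* `hecke0 hpN σ hσ : CosetOp (Gamma0 N)` : **the master operator `T_p`** (`p ∤ N`, `σ ∈ Γ₀(N)` with
  lower right entry `≡ p`): representatives `[[1, j], [0, p]]` and `σ · [[p, 0], [0, 1]]`, cocycle
  `tw i · coc⁰ γ i · (tw (perm γ i))⁻¹`; **`unitOf_hecke0_coc` : the cocycle has the diamond class of
  `γ`** (so it preserves every `Γ_H(N)`); `hecke0_reps_inj` (distinct cosets).
* `heckeH hpN σ hσ H : CosetOp (GH N H)` := its restriction; `heckeH_addHom_apply`;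
  `heckeH_indep` (independence of `σ`).
-/
import Mathlib
import Fermat.Agent.M48.CosetOp3
import Fermat.Agent.M48.G1Reps3

set_option autoImplicit false

noncomputable section

namespace Fermat.Agent.M43.HeckeH0

open CongruenceSubgroup Matrix.SpecialLinearGroup
open scoped MatrixGroups
open Fermat.Agent.M48.ESInv3 Fermat.Agent.M48.CosetOp3 Fermat.Agent.M48.Diamond1
  Fermat.Agent.M48.G1Reps3
open Fermat.Agent.ES.HEQ

/-! ### Toolkit -/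

section Toolkit

variable {Γ : Subgroup SL(2, ℤ)}

/-- **(K1)** independence of the representatives. -/
theorem addHom_eq_of_reps {A : Type*} [AddCommGroup A] (T T' : CosetOp Γ) (e : T.I ≃ T'.I)
    (a : T.I → Γ)
    (hg : ∀ i, T'.g (e i) = mapGL ℝ ((a i : Γ) : SL(2, ℤ)) * T.g i)
    (hinj : ∀ (i j : T'.I) (c : Γ), T'.g i = mapGL ℝ ((c : Γ) : SL(2, ℤ)) * T'.g j → i = j)
    (φ : Additive Γ →+ A) : T'.addHom φ = T.addHom φ := by
  -- the comparison of the cocycles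
  have key : ∀ (γ : Γ) (i : T.I), T'.perm γ (e i) = e (T.perm γ i) ∧
      T'.coc γ (e i) = a i * T.coc γ i * (a (T.perm γ i))⁻¹ := by
    intro γ i
    set k := T.perm γ i with hk
    have h1 := T'.rel γ (e i)
    have h2 := T.rel γ i
    rw [hg i, mul_assoc, h2, ← hk] at h1
    -- `mapGL (a i) * (mapGL (coc) * g k) = mapGL (coc') * g' (perm' (e i))`
    have h3 : T'.g (T'.perm γ (e i))
        = mapGL ℝ (((T'.coc γ (e i))⁻¹ * (a i * T.coc γ i * (a k)⁻¹) : Γ) : SL(2, ℤ))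
          * T'.g (e k) := by
      rw [hg k]
      have : mapGL ℝ (((T'.coc γ (e i))⁻¹ * (a i * T.coc γ i * (a k)⁻¹) : Γ) : SL(2, ℤ))
          = (mapGL ℝ ((T'.coc γ (e i) : Γ) : SL(2, ℤ)))⁻¹ * (mapGL ℝ ((a i : Γ) : SL(2, ℤ))
            * mapGL ℝ ((T.coc γ i : Γ) : SL(2, ℤ)) * (mapGL ℝ ((a k : Γ) : SL(2, ℤ)))⁻¹) := by
        simp only [Subgroup.coe_mul, Subgroup.coe_inv, map_mul, map_inv]
      rw [this]
      have h1' : T'.g (T'.perm γ (e i)) = (mapGL ℝ ((T'.coc γ (e i) : Γ) : SL(2, ℤ)))⁻¹ *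
          (mapGL ℝ ((a i : Γ) : SL(2, ℤ)) * (mapGL ℝ ((T.coc γ i : Γ) : SL(2, ℤ)) * T.g k)) := by
        rw [h1, inv_mul_cancel_left]
      rw [h1']
      group
    have hperm : T'.perm γ (e i) = e k := hinj _ _ _ h3
    refine ⟨hperm, ?_⟩
    rw [hperm] at h1
    -- cancel `T'.g (e k)`
    rw [hg k] at h1
    have h4 : mapGL ℝ ((T'.coc γ (e i) : Γ) : SL(2, ℤ))
        = mapGL ℝ (((a i * T.coc γ i * (a k)⁻¹ : Γ)) : SL(2, ℤ)) := by
      have : mapGL ℝ (((a i * T.coc γ i * (a k)⁻¹ : Γ)) : SL(2, ℤ))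
          = mapGL ℝ ((a i : Γ) : SL(2, ℤ))
            * mapGL ℝ ((T.coc γ i : Γ) : SL(2, ℤ)) * (mapGL ℝ ((a k : Γ) : SL(2, ℤ)))⁻¹ := by
        simp only [Subgroup.coe_mul, Subgroup.coe_inv, map_mul, map_inv]
      rw [this]
      have h5 : mapGL ℝ ((T'.coc γ (e i) : Γ) : SL(2, ℤ)) * (mapGL ℝ ((a k : Γ) : SL(2, ℤ)) * T.g k)
          * (T.g k)⁻¹ * (mapGL ℝ ((a k : Γ) : SL(2, ℤ)))⁻¹
          = mapGL ℝ ((a i : Γ) : SL(2, ℤ)) * (mapGL ℝ ((T.coc γ i : Γ) : SL(2, ℤ)) * T.g k)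
            * (T.g k)⁻¹ * (mapGL ℝ ((a k : Γ) : SL(2, ℤ)))⁻¹ := by
        rw [← h1]
      have l : mapGL ℝ ((T'.coc γ (e i) : Γ) : SL(2, ℤ)) * (mapGL ℝ ((a k : Γ) : SL(2, ℤ)) * T.g k)
          * (T.g k)⁻¹ * (mapGL ℝ ((a k : Γ) : SL(2, ℤ)))⁻¹
          = mapGL ℝ ((T'.coc γ (e i) : Γ) : SL(2, ℤ)) := by group
      have r : mapGL ℝ ((a i : Γ) : SL(2, ℤ)) * (mapGL ℝ ((T.coc γ i : Γ) : SL(2, ℤ)) * T.g k)
            * (T.g k)⁻¹ * (mapGL ℝ ((a k : Γ) : SL(2, ℤ)))⁻¹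
          = mapGL ℝ ((a i : Γ) : SL(2, ℤ))
            * mapGL ℝ ((T.coc γ i : Γ) : SL(2, ℤ)) * (mapGL ℝ ((a k : Γ) : SL(2, ℤ)))⁻¹ := by group
      rw [l, r] at h5
      exact h5
    exact Subtype.ext (mapGL_injective h4)
  refine AddMonoidHom.ext fun γ' => ?_
  obtain ⟨γ, rfl⟩ := Additive.ofMul.surjective γ'
  rw [CosetOp.addHom_apply, CosetOp.addHom_apply, ← Equiv.sum_comp e]
  have h1 : ∀ i, φ (Additive.ofMul (T'.coc γ (e i)))
      = φ (Additive.ofMul (a i)) + φ (Additive.ofMul (T.coc γ i))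
        - φ (Additive.ofMul (a (T.perm γ i))) := by
    intro i
    rw [(key γ i).2, ofMul_mul, ofMul_mul, ofMul_inv, map_add, map_add, map_neg]
    abel
  simp only [h1, Finset.sum_sub_distrib, Finset.sum_add_distrib]
  have h2 : ∑ i, φ (Additive.ofMul (a (T.perm γ i))) = ∑ i, φ (Additive.ofMul (a i)) :=
    Equiv.sum_comp (T.perm γ) (fun i => φ (Additive.ofMul (a i)))
  rw [h2]
  abel

/-- **(K2)** restriction of a coset operator to a subgroup preserved by the cocycle. -/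
def restrict (T : CosetOp Γ) (Γ' : Subgroup SL(2, ℤ)) (hle : Γ' ≤ Γ)
    (h : ∀ (γ : Γ) (i : T.I), (γ : SL(2, ℤ)) ∈ Γ' → ((T.coc γ i : Γ) : SL(2, ℤ)) ∈ Γ') :
    CosetOp Γ' where
  I := T.I
  fintype := T.fintype
  g := T.g
  det_pos := T.det_pos
  perm γ := T.perm (Subgroup.inclusion hle γ)
  coc γ i := ⟨T.coc (Subgroup.inclusion hle γ) i, h _ i γ.2⟩
  rel γ i := T.rel (Subgroup.inclusion hle γ) i
  perm_mul γ δ i := by
    rw [map_mul]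
    exact T.perm_mul _ _ i
  coc_mul γ δ i := by
    apply Subtype.ext
    show ((T.coc (Subgroup.inclusion hle (γ * δ)) i : Γ) : SL(2, ℤ)) = _
    rw [map_mul, T.coc_mul]
    rfl

theorem coe_restrict_coc (T : CosetOp Γ) (Γ' : Subgroup SL(2, ℤ)) (hle : Γ' ≤ Γ)
    (h : ∀ (γ : Γ) (i : T.I), (γ : SL(2, ℤ)) ∈ Γ' → ((T.coc γ i : Γ) : SL(2, ℤ)) ∈ Γ')
    (γ : Γ') (i : T.I) :
    (((restrict T Γ' hle h).coc γ i : Γ') : SL(2, ℤ))
      = ((T.coc (Subgroup.inclusion hle γ) i : Γ) : SL(2, ℤ)) := rfl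

theorem inclusion_restrict_coc (T : CosetOp Γ) (Γ' : Subgroup SL(2, ℤ)) (hle : Γ' ≤ Γ)
    (h : ∀ (γ : Γ) (i : T.I), (γ : SL(2, ℤ)) ∈ Γ' → ((T.coc γ i : Γ) : SL(2, ℤ)) ∈ Γ')
    (γ : Γ') (i : T.I) :
    Subgroup.inclusion hle ((restrict T Γ' hle h).coc γ i) = T.coc (Subgroup.inclusion hle γ) i :=
  Subtype.ext rfl

/-- the restriction of homomorphisms along `Γ' ≤ Γ`. -/
def resHom {A : Type*} [AddCommGroup A] {Γ' : Subgroup SL(2, ℤ)} (hle : Γ' ≤ Γ)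
    (φ : Additive Γ →+ A) : Additive Γ' →+ A :=
  φ.comp (MonoidHom.toAdditive (Subgroup.inclusion hle))

@[simp] theorem resHom_apply {A : Type*} [AddCommGroup A] {Γ' : Subgroup SL(2, ℤ)} (hle : Γ' ≤ Γ)
    (φ : Additive Γ →+ A) (γ : Γ') :
    resHom hle φ (Additive.ofMul γ) = φ (Additive.ofMul (Subgroup.inclusion hle γ)) := rfl

/-- **(K2)** the restricted operator commutes with the restriction of homomorphisms. -/
theorem restrict_addHom {A : Type*} [AddCommGroup A] (T : CosetOp Γ) (Γ' : Subgroup SL(2, ℤ))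
    (hle : Γ' ≤ Γ)
    (h : ∀ (γ : Γ) (i : T.I), (γ : SL(2, ℤ)) ∈ Γ' → ((T.coc γ i : Γ) : SL(2, ℤ)) ∈ Γ')
    (φ : Additive Γ →+ A) :
    (restrict T Γ' hle h).addHom (resHom hle φ) = resHom hle (T.addHom φ) := by
  refine AddMonoidHom.ext fun γ' => ?_
  obtain ⟨γ, rfl⟩ := Additive.ofMul.surjective γ'
  rw [CosetOp.addHom_apply, resHom_apply, CosetOp.addHom_apply]
  refine Finset.sum_congr rfl fun i _ => ?_
  rw [resHom_apply, inclusion_restrict_coc]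

/-- **(K3)** transport of a coset operator along an isomorphism `c : Γ ≃* Γ₂` which is the
conjugation by `x ∈ GL₂(ℝ)`. -/
def transport (T : CosetOp Γ) {Γ₂ : Subgroup SL(2, ℤ)} (x : GL (Fin 2) ℝ) (c : Γ ≃* Γ₂)
    (hc : ∀ γ : Γ, mapGL ℝ ((c γ : Γ₂) : SL(2, ℤ)) = x * mapGL ℝ ((γ : Γ) : SL(2, ℤ)) * x⁻¹) :
    CosetOp Γ₂ where
  I := T.I
  fintype := T.fintype
  g i := x * T.g i * x⁻¹
  det_pos i := by
    have : (x * T.g i * x⁻¹).det = (T.g i).det := by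
      rw [map_mul, map_mul, map_inv, mul_comm, ← mul_assoc, inv_mul_cancel, one_mul]
    rw [this]
    exact T.det_pos i
  perm γ := T.perm (c.symm γ)
  coc γ i := c (T.coc (c.symm γ) i)
  rel γ i := by
    have h1 : mapGL ℝ ((γ : Γ₂) : SL(2, ℤ))
        = x * mapGL ℝ ((c.symm γ : Γ) : SL(2, ℤ)) * x⁻¹ := by
      rw [← hc, MulEquiv.apply_symm_apply]
    rw [h1, hc]
    have h2 := T.rel (c.symm γ) i
    calc x * T.g i * x⁻¹ * (x * mapGL ℝ ((c.symm γ : Γ) : SL(2, ℤ)) * x⁻¹)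
        = x * (T.g i * mapGL ℝ ((c.symm γ : Γ) : SL(2, ℤ))) * x⁻¹ := by group
      _ = x * (mapGL ℝ ((T.coc (c.symm γ) i : Γ) : SL(2, ℤ)) * T.g (T.perm (c.symm γ) i)) * x⁻¹ := by
          rw [h2]
      _ = _ := by group
  perm_mul γ δ i := by
    rw [map_mul]
    exact T.perm_mul _ _ i
  coc_mul γ δ i := by
    rw [map_mul, T.coc_mul, map_mul]

/-- **(K3)** the transported operator on the transported homomorphism. -/
theorem transport_addHom {A : Type*} [AddCommGroup A] (T : CosetOp Γ) {Γ₂ : Subgroup SL(2, ℤ)}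
    (x : GL (Fin 2) ℝ) (c : Γ ≃* Γ₂)
    (hc : ∀ γ : Γ, mapGL ℝ ((c γ : Γ₂) : SL(2, ℤ)) = x * mapGL ℝ ((γ : Γ) : SL(2, ℤ)) * x⁻¹)
    (φ : Additive Γ →+ A) :
    (transport T x c hc).addHom (φ.comp (MonoidHom.toAdditive c.symm.toMonoidHom))
      = (T.addHom φ).comp (MonoidHom.toAdditive c.symm.toMonoidHom) := by
  refine AddMonoidHom.ext fun γ' => ?_
  obtain ⟨γ, rfl⟩ := Additive.ofMul.surjective γ'
  rw [CosetOp.addHom_apply]
  show _ = T.addHom φ (Additive.ofMul (c.symm γ))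
  rw [CosetOp.addHom_apply]
  refine Finset.sum_congr rfl fun i _ => ?_
  show φ (Additive.ofMul (c.symm (c (T.coc (c.symm γ) i)))) = _
  rw [MulEquiv.symm_apply_apply]

/-- conjugation by an element of `SL(2, ℤ)` normalising `Γ`, as a coset operator. -/
def conjOp (σ : SL(2, ℤ)) (hσ : ∀ γ ∈ Γ, σ * γ * σ⁻¹ ∈ Γ) : CosetOp Γ where
  I := Unit
  fintype := inferInstance
  g _ := mapGL ℝ σ
  det_pos _ := det_mapGL_pos _
  perm _ := 1
  coc γ _ := ⟨σ * γ * σ⁻¹, hσ γ γ.2⟩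
  rel γ _ := by
    rw [← map_mul, ← map_mul]
    congr 1
    simp
  perm_mul _ _ _ := rfl
  coc_mul γ δ _ := by
    apply Subtype.ext
    simp only [Subgroup.coe_mul]
    group

theorem conjOp_addHom_apply {A : Type*} [AddCommGroup A] (σ : SL(2, ℤ))
    (hσ : ∀ γ ∈ Γ, σ * γ * σ⁻¹ ∈ Γ) (φ : Additive Γ →+ A) (γ : Γ) :
    (conjOp σ hσ).addHom φ (Additive.ofMul γ)
      = φ (Additive.ofMul (⟨σ * γ * σ⁻¹, hσ γ γ.2⟩ : Γ)) := by
  rw [CosetOp.addHom_apply]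
  show ∑ _i : Unit, φ (Additive.ofMul (⟨σ * γ * σ⁻¹, hσ γ γ.2⟩ : Γ)) = _
  rw [Finset.univ_unique, Finset.sum_singleton]

end Toolkit

/-! ### The groups `Γ_H(N)` -/

section GH

variable {N : ℕ}

/-- `unitOf` as a monoid homomorphism `Γ₀(N) →* (ℤ/N)ˣ`. -/
def unitHom (N : ℕ) : Gamma0 N →* (ZMod N)ˣ where
  toFun := unitOf
  map_one' := unitOf_one
  map_mul' := unitOf_mul

@[simp] theorem unitHom_apply (σ : Gamma0 N) : unitHom N σ = unitOf σ := rfl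

/-- **`Γ_H(N)`** : the matrices of `Γ₀(N)` whose lower right entry mod `N` lies in `H`. -/
def GH (N : ℕ) (H : Subgroup (ZMod N)ˣ) : Subgroup SL(2, ℤ) :=
  (H.comap (unitHom N)).map (Gamma0 N).subtype

theorem mem_GH {H : Subgroup (ZMod N)ˣ} {γ : SL(2, ℤ)} :
    γ ∈ GH N H ↔ ∃ h : γ ∈ Gamma0 N, unitOf (⟨γ, h⟩ : Gamma0 N) ∈ H := by
  constructor
  · rintro ⟨σ, hσ, rfl⟩
    exact ⟨σ.2, hσ⟩
  · rintro ⟨h, hH⟩
    exact ⟨⟨γ, h⟩, hH, rfl⟩

theorem GH_le_Gamma0 (H : Subgroup (ZMod N)ˣ) : GH N H ≤ Gamma0 N := by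
  intro γ hγ
  obtain ⟨h, -⟩ := mem_GH.mp hγ
  exact h

theorem coe_mem_GH_iff {H : Subgroup (ZMod N)ˣ} (σ : Gamma0 N) :
    (σ : SL(2, ℤ)) ∈ GH N H ↔ unitOf σ ∈ H := by
  rw [mem_GH]
  constructor
  · rintro ⟨_, h⟩
    exact h
  · intro h
    exact ⟨σ.2, h⟩

theorem GH_mono {H H' : Subgroup (ZMod N)ˣ} (h : H ≤ H') : GH N H ≤ GH N H' := by
  intro γ hγ
  obtain ⟨h0, h1⟩ := mem_GH.mp hγ
  exact mem_GH.mpr ⟨h0, h h1⟩

theorem Gamma1_le_GH (H : Subgroup (ZMod N)ˣ) : Gamma1 N ≤ GH N H := by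
  intro γ hγ
  obtain ⟨h0, h1⟩ := (mem_Gamma1_iff_map γ).mp hγ
  refine mem_GH.mpr ⟨h0, ?_⟩
  have : unitOf (⟨γ, h0⟩ : Gamma0 N) = 1 := by
    ext
    rw [coe_unitOf, h1]
    rfl
  rw [this]
  exact H.one_mem

theorem GH_top : GH N ⊤ = Gamma0 N := by
  apply le_antisymm (GH_le_Gamma0 _)
  intro γ hγ
  exact mem_GH.mpr ⟨hγ, Subgroup.mem_top _⟩

/-- `Γ_H(N)` is normal in `Γ₀(N)`. -/
theorem conj_mem_GH {H : Subgroup (ZMod N)ˣ} (σ : Gamma0 N) {γ : SL(2, ℤ)} (hγ : γ ∈ GH N H) :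
    (σ : SL(2, ℤ)) * γ * (σ : SL(2, ℤ))⁻¹ ∈ GH N H := by
  obtain ⟨h0, h1⟩ := mem_GH.mp hγ
  have hmem : (σ : SL(2, ℤ)) * γ * (σ : SL(2, ℤ))⁻¹ ∈ Gamma0 N :=
    (σ * ⟨γ, h0⟩ * σ⁻¹ : Gamma0 N).2
  refine mem_GH.mpr ⟨hmem, ?_⟩
  have e : (⟨_, hmem⟩ : Gamma0 N) = σ * ⟨γ, h0⟩ * σ⁻¹ := rfl
  rw [e, unitOf_mul, unitOf_mul, mul_comm (unitOf σ), mul_assoc, ← unitOf_mul, mul_inv_cancel,
    unitOf_one, mul_one]
  exact h1

theorem neg_one_mem_GH {H : Subgroup (ZMod N)ˣ} (hH : (-1 : (ZMod N)ˣ) ∈ H) :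
    (-1 : SL(2, ℤ)) ∈ GH N H := by
  have h0 : (-1 : SL(2, ℤ)) ∈ Gamma0 N := by
    rw [Gamma0_mem]
    simp
  refine mem_GH.mpr ⟨h0, ?_⟩
  have : unitOf (⟨-1, h0⟩ : Gamma0 N) = -1 := by
    ext
    rw [coe_unitOf]
    show (((-1 : SL(2, ℤ)) 1 1 : ℤ) : ZMod N) = ((-1 : (ZMod N)ˣ) : ZMod N)
    simp
  rw [this]
  exact hH

end GH

/-! ### The master operator `T_p` on `Γ₀(N)` -/

section Hecke

variable {N : ℕ} {p : ℕ} [hp : Fact p.Prime]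

/-- For `γ ∈ Γ₀(N)`: `(coc γ i)₁₁ · (β_{perm γ i})₁₁ = (β_i)₁₁ · γ₁₁` in `ℤ/N`. -/
theorem coc_mul_beta0 (hpN : ¬ p ∣ N) (γ : Gamma0 N) (i : Option (ZMod p)) :
    Gamma0Map N (DoubleCoset27.cocG hpN γ i)
        * ((DoubleCoset27.beta p (DoubleCoset27.perm (γ : SL(2, ℤ)) i) 1 1 : ℤ) : ZMod N)
      = ((DoubleCoset27.beta p i 1 1 : ℤ) : ZMod N) * Gamma0Map N γ := by
  have hc0 : ((DoubleCoset27.coc (γ : SL(2, ℤ)) i 1 0 : ℤ) : ZMod N) = 0 := by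
    have := DoubleCoset27.coc_mem_Gamma0 hpN γ.2 i
    rwa [Gamma0_mem] at this
  have e11 := congrFun (congrFun (DoubleCoset27.beta_mul (γ : SL(2, ℤ)) i) 1) 1
  simp only [Matrix.mul_apply, Fin.sum_univ_two, DoubleCoset27.beta_one_zero, zero_mul,
    zero_add] at e11
  have h := congrArg (Int.cast : ℤ → ZMod N) e11
  push_cast at h
  rw [hc0, zero_mul, zero_add] at h
  exact h.symm

/-- the twisted cocycle of `T_p` on `Γ₀(N)`. -/
def coc0 (hpN : ¬ p ∣ N) (σ : Gamma0 N) (γ : Gamma0 N) (i : Option (ZMod p)) : Gamma0 N :=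
  tw σ i * DoubleCoset27.cocG hpN γ i * (tw σ (DoubleCoset27.perm (γ : SL(2, ℤ)) i))⁻¹

theorem coe_coc0 (hpN : ¬ p ∣ N) (σ : Gamma0 N) (γ : Gamma0 N) (i : Option (ZMod p)) :
    ((coc0 hpN σ γ i : Gamma0 N) : SL(2, ℤ))
      = ((tw σ i : Gamma0 N) : SL(2, ℤ)) * DoubleCoset27.coc (γ : SL(2, ℤ)) i
        * ((tw σ (DoubleCoset27.perm (γ : SL(2, ℤ)) i) : Gamma0 N) : SL(2, ℤ))⁻¹ := rfl

/-- **the twisted cocycle has the diamond class of `γ`.** -/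
theorem Gamma0Map_coc0 (hpN : ¬ p ∣ N) {σ : Gamma0 N} (hσ : Gamma0Map N σ = (p : ZMod N))
    (γ : Gamma0 N) (i : Option (ZMod p)) :
    Gamma0Map N (coc0 hpN σ γ i) = Gamma0Map N γ := by
  set k := DoubleCoset27.perm (γ : SL(2, ℤ)) i with hk
  have h1 := tw_mul_beta hσ i
  have h2 := tw_mul_beta hσ k
  have h3 := coc_mul_beta0 hpN γ i
  have hu := isUnit_beta (M := N) hpN k
  rw [coc0, map_mul, map_mul]
  -- `a c = γ₁₁ a'`
  have hac : Gamma0Map N (tw σ i) * Gamma0Map N (DoubleCoset27.cocG hpN γ i)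
      = Gamma0Map N γ * Gamma0Map N (tw σ k) := by
    apply hu.mul_right_cancel
    rw [mul_assoc, h3, ← mul_assoc, h1, mul_assoc, h2, mul_comm]
  rw [hac, mul_assoc, Gamma0Map_mul_inv, mul_one]

theorem unitOf_coc0 (hpN : ¬ p ∣ N) {σ : Gamma0 N} (hσ : Gamma0Map N σ = (p : ZMod N))
    (γ : Gamma0 N) (i : Option (ZMod p)) :
    unitOf (coc0 hpN σ γ i) = unitOf γ := by
  ext
  rw [coe_unitOf, coe_unitOf, Gamma0Map_coc0 hpN hσ]

/-- **The master coset-sum operator of `T_p` on `Γ₀(N)`**, `p ∤ N`, for a `σ ∈ Γ₀(N)` with lower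
right entry `≡ p`. -/
def hecke0 (hpN : ¬ p ∣ N) (σ : Gamma0 N) : CosetOp (Gamma0 N) where
  I := Option (ZMod p)
  fintype := inferInstance
  g := g1 σ
  det_pos i := by
    rw [g1, map_mul, Units.val_mul]
    exact mul_pos (det_mapGL_pos _) (det_glBeta_pos i)
  perm γ := DoubleCoset27.permEquiv (γ : SL(2, ℤ))
  coc γ i := coc0 hpN σ γ i
  rel γ i := by
    show mapGL ℝ ((tw σ i : Gamma0 N) : SL(2, ℤ)) * DoubleCoset27.glBeta p i
        * mapGL ℝ ((γ : Gamma0 N) : SL(2, ℤ))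
      = mapGL ℝ (((tw σ i : Gamma0 N) : SL(2, ℤ)) * DoubleCoset27.coc (γ : SL(2, ℤ)) i
          * ((tw σ (DoubleCoset27.perm (γ : SL(2, ℤ)) i) : Gamma0 N) : SL(2, ℤ))⁻¹)
        * (mapGL ℝ ((tw σ (DoubleCoset27.perm (γ : SL(2, ℤ)) i) : Gamma0 N) : SL(2, ℤ))
          * DoubleCoset27.glBeta p (DoubleCoset27.perm (γ : SL(2, ℤ)) i))
    rw [mul_assoc, DoubleCoset27.glBeta_mul, map_mul, map_mul, map_inv]
    group
  perm_mul γ δ i := DoubleCoset27.perm_mul (γ : SL(2, ℤ)) (δ : SL(2, ℤ)) i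
  coc_mul γ δ i := by
    apply Subtype.ext
    show ((tw σ i : Gamma0 N) : SL(2, ℤ)) * DoubleCoset27.coc ((γ * δ : Gamma0 N) : SL(2, ℤ)) i
        * ((tw σ (DoubleCoset27.perm ((γ * δ : Gamma0 N) : SL(2, ℤ)) i) : Gamma0 N) : SL(2, ℤ))⁻¹
      = (((tw σ i : Gamma0 N) : SL(2, ℤ)) * DoubleCoset27.coc (γ : SL(2, ℤ)) i
          * ((tw σ (DoubleCoset27.perm (γ : SL(2, ℤ)) i) : Gamma0 N) : SL(2, ℤ))⁻¹)
        * (((tw σ (DoubleCoset27.perm (γ : SL(2, ℤ)) i) : Gamma0 N) : SL(2, ℤ))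
          * DoubleCoset27.coc (δ : SL(2, ℤ)) (DoubleCoset27.perm (γ : SL(2, ℤ)) i)
          * ((tw σ (DoubleCoset27.perm (δ : SL(2, ℤ)) (DoubleCoset27.perm (γ : SL(2, ℤ)) i))
              : Gamma0 N) : SL(2, ℤ))⁻¹)
    rw [Subgroup.coe_mul, DoubleCoset27.coc_mul, DoubleCoset27.perm_mul]
    group

@[simp] theorem hecke0_coc (hpN : ¬ p ∣ N) (σ : Gamma0 N) (γ : Gamma0 N) (i : Option (ZMod p)) :
    (hecke0 hpN σ).coc γ i = coc0 hpN σ γ i := rfl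

@[simp] theorem hecke0_perm (hpN : ¬ p ∣ N) (σ : Gamma0 N) (γ : Gamma0 N) (i : Option (ZMod p)) :
    (hecke0 hpN σ).perm γ i = DoubleCoset27.perm (γ : SL(2, ℤ)) i := rfl

theorem hecke0_g (hpN : ¬ p ∣ N) (σ : Gamma0 N) (i : Option (ZMod p)) :
    (hecke0 hpN σ).g i = mapGL ℝ ((tw σ i : Gamma0 N) : SL(2, ℤ)) * DoubleCoset27.glBeta p i := rfl

/-- **the cocycle of the master operator has the diamond class of `γ`.** -/
theorem unitOf_hecke0_coc (hpN : ¬ p ∣ N) {σ : Gamma0 N} (hσ : Gamma0Map N σ = (p : ZMod N))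
    (γ : Gamma0 N) (i : Option (ZMod p)) :
    unitOf ((hecke0 hpN σ).coc γ i) = unitOf γ := unitOf_coc0 hpN hσ γ i

/-- the representatives of the master operator lie in distinct left cosets of `SL(2, ℤ)`. -/
theorem hecke0_reps_inj (hpN : ¬ p ∣ N) (σ : Gamma0 N) (i j : Option (ZMod p)) (c : SL(2, ℤ))
    (h : (hecke0 hpN σ).g i = mapGL ℝ c * (hecke0 hpN σ).g j) : i = j := by
  rw [hecke0_g, hecke0_g, ← mul_assoc, ← map_mul] at h
  have h' := congrArg (fun M : GL (Fin 2) ℝ => (M : Matrix (Fin 2) (Fin 2) ℝ)) h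
  simp only [Matrix.GeneralLinearGroup.coe_mul, DoubleCoset27.coe_glBeta, mapGL_coe_matrix] at h'
  have h2 : ((((tw σ i : Gamma0 N) : SL(2, ℤ)) : Matrix (Fin 2) (Fin 2) ℤ) * DoubleCoset27.beta p i).map
        (Int.cast : ℤ → ℝ)
      = (((c * ((tw σ j : Gamma0 N) : SL(2, ℤ)) : SL(2, ℤ)) : Matrix (Fin 2) (Fin 2) ℤ)
          * DoubleCoset27.beta p j).map (Int.cast : ℤ → ℝ) := by
    rw [Matrix.map_mul_intCast, Matrix.map_mul_intCast]
    exact h'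
  have h3 := Matrix.map_injective (Int.cast_injective (α := ℝ)) h2
  exact (DoubleCoset27.decomp_unique h3).1

end Hecke

/-! ### `T_p` on `Γ_H(N)` -/

section HeckeH

variable {N : ℕ} {p : ℕ} [hp : Fact p.Prime]

theorem hecke0_coc_mem_GH (hpN : ¬ p ∣ N) {σ : Gamma0 N} (hσ : Gamma0Map N σ = (p : ZMod N))
    (H : Subgroup (ZMod N)ˣ) (γ : Gamma0 N) (i : Option (ZMod p))
    (hγ : (γ : SL(2, ℤ)) ∈ GH N H) :
    (((hecke0 hpN σ).coc γ i : Gamma0 N) : SL(2, ℤ)) ∈ GH N H := by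
  rw [coe_mem_GH_iff] at hγ ⊢
  rw [unitOf_hecke0_coc hpN hσ]
  exact hγ

/-- **`T_p` on `Γ_H(N)`.** -/
def heckeH (hpN : ¬ p ∣ N) (σ : Gamma0 N) (hσ : Gamma0Map N σ = (p : ZMod N))
    (H : Subgroup (ZMod N)ˣ) : CosetOp (GH N H) :=
  restrict (hecke0 hpN σ) (GH N H) (GH_le_Gamma0 H)
    (fun γ i hγ => hecke0_coc_mem_GH hpN hσ H γ i hγ)

theorem heckeH_addHom_res {A : Type*} [AddCommGroup A] (hpN : ¬ p ∣ N) (σ : Gamma0 N)
    (hσ : Gamma0Map N σ = (p : ZMod N)) (H : Subgroup (ZMod N)ˣ)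
    (φ : Additive (Gamma0 N) →+ A) :
    (heckeH hpN σ hσ H).addHom (resHom (GH_le_Gamma0 H) φ)
      = resHom (GH_le_Gamma0 H) ((hecke0 hpN σ).addHom φ) :=
  restrict_addHom _ _ _ _ φ

theorem heckeH_reps_inj (hpN : ¬ p ∣ N) (σ : Gamma0 N) (hσ : Gamma0Map N σ = (p : ZMod N))
    (H : Subgroup (ZMod N)ˣ) (i j : (heckeH hpN σ hσ H).I) (c : GH N H)
    (h : (heckeH hpN σ hσ H).g i = mapGL ℝ ((c : GH N H) : SL(2, ℤ)) * (heckeH hpN σ hσ H).g j) :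
    i = j :=
  hecke0_reps_inj hpN σ i j c h

/-- **`T_p` on `Γ_H(N)` does not depend on the choice of `σ`.** -/
theorem heckeH_indep {A : Type*} [AddCommGroup A] (hpN : ¬ p ∣ N) (σ σ' : Gamma0 N)
    (hσ : Gamma0Map N σ = (p : ZMod N)) (hσ' : Gamma0Map N σ' = (p : ZMod N))
    (H : Subgroup (ZMod N)ˣ) (φ : Additive (GH N H) →+ A) :
    (heckeH hpN σ' hσ' H).addHom φ = (heckeH hpN σ hσ H).addHom φ := by
  have hmem : ∀ i : Option (ZMod p),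
      ((tw σ' i : Gamma0 N) : SL(2, ℤ)) * ((tw σ i : Gamma0 N) : SL(2, ℤ))⁻¹ ∈ GH N H := by
    intro i
    apply Gamma1_le_GH H
    cases i with
    | none => exact mul_inv_mem_Gamma1 (hσ'.trans hσ.symm)
    | some j => simp
  refine addHom_eq_of_reps (heckeH hpN σ hσ H) (heckeH hpN σ' hσ' H) (Equiv.refl _)
    (fun i => ⟨_, hmem i⟩) ?_ (heckeH_reps_inj hpN σ' hσ' H) φ
  intro i
  show mapGL ℝ ((tw σ' i : Gamma0 N) : SL(2, ℤ)) * DoubleCoset27.glBeta p i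
    = mapGL ℝ (((tw σ' i : Gamma0 N) : SL(2, ℤ)) * ((tw σ i : Gamma0 N) : SL(2, ℤ))⁻¹)
      * (mapGL ℝ ((tw σ i : Gamma0 N) : SL(2, ℤ)) * DoubleCoset27.glBeta p i)
  rw [map_mul, map_inv]
  group

end HeckeH

end Fermat.Agent.M43.HeckeH0
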