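/-
M43 (helper9) [LG-q / (LN) concrete, inertial level] InertPack9: **the inertial-level package over
`K₀ := inertiaPart A K`** consumed by `NodeWire7.kNodeDatum_of_nodeRegAt`.

For `h : LevelHyp r M' A` and `K ⊂ ℚ̄` finite normal over `ℚ` containing `ζ_{M'}`: the inertia field
`K₀` of `K` at `A` is inertial, contains `ζ_{M'}`, `r` is a uniformiser of `A ∩ K₀`, and over `K₀`
* the two charts of level `M' r` satisfy Program N's MODEL bundle `NumData13.NodalNumData`
  (fields: `noeth0/1`, `frac0/1`, `fracR`, `dvrR`, `model.pi_nonunit1/2`, `model.unif1/2`, …);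
* the two-branch closed points of both charts are regular nodes of thickness `r`
  (`NodeRegAt10.NodeRegAt`).
Same spelling of `hπ₀` as `BaseChMain4.gst_four`, so `gst_B0_mod_pi`/`gst_B1_mod_pi` apply verbatim.
-/
import Mathlib
import Fermat.Agent.T33.NodalHalf4
import Fermat.Agent.ES.P36.EisFinal4
import Fermat.Agent.ES.P36.RegDone21
import Fermat.Agent.ES.P36.RegNode21
import Fermat.Agent.ES.P36.UnrFixed1
import Fermat.Agent.M43.BaseChInert4

set_option autoImplicit false
set_option linter.unusedSectionVars false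
set_option linter.style.haveILetI false
set_option synthInstance.maxHeartbeats 400000

noncomputable section

namespace Fermat.Agent.M43.InertPack9

open HahnSeries ModularCurve IntermediateField
open Fermat.Agent.RED.Interface4 Fermat.Agent.RED.PUR.GaussGen8
  Fermat.Agent.RED.BASE.EtaQuot12
  Fermat.Agent.ES.N34.ModelDefs9 Fermat.Agent.ES.N34.NumData13
  Fermat.Agent.ES.P36.InertField27 Fermat.Agent.ES.P36.NodeRegAt10
  Fermat.Agent.T33.NodalHalf4 Fermat.Agent.X0

variable {r M' : ℕ} [NeZero M'] [NeZero r] {A : ValuationSubring Qbar}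

set_option maxHeartbeats 4000000 in
/-- **the inertial-level package over `K₀ = inertiaPart A K`.** -/
theorem inert_pack (h : LevelHyp r M' A) (K : IntermediateField ℚ Qbar) [Normal ℚ K]
    [FiniteDimensional ℚ K] (hζ : zetaK M' ∈ K) :
    ∃ (ht₀ : tq ↥(inertiaPart A K) 4 8 ∈ FK M' (inertiaPart A K))
      (hE₀ : FK (M' * r) (inertiaPart A K) ≤ fracField (AK A (inertiaPart A K)))
      (hπ₀ : IsUnif (AK A (inertiaPart A K)) ((r : ℕ) : ↥(AK A (inertiaPart A K)))),
      IsInertial A (inertiaPart A K) ∧ FiniteDimensional ℚ ↥(inertiaPart A K) ∧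
      zetaK M' ∈ inertiaPart A K ∧
      NodalNumData ↥(AK A (inertiaPart A K)) ↥(inertiaPart A K)
        ↥(FK (M' * r) (inertiaPart A K)) ((r : ℕ) : ↥(AK A (inertiaPart A K))) (tN r ht₀)
        (B0 A r ht₀) (B1 A r ht₀) (O1 M' r hπ₀ hE₀) (O2 M' r hπ₀ hE₀) ∧
      NodeRegAt ((r : ℕ) : ↥(AK A (inertiaPart A K))) (B0 A r ht₀) (O1 M' r hπ₀ hE₀)
        (O2 M' r hπ₀ hE₀) ∧
      NodeRegAt ((r : ℕ) : ↥(AK A (inertiaPart A K))) (B1 A r ht₀) (O1 M' r hπ₀ hE₀)
        (O2 M' r hπ₀ hE₀) := by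
  have hq := h.prime
  have hA := h.liesOver
  have hKin : IsInertial A (inertiaPart A K) := isInertial_inertiaPart K
  haveI fd₀ : FiniteDimensional ℚ ↥(inertiaPart A K) :=
    finiteDimensional_of_le (inertiaPart_le K)
  have hζ₀ : zetaK M' ∈ inertiaPart A K :=
    Fermat.Agent.M43.BaseChInert4.zetaK_mem_inertiaPart hq hA M' h.not_dvd hζ
  obtain ⟨ht₀, hE₀, hD⟩ :=
    Fermat.Agent.ES.P36.ModelInert4.nodalNumData_four_inertial hq h.ne_two h.not_dvd h.four_dvd hA
      hKin hζ₀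
  have hπ₀ : IsUnif (AK A (inertiaPart A K)) ((r : ℕ) : ↥(AK A (inertiaPart A K))) :=
    Fermat.Agent.ES.P36.UnrFixed1.isUnif_natCast A hq hA (inertiaPart A K) hKin.1
  have hreg : NodeRegItems 4 8 r M' A (inertiaPart A K) :=
    Fermat.Agent.ES.P36.EisFinal4.nodeRegItems_four hq h.ne_two h.not_dvd h.four_dvd hA hKin hζ₀
      (Fermat.Agent.ES.P36.RegNode21.twoGenItems10_of
        (Fermat.Agent.ES.P36.RegDone21.twoGenItems_four hq h.ne_two h.not_dvd h.four_dvd hA hζ₀
          (Fermat.Agent.ES.P36.ModelInert4.frobInvAt_of_isInertial hKin hq hA) hKin.1))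
  have hregs := hreg ht₀ hE₀ _ hπ₀
  exact ⟨ht₀, hE₀, hπ₀, hKin, fd₀, hζ₀, hD _ hπ₀, hregs.1, hregs.2⟩

end Fermat.Agent.M43.InertPack9
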