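/-
M43 (helper9) [LG-q / K-level wiring, concrete] LGqReady9: **`LGqUp9.nodalNumData_up` at the
concrete fields** `F = FK (M' r) K`, `F' = FH M' ψ = F(Θ_ψ)`, `R = A ∩ K`, `δ = deltaK ζₙ`,
`n = p^k`, and the resulting `MixChain9.MixReadyAt`.

* `finiteDimensional_adjoin_map` : `[F : K(t)] < ∞`, `[F' : F] < ∞` ⟹ `[F' : K(ι t)] < ∞`;
* `nodalNumData_FH` : MODEL' for `F'_K` from the downstairs data (`LGqDown9.exists_down`), helper8's
  (EXT)/(UNIQ)/(UNR) and the Kummer facts, with the local inputs (LS), (LN) as hypotheses;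
* `mixReady_FH` : `MixReadyAt (AK A K) (FH M' ψ) g g'` with GAL' from `GalMixU0`.
-/
import Mathlib
import Fermat.Agent.M43.LGqUp9
import Fermat.Agent.M43.LGqDown9
import Fermat.Agent.M43.GaussUniqK8
import Fermat.Agent.M43.GalMixU0
import Fermat.Agent.M43.MixChain9

set_option autoImplicit false
set_option synthInstance.maxHeartbeats 400000
set_option linter.unusedSectionVars false
set_option linter.style.haveILetI false
set_option linter.unusedVariables false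

open ModularCurve AlgebraicCurve Polynomial

noncomputable section

namespace Fermat.Agent.M43.LGqReady9

section FinDim

variable {K F F' : Type*} [Field K] [Field F] [Field F'] [Algebra K F] [Algebra F F']
  [Algebra K F'] [IsScalarTower K F F']

/-- `[F : K(t)] < ∞` and `[F' : F] < ∞` give `[F' : K(ι t)] < ∞`. -/
theorem finiteDimensional_adjoin_map (t : F)
    [FiniteDimensional (IntermediateField.adjoin K {t}) F] [FiniteDimensional F F'] :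
    FiniteDimensional (IntermediateField.adjoin K {algebraMap F F' t}) F' := by
  let φ : IntermediateField.adjoin K {t} →+* IntermediateField.adjoin K {algebraMap F F' t} :=
    { toFun := fun x => ⟨algebraMap F F' x, KLift9.map_mem_adjoin x.2⟩
      map_one' := Subtype.ext (map_one _)
      map_mul' := fun x y => Subtype.ext (map_mul _ _ _)
      map_zero' := Subtype.ext (map_zero _)
      map_add' := fun x y => Subtype.ext (map_add _ _ _) }
  letI : Algebra (IntermediateField.adjoin K {t})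
      (IntermediateField.adjoin K {algebraMap F F' t}) := φ.toAlgebra
  haveI : IsScalarTower (IntermediateField.adjoin K {t}) F F' :=
    IsScalarTower.of_algebraMap_eq (fun x => rfl)
  haveI : IsScalarTower (IntermediateField.adjoin K {t})
      (IntermediateField.adjoin K {algebraMap F F' t}) F' :=
    IsScalarTower.of_algebraMap_eq (fun x => rfl)
  haveI : Module.Finite (IntermediateField.adjoin K {t}) F' := Module.Finite.trans F F'
  exact Module.Finite.of_restrictScalars_finite (IntermediateField.adjoin K {t})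
    (IntermediateField.adjoin K {algebraMap F F' t}) F'

end FinDim

section Concrete

local notation "Qbar" => AlgebraicClosure ℚ

open Fermat.Agent.X0 Fermat.Agent.RED.Interface4 Fermat.Agent.RED.DESC
open Fermat.Agent.RED.PUR.GaussGen8 Fermat.Agent.ES.N34.ModelDefs9
open Fermat.Agent.RED.BASE.EtaQuot12
open Fermat.Agent.T33.NodalHalf4
open Fermat.Agent.ES.N34.NumData13 Fermat.Agent.ES.N34.ModelInput13 Fermat.Agent.ES.N34.TwoGlue20
open Fermat.Agent.ES.N34.NodalCore13 Fermat.Agent.ES.N34.NodalCL13 Fermat.Agent.ES.N34.ChartN26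
open Fermat.Agent.RED.PUR.ChartGeneric22
open Fermat.Agent.M43.KummerAdj8 Fermat.Agent.M43.KummerGal8
open Fermat.Agent.M43.ThetaFieldK8 Fermat.Agent.M43.ThetaDeltaK8 Fermat.Agent.M43.GaussUp8
open Fermat.Agent.M43.GaussUniqK8 Fermat.Agent.M43.MixNum9 Fermat.Agent.M43.GalMix0
open Fermat.Agent.M43.KLift9 Fermat.Agent.M43.KNode9 Fermat.Agent.M43.LGqUp9

variable {A : ValuationSubring Qbar} {K : IntermediateField ℚ Qbar}
variable {r : ℕ} [Fact r.Prime] [NeZero r] {M' : ℕ} [NeZero M']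

set_option maxHeartbeats 3200000 in
/-- **MODEL' for `F'_K = FH M' ψ`**, with (LS), (LN) as hypotheses. -/
theorem nodalNumData_FH [FiniteDimensional ℚ ↥K] (h : LevelHyp r M' A) {π : ↥(AK A K)} (hπ : IsUnif (AK A K) π)
    (hE : FK (M' * r) K ≤ fracField (AK A K)) {ψ : MulChar (ZMod r) ↥K} (heven : ψ (-1) = 1)
    {p : ℕ} (hp : p.Prime) (hp2 : p ≠ 2) (hpr : p ≠ r) (k : ℕ) (hk : 1 ≤ k)
    (hord : orderOf ψ = p ^ k) (hn : ψ ^ (p ^ k) = 1)
    {ζ : ↥K} (hζK : algebraMap ↥K Qbar ζ = zetaK r)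
    {ζn : ↥K} (hζn : IsPrimitiveRoot ζn (p ^ k))
    {n₀ e₀ : ℕ} [NeZero n₀] (ht : tq ↥K n₀ e₀ ∈ FK M' K)
    (hD : NodalDataAt (AK A K) (FK (M' * r) K) π (tN r ht) (B0 A r ht) (B1 A r ht)
      (O1 M' r hπ hE) (O2 M' r hπ hE))
    (gout : GlueOut ↥K π (tN r ht) (O1 M' r hπ hE) (O2 M' r hπ hE))
    (gin : GlueIn ↥K π (tN r ht) (O1 M' r hπ hE) (O2 M' r hπ hE))
    (hfd : FiniteDimensional ↥(IntermediateField.adjoin ↥K {tN r ht}) ↥(FK (M' * r) K))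
    (δ : ↥(FH M' ψ) →+* ↥(FH M' ψ))
    (hδ : ∀ x, δ x = deltaK M' (irreducible_uK M' h heven hp hp2 k hk hord hn) ζn
      hζn.pow_eq_one x)
    (LS0 : ∀ 𝔪 : Ideal ↥(B0 A r ht), 𝔪.IsMaximal → algebraMap ↥(AK A K) ↥(B0 A r ht) π ∈ 𝔪 →
      OffBranch π (B0 A r ht) (O1 M' r hπ hE) 𝔪 ∨ OffBranch π (B0 A r ht) (O2 M' r hπ hE) 𝔪 →
        LSAt (F' := ↥(FH M' ψ)) (B0 A r ht) 𝔪 δ (p ^ k))
    (LN0 : ∀ 𝔪 : Ideal ↥(B0 A r ht), 𝔪.IsMaximal → algebraMap ↥(AK A K) ↥(B0 A r ht) π ∈ 𝔪 →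
      ¬ OffBranch π (B0 A r ht) (O1 M' r hπ hE) 𝔪 →
      ¬ OffBranch π (B0 A r ht) (O2 M' r hπ hE) 𝔪 →
        Nonempty (KNodeDatum (F' := ↥(FH M' ψ)) π (B0 A r ht) (O1 M' r hπ hE) (O2 M' r hπ hE)
          𝔪 δ (p ^ k)))
    (LS1 : ∀ 𝔪 : Ideal ↥(B1 A r ht), 𝔪.IsMaximal → algebraMap ↥(AK A K) ↥(B1 A r ht) π ∈ 𝔪 →
      OffBranch π (B1 A r ht) (O1 M' r hπ hE) 𝔪 ∨ OffBranch π (B1 A r ht) (O2 M' r hπ hE) 𝔪 →
        LSAt (F' := ↥(FH M' ψ)) (B1 A r ht) 𝔪 δ (p ^ k))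
    (LN1 : ∀ 𝔪 : Ideal ↥(B1 A r ht), 𝔪.IsMaximal → algebraMap ↥(AK A K) ↥(B1 A r ht) π ∈ 𝔪 →
      ¬ OffBranch π (B1 A r ht) (O1 M' r hπ hE) 𝔪 →
      ¬ OffBranch π (B1 A r ht) (O2 M' r hπ hE) 𝔪 →
        Nonempty (KNodeDatum (F' := ↥(FH M' ψ)) π (B1 A r ht) (O1 M' r hπ hE) (O2 M' r hπ hE)
          𝔪 δ (p ^ k))) :
    NodalDataAt (AK A K) (FH M' ψ) π
      (algebraMap ↥(FK (M' * r) K) ↥(FH M' ψ) (tN r ht))
      (chart ↥(AK A K) (algebraMap ↥(FK (M' * r) K) ↥(FH M' ψ) (tN r ht)))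
      (chart ↥(AK A K) (algebraMap ↥(FK (M' * r) K) ↥(FH M' ψ) (tN r ht))⁻¹)
      (O1' h.liesOver h.ne_two M' hπ hE ψ)
      (O2' h.liesOver h.ne_two M' hπ hE (irreducible_uK M' h heven hp hp2 k hk hord hn) hζK
        (psi_ne_one hp hk hord)) := by
  have hirr := irreducible_uK M' h heven hp hp2 k hk hord hn
  haveI hdvr : IsDiscreteValuationRing ↥(AK A K) :=
    NumberFieldDVR27.isDiscreteValuationRing_AK A K h.prime.ne_zero h.liesOver
  have hπi : Irreducible π :=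
    (IsDiscreteValuationRing.irreducible_iff_uniformizer π).mpr hπ.max_eq
  have hπp : Prime π := hπi.prime
  haveI := Fermat.Agent.RED.NumInst4.isScalarTower_OE (AK A K) (FK (M' * r) K)
  haveI := Fermat.Agent.RED.NumInst4.isScalarTower_OE (AK A K) (FH M' ψ)
  haveI := finiteDimensional_FH M' hirr
  haveI := hfd
  haveI : FiniteDimensional
      ↥(IntermediateField.adjoin ↥K {algebraMap ↥(FK (M' * r) K) ↥(FH M' ψ) (tN r ht)})
      ↥(FH M' ψ) := finiteDimensional_adjoin_map (tN r ht)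
  have hpk : ¬ r ∣ p ^ k := fun hd =>
    hpr ((Nat.prime_dvd_prime_iff_eq h.prime hp).1 (h.prime.dvd_of_dvd_pow hd)).symm
  exact nodalNumData_up (R := ↥(AK A K)) (K := ↥K) (F := ↥(FK (M' * r) K)) (F' := ↥(FH M' ψ))
    hπp (t := tN r ht) (δ := δ) (n := p ^ k) hD gout gin
    (Fermat.Agent.RED.ModelAsm4.dvr_factor hπi)
    (fun y hy => by
      obtain ⟨c, hc⟩ := exists_algebraMap_of_isAlgebraic M' ψ hy
      exact ⟨c, hc.symm⟩)
    (algebraMap_mem_O1'_iff h.liesOver h.ne_two M' hπ hE ψ)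
    (algebraMap_mem_O2'_iff h.liesOver h.ne_two M' hπ hE hirr hζK (psi_ne_one hp hk hord))
    (uniq_O1' h hπ hE heven hp hp2 k hk hord hn)
    (uniq_O2' h hπ hE heven hp hp2 k hk hord hn hζK)
    (unr_O1' h.liesOver h.ne_two M' hπ hπi hE ψ)
    (unr_O2' h.liesOver h.ne_two M' hπ hπi hE hirr hζK (psi_ne_one hp hk hord))
    (fun x => by rw [hδ]; exact deltaK_algebraMap M' hirr ζn hζn.pow_eq_one x)
    (fun z hz => by
      rw [hδ] at hz
      exact exists_algebraMap_of_deltaK_eq M' hirr hζn hz)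
    (fun z => by
      have h1 : ∀ (i : ℕ) (y : ↥(FH M' ψ)), (δ^[i]) y =
          ((deltaK M' hirr ζn hζn.pow_eq_one)^[i]) y := by
        intro i
        induction i with
        | zero => intro y; rfl
        | succ i ih => intro y; rw [Function.iterate_succ_apply, Function.iterate_succ_apply,
            hδ, ih]
      rw [h1]
      exact deltaK_iterate_self M' hirr ζn hζn.pow_eq_one z)
    (pow_pos hp.pos k)
    (by
      obtain ⟨c, hc⟩ := Fermat.Agent.RED.NumInst4.exists_inv_of_not_dvd h.prime h.liesOver K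
        (p ^ k) hpk
      exact ⟨c, hc⟩)
    LS0 LN0 LS1 LN1

set_option maxHeartbeats 3200000 in
/-- **The bundle `MixReadyAt` over `(A ∩ K, F'_K)`** for any pair of semilinear automorphisms with
underlying maps `σ̃`, `δ_{ψ(t)} σ̃`; the local inputs (LS), (LN) are hypotheses. -/
theorem mixReady_FH [Normal ℚ ↥K] [FiniteDimensional ℚ ↥K] (h : LevelHyp r M' A) {π : ↥(AK A K)}
    (hπ : IsUnif (AK A K) π)
    (hE : FK (M' * r) K ≤ fracField (AK A K)) {ψ : MulChar (ZMod r) ↥K} (heven : ψ (-1) = 1)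
    {p : ℕ} (hp : p.Prime) (hp2 : p ≠ 2) (hpr : p ≠ r) (k : ℕ) (hk : 1 ≤ k)
    (hord : orderOf ψ = p ^ k) (hn : ψ ^ (p ^ k) = 1)
    {ζ : ↥K} (hζK : algebraMap ↥K Qbar ζ = zetaK r)
    {ζn : ↥K} (hζn : IsPrimitiveRoot ζn (p ^ k))
    {n₀ e₀ : ℕ} [NeZero n₀] (ht : tq ↥K n₀ e₀ ∈ FK M' K)
    (hD : NodalDataAt (AK A K) (FK (M' * r) K) π (tN r ht) (B0 A r ht) (B1 A r ht)
      (O1 M' r hπ hE) (O2 M' r hπ hE))
    (gout : GlueOut ↥K π (tN r ht) (O1 M' r hπ hE) (O2 M' r hπ hE))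
    (gin : GlueIn ↥K π (tN r ht) (O1 M' r hπ hE) (O2 M' r hπ hE))
    (hfd : FiniteDimensional ↥(IntermediateField.adjoin ↥K {tN r ht}) ↥(FK (M' * r) K))
    (δ : ↥(FH M' ψ) →+* ↥(FH M' ψ))
    (hδ : ∀ x, δ x = deltaK M' (irreducible_uK M' h heven hp hp2 k hk hord hn) ζn
      hζn.pow_eq_one x)
    (LS0 : ∀ 𝔪 : Ideal ↥(B0 A r ht), 𝔪.IsMaximal → algebraMap ↥(AK A K) ↥(B0 A r ht) π ∈ 𝔪 →
      OffBranch π (B0 A r ht) (O1 M' r hπ hE) 𝔪 ∨ OffBranch π (B0 A r ht) (O2 M' r hπ hE) 𝔪 →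
        LSAt (F' := ↥(FH M' ψ)) (B0 A r ht) 𝔪 δ (p ^ k))
    (LN0 : ∀ 𝔪 : Ideal ↥(B0 A r ht), 𝔪.IsMaximal → algebraMap ↥(AK A K) ↥(B0 A r ht) π ∈ 𝔪 →
      ¬ OffBranch π (B0 A r ht) (O1 M' r hπ hE) 𝔪 →
      ¬ OffBranch π (B0 A r ht) (O2 M' r hπ hE) 𝔪 →
        Nonempty (KNodeDatum (F' := ↥(FH M' ψ)) π (B0 A r ht) (O1 M' r hπ hE) (O2 M' r hπ hE)
          𝔪 δ (p ^ k)))
    (LS1 : ∀ 𝔪 : Ideal ↥(B1 A r ht), 𝔪.IsMaximal → algebraMap ↥(AK A K) ↥(B1 A r ht) π ∈ 𝔪 →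
      OffBranch π (B1 A r ht) (O1 M' r hπ hE) 𝔪 ∨ OffBranch π (B1 A r ht) (O2 M' r hπ hE) 𝔪 →
        LSAt (F' := ↥(FH M' ψ)) (B1 A r ht) 𝔪 δ (p ^ k))
    (LN1 : ∀ 𝔪 : Ideal ↥(B1 A r ht), 𝔪.IsMaximal → algebraMap ↥(AK A K) ↥(B1 A r ht) π ∈ 𝔪 →
      ¬ OffBranch π (B1 A r ht) (O1 M' r hπ hE) 𝔪 →
      ¬ OffBranch π (B1 A r ht) (O2 M' r hπ hE) 𝔪 →
        Nonempty (KNodeDatum (F' := ↥(FH M' ψ)) π (B1 A r ht) (O1 M' r hπ hE) (O2 M' r hπ hE)
          𝔪 δ (p ^ k)))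
    {τ : Qbar ≃ₐ[ℚ] Qbar} (hτ : τ ∈ A.inertiaSubgroupIn ℚ)
    (hs : ∀ a, Fermat.Agent.ES.N34.GalBase21.resK K τ (ψ a) = ψ a) (t : ℕ)
    (htt : (t : ZMod r) ≠ 0)
    (hst : Fermat.Agent.ES.N34.GalBase21.resK K τ ζ = ζ ^ t)
    (g g' : SemilinearAut ↥K ↥(FH M' ψ))
    (hg : ∀ x, SemilinearAut.toRingAut g x =
      galFH M' (Fermat.Agent.ES.N34.GalBase21.resK K τ) hs x)
    (hg' : ∀ x, SemilinearAut.toRingAut g' x =
      deltaK M' (irreducible_uK M' h heven hp hp2 k hk hord hn) (ψ (t : ZMod r))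
        (psi_pow_eq_one hn htt) (galFH M' (Fermat.Agent.ES.N34.GalBase21.resK K τ) hs x)) :
    Fermat.Agent.M43.MixChain9.MixReadyAt (AK A K) (FH M' ψ) g g' := by
  haveI hdvr : IsDiscreteValuationRing ↥(AK A K) :=
    NumberFieldDVR27.isDiscreteValuationRing_AK A K h.prime.ne_zero h.liesOver
  have hπi : Irreducible π :=
    (IsDiscreteValuationRing.irreducible_iff_uniformizer π).mpr hπ.max_eq
  exact ⟨π, algebraMap ↥(FK (M' * r) K) ↥(FH M' ψ) (tN r ht),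
    chart ↥(AK A K) (algebraMap ↥(FK (M' * r) K) ↥(FH M' ψ) (tN r ht)),
    chart ↥(AK A K) (algebraMap ↥(FK (M' * r) K) ↥(FH M' ψ) (tN r ht))⁻¹,
    O1' h.liesOver h.ne_two M' hπ hE ψ,
    O2' h.liesOver h.ne_two M' hπ hE (irreducible_uK M' h heven hp hp2 k hk hord hn) hζK
      (psi_ne_one hp hk hord), hπi,
    nodalNumData_FH h hπ hE heven hp hp2 hpr k hk hord hn hζK hζn ht hD gout gin hfd δ hδ
      LS0 LN0 LS1 LN1,
    Fermat.Agent.M43.GalMixU0.mixData_closed_of_eq h hπ hE heven hp hp2 k hk hord hn hζK hτ hs t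
      htt hst n₀ e₀ (tN r ht) (coe_tN r ht) g g' hg hg'⟩

end Concrete

end Fermat.Agent.M43.LGqReady9
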