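/-
Programme M43, chapter (LG-q), block [S1-D LOCAL-u] (helper7), file 1: **the SMOOTH normal form.**

N34 vocabulary (`NodalCore13`): `B ⊂ F` a chart of the nodal model over the DVR `R` (uniformiser
`π`, `K = Frac R`), `O1`, `O2` the two Gauss valuation rings, `𝔪 ∋ π` a maximal ideal of `B` lying
on the `O1`-component only (`OffBranch π B O2 𝔪`), smooth (`𝔪 B_𝔪 = (π, s)`).

* `local_unit_pow` (abstract, next to `LocalStep15.local_step`): `C` a UFD with `Frac C = F ⊇ K`,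
  `π` prime of `C`, `Ov = C_(π)`; `u` a unit of `Ov` with `n ∣ ord_v u` at all places of `F / K`
  ⟹ `u = ε f ^ n`, `ε ∈ Cˣ`;
* **`smooth_normal_form`** : `u ∈ O1ˣ` with `n ∣ ord_v u` for all places `v` of `F / K`  ⟹
  `u = w f ^ n` with `w` a unit of `B_𝔪` (`u * d = a * f ^ n`, `a, d ∈ B ∖ 𝔪`);
* `smooth_normal_form_const` : the same for `u = c ^ n u₀`, `c ∈ Kˣ`, `u₀ ∈ O1ˣ`:
  **`u = c ^ n f ^ n w`**;  `smooth_normal_form'`, `smooth_normal_form_const'` : the mirror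
  statements on the `O2`-component.

The chart hypotheses are literally those of `NodalSmooth13.locStart_of_smooth` (fields of
`NodalTwoChartModel` / `NodalNumData`); (U2) for the Kummer element is `EtaleNF7`.
-/
import Mathlib
import Fermat.Agent.ES.N34.NodalSmooth13
import Fermat.Agent.X0.FFDict

set_option autoImplicit false
set_option linter.unusedSectionVars false
set_option linter.style.haveILetI false

namespace Fermat.Agent.M43.SmoothNF7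

open AlgebraicCurve Fermat.Agent.RED.CORE Fermat.Agent.RED.CORE.LocalPkg18
  Fermat.Agent.RED.CORE.UnitPow15 Fermat.Agent.RED.CORE.PrimePlace15
  Fermat.Agent.ES.N34.NodalCore13 Fermat.Agent.ES.N34.NodalSmooth13

section Abstract

variable {C : Type*} [CommRing C] [IsDomain C] [UniqueFactorizationMonoid C] {F : Type*} [Field F]
  [Algebra C F] [IsFractionRing C F] (K : Type*) [Field K] [Algebra K F]

/-- **LOCAL unit normal form** (companion of `LocalStep15.local_step`). -/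
theorem local_unit_pow {π : C} (hπ : Prime π)
    (Ov : ValuationSubring F) (hC : ∀ c : C, algebraMap C F c ∈ Ov)
    (hinv : ∀ c : C, ¬ π ∣ c → (algebraMap C F c)⁻¹ ∈ Ov)
    (hnu : (algebraMap C F π)⁻¹ ∉ Ov)
    (hK : ∀ a : K, ∃ (c : C) (n : ℕ), algebraMap K F a * algebraMap C F π ^ n = algebraMap C F c)
    (m : ℕ) (hm : m ≠ 0) (u : F) (hu0 : u ≠ 0) (hu : u ∈ Ov) (hu' : u⁻¹ ∈ Ov)
    (hu2 : ∀ v : Place K F, (m : ℤ) ∣ v.ord u) :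
    ∃ (ε : Cˣ) (f : F), f ≠ 0 ∧ u = algebraMap C F (ε : C) * f ^ m := by
  have hOv := LocalStep15.eq_primeVS hπ Ov hC hinv hnu
  subst hOv
  exact exists_unit_mul_pow_of_places (K := K) hπ hK m hm u hu0
    ((isPUnit_iff_mem_and_inv_mem hπ hu0).mpr ⟨hu, hu'⟩) hu2

end Abstract

section Smooth

variable {R K F : Type*} [CommRing R] [Field K] [Field F] [Algebra R K] [Algebra K F]
  [Algebra R F] [IsScalarTower R K F]

/-- **The SMOOTH normal form at a point of the `O1`-component.** -/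
theorem smooth_normal_form (π : R) (B : Subalgebra R F) (O1 O2 : ValuationSubring F)
    (noethB : IsNoetherianRing B) (fracR : IsFractionRing R K)
    (dvrR : ∀ r : R, r ≠ 0 → ∃ (k : ℕ) (v : Rˣ), r = π ^ k * v)
    (frac : ∀ x : F, ∃ a ∈ B, ∃ b ∈ B, b ≠ 0 ∧ x * b = a)
    (leO1 : ∀ x ∈ B, x ∈ O1) (leO2 : ∀ x ∈ B, x ∈ O2)
    (pi_ne : algebraMap R F π ≠ 0) (pi_nonunit1 : (algebraMap R F π)⁻¹ ∉ O1)
    (unif1 : ∀ x ∈ O1, x⁻¹ ∉ O1 → ∃ c ∈ O1, x = algebraMap R F π * c)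
    (arch2 : ∀ x : F, ∃ k : ℕ, algebraMap R F π ^ k * x ∈ O2)
    (sat : ∀ b ∈ B, ∀ c : F, c ∈ O1 → c ∈ O2 → b = algebraMap R F π * c → c ∈ B)
    (𝔪 : Ideal B) (h𝔪 : 𝔪.IsMaximal) (hπ𝔪 : algebraMap R B π ∈ 𝔪)
    (hon : ∀ b : B, (∃ c ∈ O1, (b : F) = algebraMap R F π * c) → b ∈ 𝔪)
    (hoff : OffBranch π B O2 𝔪)
    (hsm : ∃ s ∈ 𝔪, ∀ y ∈ 𝔪, ∃ d : B, d ∉ 𝔪 ∧ d * y ∈ Ideal.span {algebraMap R B π, s})
    (n : ℕ) (hn : n ≠ 0) (u : F) (hu0 : u ≠ 0) (hu : u ∈ O1) (hu' : u⁻¹ ∈ O1)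
    (hu2 : ∀ v : Place K F, (n : ℤ) ∣ v.ord u) :
    ∃ (f : F) (a d : B), f ≠ 0 ∧ a ∉ 𝔪 ∧ d ∉ 𝔪 ∧ u * (d : F) = (a : F) * f ^ n := by
  classical
  have h𝔪p : 𝔪.IsPrime := h𝔪.isPrime
  set p : F := algebraMap R F π with hp
  set C : Subalgebra R F := locSub B 𝔪 with hC
  have hfracB : IsFractionRing ↥B F := by
    refine IsFractionRing.of_field ↥B F fun z => ?_
    obtain ⟨a, ha, b, hb, hb0, hab⟩ := frac z
    refine ⟨⟨a, ha⟩, ⟨b, hb⟩, ?_⟩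
    show z = a / b
    rw [eq_div_iff hb0, hab]
  have hdomB : IsDomain ↥B := inferInstance
  -- `d ∉ 𝔪` is a unit of `O1`
  have hinvO1 : ∀ d : B, d ∉ 𝔪 → ((d : F))⁻¹ ∈ O1 := by
    intro d hd
    by_contra hcon
    obtain ⟨c, hc, hdc⟩ := unif1 _ (leO1 _ d.2) hcon
    exact hd (hon d ⟨c, hc, hdc⟩)
  -- `C ⊆ O1`
  have hCO1 : ∀ x ∈ C, x ∈ O1 := by
    rintro x ⟨a, d, hd, h⟩
    have hd0 := coe_ne_zero_of_notMem B 𝔪 hd
    have : x = (a : F) * (d : F)⁻¹ := by rw [← h]; field_simp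
    rw [this]
    exact O1.mul_mem _ _ (leO1 _ a.2) (hinvO1 d hd)
  -- local saturation
  have hsatC : ∀ b ∈ C, ∀ c ∈ O1, b = p * c → c ∈ C := by
    rintro b ⟨a, d, hd, h⟩ c hc hbc
    obtain ⟨e, he, o, ho, heo⟩ := hoff
    obtain ⟨k, hk⟩ := arch2 (c * (d : F))
    have hmem : c * (d : F) * (e : F) ^ (k + 1) ∈ B := by
      refine sat ((e : F) ^ (k + 1) * (a : F)) (B.mul_mem (B.pow_mem e.2 _) a.2) _ ?_ ?_ ?_
      · exact O1.mul_mem _ _ (O1.mul_mem _ _ hc (leO1 _ d.2)) (pow_mem (leO1 _ e.2) _)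
      · have : c * (d : F) * (e : F) ^ (k + 1) = (e : F) * o ^ k * (p ^ k * (c * (d : F))) := by
          rw [heo]; ring
        rw [this]
        exact O2.mul_mem _ _ (O2.mul_mem _ _ (leO2 _ e.2) (pow_mem ho _)) hk
      · rw [← h, hbc]; ring
    refine ⟨⟨_, hmem⟩, d * e ^ (k + 1), fun hh => (h𝔪p.mem_or_mem hh).elim hd
      (fun h' => he (h𝔪p.mem_of_pow_mem _ h')), ?_⟩
    push_cast; ring
  have hnoethC : IsNoetherianRing ↥C := IsLocalization.isNoetherianRing 𝔪.primeCompl _ noethB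
  have hfracC : ∀ x : F, ∃ a ∈ C, ∃ b ∈ C, b ≠ 0 ∧ x * b = a := by
    intro x
    obtain ⟨a, ha, b, hb, hb0, hab⟩ := frac x
    exact ⟨a, le_locSub B 𝔪 ha, b, le_locSub B 𝔪 hb, hb0, hab⟩
  -- smoothness of `C`
  have hsmC : ∀ x : Ideal ↥C, x.IsMaximal → algebraMap R ↥C π ∈ x →
      ∃ s ∈ x, ∀ y ∈ x, ∃ d : ↥C, d ∉ x ∧ d * y ∈ Ideal.span {algebraMap R ↥C π, s} := by
    intro x hx _
    obtain ⟨s, hs, hgen⟩ := hsm
    have hxmax : x = IsLocalRing.maximalIdeal ↥C := IsLocalRing.eq_maximalIdeal hx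
    refine ⟨algebraMap ↥B ↥C s, ?_, ?_⟩
    · rw [hxmax, IsLocalRing.mem_maximalIdeal, mem_nonunits_iff]
      exact not_isUnit_of_mem B 𝔪 hs
    · intro y hy
      have hynu : ¬ IsUnit y := by
        rw [hxmax, IsLocalRing.mem_maximalIdeal, mem_nonunits_iff] at hy
        exact hy
      obtain ⟨a, d, hd, had⟩ := y.2
      have ha𝔪 : a ∈ 𝔪 := num_mem_of_not_isUnit B 𝔪 hynu hd had
      obtain ⟨d', hd', hspan⟩ := hgen a ha𝔪
      obtain ⟨b₁, b₂, hb⟩ := Ideal.mem_span_pair.mp hspan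
      have hd0 := coe_ne_zero_of_notMem B 𝔪 hd
      refine ⟨algebraMap ↥B ↥C d', ?_, ?_⟩
      · rw [hxmax, IsLocalRing.mem_maximalIdeal, mem_nonunits_iff, not_not]
        exact (IsLocalization.AtPrime.isUnit_to_map_iff ↥C 𝔪 d').mpr hd'
      · rw [Ideal.mem_span_pair]
        refine ⟨⟨(b₁ : F) * (d : F)⁻¹, (locSub B 𝔪).mul_mem (le_locSub B 𝔪 b₁.2)
          (inv_mem_locSub B 𝔪 hd)⟩, ⟨(b₂ : F) * (d : F)⁻¹, (locSub B 𝔪).mul_mem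
          (le_locSub B 𝔪 b₂.2) (inv_mem_locSub B 𝔪 hd)⟩, ?_⟩
        apply Subtype.ext
        show (b₁ : F) * (d : F)⁻¹ * p + (b₂ : F) * (d : F)⁻¹ * (s : F) = (d' : F) * (y : F)
        have hbF : (b₁ : F) * p + (b₂ : F) * (s : F) = (d' : F) * (a : F) := by
          have := congrArg (Subtype.val) hb
          simpa using this
        have hyF : (y : F) = (a : F) * (d : F)⁻¹ := by rw [← had]; field_simp
        rw [hyF]
        field_simp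
        linear_combination hbF
  -- the chart hypotheses of Program H for the local chart `C`, and its local ring
  have h : ChartHyp π C O1 := ⟨hnoethC, hfracC, hCO1, pi_ne, pi_nonunit1, unif1, hsatC, hsmC⟩
  haveI : IsFractionRing ↥C F := LocalPkg18.isFractionRing h
  haveI : IsFractionRing R K := fracR
  set x : Ideal ↥C := IsLocalRing.maximalIdeal ↥C with hx
  haveI : x.IsMaximal := IsLocalRing.maximalIdeal.isMaximal ↥C
  have hπx : algebraMap R ↥C π ∈ x := by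
    rw [hx, IsLocalRing.mem_maximalIdeal, mem_nonunits_iff]
    exact not_isUnit_of_mem B 𝔪 hπ𝔪
  haveI : UniqueFactorizationMonoid ↥(locC (F := F) x) := LocalPkg18.ufd h x hπx
  obtain ⟨ε, f, hf0, hεf⟩ := local_unit_pow (C := ↥(locC (F := F) x)) K (prime_piC h x hπx) O1
    (fun c => locC_le_Ov h x hπx c.2)
    (fun c hc => inv_mem_Ov_of_not_piC_dvd h x hπx c hc)
    pi_nonunit1
    (fun a => LocalStep15.hK_of_dvr (C := ↥(locC (F := F) x)) π dvrR a) n hn u hu0 hu hu' hu2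
  -- the unit `ε` of `C_x` as a quotient of elements of `B ∖ 𝔪`
  have key : ∀ z : F, z ∈ locC (F := F) x → ∃ a d : B, d ∉ 𝔪 ∧ z * (d : F) = (a : F) := by
    intro z hz
    obtain ⟨a, d, hd, hzad⟩ := (mem_locC_iff x z).mp hz
    obtain ⟨a₁, d₁, hd₁, ha₁⟩ := a.2
    obtain ⟨a₂, d₂, hd₂, ha₂⟩ := d.2
    have hd0 : ((d : ↥C) : F) ≠ 0 := by
      intro h0
      apply hd
      have : d = 0 := Subtype.ext h0
      rw [this]
      exact x.zero_mem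
    have hd₁0 := coe_ne_zero_of_notMem B 𝔪 hd₁
    have hd₂0 := coe_ne_zero_of_notMem B 𝔪 hd₂
    -- `d ∉ x` means `d` is a unit of `C`, so its numerator `a₂` is not in `𝔪`
    have ha₂𝔪 : a₂ ∉ 𝔪 := by
      intro ha
      apply hd
      rw [hx, IsLocalRing.mem_maximalIdeal, mem_nonunits_iff]
      intro hdu
      have h1 : algebraMap ↥B ↥C a₂ = d * algebraMap ↥B ↥C d₂ := by
        apply Subtype.ext
        show (a₂ : F) = ((d : ↥C) : F) * (d₂ : F)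
        rw [ha₂]
      have h2 : IsUnit (algebraMap ↥B ↥C a₂) := by
        rw [h1]
        exact hdu.mul ((IsLocalization.AtPrime.isUnit_to_map_iff ↥C 𝔪 d₂).mpr hd₂)
      exact not_isUnit_of_mem B 𝔪 ha h2
    refine ⟨a₁ * d₂, d₁ * a₂, fun hh => (h𝔪p.mem_or_mem hh).elim hd₁ ha₂𝔪, ?_⟩
    have e1 : ((a : ↥C) : F) = (a₁ : F) * (d₁ : F)⁻¹ := by rw [← ha₁]; field_simp
    have e2 : ((d : ↥C) : F) = (a₂ : F) * (d₂ : F)⁻¹ := by rw [← ha₂]; field_simp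
    have ha₂0 : (a₂ : F) ≠ 0 := coe_ne_zero_of_notMem B 𝔪 ha₂𝔪
    rw [hzad, e1, e2]
    push_cast
    field_simp
  obtain ⟨a, d, hd, had⟩ := key _ (ε : ↥(locC (F := F) x)).2
  obtain ⟨a', d', hd', had'⟩ := key _ ((ε⁻¹ : (↥(locC (F := F) x))ˣ) : ↥(locC (F := F) x)).2
  have hεinv : (((ε : ↥(locC (F := F) x)) : F)) * ((((ε⁻¹ : (↥(locC (F := F) x))ˣ) :
      ↥(locC (F := F) x)) : F)) = 1 := by
    have h1 : (ε : ↥(locC (F := F) x)) * ((ε⁻¹ : (↥(locC (F := F) x))ˣ) : ↥(locC (F := F) x)) = 1 :=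
      ε.mul_inv
    exact congrArg Subtype.val h1
  have hd0 := coe_ne_zero_of_notMem B 𝔪 hd
  have hd'0 := coe_ne_zero_of_notMem B 𝔪 hd'
  -- `a ∉ 𝔪`: otherwise `a a' = d d' ∈ 𝔪`
  have ha : a ∉ 𝔪 := by
    intro ha
    have h1 : (a : F) * (a' : F) = (d : F) * (d' : F) := by
      rw [← had, ← had']
      linear_combination (d : F) * (d' : F) * hεinv
    have h2 : a * a' = d * d' := Subtype.ext (by push_cast; exact h1)
    have h3 : d * d' ∈ 𝔪 := by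
      rw [← h2]
      exact 𝔪.mul_mem_right _ ha
    exact (h𝔪p.mem_or_mem h3).elim hd hd'
  refine ⟨f, a, d, hf0, ha, hd, ?_⟩
  have hε : algebraMap ↥(locC (F := F) x) F (ε : ↥(locC (F := F) x)) =
      ((ε : ↥(locC (F := F) x)) : F) := rfl
  rw [hεf, hε, ← had]
  ring

/-- **The SMOOTH normal form `u = c ^ n f ^ n w` at a point of the `O1`-component**, for
`u = c ^ n u₀` with `c ∈ Kˣ` and `u₀` a unit of `O1`. -/
theorem smooth_normal_form_const (π : R) (B : Subalgebra R F) (O1 O2 : ValuationSubring F)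
    (noethB : IsNoetherianRing B) (fracR : IsFractionRing R K)
    (dvrR : ∀ r : R, r ≠ 0 → ∃ (k : ℕ) (v : Rˣ), r = π ^ k * v)
    (frac : ∀ x : F, ∃ a ∈ B, ∃ b ∈ B, b ≠ 0 ∧ x * b = a)
    (leO1 : ∀ x ∈ B, x ∈ O1) (leO2 : ∀ x ∈ B, x ∈ O2)
    (pi_ne : algebraMap R F π ≠ 0) (pi_nonunit1 : (algebraMap R F π)⁻¹ ∉ O1)
    (unif1 : ∀ x ∈ O1, x⁻¹ ∉ O1 → ∃ c ∈ O1, x = algebraMap R F π * c)
    (arch2 : ∀ x : F, ∃ k : ℕ, algebraMap R F π ^ k * x ∈ O2)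
    (sat : ∀ b ∈ B, ∀ c : F, c ∈ O1 → c ∈ O2 → b = algebraMap R F π * c → c ∈ B)
    (𝔪 : Ideal B) (h𝔪 : 𝔪.IsMaximal) (hπ𝔪 : algebraMap R B π ∈ 𝔪)
    (hon : ∀ b : B, (∃ c ∈ O1, (b : F) = algebraMap R F π * c) → b ∈ 𝔪)
    (hoff : OffBranch π B O2 𝔪)
    (hsm : ∃ s ∈ 𝔪, ∀ y ∈ 𝔪, ∃ d : B, d ∉ 𝔪 ∧ d * y ∈ Ideal.span {algebraMap R B π, s})
    (n : ℕ) (hn : n ≠ 0) (u : F) (hu0 : u ≠ 0) (c : K) (hc : c ≠ 0)
    (hu : u / algebraMap K F c ^ n ∈ O1) (hu' : (u / algebraMap K F c ^ n)⁻¹ ∈ O1)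
    (hu2 : ∀ v : Place K F, (n : ℤ) ∣ v.ord u) :
    ∃ (f : F) (a d : B), f ≠ 0 ∧ a ∉ 𝔪 ∧ d ∉ 𝔪 ∧
      u * (d : F) = algebraMap K F c ^ n * f ^ n * (a : F) := by
  have hcF : algebraMap K F c ≠ 0 := (map_ne_zero _).mpr hc
  have hcn : algebraMap K F c ^ n ≠ 0 := pow_ne_zero n hcF
  have hu0' : u / algebraMap K F c ^ n ≠ 0 := div_ne_zero hu0 hcn
  have hu2' : ∀ v : Place K F, (n : ℤ) ∣ v.ord (u / algebraMap K F c ^ n) := by
    intro v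
    rw [div_eq_mul_inv, v.ord_mul hu0 (inv_ne_zero hcn), v.ord_inv, Fermat.Agent.X0.FF.ord_pow,
      Fermat.Agent.X0.FF.ord_algebraMap v c, mul_zero, neg_zero, add_zero]
    exact hu2 v
  obtain ⟨f, a, d, hf0, ha, hd, e⟩ := smooth_normal_form (K := K) π B O1 O2 noethB fracR dvrR frac
    leO1 leO2 pi_ne pi_nonunit1 unif1 arch2 sat 𝔪 h𝔪 hπ𝔪 hon hoff hsm n hn _ hu0' hu hu' hu2'
  refine ⟨f, a, d, hf0, ha, hd, ?_⟩
  have : u = algebraMap K F c ^ n * (u / algebraMap K F c ^ n) := by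
    field_simp
  rw [this, mul_assoc, e]
  ring

/-- **The SMOOTH normal form at a point of the `O2`-component** (mirror statement). -/
theorem smooth_normal_form' (π : R) (B : Subalgebra R F) (O1 O2 : ValuationSubring F)
    (noethB : IsNoetherianRing B) (fracR : IsFractionRing R K)
    (dvrR : ∀ r : R, r ≠ 0 → ∃ (k : ℕ) (v : Rˣ), r = π ^ k * v)
    (frac : ∀ x : F, ∃ a ∈ B, ∃ b ∈ B, b ≠ 0 ∧ x * b = a)
    (leO1 : ∀ x ∈ B, x ∈ O1) (leO2 : ∀ x ∈ B, x ∈ O2)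
    (pi_ne : algebraMap R F π ≠ 0) (pi_nonunit2 : (algebraMap R F π)⁻¹ ∉ O2)
    (unif2 : ∀ x ∈ O2, x⁻¹ ∉ O2 → ∃ c ∈ O2, x = algebraMap R F π * c)
    (arch1 : ∀ x : F, ∃ k : ℕ, algebraMap R F π ^ k * x ∈ O1)
    (sat : ∀ b ∈ B, ∀ c : F, c ∈ O1 → c ∈ O2 → b = algebraMap R F π * c → c ∈ B)
    (𝔪 : Ideal B) (h𝔪 : 𝔪.IsMaximal) (hπ𝔪 : algebraMap R B π ∈ 𝔪)
    (hon : ∀ b : B, (∃ c ∈ O2, (b : F) = algebraMap R F π * c) → b ∈ 𝔪)
    (hoff : OffBranch π B O1 𝔪)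
    (hsm : ∃ s ∈ 𝔪, ∀ y ∈ 𝔪, ∃ d : B, d ∉ 𝔪 ∧ d * y ∈ Ideal.span {algebraMap R B π, s})
    (n : ℕ) (hn : n ≠ 0) (u : F) (hu0 : u ≠ 0) (hu : u ∈ O2) (hu' : u⁻¹ ∈ O2)
    (hu2 : ∀ v : Place K F, (n : ℤ) ∣ v.ord u) :
    ∃ (f : F) (a d : B), f ≠ 0 ∧ a ∉ 𝔪 ∧ d ∉ 𝔪 ∧ u * (d : F) = (a : F) * f ^ n :=
  smooth_normal_form (K := K) π B O2 O1 noethB fracR dvrR frac leO2 leO1 pi_ne pi_nonunit2 unif2
    arch1 (fun b hb c h2 h1 e => sat b hb c h1 h2 e) 𝔪 h𝔪 hπ𝔪 hon hoff hsm n hn u hu0 hu hu' hu2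

/-- mirror statement of `smooth_normal_form_const`. -/
theorem smooth_normal_form_const' (π : R) (B : Subalgebra R F) (O1 O2 : ValuationSubring F)
    (noethB : IsNoetherianRing B) (fracR : IsFractionRing R K)
    (dvrR : ∀ r : R, r ≠ 0 → ∃ (k : ℕ) (v : Rˣ), r = π ^ k * v)
    (frac : ∀ x : F, ∃ a ∈ B, ∃ b ∈ B, b ≠ 0 ∧ x * b = a)
    (leO1 : ∀ x ∈ B, x ∈ O1) (leO2 : ∀ x ∈ B, x ∈ O2)
    (pi_ne : algebraMap R F π ≠ 0) (pi_nonunit2 : (algebraMap R F π)⁻¹ ∉ O2)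
    (unif2 : ∀ x ∈ O2, x⁻¹ ∉ O2 → ∃ c ∈ O2, x = algebraMap R F π * c)
    (arch1 : ∀ x : F, ∃ k : ℕ, algebraMap R F π ^ k * x ∈ O1)
    (sat : ∀ b ∈ B, ∀ c : F, c ∈ O1 → c ∈ O2 → b = algebraMap R F π * c → c ∈ B)
    (𝔪 : Ideal B) (h𝔪 : 𝔪.IsMaximal) (hπ𝔪 : algebraMap R B π ∈ 𝔪)
    (hon : ∀ b : B, (∃ c ∈ O2, (b : F) = algebraMap R F π * c) → b ∈ 𝔪)
    (hoff : OffBranch π B O1 𝔪)
    (hsm : ∃ s ∈ 𝔪, ∀ y ∈ 𝔪, ∃ d : B, d ∉ 𝔪 ∧ d * y ∈ Ideal.span {algebraMap R B π, s})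
    (n : ℕ) (hn : n ≠ 0) (u : F) (hu0 : u ≠ 0) (c : K) (hc : c ≠ 0)
    (hu : u / algebraMap K F c ^ n ∈ O2) (hu' : (u / algebraMap K F c ^ n)⁻¹ ∈ O2)
    (hu2 : ∀ v : Place K F, (n : ℤ) ∣ v.ord u) :
    ∃ (f : F) (a d : B), f ≠ 0 ∧ a ∉ 𝔪 ∧ d ∉ 𝔪 ∧
      u * (d : F) = algebraMap K F c ^ n * f ^ n * (a : F) :=
  smooth_normal_form_const (K := K) π B O2 O1 noethB fracR dvrR frac leO2 leO1 pi_ne pi_nonunit2
    unif2 arch1 (fun b hb c h2 h1 e => sat b hb c h1 h2 e) 𝔪 h𝔪 hπ𝔪 hon hoff hsm n hn u hu0 c hc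
    hu hu' hu2

end Smooth

end Fermat.Agent.M43.SmoothNF7
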