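/-
Programme M43, chapter (LG-q), Stage 1, block (LS) (helper8; piece handed over by helper7):
**the smooth normal form `KLift9.LSAt` at every one-branch point of a chart — abstract form.**

N34 vocabulary (`NodalCore13`): `B ⊂ F` a chart of the nodal model over the DVR `R`, `O1`, `O2` the
two Gauss valuation rings.  `u ∈ F^×` with `n ∣ ord_v u` at all places of `F / K`, and constants
`c₁, c₂ ∈ K^×` with `u / c_j ^ n ∈ O_j^×`.  `F' ⊇ F` a field with `θ ∈ F'`, `θ ^ n = u`, and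
`δ : F' → F'` fixing `F` with `δ θ = ζ θ`, `ζ ∈ R` a primitive `n`-th root of unity.

* `not_offBranch_both` : a maximal ideal `𝔪 ∋ π` of a `π`-saturated chart lies on at least one
  component;
* `lsAt_chart` : at a maximal ideal `𝔪 ∋ π` missing one component, `KLift9.LSAt B 𝔪 δ n`
  (`v := θ / (c_j f)`, `v ^ n = a / d` a unit of `B_𝔪`, by `SmoothNF7.smooth_normal_form_const(')`);
* `lsAt_of_numData` : both charts of a `NumData13.NodalNumData`.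
-/
import Mathlib
import Fermat.Agent.M43.KLift9
import Fermat.Agent.M43.SmoothNF7

set_option autoImplicit false
set_option linter.unusedSectionVars false
set_option linter.unusedVariables false
set_option linter.style.haveILetI false

namespace Fermat.Agent.M43.LSAbs8

open AlgebraicCurve Fermat.Agent.M43.KLift9 Fermat.Agent.M43.SmoothNF7
  Fermat.Agent.ES.N34.NodalCore13 Fermat.Agent.ES.N34.NodalCL13 Fermat.Agent.ES.N34.NumData13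

section Both

variable {R F : Type*} [CommRing R] [Field F] [Algebra R F]

/-- a maximal ideal containing `π` of a `π`-saturated chart lies on at least one component. -/
theorem not_offBranch_both (π : R) (B : Subalgebra R F) (O1 O2 : ValuationSubring F)
    (leO1 : ∀ x ∈ B, x ∈ O1) (leO2 : ∀ x ∈ B, x ∈ O2) (pi_ne : algebraMap R F π ≠ 0)
    (sat : ∀ b ∈ B, ∀ c : F, c ∈ O1 → c ∈ O2 → b = algebraMap R F π * c → c ∈ B)
    (𝔪 : Ideal B) [h𝔪 : 𝔪.IsPrime] (hπ𝔪 : algebraMap R B π ∈ 𝔪)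
    (h1 : OffBranch π B O1 𝔪) (h2 : OffBranch π B O2 𝔪) : False := by
  obtain ⟨e₁, he₁, c₁, hc₁, hec₁⟩ := h1
  obtain ⟨e₂, he₂, c₂, hc₂, hec₂⟩ := h2
  -- `e₁ e₂ = π c` with `c = c₁ e₂ = c₂ e₁ ∈ O1 ⊓ O2`
  have hcO1 : c₁ * (e₂ : F) ∈ O1 := O1.mul_mem _ _ hc₁ (leO1 _ e₂.2)
  have hcO2 : c₁ * (e₂ : F) ∈ O2 := by
    have : c₁ * (e₂ : F) = c₂ * (e₁ : F) := by
      apply mul_left_cancel₀ pi_ne
      rw [← mul_assoc, ← hec₁, ← mul_assoc, ← hec₂, mul_comm]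
    rw [this]
    exact O2.mul_mem _ _ hc₂ (leO2 _ e₁.2)
  have hprod : ((e₁ * e₂ : B) : F) = algebraMap R F π * (c₁ * (e₂ : F)) := by
    push_cast
    rw [hec₁]
    ring
  have hcB : c₁ * (e₂ : F) ∈ B := sat _ (e₁ * e₂).2 _ hcO1 hcO2 hprod
  have hmem : e₁ * e₂ ∈ 𝔪 := by
    have : e₁ * e₂ = algebraMap R B π * ⟨_, hcB⟩ := Subtype.ext hprod
    rw [this]
    exact 𝔪.mul_mem_right _ hπ𝔪
  exact (h𝔪.mem_or_mem hmem).elim he₁ he₂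

end Both

section Chart

variable {R K F F' : Type*} [CommRing R] [Field K] [Field F] [Field F']
  [Algebra R K] [Algebra K F] [Algebra R F] [IsScalarTower R K F]
  [Algebra F F'] [Algebra R F'] [IsScalarTower R F F']

/-- from the normal form `u d = c ^ n f ^ n a` to `LSAt`. -/
theorem lsAt_of_normal_form (B : Subalgebra R F) (𝔪 : Ideal B) (n : ℕ) (hn : n ≠ 0) (u : F)
    (θ : F') (hθ : θ ^ n = algebraMap F F' u) (δ : F' →+* F')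
    (hδF : ∀ f : F, δ (algebraMap F F' f) = algebraMap F F' f)
    (ζ : R) (hζ : IsPrimitiveRoot (algebraMap R F' ζ) n) (hδθ : δ θ = algebraMap R F' ζ * θ)
    (c : K) (hc : c ≠ 0) (f : F) (a d : B) (hf0 : f ≠ 0) (ha : a ∉ 𝔪) (hd : d ∉ 𝔪)
    (e : u * (d : F) = algebraMap K F c ^ n * f ^ n * (a : F)) :
    LSAt (F' := F') B 𝔪 δ n := by
  have hd0 : (d : F) ≠ 0 := by
    intro h0
    apply hd
    have : d = 0 := Subtype.ext h0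
    rw [this]
    exact 𝔪.zero_mem
  have hcF : algebraMap K F c ≠ 0 := (map_ne_zero _).mpr hc
  set g : F := algebraMap K F c * f with hg
  have hg0 : g ≠ 0 := mul_ne_zero hcF hf0
  have hgF' : algebraMap F F' g ≠ 0 := (map_ne_zero _).mpr hg0
  refine ⟨ζ, θ / algebraMap F F' g, (a : F) / (d : F), a, d, hζ, ?_, ?_, ha, hd,
    div_mul_cancel₀ _ hd0⟩
  · rw [map_div₀, hδθ, hδF, mul_div_assoc]
  · rw [div_pow, hθ, ← map_pow, ← map_div₀]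
    congr 1
    rw [div_eq_div_iff (pow_ne_zero n hg0) hd0, e, hg, mul_pow]
    ring

/-- **(LS) on one chart**: `KLift9.LSAt` at every maximal ideal `𝔪 ∋ π` missing a component. -/
theorem lsAt_chart (π : R) (B : Subalgebra R F) (O1 O2 : ValuationSubring F)
    (noethB : IsNoetherianRing B) (fracR : IsFractionRing R K)
    (dvrR : ∀ r : R, r ≠ 0 → ∃ (k : ℕ) (v : Rˣ), r = π ^ k * v)
    (frac : ∀ x : F, ∃ a ∈ B, ∃ b ∈ B, b ≠ 0 ∧ x * b = a)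
    (leO1 : ∀ x ∈ B, x ∈ O1) (leO2 : ∀ x ∈ B, x ∈ O2)
    (pi_ne : algebraMap R F π ≠ 0) (pi_nonunit1 : (algebraMap R F π)⁻¹ ∉ O1)
    (pi_nonunit2 : (algebraMap R F π)⁻¹ ∉ O2)
    (unif1 : ∀ x ∈ O1, x⁻¹ ∉ O1 → ∃ c ∈ O1, x = algebraMap R F π * c)
    (unif2 : ∀ x ∈ O2, x⁻¹ ∉ O2 → ∃ c ∈ O2, x = algebraMap R F π * c)
    (arch1 : ∀ x : F, ∃ k : ℕ, algebraMap R F π ^ k * x ∈ O1)
    (arch2 : ∀ x : F, ∃ k : ℕ, algebraMap R F π ^ k * x ∈ O2)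
    (sat : ∀ b ∈ B, ∀ c : F, c ∈ O1 → c ∈ O2 → b = algebraMap R F π * c → c ∈ B)
    (hsm : ∀ 𝔪 : Ideal B, 𝔪.IsMaximal → algebraMap R B π ∈ 𝔪 →
      OffBranch π B O1 𝔪 ∨ OffBranch π B O2 𝔪 → SmoothAt π B 𝔪)
    (n : ℕ) (hn : n ≠ 0) (u : F) (hu0 : u ≠ 0) (c₁ c₂ : K) (hc₁ : c₁ ≠ 0) (hc₂ : c₂ ≠ 0)
    (hu1 : u / algebraMap K F c₁ ^ n ∈ O1) (hu1' : (u / algebraMap K F c₁ ^ n)⁻¹ ∈ O1)
    (hu2 : u / algebraMap K F c₂ ^ n ∈ O2) (hu2' : (u / algebraMap K F c₂ ^ n)⁻¹ ∈ O2)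
    (hord : ∀ v : Place K F, (n : ℤ) ∣ v.ord u)
    (θ : F') (hθ : θ ^ n = algebraMap F F' u) (δ : F' →+* F')
    (hδF : ∀ f : F, δ (algebraMap F F' f) = algebraMap F F' f)
    (ζ : R) (hζ : IsPrimitiveRoot (algebraMap R F' ζ) n) (hδθ : δ θ = algebraMap R F' ζ * θ)
    (𝔪 : Ideal B) (h𝔪 : 𝔪.IsMaximal) (hπ𝔪 : algebraMap R B π ∈ 𝔪)
    (hoff : OffBranch π B O1 𝔪 ∨ OffBranch π B O2 𝔪) :
    LSAt (F' := F') B 𝔪 δ n := by
  haveI := h𝔪.isPrime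
  have hs := hsm 𝔪 h𝔪 hπ𝔪 hoff
  by_cases h1 : OffBranch π B O1 𝔪
  · -- on the `O2`-component only
    have hon : ∀ b : B, (∃ c ∈ O2, (b : F) = algebraMap R F π * c) → b ∈ 𝔪 := by
      intro b hb
      by_contra hb𝔪
      exact not_offBranch_both π B O1 O2 leO1 leO2 pi_ne sat 𝔪 hπ𝔪 h1 ⟨b, hb𝔪, hb⟩
    obtain ⟨f, a, d, hf0, ha, hd, e⟩ := smooth_normal_form_const' (K := K) π B O1 O2 noethB fracR
      dvrR frac leO1 leO2 pi_ne pi_nonunit2 unif2 arch1 sat 𝔪 h𝔪 hπ𝔪 hon h1 hs n hn u hu0 c₂ hc₂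
      hu2 hu2' hord
    exact lsAt_of_normal_form B 𝔪 n hn u θ hθ δ hδF ζ hζ hδθ c₂ hc₂ f a d hf0 ha hd e
  · -- on the `O1`-component only
    have h2 : OffBranch π B O2 𝔪 := hoff.resolve_left h1
    have hon : ∀ b : B, (∃ c ∈ O1, (b : F) = algebraMap R F π * c) → b ∈ 𝔪 := by
      intro b hb
      by_contra hb𝔪
      exact h1 ⟨b, hb𝔪, hb⟩
    obtain ⟨f, a, d, hf0, ha, hd, e⟩ := smooth_normal_form_const (K := K) π B O1 O2 noethB fracR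
      dvrR frac leO1 leO2 pi_ne pi_nonunit1 unif1 arch2 sat 𝔪 h𝔪 hπ𝔪 hon h2 hs n hn u hu0 c₁ hc₁
      hu1 hu1' hord
    exact lsAt_of_normal_form B 𝔪 n hn u θ hθ δ hδF ζ hζ hδθ c₁ hc₁ f a d hf0 ha hd e

/-- **(LS) on both charts of a `NodalNumData`** (the hypotheses `LS0`, `LS1` of
`KLift9.nodalNumData_lift`). -/
theorem lsAt_of_numData {π : R} {t : F} {B0 B1 : Subalgebra R F} {O1 O2 : ValuationSubring F}
    (hD : NodalNumData R K F π t B0 B1 O1 O2)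
    (n : ℕ) (hn : n ≠ 0) (u : F) (hu0 : u ≠ 0) (c₁ c₂ : K) (hc₁ : c₁ ≠ 0) (hc₂ : c₂ ≠ 0)
    (hu1 : u / algebraMap K F c₁ ^ n ∈ O1) (hu1' : (u / algebraMap K F c₁ ^ n)⁻¹ ∈ O1)
    (hu2 : u / algebraMap K F c₂ ^ n ∈ O2) (hu2' : (u / algebraMap K F c₂ ^ n)⁻¹ ∈ O2)
    (hord : ∀ v : Place K F, (n : ℤ) ∣ v.ord u)
    (θ : F') (hθ : θ ^ n = algebraMap F F' u) (δ : F' →+* F')
    (hδF : ∀ f : F, δ (algebraMap F F' f) = algebraMap F F' f)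
    (ζ : R) (hζ : IsPrimitiveRoot (algebraMap R F' ζ) n) (hδθ : δ θ = algebraMap R F' ζ * θ) :
    (∀ 𝔪 : Ideal B0, 𝔪.IsMaximal → algebraMap R B0 π ∈ 𝔪 →
      OffBranch π B0 O1 𝔪 ∨ OffBranch π B0 O2 𝔪 → LSAt (F' := F') B0 𝔪 δ n) ∧
    (∀ 𝔪 : Ideal B1, 𝔪.IsMaximal → algebraMap R B1 π ∈ 𝔪 →
      OffBranch π B1 O1 𝔪 ∨ OffBranch π B1 O2 𝔪 → LSAt (F' := F') B1 𝔪 δ n) := by
  have M := hD.model
  constructor
  · intro 𝔪 h𝔪 hπ𝔪 hoff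
    exact lsAt_chart (K := K) π B0 O1 O2 hD.noeth0 hD.fracR hD.dvrR hD.frac0 M.le_O1_0 M.le_O2_0
      M.pi_ne M.pi_nonunit1 M.pi_nonunit2 M.unif1 M.unif2 M.arch1 M.arch2 M.sat0 hD.smooth0 n hn u
      hu0 c₁ c₂ hc₁ hc₂ hu1 hu1' hu2 hu2' hord θ hθ δ hδF ζ hζ hδθ 𝔪 h𝔪 hπ𝔪 hoff
  · intro 𝔪 h𝔪 hπ𝔪 hoff
    exact lsAt_chart (K := K) π B1 O1 O2 hD.noeth1 hD.fracR hD.dvrR hD.frac1 M.le_O1_1 M.le_O2_1
      M.pi_ne M.pi_nonunit1 M.pi_nonunit2 M.unif1 M.unif2 M.arch1 M.arch2 M.sat1 hD.smooth1 n hn u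
      hu0 c₁ c₂ hc₁ hc₂ hu1 hu1' hu2 hu2' hord θ hθ δ hδF ζ hζ hδθ 𝔪 h𝔪 hπ𝔪 hoff

end Chart

end Fermat.Agent.M43.LSAbs8
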