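/-
Programme M43 (target S43), chapter (6d) — helper6.
**The Galois representation over the Hecke algebra `An θ` of level `n`.**

Notation of `LevelDatum6`.  With `(θn, H, f)` the datum of `LevelDatum6.exists_level_datum`
(`H : HeckeGaloisRepDatum M Sn O θn (TLoc M Sn O θn)`, `f : TLoc M Sn O θn →ₐ[O] An θ` onto), the
representation `ρ_A := H.ρ ⊗ An θ` satisfies

* `IsLevelRep θ p M Sn ρbar ρ_A` : the per-`(A, ρ_A)` hypotheses of the P-GLOB END THEOREM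
  (`hres`, `hlift`, `hD`, `hflat`, `hU` outside `Sn`, `hunip` at the primes `q ∥ M`, `q ≠ p`, `htr`;
  `GlobHecke3.hyps_of_datum`) and the characteristic polynomials `X² - mk X_i X + ℓ i` at the
  Frobenius elements of the good primes `ℓ i` (`frob`);
* **`exists_level_rep`** : `∃ θn H f hloc, Surjective f ∧ IsLevelRep … (H.ρ.baseChangeAlong f hloc)`;
  `exists_level_rep'` : `∃ ρA, IsLevelRep … ρA`.
-/
import Mathlib
import Fermat.Agent.M43.LevelDatum6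

set_option autoImplicit false
set_option linter.unusedSectionVars false
set_option linter.style.haveILetI false

open IsLocalRing Polynomial

noncomputable section

namespace Fermat.Agent.M43.LevelRep6

open CuspForm
open Fermat.Agent.M43.PolyMod5 Fermat.Agent.M43.ChainGrp5 Fermat.Agent.M43.ChainMod5
  Fermat.Agent.M43.ChainMain5 Fermat.Agent.M43.ChainLevel5 Fermat.Agent.M43.AlgHecke5
  Fermat.Agent.M43.LevelHom6 Fermat.Agent.M43.DatumAlg3 Fermat.Agent.M43.LevelDatum6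

local notation "Qb" => AlgebraicClosure ℚ
local notation "GQ" => (AlgebraicClosure ℚ ≃ₐ[ℚ] AlgebraicClosure ℚ)

/-! ### Characteristic polynomials of a base change -/

section BC

variable {A B : Type} [CommRing A] [IsLocalRing A] [CommRing B] [IsLocalRing B]

/-- the characteristic polynomials of a base change along a ring homomorphism. -/
theorem charpoly_bc (π : A →+* B) (hloc : IsLocalHom π) (ρ : GaloisRepAdic A) (σ : GQ) :
    LinearMap.charpoly ((ρ.baseChangeAlong π hloc).ρ σ) =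
      (LinearMap.charpoly (ρ.ρ σ)).map π := by
  letI : Algebra A B := π.toAlgebra
  show LinearMap.charpoly ((ρ.ρ σ).baseChange B) = _
  rw [LinearMap.charpoly_baseChange]
  rfl

/-- the shape `X² - t X + ℓ` is preserved. -/
theorem charpoly_bc_frob (π : A →+* B) (hloc : IsLocalHom π) (ρ : GaloisRepAdic A) (σ : GQ)
    (t : A) (ℓ : ℕ) (h : LinearMap.charpoly (ρ.ρ σ) = X ^ 2 - C t * X + C ((ℓ : A))) :
    LinearMap.charpoly ((ρ.baseChangeAlong π hloc).ρ σ) = X ^ 2 - C (π t) * X + C ((ℓ : B)) := by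
  rw [charpoly_bc, h, Polynomial.map_add, Polynomial.map_sub, Polynomial.map_pow,
    Polynomial.map_mul, Polynomial.map_X, Polynomial.map_C, Polynomial.map_C,
    show π ((ℓ : ℕ) : A) = ((ℓ : ℕ) : B) from map_natCast π ℓ]

end BC

/-! ### The representation over `An θ` -/

section Rep

variable {N : ℕ} [NeZero N] {O : Type} [CommRing O] [IsDomain O] [IsDiscreteValuationRing O]
  [IsAdicComplete (maximalIdeal O) O] [CharZero O] {F : Frame N} (θ : F.ι → ResidueField O)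

/-- **the properties of the Galois representation over the Hecke algebra of level `n`**: the
per-`(A, ρ_A)` hypotheses of the P-GLOB END THEOREM and the Frobenius characteristic polynomials. -/
def IsLevelRep [IsLocalRing (An θ)] [IsLocalHom (algebraMap O (An θ))] (p M : ℕ) (Sn : Finset ℕ)
    (ρbar : ResidualGaloisRep (ResidueField O)) (ρA : GaloisRepAdic (An θ)) : Prop :=
  Function.Surjective (residue (An θ) ∘ algebraMap O (An θ)) ∧
  ρA.residual.IsEquiv (ρbar.baseChangeAlong (ResidueField.map (algebraMap O (An θ)))) ∧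
  ρA.DetIsCyclotomic p ∧ ρA.IsFlatAt p ∧
  (∀ q : ℕ, q.Prime → q ∉ Sn → ρA.IsUnramifiedAt q) ∧
  (∀ q : ℕ, q.Prime → q ≠ p → q ∣ M → ¬ q ^ 2 ∣ M → ρA.IsUnipotentOnInertiaAt q) ∧
  Algebra.adjoin O (Set.range fun σ : GQ => LinearMap.trace (An θ) ρA.V (ρA.ρ σ)) = ⊤ ∧
  ∀ i : F.ι, ∀ P : ValuationSubring Qb, P.LiesOverPrime (F.ℓ i) → ∀ φ : GQ,
    P.IsFrobeniusAt φ (F.ℓ i) →
      LinearMap.charpoly (ρA.ρ φ) =
        X ^ 2 - C (Ideal.Quotient.mk (annL O (Hk0 O F) (HnMod θ)) (MvPolynomial.X i)) * X +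
          C ((F.ℓ i : An θ))

namespace IsLevelRep

variable {θ} [IsLocalRing (An θ)] [IsLocalHom (algebraMap O (An θ))] {p M : ℕ} {Sn : Finset ℕ}
  {ρbar : ResidualGaloisRep (ResidueField O)} {ρA : GaloisRepAdic (An θ)}
  (h : IsLevelRep θ p M Sn ρbar ρA)

include h

theorem hres : Function.Surjective (residue (An θ) ∘ algebraMap O (An θ)) := h.1

theorem hlift :
    ρA.residual.IsEquiv (ρbar.baseChangeAlong (ResidueField.map (algebraMap O (An θ)))) := h.2.1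

theorem hD : ρA.DetIsCyclotomic p := h.2.2.1

theorem hflat : ρA.IsFlatAt p := h.2.2.2.1

theorem hU : ∀ q : ℕ, q.Prime → q ∉ Sn → ρA.IsUnramifiedAt q := h.2.2.2.2.1

theorem hunip : ∀ q : ℕ, q.Prime → q ≠ p → q ∣ M → ¬ q ^ 2 ∣ M →
    ρA.IsUnipotentOnInertiaAt q := h.2.2.2.2.2.1

theorem htr : Algebra.adjoin O
    (Set.range fun σ : GQ => LinearMap.trace (An θ) ρA.V (ρA.ρ σ)) = ⊤ := h.2.2.2.2.2.2.1

theorem frob : ∀ i : F.ι, ∀ P : ValuationSubring Qb, P.LiesOverPrime (F.ℓ i) → ∀ φ : GQ,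
    P.IsFrobeniusAt φ (F.ℓ i) →
      LinearMap.charpoly (ρA.ρ φ) =
        X ^ 2 - C (Ideal.Quotient.mk (annL O (Hk0 O F) (HnMod θ)) (MvPolynomial.X i)) * X +
          C ((F.ℓ i : An θ)) := h.2.2.2.2.2.2.2

end IsLevelRep

variable [Finite (ResidueField O)] {p : ℕ} [hp : Fact p.Prime] [CharP (ResidueField O) p]
  [hnt : Nontrivial (Hn θ)]

/-- **(6d), representation form, eliminator**: the Hecke algebra `An θ` of level `n` is a quotient
of the full local Hecke algebra `TLoc M Sn O θn` of level `M = N ∏ Q`, and the base change `ρ_A` of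
the representation of a Prelude datum `H` on `TLoc M Sn O θn` satisfies `IsLevelRep`.  (Stated as
an eliminator: destructuring existentials in front of a large goal is expensive.) -/
theorem level_rep_elim (hp2 : p ≠ 2) (hpO : (p : O) ∈ maximalIdeal O)
    (hcℓ : ∀ i : Fin F.s, (F.c.ℓ i).Prime ∧ ¬ F.c.ℓ i ∣ N / F.c.ℓ i)
    (he : 2 * F.e = (∏ i, F.c.m i) + 1) {M : ℕ} [NeZero M]
    (hM : M = N * ∏ q ∈ Finset.univ.image F.c.ℓ, q) (hpM : ¬ p ∣ M)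
    (Sn : Finset ℕ) (hpS : p ∈ Sn) (hMS : ∀ q : ℕ, q.Prime → q ∣ M → q ∈ Sn)
    (hℓS : ∀ i, F.ℓ i ∉ Sn) (hcov : ∀ ℓ' : ℕ, ℓ'.Prime → ℓ' ∉ Sn → ∃ i, F.ℓ i = ℓ')
    (ρbar : ResidualGaloisRep (ResidueField O)) (habs : ρbar.IsAbsolutelyIrreducible)
    (hdet : (GaloisRepAdic.ofResidualGaloisRep ρbar).DetIsCyclotomic p)
    (hθ : ∀ i : F.ι, ∀ P : ValuationSubring Qb, P.LiesOverPrime (F.ℓ i) → ∀ φ : GQ,
      P.IsFrobeniusAt φ (F.ℓ i) →
        LinearMap.charpoly (ρbar.ρ φ) =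
          X ^ 2 - C (θ i) * X + C ((F.ℓ i : ResidueField O))) :
    haveI := isLocalRing_An θ
    haveI := isLocalHom_An θ
    ∀ {P : Prop}, (∀ (θn : ↥(heckeAlgebra M 2 (↑Sn : Set ℕ)) →+* ResidueField O)
      (H : HeckeGaloisRepDatum M (↑Sn : Set ℕ) O θn (TLoc M Sn O θn))
      (f : TLoc M Sn O θn →ₐ[O] An θ)
      (hloc : IsLocalHom (f : TLoc M Sn O θn →+* An θ)),
      Function.Surjective f → H.π = piT M Sn O θn →
      (∀ (i : F.ι) (hℓM : ¬ F.ℓ i ∣ M) (hℓS' : F.ℓ i ∉ (↑Sn : Set ℕ)),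
        f (H.π (heckeAlgebra.T (F.prime i) hℓM hℓS')) =
          Ideal.Quotient.mk (annL O (Hk0 O F) (HnMod θ)) (MvPolynomial.X i)) →
      IsLevelRep θ p M Sn ρbar (H.ρ.baseChangeAlong (f : TLoc M Sn O θn →+* An θ) hloc) → P) →
      P := by
  haveI := isLocalRing_An θ
  haveI := isLocalHom_An θ
  intro P hP
  obtain ⟨θn, H, f, hf, hHπ, hfX, _, hθn⟩ := exists_level_datum θ hp2 hpO hcℓ he hM Sn hpS hMS
    hℓS hcov ρbar habs hdet hθ
  obtain ⟨hloc, h1, h2, h3, h4, h5, h6, h7⟩ :=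
    GlobHecke3.hyps_of_datum hp2 hpO hpM hpS hMS H ρbar habs hdet hθn f hf
  refine hP θn H f hloc hf hHπ hfX ⟨h1, h2, h3, h4, h5, h6, h7, ?_⟩
  intro i P hP φ hφ
  have hℓM : ¬ F.ℓ i ∣ M := not_dvd_M Sn hMS hℓS i
  have hℓS' : F.ℓ i ∉ (↑Sn : Set ℕ) := fun h => hℓS i (Finset.mem_coe.1 h)
  have h8 := charpoly_bc_frob (f : TLoc M Sn O θn →+* An θ) hloc H.ρ φ _ (F.ℓ i)
    (H.charpoly_frob (F.ℓ i) (F.prime i) hℓM hℓS' P hP φ hφ)
  have h9 : (f : TLoc M Sn O θn →+* An θ) (H.π (heckeAlgebra.T (F.prime i) hℓM hℓS')) =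
      Ideal.Quotient.mk (annL O (Hk0 O F) (HnMod θ)) (MvPolynomial.X i) := hfX i hℓM hℓS'
  exact h8.trans (congrArg (fun z : An θ => (X ^ 2 - C z * X + C ((F.ℓ i : An θ)) : (An θ)[X])) h9)

/-- **(6d), representation form.** -/
theorem exists_level_rep (hp2 : p ≠ 2) (hpO : (p : O) ∈ maximalIdeal O)
    (hcℓ : ∀ i : Fin F.s, (F.c.ℓ i).Prime ∧ ¬ F.c.ℓ i ∣ N / F.c.ℓ i)
    (he : 2 * F.e = (∏ i, F.c.m i) + 1) {M : ℕ} [NeZero M]
    (hM : M = N * ∏ q ∈ Finset.univ.image F.c.ℓ, q) (hpM : ¬ p ∣ M)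
    (Sn : Finset ℕ) (hpS : p ∈ Sn) (hMS : ∀ q : ℕ, q.Prime → q ∣ M → q ∈ Sn)
    (hℓS : ∀ i, F.ℓ i ∉ Sn) (hcov : ∀ ℓ' : ℕ, ℓ'.Prime → ℓ' ∉ Sn → ∃ i, F.ℓ i = ℓ')
    (ρbar : ResidualGaloisRep (ResidueField O)) (habs : ρbar.IsAbsolutelyIrreducible)
    (hdet : (GaloisRepAdic.ofResidualGaloisRep ρbar).DetIsCyclotomic p)
    (hθ : ∀ i : F.ι, ∀ P : ValuationSubring Qb, P.LiesOverPrime (F.ℓ i) → ∀ φ : GQ,
      P.IsFrobeniusAt φ (F.ℓ i) →
        LinearMap.charpoly (ρbar.ρ φ) =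
          X ^ 2 - C (θ i) * X + C ((F.ℓ i : ResidueField O))) :
    haveI := isLocalRing_An θ
    haveI := isLocalHom_An θ
    ∃ (θn : ↥(heckeAlgebra M 2 (↑Sn : Set ℕ)) →+* ResidueField O)
      (H : HeckeGaloisRepDatum M (↑Sn : Set ℕ) O θn (TLoc M Sn O θn))
      (f : TLoc M Sn O θn →ₐ[O] An θ)
      (hloc : IsLocalHom (f : TLoc M Sn O θn →+* An θ)),
      Function.Surjective f ∧ H.π = piT M Sn O θn ∧
      (∀ (i : F.ι) (hℓM : ¬ F.ℓ i ∣ M) (hℓS' : F.ℓ i ∉ (↑Sn : Set ℕ)),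
        f (H.π (heckeAlgebra.T (F.prime i) hℓM hℓS')) =
          Ideal.Quotient.mk (annL O (Hk0 O F) (HnMod θ)) (MvPolynomial.X i)) ∧
      IsLevelRep θ p M Sn ρbar (H.ρ.baseChangeAlong (f : TLoc M Sn O θn →+* An θ) hloc) :=
  level_rep_elim θ hp2 hpO hcℓ he hM hpM Sn hpS hMS hℓS hcov ρbar habs hdet hθ
    (fun θn H f hloc h1 h2 h3 h4 => ⟨θn, H, f, hloc, h1, h2, h3, h4⟩)

/-- (6d), short form: `An θ` carries a Galois representation with `IsLevelRep`. -/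
theorem exists_level_rep' (hp2 : p ≠ 2) (hpO : (p : O) ∈ maximalIdeal O)
    (hcℓ : ∀ i : Fin F.s, (F.c.ℓ i).Prime ∧ ¬ F.c.ℓ i ∣ N / F.c.ℓ i)
    (he : 2 * F.e = (∏ i, F.c.m i) + 1) {M : ℕ} [NeZero M]
    (hM : M = N * ∏ q ∈ Finset.univ.image F.c.ℓ, q) (hpM : ¬ p ∣ M)
    (Sn : Finset ℕ) (hpS : p ∈ Sn) (hMS : ∀ q : ℕ, q.Prime → q ∣ M → q ∈ Sn)
    (hℓS : ∀ i, F.ℓ i ∉ Sn) (hcov : ∀ ℓ' : ℕ, ℓ'.Prime → ℓ' ∉ Sn → ∃ i, F.ℓ i = ℓ')
    (ρbar : ResidualGaloisRep (ResidueField O)) (habs : ρbar.IsAbsolutelyIrreducible)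
    (hdet : (GaloisRepAdic.ofResidualGaloisRep ρbar).DetIsCyclotomic p)
    (hθ : ∀ i : F.ι, ∀ P : ValuationSubring Qb, P.LiesOverPrime (F.ℓ i) → ∀ φ : GQ,
      P.IsFrobeniusAt φ (F.ℓ i) →
        LinearMap.charpoly (ρbar.ρ φ) =
          X ^ 2 - C (θ i) * X + C ((F.ℓ i : ResidueField O))) :
    haveI := isLocalRing_An θ
    haveI := isLocalHom_An θ
    ∃ ρA : GaloisRepAdic (An θ), IsLevelRep θ p M Sn ρbar ρA :=
  level_rep_elim θ hp2 hpO hcℓ he hM hpM Sn hpS hMS hℓS hcov ρbar habs hdet hθ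
    (fun _ _ _ _ _ _ _ h4 => ⟨_, h4⟩)

end Rep

end Fermat.Agent.M43.LevelRep6
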