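/-
Programme M43 (target S43), chapter (6d) — helper6.
**(6d) for the top frame**: `LevelRep6.level_rep_elim` instantiated at a `LevelSetup5.Setup`.

`D : Setup p N0 S N n r` (`N = N0 ∏ qv`, `N0` squarefree, `S ⊇ primes(N0)`, `p ∈ S`, `p ∤ N0`),
`θ : heckeAlgebra N0 2 S →+* k` with the Frobenius characteristic polynomials of `ρbar`,
`F := D.frame`, `θ_F := LevelTop5.thetaF O θ D`.

* `Mn D := N ∏_{q ∈ Q} q` (`Q` = the bad primes and the Taylor–Wiles primes), `Sn D := S ∪ qv`;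
  `prime_dvd_Mn`, `hMS`, `not_dvd_Mn`, `two_dvd_Mn`, `hθF`;
* **`level_rep_setup`** : the datum `(θn, H, f)` of level `Mn D` above `An θ_F`, the representation
  `ρ := H.ρ ⊗ An θ_F` with `IsLevelRep θ_F p (Mn D) (Sn D) ρbar ρ` and the unipotence at the primes
  of `S` outside `{p} ∪ Z` in the literal form of `Iface2.HeckeLevel.hunip`.
-/
import Mathlib
import Fermat.Agent.M43.LevelRep6
import Fermat.Agent.M43.LevelTop5

set_option autoImplicit false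
set_option linter.unusedSectionVars false
set_option linter.style.haveILetI false

open IsLocalRing Polynomial CuspForm

noncomputable section

namespace Fermat.Agent.M43.LevelRepSetup6

open Fermat.Agent.M43.ChainGrp5 Fermat.Agent.M43.ChainMod5 Fermat.Agent.M43.ChainMain5
  Fermat.Agent.M43.ChainLevel5 Fermat.Agent.M43.AlgHecke5 Fermat.Agent.M43.LevelGrp5
  Fermat.Agent.M43.LevelSetup5 Fermat.Agent.M43.LevelTop5 Fermat.Agent.M43.DatumAlg3
  Fermat.Agent.M43.HeckePoly1 Fermat.Agent.M43.LevelRep6 Fermat.Agent.W56.Defs9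

local notation "Qb" => AlgebraicClosure ℚ
local notation "GQ" => (AlgebraicClosure ℚ ≃ₐ[ℚ] AlgebraicClosure ℚ)

/-! ### The level `Mn` and the exceptional set `Sn` -/

section Level

variable {p N0 : ℕ} {S : Finset ℕ} {N : ℕ} [NeZero N] {n r : ℕ} (D : Setup p N0 S N n r)

/-- the level of the datum above `An`. -/
def Mn : ℕ := N * ∏ q ∈ Finset.univ.image D.frame.c.ℓ, q

/-- the exceptional set of the datum above `An`. -/
def Sn : Finset ℕ := S ∪ Finset.univ.image D.qv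

theorem mem_image_chain {x : ℕ} :
    x ∈ Finset.univ.image D.frame.c.ℓ ↔ ∃ a, D.q a = x := by
  constructor
  · intro hx
    obtain ⟨i, _, rfl⟩ := Finset.mem_image.mp hx
    exact ⟨en _ r i, (D.chain_ℓ i).symm⟩
  · rintro ⟨a, rfl⟩
    refine Finset.mem_image.mpr ⟨(en _ r).symm a, Finset.mem_univ _, ?_⟩
    show D.q (en _ r ((en _ r).symm a)) = D.q a
    rw [Equiv.apply_symm_apply]

instance neZero_Mn : NeZero (Mn D) := ⟨by
  unfold Mn
  refine Nat.mul_ne_zero (NeZero.ne N) (Finset.prod_ne_zero_iff.mpr fun q hq => ?_)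
  obtain ⟨a, rfl⟩ := (mem_image_chain D).mp hq
  exact (D.q_prime a).ne_zero⟩

/-- the prime divisors of `Mn`. -/
theorem prime_dvd_Mn {q : ℕ} (hq : q.Prime) (h : q ∣ Mn D) : q ∣ N0 ∨ ∃ i, D.qv i = q := by
  unfold Mn at h
  rcases (Nat.Prime.dvd_mul hq).mp h with h | h
  · rw [D.hN] at h
    rcases (Nat.Prime.dvd_mul hq).mp h with h | h
    · exact Or.inl h
    · obtain ⟨i, _, hi⟩ := (Prime.dvd_finsetProd_iff (Nat.Prime.prime hq) _).mp h
      exact Or.inr ⟨i, ((Nat.prime_dvd_prime_iff_eq hq (D.qprime i)).mp hi).symm⟩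
  · obtain ⟨x, hx, hqx⟩ := (Prime.dvd_finsetProd_iff (Nat.Prime.prime hq) _).mp h
    obtain ⟨a, rfl⟩ := (mem_image_chain D).mp hx
    have hqa : q = D.q a := (Nat.prime_dvd_prime_iff_eq hq (D.q_prime a)).mp hqx
    rcases a with z | i
    · refine Or.inl ?_
      rw [hqa]
      exact Setup.z_dvd z
    · exact Or.inr ⟨i, hqa.symm⟩

theorem hMS (q : ℕ) (hq : q.Prime) (h : q ∣ Mn D) : q ∈ Sn D := by
  rcases prime_dvd_Mn D hq h with h | ⟨i, rfl⟩
  · exact Finset.mem_union_left _ (D.hNS q hq h)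
  · exact Finset.mem_union_right _ (Finset.mem_image_of_mem _ (Finset.mem_univ i))

theorem not_dvd_Mn (hpS : p ∈ S) (hpN0 : ¬ p ∣ N0) : ¬ p ∣ Mn D := by
  intro h
  rcases prime_dvd_Mn D D.hp h with h | ⟨i, hi⟩
  · exact hpN0 h
  · apply D.qS i
    rw [hi]
    exact hpS

theorem frame_ℓ_not_mem (i : D.frame.ι) : D.frame.ℓ i ∉ Sn D := by
  intro h
  rcases Finset.mem_union.mp h with h | h
  · exact i.2.2.1 h
  · obtain ⟨j, _, hj⟩ := Finset.mem_image.mp h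
    exact i.2.2.2 j hj

theorem frame_cov_Sn (ℓ' : ℕ) (hℓ' : ℓ'.Prime) (h : ℓ' ∉ Sn D) : ∃ i, D.frame.ℓ i = ℓ' :=
  ⟨⟨ℓ', hℓ', fun hS => h (Finset.mem_union_left _ hS), fun i hi =>
    h (Finset.mem_union_right _ (Finset.mem_image.mpr ⟨i, Finset.mem_univ i, hi⟩))⟩, rfl⟩

/-- the product of the chain primes is odd. -/
theorem coprime_two_prod : Nat.Coprime 2 (∏ q ∈ Finset.univ.image D.frame.c.ℓ, q) := by
  apply Nat.Coprime.prod_right
  intro x hx
  obtain ⟨a, rfl⟩ := (mem_image_chain D).mp hx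
  exact (Nat.coprime_primes Nat.prime_two (D.q_prime a)).mpr (D.q_ne_two a).symm

/-- `2 ∥ Mn` when `2 ∣ N0`. -/
theorem two_dvd_Mn (h2 : 2 ∣ N0) : 2 ∣ Mn D ∧ ¬ 2 ^ 2 ∣ Mn D := by
  constructor
  · unfold Mn
    refine Dvd.dvd.mul_right ?_ _
    rw [D.hN]
    exact Dvd.dvd.mul_right h2 _
  · intro h
    unfold Mn at h
    have h4 : 2 ^ 2 ∣ N :=
      Nat.Coprime.dvd_of_dvd_mul_right (Nat.Coprime.pow_left 2 (coprime_two_prod D)) h
    have h5 : (2 : ℕ) * 2 ∣ N := by rwa [← sq]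
    exact Nat.prime_two.prime.not_isUnit (D.squarefree_N 2 h5)

/-- the primes of `S` outside `{p} ∪ Z` are `≤ 2` and exactly divide `Mn`. -/
theorem dvd_Mn_of_mem [NeZero N0] (hSsub : ∀ q ∈ S, q.Prime → q ≠ p → q ∣ N0) {q : ℕ} (hqS : q ∈ S)
    (hq : q.Prime) (hqp : q ≠ p) (hqZ : q ∉ Zs N0) : q ∣ Mn D ∧ ¬ q ^ 2 ∣ Mn D := by
  have hqN0 : q ∣ N0 := hSsub q hqS hq hqp
  have hq2 : q = 2 := by
    by_contra hne
    exact hqZ (Finset.mem_erase.mpr ⟨hne, Nat.mem_primeFactors.mpr ⟨hq, hqN0, NeZero.ne N0⟩⟩)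
  subst hq2
  exact two_dvd_Mn D hqN0

end Level

/-! ### The datum and the representation -/

section Main

variable {p : ℕ} [hp : Fact p.Prime] {N0 : ℕ} [NeZero N0] {S : Finset ℕ}
  (O : Type) [CommRing O] [IsDomain O] [IsDiscreteValuationRing O]
  [IsAdicComplete (maximalIdeal O) O] [Finite (ResidueField O)] [CharZero O]
  [CharP (ResidueField O) p]
  (θ : heckeAlgebra N0 2 (↑S : Set ℕ) →+* ResidueField O)
  {N : ℕ} [NeZero N] {n r : ℕ} (D : Setup p N0 S N n r)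

/-- the residual eigensystem of the frame has the Frobenius characteristic polynomials. -/
theorem hθF (ρbar : ResidualGaloisRep (ResidueField O))
    (hθ : ∀ (ℓ : ℕ) (hℓ : ℓ.Prime) (hℓN : ¬ ℓ ∣ N0) (hℓS : ℓ ∉ (↑S : Set ℕ)),
      ∀ P : ValuationSubring Qb, P.LiesOverPrime ℓ → ∀ φ : GQ, P.IsFrobeniusAt φ ℓ →
        LinearMap.charpoly (ρbar.ρ φ) =
          X ^ 2 - C (θ (heckeAlgebra.T hℓ hℓN hℓS)) * X + C ((ℓ : ResidueField O)))
    (i : D.frame.ι) (P : ValuationSubring Qb) (hP : P.LiesOverPrime (D.frame.ℓ i)) (φ : GQ)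
    (hφ : P.IsFrobeniusAt φ (D.frame.ℓ i)) :
    LinearMap.charpoly (ρbar.ρ φ) =
      X ^ 2 - C (thetaF O θ D i) * X + C ((D.frame.ℓ i : ResidueField O)) := by
  have hℓ : (D.frame.ℓ i).Prime := D.frame.prime i
  have hℓS : D.frame.ℓ i ∉ (↑S : Set ℕ) := fun h => D.frame_ℓS i (Finset.mem_coe.1 h)
  have hℓN : ¬ D.frame.ℓ i ∣ N0 := fun h => D.frame_ℓS i (D.hNS _ hℓ h)
  have h1 : thetaF O θ D i = θ (heckeAlgebra.T hℓ hℓN hℓS) := tθ_eq N0 S O θ hℓ hℓN hℓS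
  rw [h1]
  exact hθ _ hℓ hℓN hℓS P hP φ hφ

/-- **(6d) for the top frame**, eliminator form. -/
theorem level_rep_setup (hpO : (p : O) ∈ maximalIdeal O) (hpS : p ∈ S) (hpN0 : ¬ p ∣ N0)
    (hSsub : ∀ q ∈ S, q.Prime → q ≠ p → q ∣ N0)
    (ρbar : ResidualGaloisRep (ResidueField O)) (habs : ρbar.IsAbsolutelyIrreducible)
    (hdet : (GaloisRepAdic.ofResidualGaloisRep ρbar).DetIsCyclotomic p)
    (hθ : ∀ (ℓ : ℕ) (hℓ : ℓ.Prime) (hℓN : ¬ ℓ ∣ N0) (hℓS : ℓ ∉ (↑S : Set ℕ)),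
      ∀ P : ValuationSubring Qb, P.LiesOverPrime ℓ → ∀ φ : GQ, P.IsFrobeniusAt φ ℓ →
        LinearMap.charpoly (ρbar.ρ φ) =
          X ^ 2 - C (θ (heckeAlgebra.T hℓ hℓN hℓS)) * X + C ((ℓ : ResidueField O)))
    [hnt : Nontrivial (Hn (thetaF O θ D))] :
    haveI := ChainLevel5.isLocalRing_An (thetaF O θ D)
    haveI := ChainLevel5.isLocalHom_An (thetaF O θ D)
    ∀ {P : Prop}, (∀ (θn : ↥(heckeAlgebra (Mn D) 2 (↑(Sn D) : Set ℕ)) →+* ResidueField O)
      (H : HeckeGaloisRepDatum (Mn D) (↑(Sn D) : Set ℕ) O θn (TLoc (Mn D) (Sn D) O θn))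
      (f : TLoc (Mn D) (Sn D) O θn →ₐ[O] An (thetaF O θ D))
      (hloc : IsLocalHom (f : TLoc (Mn D) (Sn D) O θn →+* An (thetaF O θ D))),
      Function.Surjective f → H.π = piT (Mn D) (Sn D) O θn →
      (∀ (i : D.frame.ι) (hℓM : ¬ D.frame.ℓ i ∣ Mn D) (hℓS' : D.frame.ℓ i ∉ (↑(Sn D) : Set ℕ)),
        f (H.π (heckeAlgebra.T (D.frame.prime i) hℓM hℓS')) =
          Ideal.Quotient.mk (annL O (Hk0 O D.frame) (HnMod (thetaF O θ D)))
            (MvPolynomial.X i)) →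
      IsLevelRep (thetaF O θ D) p (Mn D) (Sn D) ρbar
        (H.ρ.baseChangeAlong (f : TLoc (Mn D) (Sn D) O θn →+* An (thetaF O θ D)) hloc) →
      (∀ q ∈ S, q.Prime → q ≠ p → q ∉ Zs N0 →
        (H.ρ.baseChangeAlong (f : TLoc (Mn D) (Sn D) O θn →+* An (thetaF O θ D))
          hloc).IsUnipotentOnInertiaAt q) → P) → P := by
  haveI := ChainLevel5.isLocalRing_An (thetaF O θ D)
  haveI := ChainLevel5.isLocalHom_An (thetaF O θ D)
  intro P hP
  refine level_rep_elim (thetaF O θ D) D.hp2 hpO D.chain_ℓ_prime D.two_mul_frame_e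
    (M := Mn D) rfl (not_dvd_Mn D hpS hpN0) (Sn D) (Finset.mem_union_left _ hpS) (hMS D)
    (frame_ℓ_not_mem D) (frame_cov_Sn D) ρbar habs hdet (hθF O θ D ρbar hθ)
    (fun θn H f hloc h1 h2 h3 h4 => hP θn H f hloc h1 h2 h3 h4 ?_)
  intro q hqS hq hqp hqZ
  obtain ⟨h5, h6⟩ := dvd_Mn_of_mem D hSsub hqS hq hqp hqZ
  exact h4.hunip q hq hqp h5 h6

/-- the unit part is non-zero when its Hecke algebra is local. -/
theorem nontrivial_Hn_of_isLocalRing {F : Frame N} (θ' : F.ι → ResidueField O)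
    [IsLocalRing (An θ')] : Nontrivial (Hn θ') := by
  by_contra h
  rw [not_nontrivial_iff_subsingleton] at h
  haveI : Subsingleton (HnMod θ') := h
  have h1 : (1 : Hk0 O F) ∈ annL O (Hk0 O F) (HnMod θ') := by
    rw [mem_annL]
    intro y
    exact Subsingleton.elim _ _
  have h2 : (1 : An θ') = 0 := by
    rw [← map_one (Ideal.Quotient.mk (annL O (Hk0 O F) (HnMod θ')))]
    exact Ideal.Quotient.eq_zero_iff_mem.mpr h1
  exact one_ne_zero h2

/-- **(6d) for the top frame**, eliminator form, with the local ring instances of `An` as instance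
arguments (the shape of `LevelTop5.heckeLevel_of_rep` and `LevelFinal5.LevelInputsStmt`). -/
theorem level_rep_setup' (hpO : (p : O) ∈ maximalIdeal O) (hpS : p ∈ S) (hpN0 : ¬ p ∣ N0)
    (hSsub : ∀ q ∈ S, q.Prime → q ≠ p → q ∣ N0)
    (ρbar : ResidualGaloisRep (ResidueField O)) (habs : ρbar.IsAbsolutelyIrreducible)
    (hdet : (GaloisRepAdic.ofResidualGaloisRep ρbar).DetIsCyclotomic p)
    (hθ : ∀ (ℓ : ℕ) (hℓ : ℓ.Prime) (hℓN : ¬ ℓ ∣ N0) (hℓS : ℓ ∉ (↑S : Set ℕ)),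
      ∀ P : ValuationSubring Qb, P.LiesOverPrime ℓ → ∀ φ : GQ, P.IsFrobeniusAt φ ℓ →
        LinearMap.charpoly (ρbar.ρ φ) =
          X ^ 2 - C (θ (heckeAlgebra.T hℓ hℓN hℓS)) * X + C ((ℓ : ResidueField O)))
    [IsLocalRing (An (thetaF O θ D))] [IsLocalHom (algebraMap O (An (thetaF O θ D)))] :
    ∀ {P : Prop}, (∀ (θn : ↥(heckeAlgebra (Mn D) 2 (↑(Sn D) : Set ℕ)) →+* ResidueField O)
      (H : HeckeGaloisRepDatum (Mn D) (↑(Sn D) : Set ℕ) O θn (TLoc (Mn D) (Sn D) O θn))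
      (f : TLoc (Mn D) (Sn D) O θn →ₐ[O] An (thetaF O θ D))
      (hloc : IsLocalHom (f : TLoc (Mn D) (Sn D) O θn →+* An (thetaF O θ D))),
      Function.Surjective f → H.π = piT (Mn D) (Sn D) O θn →
      (∀ (i : D.frame.ι) (hℓM : ¬ D.frame.ℓ i ∣ Mn D) (hℓS' : D.frame.ℓ i ∉ (↑(Sn D) : Set ℕ)),
        f (H.π (heckeAlgebra.T (D.frame.prime i) hℓM hℓS')) =
          Ideal.Quotient.mk (annL O (Hk0 O D.frame) (HnMod (thetaF O θ D)))
            (MvPolynomial.X i)) →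
      IsLevelRep (thetaF O θ D) p (Mn D) (Sn D) ρbar
        (H.ρ.baseChangeAlong (f : TLoc (Mn D) (Sn D) O θn →+* An (thetaF O θ D)) hloc) →
      (∀ q ∈ S, q.Prime → q ≠ p → q ∉ Zs N0 →
        (H.ρ.baseChangeAlong (f : TLoc (Mn D) (Sn D) O θn →+* An (thetaF O θ D))
          hloc).IsUnipotentOnInertiaAt q) → P) → P := by
  haveI := nontrivial_Hn_of_isLocalRing O (thetaF O θ D)
  intro P hP
  exact level_rep_setup O θ D hpO hpS hpN0 hSsub ρbar habs hdet hθ hP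

end Main

end Fermat.Agent.M43.LevelRepSetup6
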