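/-
M43 (helper9) [LG-q / S1-G abstract] MixNorm9: **norm descent of a mixed second-difference relation
along a Galois covering.**

`φ : F →ₐ[K] F₁` with `F₁^Γ = φ(F)` (`Γ` a finite group of `K`-automorphisms of `F₁`);
`g, g'` semilinear automorphisms of `F`, `G, G'` of `F₁`, compatible with `φ`.
If `(g' − 1)(g − 1) = 0` on `Pic⁰(F)[m]`, then `|Γ| • (G' − 1)(G − 1) x = 0` for every
`Γ`-invariant `x ∈ Pic⁰(F₁)[m]`.

* `exists_torsion_pullback_eq_sum` : the `Γ`-trace of an `m`-torsion class is the pull-back of an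
  `m`-torsion class (`z = φ_* x`; refinement of `GalNormId4.exists_pullback_eq_sum`);
* `norm_descent_mixed`.
-/
import Mathlib
import Fermat.Agent.M43.GalNormId4
import Fermat.Agent.ES.RED.PullbackInj12

set_option autoImplicit false
set_option linter.unusedSectionVars false

noncomputable section

open AlgebraicCurve

namespace Fermat.Agent.M43.MixNorm9

open Fermat.Agent.ES.HECKE.LevelPullback12 Fermat.Agent.M43.GalNormId4
  Fermat.Agent.ES.RED.PullbackInj12

variable {K F F₁ : Type*} [Field K] [Field F] [Field F₁] [Algebra K F] [Algebra K F₁]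
  [HasPrincipalDivisors K F₁]

/-- the `Γ`-trace of an `m`-torsion class is the pull-back of an `m`-torsion class. -/
theorem exists_torsion_pullback_eq_sum (φ : F →ₐ[K] F₁) (hφ : φ.toRingHom.IsIntegral)
    (hFI : FundamentalIdentityAlong K φ hφ)
    (hfin : FiniteAlong K φ) (hN : NormFormulaAlong K φ hfin)
    (Γ : Subgroup (F₁ ≃ₐ[K] F₁)) [Fintype Γ]
    (hφΓ : ∀ g ∈ Γ, ∀ a : F, g (φ a) = φ a)
    (hfix : ∀ f : F₁, (∀ g ∈ Γ, g f = f) → f ∈ φ.range) (m : ℕ) (x : Pic0 K F₁)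
    (hx : m • x = 0) :
    ∃ z : Pic0 K F, m • z = 0 ∧
      ∑ g : Γ, SemilinearAut.ofAlgAut (g : F₁ ≃ₐ[K] F₁) • x = pic0PullbackAlong φ hφ hFI z := by
  classical
  obtain ⟨D', rfl⟩ := Pic0.mk_surjective x
  refine ⟨Pic0.mk ⟨Divisor.pushforwardAlong φ hφ (D' : Divisor K F₁),
    Divisor.pushforwardAlong_mem_degZero φ hφ D'.2⟩, ?_, ?_⟩
  · -- torsion
    have h1 : Pic0.mk (m • D') = 0 := by rw [← hx]; rfl
    have h2 := (QuotientAddGroup.eq_zero_iff _).mp h1
    rw [AddSubgroup.mem_addSubgroupOf] at h2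
    have h3 : (m • (D' : Divisor K F₁)).IsPrincipal :=
      Divisor.mem_principal.mp (by simpa using h2)
    have h4 := Divisor.isPrincipal_pushforwardAlong φ hφ hfin hN h3
    rw [map_nsmul] at h4
    have h5 : m • Pic0.mk (⟨Divisor.pushforwardAlong φ hφ (D' : Divisor K F₁),
        Divisor.pushforwardAlong_mem_degZero φ hφ D'.2⟩ :
          Divisor.degZero (K := K) (F := F)) =
        Pic0.mk (m • (⟨Divisor.pushforwardAlong φ hφ (D' : Divisor K F₁),
          Divisor.pushforwardAlong_mem_degZero φ hφ D'.2⟩ :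
            Divisor.degZero (K := K) (F := F))) := rfl
    rw [h5]
    refine (QuotientAddGroup.eq_zero_iff _).mpr ?_
    rw [AddSubgroup.mem_addSubgroupOf]
    have h6 := Divisor.mem_principal.mpr h4
    simpa using h6
  · rw [pic0PullbackAlong_mk]
    have h1 : ∀ g : Γ, SemilinearAut.ofAlgAut (g : F₁ ≃ₐ[K] F₁) • Pic0.mk D' =
        Pic0.mk (SemilinearAut.degZeroSMulHom (SemilinearAut.ofAlgAut (g : F₁ ≃ₐ[K] F₁)) D') :=
      fun g => SemilinearAut.pic0_smul_mk _ D'
    rw [Finset.sum_congr rfl (fun g _ => h1 g)]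
    have h2 : ∀ (s : Finset Γ), ∑ g ∈ s, Pic0.mk
          (SemilinearAut.degZeroSMulHom (SemilinearAut.ofAlgAut (g : F₁ ≃ₐ[K] F₁)) D') =
        Pic0.mk (∑ g ∈ s,
          SemilinearAut.degZeroSMulHom (SemilinearAut.ofAlgAut (g : F₁ ≃ₐ[K] F₁)) D') := by
      intro s
      induction s using Finset.induction_on with
      | empty => rfl
      | insert a s ha ih => rw [Finset.sum_insert ha, Finset.sum_insert ha, ih, Pic0.mk_add]
    rw [h2]
    congr 1
    apply Subtype.ext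
    rw [AddSubmonoidClass.coe_finsetSum]
    simp only [SemilinearAut.coe_degZeroSMulHom]
    exact (pullback_pushforward_eq_sum φ hφ hfin hN Γ hφΓ hfix (D' : Divisor K F₁)).symm

/-- **Norm descent of the mixed relation.** -/
theorem norm_descent_mixed (φ : F →ₐ[K] F₁) (hφ : φ.toRingHom.IsIntegral)
    (hFI : FundamentalIdentityAlong K φ hφ)
    (hfin : FiniteAlong K φ) (hN : NormFormulaAlong K φ hfin)
    (Γ : Subgroup (F₁ ≃ₐ[K] F₁)) [Fintype Γ]
    (hφΓ : ∀ g ∈ Γ, ∀ a : F, g (φ a) = φ a)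
    (hfix : ∀ f : F₁, (∀ g ∈ Γ, g f = f) → f ∈ φ.range)
    (g g' : SemilinearAut K F) (G G' : SemilinearAut K F₁)
    (hg : ∀ f : F, φ (g • f) = G • φ f) (hg' : ∀ f : F, φ (g' • f) = G' • φ f) (m : ℕ)
    (hspine : ∀ z : Pic0 K F, m • z = 0 → g' • g • z + z = g • z + g' • z)
    (x : Pic0 K F₁) (hx : m • x = 0)
    (hinv : ∀ γ ∈ Γ, SemilinearAut.ofAlgAut (γ : F₁ ≃ₐ[K] F₁) • x = x) :
    Fintype.card Γ • (G' • G • x + x) = Fintype.card Γ • (G • x + G' • x) := by
  obtain ⟨z, hz, hsum⟩ := exists_torsion_pullback_eq_sum φ hφ hFI hfin hN Γ hφΓ hfix m x hx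
  have hcard : ∑ g : Γ, SemilinearAut.ofAlgAut (g : F₁ ≃ₐ[K] F₁) • x = Fintype.card Γ • x := by
    rw [Finset.sum_congr rfl (fun g _ => hinv g.1 g.2), Finset.sum_const, Finset.card_univ]
  rw [hcard] at hsum
  have h1 := congrArg (pic0PullbackAlong φ hφ hFI) (hspine z hz)
  rw [map_add, map_add, pic0PullbackAlong_smul φ hφ g' G' hFI hg',
    pic0PullbackAlong_smul φ hφ g G hFI hg, pic0PullbackAlong_smul φ hφ g' G' hFI hg', ← hsum] at h1
  have hn : ∀ (γ : SemilinearAut K F₁) (y : Pic0 K F₁) (n : ℕ), γ • (n • y) = n • (γ • y) :=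
    fun γ y n => map_nsmul (DistribSMul.toAddMonoidHom (Pic0 K F₁) γ) n y
  rw [hn, hn, hn] at h1
  rw [nsmul_add, nsmul_add]
  exact h1

end Fermat.Agent.M43.MixNorm9
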