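/-
Programme M43 (target S43), chapter (LG-q), block [S1-D] node half, the BRIDGE (helper7), file 1:
**every closed point of a normal finite level of the nodal model which lies on both components is
the restriction of a two-branch point of the chart over `A`** — abstract form, T33 vocabulary.

`C : NodalPlaces1.Chart c₁ c₂` a chart of the model over the valuation ring `A ⊂ K` (`K = ℚbar` in
the application), `B₀ ≤ C.B` an integrally closed subring (the base change of the chart of a finite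
level `A ∩ K₀`), `𝔪₀` a maximal ideal of `B₀` containing the two vertical primes
`{b ∈ B₀ | ρ_j b = 0}`.

* `hasGoingDown_of_integral_loc` : going-down for `R ⊂ S` when `R` is integrally closed and `S` is a
  localisation of an integral extension of `R` (Mathlib's going-down for integrally closed domains
  + flatness of localisations);
* `on₂_of_goingDown` : a point `χ` of `C` whose restriction to `B₀` kills the second vertical prime
  of `B₀` lies on the second component (`C.On₂ χ`) — going-down + the saturation `C.sat`;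
* `exists_pt_on₁` : lying-over on the special fibre: a point `χ` of `C` on the first component
  with `ker χ ∩ B₀ = 𝔪₀` (the coordinate ring of the first component over `A` is integral over
  that of the finite level; the residue field `κ` of `A` is algebraically closed);
* `exists_clear_integral` : clearing denominators (`A` is a localisation of a ring integral over
  `B₀`);
* **`exists_pt_of_twoBranch`** : the two-branch point `χ` of `C` over `𝔪₀`.
-/
import Mathlib
import Fermat.Agent.T33.NodalPlaces1B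

set_option autoImplicit false
set_option linter.style.haveILetI false
set_option linter.unusedSectionVars false

open AlgebraicCurve IsLocalRing Polynomial

noncomputable section

namespace Fermat.Agent.M43.NodeBridge7

open Fermat.Agent.T33.NodalCtx1 Fermat.Agent.T33.NodalPlaces1

section GoingDown

variable {R S : Type*} [CommRing R] [CommRing S] [IsDomain S] [Algebra R S]
  [FaithfulSMul R S] [IsIntegrallyClosed R]

/-- **going-down for a localisation of an integral extension of an integrally closed domain.** -/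
theorem hasGoingDown_of_integral_loc
    (hloc : ∀ b : S, ∃ s : S, IsUnit s ∧ IsIntegral R s ∧ IsIntegral R (s * b)) :
    Algebra.HasGoingDown R S := by
  classical
  set T : Subalgebra R S := integralClosure R S with hT
  have hinjRS : Function.Injective (algebraMap R S) := FaithfulSMul.algebraMap_injective R S
  haveI : FaithfulSMul R T := by
    rw [faithfulSMul_iff_algebraMap_injective]
    intro x y hxy
    apply hinjRS
    have := congrArg (fun z : T => (z : S)) hxy
    exact this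
  haveI : Algebra.IsIntegral R T := inferInstance
  haveI h1 : Algebra.HasGoingDown R T := inferInstance
  let M : Submonoid T := (IsUnit.submonoid S).comap (algebraMap T S)
  haveI hL : IsLocalization M S := by
    rw [isLocalization_iff]
    refine ⟨?_, ?_, ?_⟩
    · rintro ⟨y, hy⟩
      exact hy
    · intro z
      obtain ⟨s, hs, hsi, hszi⟩ := hloc z
      refine ⟨(⟨s * z, hszi⟩, ⟨⟨s, hsi⟩, hs⟩), ?_⟩
      show z * s = s * z
      ring
    · intro x y hxy
      refine ⟨1, ?_⟩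
      have : x = y := Subtype.ext hxy
      rw [this]
  haveI : Module.Flat T S := IsLocalization.flat S M
  haveI h2 : Algebra.HasGoingDown T S := inferInstance
  exact Algebra.HasGoingDown.trans R T S

end GoingDown

section Field

variable {κ L : Type*} [Field κ] [IsAlgClosed κ] [CommRing L] [IsDomain L] [Algebra κ L]

/-- a field which is integral over `κ[τ]` is integral over the algebraically closed `κ`. -/
theorem isIntegral_of_aeval_isIntegral (hL : (⊥ : Ideal L).IsMaximal) (τ : L)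
    (hint : ((aeval τ : κ[X] →ₐ[κ] L) : κ[X] →+* L).IsIntegral) : Algebra.IsIntegral κ L := by
  classical
  set ev : κ[X] →+* L := ((aeval τ : κ[X] →ₐ[κ] L) : κ[X] →+* L) with hev
  -- `τ` is algebraic
  have hmax : ((⊥ : Ideal L).comap ev).IsMaximal :=
    Ideal.isMaximal_comap_of_isIntegral_of_isMaximal' ev hint ⊥
  have hg : ∃ g : κ[X], g ≠ 0 ∧ ev g = 0 := by
    by_contra hno
    push Not at hno
    have hX : (X : κ[X]) ∉ (⊥ : Ideal L).comap ev := by
      intro h
      rw [Ideal.mem_comap, Ideal.mem_bot] at h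
      exact hno X X_ne_zero h
    obtain ⟨y, i, hi, hyi⟩ := hmax.exists_inv hX
    rw [Ideal.mem_comap, Ideal.mem_bot] at hi
    have hi0 : i = 0 := by
      by_contra h0
      exact hno i h0 hi
    rw [hi0, add_zero] at hyi
    have : IsUnit (X : κ[X]) := IsUnit.of_mul_eq_one y (by rw [mul_comm]; exact hyi)
    exact not_isUnit_X this
  obtain ⟨g, hg0, hgτ⟩ := hg
  have hτint : IsIntegral κ τ := by
    apply IsAlgebraic.isIntegral
    exact ⟨g, hg0, hgτ⟩
  have hτ : τ ∈ (algebraMap κ L).range :=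
    minpoly.mem_range_of_degree_eq_one κ τ
      (IsAlgClosed.degree_eq_one_of_irreducible κ (minpoly.irreducible hτint))
  obtain ⟨c, hc⟩ := hτ
  have hevc : ev = (algebraMap κ L).comp (evalRingHom c) := by
    apply RingHom.ext
    intro p
    show aeval τ p = algebraMap κ L (p.eval c)
    rw [← hc, aeval_algebraMap_apply]
    rfl
  constructor
  intro l
  obtain ⟨p, hp, hpl⟩ := hint l
  refine ⟨p.map (evalRingHom c), hp.map _, ?_⟩
  rw [eval₂_map, ← hevc]
  exact hpl

end Field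

section Clear

variable {K : Type*} [Field K] {A : ValuationSubring K}
variable {F : Type*} [Field F] [Algebra K F]

/-- the constants of `A`, in `F`. -/
def cst (a : A) : F := algebraMap K F (a : K)

theorem cst_mul (a b : A) : (cst (a * b) : F) = cst a * cst b := by
  unfold cst
  rw [← map_mul]
  rfl

theorem cst_one : (cst (1 : A) : F) = 1 := by
  unfold cst
  rw [← map_one (algebraMap K F)]
  rfl

/-- the subring `A[t₀]` of `F`. -/
def ringAt (A : ValuationSubring K) (t₀ : F) : Subring F :=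
  Subring.closure (Set.range (cst : A → F) ∪ {t₀})

variable (B₀ : Subring F)

/-- clearing the denominators of one element of `A[t₀]`. -/
theorem exists_clear (t₀ : F) (ht₀ : t₀ ∈ B₀)
    (hA : ∀ a : A, ∃ s : A, s ∉ maximalIdeal A ∧ IsIntegral B₀ (cst s : F) ∧
      IsIntegral B₀ (cst (s * a) : F))
    (z : F) (hz : z ∈ ringAt A t₀) :
    ∃ s : A, s ∉ maximalIdeal A ∧ IsIntegral B₀ (cst s : F) ∧ IsIntegral B₀ (cst s * z) := by
  have h1 : ∃ s : A, s ∉ maximalIdeal A ∧ IsIntegral B₀ (cst s : F) ∧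
      IsIntegral B₀ (cst s * (1 : F)) := by
    refine ⟨1, ?_, ?_, ?_⟩
    · intro h
      exact (Ideal.ne_top_iff_one _).1 (maximalIdeal.isMaximal A).ne_top h
    · rw [cst_one]; exact isIntegral_one
    · rw [cst_one, one_mul]; exact isIntegral_one
  have hprod : ∀ s₁ s₂ : A, s₁ ∉ maximalIdeal A → s₂ ∉ maximalIdeal A →
      s₁ * s₂ ∉ maximalIdeal A := by
    intro s₁ s₂ h₁ h₂ h
    rcases (maximalIdeal.isMaximal A).isPrime.mem_or_mem h with h | h
    · exact h₁ h
    · exact h₂ h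
  unfold ringAt at hz
  induction hz using Subring.closure_induction with
  | mem x hx =>
    rcases hx with ⟨a, rfl⟩ | hx
    · obtain ⟨s, hs, hsi, hsa⟩ := hA a
      exact ⟨s, hs, hsi, by rw [← cst_mul]; exact hsa⟩
    · rw [Set.mem_singleton_iff] at hx
      obtain ⟨s, hs, hsi, -⟩ := h1
      refine ⟨s, hs, hsi, hsi.mul ?_⟩
      rw [hx]
      exact isIntegral_algebraMap (x := (⟨t₀, ht₀⟩ : B₀))
  | zero =>
    obtain ⟨s, hs, hsi, -⟩ := h1
    exact ⟨s, hs, hsi, by rw [mul_zero]; exact isIntegral_zero⟩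
  | one => exact h1
  | add x y _ _ hx hy =>
    obtain ⟨s₁, hs₁, hi₁, hx₁⟩ := hx
    obtain ⟨s₂, hs₂, hi₂, hy₂⟩ := hy
    refine ⟨s₁ * s₂, hprod s₁ s₂ hs₁ hs₂, by rw [cst_mul]; exact hi₁.mul hi₂, ?_⟩
    have : (cst (s₁ * s₂) : F) * (x + y) = cst s₂ * (cst s₁ * x) + cst s₁ * (cst s₂ * y) := by
      rw [cst_mul]; ring
    rw [this]
    exact (hi₂.mul hx₁).add (hi₁.mul hy₂)
  | neg x _ hx =>
    obtain ⟨s, hs, hi, hx'⟩ := hx
    exact ⟨s, hs, hi, by rw [mul_neg]; exact hx'.neg⟩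
  | mul x y _ _ hx hy =>
    obtain ⟨s₁, hs₁, hi₁, hx₁⟩ := hx
    obtain ⟨s₂, hs₂, hi₂, hy₂⟩ := hy
    refine ⟨s₁ * s₂, hprod s₁ s₂ hs₁ hs₂, by rw [cst_mul]; exact hi₁.mul hi₂, ?_⟩
    have : (cst (s₁ * s₂) : F) * (x * y) = (cst s₁ * x) * (cst s₂ * y) := by
      rw [cst_mul]; ring
    rw [this]
    exact hx₁.mul hy₂

/-- clearing the denominators of finitely many elements of `A[t₀]`. -/
theorem exists_clear_fin (t₀ : F) (ht₀ : t₀ ∈ B₀)
    (hA : ∀ a : A, ∃ s : A, s ∉ maximalIdeal A ∧ IsIntegral B₀ (cst s : F) ∧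
      IsIntegral B₀ (cst (s * a) : F))
    (f : ℕ → F) (n : ℕ) (hf : ∀ i < n, f i ∈ ringAt A t₀) :
    ∃ s : A, s ∉ maximalIdeal A ∧ IsIntegral B₀ (cst s : F) ∧
      ∀ i < n, IsIntegral B₀ (cst s * f i) := by
  induction n with
  | zero =>
    obtain ⟨s, hs, hi, -⟩ := exists_clear B₀ t₀ ht₀ hA 1 (Subring.one_mem _)
    exact ⟨s, hs, hi, fun i hi => absurd hi (Nat.not_lt_zero i)⟩
  | succ n ih =>
    obtain ⟨s₁, hs₁, hi₁, h₁⟩ := ih fun i hi => hf i (Nat.lt_succ_of_lt hi)
    obtain ⟨s₂, hs₂, hi₂, h₂⟩ := exists_clear B₀ t₀ ht₀ hA (f n) (hf n (Nat.lt_succ_self n))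
    refine ⟨s₁ * s₂, ?_, by rw [cst_mul]; exact hi₁.mul hi₂, ?_⟩
    · intro h
      rcases (maximalIdeal.isMaximal A).isPrime.mem_or_mem h with h | h
      · exact hs₁ h
      · exact hs₂ h
    · intro i hi
      rcases Nat.lt_succ_iff_lt_or_eq.1 hi with hi | rfl
      · have : (cst (s₁ * s₂) : F) * f i = cst s₂ * (cst s₁ * f i) := by rw [cst_mul]; ring
        rw [this]
        exact hi₂.mul (h₁ i hi)
      · have : (cst (s₁ * s₂) : F) * f i = cst s₁ * (cst s₂ * f i) := by rw [cst_mul]; ring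
        rw [this]
        exact hi₁.mul h₂

/-- a root of a monic polynomial with integral coefficients is integral. -/
theorem isIntegral_of_coeff_isIntegral (Q : F[X]) (hQ : Q.Monic) (x : F) (hx : Q.eval x = 0)
    (hc : ∀ i, IsIntegral B₀ (Q.coeff i)) : IsIntegral B₀ x := by
  let IC : Subalgebra B₀ F := integralClosure B₀ F
  let T : Subring F := IC.toSubring
  have hcoef : (Q.coeffs : Set F) ⊆ T := by
    intro y hy
    rw [Finset.mem_coe, mem_coeffs_iff] at hy
    obtain ⟨i, -, rfl⟩ := hy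
    exact hc i
  have h1 : IsIntegral T x := by
    refine ⟨Q.toSubring T hcoef, (Q.monic_toSubring T hcoef).2 hQ, ?_⟩
    show eval₂ T.subtype x (Q.toSubring T hcoef) = 0
    rw [eval₂_eq_eval_map, map_toSubring]
    exact hx
  let ψ : T →+* IC :=
    { toFun := fun z => ⟨(z : F), z.2⟩
      map_one' := rfl
      map_mul' := fun _ _ => rfl
      map_zero' := rfl
      map_add' := fun _ _ => rfl }
  have h2 : IsIntegral IC x :=
    IsIntegral.map_of_comp_eq (R := T) (S := F) (T := IC) (U := F) ψ (RingHom.id F) (by rfl) h1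
  exact isIntegral_trans (R := B₀) (A := IC) x h2

/-- clearing the denominator of an element integral over `A[t₀]`. -/
theorem exists_clear_integral (t₀ : F) (ht₀ : t₀ ∈ B₀)
    (hA : ∀ a : A, ∃ s : A, s ∉ maximalIdeal A ∧ IsIntegral B₀ (cst s : F) ∧
      IsIntegral B₀ (cst (s * a) : F))
    (b : F) (hb : IsIntegral (ringAt A t₀) b) :
    ∃ s : A, s ∉ maximalIdeal A ∧ IsIntegral B₀ (cst s : F) ∧ IsIntegral B₀ (cst s * b) := by
  obtain ⟨p, hp, hpb⟩ := hb
  obtain ⟨s, hs, hsi, hsc⟩ := exists_clear_fin B₀ t₀ ht₀ hA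
    (fun i => ((p.coeff i : ringAt A t₀) : F)) p.natDegree fun i _ => (p.coeff i).2
  refine ⟨s, hs, hsi, ?_⟩
  have hsR : (cst s : F) ∈ ringAt A t₀ := Subring.subset_closure (Or.inl ⟨s, rfl⟩)
  set r : ringAt A t₀ := ⟨cst s, hsR⟩ with hr
  have h1 : eval₂ (algebraMap (ringAt A t₀) F) (algebraMap (ringAt A t₀) F r * b)
      (scaleRoots p r) = 0 := scaleRoots_eval₂_eq_zero _ hpb
  have hmon : (scaleRoots p r).Monic := (monic_scaleRoots_iff r).2 hp
  apply isIntegral_of_coeff_isIntegral B₀ ((scaleRoots p r).map (algebraMap (ringAt A t₀) F))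
    (hmon.map _) (cst s * b)
  · rw [eval_map]
    exact h1
  · intro i
    rw [coeff_map, coeff_scaleRoots]
    show IsIntegral B₀ ((((p.coeff i * r ^ (p.natDegree - i) : ringAt A t₀)) : F))
    rcases lt_trichotomy i p.natDegree with hi | hi | hi
    · obtain ⟨m, hm⟩ : ∃ m : ℕ, p.natDegree - i = m + 1 := ⟨p.natDegree - i - 1, by omega⟩
      have e : (((p.coeff i * r ^ (p.natDegree - i) : ringAt A t₀)) : F) =
          (cst s * ((p.coeff i : ringAt A t₀) : F)) * (cst s : F) ^ m := by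
        rw [hm]
        push_cast
        rw [hr]
        show ((p.coeff i : ringAt A t₀) : F) * (cst s : F) ^ (m + 1) = _
        rw [pow_succ]
        ring
      rw [e]
      exact (hsc i hi).mul (hsi.pow _)
    · rw [hi, Nat.sub_self, pow_zero, mul_one]
      have : p.coeff p.natDegree = 1 := hp.coeff_natDegree
      rw [this]
      exact isIntegral_one
    · rw [coeff_eq_zero_of_natDegree_lt hi, zero_mul]
      exact isIntegral_zero

end Clear

section On2

variable {K : Type*} [Field K] {A : ValuationSubring K}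
variable {F : Type*} [Field F] [Algebra K F]
variable {Fb₁ Fb₂ : Type*} [Field Fb₁] [Field Fb₂]
  [Algebra (ResidueField A) Fb₁] [Algebra (ResidueField A) Fb₂]
variable {c₁ : HalfRed A F Fb₁} {c₂ : HalfRed A F Fb₂} (C : Chart c₁ c₂)

/-- the reduction of a constant of `𝔪_A` on the second component vanishes. -/
theorem ρ₂_const_eq_zero {c : A} (hc : c ∈ maximalIdeal A) : C.ρ₂ (C.const c) = 0 := by
  show c₂.ρ ⟨algebraMap K F (c : K), _⟩ = 0
  rw [c₂.ρ_algebraMap, (IsLocalRing.residue_eq_zero_iff c).2 hc, map_zero]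

theorem ρ₁_const_eq_zero {c : A} (hc : c ∈ maximalIdeal A) : C.ρ₁ (C.const c) = 0 := by
  show c₁.ρ ⟨algebraMap K F (c : K), _⟩ = 0
  rw [c₁.ρ_algebraMap, (IsLocalRing.residue_eq_zero_iff c).2 hc, map_zero]

/-- **a point of the chart over `A` lying over a point of the second component of a normal
finite level lies on the second component** (going-down). -/
theorem on₂_of_goingDown (B₀ : Subring F) (hle : B₀ ≤ C.B) [IsIntegrallyClosed B₀]
    (hloc : ∀ b : C.B, ∃ s : C.B, IsUnit s ∧ (Subring.inclusion hle).IsIntegralElem s ∧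
      (Subring.inclusion hle).IsIntegralElem (s * b))
    (π : A) (hπ : π ∈ maximalIdeal A) (hπB : algebraMap K F (π : K) ∈ B₀)
    (harch : ∀ c : A, c ∈ maximalIdeal A → ∃ (m : ℕ) (a : A), c ^ m = π * a)
    (hne : ∃ (b₁ : F) (hb₁ : b₁ ∈ B₀), C.ρ₁ ⟨b₁, hle hb₁⟩ = 0 ∧ C.ρ₂ ⟨b₁, hle hb₁⟩ ≠ 0)
    (χ : C.Pt) (h2 : ∀ (b : F) (hb : b ∈ B₀), C.ρ₂ ⟨b, hle hb⟩ = 0 → χ ⟨b, hle hb⟩ = 0) :
    C.On₂ χ := by
  classical
  letI : Algebra B₀ C.B := (Subring.inclusion hle).toAlgebra
  have hinj : Function.Injective (algebraMap B₀ C.B) := Subring.inclusion_injective hle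
  haveI : FaithfulSMul B₀ C.B := (faithfulSMul_iff_algebraMap_injective _ _).2 hinj
  haveI hGD : Algebra.HasGoingDown B₀ C.B := hasGoingDown_of_integral_loc hloc
  -- the primes
  let 𝔭 : Ideal B₀ := RingHom.ker (C.ρ₂.comp (Subring.inclusion hle))
  haveI h𝔭 : 𝔭.IsPrime := RingHom.ker_isPrime _
  let 𝔐 : Ideal C.B := RingHom.ker χ.1
  haveI h𝔐 : 𝔐.IsPrime := RingHom.ker_isPrime _
  have hle' : 𝔭 ≤ 𝔐.under B₀ := by
    intro b hb
    rw [Ideal.mem_comap, RingHom.mem_ker]
    exact h2 (b : F) b.2 hb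
  obtain ⟨𝔮, h𝔮le, h𝔮p, h𝔮o⟩ := Ideal.exists_ideal_le_liesOver_of_le (p := 𝔭) (q := 𝔐.under B₀) 𝔐 hle'
  have hover : ∀ b : B₀, algebraMap B₀ C.B b ∈ 𝔮 ↔ b ∈ 𝔭 := by
    intro b
    rw [h𝔮o.over]
    rfl
  -- constants of `𝔪_A` lie in `𝔮`
  have hπ𝔮 : C.const π ∈ 𝔮 := by
    have h1 : (⟨algebraMap K F (π : K), hπB⟩ : B₀) ∈ 𝔭 := by
      show C.ρ₂ (C.const π) = 0
      exact ρ₂_const_eq_zero C hπ
    exact (hover _).2 h1
  have hc𝔮 : ∀ c : A, c ∈ maximalIdeal A → C.const c ∈ 𝔮 := by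
    intro c hc
    obtain ⟨m, a, hma⟩ := harch c hc
    have h1 : C.const c ^ m = C.const π * C.const a := by
      apply Subtype.ext
      show algebraMap K F (c : K) ^ m = algebraMap K F (π : K) * algebraMap K F (a : K)
      rw [← map_pow, ← map_mul]
      congr 1
      have := congrArg (fun z : A => (z : K)) hma
      simpa using this
    have h2 : C.const c ^ m ∈ 𝔮 := by
      rw [h1]
      exact 𝔮.mul_mem_right _ hπ𝔮
    exact h𝔮p.mem_of_pow_mem m h2
  -- the argument
  by_contra hno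
  unfold Chart.On₂ at hno
  push Not at hno
  obtain ⟨e₂, he₂, hχe₂⟩ := hno
  have he₂𝔮 : e₂ ∉ 𝔮 := fun h => hχe₂ ((RingHom.mem_ker).1 (h𝔮le h))
  obtain ⟨b₁, hb₁, hρ₁, hρ₂⟩ := hne
  set b₁' : C.B := ⟨b₁, hle hb₁⟩ with hb₁'
  have e1 : C.ρ₁ (b₁' * e₂) = 0 := by rw [map_mul, hρ₁, zero_mul]
  have e2 : C.ρ₂ (b₁' * e₂) = 0 := by rw [map_mul, he₂, mul_zero]
  obtain ⟨c, hc, b', hb', hbb⟩ := C.sat ((b₁' * e₂ : C.B) : F) (b₁' * e₂).2 e1 e2
  have h3 : b₁' * e₂ = C.const c * ⟨b', hb'⟩ := Subtype.ext hbb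
  have h4 : b₁' * e₂ ∈ 𝔮 := by
    rw [h3]
    exact 𝔮.mul_mem_right _ (hc𝔮 c hc)
  have h5 : b₁' ∈ 𝔮 := (h𝔮p.mem_or_mem h4).resolve_right he₂𝔮
  have h6 : (⟨b₁, hb₁⟩ : B₀) ∈ 𝔭 := (hover ⟨b₁, hb₁⟩).1 h5
  exact hρ₂ h6

end On2

section Pt1

variable {K : Type*} [Field K] {A : ValuationSubring K}
variable {F : Type*} [Field F] [Algebra K F]
variable {Fb₁ Fb₂ : Type*} [Field Fb₁] [Field Fb₂]
  [Algebra (ResidueField A) Fb₁] [Algebra (ResidueField A) Fb₂]
variable {c₁ : HalfRed A F Fb₁} {c₂ : HalfRed A F Fb₂} (C : Chart c₁ c₂)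

/-- the coordinate ring of the first component in the chart, as a `κ`-subalgebra of `Fb₁`. -/
def range₁ : Subalgebra (ResidueField A) Fb₁ :=
  { C.ρ₁.range.toSubsemiring with
    algebraMap_mem' := fun c => by
      obtain ⟨a, rfl⟩ := IsLocalRing.residue_surjective c
      exact ⟨C.const a, c₁.ρ_algebraMap a⟩ }

theorem mem_range₁ (z : Fb₁) : z ∈ range₁ C ↔ ∃ b : C.B, C.ρ₁ b = z := Iff.rfl

/-- the first reduction, with values in its range. -/
def ρ₁r : C.B →+* range₁ C := C.ρ₁.codRestrict (range₁ C) fun b => ⟨b, rfl⟩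

theorem coe_ρ₁r (b : C.B) : ((ρ₁r C b : range₁ C) : Fb₁) = C.ρ₁ b := rfl

theorem ρ₁r_surjective : Function.Surjective (ρ₁r C) := by
  rintro ⟨z, b, rfl⟩
  exact ⟨b, rfl⟩

theorem ρ₁r_const (a : A) :
    ρ₁r C (C.const a) = algebraMap (ResidueField A) (range₁ C) (residue A a) := by
  apply Subtype.ext
  exact c₁.ρ_algebraMap a

variable [IsAlgClosed (ResidueField A)] [Algebra.IsIntegral ℤ (ResidueField A)]

local notation "κ" => ResidueField A

set_option maxHeartbeats 1600000 in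
/-- **a point of the first component of the chart over `A` over a closed point of the first
component of a finite level** (lying-over on the special fibre). -/
theorem exists_pt_on₁ (B₀ : Subring F) (hle : B₀ ≤ C.B) (t₀ : F) (ht₀ : t₀ ∈ B₀)
    (hintκ : ∀ b : C.B,
      IsIntegral (Algebra.adjoin (ResidueField A) {C.ρ₁ ⟨t₀, hle ht₀⟩}) (C.ρ₁ b))
    (𝔪₀ : Ideal B₀) [h𝔪₀ : 𝔪₀.IsMaximal]
    (h1 : ∀ b : B₀, C.ρ₁ ⟨(b : F), hle b.2⟩ = 0 → b ∈ 𝔪₀) :
    ∃ χ : C.Pt, C.On₁ χ ∧ ∀ b : B₀, b ∈ 𝔪₀ ↔ χ ⟨(b : F), hle b.2⟩ = 0 := by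
  classical
  set x₁ : Fb₁ := C.ρ₁ ⟨t₀, hle ht₀⟩ with hx₁
  set x₁r : range₁ C := ρ₁r C ⟨t₀, hle ht₀⟩ with hx₁r
  -- the algebra structures
  let f₀ : B₀ →+* range₁ C := (ρ₁r C).comp (Subring.inclusion hle)
  letI : Algebra B₀ (range₁ C) := f₀.toAlgebra
  letI : Algebra B₀ Fb₁ := ((range₁ C).val.toRingHom.comp f₀).toAlgebra
  haveI : IsScalarTower B₀ (range₁ C) Fb₁ := IsScalarTower.of_algebraMap_eq fun _ => rfl
  -- integrality of the coordinate ring over the finite level
  have hκint : ∀ c : κ, IsIntegral B₀ (algebraMap κ Fb₁ c) := by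
    intro c
    have h1 : IsIntegral ℤ c := Algebra.IsIntegral.isIntegral c
    obtain ⟨p, hp, h⟩ := h1
    have h3 := congrArg (algebraMap κ Fb₁) h
    rw [Polynomial.hom_eval₂, map_zero] at h3
    refine ⟨p.map (algebraMap ℤ B₀), hp.map _, ?_⟩
    rw [eval₂_map]
    have e : (algebraMap B₀ Fb₁).comp (algebraMap ℤ B₀) =
        (algebraMap κ Fb₁).comp (algebraMap ℤ κ) := Subsingleton.elim _ _
    rw [e]
    exact h3
  have hx₁int : IsIntegral B₀ x₁ := by
    have : x₁ = algebraMap B₀ Fb₁ ⟨t₀, ht₀⟩ := rfl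
    rw [this]
    exact isIntegral_algebraMap
  have hadj : ∀ z ∈ Algebra.adjoin κ {x₁}, IsIntegral B₀ z := by
    intro z hz
    induction hz using Algebra.adjoin_induction with
    | mem x hx =>
      rw [Set.mem_singleton_iff] at hx
      rw [hx]; exact hx₁int
    | algebraMap c => exact hκint c
    | add x y _ _ hx hy => exact hx.add hy
    | mul x y _ _ hx hy => exact hx.mul hy
  have hintF : ∀ b : C.B, IsIntegral B₀ (C.ρ₁ b) := by
    intro b
    let IC : Subalgebra B₀ Fb₁ := integralClosure B₀ Fb₁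
    let φ : Algebra.adjoin κ {x₁} →+* IC :=
      { toFun := fun z => ⟨(z : Fb₁), hadj z z.2⟩
        map_one' := rfl
        map_mul' := fun _ _ => rfl
        map_zero' := rfl
        map_add' := fun _ _ => rfl }
    have h2 : IsIntegral IC (C.ρ₁ b) := by
      have := IsIntegral.map_of_comp_eq (R := Algebra.adjoin κ {x₁}) (S := Fb₁) (T := IC)
        (U := Fb₁) φ (RingHom.id Fb₁) (by rfl) (hintκ b)
      exact this
    exact isIntegral_trans (R := B₀) (A := IC) (C.ρ₁ b) h2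
  haveI hint₀ : Algebra.IsIntegral B₀ (range₁ C) := by
    constructor
    rintro ⟨z, b, rfl⟩
    have := hintF b
    exact (isIntegral_algebraMap_iff (A := range₁ C) (B := Fb₁) (R := B₀)
      Subtype.val_injective).1 this
  -- lying over
  have hker : RingHom.ker (algebraMap B₀ (range₁ C)) ≤ 𝔪₀ := by
    intro b hb
    apply h1 b
    have := congrArg (fun z : range₁ C => (z : Fb₁)) ((RingHom.mem_ker).1 hb)
    exact this
  obtain ⟨𝔫, h𝔫max, h𝔫⟩ := Ideal.exists_ideal_over_maximal_of_isIntegral 𝔪₀ hker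
  -- the residue field
  set L := range₁ C ⧸ 𝔫 with hL
  let mk : range₁ C →ₐ[κ] L := Ideal.Quotient.mkₐ κ 𝔫
  have hmk : Function.Surjective mk := Ideal.Quotient.mkₐ_surjective κ 𝔫
  -- `L` is integral over `κ`
  let h' : κ[X] →ₐ[κ] range₁ C := aeval x₁r
  have hh'int : (h' : κ[X] →+* range₁ C).IsIntegral := by
    rintro ⟨z, b, rfl⟩
    obtain ⟨p, hp, hpz⟩ := hintκ b
    let φ₀ : κ[X] →+* Algebra.adjoin κ {x₁} :=
      ((aeval x₁ : κ[X] →ₐ[κ] Fb₁) : κ[X] →+* Fb₁).codRestrict (Algebra.adjoin κ {x₁}) (by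
        intro g
        rw [Algebra.adjoin_singleton_eq_range_aeval]
        exact ⟨g, rfl⟩)
    have hφ₀ : Function.Surjective φ₀ := by
      rintro ⟨y, hy⟩
      rw [Algebra.adjoin_singleton_eq_range_aeval] at hy
      obtain ⟨g, hg⟩ := hy
      exact ⟨g, Subtype.ext hg⟩
    obtain ⟨q, hq, -, hqm⟩ := lifts_and_natDegree_eq_and_monic
      ((mem_lifts p).2 (map_surjective φ₀ hφ₀ p)) hp
    refine ⟨q, hqm, ?_⟩
    apply Subtype.val_injective
    show ((range₁ C).val : range₁ C →+* Fb₁) (eval₂ (h' : κ[X] →+* range₁ C) _ q) = 0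
    rw [Polynomial.hom_eval₂]
    have e1 : ((range₁ C).val : range₁ C →+* Fb₁).comp (h' : κ[X] →+* range₁ C) =
        (algebraMap (Algebra.adjoin κ {x₁}) Fb₁).comp φ₀ := by
      apply RingHom.ext
      intro g
      show ((aeval x₁r g : range₁ C) : Fb₁) = aeval x₁ g
      have := (aeval_algebraMap_apply (A := range₁ C) Fb₁ x₁r g).symm
      exact this
    rw [e1, ← eval₂_map, hq]
    exact hpz
  set τ : L := mk x₁r with hτ
  have hevint : ((aeval τ : κ[X] →ₐ[κ] L) : κ[X] →+* L).IsIntegral := by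
    have e2 : (aeval τ : κ[X] →ₐ[κ] L) = mk.comp h' := by
      apply Polynomial.algHom_ext
      show aeval τ X = mk (aeval x₁r X)
      rw [aeval_X, aeval_X]
    rw [e2]
    exact RingHom.IsIntegral.trans _ _ hh'int (RingHom.isIntegral_of_surjective _ hmk)
  haveI : Algebra.IsIntegral κ L :=
    isIntegral_of_aeval_isIntegral ((Ideal.bot_quotient_isMaximal_iff 𝔫).2 h𝔫max) τ hevint
  have hbij : Function.Bijective (algebraMap κ L) :=
    IsAlgClosed.algebraMap_bijective_of_isIntegral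
  let e : κ ≃+* L := RingEquiv.ofBijective (algebraMap κ L) hbij
  let χ₀ : C.B →+* κ := (e.symm : L →+* κ).comp ((mk : range₁ C →+* L).comp (ρ₁r C))
  have hχ₀ : ∀ b : C.B, χ₀ b = 0 ↔ ρ₁r C b ∈ 𝔫 := by
    intro b
    show e.symm (mk (ρ₁r C b)) = 0 ↔ _
    rw [map_eq_zero_iff _ e.symm.injective]
    exact Ideal.Quotient.eq_zero_iff_mem
  refine ⟨⟨χ₀, fun a => ?_⟩, ?_, ?_⟩
  · show e.symm (mk (ρ₁r C (C.const a))) = residue A a
    rw [ρ₁r_const, AlgHom.commutes]
    exact e.symm_apply_apply _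
  · intro b hb
    show χ₀ b = 0
    rw [hχ₀]
    have : ρ₁r C b = 0 := Subtype.ext hb
    rw [this]
    exact 𝔫.zero_mem
  · intro b
    show b ∈ 𝔪₀ ↔ χ₀ ⟨(b : F), hle b.2⟩ = 0
    rw [hχ₀, ← h𝔫]
    rfl

end Pt1

section Main

variable {K : Type*} [Field K] {A : ValuationSubring K}
variable {F : Type*} [Field F] [Algebra K F]
variable {Fb₁ Fb₂ : Type*} [Field Fb₁] [Field Fb₂]
  [Algebra (ResidueField A) Fb₁] [Algebra (ResidueField A) Fb₂]
variable {c₁ : HalfRed A F Fb₁} {c₂ : HalfRed A F Fb₂} (C : Chart c₁ c₂)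

/-- integrality over a subring of the chart, from integrality in the function field. -/
theorem isIntegralElem_inclusion (B₀ : Subring F) (hle : B₀ ≤ C.B) (x : C.B)
    (h : IsIntegral B₀ (x : F)) : (Subring.inclusion hle).IsIntegralElem x := by
  obtain ⟨p, hp, hpx⟩ := h
  refine ⟨p, hp, ?_⟩
  apply Subtype.val_injective
  show C.B.subtype (eval₂ (Subring.inclusion hle) x p) = 0
  rw [Polynomial.hom_eval₂]
  exact hpx

variable [IsAlgClosed (ResidueField A)] [Algebra.IsIntegral ℤ (ResidueField A)]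

set_option maxHeartbeats 800000 in
/-- **THE BRIDGE, abstract form**: a closed point `𝔪₀` of the normal finite level `B₀` lying on both
components is the restriction of a two-branch point of the chart over `A`. -/
theorem exists_pt_of_twoBranch (B₀ : Subring F) (hle : B₀ ≤ C.B) [IsIntegrallyClosed B₀]
    (t₀ : F) (ht₀ : t₀ ∈ B₀)
    (hA : ∀ a : A, ∃ s : A, s ∉ maximalIdeal A ∧ IsIntegral B₀ (cst s : F) ∧
      IsIntegral B₀ (cst (s * a) : F))
    (hintA : ∀ b ∈ C.B, IsIntegral (ringAt A t₀) b)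
    (hintκ : ∀ b : C.B,
      IsIntegral (Algebra.adjoin (ResidueField A) {C.ρ₁ ⟨t₀, hle ht₀⟩}) (C.ρ₁ b))
    (π : A) (hπ : π ∈ maximalIdeal A) (hπB : algebraMap K F (π : K) ∈ B₀)
    (harch : ∀ c : A, c ∈ maximalIdeal A → ∃ (m : ℕ) (a : A), c ^ m = π * a)
    (hne : ∃ (b₁ : F) (hb₁ : b₁ ∈ B₀), C.ρ₁ ⟨b₁, hle hb₁⟩ = 0 ∧ C.ρ₂ ⟨b₁, hle hb₁⟩ ≠ 0)
    (𝔪₀ : Ideal B₀) [𝔪₀.IsMaximal]
    (h1 : ∀ b : B₀, C.ρ₁ ⟨(b : F), hle b.2⟩ = 0 → b ∈ 𝔪₀)
    (h2 : ∀ b : B₀, C.ρ₂ ⟨(b : F), hle b.2⟩ = 0 → b ∈ 𝔪₀) :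
    ∃ χ : C.Pt, C.On₁ χ ∧ C.On₂ χ ∧ ∀ b : B₀, b ∈ 𝔪₀ ↔ χ ⟨(b : F), hle b.2⟩ = 0 := by
  obtain ⟨χ, hon₁, hχ⟩ := exists_pt_on₁ C B₀ hle t₀ ht₀ hintκ 𝔪₀ h1
  refine ⟨χ, hon₁, ?_, hχ⟩
  apply on₂_of_goingDown C B₀ hle ?_ π hπ hπB harch hne χ
  · intro b hb hρ
    exact (hχ ⟨b, hb⟩).1 (h2 ⟨b, hb⟩ hρ)
  · intro b
    obtain ⟨s, hs, hsi, hsb⟩ := exists_clear_integral B₀ t₀ ht₀ hA (b : F) (hintA _ b.2)
    have hsu : IsUnit s := IsLocalRing.notMem_maximalIdeal.1 hs
    obtain ⟨u, hu⟩ := hsu.exists_right_inv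
    refine ⟨C.const s, ?_, ?_, ?_⟩
    · apply IsUnit.of_mul_eq_one (C.const u)
      apply Subtype.ext
      show algebraMap K F (s : K) * algebraMap K F (u : K) = 1
      rw [← map_mul, ← map_one (algebraMap K F)]
      congr 1
      have := congrArg (fun z : A => (z : K)) hu
      simpa using this
    · exact isIntegralElem_inclusion C B₀ hle _ hsi
    · exact isIntegralElem_inclusion C B₀ hle _ hsb

end Main

end Fermat.Agent.M43.NodeBridge7
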