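/-
M43 (helper9) [LG-q / (LN) concrete, ramification bookkeeping] NodeRam9: **the ramification index of
`K` over its inertia field is divisible by `n` as soon as `K` contains an `n`-th root of `q`**, in
the literal shape of the hypothesis `hπ` of `NodeWire7.kNodeDatum_of_nodeRegAt`.

* `exists_ram_pow` : `InertData A K₀ K h q π e`, `ρ ^ n = q` in `K` ⟹ `e = n T`, `0 < T`, and
  `q = π ^ (n T) η` with `η ∈ (A ∩ K)ˣ`;
* `iotaK_natCast_pow` : `ι (q) = π ^ (n T) η` in `FK N K` (`ι = iotaK h N`).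
-/
import Mathlib
import Fermat.Agent.M43.BaseChMain4

set_option autoImplicit false
set_option linter.unusedSectionVars false
set_option synthInstance.maxHeartbeats 400000
set_option maxHeartbeats 800000

noncomputable section

open HahnSeries ModularCurve

namespace Fermat.Agent.M43.NodeRam9

open Fermat.Agent.RED.Interface4 Fermat.Agent.RED.PUR.GaussGen8
  Fermat.Agent.M43.BaseChRing4 Fermat.Agent.M43.BaseChInert4 Fermat.Agent.M43.BaseChField4

variable {A : ValuationSubring Qbar} {K₀ K : IntermediateField ℚ Qbar} {h : K₀ ≤ K} {q : ℕ}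
  {π : ↥(AK A K)} {e : ℕ}

/-- **`n ∣ e`** when `K ∋ q^{1/n}`; `q = π ^ (n T) η`. -/
theorem exists_ram_pow (D : InertData A K₀ K h q (π : K) e) (hπ : IsUnif (AK A K) π) {n : ℕ}
    (hn : 0 < n) (ρ : K) (hρ : ρ ^ n = ((q : ℕ) : K)) (hq : q ≠ 0) :
    ∃ (T : ℕ) (η : (↥(AK A K))ˣ), 0 < T ∧ e = n * T ∧
      ((q : ℕ) : K) = (π : K) ^ (n * T) * (((η : (↥(AK A K))ˣ) : ↥(AK A K)) : K) := by
  obtain ⟨w, hw, hw', hqw⟩ := D.ram
  have hq0 : ((q : ℕ) : K) ≠ 0 := Nat.cast_ne_zero.mpr hq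
  have hρ0 : ρ ≠ 0 := by
    rintro rfl
    rw [zero_pow hn.ne'] at hρ
    exact hq0 hρ.symm
  have hw0 : w ≠ 0 := by
    rintro rfl
    exact hq0 (by rw [hqw, mul_zero])
  obtain ⟨a, u, hu, hu', hρu⟩ := unitRep_of_isUnif hπ ρ hρ0
  have hu0 : u ≠ 0 := by
    rintro rfl
    exact hρ0 (by rw [hρu, mul_zero])
  have hπ0 : (π : K) ≠ 0 := fun h0 => hπ.ne_zero (Subtype.ext h0)
  have hγlt := val_lt_one_of_isUnif hπ
  have hγpos : 0 < (AK A K).valuation (π : K) := by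
    rw [Valuation.pos_iff]; exact hπ0
  -- compare valuations
  have h1 : (AK A K).valuation ((q : ℕ) : K) = (AK A K).valuation (π : K) ^ ((e : ℕ) : ℤ) := by
    rw [hqw, map_mul, map_pow, val_eq_one_of_mem_of_inv_mem _ hw0 hw hw', mul_one, zpow_natCast]
  have h2 : (AK A K).valuation ((q : ℕ) : K) =
      (AK A K).valuation (π : K) ^ (a * (n : ℤ)) := by
    rw [← hρ, hρu, map_pow, map_mul, map_zpow₀, val_eq_one_of_mem_of_inv_mem _ hu0 hu hu',
      mul_one, zpow_mul, zpow_natCast]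
  have h3 : ((e : ℕ) : ℤ) = a * (n : ℤ) :=
    zpow_right_injective₀ hγpos hγlt.ne (h1.symm.trans h2)
  have hapos : 0 < a := by
    have he : (0 : ℤ) < (e : ℤ) := by exact_mod_cast D.e_pos
    rw [h3] at he
    have hn' : (0 : ℤ) < (n : ℤ) := by exact_mod_cast hn
    by_contra hneg
    rw [not_lt] at hneg
    have : a * (n : ℤ) ≤ 0 := mul_nonpos_of_nonpos_of_nonneg hneg hn'.le
    omega
  obtain ⟨T, rfl⟩ := Int.eq_ofNat_of_zero_le hapos.le
  have hT : 0 < T := by exact_mod_cast hapos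
  have heT : e = n * T := by
    have : ((e : ℕ) : ℤ) = ((n * T : ℕ) : ℤ) := by rw [h3]; push_cast; ring
    exact_mod_cast this
  refine ⟨T, ⟨⟨w, hw⟩, ⟨w⁻¹, hw'⟩, Subtype.ext (mul_inv_cancel₀ hw0),
    Subtype.ext (inv_mul_cancel₀ hw0)⟩, hT, heT, ?_⟩
  rw [hqw, heT]

/-- **`ι(q) = π ^ (n T) η`** in `FK N K`. -/
theorem iotaK_natCast_pow (N : ℕ) [NeZero N] (D : InertData A K₀ K h q (π : K) e)
    (hπ : IsUnif (AK A K) π) {n : ℕ} (hn : 0 < n) (ρ : K) (hρ : ρ ^ n = ((q : ℕ) : K))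
    (hq : q ≠ 0) :
    ∃ (T : ℕ) (η : (↥(AK A K))ˣ), 0 < T ∧ e = n * T ∧
      iotaK h N (algebraMap ↥(AK A K₀) (FK N K₀) (q : AK A K₀)) =
        algebraMap ↥(AK A K) (FK N K) π ^ (n * T) *
          algebraMap ↥(AK A K) (FK N K) ((η : (↥(AK A K))ˣ) : ↥(AK A K)) := by
  obtain ⟨T, η, hT, heT, hqη⟩ := exists_ram_pow D hπ hn ρ hρ hq
  refine ⟨T, η, hT, heT, ?_⟩
  have h1 : algebraMap ↥(AK A K₀) (FK N K₀) (q : AK A K₀) =
      algebraMap ↥K₀ (FK N K₀) ((q : ℕ) : K₀) := by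
    rw [map_natCast, map_natCast]
  rw [h1, iotaK_algebraMap, map_natCast, hqη, map_mul, map_pow]
  rfl

end Fermat.Agent.M43.NodeRam9
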