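/-
M43 (helper4) [(LG-q) S1-G concrete] NormConcGq4: **the formal generators `g_{M,a}` separate the
classes `±a`**: `gq M a = gq M b ↔ a = b ∨ a = -b` (purely formal: the order of vanishing of
`∑_n (∑_{d ∣ n} d¹¹ [n/d ≡ ±a]) qⁿ` is the least positive representative of `±a`).
-/
import Mathlib
import Fermat.Agent.M48.DictIface4

set_option autoImplicit false

open ModularCurve

namespace Fermat.Agent.M43.NormConcGq4

open Fermat.Agent.M48.DictIface4

variable {M : ℕ}

/-- `n` is a positive representative of `±a`. -/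
def IsRep (a : ZMod M) (n : ℕ) : Prop := 0 < n ∧ ((n : ZMod M) = a ∨ (n : ZMod M) = -a)

theorem isRep_neg (a : ZMod M) (n : ℕ) : IsRep (-a) n ↔ IsRep a n := by
  unfold IsRep
  rw [neg_neg]
  tauto

theorem exists_isRep [NeZero M] (a : ZMod M) : ∃ n, IsRep a n := by
  by_cases ha : a = 0
  · refine ⟨M, Nat.pos_of_ne_zero (NeZero.ne M), Or.inl ?_⟩
    rw [ha, ZMod.natCast_self]
  · refine ⟨a.val, Nat.pos_of_ne_zero ?_, Or.inl (ZMod.natCast_zmod_val a)⟩
    rwa [Ne, ZMod.val_eq_zero]

theorem eisCoeff_nonneg (a : ZMod M) (n : ℕ) : 0 ≤ eisCoeff M a n := by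
  unfold eisCoeff
  refine Finset.sum_nonneg fun d _ => mul_nonneg (pow_nonneg (Int.natCast_nonneg d) 11) ?_
  split_ifs <;> norm_num

/-- the coefficient is positive exactly when some `n / d` represents `±a`. -/
theorem eisCoeff_pos_iff (a : ZMod M) {n : ℕ} (hn : n ≠ 0) :
    0 < eisCoeff M a n ↔ ∃ d ∈ n.divisors, IsRep a (n / d) := by
  unfold eisCoeff
  rw [Finset.sum_pos_iff_of_nonneg]
  · constructor
    · rintro ⟨d, hd, hpos⟩
      refine ⟨d, hd, ?_, ?_⟩
      · exact Nat.div_pos (Nat.le_of_dvd (Nat.pos_of_ne_zero hn) (Nat.dvd_of_mem_divisors hd))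
          (Nat.pos_of_mem_divisors hd)
      · by_contra hcon
        rw [not_or] at hcon
        rw [if_neg hcon.1, if_neg hcon.2, add_zero, mul_zero] at hpos
        exact lt_irrefl _ hpos
    · rintro ⟨d, hd, -, hrep⟩
      refine ⟨d, hd, mul_pos (pow_pos ?_ 11) ?_⟩
      · exact_mod_cast Nat.pos_of_mem_divisors hd
      · rcases hrep with h | h
        · rw [if_pos h]
          split_ifs <;> norm_num
        · rw [if_pos h]
          split_ifs <;> norm_num
  · intro d _
    refine mul_nonneg (pow_nonneg (Int.natCast_nonneg d) 11) ?_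
    split_ifs <;> norm_num

/-- **the coefficients determine the class `±a`.** -/
theorem eq_or_eq_neg_of_eisCoeff_eq [NeZero M] {a b : ZMod M}
    (h : ∀ n : ℕ, n ≠ 0 → eisCoeff M a n = eisCoeff M b n) : a = b ∨ a = -b := by
  classical
  -- least representatives
  have key : ∀ {a b : ZMod M}, (∀ n : ℕ, n ≠ 0 → eisCoeff M a n = eisCoeff M b n) →
      Nat.find (exists_isRep b) ≤ Nat.find (exists_isRep a) := by
    intro a b h
    have ha := Nat.find_spec (exists_isRep a)
    set n₀ := Nat.find (exists_isRep a) with hn₀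
    have hn0 : n₀ ≠ 0 := ha.1.ne'
    have hpos : 0 < eisCoeff M a n₀ :=
      (eisCoeff_pos_iff a hn0).mpr ⟨1, Nat.one_mem_divisors.mpr hn0, by rwa [Nat.div_one]⟩
    rw [h n₀ hn0] at hpos
    obtain ⟨d, hd, hrep⟩ := (eisCoeff_pos_iff b hn0).mp hpos
    exact (Nat.find_min' (exists_isRep b) hrep).trans (Nat.div_le_self n₀ d)
  have h1 := key h
  have h2 := key (fun n hn => (h n hn).symm)
  have heq : Nat.find (exists_isRep a) = Nat.find (exists_isRep b) := le_antisymm h2 h1
  have ha := (Nat.find_spec (exists_isRep a)).2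
  have hb := (Nat.find_spec (exists_isRep b)).2
  rw [heq] at ha
  rcases ha with ha | ha <;> rcases hb with hb | hb
  · exact Or.inl (ha.symm.trans hb)
  · exact Or.inr (ha.symm.trans hb)
  · right
    rw [← hb, ha, neg_neg]
  · left
    have := ha.symm.trans hb
    exact neg_injective this

theorem eisPS_injective_of_gq {a b : ZMod M} (h : gq M a = gq M b) : eisPS M a = eisPS M b := by
  unfold gq at h
  have h1 : (HahnSeries.single (-1 : ℤ) (1 : ℚ)) ≠ 0 := HahnSeries.single_ne_zero one_ne_zero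
  have h2 := mul_left_cancel₀ h1 h
  have h3 := HahnSeries.ofPowerSeries_injective h2
  have h4 : eisPS M a * dedekindEtaUnitInv = eisPS M b * dedekindEtaUnitInv := by
    ext n
    have := congrArg (PowerSeries.coeff n) h3
    rw [PowerSeries.coeff_map, PowerSeries.coeff_map] at this
    exact Int.cast_injective this
  have h5 : dedekindEtaUnitInv ≠ 0 := by
    intro h0
    have := constantCoeff_dedekindEtaUnitInv
    rw [h0, map_zero] at this
    exact zero_ne_one this
  exact mul_right_cancel₀ h5 h4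

/-- **`g_{M,a} = g_{M,b} ⇒ a = ±b`.** -/
theorem eq_or_eq_neg_of_gq_eq [NeZero M] {a b : ZMod M} (h : gq M a = gq M b) :
    a = b ∨ a = -b := by
  have h1 := eisPS_injective_of_gq h
  refine eq_or_eq_neg_of_eisCoeff_eq fun n hn => ?_
  have := congrArg (PowerSeries.coeff n) h1
  rwa [eisPS, eisPS, PowerSeries.coeff_mk, PowerSeries.coeff_mk, if_neg hn, if_neg hn] at this

theorem eisCoeff_neg (a : ZMod M) (n : ℕ) : eisCoeff M (-a) n = eisCoeff M a n := by
  unfold eisCoeff
  refine Finset.sum_congr rfl fun d _ => ?_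
  rw [neg_neg, add_comm]

/-- `g_{M,-a} = g_{M,a}`. -/
theorem gq_neg (a : ZMod M) : gq M (-a) = gq M a := by
  have : eisPS M (-a) = eisPS M a := by
    ext n
    rw [eisPS, eisPS, PowerSeries.coeff_mk, PowerSeries.coeff_mk, eisCoeff_neg]
  rw [gq, gq, this]

end Fermat.Agent.M43.NormConcGq4
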