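/-
M43 (helper4) [(LG-q) S1-G concrete] NormConcDia4: **the group of diamond automorphisms of
`F₁ = FK ℚbar M 1`** (`2 ≤ M`).

* `dia hM d`, `isDiamondAut_dia`, `diaHom hM : (ZMod M)ˣ →* (F₁ ≃ₐ[ℚbar] F₁)`;
* `diaHom_eq_one_iff : diaHom hM d = 1 ↔ d = 1 ∨ d = -1` (formal: `NormConcGq4`);
* `dia_apply_of_mem_Fbar` : the diamonds fix `Fbar M = ℚbar · F(X₀(M))` pointwise;
* `Fbar_le_FK1 : Fbar M ≤ FK ℚbar M 1`.
-/
import Mathlib
import Fermat.Agent.M43.NormConcGq4
import Fermat.Agent.M48.DiamondAut5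
import Fermat.Agent.M48.G10Model4
import Fermat.Agent.M48.DiamondRed3

set_option autoImplicit false
set_option linter.unusedSectionVars false
set_option synthInstance.maxHeartbeats 400000

open AlgebraicCurve ModularCurve HahnSeries

noncomputable section

namespace Fermat.Agent.M43.NormConcDia4

open Fermat.Agent.M48.J1Defs8 Fermat.Agent.M48.DiamondAut5 Fermat.Agent.M48.DictIface4
  Fermat.Agent.M43.NormConcGq4

local notation "Qb" => AlgebraicClosure ℚ

variable {M : ℕ} [NeZero M]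

/-- the diamond automorphism `⟨d⟩` of `FK ℚbar M 1`. -/
def dia (hM : 2 ≤ M) (d : (ZMod M)ˣ) : FK Qb M 1 ≃ₐ[Qb] FK Qb M 1 :=
  (exists_isDiamondAut_Qbar Fermat.Agent.M48.G10Model4.g10ModelStmt hM d).choose

theorem isDiamondAut_dia (hM : 2 ≤ M) (d : (ZMod M)ˣ) : IsDiamondAut Qb M d (dia hM d) :=
  (exists_isDiamondAut_Qbar Fermat.Agent.M48.G10Model4.g10ModelStmt hM d).choose_spec

theorem dia_eq_of_isDiamondAut (hM : 2 ≤ M) {d : (ZMod M)ˣ} {δ : FK Qb M 1 ≃ₐ[Qb] FK Qb M 1}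
    (hδ : IsDiamondAut Qb M d δ) : dia hM d = δ :=
  diaAut_unique (isDiamondAut_dia hM d) hδ

/-- `d ↦ ⟨d⟩` as a group homomorphism. -/
def diaHom (hM : 2 ≤ M) : (ZMod M)ˣ →* (FK Qb M 1 ≃ₐ[Qb] FK Qb M 1) where
  toFun := dia hM
  map_one' := dia_eq_of_isDiamondAut hM isDiamondAut_one
  map_mul' d e := by
    have h := diaAut_trans (isDiamondAut_dia hM e) (isDiamondAut_dia hM d)
    rw [mul_comm] at h
    exact dia_eq_of_isDiamondAut hM h

@[simp] theorem diaHom_apply (hM : 2 ≤ M) (d : (ZMod M)ˣ) : diaHom hM d = dia hM d := rfl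

theorem coeffEmb_injective (K : Type*) [Field K] [Algebra ℚ K] :
    Function.Injective (coeffEmb K) :=
  Fermat.Agent.M48.DiamondRed3.coeffMap_injective (algebraMap ℚ K).injective

theorem gGen_eq_iff (a b : (ZMod M)ˣ) : gGen Qb M a = gGen Qb M b ↔ a = b ∨ a = -b := by
  constructor
  · intro h
    have h1 : coeffEmb Qb (gq M (a : ZMod M)) = coeffEmb Qb (gq M (b : ZMod M)) :=
      congrArg Subtype.val h
    rcases eq_or_eq_neg_of_gq_eq (coeffEmb_injective Qb h1) with h2 | h2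
    · exact Or.inl (Units.ext h2)
    · exact Or.inr (Units.ext (by rw [h2, Units.val_neg]))
  · rintro (rfl | rfl)
    · rfl
    · apply Subtype.ext
      show coeffEmb Qb (gq M ((-b : (ZMod M)ˣ) : ZMod M)) = coeffEmb Qb (gq M (b : ZMod M))
      rw [Units.val_neg, gq_neg]

/-- **the kernel of `d ↦ ⟨d⟩` is `{±1}`.** -/
theorem diaHom_eq_one_iff (hM : 2 ≤ M) (d : (ZMod M)ˣ) : diaHom hM d = 1 ↔ d = 1 ∨ d = -1 := by
  constructor
  · intro h
    have h1 := diaAut_gGen (isDiamondAut_dia hM d) 1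
    have h2 : dia hM d = 1 := h
    rw [h2, AlgEquiv.one_apply, one_mul, gGen_eq_iff] at h1
    rcases h1 with h1 | h1
    · left
      rw [← inv_inj, ← h1, inv_one]
    · right
      rw [← inv_inj, inv_neg, inv_one]
      rw [h1, neg_neg]
  · rintro (rfl | rfl)
    · exact map_one _
    · refine dia_eq_of_isDiamondAut hM ?_
      rw [isDiamondAut_iff]
      refine ⟨fun e _ he => rfl, fun a => ?_⟩
      rw [AlgEquiv.one_apply, gGen_eq_iff]
      right
      rw [inv_neg, inv_one, mul_neg, mul_one, neg_neg]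

/-- `Fbar M ≤ FK ℚbar M 1`. -/
theorem Fbar_le_FK1 (M : ℕ) : modularFunctionFieldBar M ≤ FK Qb M 1 := by
  have h := laurentBaseChange_mono Qb (modularFunctionFieldFull_le_fieldG10 M 1)
  rwa [mul_one] at h

/-- **an automorphism fixing the `j(q^e)`, `e ∣ M`, fixes `Fbar M` pointwise.** -/
theorem apply_of_mem_Fbar {δ : FK Qb M 1 ≃ₐ[Qb] FK Qb M 1}
    (hδ : ∀ (e : ℕ) [NeZero e] (he : e ∣ M), δ (jGen Qb M e he) = jGen Qb M e he)
    (x : FK Qb M 1) (hx : (x : LaurentSeries Qb) ∈ modularFunctionFieldBar M) : δ x = x := by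
  -- the predicate on series
  let Q : LaurentSeries Qb → Prop := fun y => ∃ hy : y ∈ FK Qb M 1, δ ⟨y, hy⟩ = ⟨y, hy⟩
  have hQc : ∀ c : Qb, Q (algebraMap Qb (LaurentSeries Qb) c) := fun c =>
    ⟨(FK Qb M 1).algebraMap_mem c, δ.commutes c⟩
  have hQadd : ∀ x y, Q x → Q y → Q (x + y) := by
    rintro x y ⟨hx, px⟩ ⟨hy, py⟩
    refine ⟨add_mem hx hy, ?_⟩
    have : (⟨x + y, add_mem hx hy⟩ : FK Qb M 1) = ⟨x, hx⟩ + ⟨y, hy⟩ := rfl
    rw [this, map_add, px, py]
  have hQmul : ∀ x y, Q x → Q y → Q (x * y) := by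
    rintro x y ⟨hx, px⟩ ⟨hy, py⟩
    refine ⟨mul_mem hx hy, ?_⟩
    have : (⟨x * y, mul_mem hx hy⟩ : FK Qb M 1) = ⟨x, hx⟩ * ⟨y, hy⟩ := rfl
    rw [this, map_mul, px, py]
  have hQneg : ∀ x, Q x → Q (-x) := by
    rintro x ⟨hx, px⟩
    refine ⟨neg_mem hx, ?_⟩
    have : (⟨-x, neg_mem hx⟩ : FK Qb M 1) = -⟨x, hx⟩ := rfl
    rw [this, map_neg, px]
  have hQinv : ∀ x, Q x → Q x⁻¹ := by
    rintro x ⟨hx, px⟩
    refine ⟨inv_mem hx, ?_⟩
    have : (⟨x⁻¹, inv_mem hx⟩ : FK Qb M 1) = (⟨x, hx⟩ : FK Qb M 1)⁻¹ := rfl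
    rw [this, map_inv₀, px]
  have hQ1 : Q 1 := by
    have := hQc 1
    rwa [map_one] at this
  have hQ0 : ∀ z : LaurentSeries ℚ, z ∈ modularFunctionFieldFull M → Q (coeffEmb Qb z) := by
    intro z hz
    unfold modularFunctionFieldFull at hz
    induction hz using IntermediateField.adjoin_induction with
    | mem z hz =>
        obtain ⟨e, hne, he, rfl⟩ := hz
        have := hne
        exact ⟨(jGen Qb M e he).2, hδ e he⟩
    | algebraMap q =>
        rw [coeffEmb_algebraMap]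
        exact hQc _
    | add x y _ _ hx hy =>
        rw [map_add]
        exact hQadd _ _ hx hy
    | inv x _ hx =>
        rw [map_inv₀]
        exact hQinv _ hx
    | mul x y _ _ hx hy =>
        rw [map_mul]
        exact hQmul _ _ hx hy
  have hQall : ∀ y : LaurentSeries Qb, y ∈ modularFunctionFieldBar M → Q y := by
    intro y hy
    rw [modularFunctionFieldBar, mem_laurentBaseChange_iff] at hy
    induction hy using Subfield.closure_induction with
    | mem y hy =>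
        rcases hy with ⟨c, rfl⟩ | ⟨z, hz, rfl⟩
        · exact hQc c
        · exact hQ0 z hz
    | one => exact hQ1
    | add x y _ _ hx hy => exact hQadd _ _ hx hy
    | neg x _ hx => exact hQneg _ hx
    | inv x _ hx => exact hQinv _ hx
    | mul x y _ _ hx hy => exact hQmul _ _ hx hy
  obtain ⟨_, h⟩ := hQall _ hx
  exact h

theorem dia_apply_of_mem_Fbar (hM : 2 ≤ M) (d : (ZMod M)ˣ) (x : FK Qb M 1)
    (hx : (x : LaurentSeries Qb) ∈ modularFunctionFieldBar M) : dia hM d x = x :=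
  apply_of_mem_Fbar (fun e _ he => diaAut_jGen (isDiamondAut_dia hM d) e he) x hx

end Fermat.Agent.M43.NormConcDia4
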