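/-
M43 (helper4) [(LG-q) S1-G concrete] NormConcIdx4: **the number of diamond automorphisms is the
index `[Γ₀(M) : ±Γ₁(M)]`** (`2 ≤ M`).

* `unitHom M : Γ₀(M) →* (ℤ/M)ˣ` (lower right entry), surjective;
* `unitOf_eq_one_iff`, `unitOf_eq_neg_one_iff`, `pm_Gamma1_le`;
* `ker_diaGamma0 : ker (Γ₀(M) → (ℤ/M)ˣ → Aut F₁) = ±Γ₁(M)`;
* `card_range_diaHom : #(diamonds) = [Γ₀(M) : ±Γ₁(M)]`, `relIndex_mul_index`.
-/
import Mathlib
import Fermat.Agent.M43.NormConcDia4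
import Fermat.Agent.M48.Diamond1

set_option autoImplicit false
set_option linter.unusedSectionVars false
set_option synthInstance.maxHeartbeats 400000

open AlgebraicCurve ModularCurve CongruenceSubgroup Matrix.SpecialLinearGroup
open scoped MatrixGroups

noncomputable section

namespace Fermat.Agent.M43.NormConcIdx4

open Fermat.Agent.M48.J1Defs8 Fermat.Agent.M48.DiamondAut5 Fermat.Agent.M48.DictIface4
  Fermat.Agent.M48.Diamond1 Fermat.Agent.M43.NormConcDia4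

local notation "Qb" => AlgebraicClosure ℚ

variable {M : ℕ}

/-- the lower right entry `Γ₀(M) →* (ℤ/M)ˣ`. -/
def unitHom (M : ℕ) : Gamma0 M →* (ZMod M)ˣ where
  toFun := unitOf
  map_one' := unitOf_one
  map_mul' := unitOf_mul

theorem unitHom_surjective [NeZero M] : Function.Surjective (unitHom M) :=
  exists_Gamma0_map_eq

theorem unitOf_eq_one_iff (σ : Gamma0 M) : unitOf σ = 1 ↔ (σ : SL(2, ℤ)) ∈ Gamma1 M := by
  rw [mem_Gamma1_iff_map]
  constructor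
  · intro h
    refine ⟨σ.2, ?_⟩
    have := congrArg (fun u : (ZMod M)ˣ => (u : ZMod M)) h
    simpa using this
  · rintro ⟨h, h1⟩
    apply Units.ext
    rw [coe_unitOf, Units.val_one]
    exact h1

theorem neg_mem_Gamma0 {γ : SL(2, ℤ)} (h : γ ∈ Gamma0 M) : -γ ∈ Gamma0 M := by
  rw [Gamma0_mem] at h ⊢
  rw [Matrix.SpecialLinearGroup.coe_neg, Matrix.neg_apply, Int.cast_neg, h, neg_zero]

theorem unitOf_neg (σ : Gamma0 M) : unitOf (⟨-(σ : SL(2, ℤ)), neg_mem_Gamma0 σ.2⟩ : Gamma0 M) =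
    -unitOf σ := by
  apply Units.ext
  rw [coe_unitOf, Units.val_neg, coe_unitOf]
  show (((-(σ : SL(2, ℤ)) : SL(2, ℤ)) 1 1 : ℤ) : ZMod M) = -(((σ : SL(2, ℤ)) 1 1 : ℤ) : ZMod M)
  rw [Matrix.SpecialLinearGroup.coe_neg, Matrix.neg_apply, Int.cast_neg]

theorem unitOf_eq_neg_one_iff (σ : Gamma0 M) :
    unitOf σ = -1 ↔ -(σ : SL(2, ℤ)) ∈ Gamma1 M := by
  have h := unitOf_eq_one_iff (⟨-(σ : SL(2, ℤ)), neg_mem_Gamma0 σ.2⟩ : Gamma0 M)
  rw [unitOf_neg] at h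
  rw [← h, neg_eq_iff_eq_neg]

theorem pm_Gamma1_le (M : ℕ) : pm (Gamma1 M) ≤ Gamma0 M := by
  rintro γ (h | h)
  · exact Gamma1_in_Gamma0 M h
  · have := neg_mem_Gamma0 (Gamma1_in_Gamma0 M h)
    rwa [neg_neg] at this

variable [NeZero M]

/-- `Γ₀(M) → (ℤ/M)ˣ → Aut (FK ℚbar M 1)`. -/
def diaGamma0 (hM : 2 ≤ M) : Gamma0 M →* (FK Qb M 1 ≃ₐ[Qb] FK Qb M 1) :=
  (diaHom hM).comp (unitHom M)

theorem ker_diaGamma0 (hM : 2 ≤ M) :
    (diaGamma0 hM).ker = (pm (Gamma1 M)).subgroupOf (Gamma0 M) := by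
  ext σ
  rw [MonoidHom.mem_ker, Subgroup.mem_subgroupOf, mem_pm]
  show diaHom hM (unitOf σ) = 1 ↔ _
  rw [diaHom_eq_one_iff, unitOf_eq_one_iff, unitOf_eq_neg_one_iff]

theorem range_diaGamma0 (hM : 2 ≤ M) : (diaGamma0 hM).range = (diaHom hM).range := by
  rw [diaGamma0, MonoidHom.range_comp, MonoidHom.range_eq_top.mpr unitHom_surjective,
    ← MonoidHom.range_eq_map]

/-- **the number of diamond automorphisms is `[Γ₀(M) : ±Γ₁(M)]`.** -/
theorem card_range_diaHom (hM : 2 ≤ M) :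
    Nat.card (diaHom hM).range = (pm (Gamma1 M)).relIndex (Gamma0 M) := by
  rw [← range_diaGamma0 hM, ← Subgroup.index_ker, ker_diaGamma0]
  rfl

theorem relIndex_mul_index (M : ℕ) :
    (pm (Gamma1 M)).relIndex (Gamma0 M) * (Gamma0 M).index = (pm (Gamma1 M)).index :=
  Subgroup.relIndex_mul_index (pm_Gamma1_le M)

end Fermat.Agent.M43.NormConcIdx4
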