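/-
M43 (helper4) [(LG-q) S1-G concrete] NormConcFix4: **the fixed field of the diamond automorphisms
of `F₁ = FK ℚbar M 1` is `Fbar M = ℚbar · F(X₀(M))`** (`2 ≤ M`).

Degree count: `[F₁ : ℚbar(j)] = [SL₂(ℤ) : ±Γ₁(M)]` (`G10Degree2`), `[Fbar M : ℚbar(j)] =
[SL₂(ℤ) : Γ₀(M)]` (`X0.Degree`), Lagrange, `#(diamonds) = [Γ₀(M) : ±Γ₁(M)]` (`NormConcIdx4`), Artin.

* `relfinrank_Fbar`, `relfinrank_FK1`, `relfinrank_Fbar_FK1`;
* **`mem_Fbar_of_dia_fixed`** : `f ∈ F₁` fixed by all `⟨d⟩` lies in `Fbar M`.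
-/
import Mathlib
import Fermat.Agent.M43.NormConcIdx4
import Fermat.Agent.M48.G10Degree2
import Fermat.Agent.M48.G10Index2
import Fermat.Agent.X0.Degree
import Fermat.Agent.X0.CuspExpand
import Fermat.Agent.X0.RootsK
import Fermat.Agent.ES.RED.SpecialGen25

set_option autoImplicit false
set_option linter.unusedSectionVars false
set_option linter.style.haveILetI false
set_option synthInstance.maxHeartbeats 400000

open AlgebraicCurve ModularCurve CongruenceSubgroup IntermediateField HahnSeries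
open scoped MatrixGroups

noncomputable section

namespace Fermat.Agent.M43.NormConcFix4

open Fermat.Agent.M48.J1Defs8 Fermat.Agent.M48.DiamondAut5 Fermat.Agent.M48.DictIface4
  Fermat.Agent.M43.NormConcDia4 Fermat.Agent.M43.NormConcIdx4 Fermat.Agent.X0
  Fermat.Agent.ES.RED.SpecialGen25

local notation "Qb" => AlgebraicClosure ℚ

variable {M : ℕ} [NeZero M]

/-- `[Fbar M : ℚbar(j)] = [SL₂(ℤ) : Γ₀(M)]`. -/
theorem relfinrank_Fbar (M : ℕ) [NeZero M] :
    relfinrank Qb⟮jqModC Qb⟯ (modularFunctionFieldBar M) = (Gamma0 M).index := by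
  have h := Degree.card_eq_finrank_adjoin M (realizeData M) (cuspData M)
  rw [finrank_adjoin_simple_eq_relfinrank, coe_jF, jqK_eq_jqModC] at h
  exact h.symm

/-- `[FK ℚbar M 1 : ℚbar(j)] = [SL₂(ℤ) : ±Γ₁(M)]`. -/
theorem relfinrank_FK1 (hM : 2 ≤ M) :
    relfinrank Qb⟮jqModC Qb⟯ (FK Qb M 1) = (pm (Gamma1 M)).index := by
  rw [Fermat.Agent.M48.G10Degree2.relfinrank_FK M 1 hM Qb,
    Fermat.Agent.M48.G10Index2.Gamma10_mul_one]
  rfl

theorem simple_le_Fbar (M : ℕ) [NeZero M] : Qb⟮jqModC Qb⟯ ≤ modularFunctionFieldBar M := by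
  rw [adjoin_simple_le_iff, ← jqK_eq_jqModC, ← coe_jF M]
  exact (jF M).2

theorem index_pm_ne_zero (hM : 2 ≤ M) : (pm (Gamma1 M)).index ≠ 0 := by
  have := Fermat.Agent.M48.G10Degree2.card_quotient_ne_zero M 1 hM
  rwa [Fermat.Agent.M48.G10Index2.Gamma10_mul_one] at this

/-- **`[FK ℚbar M 1 : Fbar M] = #(diamonds)`.** -/
theorem relfinrank_Fbar_FK1 (hM : 2 ≤ M) :
    relfinrank (modularFunctionFieldBar M) (FK Qb M 1) = Nat.card (diaHom hM).range := by
  have h1 := relfinrank_mul_relfinrank (simple_le_Fbar M) (Fbar_le_FK1 M)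
  rw [relfinrank_Fbar, relfinrank_FK1 hM, ← relIndex_mul_index M, mul_comm] at h1
  have h0 : (Gamma0 M).index ≠ 0 := by
    intro h0
    have := relIndex_mul_index M
    rw [h0, mul_zero] at this
    exact index_pm_ne_zero hM this.symm
  rw [card_range_diaHom hM]
  exact Nat.eq_of_mul_eq_mul_right (Nat.pos_of_ne_zero h0) h1

theorem card_range_ne_zero (hM : 2 ≤ M) : Nat.card (diaHom hM).range ≠ 0 := by
  rw [card_range_diaHom hM]
  intro h0
  have := relIndex_mul_index M
  rw [h0, zero_mul] at this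
  exact index_pm_ne_zero hM this.symm

instance finite_range (hM : 2 ≤ M) : Finite (diaHom hM).range :=
  Nat.finite_of_card_ne_zero (card_range_ne_zero hM)

/-- `Fbar M` inside `FK ℚbar M 1`. -/
def FbarIn (M : ℕ) : IntermediateField Qb (FK Qb M 1) :=
  (modularFunctionFieldBar M).comap (FK Qb M 1).val

theorem mem_FbarIn {x : FK Qb M 1} :
    x ∈ FbarIn M ↔ (x : LaurentSeries Qb) ∈ modularFunctionFieldBar M := Iff.rfl

theorem finrank_FbarIn (hM : 2 ≤ M) :
    Module.finrank (FbarIn M) (FK Qb M 1) = Nat.card (diaHom hM).range := by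
  rw [← relfinrank_Fbar_FK1 hM, ← relfinrank_top_right]
  have h := IntermediateField.relfinrank_comap_comap_eq_relfinrank_of_le
    (modularFunctionFieldBar M) (FK Qb M 1) (FK Qb M 1).val
    (by rw [IntermediateField.fieldRange_val])
  rw [← h]
  congr 1
  ext x
  constructor
  · intro _
    exact x.2
  · intro _
    exact IntermediateField.mem_top

theorem FbarIn_le_fixedField (hM : 2 ≤ M) :
    FbarIn M ≤ IntermediateField.fixedField (diaHom hM).range := by
  intro x hx
  rw [IntermediateField.mem_fixedField_iff]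
  rintro _ ⟨d, rfl⟩
  exact dia_apply_of_mem_Fbar hM d x hx

/-- **the fixed field of the diamonds is `Fbar M`.** -/
theorem fixedField_eq (hM : 2 ≤ M) :
    IntermediateField.fixedField (diaHom hM).range = FbarIn M := by
  classical
  haveI : Fintype (diaHom hM).range := Fintype.ofFinite _
  have h1 : Module.finrank (IntermediateField.fixedField (diaHom hM).range) (FK Qb M 1) =
      Fintype.card (diaHom hM).range := FixedPoints.finrank_eq_card (diaHom hM).range (FK Qb M 1)
  rw [← Nat.card_eq_fintype_card] at h1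
  have h2 := finrank_FbarIn hM
  haveI : FiniteDimensional (FbarIn M) (FK Qb M 1) :=
    Module.finite_of_finrank_pos (by rw [h2]; exact Nat.pos_of_ne_zero (card_range_ne_zero hM))
  exact (IntermediateField.eq_of_le_of_finrank_eq' (FbarIn_le_fixedField hM)
    (h2.trans h1.symm)).symm

/-- **`f ∈ FK ℚbar M 1` fixed by all diamond automorphisms lies in `Fbar M`.** -/
theorem mem_Fbar_of_dia_fixed (hM : 2 ≤ M) (f : FK Qb M 1) (hf : ∀ d, dia hM d f = f) :
    (f : LaurentSeries Qb) ∈ modularFunctionFieldBar M := by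
  have h : f ∈ IntermediateField.fixedField (diaHom hM).range := by
    rw [IntermediateField.mem_fixedField_iff]
    rintro _ ⟨d, rfl⟩
    exact hf d
  rw [fixedField_eq hM] at h
  exact h

end Fermat.Agent.M43.NormConcFix4
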