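import Fermat.Agent.M43.PSEven2

/-!
# M43 / P-PATCH: the Taylor–Wiles chain of ideals (in the coordinate `v = (w - 1) / (w + 1)`)

`O` noetherian local with maximal ideal `(lam)`, complete, finite residue field, `(p : O) ∈ 𝔪`.
In `S = O[[X_1..X_r]]` the element `w_i = (1 + X_i) / (1 - X_i)` plays the role of the generator of
the `i`-th factor of `Δ_n`; `twGen p n i = (1 + X_i) ^ (p ^ n) - (1 - X_i) ^ (p ^ n)` generates
the same ideal as `w_i ^ (p ^ n) - 1`.

* `twChain lam p n = box lam σ n ⊔ (twGen p n i)_i`; antitone, cofinal with the boxes, hence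
  `isLimChain_twChain`; finite quotients; `dvd_augS_of_mem_twChain` (`haug`);
  `exists_eq_smul_of_forall` (`hlam`).
-/

namespace Fermat.Agent.M43.PSChain2

open MvPowerSeries IsLocalRing PSLim2 PSInst2 PSEven2 Thread2

/-- `a ≡ b` modulo `I ^ k` (`k ≥ 1`) and `p ∈ I` imply `a ^ p ≡ b ^ p` modulo `I ^ (k + 1)`. -/
theorem pow_sub_pow_mem {R : Type*} [CommRing R] (I : Ideal R) (p : ℕ) (hp : (p : R) ∈ I)
    {a b : R} {k : ℕ} (hk : 1 ≤ k) (h : a - b ∈ I ^ k) : a ^ p - b ^ p ∈ I ^ (k + 1) := by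
  have h1 : a - b ∈ I := Ideal.pow_le_self (by omega) h
  have h2 : (∑ j ∈ Finset.range p, a ^ j * b ^ (p - 1 - j)) ∈ I := by
    rw [← Ideal.Quotient.eq_zero_iff_mem, map_sum]
    have hab : Ideal.Quotient.mk I a = Ideal.Quotient.mk I b := by
      rw [Ideal.Quotient.eq]; exact h1
    have h3 : ∀ j ∈ Finset.range p, Ideal.Quotient.mk I (a ^ j * b ^ (p - 1 - j)) =
        Ideal.Quotient.mk I b ^ (p - 1) := by
      intro j hj
      rw [map_mul, map_pow, map_pow, hab, ← pow_add]
      congr 1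
      have := Finset.mem_range.1 hj
      omega
    rw [Finset.sum_congr rfl h3, Finset.sum_const, Finset.card_range, nsmul_eq_mul]
    have h4 : (p : R ⧸ I) = 0 := by
      have := (Ideal.Quotient.eq_zero_iff_mem (I := I)).2 hp
      rwa [map_natCast] at this
    rw [h4, zero_mul]
  have h5 : a ^ p - b ^ p = (∑ j ∈ Finset.range p, a ^ j * b ^ (p - 1 - j)) * (a - b) :=
    (Commute.geom_sum₂_mul (Commute.all a b) p).symm
  rw [h5, pow_succ', ]
  exact Ideal.mul_mem_mul h2 h

variable {O : Type*} [CommRing O] {σ : Type*} (lam : O) (p : ℕ)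

/-- the generators `(1 + X_i) ^ (p ^ n) - (1 - X_i) ^ (p ^ n)`. -/
noncomputable def twGen (n : ℕ) (i : σ) : MvPowerSeries σ O :=
  (1 + X i) ^ (p ^ n) - (1 - X i) ^ (p ^ n)

/-- **the Taylor–Wiles chain.** -/
noncomputable def twChain (n : ℕ) : Ideal (MvPowerSeries σ O) :=
  box lam σ n ⊔ Ideal.span (Set.range (twGen (O := O) (σ := σ) p n))

theorem box_le_twChain (n : ℕ) : box lam σ n ≤ twChain lam p n := le_sup_left

theorem twGen_mem_twChain (n : ℕ) (i : σ) : twGen (O := O) p n i ∈ twChain lam p n :=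
  le_sup_right (α := Ideal (MvPowerSeries σ O)) (Ideal.subset_span ⟨i, rfl⟩)

theorem twChain_antitone : Antitone (twChain (O := O) (σ := σ) lam p) := by
  refine antitone_nat_of_succ_le fun n => ?_
  refine sup_le_sup (box_antitone lam (Nat.le_succ n)) (Ideal.span_le.2 ?_)
  rintro _ ⟨i, rfl⟩
  have h1 : twGen (O := O) p (n + 1) i =
      ((1 + X i : MvPowerSeries σ O) ^ (p ^ n)) ^ p - ((1 - X i) ^ (p ^ n)) ^ p := by
    rw [twGen, ← pow_mul, ← pow_mul, ← pow_succ]
  rw [h1]
  have h2 : ((1 + X i : MvPowerSeries σ O) ^ (p ^ n)) ^ p - ((1 - X i) ^ (p ^ n)) ^ p ∈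
      Ideal.span {twGen (O := O) p n i} :=
    Ideal.mem_span_singleton.2 (sub_dvd_pow_sub_pow _ _ p)
  have h3 : ({twGen (O := O) p n i} : Set (MvPowerSeries σ O)) ⊆
      Set.range (twGen (O := O) (σ := σ) p n) := Set.singleton_subset_iff.2 ⟨i, rfl⟩
  exact Ideal.span_mono h3 h2

section Local

variable [IsLocalRing O]

theorem X_mem_maximalIdeal (i : σ) : (X i : MvPowerSeries σ O) ∈ maximalIdeal (MvPowerSeries σ O) :=
  varI_le_maximalIdeal (Ideal.subset_span ⟨i, rfl⟩)

/-- the generators are deep in the maximal ideal. -/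
theorem twGen_mem_pow (hp : (p : O) ∈ maximalIdeal O) (n : ℕ) (i : σ) :
    twGen (O := O) p n i ∈ maximalIdeal (MvPowerSeries σ O) ^ (n + 1) := by
  have hpS : (p : MvPowerSeries σ O) ∈ maximalIdeal (MvPowerSeries σ O) := by
    rw [Fermat.Agent.S53.mem_maximalIdeal_iff_constantCoeff, map_natCast]
    exact hp
  induction n with
  | zero =>
    rw [twGen, pow_zero, pow_one, pow_one, pow_one]
    have : (1 + X i : MvPowerSeries σ O) - (1 - X i) = X i + X i := by ring
    rw [this]
    exact Ideal.add_mem _ (X_mem_maximalIdeal i) (X_mem_maximalIdeal i)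
  | succ n ih =>
    have h1 : twGen (O := O) p (n + 1) i =
        ((1 + X i : MvPowerSeries σ O) ^ (p ^ n)) ^ p - ((1 - X i) ^ (p ^ n)) ^ p := by
      rw [twGen, ← pow_mul, ← pow_mul, ← pow_succ]
    rw [h1]
    exact pow_sub_pow_mem _ p hpS (by omega) ih

variable [Finite σ]

theorem twChain_le_box (hlam : maximalIdeal O = Ideal.span {lam}) (hp : (p : O) ∈ maximalIdeal O)
    (M : ℕ) : twChain (O := O) (σ := σ) lam p (M + M) ≤ box lam σ M := by
  refine sup_le (box_antitone lam (by omega)) (Ideal.span_le.2 ?_)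
  rintro _ ⟨i, rfl⟩
  refine pow_add_le_box hlam M ?_
  exact Ideal.pow_le_pow_right (by omega) (twGen_mem_pow p hp (M + M) i)

/-- `O[[X]]` is the limit of its quotients by the Taylor–Wiles chain. -/
theorem isLimChain_twChain (hlam : maximalIdeal O = Ideal.span {lam})
    [IsAdicComplete (Ideal.span {lam}) O] (hp : (p : O) ∈ maximalIdeal O) :
    IsLimChain (O := O) (twChain (O := O) (σ := σ) lam p) (twChain_antitone lam p) :=
  isLimChain_of_cofinal (box_antitone lam) _ (isLimChain_box lam)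
    (fun N => ⟨N, box_le_twChain lam p N⟩) (fun M => ⟨M + M, twChain_le_box lam p hlam hp M⟩)

theorem finite_quotient_twChain [IsNoetherianRing O] [Finite (ResidueField O)]
    (hlam : maximalIdeal O = Ideal.span {lam}) (n : ℕ) :
    Finite (MvPowerSeries σ O ⧸ twChain (O := O) (σ := σ) lam p n) := by
  have := finite_quotient_box (σ := σ) hlam n
  exact Finite.of_surjective (Ideal.Quotient.factor (box_le_twChain lam p n))
    (Ideal.Quotient.factor_surjective _)

omit [IsLocalRing O] in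
/-- `haug` for the Taylor–Wiles chain. -/
theorem dvd_augS_of_mem_twChain (n : ℕ) (a : MvPowerSeries σ O) (ha : a ∈ twChain lam p n) :
    lam ^ n ∣ augS σ O a := by
  obtain ⟨b, hb, c, hc, rfl⟩ := Submodule.mem_sup.1 ha
  rw [map_add]
  refine dvd_add ?_ ?_
  · have := (mem_box_iff (lam := lam)).1 hb 0
    rcases Nat.eq_zero_or_pos n with rfl | hn
    · rw [pow_zero]; exact one_dvd _
    · exact this (by simpa using hn)
  · have hc0 : augS σ O c = 0 := by
      have hle : Ideal.span (Set.range (twGen (O := O) (σ := σ) p n)) ≤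
          RingHom.ker (augS σ O : MvPowerSeries σ O →+* O) := by
        refine Ideal.span_le.2 ?_
        rintro _ ⟨i, rfl⟩
        show augS σ O (twGen p n i) = 0
        rw [augS_apply, twGen]
        simp
      exact hle hc
    rw [hc0]
    exact dvd_zero _

omit [IsLocalRing O] in
/-- `hlam` for any chain cofinal below the boxes. -/
theorem exists_eq_smul_of_forall {𝔠 : ℕ → Ideal (MvPowerSeries σ O)}
    (h𝔠 : ∀ M, ∃ N, 𝔠 N ≤ box lam σ M) (z : MvPowerSeries σ O)
    (hz : ∀ N, ∃ w : MvPowerSeries σ O ⧸ 𝔠 N, Ideal.Quotient.mk (𝔠 N) z = lam • w) :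
    ∃ w : MvPowerSeries σ O, z = lam • w := by
  have hdvd : ∀ d : σ →₀ ℕ, lam ∣ coeff d z := by
    intro d
    obtain ⟨N, hN⟩ := h𝔠 (Finsupp.degree d + 1)
    obtain ⟨w, hw⟩ := hz N
    obtain ⟨w', rfl⟩ := Ideal.Quotient.mk_surjective w
    have h1 : z - lam • w' ∈ 𝔠 N := by
      rw [← Ideal.Quotient.eq, hw]
      rfl
    have h2 := (mem_box_iff (lam := lam)).1 (hN h1) d (Nat.lt_succ_self _)
    rw [map_sub, MvPowerSeries.coeff_smul] at h2
    have h3 : lam ∣ coeff d z - lam * coeff d w' :=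
      (dvd_pow_self lam (Nat.succ_ne_zero _)).trans h2
    have h4 := dvd_add h3 (dvd_mul_right lam (coeff d w'))
    rwa [sub_add_cancel] at h4
  choose c hc using hdvd
  let w : MvPowerSeries σ O := fun d => c d
  refine ⟨w, ?_⟩
  ext d
  rw [MvPowerSeries.coeff_smul, hc d]
  rfl

end Local

end Fermat.Agent.M43.PSChain2
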