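import Fermat.Agent.M43.PSInst2

/-!
# M43 / P-PATCH: the even subring of a power series ring

`Ev σ O` is a copy of `MvPowerSeries σ O`, over which `MvPowerSeries σ O` is an algebra through
`MvPowerSeries.expand 2` (`X_i ↦ X_i ^ 2`).  For finite `σ` this algebra is finite
(`module_finite`), injective (`expand_injective`), torsion-free (`isTorsionFree`), and a power of the
ideal of the variables lies in the ideal generated by the squares of the variables
(`varI_pow_le`).

In use: `X_i = (w_i - 1) / (w_i + 1)` for the generators `w_i` of `Δ_n`; the inversion `w ↦ w⁻¹`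
is `X ↦ -X`, and `w + w⁻¹ = 2 (1 + X ^ 2) / (1 - X ^ 2)` lies in the even subring.
-/

namespace Fermat.Agent.M43.PSEven2

open MvPowerSeries PSLim2

variable {σ : Type*} {O : Type*} [CommRing O]

/-- a copy of the power series ring: the source of `expand 2`. -/
def Ev (σ : Type*) (O : Type*) [CommRing O] : Type _ := MvPowerSeries σ O

noncomputable instance : CommRing (Ev σ O) := inferInstanceAs (CommRing (MvPowerSeries σ O))

noncomputable instance : Algebra O (Ev σ O) := inferInstanceAs (Algebra O (MvPowerSeries σ O))

instance [IsDomain O] : IsDomain (Ev σ O) :=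
  haveI : IsDomain (MvPowerSeries σ O) := NoZeroDivisors.to_isDomain _
  inferInstanceAs (IsDomain (MvPowerSeries σ O))

/-- the identification with the power series ring. -/
noncomputable def toPS : Ev σ O ≃ₐ[O] MvPowerSeries σ O := AlgEquiv.refl

/-- `X_i ↦ X_i ^ 2`. -/
noncomputable def ex : MvPowerSeries σ O →ₐ[O] MvPowerSeries σ O := expand 2 two_ne_zero

noncomputable instance : Algebra (Ev σ O) (MvPowerSeries σ O) :=
  ((ex : MvPowerSeries σ O →ₐ[O] MvPowerSeries σ O) : MvPowerSeries σ O →+* _).toAlgebra

theorem algebraMap_apply (a : Ev σ O) :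
    algebraMap (Ev σ O) (MvPowerSeries σ O) a = ex (toPS a) := rfl

theorem smul_def' (a : Ev σ O) (f : MvPowerSeries σ O) : a • f = ex (toPS a) * f := rfl

instance : IsScalarTower O (Ev σ O) (MvPowerSeries σ O) :=
  IsScalarTower.of_algebraMap_eq fun r => by
    rw [algebraMap_apply]
    show algebraMap O (MvPowerSeries σ O) r = ex (algebraMap O (MvPowerSeries σ O) r)
    rw [AlgHom.commutes]

theorem ex_injective : Function.Injective (ex : MvPowerSeries σ O →ₐ[O] MvPowerSeries σ O) := by
  intro f g h
  ext m
  have := congrArg (coeff (2 • m)) h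
  rwa [ex, coeff_expand_smul, coeff_expand_smul] at this

theorem algebraMap_injective :
    Function.Injective (algebraMap (Ev σ O) (MvPowerSeries σ O)) := ex_injective

instance isTorsionFree [IsDomain O] : Module.IsTorsionFree (Ev σ O) (MvPowerSeries σ O) := by
  have : FaithfulSMul (Ev σ O) (MvPowerSeries σ O) :=
    (faithfulSMul_iff_algebraMap_injective _ _).2 algebraMap_injective
  infer_instance

/-! ### Finiteness -/

section Finite

variable [Fintype σ] [DecidableEq σ]

/-- the exponent vector of a choice of parities. -/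
noncomputable def eOf (ε : σ → Fin 2) : σ →₀ ℕ := Finsupp.equivFunOnFinite.symm fun i => (ε i : ℕ)

omit [DecidableEq σ] in
@[simp] theorem eOf_apply (ε : σ → Fin 2) (i : σ) : eOf ε i = (ε i : ℕ) := rfl

/-- the part of `f` with exponents congruent to `ε` modulo `2`, divided by `X ^ ε` and
contracted. -/
noncomputable def part (ε : σ → Fin 2) (f : MvPowerSeries σ O) : Ev σ O :=
  fun k => coeff (2 • k + eOf ε) f

omit [DecidableEq σ] in
theorem coeff_part (ε : σ → Fin 2) (f : MvPowerSeries σ O) (k : σ →₀ ℕ) :
    coeff k (toPS (part ε f)) = coeff (2 • k + eOf ε) f := rfl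

/-- the parity vector of an exponent. -/
def parOf (m : σ →₀ ℕ) : σ → Fin 2 := fun i => ⟨m i % 2, Nat.mod_lt _ (by norm_num)⟩

/-- **the parity decomposition** -/
theorem eq_sum_part (f : MvPowerSeries σ O) :
    f = ∑ ε : σ → Fin 2, part ε f • (monomial (eOf ε) (1 : O) : MvPowerSeries σ O) := by
  classical
  ext m
  rw [map_sum]
  rw [Finset.sum_eq_single (parOf m)]
  · rw [smul_def', mul_comm, coeff_monomial_mul]
    have hle : eOf (parOf m) ≤ m := by
      intro i
      rw [eOf_apply]
      exact Nat.mod_le _ _
    rw [if_pos hle, one_mul]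
    -- `m - e = 2 • half`
    set k : σ →₀ ℕ := Finsupp.equivFunOnFinite.symm fun i => m i / 2 with hk
    have hm : m - eOf (parOf m) = 2 • k := by
      ext i
      simp only [Finsupp.coe_tsub, Pi.sub_apply, eOf_apply, Finsupp.coe_smul, Pi.smul_apply,
        smul_eq_mul, hk, Finsupp.equivFunOnFinite_symm_apply_apply, parOf]
      omega
    have hm2 : 2 • k + eOf (parOf m) = m := by
      ext i
      rw [Finsupp.add_apply, Finsupp.smul_apply, eOf_apply, hk,
        Finsupp.equivFunOnFinite_symm_apply_apply]
      simp only [parOf, smul_eq_mul]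
      omega
    rw [hm, ex, coeff_expand_smul, coeff_part, hm2]
  · intro ε _ hε
    rw [smul_def', mul_comm, coeff_monomial_mul]
    split_ifs with hle
    · rw [one_mul]
      -- some coordinate has the wrong parity
      obtain ⟨i, hi⟩ : ∃ i, ε i ≠ parOf m i := by
        by_contra hcon
        push Not at hcon
        exact hε (funext hcon)
      refine coeff_expand_of_not_dvd 2 two_ne_zero _ (i := i) ?_
      have h1 := hle i
      rw [eOf_apply] at h1
      rw [Finsupp.coe_tsub, Pi.sub_apply, eOf_apply]
      have h2 : (ε i : ℕ) < 2 := (ε i).2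
      have h3 : (ε i : ℕ) ≠ m i % 2 := by
        intro h
        apply hi
        ext
        exact h
      omega
    · rfl
  · intro h
    exact absurd (Finset.mem_univ _) h

end Finite

instance module_finite [Finite σ] : Module.Finite (Ev σ O) (MvPowerSeries σ O) := by
  classical
  cases nonempty_fintype σ
  refine ⟨⟨Finset.univ.image fun ε : σ → Fin 2 =>
    (monomial (eOf ε) (1 : O) : MvPowerSeries σ O), ?_⟩⟩
  rw [eq_top_iff]
  intro f _
  rw [eq_sum_part f]
  refine Submodule.sum_mem _ fun ε _ => Submodule.smul_mem _ _ (Submodule.subset_span ?_)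
  rw [Finset.coe_image]
  exact ⟨ε, Finset.mem_coe.2 (Finset.mem_univ _), rfl⟩

/-! ### The ideal of the variables -/

/-- a power of the ideal of the variables lies in the ideal generated by their squares. -/
theorem iSup_pow_le {R : Type*} [CommRing R] {τ : Type*} (x : τ → R) (s : Finset τ) :
    (⨆ i ∈ s, Ideal.span {x i}) ^ (2 * s.card + 1) ≤ ⨆ i ∈ s, Ideal.span {x i ^ 2} := by
  classical
  induction s using Finset.induction_on with
  | empty => simp
  | insert a s ha ih =>
    rw [Finset.card_insert_of_notMem ha, Finset.iSup_insert, Finset.iSup_insert,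
      show 2 * (s.card + 1) + 1 = 2 + (2 * s.card + 1) by ring]
    refine Ideal.sup_pow_add_le_pow_sup_pow.trans (sup_le_sup ?_ ih)
    rw [Ideal.span_singleton_pow]

/-- the augmentation `X_i ↦ 0`. -/
noncomputable def augS (σ : Type*) (O : Type*) [CommRing O] : MvPowerSeries σ O →ₐ[O] O :=
  { (constantCoeff : MvPowerSeries σ O →+* O) with
    commutes' := fun r => by
      show constantCoeff (algebraMap O (MvPowerSeries σ O) r) = algebraMap O O r
      rw [MvPowerSeries.algebraMap_apply, constantCoeff_C] }

theorem augS_apply (f : MvPowerSeries σ O) : augS σ O f = constantCoeff f := rfl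

theorem ker_augS [Finite σ] : RingHom.ker (augS σ O : MvPowerSeries σ O →+* O) = varI O σ := by
  ext f
  rw [RingHom.mem_ker, PSInst2.mem_varI_iff]
  rfl

/-- **the augmentation ideal is nilpotent modulo the augmentation ideal of the even subring** -/
theorem exists_ker_pow_le [Finite σ] :
    ∃ e : ℕ, RingHom.ker (augS σ O : MvPowerSeries σ O →+* O) ^ e ≤
      (RingHom.ker ((augS σ O : MvPowerSeries σ O →+* O).comp
        (algebraMap (Ev σ O) (MvPowerSeries σ O)))).map
        (algebraMap (Ev σ O) (MvPowerSeries σ O)) := by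
  classical
  cases nonempty_fintype σ
  refine ⟨2 * (Finset.univ : Finset σ).card + 1, ?_⟩
  rw [ker_augS]
  have h1 : varI O σ =
      ⨆ i ∈ (Finset.univ : Finset σ), Ideal.span {(X i : MvPowerSeries σ O)} := by
    apply le_antisymm
    · refine Ideal.span_le.2 ?_
      rintro _ ⟨i, rfl⟩
      exact (le_iSup₂ (f := fun i (_ : i ∈ (Finset.univ : Finset σ)) =>
        Ideal.span {(X i : MvPowerSeries σ O)}) i (Finset.mem_univ i)) (Ideal.subset_span rfl)
    · refine iSup₂_le fun i _ => Ideal.span_mono ?_
      rintro _ rfl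
      exact ⟨i, rfl⟩
  rw [h1]
  refine (iSup_pow_le (fun i => (X i : MvPowerSeries σ O)) Finset.univ).trans ?_
  refine iSup₂_le fun i _ => ?_
  rw [Ideal.span_singleton_le_iff_mem]
  have h2 : (X i : MvPowerSeries σ O) ^ 2 =
      algebraMap (Ev σ O) (MvPowerSeries σ O) (toPS.symm (X i)) := by
    rw [algebraMap_apply, AlgEquiv.apply_symm_apply, ex, expand_X]
  rw [h2]
  refine Ideal.mem_map_of_mem _ ?_
  rw [RingHom.mem_ker, RingHom.comp_apply, ← h2]
  show constantCoeff ((X i : MvPowerSeries σ O) ^ 2) = 0
  simp

end Fermat.Agent.M43.PSEven2
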