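import Fermat.Agent.M43.PSLim2
import Fermat.Agent.M43.Cont2
import Fermat.Agent.S53.PowerSeries

/-!
# M43 / P-PATCH: the concrete chains of ideals of the power series rings

`O` is a noetherian local ring with maximal ideal `(lam)`, complete, with finite residue field.
* `isLimChain_maxPow`: `MvPowerSeries σ O` is the limit of its quotients by `𝔪 ^ (E N)`;
* `twChain`: the Taylor-Wiles chain `(lam ^ N) + (X) ^ N + ((1 + X_i) ^ (p ^ N) - 1)_i` of
  `O[[X_1..X_r]]`, with all the properties the patching theorem asks for.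
-/

namespace Fermat.Agent.M43.PSInst2

open MvPowerSeries IsLocalRing PSLim2 Thread2

variable {O : Type*} [CommRing O] [IsLocalRing O] {lam : O}
variable {σ : Type*}

theorem C_lam_mem_maximalIdeal (hlam : maximalIdeal O = Ideal.span {lam}) :
    (C lam : MvPowerSeries σ O) ∈ maximalIdeal (MvPowerSeries σ O) := by
  rw [Fermat.Agent.S53.mem_maximalIdeal_iff_constantCoeff, constantCoeff_C, hlam]
  exact Ideal.mem_span_singleton_self lam

theorem varI_le_maximalIdeal : varI O σ ≤ maximalIdeal (MvPowerSeries σ O) :=
  Fermat.Agent.S53.varIdeal_le_maximalIdeal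

theorem box_le_pow (hlam : maximalIdeal O = Ideal.span {lam}) (M : ℕ) :
    box lam σ M ≤ maximalIdeal (MvPowerSeries σ O) ^ M := by
  refine sup_le ?_ (Ideal.pow_right_mono varI_le_maximalIdeal M)
  rw [Ideal.span_singleton_le_iff_mem, map_pow]
  exact Ideal.pow_mem_pow (C_lam_mem_maximalIdeal hlam) M

variable [Finite σ]

omit [IsLocalRing O] in
theorem mem_varI_iff {f : MvPowerSeries σ O} : f ∈ varI O σ ↔ constantCoeff f = 0 := by
  constructor
  · intro hf
    exact Fermat.Agent.S53.constantCoeff_eq_zero_of_mem_varIdeal hf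
  · intro hf
    have h1 := Fermat.Agent.S53.sub_truncTotal_mem_pow_span_X (𝒪 := O) 1 f
    have h2 : truncTotal 1 f = 0 := by
      ext d
      rw [MvPolynomial.coeff_zero]
      by_cases hd : Finsupp.degree d < 1
      · rw [coeff_truncTotal _ hd]
        have hd0 : d = 0 := by
          have : Finsupp.degree d = 0 := by omega
          simpa using (Finsupp.degree_eq_zero_iff d).1 this
        subst hd0
        simpa using hf
      · rw [coeff_truncTotal_eq_zero _ (not_lt.1 hd)]
    rw [h2, MvPolynomial.coe_zero, sub_zero, pow_one] at h1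
    exact h1

theorem maximalIdeal_eq (hlam : maximalIdeal O = Ideal.span {lam}) :
    maximalIdeal (MvPowerSeries σ O) = Ideal.span {(C lam : MvPowerSeries σ O)} ⊔ varI O σ := by
  apply le_antisymm
  · intro f hf
    rw [Fermat.Agent.S53.mem_maximalIdeal_iff_constantCoeff, hlam, Ideal.mem_span_singleton] at hf
    obtain ⟨c, hc⟩ := hf
    have h1 : f = C lam * C c + (f - C (constantCoeff f)) := by
      rw [hc, map_mul]; ring
    rw [h1]
    refine Submodule.add_mem_sup (Ideal.mem_span_singleton.2 (dvd_mul_right _ _)) ?_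
    rw [mem_varI_iff, map_sub, constantCoeff_C, sub_self]
  · exact sup_le ((Ideal.span_singleton_le_iff_mem _).2 (C_lam_mem_maximalIdeal hlam))
      varI_le_maximalIdeal

theorem pow_add_le_box (hlam : maximalIdeal O = Ideal.span {lam}) (M : ℕ) :
    maximalIdeal (MvPowerSeries σ O) ^ (M + M) ≤ box lam σ M := by
  rw [maximalIdeal_eq hlam]
  refine Ideal.sup_pow_add_le_pow_sup_pow.trans ?_
  rw [Ideal.span_singleton_pow, ← map_pow]
  exact le_refl _

/-- `MvPowerSeries σ O` is the limit of its quotients by powers of the maximal ideal. -/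
theorem isLimChain_maxPow (hlam : maximalIdeal O = Ideal.span {lam})
    [IsAdicComplete (Ideal.span {lam}) O] (E : ℕ → ℕ) (hE : Monotone E) (hE' : ∀ N, N ≤ E N) :
    IsLimChain (O := O) (fun N => maximalIdeal (MvPowerSeries σ O) ^ E N)
      (fun _ _ h => Ideal.pow_le_pow_right (hE h)) := by
  refine isLimChain_of_cofinal (box_antitone lam) _ (isLimChain_box lam)
    (fun N => ⟨E N, box_le_pow hlam (E N)⟩) (fun M => ⟨M + M, ?_⟩)
  exact (Ideal.pow_le_pow_right (hE' (M + M))).trans (pow_add_le_box hlam M)

variable [IsNoetherianRing O] [Finite (ResidueField O)]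

theorem finite_quotient_box (hlam : maximalIdeal O = Ideal.span {lam}) (M : ℕ) :
    Finite (MvPowerSeries σ O ⧸ box lam σ M) := by
  have := Fermat.Agent.S53.finite_quotient_maximalIdeal_pow (𝒪 := O) (σ := σ) (M + M)
  exact Finite.of_surjective (Ideal.Quotient.factor (pow_add_le_box hlam M))
    (Ideal.Quotient.factor_surjective _)

end Fermat.Agent.M43.PSInst2
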