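import Fermat.Agent.M43.Thread2
import Fermat.Agent.S53.EvalNilp

/-!
# M43 / P-PATCH: power series rings over a complete base are limits of their finite quotients

* `isLim_of_cofinal`: the limit property passes to a cofinal chain of ideals;
* `isLim_box`: `MvPowerSeries σ O` (`σ` finite, `O` complete for the `lam`-adic topology) is the
  limit of its quotients by `box lam M = (lam ^ M) + (X) ^ M`.
-/

namespace Fermat.Agent.M43.PSLim2

open Thread2

variable {O : Type*} [CommRing O]

/-! ### Chains of ideals -/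

section Chain

variable {A : Type*} [CommRing A] [Algebra O A]

/-- The limit property of a ring with respect to an antitone chain of ideals. -/
def IsLimChain (𝔞 : ℕ → Ideal A) (h𝔞 : Antitone 𝔞) : Prop :=
  IsLim (fun N => Ideal.Quotient.mkₐ O (𝔞 N))
    (fun N => Ideal.Quotient.factorₐ O (h𝔞 (Nat.le_succ N)))

theorem thread_le {𝔞 : ℕ → Ideal A} (h𝔞 : Antitone 𝔞) (t : ∀ N, A ⧸ 𝔞 N)
    (ht : ∀ N, Ideal.Quotient.factor (h𝔞 (Nat.le_succ N)) (t (N + 1)) = t N) {N N' : ℕ}
    (h : N ≤ N') : Ideal.Quotient.factor (h𝔞 h) (t N') = t N := by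
  induction N', h using Nat.le_induction with
  | base =>
    obtain ⟨x, hx⟩ := Ideal.Quotient.mk_surjective (t N)
    rw [← hx, Ideal.Quotient.factor_mk]
  | succ k hk ih =>
    rw [← ih, ← ht k, Ideal.Quotient.factor_comp_apply]

theorem isLimChain_iff {𝔞 : ℕ → Ideal A} (h𝔞 : Antitone 𝔞) :
    IsLimChain (O := O) 𝔞 h𝔞 ↔
      (∀ a : A, (∀ N, a ∈ 𝔞 N) → a = 0) ∧
      ∀ t : ∀ N, A ⧸ 𝔞 N,
        (∀ N, Ideal.Quotient.factor (h𝔞 (Nat.le_succ N)) (t (N + 1)) = t N) →
        ∃ a : A, ∀ N, Ideal.Quotient.mk (𝔞 N) a = t N := by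
  constructor
  · intro h
    refine ⟨fun a ha => ?_, fun t ht => h.complete t ht⟩
    refine h.sep a 0 fun N => ?_
    show Ideal.Quotient.mk (𝔞 N) a = Ideal.Quotient.mk (𝔞 N) 0
    rw [map_zero, Ideal.Quotient.eq_zero_iff_mem]
    exact ha N
  · rintro ⟨h1, h2⟩
    refine ⟨fun N a => rfl, fun a b hab => ?_, fun t ht => h2 t ht⟩
    rw [← sub_eq_zero]
    refine h1 _ fun N => ?_
    rw [← Ideal.Quotient.eq]
    exact hab N

/-- The limit property passes to a cofinal chain. -/
theorem isLimChain_of_cofinal {𝔟 𝔠 : ℕ → Ideal A} (h𝔟 : Antitone 𝔟) (h𝔠 : Antitone 𝔠)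
    (hb : IsLimChain (O := O) 𝔟 h𝔟) (h1 : ∀ N, ∃ M, 𝔟 M ≤ 𝔠 N) (h2 : ∀ M, ∃ N, 𝔠 N ≤ 𝔟 M) :
    IsLimChain (O := O) 𝔠 h𝔠 := by
  rw [isLimChain_iff] at hb ⊢
  obtain ⟨hsep, hcomp⟩ := hb
  refine ⟨fun a ha => hsep a fun M => ?_, fun t ht => ?_⟩
  · obtain ⟨N, hN⟩ := h2 M
    exact hN (ha N)
  · choose Nf hNf using h2
    -- the induced thread over `𝔟`
    let u : ∀ M, A ⧸ 𝔟 M := fun M => Ideal.Quotient.factor (hNf M) (t (Nf M))
    have key : ∀ (M K : ℕ) (hK : Nf M ≤ K), u M =
        Ideal.Quotient.factor ((h𝔠 hK).trans (hNf M)) (t K) := by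
      intro M K hK
      show Ideal.Quotient.factor (hNf M) (t (Nf M)) = _
      rw [← thread_le h𝔠 t ht hK, Ideal.Quotient.factor_comp_apply]
    have hu : ∀ M, Ideal.Quotient.factor (h𝔟 (Nat.le_succ M)) (u (M + 1)) = u M := by
      intro M
      rw [key M (max (Nf M) (Nf (M + 1))) (le_max_left _ _),
        key (M + 1) (max (Nf M) (Nf (M + 1))) (le_max_right _ _),
        Ideal.Quotient.factor_comp_apply]
    obtain ⟨a, ha⟩ := hcomp u hu
    refine ⟨a, fun N => ?_⟩
    obtain ⟨M, hM⟩ := h1 N
    obtain ⟨y, hy⟩ := Ideal.Quotient.mk_surjective (t (max N (Nf M)))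
    have hyN : Ideal.Quotient.mk (𝔠 N) y = t N := by
      rw [← thread_le h𝔠 t ht (le_max_left N (Nf M)), ← hy, Ideal.Quotient.factor_mk]
    have hyM : Ideal.Quotient.mk (𝔟 M) y = u M := by
      rw [key M (max N (Nf M)) (le_max_right _ _), ← hy, Ideal.Quotient.factor_mk]
    rw [← hyN, Ideal.Quotient.eq]
    apply hM
    rw [← Ideal.Quotient.eq, ha M, hyM]

end Chain

/-! ### The box ideals of a power series ring -/

section Box

open MvPowerSeries

variable {σ : Type*} (lam : O)

/-- The ideal of variables. -/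
noncomputable abbrev varI (O : Type*) [CommRing O] (σ : Type*) : Ideal (MvPowerSeries σ O) :=
  Ideal.span (Set.range (X : σ → MvPowerSeries σ O))

/-- The box ideals `(lam ^ M) + (X) ^ M`. -/
noncomputable def box (σ : Type*) (M : ℕ) : Ideal (MvPowerSeries σ O) :=
  Ideal.span {(C (lam ^ M) : MvPowerSeries σ O)} ⊔ varI O σ ^ M

theorem box_antitone : Antitone (box lam σ) := by
  refine antitone_nat_of_succ_le fun M => ?_
  refine sup_le_sup ?_ (Ideal.pow_le_pow_right (Nat.le_succ M))
  rw [Ideal.span_singleton_le_iff_mem, Ideal.mem_span_singleton]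
  exact ⟨C lam, by rw [← map_mul, pow_succ]⟩

theorem one_le_order_of_mem_varI {h : MvPowerSeries σ O} (hh : h ∈ varI O σ) : 1 ≤ h.order := by
  classical
  refine Submodule.span_induction ?_ ?_ ?_ ?_ hh
  · rintro _ ⟨i, rfl⟩
    refine MvPowerSeries.le_order fun d hd => ?_
    have hd0 : d = 0 := by
      have : Finsupp.degree d = 0 := by
        have := hd
        simp only [Nat.cast_lt_one] at this
        exact this
      simpa using (Finsupp.degree_eq_zero_iff d).1 this
    subst hd0
    rw [MvPowerSeries.coeff_zero_X]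
  · rw [MvPowerSeries.order_zero]; exact le_top
  · intro a b _ _ ha hb
    exact (le_min ha hb).trans MvPowerSeries.min_order_le_add
  · intro a b _ hb
    rw [smul_eq_mul]
    exact hb.trans ((le_add_self).trans MvPowerSeries.le_order_mul)

theorem le_order_of_mem_varI_pow (M : ℕ) {h : MvPowerSeries σ O} (hh : h ∈ varI O σ ^ M) :
    (M : ℕ∞) ≤ h.order := by
  induction M generalizing h with
  | zero => simp
  | succ M ih =>
    rw [pow_succ'] at hh
    refine Submodule.mul_induction_on hh ?_ ?_
    · intro a ha b hb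
      have h1 := one_le_order_of_mem_varI ha
      have h2 := ih hb
      calc ((M + 1 : ℕ) : ℕ∞) = 1 + M := by push_cast; rw [add_comm]
        _ ≤ a.order + b.order := add_le_add h1 h2
        _ ≤ (a * b).order := MvPowerSeries.le_order_mul
    · intro a b ha hb
      exact (le_min ha hb).trans MvPowerSeries.min_order_le_add

theorem coeff_eq_zero_of_mem_varI_pow {M : ℕ} {h : MvPowerSeries σ O} (hh : h ∈ varI O σ ^ M)
    {d : σ →₀ ℕ} (hd : Finsupp.degree d < M) : coeff d h = 0 := by
  refine MvPowerSeries.coeff_of_lt_order ?_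
  exact lt_of_lt_of_le (by exact_mod_cast hd) (le_order_of_mem_varI_pow M hh)

variable [Finite σ]

theorem mem_box_iff {M : ℕ} {f : MvPowerSeries σ O} :
    f ∈ box lam σ M ↔ ∀ d : σ →₀ ℕ, Finsupp.degree d < M → lam ^ M ∣ coeff d f := by
  classical
  constructor
  · intro hf d hd
    obtain ⟨a, ha, h, hh, rfl⟩ := Submodule.mem_sup.1 hf
    obtain ⟨g, rfl⟩ := Ideal.mem_span_singleton.1 ha
    rw [map_add, coeff_eq_zero_of_mem_varI_pow hh hd, add_zero, MvPowerSeries.coeff_C_mul]
    exact dvd_mul_right _ _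
  · intro hf
    choose c hc using fun d : σ →₀ ℕ => fun hd : Finsupp.degree d < M => hf d hd
    let g : MvPowerSeries σ O := fun d => if hd : Finsupp.degree d < M then c d hd else 0
    have hg : ∀ d, coeff d g = if hd : Finsupp.degree d < M then c d hd else 0 := fun d => rfl
    set h : MvPowerSeries σ O := f - C (lam ^ M) * g with hh
    have htr : truncTotal M h = 0 := by
      ext d
      rw [MvPolynomial.coeff_zero]
      by_cases hd : Finsupp.degree d < M
      · rw [coeff_truncTotal _ hd, hh, map_sub, MvPowerSeries.coeff_C_mul, hg, dif_pos hd,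
          ← hc d hd, sub_self]
      · rw [coeff_truncTotal_eq_zero _ (not_lt.1 hd)]
    have hmem : h ∈ varI O σ ^ M := by
      have := Fermat.Agent.S53.sub_truncTotal_mem_pow_span_X (𝒪 := O) M h
      rwa [htr, MvPolynomial.coe_zero, sub_zero] at this
    have hf' : f = C (lam ^ M) * g + h := by rw [hh]; ring
    rw [hf']
    exact Submodule.add_mem_sup (Ideal.mem_span_singleton.2 (dvd_mul_right _ _)) hmem

/-- **A power series ring over a `lam`-adically complete base is the limit of its box
quotients.** -/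
theorem isLimChain_box [IsAdicComplete (Ideal.span {lam}) O] :
    IsLimChain (O := O) (box lam σ) (box_antitone lam) := by
  classical
  rw [isLimChain_iff]
  have hdvd : ∀ (n : ℕ) (a : O), a ∈ (Ideal.span {lam} ^ n • ⊤ : Submodule O O) ↔ lam ^ n ∣ a := by
    intro n a
    rw [smul_eq_mul, Ideal.mul_top, Ideal.span_singleton_pow, Ideal.mem_span_singleton]
  constructor
  · intro a ha
    ext d
    rw [map_zero]
    refine IsHausdorff.haus (inferInstance : IsHausdorff (Ideal.span {lam}) O) _ fun n => ?_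
    rw [SModEq.sub_mem, sub_zero, hdvd]
    have h1 := (mem_box_iff lam).1 (ha (max n (Finsupp.degree d + 1))) d
      (lt_of_lt_of_le (Nat.lt_succ_self _) (le_max_right _ _))
    exact (pow_dvd_pow lam (le_max_left _ _)).trans h1
  · intro t ht
    choose x hx using fun M => Ideal.Quotient.mk_surjective (t M)
    have hxx : ∀ {K K' : ℕ}, K ≤ K' → x K' - x K ∈ box lam σ K := by
      intro K K' hKK'
      rw [← Ideal.Quotient.eq, hx K, ← thread_le (box_antitone lam) t ht hKK', ← hx K',
        Ideal.Quotient.factor_mk]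
    -- the coefficientwise limits
    have hex : ∀ d : σ →₀ ℕ, ∃ l : O, ∀ k,
        lam ^ k ∣ coeff d (x (k + Finsupp.degree d + 1)) - l := by
      intro d
      obtain ⟨l, hl⟩ := IsPrecomplete.prec (inferInstance : IsPrecomplete (Ideal.span {lam}) O)
        (f := fun k => coeff d (x (k + Finsupp.degree d + 1))) (by
          intro m n hmn
          rw [SModEq.sub_mem, hdvd]
          have h1 := (mem_box_iff lam).1
            (hxx (show m + Finsupp.degree d + 1 ≤ n + Finsupp.degree d + 1 by omega)) d (by omega)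
          rw [map_sub] at h1
          have h2 : lam ^ m ∣ coeff d (x (m + Finsupp.degree d + 1)) -
              coeff d (x (n + Finsupp.degree d + 1)) := by
            rw [← neg_sub]
            exact (dvd_neg.2 ((pow_dvd_pow lam (by omega)).trans h1))
          exact h2)
      refine ⟨l, fun k => ?_⟩
      have := hl k
      rwa [SModEq.sub_mem, hdvd] at this
    choose l hl using hex
    refine ⟨(fun d => l d : MvPowerSeries σ O), fun N => ?_⟩
    rw [← hx N, Ideal.Quotient.eq, mem_box_iff]
    intro d hd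
    have h1 : lam ^ N ∣ coeff d (x (N + Finsupp.degree d + 1)) - l d := hl d N
    have h2 := (mem_box_iff lam).1
      (hxx (show N ≤ N + Finsupp.degree d + 1 by omega)) d hd
    rw [map_sub] at h2 ⊢
    have h3 : coeff d (fun d => l d : MvPowerSeries σ O) = l d := rfl
    rw [h3]
    have h4 : l d - coeff d (x N) =
        -(coeff d (x (N + Finsupp.degree d + 1)) - l d) +
          (coeff d (x (N + Finsupp.degree d + 1)) - coeff d (x N)) := by ring
    rw [h4]
    exact dvd_add (dvd_neg.2 h1) h2

end Box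

end Fermat.Agent.M43.PSLim2
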