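import Fermat.Agent.M43.Thread2

/-!
# M43 / P-PATCH: the patching theorem in matrix form (abstract, Mathlib only)

Finite-level data (`Datum`) for all `n` are patched, along a non-principal ultrafilter, to
limit data over `S` (`exists_patched`).
-/

namespace Fermat.Agent.M43.PatchLimit2

open Filter Thread2

/-! ### Generic threads in towers of finite sets -/

section Generic

variable {X : ℕ → Type*} [∀ N, Finite (X N)] (r : ∀ {N n : ℕ}, N ≤ n → X n → X N)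
  (x : ∀ n, X n)

/-- The thread extracted from a sequence of elements `x n : X n` of a tower of finite sets. -/
noncomputable def thr (N : ℕ) : X N :=
  ulim (fun n => if h : N ≤ n then r h (x n) else r le_rfl (x N))

theorem thr_spec (N : ℕ) :
    ∀ᶠ n in (hyperfilter ℕ : Filter ℕ), ∃ h : N ≤ n, thr r x N = r h (x n) := by
  filter_upwards [ulim_spec (fun n => if h : N ≤ n then r h (x n) else r le_rfl (x N)),
    ge_mem_hyper N] with n h1 h2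
  refine ⟨h2, ?_⟩
  rw [thr, ← h1, dif_pos h2]

theorem thr_compat
    (hr : ∀ {N M n : ℕ} (h1 : N ≤ M) (h2 : M ≤ n) (y : X n), r h1 (r h2 y) = r (h1.trans h2) y)
    (N : ℕ) : r (Nat.le_succ N) (thr r x (N + 1)) = thr r x N := by
  obtain ⟨n, ⟨h1, e1⟩, ⟨h2, e2⟩⟩ := ((thr_spec r x N).and (thr_spec r x (N + 1))).exists
  rw [e1, e2, hr]

end Generic

/-! ### The data -/

variable {O : Type*} [CommRing O] (lam : O)
variable {S₀ : Type*} [CommRing S₀] [Algebra O S₀]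
variable {S : Type*} [CommRing S] [Algebra O S] {P : Type*} [CommRing P] [Algebra O P]
variable (ι : S₀ →ₐ[O] S)
variable (𝔠 : ℕ → Ideal S) (𝔭 : ℕ → Ideal P) (d : ℕ)

variable (O S₀) in
/-- The finite-level datum. The ring `S₀` (in use: the subring `O[[v_1^2..v_r^2]]` of
`S = O[[v_1..v_r]]`, embedded by `ι`) is the part of `S` that acts through `P`. -/
structure SubDatum (n : ℕ) where
  /-- the action on the `1`-side -/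
  α1 : P →ₐ[O] Matrix (Fin d) (Fin d) (S ⧸ 𝔠 n)
  /-- the action on the `χ`-side -/
  αχ : P →ₐ[O] Matrix (Fin d) (Fin d) (S ⧸ 𝔠 n)
  /-- `S₀` acts through `P`, `1`-side -/
  σ1 : S₀ →ₐ[O] P ⧸ 𝔭 n
  /-- `S₀` acts through `P`, `χ`-side -/
  σχ : S₀ →ₐ[O] P ⧸ 𝔭 n
  /-- the intertwiner modulo `lam` -/
  θ : Matrix (Fin d) (Fin d) (S ⧸ 𝔠 n)
  /-- its inverse -/
  θ' : Matrix (Fin d) (Fin d) (S ⧸ 𝔠 n)

variable {𝔠 𝔭 d}

/-- One side of a datum is good. -/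
structure SideGood (J : Ideal P) (aug : S →ₐ[O] O) (F : P → Set (Matrix (Fin d) (Fin d) O))
    (n : ℕ) (α : P →ₐ[O] Matrix (Fin d) (Fin d) (S ⧸ 𝔠 n)) (σ : S₀ →ₐ[O] P ⧸ 𝔭 n) : Prop where
  kills : ∀ x ∈ J, α x = 0
  through : ∀ (s : S₀) (x : P), Ideal.Quotient.mk (𝔭 n) x = σ s →
    α x = Matrix.scalar (Fin d) (Ideal.Quotient.mk (𝔠 n) (ι s))
  aug : ∀ (x : P) (A : Matrix (Fin d) (Fin d) S),
    (Ideal.Quotient.mkₐ O (𝔠 n)).mapMatrix (m := Fin d) A = α x →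
    ∃ m ∈ F x, ∀ i j, lam ^ n ∣ aug (A i j) - m i j

/-- The two sides are intertwined modulo `lam`. -/
structure TwGood (n : ℕ) (α1 αχ : P →ₐ[O] Matrix (Fin d) (Fin d) (S ⧸ 𝔠 n))
    (θ θ' : Matrix (Fin d) (Fin d) (S ⧸ 𝔠 n)) : Prop where
  inv : θ * θ' = 1
  tw : ∀ x : P, ∃ Z : Matrix (Fin d) (Fin d) (S ⧸ 𝔠 n), θ * α1 x - αχ x * θ = lam • Z

/-- A datum is good. -/
structure SubDatum.IsGood (J1 Jχ : Ideal P) (aug : S →ₐ[O] O)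
    (F1 Fχ : P → Set (Matrix (Fin d) (Fin d) O)) {n : ℕ} (D : SubDatum O S₀ 𝔠 𝔭 d n) : Prop where
  side1 : SideGood lam ι J1 aug F1 n D.α1 D.σ1
  sideχ : SideGood lam ι Jχ aug Fχ n D.αχ D.σχ
  tw : TwGood lam n D.α1 D.αχ D.θ D.θ'

/-- The classical datum: all of `S` acts through `P`. -/
abbrev Datum (O : Type*) [CommRing O] {S : Type*} [CommRing S] [Algebra O S] {P : Type*}
    [CommRing P] [Algebra O P] (𝔠 : ℕ → Ideal S) (𝔭 : ℕ → Ideal P) (d n : ℕ) : Type _ :=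
  SubDatum O S 𝔠 𝔭 d n

/-- A classical datum is good. -/
def Datum.IsGood (J1 Jχ : Ideal P) (aug : S →ₐ[O] O)
    (F1 Fχ : P → Set (Matrix (Fin d) (Fin d) O)) {n : ℕ} (D : Datum O 𝔠 𝔭 d n) : Prop :=
  SubDatum.IsGood lam (AlgHom.id O S) J1 Jχ aug F1 Fχ D

/-! ### Restrictions -/

section Res

variable (h𝔠 : Antitone 𝔠) (h𝔭 : Antitone 𝔭)

/-- restriction of an action -/
noncomputable def resα {N n : ℕ} (h : N ≤ n) (α : P →ₐ[O] Matrix (Fin d) (Fin d) (S ⧸ 𝔠 n)) :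
    P →ₐ[O] Matrix (Fin d) (Fin d) (S ⧸ 𝔠 N) :=
  ((Ideal.Quotient.factorₐ O (h𝔠 h)).mapMatrix (m := Fin d)).comp α

/-- restriction of a structure map -/
noncomputable def resσ {N n : ℕ} (h : N ≤ n) (σ : S₀ →ₐ[O] P ⧸ 𝔭 n) : S₀ →ₐ[O] P ⧸ 𝔭 N :=
  (Ideal.Quotient.factorₐ O (h𝔭 h)).comp σ

variable (O) in
/-- restriction of a matrix -/
noncomputable def resθ {N n : ℕ} (h : N ≤ n) (θ : Matrix (Fin d) (Fin d) (S ⧸ 𝔠 n)) :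
    Matrix (Fin d) (Fin d) (S ⧸ 𝔠 N) :=
  (Ideal.Quotient.factorₐ O (h𝔠 h)).mapMatrix (m := Fin d) θ

theorem resα_apply {N n : ℕ} (h : N ≤ n) (α : P →ₐ[O] Matrix (Fin d) (Fin d) (S ⧸ 𝔠 n)) (x : P) :
    resα h𝔠 h α x = (Ideal.Quotient.factorₐ O (h𝔠 h)).mapMatrix (m := Fin d) (α x) := rfl

theorem resσ_apply {N n : ℕ} (h : N ≤ n) (σ : S₀ →ₐ[O] P ⧸ 𝔭 n) (s : S₀) :
    resσ h𝔭 h σ s = Ideal.Quotient.factorₐ O (h𝔭 h) (σ s) := rfl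

theorem resα_trans {N M n : ℕ} (h1 : N ≤ M) (h2 : M ≤ n)
    (α : P →ₐ[O] Matrix (Fin d) (Fin d) (S ⧸ 𝔠 n)) :
    resα h𝔠 h1 (resα h𝔠 h2 α) = resα h𝔠 (h1.trans h2) α := by
  ext x i j
  simp only [resα, AlgHom.comp_apply, AlgHom.mapMatrix_apply, Matrix.map_apply,
    Ideal.Quotient.factorₐ_apply, Ideal.Quotient.factor_comp_apply]

theorem resσ_trans {N M n : ℕ} (h1 : N ≤ M) (h2 : M ≤ n) (σ : S₀ →ₐ[O] P ⧸ 𝔭 n) :
    resσ h𝔭 h1 (resσ h𝔭 h2 σ) = resσ h𝔭 (h1.trans h2) σ := by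
  ext x
  simp only [resσ, AlgHom.comp_apply, Ideal.Quotient.factorₐ_apply,
    Ideal.Quotient.factor_comp_apply]

theorem resθ_trans {N M n : ℕ} (h1 : N ≤ M) (h2 : M ≤ n)
    (θ : Matrix (Fin d) (Fin d) (S ⧸ 𝔠 n)) :
    resθ O h𝔠 h1 (resθ O h𝔠 h2 θ) = resθ O h𝔠 (h1.trans h2) θ := by
  ext i j
  simp only [resθ, AlgHom.mapMatrix_apply, Matrix.map_apply,
    Ideal.Quotient.factorₐ_apply, Ideal.Quotient.factor_comp_apply]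

variable {lam ι}

theorem mapMatrix_scalar {A B : Type*} [CommRing A] [CommRing B] [Algebra O A] [Algebra O B]
    (f : A →ₐ[O] B) (a : A) :
    f.mapMatrix (m := Fin d) (Matrix.scalar (Fin d) a) = Matrix.scalar (Fin d) (f a) := by
  ext i j
  by_cases hij : i = j
  · subst hij; simp
  · simp [hij]

theorem SideGood.res {J : Ideal P} {aug : S →ₐ[O] O} {F : P → Set (Matrix (Fin d) (Fin d) O)}
    (hfac : ∀ (N : ℕ) (β : P →ₐ[O] Matrix (Fin d) (Fin d) (S ⧸ 𝔠 N)), ∀ x ∈ 𝔭 N, β x = 0)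
    (haug : ∀ N, ∀ a ∈ 𝔠 N, lam ^ N ∣ aug a)
    {N n : ℕ} (h : N ≤ n) {α : P →ₐ[O] Matrix (Fin d) (Fin d) (S ⧸ 𝔠 n)} {σ : S₀ →ₐ[O] P ⧸ 𝔭 n}
    (hg : SideGood lam ι J aug F n α σ) :
    SideGood lam ι J aug F N (resα h𝔠 h α) (resσ h𝔭 h σ) where
  kills x hx := by rw [resα_apply, hg.kills x hx, map_zero]
  through s x hx := by
    obtain ⟨x', hx'⟩ := Ideal.Quotient.mk_surjective (σ s)
    have h1 : x - x' ∈ 𝔭 N := by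
      rw [← Ideal.Quotient.eq, hx, resσ_apply, ← hx']
      rfl
    have h2 := hfac N (resα h𝔠 h α) _ h1
    rw [map_sub, sub_eq_zero] at h2
    rw [h2, resα_apply, hg.through s x' hx', mapMatrix_scalar]
    rfl
  aug x A hA := by
    choose A' hA' using fun i j => Ideal.Quotient.mk_surjective (α x i j)
    have hA'' : (Ideal.Quotient.mkₐ O (𝔠 n)).mapMatrix (m := Fin d) (Matrix.of A') = α x := by
      ext i j
      simp only [AlgHom.mapMatrix_apply, Matrix.map_apply, Matrix.of_apply]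
      exact hA' i j
    obtain ⟨m, hm, hdiv⟩ := hg.aug x (Matrix.of A') hA''
    refine ⟨m, hm, fun i j => ?_⟩
    have h1 : A i j - A' i j ∈ 𝔠 N := by
      rw [← Ideal.Quotient.eq]
      have h2 := congrFun (congrFun hA i) j
      rw [resα_apply] at h2
      simp only [AlgHom.mapMatrix_apply, Matrix.map_apply] at h2
      rw [← hA' i j] at h2
      exact h2
    have h2 := haug N _ h1
    have h3 := hdiv i j
    have h4 : lam ^ N ∣ lam ^ n := pow_dvd_pow lam h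
    have h5 : aug (A i j) - m i j = aug (A i j - A' i j) + (aug (A' i j) - m i j) := by
      rw [map_sub]; ring
    rw [h5]
    exact dvd_add h2 (h4.trans h3)

theorem TwGood.res {N n : ℕ} (h : N ≤ n) {α1 αχ : P →ₐ[O] Matrix (Fin d) (Fin d) (S ⧸ 𝔠 n)}
    {θ θ' : Matrix (Fin d) (Fin d) (S ⧸ 𝔠 n)} (hg : TwGood lam n α1 αχ θ θ') :
    TwGood lam N (resα h𝔠 h α1) (resα h𝔠 h αχ) (resθ O h𝔠 h θ) (resθ O h𝔠 h θ') where
  inv := by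
    have := congrArg ((Ideal.Quotient.factorₐ O (h𝔠 h)).mapMatrix (m := Fin d)) hg.inv
    rw [map_mul, map_one] at this
    exact this
  tw x := by
    obtain ⟨Z, hZ⟩ := hg.tw x
    refine ⟨resθ O h𝔠 h Z, ?_⟩
    have := congrArg ((Ideal.Quotient.factorₐ O (h𝔠 h)).mapMatrix (m := Fin d)) hZ
    rw [map_sub, map_mul, map_mul, map_smul] at this
    exact this

/-! ### Limits -/

variable (hS : IsLim (fun N => Ideal.Quotient.mkₐ O (𝔠 N))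
    (fun N => Ideal.Quotient.factorₐ O (h𝔠 (Nat.le_succ N))))
  (hP : IsLim (fun N => Ideal.Quotient.mkₐ O (𝔭 N))
    (fun N => Ideal.Quotient.factorₐ O (h𝔭 (Nat.le_succ N))))

include hS hP in
theorem side_limit {J : Ideal P} {aug : S →ₐ[O] O} {F : P → Set (Matrix (Fin d) (Fin d) O)}
    (hF : ∀ (x : P) (m : Matrix (Fin d) (Fin d) O),
      (∀ N, ∃ m' ∈ F x, ∀ i j, lam ^ N ∣ m i j - m' i j) → m ∈ F x)
    (tα : ∀ N, P →ₐ[O] Matrix (Fin d) (Fin d) (S ⧸ 𝔠 N)) (tσ : ∀ N, S₀ →ₐ[O] P ⧸ 𝔭 N)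
    (hcα : ∀ N, resα h𝔠 (Nat.le_succ N) (tα (N + 1)) = tα N)
    (hcσ : ∀ N, resσ h𝔭 (Nat.le_succ N) (tσ (N + 1)) = tσ N)
    (hg : ∀ N, SideGood lam ι J aug F N (tα N) (tσ N)) :
    ∃ (α : P →ₐ[O] Matrix (Fin d) (Fin d) S) (σ : S₀ →ₐ[O] P),
      (∀ N x, (Ideal.Quotient.mkₐ O (𝔠 N)).mapMatrix (m := Fin d) (α x) = tα N x) ∧
      (∀ x ∈ J, α x = 0) ∧ (∀ s, α (σ s) = Matrix.scalar (Fin d) (ι s)) ∧
      (∀ x, (α x).map aug ∈ F x) := by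
  obtain ⟨α, hα⟩ := (hS.matrix d).exists_hom tα (fun N x => DFunLike.congr_fun (hcα N) x)
  obtain ⟨σ, hσ⟩ := hP.exists_hom tσ (fun N s => DFunLike.congr_fun (hcσ N) s)
  refine ⟨α, σ, hα, ?_, ?_, ?_⟩
  · intro x hx
    refine (hS.matrix d).sep _ _ fun N => ?_
    rw [hα, (hg N).kills x hx, map_zero]
  · intro s
    refine (hS.matrix d).sep _ _ fun N => ?_
    rw [hα N (σ s), (hg N).through s (σ s) (hσ N s), mapMatrix_scalar]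
    rfl
  · intro x
    refine hF x _ fun N => ?_
    obtain ⟨m, hm, hdiv⟩ := (hg N).aug x (α x) (hα N x)
    exact ⟨m, hm, fun i j => by simpa [Matrix.map_apply] using hdiv i j⟩

include hS in
theorem tw_limit
    (hlam : ∀ z : S, (∀ N, ∃ w : S ⧸ 𝔠 N, Ideal.Quotient.mk (𝔠 N) z = lam • w) →
      ∃ w : S, z = lam • w)
    (α1 αχ : P →ₐ[O] Matrix (Fin d) (Fin d) S)
    (tα1 tαχ : ∀ N, P →ₐ[O] Matrix (Fin d) (Fin d) (S ⧸ 𝔠 N))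
    (hα1 : ∀ N x, (Ideal.Quotient.mkₐ O (𝔠 N)).mapMatrix (m := Fin d) (α1 x) = tα1 N x)
    (hαχ : ∀ N x, (Ideal.Quotient.mkₐ O (𝔠 N)).mapMatrix (m := Fin d) (αχ x) = tαχ N x)
    (tθ tθ' : ∀ N, Matrix (Fin d) (Fin d) (S ⧸ 𝔠 N))
    (hcθ : ∀ N, resθ O h𝔠 (Nat.le_succ N) (tθ (N + 1)) = tθ N)
    (hcθ' : ∀ N, resθ O h𝔠 (Nat.le_succ N) (tθ' (N + 1)) = tθ' N)
    (hg : ∀ N, TwGood lam N (tα1 N) (tαχ N) (tθ N) (tθ' N)) :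
    ∃ Θ Θ' : Matrix (Fin d) (Fin d) S, Θ * Θ' = 1 ∧
      ∀ x, ∃ Z : Matrix (Fin d) (Fin d) S, Θ * α1 x - αχ x * Θ = lam • Z := by
  obtain ⟨Θ, hΘ⟩ := (hS.matrix d).complete tθ hcθ
  obtain ⟨Θ', hΘ'⟩ := (hS.matrix d).complete tθ' hcθ'
  refine ⟨Θ, Θ', ?_, fun x => ?_⟩
  · refine (hS.matrix d).sep _ _ fun N => ?_
    rw [map_mul, map_one, hΘ, hΘ', (hg N).inv]
  · have h1 : ∀ i j, ∃ w : S, (Θ * α1 x - αχ x * Θ) i j = lam • w := by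
      intro i j
      refine hlam _ fun N => ?_
      obtain ⟨Z, hZ⟩ := (hg N).tw x
      refine ⟨Z i j, ?_⟩
      have h2 : (Ideal.Quotient.mkₐ O (𝔠 N)).mapMatrix (m := Fin d) (Θ * α1 x - αχ x * Θ) =
          lam • Z := by
        rw [map_sub, map_mul, map_mul, hΘ, hα1, hαχ, hZ]
      have := congrFun (congrFun h2 i) j
      simpa [AlgHom.mapMatrix_apply, Matrix.map_apply] using this
    choose w hw using h1
    refine ⟨Matrix.of w, ?_⟩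
    ext i j
    rw [hw i j]
    simp

include hS hP in
/-- **The patching theorem (matrix form).** -/
theorem exists_patched
    (hfinα : ∀ N, Finite (P →ₐ[O] Matrix (Fin d) (Fin d) (S ⧸ 𝔠 N)))
    (hfinσ : ∀ N, Finite (S₀ →ₐ[O] P ⧸ 𝔭 N))
    (hfinS : ∀ N, Finite (S ⧸ 𝔠 N))
    (hfac : ∀ (N : ℕ) (β : P →ₐ[O] Matrix (Fin d) (Fin d) (S ⧸ 𝔠 N)), ∀ x ∈ 𝔭 N, β x = 0)
    (hlam : ∀ z : S, (∀ N, ∃ w : S ⧸ 𝔠 N, Ideal.Quotient.mk (𝔠 N) z = lam • w) →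
      ∃ w : S, z = lam • w)
    (aug : S →ₐ[O] O) (haug : ∀ N, ∀ a ∈ 𝔠 N, lam ^ N ∣ aug a)
    (J1 Jχ : Ideal P) (F1 Fχ : P → Set (Matrix (Fin d) (Fin d) O))
    (hF1 : ∀ (x : P) (m : Matrix (Fin d) (Fin d) O),
      (∀ N, ∃ m' ∈ F1 x, ∀ i j, lam ^ N ∣ m i j - m' i j) → m ∈ F1 x)
    (hFχ : ∀ (x : P) (m : Matrix (Fin d) (Fin d) O),
      (∀ N, ∃ m' ∈ Fχ x, ∀ i j, lam ^ N ∣ m i j - m' i j) → m ∈ Fχ x)
    (D : ∀ n, SubDatum O S₀ 𝔠 𝔭 d n) (hD : ∀ n, (D n).IsGood lam ι J1 Jχ aug F1 Fχ) :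
    ∃ (α1 αχ : P →ₐ[O] Matrix (Fin d) (Fin d) S) (σ1 σχ : S₀ →ₐ[O] P)
      (Θ Θ' : Matrix (Fin d) (Fin d) S),
      (∀ x ∈ J1, α1 x = 0) ∧ (∀ x ∈ Jχ, αχ x = 0) ∧
      (∀ s, α1 (σ1 s) = Matrix.scalar (Fin d) (ι s)) ∧
      (∀ s, αχ (σχ s) = Matrix.scalar (Fin d) (ι s)) ∧
      Θ * Θ' = 1 ∧ (∀ x, ∃ Z : Matrix (Fin d) (Fin d) S, Θ * α1 x - αχ x * Θ = lam • Z) ∧
      (∀ x, (α1 x).map aug ∈ F1 x) ∧ (∀ x, (αχ x).map aug ∈ Fχ x) := by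
  classical
  -- the threads
  let rα : ∀ {N n : ℕ}, N ≤ n → (P →ₐ[O] Matrix (Fin d) (Fin d) (S ⧸ 𝔠 n)) →
      (P →ₐ[O] Matrix (Fin d) (Fin d) (S ⧸ 𝔠 N)) := fun h => resα h𝔠 h
  let rσ : ∀ {N n : ℕ}, N ≤ n → (S₀ →ₐ[O] P ⧸ 𝔭 n) → (S₀ →ₐ[O] P ⧸ 𝔭 N) := fun h => resσ h𝔭 h
  let rθ : ∀ {N n : ℕ}, N ≤ n → Matrix (Fin d) (Fin d) (S ⧸ 𝔠 n) →
      Matrix (Fin d) (Fin d) (S ⧸ 𝔠 N) := fun h => resθ O h𝔠 h
  set tα1 := thr (X := fun N => P →ₐ[O] Matrix (Fin d) (Fin d) (S ⧸ 𝔠 N)) rα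
    (fun n => (D n).α1) with htα1
  set tαχ := thr (X := fun N => P →ₐ[O] Matrix (Fin d) (Fin d) (S ⧸ 𝔠 N)) rα
    (fun n => (D n).αχ) with htαχ
  set tσ1 := thr (X := fun N => S₀ →ₐ[O] P ⧸ 𝔭 N) rσ (fun n => (D n).σ1) with htσ1
  set tσχ := thr (X := fun N => S₀ →ₐ[O] P ⧸ 𝔭 N) rσ (fun n => (D n).σχ) with htσχ
  set tθ := thr (X := fun N => Matrix (Fin d) (Fin d) (S ⧸ 𝔠 N)) rθ (fun n => (D n).θ) with htθ
  set tθ' := thr (X := fun N => Matrix (Fin d) (Fin d) (S ⧸ 𝔠 N)) rθ (fun n => (D n).θ')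
    with htθ'
  have hrα : ∀ {N M n : ℕ} (h1 : N ≤ M) (h2 : M ≤ n)
      (y : P →ₐ[O] Matrix (Fin d) (Fin d) (S ⧸ 𝔠 n)), rα h1 (rα h2 y) = rα (h1.trans h2) y :=
    fun h1 h2 y => resα_trans h𝔠 h1 h2 y
  have hrσ : ∀ {N M n : ℕ} (h1 : N ≤ M) (h2 : M ≤ n) (y : S₀ →ₐ[O] P ⧸ 𝔭 n),
      rσ h1 (rσ h2 y) = rσ (h1.trans h2) y := fun h1 h2 y => resσ_trans h𝔭 h1 h2 y
  have hrθ : ∀ {N M n : ℕ} (h1 : N ≤ M) (h2 : M ≤ n) (y : Matrix (Fin d) (Fin d) (S ⧸ 𝔠 n)),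
      rθ h1 (rθ h2 y) = rθ (h1.trans h2) y := fun h1 h2 y => resθ_trans h𝔠 h1 h2 y
  -- simultaneous realisation of the threads at level `N`
  have hsync : ∀ N, ∃ (n : ℕ) (h : N ≤ n), tα1 N = resα h𝔠 h (D n).α1 ∧
      tαχ N = resα h𝔠 h (D n).αχ ∧ tσ1 N = resσ h𝔭 h (D n).σ1 ∧ tσχ N = resσ h𝔭 h (D n).σχ ∧
      tθ N = resθ O h𝔠 h (D n).θ ∧ tθ' N = resθ O h𝔠 h (D n).θ' := by
    intro N
    obtain ⟨n, ⟨h1, e1⟩, ⟨_, e2⟩, ⟨_, e3⟩, ⟨_, e4⟩, ⟨_, e5⟩, ⟨_, e6⟩⟩ :=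
      ((thr_spec (X := fun N => P →ₐ[O] Matrix (Fin d) (Fin d) (S ⧸ 𝔠 N)) rα
          (fun n => (D n).α1) N).and
        ((thr_spec (X := fun N => P →ₐ[O] Matrix (Fin d) (Fin d) (S ⧸ 𝔠 N)) rα
          (fun n => (D n).αχ) N).and
        ((thr_spec (X := fun N => S₀ →ₐ[O] P ⧸ 𝔭 N) rσ (fun n => (D n).σ1) N).and
        ((thr_spec (X := fun N => S₀ →ₐ[O] P ⧸ 𝔭 N) rσ (fun n => (D n).σχ) N).and
        ((thr_spec (X := fun N => Matrix (Fin d) (Fin d) (S ⧸ 𝔠 N)) rθ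
          (fun n => (D n).θ) N).and
        (thr_spec (X := fun N => Matrix (Fin d) (Fin d) (S ⧸ 𝔠 N)) rθ
          (fun n => (D n).θ') N)))))).exists
    exact ⟨n, h1, e1, e2, e3, e4, e5, e6⟩
  have hside1 : ∀ N, SideGood lam ι J1 aug F1 N (tα1 N) (tσ1 N) := by
    intro N
    obtain ⟨n, h, e1, -, e3, -, -, -⟩ := hsync N
    rw [e1, e3]
    exact (hD n).side1.res h𝔠 h𝔭 hfac haug h
  have hsideχ : ∀ N, SideGood lam ι Jχ aug Fχ N (tαχ N) (tσχ N) := by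
    intro N
    obtain ⟨n, h, -, e2, -, e4, -, -⟩ := hsync N
    rw [e2, e4]
    exact (hD n).sideχ.res h𝔠 h𝔭 hfac haug h
  have htw : ∀ N, TwGood lam N (tα1 N) (tαχ N) (tθ N) (tθ' N) := by
    intro N
    obtain ⟨n, h, e1, e2, -, -, e5, e6⟩ := hsync N
    rw [e1, e2, e5, e6]
    exact (hD n).tw.res h𝔠 h
  obtain ⟨α1, σ1, hα1, hk1, ht1, ha1⟩ := side_limit h𝔠 h𝔭 hS hP hF1 tα1 tσ1
    (thr_compat (X := fun N => P →ₐ[O] Matrix (Fin d) (Fin d) (S ⧸ 𝔠 N)) rα _ hrα)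
    (thr_compat (X := fun N => S₀ →ₐ[O] P ⧸ 𝔭 N) rσ _ hrσ) hside1
  obtain ⟨αχ, σχ, hαχ, hkχ, htχ, haχ⟩ := side_limit h𝔠 h𝔭 hS hP hFχ tαχ tσχ
    (thr_compat (X := fun N => P →ₐ[O] Matrix (Fin d) (Fin d) (S ⧸ 𝔠 N)) rα _ hrα)
    (thr_compat (X := fun N => S₀ →ₐ[O] P ⧸ 𝔭 N) rσ _ hrσ) hsideχ
  obtain ⟨Θ, Θ', hinv, htwl⟩ := tw_limit h𝔠 hS hlam α1 αχ tα1 tαχ hα1 hαχ tθ tθ'
    (thr_compat (X := fun N => Matrix (Fin d) (Fin d) (S ⧸ 𝔠 N)) rθ _ hrθ)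
    (thr_compat (X := fun N => Matrix (Fin d) (Fin d) (S ⧸ 𝔠 N)) rθ _ hrθ) htw
  exact ⟨α1, αχ, σ1, σχ, Θ, Θ', hk1, hkχ, ht1, htχ, hinv, htwl, ha1, haχ⟩

end Res

end Fermat.Agent.M43.PatchLimit2
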