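/-
M43, chapter (LN), character bookkeeping (helper6): **a Dirichlet character of order prime to `r`
with values in a number field `K ⊂ ℚ̄` has its values in the inertia field
`K₀ = inertiaPart A K` of any `A | r`.**

The values of `ψ : MulChar (ZMod r) K` with `ψ ^ n = 1` are `0` or `n`-th roots of unity; for
`r ∤ n` these are fixed by the inertia group of `A` (`ZetaUnr26.inertia_fixes_rootOfUnity`).

* `psi_val_mem_inertiaPart` : `(ψ a : ℚ̄) ∈ inertiaPart A K`;
* `psiInert hA ψ hn hnr : MulChar (ZMod r) (inertiaPart A K)` with `coe_psiInert`,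
  `psiInert_ringHomComp` (along `BaseChField4.inclK`), `psiInert_ringHomComp'` (along
  `CoeffDescent1.inclRingHom`), `psiInert_pow`, `psiInert_even`, `orderOf_psiInert`;
* `exists_psi_inert` : the bundled existence statement.
-/
import Mathlib
import Fermat.Agent.ES.P36.InertField27
import Fermat.Agent.ES.P36.ZetaUnr26
import Fermat.Agent.RED.DESC.CoeffDescent1
import Fermat.Agent.M43.BaseChField4

set_option autoImplicit false
set_option linter.unusedSectionVars false
set_option linter.unusedVariables false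

noncomputable section

namespace Fermat.Agent.M43.PsiInert6

open Fermat.Agent.ES.P36.InertField27 Fermat.Agent.RED.DESC
open Fermat.Agent.M43.BaseChField4

local notation "Qb" => AlgebraicClosure ℚ

variable {r : ℕ} [Fact r.Prime] {A : ValuationSubring Qb}
  {K : IntermediateField ℚ Qb}

/-- the values of a character killed by `n` are `0` or `n`-th roots of unity. -/
theorem psi_val_pow (ψ : MulChar (ZMod r) ↥K) {n : ℕ} (hn : ψ ^ n = 1) (a : ZMod r) :
    ψ a = 0 ∨ (ψ a) ^ n = 1 := by
  by_cases ha : IsUnit a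
  · right
    rcases Nat.eq_zero_or_pos n with rfl | hpos
    · exact pow_zero _
    · have h1 : (ψ ^ n) a = 1 := by rw [hn, MulChar.one_apply ha]
      rwa [MulChar.pow_apply' ψ hpos.ne'] at h1
  · left
    exact MulChar.map_nonunit ψ ha

/-- **the values of `ψ` lie in the inertia field.** -/
theorem psi_val_mem_inertiaPart (hA : A.LiesOverPrime r) (ψ : MulChar (ZMod r) ↥K) {n : ℕ}
    (hn : ψ ^ n = 1) (hnr : ¬ r ∣ n) (a : ZMod r) :
    ((ψ a : ↥K) : Qb) ∈ inertiaPart A K := by
  refine mem_inertiaPart.mpr ⟨(ψ a).2, fun τ hτ => ?_⟩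
  rcases psi_val_pow ψ hn a with h0 | h1
  · rw [h0]
    simp
  · have h2 : ((ψ a : ↥K) : Qb) ^ n = 1 := by
      have := congrArg (fun z : ↥K => (z : Qb)) h1
      simpa using this
    exact Fermat.Agent.ES.P36.ZetaUnr26.inertia_fixes_rootOfUnity (Fact.out : r.Prime) hA hnr h2 hτ

/-- **the descent of `ψ` to the inertia field.** -/
def psiInert (hA : A.LiesOverPrime r) (ψ : MulChar (ZMod r) ↥K) {n : ℕ}
    (hn : ψ ^ n = 1) (hnr : ¬ r ∣ n) : MulChar (ZMod r) ↥(inertiaPart A K) where
  toFun a := ⟨((ψ a : ↥K) : Qb), psi_val_mem_inertiaPart hA ψ hn hnr a⟩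
  map_one' := by
    apply Subtype.ext
    show ((ψ 1 : ↥K) : Qb) = 1
    rw [map_one]
    rfl
  map_mul' a b := by
    apply Subtype.ext
    show ((ψ (a * b) : ↥K) : Qb) = ((ψ a : ↥K) : Qb) * ((ψ b : ↥K) : Qb)
    rw [map_mul]
    rfl
  map_nonunit' a ha := by
    apply Subtype.ext
    show ((ψ a : ↥K) : Qb) = 0
    rw [MulChar.map_nonunit ψ ha]
    rfl

variable (hA : A.LiesOverPrime r) (ψ : MulChar (ZMod r) ↥K) {n : ℕ} (hn : ψ ^ n = 1)
  (hnr : ¬ r ∣ n)

@[simp] theorem coe_psiInert (a : ZMod r) :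
    ((psiInert hA ψ hn hnr a : ↥(inertiaPart A K)) : Qb) = ((ψ a : ↥K) : Qb) := rfl

/-- `ψ₀` pushed along the inclusion `K₀ → K` (spelling of `BaseChField4.inclK`) is `ψ`. -/
theorem psiInert_ringHomComp :
    (psiInert hA ψ hn hnr).ringHomComp (inclK (inertiaPart_le (A := A) K)) = ψ := by
  ext a
  rw [MulChar.ringHomComp_apply]
  rfl

/-- `ψ₀` pushed along the inclusion `K₀ → K` (spelling of `CoeffDescent1.inclRingHom`) is `ψ`. -/
theorem psiInert_ringHomComp' :
    (psiInert hA ψ hn hnr).ringHomComp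
      (CoeffDescent1.inclRingHom (inertiaPart_le (A := A) K)) = ψ := by
  ext a
  rw [MulChar.ringHomComp_apply]
  rfl

theorem psiInert_pow : psiInert hA ψ hn hnr ^ n = 1 := by
  have hinj : Function.Injective (inclK (inertiaPart_le (A := A) K)) :=
    (inclK (inertiaPart_le (A := A) K)).injective
  apply MulChar.injective_ringHomComp hinj
  show (psiInert hA ψ hn hnr ^ n).ringHomComp (inclK (inertiaPart_le (A := A) K)) =
    (1 : MulChar (ZMod r) ↥(inertiaPart A K)).ringHomComp (inclK (inertiaPart_le (A := A) K))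
  rw [← MulChar.ringHomComp_pow, psiInert_ringHomComp, hn, MulChar.ringHomComp_one]

theorem psiInert_even (heven : ψ (-1) = 1) : psiInert hA ψ hn hnr (-1) = 1 := by
  apply Subtype.ext
  rw [coe_psiInert, heven]
  rfl

theorem orderOf_psiInert : orderOf (psiInert hA ψ hn hnr) = orderOf ψ := by
  have hinj : Function.Injective (inclK (inertiaPart_le (A := A) K)) :=
    (inclK (inertiaPart_le (A := A) K)).injective
  have h := orderOf_injective
    (MulChar.ringHomCompHom (R := ZMod r) (inclK (inertiaPart_le (A := A) K)))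
    (MulChar.injective_ringHomComp hinj) (psiInert hA ψ hn hnr)
  have h2 : MulChar.ringHomCompHom (R := ZMod r) (inclK (inertiaPart_le (A := A) K))
      (psiInert hA ψ hn hnr) = ψ := psiInert_ringHomComp hA ψ hn hnr
  rw [h2] at h
  exact h.symm

/-- **bundled form**: every character `ψ : MulChar (ZMod r) K` with `ψ ^ n = 1`, `r ∤ n`, comes from
a character with values in the inertia field of `A`. -/
theorem exists_psi_inert (hA : A.LiesOverPrime r) (ψ : MulChar (ZMod r) ↥K) {n : ℕ}
    (hn : ψ ^ n = 1) (hnr : ¬ r ∣ n) :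
    ∃ ψ₀ : MulChar (ZMod r) ↥(inertiaPart A K),
      ψ₀.ringHomComp (inclK (inertiaPart_le (A := A) K)) = ψ ∧ ψ₀ ^ n = 1 ∧
      (ψ (-1) = 1 → ψ₀ (-1) = 1) ∧ orderOf ψ₀ = orderOf ψ ∧
      ∀ a, ((ψ₀ a : ↥(inertiaPart A K)) : Qb) = ((ψ a : ↥K) : Qb) :=
  ⟨psiInert hA ψ hn hnr, psiInert_ringHomComp hA ψ hn hnr, psiInert_pow hA ψ hn hnr,
    psiInert_even hA ψ hn hnr, orderOf_psiInert hA ψ hn hnr, fun _ => rfl⟩

end Fermat.Agent.M43.PsiInert6
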