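import Mathlib

/-!
# M43 / P-PATCH: the abstract support theorem (Mathlib only)

`exists_char0_prime` is the commutative-algebra core of the Ihara-avoidance argument in the
form used by the programme M43:  a `χ`-side module which is finite free over a power series ring
`S` and on which a *domain* of dimension `≤ dim S` acts is faithful; the faithful support is
transferred modulo `λ` to the `1`-side; a minimal prime of the `1`-side support inside a
prescribed prime `η` lies over `0` of `S`, and going-up produces a prime over the augmentation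
ideal, which therefore does not contain `λ`.
-/

namespace Fermat.Agent.M43.SuppMain2

open Ideal

/-- Going-up: the Krull dimension does not drop along an injective integral extension. -/
theorem ringKrullDim_le_of_integral_injective {R S : Type*} [CommRing R] [CommRing S]
    [Algebra R S] [Algebra.IsIntegral R S] (hinj : Function.Injective (algebraMap R S)) :
    ringKrullDim R ≤ ringKrullDim S := by
  unfold ringKrullDim Order.krullDim
  refine iSup_le fun l => ?_
  obtain ⟨Q, -, hQ, hQ'⟩ := Ideal.exists_ideal_over_prime_of_isIntegral (l.head.asIdeal)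
    (⊥ : Ideal S) (by
      rw [← RingHom.ker_eq_comap_bot, (RingHom.injective_iff_ker_eq_bot _).1 hinj]; exact bot_le)
  have := hQ
  have : Q.LiesOver l.head.asIdeal := ⟨hQ'.symm⟩
  obtain ⟨L, hlen, -, -⟩ := Ideal.exists_ltSeries_of_hasGoingUp l Q
  rw [← hlen]
  exact le_iSup (fun p : LTSeries (PrimeSpectrum S) => (p.length : WithBot ℕ∞)) L

section OneSide

variable {S P M : Type*} [CommRing S] [IsDomain S]
  [CommRing P] [Algebra S P] [AddCommGroup M] [Module S M] [Module P M] [IsScalarTower S P M]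
  [Module.Finite S M] [Module.IsTorsionFree S M]

omit [IsDomain S] [Module.IsTorsionFree S M] in
/-- The quotient of `P` by the annihilator of a module that is finite over `S` is integral
over `S`. -/
theorem isIntegral_quotient_annihilator :
    Algebra.IsIntegral S (P ⧸ Module.annihilator P M) := by
  set I := Module.annihilator P M with hI
  let φ : P →ₐ[S] Module.End S M := Algebra.lsmul S S M
  have hφ : ∀ a ∈ I, φ a = 0 := by
    intro a ha
    ext m
    exact Module.mem_annihilator.1 ha m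
  let ψ : (P ⧸ I) →ₐ[S] Module.End S M := Ideal.Quotient.liftₐ I φ hφ
  have hψ : Function.Injective ψ := by
    rw [injective_iff_map_eq_zero]
    intro x hx
    obtain ⟨a, rfl⟩ := Ideal.Quotient.mk_surjective x
    have h1 : φ a = 0 := hx
    rw [Ideal.Quotient.eq_zero_iff_mem]
    refine Module.mem_annihilator.2 fun m => ?_
    have := LinearMap.congr_fun h1 m
    simpa [φ] using this
  refine ⟨fun x => ?_⟩
  exact (isIntegral_algHom_iff ψ hψ).1 (Algebra.IsIntegral.isIntegral _)

omit [Module.Finite S M] in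
/-- `S` embeds into the quotient of `P` by the annihilator of a nonzero torsion-free module. -/
theorem algebraMap_quotient_annihilator_injective [Nontrivial M] :
    Function.Injective (algebraMap S (P ⧸ Module.annihilator P M)) := by
  rw [injective_iff_map_eq_zero]
  intro s hs
  rw [IsScalarTower.algebraMap_apply S P (P ⧸ Module.annihilator P M), Ideal.Quotient.algebraMap_eq,
    Ideal.Quotient.eq_zero_iff_mem] at hs
  obtain ⟨m, hm⟩ := exists_ne (0 : M)
  have h1 : s • m = 0 := by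
    have := Module.mem_annihilator.1 hs m
    rwa [algebraMap_smul] at this
  rcases smul_eq_zero.1 h1 with h | h
  · exact h
  · exact absurd h hm

/-- **χ-side.** If a prime `J` of dimension `≤ dim S` kills a nonzero module that is finite torsion-free
over `S`, then `J` is the whole annihilator. -/
theorem annihilator_le_of_dim_le [Nontrivial M]
    (hdimS : ringKrullDim S < ⊤)
    (J : Ideal P) [J.IsPrime] (hJ : J ≤ Module.annihilator P M)
    (hdim : ringKrullDim (P ⧸ J) ≤ ringKrullDim S) :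
    Module.annihilator P M ≤ J := by
  by_contra hcon
  obtain ⟨x, hxI, hxJ⟩ := SetLike.not_le_iff_exists.1 hcon
  have := isIntegral_quotient_annihilator (S := S) (P := P) (M := M)
  have h1 : ringKrullDim S ≤ ringKrullDim (P ⧸ Module.annihilator P M) :=
    ringKrullDim_le_of_integral_injective algebraMap_quotient_annihilator_injective
  have hx0 : (Ideal.Quotient.mk J x) ≠ 0 := by
    rwa [Ne, Ideal.Quotient.eq_zero_iff_mem]
  have h2 : ringKrullDim (P ⧸ Module.annihilator P M) + 1 ≤ ringKrullDim (P ⧸ J) :=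
    ringKrullDim_succ_le_of_surjective (Ideal.Quotient.factor hJ)
      (Ideal.Quotient.factor_surjective hJ) (mem_nonZeroDivisors_of_ne_zero hx0)
      (by rw [Ideal.Quotient.factor_mk, Ideal.Quotient.eq_zero_iff_mem]; exact hxI)
  have h3 : ringKrullDim S + 1 ≤ ringKrullDim S := by
    refine le_trans ?_ (h2.trans hdim)
    gcongr
  have hbot : ringKrullDim S ≠ ⊥ := by
    have := ringKrullDim_nonneg_of_nontrivial (R := S)
    intro h; rw [h] at this; simp at this
  obtain ⟨a, ha⟩ := WithBot.ne_bot_iff_exists.1 hbot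
  rw [← ha] at h3 hdimS
  have ha' : a ≠ ⊤ := by
    rintro rfl; exact (lt_irrefl _ hdimS)
  obtain ⟨n, rfl⟩ := ENat.ne_top_iff_exists.1 ha'
  have : ((n : ℕ∞) : WithBot ℕ∞) + 1 = (((n + 1 : ℕ) : ℕ∞) : WithBot ℕ∞) := by
    push_cast; rfl
  rw [this] at h3
  have h4 := WithBot.coe_le_coe.1 h3
  have h5 := ENat.natCast_le_natCast.1 h4
  omega

/-- **χ-side, family version.** If every prime of the support contains one of finitely or
infinitely many primes `J k` of dimension `≤ dim S`, then one of the `J k` contains the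
annihilator: a whole component `V(J k)` lies in the support. -/
theorem exists_annihilator_le_of_dim_le [Nontrivial M]
    (hdimS : ringKrullDim S < ⊤)
    {K : Type*} (J : K → Ideal P) [∀ k, (J k).IsPrime]
    (hJ : ∀ 𝔮 : Ideal P, 𝔮.IsPrime → Module.annihilator P M ≤ 𝔮 → ∃ k, J k ≤ 𝔮)
    (hdim : ∀ k, ringKrullDim (P ⧸ J k) ≤ ringKrullDim S) :
    ∃ k, Module.annihilator P M ≤ J k := by
  have := isIntegral_quotient_annihilator (S := S) (P := P) (M := M)
  have h1 : ringKrullDim S ≤ ringKrullDim (P ⧸ Module.annihilator P M) :=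
    ringKrullDim_le_of_integral_injective algebraMap_quotient_annihilator_injective
  have hbot : ringKrullDim S ≠ ⊥ := by
    have := ringKrullDim_nonneg_of_nontrivial (R := S)
    intro h; rw [h] at this; simp at this
  obtain ⟨a, ha⟩ := WithBot.ne_bot_iff_exists.1 hbot
  have ha' : a ≠ ⊤ := by
    rintro rfl; rw [← ha] at hdimS; exact (lt_irrefl _ hdimS)
  obtain ⟨n, rfl⟩ := ENat.ne_top_iff_exists.1 ha'
  have hn : ringKrullDim S = (n : ℕ) := ha.symm
  rw [hn, ringKrullDim_quotient] at h1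
  obtain ⟨l, hl⟩ := Order.le_krullDim_iff.1 h1
  have hhead : Module.annihilator P M ≤ l.head.1.asIdeal := by
    have := l.head.2
    rwa [PrimeSpectrum.mem_zeroLocus, SetLike.coe_subset_coe] at this
  obtain ⟨k, hk⟩ := hJ l.head.1.asIdeal l.head.1.isPrime hhead
  refine ⟨k, ?_⟩
  by_contra hcon
  have hne : J k ≠ l.head.1.asIdeal := fun h => hcon (h ▸ hhead)
  -- the chain, seen in `V(J k)`
  have hmem : ∀ i, (l i).1 ∈ PrimeSpectrum.zeroLocus (J k : Set P) := by
    intro i
    rw [PrimeSpectrum.mem_zeroLocus, SetLike.coe_subset_coe]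
    exact hk.trans ((PrimeSpectrum.asIdeal_le_asIdeal _ _).2 (l.head_le i))
  let l' : LTSeries (PrimeSpectrum.zeroLocus (J k : Set P)) :=
    LTSeries.mk l.length (fun i => ⟨(l i).1, hmem i⟩) (fun i j hij => l.strictMono hij)
  let b : PrimeSpectrum.zeroLocus (J k : Set P) :=
    ⟨⟨J k, inferInstance⟩, by rw [PrimeSpectrum.mem_zeroLocus]⟩
  have hb : b < l'.head := by
    show (⟨J k, inferInstance⟩ : PrimeSpectrum P) < l.head.1
    rw [← PrimeSpectrum.asIdeal_lt_asIdeal]
    exact lt_of_le_of_ne hk hne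
  have h2 := Order.LTSeries.length_le_krullDim (l'.cons b hb)
  rw [← ringKrullDim_quotient] at h2
  have h3 := h2.trans (hdim k)
  rw [hn] at h3
  have h4 : (l'.cons b hb).length = n + 1 := by
    rw [RelSeries.cons_length]
    show l.length + 1 = n + 1
    rw [hl]
  rw [h4] at h3
  have h5 := ENat.natCast_le_natCast.1 (WithBot.coe_le_coe.1 h3)
  omega

/-- **1-side.** Below any prime `η` of the support there is a prime `Q` of the support lying
over `0` of `S`, and above `Q` a prime lying over any prescribed prime `𝔞` of `S`. -/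
theorem exists_prime_over
    (η : Ideal P) [η.IsPrime] (hη : Module.annihilator P M ≤ η)
    (𝔞 : Ideal S) [𝔞.IsPrime] :
    ∃ Q 𝔓 : Ideal P, Q.IsPrime ∧ 𝔓.IsPrime ∧ Module.annihilator P M ≤ Q ∧ Q ≤ η ∧ Q ≤ 𝔓 ∧
      𝔓.comap (algebraMap S P) = 𝔞 := by
  obtain ⟨Q, hQmin, hQη⟩ := Ideal.exists_minimalPrimes_le hη
  have hQp : Q.IsPrime := hQmin.1.1
  have hQI : Module.annihilator P M ≤ Q := hQmin.1.2
  have hQ0 : Q.comap (algebraMap S P) = ⊥ := by
    rw [eq_bot_iff]
    intro s hs
    rw [Ideal.mem_comap] at hs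
    by_contra hs0
    have hs0' : s ≠ 0 := by simpa using hs0
    have hreg : IsSMulRegular M (algebraMap S P s) := by
      intro m₁ m₂ h
      simp only [algebraMap_smul] at h
      exact (smul_right_inj hs0').1 h
    exact hreg.notMem_of_mem_minimalPrimes hQmin hs
  have := isIntegral_quotient_annihilator (S := S) (P := P) (M := M)
  set I := Module.annihilator P M with hI
  have hcomap : (Q.map (Ideal.Quotient.mk I)).comap (algebraMap S (P ⧸ I)) ≤ 𝔞 := by
    rw [IsScalarTower.algebraMap_eq S P (P ⧸ I), Ideal.Quotient.algebraMap_eq, ← Ideal.comap_comap,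
      Ideal.comap_map_of_surjective _ Ideal.Quotient.mk_surjective, ← RingHom.ker_eq_comap_bot,
      Ideal.mk_ker, sup_eq_left.2 hQI, hQ0]
    exact bot_le
  obtain ⟨𝔓', h𝔓'Q, h𝔓'p, h𝔓'⟩ :=
    Ideal.exists_ideal_over_prime_of_isIntegral 𝔞 (Q.map (Ideal.Quotient.mk I)) hcomap
  refine ⟨Q, 𝔓'.comap (Ideal.Quotient.mk I), hQp, Ideal.comap_isPrime _ _, hQI, hQη, ?_, ?_⟩
  · exact Ideal.map_le_iff_le_comap.1 h𝔓'Q
  · rw [Ideal.comap_comap, ← Ideal.Quotient.algebraMap_eq, ← IsScalarTower.algebraMap_eq S P (P ⧸ I)]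
    exact h𝔓'

end OneSide

/-- **The abstract support theorem of M43.** -/
theorem exists_char0_prime
    {S1 Sχ P M1 Mχ : Type*} [CommRing P]
    -- the `χ`-side
    [CommRing Sχ] [IsDomain Sχ] [Algebra Sχ P]
    [AddCommGroup Mχ] [Module Sχ Mχ] [Module P Mχ] [IsScalarTower Sχ P Mχ]
    [Module.Finite Sχ Mχ] [Module.IsTorsionFree Sχ Mχ] [Nontrivial Mχ]
    (hdimS : ringKrullDim Sχ < ⊤)
    (Jχ : Ideal P) [Jχ.IsPrime] (hJχ : Jχ ≤ Module.annihilator P Mχ)
    (hdim : ringKrullDim (P ⧸ Jχ) ≤ ringKrullDim Sχ)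
    -- the `1`-side
    [CommRing S1] [IsDomain S1] [Algebra S1 P]
    [AddCommGroup M1] [Module S1 M1] [Module P M1] [IsScalarTower S1 P M1]
    [Module.Finite S1 M1] [Module.IsTorsionFree S1 M1]
    (J1 : Ideal P) (hJ1 : J1 ≤ Module.annihilator P M1)
    -- the two sides agree modulo `lam`
    (lam : P) (hJ : J1 ⊔ Ideal.span {lam} = Jχ ⊔ Ideal.span {lam})
    (θ : (M1 ⧸ (Ideal.span {lam} • ⊤ : Submodule P M1)) ≃ₗ[P]
      (Mχ ⧸ (Ideal.span {lam} • ⊤ : Submodule P Mχ)))
    -- the `1`-side identity: a prime of `R₁` not containing `P'` contains `Nid`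
    (Nid : Ideal P) (P' : P)
    (hid : ∀ Q : Ideal P, Q.IsPrime → J1 ≤ Q → P' ∉ Q → Nid ≤ Q)
    (η : Ideal P) [η.IsPrime] (hη1 : J1 ≤ η) (hηlam : lam ∈ η) (hηP' : P' ∉ η)
    -- the augmentation ideal
    (𝔞 : Ideal S1) [𝔞.IsPrime] (lamS : S1) (hlamS : algebraMap S1 P lamS = lam)
    (hlam𝔞 : lamS ∉ 𝔞) :
    ∃ 𝔓 : Ideal P, 𝔓.IsPrime ∧ Nid ≤ 𝔓 ∧ lam ∉ 𝔓 ∧
      Module.annihilator P
        (M1 ⧸ ((𝔞.map (algebraMap S1 P)) • ⊤ : Submodule P M1)) ≤ 𝔓 := by
  have : Module.Finite P Mχ := Module.Finite.of_restrictScalars_finite Sχ P Mχ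
  have : Module.Finite P M1 := Module.Finite.of_restrictScalars_finite S1 P M1
  -- χ-side faithful
  have hAχ : Module.annihilator P Mχ ≤ Jχ := annihilator_le_of_dim_le hdimS Jχ hJχ hdim
  -- transfer
  have hspan : Ideal.span {lam} ≤ η := (Ideal.span_singleton_le_iff_mem _).2 hηlam
  have hJχη : Jχ ≤ η := by
    have : Jχ ⊔ Ideal.span {lam} ≤ η := hJ ▸ sup_le hη1 hspan
    exact le_sup_left.trans this
  let x : PrimeSpectrum P := ⟨η, inferInstance⟩
  have hxχ : x ∈ Module.support P Mχ :=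
    Module.mem_support_iff_of_finite.2 (hAχ.trans hJχη)
  have hxz : x ∈ PrimeSpectrum.zeroLocus (Ideal.span {lam} : Set P) := by
    rw [PrimeSpectrum.mem_zeroLocus]; exact hspan
  have hxχq : x ∈ Module.support P (Mχ ⧸ (Ideal.span {lam} • ⊤ : Submodule P Mχ)) := by
    rw [Module.support_quotient]; exact ⟨hxχ, hxz⟩
  have hx1q : x ∈ Module.support P (M1 ⧸ (Ideal.span {lam} • ⊤ : Submodule P M1)) := by
    rw [θ.support_eq]; exact hxχq
  have hx1 : x ∈ Module.support P M1 := by
    rw [Module.support_quotient] at hx1q; exact hx1q.1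
  have hA1η : Module.annihilator P M1 ≤ η := Module.annihilator_le_of_mem_support hx1
  -- going up on the 1-side
  obtain ⟨Q, 𝔓, hQp, h𝔓p, hAQ, hQη, hQ𝔓, h𝔓𝔞⟩ := exists_prime_over (S := S1) η hA1η 𝔞
  have hPQ : P' ∉ Q := fun h => hηP' (hQη h)
  have hNQ : Nid ≤ Q := hid Q hQp (hJ1.trans hAQ) hPQ
  refine ⟨𝔓, h𝔓p, hNQ.trans hQ𝔓, ?_, ?_⟩
  · intro hl
    apply hlam𝔞
    rw [← h𝔓𝔞, Ideal.mem_comap, hlamS]; exact hl
  · let y : PrimeSpectrum P := ⟨𝔓, h𝔓p⟩
    have hy : y ∈ Module.support P M1 :=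
      Module.mem_support_iff_of_finite.2 (hAQ.trans hQ𝔓)
    have hyz : y ∈ PrimeSpectrum.zeroLocus ((𝔞.map (algebraMap S1 P) : Ideal P) : Set P) := by
      rw [PrimeSpectrum.mem_zeroLocus, SetLike.coe_subset_coe, Ideal.map_le_iff_le_comap, h𝔓𝔞]
    have hyq : y ∈ Module.support P
        (M1 ⧸ ((𝔞.map (algebraMap S1 P)) • ⊤ : Submodule P M1)) := by
      rw [Module.support_quotient]; exact ⟨hy, hyz⟩
    exact Module.annihilator_le_of_mem_support hyq

/-- **The abstract support theorem of M43, family version**: on the `χ`-side finitely (or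
infinitely) many candidate components `V(Jχ k)`, and the transfer modulo `lam` is only assumed as
an inclusion of annihilators. -/
theorem exists_char0_prime_family
    {S1 Sχ P M1 Mχ : Type*} [CommRing P]
    -- the `χ`-side
    [CommRing Sχ] [IsDomain Sχ] [Algebra Sχ P]
    [AddCommGroup Mχ] [Module Sχ Mχ] [Module P Mχ] [IsScalarTower Sχ P Mχ]
    [Module.Finite Sχ Mχ] [Module.IsTorsionFree Sχ Mχ] [Nontrivial Mχ]
    (hdimS : ringKrullDim Sχ < ⊤)
    {K : Type*} (Jχ : K → Ideal P) [∀ k, (Jχ k).IsPrime]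
    (hJχ : ∀ 𝔮 : Ideal P, 𝔮.IsPrime → Module.annihilator P Mχ ≤ 𝔮 → ∃ k, Jχ k ≤ 𝔮)
    (hdim : ∀ k, ringKrullDim (P ⧸ Jχ k) ≤ ringKrullDim Sχ)
    -- the `1`-side
    [CommRing S1] [IsDomain S1] [Algebra S1 P]
    [AddCommGroup M1] [Module S1 M1] [Module P M1] [IsScalarTower S1 P M1]
    [Module.Finite S1 M1] [Module.IsTorsionFree S1 M1]
    (J1 : Ideal P) (hJ1 : J1 ≤ Module.annihilator P M1)
    -- the two sides agree modulo `lam`
    (lam : P) (hJ : ∀ k, J1 ⊔ Ideal.span {lam} = Jχ k ⊔ Ideal.span {lam})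
    (hT : Module.annihilator P (M1 ⧸ (Ideal.span {lam} • ⊤ : Submodule P M1)) ≤
      Module.annihilator P (Mχ ⧸ (Ideal.span {lam} • ⊤ : Submodule P Mχ)))
    -- the `1`-side identity
    (Nid : Ideal P) (P' : P)
    (hid : ∀ Q : Ideal P, Q.IsPrime → J1 ≤ Q → P' ∉ Q → Nid ≤ Q)
    (η : Ideal P) [η.IsPrime] (hη1 : J1 ≤ η) (hηlam : lam ∈ η) (hηP' : P' ∉ η)
    -- the augmentation ideal
    (𝔞 : Ideal S1) [𝔞.IsPrime] (lamS : S1) (hlamS : algebraMap S1 P lamS = lam)
    (hlam𝔞 : lamS ∉ 𝔞) :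
    ∃ 𝔓 : Ideal P, 𝔓.IsPrime ∧ Nid ≤ 𝔓 ∧ lam ∉ 𝔓 ∧
      Module.annihilator P
        (M1 ⧸ ((𝔞.map (algebraMap S1 P)) • ⊤ : Submodule P M1)) ≤ 𝔓 := by
  have : Module.Finite P Mχ := Module.Finite.of_restrictScalars_finite Sχ P Mχ
  have : Module.Finite P M1 := Module.Finite.of_restrictScalars_finite S1 P M1
  -- a whole component on the χ-side
  obtain ⟨k, hAχ⟩ := exists_annihilator_le_of_dim_le hdimS Jχ hJχ hdim
  -- transfer
  have hspan : Ideal.span {lam} ≤ η := (Ideal.span_singleton_le_iff_mem _).2 hηlam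
  have hJχη : Jχ k ≤ η := by
    have : Jχ k ⊔ Ideal.span {lam} ≤ η := hJ k ▸ sup_le hη1 hspan
    exact le_sup_left.trans this
  let x : PrimeSpectrum P := ⟨η, inferInstance⟩
  have hxχ : x ∈ Module.support P Mχ :=
    Module.mem_support_iff_of_finite.2 (hAχ.trans hJχη)
  have hxz : x ∈ PrimeSpectrum.zeroLocus (Ideal.span {lam} : Set P) := by
    rw [PrimeSpectrum.mem_zeroLocus]; exact hspan
  have hxχq : x ∈ Module.support P (Mχ ⧸ (Ideal.span {lam} • ⊤ : Submodule P Mχ)) := by
    rw [Module.support_quotient]; exact ⟨hxχ, hxz⟩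
  have hx1q : x ∈ Module.support P (M1 ⧸ (Ideal.span {lam} • ⊤ : Submodule P M1)) :=
    Module.mem_support_iff_of_finite.2 (hT.trans (Module.annihilator_le_of_mem_support hxχq))
  have hx1 : x ∈ Module.support P M1 := by
    rw [Module.support_quotient] at hx1q; exact hx1q.1
  have hA1η : Module.annihilator P M1 ≤ η := Module.annihilator_le_of_mem_support hx1
  -- going up on the 1-side
  obtain ⟨Q, 𝔓, hQp, h𝔓p, hAQ, hQη, hQ𝔓, h𝔓𝔞⟩ := exists_prime_over (S := S1) η hA1η 𝔞
  have hPQ : P' ∉ Q := fun h => hηP' (hQη h)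
  have hNQ : Nid ≤ Q := hid Q hQp (hJ1.trans hAQ) hPQ
  refine ⟨𝔓, h𝔓p, hNQ.trans hQ𝔓, ?_, ?_⟩
  · intro hl
    apply hlam𝔞
    rw [← h𝔓𝔞, Ideal.mem_comap, hlamS]; exact hl
  · let y : PrimeSpectrum P := ⟨𝔓, h𝔓p⟩
    have hy : y ∈ Module.support P M1 :=
      Module.mem_support_iff_of_finite.2 (hAQ.trans hQ𝔓)
    have hyz : y ∈ PrimeSpectrum.zeroLocus ((𝔞.map (algebraMap S1 P) : Ideal P) : Set P) := by
      rw [PrimeSpectrum.mem_zeroLocus, SetLike.coe_subset_coe, Ideal.map_le_iff_le_comap, h𝔓𝔞]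
    have hyq : y ∈ Module.support P
        (M1 ⧸ ((𝔞.map (algebraMap S1 P)) • ⊤ : Submodule P M1)) := by
      rw [Module.support_quotient]; exact ⟨hy, hyz⟩
    exact Module.annihilator_le_of_mem_support hyq

end Fermat.Agent.M43.SuppMain2
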