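/-
Programme M43 (target S43), block (6d-TWIST) — helper6.
**The twist operator `R_ψ f = ∑_{u mod D} ψ⁻¹(u) · f(z + u/D)` on functions with nebentypus.**

`IsEps M ε k f` : `f ∣[k] γ = ε(γ₁₁) f` for `γ ∈ Γ₀(M)` (`ε` a Dirichlet character mod `M`).

* `IsEps.twist_slash` : for `D ∣ M`, `ψ` mod `D`: `R_ψ f ∣[k] γ = ε(γ₁₁) ψ(γ₁₁)² R_ψ f` for `γ ∈ Γ₀(M D)`.
* `twist_heckeU`, `twist_slash_diag` : `U_ℓ (R_ψ f) = ψ(ℓ) R_ψ (U_ℓ f)` and
  `(R_ψ f) ∣[k] diag(ℓ, 1) = ψ⁻¹(ℓ) R_ψ (f ∣[k] diag(ℓ, 1))` for `ℓ` prime to `D`; hence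
  `twist_heckeTeps` : `T_ℓ^{εψ²} (R_ψ f) = ψ(ℓ) R_ψ (T_ℓ^ε f)`.
* `IsEps.heckeU` : `U_q` (`q ∣ M`) preserves the nebentypus law.
-/
import Mathlib
import Fermat.Prelude.Thm_ModularForm_heckeU_slash_eq_self_of_mem_Gamma0
import Fermat.Agent.M43.TwistMat6

set_option autoImplicit false

noncomputable section

namespace Fermat.Agent.M43.TwistOp6

open Matrix.SpecialLinearGroup UpperHalfPlane ModularForm CongruenceSubgroup
open scoped MatrixGroups ModularForm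
open Fermat.Agent.M43.TwistMat6

variable {k : ℤ}

/-! ### Slash by matrices of positive determinant is `ℂ`-linear -/

theorem smul_slash_trans (c : ℂ) (f : ℍ → ℂ) (x : ℝ) :
    (c • f) ∣[k] trans x = c • (f ∣[k] trans x) := by
  rw [ModularForm.smul_slash, σ_trans]
  rfl

theorem smul_slash_heckeMatrix (c : ℂ) (f : ℍ → ℂ) (p j : ℕ) :
    (c • f) ∣[k] heckeMatrix p j = c • (f ∣[k] heckeMatrix p j) := by
  rw [ModularForm.smul_slash, σ_heckeMatrix]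
  rfl

theorem smul_slash_heckeDiagMatrix (c : ℂ) (f : ℍ → ℂ) (p : ℕ) :
    (c • f) ∣[k] heckeDiagMatrix p = c • (f ∣[k] heckeDiagMatrix p) := by
  rw [ModularForm.smul_slash, σ_heckeDiagMatrix]
  rfl

theorem σ_mapGL (g : SL(2, ℤ)) : UpperHalfPlane.σ (mapGL ℝ g : GL (Fin 2) ℝ) = .refl ℝ ℂ := by
  rw [UpperHalfPlane.σ, if_pos]
  simp

theorem smul_slash_mapGL (c : ℂ) (f : ℍ → ℂ) (g : SL(2, ℤ)) :
    (c • f) ∣[k] (mapGL ℝ g : GL (Fin 2) ℝ) = c • (f ∣[k] (mapGL ℝ g : GL (Fin 2) ℝ)) := by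
  rw [ModularForm.smul_slash, σ_mapGL]
  rfl

/-! ### Periodic functions -/

/-- `f(z + 1) = f(z)`. -/
def Per (k : ℤ) (f : ℍ → ℂ) : Prop := f ∣[k] trans 1 = f

theorem Per.int {f : ℍ → ℂ} (hf : Per k f) (n : ℤ) : f ∣[k] trans (n : ℝ) = f := by
  have hnat : ∀ m : ℕ, f ∣[k] trans (m : ℝ) = f := by
    intro m
    induction m with
    | zero => rw [Nat.cast_zero, trans_zero, SlashAction.slash_one]
    | succ m ih => rw [Nat.cast_succ, trans_add, SlashAction.slash_mul, ih, hf]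
  rcases Int.eq_nat_or_neg n with ⟨m, rfl | rfl⟩
  · exact_mod_cast hnat m
  · have h1 : trans ((-(m : ℤ) : ℤ) : ℝ) * trans (m : ℝ) = 1 := by
      rw [← trans_add]
      push_cast
      rw [neg_add_cancel, trans_zero]
    calc f ∣[k] trans ((-(m : ℤ) : ℤ) : ℝ)
        = (f ∣[k] trans (m : ℝ)) ∣[k] trans ((-(m : ℤ) : ℤ) : ℝ) := by rw [hnat m]
      _ = f := by
        rw [← SlashAction.slash_mul, ← trans_add]
        push_cast
        rw [add_neg_cancel, trans_zero, SlashAction.slash_one]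

theorem Per.slash_trans_add_int {f : ℍ → ℂ} (hf : Per k f) (x : ℝ) (n : ℤ) :
    f ∣[k] trans (x + n) = f ∣[k] trans x := by
  rw [add_comm, trans_add, SlashAction.slash_mul, hf.int n]

variable {D : ℕ} [NeZero D]

/-- `f(z + u/D)` for `u : ZMod D`. -/
def shZ (k : ℤ) (D : ℕ) [NeZero D] (f : ℍ → ℂ) (u : ZMod D) : ℍ → ℂ :=
  f ∣[k] trans ((u.val : ℝ) / D)

theorem Per.slash_trans_int_div {f : ℍ → ℂ} (hf : Per k f) (n : ℤ) :
    f ∣[k] trans ((n : ℝ) / D) = shZ k D f (n : ZMod D) := by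
  have hD : (D : ℝ) ≠ 0 := by exact_mod_cast NeZero.ne D
  unfold shZ
  have h1 : (n : ℤ) = ((n : ZMod D).val : ℤ) + D * (n / D) := by
    rw [ZMod.val_intCast]
    exact (Int.emod_add_mul_ediv n D).symm
  have h2 : (n : ℝ) / D = (((n : ZMod D).val : ℝ)) / D + ((n / (D : ℤ) : ℤ) : ℝ) := by
    have := congrArg (Int.cast : ℤ → ℝ) h1
    push_cast at this
    rw [this]
    field_simp
  rw [h2, hf.slash_trans_add_int]

theorem Per.shZ_natCast_mul {f : ℍ → ℂ} (hf : Per k f) (n : ℕ) (u : ZMod D) :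
    f ∣[k] trans ((n : ℝ) * ((u.val : ℝ) / D)) = shZ k D f ((n : ZMod D) * u) := by
  have h := hf.slash_trans_int_div (D := D) ((n : ℤ) * (u.val : ℤ))
  push_cast at h
  rw [ZMod.natCast_zmod_val] at h
  rw [← h]
  congr 2
  ring

/-! ### The nebentypus law -/

/-- `f ∣[k] γ = ε(γ₁₁) f` for `γ ∈ Γ₀(M)`. -/
def IsEps (M : ℕ) (ε : DirichletCharacter ℂ M) (k : ℤ) (f : ℍ → ℂ) : Prop :=
  ∀ g : SL(2, ℤ), g ∈ Gamma0 M →
    f ∣[k] (mapGL ℝ g : GL (Fin 2) ℝ) = ε ((g 1 1 : ℤ) : ZMod M) • f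

theorem mapGL_T : (mapGL ℝ ModularGroup.T : GL (Fin 2) ℝ) = trans 1 := by
  ext i j
  rw [mapGL_apply' ModularGroup.T i j]
  fin_cases i <;> fin_cases j <;> simp [ModularGroup.T]

theorem T_mem_Gamma0 (M : ℕ) : ModularGroup.T ∈ Gamma0 M := by
  rw [Gamma0_mem]
  simp [ModularGroup.T]

theorem IsEps.per {M : ℕ} {ε : DirichletCharacter ℂ M} {f : ℍ → ℂ} (hf : IsEps M ε k f) :
    Per k f := by
  have h := hf ModularGroup.T (T_mem_Gamma0 M)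
  rw [mapGL_T] at h
  have h1 : ((ModularGroup.T 1 1 : ℤ) : ZMod M) = 1 := by simp [ModularGroup.T]
  rw [h1, map_one, one_smul] at h
  exact h

/-! ### The twist -/

/-- `R_ψ f = ∑_{u mod D} ψ⁻¹(u) f(z + u/D)`. -/
def twist (ψ : DirichletCharacter ℂ D) (k : ℤ) (f : ℍ → ℂ) : ℍ → ℂ :=
  ∑ u : ZMod D, ψ⁻¹ u • shZ k D f u

/-- Reindexing by a unit. -/
theorem sum_shZ_unit_mul (ψ : DirichletCharacter ℂ D) (h : ℍ → ℂ) {c : ZMod D} (hc : IsUnit c) :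
    ∑ u : ZMod D, ψ⁻¹ u • shZ k D h (c * u) = ψ c • ∑ v : ZMod D, ψ⁻¹ v • shZ k D h v := by
  rw [Finset.smul_sum]
  have hbij : Function.Bijective fun u : ZMod D => c * u := hc.unit.mulLeft_bijective
  refine Fintype.sum_bijective _ hbij _ _ fun u => ?_
  rw [smul_smul, map_mul, MulChar.inv_apply_eq_inv ψ c, ← mul_assoc,
    Ring.mul_inverse_cancel _ (hc.map ψ), one_mul]

theorem Gamma0_dvd {N : ℕ} {g : SL(2, ℤ)} (hg : g ∈ Gamma0 N) : (N : ℤ) ∣ g 1 0 :=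
  (ZMod.intCast_zmod_eq_zero_iff_dvd _ _).mp (Gamma0_mem.mp hg)

theorem mem_Gamma0_of_dvd {N : ℕ} {g : SL(2, ℤ)} (h : (N : ℤ) ∣ g 1 0) : g ∈ Gamma0 N :=
  Gamma0_mem.mpr ((ZMod.intCast_zmod_eq_zero_iff_dvd _ _).mpr h)

/-- One summand of the twist under `γ ∈ Γ₀(M D)`. -/
theorem IsEps.shZ_slash {M : ℕ} (hDM : D ∣ M) {ε : DirichletCharacter ℂ M} {f : ℍ → ℂ}
    (hf : IsEps M ε k f) (g : SL(2, ℤ)) (hg : g ∈ Gamma0 (M * D)) (u : ZMod D) :
    shZ k D f u ∣[k] (mapGL ℝ g : GL (Fin 2) ℝ) =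
      ε ((g 1 1 : ℤ) : ZMod M) •
        shZ k D f ((((g 1 1 : ℤ) : ZMod D) * ((g 1 1 : ℤ) : ZMod D)) * u) := by
  have hD : D ≠ 0 := NeZero.ne D
  obtain ⟨m, rfl⟩ := hDM
  obtain ⟨c₃, hc₃⟩ := Gamma0_dvd hg
  have hdet := det_eq g
  set n : ℤ := (u.val : ℤ) with hn
  have hc : g 1 0 = (D : ℤ) ^ 2 * ((m : ℤ) * c₃) := by
    rw [hc₃]; push_cast; ring
  have ht : g 1 1 * n - g 0 0 * (g 1 1 * g 1 1 * n) =
      D * (-(g 1 1) * n * g 0 1 * D * ((m : ℤ) * c₃)) := by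
    linear_combination (-(g 1 1 * n)) * hdet - (g 1 1 * n * g 0 1) * hc
  obtain ⟨g', h10, h11, hmul⟩ := trans_mul_mapGL g hD n (g 1 1 * g 1 1 * n) _ _ hc ht
  have hg' : g' ∈ Gamma0 (D * m) := by
    apply mem_Gamma0_of_dvd
    rw [h10, hc₃]
    exact ⟨(D : ℤ) * c₃, by push_cast; ring⟩
  have hε : ((g' 1 1 : ℤ) : ZMod (D * m)) = ((g 1 1 : ℤ) : ZMod (D * m)) := by
    rw [h11]
    push_cast
    have : (((D : ℤ) : ZMod (D * m)) * (((m : ℤ) : ZMod (D * m)) * (c₃ : ZMod (D * m)))) = 0 := by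
      rw [← mul_assoc]
      have h0 : ((D : ℤ) : ZMod (D * m)) * ((m : ℤ) : ZMod (D * m)) = 0 := by
        have : (((D * m : ℕ) : ℤ) : ZMod (D * m)) = 0 := by
          rw [Int.cast_natCast, ZMod.natCast_self]
        rw [← this]
        push_cast
        ring
      rw [h0, zero_mul]
    push_cast at this
    rw [this, zero_mul, sub_zero]
  have hper := hf.per
  calc shZ k D f u ∣[k] (mapGL ℝ g : GL (Fin 2) ℝ)
      = f ∣[k] (trans ((n : ℝ) / D) * (mapGL ℝ g : GL (Fin 2) ℝ)) := by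
        rw [SlashAction.slash_mul]
        rfl
    _ = (f ∣[k] (mapGL ℝ g' : GL (Fin 2) ℝ)) ∣[k]
          trans (((g 1 1 * g 1 1 * n : ℤ) : ℝ) / D) := by
        rw [hmul, SlashAction.slash_mul]
    _ = ε ((g 1 1 : ℤ) : ZMod (D * m)) • (f ∣[k] trans (((g 1 1 * g 1 1 * n : ℤ) : ℝ) / D)) := by
        rw [hf g' hg', hε, smul_slash_trans]
    _ = _ := by
        rw [hper.slash_trans_int_div]
        congr 2
        rw [hn]
        push_cast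
        rw [ZMod.natCast_zmod_val]

theorem isUnit_cast_of_mem_Gamma0 {N : ℕ} {g : SL(2, ℤ)} (hg : g ∈ Gamma0 N) :
    IsUnit ((g 1 1 : ℤ) : ZMod N) := by
  have hdet := congrArg (Int.cast : ℤ → ZMod N) (det_eq g)
  push_cast at hdet
  rw [Gamma0_mem.mp hg, mul_zero, sub_zero] at hdet
  exact IsUnit.of_mul_eq_one _ (by rw [mul_comm]; exact hdet)

/-- **The transformation law of the twist** under `Γ₀(M D)`. -/
theorem IsEps.twist_slash {M : ℕ} (hDM : D ∣ M) {ε : DirichletCharacter ℂ M}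
    (ψ : DirichletCharacter ℂ D) {f : ℍ → ℂ} (hf : IsEps M ε k f) (g : SL(2, ℤ))
    (hg : g ∈ Gamma0 (M * D)) :
    twist ψ k f ∣[k] (mapGL ℝ g : GL (Fin 2) ℝ) =
      (ε ((g 1 1 : ℤ) : ZMod M) * ψ ((g 1 1 : ℤ) : ZMod D) ^ 2) • twist ψ k f := by
  have hgD : g ∈ Gamma0 D :=
    mem_Gamma0_of_dvd ((Int.natCast_dvd_natCast.mpr (dvd_mul_left D M)).trans (Gamma0_dvd hg))
  have hu : IsUnit (((g 1 1 : ℤ) : ZMod D) * ((g 1 1 : ℤ) : ZMod D)) :=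
    (isUnit_cast_of_mem_Gamma0 hgD).mul (isUnit_cast_of_mem_Gamma0 hgD)
  unfold twist
  rw [SlashAction.sum_slash]
  simp_rw [smul_slash_mapGL, hf.shZ_slash hDM g hg, smul_comm (ψ⁻¹ _) (ε _)]
  rw [← Finset.smul_sum, sum_shZ_unit_mul ψ f hu, smul_smul, map_mul, ← pow_two]

/-! ### Linearity of the twist -/

theorem shZ_add (f g : ℍ → ℂ) (u : ZMod D) : shZ k D (f + g) u = shZ k D f u + shZ k D g u := by
  unfold shZ
  rw [SlashAction.add_slash]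

theorem shZ_smul (c : ℂ) (f : ℍ → ℂ) (u : ZMod D) : shZ k D (c • f) u = c • shZ k D f u := by
  unfold shZ
  rw [smul_slash_trans]

theorem twist_add (ψ : DirichletCharacter ℂ D) (f g : ℍ → ℂ) :
    twist ψ k (f + g) = twist ψ k f + twist ψ k g := by
  unfold twist
  simp_rw [shZ_add, smul_add]
  rw [Finset.sum_add_distrib]

theorem twist_smul (ψ : DirichletCharacter ℂ D) (c : ℂ) (f : ℍ → ℂ) :
    twist ψ k (c • f) = c • twist ψ k f := by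
  unfold twist
  simp_rw [shZ_smul, smul_comm _ c]
  rw [Finset.smul_sum]

/-! ### Periodicity of `U_ℓ f` and `f ∣ diag(ℓ, 1)` -/

theorem heckeMatrix_mul_trans_one {p : ℕ} (hp : p ≠ 0) (j : ℕ) :
    heckeMatrix p j * trans 1 = heckeMatrix p (j + 1) := by
  ext a b
  fin_cases a <;> fin_cases b <;> simp [hp, Matrix.mul_apply, Fin.sum_univ_two, add_comm]

theorem heckeMatrix_self {p : ℕ} (hp : p ≠ 0) :
    heckeMatrix p p = trans 1 * heckeMatrix p 0 := by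
  ext a b
  fin_cases a <;> fin_cases b <;> simp [hp, Matrix.mul_apply, Fin.sum_univ_two]

theorem per_heckeU {f : ℍ → ℂ} (hf : Per k f) {p : ℕ} (hp : p ≠ 0) : Per k (heckeU k p f) := by
  unfold Per
  rw [heckeU_def, SlashAction.sum_slash]
  simp_rw [← SlashAction.slash_mul, heckeMatrix_mul_trans_one hp]
  have h1 : ∑ j ∈ Finset.range (p + 1), f ∣[k] heckeMatrix p j =
      ∑ j ∈ Finset.range p, f ∣[k] heckeMatrix p (j + 1) + f ∣[k] heckeMatrix p 0 :=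
    Finset.sum_range_succ' _ p
  have h2 : ∑ j ∈ Finset.range (p + 1), f ∣[k] heckeMatrix p j =
      ∑ j ∈ Finset.range p, f ∣[k] heckeMatrix p j + f ∣[k] heckeMatrix p p :=
    Finset.sum_range_succ _ p
  have h3 : f ∣[k] heckeMatrix p p = f ∣[k] heckeMatrix p 0 := by
    rw [heckeMatrix_self hp, SlashAction.slash_mul, hf]
  rw [h1, h3] at h2
  exact add_right_cancel h2

/-! ### The twist and the Hecke operators away from `D` -/

theorem heckeU_sum {ι : Type*} (s : Finset ι) (F : ι → ℍ → ℂ) (p : ℕ) :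
    heckeU k p (∑ i ∈ s, F i) = ∑ i ∈ s, heckeU k p (F i) :=
  map_sum (AddMonoidHom.mk' (heckeU k p) (heckeU_add k p)) F s

/-- `U_ℓ` of a shift is the `ℓ`-fold shift of `U_ℓ`. -/
theorem Per.heckeU_shZ {f : ℍ → ℂ} (hf : Per k f) {ℓ : ℕ} (hℓ : ℓ ≠ 0) (u : ZMod D) :
    heckeU k ℓ (shZ k D f u) = shZ k D (heckeU k ℓ f) ((ℓ : ZMod D) * u) := by
  rw [← (per_heckeU hf hℓ).shZ_natCast_mul ℓ u]
  unfold shZ
  rw [heckeU_def, heckeU_def, SlashAction.sum_slash]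
  refine Finset.sum_congr rfl fun j _ => ?_
  rw [← SlashAction.slash_mul, ← SlashAction.slash_mul, trans_mul_heckeMatrix hℓ]

/-- **`U_ℓ (R_ψ f) = ψ(ℓ) R_ψ (U_ℓ f)`** for `ℓ` prime to `D`. -/
theorem Per.twist_heckeU (ψ : DirichletCharacter ℂ D) {f : ℍ → ℂ} (hf : Per k f) {ℓ : ℕ}
    (hℓ : ℓ ≠ 0) (hu : IsUnit (ℓ : ZMod D)) :
    heckeU k ℓ (twist ψ k f) = ψ (ℓ : ZMod D) • twist ψ k (heckeU k ℓ f) := by
  unfold twist
  rw [heckeU_sum]
  simp_rw [heckeU_smul, hf.heckeU_shZ hℓ]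
  exact sum_shZ_unit_mul ψ _ hu

/-- The shift by `ℓ u / D` followed by `diag(ℓ, 1)`. -/
theorem Per.shZ_slash_diag {f : ℍ → ℂ} (hf : Per k f) {ℓ : ℕ} (hℓ : ℓ ≠ 0) (v : ZMod D) :
    shZ k D f ((ℓ : ZMod D) * v) ∣[k] heckeDiagMatrix ℓ = shZ k D (f ∣[k] heckeDiagMatrix ℓ) v := by
  rw [← hf.shZ_natCast_mul ℓ v]
  unfold shZ
  rw [← SlashAction.slash_mul, ← SlashAction.slash_mul, trans_mul_heckeDiagMatrix hℓ]

/-- **`(R_ψ f) ∣ diag(ℓ, 1) = ψ⁻¹(ℓ) R_ψ (f ∣ diag(ℓ, 1))`** for `ℓ` prime to `D`. -/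
theorem Per.twist_slash_diag (ψ : DirichletCharacter ℂ D) {f : ℍ → ℂ} (hf : Per k f) {ℓ : ℕ}
    (hℓ : ℓ ≠ 0) (hu : IsUnit (ℓ : ZMod D)) :
    twist ψ k f ∣[k] heckeDiagMatrix ℓ =
      ψ⁻¹ (ℓ : ZMod D) • twist ψ k (f ∣[k] heckeDiagMatrix ℓ) := by
  unfold twist
  rw [SlashAction.sum_slash, Finset.smul_sum]
  have hbij : Function.Bijective fun v : ZMod D => (ℓ : ZMod D) * v := hu.unit.mulLeft_bijective
  refine (Fintype.sum_bijective _ hbij _ _ fun v => ?_).symm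
  rw [smul_slash_heckeDiagMatrix, hf.shZ_slash_diag hℓ, smul_smul, map_mul]

/-- The Hecke operator `T_ℓ` with the diamond operator replaced by the scalar `c`. -/
def heckeTeps (c : ℂ) (k : ℤ) (ℓ : ℕ) (f : ℍ → ℂ) : ℍ → ℂ :=
  heckeU k ℓ f + c • (f ∣[k] heckeDiagMatrix ℓ)

theorem heckeTeps_one (k : ℤ) (ℓ : ℕ) (f : ℍ → ℂ) : heckeTeps 1 k ℓ f = heckeT k ℓ f := by
  rw [heckeTeps, one_smul, heckeT_eq_heckeU_add]

/-- **`T_ℓ^{εψ²} (R_ψ f) = ψ(ℓ) R_ψ (T_ℓ^ε f)`.** -/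
theorem Per.twist_heckeTeps (ψ : DirichletCharacter ℂ D) {f : ℍ → ℂ} (hf : Per k f) {ℓ : ℕ}
    (hℓ : ℓ ≠ 0) (hu : IsUnit (ℓ : ZMod D)) (c : ℂ) :
    heckeTeps (c * ψ (ℓ : ZMod D) ^ 2) k ℓ (twist ψ k f) =
      ψ (ℓ : ZMod D) • twist ψ k (heckeTeps c k ℓ f) := by
  have hψ : ψ (ℓ : ZMod D) * ψ⁻¹ (ℓ : ZMod D) = 1 := by
    rw [MulChar.inv_apply_eq_inv ψ, Ring.mul_inverse_cancel _ (hu.map ψ)]
  unfold heckeTeps
  rw [hf.twist_heckeU ψ hℓ hu, hf.twist_slash_diag ψ hℓ hu, twist_add, twist_smul, smul_add,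
    smul_smul, smul_smul]
  congr 2
  linear_combination (c * ψ (ℓ : ZMod D)) * hψ

/-! ### `U_q` (`q ∣ M`) preserves the nebentypus law -/

section heckeU

open P2MW.S_ModularForm_heckeU_slash_eq_self_of_mem_Gamma0.ModularForm.HeckeSlashInvariance

/-- The Prelude's `heckeMatrix_mul_of_dvd` with the lower right entry of `g'` exposed. -/
theorem heckeMatrix_mul_of_dvd' {p : ℕ} [NeZero p] (g : SL(2, ℤ)) (hc : (p : ℤ) ∣ g 1 0)
    (x : ZMod p) :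
    ∃ (g' : SL(2, ℤ)) (j' : ℕ), g' 1 0 = p * g 1 0 ∧ g' 1 1 = g 1 1 - g 1 0 * j' ∧
      heckeMatrix p x.val * mapGL ℝ g = mapGL ℝ g' *
        heckeMatrix p (affinePerm g ((ZMod.intCast_zmod_eq_zero_iff_dvd _ _).mpr hc) x).val := by
  have hc0 : ((g 1 0 : ℤ) : ZMod p) = 0 := (ZMod.intCast_zmod_eq_zero_iff_dvd _ _).mpr hc
  set x' := affinePerm g hc0 x with hx'
  obtain ⟨e, he⟩ : (p : ℤ) ∣ g 0 1 + x.val * g 1 1 - x'.val * (g 0 0 + x.val * g 1 0) := by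
    rw [← ZMod.intCast_zmod_eq_zero_iff_dvd]
    push_cast
    rw [ZMod.natCast_zmod_val, ZMod.natCast_zmod_val, hx', affinePerm_apply]
    linear_combination (-(((g 0 1 : ℤ) : ZMod p) + x * ((g 1 1 : ℤ) : ZMod p))) *
      unit_of_apply_one_zero_eq_zero g hc0
      - (((g 1 1 : ℤ) : ZMod p) * (((g 0 1 : ℤ) : ZMod p) + ((g 1 1 : ℤ) : ZMod p) * x) * x) * hc0
  obtain ⟨g', h10, h11, hmul⟩ :=
    heckeMatrix_mul_mapGL (NeZero.ne p) g x.val x'.val e (by linear_combination he)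
  exact ⟨g', x'.val, h10, h11, hmul⟩

/-- **`U_q` preserves the nebentypus law** (`q ∣ M`). -/
theorem isEps_heckeU {M : ℕ} {ε : DirichletCharacter ℂ M} {f : ℍ → ℂ} (hf : IsEps M ε k f)
    {q : ℕ} [NeZero q] (hqM : q ∣ M) : IsEps M ε k (heckeU k q f) := by
  intro g hg
  have hcN : (M : ℤ) ∣ g 1 0 := Gamma0_dvd hg
  have hc : (q : ℤ) ∣ g 1 0 := (Int.natCast_dvd_natCast.mpr hqM).trans hcN
  rw [heckeU_eq_sum_zmod k f, SlashAction.sum_slash, Finset.smul_sum]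
  calc ∑ x : ZMod q, (f ∣[k] heckeMatrix q x.val) ∣[k] (mapGL ℝ g : GL (Fin 2) ℝ)
      = ∑ x : ZMod q, ε ((g 1 1 : ℤ) : ZMod M) • f ∣[k] heckeMatrix q
          (affinePerm g ((ZMod.intCast_zmod_eq_zero_iff_dvd _ _).mpr hc) x).val := by
        refine Finset.sum_congr rfl fun x _ ↦ ?_
        obtain ⟨g', j', h10, h11, hmul⟩ := heckeMatrix_mul_of_dvd' g hc x
        have hg'N : g' ∈ Gamma0 M := by
          apply mem_Gamma0_of_dvd
          rw [h10]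
          exact Dvd.dvd.mul_left hcN _
        have hε : ((g' 1 1 : ℤ) : ZMod M) = ((g 1 1 : ℤ) : ZMod M) := by
          rw [h11]
          push_cast
          rw [Gamma0_mem.mp hg, zero_mul, sub_zero]
        rw [← SlashAction.slash_mul, hmul, SlashAction.slash_mul, hf g' hg'N, hε,
          smul_slash_heckeMatrix]
    _ = ∑ x : ZMod q, ε ((g 1 1 : ℤ) : ZMod M) • f ∣[k] heckeMatrix q x.val :=
        Equiv.sum_comp (affinePerm g _)
          (fun x ↦ ε ((g 1 1 : ℤ) : ZMod M) • f ∣[k] heckeMatrix q x.val)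

end heckeU

/-! ### Linearity of the nebentypus law -/

theorem IsEps.add {M : ℕ} {ε : DirichletCharacter ℂ M} {f g : ℍ → ℂ} (hf : IsEps M ε k f)
    (hg : IsEps M ε k g) : IsEps M ε k (f + g) := by
  intro γ hγ
  rw [SlashAction.add_slash, hf γ hγ, hg γ hγ, smul_add]

theorem IsEps.smul {M : ℕ} {ε : DirichletCharacter ℂ M} {f : ℍ → ℂ} (hf : IsEps M ε k f)
    (c : ℂ) : IsEps M ε k (c • f) := by
  intro γ hγ
  rw [smul_slash_mapGL, hf γ hγ, smul_comm]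

theorem isEps_zero {M : ℕ} {ε : DirichletCharacter ℂ M} : IsEps M ε k (0 : ℍ → ℂ) := by
  intro γ _
  rw [SlashAction.zero_slash, smul_zero]

end Fermat.Agent.M43.TwistOp6
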