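/-
Programme M43 (target S43), block (6d-TWIST) — helper6.
**Analytic properties of the twist `R_ψ f`: holomorphy, vanishing at the cusps, `q`-expansion.**
-/
import Mathlib
import Fermat.Prelude.Def_FLTPrelim_Modularity
import Fermat.Prelude.Thm_CuspFormClass_isZeroAt_heckeU
import Fermat.Agent.M43.TwistOp6

set_option autoImplicit false

noncomputable section

namespace Fermat.Agent.M43.TwistAn6

open Matrix.SpecialLinearGroup UpperHalfPlane ModularForm CongruenceSubgroup
open scoped MatrixGroups ModularForm Manifold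
open Fermat.Agent.M43.TwistMat6 Fermat.Agent.M43.TwistOp6

variable {k : ℤ} {D : ℕ} [NeZero D]

/-! ### Holomorphy -/

theorem mdiff_shZ {f : ℍ → ℂ} (hf : MDiff f) (u : ZMod D) : MDiff (shZ k D f u) :=
  hf.slash k _

theorem mdiff_twist (ψ : DirichletCharacter ℂ D) {f : ℍ → ℂ} (hf : MDiff f) :
    MDiff (twist ψ k f) :=
  Finset.sum_induction _ (fun g : ℍ → ℂ => MDiff g) (fun _ _ ha hb => ha.add hb)
    mdifferentiable_const (fun u _ => (mdiff_shZ hf u).const_smul _)

/-! ### Cusps -/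

open P2MW.S_CuspFormClass_isZeroAt_heckeU.ModularForm.S06W2 in
theorem trans_ratCast_eq_map (x : ℚ) :
    trans (x : ℝ) = Matrix.GeneralLinearGroup.map (Rat.castHom ℝ)
      (ratUpperTriangularGL 1 x 1 (by norm_num)) := by
  ext i j
  fin_cases i <;> fin_cases j <;>
    simp [ratUpperTriangularGL, Matrix.GeneralLinearGroup.mkOfDetNeZero]

theorem isZeroAt_smul {c : OnePoint ℝ} {f : ℍ → ℂ} (a : ℂ) (hf : c.IsZeroAt f k) :
    c.IsZeroAt (a • f) k := by
  intro g hg
  rw [ModularForm.smul_slash]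
  exact (hf g hg).smul _

open P2MW.S_CuspFormClass_isZeroAt_heckeU.ModularForm.S06W2 in
/-- The twist of a cusp form (for any arithmetic group) vanishes at every cusp. -/
theorem isZeroAt_twist {F : Type*} [FunLike F ℍ ℂ] {Γ : Subgroup (GL (Fin 2) ℝ)}
    [Γ.IsArithmetic] [CuspFormClass F Γ k] (f : F) (ψ : DirichletCharacter ℂ D)
    {c : OnePoint ℝ} (hc : IsCusp c Γ) : c.IsZeroAt (twist ψ k ⇑f) k := by
  unfold twist
  refine isZeroAt_sum _ fun u _ => isZeroAt_smul _ ?_
  unfold shZ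
  have h : ((u.val : ℝ) / D) = (((u.val : ℚ) / D : ℚ) : ℝ) := by push_cast; rfl
  rw [h, trans_ratCast_eq_map]
  exact isZeroAt_slash_ratCast f _ hc

theorem isCusp_of_isArithmetic {Γ Γ' : Subgroup (GL (Fin 2) ℝ)} [Γ.IsArithmetic]
    [Γ'.IsArithmetic] {c : OnePoint ℝ} (hc : IsCusp c Γ') : IsCusp c Γ := by
  rw [Subgroup.IsArithmetic.isCusp_iff_isCusp_SL2Z] at hc ⊢
  exact hc

/-! ### `q`-expansions -/

open Complex Function in
theorem periodic_of_per {f : ℍ → ℂ} (hf : Per k f) :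
    Function.Periodic (f ∘ ofComplex) (1 : ℝ) := by
  intro w
  by_cases! hw : 0 < im w
  · have h1 : 0 < im (w + (1 : ℝ)) := by simp [hw]
    simp only [comp_apply, ofComplex_apply_of_im_pos h1, ofComplex_apply_of_im_pos hw]
    have h2 := congrFun hf ⟨w, hw⟩
    rw [slash_trans_apply] at h2
    rw [← h2]
    congr 1
    ext
    simp [add_comm]
  · have h1 : im (w + (1 : ℝ)) ≤ 0 := by simpa using hw
    rw [comp_apply, comp_apply, ofComplex_apply_of_im_nonpos h1, ofComplex_apply_of_im_nonpos hw]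

theorem trans_one_zero (x : ℝ) : (trans x : GL (Fin 2) ℝ) 1 0 = 0 := by
  simp

theorem isBoundedAtImInfty_shZ {f : ℍ → ℂ} (hf : IsBoundedAtImInfty f) (u : ZMod D) :
    IsBoundedAtImInfty (shZ k D f u) :=
  hf.slash k (trans_one_zero _)

theorem isBoundedAtImInfty_twist (ψ : DirichletCharacter ℂ D) {f : ℍ → ℂ}
    (hf : IsBoundedAtImInfty f) : IsBoundedAtImInfty (twist ψ k f) :=
  Finset.sum_induction _ (fun g : ℍ → ℂ => IsBoundedAtImInfty g) (fun _ _ ha hb => ha.add hb)
    UpperHalfPlane.zero_form_isBoundedAtImInfty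
    (fun u _ => (isBoundedAtImInfty_shZ hf u).const_smul_left _)

open Complex Real in
theorem qParam_vadd (x : ℝ) (τ : ℍ) :
    Function.Periodic.qParam 1 ((x +ᵥ τ : ℍ) : ℂ) =
      Complex.exp (2 * π * Complex.I * x) * Function.Periodic.qParam 1 (τ : ℂ) := by
  rw [Function.Periodic.qParam, Function.Periodic.qParam, ← Complex.exp_add,
    UpperHalfPlane.coe_vadd]
  congr 1
  push_cast
  ring

open Complex Real in
theorem exp_div_eq_stdAddChar (u : ZMod D) :
    Complex.exp (2 * π * Complex.I * (((u.val : ℝ) / D : ℝ) : ℂ)) = ZMod.stdAddChar u := by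
  rw [ZMod.stdAddChar_apply, ZMod.toCircle_apply]
  congr 1
  push_cast
  ring

/-- The `q`-expansion of a shift. -/
theorem hasSum_shZ {f : ℍ → ℂ} (hper : Per k f) (hhol : MDiff f) (hbdd : IsBoundedAtImInfty f)
    (u : ZMod D) (τ : ℍ) :
    HasSum (fun m : ℕ => (ModularFormClass.qCoeff f m * ZMod.stdAddChar u ^ m) •
      Function.Periodic.qParam 1 (τ : ℂ) ^ m) (shZ k D f u τ) := by
  have h := hasSum_qExpansion (h := 1) one_pos (periodic_of_per hper) hhol hbdd
    ((((u.val : ℝ) / D : ℝ)) +ᵥ τ)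
  rw [qParam_vadd, exp_div_eq_stdAddChar] at h
  unfold shZ
  rw [slash_trans_apply]
  convert h using 2 with m
  rw [mul_pow, smul_eq_mul, smul_eq_mul, ModularFormClass.qCoeff]
  ring

/-- The `q`-expansion of the twist. -/
theorem hasSum_twist (ψ : DirichletCharacter ℂ D) {f : ℍ → ℂ} (hper : Per k f) (hhol : MDiff f)
    (hbdd : IsBoundedAtImInfty f) (τ : ℍ) :
    HasSum (fun m : ℕ => (gaussSum ψ⁻¹ (ZMod.stdAddChar.mulShift (m : ZMod D)) *
      ModularFormClass.qCoeff f m) • Function.Periodic.qParam 1 (τ : ℂ) ^ m)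
      (twist ψ k f τ) := by
  have h : ∀ u ∈ (Finset.univ : Finset (ZMod D)),
      HasSum (fun m : ℕ => ψ⁻¹ u • ((ModularFormClass.qCoeff f m * ZMod.stdAddChar u ^ m) •
        Function.Periodic.qParam 1 (τ : ℂ) ^ m)) (ψ⁻¹ u • shZ k D f u τ) :=
    fun u _ => (hasSum_shZ hper hhol hbdd u τ).const_smul _
  have h2 := hasSum_sum h
  have h3 : twist ψ k f τ = ∑ u : ZMod D, ψ⁻¹ u • shZ k D f u τ := by
    unfold twist
    simp [Finset.sum_apply]
  rw [h3]
  convert h2 using 2 with m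
  rw [gaussSum, Finset.sum_mul, Finset.sum_smul]
  refine Finset.sum_congr rfl fun u _ => ?_
  rw [AddChar.mulShift_spec']
  simp only [smul_eq_mul]
  ring

theorem per_shZ {f : ℍ → ℂ} (hper : Per k f) (u : ZMod D) : Per k (shZ k D f u) := by
  unfold Per shZ
  rw [← SlashAction.slash_mul, ← trans_add, add_comm, trans_add, SlashAction.slash_mul, hper]

theorem per_twist (ψ : DirichletCharacter ℂ D) {f : ℍ → ℂ} (hper : Per k f) :
    Per k (twist ψ k f) := by
  unfold Per twist
  rw [SlashAction.sum_slash]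
  refine Finset.sum_congr rfl fun u _ => ?_
  rw [smul_slash_trans, per_shZ hper u]

theorem qExpansion_coeff_unique_fun {g : ℍ → ℂ} (hcont : Continuous g) {c : ℕ → ℂ}
    (hg : AnalyticAt ℂ (cuspFunction 1 g) 0)
    (hs : ∀ τ : ℍ, HasSum (fun m ↦ c m • Function.Periodic.qParam 1 (τ : ℂ) ^ m) (g τ)) (m : ℕ) :
    c m = ModularFormClass.qCoeff g m :=
  UpperHalfPlane.qExpansion_coeff_unique (ContinuousMap.mk g hcont) one_pos hg hs m

/-- **The `q`-coefficients of the twist**: `a_m(R_ψ f) = G(ψ⁻¹, m) a_m(f)`. -/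
theorem qCoeff_twist (ψ : DirichletCharacter ℂ D) {f : ℍ → ℂ} (hper : Per k f) (hhol : MDiff f)
    (hbdd : IsBoundedAtImInfty f) (m : ℕ) :
    ModularFormClass.qCoeff (twist ψ k f) m =
      gaussSum ψ⁻¹ (ZMod.stdAddChar.mulShift (m : ZMod D)) * ModularFormClass.qCoeff f m := by
  have hper' : Per k (twist ψ k f) := per_twist ψ hper
  have han := analyticAt_cuspFunction_zero (h := 1) one_pos (periodic_of_per hper')
    (mdiff_twist ψ hhol) (isBoundedAtImInfty_twist ψ hbdd)
  exact (qExpansion_coeff_unique_fun (mdiff_twist ψ hhol).continuous han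
    (hasSum_twist ψ hper hhol hbdd) m).symm

/-! ### Gauss sums of primitive characters -/

theorem factorsThrough_inv {χ : DirichletCharacter ℂ D} {d : ℕ} (h : χ.FactorsThrough d) :
    χ⁻¹.FactorsThrough d := by
  obtain ⟨hd, χ₀, hχ₀⟩ := h
  exact ⟨hd, χ₀⁻¹, by rw [map_inv, ← hχ₀]⟩

theorem conductor_inv (χ : DirichletCharacter ℂ D) : χ⁻¹.conductor = χ.conductor := by
  unfold DirichletCharacter.conductor
  congr 1
  ext d
  rw [DirichletCharacter.mem_conductorSet_iff, DirichletCharacter.mem_conductorSet_iff]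
  exact ⟨fun h => by simpa using factorsThrough_inv h, factorsThrough_inv⟩

theorem isPrimitive_inv {χ : DirichletCharacter ℂ D} (h : χ.IsPrimitive) : χ⁻¹.IsPrimitive := by
  rw [DirichletCharacter.isPrimitive_def] at h ⊢
  rw [conductor_inv, h]

open scoped ZMod in
/-- The Gauss sum of a primitive character (to any modulus) does not vanish: Fourier inversion. -/
theorem gaussSum_ne_zero_of_isPrimitive {χ : DirichletCharacter ℂ D} (h : χ.IsPrimitive) :
    gaussSum χ ZMod.stdAddChar ≠ 0 := by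
  intro h0
  have h1 : 𝓕 (⇑χ : ZMod D → ℂ) = 0 := by
    funext j
    rw [h.fourierTransform_eq_inv_mul_gaussSum, h0, mul_zero, Pi.zero_apply]
  have h2 : (⇑χ : ZMod D → ℂ) = 0 := by
    have := congrArg (ZMod.dft (N := D) (E := ℂ)).symm h1
    rwa [LinearEquiv.symm_apply_apply, map_zero] at this
  have h3 := congrFun h2 1
  rw [map_one, Pi.zero_apply] at h3
  exact one_ne_zero h3

/-- For primitive `ψ`: `G(ψ⁻¹, m) = ψ(m) G(ψ⁻¹)` for ALL `m`. -/
theorem gaussSum_inv_mulShift {ψ : DirichletCharacter ℂ D} (h : ψ.IsPrimitive) (a : ZMod D) :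
    gaussSum ψ⁻¹ (ZMod.stdAddChar.mulShift a) = ψ a * gaussSum ψ⁻¹ ZMod.stdAddChar := by
  rw [gaussSum_mulShift_of_isPrimitive _ (isPrimitive_inv h), inv_inv]

/-- **The `q`-coefficients of the twist by a primitive character**:
`a_m(R_ψ f) = G(ψ⁻¹) ψ(m) a_m(f)`. -/
theorem qCoeff_twist_of_isPrimitive {ψ : DirichletCharacter ℂ D} (h : ψ.IsPrimitive) {f : ℍ → ℂ}
    (hper : Per k f) (hhol : MDiff f) (hbdd : IsBoundedAtImInfty f) (m : ℕ) :
    ModularFormClass.qCoeff (twist ψ k f) m =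
      gaussSum ψ⁻¹ ZMod.stdAddChar * (ψ (m : ZMod D) * ModularFormClass.qCoeff f m) := by
  rw [qCoeff_twist ψ hper hhol hbdd, gaussSum_inv_mulShift h]
  ring

end Fermat.Agent.M43.TwistAn6
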