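/-
Programme M43 (target S43), block (6d-TWIST) — helper6.
**Twisting eigenforms with nebentypus to trivial character: the END THEOREM `twist_occurs`.**

`D ∣ M`, `ε` a Dirichlet character mod `M`, `ψ` a PRIMITIVE Dirichlet character mod `D` with
`ε ψ² = 1` (`EpsPsiTriv`), `M D ∣ L`.

* `twistCusp` : for `f : CuspForm (Gamma1 M) k` with nebentypus `ε`, the twist `R_ψ f` as an element
  of `CuspForm (Gamma0 L) k`.
* `heckeTLin_twistCusp` : `T_ℓ^ε f = a f ⟹ T_ℓ (R_ψ f) = ψ(ℓ) a (R_ψ f)` (Prelude's `heckeTLin`).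
* `qCoeff_twistCusp` : `a_m(R_ψ f) = G(ψ⁻¹) ψ(m) a_m(f)`.
* `exists_unit_qCoeff_ne_zero` : the minimal-order argument.
* `twist_occurs` : a nonzero family of `ε`-eigenforms, stable under `U_q` (`q ∣ D`), with anemic
  eigenvalues `a ℓ`, produces a NONZERO `g : CuspForm (Gamma0 L) k` with
  `T_ℓ g = ψ(ℓ) a_ℓ g` for all primes `ℓ ∤ L`, `ℓ ∉ S`.
-/
import Mathlib
import Fermat.Prelude.Def_ModularForm_HeckeOperatorForms
import Fermat.Prelude.Thm_ModularFormClass_qCoeff_heckeU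
import Fermat.Agent.M43.TwistAn6

set_option autoImplicit false
set_option linter.unusedSectionVars false

noncomputable section

namespace Fermat.Agent.M43.TwistHecke6

open Matrix.SpecialLinearGroup UpperHalfPlane ModularForm CongruenceSubgroup
open scoped MatrixGroups ModularForm Manifold
open Fermat.Agent.M43.TwistMat6 Fermat.Agent.M43.TwistOp6 Fermat.Agent.M43.TwistAn6

variable {k : ℤ} {M D : ℕ} [NeZero M] [NeZero D]

/-- The hypothesis "`ε ψ² = 1`" (on integers prime to `M`). -/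
def EpsPsiTriv (ε : DirichletCharacter ℂ M) (ψ : DirichletCharacter ℂ D) : Prop :=
  ∀ d : ℤ, IsUnit (d : ZMod M) → ε (d : ZMod M) * ψ (d : ZMod D) ^ 2 = 1

theorem one_mem_strictPeriods_Gamma1' :
    (1 : ℝ) ∈ (Gamma1 M : Subgroup (GL (Fin 2) ℝ)).strictPeriods := by
  rw [strictPeriods_Gamma1]
  exact AddSubgroup.mem_zmultiples 1

theorem per_cuspForm (f : CuspForm (Gamma1 M) k) : Per k ⇑f := by
  unfold Per
  rw [← mapGL_T]
  exact SlashInvariantFormClass.slash_action_eq f _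
    (Subgroup.mem_map_of_mem (mapGL ℝ) (by
      rw [Gamma1_mem]
      simp [ModularGroup.T]))

theorem isBoundedAtImInfty_cuspForm (f : CuspForm (Gamma1 M) k) : IsBoundedAtImInfty ⇑f :=
  ModularFormClass.bdd_at_infty f

/-! ### The twist as a cusp form of level `Γ₀(L)` -/

/-- **The twist `R_ψ f` as a cusp form on `Γ₀(L)`** (`M D ∣ L`, `ε ψ² = 1`). -/
def twistCusp (hDM : D ∣ M) {L : ℕ} [NeZero L] (hL : M * D ∣ L) {ε : DirichletCharacter ℂ M}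
    (ψ : DirichletCharacter ℂ D) (hεψ : EpsPsiTriv ε ψ) (f : CuspForm (Gamma1 M) k)
    (hf : IsEps M ε k ⇑f) : CuspForm (Gamma0 L) k where
  toFun := twist ψ k ⇑f
  slash_action_eq' := by
    intro γ hγ
    obtain ⟨g, hg, rfl⟩ := hγ
    have hgL := Gamma0_dvd hg
    have hg' : g ∈ Gamma0 (M * D) :=
      mem_Gamma0_of_dvd ((Int.natCast_dvd_natCast.mpr hL).trans hgL)
    have hgM : g ∈ Gamma0 M :=
      mem_Gamma0_of_dvd ((Int.natCast_dvd_natCast.mpr ((dvd_mul_right M D).trans hL)).trans hgL)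
    show twist ψ k ⇑f ∣[k] (mapGL ℝ g : GL (Fin 2) ℝ) = twist ψ k ⇑f
    rw [hf.twist_slash hDM ψ g hg', hεψ _ (isUnit_cast_of_mem_Gamma0 hgM), one_smul]
  holo' := mdiff_twist ψ (CuspFormClass.holo f)
  zero_at_cusps' := fun hc => isZeroAt_twist f ψ (isCusp_of_isArithmetic hc)

@[simp] theorem coe_twistCusp (hDM : D ∣ M) {L : ℕ} [NeZero L] (hL : M * D ∣ L)
    {ε : DirichletCharacter ℂ M} (ψ : DirichletCharacter ℂ D) (hεψ : EpsPsiTriv ε ψ)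
    (f : CuspForm (Gamma1 M) k) (hf : IsEps M ε k ⇑f) :
    ⇑(twistCusp hDM hL ψ hεψ f hf) = twist ψ k ⇑f := rfl

/-! ### Hecke eigenvalues -/

theorem isUnit_natCast_of_prime_not_dvd {N ℓ : ℕ} (hℓ : ℓ.Prime) (h : ¬ ℓ ∣ N) :
    IsUnit ((ℓ : ℕ) : ZMod N) :=
  (ZMod.isUnit_iff_coprime ℓ N).mpr ((Nat.Prime.coprime_iff_not_dvd hℓ).mpr h)

/-- **`T_ℓ (R_ψ f) = ψ(ℓ) a (R_ψ f)`** if `T_ℓ^ε f = a f` (function level). -/
theorem heckeT_twist_of_eigen (hDM : D ∣ M) {ε : DirichletCharacter ℂ M}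
    (ψ : DirichletCharacter ℂ D) (hεψ : EpsPsiTriv ε ψ) {f : ℍ → ℂ} (hf : Per k f) {ℓ : ℕ}
    (hℓ : ℓ.Prime) (hℓM : ¬ ℓ ∣ M) {a : ℂ}
    (ha : heckeTeps (ε (ℓ : ZMod M)) k ℓ f = a • f) :
    heckeT k ℓ (twist ψ k f) = (ψ (ℓ : ZMod D) * a) • twist ψ k f := by
  have hu : IsUnit ((ℓ : ℕ) : ZMod D) :=
    isUnit_natCast_of_prime_not_dvd hℓ fun h => hℓM (h.trans hDM)
  have h1 := hεψ (ℓ : ℤ) (by
    rw [Int.cast_natCast]
    exact isUnit_natCast_of_prime_not_dvd hℓ hℓM)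
  rw [Int.cast_natCast, Int.cast_natCast] at h1
  have h2 := hf.twist_heckeTeps ψ hℓ.ne_zero hu (ε (ℓ : ZMod M))
  rw [h1, heckeTeps_one, ha, twist_smul, smul_smul] at h2
  exact h2

/-- **`T_ℓ (R_ψ f) = ψ(ℓ) a (R_ψ f)`** in the Prelude's vocabulary `CuspForm.heckeTLin`. -/
theorem heckeTLin_twistCusp (hDM : D ∣ M) {L : ℕ} [NeZero L] (hL : M * D ∣ L)
    {ε : DirichletCharacter ℂ M} (ψ : DirichletCharacter ℂ D) (hεψ : EpsPsiTriv ε ψ)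
    (f : CuspForm (Gamma1 M) k) (hf : IsEps M ε k ⇑f) {ℓ : ℕ} (hℓ : ℓ.Prime) (hℓL : ¬ ℓ ∣ L)
    {a : ℂ} (ha : heckeTeps (ε (ℓ : ZMod M)) k ℓ ⇑f = a • ⇑f) :
    CuspForm.heckeTLin k hℓ hℓL (twistCusp hDM hL ψ hεψ f hf) =
      (ψ (ℓ : ZMod D) * a) • twistCusp hDM hL ψ hεψ f hf := by
  apply DFunLike.coe_injective
  rw [CuspForm.coe_heckeTLin_apply, CuspForm.IsGLPos.coe_smul, coe_twistCusp]
  exact heckeT_twist_of_eigen hDM ψ hεψ (per_cuspForm f) hℓ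
    (fun h => hℓL (h.trans ((dvd_mul_right M D).trans hL))) ha

/-! ### `q`-coefficients and nonvanishing -/

theorem qCoeff_twistCusp (hDM : D ∣ M) {L : ℕ} [NeZero L] (hL : M * D ∣ L)
    {ε : DirichletCharacter ℂ M} {ψ : DirichletCharacter ℂ D} (hψ : ψ.IsPrimitive)
    (hεψ : EpsPsiTriv ε ψ) (f : CuspForm (Gamma1 M) k) (hf : IsEps M ε k ⇑f) (m : ℕ) :
    ModularFormClass.qCoeff ⇑(twistCusp hDM hL ψ hεψ f hf) m =
      gaussSum ψ⁻¹ ZMod.stdAddChar * (ψ (m : ZMod D) * ModularFormClass.qCoeff ⇑f m) := by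
  rw [coe_twistCusp]
  exact qCoeff_twist_of_isPrimitive hψ (per_cuspForm f) (CuspFormClass.holo f)
    (isBoundedAtImInfty_cuspForm f) m

theorem twistCusp_ne_zero (hDM : D ∣ M) {L : ℕ} [NeZero L] (hL : M * D ∣ L)
    {ε : DirichletCharacter ℂ M} {ψ : DirichletCharacter ℂ D} (hψ : ψ.IsPrimitive)
    (hεψ : EpsPsiTriv ε ψ) (f : CuspForm (Gamma1 M) k) (hf : IsEps M ε k ⇑f) {m : ℕ}
    (hm : IsUnit ((m : ℕ) : ZMod D)) (ha : ModularFormClass.qCoeff ⇑f m ≠ 0) :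
    twistCusp hDM hL ψ hεψ f hf ≠ 0 := by
  intro h0
  have h1 := qCoeff_twistCusp hDM hL hψ hεψ f hf m
  rw [h0, CuspForm.coe_zero, ModularFormClass.qCoeff, qExpansion_zero, map_zero] at h1
  have h2 : ψ (m : ZMod D) ≠ 0 := (hm.map ψ).ne_zero
  exact mul_ne_zero (gaussSum_ne_zero_of_isPrimitive (isPrimitive_inv hψ)) (mul_ne_zero h2 ha)
    h1.symm

/-! ### The minimal-order argument -/

theorem exists_qCoeff_ne_zero {f : CuspForm (Gamma1 M) k} (hf : f ≠ 0) :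
    ∃ n : ℕ, ModularFormClass.qCoeff ⇑f n ≠ 0 := by
  by_contra hcon
  push_neg at hcon
  apply hf
  apply DFunLike.coe_injective
  rw [CuspForm.coe_zero]
  rw [← qExpansion_eq_zero_iff (h := 1) one_pos (periodic_of_per (per_cuspForm f))
    (CuspFormClass.holo f) (isBoundedAtImInfty_cuspForm f)]
  ext n
  rw [map_zero]
  exact hcon n

/-- **The minimal-order argument.** In a nonzero family of cusp forms stable under the `U_q`,
`q ∣ D`, some form has a nonzero `q`-coefficient of index prime to `D`. -/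
theorem exists_unit_qCoeff_ne_zero (V : Set (CuspForm (Gamma1 M) k)) (hV : ∃ f ∈ V, f ≠ 0)
    (hU : ∀ q : ℕ, q.Prime → q ∣ D → ∀ f ∈ V, ∃ f' ∈ V, ⇑f' = heckeU k q ⇑f) :
    ∃ f ∈ V, ∃ m : ℕ, IsUnit ((m : ℕ) : ZMod D) ∧ ModularFormClass.qCoeff ⇑f m ≠ 0 := by
  classical
  have hex : ∃ n : ℕ, ∃ f ∈ V, ModularFormClass.qCoeff ⇑f n ≠ 0 := by
    obtain ⟨f, hfV, hf0⟩ := hV
    obtain ⟨n, hn⟩ := exists_qCoeff_ne_zero hf0
    exact ⟨n, f, hfV, hn⟩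
  obtain ⟨f, hfV, hfn⟩ := Nat.find_spec hex
  have hmin := fun n (hn : n < Nat.find hex) => Nat.find_min hex hn
  set n₀ := Nat.find hex with hn₀
  have hn₀pos : 0 < n₀ := by
    rcases Nat.eq_zero_or_pos n₀ with h | h
    · exfalso
      apply hfn
      rw [h]
      exact CuspFormClass.qExpansion_coeff_zero f one_pos one_mem_strictPeriods_Gamma1'
    · exact h
  refine ⟨f, hfV, n₀, ?_, hfn⟩
  rw [ZMod.isUnit_iff_coprime]
  by_contra hco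
  obtain ⟨q, hq, hqn, hqD⟩ := Nat.Prime.not_coprime_iff_dvd.mp hco
  obtain ⟨f', hf'V, hf'⟩ := hU q hq hqD f hfV
  apply hmin (n₀ / q) (Nat.div_lt_self hn₀pos hq.one_lt)
  refine ⟨f', hf'V, ?_⟩
  rw [hf', ModularFormClass.qCoeff_heckeU f one_mem_strictPeriods_Gamma1' hq.ne_zero,
    coeffHeckeU_apply, Nat.div_mul_cancel hqn]
  exact hfn

/-! ### The END THEOREM -/

/-- **(6d-TWIST) END THEOREM.** `D ∣ M`, `ψ` primitive mod `D`, `ε ψ² = 1`, `M D ∣ L`.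
Let `V` be a family of cusp forms on `Γ₁(M)` with nebentypus `ε`, containing a nonzero form, stable
under `U_q` for the primes `q ∣ D`, all of whose members are eigenforms of the
`T_ℓ^ε = U_ℓ + ε(ℓ) ·∣diag(ℓ,1)` (`ℓ ∤ M` prime, `ℓ ∉ S`) with eigenvalue `a ℓ`.
Then some `f ∈ V` has a NONZERO twist `g = R_ψ f ∈ S_k(Γ₀(L))`, and
`T_ℓ g = ψ(ℓ) a_ℓ g` for all primes `ℓ ∤ L`, `ℓ ∉ S`; moreover `a_m(g) = G(ψ⁻¹) ψ(m) a_m(f)`. -/
theorem twist_occurs (hDM : D ∣ M) {L : ℕ} [NeZero L] (hL : M * D ∣ L)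
    {ε : DirichletCharacter ℂ M} {ψ : DirichletCharacter ℂ D} (hψ : ψ.IsPrimitive)
    (hεψ : EpsPsiTriv ε ψ) (S : Set ℕ) (a : ℕ → ℂ)
    (V : Set (CuspForm (Gamma1 M) k)) (hV : ∃ f ∈ V, f ≠ 0)
    (hVeps : ∀ f ∈ V, IsEps M ε k ⇑f)
    (hVeig : ∀ f ∈ V, ∀ ℓ : ℕ, ℓ.Prime → ¬ ℓ ∣ M → ℓ ∉ S →
      heckeTeps (ε (ℓ : ZMod M)) k ℓ ⇑f = a ℓ • ⇑f)
    (hU : ∀ q : ℕ, q.Prime → q ∣ D → ∀ f ∈ V, ∃ f' ∈ V, ⇑f' = heckeU k q ⇑f) :
    ∃ f ∈ V, ∃ g : CuspForm (Gamma0 L) k, g ≠ 0 ∧ ⇑g = twist ψ k ⇑f ∧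
      (∀ m : ℕ, ModularFormClass.qCoeff ⇑g m =
        gaussSum ψ⁻¹ ZMod.stdAddChar * (ψ (m : ZMod D) * ModularFormClass.qCoeff ⇑f m)) ∧
      ∀ (ℓ : ℕ) (hℓ : ℓ.Prime) (hℓL : ¬ ℓ ∣ L), ℓ ∉ S →
        CuspForm.heckeTLin k hℓ hℓL g = (ψ (ℓ : ZMod D) * a ℓ) • g := by
  obtain ⟨f, hfV, m, hm, hfm⟩ := exists_unit_qCoeff_ne_zero V hV hU
  refine ⟨f, hfV, twistCusp hDM hL ψ hεψ f (hVeps f hfV),
    twistCusp_ne_zero hDM hL hψ hεψ f _ hm hfm, rfl,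
    qCoeff_twistCusp hDM hL hψ hεψ f _, fun ℓ hℓ hℓL hℓS => ?_⟩
  exact heckeTLin_twistCusp hDM hL ψ hεψ f _ hℓ hℓL
    (hVeig f hfV ℓ hℓ (fun h => hℓL (h.trans ((dvd_mul_right M D).trans hL))) hℓS)

end Fermat.Agent.M43.TwistHecke6
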