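/-
Programme M43 (target S43), block (6d-TWIST) — helper6.
**The END THEOREM of (6d-TWIST) in the `Γ₁`-vocabulary of M48** (`HeckeOne1.T1`, `U1`,
`Diamond1.diamondC`).

`twist_occurs_of_eigenform` : a nonzero `f : CuspForm (Gamma1 M) k` with `⟨d⟩ f = ε(d) f` and
`T_ℓ f = a_ℓ f` (`ℓ ∤ M` prime, `ℓ ∉ S`), `ψ` primitive mod `D ∣ M` with `ε ψ² = 1`, `M D ∣ L`
⟹ a nonzero `g : CuspForm (Gamma0 L) k` with `T_ℓ g = ψ(ℓ) a_ℓ g` (`ℓ ∤ L` prime, `ℓ ∉ S`).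
-/
import Mathlib
import Fermat.Agent.M48.HeckeComm1
import Fermat.Agent.M43.TwistHecke6

set_option autoImplicit false
set_option linter.unusedSectionVars false

noncomputable section

namespace Fermat.Agent.M43.TwistG16

open Matrix.SpecialLinearGroup UpperHalfPlane ModularForm CongruenceSubgroup
open scoped MatrixGroups ModularForm Manifold
open Fermat.Agent.M43.TwistMat6 Fermat.Agent.M43.TwistOp6 Fermat.Agent.M43.TwistAn6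
  Fermat.Agent.M43.TwistHecke6
open Fermat.Agent.M48.Diamond1 Fermat.Agent.M48.HeckeOne1 Fermat.Agent.M48.HeckeComm1

variable {k : ℤ} {M D : ℕ} [NeZero M] [NeZero D]

/-- The diamond law gives the nebentypus law. -/
theorem isEps_of_diamond {ε : DirichletCharacter ℂ M} {f : CuspForm (Gamma1 M) k}
    (hdia : ∀ d : (ZMod M)ˣ, diamondC d f = ε (d : ZMod M) • f) : IsEps M ε k ⇑f := by
  intro g hg
  have h1 := coe_diamondC (unitOf ⟨g, hg⟩) f ⟨g, hg⟩ rfl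
  rw [hdia] at h1
  have h2 : ((unitOf (⟨g, hg⟩ : Gamma0 M) : (ZMod M)ˣ) : ZMod M) = ((g 1 1 : ℤ) : ZMod M) := rfl
  rw [h2, CuspForm.IsGLPos.coe_smul] at h1
  rw [h1]
  rfl

/-- The nebentypus law gives the diamond law. -/
theorem diamond_of_isEps {ε : DirichletCharacter ℂ M} {f : CuspForm (Gamma1 M) k}
    (hf : IsEps M ε k ⇑f) (d : (ZMod M)ˣ) : diamondC d f = ε (d : ZMod M) • f := by
  apply DFunLike.coe_injective
  rw [coe_diamondC_sigma, CuspForm.IsGLPos.coe_smul]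
  have h := hf ((sigma d : Gamma0 M) : SL(2, ℤ)) (sigma d).2
  have h2 : ((((sigma d : Gamma0 M) : SL(2, ℤ)) 1 1 : ℤ) : ZMod M) = (d : ZMod M) := by
    have := unitOf_sigma d
    exact congrArg (fun u : (ZMod M)ˣ => (u : ZMod M)) this
  rw [h2] at h
  exact h

/-- `T1` on a form with the diamond law is `heckeTeps`. -/
theorem coe_T1_of_diamond {ε : DirichletCharacter ℂ M} {f : CuspForm (Gamma1 M) k}
    (hdia : ∀ d : (ZMod M)ˣ, diamondC d f = ε (d : ZMod M) • f) {ℓ : ℕ} (hℓ : ℓ.Prime)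
    (hℓM : ¬ ℓ ∣ M) : ⇑(T1 k hℓ hℓM f) = heckeTeps (ε (ℓ : ZMod M)) k ℓ ⇑f := by
  rw [coe_T1, hdia, coe_unitOfPrime, CuspForm.IsGLPos.coe_smul, smul_slash_heckeDiagMatrix]
  rfl

/-- **(6d-TWIST) END THEOREM, `Γ₁`-vocabulary of M48.** -/
theorem twist_occurs_of_eigenform (hDM : D ∣ M) {L : ℕ} [NeZero L] (hL : M * D ∣ L)
    {ε : DirichletCharacter ℂ M} {ψ : DirichletCharacter ℂ D} (hψ : ψ.IsPrimitive)
    (hεψ : EpsPsiTriv ε ψ) (S : Set ℕ) (a : ℕ → ℂ)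
    (f : CuspForm (Gamma1 M) k) (hf0 : f ≠ 0)
    (hdia : ∀ d : (ZMod M)ˣ, diamondC d f = ε (d : ZMod M) • f)
    (heig : ∀ (ℓ : ℕ) (hℓ : ℓ.Prime) (hℓM : ¬ ℓ ∣ M), ℓ ∉ S → T1 k hℓ hℓM f = a ℓ • f) :
    ∃ g : CuspForm (Gamma0 L) k, g ≠ 0 ∧
      ∀ (ℓ : ℕ) (hℓ : ℓ.Prime) (hℓL : ¬ ℓ ∣ L), ℓ ∉ S →
        CuspForm.heckeTLin k hℓ hℓL g = (ψ (ℓ : ZMod D) * a ℓ) • g := by
  -- the common eigenspace
  let V : Set (CuspForm (Gamma1 M) k) := {f' |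
    (∀ d : (ZMod M)ˣ, diamondC d f' = ε (d : ZMod M) • f') ∧
    ∀ (ℓ : ℕ) (hℓ : ℓ.Prime) (hℓM : ¬ ℓ ∣ M), ℓ ∉ S → T1 k hℓ hℓM f' = a ℓ • f'}
  have hfV : f ∈ V := ⟨hdia, heig⟩
  obtain ⟨f', hf'V, g, hg0, -, -, hg⟩ := twist_occurs hDM hL hψ hεψ S a V ⟨f, hfV, hf0⟩
    (fun f' hf' => isEps_of_diamond hf'.1)
    (fun f' hf' ℓ hℓ hℓM hℓS => by
      rw [← coe_T1_of_diamond hf'.1 hℓ hℓM, hf'.2 ℓ hℓ hℓM hℓS, CuspForm.IsGLPos.coe_smul])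
    (fun q hq hqD f' hf' => by
      have hqM : q ∣ M := hqD.trans hDM
      refine ⟨U1 k hq hqM f', ⟨fun d => ?_, fun ℓ hℓ hℓM hℓS => ?_⟩, coe_U1 hq hqM f'⟩
      · rw [diamondC_U1, hf'.1 d, map_smul]
      · rw [T1_U1_comm hℓ hℓM hq hqM, hf'.2 ℓ hℓ hℓM hℓS, map_smul])
  exact ⟨g, hg0, hg⟩

end Fermat.Agent.M43.TwistG16
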