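/-
Programme M43 (target S43), block (6d-TWIST) — helper6.
**The twisted eigensystem as a character of the Prelude's (anemic) Hecke algebra.**

* `eigenChar` : a nonzero `g : CuspForm (Gamma0 L) k` which is an eigenvector of every `T_ℓ`
  (`ℓ ∤ L` prime, `ℓ ∉ S`), where `S` contains the primes dividing `L`, defines a ring homomorphism
  `CuspForm.heckeAlgebra L k S →+* integralClosure ℤ ℂ` (integrality from the banked S22).
* `exists_twist_character` : (6d-TWIST) END THEOREM in character form.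
-/
import Mathlib
import Fermat.Agent.S22
import Fermat.Agent.M43.TwistG16

set_option autoImplicit false
set_option linter.unusedSectionVars false

noncomputable section

namespace Fermat.Agent.M43.TwistChar6

open CuspForm CongruenceSubgroup
open Fermat.Agent.M43.TwistHecke6 Fermat.Agent.M43.TwistG16
open Fermat.Agent.M48.Diamond1 Fermat.Agent.M48.HeckeOne1

variable {L : ℕ} [NeZero L] {k : ℤ}

/-- The `ℤ`-subalgebra of the operators having `g` as an eigenvector. -/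
def eigSub (g : CuspForm (Gamma0 L) k) :
    Subalgebra ℤ (Module.End ℂ (CuspForm (Gamma0 L) k)) where
  carrier := {T | ∃ c : ℂ, T g = c • g}
  mul_mem' := by
    rintro T T' ⟨c, hc⟩ ⟨c', hc'⟩
    exact ⟨c' * c, by rw [Module.End.mul_apply, hc', map_smul, hc, smul_smul]⟩
  one_mem' := ⟨1, by simp⟩
  add_mem' := by
    rintro T T' ⟨c, hc⟩ ⟨c', hc'⟩
    exact ⟨c + c', by rw [LinearMap.add_apply, hc, hc', add_smul]⟩
  zero_mem' := ⟨0, by simp⟩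
  algebraMap_mem' r := ⟨(r : ℂ), by
    rw [Algebra.algebraMap_eq_smul_one, LinearMap.smul_apply, Module.End.one_apply,
      Int.cast_smul_eq_zsmul]⟩

/-- Anemic eigenvectors are eigenvectors of the whole Hecke algebra. -/
theorem heckeAlgebra_le_eigSub {S : Set ℕ} (hS : ∀ q : ℕ, q.Prime → q ∣ L → q ∈ S)
    {g : CuspForm (Gamma0 L) k} {c : ℕ → ℂ}
    (h : ∀ (ℓ : ℕ) (hℓ : ℓ.Prime) (hℓL : ¬ ℓ ∣ L), ℓ ∉ S → heckeTLin k hℓ hℓL g = c ℓ • g) :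
    heckeAlgebra L k S ≤ eigSub g := by
  refine Algebra.adjoin_le ?_
  rintro T (⟨l, hl, hlN, hlS, rfl⟩ | ⟨q, hqN, hq, hqS, rfl⟩)
  · exact ⟨_, h l hl hlN hlS⟩
  · exact absurd (hS q hq hqN) hqS

theorem exists_eigenvalue {S : Set ℕ} (hS : ∀ q : ℕ, q.Prime → q ∣ L → q ∈ S)
    {g : CuspForm (Gamma0 L) k} {c : ℕ → ℂ}
    (h : ∀ (ℓ : ℕ) (hℓ : ℓ.Prime) (hℓL : ¬ ℓ ∣ L), ℓ ∉ S → heckeTLin k hℓ hℓL g = c ℓ • g)
    (t : heckeAlgebra L k S) :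
    ∃ a : ℂ, (t : Module.End ℂ (CuspForm (Gamma0 L) k)) g = a • g :=
  heckeAlgebra_le_eigSub hS h t.2

theorem smul_right_inj_of_ne_zero {g : CuspForm (Gamma0 L) k} (hg : g ≠ 0) {a b : ℂ}
    (h : a • g = b • g) : a = b := by
  by_contra hab
  apply hg
  have h1 : (a - b) • g = 0 := by rw [sub_smul, h, sub_self]
  rcases smul_eq_zero.mp h1 with h2 | h2
  · exact absurd (sub_eq_zero.mp h2) hab
  · exact h2

/-- The eigenvalue of `t` on `g`. -/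
def ev {S : Set ℕ} (hS : ∀ q : ℕ, q.Prime → q ∣ L → q ∈ S)
    {g : CuspForm (Gamma0 L) k} {c : ℕ → ℂ}
    (h : ∀ (ℓ : ℕ) (hℓ : ℓ.Prime) (hℓL : ¬ ℓ ∣ L), ℓ ∉ S → heckeTLin k hℓ hℓL g = c ℓ • g)
    (t : heckeAlgebra L k S) : ℂ :=
  (exists_eigenvalue hS h t).choose

theorem ev_spec {S : Set ℕ} (hS : ∀ q : ℕ, q.Prime → q ∣ L → q ∈ S)
    {g : CuspForm (Gamma0 L) k} {c : ℕ → ℂ}
    (h : ∀ (ℓ : ℕ) (hℓ : ℓ.Prime) (hℓL : ¬ ℓ ∣ L), ℓ ∉ S → heckeTLin k hℓ hℓL g = c ℓ • g)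
    (t : heckeAlgebra L k S) :
    (t : Module.End ℂ (CuspForm (Gamma0 L) k)) g = ev hS h t • g :=
  (exists_eigenvalue hS h t).choose_spec

/-- **The eigencharacter of a nonzero anemic eigenvector** (complex valued). -/
def eigenCharC {S : Set ℕ} (hS : ∀ q : ℕ, q.Prime → q ∣ L → q ∈ S)
    {g : CuspForm (Gamma0 L) k} (hg : g ≠ 0) {c : ℕ → ℂ}
    (h : ∀ (ℓ : ℕ) (hℓ : ℓ.Prime) (hℓL : ¬ ℓ ∣ L), ℓ ∉ S → heckeTLin k hℓ hℓL g = c ℓ • g) :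
    heckeAlgebra L k S →+* ℂ where
  toFun t := ev hS h t
  map_one' := by
    apply smul_right_inj_of_ne_zero hg
    rw [← ev_spec hS h 1, one_smul]
    rfl
  map_mul' t t' := by
    apply smul_right_inj_of_ne_zero hg
    rw [← ev_spec hS h (t * t')]
    show ((t : Module.End ℂ (CuspForm (Gamma0 L) k)) *
      (t' : Module.End ℂ (CuspForm (Gamma0 L) k))) g = _
    rw [Module.End.mul_apply, ev_spec hS h t', map_smul, ev_spec hS h t, smul_smul, mul_comm]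
  map_zero' := by
    apply smul_right_inj_of_ne_zero hg
    rw [← ev_spec hS h 0, zero_smul]
    rfl
  map_add' t t' := by
    apply smul_right_inj_of_ne_zero hg
    rw [← ev_spec hS h (t + t')]
    show ((t : Module.End ℂ (CuspForm (Gamma0 L) k)) +
      (t' : Module.End ℂ (CuspForm (Gamma0 L) k))) g = _
    rw [LinearMap.add_apply, ev_spec hS h t', ev_spec hS h t, add_smul]

theorem eigenCharC_spec {S : Set ℕ} (hS : ∀ q : ℕ, q.Prime → q ∣ L → q ∈ S)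
    {g : CuspForm (Gamma0 L) k} (hg : g ≠ 0) {c : ℕ → ℂ}
    (h : ∀ (ℓ : ℕ) (hℓ : ℓ.Prime) (hℓL : ¬ ℓ ∣ L), ℓ ∉ S → heckeTLin k hℓ hℓL g = c ℓ • g)
    (t : heckeAlgebra L k S) :
    (t : Module.End ℂ (CuspForm (Gamma0 L) k)) g = eigenCharC hS hg h t • g :=
  ev_spec hS h t

theorem eigenCharC_T {S : Set ℕ} (hS : ∀ q : ℕ, q.Prime → q ∣ L → q ∈ S)
    {g : CuspForm (Gamma0 L) k} (hg : g ≠ 0) {c : ℕ → ℂ}
    (h : ∀ (ℓ : ℕ) (hℓ : ℓ.Prime) (hℓL : ¬ ℓ ∣ L), ℓ ∉ S → heckeTLin k hℓ hℓL g = c ℓ • g)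
    {ℓ : ℕ} (hℓ : ℓ.Prime) (hℓL : ¬ ℓ ∣ L) (hℓS : ℓ ∉ S) :
    eigenCharC hS hg h (heckeAlgebra.T hℓ hℓL hℓS) = c ℓ := by
  apply smul_right_inj_of_ne_zero hg
  rw [← eigenCharC_spec hS hg h, heckeAlgebra.coe_T, h ℓ hℓ hℓL hℓS]

theorem isIntegral_eigenCharC {S : Set ℕ} (hS : ∀ q : ℕ, q.Prime → q ∣ L → q ∈ S)
    {g : CuspForm (Gamma0 L) k} (hg : g ≠ 0) {c : ℕ → ℂ}
    (h : ∀ (ℓ : ℕ) (hℓ : ℓ.Prime) (hℓL : ¬ ℓ ∣ L), ℓ ∉ S → heckeTLin k hℓ hℓL g = c ℓ • g)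
    (t : heckeAlgebra L k S) : IsIntegral ℤ (eigenCharC hS hg h t) := by
  have : Module.Finite ℤ (heckeAlgebra L k S) := Fermat.Agent.S22.result L k S
  have ht : IsIntegral ℤ t := Algebra.IsIntegral.isIntegral t
  exact ht.map (eigenCharC hS hg h).toIntAlgHom

/-- **The eigencharacter with values in the algebraic integers.** -/
def eigenChar {S : Set ℕ} (hS : ∀ q : ℕ, q.Prime → q ∣ L → q ∈ S)
    {g : CuspForm (Gamma0 L) k} (hg : g ≠ 0) {c : ℕ → ℂ}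
    (h : ∀ (ℓ : ℕ) (hℓ : ℓ.Prime) (hℓL : ¬ ℓ ∣ L), ℓ ∉ S → heckeTLin k hℓ hℓL g = c ℓ • g) :
    heckeAlgebra L k S →+* integralClosure ℤ ℂ :=
  (eigenCharC hS hg h).codRestrict (integralClosure ℤ ℂ).toSubring
    fun t => isIntegral_eigenCharC hS hg h t

theorem coe_eigenChar_T {S : Set ℕ} (hS : ∀ q : ℕ, q.Prime → q ∣ L → q ∈ S)
    {g : CuspForm (Gamma0 L) k} (hg : g ≠ 0) {c : ℕ → ℂ}
    (h : ∀ (ℓ : ℕ) (hℓ : ℓ.Prime) (hℓL : ¬ ℓ ∣ L), ℓ ∉ S → heckeTLin k hℓ hℓL g = c ℓ • g)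
    {ℓ : ℕ} (hℓ : ℓ.Prime) (hℓL : ¬ ℓ ∣ L) (hℓS : ℓ ∉ S) :
    ((eigenChar hS hg h (heckeAlgebra.T hℓ hℓL hℓS) : integralClosure ℤ ℂ) : ℂ) = c ℓ :=
  eigenCharC_T hS hg h hℓ hℓL hℓS

/-- **(6d-TWIST) END THEOREM, character form.** The twisted anemic eigensystem
`ℓ ↦ ψ(ℓ) a_ℓ` is a character of the Prelude's Hecke algebra of level `Γ₀(L)` (`M D ∣ L`, `S`
containing the primes of `L`), with values in the algebraic integers. -/
theorem exists_twist_character {M D : ℕ} [NeZero M] [NeZero D] (hDM : D ∣ M) (hL : M * D ∣ L)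
    {ε : DirichletCharacter ℂ M} {ψ : DirichletCharacter ℂ D} (hψ : ψ.IsPrimitive)
    (hεψ : EpsPsiTriv ε ψ) (S : Set ℕ) (hS : ∀ q : ℕ, q.Prime → q ∣ L → q ∈ S) (a : ℕ → ℂ)
    (f : CuspForm (Gamma1 M) k) (hf0 : f ≠ 0)
    (hdia : ∀ d : (ZMod M)ˣ, diamondC d f = ε (d : ZMod M) • f)
    (heig : ∀ (ℓ : ℕ) (hℓ : ℓ.Prime) (hℓM : ¬ ℓ ∣ M), ℓ ∉ S → T1 k hℓ hℓM f = a ℓ • f) :
    ∃ θ : heckeAlgebra L k S →+* integralClosure ℤ ℂ,
      ∀ (ℓ : ℕ) (hℓ : ℓ.Prime) (hℓL : ¬ ℓ ∣ L) (hℓS : ℓ ∉ S),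
        ((θ (heckeAlgebra.T hℓ hℓL hℓS) : integralClosure ℤ ℂ) : ℂ) = ψ (ℓ : ZMod D) * a ℓ := by
  obtain ⟨g, hg0, hg⟩ := twist_occurs_of_eigenform hDM hL hψ hεψ S a f hf0 hdia heig
  exact ⟨eigenChar hS hg0 hg, fun ℓ hℓ hℓL hℓS => coe_eigenChar_T hS hg0 hg hℓ hℓL hℓS⟩

end Fermat.Agent.M43.TwistChar6
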