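/-
Programme M43 (target S43), chapter TWIST-LAT — helper6.
**Bridge between `HeckeH0.GH` and the explicit congruence groups `TwistLatB6.GHc`.**
-/
import Mathlib
import Fermat.Agent.M43.HeckeH0
import Fermat.Agent.M43.TwistLatB6

set_option autoImplicit false

noncomputable section

namespace Fermat.Agent.M43.TwistLatG6

open CongruenceSubgroup Matrix.SpecialLinearGroup
open scoped MatrixGroups
open Fermat.Agent.M43.HeckeH0 Fermat.Agent.M43.TwistLatB6 Fermat.Agent.M48.Diamond1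

theorem mem_Gamma0_iff_dvd {N : ℕ} {g : SL(2, ℤ)} : g ∈ Gamma0 N ↔ (N : ℤ) ∣ g 1 0 := by
  rw [Gamma0_mem, ZMod.intCast_zmod_eq_zero_iff_dvd]

theorem coe_unitOf' {N : ℕ} (g : SL(2, ℤ)) (h : g ∈ Gamma0 N) :
    ((unitOf (⟨g, h⟩ : Gamma0 N) : (ZMod N)ˣ) : ZMod N) = ((g 1 1 : ℤ) : ZMod N) := rfl

/-- `GH N (S.comap (unitsMap h)) = {g : N ∣ g₁₀, (g₁₁ mod N₀) ∈ S}`. -/
theorem GH_comap_eq_GHc {N N₀ : ℕ} (S : Subgroup (ZMod N₀)ˣ) (h : N₀ ∣ N) :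
    GH N (S.comap (ZMod.unitsMap h)) = GHc N N₀ S h := by
  ext g
  rw [mem_GH, mem_GHc]
  constructor
  · rintro ⟨h0, hu⟩
    refine ⟨mem_Gamma0_iff_dvd.mp h0, _, hu, ?_⟩
    rw [ZMod.unitsMap_val, coe_unitOf', ZMod.cast_intCast h]
  · rintro ⟨h0, u, hu, hug⟩
    refine ⟨mem_Gamma0_iff_dvd.mpr h0, ?_⟩
    have : ZMod.unitsMap h (unitOf (⟨g, mem_Gamma0_iff_dvd.mpr h0⟩ : Gamma0 N)) = u := by
      ext
      rw [ZMod.unitsMap_val, coe_unitOf', ZMod.cast_intCast h, hug]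
    rw [Subgroup.mem_comap, this]
    exact hu

/-- `GH N S = {g : N ∣ g₁₀, (g₁₁ mod N) ∈ S}`. -/
theorem GH_eq_GHc {N : ℕ} (S : Subgroup (ZMod N)ˣ) : GH N S = GHc N N S dvd_rfl := by
  ext g
  rw [mem_GH, mem_GHc]
  constructor
  · rintro ⟨h0, hu⟩
    exact ⟨mem_Gamma0_iff_dvd.mp h0, _, hu, coe_unitOf' g h0⟩
  · rintro ⟨h0, u, hu, hug⟩
    refine ⟨mem_Gamma0_iff_dvd.mpr h0, ?_⟩
    have : unitOf (⟨g, mem_Gamma0_iff_dvd.mpr h0⟩ : Gamma0 N) = u := by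
      ext
      rw [coe_unitOf', hug]
    rw [this]
    exact hu

end Fermat.Agent.M43.TwistLatG6
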