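/-
Programme M43 (target S43), chapter TWIST-LAT — helper6.
**Partial twists**: the iteration of the lattice twist over a finite set `Q` of primes, leaving the
conditions and the characters at a second finite set `Q₀` of primes (disjoint from `Q`) untouched.

**`exists_embeds_partial`** : an embedding (`TwistLatE6.Embeds`) of the `PsiQ ψ (Q ∪ Q₀)`-eigenspace
of `Hom(GH L (SQ Kq (Q ∪ Q₀) L), K)` into the `PsiQ ψ Q₀`-eigenspace of
`Hom(GH M (SQ Kq Q₀ M), K)`, `M = L ∏_{q ∈ Q} q`, with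
`T_ℓ (ι φ) = (∏_{q ∈ Q} ω q (ℓ)) • ι (T_ℓ φ)`.
-/
import Mathlib
import Fermat.Agent.M43.TwistLatI6

set_option autoImplicit false
set_option linter.unusedSectionVars false

noncomputable section

namespace Fermat.Agent.M43.TwistLatP6

open Matrix.SpecialLinearGroup ModularCurve.Period CongruenceSubgroup
open scoped MatrixGroups
open Fermat.Agent.M43.TwistMat6 Fermat.Agent.M43.TwistLatA6 Fermat.Agent.M43.TwistLatB6
  Fermat.Agent.M43.TwistLatC6 Fermat.Agent.M43.TwistLatG6 Fermat.Agent.M43.HeckeH0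
  Fermat.Agent.M43.TwistLatT6 Fermat.Agent.M43.TwistLatH6 Fermat.Agent.M43.TwistLatX6
  Fermat.Agent.M43.TwistLatE6 Fermat.Agent.M43.TwistLatI6
open Fermat.Agent.M48.ESInv3 Fermat.Agent.M48.CosetOp3 Fermat.Agent.M48.Diamond1

variable {K : Type*} [Field K] [CharZero K]

theorem GH_SQ_le {Kq : ∀ q : ℕ, Subgroup (ZMod q)ˣ} {Q₀ : Finset ℕ} {M M₁ : ℕ} (h : M₁ ∣ M)
    (hQ₀ : ∀ q ∈ Q₀, q ∣ M₁) : GH M (SQ Kq Q₀ M) ≤ GH M₁ (SQ Kq Q₀ M₁) := by
  intro g hg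
  have h0 : g ∈ Gamma0 M := GH_le_Gamma0 _ hg
  have h1 : g ∈ Gamma0 M₁ := by
    rw [mem_Gamma0_iff_dvd] at h0 ⊢
    exact (Int.natCast_dvd_natCast.mpr h).trans h0
  obtain ⟨u, hu, hug⟩ := exists_unit_of_mem_GH hg
  rw [GH_eq_GHc]
  refine ⟨mem_Gamma0_iff_dvd.mp h1, ZMod.unitsMap h u, ?_, ?_⟩
  · rw [← comap_SQ (Kq := Kq) h hQ₀] at hu
    exact hu
  · exact cast_unitsMap h hug

/-- **iterated partial twist.** -/
theorem exists_embeds_partial (Kq : ∀ q : ℕ, Subgroup (ZMod q)ˣ)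
    (ψ ω : ∀ q : ℕ, MulChar (ZMod q) K) (Q₀ Q : Finset ℕ) :
    ∀ (L : ℕ) [NeZero L], Disjoint Q Q₀ →
      (∀ q ∈ Q ∪ Q₀, q.Prime ∧ q ∣ L) → (∀ q ∈ Q, ¬ q ∣ L / q) →
      (∀ q ∈ Q ∪ Q₀, ∀ u ∈ Kq q, ψ q (u : (ZMod q)ˣ) = 1) →
      (∀ q ∈ Q, ω q ^ 2 * ψ q = 1) →
      (∀ q ∈ Q, ψ q = 1 → ω q = 1) →
      (∀ q ∈ Q, ∃ e : AddChar (ZMod q) K, e.IsPrimitive) →
      ∀ M : ℕ, M = L * ∏ q ∈ Q, q →
      ∃ ι : (Additive (GH L (SQ Kq (Q ∪ Q₀) L)) →+ K) →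
          (Additive (GH M (SQ Kq Q₀ M)) →+ K),
        Embeds (SQ Kq (Q ∪ Q₀) L) (SQ Kq Q₀ M) (PsiQ ψ (Q ∪ Q₀)) (PsiQ ψ Q₀)
          (fun ℓ : ℕ => ∏ q ∈ Q, ω q ((ℓ : ℕ) : ZMod q)) ι := by
  induction Q using Finset.induction_on with
  | empty =>
    intro L _ _ _ _ _ _ _ _ M hM
    rw [Finset.prod_empty, mul_one] at hM
    subst hM
    have h0 : SQ Kq (∅ ∪ Q₀) M = SQ Kq Q₀ M := by rw [Finset.empty_union]
    have h1 := embeds_castHom (K := K) h0 (PsiQ ψ Q₀)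
    refine ⟨_, h1.congr (fun g _ => ?_) (fun g _ => rfl) (fun ℓ _ _ => Finset.prod_empty)⟩
    rw [Finset.empty_union]
  | insert q Q' hqQ ih =>
    intro L _ hdisj hQ hQL hψK hωψ hω1 he M hM
    have hqQ₀ : q ∉ Q₀ := Finset.disjoint_left.mp hdisj (Finset.mem_insert_self q Q')
    have hqQ'' : q ∉ Q' ∪ Q₀ := fun h => by
      rcases Finset.mem_union.mp h with h | h
      · exact hqQ h
      · exact hqQ₀ h
    have hins : insert q Q' ∪ Q₀ = insert q (Q' ∪ Q₀) := Finset.insert_union q Q' Q₀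
    have hdisj' : Disjoint Q' Q₀ :=
      Finset.disjoint_of_subset_left (Finset.subset_insert q Q') hdisj
    have hq := hQ q (Finset.mem_union_left _ (Finset.mem_insert_self q Q'))
    have hqL := hQL q (Finset.mem_insert_self q Q')
    have hQ' : ∀ q' ∈ Q' ∪ Q₀, q'.Prime ∧ q' ∣ L := fun q' hq' => hQ q' (by
      rw [hins]
      exact Finset.mem_insert_of_mem hq')
    have hQL' : ∀ q' ∈ Q', ¬ q' ∣ L / q' := fun q' hq' => hQL q' (Finset.mem_insert_of_mem hq')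
    have hψK' : ∀ q' ∈ Q' ∪ Q₀, ∀ u ∈ Kq q', ψ q' (u : (ZMod q')ˣ) = 1 := fun q' hq' => hψK q' (by
      rw [hins]
      exact Finset.mem_insert_of_mem hq')
    have hωψ' : ∀ q' ∈ Q', ω q' ^ 2 * ψ q' = 1 :=
      fun q' hq' => hωψ q' (Finset.mem_insert_of_mem hq')
    have hω1' : ∀ q' ∈ Q', ψ q' = 1 → ω q' = 1 :=
      fun q' hq' => hω1 q' (Finset.mem_insert_of_mem hq')
    have he' : ∀ q' ∈ Q', ∃ e : AddChar (ZMod q') K, e.IsPrimitive :=
      fun q' hq' => he q' (Finset.mem_insert_of_mem hq')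
    have : Fact q.Prime := ⟨hq.1⟩
    have hprodne : (∏ q' ∈ Q', q') ≠ 0 :=
      Finset.prod_ne_zero_iff.mpr fun q' hq' => (hQ' q' (Finset.mem_union_left _ hq')).1.ne_zero
    rw [Finset.prod_insert hqQ] at hM
    have hMne : NeZero M := ⟨by
      rw [hM]
      exact Nat.mul_ne_zero (NeZero.ne L) (Nat.mul_ne_zero hq.1.ne_zero hprodne)⟩
    by_cases hψ1 : ψ q = 1
    · -- extension, then the induction hypothesis at level `L`, then restriction
      obtain ⟨ι₁, h1⟩ := exists_embeds_stepA (K := K) (Kq := Kq) (ψ := ψ) hq.2 hqQ''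
        (fun q' hq' => (hQ' q' hq').2) hψK' hψ1
      obtain ⟨ι₂, h2⟩ := ih L hdisj' hQ' hQL' hψK' hωψ' hω1' he' (L * ∏ q' ∈ Q', q') rfl
      have : NeZero (L * ∏ q' ∈ Q', q') := ⟨Nat.mul_ne_zero (NeZero.ne L) hprodne⟩
      have hdvd : L * ∏ q' ∈ Q', q' ∣ M := by
        rw [hM]
        exact Nat.mul_dvd_mul_left L (dvd_mul_left _ _)
      have h3 := embeds_resHom (K := K) hdvd (GH_SQ_le (Kq := Kq) (Q₀ := Q₀) hdvd
        (fun q' hq' => Dvd.dvd.mul_right (hQ' q' (Finset.mem_union_right _ hq')).2 _))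
        (PsiQ ψ Q₀)
      have h4 := (h1.comp h2 (dvd_mul_right L _)).comp h3 hdvd
      have hLM : L ∣ M := by
        rw [hM]
        exact dvd_mul_right L _
      have h5 := (embeds_castHom (K := K) (congrArg (fun Q'' => SQ Kq Q'' L) hins)
        (PsiQ ψ (insert q Q' ∪ Q₀))).comp
        (h4.congr (Ψ₁ := PsiQ ψ (insert q Q' ∪ Q₀)) (Ψ₁' := PsiQ ψ Q₀)
          (fun g _ => by rw [hins]) (fun g _ => rfl) (fun ℓ _ _ => rfl)) hLM
      refine ⟨_, h5.congr (fun g _ => rfl) (fun g _ => rfl) ?_⟩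
      intro ℓ hℓ hℓM
      have hne : ℓ ≠ q := by
        rintro rfl
        apply hℓM
        rw [hM]
        exact Dvd.dvd.mul_left (dvd_mul_right _ _) L
      have hcop : Nat.Coprime ℓ q := (Nat.coprime_primes hℓ hq.1).mpr hne
      have hu : IsUnit ((ℓ : ℕ) : ZMod q) := (ZMod.isUnit_iff_coprime ℓ q).mpr hcop
      show ∏ q' ∈ insert q Q', ω q' ((ℓ : ℕ) : ZMod q') =
        1 * (1 * (∏ q' ∈ Q', ω q' ((ℓ : ℕ) : ZMod q')) * 1)
      rw [Finset.prod_insert hqQ, hω1 q (Finset.mem_insert_self q Q') hψ1,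
        MulChar.one_apply hu]
      simp only [one_mul, mul_one]
    · -- the twist at `q`, then the induction hypothesis at level `L q`
      obtain ⟨e, hep⟩ := he q (Finset.mem_insert_self q Q')
      obtain ⟨ι₁, h1⟩ := exists_embeds_stepB (K := K) (Kq := Kq) (ψ := ψ) (ω := ω) hq.2 hqL
        hqQ'' hQ' hψK' (hωψ q (Finset.mem_insert_self q Q')) hψ1 hep
      have hQ'' : ∀ q' ∈ Q' ∪ Q₀, q'.Prime ∧ q' ∣ L * q :=
        fun q' hq' => ⟨(hQ' q' hq').1, Dvd.dvd.mul_right (hQ' q' hq').2 q⟩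
      have hQL'' : ∀ q' ∈ Q', ¬ q' ∣ L * q / q' := by
        intro q' hq' hdiv
        obtain ⟨hp', hd'⟩ := hQ' q' (Finset.mem_union_left _ hq')
        have hn' := hQL' q' hq'
        have h5 : L * q / q' = L / q' * q := by
          obtain ⟨k, hk⟩ := hd'
          rw [hk, mul_assoc, Nat.mul_div_cancel_left _ hp'.pos, Nat.mul_div_cancel_left _ hp'.pos]
        rw [h5] at hdiv
        rcases (Nat.Prime.dvd_mul hp').mp hdiv with h6 | h6
        · exact hn' h6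
        · have : q' = q := (Nat.prime_dvd_prime_iff_eq hp' hq.1).mp h6
          exact hqQ (this ▸ hq')
      obtain ⟨ι₂, h2⟩ := ih (L * q) hdisj' hQ'' hQL'' hψK' hωψ' hω1' he' M
        (by rw [hM, mul_assoc])
      have hdvd : L * q ∣ M := by
        rw [hM, ← mul_assoc]
        exact dvd_mul_right _ _
      have h4 := h1.comp h2 hdvd
      have hLM : L ∣ M := by
        rw [hM]
        exact dvd_mul_right L _
      have h5 := (embeds_castHom (K := K) (congrArg (fun Q'' => SQ Kq Q'' L) hins)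
        (PsiQ ψ (insert q Q' ∪ Q₀))).comp
        (h4.congr (Ψ₁ := PsiQ ψ (insert q Q' ∪ Q₀)) (Ψ₁' := PsiQ ψ Q₀)
          (fun g _ => by rw [hins]) (fun g _ => rfl) (fun ℓ _ _ => rfl)) hLM
      refine ⟨_, h5.congr (fun g _ => rfl) (fun g _ => rfl) ?_⟩
      intro ℓ _ _
      show ∏ q' ∈ insert q Q', ω q' ((ℓ : ℕ) : ZMod q') =
        1 * (ω q ((ℓ : ℕ) : ZMod q) * (∏ q' ∈ Q', ω q' ((ℓ : ℕ) : ZMod q')))
      rw [Finset.prod_insert hqQ, one_mul]

end Fermat.Agent.M43.TwistLatP6
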